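import Mathlib
import Fermat.Agent.S53.Defs

/-!
# T56 (TAN): the adjoint representation `ad⁰ρ̄` in matrix form and the `ε`-part cocycle (helper10)

Matrix model of S53 (`GQ`, `M2`).  For `rbar : GQ →* M2 k`:

* `sl2 k`            : trace-zero `2 × 2` matrices (a `k`-submodule of `M2 k`);
* `ad0Rep rbar`      : `g • X = rbar g * X * rbar g⁻¹` on `sl2 k`;
* `ad0 rbar`         : the `Rep k GQ` of `ad0Rep rbar`  (**the** `ad⁰ρ̄` of Programme T, decision D1);
* `fstM`, `sndM`     : the two components of a matrix over the dual numbers `k[ε]`;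
* `epsPart r σ`      : `sndM (r σ) * fstM (r σ⁻¹)`  (`= B σ * rbar σ⁻¹` if `r = rbar + ε B`);
* `epsPart_mul`      : the cocycle identity, `trace_epsPart` : trace zero when `det r` has no
  `ε`-part, `cocOf` : the resulting element of `cocycles₁ (ad0 rbar)`.
-/

set_option autoImplicit false
set_option linter.unusedSectionVars false

namespace Fermat.Agent.ES.T56.Ad0Rep10

open Fermat.Agent.S53 groupCohomology

variable {k : Type} [Field k]

/-! ### `sl₂` and the adjoint action -/

/-- Trace-zero `2 × 2` matrices. -/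
abbrev sl2 (k : Type) [Field k] : Submodule k (M2 k) :=
  LinearMap.ker (Matrix.traceLinearMap (Fin 2) k k)

theorem mem_sl2_iff (X : M2 k) : X ∈ sl2 k ↔ X.trace = 0 := by
  rw [LinearMap.mem_ker, Matrix.traceLinearMap_apply]

theorem trace_coe_sl2 (X : sl2 k) : (X : M2 k).trace = 0 := (mem_sl2_iff _).mp X.2

/-- The adjoint action of `rbar` on trace-zero matrices. -/
noncomputable def ad0Rep (rbar : GQ →* M2 k) : Representation k GQ (sl2 k) where
  toFun g := LinearMap.restrict
      ((LinearMap.mulLeft k (rbar g)).comp (LinearMap.mulRight k (rbar g⁻¹))) (by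
        intro X hX
        rw [LinearMap.mem_ker] at hX ⊢
        simp only [LinearMap.coe_comp, Function.comp_apply, LinearMap.mulRight_apply,
          LinearMap.mulLeft_apply, Matrix.traceLinearMap_apply] at hX ⊢
        rw [Matrix.trace_mul_comm, mul_assoc, ← map_mul, inv_mul_cancel, map_one, mul_one, hX])
  map_one' := by
    ext X : 2
    simp
  map_mul' g h := by
    ext X : 2
    simp [mul_assoc]

theorem ad0Rep_apply_coe (rbar : GQ →* M2 k) (g : GQ) (X : sl2 k) :
    ((ad0Rep rbar g X : sl2 k) : M2 k) = rbar g * (X : M2 k) * rbar g⁻¹ := by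
  simp [ad0Rep, mul_assoc]

/-- **`ad⁰ρ̄`** as an object of `Rep k GQ`. -/
noncomputable abbrev ad0 (rbar : GQ →* M2 k) : Rep k GQ := Rep.of (ad0Rep rbar)

theorem ad0_ρ_apply_coe (rbar : GQ →* M2 k) (g : GQ) (X : sl2 k) :
    (((ad0 rbar).ρ g X : sl2 k) : M2 k) = rbar g * (X : M2 k) * rbar g⁻¹ :=
  ad0Rep_apply_coe rbar g X

/-! ### Matrices over the dual numbers -/

/-- The constant part of a matrix over `k[ε]`. -/
def fstM (X : M2 (DualNumber k)) : M2 k := X.map TrivSqZeroExt.fst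

/-- The `ε`-part of a matrix over `k[ε]`. -/
def sndM (X : M2 (DualNumber k)) : M2 k := X.map TrivSqZeroExt.snd

theorem fstM_apply (X : M2 (DualNumber k)) (i j : Fin 2) :
    fstM X i j = TrivSqZeroExt.fst (X i j) := rfl

theorem sndM_apply (X : M2 (DualNumber k)) (i j : Fin 2) :
    sndM X i j = TrivSqZeroExt.snd (X i j) := rfl

theorem ext_fstM_sndM {X Y : M2 (DualNumber k)} (h1 : fstM X = fstM Y) (h2 : sndM X = sndM Y) :
    X = Y := by
  apply Matrix.ext
  intro i j
  exact TrivSqZeroExt.ext (congrFun (congrFun h1 i) j) (congrFun (congrFun h2 i) j)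

theorem fstM_one : fstM (1 : M2 (DualNumber k)) = 1 := by
  ext i j
  by_cases h : i = j <;> simp [fstM_apply, Matrix.one_apply, h]

theorem sndM_one : sndM (1 : M2 (DualNumber k)) = 0 := by
  ext i j
  by_cases h : i = j <;> simp [sndM_apply, h]

theorem fstM_mul (X Y : M2 (DualNumber k)) : fstM (X * Y) = fstM X * fstM Y := by
  ext i j
  simp [fstM_apply, Matrix.mul_apply, Fin.sum_univ_two]

theorem sndM_mul (X Y : M2 (DualNumber k)) :
    sndM (X * Y) = fstM X * sndM Y + sndM X * fstM Y := by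
  ext i j
  simp [fstM_apply, sndM_apply, Matrix.mul_apply, Fin.sum_univ_two]
  ring

theorem fstM_add (X Y : M2 (DualNumber k)) : fstM (X + Y) = fstM X + fstM Y := by
  ext i j; simp [fstM_apply]

theorem sndM_add (X Y : M2 (DualNumber k)) : sndM (X + Y) = sndM X + sndM Y := by
  ext i j; simp [sndM_apply]

theorem fst_trace (X : M2 (DualNumber k)) : TrivSqZeroExt.fst X.trace = (fstM X).trace := by
  simp [fstM_apply, Matrix.trace, Fin.sum_univ_two]

theorem snd_trace (X : M2 (DualNumber k)) : TrivSqZeroExt.snd X.trace = (sndM X).trace := by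
  simp [sndM_apply, Matrix.trace, Fin.sum_univ_two]

theorem fst_det (X : M2 (DualNumber k)) : TrivSqZeroExt.fst X.det = (fstM X).det := by
  simp [fstM_apply, Matrix.det_fin_two]

theorem snd_det (X : M2 (DualNumber k)) :
    TrivSqZeroExt.snd X.det = (sndM X * (fstM X).adjugate).trace := by
  simp [fstM_apply, sndM_apply, Matrix.det_fin_two, Matrix.adjugate_fin_two, Matrix.trace,
    Fin.sum_univ_two, Matrix.mul_apply]
  ring

/-- The matrix `inl M + ε B`. -/
def mkM (M B : M2 k) : M2 (DualNumber k) :=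
  Matrix.of fun i j => TrivSqZeroExt.inl (M i j) + TrivSqZeroExt.inr (B i j)

theorem fstM_mkM (M B : M2 k) : fstM (mkM M B) = M := by
  ext i j; simp [fstM_apply, mkM]

theorem sndM_mkM (M B : M2 k) : sndM (mkM M B) = B := by
  ext i j; simp [sndM_apply, mkM]

theorem mkM_fstM_sndM (X : M2 (DualNumber k)) : mkM (fstM X) (sndM X) = X :=
  ext_fstM_sndM (fstM_mkM _ _) (sndM_mkM _ _)

/-! ### The `ε`-part cocycle -/

/-- The `ε`-part of a matrix representation over the dual numbers, twisted back by its constant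
part: `epsPart r σ = B σ * rbar σ⁻¹` if `r = rbar + ε B`. -/
noncomputable def epsPart (r : GQ →* M2 (DualNumber k)) (σ : GQ) : M2 k :=
  (r σ).map TrivSqZeroExt.snd * ((r σ⁻¹).map TrivSqZeroExt.fst)

theorem epsPart_eq (r : GQ →* M2 (DualNumber k)) (σ : GQ) :
    epsPart r σ = sndM (r σ) * fstM (r σ⁻¹) := rfl

section Cocycle

variable {rbar : GQ →* M2 k} {r : GQ →* M2 (DualNumber k)}

theorem rbar_mul_inv (rbar : GQ →* M2 k) (σ : GQ) : rbar σ * rbar σ⁻¹ = 1 := by
  rw [← map_mul, mul_inv_cancel, map_one]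

theorem rbar_inv_mul (rbar : GQ →* M2 k) (σ : GQ) : rbar σ⁻¹ * rbar σ = 1 := by
  rw [← map_mul, inv_mul_cancel, map_one]

/-- `r = rbar + ε B` with `B σ = epsPart r σ * rbar σ`. -/
theorem sndM_eq_epsPart_mul (hr : ∀ σ, fstM (r σ) = rbar σ) (σ : GQ) :
    sndM (r σ) = epsPart r σ * rbar σ := by
  rw [epsPart_eq, hr, mul_assoc, rbar_inv_mul, mul_one]

/-- The cocycle identity (Mathlib's convention `c (σ τ) = σ • c τ + c σ`). -/
theorem epsPart_mul (hr : ∀ σ, fstM (r σ) = rbar σ) (σ τ : GQ) :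
    epsPart r (σ * τ) = rbar σ * epsPart r τ * rbar σ⁻¹ + epsPart r σ := by
  rw [epsPart_eq, epsPart_eq, epsPart_eq, map_mul, sndM_mul, mul_inv_rev, map_mul, fstM_mul,
    hr, hr, hr, hr]
  rw [add_mul]
  congr 1
  · simp only [mul_assoc]
  · rw [mul_assoc, ← mul_assoc (rbar τ), rbar_mul_inv, one_mul]

theorem epsPart_one (hr : ∀ σ, fstM (r σ) = rbar σ) : epsPart r 1 = 0 := by
  have h := epsPart_mul hr 1 1
  rw [mul_one, map_one, inv_one, map_one, one_mul, mul_one] at h
  exact left_eq_add.mp h |>.symm ▸ rfl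

/-- Trace zero: if `det (r σ)` has no `ε`-part then `epsPart r σ ∈ sl₂`. -/
theorem trace_epsPart (hr : ∀ σ, fstM (r σ) = rbar σ) (σ : GQ)
    (hdet : TrivSqZeroExt.snd (r σ).det = 0) : (epsPart r σ).trace = 0 := by
  rw [snd_det, hr] at hdet
  have hinv : (rbar σ)⁻¹ = rbar σ⁻¹ := Matrix.inv_eq_right_inv (rbar_mul_inv rbar σ)
  have hunit : IsUnit (rbar σ).det :=
    (Matrix.isUnit_iff_isUnit_det _).mp ⟨⟨rbar σ, rbar σ⁻¹, rbar_mul_inv rbar σ,
      rbar_inv_mul rbar σ⟩, rfl⟩
  have hadj : (rbar σ).adjugate = (rbar σ).det • rbar σ⁻¹ := by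
    rw [← hinv, Matrix.inv_def, Ring.inverse_eq_inv', smul_smul, mul_inv_cancel₀ hunit.ne_zero,
      one_smul]
  rw [hadj, Matrix.mul_smul, Matrix.trace_smul, smul_eq_mul] at hdet
  rcases mul_eq_zero.mp hdet with h | h
  · exact absurd h hunit.ne_zero
  · rw [epsPart_eq, hr]; exact h

/-- The `ε`-part cocycle of a lift `r` of `rbar` to `k[ε]` whose determinant has no `ε`-part. -/
noncomputable def cocOf (rbar : GQ →* M2 k) (r : GQ →* M2 (DualNumber k))
    (hr : ∀ σ, fstM (r σ) = rbar σ) (hdet : ∀ σ, TrivSqZeroExt.snd (r σ).det = 0) :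
    cocycles₁ (ad0 rbar) :=
  ⟨fun σ => (⟨epsPart r σ, (mem_sl2_iff _).mpr (trace_epsPart hr σ (hdet σ))⟩ : sl2 k), by
    rw [mem_cocycles₁_iff]
    intro g h
    apply Subtype.ext
    show epsPart r (g * h) = _
    rw [epsPart_mul hr, Submodule.coe_add, ad0_ρ_apply_coe]⟩

theorem cocOf_apply_coe (hr : ∀ σ, fstM (r σ) = rbar σ)
    (hdet : ∀ σ, TrivSqZeroExt.snd (r σ).det = 0) (σ : GQ) :
    ((cocOf rbar r hr hdet σ : sl2 k) : M2 k) = epsPart r σ := rfl

end Cocycle

/-! ### Strict lifts over `k[ε]` (dictionary with `S53.IsStrictLift`) -/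

section Strict

open IsLocalRing

theorem mem_maximalIdeal_dualNumber_iff (x : DualNumber k) :
    x ∈ maximalIdeal (DualNumber k) ↔ TrivSqZeroExt.fst x = 0 := by
  rw [mem_maximalIdeal, mem_nonunits_iff, TrivSqZeroExt.isUnit_iff_isUnit_fst, isUnit_iff_ne_zero,
    not_not]

variable {𝒪 : Type} [CommRing 𝒪] [IsLocalRing 𝒪]
  [alg : Algebra 𝒪 (DualNumber (ResidueField 𝒪))]

/-- Over `k[ε]` (any `𝒪`-algebra structure through the residue map) a strict lift of `rbar` is a
matrix representation with constant part `rbar`. -/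
theorem isStrictLift_iff_fstM
    (halg : ∀ c : 𝒪, algebraMap 𝒪 (DualNumber (ResidueField 𝒪)) c =
      TrivSqZeroExt.inl (residue 𝒪 c))
    (rbar : GQ →* M2 (ResidueField 𝒪)) (r : GQ →* M2 (DualNumber (ResidueField 𝒪))) :
    IsStrictLift rbar r ↔ ∀ σ, fstM (r σ) = rbar σ := by
  constructor
  · intro h σ
    ext i j
    obtain ⟨a, ha⟩ := residue_surjective (rbar σ i j)
    have h1 := h σ i j a ha
    rw [mem_maximalIdeal_dualNumber_iff, TrivSqZeroExt.fst_sub, halg, TrivSqZeroExt.fst_inl,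
      sub_eq_zero] at h1
    rw [fstM_apply, h1, ha]
  · intro h σ i j a ha
    rw [mem_maximalIdeal_dualNumber_iff, TrivSqZeroExt.fst_sub, halg, TrivSqZeroExt.fst_inl,
      sub_eq_zero, ha, ← h σ, fstM_apply]

end Strict

end Fermat.Agent.ES.T56.Ad0Rep10
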