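import Mathlib
import Fermat.Prelude.Def_GaloisRep_LocalConditions
import Fermat.Agent.S53.MatrixRes
import Fermat.Agent.ES.T56.Ad0Rep10

/-!
# T56 (TAN): lifts to `k[ε]` — conjugation by `1 - εX`, coboundaries, determinants (helper10)

* `epsUnit X`            : the unit `1 - εX` of `M2 k[ε]` (inverse `1 + εX`);
* `epsPart_conjEps`      : `epsPart ((1-εX) r (1+εX)) σ = epsPart r σ + (rbar σ X rbar σ⁻¹ - X)`;
* `eq_conjEps_of_epsPart`: the converse;
* `exists_conj_of_H1π_eq`: cohomologous `ε`-part cocycles ⇒ conjugate lifts;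
* `H1π_cocOf_conjHom`    : conjugate lifts ⇒ same class;
* `det_ofMatrix`, `detIsCyclotomic_of_isEquiv`, `detIsCyclotomic_mapMat`,
  `snd_det_eq_zero_of_detIsCyclotomic` : `DetIsCyclotomic` over `k[ε]` kills the `ε`-part of `det`;
* `isUnramifiedAt_ofMatrix_iff`, `isUnramifiedAt_of_isEquiv`.
-/

set_option autoImplicit false
set_option linter.unusedSectionVars false

namespace Fermat.Agent.ES.T56.Ad0Lift10

open Fermat.Agent.S53 Fermat.Agent.ES.T56.Ad0Rep10 groupCohomology IsLocalRing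

/-! ### Conjugation by `1 - εX` -/

section Conj

variable {k : Type} [Field k]

theorem mkM_one_mul_mkM_one (X Y : M2 k) : mkM 1 X * mkM 1 Y = mkM 1 (X + Y) := by
  apply ext_fstM_sndM
  · rw [fstM_mul, fstM_mkM, fstM_mkM, fstM_mkM, one_mul]
  · rw [sndM_mul, fstM_mkM, fstM_mkM, sndM_mkM, sndM_mkM, sndM_mkM, one_mul, mul_one, add_comm]

theorem mkM_one_zero : mkM (1 : M2 k) 0 = 1 := by
  apply ext_fstM_sndM
  · rw [fstM_mkM, fstM_one]
  · rw [sndM_mkM, sndM_one]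

/-- A unit of `M2 A` from a two-sided inverse (instances through `CommRing A`, as in S53). -/
def unitOfInv {A : Type} [CommRing A] (g h : M2 A) (h1 : g * h = 1) (h2 : h * g = 1) : (M2 A)ˣ :=
  ⟨g, h, h1, h2⟩

theorem conjHom_unitOfInv_apply {A : Type} [CommRing A] (g h : M2 A) (h1 : g * h = 1)
    (h2 : h * g = 1) (r : GQ →* M2 A) (σ : GQ) :
    conjHom (unitOfInv g h h1 h2) r σ = g * r σ * h := rfl

/-- The unit `1 - εX` of `M2 k[ε]` (inverse `1 + εX`). -/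
noncomputable def epsUnit (X : M2 k) : (M2 (DualNumber k))ˣ :=
  unitOfInv (mkM 1 (-X)) (mkM 1 X)
    (by rw [mkM_one_mul_mkM_one, neg_add_cancel, mkM_one_zero])
    (by rw [mkM_one_mul_mkM_one, add_neg_cancel, mkM_one_zero])

/-- Conjugation of a lift by `1 - εX` (a wrapper around `S53.conjHom`). -/
noncomputable def conjEps (X : M2 k) (r : GQ →* M2 (DualNumber k)) : GQ →* M2 (DualNumber k) :=
  conjHom (A := DualNumber k) (epsUnit X) r

theorem conjEps_eq (X : M2 k) (r : GQ →* M2 (DualNumber k)) :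
    conjEps X r = conjHom (A := DualNumber k) (epsUnit X) r := rfl

theorem fstM_conj (X : M2 k) (R : M2 (DualNumber k)) :
    fstM (mkM 1 (-X) * R * mkM 1 X) = fstM R := by
  rw [fstM_mul, fstM_mul, fstM_mkM, fstM_mkM, one_mul, mul_one]

theorem sndM_conj (X : M2 k) (R : M2 (DualNumber k)) :
    sndM (mkM 1 (-X) * R * mkM 1 X) = sndM R + (fstM R * X - X * fstM R) := by
  rw [sndM_mul, fstM_mul, sndM_mul, fstM_mkM, fstM_mkM, sndM_mkM, sndM_mkM, one_mul, one_mul,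
    mul_one, neg_mul]
  abel

variable {rbar : GQ →* M2 k} {r r' : GQ →* M2 (DualNumber k)}

theorem conjEps_apply (X : M2 k) (r : GQ →* M2 (DualNumber k)) (σ : GQ) :
    conjEps X r σ = mkM 1 (-X) * r σ * mkM 1 X :=
  conjHom_unitOfInv_apply (A := DualNumber k) _ _ _ _ r σ

theorem fstM_conjEps (X : M2 k) (r : GQ →* M2 (DualNumber k)) (σ : GQ) :
    fstM (conjEps X r σ) = fstM (r σ) := by
  rw [conjEps_apply, fstM_conj]

theorem epsPart_conjEps (hr : ∀ σ, fstM (r σ) = rbar σ) (X : M2 k) (σ : GQ) :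
    epsPart (conjEps X r) σ = epsPart r σ + (rbar σ * X * rbar σ⁻¹ - X) := by
  rw [epsPart_eq, epsPart_eq, fstM_conjEps, conjEps_apply, sndM_conj,
    hr, hr, add_mul, sub_mul, mul_assoc X, rbar_mul_inv, mul_one]

theorem eq_conjEps_of_epsPart (hr : ∀ σ, fstM (r σ) = rbar σ) (hr' : ∀ σ, fstM (r' σ) = rbar σ)
    (X : M2 k) (h : ∀ σ, epsPart r' σ = epsPart r σ + (rbar σ * X * rbar σ⁻¹ - X)) :
    r' = conjEps X r := by
  ext σ : 1
  have hc : ∀ τ, fstM (conjEps X r τ) = rbar τ := fun τ => by rw [fstM_conjEps, hr]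
  apply ext_fstM_sndM
  · rw [hr', hc]
  · rw [sndM_eq_epsPart_mul hr' σ, sndM_eq_epsPart_mul hc σ, h σ, epsPart_conjEps hr]

/-- Cohomologous `ε`-part cocycles come from conjugate lifts. -/
theorem exists_conj_of_H1π_eq (hr : ∀ σ, fstM (r σ) = rbar σ)
    (hdet : ∀ σ, TrivSqZeroExt.snd (r σ).det = 0) (hr' : ∀ σ, fstM (r' σ) = rbar σ)
    (hdet' : ∀ σ, TrivSqZeroExt.snd (r' σ).det = 0)
    (h : H1π (ad0 rbar) (cocOf rbar r' hr' hdet') = H1π (ad0 rbar) (cocOf rbar r hr hdet)) :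
    ∃ X : M2 k, r' = conjEps X r := by
  rw [H1π_eq_iff] at h
  obtain ⟨a, ha⟩ := h
  refine ⟨((a : sl2 k) : M2 k), eq_conjEps_of_epsPart hr hr' _ fun σ => ?_⟩
  have h1 := congrFun ha σ
  rw [d₀₁_hom_apply] at h1
  have h2 := congrArg (fun x : sl2 k => (x : M2 k)) h1
  simp only [Pi.sub_apply] at h2
  rw [Submodule.coe_sub, Submodule.coe_sub, ad0_ρ_apply_coe, cocOf_apply_coe, cocOf_apply_coe] at h2
  rw [h2]
  abel

/-- Conjugate lifts have the same class. -/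
theorem H1π_cocOf_conjEps (hr : ∀ σ, fstM (r σ) = rbar σ)
    (hdet : ∀ σ, TrivSqZeroExt.snd (r σ).det = 0) (X : sl2 k)
    (hc : ∀ σ, fstM (conjEps (X : M2 k) r σ) = rbar σ)
    (hdetc : ∀ σ, TrivSqZeroExt.snd (conjEps (X : M2 k) r σ).det = 0) :
    H1π (ad0 rbar) (cocOf rbar (conjEps (X : M2 k) r) hc hdetc) =
      H1π (ad0 rbar) (cocOf rbar r hr hdet) := by
  rw [H1π_eq_iff]
  refine ⟨X, ?_⟩
  funext σ
  rw [d₀₁_hom_apply]
  apply Subtype.ext
  simp only [Pi.sub_apply]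
  rw [Submodule.coe_sub, Submodule.coe_sub, ad0_ρ_apply_coe, cocOf_apply_coe, cocOf_apply_coe,
    epsPart_conjEps hr]
  abel

theorem matCont_conjEps (X : M2 k) {r : GQ →* M2 (DualNumber k)} (hr : MatCont r) :
    MatCont (conjEps X r) :=
  matCont_conjHom (A := DualNumber k) (epsUnit X) hr

/-- Conjugate lifts are equivalent representations. -/
theorem isEquiv_conjEps (X : M2 k) {r : GQ →* M2 (DualNumber k)} (hr : MatCont r) :
    (ofMatrix r hr).IsEquiv (ofMatrix (conjEps X r) (matCont_conjEps X hr)) :=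
  ofMatrix_isEquiv_conjHom (A := DualNumber k) (epsUnit X) hr

end Conj

/-! ### Determinants and ramification of matrix models -/

section Det

variable {A : Type} [CommRing A] [IsLocalRing A]

theorem ofMatrix_ρ_eq_toLin' (r : GQ →* M2 A) (hr : MatCont r) (σ : GQ) :
    (ofMatrix r hr).ρ σ = Matrix.toLin' (r σ) := rfl

theorem det_ofMatrix (r : GQ →* M2 A) (hr : MatCont r) (σ : GQ) :
    LinearMap.det ((ofMatrix r hr).ρ σ) = (r σ).det := by
  show LinearMap.det (Matrix.toLin' (r σ) : (Fin 2 → A) →ₗ[A] (Fin 2 → A)) = _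
  exact LinearMap.det_toLin' _

theorem ofMatrix_ρ_eq_one_iff (r : GQ →* M2 A) (hr : MatCont r) (σ : GQ) :
    (ofMatrix r hr).ρ σ = 1 ↔ r σ = 1 := by
  rw [ofMatrix_ρ_eq_toLin']
  constructor
  · intro h
    have h1 : Matrix.toLin' (r σ) = Matrix.toLin' (1 : M2 A) := by
      rw [h, Matrix.toLin'_one]; rfl
    exact Matrix.toLin'.injective h1
  · intro h
    rw [h, Matrix.toLin'_one]; rfl

theorem isUnramifiedAt_ofMatrix_iff (r : GQ →* M2 A) (hr : MatCont r) (q : ℕ) :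
    (ofMatrix r hr).IsUnramifiedAt q ↔
      ∀ P : ValuationSubring (AlgebraicClosure ℚ), P.LiesOverPrime q →
        ∀ σ ∈ P.inertiaSubgroupIn ℚ, r σ = 1 := by
  unfold GaloisRepAdic.IsUnramifiedAt
  simp only [ofMatrix_ρ_eq_one_iff]

theorem ρ_eq_of_equiv {ρ ρ' : GaloisRepAdic A} (e : GaloisRepAdic.Equiv ρ ρ') (σ : GQ) :
    ρ'.ρ σ = (e.toLinearEquiv : ρ.V →ₗ[A] ρ'.V) ∘ₗ ρ.ρ σ ∘ₗ (e.toLinearEquiv.symm : ρ'.V →ₗ[A] ρ.V) := by
  ext x
  simp only [LinearMap.coe_comp, LinearEquiv.coe_coe, Function.comp_apply]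
  rw [e.map_apply, LinearEquiv.apply_symm_apply]

theorem det_eq_of_isEquiv {ρ ρ' : GaloisRepAdic A} (h : ρ.IsEquiv ρ') (σ : GQ) :
    LinearMap.det (ρ'.ρ σ) = LinearMap.det (ρ.ρ σ) := by
  obtain ⟨e⟩ := h
  rw [ρ_eq_of_equiv e σ]
  exact LinearMap.det_conj (ρ.ρ σ) e.toLinearEquiv

theorem detIsCyclotomic_of_isEquiv {ρ ρ' : GaloisRepAdic A} (h : ρ.IsEquiv ρ') {p : ℕ}
    (hρ : ρ.DetIsCyclotomic p) : ρ'.DetIsCyclotomic p :=
  ⟨hρ.1, fun n σ a ha => by rw [det_eq_of_isEquiv h σ]; exact hρ.2 n σ a ha⟩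

theorem isUnramifiedAt_of_isEquiv {ρ ρ' : GaloisRepAdic A} (h : ρ.IsEquiv ρ') {q : ℕ}
    (hρ : ρ.IsUnramifiedAt q) : ρ'.IsUnramifiedAt q := by
  obtain ⟨e⟩ := h
  intro P hP σ hσ
  rw [ρ_eq_of_equiv e σ, hρ P hP σ hσ]
  ext x
  simp

variable {B : Type} [CommRing B] [IsLocalRing B]

theorem detIsCyclotomic_mapMat (f : A →+* B) (hf : IsLocalHom f) {r : GQ →* M2 A}
    (hr : MatCont r) {p : ℕ} (h : (ofMatrix r hr).DetIsCyclotomic p) :
    (ofMatrix (mapMat f r) (MatrixModel.matCont_mapMat hr f hf)).DetIsCyclotomic p := by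
  refine ⟨?_, fun n σ a ha => ?_⟩
  · have h1 : (p : B) = f (p : A) := (map_natCast f p).symm
    rw [h1]
    have := hf
    exact map_nonunit f _ h.1
  · have h1 := h.2 n σ a ha
    rw [det_ofMatrix] at h1 ⊢
    have h2 : (mapMat f r σ).det - (a : B) = f ((r σ).det - (a : A)) := by
      rw [map_sub, map_natCast, RingHom.map_det]
      congr 2
    rw [h2]
    obtain ⟨c, hc⟩ := Ideal.mem_span_singleton'.mp h1
    rw [← hc, map_mul, map_natCast]
    exact Ideal.mul_mem_left _ _ (Ideal.subset_span rfl)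

end Det

/-! ### `DetIsCyclotomic` over `k[ε]` -/

section DetEps

variable {k : Type} [Field k]

/-- Every Galois automorphism acts on the `p`-th roots of unity by a power map. -/
theorem exists_pow_of_rootsOfUnity (p : ℕ) [Fact p.Prime] (σ : GQ) :
    ∃ a : ℕ, ∀ μ : AlgebraicClosure ℚ, μ ^ p ^ 1 = 1 → σ μ = μ ^ a := by
  have : NeZero p := ⟨(Fact.out : p.Prime).ne_zero⟩
  refine ⟨(modularCyclotomicCharacter.toFun p (σ : AlgebraicClosure ℚ ≃+* AlgebraicClosure ℚ)).val,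
    fun μ hμ => ?_⟩
  rw [pow_one] at hμ
  have hμ0 : μ ≠ 0 := by
    rintro rfl
    rw [zero_pow (Fact.out : p.Prime).ne_zero] at hμ
    exact zero_ne_one hμ
  let u : (AlgebraicClosure ℚ)ˣ := Units.mk0 μ hμ0
  have hu : u ∈ rootsOfUnity p (AlgebraicClosure ℚ) := by
    rw [mem_rootsOfUnity]
    exact Units.ext (by simpa [u] using hμ)
  have h := modularCyclotomicCharacter.toFun_spec' (σ : AlgebraicClosure ℚ ≃+* AlgebraicClosure ℚ) hu
  simpa [u] using h

/-- Over `k[ε]` the cyclotomic determinant condition forces `det (r σ)` to be a constant. -/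
theorem snd_det_eq_zero_of_detIsCyclotomic (p : ℕ) [Fact p.Prime]
    (r : GQ →* M2 (DualNumber k)) (hr : MatCont r)
    (h : (ofMatrix (A := DualNumber k) r hr).DetIsCyclotomic p) (σ : GQ) :
    TrivSqZeroExt.snd (r σ).det = 0 := by
  obtain ⟨a, ha⟩ := exists_pow_of_rootsOfUnity p σ
  have h1 := h.2 1 σ a ha
  rw [det_ofMatrix (A := DualNumber k)] at h1
  have hp : ((p ^ 1 : ℕ) : DualNumber k) = 0 := by
    have h2 := (mem_maximalIdeal_dualNumber_iff _).mp h.1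
    rw [pow_one]
    apply TrivSqZeroExt.ext
    · rw [h2, TrivSqZeroExt.fst_zero]
    · rw [TrivSqZeroExt.snd_natCast, TrivSqZeroExt.snd_zero]
  rw [hp, Ideal.span_singleton_eq_bot.mpr rfl, Ideal.mem_bot, sub_eq_zero] at h1
  rw [h1, TrivSqZeroExt.snd_natCast]

end DetEps

end Fermat.Agent.ES.T56.Ad0Lift10
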