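/-
Programme T (S56, Taylor–Wiles primes), chapter LOC, leaf `AdSplit16` (helper16):

  the centraliser in `sl₂(k)` of a matrix `g ∈ M₂(k)` with two DISTINCT eigenvalues in `k`
  has at most `|k|` elements (it is a `k`-line),

and its consequence for `ad⁰ρ̄`: the invariants of any subgroup containing such a `g` inject into `k`.
No hypothesis on the characteristic: the discriminant `(a - d)² + 4bc = (α - β)² ≠ 0` does everything.
-/
import Mathlib
import Fermat.Agent.ES.T56.Ad0Rep10

set_option autoImplicit false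
set_option linter.unusedSectionVars false

open Polynomial

namespace Fermat.Agent.ES.T56.AdSplit16

open Fermat.Agent.S53 Fermat.Agent.ES.T56.Ad0Rep10

variable {k : Type} [Field k]

/-- Trace and determinant from a split characteristic polynomial. -/
theorem trace_det_of_charpoly {g : M2 k} {α β : k}
    (h : g.charpoly = (X - C α) * (X - C β)) : g.trace = α + β ∧ g.det = α * β := by
  rw [Matrix.charpoly_fin_two] at h
  have h0 := congrArg (Polynomial.eval 0) h
  have h1 := congrArg (Polynomial.eval 1) h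
  simp only [eval_add, eval_sub, eval_mul, eval_pow, eval_X, eval_C] at h0 h1
  have hd : g.det = α * β := by linear_combination h0
  refine ⟨?_, hd⟩
  rw [hd] at h1
  linear_combination -h1

/-- The discriminant. -/
theorem disc_ne_zero {g : M2 k} {α β : k} (hαβ : α ≠ β)
    (h : g.charpoly = (X - C α) * (X - C β)) :
    (g 0 0 - g 1 1) ^ 2 + 4 * (g 0 1 * g 1 0) ≠ 0 := by
  obtain ⟨ht, hd⟩ := trace_det_of_charpoly h
  rw [Matrix.trace_fin_two] at ht
  rw [Matrix.det_fin_two] at hd
  have h1 : (g 0 0 - g 1 1) ^ 2 + 4 * (g 0 1 * g 1 0) = (α - β) ^ 2 := by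
    have : (g 0 0 - g 1 1) ^ 2 + 4 * (g 0 1 * g 1 0)
        = (g 0 0 + g 1 1) ^ 2 - 4 * (g 0 0 * g 1 1 - g 0 1 * g 1 0) := by ring
    rw [this, ht, hd]
    ring
  rw [h1]
  exact pow_ne_zero 2 (sub_ne_zero.2 hαβ)

/-- The coordinate which detects the centraliser. -/
noncomputable def coord (g : M2 k) (X : M2 k) : k :=
  haveI := Classical.propDecidable
  if g 0 0 - g 1 1 = 0 then X 0 1 else X 0 0

/-- **The centraliser of a regular split semisimple element in `sl₂` is a line**: a trace-zero
matrix commuting with `g` is determined by one coordinate. -/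
theorem eq_zero_of_commute {g : M2 k} {α β : k} (hαβ : α ≠ β)
    (h : g.charpoly = (X - C α) * (X - C β)) {Y : M2 k} (htr : Y.trace = 0)
    (hcomm : g * Y = Y * g) (hc : coord g Y = 0) : Y = 0 := by
  have hdisc := disc_ne_zero hαβ h
  rw [Matrix.trace_fin_two] at htr
  have e01 := congrFun (congrFun hcomm 0) 1
  have e10 := congrFun (congrFun hcomm 1) 0
  have e00 := congrFun (congrFun hcomm 0) 0
  simp only [Matrix.mul_apply, Fin.sum_univ_two] at e01 e10 e00
  have h11 : Y 1 1 = -Y 0 0 := by linear_combination htr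
  rw [h11] at e01 e10
  -- the three equations
  have E1 : (g 0 0 - g 1 1) * Y 0 1 = 2 * g 0 1 * Y 0 0 := by linear_combination e01
  have E2 : (g 0 0 - g 1 1) * Y 1 0 = 2 * g 1 0 * Y 0 0 := by linear_combination -e10
  have E3 : g 0 1 * Y 1 0 = g 1 0 * Y 0 1 := by linear_combination e00
  unfold coord at hc
  have key : Y 0 0 = 0 ∧ Y 0 1 = 0 ∧ Y 1 0 = 0 := by
    by_cases hd : g 0 0 - g 1 1 = 0
    · rw [if_pos hd] at hc
      rw [hd, zero_pow two_ne_zero, zero_add] at hdisc
      have h4 : (4 : k) ≠ 0 := left_ne_zero_of_mul hdisc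
      have hb : g 0 1 ≠ 0 := left_ne_zero_of_mul (right_ne_zero_of_mul hdisc)
      have hcc : g 1 0 ≠ 0 := right_ne_zero_of_mul (right_ne_zero_of_mul hdisc)
      have h2 : (2 : k) ≠ 0 := by
        intro h2
        apply h4
        have : (4 : k) = 2 * 2 := by norm_num
        rw [this, h2, zero_mul]
      rw [hd, zero_mul] at E1
      have hx : Y 0 0 = 0 := by
        have : 2 * g 0 1 * Y 0 0 = 0 := E1.symm
        rcases mul_eq_zero.1 this with h5 | h5
        · exact absurd h5 (mul_ne_zero h2 hb)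
        · exact h5
      refine ⟨hx, hc, ?_⟩
      rw [hc, mul_zero] at E3
      rcases mul_eq_zero.1 E3 with h5 | h5
      · exact absurd h5 hb
      · exact h5
    · rw [if_neg hd] at hc
      rw [hc, mul_zero] at E1 E2
      refine ⟨hc, ?_, ?_⟩
      · rcases mul_eq_zero.1 E1 with h5 | h5
        · exact absurd h5 hd
        · exact h5
      · rcases mul_eq_zero.1 E2 with h5 | h5
        · exact absurd h5 hd
        · exact h5
  obtain ⟨k00, k01, k10⟩ := key
  ext i j
  fin_cases i <;> fin_cases j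
  · exact k00
  · exact k01
  · exact k10
  · show Y 1 1 = 0
    rw [h11, k00, neg_zero]

theorem coord_sub (g Y Z : M2 k) : coord g (Y - Z) = coord g Y - coord g Z := by
  unfold coord
  split_ifs <;> rfl

/-- Two trace-zero matrices commuting with `g` and having the same coordinate are equal. -/
theorem eq_of_commute {g : M2 k} {α β : k} (hαβ : α ≠ β)
    (h : g.charpoly = (X - C α) * (X - C β)) {Y Z : M2 k} (hY : Y.trace = 0) (hZ : Z.trace = 0)
    (hYc : g * Y = Y * g) (hZc : g * Z = Z * g) (hc : coord g Y = coord g Z) : Y = Z := by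
  rw [← sub_eq_zero]
  apply eq_zero_of_commute hαβ h
  · rw [Matrix.trace_sub, hY, hZ, sub_zero]
  · rw [mul_sub, sub_mul, hYc, hZc]
  · rw [coord_sub, hc, sub_self]

/-! ### Invariants of `ad⁰` -/

/-- An element of `sl₂` fixed by `Ad (rbar σ)` commutes with `rbar σ`. -/
theorem commute_of_fixed (rbar : GQ →* M2 k) (σ : GQ) (Y : sl2 k)
    (hfix : (ad0 rbar).ρ σ Y = Y) : rbar σ * (Y : M2 k) = (Y : M2 k) * rbar σ := by
  have h1 : rbar σ * (Y : M2 k) * rbar σ⁻¹ = (Y : M2 k) := by
    rw [← ad0_ρ_apply_coe, hfix]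
  calc rbar σ * (Y : M2 k) = rbar σ * (Y : M2 k) * (rbar σ⁻¹ * rbar σ) := by
        rw [rbar_inv_mul, mul_one]
    _ = (rbar σ * (Y : M2 k) * rbar σ⁻¹) * rbar σ := by simp only [mul_assoc]
    _ = (Y : M2 k) * rbar σ := by rw [h1]

/-- **If some `σ` of a group `Γ → G_ℚ` has split distinct eigenvalues under `rbar`, the
`Γ`-invariants of `ad⁰` inject into `k`.** -/
theorem card_invariants_le [Finite k] {Γ : Type} [Group Γ] (r : Γ →* GQ) (rbar : GQ →* M2 k)
    (τ : Γ) {α β : k} (hαβ : α ≠ β)
    (h : (rbar (r τ)).charpoly = (X - C α) * (X - C β)) :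
    Nat.card ↥(Representation.invariants (Rep.res r (ad0 rbar)).ρ) ≤ Nat.card k := by
  apply Nat.card_le_card_of_injective
    (fun Y : ↥(Representation.invariants (Rep.res r (ad0 rbar)).ρ) =>
      coord (rbar (r τ)) (((Y : (Rep.res r (ad0 rbar)).V) : sl2 k) : M2 k))
  intro Y Z hYZ
  have hY : (ad0 rbar).ρ (r τ) (Y : (Rep.res r (ad0 rbar)).V) = Y := Y.2 τ
  have hZ : (ad0 rbar).ρ (r τ) (Z : (Rep.res r (ad0 rbar)).V) = Z := Z.2 τ
  apply Subtype.ext
  apply Subtype.ext
  exact eq_of_commute hαβ h (trace_coe_sl2 _) (trace_coe_sl2 _)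
    (commute_of_fixed rbar (r τ) _ hY) (commute_of_fixed rbar (r τ) _ hZ) hYZ

end Fermat.Agent.ES.T56.AdSplit16
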