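/-
Programme T (S56), chapter GW (Greenberg–Wiles), brick 3 (global `(2,0)` duality), helper18.

`PairTwoZero18`: the `(2,0)` pairing ON COHOMOLOGY,

  `pair20 : ℍ²(Y) × H⁰(G, M) → H²_lev(G, C)`,

for a pairing datum `B : ExtPairing4.Pairing Y P ρC` (think `Y = K(P; C) = [Hom(P₀, C) → Hom(P₁, C)]`
with the evaluation pairing, so that `ℍ²(Y) = Ext²_G(M, C)`), the twin of `ExtPairing4` Part 5
(`pair11`).  Everything rests on the raw cochain lemmas `dTwo_p20`, `p20_change_lift`,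
`p20_bdry_left` which are already on main.

Cochain formula (`m̃ ∈ P₀` a lift of the invariant `m`, `ι (z' h) = h m̃ - m̃`):
  `⟨(c₂, c₁), m⟩ (g, h) = β⁰ (c₂ (g, h)) (g h • m̃) - β¹ (c₁ g) (g • z' h)`.

* `Lift0 P`         : lifts `(m̃, z')` of invariants; `Lift0.exists_lift`;
* `HZ2 Y`           : raw hyper-2-cocycle data `(c₂, c₁)`, `HZ2.cls`, `HZ2.cls_surjective`;
* `cls20`, `cls20_indep`, bilinearity, `cls20_bdry_left`;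
* `pair20`          : the bilinear map `Y.ℍ2 h𝒰 →ₗ Hlev0 h𝒰 P.ρM P.discM →ₗ Hlev2 h𝒰 ρC hC`
                      (`Hlev0` = invariants, `Resolved4`);
* `pair20_mk`       : the pairing of classes is the class of the raw cochain, for ANY lift;
* `pair20_eq_zero_iff`, `cls_eq_zero_iff` : the vanishing criteria (raw form);
* `pair20_left_kernel_of_raw`, `pair20_right_kernel_of_raw` : trivial kernels from the raw
  cochain statements (the shape produced by the limit argument);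
* `pair20_natural`  : naturality for `ExtPairingB4.PairingHom`.
-/
import Mathlib
import Fermat.Agent.PT.PRO.ExtPairingB4

set_option autoImplicit false

namespace Fermat.Agent.ES.T56.PairTwoZero18

open Function Fermat.Agent.PT.PRO.HyperLevel25 Fermat.Agent.PT.PRO.Resolved4
  Fermat.Agent.PT.PRO.ExtPairing4 Fermat.Agent.PT.PRO.ExtPairingB4

variable {k G : Type*} [CommRing k] [Group G] {𝒰 : Set (Subgroup G)}
variable {Y0 Y1 P1 P0 M C : Type*}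
  [AddCommGroup Y0] [Module k Y0] [AddCommGroup Y1] [Module k Y1]
  [AddCommGroup P1] [Module k P1] [AddCommGroup P0] [Module k P0]
  [AddCommGroup M] [Module k M] [AddCommGroup C] [Module k C]

/-! ## Lifts of invariants -/

/-- An element `m̃ ∈ P₀` whose image in `M` is invariant, together with `z' = ι⁻¹ (d⁰ m̃)`. -/
structure Lift0 (P : Resolved k 𝒰 P1 P0 M) where
  mt : P0
  z' : G → P1
  hz : ∀ g, P.ι (z' g) = dZero P.ρ0 mt g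

namespace Lift0

variable {P : Resolved k 𝒰 P1 P0 M}

/-- `L` lifts `m : M`. -/
def Lifts (L : Lift0 P) (m : M) : Prop := P.π L.mt = m

lemma isLevel₁_z' (L : Lift0 P) : IsLevel₁ 𝒰 L.z' := by
  obtain ⟨U, hU, h⟩ := isLevel₁_dZero P.disc0 L.mt
  refine ⟨U, hU, fun g s hs => P.ι_inj ?_⟩
  rw [L.hz, L.hz]
  exact h g s hs

/-- The image of a lift is invariant. -/
lemma invariant (L : Lift0 P) (g : G) : P.ρM g (P.π L.mt) = P.π L.mt := by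
  have h := P.π_ι (L.z' g)
  rw [L.hz, dZero_apply, map_sub, P.π_comm, sub_eq_zero] at h
  exact h

/-- Every invariant has a lift. -/
theorem exists_lift {m : M} (hm : ∀ g, P.ρM g m = m) : ∃ L : Lift0 P, L.Lifts m := by
  obtain ⟨mt, hmt⟩ := P.π_surj m
  have hker : ∀ g : G, ∃ p1, P.ι p1 = dZero P.ρ0 mt g := by
    intro g
    apply (P.exact _).1
    rw [dZero_apply, map_sub, P.π_comm, hmt, hm g, sub_self]
  choose z' hz' using hker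
  exact ⟨⟨mt, z', hz'⟩, hmt⟩

/-- Sum of lifts. -/
def add (L L' : Lift0 P) : Lift0 P where
  mt := L.mt + L'.mt
  z' := L.z' + L'.z'
  hz g := by
    simp only [Pi.add_apply, map_add, L.hz, L'.hz]

lemma Lifts.add {L L' : Lift0 P} {m m' : M} (h : L.Lifts m) (h' : L'.Lifts m') :
    (L.add L').Lifts (m + m') := by
  show P.π (L.mt + L'.mt) = m + m'
  rw [map_add, h, h']

/-- Scalar multiple of a lift. -/
def smul (r : k) (L : Lift0 P) : Lift0 P where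
  mt := r • L.mt
  z' := r • L.z'
  hz g := by
    simp only [Pi.smul_apply, map_smul, L.hz]

lemma Lifts.smul (r : k) {L : Lift0 P} {m : M} (h : L.Lifts m) : (L.smul r).Lifts (r • m) := by
  show P.π (r • L.mt) = r • m
  rw [map_smul, h]

/-- An invariant element `x₀ ∈ P₀` as a lift (of `π x₀`). -/
def ofInvariant (x0 : P0) (hx : ∀ g, P.ρ0 g x0 = x0) : Lift0 P where
  mt := x0
  z' := 0
  hz g := by
    rw [dZero_apply, hx g, sub_self]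
    simp

end Lift0

variable {Y : Cx k 𝒰 Y0 Y1} {P : Resolved k 𝒰 P1 P0 M} {ρC : Representation k G C}
variable (B : Pairing Y P ρC) (h𝒰 : IsLevelBasis 𝒰) (hC : IsDiscrete 𝒰 ρC)

/-! ## Raw hyper-2-cocycles -/

/-- Raw hyper-2-cocycle data `(c₂, c₁)` of a two-term complex. -/
structure HZ2 (Y : Cx k 𝒰 Y0 Y1) where
  c2 : G × G → Y0
  c1 : G → Y1
  lev2 : IsLevel₂ 𝒰 c2
  lev1 : IsLevel₁ 𝒰 c1
  hc2 : ∀ g h j, dTwo Y.ρ0 c2 (g, h, j) = 0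
  hc1 : ∀ g h, Y.f (c2 (g, h)) = dOne Y.ρ1 c1 (g, h)

namespace HZ2

/-- The hyper-2-cocycle of `HyperLevel25` attached to raw data. -/
def toZ2 (ξ : HZ2 Y) : (Y.tot h𝒰).Z2 :=
  ⟨⟨(ξ.c2, ξ.c1), ⟨ξ.lev2, ξ.lev1⟩⟩,
    (Y.mem_Z2_iff h𝒰 _).2 ⟨funext fun q => ξ.hc2 q.1 q.2.1 q.2.2, funext fun q => ξ.hc1 q.1 q.2⟩⟩

/-- The class in `ℍ²`. -/
def cls (ξ : HZ2 Y) : Y.ℍ2 h𝒰 := (Y.tot h𝒰).π2 (ξ.toZ2 h𝒰)

/-- Raw data of a hyper-2-cocycle of `HyperLevel25`. -/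
def ofZ2 (z : (Y.tot h𝒰).Z2) : HZ2 Y where
  c2 := z.1.1.1
  c1 := z.1.1.2
  lev2 := z.1.2.1
  lev1 := z.1.2.2
  hc2 g h j := congrFun ((Y.mem_Z2_iff h𝒰 z.1).1 z.2).1 (g, h, j)
  hc1 g h := congrFun ((Y.mem_Z2_iff h𝒰 z.1).1 z.2).2 (g, h)

lemma toZ2_ofZ2 (z : (Y.tot h𝒰).Z2) : (ofZ2 h𝒰 z).toZ2 h𝒰 = z := rfl

lemma cls_ofZ2 (z : (Y.tot h𝒰).Z2) : (ofZ2 h𝒰 z).cls h𝒰 = (Y.tot h𝒰).π2 z := rfl

lemma cls_surjective (w : Y.ℍ2 h𝒰) : ∃ ξ : HZ2 Y, ξ.cls h𝒰 = w := by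
  obtain ⟨z, rfl⟩ := (Y.tot h𝒰).π2_surjective w
  exact ⟨ofZ2 h𝒰 z, rfl⟩

/-- The hyper-coboundary `D¹ (b₀, y₁)` as raw data. -/
def bdry (b0 : G → Y0) (hb : IsLevel₁ 𝒰 b0) (y1 : Y1) : HZ2 Y where
  c2 := dOne Y.ρ0 b0
  c1 := fun a => Y.f (b0 a) - dZero Y.ρ1 y1 a
  lev2 := h𝒰.isLevel₂_dOne Y.disc0 hb
  lev1 := h𝒰.isLevel₁_sub (hb.comp _) (isLevel₁_dZero Y.disc1 y1)
  hc2 g h j := by
    rw [dTwo_dOne]
    rfl
  hc1 g h := by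
    have h1 := congrFun (comp_dOne Y.ρ0 Y.ρ1 Y.f Y.comm b0) (g, h)
    have h2 : (fun a => Y.f (b0 a) - dZero Y.ρ1 y1 a) = ⇑Y.f ∘ b0 - dZero Y.ρ1 y1 := rfl
    rw [h2, map_sub, dOne_dZero, sub_zero, ← h1]
    rfl

/-- The class of a raw hyper-2-cocycle vanishes iff it is a level hyper-coboundary. -/
lemma cls_eq_zero_iff (ξ : HZ2 Y) :
    ξ.cls h𝒰 = 0 ↔ ∃ (b0 : G → Y0) (y1 : Y1), IsLevel₁ 𝒰 b0 ∧ ξ.c2 = dOne Y.ρ0 b0 ∧
      ξ.c1 = fun a => Y.f (b0 a) - dZero Y.ρ1 y1 a := by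
  unfold cls
  rw [Cpx.π2_eq_zero_iff]
  constructor
  · rintro ⟨x, hx⟩
    have h1 : Y.D1 x.1 = (ξ.c2, ξ.c1) := congrArg Subtype.val hx
    rw [Cx.D1_apply] at h1
    exact ⟨x.1.1, x.1.2, x.2, (congrArg Prod.fst h1).symm, (congrArg Prod.snd h1).symm⟩
  · rintro ⟨b0, y1, hb, h2, h1⟩
    refine ⟨⟨(b0, y1), hb⟩, Subtype.ext ?_⟩
    show Y.D1 (b0, y1) = (ξ.c2, ξ.c1)
    rw [Cx.D1_apply, h2, h1]
    rfl

end HZ2

/-! ## The class of the raw `(2,0)` cochain -/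

include h𝒰 in
/-- The raw `(2,0)` cochain of a hyper-2-cocycle and a lift is a level 2-cochain. -/
lemma isLevel₂_p20 (ξ : HZ2 Y) (L : Lift0 P) :
    IsLevel₂ 𝒰 (B.p20 ξ.c2 ξ.c1 L.mt L.z') := by
  rw [Pairing.p20_eq]
  exact isLevel₂_sub' h𝒰 (isLevel₂_cup20 h𝒰 P.disc0 (fun y p => B.β0 y p) ξ.lev2 L.mt)
    (isLevel₂_cup11 h𝒰 P.disc1 (fun y p => B.β1 y p) ξ.lev1 L.isLevel₁_z')

/-- The class of the `(2,0)` cochain. -/
def cls20 (ξ : HZ2 Y) (L : Lift0 P) : Hlev2 h𝒰 ρC hC :=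
  cl2 h𝒰 ρC hC (B.p20 ξ.c2 ξ.c1 L.mt L.z') (isLevel₂_p20 B h𝒰 ξ L) (B.dTwo_p20 ξ.hc2 ξ.hc1 L.hz)

/-- Independence of the lift. -/
theorem cls20_indep (ξ : HZ2 Y) (L L' : Lift0 P) (hLL' : P.π L'.mt = P.π L.mt) :
    cls20 B h𝒰 hC ξ L' = cls20 B h𝒰 hC ξ L := by
  have hker : ∃ w0, P.ι w0 = L'.mt - L.mt := by
    apply (P.exact _).1
    rw [map_sub, hLL', sub_self]
  obtain ⟨w0, hw0⟩ := hker
  have hmt : L'.mt = L.mt + P.ι w0 := by rw [hw0]; abel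
  have hz' : L'.z' = fun a => L.z' a + dZero P.ρ1 w0 a := by
    funext a
    apply P.ι_inj
    rw [map_add, L'.hz, L.hz, hmt, dZero_apply, dZero_apply, dZero_apply, map_sub, P.ι_comm,
      map_add]
    abel
  unfold cls20
  rw [cl2_eq_iff]
  refine ⟨fun a => B.β1 (ξ.c1 a) (P.ρ1 a w0),
    isLevel₁_cup10 h𝒰 P.disc1 (fun y p => B.β1 y p) ξ.lev1 w0, ?_⟩
  rw [← B.p20_change_lift ξ.hc1 L.mt L.z' w0, ← hmt, ← hz']

/-! ### Bilinearity on cocycles -/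

lemma cls20_add_left {ξ ξ' ξ'' : HZ2 Y} (h2 : ξ''.c2 = ξ.c2 + ξ'.c2) (h1 : ξ''.c1 = ξ.c1 + ξ'.c1)
    (L : Lift0 P) :
    cls20 B h𝒰 hC ξ'' L = cls20 B h𝒰 hC ξ L + cls20 B h𝒰 hC ξ' L := by
  unfold cls20
  rw [← cl2_add]
  · apply cl2_congr
    funext q
    simp only [Pairing.p20, h2, h1, Pi.add_apply, map_add, LinearMap.add_apply]
    abel
  · exact h𝒰.isLevel₂_add (isLevel₂_p20 B h𝒰 ξ L) (isLevel₂_p20 B h𝒰 ξ' L)
  · rw [map_add, B.dTwo_p20 ξ.hc2 ξ.hc1 L.hz, B.dTwo_p20 ξ'.hc2 ξ'.hc1 L.hz, add_zero]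

lemma cls20_smul_left (r : k) {ξ ξ'' : HZ2 Y} (h2 : ξ''.c2 = r • ξ.c2) (h1 : ξ''.c1 = r • ξ.c1)
    (L : Lift0 P) :
    cls20 B h𝒰 hC ξ'' L = r • cls20 B h𝒰 hC ξ L := by
  unfold cls20
  rw [← cl2_smul]
  · apply cl2_congr
    funext q
    simp only [Pairing.p20, h2, h1, Pi.smul_apply, map_smul, LinearMap.smul_apply, smul_sub]
  · exact (isLevel₂_p20 B h𝒰 ξ L).comp (r • ·)
  · rw [map_smul, B.dTwo_p20 ξ.hc2 ξ.hc1 L.hz, smul_zero]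

lemma cls20_add_right (ξ : HZ2 Y) (L L' : Lift0 P) :
    cls20 B h𝒰 hC ξ (L.add L') = cls20 B h𝒰 hC ξ L + cls20 B h𝒰 hC ξ L' := by
  unfold cls20
  rw [← cl2_add]
  · apply cl2_congr
    funext q
    simp only [Pairing.p20, Lift0.add, Pi.add_apply, map_add]
    abel
  · exact h𝒰.isLevel₂_add (isLevel₂_p20 B h𝒰 ξ L) (isLevel₂_p20 B h𝒰 ξ L')
  · rw [map_add, B.dTwo_p20 ξ.hc2 ξ.hc1 L.hz, B.dTwo_p20 ξ.hc2 ξ.hc1 L'.hz, add_zero]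

lemma cls20_smul_right (r : k) (ξ : HZ2 Y) (L : Lift0 P) :
    cls20 B h𝒰 hC ξ (L.smul r) = r • cls20 B h𝒰 hC ξ L := by
  unfold cls20
  rw [← cl2_smul]
  · apply cl2_congr
    funext q
    simp only [Pairing.p20, Lift0.smul, Pi.smul_apply, map_smul, smul_sub]
  · exact (isLevel₂_p20 B h𝒰 ξ L).comp (r • ·)
  · rw [map_smul, B.dTwo_p20 ξ.hc2 ξ.hc1 L.hz, smul_zero]

/-- Vanishing of hyper-coboundaries `D¹ (b₀, y₁)`. -/
lemma cls20_bdry_left {ξ : HZ2 Y} (b0 : G → Y0) (hb : IsLevel₁ 𝒰 b0) (y1 : Y1)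
    (h2 : ξ.c2 = dOne Y.ρ0 b0) (h1 : ξ.c1 = fun a => Y.f (b0 a) - dZero Y.ρ1 y1 a)
    (L : Lift0 P) : cls20 B h𝒰 hC ξ L = 0 := by
  unfold cls20
  rw [cl2_eq_zero_iff]
  refine ⟨fun a => B.β0 (b0 a) (P.ρ0 a L.mt) + B.β1 y1 (L.z' a), ?_, ?_⟩
  · exact h𝒰.isLevel₁_add (isLevel₁_cup10 h𝒰 P.disc0 (fun y p => B.β0 y p) hb L.mt)
      (L.isLevel₁_z'.comp (B.β1 y1))
  · rw [h2, h1]
    exact (B.p20_bdry_left b0 y1 L.hz).symm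

/-! ## The pairing on cohomology -/

/-- The underlying element of a 0-cocycle (an invariant) of `M`. -/
abbrev val0 (x : (lvl0 h𝒰 P.ρM P.discM).Z1) : M := (x : M)

lemma val0_invariant (x : (lvl0 h𝒰 P.ρM P.discM).Z1) (g : G) :
    P.ρM g (val0 h𝒰 x) = val0 h𝒰 x :=
  (mem_lvl0_Z1_iff h𝒰 P.ρM P.discM _).1 x.2 g

/-- The pairing on cocycles, via a chosen lift. -/
noncomputable def pair20Z (ξ : HZ2 Y) (x : (lvl0 h𝒰 P.ρM P.discM).Z1) : Hlev2 h𝒰 ρC hC :=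
  cls20 B h𝒰 hC ξ (Classical.choose (Lift0.exists_lift (P := P) (val0_invariant h𝒰 x)))

lemma pair20Z_eq (ξ : HZ2 Y) (x : (lvl0 h𝒰 P.ρM P.discM).Z1) (L : Lift0 P)
    (hL : L.Lifts (val0 h𝒰 x)) : pair20Z B h𝒰 hC ξ x = cls20 B h𝒰 hC ξ L := by
  unfold pair20Z
  apply cls20_indep
  rw [hL]
  exact Classical.choose_spec (Lift0.exists_lift (P := P) (val0_invariant h𝒰 x))

/-- The pairing as a bilinear map on cocycles. -/
noncomputable def pair20ZZ :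
    (Y.tot h𝒰).Z2 →ₗ[k] (lvl0 h𝒰 P.ρM P.discM).Z1 →ₗ[k] Hlev2 h𝒰 ρC hC :=
  LinearMap.mk₂ k (fun z x => pair20Z B h𝒰 hC (HZ2.ofZ2 h𝒰 z) x)
    (fun z z' x => by
      obtain ⟨L, hL⟩ := Lift0.exists_lift (P := P) (val0_invariant h𝒰 x)
      rw [pair20Z_eq B h𝒰 hC _ x L hL, pair20Z_eq B h𝒰 hC _ x L hL,
        pair20Z_eq B h𝒰 hC _ x L hL]
      exact cls20_add_left B h𝒰 hC rfl rfl L)
    (fun r z x => by
      obtain ⟨L, hL⟩ := Lift0.exists_lift (P := P) (val0_invariant h𝒰 x)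
      rw [pair20Z_eq B h𝒰 hC _ x L hL, pair20Z_eq B h𝒰 hC _ x L hL]
      exact cls20_smul_left B h𝒰 hC r rfl rfl L)
    (fun z x x' => by
      obtain ⟨L, hL⟩ := Lift0.exists_lift (P := P) (val0_invariant h𝒰 x)
      obtain ⟨L', hL'⟩ := Lift0.exists_lift (P := P) (val0_invariant h𝒰 x')
      rw [pair20Z_eq B h𝒰 hC _ x L hL, pair20Z_eq B h𝒰 hC _ x' L' hL',
        pair20Z_eq B h𝒰 hC _ (x + x') (L.add L') (hL.add hL')]
      exact cls20_add_right B h𝒰 hC _ L L')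
    (fun r z x => by
      obtain ⟨L, hL⟩ := Lift0.exists_lift (P := P) (val0_invariant h𝒰 x)
      rw [pair20Z_eq B h𝒰 hC _ x L hL, pair20Z_eq B h𝒰 hC _ (r • x) (L.smul r) (hL.smul r)]
      exact cls20_smul_right B h𝒰 hC r _ L)

lemma pair20ZZ_apply (z : (Y.tot h𝒰).Z2) (x : (lvl0 h𝒰 P.ρM P.discM).Z1) (L : Lift0 P)
    (hL : L.Lifts (val0 h𝒰 x)) :
    pair20ZZ B h𝒰 hC z x = cls20 B h𝒰 hC (HZ2.ofZ2 h𝒰 z) L :=
  pair20Z_eq B h𝒰 hC _ x L hL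

lemma pair20ZZ_bdry_left (z : (Y.tot h𝒰).Z2) (hz : z ∈ (Y.tot h𝒰).B2) :
    pair20ZZ B h𝒰 hC z = 0 := by
  obtain ⟨x1, hx1⟩ := ((Y.tot h𝒰).mem_B2_iff z).1 hz
  ext x
  obtain ⟨L, hL⟩ := Lift0.exists_lift (P := P) (val0_invariant h𝒰 x)
  rw [pair20ZZ_apply B h𝒰 hC z x L hL, LinearMap.zero_apply]
  have h1 : (z : K2lev k h𝒰 Y0 Y1).1 = Y.D1 x1.1 := by
    rw [← hx1]; rfl
  rw [Cx.D1_apply] at h1
  refine cls20_bdry_left B h𝒰 hC x1.1.1 x1.2 x1.1.2 (congrArg Prod.fst h1) ?_ L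
  exact (congrArg Prod.snd h1).trans rfl

lemma pair20ZZ_bdry_right (z : (Y.tot h𝒰).Z2) (x : (lvl0 h𝒰 P.ρM P.discM).Z1)
    (hx : x ∈ (lvl0 h𝒰 P.ρM P.discM).B1) : pair20ZZ B h𝒰 hC z x = 0 := by
  obtain ⟨u, hu⟩ := ((lvl0 h𝒰 P.ρM P.discM).mem_B1_iff x).1 hx
  have hx0 : x = 0 := by
    apply Subtype.ext
    rw [← hu]
    rfl
  rw [hx0, map_zero]

/-- **The `(2,0)` pairing** `ℍ²(Y) × H⁰(G, M) → H²(G, C)`. -/
noncomputable def pair20 :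
    Y.ℍ2 h𝒰 →ₗ[k] Hlev0 h𝒰 P.ρM P.discM →ₗ[k] Hlev2 h𝒰 ρC hC :=
  liftH2H1 (Y.tot h𝒰) (lvl0 h𝒰 P.ρM P.discM) (pair20ZZ B h𝒰 hC)
    (pair20ZZ_bdry_left B h𝒰 hC) (pair20ZZ_bdry_right B h𝒰 hC)

/-- The defining property: the pairing of classes is the class of the raw cochain, for ANY lift. -/
theorem pair20_mk (ξ : HZ2 Y) (x : (lvl0 h𝒰 P.ρM P.discM).Z1) (L : Lift0 P)
    (hL : L.Lifts (val0 h𝒰 x)) :
    pair20 B h𝒰 hC (ξ.cls h𝒰) ((lvl0 h𝒰 P.ρM P.discM).π1 x) = cls20 B h𝒰 hC ξ L :=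
  pair20ZZ_apply B h𝒰 hC _ x L hL

/-- The class of an invariant element in `H⁰`. -/
def cl0 (m : M) (hm : ∀ g, P.ρM g m = m) : Hlev0 h𝒰 P.ρM P.discM :=
  (lvl0 h𝒰 P.ρM P.discM).π1 (mkZ0 h𝒰 P.ρM P.discM m hm)

lemma cl0_surjective (w : Hlev0 h𝒰 P.ρM P.discM) :
    ∃ (m : M) (hm : ∀ g, P.ρM g m = m), cl0 (P := P) h𝒰 m hm = w := by
  obtain ⟨x, rfl⟩ := (lvl0 h𝒰 P.ρM P.discM).π1_surjective w
  exact ⟨val0 h𝒰 x, val0_invariant h𝒰 x, rfl⟩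

lemma cl0_eq_zero_iff (m : M) (hm : ∀ g, P.ρM g m = m) : cl0 (P := P) h𝒰 m hm = 0 ↔ m = 0 := by
  have h0 : (0 : Hlev0 h𝒰 P.ρM P.discM) = (lvl0 h𝒰 P.ρM P.discM).π1 0 := (map_zero _).symm
  unfold cl0
  rw [h0, π1_lvl0_eq_iff]
  rfl

/-- Variant for raw invariants. -/
theorem pair20_cl0 (ξ : HZ2 Y) (m : M) (hm : ∀ g, P.ρM g m = m) (L : Lift0 P) (hL : L.Lifts m) :
    pair20 B h𝒰 hC (ξ.cls h𝒰) (cl0 h𝒰 m hm) = cls20 B h𝒰 hC ξ L :=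
  pair20_mk B h𝒰 hC ξ _ L hL

/-- The pairing of two classes vanishes iff the raw cochain is a level coboundary. -/
theorem pair20_eq_zero_iff (ξ : HZ2 Y) (m : M) (hm : ∀ g, P.ρM g m = m) (L : Lift0 P)
    (hL : L.Lifts m) :
    pair20 B h𝒰 hC (ξ.cls h𝒰) (cl0 h𝒰 m hm) = 0 ↔
      ∃ u : G → C, IsLevel₁ 𝒰 u ∧ dOne ρC u = B.p20 ξ.c2 ξ.c1 L.mt L.z' := by
  rw [pair20_cl0 B h𝒰 hC ξ m hm L hL]
  exact cl2_eq_zero_iff _ _

/-! ## Kernels from the raw cochain statements -/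

/-- **Left kernel from the raw statement**: if every level hyper-2-cocycle pairing to a level
coboundary with every lifted invariant is a level hyper-coboundary, then `pair20` has trivial left
kernel. -/
theorem pair20_left_kernel_of_raw
    (hraw : ∀ (c2 : G × G → Y0) (c1 : G → Y1), IsLevel₂ 𝒰 c2 → IsLevel₁ 𝒰 c1 →
      (∀ g h j, dTwo Y.ρ0 c2 (g, h, j) = 0) → (∀ g h, Y.f (c2 (g, h)) = dOne Y.ρ1 c1 (g, h)) →
      (∀ (mt : P0) (z' : G → P1), (∀ g, P.ι (z' g) = dZero P.ρ0 mt g) →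
        ∃ u : G → C, IsLevel₁ 𝒰 u ∧ dOne ρC u = B.p20 c2 c1 mt z') →
      ∃ (b0 : G → Y0) (y1 : Y1), IsLevel₁ 𝒰 b0 ∧ c2 = dOne Y.ρ0 b0 ∧
        c1 = fun a => Y.f (b0 a) - dZero Y.ρ1 y1 a)
    (ξ : Y.ℍ2 h𝒰) (h : ∀ x, pair20 B h𝒰 hC ξ x = 0) : ξ = 0 := by
  obtain ⟨ξ', rfl⟩ := HZ2.cls_surjective h𝒰 ξ
  rw [HZ2.cls_eq_zero_iff]
  refine hraw ξ'.c2 ξ'.c1 ξ'.lev2 ξ'.lev1 ξ'.hc2 ξ'.hc1 (fun mt z' hz => ?_)
  let L : Lift0 P := ⟨mt, z', hz⟩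
  exact (pair20_eq_zero_iff B h𝒰 hC ξ' (P.π mt) L.invariant L rfl).1 (h _)

/-- **Right kernel from the raw statement**: if every lifted invariant pairing to a level
coboundary with every level hyper-2-cocycle lifts `0`, then `pair20` has trivial right kernel. -/
theorem pair20_right_kernel_of_raw
    (hraw : ∀ (mt : P0) (z' : G → P1), (∀ g, P.ι (z' g) = dZero P.ρ0 mt g) →
      (∀ (c2 : G × G → Y0) (c1 : G → Y1), IsLevel₂ 𝒰 c2 → IsLevel₁ 𝒰 c1 →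
        (∀ g h j, dTwo Y.ρ0 c2 (g, h, j) = 0) → (∀ g h, Y.f (c2 (g, h)) = dOne Y.ρ1 c1 (g, h)) →
        ∃ u : G → C, IsLevel₁ 𝒰 u ∧ dOne ρC u = B.p20 c2 c1 mt z') → P.π mt = 0)
    (x : Hlev0 h𝒰 P.ρM P.discM) (h : ∀ ξ, pair20 B h𝒰 hC ξ x = 0) : x = 0 := by
  obtain ⟨m, hm, rfl⟩ := cl0_surjective (P := P) h𝒰 x
  obtain ⟨L, hL⟩ := Lift0.exists_lift (P := P) hm
  rw [cl0_eq_zero_iff, ← hL]
  refine hraw L.mt L.z' L.hz (fun c2 c1 hl2 hl1 hc2 hc1 => ?_)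
  let ξ' : HZ2 Y := ⟨c2, c1, hl2, hl1, hc2, hc1⟩
  exact (pair20_eq_zero_iff B h𝒰 hC ξ' m hm L hL).1 (h _)

/-! ## Naturality -/

section Natural

variable {Y0' Y1' P1' P0' M' C' : Type*}
  [AddCommGroup Y0'] [Module k Y0'] [AddCommGroup Y1'] [Module k Y1']
  [AddCommGroup P1'] [Module k P1'] [AddCommGroup P0'] [Module k P0']
  [AddCommGroup M'] [Module k M'] [AddCommGroup C'] [Module k C']
variable {Y' : Cx k 𝒰 Y0' Y1'} {P' : Resolved k 𝒰 P1' P0' M'} {ρC' : Representation k G C'}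

/-- Push a raw hyper-2-cocycle along a morphism of two-term complexes. -/
def hz2Map (a : Cx.Hom Y Y') (ξ : HZ2 Y) : HZ2 Y' where
  c2 := ⇑a.φ0 ∘ ξ.c2
  c1 := ⇑a.φ1 ∘ ξ.c1
  lev2 := ξ.lev2.comp _
  lev1 := ξ.lev1.comp _
  hc2 g h j := by
    have h1 := congrFun (comp_dTwo Y.ρ0 Y'.ρ0 a.φ0 a.comm0 ξ.c2) (g, h, j)
    rw [← h1, Function.comp_apply, ξ.hc2, map_zero]
  hc1 g h := by
    have h1 := congrFun (comp_dOne Y.ρ1 Y'.ρ1 a.φ1 a.comm1 ξ.c1) (g, h)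
    rw [← h1, Function.comp_apply, Function.comp_apply, ← a.commf, ξ.hc1]

lemma cls_hz2Map (a : Cx.Hom Y Y') (ξ : HZ2 Y) :
    (hz2Map a ξ).cls h𝒰 = a.mapℍ2 h𝒰 (ξ.cls h𝒰) := rfl

/-- Push a lift along a morphism of resolved modules. -/
def lift0Map (b : Resolved.Hom P' P) (L : Lift0 P') : Lift0 P where
  mt := b.φ0 L.mt
  z' := ⇑b.φ1 ∘ L.z'
  hz g := by
    rw [Function.comp_apply, ← b.commι, L.hz, dZero_apply, dZero_apply, map_sub, b.comm0]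

lemma lifts_lift0Map (b : Resolved.Hom P' P) {L : Lift0 P'} {m : M'} (hL : L.Lifts m) :
    (lift0Map b L).Lifts (b.φM m) := by
  show P.π (b.φ0 L.mt) = b.φM m
  rw [← b.commπ, hL]

variable {B} {B' : Pairing Y' P' ρC'} (hC' : IsDiscrete 𝒰 ρC')

/-- Raw naturality of the `(2,0)` cochain. -/
lemma p20_natural (F : PairingHom B B') (ξ : HZ2 Y) (L : Lift0 P') :
    B'.p20 (hz2Map F.a ξ).c2 (hz2Map F.a ξ).c1 L.mt L.z' =
      ⇑F.γ ∘ B.p20 ξ.c2 ξ.c1 (lift0Map F.b L).mt (lift0Map F.b L).z' := by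
  funext q
  simp only [Pairing.p20, hz2Map, lift0Map, Function.comp_apply, map_sub, F.h0, F.h1,
    F.b.comm0, F.b.comm1]

/-- **Naturality of the `(2,0)` pairing.** -/
theorem pair20_natural (F : PairingHom B B') (ξ : Y.ℍ2 h𝒰) (x' : Hlev0 h𝒰 P'.ρM P'.discM) :
    pair20 B' h𝒰 hC' (F.a.mapℍ2 h𝒰 ξ) x' =
      (lvlHom h𝒰 hC hC' F.γ F.hγ).mapH2
        (pair20 B h𝒰 hC ξ ((lvl0Hom h𝒰 P'.discM P.discM F.b.φM F.b.commM).mapH1 x')) := by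
  obtain ⟨ξ', rfl⟩ := HZ2.cls_surjective h𝒰 ξ
  obtain ⟨z', rfl⟩ := (lvl0 h𝒰 P'.ρM P'.discM).π1_surjective x'
  obtain ⟨L, hL⟩ := Lift0.exists_lift (P := P') (val0_invariant h𝒰 z')
  rw [← cls_hz2Map, pair20_mk B' h𝒰 hC' (hz2Map F.a ξ') z' L hL, Cpx.Hom.mapH1_π1,
    pair20_mk B h𝒰 hC ξ' _ (lift0Map F.b L) (lifts_lift0Map F.b hL)]
  unfold cls20 cl2
  rw [Cpx.Hom.mapH2_π2]
  congr 1
  apply Subtype.ext
  apply Subtype.ext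
  exact p20_natural F ξ' L

end Natural

end Fermat.Agent.ES.T56.PairTwoZero18
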