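/-
Programme T (S56), chapter GW, part C (local/generic degree `(2,0)` duality), helper2.

`TwoZeroDefs2`: the raw cochain vocabulary of the pairing
  `ℍ²(Y⁰ → Y¹) × H⁰(A) → H²(X)`      ("`Ext²(A, X) × A^G → H²(X)`")
for an abstract pairing datum `D : Pairing20.Datum` (twin of `Pairing20` / `GlobalDuality20`,
which treat `ℍ¹ × H¹`).

* `IsHyper2 D c₂ c₁`   : `(c₂, c₁)` is a hyper-2-cocycle (`d² c₂ = 0`, `f ∘ c₂ = d¹ c₁`);
* `hbdry2 D b e`       : the hyper-2-coboundary `D¹ (b, e) = (d¹ b, f ∘ b - d⁰ e)`;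
* `IsLift0 D m̃ z'`     : a lifted invariant (`ι ∘ z' = d⁰ m̃`; then `π m̃ ∈ A^G`);
* `pair20Fun`          : `(g, h) ↦ ev₀ (c₂ (g, h)) (g h • m̃) - ev₁ (c₁ g) (g • z' h)`;
* cocycle property, additivity, the two coboundary lemmas;
* the finite-level / level-`V` statements `FinTN20l`, `TN20lAt` and the hypothesis package
  `HypL20` of the limit argument (LEFT kernel only).
-/
import Mathlib
import Fermat.Agent.PT.PRO.ExtPairing4
import Fermat.Agent.PT.PRO.ExtPairingB4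
import Fermat.Agent.PT.PRO.GlobalDuality20
import Fermat.Agent.PT.PRO.HyperColimP18

set_option autoImplicit false

namespace Fermat.Agent.ES.T56.TwoZeroDefs2

open Fermat.Agent.PT.PRO.HyperLevel25 Fermat.Agent.PT.PRO.Pairing20
  Fermat.Agent.PT.PRO.GlobalDuality20 Fermat.Agent.PT.PRO.ExtPairing4

variable {k : Type*} [CommRing k] {G : Type*} [Group G]
variable {Y0 Y1 F0 F1 A X : Type*}
  [AddCommGroup Y0] [Module k Y0] [AddCommGroup Y1] [Module k Y1]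
  [AddCommGroup F0] [Module k F0] [AddCommGroup F1] [Module k F1]
  [AddCommGroup A] [Module k A] [AddCommGroup X] [Module k X]

variable (D : Datum k G Y0 Y1 F0 F1 A X)

/-- `(c₂, c₁)` is a hyper-2-cocycle of `f : Y⁰ → Y¹`. -/
def IsHyper2 (c2 : G × G → Y0) (c1 : G → Y1) : Prop :=
  dTwo D.ρY0 c2 = 0 ∧ ⇑D.f ∘ c2 = dOne D.ρY1 c1

/-- The first component of the hyper-2-coboundary `D¹ (b, e)`. -/
def hbdryC2 (b : G → Y0) : G × G → Y0 := dOne D.ρY0 b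

/-- The second component of the hyper-2-coboundary `D¹ (b, e)`. -/
def hbdryC1 (b : G → Y0) (e : Y1) : G → Y1 := ⇑D.f ∘ b - dZero D.ρY1 e

/-- `(m̃, z')` is a lifted invariant: `ι ∘ z' = d⁰ m̃`. -/
def IsLift0 (mt : F0) (z' : G → F1) : Prop := ∀ g, D.ι (z' g) = dZero D.ρF0 mt g

/-- The `(2,0)` pairing on cochains. -/
def pair20Fun (c2 : G × G → Y0) (c1 : G → Y1) (mt : F0) (z' : G → F1) : G × G → X :=
  fun q => D.ev0 (c2 q) (D.ρF0 (q.1 * q.2) mt) - D.ev1 (c1 q.1) (D.ρF1 q.1 (z' q.2))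

@[simp] lemma pair20Fun_apply (c2 : G × G → Y0) (c1 : G → Y1) (mt : F0) (z' : G → F1) (g h : G) :
    pair20Fun D c2 c1 mt z' (g, h) =
      D.ev0 (c2 (g, h)) (D.ρF0 (g * h) mt) - D.ev1 (c1 g) (D.ρF1 g (z' h)) := rfl

lemma pair20Fun_eq (c2 : G × G → Y0) (c1 : G → Y1) (mt : F0) (z' : G → F1) :
    pair20Fun D c2 c1 mt z' = (fun q : G × G => D.ev0 (c2 q) (D.ρF0 (q.1 * q.2) mt)) -
      (fun q : G × G => D.ev1 (c1 q.1) (D.ρF1 q.1 (z' q.2))) := rfl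

/-! ### Hyper-2-cocycles and lifted invariants -/

lemma isHyper2_hbdry (b : G → Y0) (e : Y1) : IsHyper2 D (hbdryC2 D b) (hbdryC1 D b e) := by
  refine ⟨dTwo_dOne _ _, ?_⟩
  rw [hbdryC2, hbdryC1, map_sub, dOne_dZero, sub_zero]
  exact comp_dOne D.ρY0 D.ρY1 D.f D.f_comm b

lemma IsHyper2.add {c2 c2' : G × G → Y0} {c1 c1' : G → Y1} (h : IsHyper2 D c2 c1)
    (h' : IsHyper2 D c2' c1') : IsHyper2 D (c2 + c2') (c1 + c1') := by
  refine ⟨by rw [map_add, h.1, h'.1, add_zero], ?_⟩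
  rw [map_add, ← h.2, ← h'.2]
  funext q
  simp

lemma IsHyper2.sub {c2 c2' : G × G → Y0} {c1 c1' : G → Y1} (h : IsHyper2 D c2 c1)
    (h' : IsHyper2 D c2' c1') : IsHyper2 D (c2 - c2') (c1 - c1') := by
  refine ⟨by rw [map_sub, h.1, h'.1, sub_zero], ?_⟩
  rw [map_sub, ← h.2, ← h'.2]
  funext q
  simp

lemma IsHyper2.smul (r : k) {c2 : G × G → Y0} {c1 : G → Y1} (h : IsHyper2 D c2 c1) :
    IsHyper2 D (r • c2) (r • c1) := by
  refine ⟨by rw [map_smul, h.1, smul_zero], ?_⟩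
  rw [map_smul, ← h.2]
  funext q
  simp

lemma isLift0_of_invariant {x : F0} (hx : ∀ g, D.ρF0 g x = x) : IsLift0 D x 0 := by
  intro g
  simp [dZero_apply, hx g]

lemma IsLift0.add {mt mt' : F0} {z' z'' : G → F1} (h : IsLift0 D mt z') (h' : IsLift0 D mt' z'') :
    IsLift0 D (mt + mt') (z' + z'') := by
  intro g
  rw [Pi.add_apply, map_add, map_add, Pi.add_apply, h g, h' g]

lemma IsLift0.smul (r : k) {mt : F0} {z' : G → F1} (h : IsLift0 D mt z') :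
    IsLift0 D (r • mt) (r • z') := by
  intro g
  rw [Pi.smul_apply, map_smul, map_smul, Pi.smul_apply, h g]

/-- The image in `A` of a lifted invariant is invariant. -/
lemma IsLift0.π_invariant {mt : F0} {z' : G → F1} (h : IsLift0 D mt z') (g : G) :
    D.ρA g (D.π mt) = D.π mt := by
  have h1 := h g
  simp only [dZero_apply] at h1
  have h2 : D.π (D.ρF0 g mt - mt) = 0 := by rw [← h1]; exact (D.exact _).2 ⟨_, rfl⟩
  rw [map_sub, D.π_comm, sub_eq_zero] at h2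
  exact h2

/-- Every invariant of `A` has a lifted invariant above it. -/
lemma exists_isLift0 {m : A} (hm : ∀ g, D.ρA g m = m) :
    ∃ (mt : F0) (z' : G → F1), IsLift0 D mt z' ∧ D.π mt = m := by
  obtain ⟨mt, rfl⟩ := D.π_surj m
  have hex : ∀ g, ∃ z, D.ι z = dZero D.ρF0 mt g := fun g =>
    (D.exact _).1 (by rw [dZero_apply, map_sub, D.π_comm, hm g, sub_self])
  choose z' hz' using hex
  exact ⟨mt, z', hz', rfl⟩

/-- For a lifted invariant, `z'` is a 1-cocycle of `F₁`. -/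
lemma IsLift0.dOne_eq_zero {mt : F0} {z' : G → F1} (h : IsLift0 D mt z') : dOne D.ρF1 z' = 0 := by
  funext q
  apply D.ι_inj
  have h1 := congrFun (comp_dOne D.ρF1 D.ρF0 D.ι D.ι_comm z') q
  rw [Function.comp_apply] at h1
  have h2 : (⇑D.ι ∘ z') = dZero D.ρF0 mt := funext h
  rw [h1, h2, dOne_dZero]
  simp

/-! ### Additivity -/

lemma pair20Fun_add_left (c2 c2' : G × G → Y0) (c1 c1' : G → Y1) (mt : F0) (z' : G → F1) :
    pair20Fun D (c2 + c2') (c1 + c1') mt z' =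
      pair20Fun D c2 c1 mt z' + pair20Fun D c2' c1' mt z' := by
  funext q
  simp only [pair20Fun, Pi.add_apply, map_add, LinearMap.add_apply]
  abel

lemma pair20Fun_sub_left (c2 c2' : G × G → Y0) (c1 c1' : G → Y1) (mt : F0) (z' : G → F1) :
    pair20Fun D (c2 - c2') (c1 - c1') mt z' =
      pair20Fun D c2 c1 mt z' - pair20Fun D c2' c1' mt z' := by
  funext q
  simp only [pair20Fun, Pi.sub_apply, map_sub, LinearMap.sub_apply]
  abel

lemma pair20Fun_smul_left (r : k) (c2 : G × G → Y0) (c1 : G → Y1) (mt : F0) (z' : G → F1) :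
    pair20Fun D (r • c2) (r • c1) mt z' = r • pair20Fun D c2 c1 mt z' := by
  funext q
  simp only [pair20Fun, Pi.smul_apply, map_smul, LinearMap.smul_apply, smul_sub]

lemma pair20Fun_add_right (c2 : G × G → Y0) (c1 : G → Y1) (mt mt' : F0) (z' z'' : G → F1) :
    pair20Fun D c2 c1 (mt + mt') (z' + z'') =
      pair20Fun D c2 c1 mt z' + pair20Fun D c2 c1 mt' z'' := by
  funext q
  simp only [pair20Fun, Pi.add_apply, map_add]
  abel

lemma pair20Fun_smul_right (r : k) (c2 : G × G → Y0) (c1 : G → Y1) (mt : F0) (z' : G → F1) :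
    pair20Fun D c2 c1 (r • mt) (r • z') = r • pair20Fun D c2 c1 mt z' := by
  funext q
  simp only [pair20Fun, Pi.smul_apply, map_smul, smul_sub]

/-! ### Cocycle property and coboundary lemmas -/

/-- `ev₀ y (g • ι x) = ev₁ (f y) (g • x)`. -/
lemma ev0_ρ_ι (y : Y0) (g : G) (x : F1) :
    D.ev0 y (D.ρF0 g (D.ι x)) = D.ev1 (D.f y) (D.ρF1 g x) := by
  rw [← D.ι_comm, D.ev_compat]

/-- **The pairing of a hyper-2-cocycle with a lifted invariant is a 2-cocycle.** -/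
theorem dTwo_pair20Fun {c2 : G × G → Y0} {c1 : G → Y1} (hc : IsHyper2 D c2 c1) {mt : F0}
    {z' : G → F1} (hz : IsLift0 D mt z') : dTwo D.ρX (pair20Fun D c2 c1 mt z') = 0 := by
  funext ⟨g, h, j⟩
  have hz1 : ∀ a, D.ι (z' a) = dZero D.ρF0 mt a := hz
  have hc1 : ∀ a b, D.f (c2 (a, b)) = dOne D.ρY1 c1 (a, b) := fun a b => congrFun hc.2 (a, b)
  rw [pair20Fun_eq, map_sub, Pi.sub_apply, leib20 D.ev0 D.ev0_comm, leib11 D.ev1 D.ev1_comm, hc.1,
    congrFun (hz.dOne_eq_zero D) (h, j), ← hz1, ev0_ρ_ι, hc1]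
  simp

/-- **Change of lift**: `(m̃, z') ↦ (m̃ + ι w, z' + d⁰ w)` changes the pairing by the coboundary of
`a ↦ ev₁ (c₁ a) (a • w)`. -/
theorem pair20Fun_change_lift {c2 : G × G → Y0} {c1 : G → Y1} (hc : IsHyper2 D c2 c1) (mt : F0)
    (z' : G → F1) (w : F1) :
    pair20Fun D c2 c1 (mt + D.ι w) (z' + dZero D.ρF1 w) - pair20Fun D c2 c1 mt z' =
      dOne D.ρX (fun a => D.ev1 (c1 a) (D.ρF1 a w)) := by
  funext ⟨g, h⟩
  have hc1 : D.f (c2 (g, h)) = dOne D.ρY1 c1 (g, h) := congrFun hc.2 (g, h)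
  rw [leib10 D.ev1 D.ev1_comm, ← hc1, ← ev0_ρ_ι]
  simp only [pair20Fun, Pi.sub_apply, Pi.add_apply, map_add]
  abel

/-- **The pairing of a hyper-2-coboundary** `D¹ (b, e)` with a lifted invariant is the coboundary
of `a ↦ ev₀ (b a) (a • m̃) + ev₁ e (z' a)`. -/
theorem pair20Fun_hbdry (b : G → Y0) (e : Y1) {mt : F0} {z' : G → F1} (hz : IsLift0 D mt z') :
    pair20Fun D (hbdryC2 D b) (hbdryC1 D b e) mt z' =
      dOne D.ρX (fun a => D.ev0 (b a) (D.ρF0 a mt) + D.ev1 e (z' a)) := by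
  funext ⟨g, h⟩
  have hz1 : ∀ a, D.ι (z' a) = dZero D.ρF0 mt a := hz
  have e1 : (fun a => D.ev0 (b a) (D.ρF0 a mt) + D.ev1 e (z' a)) =
      (fun a => D.ev0 (b a) (D.ρF0 a mt)) + (fun a => D.ev1 e (z' a)) := rfl
  rw [e1, map_add, Pi.add_apply, leib10 D.ev0 D.ev0_comm, leib01 D.ev1 D.ev1_comm,
    congrFun (hz.dOne_eq_zero D) (g, h), ← hz1, ev0_ρ_ι]
  simp only [pair20Fun, hbdryC2, hbdryC1, Pi.sub_apply, Function.comp_apply, map_sub,
    LinearMap.sub_apply, Pi.zero_apply, map_zero, add_zero]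
  abel

/-! ### Agreement with main's raw formula `ExtPairing4.Pairing.p20` -/

section Bridge

open Fermat.Agent.PT.PRO.Resolved4 Fermat.Agent.PT.PRO.ExtPairingB4

variable {𝒰 : Set (Subgroup G)} {P1 P0 M C : Type*}
  [AddCommGroup P1] [Module k P1] [AddCommGroup P0] [Module k P0]
  [AddCommGroup M] [Module k M] [AddCommGroup C] [Module k C]
  {Y : Cx k 𝒰 Y0 Y1} {P : Resolved k 𝒰 P1 P0 M} {ρC : Representation k G C}

/-- `pair20Fun` of the datum of a pairing is main's `Pairing.p20`, by `rfl`. -/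
theorem pair20Fun_toDatum (B : Pairing Y P ρC) (c2 : G × G → Y0) (c1 : G → Y1) (mt : P0)
    (z' : G → P1) : pair20Fun (toDatum B) c2 c1 mt z' = B.p20 c2 c1 mt z' := rfl

theorem isLift0_toDatum_iff (B : Pairing Y P ρC) (mt : P0) (z' : G → P1) :
    IsLift0 (toDatum B) mt z' ↔ ∀ g, P.ι (z' g) = dZero P.ρ0 mt g := Iff.rfl

theorem isHyper2_toDatum_iff (B : Pairing Y P ρC) (c2 : G × G → Y0) (c1 : G → Y1) :
    IsHyper2 (toDatum B) c2 c1 ↔ dTwo Y.ρ0 c2 = 0 ∧ ⇑Y.f ∘ c2 = dOne Y.ρ1 c1 := Iff.rfl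

end Bridge

/-! ### The finite-level statements and the hypotheses of the limit argument -/

/-- `(c₂, c₁)` is a hyper-2-cocycle of level `V`. -/
def IsHyper2At (V : Subgroup G) (c2 : G × G → Y0) (c1 : G → Y1) : Prop :=
  IsHyper2 D c2 c1 ∧ IsLevelAt₂ D.ρY0 V c2 ∧ IsLevelAt₁ D.ρY1 V c1

/-- `(m̃, z')` is a lifted invariant of level `V`. -/
def IsLift0At (V : Subgroup G) (mt : F0) (z' : G → F1) : Prop :=
  IsLift0 D mt z' ∧ FixedBy D.ρF0 V mt ∧ IsLevelAt₁ D.ρF1 V z'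

/-- Hyper Tate–Nakayama in degree `(2,0)`, LEFT kernel, finite-group form (no levels): a
hyper-2-cocycle which pairs to a coboundary with every lifted invariant is a hyper-2-coboundary. -/
def FinTN20l {Q : Type*} [Group Q] (D : Datum k Q Y0 Y1 F0 F1 A X) : Prop :=
  ∀ (c2 : Q × Q → Y0) (c1 : Q → Y1), IsHyper2 D c2 c1 →
    (∀ mt z', IsLift0 D mt z' → ∃ u : Q → X, pair20Fun D c2 c1 mt z' = dOne D.ρX u) →
    ∃ (b : Q → Y0) (e : Y1), c2 = hbdryC2 D b ∧ c1 = hbdryC1 D b e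

/-- The same at level `V` of `G` (raw cochains on `G`). -/
def TN20lAt (V : Subgroup G) : Prop :=
  ∀ (c2 : G × G → Y0) (c1 : G → Y1), IsHyper2At D V c2 c1 →
    (∀ mt z', IsLift0At D V mt z' →
      ∃ u, IsLevelAt₁ D.ρX V u ∧ pair20Fun D c2 c1 mt z' = dOne D.ρX u) →
    ∃ (b : G → Y0) (e : Y1), IsLevelAt₁ D.ρY0 V b ∧ FixedBy D.ρY1 V e ∧
      c2 = hbdryC2 D b ∧ c1 = hbdryC1 D b e

/-- The finite-level hypotheses of the LEFT-kernel limit argument in degree `(2,0)`. -/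
structure HypL20 (𝒰 : Set (Subgroup G)) (ℱ : Set (Subgroup G)) (p : ℕ) : Prop where
  sub : ℱ ⊆ 𝒰
  normal : ∀ V ∈ ℱ, V.Normal
  cofinal : ∀ U ∈ 𝒰, ∃ V ∈ ℱ, V ≤ U
  /-- hyper Tate–Nakayama `(2,0)` at level `V`, left kernel = 0 -/
  TNl : ∀ V ∈ ℱ, TN20lAt D V
  /-- inflation `H²(G/V, X^V)[p] → H²(𝒰; X)` is injective -/
  INJ2p : ∀ V ∈ ℱ, ∀ φ : G × G → X, IsLevelAt₂ D.ρX V φ →
    (∃ u, IsLevelAt₁ D.ρX V u ∧ (p : k) • φ = dOne D.ρX u) →
    (∃ u, IsLevel₁ 𝒰 u ∧ φ = dOne D.ρX u) → ∃ u, IsLevelAt₁ D.ρX V u ∧ φ = dOne D.ρX u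
  /-- `p` kills the level-`V` hyper-2-cocycle classes, at level `V` -/
  HpAt : ∀ V ∈ ℱ, ∀ (c2 : G × G → Y0) (c1 : G → Y1), IsHyper2At D V c2 c1 →
    ∃ (b : G → Y0) (e : Y1), IsLevelAt₁ D.ρY0 V b ∧ FixedBy D.ρY1 V e ∧
      (p : k) • c2 = hbdryC2 D b ∧ (p : k) • c1 = hbdryC1 D b e

end Fermat.Agent.ES.T56.TwoZeroDefs2
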