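/-
Programme T (S56), chapter GW (Greenberg–Wiles), degree `(2,0)` duality, brick (B3), helper18.

`TwoZeroDescend18`: transport of the FINITE-LEVEL left-kernel statement `TwoZeroDefs2.FinTN20l`
(datum over the finite group `G ⧸ V`, all cochains) to the level-`V` raw-cochain statement
`TwoZeroDefs2.TN20lAt D V` (cochains on `G`, right-`V`-invariant with `V`-fixed values) — the
degree-`(2,0)` twin of `HyperColim18.tnlAt_of_descend` / `DescendRes18.tnlAt_datum`.

* dictionary for the descended datum `HyperColim18.descend D V hπ`: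
  `infl₂_pair20Fun`, `isHyper2_descend_iff`, `isLift0_descend_iff`;
* `tn20lAt_of_descend : FinTN20l (descend D V hπ) → TN20lAt D V`;
* `DatumIso.finTN20l` : `FinTN20l` transports along `DescendRes18.DatumIso`;
* for `K(P; C)`: `tn20lAt_datum : FinTN20l ((resQuot R V h0).datum (fixedRep V ρC)) →
  TN20lAt (R.datum ρC) V`.
-/
import Mathlib
import Fermat.Agent.ES.T56.TwoZeroDefs2
import Fermat.Agent.PT.PRO.DescendRes18

set_option autoImplicit false

namespace Fermat.Agent.ES.T56.TwoZeroDescend18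

open Fermat.Agent.PT.PRO.HyperLevel25 Fermat.Agent.PT.PRO.Pairing20
  Fermat.Agent.PT.PRO.GlobalDuality20 Fermat.Agent.PT.PRO.HyperColim18
  Fermat.Agent.PT.PRO.IndRes20 Fermat.Agent.PT.PRO.DescendRes18
  Fermat.Agent.ES.T56.TwoZeroDefs2

variable {k : Type*} [CommRing k] {G : Type*} [Group G]

/-! ### `d²` and inflation -/

section DTwo

variable {Y : Type*} [AddCommGroup Y] [Module k Y]

/-- `d²` of an inflated 2-cochain, pointwise. -/
lemma dTwo_infl₂_apply (V : Subgroup G) [V.Normal] (ρ : Representation k G Y)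
    (φ : (G ⧸ V) × (G ⧸ V) → fixedSub V ρ) (g h j : G) :
    dTwo ρ (infl₂ φ) (g, h, j) =
      ((dTwo (fixedRep V ρ) φ ((g : G ⧸ V), (h : G ⧸ V), (j : G ⧸ V)) : fixedSub V ρ) : Y) := by
  simp only [dTwo_apply, infl₂_apply, Submodule.coe_add, Submodule.coe_sub, fixedRep_mk,
    QuotientGroup.mk_mul]

lemma dTwo_infl₂_eq_zero_iff (V : Subgroup G) [V.Normal] (ρ : Representation k G Y)
    (φ : (G ⧸ V) × (G ⧸ V) → fixedSub V ρ) :
    dTwo ρ (infl₂ φ) = 0 ↔ dTwo (fixedRep V ρ) φ = 0 := by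
  constructor
  · intro h
    funext ⟨q, q', q''⟩
    induction q using QuotientGroup.induction_on with
    | H g =>
      induction q' using QuotientGroup.induction_on with
      | H g' =>
        induction q'' using QuotientGroup.induction_on with
        | H g'' =>
          apply Subtype.ext
          rw [← dTwo_infl₂_apply, h]
          rfl
  · intro h
    funext ⟨g, g', g''⟩
    rw [dTwo_infl₂_apply, h]
    rfl

end DTwo

variable {Y0 Y1 F0 F1 A X : Type*}
  [AddCommGroup Y0] [Module k Y0] [AddCommGroup Y1] [Module k Y1]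
  [AddCommGroup F0] [Module k F0] [AddCommGroup F1] [Module k F1]
  [AddCommGroup A] [Module k A] [AddCommGroup X] [Module k X]

/-! ### Dictionary for the descended datum -/

section Dictionary

variable (D : Datum k G Y0 Y1 F0 F1 A X) (V : Subgroup G) [V.Normal]
  (hπ : ∀ a, FixedBy D.ρA V a → ∃ x, FixedBy D.ρF0 V x ∧ D.π x = a)

/-- The `(2,0)` pairing of the descended datum inflates to the pairing of inflated cochains. -/
lemma infl₂_pair20Fun (c2 : (G ⧸ V) × (G ⧸ V) → fixedSub V D.ρY0)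
    (c1 : G ⧸ V → fixedSub V D.ρY1) (mt : fixedSub V D.ρF0) (z' : G ⧸ V → fixedSub V D.ρF1) :
    infl₂ (pair20Fun (descend D V hπ) c2 c1 mt z') =
      pair20Fun D (infl₂ c2) (infl₁ c1) (mt : F0) (infl₁ z') := by
  funext ⟨g, h⟩
  rfl

/-- Hyper-2-cocycles of the descended datum are the level-`V` hyper-2-cocycles. -/
lemma isHyper2_descend_iff (c2 : (G ⧸ V) × (G ⧸ V) → fixedSub V D.ρY0)
    (c1 : G ⧸ V → fixedSub V D.ρY1) :
    IsHyper2 (descend D V hπ) c2 c1 ↔ IsHyper2 D (infl₂ c2) (infl₁ c1) := by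
  have key : infl₂ (⇑(descend D V hπ).f ∘ c2) = ⇑D.f ∘ infl₂ c2 := by
    funext ⟨g, h⟩
    rfl
  constructor
  · rintro ⟨h1, h2⟩
    refine ⟨(dTwo_infl₂_eq_zero_iff V D.ρY0 c2).2 h1, ?_⟩
    have h3 : ⇑(descend D V hπ).f ∘ c2 = dOne (fixedRep V D.ρY1) c1 := h2
    rw [← key, h3, infl₂_dOne]
  · rintro ⟨h1, h2⟩
    refine ⟨(dTwo_infl₂_eq_zero_iff V D.ρY0 c2).1 h1, ?_⟩
    apply infl₂_injective
    have h3 : infl₂ (dOne (fixedRep V D.ρY1) c1) = dOne D.ρY1 (infl₁ c1) := infl₂_dOne V D.ρY1 c1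
    have h4 : infl₂ (dOne (descend D V hπ).ρY1 c1) = dOne D.ρY1 (infl₁ c1) := h3
    rw [key, h4, h2]

/-- Lifted invariants of the descended datum are the level-`V` lifted invariants. -/
lemma isLift0_descend_iff (mt : fixedSub V D.ρF0) (z' : G ⧸ V → fixedSub V D.ρF1) :
    IsLift0 (descend D V hπ) mt z' ↔ IsLift0 D (mt : F0) (infl₁ z') := by
  constructor
  · intro h g
    have h1 := congrArg Subtype.val (h (g : G ⧸ V))
    have h2 := congrFun (infl₁_dZero V D.ρF0 mt) g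
    rw [← h2]
    exact h1
  · intro h q
    induction q using QuotientGroup.induction_on with
    | H g =>
      have h1 := h g
      have h2 := congrFun (infl₁_dZero V D.ρF0 mt) g
      rw [← h2] at h1
      exact Subtype.ext h1

/-- The hyper-2-coboundary of the descended datum inflates to the hyper-2-coboundary. -/
lemma infl₂_hbdryC2 (b : G ⧸ V → fixedSub V D.ρY0) :
    infl₂ (hbdryC2 (descend D V hπ) b) = hbdryC2 D (infl₁ b) :=
  infl₂_dOne V D.ρY0 b

lemma infl₁_hbdryC1 (b : G ⧸ V → fixedSub V D.ρY0) (e : fixedSub V D.ρY1) :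
    infl₁ (hbdryC1 (descend D V hπ) b e) = hbdryC1 D (infl₁ b) (e : Y1) := by
  funext g
  rfl

end Dictionary

/-! ### Transport from `G ⧸ V` to level `V` -/

section Transport

variable (D : Datum k G Y0 Y1 F0 F1 A X) (V : Subgroup G) [V.Normal]
  (hπ : ∀ a, FixedBy D.ρA V a → ∃ x, FixedBy D.ρF0 V x ∧ D.π x = a)

/-- **Transport of the `(2,0)` left-kernel statement** from `G ⧸ V` to level `V`. -/
theorem tn20lAt_of_descend (h : FinTN20l (descend D V hπ)) : TN20lAt D V := by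
  intro c2 c1 hcy hpair
  obtain ⟨hcoc, hc2, hc1⟩ := hcy
  have hcoc' : IsHyper2 (descend D V hπ) (desc₂ c2 hc2) (desc₁ c1 hc1) := by
    rw [isHyper2_descend_iff, infl₂_desc₂, infl₁_desc₁]
    exact hcoc
  obtain ⟨b, e, h1, h2⟩ := h (desc₂ c2 hc2) (desc₁ c1 hc1) hcoc' (fun mt z' hz => by
    rw [isLift0_descend_iff] at hz
    obtain ⟨u, hu, hpu⟩ := hpair (mt : F0) (infl₁ z') ⟨hz, mt.2, isLevelAt₁_infl₁ z'⟩
    refine ⟨desc₁ u hu, infl₂_injective ?_⟩
    have h3 : infl₂ (dOne (fixedRep V D.ρX) (desc₁ u hu)) = dOne D.ρX u := by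
      rw [infl₂_dOne, infl₁_desc₁]
    have h4 : infl₂ (dOne (descend D V hπ).ρX (desc₁ u hu)) = dOne D.ρX u := h3
    rw [h4, infl₂_pair20Fun, infl₂_desc₂, infl₁_desc₁]
    exact hpu)
  refine ⟨infl₁ b, (e : Y1), isLevelAt₁_infl₁ b, e.2, ?_, ?_⟩
  · rw [← infl₂_hbdryC2 D V hπ, ← h1, infl₂_desc₂]
  · rw [← infl₁_hbdryC1 D V hπ, ← h2, infl₁_desc₁]

end Transport

/-! ### Transport along isomorphisms of data -/

section Iso

variable {Q : Type*} [Group Q]
variable {Y0' Y1' F0' F1' A' X' : Type*}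
  [AddCommGroup Y0'] [Module k Y0'] [AddCommGroup Y1'] [Module k Y1']
  [AddCommGroup F0'] [Module k F0'] [AddCommGroup F1'] [Module k F1']
  [AddCommGroup A'] [Module k A'] [AddCommGroup X'] [Module k X']
variable {D : Datum k Q Y0 Y1 F0 F1 A X} {D' : Datum k Q Y0' Y1' F0' F1' A' X'}
  (e : DatumIso D D')

lemma isHyper2_iso {c2 : Q × Q → Y0} {c1 : Q → Y1} (h : IsHyper2 D c2 c1) :
    IsHyper2 D' (⇑e.eY0 ∘ c2) (⇑e.eY1 ∘ c1) := by
  refine ⟨?_, ?_⟩
  · have h1 : ⇑e.eY0 ∘ dTwo D.ρY0 c2 = dTwo D'.ρY0 (⇑e.eY0 ∘ c2) :=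
      comp_dTwo D.ρY0 D'.ρY0 e.eY0.toLinearMap e.ρY0_comm c2
    rw [← h1, h.1]
    funext q
    simp
  · have h1 : ⇑e.eY1 ∘ dOne D.ρY1 c1 = dOne D'.ρY1 (⇑e.eY1 ∘ c1) :=
      comp_dOne D.ρY1 D'.ρY1 e.eY1.toLinearMap e.ρY1_comm c1
    rw [← h1, ← h.2]
    funext q
    simp only [Function.comp_apply, e.f_comm]

lemma isLift0_iso_symm {mt : F0'} {z' : Q → F1'} (h : IsLift0 D' mt z') :
    IsLift0 D (e.eF0.symm mt) (⇑e.eF1.symm ∘ z') := by
  intro g
  apply e.eF0.injective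
  rw [e.ι_comm, Function.comp_apply, LinearEquiv.apply_symm_apply, h g, dZero_apply, dZero_apply,
    map_sub, e.ρF0_comm, LinearEquiv.apply_symm_apply]

lemma pair20Fun_iso_symm (c2 : Q × Q → Y0) (c1 : Q → Y1) (mt : F0') (z' : Q → F1') :
    pair20Fun D' (⇑e.eY0 ∘ c2) (⇑e.eY1 ∘ c1) mt z' =
      ⇑e.eX ∘ pair20Fun D c2 c1 (e.eF0.symm mt) (⇑e.eF1.symm ∘ z') := by
  funext ⟨g, h⟩
  simp only [pair20Fun_apply, Function.comp_apply, map_sub, e.ev0_comm, e.ev1_comm, e.ρF0_comm,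
    e.ρF1_comm, LinearEquiv.apply_symm_apply]

/-- `FinTN20l` transports along an isomorphism of data. -/
theorem finTN20l_iso (e : DatumIso D D') (h : FinTN20l D') : FinTN20l D := by
  intro c2 c1 hcy hpair
  obtain ⟨b', y', h2, h1⟩ := h (⇑e.eY0 ∘ c2) (⇑e.eY1 ∘ c1) (isHyper2_iso e hcy)
    (fun mt z' hz => by
      obtain ⟨u, hu⟩ := hpair _ _ (isLift0_iso_symm e hz)
      refine ⟨⇑e.eX ∘ u, ?_⟩
      rw [pair20Fun_iso_symm, hu]
      exact comp_dOne D.ρX D'.ρX e.eX.toLinearMap e.ρX_comm u)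
  refine ⟨⇑e.eY0.symm ∘ b', e.eY1.symm y', ?_, ?_⟩
  · funext q
    apply e.eY0.injective
    have h3 := congrFun h2 q
    rw [Function.comp_apply] at h3
    have h4 : ⇑e.eY0 ∘ dOne D.ρY0 (⇑e.eY0.symm ∘ b') = dOne D'.ρY0 (⇑e.eY0 ∘ ⇑e.eY0.symm ∘ b') :=
      comp_dOne D.ρY0 D'.ρY0 e.eY0.toLinearMap e.ρY0_comm _
    have h5 : ⇑e.eY0 ∘ ⇑e.eY0.symm ∘ b' = b' := by funext g; simp
    rw [h5] at h4
    have h6 := congrFun h4 q
    rw [Function.comp_apply] at h6
    rw [h3]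
    exact h6.symm
  · funext g
    apply e.eY1.injective
    have h3 := congrFun h1 g
    rw [Function.comp_apply] at h3
    rw [h3]
    simp only [hbdryC1, Pi.sub_apply, Function.comp_apply, dZero_apply, map_sub, e.f_comm,
      e.ρY1_comm, LinearEquiv.apply_symm_apply]

end Iso

/-! ### The complex `K(P; C)` -/

section Quot

variable {P1 P0 M C : Type*} [AddCommGroup P1] [Module k P1]
  [AddCommGroup P0] [Module k P0] [AddCommGroup M] [Module k M] [AddCommGroup C] [Module k C]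
variable (R : Res k G P1 P0 M) (ρC : Representation k G C) (V : Subgroup G) [V.Normal]
  (h0 : ∀ s ∈ V, ∀ x, R.ρ0 s x = x)

/-- `FinTN20l` of the descended datum of `K(P; C)` from `FinTN20l` of `K(P; C^V)` over `G ⧸ V`. -/
theorem finTN20l_descend (h : FinTN20l ((resQuot R V h0).datum (fixedRep V ρC))) :
    FinTN20l (descend (R.datum ρC) V (hπ_datum R ρC V h0)) :=
  finTN20l_iso (descendIso R ρC V h0) h

/-- **The field `TNl` of `HypL20` at `V` for `K(P; C)`** from the finite-group statement for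
`K(P; C^V)` over `G ⧸ V` (`V` normal, acting trivially on `P₀`). -/
theorem tn20lAt_datum (h : FinTN20l ((resQuot R V h0).datum (fixedRep V ρC))) :
    TN20lAt (R.datum ρC) V :=
  tn20lAt_of_descend (R.datum ρC) V (hπ_datum R ρC V h0) (finTN20l_descend R ρC V h0 h)

end Quot

end Fermat.Agent.ES.T56.TwoZeroDescend18
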