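/-
Programme T (S56), chapter GW (Greenberg–Wiles), degree `(2,0)` duality, brick (B3), helper18.

`TwoZeroLimit18`: the LIMIT ARGUMENT for the LEFT kernel of
`Ext²_G(M, C) × H⁰(G, M) → H²(G, C)` at the raw cochain level, for an abstract pairing datum `D`
and a basis `𝒰` of open subgroups — the degree-`(2,0)` twin of `GlobalDuality20b.left_kernel`.

Input: `TwoZeroDefs2.HypL20 D 𝒰 ℱ p` (hyper Tate–Nakayama `(2,0)` at the levels `V ∈ ℱ`,
`p`-primary injectivity of inflation in degree 2, `p` kills the level-`V` hyper-2-classes).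
Output: `left_kernel20` — a level hyper-2-cocycle which pairs to a level coboundary with every
lifted invariant is a level hyper-2-coboundary.  No norm/(GEX) input: the norms sit on the
`H⁰`-side.

Also: `hpAt20_datum` (the field `HpAt` of `HypL20` for `K(P; C)`, `p M = 0`, by the homotopy
`h : P₀ → P₁`), the assembly `hypL20_datum`, and the generic-`k` wrappers `TN20lAtDatum`,
`HypL20Datum` (statements about the base modules only, usable at `k = ℤ`).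
-/
import Mathlib
import Fermat.Agent.ES.T56.TwoZeroDescend18
import Fermat.Agent.PT.PRO.HpAt29

set_option autoImplicit false

namespace Fermat.Agent.ES.T56.TwoZeroLimit18

open Fermat.Agent.PT.PRO.HyperLevel25 Fermat.Agent.PT.PRO.Pairing20
  Fermat.Agent.PT.PRO.GlobalDuality20 Fermat.Agent.PT.PRO.HyperColim18
  Fermat.Agent.PT.PRO.HyperColimP18 Fermat.Agent.PT.PRO.IndRes20
  Fermat.Agent.PT.PRO.DescendRes18 Fermat.Agent.ES.T56.TwoZeroDefs2
  Fermat.Agent.ES.T56.TwoZeroDescend18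

variable {k : Type*} [CommRing k] {G : Type*} [Group G]

/-! ### Level 2-cochains with values in a discrete module -/

section Level

variable {𝒰 : Set (Subgroup G)} {Y : Type*} [AddCommGroup Y] [Module k Y]

/-- A level 2-cochain with values in a discrete module is invariant under, and has all its values
fixed by, some normal `W ∈ 𝒰`. -/
lemma exists_normal_fixing₂ (h𝒰 : IsLevelBasis 𝒰) {ρ : Representation k G Y}
    (hρ : IsDiscrete 𝒰 ρ) {c : G × G → Y} (hc : IsLevel₂ 𝒰 c) :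
    ∃ W ∈ 𝒰, W.Normal ∧ (∀ g g' s s', s ∈ W → s' ∈ W → c (g * s, g' * s') = c (g, g')) ∧
      ∀ q s, s ∈ W → ρ s (c q) = c q := by
  obtain ⟨U, hU, hcU⟩ := hc
  have := h𝒰.finiteIndex U hU
  have : Finite (G ⧸ U) := Subgroup.finite_quotient_of_finiteIndex
  choose V hV𝒰 hVfix using hρ
  obtain ⟨W₀, hW₀, hW₀le⟩ := h𝒰.exists_le_of_finite
    (fun q : (G ⧸ U) × (G ⧸ U) => V (c (q.1.out, q.2.out))) (fun q => hV𝒰 _)
  obtain ⟨W₁, hW₁, hW₁le⟩ := h𝒰.inf W₀ hW₀ U hU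
  obtain ⟨W, hW, hWle, hWn⟩ := h𝒰.normal W₁ hW₁
  have hrep : ∀ g g' : G, c (g, g') =
      c ((QuotientGroup.mk (s := U) g).out, (QuotientGroup.mk (s := U) g').out) := by
    intro g g'
    have hmem : ∀ a : G, ((QuotientGroup.mk (s := U) a).out)⁻¹ * a ∈ U := fun a => by
      rw [← QuotientGroup.eq]
      exact QuotientGroup.out_eq' _
    have := hcU (QuotientGroup.mk (s := U) g).out (QuotientGroup.mk (s := U) g').out _ _
      (hmem g) (hmem g')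
    rw [mul_inv_cancel_left, mul_inv_cancel_left] at this
    exact this
  refine ⟨W, hW, hWn, fun g g' s s' hs hs' =>
    hcU g g' s s' ((hWle.trans hW₁le) hs).2 ((hWle.trans hW₁le) hs').2, fun q s hs => ?_⟩
  obtain ⟨g, g'⟩ := q
  rw [hrep g g']
  exact hVfix _ s
    (hW₀le ((QuotientGroup.mk (s := U) g), (QuotientGroup.mk (s := U) g'))
      (((hWle.trans hW₁le) hs).1))

end Level

variable {Y0 Y1 F0 F1 A X : Type*}
  [AddCommGroup Y0] [Module k Y0] [AddCommGroup Y1] [Module k Y1]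
  [AddCommGroup F0] [Module k F0] [AddCommGroup F1] [Module k F1]
  [AddCommGroup A] [Module k A] [AddCommGroup X] [Module k X]

variable {D : Datum k G Y0 Y1 F0 F1 A X} {𝒰 ℱ : Set (Subgroup G)} {p : ℕ}

/-! ### Level-`V` pairings -/

lemma conj_mem' {V : Subgroup G} (hV : V.Normal) {t : G} (ht : t ∈ V) (g : G) :
    g⁻¹ * t * g ∈ V := by
  have := hV.conj_mem t ht g⁻¹
  simpa using this

/-- The `(2,0)` pairing of level-`V` data is a level-`V` 2-cochain (`V` normal). -/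
lemma isLevelAt₂_pair20Fun {V : Subgroup G} (hV : V.Normal) {c2 : G × G → Y0} {c1 : G → Y1}
    (hcy : IsHyper2At D V c2 c1) {mt : F0} {z' : G → F1} (hz : IsLift0At D V mt z') :
    IsLevelAt₂ D.ρX V (pair20Fun D c2 c1 mt z') := by
  obtain ⟨-, hc2, hc1⟩ := hcy
  obtain ⟨-, hmt, hz'⟩ := hz
  refine ⟨fun g g' s s' hs hs' => ?_, fun q t ht => ?_⟩
  · simp only [pair20Fun_apply]
    have e1 : g * s * (g' * s') = g * g' * ((g'⁻¹ * s * g') * s') := by group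
    have e2 : D.ρF0 (g * s * (g' * s')) mt = D.ρF0 (g * g') mt := by
      rw [e1, map_mul, Module.End.mul_apply, hmt _ (V.mul_mem (conj_mem' hV hs g') hs')]
    have e3 : D.ρF1 (g * s) (z' g') = D.ρF1 g (z' g') := by
      rw [map_mul, Module.End.mul_apply, hz'.2 g' s hs]
    rw [hc2.1 g g' s s' hs hs', hc1.1 g s hs, hz'.1 g' s' hs', e2, e3]
  · obtain ⟨g, h⟩ := q
    simp only [pair20Fun_apply, map_sub]
    rw [← D.ev0_comm, ← D.ev1_comm, hc2.2 (g, h) t ht, hc1.2 g t ht]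
    have h1 : t * (g * h) = g * h * ((g * h)⁻¹ * t * (g * h)) := by group
    have h2 : t * g = g * (g⁻¹ * t * g) := by group
    have e2 : D.ρF0 t (D.ρF0 (g * h) mt) = D.ρF0 (g * h) mt := by
      rw [← Module.End.mul_apply, ← map_mul, h1, map_mul, Module.End.mul_apply,
        hmt _ (conj_mem' hV ht (g * h))]
    have e3 : D.ρF1 t (D.ρF1 g (z' h)) = D.ρF1 g (z' h) := by
      rw [← Module.End.mul_apply, ← map_mul, h2, map_mul, Module.End.mul_apply,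
        hz'.2 h _ (conj_mem' hV ht g)]
    rw [e2, e3]

/-- The cochain `a ↦ ev₀ (b a) (a • m̃) + ev₁ e (z' a)` of level-`V` data is of level `V`. -/
lemma isLevelAt₁_hbdry_pairing {V : Subgroup G} (hV : V.Normal) {b : G → Y0} {e : Y1}
    (hb : IsLevelAt₁ D.ρY0 V b) (he : FixedBy D.ρY1 V e) {mt : F0} {z' : G → F1}
    (hz : IsLift0At D V mt z') :
    IsLevelAt₁ D.ρX V (fun a => D.ev0 (b a) (D.ρF0 a mt) + D.ev1 e (z' a)) := by
  obtain ⟨-, hmt, hz'⟩ := hz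
  refine ⟨fun g s hs => ?_, fun g t ht => ?_⟩
  · show D.ev0 (b (g * s)) (D.ρF0 (g * s) mt) + D.ev1 e (z' (g * s)) =
      D.ev0 (b g) (D.ρF0 g mt) + D.ev1 e (z' g)
    rw [hb.1 g s hs, hz'.1 g s hs, map_mul, Module.End.mul_apply, hmt s hs]
  · show D.ρX t (D.ev0 (b g) (D.ρF0 g mt) + D.ev1 e (z' g)) =
      D.ev0 (b g) (D.ρF0 g mt) + D.ev1 e (z' g)
    rw [map_add, ← D.ev0_comm, ← D.ev1_comm, hb.2 g t ht, he t ht, hz'.2 g t ht]
    have h2 : t * g = g * (g⁻¹ * t * g) := by group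
    rw [← Module.End.mul_apply, ← map_mul, h2, map_mul, Module.End.mul_apply,
      hmt _ (conj_mem' hV ht g)]

/-- `p` times the pairing of level-`V` data is a level-`V` coboundary. -/
lemma hypL20_smul_pair20Fun (H : HypL20 D 𝒰 ℱ p) {V : Subgroup G} (hV : V ∈ ℱ)
    {c2 : G × G → Y0} {c1 : G → Y1} (hcy : IsHyper2At D V c2 c1) {mt : F0} {z' : G → F1}
    (hz : IsLift0At D V mt z') :
    ∃ u, IsLevelAt₁ D.ρX V u ∧ (p : k) • pair20Fun D c2 c1 mt z' = dOne D.ρX u := by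
  obtain ⟨b, e, hb, he, h2, h1⟩ := H.HpAt V hV c2 c1 hcy
  refine ⟨fun a => D.ev0 (b a) (D.ρF0 a mt) + D.ev1 e (z' a),
    isLevelAt₁_hbdry_pairing (H.normal V hV) hb he hz, ?_⟩
  rw [← pair20Fun_smul_left, h2, h1, pair20Fun_hbdry D b e hz.1]

/-- Level cochains with values in discrete modules are of level `V` for some `V ∈ ℱ`. -/
lemma hypL20_exists_levelAt (h𝒰 : IsLevelBasis 𝒰) (H : HypL20 D 𝒰 ℱ p)
    (hY0 : IsDiscrete 𝒰 D.ρY0) (hY1 : IsDiscrete 𝒰 D.ρY1) {c2 : G × G → Y0} {c1 : G → Y1}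
    (hc2 : IsLevel₂ 𝒰 c2) (hc1 : IsLevel₁ 𝒰 c1) :
    ∃ V ∈ ℱ, IsLevelAt₂ D.ρY0 V c2 ∧ IsLevelAt₁ D.ρY1 V c1 := by
  obtain ⟨W₂, hW₂, -, h21, h22⟩ := exists_normal_fixing₂ h𝒰 hY0 hc2
  obtain ⟨W₁, hW₁, -, h11, h12⟩ := h𝒰.exists_normal_fixing hY1 hc1
  obtain ⟨W, hW, hle⟩ := h𝒰.inf W₂ hW₂ W₁ hW₁
  obtain ⟨V, hV, hVle⟩ := H.cofinal W hW
  have hV2 : V ≤ W₂ := hVle.trans (hle.trans inf_le_left)
  have hV1 : V ≤ W₁ := hVle.trans (hle.trans inf_le_right)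
  exact ⟨V, hV,
    ⟨fun g g' s s' hs hs' => h21 g g' s s' (hV2 hs) (hV2 hs'), fun q s hs => h22 q s (hV2 hs)⟩,
    ⟨fun g s hs => h11 g s (hV1 hs), fun g s hs => h12 g s (hV1 hs)⟩⟩

/-! ### The limit argument -/

/-- **Left kernel, degree `(2,0)`.**  A level hyper-2-cocycle which pairs to a level coboundary
with every lifted invariant is a level hyper-2-coboundary. -/
theorem left_kernel20 (h𝒰 : IsLevelBasis 𝒰) (H : HypL20 D 𝒰 ℱ p) (hY0 : IsDiscrete 𝒰 D.ρY0)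
    (hY1 : IsDiscrete 𝒰 D.ρY1) {c2 : G × G → Y0} {c1 : G → Y1} (hcy : IsHyper2 D c2 c1)
    (hc2 : IsLevel₂ 𝒰 c2) (hc1 : IsLevel₁ 𝒰 c1)
    (hpair : ∀ mt z', IsLift0 D mt z' →
      ∃ u, IsLevel₁ 𝒰 u ∧ pair20Fun D c2 c1 mt z' = dOne D.ρX u) :
    ∃ (b : G → Y0) (e : Y1), IsLevel₁ 𝒰 b ∧ c2 = hbdryC2 D b ∧ c1 = hbdryC1 D b e := by
  obtain ⟨V, hV, hc2V, hc1V⟩ := hypL20_exists_levelAt h𝒰 H hY0 hY1 hc2 hc1
  have hVn := H.normal V hV
  have hcyV : IsHyper2At D V c2 c1 := ⟨hcy, hc2V, hc1V⟩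
  obtain ⟨b, e, hb, -, h2, h1⟩ := H.TNl V hV c2 c1 hcyV (fun mt z' hz => by
    obtain ⟨u, hu, hpu⟩ := hpair mt z' hz.1
    exact H.INJ2p V hV _ (isLevelAt₂_pair20Fun hVn hcyV hz) (hypL20_smul_pair20Fun H hV hcyV hz)
      ⟨u, hu, hpu⟩)
  exact ⟨b, e, hb.isLevel₁ (H.sub hV), h2, h1⟩

/-! ### The complex `K(P; C)`: the field `HpAt` and the assembly -/

section Datum

variable {P1 P0 M C : Type*} [AddCommGroup P1] [Module k P1]
  [AddCommGroup P0] [Module k P0] [AddCommGroup M] [Module k M] [AddCommGroup C] [Module k C]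

/-- `c ∘ h` is of level `V` if `c` is (`h` equivariant). -/
lemma isLevelAt₁_comp_homotopy (R : Res k G P1 P0 M) (ρC : Representation k G C)
    (h : P0 →ₗ[k] P1) (he : ∀ g x, h (R.ρ0 g x) = R.ρ1 g (h x)) {V : Subgroup G}
    {c1 : G → (P1 →ₗ[k] C)} (hc1 : IsLevelAt₁ (R.datum ρC).ρY1 V c1) :
    IsLevelAt₁ (R.datum ρC).ρY0 V (fun g => c1 g ∘ₗ h) :=
  ⟨fun g s hs => by
      show c1 (g * s) ∘ₗ h = c1 g ∘ₗ h
      rw [hc1.1 g s hs],
    fun g => Fermat.Agent.PT.PRO.HpAt29.fixedBy_comp_homotopy R ρC h he (hc1.2 g)⟩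

/-- **The field `HpAt` of `HypL20`** for `K(P; C)`, `p M = 0`: `p • (c₂, c₁) = D¹ (c₁ ∘ h, 0)`. -/
theorem hpAt20_datum (R : Res k G P1 P0 M) (ρC : Representation k G C) (p : ℕ)
    (hp : ∀ m : M, (p : k) • m = 0) (V : Subgroup G) (c2 : G × G → (P0 →ₗ[k] C))
    (c1 : G → (P1 →ₗ[k] C)) (hcy : IsHyper2At (R.datum ρC) V c2 c1) :
    ∃ (b : G → (P0 →ₗ[k] C)) (e : P1 →ₗ[k] C), IsLevelAt₁ (R.datum ρC).ρY0 V b ∧
      FixedBy (R.datum ρC).ρY1 V e ∧ (p : k) • c2 = hbdryC2 (R.datum ρC) b ∧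
      (p : k) • c1 = hbdryC1 (R.datum ρC) b e := by
  obtain ⟨h, h1, h2⟩ := Fermat.Agent.PT.PRO.HomCx29.exists_homotopy R.ι R.ι_inj (p : k)
    (Fermat.Agent.PT.PRO.HpAt29.smul_mem_range_ι R (p : k) hp)
  have he := Fermat.Agent.PT.PRO.HomCx29.homotopy_equivariant (ρ0 := R.ρ0) (ρ1 := R.ρ1)
    R.ι R.ι_comm R.ι_inj (p : k) h h1
  have hc2 : ∀ q, c2 q ∘ₗ R.ι = dOne (R.datum ρC).ρY1 c1 q := fun q => congrFun hcy.1.2 q
  refine ⟨fun g => c1 g ∘ₗ h, 0, isLevelAt₁_comp_homotopy R ρC h he hcy.2.2,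
    fun s _ => map_zero _, ?_, ?_⟩
  · -- `p • c₂ = d¹ (c₁ ∘ h)`
    funext q
    obtain ⟨g, j⟩ := q
    refine LinearMap.ext fun x => ?_
    have h3 := LinearMap.congr_fun (hc2 (g, j)) (h x)
    simp only [LinearMap.comp_apply, h1, map_smul, dOne_apply, Res.datum_ρY1,
      LinearMap.add_apply, LinearMap.sub_apply] at h3
    simp only [hbdryC2, Pi.smul_apply, LinearMap.smul_apply, dOne_apply, Res.datum_ρY0,
      LinearMap.add_apply, LinearMap.sub_apply, LinearMap.comp_apply, he]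
    exact h3
  · -- `p • c₁ = (c₁ ∘ h) ∘ ι - d⁰ 0`
    funext g
    refine LinearMap.ext fun z => ?_
    simp only [hbdryC1, Pi.smul_apply, Pi.sub_apply, Function.comp_apply, LinearMap.smul_apply,
      Res.datum_f, LinearMap.comp_apply, h2, map_smul, map_zero, Pi.zero_apply, sub_zero]

/-- **`HypL20` for `K(P; C)`**: from the level-`V` statements `TN20lAt` and "no `p`-torsion in
`H¹(V/V'; C^{V'})`"; the field `HpAt` is `hpAt20_datum`. -/
theorem hypL20_datum (R : Res k G P1 P0 M) (ρC : Representation k G C) {𝒰 ℱ : Set (Subgroup G)}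
    {p : ℕ} (h𝒰 : IsLevelBasis 𝒰) (hp : p.Prime) (hpM : ∀ m : M, (p : k) • m = 0)
    (hC : IsDiscrete 𝒰 ρC)
    (hsub : ℱ ⊆ 𝒰) (hnormal : ∀ V ∈ ℱ, V.Normal) (hcof : ∀ U ∈ 𝒰, ∃ V ∈ ℱ, V ≤ U)
    (hTNl : ∀ V ∈ ℱ, TN20lAt (R.datum ρC) V)
    (hH1 : ∀ V ∈ ℱ, ∀ V' ∈ 𝒰, ∀ _ : V'.Normal, V' ≤ V →
      H1NoPTorsion (fixedRep V' ρC) (V.map (QuotientGroup.mk' V')) p) :
    HypL20 (R.datum ρC) 𝒰 ℱ p :=
  ⟨hsub, hnormal, hcof, hTNl,
    fun V hV => by
      have := hnormal V hV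
      exact inj2pAt_of_noPTorsion h𝒰 ρC hC V (hsub hV) hp (hH1 V hV),
    fun V _ c2 c1 hcy => hpAt20_datum R ρC p hpM V c2 c1 hcy⟩

/-! ### Generic-`k` wrappers (statements about the base modules only) -/

/-- `TN20lAt (R.datum ρC) V`, as a statement about `R`, `ρC`. -/
def TN20lAtDatum (R : Res k G P1 P0 M) (ρC : Representation k G C) (V : Subgroup G) : Prop :=
  TN20lAt (R.datum ρC) V

/-- `FinTN20l (R.datum ρC)`, as a statement about `R`, `ρC` (finite group). -/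
def FinTN20lDatum {Q : Type*} [Group Q] (R : Res k Q P1 P0 M) (ρC : Representation k Q C) :
    Prop :=
  FinTN20l (R.datum ρC)

/-- `HypL20 (R.datum ρC) 𝒰 ℱ p`, as a statement about `R`, `ρC`. -/
def HypL20Datum (R : Res k G P1 P0 M) (ρC : Representation k G C) (𝒰 ℱ : Set (Subgroup G))
    (p : ℕ) : Prop :=
  HypL20 (R.datum ρC) 𝒰 ℱ p

lemma HypL20Datum.hypL20 {R : Res k G P1 P0 M} {ρC : Representation k G C}
    {𝒰 ℱ : Set (Subgroup G)} {p : ℕ} (h : HypL20Datum R ρC 𝒰 ℱ p) :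
    HypL20 (R.datum ρC) 𝒰 ℱ p := h

/-- `FinTN20l` for `K(P; C^V)` over `G ⧸ V` (`V` normal, acting trivially on `P₀`), as a statement
about `R`, `ρC`, `V` (base modules only; usable at `k = ℤ`). -/
def FinTN20lAtQuot (R : Res k G P1 P0 M) (ρC : Representation k G C) (V : Subgroup G)
    [V.Normal] (h0 : ∀ s ∈ V, ∀ x, R.ρ0 s x = x) : Prop :=
  FinTN20l ((resQuot R V h0).datum (fixedRep V ρC))

lemma finTN20lAtQuot_iff (R : Res k G P1 P0 M) (ρC : Representation k G C) (V : Subgroup G)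
    [V.Normal] (h0 : ∀ s ∈ V, ∀ x, R.ρ0 s x = x) :
    FinTN20lAtQuot R ρC V h0 ↔ FinTN20lDatum (resQuot R V h0) (fixedRep V ρC) := Iff.rfl

/-- `TN20lAtDatum` at `V` from the finite-group statement over `G ⧸ V` (`V` normal, acting
trivially on `P₀`). -/
theorem tn20lAtDatum_of_fin (R : Res k G P1 P0 M) (ρC : Representation k G C) (V : Subgroup G)
    [V.Normal] (h0 : ∀ s ∈ V, ∀ x, R.ρ0 s x = x)
    (h : FinTN20lAtQuot R ρC V h0) : TN20lAtDatum R ρC V :=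
  tn20lAt_datum R ρC V h0 h

/-- `HypL20Datum` from the level statements (generic `k`). -/
theorem hypL20Datum_of_at (R : Res k G P1 P0 M) (ρC : Representation k G C)
    {𝒰 ℱ : Set (Subgroup G)} {p : ℕ} (h𝒰 : IsLevelBasis 𝒰) (hp : p.Prime)
    (hpM : ∀ m : M, (p : k) • m = 0) (hC : IsDiscrete 𝒰 ρC)
    (hsub : ℱ ⊆ 𝒰) (hnormal : ∀ V ∈ ℱ, V.Normal) (hcof : ∀ U ∈ 𝒰, ∃ V ∈ ℱ, V ≤ U)
    (hTNl : ∀ V ∈ ℱ, TN20lAtDatum R ρC V)
    (hH1 : ∀ V ∈ ℱ, ∀ V' ∈ 𝒰, ∀ _ : V'.Normal, V' ≤ V →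
      H1NoPTorsion (fixedRep V' ρC) (V.map (QuotientGroup.mk' V')) p) :
    HypL20Datum R ρC 𝒰 ℱ p :=
  hypL20_datum R ρC h𝒰 hp hpM hC hsub hnormal hcof hTNl hH1

end Datum

end Fermat.Agent.ES.T56.TwoZeroLimit18
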