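/-
Programme T (S56), chapter GW (Greenberg–Wiles), brick 3 (global `(2,0)` duality), helper18.

`GlobAlphaTwo18`: the duality map `α² = τ ∘ pair20 : ℍ²(K(P; C)) → Hom(H⁰(G, M), ℤ/p)` and its
properties, the twin of `PairP4` / `InvFund18` (which treat `α¹`).

* Part A (any pairing `B`): `hlev0Equiv` (`H⁰_lev(M) ≃ M^G`), `pair20P` (values in `H²_lev(C)[p]`),
  `alphaTwo τ`, `alphaTwo_eq_zero_iff`, `alphaTwo_injective`, `alphaTwo_right_kernel`,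
  `alphaTwo_surjective`, `card_ℍ2_le` (left kernel ⇒ `#ℍ² ≤ #H⁰`), `card_ℍ2_eq` (both kernels);
* Part B (`K(P; C)`, generic `k`): `pair20_left_kernel_of_hypL20` (the LEFT kernel of `pair20` is
  trivial under `TwoZeroLimit18.HypL20Datum`), the packages `AlphaTwoLeft` / `AlphaTwoPackage`
  and `alphaTwoLeft_of_hypL20`, `alphaTwoPackage_of`, `card_ℍ2_le_of_hypL20`;
* Part C (`k = ℤ`): `hypL20Datum_of_isFundClass` and `alphaTwoLeft_of_isFundClass` — from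
  fundamental classes at the finite levels (hypothesis `hfund` exactly as in `HypPFund18`) and the
  finite-group statements `FinTN20lAtQuot` for `K(P; C^V)` over `G ⧸ V` (supplied by
  `TwoZeroFin2.finTN20l_of` for the canonical resolution).

The RIGHT kernel of the global `pair20` is an explicit hypothesis of `AlphaTwoPackage`: for
`(Γ_S, C_S)` it follows from the local `(2,0)` right kernel and the local–global square (abstractly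
it needs `p^∞ ∣ #G` and is false in general).
-/
import Mathlib
import Fermat.Agent.ES.T56.PairTwoZero18
import Fermat.Agent.ES.T56.TwoZeroLimit18
import Fermat.Agent.PT.PRO.InvFund18

set_option autoImplicit false
set_option linter.style.haveILetI false
set_option linter.unusedSectionVars false

namespace Fermat.Agent.ES.T56.GlobAlphaTwo18

open Function Fermat.Agent.PT.PRO.HyperLevel25 Fermat.Agent.PT.PRO.Resolved4
  Fermat.Agent.PT.PRO.ExtPairing4 Fermat.Agent.PT.PRO.ExtPairingB4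
  Fermat.Agent.PT.PRO.PerfectPairing29 Fermat.Agent.PT.PRO.InvP4 Fermat.Agent.PT.PRO.PairP4
  Fermat.Agent.ES.T56.PairTwoZero18 Fermat.Agent.ES.T56.TwoZeroDefs2
  Fermat.Agent.ES.T56.TwoZeroLimit18

/-! ## Part A: any pairing -/

section Hlev0

variable {k G : Type*} [CommRing k] [Group G] {𝒰 : Set (Subgroup G)}
variable {M : Type*} [AddCommGroup M] [Module k M]

/-- The 0-cocycles of the shifted level complex are the invariants. -/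
lemma lvl0_Z1_eq_invariants (h𝒰 : IsLevelBasis 𝒰) (ρ : Representation k G M)
    (hρ : IsDiscrete 𝒰 ρ) : (lvl0 h𝒰 ρ hρ).Z1 = ρ.invariants := by
  ext m
  rw [mem_lvl0_Z1_iff, Representation.mem_invariants]

/-- `H⁰_lev(G, M)` is the module of invariants. -/
noncomputable def hlev0Equiv (h𝒰 : IsLevelBasis 𝒰) (ρ : Representation k G M)
    (hρ : IsDiscrete 𝒰 ρ) : Hlev0 h𝒰 ρ hρ ≃ₗ[k] ↥ρ.invariants :=
  (LinearEquiv.ofBijective (lvl0 h𝒰 ρ hρ).π1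
    ⟨fun z w h => Subtype.ext ((π1_lvl0_eq_iff h𝒰 ρ hρ z w).1 h),
      (lvl0 h𝒰 ρ hρ).π1_surjective⟩).symm.trans
    (LinearEquiv.ofEq _ _ (lvl0_Z1_eq_invariants h𝒰 ρ hρ))

lemma hlev0Equiv_π1 (h𝒰 : IsLevelBasis 𝒰) (ρ : Representation k G M) (hρ : IsDiscrete 𝒰 ρ)
    (z : (lvl0 h𝒰 ρ hρ).Z1) :
    ((hlev0Equiv h𝒰 ρ hρ ((lvl0 h𝒰 ρ hρ).π1 z) : ↥ρ.invariants) : M) = (z : M) := by
  unfold hlev0Equiv
  rw [LinearEquiv.trans_apply]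
  have h1 : (LinearEquiv.ofBijective (lvl0 h𝒰 ρ hρ).π1
      ⟨fun z w h => Subtype.ext ((π1_lvl0_eq_iff h𝒰 ρ hρ z w).1 h),
        (lvl0 h𝒰 ρ hρ).π1_surjective⟩).symm ((lvl0 h𝒰 ρ hρ).π1 z) = z :=
    (LinearEquiv.symm_apply_eq _).2 rfl
  rw [h1]
  rfl

/-- `n M = 0 ⇒ n H⁰_lev(M) = 0`. -/
theorem nsmul_Hlev0_eq_zero (h𝒰 : IsLevelBasis 𝒰) (ρ : Representation k G M)
    (hρ : IsDiscrete 𝒰 ρ) (n : ℕ) (hM : ∀ m : M, n • m = 0) (x : Hlev0 h𝒰 ρ hρ) : n • x = 0 := by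
  obtain ⟨z, rfl⟩ := (lvl0 h𝒰 ρ hρ).π1_surjective x
  rw [← map_nsmul]
  have : n • z = 0 := Subtype.ext (hM _)
  rw [this, map_zero]

/-- `H⁰_lev(M)` is finite when `M` is. -/
lemma finite_Hlev0 [Finite M] (h𝒰 : IsLevelBasis 𝒰) (ρ : Representation k G M)
    (hρ : IsDiscrete 𝒰 ρ) : Finite (Hlev0 h𝒰 ρ hρ) :=
  Finite.of_equiv _ (hlev0Equiv h𝒰 ρ hρ).symm.toEquiv

/-- `#H⁰_lev(M) = #M^G`. -/
lemma card_Hlev0 (h𝒰 : IsLevelBasis 𝒰) (ρ : Representation k G M) (hρ : IsDiscrete 𝒰 ρ) :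
    Nat.card (Hlev0 h𝒰 ρ hρ) = Nat.card ↥ρ.invariants :=
  Nat.card_congr (hlev0Equiv h𝒰 ρ hρ).toEquiv

end Hlev0

section Alpha

variable {k G : Type*} [CommRing k] [Group G] {𝒰 : Set (Subgroup G)}
variable {Y0 Y1 P1 P0 M C : Type*}
  [AddCommGroup Y0] [Module k Y0] [AddCommGroup Y1] [Module k Y1]
  [AddCommGroup P1] [Module k P1] [AddCommGroup P0] [Module k P0]
  [AddCommGroup M] [Module k M] [AddCommGroup C] [Module k C]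
variable {Y : Cx k 𝒰 Y0 Y1} {P : Resolved k 𝒰 P1 P0 M} {ρC : Representation k G C}
variable (B : Pairing Y P ρC) (h𝒰 : IsLevelBasis 𝒰) (hC : IsDiscrete 𝒰 ρC)
variable {p : ℕ}

/-- The pairing `pair20` with values in the `p`-torsion of `H²_lev(C)` (`p M = 0`). -/
noncomputable def pair20P (hpM : ∀ m : M, p • m = 0) :
    Y.ℍ2 h𝒰 →+ Hlev0 h𝒰 P.ρM P.discM →+ pTor p (Hlev2 h𝒰 ρC hC) :=
  corestrictP p (ofLinear (pair20 B h𝒰 hC)) (nsmul_Hlev0_eq_zero h𝒰 P.ρM P.discM p hpM)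

@[simp] lemma coe_pair20P (hpM : ∀ m : M, p • m = 0) (ξ : Y.ℍ2 h𝒰)
    (x : Hlev0 h𝒰 P.ρM P.discM) :
    ((pair20P B h𝒰 hC hpM ξ x : pTor p (Hlev2 h𝒰 ρC hC)) : Hlev2 h𝒰 ρC hC) =
      pair20 B h𝒰 hC ξ x := rfl

lemma pair20P_eq_zero_iff (hpM : ∀ m : M, p • m = 0) (ξ : Y.ℍ2 h𝒰)
    (x : Hlev0 h𝒰 P.ρM P.discM) :
    pair20P B h𝒰 hC hpM ξ x = 0 ↔ pair20 B h𝒰 hC ξ x = 0 := by
  rw [Subtype.ext_iff, coe_pair20P, AddSubgroup.coe_zero]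

variable [Fact p.Prime]

/-- The duality map `α² : ℍ²(Y) →+ Hom(H⁰_lev(M), ℤ/p)`, `ξ ↦ τ ∘ pair20P ξ`. -/
noncomputable def alphaTwo (hpM : ∀ m : M, p • m = 0)
    (τ : pTor p (Hlev2 h𝒰 ρC hC) →+ ZMod p) :
    Y.ℍ2 h𝒰 →+ (Hlev0 h𝒰 P.ρM P.discM →+ ZMod p) :=
  toDual (pair20P B h𝒰 hC hpM) τ

@[simp] theorem alphaTwo_apply (hpM : ∀ m : M, p • m = 0)
    (τ : pTor p (Hlev2 h𝒰 ρC hC) →+ ZMod p) (ξ : Y.ℍ2 h𝒰) (x : Hlev0 h𝒰 P.ρM P.discM) :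
    alphaTwo B h𝒰 hC hpM τ ξ x = τ (pair20P B h𝒰 hC hpM ξ x) := rfl

/-- With `τ` injective, `α² ξ x = 0` iff the pairing of the classes vanishes. -/
theorem alphaTwo_eq_zero_iff (hpM : ∀ m : M, p • m = 0)
    (τ : pTor p (Hlev2 h𝒰 ρC hC) →+ ZMod p) (hτ : Injective τ) (ξ : Y.ℍ2 h𝒰)
    (x : Hlev0 h𝒰 P.ρM P.discM) :
    alphaTwo B h𝒰 hC hpM τ ξ x = 0 ↔ pair20 B h𝒰 hC ξ x = 0 := by
  rw [alphaTwo_apply, ← pair20P_eq_zero_iff B h𝒰 hC hpM]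
  constructor
  · intro h
    exact hτ (by rw [h, map_zero])
  · intro h
    rw [h, map_zero]

/-- Left kernel: `α²` is injective as soon as the left kernel of `pair20` is trivial. -/
theorem alphaTwo_injective (hpM : ∀ m : M, p • m = 0)
    (τ : pTor p (Hlev2 h𝒰 ρC hC) →+ ZMod p) (hτ : Injective τ)
    (hl : ∀ ξ : Y.ℍ2 h𝒰, (∀ x, pair20 B h𝒰 hC ξ x = 0) → ξ = 0) :
    Injective (alphaTwo B h𝒰 hC hpM τ) :=
  injective_of_left_kernel (pair20P B h𝒰 hC hpM) τ (injOnTorsion_of_injective τ hτ)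
    (nsmul_Hlev0_eq_zero h𝒰 P.ρM P.discM p hpM)
    (fun ξ h => hl ξ fun x => (pair20P_eq_zero_iff B h𝒰 hC hpM ξ x).1 (h x))

/-- Right kernel: if `α² ξ x = 0` for all `ξ` then `x = 0`, as soon as the right kernel of
`pair20` is trivial. -/
theorem alphaTwo_right_kernel (hpM : ∀ m : M, p • m = 0)
    (τ : pTor p (Hlev2 h𝒰 ρC hC) →+ ZMod p) (hτ : Injective τ)
    (hr : ∀ x : Hlev0 h𝒰 P.ρM P.discM, (∀ ξ, pair20 B h𝒰 hC ξ x = 0) → x = 0)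
    (x : Hlev0 h𝒰 P.ρM P.discM) (h : ∀ ξ, alphaTwo B h𝒰 hC hpM τ ξ x = 0) : x = 0 :=
  hr x fun ξ => (alphaTwo_eq_zero_iff B h𝒰 hC hpM τ hτ ξ x).1 (h ξ)

/-- Surjectivity of `α²` from the right kernel. -/
theorem alphaTwo_surjective [Finite (Hlev0 h𝒰 P.ρM P.discM)] (hpM : ∀ m : M, p • m = 0)
    (τ : pTor p (Hlev2 h𝒰 ρC hC) →+ ZMod p) (hτ : Injective τ)
    (hr : ∀ x : Hlev0 h𝒰 P.ρM P.discM, (∀ ξ, pair20 B h𝒰 hC ξ x = 0) → x = 0) :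
    Surjective (alphaTwo B h𝒰 hC hpM τ) :=
  surjective_of_right_kernel (pair20P B h𝒰 hC hpM) τ (injOnTorsion_of_injective τ hτ)
    (nsmul_Hlev0_eq_zero h𝒰 P.ρM P.discM p hpM)
    (fun x h => hr x fun ξ => (pair20P_eq_zero_iff B h𝒰 hC hpM ξ x).1 (h ξ))

/-- **Upper bound**: if the left kernel of `pair20` is trivial, then `ℍ²(Y)` is finite with
`#ℍ²(Y) ≤ #H⁰_lev(M)`. -/
theorem card_ℍ2_le [Finite (Hlev0 h𝒰 P.ρM P.discM)] (hpM : ∀ m : M, p • m = 0)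
    (τ : pTor p (Hlev2 h𝒰 ρC hC) →+ ZMod p) (hτ : Injective τ)
    (hl : ∀ ξ : Y.ℍ2 h𝒰, (∀ x, pair20 B h𝒰 hC ξ x = 0) → ξ = 0) :
    Finite (Y.ℍ2 h𝒰) ∧ Nat.card (Y.ℍ2 h𝒰) ≤ Nat.card (Hlev0 h𝒰 P.ρM P.discM) := by
  have hinj := alphaTwo_injective B h𝒰 hC hpM τ hτ hl
  haveI : Finite (Hlev0 h𝒰 P.ρM P.discM →+ ZMod p) := finite_addMonoidHom_zmod
  have hfin : Finite (Y.ℍ2 h𝒰) := Finite.of_injective _ hinj
  refine ⟨hfin, ?_⟩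
  rw [← card_addMonoidHom_zmod (p := p) (nsmul_Hlev0_eq_zero h𝒰 P.ρM P.discM p hpM)]
  exact Nat.card_le_card_of_injective _ hinj

/-- **Equality**: if both kernels of `pair20` are trivial, `#ℍ²(Y) = #H⁰_lev(M)`. -/
theorem card_ℍ2_eq [Finite (Hlev0 h𝒰 P.ρM P.discM)] (hpM : ∀ m : M, p • m = 0)
    (τ : pTor p (Hlev2 h𝒰 ρC hC) →+ ZMod p) (hτ : Injective τ)
    (hl : ∀ ξ : Y.ℍ2 h𝒰, (∀ x, pair20 B h𝒰 hC ξ x = 0) → ξ = 0)
    (hr : ∀ x : Hlev0 h𝒰 P.ρM P.discM, (∀ ξ, pair20 B h𝒰 hC ξ x = 0) → x = 0) :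
    Finite (Y.ℍ2 h𝒰) ∧ Nat.card (Y.ℍ2 h𝒰) = Nat.card (Hlev0 h𝒰 P.ρM P.discM) :=
  card_eq_of_nondegenerate (pair20P B h𝒰 hC hpM) τ (injOnTorsion_of_injective τ hτ)
    (nsmul_Hlev0_eq_zero h𝒰 P.ρM P.discM p hpM)
    (fun ξ h => hl ξ fun x => (pair20P_eq_zero_iff B h𝒰 hC hpM ξ x).1 (h x))
    (fun x h => hr x fun ξ => (pair20P_eq_zero_iff B h𝒰 hC hpM ξ x).1 (h ξ))

end Alpha

/-! ## Part B: `K(P; C)`, generic `k` -/

section PackageGeneric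

open Fermat.Agent.PT.PRO.Setup20 Fermat.Agent.PT.PRO.Objects20 Fermat.Agent.PT.PRO.IndRes20

variable {k : Type} [CommRing k] {G : Type} [Group G] {P1 P0 M C : Type}
  [AddCommGroup P1] [Module k P1] [AddCommGroup P0] [Module k P0] [AddCommGroup M] [Module k M]
  [AddCommGroup C] [Module k C] [Module.Finite k P0] [Module.Finite k P1]

/-- **Left kernel of the `(2,0)` pairing of `K(P; C)`** under the finite-level hypotheses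
`HypL20Datum`. -/
theorem pair20_left_kernel_of_hypL20 (R : Res k G P1 P0 M) {𝒰 ℱ : Set (Subgroup G)}
    (h0 : IsDiscrete 𝒰 R.ρ0) (h𝒰 : IsLevelBasis 𝒰) (ρC : Representation k G C)
    (hC : IsDiscrete 𝒰 ρC) {p : ℕ} (H : HypL20Datum R ρC 𝒰 ℱ p)
    (ξ : (KX R h0 h𝒰 ρC hC).ℍ2 h𝒰)
    (h : ∀ x, pair20 (evP R h0 h𝒰 ρC hC) h𝒰 hC ξ x = 0) : ξ = 0 := by
  refine pair20_left_kernel_of_raw (evP R h0 h𝒰 ρC hC) h𝒰 hC
    (fun c2 c1 hl2 hl1 hc2 hc1 hpair => ?_) ξ h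
  have H' : HypL20 (toDatum (evP R h0 h𝒰 ρC hC)) 𝒰 ℱ p := H.hypL20
  obtain ⟨b, e, hb, h2, h1⟩ := left_kernel20 (D := toDatum (evP R h0 h𝒰 ρC hC)) h𝒰 H'
    (KX R h0 h𝒰 ρC hC).disc0 (KX R h0 h𝒰 ρC hC).disc1
    ⟨funext fun q => hc2 q.1 q.2.1 q.2.2, funext fun q => hc1 q.1 q.2⟩ hl2 hl1
    (fun mt z' hz => by
      obtain ⟨u, hu, hpu⟩ := hpair mt z' hz
      exact ⟨u, hu, hpu.symm⟩)
  exact ⟨b, e, hb, h2, h1⟩

variable (R : Res k G P1 P0 M) {𝒰 : Set (Subgroup G)} (h0 : IsDiscrete 𝒰 R.ρ0)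
  (h𝒰 : IsLevelBasis 𝒰) (ρC : Representation k G C) (hC : IsDiscrete 𝒰 ρC) (p : ℕ)
  [Fact p.Prime] (hpM : ∀ m : M, p • m = 0)

/-- **The LEFT half of the `(2,0)` duality package** for `K(P; C)` (generic `k`, base modules
only): an injective `τ : H²_lev(C)[p] →+ ℤ/p` such that
`α² := τ ∘ pair20 : ℍ²(K(P; C)) →+ Hom(H⁰_lev(M), ℤ/p)` is injective and vanishes exactly where
`pair20` does. -/
def AlphaTwoLeft : Prop :=
  ∃ τ : pTor p (Hlev2 h𝒰 ρC hC) →+ ZMod p, Function.Injective τ ∧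
    Function.Injective (alphaTwo (evP R h0 h𝒰 ρC hC) h𝒰 hC hpM τ) ∧
    ∀ (ξ : (KX R h0 h𝒰 ρC hC).ℍ2 h𝒰)
      (x : Hlev0 h𝒰 (toResolved R h0).ρM (toResolved R h0).discM),
      alphaTwo (evP R h0 h𝒰 ρC hC) h𝒰 hC hpM τ ξ x = 0 ↔
        pair20 (evP R h0 h𝒰 ρC hC) h𝒰 hC ξ x = 0

/-- **The full `(2,0)` duality package**: `AlphaTwoLeft` plus trivial right kernel. -/
def AlphaTwoPackage : Prop :=
  ∃ τ : pTor p (Hlev2 h𝒰 ρC hC) →+ ZMod p, Function.Injective τ ∧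
    Function.Injective (alphaTwo (evP R h0 h𝒰 ρC hC) h𝒰 hC hpM τ) ∧
    (∀ x : Hlev0 h𝒰 (toResolved R h0).ρM (toResolved R h0).discM,
      (∀ ξ, alphaTwo (evP R h0 h𝒰 ρC hC) h𝒰 hC hpM τ ξ x = 0) → x = 0) ∧
    ∀ (ξ : (KX R h0 h𝒰 ρC hC).ℍ2 h𝒰)
      (x : Hlev0 h𝒰 (toResolved R h0).ρM (toResolved R h0).discM),
      alphaTwo (evP R h0 h𝒰 ρC hC) h𝒰 hC hpM τ ξ x = 0 ↔
        pair20 (evP R h0 h𝒰 ρC hC) h𝒰 hC ξ x = 0

variable {R h0 h𝒰 ρC hC p hpM}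

/-- The left package from `HypL20Datum` and an invariant map. -/
theorem alphaTwoLeft_of_hypL20 {ℱ : Set (Subgroup G)} (H : HypL20Datum R ρC 𝒰 ℱ p)
    (hτ : ∃ τ : pTor p (Hlev2 h𝒰 ρC hC) →+ ZMod p, Function.Injective τ) :
    AlphaTwoLeft R h0 h𝒰 ρC hC p hpM := by
  obtain ⟨τ, hτ⟩ := hτ
  exact ⟨τ, hτ,
    alphaTwo_injective _ h𝒰 hC hpM τ hτ
      (fun ξ h => pair20_left_kernel_of_hypL20 R h0 h𝒰 ρC hC H ξ h),
    fun ξ x => alphaTwo_eq_zero_iff _ h𝒰 hC hpM τ hτ ξ x⟩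

/-- The full package from the left package and the right kernel of `pair20`. -/
theorem alphaTwoPackage_of (hL : AlphaTwoLeft R h0 h𝒰 ρC hC p hpM)
    (hr : ∀ x : Hlev0 h𝒰 (toResolved R h0).ρM (toResolved R h0).discM,
      (∀ ξ, pair20 (evP R h0 h𝒰 ρC hC) h𝒰 hC ξ x = 0) → x = 0) :
    AlphaTwoPackage R h0 h𝒰 ρC hC p hpM := by
  obtain ⟨τ, hτ, hinj, hiff⟩ := hL
  exact ⟨τ, hτ, hinj, fun x h => hr x fun ξ => (hiff ξ x).1 (h ξ), hiff⟩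

/-- **Numerically, upper bound**: `#ℍ²(K(P; C)) ≤ #M^G` from the left package (`M` finite). -/
theorem card_ℍ2_le_of_left [Finite M] (hL : AlphaTwoLeft R h0 h𝒰 ρC hC p hpM) :
    Finite ((KX R h0 h𝒰 ρC hC).ℍ2 h𝒰) ∧
      Nat.card ((KX R h0 h𝒰 ρC hC).ℍ2 h𝒰) ≤ Nat.card ↥R.ρM.invariants := by
  obtain ⟨τ, hτ, hinj, hiff⟩ := hL
  haveI : Finite (Hlev0 h𝒰 (toResolved R h0).ρM (toResolved R h0).discM) :=
    finite_Hlev0 h𝒰 _ _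
  have h1 := card_ℍ2_le (evP R h0 h𝒰 ρC hC) h𝒰 hC hpM τ hτ (fun ξ h => by
    apply hinj
    rw [map_zero]
    ext x
    exact (hiff ξ x).2 (h x))
  refine ⟨h1.1, h1.2.trans_eq ?_⟩
  exact card_Hlev0 h𝒰 (toResolved R h0).ρM (toResolved R h0).discM

/-- **Numerically**: `#ℍ²(K(P; C)) = #M^G` from the full package (`M` finite). -/
theorem card_ℍ2_eq_of_package [Finite M] (hP : AlphaTwoPackage R h0 h𝒰 ρC hC p hpM) :
    Finite ((KX R h0 h𝒰 ρC hC).ℍ2 h𝒰) ∧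
      Nat.card ((KX R h0 h𝒰 ρC hC).ℍ2 h𝒰) = Nat.card ↥R.ρM.invariants := by
  obtain ⟨τ, hτ, hinj, hrk, hiff⟩ := hP
  haveI : Finite (Hlev0 h𝒰 (toResolved R h0).ρM (toResolved R h0).discM) :=
    finite_Hlev0 h𝒰 _ _
  have h1 := card_ℍ2_eq (evP R h0 h𝒰 ρC hC) h𝒰 hC hpM τ hτ (fun ξ h => by
    apply hinj
    rw [map_zero]
    ext x
    exact (hiff ξ x).2 (h x))
    (fun x h => hrk x fun ξ => (hiff ξ x).2 (h ξ))
  refine ⟨h1.1, h1.2.trans ?_⟩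
  exact card_Hlev0 h𝒰 (toResolved R h0).ρM (toResolved R h0).discM

end PackageGeneric

/-! ## Part C: `k = ℤ`, from fundamental classes -/

section PackageInt

open Fermat.Agent.PT.PRO.IndRes20 Fermat.Agent.PT.PRO.DescendRes18
  Fermat.Agent.PT.PRO.HyperColim18 Fermat.Agent.PT.PRO.FundRaw18
  Fermat.Agent.PT.PRO.InvFund18 Fermat.Agent.PT.FG.Interface8
open groupCohomology

variable {G : Type} [Group G] {P1 P0 M C : Type}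
  [AddCommGroup P1] [Module ℤ P1] [AddCommGroup P0] [Module ℤ P0] [AddCommGroup M] [Module ℤ M]
  [AddCommGroup C] [Module ℤ C]

/-- **`HypL20` for `K(P; C)` from fundamental classes at the finite levels** and the finite-group
left-kernel statements for `K(P; C^V)` over `G ⧸ V`, `V ∈ ℱ`. -/
theorem hypL20Datum_of_isFundClass (R : Res ℤ G P1 P0 M) (ρC : Representation ℤ G C)
    {𝒰 ℱ : Set (Subgroup G)} {p : ℕ} [Fact p.Prime] (h𝒰 : IsLevelBasis 𝒰)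
    (hpM : ∀ m : M, p • m = 0) (hC : IsDiscrete 𝒰 ρC)
    (hsub : ℱ ⊆ 𝒰) (hnormal : ∀ V ∈ ℱ, V.Normal) (hcof : ∀ U ∈ 𝒰, ∃ V ∈ ℱ, V ≤ U)
    (htriv : ∀ V ∈ ℱ, ∀ s ∈ V, ∀ x, R.ρ0 s x = x)
    (hfund : ∀ V ∈ 𝒰, ∀ hn : V.Normal, haveI := hn;
      ∃ u : H2 (fixedObj V ρC), IsFundClass p (fixedObj V ρC) u)
    (hfin : ∀ V (hV : V ∈ ℱ), haveI := hnormal V hV;
      FinTN20lAtQuot R ρC V (htriv V hV)) :
    HypL20Datum R ρC 𝒰 ℱ p :=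
  hypL20Datum_of_at R ρC h𝒰 Fact.out (fun m => (Nat.cast_smul_eq_nsmul ℤ p m).trans (hpM m)) hC
    hsub hnormal hcof
    (fun V hV => by
      have := hnormal V hV
      exact tn20lAtDatum_of_fin R ρC V (htriv V hV) (hfin V hV))
    (fun V _ => hH1_of_h1 ρC h𝒰 (fun V' hV' hn => by
      obtain ⟨u, hu⟩ := hfund V' hV' hn
      exact hu.h1) V)

variable [Module.Finite ℤ P0] [Module.Finite ℤ P1]

/-- **The LEFT half of the `(2,0)` duality package for a datum with fundamental classes**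
(`k = ℤ`): `α²` is injective, so `#Ext²_G(M, C) ≤ #M^G`. -/
theorem alphaTwoLeft_of_isFundClass (R : Res ℤ G P1 P0 M) (ρC : Representation ℤ G C)
    {𝒰 ℱ : Set (Subgroup G)} {p : ℕ} [Fact p.Prime] (h𝒰 : IsLevelBasis 𝒰)
    (h0 : IsDiscrete 𝒰 R.ρ0) (hpM : ∀ m : M, p • m = 0) (hC : IsDiscrete 𝒰 ρC)
    (hsub : ℱ ⊆ 𝒰) (hnormal : ∀ V ∈ ℱ, V.Normal) (hcof : ∀ U ∈ 𝒰, ∃ V ∈ ℱ, V ≤ U)
    (htriv : ∀ V ∈ ℱ, ∀ s ∈ V, ∀ x, R.ρ0 s x = x)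
    (hfund : ∀ V ∈ 𝒰, ∀ hn : V.Normal, haveI := hn;
      ∃ u : H2 (fixedObj V ρC), IsFundClass p (fixedObj V ρC) u)
    (hfin : ∀ V (hV : V ∈ ℱ), haveI := hnormal V hV;
      FinTN20lAtQuot R ρC V (htriv V hV)) :
    AlphaTwoLeft R h0 h𝒰 ρC hC p hpM :=
  alphaTwoLeft_of_hypL20
    (hypL20Datum_of_isFundClass R ρC h𝒰 hpM hC hsub hnormal hcof htriv hfund hfin)
    (exists_inv_of_isFundClass ρC h𝒰 hC hfund)

end PackageInt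

end Fermat.Agent.ES.T56.GlobAlphaTwo18
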