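/-
Programme T (S56, Taylor–Wiles primes), chapter GW-C (degree `(2,0)` duality), helper6: leaf (B2) of
helper2's plan.

`permH1` : `H¹(Q, ℤ[A]) = 0` in RAW cochain form, for a finite group `Q` acting on `ℤ[A] = (A →₀ ℤ)`
by permuting the basis through `ρA` (`FreeRes29.freeRep ρA`): every 1-cocycle `x : Q → ℤ[A]`
(`dOne (freeRep ρA) x = 0`) is a coboundary `x = dZero (freeRep ρA) w`.  This is hypothesis `hA1`
of `TwoZeroFin2.finTN20l_of` for the canonical resolution `0 → F₁ → ℤ[A] → A → 0`.

Proof (no orbits): `|Q| • x = d⁰ s` with `s = -∑ₕ x h` (`card_smul_cocycle`); write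
`s = |Q| • w + t` coefficientwise with `0 ≤ t a < |Q|` (`Int.ediv`, `Int.emod`); then
`g t - t = |Q| • (x g - (g w - w))` has all coefficients divisible by `|Q|` and of absolute value
`< |Q|`, so `g t = t`, and `ℤ[A]` is torsion free.
Imports `Mathlib` and main's `PT/PRO/FreeRes29` (hence `HyperLevel25`) only.
-/
import Mathlib
import Fermat.Agent.PT.PRO.FreeRes29

set_option autoImplicit false

namespace Fermat.Agent.ES.T56.PermH1_6

open Fermat.Agent.PT.PRO.HyperLevel25 Fermat.Agent.PT.PRO.FreeRes29

/-! ### `|G|` kills `H¹` (raw) -/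

section CardSmul

variable {k : Type*} [CommRing k] {G : Type*} [Group G] [Fintype G]
  {Y : Type*} [AddCommGroup Y] [Module k Y]

/-- For a 1-cocycle `c` of a finite group, `|G| • c = d⁰ (-∑ₕ c h)`. -/
theorem card_smul_cocycle (ρ : Representation k G Y) {c : G → Y} (hc : dOne ρ c = 0) :
    (Fintype.card G : k) • c = dZero ρ (- ∑ h : G, c h) := by
  funext g
  have hmul : ∀ h : G, c (g * h) = ρ g (c h) + c g := by
    intro h
    have := congrFun hc (g, h)
    simp only [dOne_apply, Pi.zero_apply] at this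
    rw [sub_add_eq_add_sub, sub_eq_zero] at this
    exact this.symm
  have h1 : ∑ h : G, c (g * h) = ∑ h : G, c h :=
    Fintype.sum_equiv (Equiv.mulLeft g) _ _ (fun h => rfl)
  have h2 : ∑ h : G, c (g * h) = ρ g (∑ h : G, c h) + (Fintype.card G : k) • c g := by
    simp only [hmul, Finset.sum_add_distrib, map_sum, Finset.sum_const, Finset.card_univ,
      Nat.cast_smul_eq_nsmul]
  rw [Pi.smul_apply, dZero_apply, map_neg]
  rw [h1] at h2
  have h3 : (Fintype.card G : k) • c g = ∑ h : G, c h - ρ g (∑ h : G, c h) := by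
    rw [eq_sub_iff_add_eq, add_comm]
    exact h2.symm
  rw [h3]
  abel

end CardSmul

/-! ### Coefficients of the permutation action -/

section Coeff

variable {Q : Type*} [Group Q] {A : Type*} [AddCommGroup A] (ρA : Representation ℤ Q A)

theorem ρA_injective (g : Q) : Function.Injective (ρA g) := by
  intro a b h
  have h1 : ρA g⁻¹ (ρA g a) = ρA g⁻¹ (ρA g b) := by rw [h]
  rwa [← Module.End.mul_apply, ← Module.End.mul_apply, ← map_mul, inv_mul_cancel, map_one,
    Module.End.one_apply, Module.End.one_apply] at h1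

theorem ρA_ρA_inv (g : Q) (a : A) : ρA g (ρA g⁻¹ a) = a := by
  rw [← Module.End.mul_apply, ← map_mul, mul_inv_cancel, map_one, Module.End.one_apply]

/-- The coefficient of `g • t` at `a` is the coefficient of `t` at `g⁻¹ a`. -/
theorem freeRep_apply (g : Q) (t : A →₀ ℤ) (a : A) :
    (freeRep ρA g t) a = t (ρA g⁻¹ a) := by
  have h : freeRep ρA g t = Finsupp.mapDomain (ρA g) t := rfl
  rw [h]
  conv_lhs => rw [← ρA_ρA_inv ρA g a]
  exact Finsupp.mapDomain_apply (ρA_injective ρA g) t _

end Coeff

/-! ### `H¹(Q, ℤ[A]) = 0` -/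

section Main

variable {Q : Type*} [Group Q] [Finite Q] {A : Type*} [AddCommGroup A]
  (ρA : Representation ℤ Q A)

/-- **(B2) `PermH1`**: every 1-cocycle of a finite group with values in the permutation module
`ℤ[A]` is a coboundary (raw cochain form). -/
theorem permH1 (x : Q → (A →₀ ℤ)) (hx : dOne (freeRep ρA) x = 0) :
    ∃ w : A →₀ ℤ, x = dZero (freeRep ρA) w := by
  classical
  have : Fintype Q := Fintype.ofFinite Q
  set n : ℤ := (Fintype.card Q : ℤ) with hn
  have hnpos : 0 < n := by
    rw [hn]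
    exact_mod_cast Fintype.card_pos
  set s : A →₀ ℤ := - ∑ h : Q, x h with hs
  have hcs : ∀ g, n • x g = freeRep ρA g s - s := by
    intro g
    have := congrFun (card_smul_cocycle (freeRep ρA) hx) g
    simpa [hn, hs] using this
  -- Euclidean division of the coefficients of `s`
  set w : A →₀ ℤ := s.mapRange (fun a => a / n) (Int.zero_ediv n) with hw
  set t : A →₀ ℤ := s.mapRange (fun a => a % n) (Int.zero_emod n) with ht
  have hswt : s = n • w + t := by
    ext a
    simp only [hw, ht, Finsupp.coe_add, Finsupp.coe_smul, Pi.add_apply, Pi.smul_apply,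
      Finsupp.mapRange_apply, smul_eq_mul]
    exact (Int.mul_ediv_add_emod (s a) n).symm
  have ht0 : ∀ a, 0 ≤ t a := fun a => by
    simp only [ht, Finsupp.mapRange_apply]
    exact Int.emod_nonneg _ hnpos.ne'
  have htn : ∀ a, t a < n := fun a => by
    simp only [ht, Finsupp.mapRange_apply]
    exact Int.emod_lt_of_pos _ hnpos
  -- `g t = t`
  have hgt : ∀ g, freeRep ρA g t = t := by
    intro g
    have h1 : freeRep ρA g t - t = n • (x g - (freeRep ρA g w - w)) := by
      have h2 := hcs g
      rw [hswt, map_add, map_smul] at h2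
      rw [smul_sub, h2, smul_sub]
      abel
    ext a
    have h3 := DFunLike.congr_fun h1 a
    simp only [Finsupp.coe_sub, Finsupp.coe_smul, Pi.sub_apply, Pi.smul_apply, smul_eq_mul] at h3
    rw [freeRep_apply] at h3 ⊢
    have hd : n ∣ t (ρA g⁻¹ a) - t a := ⟨_, h3⟩
    have h4 := ht0 (ρA g⁻¹ a)
    have h5 := htn (ρA g⁻¹ a)
    have h6 := ht0 a
    have h7 := htn a
    have h8 : t (ρA g⁻¹ a) - t a = 0 := by
      apply Int.eq_zero_of_abs_lt_dvd hd
      rw [abs_lt]
      constructor <;> omega
    omega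
  refine ⟨w, ?_⟩
  funext g
  have h2 := hcs g
  rw [hswt, map_add, map_smul, hgt g] at h2
  have h3 : n • x g = n • (freeRep ρA g w - w) := by
    rw [h2, smul_sub]
    abel
  rw [dZero_apply]
  ext a
  have h4 := DFunLike.congr_fun h3 a
  simp only [Finsupp.coe_smul, Pi.smul_apply, smul_eq_mul] at h4
  exact mul_left_cancel₀ hnpos.ne' h4

end Main

end Fermat.Agent.ES.T56.PermH1_6
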