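/-
Programme T (S56), chapter GW, part C (degree `(2,0)` duality), helper2.

`TwoZeroFin2`: hyper Tate–Nakayama in degree `(2,0)`, LEFT kernel, over a FINITE group, for the
pairing datum `K(P; C) = R.datum ρC` of a resolution `0 → P₁ → P₀ → M → 0` of a module killed
by `p`, from

* `TN20lProp R.ρ0 ρC p` : raw left half of Tate–Nakayama `(2,0)` for the single module `P₀`
  (`H²(G, Hom(P₀, C))(p) ↪ Hom(Ĥ⁰(G, P₀), H²(G, C))`);
* `TN11lProp R.ρ1 ρC p` : raw left half of Tate–Nakayama `(1,1)` for the single module `P₁`;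
* `hA1` : `H¹(G, P₀) = 0` (raw; true for permutation modules `P₀ = ℤ[A]`).

No induced resolution and no transport between resolutions is needed.
-/
import Mathlib
import Fermat.Agent.ES.T56.TwoZeroDefs2
import Fermat.Agent.PT.PRO.IndRes20
import Fermat.Agent.PT.PRO.HomCx29

set_option autoImplicit false
set_option linter.unusedSectionVars false

namespace Fermat.Agent.ES.T56.TwoZeroFin2

open Fermat.Agent.PT.PRO.HyperLevel25 Fermat.Agent.PT.PRO.Pairing20
  Fermat.Agent.PT.PRO.IndRes20 Fermat.Agent.PT.PRO Fermat.Agent.ES.T56.TwoZeroDefs2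

variable {k : Type*} [CommRing k] {G : Type*} [Group G]

/-! ### Precomposition with an equivariant map -/

section Precomp

variable {P P' C : Type*} [AddCommGroup P] [Module k P] [AddCommGroup P'] [Module k P']
  [AddCommGroup C] [Module k C]
variable (ρ : Representation k G P) (ρ' : Representation k G P') (ρC : Representation k G C)
  (α : P' →ₗ[k] P) (hα : ∀ g x, α (ρ' g x) = ρ g (α x))

include hα

lemma linHom_precomp (g : G) (φ : P →ₗ[k] C) :
    Representation.linHom ρ' ρC g (φ ∘ₗ α) = (Representation.linHom ρ ρC g φ) ∘ₗ α := by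
  ext x
  simp only [Representation.linHom_apply, LinearMap.comp_apply, hα]

lemma dZero_precomp (y : P →ₗ[k] C) :
    dZero (Representation.linHom ρ' ρC) (y ∘ₗ α) =
      fun g => dZero (Representation.linHom ρ ρC) y g ∘ₗ α := by
  funext g
  simp only [dZero_apply, LinearMap.sub_comp, linHom_precomp ρ ρ' ρC α hα]

lemma dOne_precomp (c : G → (P →ₗ[k] C)) :
    dOne (Representation.linHom ρ' ρC) (fun g => c g ∘ₗ α) =
      fun q => dOne (Representation.linHom ρ ρC) c q ∘ₗ α := by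
  funext ⟨g, h⟩
  simp only [dOne_apply, LinearMap.add_comp, LinearMap.sub_comp, linHom_precomp ρ ρ' ρC α hα]

end Precomp

/-! ### `|G|` kills `H¹` (raw) -/

section CardSmul

variable [Fintype G] {Y : Type*} [AddCommGroup Y] [Module k Y]

/-- For a 1-cocycle `c` of a finite group, `|G| • c = d⁰ (-∑ₕ c h)`. -/
lemma card_smul_cocycle (ρ : Representation k G Y) {c : G → Y} (hc : dOne ρ c = 0) :
    (Fintype.card G : k) • c = dZero ρ (- ∑ h : G, c h) := by
  funext g
  have hmul : ∀ h : G, c (g * h) = ρ g (c h) + c g := by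
    intro h
    have := congrFun hc (g, h)
    simp only [dOne_apply, Pi.zero_apply] at this
    rw [sub_add_eq_add_sub, sub_eq_zero] at this
    exact this.symm
  have h1 : ∑ h : G, c (g * h) = ∑ h : G, c h :=
    Fintype.sum_equiv (Equiv.mulLeft g) _ _ (fun h => rfl)
  have h2 : ∑ h : G, c (g * h) = ρ g (∑ h : G, c h) + (Fintype.card G : k) • c g := by
    simp only [hmul, Finset.sum_add_distrib, map_sum, Finset.sum_const, Finset.card_univ,
      Nat.cast_smul_eq_nsmul]
  rw [Pi.smul_apply, dZero_apply, map_neg]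
  rw [h1] at h2
  have h3 : (Fintype.card G : k) • c g = ∑ h : G, c h - ρ g (∑ h : G, c h) := by
    rw [eq_sub_iff_add_eq, add_comm]
    exact h2.symm
  rw [h3]
  abel

end CardSmul

/-! ### The raw single-module statements -/

section Props

variable {P C : Type*} [AddCommGroup P] [Module k P] [AddCommGroup C] [Module k C]

/-- Tate–Nakayama `(2,0)`, LEFT kernel, raw form, for the module `(P, ρ)`: a `p`-primary
2-cocycle with values in `Hom(P, C)` whose evaluation at every invariant of `P` is a coboundary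
is a coboundary. -/
def TN20lProp (ρ : Representation k G P) (ρC : Representation k G C) (p : ℕ) : Prop :=
  ∀ c : G × G → (P →ₗ[k] C), dTwo (Representation.linHom ρ ρC) c = 0 →
    (∃ (j : ℕ) (b' : G → (P →ₗ[k] C)),
      (p : k) ^ j • c = dOne (Representation.linHom ρ ρC) b') →
    (∀ x : P, (∀ g, ρ g x = x) → ∃ u : G → C, (fun q => c q x) = dOne ρC u) →
    ∃ b : G → (P →ₗ[k] C), c = dOne (Representation.linHom ρ ρC) b

/-- Tate–Nakayama `(1,1)`, LEFT kernel, raw form, for the module `(P, ρ)`: a `p`-primary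
1-cocycle with values in `Hom(P, C)` whose cup product with every 1-cocycle of `P` is a
coboundary is a coboundary. -/
def TN11lProp (ρ : Representation k G P) (ρC : Representation k G C) (p : ℕ) : Prop :=
  ∀ c : G → (P →ₗ[k] C), dOne (Representation.linHom ρ ρC) c = 0 →
    (∃ (j : ℕ) (y' : P →ₗ[k] C), (p : k) ^ j • c = dZero (Representation.linHom ρ ρC) y') →
    (∀ x : G → P, dOne ρ x = 0 →
      ∃ u : G → C, (fun q : G × G => c q.1 (ρ q.1 (x q.2))) = dOne ρC u) →
    ∃ y : P →ₗ[k] C, c = dZero (Representation.linHom ρ ρC) y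

end Props

/-! ### The hyper statement -/

section Main

variable [Fintype G]
variable {P1 P0 M C : Type*} [AddCommGroup P1] [Module k P1] [AddCommGroup P0] [Module k P0]
  [AddCommGroup M] [Module k M] [AddCommGroup C] [Module k C]
variable (R : Res k G P1 P0 M) (ρC : Representation k G C) (p : ℕ)

/-- Bezout, cast to `k`: `|G| = p^a m`, `p ∤ m` ⇒ `s p^(a+1) + t m = 1`. -/
lemma exists_bezout (hp : p.Prime) (n : ℕ) (hn : n ≠ 0) :
    ∃ (a m : ℕ) (s t : k), n = p ^ a * m ∧ s * (p : k) ^ (a + 1) + t * (m : k) = 1 := by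
  obtain ⟨a, m, hm, hnm⟩ := Nat.exists_eq_pow_mul_and_not_dvd hn p hp.ne_one
  have hcop : Nat.Coprime (p ^ (a + 1)) m :=
    Nat.Coprime.pow_left _ ((Nat.Prime.coprime_iff_not_dvd hp).2 hm)
  obtain ⟨s, t, hst⟩ := Nat.isCoprime_iff_coprime.2 hcop
  refine ⟨a, m, (s : k), (t : k), hnm, ?_⟩
  have := congrArg (Int.cast : ℤ → k) hst
  push_cast at this
  exact this

/-- **Hyper Tate–Nakayama `(2,0)`, left kernel**, for a resolution with `H¹(G, P₀) = 0`. -/
theorem finTN20l_of (hp : p.Prime) (hpM : ∀ m : M, (p : k) • m = 0)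
    (hA1 : ∀ x : G → P0, dOne R.ρ0 x = 0 → ∃ w : P0, x = dZero R.ρ0 w)
    (h20 : TN20lProp R.ρ0 ρC p) (h11 : TN11lProp R.ρ1 ρC p) : FinTN20l (R.datum ρC) := by
  intro c2 c1 hc hpair
  set D := R.datum ρC with hD
  have hρX : D.ρX = ρC := rfl
  have hρY1 : D.ρY1 = Representation.linHom R.ρ1 ρC := rfl
  have hρY0 : D.ρY0 = Representation.linHom R.ρ0 ρC := rfl
  -- the homotopy `h : P₀ → P₁`, `ι h = p`, `h ι = p`
  obtain ⟨h, h1, h2⟩ := HomCx29.exists_homotopy R.ι R.ι_inj (p : k)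
    (fun x => (R.exact _).1 (by rw [map_smul, hpM]))
  have he := HomCx29.homotopy_equivariant (ρ0 := R.ρ0) (ρ1 := R.ρ1) R.ι R.ι_comm R.ι_inj
    (p : k) h h1
  have hc2 : ∀ q, c2 q ∘ₗ R.ι = dOne D.ρY1 c1 q := fun q => congrFun hc.2 q
  -- Step 0: `p • c₂` is a coboundary
  have hpc2 : (p : k) ^ 1 • c2 = dOne (Representation.linHom R.ρ0 ρC) (fun g => c1 g ∘ₗ h) := by
    rw [dOne_precomp R.ρ1 R.ρ0 ρC h he c1, pow_one]
    funext q
    refine LinearMap.ext fun x => ?_
    have h3 : D.ρY1 = Representation.linHom R.ρ1 ρC := rfl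
    rw [← h3, ← hc2 q]
    simp only [Pi.smul_apply, LinearMap.smul_apply, LinearMap.comp_apply, h1, map_smul]
  -- Step 1: `c₂ = d¹ b`
  obtain ⟨b, hb⟩ := h20 c2 hc.1 ⟨1, _, hpc2⟩ (fun x hx => by
    obtain ⟨u, hu⟩ := hpair x 0 (isLift0_of_invariant D hx)
    refine ⟨u, ?_⟩
    rw [← hρX, ← hu]
    funext ⟨g, j⟩
    simp [pair20Fun, hD, hx g, hx j])
  -- Step 2: reduce to `(0, c₁')`
  set c1' : G → (P1 →ₗ[k] C) := c1 - hbdryC1 D b 0 with hc1'
  have hb' : c2 - hbdryC2 D b = 0 := sub_eq_zero.2 hb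
  have hcy' : IsHyper2 D 0 c1' := by
    have := IsHyper2.sub D hc (isHyper2_hbdry D b 0)
    rwa [hb'] at this
  have hcoc' : dOne (Representation.linHom R.ρ1 ρC) c1' = 0 := by
    have := hcy'.2
    rw [← hρY1, ← this]
    funext q
    simp
  have hpair' : ∀ mt z', IsLift0 D mt z' →
      ∃ u : G → C, pair20Fun D 0 c1' mt z' = dOne ρC u := by
    intro mt z' hz
    obtain ⟨u, hu⟩ := hpair mt z' hz
    refine ⟨u - fun a => D.ev0 (b a) (D.ρF0 a mt) + D.ev1 0 (z' a), ?_⟩
    have h3 := pair20Fun_sub_left D c2 (hbdryC2 D b) c1 (hbdryC1 D b 0) mt z'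
    rw [hb'] at h3
    rw [h3, hu, pair20Fun_hbdry D b 0 hz, map_sub]
    rfl
  -- Step 3: `p • c₁' = f ∘ b₂`, `b₂ = c₁' ∘ h` a 1-cocycle of `Hom(P₀, C)`
  set b2 : G → (P0 →ₗ[k] C) := fun g => c1' g ∘ₗ h with hb2
  have hb2coc : dOne (Representation.linHom R.ρ0 ρC) b2 = 0 := by
    rw [hb2, dOne_precomp R.ρ1 R.ρ0 ρC h he c1', hcoc']
    funext q
    simp
  have hpc1 : (p : k) • c1' = fun g => b2 g ∘ₗ R.ι := by
    funext g
    refine LinearMap.ext fun x => ?_
    simp only [hb2, Pi.smul_apply, LinearMap.smul_apply, LinearMap.comp_apply, h2, map_smul]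
  -- `|G| • c₁'` is a coboundary
  have hn := card_smul_cocycle (Representation.linHom R.ρ1 ρC) hcoc'
  obtain ⟨a, m, s, t, hnm, hst⟩ := exists_bezout (k := k) p hp (Fintype.card G)
    Fintype.card_ne_zero
  -- the `p`-primary part `c₁'' = (t m) • c₁'`
  set c1'' : G → (P1 →ₗ[k] C) := (t * (m : k)) • c1' with hc1''
  have hcoc'' : dOne (Representation.linHom R.ρ1 ρC) c1'' = 0 := by
    rw [hc1'', map_smul, hcoc', smul_zero]
  have hprim : (p : k) ^ (a + 1) • c1'' = dZero (Representation.linHom R.ρ1 ρC)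
      ((t * (p : k)) • (- ∑ g : G, c1' g)) := by
    rw [map_smul, ← hn, hc1'', smul_smul, smul_smul, hnm]
    congr 1
    push_cast
    ring
  obtain ⟨y, hy⟩ := h11 c1'' hcoc'' ⟨a + 1, _, hprim⟩ (fun x hx => by
    have hιx : dOne R.ρ0 (⇑R.ι ∘ x) = 0 := by
      rw [← comp_dOne R.ρ1 R.ρ0 R.ι R.ι_comm, hx]
      funext q
      simp
    obtain ⟨w, hw⟩ := hA1 _ hιx
    obtain ⟨u, hu⟩ := hpair' w x (fun g => congrFun hw g)
    refine ⟨(t * (m : k)) • (-u), ?_⟩
    rw [map_smul, map_neg, ← hu]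
    funext ⟨g, j⟩
    simp [pair20Fun, hD, hc1''])
  -- conclusion
  set b1 : G → (P0 →ₗ[k] C) := (s * (p : k) ^ a) • b2 with hb1
  have hb1coc : dOne (Representation.linHom R.ρ0 ρC) b1 = 0 := by
    rw [hb1, map_smul, hb2coc, smul_zero]
  have hsplit : c1' = (fun g => b1 g ∘ₗ R.ι) + dZero (Representation.linHom R.ρ1 ρC) y := by
    rw [← hy]
    have h4 : (fun g => b1 g ∘ₗ R.ι) = (s * (p : k) ^ (a + 1)) • c1' := by
      rw [pow_succ, ← mul_assoc, ← smul_smul, hpc1, hb1]
      funext g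
      simp only [Pi.smul_apply, LinearMap.smul_comp]
    rw [h4, hc1'', ← add_smul, hst, one_smul]
  refine ⟨b + b1, -y, ?_, ?_⟩
  · show c2 = dOne (Representation.linHom R.ρ0 ρC) (b + b1)
    rw [map_add, hb1coc, add_zero]
    exact hb
  · have h5 : c1 = c1' + hbdryC1 D b 0 := by rw [hc1']; abel
    rw [h5, hsplit]
    funext g
    refine LinearMap.ext fun x => ?_
    simp [hbdryC1, hD, dZero_apply]
    abel

end Main

end Fermat.Agent.ES.T56.TwoZeroFin2
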