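/-
Programme T (S56), chapter GW, brick 3 (global `(2,0)` duality), helper18.

`TwoZeroFund18`: **the finite-level left-kernel statement `FinTN20lAtQuot` for the canonical
resolution** `0 → Rel → k[A] → A → 0` (`HpAt29.freeRes ρA`), i.e. the last hypothesis `hfin` of
`GlobAlphaTwo18.alphaTwoLeft_of_isFundClass`.

* generic `k`: wrappers `TN20lAtQuot`, `TN11lAtQuot`, `H1VanishAtQuot` (statements about `R`, `ρC`,
  `V` only: usable at `k = ℤ`, see the diamond remark in `HypPFund18`) and the assembly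
  `finTN20lAtQuot_of` (= helper2's `TwoZeroFin2.finTN20l_of` for `K(P; C^V)` over `G ⧸ V`);
* `quotRep_freeRep` : the permutation module `k[A]` over `G ⧸ V` is the permutation module of the
  `G ⧸ V`-module `A`;
* `k = ℤ`: `h1VanishAtQuot_freeRes` (from helper6's `PermH1_6.permH1`).
-/
import Mathlib
import Fermat.Agent.ES.T56.TwoZeroFin2
import Fermat.Agent.ES.T56.TwoZeroLimit18
import Fermat.Agent.ES.T56.PermH1_6
import Fermat.Agent.PT.PRO.HpAt29

set_option autoImplicit false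

namespace Fermat.Agent.ES.T56.TwoZeroFund18

open Fermat.Agent.PT.PRO.HyperLevel25 Fermat.Agent.PT.PRO.Pairing20
  Fermat.Agent.PT.PRO.HyperColim18 Fermat.Agent.PT.PRO.IndRes20
  Fermat.Agent.PT.PRO.DescendRes18 Fermat.Agent.PT.PRO.HpAt29 Fermat.Agent.PT.PRO.FreeRes29
  Fermat.Agent.ES.T56.TwoZeroDefs2 Fermat.Agent.ES.T56.TwoZeroFin2
  Fermat.Agent.ES.T56.TwoZeroLimit18

/-! ### Generic `k`: the finite-level assembly over `G ⧸ V` -/

section Generic

variable {k : Type*} [CommRing k] {G : Type*} [Group G] {P1 P0 M C : Type*}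
  [AddCommGroup P1] [Module k P1] [AddCommGroup P0] [Module k P0] [AddCommGroup M] [Module k M]
  [AddCommGroup C] [Module k C]

/-- Raw Tate–Nakayama `(2,0)`-left for `(G ⧸ V, P₀, C^V)`, as a statement about `R`, `ρC`, `V`. -/
def TN20lAtQuot (R : Res k G P1 P0 M) (ρC : Representation k G C) (V : Subgroup G) [V.Normal]
    (h0 : ∀ s ∈ V, ∀ x, R.ρ0 s x = x) (p : ℕ) : Prop :=
  TN20lProp (resQuot R V h0).ρ0 (fixedRep V ρC) p

/-- Raw Tate–Nakayama `(1,1)`-left for `(G ⧸ V, P₁, C^V)`, as a statement about `R`, `ρC`, `V`. -/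
def TN11lAtQuot (R : Res k G P1 P0 M) (ρC : Representation k G C) (V : Subgroup G) [V.Normal]
    (h0 : ∀ s ∈ V, ∀ x, R.ρ0 s x = x) (p : ℕ) : Prop :=
  TN11lProp (resQuot R V h0).ρ1 (fixedRep V ρC) p

/-- `H¹(G ⧸ V, P₀) = 0` (raw). -/
def H1VanishAtQuot (R : Res k G P1 P0 M) (V : Subgroup G) [V.Normal]
    (h0 : ∀ s ∈ V, ∀ x, R.ρ0 s x = x) : Prop :=
  ∀ x : G ⧸ V → P0, dOne (resQuot R V h0).ρ0 x = 0 →
    ∃ w : P0, x = dZero (resQuot R V h0).ρ0 w

/-- **The finite-level left kernel over `G ⧸ V`** from the two single-module Tate–Nakayama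
statements and `H¹(G ⧸ V, P₀) = 0` (helper2's `finTN20l_of`). -/
theorem finTN20lAtQuot_of (R : Res k G P1 P0 M) (ρC : Representation k G C) (V : Subgroup G)
    [V.Normal] [V.FiniteIndex] (h0 : ∀ s ∈ V, ∀ x, R.ρ0 s x = x) {p : ℕ} (hp : p.Prime)
    (hpM : ∀ m : M, (p : k) • m = 0) (hA1 : H1VanishAtQuot R V h0)
    (h20 : TN20lAtQuot R ρC V h0 p) (h11 : TN11lAtQuot R ρC V h0 p) :
    FinTN20lAtQuot R ρC V h0 := by
  classical
  have : Fintype (G ⧸ V) := Fintype.ofFinite _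
  exact finTN20l_of (resQuot R V h0) (fixedRep V ρC) p hp hpM hA1 h20 h11

/-! ### The canonical resolution over `G ⧸ V` -/

variable {A : Type*} [AddCommGroup A] [Module k A]

/-- `k[A]` over `G ⧸ V` is the permutation module of the `G ⧸ V`-module `A`. -/
theorem quotRep_freeRep (ρA : Representation k G A) (V : Subgroup G) [V.Normal]
    (hA : ∀ s ∈ V, ∀ a, ρA s a = a) (h0 : ∀ s ∈ V, ∀ x, freeRep ρA s x = x) :
    quotRep V (freeRep ρA) h0 = freeRep (quotRep V ρA hA) := by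
  refine MonoidHom.ext fun q => ?_
  induction q using QuotientGroup.induction_on with
  | H g => rfl

/-- `V` acts trivially on `A` when it acts trivially on `k[A]`. -/
theorem trivial_of_freeRes (ρA : Representation k G A) (V : Subgroup G)
    (h0 : ∀ s ∈ V, ∀ x, (freeRes ρA).ρ0 s x = x) : ∀ s ∈ V, ∀ a, ρA s a = a :=
  res_trivialM (freeRes ρA) V h0

theorem resQuot_freeRes_ρ0 (ρA : Representation k G A) (V : Subgroup G) [V.Normal]
    (h0 : ∀ s ∈ V, ∀ x, (freeRes ρA).ρ0 s x = x) :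
    (resQuot (freeRes ρA) V h0).ρ0 = freeRep (quotRep V ρA (trivial_of_freeRes ρA V h0)) :=
  quotRep_freeRep ρA V (trivial_of_freeRes ρA V h0) h0

end Generic

/-! ### `k = ℤ` -/

section Int

variable {G : Type*} [Group G] {A : Type*} [AddCommGroup A]

/-- `H¹(G ⧸ V, ℤ[A]) = 0` (helper6's `permH1`). -/
theorem h1VanishAtQuot_freeRes (ρA : Representation ℤ G A) (V : Subgroup G) [V.Normal]
    [V.FiniteIndex] (h0 : ∀ s ∈ V, ∀ x, (freeRes ρA).ρ0 s x = x) :
    H1VanishAtQuot (freeRes ρA) V h0 := by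
  intro x hx
  rw [resQuot_freeRes_ρ0] at hx ⊢
  exact PermH1_6.permH1 _ x hx

end Int

end Fermat.Agent.ES.T56.TwoZeroFund18
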