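/-
Programme T (S56, Taylor–Wiles primes), chapter GW-C (degree `(2,0)` duality), helper6: leaf (B1) of
helper2's plan.

The LEFT halves of FG's Tate–Nakayama dualities `TateZeroFinal8.tn20` (degrees `(2,0)`) and
`TNOneOneFinal1.tn11` (degrees `(1,1)`) in RAW cochain form (twin of `TN02Final3.tn02l_raw`), for a
finite group `G`, `ρ` a representation on a finite free `ℤ`-module `P` (ANY `Module ℤ P` instance),
`ρC` a representation with a class `u ∈ H²(G, C)` satisfying `Interface8.IsFundClass p (Rep.of ρC) u`: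

* `tn20l_raw` : a `p`-primary 2-cocycle `c` with values in `Hom(P, C)` whose evaluation at every
  invariant of `P` is a coboundary, is a coboundary            (`= TwoZeroFin2.TN20lProp ρ ρC p`);
* `tn11l_raw` : a `p`-primary 1-cocycle `c` with values in `Hom(P, C)` whose cup product with every
  1-cocycle of `P` is a coboundary, is a coboundary            (`= TwoZeroFin2.TN11lProp ρ ρC p`).

The conclusions are helper2's `TwoZeroFin2.TN20lProp ρ ρC p` / `TN11lProp ρ ρC p` at `k = ℤ` (imported: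
the `ℤ`-module structure on `P →ₗ[ℤ] C` must be the one fixed inside those definitions,
`LinearMap.module`, which for an arbitrary `Module ℤ P` instance is not definitionally
`AddCommGroup.toIntModule`).
-/
import Mathlib
import Fermat.Agent.PT.FG.TateZeroFinal8
import Fermat.Agent.PT.FG.TNOneOneFinal1
import Fermat.Agent.ES.T56.TwoZeroFin2

set_option autoImplicit false

open CategoryTheory groupCohomology

namespace Fermat.Agent.ES.T56.TwoZeroRawFG6

open Fermat.Agent.PT.FG.Interface8 Fermat.Agent.PT.FG.TNDual1 Fermat.Agent.PT.FG.ShiftUp1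
open Fermat.Agent.PT.PRO.HyperLevel25
open Fermat.Agent.PT.FG Fermat.Agent.ES.T56.TwoZeroFin2

/-! ### Glue, generic in the coefficient ring `k` (so that `P →ₗ[k] C` carries `LinearMap.module`) -/

section Glue

variable {k : Type} [CommRing k] {G : Type} [Group G]

section General

variable {Y : Type} [AddCommGroup Y] [Module k Y] (σ : Representation k G Y)

theorem mem_cocycles₂_of_dTwo {z : G × G → Y} (hz : dTwo σ z = 0) :
    z ∈ cocycles₂ (Rep.of σ) := by
  rw [mem_cocycles₂_iff]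
  intro g h j
  have := congrFun hz (g, h, j)
  rw [dTwo_apply, Pi.zero_apply] at this
  show z (g * h, j) + z (g, h) = σ g (z (h, j)) + z (g, h * j)
  refine Eq.symm ?_
  rw [← sub_eq_zero, ← this]
  abel

theorem mem_coboundaries₂_iff (z : G × G → Y) :
    z ∈ coboundaries₂ (Rep.of σ) ↔ ∃ t : G → Y, z = dOne σ t := by
  constructor
  · rintro ⟨t, ht⟩
    exact ⟨t, ht.symm⟩
  · rintro ⟨t, ht⟩
    exact ⟨t, ht.symm⟩

theorem mem_cocycles₁_of_dOne {x : G → Y} (hx : dOne σ x = 0) : x ∈ cocycles₁ (Rep.of σ) := by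
  rw [mem_cocycles₁_iff]
  intro g h
  have := congrFun hx (g, h)
  rw [dOne_apply, Pi.zero_apply] at this
  show x (g * h) = σ g (x h) + x g
  rw [sub_add_eq_add_sub, sub_eq_zero] at this
  exact this.symm

theorem dOne_of_mem_cocycles₁ (x : cocycles₁ (Rep.of σ)) : dOne σ (x : G → Y) = 0 := by
  funext ⟨g, h⟩
  have := (mem_cocycles₁_iff (A := Rep.of σ) x).1 x.2 g h
  have h' : (x : G → Y) (g * h) = σ g ((x : G → Y) h) + (x : G → Y) g := this
  rw [dOne_apply, Pi.zero_apply, h']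
  abel

theorem mem_coboundaries₁_iff (x : G → Y) :
    x ∈ coboundaries₁ (Rep.of σ) ↔ ∃ y : Y, x = dZero σ y := by
  constructor
  · rintro ⟨y, hy⟩
    exact ⟨y, hy.symm⟩
  · rintro ⟨y, hy⟩
    exact ⟨y, hy.symm⟩

end General

section LinHom

variable {P C : Type} [AddCommGroup P] [Module k P] [AddCommGroup C] [Module k C]
  (ρ : Representation k G P) (ρC : Representation k G C)

theorem linHom_mem_cocycles₂ {c : G × G → (P →ₗ[k] C)}
    (hc : dTwo (Representation.linHom ρ ρC) c = 0) :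
    c ∈ cocycles₂ (Hm (Rep.of ρ) (Rep.of ρC)) :=
  mem_cocycles₂_of_dTwo (Representation.linHom ρ ρC) hc

theorem linHom_mem_coboundaries₂_iff (c : G × G → (P →ₗ[k] C)) :
    c ∈ coboundaries₂ (Hm (Rep.of ρ) (Rep.of ρC)) ↔
      ∃ t : G → (P →ₗ[k] C), c = dOne (Representation.linHom ρ ρC) t :=
  mem_coboundaries₂_iff (Representation.linHom ρ ρC) c

theorem linHom_mem_cocycles₁ {c : G → (P →ₗ[k] C)}
    (hc : dOne (Representation.linHom ρ ρC) c = 0) :
    c ∈ cocycles₁ (Hm (Rep.of ρ) (Rep.of ρC)) :=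
  mem_cocycles₁_of_dOne (Representation.linHom ρ ρC) hc

theorem linHom_mem_coboundaries₁_iff (c : G → (P →ₗ[k] C)) :
    c ∈ coboundaries₁ (Hm (Rep.of ρ) (Rep.of ρC)) ↔
      ∃ y : P →ₗ[k] C, c = dZero (Representation.linHom ρ ρC) y :=
  mem_coboundaries₁_iff (Representation.linHom ρ ρC) c

/-- `ℕ`-multiples and `k`-multiples agree on `Hom(P, C)`. -/
theorem linHom_natCast_smul (n : ℕ) (f : P →ₗ[k] C) : (n : k) • f = n • f :=
  Nat.cast_smul_eq_nsmul k n f

end LinHom

end Glue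

/-! ### The statements -/

section Raw

variable {G : Type} [Group G]
  {P C : Type} [AddCommGroup P] [Module ℤ P] [AddCommGroup C] [Module ℤ C]
  (ρ : Representation ℤ G P) (ρC : Representation ℤ G C)

variable [Finite G] (p : ℕ) [Fact p.Prime]

/-- **Raw TN20, left kernel**. -/
theorem tn20l_raw (hfree : Module.Free ℤ P) (hfin : Module.Finite ℤ P)
    (u : H2 (Rep.of ρC)) (hu : IsFundClass p (Rep.of ρC) u) : TN20lProp ρ ρC p := by
  intro c hc ⟨j, b', hb'⟩ hpair
  have hT := (TateZeroFinal8.tn20 G p (Rep.of ρC) u hu (Rep.of ρ) (free_int_congr _ _ hfree)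
    (finite_int_congr _ _ hfin)).1
  let z : cocycles₂ (Hm (Rep.of ρ) (Rep.of ρC)) := ⟨c, linHom_mem_cocycles₂ ρ ρC hc⟩
  have hz0 : H2π (Hm (Rep.of ρ) (Rep.of ρC)) z = 0 := by
    refine hT _ ⟨j, ?_⟩ fun m hm => ?_
    · rw [← map_nsmul, H2π_eq_zero_iff]
      refine (linHom_mem_coboundaries₂_iff ρ ρC _).2 ⟨b', ?_⟩
      rw [← hb']
      funext q
      have h := linHom_natCast_smul (k := ℤ) (p ^ j) (c q)
      rw [Nat.cast_pow] at h
      exact h.symm
    · rw [pushH_two_H2π, H2π_eq_zero_iff]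
      obtain ⟨u', hu'⟩ := hpair m hm
      exact (mem_coboundaries₂_iff ρC _).2 ⟨u', hu'⟩
  rw [H2π_eq_zero_iff] at hz0
  exact (linHom_mem_coboundaries₂_iff ρ ρC _).1 hz0

/-- **Raw TN11, left kernel**. -/
theorem tn11l_raw (hfree : Module.Free ℤ P) (hfin : Module.Finite ℤ P)
    (u : H2 (Rep.of ρC)) (hu : IsFundClass p (Rep.of ρC) u) : TN11lProp ρ ρC p := by
  intro c hc ⟨j, y', hy'⟩ hpair
  obtain ⟨B, hB, hL, -⟩ := TNOneOneFinal1.tn11 G p (Rep.of ρC) u hu (Rep.of ρ)
    (free_int_congr _ _ hfree) (finite_int_congr _ _ hfin)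
  let f : cocycles₁ (Hm (Rep.of ρ) (Rep.of ρC)) := ⟨c, linHom_mem_cocycles₁ ρ ρC hc⟩
  have hf0 : H1π (Hm (Rep.of ρ) (Rep.of ρC)) f = 0 := by
    refine hL _ ⟨j, ?_⟩ fun η => ?_
    · rw [← map_nsmul, H1π_eq_zero_iff]
      refine (linHom_mem_coboundaries₁_iff ρ ρC _).2 ⟨y', ?_⟩
      rw [← hy']
      funext g
      have h := linHom_natCast_smul (k := ℤ) (p ^ j) (c g)
      rw [Nat.cast_pow] at h
      exact h.symm
    · induction η using H1_induction_on with | @h x =>
      obtain ⟨u', hu'⟩ := hpair x (dOne_of_mem_cocycles₁ ρ x)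
      have hcoc : cup11 (Rep.of ρ) (Rep.of ρC) f x ∈ cocycles₂ (Rep.of ρC) := by
        refine mem_cocycles₂_of_dTwo ρC ?_
        have h1 : cup11 (Rep.of ρ) (Rep.of ρC) f x = dOne ρC u' := hu'
        rw [h1, dTwo_dOne]
      rw [hB f x ⟨_, hcoc⟩ rfl, H2π_eq_zero_iff]
      exact (mem_coboundaries₂_iff ρC _).2 ⟨u', hu'⟩
  rw [H1π_eq_zero_iff] at hf0
  exact (linHom_mem_coboundaries₁_iff ρ ρC _).1 hf0

end Raw

end Fermat.Agent.ES.T56.TwoZeroRawFG6
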