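/-
Programme T (S56), chapter GW, brick 3 (global `(2,0)` duality), helper18.

`FinTN20Fund18` (`k = ℤ`): **the LEFT half of the `(2,0)` duality package for the canonical
resolution, from fundamental classes alone.**

* `tn20lAtQuot_of_isFundClass`, `tn11lAtQuot_of_isFundClass` : the two single-module raw
  Tate–Nakayama statements over `G ⧸ V` from a fundamental class on `(G ⧸ V, C^V)` (helper6's
  `TwoZeroRawFG6.tn20l_raw`/`tn11l_raw`; twin of `HypPFund18.tnlAtDatum_of_isFundClass`);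
* `finTN20lAtQuot_of_isFundClass` : `FinTN20lAtQuot (freeRes ρA) ρC V h0` for a finite `A` with
  `p A = 0` (+ helper6's `PermH1_6.permH1` via `TwoZeroFund18.h1VanishAtQuot_freeRes`);
* **`alphaTwoLeft_freeRes`** : `AlphaTwoLeft (freeRes ρA) …`: there is an injective
  `τ : H²_lev(G; C)[p] → ℤ/p` such that `α² = τ ∘ pair20 : ℍ²(K(P; C)) → Hom(A^G, ℤ/p)` is
  injective; **`card_ℍ2_le_freeRes`** : `#ℍ²(K(P; C)) ≤ #A^G` (wrapped as `CardTwoLe`).
  Hypotheses: fundamental classes at the finite levels of `C` only (NO norm condition (GEX)).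
-/
import Mathlib
import Fermat.Agent.ES.T56.TwoZeroFund18
import Fermat.Agent.ES.T56.TwoZeroRawFG6
import Fermat.Agent.ES.T56.GlobAlphaTwo18
import Fermat.Agent.PT.PRO.GlobalHypP8

set_option autoImplicit false

namespace Fermat.Agent.ES.T56.FinTN20Fund18

open Fermat.Agent.PT.PRO.HyperLevel25 Fermat.Agent.PT.PRO.Pairing20
  Fermat.Agent.PT.PRO.HyperColim18 Fermat.Agent.PT.PRO.IndRes20
  Fermat.Agent.PT.PRO.DescendRes18 Fermat.Agent.PT.PRO.HpAt29 Fermat.Agent.PT.PRO.FreeRes29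
  Fermat.Agent.PT.PRO.FundRaw18 Fermat.Agent.PT.FG.Interface8
  Fermat.Agent.ES.T56.TwoZeroFin2 Fermat.Agent.ES.T56.TwoZeroLimit18
  Fermat.Agent.ES.T56.TwoZeroFund18 Fermat.Agent.ES.T56.GlobAlphaTwo18

open CategoryTheory groupCohomology

/-! ### A generic-`k` wrapper for the count -/

section Wrapper

open Fermat.Agent.PT.PRO.Setup20 Fermat.Agent.PT.PRO.Objects20

variable {k : Type} [CommRing k] {G : Type} [Group G] {P1 P0 M C : Type}
  [AddCommGroup P1] [Module k P1] [AddCommGroup P0] [Module k P0] [AddCommGroup M] [Module k M]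
  [AddCommGroup C] [Module k C] [Module.Finite k P0] [Module.Finite k P1]

/-- `ℍ²(K(P; C))` is finite with `#ℍ²(K(P; C)) ≤ #M^G`, as a statement about `R`, `ρC` (base
modules only: usable at `k = ℤ`). -/
def CardTwoLe (R : Res k G P1 P0 M) {𝒰 : Set (Subgroup G)} (h0 : IsDiscrete 𝒰 R.ρ0)
    (h𝒰 : IsLevelBasis 𝒰) (ρC : Representation k G C) (hC : IsDiscrete 𝒰 ρC) : Prop :=
  Finite ((KX R h0 h𝒰 ρC hC).ℍ2 h𝒰) ∧
    Nat.card ((KX R h0 h𝒰 ρC hC).ℍ2 h𝒰) ≤ Nat.card ↥R.ρM.invariants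

theorem cardTwoLe_of_left [Finite M] {R : Res k G P1 P0 M} {𝒰 : Set (Subgroup G)}
    {h0 : IsDiscrete 𝒰 R.ρ0} {h𝒰 : IsLevelBasis 𝒰} {ρC : Representation k G C}
    {hC : IsDiscrete 𝒰 ρC} {p : ℕ} [Fact p.Prime] {hpM : ∀ m : M, p • m = 0}
    (hL : AlphaTwoLeft R h0 h𝒰 ρC hC p hpM) : CardTwoLe R h0 h𝒰 ρC hC :=
  card_ℍ2_le_of_left hL

end Wrapper

section Int

variable {G : Type} [Group G] {P1 P0 M C : Type} [AddCommGroup P1] [Module ℤ P1]
  [AddCommGroup P0] [Module ℤ P0] [AddCommGroup M] [Module ℤ M] [AddCommGroup C] [Module ℤ C]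

/-- Raw TN20-left over `G ⧸ V` for `(P₀, C^V)` from a fundamental class on `(G ⧸ V, C^V)`. -/
theorem tn20lAtQuot_of_isFundClass [Module.Free ℤ P0] [Module.Finite ℤ P0]
    (R : Res ℤ G P1 P0 M) (ρC : Representation ℤ G C)
    (V : Subgroup G) [V.Normal] [V.FiniteIndex] (h0 : ∀ s ∈ V, ∀ x, R.ρ0 s x = x) {p : ℕ}
    [Fact p.Prime] (u : H2 (fixedObj V ρC)) (hu : IsFundClass p (fixedObj V ρC) u) :
    TN20lAtQuot R ρC V h0 p :=
  @TwoZeroRawFG6.tn20l_raw (G ⧸ V) _ P0 ↥(fixedSub V ρC) _ _ _ (Submodule.module _)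
    (resQuot R V h0).ρ0 (fixedRep V ρC) _ p _ inferInstance inferInstance u hu

/-- Raw TN11-left over `G ⧸ V` for `(P₁, C^V)` from a fundamental class on `(G ⧸ V, C^V)`. -/
theorem tn11lAtQuot_of_isFundClass [Module.Free ℤ P1] [Module.Finite ℤ P1]
    (R : Res ℤ G P1 P0 M) (ρC : Representation ℤ G C)
    (V : Subgroup G) [V.Normal] [V.FiniteIndex] (h0 : ∀ s ∈ V, ∀ x, R.ρ0 s x = x) {p : ℕ}
    [Fact p.Prime] (u : H2 (fixedObj V ρC)) (hu : IsFundClass p (fixedObj V ρC) u) :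
    TN11lAtQuot R ρC V h0 p :=
  @TwoZeroRawFG6.tn11l_raw (G ⧸ V) _ P1 ↥(fixedSub V ρC) _ _ _ (Submodule.module _)
    (resQuot R V h0).ρ1 (fixedRep V ρC) _ p _ inferInstance inferInstance u hu

end Int

section Canonical

variable {G : Type} [Group G] {A C : Type} [AddCommGroup A] [Finite A] [AddCommGroup C]
  [Module ℤ C]

/-- **The finite-level left kernel for the canonical resolution** `0 → Rel → ℤ[A] → A → 0` over
`G ⧸ V`, from a fundamental class on `(G ⧸ V, C^V)`. -/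
theorem finTN20lAtQuot_of_isFundClass (ρA : Representation ℤ G A) (ρC : Representation ℤ G C)
    (V : Subgroup G) [V.Normal] [V.FiniteIndex]
    (h0 : ∀ s ∈ V, ∀ x, (freeRes ρA).ρ0 s x = x) {p : ℕ} [Fact p.Prime]
    (hpA : ∀ a : A, p • a = 0) (u : H2 (fixedObj V ρC))
    (hu : IsFundClass p (fixedObj V ρC) u) : FinTN20lAtQuot (freeRes ρA) ρC V h0 :=
  finTN20lAtQuot_of (freeRes ρA) ρC V h0 Fact.out
    (fun a => (Nat.cast_smul_eq_nsmul ℤ p a).trans (hpA a))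
    (h1VanishAtQuot_freeRes ρA V h0)
    (tn20lAtQuot_of_isFundClass (freeRes ρA) ρC V h0 u hu)
    (tn11lAtQuot_of_isFundClass (freeRes ρA) ρC V h0 u hu)

open Fermat.Agent.PT.PRO in
/-- **The LEFT half of the `(2,0)` duality package for the canonical resolution**, from fundamental
classes at the finite levels of `C`: `α² = τ ∘ pair20` is injective. -/
theorem alphaTwoLeft_freeRes (ρA : Representation ℤ G A) (ρC : Representation ℤ G C)
    {𝒰 : Set (Subgroup G)} {p : ℕ} [Fact p.Prime] (h𝒰 : IsLevelBasis 𝒰)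
    (hA : IsDiscrete 𝒰 ρA) (hpA : ∀ a : A, p • a = 0) (hC : IsDiscrete 𝒰 ρC)
    (hfund : ∀ V ∈ 𝒰, ∀ hn : V.Normal, haveI := hn;
      ∃ u : H2 (fixedObj V ρC), IsFundClass p (fixedObj V ρC) u) :
    AlphaTwoLeft (freeRes ρA) (isDiscrete_freeRep h𝒰 hA) h𝒰 ρC hC p hpA :=
  alphaTwoLeft_of_isFundClass (freeRes ρA) ρC h𝒰 (isDiscrete_freeRep h𝒰 hA) hpA hC
    (GlobalHypP8.trivFam_sub (freeRes ρA) 𝒰) (GlobalHypP8.trivFam_normal (freeRes ρA) 𝒰)
    (GlobalHypP8.trivFam_cofinal (freeRes ρA) h𝒰 (isDiscrete_freeRep h𝒰 hA))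
    (GlobalHypP8.trivFam_triv0 (freeRes ρA) 𝒰) hfund
    (fun V hV => by
      have := GlobalHypP8.trivFam_normal (freeRes ρA) 𝒰 V hV
      have := h𝒰.finiteIndex V (GlobalHypP8.trivFam_sub (freeRes ρA) 𝒰 hV)
      obtain ⟨u, hu⟩ := hfund V (GlobalHypP8.trivFam_sub (freeRes ρA) 𝒰 hV)
        (GlobalHypP8.trivFam_normal (freeRes ρA) 𝒰 V hV)
      exact finTN20lAtQuot_of_isFundClass ρA ρC V _ hpA u hu)

/-- **Numerically**: `#ℍ²(K(P; C)) ≤ #A^G` (`P` the canonical resolution of the finite module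
`A`, `p A = 0`), from fundamental classes at the finite levels of `C`. -/
theorem card_ℍ2_le_freeRes (ρA : Representation ℤ G A) (ρC : Representation ℤ G C)
    {𝒰 : Set (Subgroup G)} {p : ℕ} [Fact p.Prime] (h𝒰 : IsLevelBasis 𝒰)
    (hA : IsDiscrete 𝒰 ρA) (hpA : ∀ a : A, p • a = 0) (hC : IsDiscrete 𝒰 ρC)
    (hfund : ∀ V ∈ 𝒰, ∀ hn : V.Normal, haveI := hn;
      ∃ u : H2 (fixedObj V ρC), IsFundClass p (fixedObj V ρC) u) :
    CardTwoLe (freeRes ρA) (isDiscrete_freeRep h𝒰 hA) h𝒰 ρC hC :=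
  cardTwoLe_of_left (alphaTwoLeft_freeRes ρA ρC h𝒰 hA hpA hC hfund)

end Canonical

end Fermat.Agent.ES.T56.FinTN20Fund18
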