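/-
Programme T (S56), chapter GW, part C (degree `(2,0)` duality), helper2.

`TwoZeroRDefs2`: the RIGHT-kernel vocabulary of the pairing
  `ℍ²(Y⁰ → Y¹) × H⁰(A) → H²(X)`
(on top of `TwoZeroDefs2`): at a finite level the right kernel is the group of NORMS,

* `FinTN20r D`   : finite group `Q`: a lifted invariant `(m̃, z')` pairing to a coboundary with every
                   hyper-2-cocycle has `π m̃ = ∑_{q ∈ Q} q a'` for some `a' ∈ A`;
* `TN20rAt D V`  : the same at level `V` of `G` (raw cochains on `G`), with the norm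
                   `GlobalDuality20.nrm D.ρA V a'`;
* `HypR20 D 𝒰 ℱ p`: the hypothesis package of the limit argument: `TNr`, `INJ2p`, `HpAt` as in
                   `TwoZeroDefs2.HypL20`, and `NK` ("norms die in the tower": every `V ∈ ℱ` contains a
                   `V' ∈ ℱ` all of whose norms `N_{G/V'} a'` vanish);
* `nrm_eq_relindex_smul` : `N_{G/V'} a = [V : V'] • N_{G/V} a` when `V` acts trivially on `a`'s
                   orbit — the source of `NK` for a finite `p`-torsion module and `p ∣ [V : V']`.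
-/
import Mathlib
import Fermat.Agent.ES.T56.TwoZeroDefs2

set_option autoImplicit false

namespace Fermat.Agent.ES.T56.TwoZeroRDefs2

open Fermat.Agent.PT.PRO.HyperLevel25 Fermat.Agent.PT.PRO.Pairing20
  Fermat.Agent.PT.PRO.GlobalDuality20 Fermat.Agent.ES.T56.TwoZeroDefs2

variable {k : Type*} [CommRing k] {G : Type*} [Group G]
variable {Y0 Y1 F0 F1 A X : Type*}
  [AddCommGroup Y0] [Module k Y0] [AddCommGroup Y1] [Module k Y1]
  [AddCommGroup F0] [Module k F0] [AddCommGroup F1] [Module k F1]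
  [AddCommGroup A] [Module k A] [AddCommGroup X] [Module k X]

/-- Hyper Tate–Nakayama in degree `(2,0)`, RIGHT kernel, finite-group form (no levels): a lifted
invariant which pairs to a coboundary with every hyper-2-cocycle lifts a norm. -/
def FinTN20r {Q : Type*} [Group Q] (D : Datum k Q Y0 Y1 F0 F1 A X) : Prop :=
  ∀ (mt : F0) (z' : Q → F1), IsLift0 D mt z' →
    (∀ c2 c1, IsHyper2 D c2 c1 → ∃ u : Q → X, pair20Fun D c2 c1 mt z' = dOne D.ρX u) →
    ∃ a' : A, D.π mt = ∑ᶠ q : Q, D.ρA q a'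

variable (D : Datum k G Y0 Y1 F0 F1 A X)

/-- The same at level `V` of `G` (raw cochains on `G`). -/
def TN20rAt (V : Subgroup G) : Prop :=
  ∀ (mt : F0) (z' : G → F1), IsLift0At D V mt z' →
    (∀ c2 c1, IsHyper2At D V c2 c1 →
      ∃ u, IsLevelAt₁ D.ρX V u ∧ pair20Fun D c2 c1 mt z' = dOne D.ρX u) →
    ∃ a' : A, FixedBy D.ρA V a' ∧ D.π mt = nrm D.ρA V a'

/-- The finite-level hypotheses of the RIGHT-kernel limit argument in degree `(2,0)`. -/
structure HypR20 (𝒰 : Set (Subgroup G)) (ℱ : Set (Subgroup G)) (p : ℕ) : Prop where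
  sub : ℱ ⊆ 𝒰
  normal : ∀ V ∈ ℱ, V.Normal
  cofinal : ∀ U ∈ 𝒰, ∃ V ∈ ℱ, V ≤ U
  /-- hyper Tate–Nakayama `(2,0)` at level `V`, right kernel = norms -/
  TNr : ∀ V ∈ ℱ, TN20rAt D V
  /-- inflation `H²(G/V, X^V)[p] → H²(𝒰; X)` is injective -/
  INJ2p : ∀ V ∈ ℱ, ∀ φ : G × G → X, IsLevelAt₂ D.ρX V φ →
    (∃ u, IsLevelAt₁ D.ρX V u ∧ (p : k) • φ = dOne D.ρX u) →
    (∃ u, IsLevel₁ 𝒰 u ∧ φ = dOne D.ρX u) → ∃ u, IsLevelAt₁ D.ρX V u ∧ φ = dOne D.ρX u
  /-- `p` kills the level-`V` hyper-2-cocycle classes, at level `V` -/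
  HpAt : ∀ V ∈ ℱ, ∀ (c2 : G × G → Y0) (c1 : G → Y1), IsHyper2At D V c2 c1 →
    ∃ (b : G → Y0) (e : Y1), IsLevelAt₁ D.ρY0 V b ∧ FixedBy D.ρY1 V e ∧
      (p : k) • c2 = hbdryC2 D b ∧ (p : k) • c1 = hbdryC1 D b e
  /-- norms die in the tower -/
  NK : ∀ V ∈ ℱ, ∃ V' ∈ ℱ, V' ≤ V ∧ ∀ a' : A, FixedBy D.ρA V' a' → nrm D.ρA V' a' = 0

/-! ### The norm in a tower -/

section Norm

variable {Y : Type*} [AddCommGroup Y] [Module k Y] (ρ : Representation k G Y)

/-- `ρ (out q) e = ρ g e` for `e` fixed by `V` and `g` in the class `q`. -/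
lemma rho_out_eq {V : Subgroup G} {e : Y} (he : FixedBy ρ V e) (g : G) :
    ρ (Quotient.out (g : G ⧸ V)) e = ρ g e := by
  have h1 : g⁻¹ * Quotient.out (g : G ⧸ V) ∈ V :=
    QuotientGroup.eq.1 (QuotientGroup.out_eq' (g : G ⧸ V)).symm
  have h2 : Quotient.out (g : G ⧸ V) = g * (g⁻¹ * Quotient.out (g : G ⧸ V)) := by group
  rw [h2, map_mul, Module.End.mul_apply, he _ h1]

/-- **The norm in a tower**: if `V' ≤ V` are of finite index and `V` fixes the whole `G`-orbit of
`e`, then `N_{G/V'} e = [V : V'] • N_{G/V} e`. -/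
theorem nrm_eq_relindex_smul {V V' : Subgroup G} (hle : V' ≤ V) [V'.FiniteIndex] {e : Y}
    (he : ∀ g : G, FixedBy ρ V (ρ g e)) :
    nrm ρ V' e = (V'.relIndex V) • nrm ρ V e := by
  classical
  have hVfin : V.FiniteIndex := Subgroup.finiteIndex_of_le hle
  have : Finite (G ⧸ V') := Subgroup.finite_quotient_of_finiteIndex
  have : Finite (G ⧸ V) := Subgroup.finite_quotient_of_finiteIndex
  have : Finite (V ⧸ V'.subgroupOf V) := Subgroup.finite_quotient_of_finiteIndex
  let _ : Fintype (G ⧸ V') := Fintype.ofFinite _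
  let _ : Fintype (G ⧸ V) := Fintype.ofFinite _
  let _ : Fintype (V ⧸ V'.subgroupOf V) := Fintype.ofFinite _
  have heV : FixedBy ρ V e := by simpa using he 1
  have heV' : FixedBy ρ V' e := fun s hs => heV s (hle hs)
  let E := Subgroup.quotientEquivProdOfLE hle
  -- the summand only depends on the image in `G ⧸ V`
  have hsum : ∀ q' : G ⧸ V', ρ (Quotient.out q') e = ρ (Quotient.out (E q').1) e := by
    intro q'
    induction q' using QuotientGroup.induction_on with
    | H g =>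
      have h1 : (E (g : G ⧸ V')).1 = (g : G ⧸ V) := rfl
      rw [h1, rho_out_eq ρ heV' g, rho_out_eq ρ heV g]
  rw [nrm, nrm, finsum_eq_sum_of_fintype, finsum_eq_sum_of_fintype]
  rw [Fintype.sum_equiv E (fun q' => ρ (Quotient.out q') e)
    (fun x => ρ (Quotient.out x.1) e) hsum, Fintype.sum_prod_type]
  simp only [Finset.sum_const, Finset.card_univ]
  rw [Finset.smul_sum, Subgroup.relIndex, Subgroup.index, Nat.card_eq_fintype_card]

end Norm

end Fermat.Agent.ES.T56.TwoZeroRDefs2
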