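/-
Programme T (S56), chapter GW, part C (degree `(2,0)` duality), helper2.

`TwoZeroRDescend2`: transport of the FINITE-LEVEL right-kernel statement `TwoZeroRDefs2.FinTN20r`
(datum over the finite group `G ⧸ V`, all cochains) to the level-`V` raw-cochain statement
`TwoZeroRDefs2.TN20rAt D V` — the RIGHT-kernel twin of helper18's `TwoZeroDescend18`
(whose dictionary lemmas are reused).

* `tn20rAt_of_descend : FinTN20r (descend D V hπ) → TN20rAt D V`;
* `finTN20r_iso`      : `FinTN20r` transports along `DescendRes18.DatumIso`;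
* `tn20rAt_datum`     : for `K(P; C)`:
    `FinTN20r ((resQuot R V h0).datum (fixedRep V ρC)) → TN20rAt (R.datum ρC) V`.
-/
import Mathlib
import Fermat.Agent.ES.T56.TwoZeroRDefs2
import Fermat.Agent.ES.T56.TwoZeroDescend18

set_option autoImplicit false

namespace Fermat.Agent.ES.T56.TwoZeroRDescend2

open Fermat.Agent.PT.PRO.HyperLevel25 Fermat.Agent.PT.PRO.Pairing20
  Fermat.Agent.PT.PRO.GlobalDuality20 Fermat.Agent.PT.PRO.HyperColim18
  Fermat.Agent.PT.PRO.IndRes20 Fermat.Agent.PT.PRO.DescendRes18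
  Fermat.Agent.ES.T56.TwoZeroDefs2 Fermat.Agent.ES.T56.TwoZeroRDefs2
  Fermat.Agent.ES.T56.TwoZeroDescend18

variable {k : Type*} [CommRing k] {G : Type*} [Group G]
variable {Y0 Y1 F0 F1 A X : Type*}
  [AddCommGroup Y0] [Module k Y0] [AddCommGroup Y1] [Module k Y1]
  [AddCommGroup F0] [Module k F0] [AddCommGroup F1] [Module k F1]
  [AddCommGroup A] [Module k A] [AddCommGroup X] [Module k X]

/-! ### Transport from `G ⧸ V` to level `V` -/

section Transport

variable (D : Datum k G Y0 Y1 F0 F1 A X) (V : Subgroup G) [V.Normal]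
  (hπ : ∀ a, FixedBy D.ρA V a → ∃ x, FixedBy D.ρF0 V x ∧ D.π x = a)

/-- **Transport of the `(2,0)` right-kernel statement** from `G ⧸ V` to level `V`. -/
theorem tn20rAt_of_descend (h : FinTN20r (descend D V hπ)) : TN20rAt D V := by
  intro mt z' hz hpair
  obtain ⟨hlift, hmt, hz'⟩ := hz
  have hlift' : IsLift0 (descend D V hπ) (toFixed mt hmt) (desc₁ z' hz') := by
    rw [isLift0_descend_iff, infl₁_desc₁]
    exact hlift
  obtain ⟨a', ha'⟩ := h (toFixed mt hmt) (desc₁ z' hz') hlift' (fun c2 c1 hcy => by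
    rw [isHyper2_descend_iff] at hcy
    obtain ⟨u, hu, hpu⟩ := hpair (infl₂ c2) (infl₁ c1)
      ⟨hcy, isLevelAt₂_infl₂ c2, isLevelAt₁_infl₁ c1⟩
    refine ⟨desc₁ u hu, infl₂_injective ?_⟩
    have h3 : infl₂ (dOne (fixedRep V D.ρX) (desc₁ u hu)) = dOne D.ρX u := by
      rw [infl₂_dOne, infl₁_desc₁]
    have h4 : infl₂ (dOne (descend D V hπ).ρX (desc₁ u hu)) = dOne D.ρX u := h3
    rw [h4, infl₂_pair20Fun, infl₁_desc₁]
    exact hpu)
  refine ⟨(a' : A), a'.2, ?_⟩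
  have h5 := congrArg Subtype.val ha'
  have h6 : ((∑ᶠ q : G ⧸ V, (descend D V hπ).ρA q a' : fixedSub V D.ρA) : A) =
      nrm D.ρA V (a' : A) := coe_finsum_fixedRep V D.ρA a'
  rw [← h6, ← h5]
  rfl

end Transport

/-! ### Transport along isomorphisms of data -/

section Iso

variable {Q : Type*} [Group Q]
variable {Y0' Y1' F0' F1' A' X' : Type*}
  [AddCommGroup Y0'] [Module k Y0'] [AddCommGroup Y1'] [Module k Y1']
  [AddCommGroup F0'] [Module k F0'] [AddCommGroup F1'] [Module k F1']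
  [AddCommGroup A'] [Module k A'] [AddCommGroup X'] [Module k X']
variable {D : Datum k Q Y0 Y1 F0 F1 A X} {D' : Datum k Q Y0' Y1' F0' F1' A' X'}
  (e : DatumIso D D')

lemma isLift0_iso {mt : F0} {z' : Q → F1} (h : IsLift0 D mt z') :
    IsLift0 D' (e.eF0 mt) (⇑e.eF1 ∘ z') := by
  intro g
  rw [Function.comp_apply, ← e.ι_comm, h g, dZero_apply, dZero_apply, map_sub, e.ρF0_comm]

lemma isHyper2_iso_symm {c2 : Q × Q → Y0'} {c1 : Q → Y1'} (h : IsHyper2 D' c2 c1) :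
    IsHyper2 D (⇑e.eY0.symm ∘ c2) (⇑e.eY1.symm ∘ c1) := by
  have h20 : ⇑e.eY0 ∘ ⇑e.eY0.symm ∘ c2 = c2 := by funext q; simp
  have h10 : ⇑e.eY1 ∘ ⇑e.eY1.symm ∘ c1 = c1 := by funext q; simp
  refine ⟨?_, ?_⟩
  · have h1 : ⇑e.eY0 ∘ dTwo D.ρY0 (⇑e.eY0.symm ∘ c2) = dTwo D'.ρY0 (⇑e.eY0 ∘ ⇑e.eY0.symm ∘ c2) :=
      comp_dTwo D.ρY0 D'.ρY0 e.eY0.toLinearMap e.ρY0_comm _
    rw [h20, h.1] at h1
    funext t
    apply e.eY0.injective
    have h3 := congrFun h1 t
    rw [Function.comp_apply] at h3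
    rw [h3]
    simp
  · have h1 : ⇑e.eY1 ∘ dOne D.ρY1 (⇑e.eY1.symm ∘ c1) = dOne D'.ρY1 (⇑e.eY1 ∘ ⇑e.eY1.symm ∘ c1) :=
      comp_dOne D.ρY1 D'.ρY1 e.eY1.toLinearMap e.ρY1_comm _
    rw [h10, ← h.2] at h1
    funext q
    apply e.eY1.injective
    have h3 := congrFun h1 q
    rw [Function.comp_apply] at h3
    rw [h3]
    simp only [Function.comp_apply, e.f_comm, LinearEquiv.apply_symm_apply]

/-- `FinTN20r` transports along an isomorphism of data. -/
theorem finTN20r_iso (e : DatumIso D D') (h : FinTN20r D') : FinTN20r D := by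
  intro mt z' hz hpair
  have hsymm0 : e.eF0.symm (e.eF0 mt) = mt := e.eF0.symm_apply_apply mt
  have hsymm1 : ⇑e.eF1.symm ∘ ⇑e.eF1 ∘ z' = z' := by funext g; simp
  obtain ⟨a'', ha''⟩ := h (e.eF0 mt) (⇑e.eF1 ∘ z') (isLift0_iso e hz) (fun c2' c1' hcy' => by
    obtain ⟨u, hu⟩ := hpair _ _ (isHyper2_iso_symm e hcy')
    refine ⟨⇑e.eX ∘ u, ?_⟩
    have h1 := pair20Fun_iso_symm e (⇑e.eY0.symm ∘ c2') (⇑e.eY1.symm ∘ c1') (e.eF0 mt)
      (⇑e.eF1 ∘ z')
    have h20 : ⇑e.eY0 ∘ ⇑e.eY0.symm ∘ c2' = c2' := by funext q; simp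
    have h10 : ⇑e.eY1 ∘ ⇑e.eY1.symm ∘ c1' = c1' := by funext q; simp
    rw [h20, h10, hsymm0, hsymm1, hu] at h1
    rw [h1]
    exact comp_dOne D.ρX D'.ρX e.eX.toLinearMap e.ρX_comm u)
  refine ⟨e.eA.symm a'', ?_⟩
  apply e.eA.injective
  rw [e.π_comm, ha'']
  have h3 := AddMonoidHom.map_finsum_of_injective e.eA.toLinearMap.toAddMonoidHom
    e.eA.injective (fun q : Q => D.ρA q (e.eA.symm a''))
  simp only [LinearMap.toAddMonoidHom_coe, LinearEquiv.coe_coe] at h3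
  rw [h3]
  refine finsum_congr (fun q => ?_)
  rw [e.ρA_comm, LinearEquiv.apply_symm_apply]

end Iso

/-! ### The complex `K(P; C)` -/

section Quot

variable {P1 P0 M C : Type*} [AddCommGroup P1] [Module k P1]
  [AddCommGroup P0] [Module k P0] [AddCommGroup M] [Module k M] [AddCommGroup C] [Module k C]
variable (R : Res k G P1 P0 M) (ρC : Representation k G C) (V : Subgroup G) [V.Normal]
  (h0 : ∀ s ∈ V, ∀ x, R.ρ0 s x = x)

/-- `FinTN20r` of the descended datum of `K(P; C)` from `FinTN20r` of `K(P; C^V)` over `G ⧸ V`. -/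
theorem finTN20r_descend (h : FinTN20r ((resQuot R V h0).datum (fixedRep V ρC))) :
    FinTN20r (descend (R.datum ρC) V (hπ_datum R ρC V h0)) :=
  finTN20r_iso (descendIso R ρC V h0) h

/-- **The field `TNr` of `HypR20` at `V` for `K(P; C)`** from the finite-group statement for
`K(P; C^V)` over `G ⧸ V` (`V` normal, acting trivially on `P₀`). -/
theorem tn20rAt_datum (h : FinTN20r ((resQuot R V h0).datum (fixedRep V ρC))) :
    TN20rAt (R.datum ρC) V :=
  tn20rAt_of_descend (R.datum ρC) V (hπ_datum R ρC V h0) (finTN20r_descend R ρC V h0 h)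

end Quot

end Fermat.Agent.ES.T56.TwoZeroRDescend2
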