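/-
Programme T (S56), chapter GW, part C (degree `(2,0)` duality), helper2.

`TwoZeroRLimit2`: the LIMIT ARGUMENT for the RIGHT kernel of
`Ext²_G(M, C) × H⁰(G, M) → H²(G, C)` at the raw cochain level (twin of helper18's
`TwoZeroLimit18.left_kernel20`): under `TwoZeroRDefs2.HypR20`, a lifted invariant `(m̃, z')` which
pairs to a level coboundary with every level hyper-2-cocycle has `π m̃ = 0`.

At a finite level the right kernel consists of the NORMS; they die in the tower (`HypR20.NK`).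

* `right_kernel20`;
* `nk_of_dvd`      : `NK` for a module killed by `p` on which `ℱ` acts trivially, if every `V ∈ ℱ`
                     contains a `V' ∈ ℱ` with `p ∣ [V : V']`;
* `hypR20_datum`   : assembly of `HypR20` for `K(P; C)`.
-/
import Mathlib
import Fermat.Agent.ES.T56.TwoZeroRDescend2
import Fermat.Agent.ES.T56.TwoZeroLimit18

set_option autoImplicit false

namespace Fermat.Agent.ES.T56.TwoZeroRLimit2

open Fermat.Agent.PT.PRO.HyperLevel25 Fermat.Agent.PT.PRO.Pairing20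
  Fermat.Agent.PT.PRO.GlobalDuality20 Fermat.Agent.PT.PRO.HyperColim18
  Fermat.Agent.PT.PRO.HyperColimP18 Fermat.Agent.PT.PRO.IndRes20
  Fermat.Agent.PT.PRO.DescendRes18 Fermat.Agent.ES.T56.TwoZeroDefs2
  Fermat.Agent.ES.T56.TwoZeroRDefs2 Fermat.Agent.ES.T56.TwoZeroLimit18

variable {k : Type*} [CommRing k] {G : Type*} [Group G]
variable {Y0 Y1 F0 F1 A X : Type*}
  [AddCommGroup Y0] [Module k Y0] [AddCommGroup Y1] [Module k Y1]
  [AddCommGroup F0] [Module k F0] [AddCommGroup F1] [Module k F1]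
  [AddCommGroup A] [Module k A] [AddCommGroup X] [Module k X]

variable {D : Datum k G Y0 Y1 F0 F1 A X} {𝒰 ℱ : Set (Subgroup G)} {p : ℕ}

/-- `p` times the pairing of level-`V` data is a level-`V` coboundary. -/
lemma hypR20_smul_pair20Fun (H : HypR20 D 𝒰 ℱ p) {V : Subgroup G} (hV : V ∈ ℱ)
    {c2 : G × G → Y0} {c1 : G → Y1} (hcy : IsHyper2At D V c2 c1) {mt : F0} {z' : G → F1}
    (hz : IsLift0At D V mt z') :
    ∃ u, IsLevelAt₁ D.ρX V u ∧ (p : k) • pair20Fun D c2 c1 mt z' = dOne D.ρX u := by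
  obtain ⟨b, e, hb, he, h2, h1⟩ := H.HpAt V hV c2 c1 hcy
  refine ⟨fun a => D.ev0 (b a) (D.ρF0 a mt) + D.ev1 e (z' a),
    isLevelAt₁_hbdry_pairing (H.normal V hV) hb he hz, ?_⟩
  rw [← pair20Fun_smul_left, h2, h1, pair20Fun_hbdry D b e hz.1]

/-- A lifted invariant with level `z'` is of level `V` for some `V ∈ ℱ`. -/
lemma hypR20_exists_levelAt (h𝒰 : IsLevelBasis 𝒰) (H : HypR20 D 𝒰 ℱ p)
    (hF0 : IsDiscrete 𝒰 D.ρF0) (hF1 : IsDiscrete 𝒰 D.ρF1) (mt : F0) {z' : G → F1}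
    (hz' : IsLevel₁ 𝒰 z') : ∃ V ∈ ℱ, FixedBy D.ρF0 V mt ∧ IsLevelAt₁ D.ρF1 V z' := by
  obtain ⟨W₀, hW₀, h0⟩ := hF0 mt
  obtain ⟨W₁, hW₁, -, h11, h12⟩ := h𝒰.exists_normal_fixing hF1 hz'
  obtain ⟨W, hW, hle⟩ := h𝒰.inf W₀ hW₀ W₁ hW₁
  obtain ⟨V, hV, hVle⟩ := H.cofinal W hW
  have hV0 : V ≤ W₀ := hVle.trans (hle.trans inf_le_left)
  have hV1 : V ≤ W₁ := hVle.trans (hle.trans inf_le_right)
  exact ⟨V, hV, fun s hs => h0 s (hV0 hs),
    ⟨fun g s hs => h11 g s (hV1 hs), fun g s hs => h12 g s (hV1 hs)⟩⟩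

/-- **Right kernel, degree `(2,0)`.**  A lifted invariant which pairs to a level coboundary with
every level hyper-2-cocycle lifts `0`. -/
theorem right_kernel20 (h𝒰 : IsLevelBasis 𝒰) (H : HypR20 D 𝒰 ℱ p) (hF0 : IsDiscrete 𝒰 D.ρF0)
    (hF1 : IsDiscrete 𝒰 D.ρF1) {mt : F0} {z' : G → F1} (hz : IsLift0 D mt z')
    (hz' : IsLevel₁ 𝒰 z')
    (hpair : ∀ c2 c1, IsHyper2 D c2 c1 → IsLevel₂ 𝒰 c2 → IsLevel₁ 𝒰 c1 →
      ∃ u, IsLevel₁ 𝒰 u ∧ pair20Fun D c2 c1 mt z' = dOne D.ρX u) :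
    D.π mt = 0 := by
  obtain ⟨V₀, hV₀, hmt₀, hz₀⟩ := hypR20_exists_levelAt h𝒰 H hF0 hF1 mt hz'
  obtain ⟨V, hV, hle, hNK⟩ := H.NK V₀ hV₀
  have hVn := H.normal V hV
  have hzV : IsLift0At D V mt z' :=
    ⟨hz, fun s hs => hmt₀ s (hle hs),
      ⟨fun g s hs => hz₀.1 g s (hle hs), fun g s hs => hz₀.2 g s (hle hs)⟩⟩
  obtain ⟨a', ha', hπ⟩ := H.TNr V hV mt z' hzV (fun c2 c1 hcy => by
    obtain ⟨u, hu, hpu⟩ := hpair c2 c1 hcy.1 (hcy.2.1.isLevel₂ (H.sub hV))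
      (hcy.2.2.isLevel₁ (H.sub hV))
    exact H.INJ2p V hV _ (isLevelAt₂_pair20Fun hVn hcy hzV) (hypR20_smul_pair20Fun H hV hcy hzV)
      ⟨u, hu, hpu⟩)
  rw [hπ, hNK a' ha']

/-! ### Norms die in the tower -/

/-- **`NK` from divisibility of indices**: if `p • A = 0`, every `V ∈ ℱ` acts trivially on `A`, has
finite index, and contains some `V' ∈ ℱ` with `p ∣ [V : V']`, then all norms `N_{G/V'}` vanish. -/
theorem nk_of_dvd (ρA : Representation k G A) (hpA : ∀ a : A, (p : k) • a = 0)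
    (hfin : ∀ V ∈ ℱ, V.FiniteIndex) (htriv : ∀ V ∈ ℱ, ∀ s ∈ V, ∀ a, ρA s a = a)
    (hdvd : ∀ V ∈ ℱ, ∃ V' ∈ ℱ, V' ≤ V ∧ p ∣ V'.relIndex V) :
    ∀ V ∈ ℱ, ∃ V' ∈ ℱ, V' ≤ V ∧ ∀ a' : A, FixedBy ρA V' a' → nrm ρA V' a' = 0 := by
  intro V hV
  obtain ⟨V', hV', hle, m, hm⟩ := hdvd V hV
  refine ⟨V', hV', hle, fun a' _ => ?_⟩
  have := hfin V' hV'
  rw [nrm_eq_relindex_smul ρA hle (fun g s hs => htriv V hV s hs _), hm, mul_smul,
    ← Nat.cast_smul_eq_nsmul k p, hpA]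

/-! ### Assembly for `K(P; C)` -/

section Datum

variable {P1 P0 M C : Type*} [AddCommGroup P1] [Module k P1]
  [AddCommGroup P0] [Module k P0] [AddCommGroup M] [Module k M] [AddCommGroup C] [Module k C]

/-- **`HypR20` for `K(P; C)`**: from the level-`V` statements `TN20rAt`, "no `p`-torsion in
`H¹(V/V'; C^{V'})`" and `NK`; the field `HpAt` is helper18's `hpAt20_datum`. -/
theorem hypR20_datum (R : Res k G P1 P0 M) (ρC : Representation k G C) {𝒰 ℱ : Set (Subgroup G)}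
    {p : ℕ} (h𝒰 : IsLevelBasis 𝒰) (hp : p.Prime) (hpM : ∀ m : M, (p : k) • m = 0)
    (hC : IsDiscrete 𝒰 ρC)
    (hsub : ℱ ⊆ 𝒰) (hnormal : ∀ V ∈ ℱ, V.Normal) (hcof : ∀ U ∈ 𝒰, ∃ V ∈ ℱ, V ≤ U)
    (hTNr : ∀ V ∈ ℱ, TN20rAt (R.datum ρC) V)
    (hH1 : ∀ V ∈ ℱ, ∀ V' ∈ 𝒰, ∀ _ : V'.Normal, V' ≤ V →
      H1NoPTorsion (fixedRep V' ρC) (V.map (QuotientGroup.mk' V')) p)
    (hNK : ∀ V ∈ ℱ, ∃ V' ∈ ℱ, V' ≤ V ∧ ∀ a' : M, FixedBy R.ρM V' a' → nrm R.ρM V' a' = 0) :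
    HypR20 (R.datum ρC) 𝒰 ℱ p :=
  ⟨hsub, hnormal, hcof, hTNr,
    fun V hV => by
      have := hnormal V hV
      exact inj2pAt_of_noPTorsion h𝒰 ρC hC V (hsub hV) hp (hH1 V hV),
    fun V _ c2 c1 hcy => hpAt20_datum R ρC p hpM V c2 c1 hcy,
    hNK⟩

end Datum

end Fermat.Agent.ES.T56.TwoZeroRLimit2
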