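/-
Programme T (S56), chapter GW, part C (degree `(2,0)` duality), helper2.

`AlphaTwoRight2`: the RIGHT kernel of the `(2,0)` pairing
`pair20 : ℍ²(K(P; C)) × H⁰_lev(G, M) → H²_lev(G, C)` is trivial, from fundamental classes at the
finite levels and the tower condition "`p^∞ ∣ #G`" (twin of helper18's `GlobAlphaTwo18` Part B/C and
`FinTN20Fund18`, which treat the LEFT kernel).

* generic `k`: wrappers `HypR20Datum`, `FinTN20rAtQuot`; `pair20_right_kernel_of_hypR20`;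
  `hypR20Datum_of_at`;
* `k = ℤ`: `finTN20rAtQuot_of_isFundClass` (any resolution by finite free modules),
  `hypR20Datum_of_isFundClass`, **`pair20_right_kernel_of_isFundClass`** and
  **`alphaTwoPackage_of_isFundClass`** (the full `GlobAlphaTwo18.AlphaTwoPackage`).

Tower condition `hdvd`: every `V ∈ ℱ` contains some `V' ∈ ℱ` with `p ∣ [V : V']`.
-/
import Mathlib
import Fermat.Agent.ES.T56.TwoZeroRLimit2
import Fermat.Agent.ES.T56.TwoZeroRRawFG2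
import Fermat.Agent.ES.T56.FinTN20Fund18

set_option autoImplicit false
set_option linter.unusedSectionVars false

namespace Fermat.Agent.ES.T56.AlphaTwoRight2

open Function Fermat.Agent.PT.PRO.HyperLevel25 Fermat.Agent.PT.PRO.Resolved4
  Fermat.Agent.PT.PRO.ExtPairing4 Fermat.Agent.PT.PRO.ExtPairingB4
  Fermat.Agent.PT.PRO.Pairing20 Fermat.Agent.PT.PRO.GlobalDuality20
  Fermat.Agent.PT.PRO.HyperColim18 Fermat.Agent.PT.PRO.HyperColimP18
  Fermat.Agent.PT.PRO.IndRes20 Fermat.Agent.PT.PRO.DescendRes18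
  Fermat.Agent.PT.PRO.Setup20 Fermat.Agent.PT.PRO.Objects20
  Fermat.Agent.ES.T56.PairTwoZero18 Fermat.Agent.ES.T56.TwoZeroDefs2
  Fermat.Agent.ES.T56.TwoZeroRDefs2 Fermat.Agent.ES.T56.TwoZeroRFin2
  Fermat.Agent.ES.T56.TwoZeroRDescend2 Fermat.Agent.ES.T56.TwoZeroRLimit2
  Fermat.Agent.ES.T56.TwoZeroLimit18 Fermat.Agent.ES.T56.GlobAlphaTwo18

/-! ## Generic `k` -/

section Generic

variable {k : Type} [CommRing k] {G : Type} [Group G] {P1 P0 M C : Type}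
  [AddCommGroup P1] [Module k P1] [AddCommGroup P0] [Module k P0] [AddCommGroup M] [Module k M]
  [AddCommGroup C] [Module k C]

/-- `HypR20 (R.datum ρC) 𝒰 ℱ p`, as a statement about `R`, `ρC`. -/
def HypR20Datum (R : Res k G P1 P0 M) (ρC : Representation k G C) (𝒰 ℱ : Set (Subgroup G))
    (p : ℕ) : Prop :=
  HypR20 (R.datum ρC) 𝒰 ℱ p

/-- `FinTN20r` for `K(P; C^V)` over `G ⧸ V` (`V` normal, acting trivially on `P₀`), as a statement
about `R`, `ρC`, `V` (base modules only; usable at `k = ℤ`). -/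
def FinTN20rAtQuot (R : Res k G P1 P0 M) (ρC : Representation k G C) (V : Subgroup G)
    [V.Normal] (h0 : ∀ s ∈ V, ∀ x, R.ρ0 s x = x) : Prop :=
  FinTN20r ((resQuot R V h0).datum (fixedRep V ρC))

/-- The raw `(1,1)` right half for the induced module `P₁'` of the quotient resolution over
`G ⧸ V`, as a statement about `R`, `ρC`, `V`. -/
def TN11rAtQuot (R : Res k G P1 P0 M) (ρC : Representation k G C) (V : Subgroup G) [V.Normal]
    [Fintype (G ⧸ V)] [DecidableEq (G ⧸ V)] (h0 : ∀ s ∈ V, ∀ x, R.ρ0 s x = x) (p : ℕ) : Prop :=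
  TN11rProp (indρ1 (resQuot R V h0)) (fixedRep V ρC) p

theorem finTN20rAtQuot_of (R : Res k G P1 P0 M) (ρC : Representation k G C) (V : Subgroup G)
    [V.Normal] [Fintype (G ⧸ V)] [DecidableEq (G ⧸ V)] (h0 : ∀ s ∈ V, ∀ x, R.ρ0 s x = x) {p : ℕ}
    (hpM : ∀ m : M, (p : k) • m = 0) (h11 : TN11rAtQuot R ρC V h0 p) :
    FinTN20rAtQuot R ρC V h0 :=
  finTN20r_of (resQuot R V h0) (fixedRep V ρC) p hpM h11

/-- `HypR20Datum` from the finite-group statements over the quotients (generic `k`). -/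
theorem hypR20Datum_of_fin (R : Res k G P1 P0 M) (ρC : Representation k G C)
    {𝒰 ℱ : Set (Subgroup G)} {p : ℕ} (h𝒰 : IsLevelBasis 𝒰) (hp : p.Prime)
    (hpM : ∀ m : M, (p : k) • m = 0) (hC : IsDiscrete 𝒰 ρC)
    (hsub : ℱ ⊆ 𝒰) (hnormal : ∀ V ∈ ℱ, V.Normal) (hcof : ∀ U ∈ 𝒰, ∃ V ∈ ℱ, V ≤ U)
    (htriv : ∀ V ∈ ℱ, ∀ s ∈ V, ∀ x, R.ρ0 s x = x)
    (hfin : ∀ V (hV : V ∈ ℱ), haveI := hnormal V hV; FinTN20rAtQuot R ρC V (htriv V hV))
    (hH1 : ∀ V ∈ ℱ, ∀ V' ∈ 𝒰, ∀ _ : V'.Normal, V' ≤ V →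
      H1NoPTorsion (fixedRep V' ρC) (V.map (QuotientGroup.mk' V')) p)
    (hdvd : ∀ V ∈ ℱ, ∃ V' ∈ ℱ, V' ≤ V ∧ p ∣ V'.relIndex V) :
    HypR20Datum R ρC 𝒰 ℱ p :=
  hypR20_datum R ρC h𝒰 hp hpM hC hsub hnormal hcof
    (fun V hV => by
      have := hnormal V hV
      exact tn20rAt_datum R ρC V (htriv V hV) (hfin V hV))
    hH1
    (nk_of_dvd R.ρM hpM (fun V hV => h𝒰.finiteIndex V (hsub hV))
      (fun V hV => res_trivialM R V (htriv V hV)) hdvd)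

variable [Module.Finite k P0] [Module.Finite k P1]

/-- **Right kernel of the `(2,0)` pairing of `K(P; C)`** under the finite-level hypotheses
`HypR20Datum`. -/
theorem pair20_right_kernel_of_hypR20 (R : Res k G P1 P0 M) {𝒰 ℱ : Set (Subgroup G)}
    (h0 : IsDiscrete 𝒰 R.ρ0) (h𝒰 : IsLevelBasis 𝒰) (ρC : Representation k G C)
    (hC : IsDiscrete 𝒰 ρC) {p : ℕ} (H : HypR20Datum R ρC 𝒰 ℱ p)
    (x : Hlev0 h𝒰 (toResolved R h0).ρM (toResolved R h0).discM)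
    (h : ∀ ξ, pair20 (evP R h0 h𝒰 ρC hC) h𝒰 hC ξ x = 0) : x = 0 := by
  refine pair20_right_kernel_of_raw (evP R h0 h𝒰 ρC hC) h𝒰 hC
    (fun mt z' hz hpair => ?_) x h
  have H' : HypR20 (toDatum (evP R h0 h𝒰 ρC hC)) 𝒰 ℱ p := H
  let L : Lift0 (toResolved R h0) := ⟨mt, z', hz⟩
  exact right_kernel20 (D := toDatum (evP R h0 h𝒰 ρC hC)) h𝒰 H'
    (toResolved R h0).disc0 (toResolved R h0).disc1 (mt := mt) (z' := z') hz L.isLevel₁_z'
    (fun c2 c1 hcy hl2 hl1 => by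
      obtain ⟨u, hu, hpu⟩ := hpair c2 c1 hl2 hl1 (fun g h j => congrFun hcy.1 (g, h, j))
        (fun g h => congrFun hcy.2 (g, h))
      exact ⟨u, hu, hpu.symm⟩)

/-- The right kernel of `pair20` for `K(P; C)` is trivial, as a statement about `R`, `ρC` (base
modules only: usable at `k = ℤ`). -/
def RightKernelTrivial (R : Res k G P1 P0 M) {𝒰 : Set (Subgroup G)} (h0 : IsDiscrete 𝒰 R.ρ0)
    (h𝒰 : IsLevelBasis 𝒰) (ρC : Representation k G C) (hC : IsDiscrete 𝒰 ρC) : Prop :=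
  ∀ x : Hlev0 h𝒰 (toResolved R h0).ρM (toResolved R h0).discM,
    (∀ ξ, pair20 (evP R h0 h𝒰 ρC hC) h𝒰 hC ξ x = 0) → x = 0

theorem rightKernelTrivial_of_hypR20 (R : Res k G P1 P0 M) {𝒰 ℱ : Set (Subgroup G)}
    (h0 : IsDiscrete 𝒰 R.ρ0) (h𝒰 : IsLevelBasis 𝒰) (ρC : Representation k G C)
    (hC : IsDiscrete 𝒰 ρC) {p : ℕ} (H : HypR20Datum R ρC 𝒰 ℱ p) :
    RightKernelTrivial R h0 h𝒰 ρC hC :=
  fun x h => pair20_right_kernel_of_hypR20 R h0 h𝒰 ρC hC H x h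

/-- The full package from the left package and `RightKernelTrivial`. -/
theorem alphaTwoPackage_of_rightKernelTrivial {R : Res k G P1 P0 M} {𝒰 : Set (Subgroup G)}
    {h0 : IsDiscrete 𝒰 R.ρ0} {h𝒰 : IsLevelBasis 𝒰} {ρC : Representation k G C}
    {hC : IsDiscrete 𝒰 ρC} {p : ℕ} [Fact p.Prime] {hpM : ∀ m : M, p • m = 0}
    (hL : AlphaTwoLeft R h0 h𝒰 ρC hC p hpM) (hR : RightKernelTrivial R h0 h𝒰 ρC hC) :
    AlphaTwoPackage R h0 h𝒰 ρC hC p hpM :=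
  alphaTwoPackage_of hL hR

end Generic

/-! ## `k = ℤ`, from fundamental classes -/

section Int

open Fermat.Agent.PT.PRO.FundRaw18 Fermat.Agent.PT.PRO.InvFund18 Fermat.Agent.PT.FG.Interface8
open groupCohomology

variable {G : Type} [Group G] {P1 P0 M C : Type}
  [AddCommGroup P1] [Module ℤ P1] [AddCommGroup P0] [Module ℤ P0] [AddCommGroup M] [Module ℤ M]
  [AddCommGroup C] [Module ℤ C]

/-- Raw TN11-right over `G ⧸ V` for `(P₁', C^V)` from a fundamental class on `(G ⧸ V, C^V)`. -/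
theorem tn11rAtQuot_of_isFundClass [Module.Free ℤ P0] [Module.Finite ℤ P0] [Module.Free ℤ P1]
    [Module.Finite ℤ P1] (R : Res ℤ G P1 P0 M) (ρC : Representation ℤ G C)
    (V : Subgroup G) [V.Normal] [Fintype (G ⧸ V)] [DecidableEq (G ⧸ V)]
    (h0 : ∀ s ∈ V, ∀ x, R.ρ0 s x = x) {p : ℕ}
    [Fact p.Prime] (u : H2 (fixedObj V ρC)) (hu : IsFundClass p (fixedObj V ρC) u) :
    TN11rAtQuot R ρC V h0 p := by
  have hfree : @Module.Free ℤ ↥(indP1 (resQuot R V h0)) _ _ (Submodule.module _) :=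
    inferInstance
  have hfin : @Module.Finite ℤ ↥(indP1 (resQuot R V h0)) _ _ (Submodule.module _) :=
    inferInstance
  exact @TwoZeroRRawFG2.tn11r_raw (G ⧸ V) _ ↥(indP1 (resQuot R V h0)) ↥(fixedSub V ρC) _
    (Submodule.module _) _ (Submodule.module _) (indρ1 (resQuot R V h0)) (fixedRep V ρC) _ p _
    hfree hfin u hu

/-- **The finite-level right kernel (= norms) over `G ⧸ V`**, for any resolution by finite free
`ℤ`-modules of a module killed by `p`, from a fundamental class on `(G ⧸ V, C^V)`. -/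
theorem finTN20rAtQuot_of_isFundClass [Module.Free ℤ P0] [Module.Finite ℤ P0]
    [Module.Free ℤ P1] [Module.Finite ℤ P1] (R : Res ℤ G P1 P0 M) (ρC : Representation ℤ G C)
    (V : Subgroup G) [V.Normal] [V.FiniteIndex] (h0 : ∀ s ∈ V, ∀ x, R.ρ0 s x = x) {p : ℕ}
    [Fact p.Prime] (hpM : ∀ m : M, p • m = 0) (u : H2 (fixedObj V ρC))
    (hu : IsFundClass p (fixedObj V ρC) u) : FinTN20rAtQuot R ρC V h0 := by
  classical
  let _ : Fintype (G ⧸ V) := Fintype.ofFinite _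
  exact finTN20rAtQuot_of R ρC V h0 (fun m => (Nat.cast_smul_eq_nsmul ℤ p m).trans (hpM m))
    (tn11rAtQuot_of_isFundClass R ρC V h0 u hu)

/-- **`HypR20` for `K(P; C)` from fundamental classes at the finite levels** and the tower
condition. -/
theorem hypR20Datum_of_isFundClass [Module.Free ℤ P0] [Module.Finite ℤ P0]
    [Module.Free ℤ P1] [Module.Finite ℤ P1] (R : Res ℤ G P1 P0 M) (ρC : Representation ℤ G C)
    {𝒰 ℱ : Set (Subgroup G)} {p : ℕ} [Fact p.Prime] (h𝒰 : IsLevelBasis 𝒰)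
    (hpM : ∀ m : M, p • m = 0) (hC : IsDiscrete 𝒰 ρC)
    (hsub : ℱ ⊆ 𝒰) (hnormal : ∀ V ∈ ℱ, V.Normal) (hcof : ∀ U ∈ 𝒰, ∃ V ∈ ℱ, V ≤ U)
    (htriv : ∀ V ∈ ℱ, ∀ s ∈ V, ∀ x, R.ρ0 s x = x)
    (hfund : ∀ V ∈ 𝒰, ∀ hn : V.Normal, haveI := hn;
      ∃ u : H2 (fixedObj V ρC), IsFundClass p (fixedObj V ρC) u)
    (hdvd : ∀ V ∈ ℱ, ∃ V' ∈ ℱ, V' ≤ V ∧ p ∣ V'.relIndex V) :
    HypR20Datum R ρC 𝒰 ℱ p :=
  hypR20Datum_of_fin R ρC h𝒰 Fact.out (fun m => (Nat.cast_smul_eq_nsmul ℤ p m).trans (hpM m)) hC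
    hsub hnormal hcof htriv
    (fun V hV => by
      have := hnormal V hV
      have := h𝒰.finiteIndex V (hsub hV)
      obtain ⟨u, hu⟩ := hfund V (hsub hV) (hnormal V hV)
      exact finTN20rAtQuot_of_isFundClass R ρC V (htriv V hV) hpM u hu)
    (fun V _ => hH1_of_h1 ρC h𝒰 (fun V' hV' hn => by
      obtain ⟨u, hu⟩ := hfund V' hV' hn
      exact hu.h1) V)
    hdvd

/-- **The RIGHT kernel of `pair20` is trivial** (`k = ℤ`), from fundamental classes and the tower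
condition. -/
theorem rightKernelTrivial_of_isFundClass [Module.Free ℤ P0] [Module.Finite ℤ P0]
    [Module.Free ℤ P1] [Module.Finite ℤ P1] (R : Res ℤ G P1 P0 M) (ρC : Representation ℤ G C)
    {𝒰 ℱ : Set (Subgroup G)} {p : ℕ} [Fact p.Prime] (h𝒰 : IsLevelBasis 𝒰)
    (h0 : IsDiscrete 𝒰 R.ρ0) (hpM : ∀ m : M, p • m = 0) (hC : IsDiscrete 𝒰 ρC)
    (hsub : ℱ ⊆ 𝒰) (hnormal : ∀ V ∈ ℱ, V.Normal) (hcof : ∀ U ∈ 𝒰, ∃ V ∈ ℱ, V ≤ U)
    (htriv : ∀ V ∈ ℱ, ∀ s ∈ V, ∀ x, R.ρ0 s x = x)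
    (hfund : ∀ V ∈ 𝒰, ∀ hn : V.Normal, haveI := hn;
      ∃ u : H2 (fixedObj V ρC), IsFundClass p (fixedObj V ρC) u)
    (hdvd : ∀ V ∈ ℱ, ∃ V' ∈ ℱ, V' ≤ V ∧ p ∣ V'.relIndex V) :
    RightKernelTrivial R h0 h𝒰 ρC hC :=
  rightKernelTrivial_of_hypR20 R h0 h𝒰 ρC hC
    (hypR20Datum_of_isFundClass R ρC h𝒰 hpM hC hsub hnormal hcof htriv hfund hdvd)

end Int

end Fermat.Agent.ES.T56.AlphaTwoRight2
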