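/-
Programme T (S56), chapter GW-D, leaf KZero (helper28).

`CharIso28`: over a field of characteristic `0`, two finite-dimensional representations of a
finite group with the same character are isomorphic.

Proof: Mathlib's `card_inv_mul_sum_char_mul_char_eq_finrank` (`⟨χ_σ, χ_ρ⟩ = dim Hom_G(ρ, σ)`,
valid over any field in which `|G|` is invertible) gives a NONZERO intertwining map `φ : ρ → σ`
as soon as `V ≠ 0` (`dim Hom_G(ρ, σ) = dim End_G(ρ) ≥ 1`); Maschke splits off
`ker φ ⊕ K' = V`, `range φ ⊕ I' = W`, `K' ≅ range φ`; characters are additive on `G`-stable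
complements; induction on the dimension.  No irreducible representations are needed.
-/
import Mathlib

set_option autoImplicit false

namespace Fermat.Agent.ES.T56.CharIso28

open Representation Module

universe u v w

variable {k : Type u} {G : Type v} [Field k] [Group G]

/-- Two representations are isomorphic. -/
def RepIso {V : Type*} {W : Type*} [AddCommGroup V] [Module k V] [AddCommGroup W] [Module k W]
    (ρ : Representation k G V) (σ : Representation k G W) : Prop :=
  ∃ e : V ≃ₗ[k] W, ∀ g v, e (ρ g v) = σ g (e v)

section Basic

variable {V : Type*} {W : Type*} {X : Type*} [AddCommGroup V] [Module k V]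
  [AddCommGroup W] [Module k W] [AddCommGroup X] [Module k X]
  {ρ : Representation k G V} {σ : Representation k G W} {τ : Representation k G X}

theorem RepIso.refl (ρ : Representation k G V) : RepIso ρ ρ :=
  ⟨LinearEquiv.refl k V, fun _ _ => rfl⟩

theorem RepIso.symm (h : RepIso ρ σ) : RepIso σ ρ := by
  obtain ⟨e, he⟩ := h
  refine ⟨e.symm, fun g w => ?_⟩
  apply e.injective
  rw [he, e.apply_symm_apply, e.apply_symm_apply]

theorem RepIso.trans (h : RepIso ρ σ) (h' : RepIso σ τ) : RepIso ρ τ := by
  obtain ⟨e, he⟩ := h
  obtain ⟨e', he'⟩ := h'
  exact ⟨e.trans e', fun g v => by simp [he, he']⟩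

theorem RepIso.character_eq [FiniteDimensional k V] [FiniteDimensional k W]
    (h : RepIso ρ σ) : ρ.character = σ.character := by
  obtain ⟨e, he⟩ := h
  funext g
  have : σ g = e.conj (ρ g) := by
    apply LinearMap.ext
    intro w
    simp [LinearEquiv.conj_apply, he]
  simp only [character]
  rw [this, LinearMap.trace_conj']

end Basic

/-- The product of two representations (an explicit copy, to keep all `simp` lemmas local). -/
def prodRep {V : Type*} {W : Type*} [AddCommGroup V] [Module k V] [AddCommGroup W] [Module k W]
    (ρ : Representation k G V) (σ : Representation k G W) : Representation k G (V × W) where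
  toFun g := (ρ g).prodMap (σ g)
  map_one' := by ext <;> simp
  map_mul' g h := by ext <;> simp

@[simp] theorem prodRep_apply {V : Type*} {W : Type*} [AddCommGroup V] [Module k V]
    [AddCommGroup W] [Module k W] (ρ : Representation k G V) (σ : Representation k G W)
    (g : G) (x : V × W) : prodRep ρ σ g x = (ρ g x.1, σ g x.2) := rfl

section Prod

variable {V : Type*} {W : Type*} {V' : Type*} {W' : Type*} [AddCommGroup V] [Module k V]
  [AddCommGroup W] [Module k W] [AddCommGroup V'] [Module k V'] [AddCommGroup W'] [Module k W']
  {ρ : Representation k G V} {σ : Representation k G W}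
  {ρ' : Representation k G V'} {σ' : Representation k G W'}

theorem RepIso.prod (h : RepIso ρ ρ') (h' : RepIso σ σ') :
    RepIso (prodRep ρ σ) (prodRep ρ' σ') := by
  obtain ⟨e, he⟩ := h
  obtain ⟨e', he'⟩ := h'
  exact ⟨e.prodCongr e', fun g x => by simp [he, he']⟩

theorem RepIso.prod_comm (ρ : Representation k G V) (σ : Representation k G W) :
    RepIso (prodRep ρ σ) (prodRep σ ρ) :=
  ⟨LinearEquiv.prodComm k V W, fun _ _ => rfl⟩

theorem character_prodRep [FiniteDimensional k V] [FiniteDimensional k W]
    (ρ : Representation k G V) (σ : Representation k G W) (g : G) :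
    (prodRep ρ σ).character g = ρ.character g + σ.character g := by
  simp only [character]
  exact LinearMap.trace_prodMap' (ρ g) (σ g)

end Prod

section Stable

variable {V : Type*} [AddCommGroup V] [Module k V] (ρ : Representation k G V)

/-- A `G`-stable subspace. -/
def IsStable (K : Submodule k V) : Prop := ∀ g, ∀ v ∈ K, ρ g v ∈ K

/-- The restriction of a representation to a stable subspace. -/
def subRep (K : Submodule k V) (hK : IsStable ρ K) : Representation k G K where
  toFun g := (ρ g).restrict (hK g)
  map_one' := by ext; simp
  map_mul' g h := by ext; simp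

@[simp] theorem subRep_apply_coe (K : Submodule k V) (hK : IsStable ρ K) (g : G) (x : K) :
    ((subRep ρ K hK g x : K) : V) = ρ g x := rfl

/-- A representation is the product of two complementary stable subspaces. -/
theorem repIso_prod_of_isCompl (K K' : Submodule k V) (hK : IsStable ρ K)
    (hK' : IsStable ρ K') (h : IsCompl K K') :
    RepIso (prodRep (subRep ρ K hK) (subRep ρ K' hK')) ρ :=
  ⟨Submodule.prodEquivOfIsCompl K K' h, fun g x => by
    simp [Submodule.coe_prodEquivOfIsCompl']⟩

/-- **Maschke**: a stable subspace has a stable complement. -/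
theorem exists_stable_isCompl [Finite G] [NeZero (Nat.card G : k)] (K : Submodule k V)
    (hK : IsStable ρ K) : ∃ K' : Submodule k V, IsStable ρ K' ∧ IsCompl K K' := by
  have hss : IsSemisimpleRepresentation ρ := inferInstance
  let a : Subrepresentation ρ := ⟨K, fun g v hv => hK g v hv⟩
  obtain ⟨b, hb⟩ := hss.exists_isCompl a
  refine ⟨b.toSubmodule, fun g v hv => b.apply_mem_toSubmodule g hv, ?_⟩
  constructor
  · rw [disjoint_iff]
    exact congrArg Subrepresentation.toSubmodule hb.inf_eq_bot
  · rw [codisjoint_iff]
    exact congrArg Subrepresentation.toSubmodule hb.sup_eq_top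

end Stable

section Main

variable [Finite G] [CharZero k]

/-- Existence of a nonzero intertwining map between two representations with the same
character, when the source is nonzero. -/
theorem exists_intertwining_ne_zero {V : Type*} {W : Type*} [AddCommGroup V] [Module k V]
    [FiniteDimensional k V] [AddCommGroup W] [Module k W] [FiniteDimensional k W]
    (ρ : Representation k G V) (σ : Representation k G W) (h : ρ.character = σ.character)
    [Nontrivial V] : ∃ φ : IntertwiningMap ρ σ, φ ≠ 0 := by
  classical
  have : Fintype G := Fintype.ofFinite G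
  have hne : (Nat.card G : k) ≠ 0 := by exact_mod_cast (Nat.card_pos (α := G)).ne'
  have : Invertible (Nat.card G : k) := invertibleOfNonzero hne
  have h1 := card_inv_mul_sum_char_mul_char_eq_finrank ρ σ
  have h2 := card_inv_mul_sum_char_mul_char_eq_finrank ρ ρ
  rw [← h] at h1
  have h3 : finrank k (IntertwiningMap ρ σ) = finrank k (IntertwiningMap ρ ρ) := by
    have : (finrank k (IntertwiningMap ρ σ) : k) = (finrank k (IntertwiningMap ρ ρ) : k) := by
      rw [← h1, ← h2]
    exact_mod_cast this
  have h4 : 0 < finrank k (IntertwiningMap ρ ρ) := by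
    rw [Module.finrank_pos_iff_exists_ne_zero]
    refine ⟨IntertwiningMap.id ρ, fun h0 => ?_⟩
    obtain ⟨v, hv⟩ := exists_ne (0 : V)
    apply hv
    have := congrArg (fun f : IntertwiningMap ρ ρ => f v) h0
    simpa using this
  by_contra hcon
  have hcon' : ∀ φ : IntertwiningMap ρ σ, φ = 0 := fun φ => by
    by_contra hφ
    exact hcon ⟨φ, hφ⟩
  have : Subsingleton (IntertwiningMap ρ σ) := ⟨fun a b => (hcon' a).trans (hcon' b).symm⟩
  rw [Module.finrank_zero_of_subsingleton] at h3
  omega

/-- Auxiliary statement for the induction on the dimension. -/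
theorem repIso_of_character_eq_aux (n : ℕ) :
    ∀ (V : Type w) (W : Type w) [AddCommGroup V] [Module k V] [FiniteDimensional k V]
      [AddCommGroup W] [Module k W] [FiniteDimensional k W]
      (ρ : Representation k G V) (σ : Representation k G W),
      finrank k V = n → ρ.character = σ.character → RepIso ρ σ := by
  induction n using Nat.strong_induction_on with
  | _ n ih =>
    intro V W _ _ _ _ _ _ ρ σ hn h
    have hne : (Nat.card G : k) ≠ 0 := by exact_mod_cast (Nat.card_pos (α := G)).ne'
    have : NeZero (Nat.card G : k) := ⟨hne⟩
    by_cases hV : Subsingleton V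
    · -- both spaces are zero
      have hW : finrank k W = 0 := by
        have h1 := congrFun h 1
        rw [char_one, char_one] at h1
        have : finrank k V = 0 := Module.finrank_zero_of_subsingleton
        rw [this] at h1
        exact_mod_cast h1.symm
      have : Subsingleton W := Module.finrank_zero_iff.mp hW
      exact ⟨⟨⟨⟨fun _ => 0, fun _ _ => by simp⟩, fun _ _ => by simp⟩, fun _ => 0,
        fun _ => Subsingleton.elim _ _, fun _ => Subsingleton.elim _ _⟩,
        fun _ _ => Subsingleton.elim _ _⟩
    · have : Nontrivial V := not_subsingleton_iff_nontrivial.mp hV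
      obtain ⟨φ, hφ⟩ := exists_intertwining_ne_zero ρ σ h
      -- kernel and range
      let K : Submodule k V := LinearMap.ker φ.toLinearMap
      let I : Submodule k W := LinearMap.range φ.toLinearMap
      have hφeq : ∀ g v, φ (ρ g v) = σ g (φ v) := fun g v =>
        IntertwiningMap.isIntertwining ρ σ φ g v
      have hK : IsStable ρ K := fun g v hv => by
        have hv' : φ v = 0 := hv
        show φ.toLinearMap (ρ g v) = 0
        rw [IntertwiningMap.toLinearMap_apply, hφeq, hv', map_zero]
      have hI : IsStable σ I := by
        rintro g _ ⟨v, rfl⟩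
        exact ⟨ρ g v, by rw [IntertwiningMap.toLinearMap_apply, hφeq]; rfl⟩
      obtain ⟨K', hK', hc⟩ := exists_stable_isCompl ρ K hK
      obtain ⟨I', hI', hc'⟩ := exists_stable_isCompl σ I hI
      -- `K' ≅ I`
      let ψ : K' →ₗ[k] I :=
        (φ.toLinearMap.domRestrict K').codRestrict I (fun x => ⟨x, rfl⟩)
      have hψ_inj : Function.Injective ψ := by
        rw [← LinearMap.ker_eq_bot, LinearMap.ker_eq_bot']
        intro x hx
        have hx' : φ.toLinearMap (x : V) = 0 := congrArg Subtype.val hx
        have hxK : (x : V) ∈ K := hx'
        have : (x : V) ∈ K ⊓ K' := ⟨hxK, x.2⟩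
        rw [hc.inf_eq_bot] at this
        exact Subtype.ext (by simpa using this)
      have hψ_surj : Function.Surjective ψ := by
        rintro ⟨_, v, rfl⟩
        have hv : v ∈ K ⊔ K' := by rw [hc.sup_eq_top]; trivial
        obtain ⟨a, ha, b, hb, rfl⟩ := Submodule.mem_sup.mp hv
        refine ⟨⟨b, hb⟩, Subtype.ext ?_⟩
        have ha' : φ a = 0 := ha
        simp [ψ, ha']
      have hKI : RepIso (subRep ρ K' hK') (subRep σ I hI) :=
        ⟨LinearEquiv.ofBijective ψ ⟨hψ_inj, hψ_surj⟩, fun g x => Subtype.ext (by
          simp [ψ, hφeq])⟩
      -- characters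
      have hρ := repIso_prod_of_isCompl ρ K K' hK hK' hc
      have hσ := repIso_prod_of_isCompl σ I I' hI hI' hc'
      have hchar : (subRep ρ K hK).character = (subRep σ I' hI').character := by
        funext g
        have e1 := congrFun hρ.character_eq g
        have e2 := congrFun hσ.character_eq g
        have e3 := congrFun hKI.character_eq g
        rw [character_prodRep] at e1 e2
        have e4 := congrFun h g
        rw [← e1, ← e2, e3] at e4
        linear_combination e4
      -- dimension drops
      have hlt : finrank k K < n := by
        rw [← hn]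
        apply Submodule.finrank_lt
        intro htop
        apply hφ
        apply IntertwiningMap.ext
        apply LinearMap.ext
        intro v
        have : v ∈ K := by rw [htop]; trivial
        exact this
      have hKI' : RepIso (subRep ρ K hK) (subRep σ I' hI') :=
        ih (finrank k K) hlt K I' (subRep ρ K hK) (subRep σ I' hI') rfl hchar
      -- assemble
      exact hρ.symm.trans ((hKI'.prod hKI).trans
        ((RepIso.prod_comm _ _).trans hσ))

/-- **Equal characters ⇒ isomorphic** (characteristic `0`, finite group). -/
theorem repIso_of_character_eq {V W : Type w} [AddCommGroup V] [Module k V]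
    [FiniteDimensional k V] [AddCommGroup W] [Module k W] [FiniteDimensional k W]
    (ρ : Representation k G V) (σ : Representation k G W) (h : ρ.character = σ.character) :
    RepIso ρ σ :=
  repIso_of_character_eq_aux (finrank k V) V W ρ σ rfl h

end Main

end Fermat.Agent.ES.T56.CharIso28
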