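/-
Programme T (S56), chapter GW-D, leaf KZero (helper28).

`PermChar28`: permutation representations `U → k` of a finite `G`-set `U`
(`(g • f) u = f (g⁻¹ • u)`), their characters (number of fixed points), and
**equal marks ⇒ isomorphic over `ℚ`** (from `CharIso28`).
-/
import Mathlib
import Fermat.Agent.ES.T56.CharIso28

set_option autoImplicit false

namespace Fermat.Agent.ES.T56.PermChar28

open Representation Module Fermat.Agent.ES.T56.CharIso28

universe w

section Def

variable (k : Type*) [CommSemiring k] {G : Type*} [Group G] (U : Type*) [MulAction G U]

/-- The permutation representation on functions `U → k`: `(g • f) u = f (g⁻¹ • u)`. -/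
def permRep : Representation k G (U → k) where
  toFun g := LinearMap.funLeft k k (fun u => g⁻¹ • u)
  map_one' := by ext f u; simp
  map_mul' g h := by ext f u; simp [mul_smul]

@[simp] theorem permRep_apply (g : G) (f : U → k) (u : U) :
    permRep k U g f u = f (g⁻¹ • u) := rfl

end Def

/-- The mark of `g` on the `G`-set `U`: the number of fixed points. -/
noncomputable def mark {G : Type*} [Group G] (U : Type*) [MulAction G U] (g : G) : ℕ :=
  Nat.card (MulAction.fixedBy U g)

section Char

variable (k : Type*) [Field k] {G : Type*} [Group G] (U : Type*) [MulAction G U] [Finite U]

/-- The character of a permutation representation is the number of fixed points. -/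
theorem character_permRep (g : G) : (permRep k U).character g = (mark U g : k) := by
  classical
  have : Fintype U := Fintype.ofFinite U
  simp only [character]
  rw [LinearMap.trace_eq_matrix_trace k (Pi.basisFun k U), Matrix.trace]
  simp only [Matrix.diag_apply, LinearMap.toMatrix_apply, Pi.basisFun_repr, Pi.basisFun_apply,
    permRep_apply, Pi.single_apply]
  rw [Finset.sum_boole, mark, Nat.card_eq_fintype_card, Fintype.card_subtype]
  congr 2
  ext u
  simp only [Finset.mem_filter, Finset.mem_univ, true_and, MulAction.mem_fixedBy]
  constructor
  · intro h
    have := congrArg (fun x => g • x) h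
    simpa using this.symm
  · intro h
    have := congrArg (fun x => g⁻¹ • x) h
    simpa using this.symm

end Char

/-- **Equal marks ⇒ the rational permutation representations are isomorphic.** -/
theorem permRep_repIso_of_mark_eq {G : Type*} [Group G] [Finite G] (U V : Type w)
    [MulAction G U] [MulAction G V] [Finite U] [Finite V]
    (h : ∀ g : G, mark U g = mark V g) :
    RepIso (permRep ℚ (G := G) U) (permRep ℚ (G := G) V) := by
  have : Fintype U := Fintype.ofFinite U
  have : Fintype V := Fintype.ofFinite V
  apply repIso_of_character_eq
  funext g
  rw [character_permRep, character_permRep, h g]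

end Fermat.Agent.ES.T56.PermChar28
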