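/-
Programme T (S56), chapter GW-D, leaf KZero (helper28).

`ArtinList28`: **Artin's induction theorem in "mark" form.**  For a finite group `G` the constant
function `|G|` is an integer combination of the marks `g ↦ #Fix(g, G ⧸ B)` of the coset spaces of
CYCLIC subgroups `B`.  No Möbius function: with `Θ_C(g) := #{x | ⟨x⁻¹ g x⟩ = C}` one has
`|C| · mark_{G/C} = Σ_{B ≤ C} Θ_B` and `Σ_C Θ_C = |G|`, and well-founded induction on `C`.

Output `artin_gsets`: finite index types `ιp ιm` with families of cyclic subgroups such that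
`|G| + Σ_{i : ιm} mark (G ⧸ Bm i) g = Σ_{i : ιp} mark (G ⧸ Bp i) g` for every `g`.
-/
import Mathlib
import Fermat.Agent.ES.T56.PermChar28

set_option autoImplicit false

namespace Fermat.Agent.ES.T56.ArtinList28

open Fermat.Agent.ES.T56.PermChar28

universe u

variable {G : Type*} [Group G]

/-- The mark of the coset space `G ⧸ B` at `g`. -/
noncomputable def qmark (B : Subgroup G) (g : G) : ℕ := mark (G ⧸ B) g

theorem mem_fixedBy_quotient_iff (B : Subgroup G) (g x : G) :
    ((x : G ⧸ B) ∈ MulAction.fixedBy (G ⧸ B) g) ↔ x⁻¹ * g * x ∈ B := by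
  rw [MulAction.mem_fixedBy, MulAction.Quotient.smul_mk, QuotientGroup.eq, smul_eq_mul,
    ← B.inv_mem_iff]
  simp [mul_assoc]

/-- `|B| · mark_{G/B}(g) = #{x | x⁻¹ g x ∈ B}`. -/
theorem card_mul_qmark [Finite G] (B : Subgroup G) (g : G) :
    Nat.card B * qmark B g = Nat.card {x : G // x⁻¹ * g * x ∈ B} := by
  have e := QuotientGroup.preimageMkEquivSubgroupProdSet B (MulAction.fixedBy (G ⧸ B) g)
  rw [qmark, mark, ← Nat.card_prod, ← Nat.card_congr e]
  apply Nat.card_congr
  exact Equiv.subtypeEquivRight (fun x => by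
    rw [Set.mem_preimage, mem_fixedBy_quotient_iff])

/-- `Θ_C(g) := #{x | ⟨x⁻¹ g x⟩ = C}`. -/
noncomputable def theta (C : Subgroup G) (g : G) : ℕ :=
  Nat.card {x : G // Subgroup.zpowers (x⁻¹ * g * x) = C}

theorem isCyclic_of_theta_ne_zero (C : Subgroup G) (g : G) (h : theta C g ≠ 0) :
    IsCyclic C := by
  have hne : Nonempty {x : G // Subgroup.zpowers (x⁻¹ * g * x) = C} := by
    by_contra hcon
    rw [not_nonempty_iff] at hcon
    exact h (by rw [theta]; exact Nat.card_of_isEmpty)
  obtain ⟨x, hx⟩ := hne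
  subst hx
  infer_instance

/-- Counting a preimage fibrewise. -/
theorem card_subtype_comp {α β : Type*} [Finite α] [Fintype β] (f : α → β) (P : β → Prop)
    [DecidablePred P] :
    Nat.card {x : α // P (f x)} = ∑ b ∈ Finset.univ.filter P, Nat.card {x : α // f x = b} := by
  let e : {x : α // P (f x)} ≃ Σ b : {b : β // P b}, {x : α // f x = b.1} :=
    { toFun := fun x => ⟨⟨f x.1, x.2⟩, ⟨x.1, rfl⟩⟩
      invFun := fun y => ⟨y.2.1, by rw [y.2.2]; exact y.1.2⟩
      left_inv := fun x => rfl
      right_inv := by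
        rintro ⟨⟨b, hb⟩, ⟨x, hx⟩⟩
        have hx' : f x = b := hx
        subst hx'
        rfl }
  rw [Nat.card_congr e, Nat.card_sigma]
  exact (Finset.sum_subtype (Finset.univ.filter P) (by simp)
    (fun b => Nat.card {x : α // f x = b})).symm

section Fin

variable [Fintype (Subgroup G)]

theorem sum_theta [Finite G] (g : G) : ∑ C : Subgroup G, theta C g = Nat.card G := by
  have h := card_subtype_comp (fun x : G => Subgroup.zpowers (x⁻¹ * g * x)) (fun _ => True)
  simp only [Finset.filter_true] at h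
  rw [show (∑ C : Subgroup G, theta C g) = _ from h.symm]
  exact Nat.card_congr (Equiv.subtypeUnivEquiv (fun _ => trivial))

open Classical in
theorem card_mul_qmark_eq_sum [Finite G] (C : Subgroup G) (g : G) :
    Nat.card C * qmark C g = ∑ B ∈ Finset.univ.filter (fun B : Subgroup G => B ≤ C), theta B g := by
  rw [card_mul_qmark]
  have h := card_subtype_comp (fun x : G => Subgroup.zpowers (x⁻¹ * g * x))
    (fun B : Subgroup G => B ≤ C)
  rw [show (∑ B ∈ Finset.univ.filter (fun B : Subgroup G => B ≤ C), theta B g) = _ from h.symm]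
  apply Nat.card_congr
  exact Equiv.subtypeEquivRight (fun x => by rw [Subgroup.zpowers_le])

open Classical in
theorem theta_eq [Finite G] (C : Subgroup G) (g : G) :
    (theta C g : ℤ) = (Nat.card C : ℤ) * (qmark C g : ℤ) -
      ∑ B ∈ Finset.univ.filter (fun B : Subgroup G => B < C), (theta B g : ℤ) := by
  have h := card_mul_qmark_eq_sum C g
  have hs : Finset.univ.filter (fun B : Subgroup G => B ≤ C) =
      insert C (Finset.univ.filter (fun B : Subgroup G => B < C)) := by
    ext B
    simp only [Finset.mem_filter, Finset.mem_univ, true_and, Finset.mem_insert]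
    rw [le_iff_lt_or_eq, or_comm]
  rw [hs, Finset.sum_insert (by simp)] at h
  have h' : ((Nat.card C * qmark C g : ℕ) : ℤ) =
      ((theta C g + ∑ B ∈ Finset.univ.filter (fun B : Subgroup G => B < C), theta B g : ℕ) : ℤ) := by
    rw [h]
  push_cast at h'
  linarith

/-- `φ` is an integer combination of the marks of the coset spaces of subgroups satisfying `P`. -/
def IsComb (P : Subgroup G → Prop) (φ : G → ℤ) : Prop :=
  ∃ a : Subgroup G → ℤ, (∀ B, a B ≠ 0 → P B) ∧ ∀ g, φ g = ∑ B, a B * (qmark B g : ℤ)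

theorem IsComb.zero (P : Subgroup G → Prop) : IsComb P (fun _ => 0) :=
  ⟨fun _ => 0, fun _ h => absurd rfl h, fun _ => by simp⟩

theorem IsComb.mono {P Q : Subgroup G → Prop} (hPQ : ∀ B, P B → Q B) {φ : G → ℤ}
    (h : IsComb P φ) : IsComb Q φ := by
  obtain ⟨a, ha, hφ⟩ := h
  exact ⟨a, fun B hB => hPQ B (ha B hB), hφ⟩

theorem IsComb.add {P : Subgroup G → Prop} {φ ψ : G → ℤ} (h : IsComb P φ) (h' : IsComb P ψ) :
    IsComb P (fun g => φ g + ψ g) := by
  obtain ⟨a, ha, hφ⟩ := h
  obtain ⟨b, hb, hψ⟩ := h'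
  refine ⟨fun B => a B + b B, fun B hB => ?_, fun g => ?_⟩
  · have hB' : a B + b B ≠ 0 := hB
    by_cases h0 : a B = 0
    · exact hb B (by intro h1; exact hB' (by rw [h0, h1, add_zero]))
    · exact ha B h0
  · show φ g + ψ g = ∑ B, (a B + b B) * (qmark B g : ℤ)
    rw [hφ g, hψ g, ← Finset.sum_add_distrib]
    exact Finset.sum_congr rfl (fun B _ => by ring)

theorem IsComb.neg {P : Subgroup G → Prop} {φ : G → ℤ} (h : IsComb P φ) :
    IsComb P (fun g => - φ g) := by
  obtain ⟨a, ha, hφ⟩ := h
  refine ⟨fun B => - a B, fun B hB => ha B (fun h0 => hB ?_), fun g => ?_⟩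
  · show - a B = 0
    rw [h0, neg_zero]
  · show - φ g = ∑ B, (- a B) * (qmark B g : ℤ)
    rw [hφ g, ← Finset.sum_neg_distrib]
    exact Finset.sum_congr rfl (fun B _ => by ring)

theorem IsComb.sub {P : Subgroup G → Prop} {φ ψ : G → ℤ} (h : IsComb P φ) (h' : IsComb P ψ) :
    IsComb P (fun g => φ g - ψ g) := by
  have := h.add h'.neg
  simpa [sub_eq_add_neg] using this

theorem IsComb.sum {P : Subgroup G → Prop} {ι : Type*} (s : Finset ι) (φ : ι → G → ℤ)
    (h : ∀ i ∈ s, IsComb P (φ i)) : IsComb P (fun g => ∑ i ∈ s, φ i g) := by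
  classical
  induction s using Finset.induction_on with
  | empty => simpa using IsComb.zero P
  | insert i s hi ih =>
    have h1 := (h i (Finset.mem_insert_self i s)).add
      (ih (fun j hj => h j (Finset.mem_insert_of_mem hj)))
    refine (by simpa [Finset.sum_insert hi] using h1)

theorem IsComb.single {P : Subgroup G → Prop} (B : Subgroup G) (hB : P B) (n : ℤ) :
    IsComb P (fun g => n * (qmark B g : ℤ)) := by
  classical
  refine ⟨fun B' => if B' = B then n else 0, fun B' h => ?_, fun g => ?_⟩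
  · by_cases h' : B' = B
    · rw [h']; exact hB
    · simp [h'] at h
  · simp [Finset.sum_ite_eq']

open Classical in
theorem theta_isComb [Finite G] (C : Subgroup G) :
    IsComb (fun B => B ≤ C) (fun g => (theta C g : ℤ)) := by
  induction C using WellFoundedLT.induction with
  | ind C ih =>
    have h1 : IsComb (fun B => B ≤ C) (fun g => (Nat.card C : ℤ) * (qmark C g : ℤ)) :=
      IsComb.single (P := fun B => B ≤ C) C le_rfl _
    have h2 : IsComb (fun B => B ≤ C)
        (fun g => ∑ B ∈ Finset.univ.filter (fun B : Subgroup G => B < C), (theta B g : ℤ)) := by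
      apply IsComb.sum
      intro B hB
      have hBC : B < C := (Finset.mem_filter.1 hB).2
      exact (ih B hBC).mono (fun B' hB' => le_trans hB' hBC.le)
    have h3 := h1.sub h2
    have : (fun g => (theta C g : ℤ)) = fun g => (Nat.card C : ℤ) * (qmark C g : ℤ) -
        ∑ B ∈ Finset.univ.filter (fun B : Subgroup G => B < C), (theta B g : ℤ) :=
      funext (fun g => theta_eq C g)
    rw [this]
    exact h3

omit [Fintype (Subgroup G)] in
theorem isCyclic_of_le {B C : Subgroup G} (h : B ≤ C) (hC : IsCyclic C) : IsCyclic B := by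
  have : IsCyclic (B.subgroupOf C) := inferInstance
  exact isCyclic_of_surjective (Subgroup.subgroupOfEquivOfLe h).toMonoidHom
    (Subgroup.subgroupOfEquivOfLe h).surjective

/-- **Artin's induction theorem, mark form.** -/
theorem card_isComb [Finite G] : IsComb (fun B : Subgroup G => IsCyclic B) (fun _ => (Nat.card G : ℤ)) := by
  classical
  have h : IsComb (fun B : Subgroup G => IsCyclic B)
      (fun g => ∑ C ∈ (Finset.univ : Finset (Subgroup G)), (theta C g : ℤ)) := by
    apply IsComb.sum
    intro C _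
    by_cases hC : IsCyclic C
    · exact (theta_isComb C).mono (fun B hB => isCyclic_of_le hB hC)
    · have : (fun g => (theta C g : ℤ)) = fun _ => 0 := by
        funext g
        by_contra h0
        exact hC (isCyclic_of_theta_ne_zero C g (by exact_mod_cast h0))
      rw [this]
      exact IsComb.zero _
  have : (fun _ : G => (Nat.card G : ℤ)) =
      fun g => ∑ C ∈ (Finset.univ : Finset (Subgroup G)), (theta C g : ℤ) := by
    funext g
    rw [← sum_theta g]
    push_cast
    rfl
  rw [this]
  exact h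

end Fin

/-- **Artin's induction theorem for `G`-sets**: `|G|` points together with a family of coset spaces
of cyclic subgroups have the same marks as another family of coset spaces of cyclic subgroups. -/
theorem artin_gsets (G : Type u) [Group G] [Finite G] :
    ∃ (ιp ιm : Type u) (_ : Fintype ιp) (_ : Fintype ιm) (Bp : ιp → Subgroup G)
      (Bm : ιm → Subgroup G), (∀ i, IsCyclic (Bp i)) ∧ (∀ i, IsCyclic (Bm i)) ∧
      ∀ g : G, Nat.card G + ∑ i, qmark (Bm i) g = ∑ i, qmark (Bp i) g := by
  classical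
  let _ : Fintype (Subgroup G) := Fintype.ofFinite _
  obtain ⟨a, ha, h⟩ := card_isComb (G := G)
  refine ⟨Σ B : Subgroup G, Fin (a B).toNat, Σ B : Subgroup G, Fin (- a B).toNat,
    inferInstance, inferInstance, Sigma.fst, Sigma.fst, ?_, ?_, ?_⟩
  · rintro ⟨B, j⟩
    apply ha B
    intro h0
    rw [h0] at j
    exact j.elim0
  · rintro ⟨B, j⟩
    apply ha B
    intro h0
    rw [h0] at j
    exact j.elim0
  · intro g
    rw [Fintype.sum_sigma, Fintype.sum_sigma]
    simp only [Finset.sum_const, Finset.card_univ, Fintype.card_fin, smul_eq_mul]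
    zify
    have hg : (Nat.card G : ℤ) = ∑ B, a B * (qmark B g : ℤ) := h g
    rw [hg, ← Finset.sum_add_distrib]
    apply Finset.sum_congr rfl
    intro B _
    have e := Int.toNat_sub_toNat_neg (a B)
    have e' : a B + ((- a B).toNat : ℤ) = ((a B).toNat : ℤ) := by linarith
    rw [← add_mul, e']

/-- The mark of a disjoint union is the sum of the marks. -/
theorem mark_sigma {ι : Type*} [Fintype ι] (T : ι → Type*) [∀ i, MulAction G (T i)]
    [∀ i, Finite (T i)] (g : G) : mark (Σ i, T i) g = ∑ i, mark (T i) g := by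
  unfold mark
  rw [← Nat.card_sigma]
  apply Nat.card_congr
  exact
    { toFun := fun x => ⟨x.1.1, ⟨x.1.2, by
        have h := x.2
        rw [MulAction.mem_fixedBy] at h ⊢
        exact sigma_mk_injective h⟩⟩
      invFun := fun y => ⟨⟨y.1, y.2.1⟩, by
        have h := y.2.2
        rw [MulAction.mem_fixedBy] at h ⊢
        rw [Sigma.smul_mk, h]⟩
      left_inv := fun x => rfl
      right_inv := fun y => rfl }

theorem qmark_top (g : G) : qmark (⊤ : Subgroup G) g = 1 := by
  unfold qmark mark
  rw [Nat.card_eq_one_iff_unique]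
  have : Subsingleton (G ⧸ (⊤ : Subgroup G)) := QuotientGroup.subsingleton_quotient_top
  exact ⟨inferInstance, ⟨⟨((1 : G) : G ⧸ (⊤ : Subgroup G)), Subsingleton.elim _ _⟩⟩⟩

open Fermat.Agent.ES.T56.CharIso28 in
/-- **Artin induction for rational permutation modules**: `ℚ[|G| points ⊔ ⨆ G/Bm i] ≅ ℚ[⨆ G/Bp i]`
with all `Bm i`, `Bp i` cyclic. -/
theorem artin_permRep (G : Type u) [Group G] [Finite G] :
    ∃ (ιp ιm : Type u) (_ : Fintype ιp) (_ : Fintype ιm) (Bp : ιp → Subgroup G)
      (Bm : ιm → Subgroup G), (∀ i, IsCyclic (Bp i)) ∧ (∀ i, IsCyclic (Bm i)) ∧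
      RepIso
        (permRep ℚ (G := G) (Σ i : G ⊕ ιm, G ⧸ Sum.elim (fun _ : G => (⊤ : Subgroup G)) Bm i))
        (permRep ℚ (G := G) (Σ i : ιp, G ⧸ Bp i)) := by
  classical
  obtain ⟨ιp, ιm, hp, hm, Bp, Bm, hBp, hBm, h⟩ := artin_gsets G
  refine ⟨ιp, ιm, hp, hm, Bp, Bm, hBp, hBm, ?_⟩
  have : Fintype G := Fintype.ofFinite G
  apply permRep_repIso_of_mark_eq
  intro g
  rw [mark_sigma, mark_sigma, Fintype.sum_sum_type]
  show (∑ _x : G, qmark (⊤ : Subgroup G) g) + ∑ i : ιm, qmark (Bm i) g = ∑ i, qmark (Bp i) g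
  simp only [qmark_top, Finset.sum_const, Finset.card_univ, smul_eq_mul, mul_one]
  rw [← Nat.card_eq_fintype_card]
  exact h g

end Fermat.Agent.ES.T56.ArtinList28
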