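/-
Programme T (S56, Taylor–Wiles primes), FLAT leg, chapter R′ — helper5.

THE TOP LEVEL `U^{(pe′)}` (case (β) of Theorem R′, T56_FLAT.md §3′).

Let `L ∋ ζ_p` be a `p`-adic field (model of `PT.LOC.Interface12`), `λ = ζ_p - 1` (so
`v(λ) = 1/(p-1)` and `λ^p 𝒪_L = U^{(pe′)} - 1`), `b = 1 + λ^p c` with `c ∈ 𝒪_L`, and let `E/L` be an
extension with the same residue field (`resDeg p L E = 1`, e.g. `E/L` totally ramified).  If `b` is a
`p`-th power in `E`, then `b` is a `p`-th power in `L` (`exists_pthRoot_of_resDeg_one`).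
Equivalently: a class of `U^{(pe′)}` which is not a `p`-th power generates an extension with a
non-trivial residue field extension — it cannot live in a totally ramified extension.

Proof.  `w := (y - 1)/λ` is a root of a MONIC polynomial `g ∈ 𝒪_L[X]` with
`λ^p · g = (λX + 1)^p - b` (from Mathlib's `exists_add_pow_prime_eq`; no binomial bookkeeping), so
`w ∈ 𝒪_E`; `g′(x) = u·(λx + 1)^{p-1}` is a unit for every `x ∈ 𝒪_L` (`p = u·λ^{p-1}`, `u` a unit);
the residue class of `w` is represented by some `w₁ ∈ 𝒪_L`, so `g(w₁) ∈ 𝔪_L`, and Hensel's lemma in the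
complete ring `𝒪_L` gives a root `w₀ ∈ 𝒪_L` of `g`; `z = λ w₀ + 1` satisfies `z^p = b`.

General-purpose lemmas exported on the way:
* `associated_sub_one_pow_prime` : in a domain with a primitive `p`-th root of unity `ζ`,
  `(ζ - 1)^(p-1)` is associated to `p`;
* `exists_monic_shift` : the polynomial `g`;
* `exists_root_core` : the Hensel step in an abstract henselian local domain;
* `exists_sub_mem_maximalIdeal_of_resDeg_one` : `resDeg p L E = 1` ⇒ every element of `𝒪_E` is
  congruent modulo `𝔪_E` to an element of `𝒪_L`;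
* `snorm_zeta_sub_one_pow` : `|ζ - 1|^(p-1) = p⁻¹`.
-/
import Mathlib
import Fermat.Agent.PT.LOC.Interface12
import Fermat.Agent.PT.LOC.Structure14
import Fermat.Agent.PT.LOC.StructureNorm14
import Fermat.Agent.PT.LOC.RootsUnity14
import Fermat.Agent.PT.LOC.StructureTower27
import Fermat.Agent.PT.LOC.StructureTowerEF27

set_option autoImplicit false
set_option linter.unusedSectionVars false

namespace Fermat.Agent.ES.T56.ArtinSchreierTop5

open Polynomial

/-! ### General lemmas -/

section Ring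

/-- In a domain with a primitive `p`-th root of unity `ζ` (`p` prime), `(ζ - 1)^(p-1)` and `p` are
associated. -/
theorem associated_sub_one_pow_prime {A : Type*} [CommRing A] [IsDomain A] {p : ℕ} (hp : p.Prime)
    {ζ : A} (hζ : IsPrimitiveRoot ζ p) : Associated ((ζ - 1) ^ (p - 1)) (p : A) := by
  have : NeZero p := ⟨hp.ne_zero⟩
  have : Fact p.Prime := ⟨hp⟩
  rw [← eval_one_cyclotomic_prime (R := A) (p := p), cyclotomic_eq_prod_X_sub_primitiveRoots hζ,
    eval_prod]
  simp only [eval_sub, eval_X, eval_C]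
  rw [← Nat.totient_prime hp, ← hζ.card_primitiveRoots, ← Finset.prod_const]
  refine Associated.prod _ _ _ fun η hη ↦ ?_
  have hη' : IsPrimitiveRoot η p := isPrimitiveRoot_of_mem_primitiveRoots hη
  obtain ⟨i, -, hi, rfl⟩ := hζ.isPrimitiveRoot_iff.mp hη'
  simpa using (hζ.associated_sub_one_pow_sub_one_of_coprime hi).neg_right

/-- If `p = u·λ^(p-1)` in a domain `R`, there is a MONIC `g ∈ R[X]` with
`λ^p · g = (λX + 1)^p - (1 + λ^p c)`. -/
theorem exists_monic_shift {R : Type*} [CommRing R] [IsDomain R] {p : ℕ} (hp : p.Prime)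
    (lam u c : R) (hlam : lam ≠ 0) (hu : (p : R) = u * lam ^ (p - 1)) :
    ∃ g : R[X], g.Monic ∧
      C (lam ^ p) * g = (C lam * X + 1) ^ p - C (1 + lam ^ p * c) := by
  obtain ⟨r, hr⟩ := exists_add_pow_prime_eq hp (C lam * X) (1 : R[X])
  let g : R[X] := X ^ p + C u * (X * r) - C c
  have hg : C (lam ^ p) * g = (C lam * X + 1) ^ p - C (1 + lam ^ p * c) := by
    rw [hr]
    have hpC : (p : R[X]) = C u * C (lam ^ (p - 1)) := by
      rw [← C_mul, ← hu]; simp
    have h3 : (C lam : R[X]) ^ p = C lam ^ (p - 1) * C lam := by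
      rw [← pow_succ, Nat.sub_add_cancel hp.pos]
    simp only [g, hpC, C_add, C_mul, C_1, one_pow, mul_pow, C_pow]
    rw [h3]
    ring
  refine ⟨g, ?_, hg⟩
  -- monicity from the leading coefficient of the right-hand side
  have hlamp : lam ^ p ≠ 0 := pow_ne_zero _ hlam
  have hlin : (C lam * X + 1 : R[X]) = C lam * X + C 1 := by simp
  have hlin_deg : (C lam * X + 1 : R[X]).natDegree = 1 := by
    rw [hlin, natDegree_linear hlam]
  have hlin_lc : (C lam * X + 1 : R[X]).leadingCoeff = lam := by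
    rw [hlin, leadingCoeff_linear hlam]
  have hdeg : ((C lam * X + 1 : R[X]) ^ p).natDegree = p := by
    rw [natDegree_pow, hlin_deg, mul_one]
  have hlc : ((C lam * X + 1 : R[X]) ^ p).leadingCoeff = lam ^ p := by
    rw [leadingCoeff_pow, hlin_lc]
  have hdeglt : (C (1 + lam ^ p * c) : R[X]).degree < ((C lam * X + 1 : R[X]) ^ p).degree := by
    have h1 : ((C lam * X + 1 : R[X]) ^ p).degree = p := by
      rw [degree_eq_natDegree, hdeg]
      exact pow_ne_zero _ (fun h => by rw [h] at hlin_deg; simp at hlin_deg)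
    rw [h1]
    exact lt_of_le_of_lt degree_C_le (by exact_mod_cast hp.pos)
  have hlc2 : (C (lam ^ p) * g).leadingCoeff = lam ^ p := by
    rw [hg, leadingCoeff_sub_of_degree_lt hdeglt, hlc]
  rw [leadingCoeff_mul, leadingCoeff_C] at hlc2
  exact mul_left_cancel₀ hlamp (by rw [hlc2, mul_one])

/-- **Hensel step.** `R ⊂ S` local domains, `R` henselian, every residue class of `S` represented in
`R`, `p = u·λ^(p-1)` with `u` a unit and `λ ∈ 𝔪_R`.  If `(λw + 1)^p = 1 + λ^p c` has a solution
`w ∈ S`, it has a solution in `R`. -/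
theorem exists_root_core {R S : Type*} [CommRing R] [IsDomain R] [IsLocalRing R]
    [HenselianRing R (IsLocalRing.maximalIdeal R)]
    [CommRing S] [IsDomain S] [IsLocalRing S] [Algebra R S]
    (hinj : Function.Injective (algebraMap R S))
    (hres : ∀ s : S, ∃ r : R, s - algebraMap R S r ∈ IsLocalRing.maximalIdeal S)
    {p : ℕ} (hp : p.Prime) (lam u c : R) (hlam : lam ≠ 0)
    (hlam_m : lam ∈ IsLocalRing.maximalIdeal R) (hu : (p : R) = u * lam ^ (p - 1))
    (huu : IsUnit u) (w : S)
    (hw : (algebraMap R S lam * w + 1) ^ p = algebraMap R S (1 + lam ^ p * c)) :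
    ∃ w₀ : R, (lam * w₀ + 1) ^ p = 1 + lam ^ p * c := by
  obtain ⟨g, hgm, hg⟩ := exists_monic_shift hp lam u c hlam hu
  have hlamp : lam ^ p ≠ 0 := pow_ne_zero _ hlam
  -- evaluation identities
  have hev : ∀ x : S, algebraMap R S (lam ^ p) * aeval x g =
      (algebraMap R S lam * x + 1) ^ p - algebraMap R S (1 + lam ^ p * c) := by
    intro x
    have := congrArg (aeval x) hg
    simpa using this
  have hev0 : ∀ x : R, lam ^ p * g.eval x = (lam * x + 1) ^ p - (1 + lam ^ p * c) := by
    intro x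
    have := congrArg (eval x) hg
    simp only [eval_mul, eval_C, eval_sub, eval_pow, eval_add, eval_X, eval_one] at this
    exact this
  -- `w` is a root of `g`
  have hgw : aeval w g = 0 := by
    have h := hev w
    rw [hw, sub_self] at h
    refine (mul_eq_zero.1 h).resolve_left ?_
    exact (map_ne_zero_iff _ hinj).2 hlamp
  obtain ⟨w₁, hw₁⟩ := hres w
  -- `g w₁ ∈ 𝔪_R`
  have h1 : algebraMap R S (g.eval w₁) ∈ IsLocalRing.maximalIdeal S := by
    have hdvd := Polynomial.sub_dvd_eval_sub (algebraMap R S w₁) w (g.map (algebraMap R S))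
    rw [eval_map, eval₂_at_apply, eval_map, ← aeval_def, hgw, sub_zero] at hdvd
    obtain ⟨t, ht⟩ := hdvd
    rw [ht]
    have : algebraMap R S w₁ - w ∈ IsLocalRing.maximalIdeal S := by
      have := (IsLocalRing.maximalIdeal S).neg_mem hw₁
      rwa [neg_sub] at this
    exact Ideal.mul_mem_right _ _ this
  have h2 : g.eval w₁ ∈ IsLocalRing.maximalIdeal R := by
    by_contra h
    have hunit : IsUnit (g.eval w₁) := by
      rwa [IsLocalRing.mem_maximalIdeal, mem_nonunits_iff, not_not] at h
    exact (IsLocalRing.mem_maximalIdeal _).1 h1 (hunit.map (algebraMap R S))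
  -- the derivative at `w₁` is a unit
  have hone : IsUnit (lam * w₁ + 1) := by
    by_contra h
    have hm : lam * w₁ + 1 ∈ IsLocalRing.maximalIdeal R := by
      rwa [IsLocalRing.mem_maximalIdeal, mem_nonunits_iff]
    have h1' : (1 : R) ∈ IsLocalRing.maximalIdeal R := by
      have h3 := Ideal.sub_mem _ hm (Ideal.mul_mem_right w₁ _ hlam_m)
      rwa [add_sub_cancel_left] at h3
    exact (Ideal.ne_top_iff_one _).1 (IsLocalRing.maximalIdeal.isMaximal R).ne_top h1'
  have hder : g.derivative.eval w₁ = u * (lam * w₁ + 1) ^ (p - 1) := by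
    have hd := congrArg (fun q => (derivative q).eval w₁) hg
    simp only [derivative_mul, derivative_C, zero_mul, zero_add, eval_mul, eval_C,
      derivative_sub, derivative_pow, derivative_add, derivative_X, mul_one, derivative_one,
      add_zero, sub_zero, eval_pow, eval_add, eval_X, eval_one] at hd
    apply mul_left_cancel₀ hlamp
    rw [hd, hu]
    have hpp : lam ^ p = lam ^ (p - 1) * lam := by
      rw [← pow_succ, Nat.sub_add_cancel hp.pos]
    rw [hpp]
    ring
  have hderu : IsUnit (g.derivative.eval w₁) := by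
    rw [hder]
    exact huu.mul (hone.pow _)
  obtain ⟨w₀, hroot, -⟩ := HenselianRing.is_henselian g hgm w₁ h2 (hderu.map _)
  refine ⟨w₀, ?_⟩
  have h := hev0 w₀
  rw [hroot, mul_zero] at h
  exact sub_eq_zero.1 h.symm

end Ring

/-! ### The model -/

open scoped Fermat.Agent.PT.LOC.Interface12 Fermat.Agent.PT.LOC.StructureTower27
open Fermat.Agent.PT.LOC.Interface12 Fermat.Agent.PT.LOC.Structure14
  Fermat.Agent.PT.LOC.StructureNorm14 Fermat.Agent.PT.LOC.RootsUnity14
  Fermat.Agent.PT.LOC.StructureTower27 Fermat.Agent.PT.LOC.StructureTowerEF27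

noncomputable section

variable (p : ℕ) [Fact p.Prime]

section OneField

variable (L : Type) [Field L] [Algebra ℚ_[p] L] [FiniteDimensional ℚ_[p] L]

/-- A primitive `p`-th root of unity is integral. -/
theorem zeta_mem_intRing {ζ : L} (hζ : IsPrimitiveRoot ζ p) : ζ ∈ intRing p L := by
  have hp : p.Prime := Fact.out
  refine IsIntegral.of_pow hp.pos ?_
  rw [hζ.pow_eq_one]
  exact isIntegral_one

/-- `p = u · (ζ - 1)^(p-1)` in `𝒪_L`, with `u` a unit. -/
theorem exists_unit_mul_zeta_sub_one_pow {ζ : L} (hζ : IsPrimitiveRoot ζ p) :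
    ∃ u : (intRing p L)ˣ, (p : intRing p L) =
      (u : intRing p L) * (⟨ζ, zeta_mem_intRing p L hζ⟩ - 1) ^ (p - 1) := by
  have hp : p.Prime := Fact.out
  have hζR : IsPrimitiveRoot (⟨ζ, zeta_mem_intRing p L hζ⟩ : intRing p L) p :=
    IsPrimitiveRoot.of_map_of_injective (f := (intRing p L).val) hζ Subtype.val_injective
  obtain ⟨u, hu⟩ := associated_sub_one_pow_prime hp hζR
  exact ⟨u, by rw [mul_comm]; exact hu.symm⟩

/-- `|ζ - 1|^(p-1) = p⁻¹`. -/
theorem snorm_zeta_sub_one_pow {ζ : L} (hζ : IsPrimitiveRoot ζ p) :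
    snorm p L (ζ - 1) ^ (p - 1) = (p : ℝ)⁻¹ := by
  obtain ⟨u, hu⟩ := exists_unit_mul_zeta_sub_one_pow p L hζ
  have h1 := congrArg (fun x : intRing p L => snorm p L (x : L)) hu
  simp only [Subalgebra.coe_mul, Subalgebra.coe_pow, Subalgebra.coe_sub,
    Subalgebra.coe_one, snorm_mul] at h1
  have hcast : (((p : ℕ) : intRing p L) : L) = ((p : ℕ) : L) := rfl
  rw [hcast, snorm_natCast_q] at h1
  have hu1 : snorm p L ((u : intRing p L) : L) = 1 := by
    have hle : snorm p L ((u : intRing p L) : L) ≤ 1 := (mem_intRing_iff p L _).1 (u : intRing p L).2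
    have hle' : snorm p L (((u⁻¹ : (intRing p L)ˣ) : intRing p L) : L) ≤ 1 :=
      (mem_intRing_iff p L _).1 ((u⁻¹ : (intRing p L)ˣ) : intRing p L).2
    have hmul : snorm p L ((u : intRing p L) : L) *
        snorm p L (((u⁻¹ : (intRing p L)ˣ) : intRing p L) : L) = 1 := by
      rw [← snorm_mul, ← Subalgebra.coe_mul, Units.mul_inv, Subalgebra.coe_one, snorm_one]
    have hpos := snorm_nonneg p L ((u : intRing p L) : L)
    nlinarith [snorm_nonneg p L (((u⁻¹ : (intRing p L)ˣ) : intRing p L) : L)]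
  rw [hu1, one_mul, snorm_pow] at h1
  exact h1.symm

end OneField

section Tower

variable (L E : Type) [Field L] [Field E] [Algebra ℚ_[p] L] [Algebra ℚ_[p] E] [Algebra L E]
  [IsScalarTower ℚ_[p] L E] [FiniteDimensional ℚ_[p] L] [FiniteDimensional ℚ_[p] E]

/-- If `resDeg p L E = 1`, every element of `𝒪_E` is congruent modulo `𝔪_E` to an element of
`𝒪_L`. -/
theorem exists_sub_mem_maximalIdeal_of_resDeg_one (hf : resDeg p L E = 1) (s : intRing p E) :
    ∃ r : intRing p L, s - algebraMap (intRing p L) (intRing p E) r ∈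
      IsLocalRing.maximalIdeal (intRing p E) := by
  have hlo : (IsLocalRing.maximalIdeal (intRing p E)).LiesOver
      (IsLocalRing.maximalIdeal (intRing p L)) := inferInstance
  have hover : IsLocalRing.maximalIdeal (intRing p L) =
      (IsLocalRing.maximalIdeal (intRing p E)).comap (algebraMap (intRing p L) (intRing p E)) :=
    hlo.over
  let φ : (intRing p L ⧸ IsLocalRing.maximalIdeal (intRing p L)) →+*
      (intRing p E ⧸ IsLocalRing.maximalIdeal (intRing p E)) :=
    Ideal.quotientMap _ (algebraMap (intRing p L) (intRing p E)) hover.le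
  have hφinj : Function.Injective φ := Ideal.quotientMap_injective' hover.ge
  have hcard : Nat.card (intRing p E ⧸ IsLocalRing.maximalIdeal (intRing p E)) =
      Nat.card (intRing p L ⧸ IsLocalRing.maximalIdeal (intRing p L)) := by
    have h := resCard_tower p L E
    rw [hf, pow_one, resCard_def, resCard_def, maxId_eq_maximalIdeal, maxId_eq_maximalIdeal] at h
    exact h
  have hfin : Finite (intRing p E ⧸ IsLocalRing.maximalIdeal (intRing p E)) := by
    rw [← maxId_eq_maximalIdeal]; infer_instance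
  have hφsurj : Function.Surjective φ :=
    (hφinj.bijective_of_nat_card_le hcard.le).2
  obtain ⟨rbar, hr⟩ := hφsurj (Ideal.Quotient.mk _ s)
  obtain ⟨r, rfl⟩ := Ideal.Quotient.mk_surjective rbar
  refine ⟨r, ?_⟩
  rw [← Ideal.Quotient.eq, ← hr]
  rfl

/-- **Case (β).** `b = 1 + (ζ-1)^p c` (`c` integral), every residue class of `𝒪_E` is represented in
`𝒪_L`, and `b` is a `p`-th power in `E`: then `b` is a `p`-th power in `L`. -/
theorem exists_pthRoot_of_residue_surjective
    (hres : ∀ s : intRing p E, ∃ r : intRing p L,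
      s - algebraMap (intRing p L) (intRing p E) r ∈ IsLocalRing.maximalIdeal (intRing p E))
    {ζ : L} (hζ : IsPrimitiveRoot ζ p) (b : L)
    (hb : ∃ c ∈ intRing p L, b = 1 + (ζ - 1) ^ p * c) (y : E)
    (hy : y ^ p = algebraMap L E b) : ∃ z : L, z ^ p = b := by
  have hp : p.Prime := Fact.out
  obtain ⟨c, hc, rfl⟩ := hb
  obtain ⟨u, hu⟩ := exists_unit_mul_zeta_sub_one_pow p L hζ
  set ζR : intRing p L := ⟨ζ, zeta_mem_intRing p L hζ⟩ with hζR_def
  set lam : intRing p L := ζR - 1 with hlam_def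
  have hlamL : (lam : L) = ζ - 1 := rfl
  have hζ1 : ζ - 1 ≠ 0 := sub_ne_zero.2 (hζ.ne_one hp.one_lt)
  have hlam : lam ≠ 0 := by
    intro h
    apply hζ1
    rw [← hlamL, h]; rfl
  -- `λ ∈ 𝔪_L`
  have hlam_m : lam ∈ IsLocalRing.maximalIdeal (intRing p L) := by
    by_contra h
    have hunit : IsUnit lam := by
      rwa [IsLocalRing.mem_maximalIdeal, mem_nonunits_iff, not_not] at h
    have hpunit : IsUnit (p : intRing p L) := by
      rw [hu]; exact u.isUnit.mul (hunit.pow _)
    have hpm : (p : intRing p L) ∈ IsLocalRing.maximalIdeal (intRing p L) := by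
      rw [← maxId_eq_maximalIdeal]; exact natCast_mem_maxId p L
    exact (IsLocalRing.mem_maximalIdeal _).1 hpm hpunit
  let cR : intRing p L := ⟨c, hc⟩
  -- the element `w = (y - 1)/λ` of `E`
  have hlamE : algebraMap L E (ζ - 1) ≠ 0 := (map_ne_zero_iff _ (algebraMap L E).injective).2 hζ1
  let w : E := (y - 1) / algebraMap L E (ζ - 1)
  have hwE : (algebraMap L E (ζ - 1) * w + 1) ^ p =
      algebraMap L E (1 + (ζ - 1) ^ p * c) := by
    rw [← hy]; congr 1
    show algebraMap L E (ζ - 1) * ((y - 1) / algebraMap L E (ζ - 1)) + 1 = y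
    rw [mul_div_cancel₀ _ hlamE]; ring
  -- `w` is integral
  obtain ⟨g, hgm, hg⟩ := exists_monic_shift hp lam (u : intRing p L) cR hlam hu
  have hwint : IsIntegral (intRing p L) w := by
    refine ⟨g, hgm, ?_⟩
    have h := congrArg (eval₂ (algebraMap (intRing p L) E) w) hg
    simp only [eval₂_mul, eval₂_C, eval₂_sub, eval₂_pow, eval₂_add, eval₂_X, eval₂_one] at h
    have e1 : algebraMap (intRing p L) E lam = algebraMap L E (ζ - 1) := rfl
    have e2 : algebraMap (intRing p L) E (1 + lam ^ p * cR) =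
        algebraMap L E (1 + (ζ - 1) ^ p * c) := rfl
    rw [e1, e2, hwE, sub_self] at h
    refine (mul_eq_zero.1 h).resolve_left ?_
    have e3 : algebraMap (intRing p L) E (lam ^ p) = algebraMap L E ((ζ - 1) ^ p) := rfl
    rw [e3]
    exact (map_ne_zero_iff _ (algebraMap L E).injective).2 (pow_ne_zero _ hζ1)
  have hwS : w ∈ intRing p E := by
    have : IsScalarTower ℤ_[p] (intRing p L) E :=
      IsScalarTower.of_algebraMap_eq (fun z => by
        rw [IsScalarTower.algebraMap_apply ℤ_[p] L E]; rfl)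
    exact isIntegral_trans w hwint
  let wS : intRing p E := ⟨w, hwS⟩
  have hw : (algebraMap (intRing p L) (intRing p E) lam * wS + 1) ^ p =
      algebraMap (intRing p L) (intRing p E) (1 + lam ^ p * cR) := by
    apply Subtype.ext
    exact hwE
  obtain ⟨w₀, hw₀⟩ := exists_root_core (intRingMap_injective p L E) hres hp lam
    (u : intRing p L) cR hlam hlam_m hu u.isUnit wS hw
  refine ⟨(ζ - 1) * (w₀ : L) + 1, ?_⟩
  have := congrArg (fun x : intRing p L => (x : L)) hw₀
  exact this

/-- **Case (β), totally ramified form.** If `resDeg p L E = 1` (e.g. `E/L` totally ramified),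
`b = 1 + (ζ-1)^p c` with `c` integral, and `b` is a `p`-th power in `E`, then `b` is a `p`-th power
in `L`. -/
theorem exists_pthRoot_of_resDeg_one (hf : resDeg p L E = 1) {ζ : L} (hζ : IsPrimitiveRoot ζ p)
    (b : L) (hb : ∃ c ∈ intRing p L, b = 1 + (ζ - 1) ^ p * c) (y : E)
    (hy : y ^ p = algebraMap L E b) : ∃ z : L, z ^ p = b :=
  exists_pthRoot_of_residue_surjective p L E
    (exists_sub_mem_maximalIdeal_of_resDeg_one p L E hf) hζ b hb y hy

/-- The hypothesis on `b` in norm form: `|b - 1| ≤ |ζ - 1|^p` (i.e. `b ∈ U^{(pe′)}`). -/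
theorem exists_of_snorm_sub_one_le {ζ : L} (hζ : IsPrimitiveRoot ζ p) (b : L)
    (hb : snorm p L (b - 1) ≤ snorm p L (ζ - 1) ^ p) :
    ∃ c ∈ intRing p L, b = 1 + (ζ - 1) ^ p * c := by
  have hp : p.Prime := Fact.out
  have hζ1 : ζ - 1 ≠ 0 := sub_ne_zero.2 (hζ.ne_one hp.one_lt)
  have hpow : (ζ - 1) ^ p ≠ 0 := pow_ne_zero _ hζ1
  refine ⟨(b - 1) / (ζ - 1) ^ p, ?_, ?_⟩
  · rw [mem_intRing_iff, div_eq_mul_inv]
    show snorm p L ((b - 1) * ((ζ - 1) ^ p)⁻¹) ≤ 1
    rw [snorm_mul, snorm_inv, snorm_pow]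
    have hpos : 0 < snorm p L (ζ - 1) ^ p := pow_pos (snorm_pos p L hζ1) _
    rw [← div_eq_mul_inv, div_le_one hpos]
    exact hb
  · rw [mul_div_cancel₀ _ hpow]; ring

/-- **Case (β), norm form.** -/
theorem exists_pthRoot_of_resDeg_one_of_snorm (hf : resDeg p L E = 1) {ζ : L}
    (hζ : IsPrimitiveRoot ζ p) (b : L) (hb : snorm p L (b - 1) ≤ snorm p L (ζ - 1) ^ p) (y : E)
    (hy : y ^ p = algebraMap L E b) : ∃ z : L, z ^ p = b :=
  exists_pthRoot_of_resDeg_one p L E hf hζ b (exists_of_snorm_sub_one_le p L hζ b hb) y hy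

end Tower

end

end Fermat.Agent.ES.T56.ArtinSchreierTop5
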