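/-
Programme T (S56), chapter GW-D, leaf KZero (helper28).

`DualRep28`: for a `ℤ[G]`-module `Λ` (`τ : Representation ℤ G Λ`) and an `𝔽_p[G]`-module `X`, the
`𝔽_p[G]`-module `D_X(Λ) := Hom_ℤ(Λ, X)` with `(g • h)(a) = ρ g (h (τ g⁻¹ a))`; its finiteness,
its invariance under equivariant isomorphisms of `Λ`, restriction to stable submodules, and the
**extension lemma**: an additive map `E' → X` into an `𝔽_p`-module which kills `j⁻¹(pE)` extends
along `j : E' → E`.
-/
import Mathlib

set_option autoImplicit false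

namespace Fermat.Agent.ES.T56.DualRep28

open Representation

section Sub

variable {k : Type*} [CommRing k] {G : Type*} [Group G] {V : Type*} [AddCommGroup V] [Module k V]
  (ρ : Representation k G V)

/-- A `G`-stable submodule (over any commutative ring). -/
def IsStab (K : Submodule k V) : Prop := ∀ g, ∀ v ∈ K, ρ g v ∈ K

/-- The restriction of a representation to a stable submodule. -/
def resSub (K : Submodule k V) (hK : IsStab ρ K) : Representation k G K where
  toFun g := (ρ g).restrict (hK g)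
  map_one' := by ext; simp
  map_mul' g h := by ext; simp

@[simp] theorem resSub_apply_coe (K : Submodule k V) (hK : IsStab ρ K) (g : G) (x : K) :
    ((resSub ρ K hK g x : K) : V) = ρ g x := rfl

end Sub

section Dual

variable {p : ℕ} [Fact p.Prime] {G : Type*} [Group G]
  {Λ : Type*} [AddCommGroup Λ] (τ : Representation ℤ G Λ)
  {X : Type*} [AddCommGroup X] [Module (ZMod p) X] (ρ : Representation (ZMod p) G X)

/-- `D_X(Λ) = Hom_ℤ(Λ, X)` with `(g • h)(a) = ρ g (h (τ g⁻¹ a))`. -/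
def dualRep : Representation (ZMod p) G (Λ →ₗ[ℤ] X) where
  toFun g :=
    { toFun := fun h => ((ρ g).restrictScalars ℤ).comp (h.comp (τ g⁻¹))
      map_add' := fun h h' => by ext a; simp
      map_smul' := fun c h => by ext a; simp }
  map_one' := by ext h a; simp
  map_mul' g g' := by ext h a; simp

@[simp] theorem dualRep_apply (g : G) (h : Λ →ₗ[ℤ] X) (a : Λ) :
    dualRep τ ρ g h a = ρ g (h (τ g⁻¹ a)) := rfl

end Dual

/-- `Hom_ℤ(A, X)` is finite for `A` finitely generated and `X` finite. -/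
theorem finite_linearMap (A X : Type*) [AddCommGroup A] [Module.Finite ℤ A] [AddCommGroup X]
    [Finite X] : Finite (A →ₗ[ℤ] X) := by
  obtain ⟨s, hs⟩ := (Module.Finite.fg_top (R := ℤ) (M := A))
  have hinj : Function.Injective (fun (h : A →ₗ[ℤ] X) (x : s) => h x.1) := by
    intro h h' hh
    apply LinearMap.ext_on hs
    intro x hx
    exact congrFun hh ⟨x, hx⟩
  exact Finite.of_injective _ hinj

section Iso

variable {p : ℕ} [Fact p.Prime] {G : Type*} [Group G]
  {Λ₁ Λ₂ : Type*} [AddCommGroup Λ₁] [AddCommGroup Λ₂]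
  (τ₁ : Representation ℤ G Λ₁) (τ₂ : Representation ℤ G Λ₂)
  {X : Type*} [AddCommGroup X] [Module (ZMod p) X] (ρ : Representation (ZMod p) G X)

/-- An equivariant isomorphism `Λ₁ ≃ Λ₂` induces an equivariant isomorphism of the duals. -/
theorem dualRep_iso (ε : Λ₁ ≃ₗ[ℤ] Λ₂) (hε : ∀ g x, ε (τ₁ g x) = τ₂ g (ε x)) :
    ∃ e : (Λ₂ →ₗ[ℤ] X) ≃ₗ[ZMod p] (Λ₁ →ₗ[ℤ] X),
      ∀ g h, e (dualRep τ₂ ρ g h) = dualRep τ₁ ρ g (e h) := by
  refine ⟨{ toFun := fun h => h.comp ε.toLinearMap
            invFun := fun h => h.comp ε.symm.toLinearMap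
            map_add' := fun _ _ => rfl
            map_smul' := fun _ _ => rfl
            left_inv := fun h => by ext a; simp
            right_inv := fun h => by ext a; simp }, fun g h => ?_⟩
  ext a
  simp [hε]

end Iso

section Ext

variable {p : ℕ} [Fact p.Prime]

/-- Factorisation of linear maps over a field: `ker ψ ≤ ker h` ⇒ `h = g ∘ ψ`. -/
theorem exists_factor {K V W X : Type*} [Field K] [AddCommGroup V] [Module K V]
    [AddCommGroup W] [Module K W] [AddCommGroup X] [Module K X]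
    (ψ : V →ₗ[K] W) (h : V →ₗ[K] X) (hle : LinearMap.ker ψ ≤ LinearMap.ker h) :
    ∃ g : W →ₗ[K] X, ∀ v, g (ψ v) = h v := by
  obtain ⟨r, hr⟩ := LinearMap.exists_leftInverse_of_injective
    ((LinearMap.ker ψ).liftQ ψ le_rfl) (Submodule.ker_liftQ_eq_bot _ _ _ le_rfl)
  refine ⟨((LinearMap.ker ψ).liftQ h hle).comp r, fun v => ?_⟩
  have h1 : r (ψ v) = (LinearMap.ker ψ).mkQ v := by
    have := LinearMap.congr_fun hr ((LinearMap.ker ψ).mkQ v)
    simpa using this
  simp [h1]

/-- **Extension lemma.**  Let `j : E' → E` be additive and `h₀ : E' → X` additive into an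
`𝔽_p`-module, with `h₀ x = 0` whenever `j x ∈ pE`.  Then `h₀ = h ∘ j` for some additive `h`. -/
theorem exists_extension {E E' X : Type*} [AddCommGroup E] [AddCommGroup E'] [AddCommGroup X]
    [Module (ZMod p) X] (j : E' →+ E) (h₀ : E' →+ X)
    (hker : ∀ x : E', (∃ y : E, j x = p • y) → h₀ x = 0) :
    ∃ h : E →+ X, ∀ x, h (j x) = h₀ x := by
  -- pass to `E'/p` and `E/p`
  let h₀' : ModN E' p →ₗ[ZMod p] X :=
    ModN.liftEquiv'.symm ⟨h₀, fun g => ZModModule.char_nsmul_eq_zero p _⟩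
  let ψ' : ModN E' p →ₗ[ZMod p] ModN E p :=
    ModN.liftEquiv'.symm ⟨(ModN.mkQ p).comp j, fun g => ZModModule.char_nsmul_eq_zero p _⟩
  have hh₀ : ∀ x : E', h₀' (ModN.mkQ p x) = h₀ x := fun x => rfl
  have hψ : ∀ x : E', ψ' (ModN.mkQ p x) = ModN.mkQ p (j x) := fun x => rfl
  have hsurj : Function.Surjective (ModN.mkQ p : E' →+ ModN E' p) :=
    Submodule.mkQ_surjective _
  have hle : LinearMap.ker ψ' ≤ LinearMap.ker h₀' := by
    intro v hv
    obtain ⟨x, rfl⟩ := hsurj v
    rw [LinearMap.mem_ker, hψ] at hv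
    rw [LinearMap.mem_ker, hh₀]
    apply hker
    have hv' : j x ∈ LinearMap.range (LinearMap.lsmul ℤ E (p : ℤ)) :=
      (Submodule.Quotient.mk_eq_zero _).1 hv
    obtain ⟨y, hy⟩ := hv'
    exact ⟨y, by simpa using hy.symm⟩
  obtain ⟨g, hg⟩ := exists_factor ψ' h₀' hle
  refine ⟨g.toAddMonoidHom.comp (ModN.mkQ p), fun x => ?_⟩
  show g (ModN.mkQ p (j x)) = h₀ x
  rw [← hψ, hg, hh₀]

end Ext

end Fermat.Agent.ES.T56.DualRep28
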