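/-
Programme T (S56), chapter GW-D (Tate's global Euler characteristic), leaf KZero (helper28).

`KZeroIface28`: the CONTRACT of the `K₀`-lemma, in a Grothendieck-group-free form.

* `AddInv p G` : an additive invariant of finite `𝔽_p[G]`-modules (unbundled representations on
  `Type`-valued carriers): a function `f` to `ℤ` which is additive on short exact sequences.
  (Invariance under isomorphism and `f 0 = 0` are CONSEQUENCES, proved here.)
* `PPartTrivial p σ` : every element of `p`-power order acts trivially.
* `KZeroLemma p G` : the statement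
    `∀ F : AddInv p G, (∀ C ≤ G cyclic, ∀ N with C_p trivial, F (Coind_C^G N) = 0) → ∀ X, F X = 0`
  with Mathlib's `Representation.coind C.subtype σ` as the model of (co)induction.

The proof (Artin induction for permutation modules in characteristic `0` + Brauer–Nesbitt for
lattices + the `p`-part of a cyclic group has fixed vectors) is in `KZeroMain28`.
-/
import Mathlib

set_option autoImplicit false

namespace Fermat.Agent.ES.T56.KZeroIface28

open Representation

/-- An additive invariant of finite `𝔽_p[G]`-modules. -/
structure AddInv (p : ℕ) [Fact p.Prime] (G : Type) [Group G] where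
  /-- the invariant -/
  f : ∀ (V : Type) [AddCommGroup V] [Module (ZMod p) V] [Finite V],
    Representation (ZMod p) G V → ℤ
  /-- additivity on short exact sequences of `𝔽_p[G]`-modules -/
  add : ∀ (V' V V'' : Type) [AddCommGroup V'] [Module (ZMod p) V'] [Finite V']
    [AddCommGroup V] [Module (ZMod p) V] [Finite V]
    [AddCommGroup V''] [Module (ZMod p) V''] [Finite V'']
    (ρ' : Representation (ZMod p) G V') (ρ : Representation (ZMod p) G V)
    (ρ'' : Representation (ZMod p) G V'')
    (i : V' →ₗ[ZMod p] V) (q : V →ₗ[ZMod p] V''),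
    Function.Injective i → Function.Surjective q → Function.Exact i q →
    (∀ g v, i (ρ' g v) = ρ g (i v)) → (∀ g v, q (ρ g v) = ρ'' g (q v)) →
    f V ρ = f V' ρ' + f V'' ρ''

variable {p : ℕ} [Fact p.Prime] {G : Type} [Group G]

namespace AddInv

variable (F : AddInv p G)

/-- An additive invariant vanishes on zero modules. -/
theorem f_of_subsingleton (Z : Type) [AddCommGroup Z] [Module (ZMod p) Z] [Finite Z]
    [Subsingleton Z] (ζ : Representation (ZMod p) G Z) : F.f Z ζ = 0 := by
  have h := F.add Z Z Z ζ ζ ζ LinearMap.id LinearMap.id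
    (fun a b _ => Subsingleton.elim a b) (fun b => ⟨b, rfl⟩)
    (fun y => ⟨fun _ => ⟨y, rfl⟩, fun _ => Subsingleton.elim _ _⟩)
    (fun _ _ => rfl) (fun _ _ => rfl)
  linarith

/-- An additive invariant is invariant under equivariant isomorphisms. -/
theorem f_iso (V W : Type) [AddCommGroup V] [Module (ZMod p) V] [Finite V]
    [AddCommGroup W] [Module (ZMod p) W] [Finite W]
    (ρ : Representation (ZMod p) G V) (σ : Representation (ZMod p) G W) (e : V ≃ₗ[ZMod p] W)
    (he : ∀ g v, e (ρ g v) = σ g (e v)) : F.f V ρ = F.f W σ := by
  have h := F.add V W PUnit ρ σ (1 : Representation (ZMod p) G PUnit) e.toLinearMap 0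
    e.injective (fun b => ⟨0, Subsingleton.elim _ _⟩)
    (fun y => ⟨fun _ => ⟨e.symm y, by simp⟩, fun _ => rfl⟩)
    (fun g v => by simpa using he g v) (fun _ _ => rfl)
  rw [F.f_of_subsingleton PUnit 1, add_zero] at h
  exact h.symm

/-- Additivity on a four-term exact sequence `0 → A → B → C → D → 0`: `f B - f C = f A - f D`. -/
theorem f_four (A B C D : Type) [AddCommGroup A] [Module (ZMod p) A] [Finite A]
    [AddCommGroup B] [Module (ZMod p) B] [Finite B]
    [AddCommGroup C] [Module (ZMod p) C] [Finite C]
    [AddCommGroup D] [Module (ZMod p) D] [Finite D]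
    (α : Representation (ZMod p) G A) (β : Representation (ZMod p) G B)
    (γ : Representation (ZMod p) G C) (δ : Representation (ZMod p) G D)
    (i : A →ₗ[ZMod p] B) (m : B →ₗ[ZMod p] C) (q : C →ₗ[ZMod p] D)
    (hi : Function.Injective i) (hq : Function.Surjective q)
    (him : Function.Exact i m) (hmq : Function.Exact m q)
    (ei : ∀ g v, i (α g v) = β g (i v)) (em : ∀ g v, m (β g v) = γ g (m v))
    (eq : ∀ g v, q (γ g v) = δ g (q v)) :
    F.f B β + F.f D δ = F.f A α + F.f C γ := by
  classical
  -- the image of `m`, a `G`-stable subspace of `C`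
  let I : Submodule (ZMod p) C := LinearMap.range m
  have hI : ∀ g, ∀ c ∈ I, γ g c ∈ I := by
    rintro g _ ⟨b, rfl⟩
    exact ⟨β g b, em g b⟩
  let ι : Representation (ZMod p) G I :=
    { toFun := fun g => (γ g).restrict (hI g)
      map_one' := by ext; simp
      map_mul' := fun g h => by ext; simp }
  have h1 := F.add A B I α β ι i (m.rangeRestrict) hi
    (LinearMap.surjective_rangeRestrict m)
    (fun y => by
      rw [← him y]
      constructor
      · intro h; simpa using congrArg Subtype.val h
      · intro h; exact Subtype.ext (by simpa using h))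
    ei (fun g v => Subtype.ext (by simpa [ι] using em g v))
  have h2 := F.add I C D ι γ δ I.subtype q (Subtype.val_injective) hq
    (fun y => by
      rw [hmq y]
      constructor
      · rintro ⟨b, rfl⟩; exact ⟨⟨m b, b, rfl⟩, rfl⟩
      · rintro ⟨⟨_, b, rfl⟩, rfl⟩; exact ⟨b, rfl⟩)
    (fun g v => by simp [ι]) eq
  linarith

end AddInv

/-- Every element of `p`-power order acts trivially. -/
def PPartTrivial (p : ℕ) {C : Type} [Group C] {N : Type} [AddCommGroup N] [Module (ZMod p) N]
    (σ : Representation (ZMod p) C N) : Prop :=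
  ∀ c : C, (∃ k : ℕ, orderOf c = p ^ k) → σ c = 1

/-- The hypothesis of the `K₀`-lemma: the invariant vanishes on all modules coinduced from cyclic
subgroups whose `p`-part acts trivially. -/
def VanishesOnCyclic (F : AddInv p G) [Finite G] : Prop :=
  ∀ (C : Subgroup G), IsCyclic C →
    ∀ (N : Type) [AddCommGroup N] [Module (ZMod p) N] [Finite N]
      (σ : Representation (ZMod p) C N), PPartTrivial p σ →
      F.f (coindV C.subtype σ) (coind C.subtype σ) = 0

/-- **The `K₀`-lemma (contract).** -/
def KZeroLemma (p : ℕ) [Fact p.Prime] (G : Type) [Group G] [Finite G] : Prop :=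
  ∀ F : AddInv p G, VanishesOnCyclic F →
    ∀ (X : Type) [AddCommGroup X] [Module (ZMod p) X] [Finite X]
      (ρ : Representation (ZMod p) G X), F.f X ρ = 0

end Fermat.Agent.ES.T56.KZeroIface28
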