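/-
Programme T (S56), chapter GW-D, leaf KZero (helper28).

`BNStep28`: the two elementary steps of Brauer–Nesbitt for an additive invariant `F`.
For `G`-stable sublattices `A ≤ B` of a `p`-torsion-free `ℤ[G]`-module `Λ` and
`D_X(A) = Hom_ℤ(A, X)`:
* `Dval_eq_of_p`      : `pB ≤ A` ⇒ `F(D_X(B)) = F(D_X(A))`, from the four-term exact sequence
  `0 → K → D_X(B) → D_X(A) → K → 0`, `K = ker(res)`, last map `h ↦ h ∘ (p·)`;
* `Dval_eq_of_coprime`: `mB ≤ A` with `(m, p) = 1` ⇒ restriction is an isomorphism.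
-/
import Mathlib
import Fermat.Agent.ES.T56.KZeroIface28
import Fermat.Agent.ES.T56.DualRep28

set_option autoImplicit false

namespace Fermat.Agent.ES.T56.BNStep28

open Representation Fermat.Agent.ES.T56.KZeroIface28 Fermat.Agent.ES.T56.DualRep28

/-- `Hom_ℤ(A, X)` is finite (instance form of `finite_linearMap`). -/
instance finiteLinearMapInst (A X : Type*) [AddCommGroup A] [Module.Finite ℤ A] [AddCommGroup X]
    [Finite X] : Finite (A →ₗ[ℤ] X) := finite_linearMap A X

variable {p : ℕ} [Fact p.Prime] {G : Type} [Group G]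
  {Λ : Type} [AddCommGroup Λ] [Module.Finite ℤ Λ] (τ : Representation ℤ G Λ)
  {X : Type} [AddCommGroup X] [Module (ZMod p) X] [Finite X] (ρ : Representation (ZMod p) G X)
  (F : AddInv p G)

/-- The value of `F` on `D_X(A) = Hom_ℤ(A, X)` for a stable sublattice `A`. -/
noncomputable def Dval (A : Submodule ℤ Λ) (hA : IsStab τ A) : ℤ :=
  F.f (A →ₗ[ℤ] X) (dualRep (resSub τ A hA) ρ)

/-- Restriction `D_X(B) → D_X(A)` for `A ≤ B`. -/
def resMap {A B : Submodule ℤ Λ} (hAB : A ≤ B) : (B →ₗ[ℤ] X) →ₗ[ZMod p] (A →ₗ[ℤ] X) where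
  toFun h := h.comp (Submodule.inclusion hAB)
  map_add' _ _ := rfl
  map_smul' _ _ := rfl

omit [Module.Finite ℤ Λ] [Finite X] in
@[simp] theorem resMap_apply {A B : Submodule ℤ Λ} (hAB : A ≤ B) (h : B →ₗ[ℤ] X) (a : A) :
    resMap (p := p) hAB h a = h (Submodule.inclusion hAB a) := rfl

omit [Module.Finite ℤ Λ] [Finite X] in
theorem resMap_equivariant {A B : Submodule ℤ Λ} (hA : IsStab τ A) (hB : IsStab τ B)
    (hAB : A ≤ B) (g : G) (h : B →ₗ[ℤ] X) :
    resMap (p := p) hAB (dualRep (resSub τ B hB) ρ g h) =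
      dualRep (resSub τ A hA) ρ g (resMap (p := p) hAB h) := by
  ext a
  simp only [resMap_apply, dualRep_apply]
  congr 2

/-- Multiplication by `m` as a map `B → A` when `mB ≤ A`. -/
def mulMap {A B : Submodule ℤ Λ} (m : ℕ) (hm : ∀ b ∈ B, m • b ∈ A) : B →ₗ[ℤ] A where
  toFun b := ⟨m • b.1, hm b.1 b.2⟩
  map_add' b b' := Subtype.ext (by simp [smul_add])
  map_smul' c b := Subtype.ext (by
    show m • (c • (b : Λ)) = c • (m • (b : Λ))
    exact smul_comm m c _)

/-- `h ↦ h ∘ (m·) : D_X(A) → D_X(B)`. -/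
def mulDual {A B : Submodule ℤ Λ} (m : ℕ) (hm : ∀ b ∈ B, m • b ∈ A) :
    (A →ₗ[ℤ] X) →ₗ[ZMod p] (B →ₗ[ℤ] X) where
  toFun h := h.comp (mulMap m hm)
  map_add' _ _ := rfl
  map_smul' _ _ := rfl

omit [Module.Finite ℤ Λ] [Finite X] in
theorem mulDual_equivariant {A B : Submodule ℤ Λ} (hA : IsStab τ A) (hB : IsStab τ B)
    (m : ℕ) (hm : ∀ b ∈ B, m • b ∈ A) (g : G) (h : A →ₗ[ℤ] X) :
    mulDual (p := p) m hm (dualRep (resSub τ A hA) ρ g h) =
      dualRep (resSub τ B hB) ρ g (mulDual (p := p) m hm h) := by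
  ext b
  simp only [mulDual, LinearMap.coe_mk, AddHom.coe_mk, LinearMap.comp_apply, dualRep_apply]
  congr 2
  apply Subtype.ext
  simp [mulMap]

/-- **Step `p`.**  `A ≤ B`, `pB ≤ A`, `Λ` without `p`-torsion ⇒ `F(D_X(B)) = F(D_X(A))`. -/
theorem Dval_eq_of_p (A B : Submodule ℤ Λ) (hA : IsStab τ A) (hB : IsStab τ B) (hAB : A ≤ B)
    (hp : ∀ b ∈ B, p • b ∈ A) (htf : ∀ x : Λ, p • x = 0 → x = 0) :
    Dval τ ρ F B hB = Dval τ ρ F A hA := by
  classical
  set δA := dualRep (resSub τ A hA) ρ with hδA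
  set δB := dualRep (resSub τ B hB) ρ with hδB
  set res : (B →ₗ[ℤ] X) →ₗ[ZMod p] (A →ₗ[ℤ] X) := resMap hAB with hres
  set mp : (A →ₗ[ℤ] X) →ₗ[ZMod p] (B →ₗ[ℤ] X) := mulDual p hp with hmp
  have eres : ∀ g h, res (δB g h) = δA g (res h) := resMap_equivariant τ ρ hA hB hAB
  have emp : ∀ g h, mp (δA g h) = δB g (mp h) := mulDual_equivariant τ ρ hA hB p hp
  -- `mp` then `res` is zero, `res` then `mp` is zero
  have h1 : ∀ h, res (mp h) = 0 := by
    intro h
    ext a
    show h (mulMap p hp (Submodule.inclusion hAB a)) = 0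
    have : mulMap p hp (Submodule.inclusion hAB a) = p • a := Subtype.ext rfl
    rw [this, map_nsmul]
    exact ZModModule.char_nsmul_eq_zero p _
  have h2 : ∀ h, mp (res h) = 0 := by
    intro h
    ext b
    show h (Submodule.inclusion hAB (mulMap p hp b)) = 0
    have : Submodule.inclusion hAB (mulMap p hp b) = p • b := Subtype.ext rfl
    rw [this, map_nsmul]
    exact ZModModule.char_nsmul_eq_zero p _
  set K : Submodule (ZMod p) (B →ₗ[ℤ] X) := LinearMap.ker res with hK
  have hKstab : IsStab δB K := by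
    intro g h hh
    rw [hK, LinearMap.mem_ker] at hh ⊢
    rw [eres, hh, map_zero]
  set κ := resSub δB K hKstab with hκ
  set q : (A →ₗ[ℤ] X) →ₗ[ZMod p] K := mp.codRestrict K (fun h => h1 h) with hq
  -- exactness at `D_X(A)`
  have hex : Function.Exact res q := by
    intro h
    constructor
    · intro hq0
      have hq0' : ∀ b, h (mulMap p hp b) = 0 := by
        intro b
        have h0 : (q h : B →ₗ[ℤ] X) b = 0 := by rw [hq0]; rfl
        exact h0
      obtain ⟨h', hh'⟩ := exists_extension (p := p) (Submodule.inclusion hAB).toAddMonoidHom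
        h.toAddMonoidHom (by
          rintro a ⟨y, hy⟩
          have : a = mulMap p hp y := by
            apply Subtype.ext
            have := congrArg (fun b : B => (b : Λ)) hy
            simpa [mulMap] using this
          rw [this]
          exact hq0' y)
      refine ⟨h'.toIntLinearMap, ?_⟩
      ext a
      exact hh' a
    · rintro ⟨h', rfl⟩
      apply Subtype.ext
      exact h2 h'
  -- surjectivity of `q`
  have hsurj : Function.Surjective q := by
    rintro ⟨k, hk⟩
    rw [hK, LinearMap.mem_ker] at hk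
    have hk' : ∀ a : A, k (Submodule.inclusion hAB a) = 0 := fun a => LinearMap.congr_fun hk a
    obtain ⟨h, hh⟩ := exists_extension (p := p) (mulMap p hp).toAddMonoidHom
      k.toAddMonoidHom (by
        rintro b ⟨y, hy⟩
        have hy' : p • (b : Λ) = p • (y : Λ) := by
          have := congrArg (fun a : A => (a : Λ)) hy
          simpa [mulMap] using this
        have hby : (b : Λ) = (y : Λ) := by
          have h0 : p • ((b : Λ) - (y : Λ)) = 0 := by rw [smul_sub, hy', sub_self]
          exact sub_eq_zero.1 (htf _ h0)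
        have : b = Submodule.inclusion hAB y := Subtype.ext hby
        rw [this]
        exact hk' y)
    refine ⟨h.toIntLinearMap, Subtype.ext ?_⟩
    ext b
    exact hh b
  have hfour := F.f_four K (B →ₗ[ℤ] X) (A →ₗ[ℤ] X) K κ δB δA κ K.subtype res q
    K.injective_subtype hsurj (LinearMap.exact_subtype_ker_map res) hex
    (fun g v => rfl) eres (fun g v => Subtype.ext (emp g v))
  unfold Dval
  linarith

/-- **Step prime to `p`.**  `A ≤ B`, `mB ≤ A`, `(m, p) = 1` ⇒ `F(D_X(B)) = F(D_X(A))`. -/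
theorem Dval_eq_of_coprime (A B : Submodule ℤ Λ) (hA : IsStab τ A) (hB : IsStab τ B)
    (hAB : A ≤ B) (m : ℕ) (hm : Nat.Coprime m p) (hmB : ∀ b ∈ B, m • b ∈ A) :
    Dval τ ρ F B hB = Dval τ ρ F A hA := by
  classical
  have hm0 : (m : ZMod p) ≠ 0 := by
    intro h0
    rw [ZMod.natCast_eq_zero_iff] at h0
    have := Nat.Coprime.eq_one_of_dvd hm.symm h0
    exact (Fact.out : p.Prime).one_lt.ne' this
  have hinj : Function.Injective (resMap (p := p) (X := X) hAB) := by
    rw [injective_iff_map_eq_zero]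
    intro h hh
    ext b
    have h1 : (m : ZMod p) • h b = 0 := by
      rw [Nat.cast_smul_eq_nsmul, ← map_nsmul]
      have : m • b = Submodule.inclusion hAB (mulMap m hmB b) := Subtype.ext rfl
      rw [this]
      exact LinearMap.congr_fun hh (mulMap m hmB b)
    rcases smul_eq_zero.1 h1 with h0 | h0
    · exact absurd h0 hm0
    · simpa using h0
  have hsurj : Function.Surjective (resMap (p := p) (X := X) hAB) := by
    intro h
    refine ⟨(m : ZMod p)⁻¹ • mulDual (p := p) m hmB h, ?_⟩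
    ext a
    show (m : ZMod p)⁻¹ • h (mulMap m hmB (Submodule.inclusion hAB a)) = h a
    have : mulMap m hmB (Submodule.inclusion hAB a) = m • a := Subtype.ext rfl
    rw [this, map_nsmul, ← Nat.cast_smul_eq_nsmul (ZMod p), inv_smul_smul₀ hm0]
  exact F.f_iso _ _ _ _ (LinearEquiv.ofBijective (resMap (p := p) hAB) ⟨hinj, hsurj⟩)
    (fun g h => resMap_equivariant τ ρ hA hB hAB g h)

end Fermat.Agent.ES.T56.BNStep28
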