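/-
Programme T (S56), chapter GW-D, leaf KZero (helper28).

`BNChain28`: **Brauer–Nesbitt for an additive invariant.**  If `ι : Λ₁ → Λ₂` is an injective
equivariant map of finitely generated `ℤ[G]`-modules with `mΛ₂ ⊆ ι(Λ₁)` (`m > 0`) and `Λ₂` has no
`p`-torsion, then `F(Hom_ℤ(Λ₁, X)) = F(Hom_ℤ(Λ₂, X))` for every additive invariant `F` and every
finite `𝔽_p[G]`-module `X`.  Chain `A_i = A + p^i Λ` (`A = ι(Λ₁)`): `A_0 = Λ`, `pA_i ≤ A_{i+1} ≤ A_i`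
(step `p`), and `m' A_k ≤ A ≤ A_k` for `m = p^k m'`, `(m', p) = 1` (coprime step).
-/
import Mathlib
import Fermat.Agent.ES.T56.KZeroIface28
import Fermat.Agent.ES.T56.DualRep28
import Fermat.Agent.ES.T56.BNStep28

set_option autoImplicit false

namespace Fermat.Agent.ES.T56.BNChain28

open Representation Fermat.Agent.ES.T56.KZeroIface28 Fermat.Agent.ES.T56.DualRep28
  Fermat.Agent.ES.T56.BNStep28

section AddMul

variable {G : Type*} [Group G] {Λ : Type*} [AddCommGroup Λ] (τ : Representation ℤ G Λ)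

/-- `A + nΛ`. -/
def addMul (A : Submodule ℤ Λ) (n : ℕ) : Submodule ℤ Λ :=
  A ⊔ LinearMap.range (LinearMap.lsmul ℤ Λ (n : ℤ))

theorem mem_addMul {A : Submodule ℤ Λ} {n : ℕ} {x : Λ} :
    x ∈ addMul A n ↔ ∃ a ∈ A, ∃ y : Λ, a + n • y = x := by
  unfold addMul
  rw [Submodule.mem_sup]
  constructor
  · rintro ⟨a, ha, z, ⟨y, rfl⟩, rfl⟩
    exact ⟨a, ha, y, by simp⟩
  · rintro ⟨a, ha, y, rfl⟩
    exact ⟨a, ha, n • y, ⟨y, by simp⟩, rfl⟩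

theorem le_addMul (A : Submodule ℤ Λ) (n : ℕ) : A ≤ addMul A n := le_sup_left

theorem addMul_one (A : Submodule ℤ Λ) : addMul A 1 = ⊤ := by
  rw [eq_top_iff]
  intro x _
  exact mem_addMul.2 ⟨0, A.zero_mem, x, by simp⟩

theorem addMul_le_of_dvd (A : Submodule ℤ Λ) {n n' : ℕ} (h : n ∣ n') :
    addMul A n' ≤ addMul A n := by
  obtain ⟨c, rfl⟩ := h
  intro x hx
  obtain ⟨a, ha, y, rfl⟩ := mem_addMul.1 hx
  exact mem_addMul.2 ⟨a, ha, c • y, by rw [mul_smul]⟩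

theorem smul_mem_addMul (A : Submodule ℤ Λ) (n q : ℕ) {x : Λ} (hx : x ∈ addMul A n) :
    q • x ∈ addMul A (n * q) := by
  obtain ⟨a, ha, y, rfl⟩ := mem_addMul.1 hx
  refine mem_addMul.2 ⟨q • a, A.smul_of_tower_mem q ha, y, ?_⟩
  rw [smul_add, mul_comm, mul_smul]

theorem addMul_stab {A : Submodule ℤ Λ} (hA : IsStab τ A) (n : ℕ) : IsStab τ (addMul A n) := by
  intro g x hx
  obtain ⟨a, ha, y, rfl⟩ := mem_addMul.1 hx
  exact mem_addMul.2 ⟨τ g a, hA g a ha, τ g y, by rw [map_add, map_nsmul]⟩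

theorem top_stab : IsStab τ (⊤ : Submodule ℤ Λ) := fun _ _ _ => Submodule.mem_top

end AddMul

variable {p : ℕ} [Fact p.Prime] {G : Type} [Group G]
  {X : Type} [AddCommGroup X] [Module (ZMod p) X] [Finite X] (ρ : Representation (ZMod p) G X)
  (F : AddInv p G)

section Chain

variable {Λ : Type} [AddCommGroup Λ] [Module.Finite ℤ Λ] (τ : Representation ℤ G Λ)

theorem Dval_congr {A B : Submodule ℤ Λ} (h : A = B) (hA : IsStab τ A) (hB : IsStab τ B) :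
    Dval τ ρ F A hA = Dval τ ρ F B hB := by
  subst h
  rfl

theorem Dval_addMul_pow (A : Submodule ℤ Λ) (hA : IsStab τ A)
    (htf : ∀ x : Λ, p • x = 0 → x = 0) (i : ℕ) :
    Dval τ ρ F (addMul A (p ^ i)) (addMul_stab τ hA _) = Dval τ ρ F ⊤ (top_stab τ) := by
  induction i with
  | zero => exact Dval_congr ρ F τ (by rw [pow_zero, addMul_one]) _ _
  | succ i ih =>
    rw [← ih]
    refine (Dval_eq_of_p τ ρ F (addMul A (p ^ (i + 1))) (addMul A (p ^ i))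
      (addMul_stab τ hA _) (addMul_stab τ hA _)
      (addMul_le_of_dvd A (Dvd.intro _ (pow_succ p i).symm)) ?_ htf).symm
    intro b hb
    have := smul_mem_addMul A (p ^ i) p hb
    rwa [← pow_succ] at this

/-- A stable sublattice `A ⊇ mΛ` (`m > 0`) has the same dual value as `Λ`. -/
theorem Dval_eq_top (A : Submodule ℤ Λ) (hA : IsStab τ A)
    (htf : ∀ x : Λ, p • x = 0 → x = 0) (m : ℕ) (hm : 0 < m) (hmΛ : ∀ x : Λ, m • x ∈ A) :
    Dval τ ρ F A hA = Dval τ ρ F ⊤ (top_stab τ) := by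
  have hp : p.Prime := Fact.out
  obtain ⟨k, m', hm', rfl⟩ := Nat.exists_eq_pow_mul_and_not_dvd hm.ne' p hp.ne_one
  rw [← Dval_addMul_pow ρ F τ A hA htf k]
  refine (Dval_eq_of_coprime τ ρ F A (addMul A (p ^ k)) hA (addMul_stab τ hA _)
    (le_addMul A _) m' ((Nat.Prime.coprime_iff_not_dvd hp).2 hm').symm ?_).symm
  intro b hb
  obtain ⟨a, ha, y, rfl⟩ := mem_addMul.1 hb
  rw [smul_add, ← mul_smul, mul_comm]
  exact A.add_mem (A.smul_of_tower_mem m' ha) (hmΛ y)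

end Chain

/-- **Brauer–Nesbitt.** -/
theorem dual_eq_of_injective {Λ₁ Λ₂ : Type} [AddCommGroup Λ₁] [AddCommGroup Λ₂]
    [Module.Finite ℤ Λ₁] [Module.Finite ℤ Λ₂]
    (τ₁ : Representation ℤ G Λ₁) (τ₂ : Representation ℤ G Λ₂)
    (htf : ∀ x : Λ₂, p • x = 0 → x = 0) (ι : Λ₁ →ₗ[ℤ] Λ₂) (hι : Function.Injective ι)
    (heq : ∀ g x, ι (τ₁ g x) = τ₂ g (ι x)) (m : ℕ) (hm : 0 < m)
    (hcok : ∀ y : Λ₂, ∃ x : Λ₁, ι x = m • y) :
    F.f (Λ₁ →ₗ[ℤ] X) (dualRep τ₁ ρ) = F.f (Λ₂ →ₗ[ℤ] X) (dualRep τ₂ ρ) := by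
  have hA : IsStab τ₂ (LinearMap.range ι) := by
    rintro g _ ⟨x, rfl⟩
    exact ⟨τ₁ g x, heq g x⟩
  have h1 := Dval_eq_top ρ F τ₂ (LinearMap.range ι) hA htf m hm
    (fun y => by obtain ⟨x, hx⟩ := hcok y; exact ⟨x, hx⟩)
  -- identify the two ends
  obtain ⟨e₁, he₁⟩ := dualRep_iso (p := p) τ₁ (resSub τ₂ (LinearMap.range ι) hA) ρ
    (LinearEquiv.ofInjective ι hι) (fun g x => Subtype.ext (heq g x))
  obtain ⟨e₂, he₂⟩ := dualRep_iso (p := p) (resSub τ₂ ⊤ (top_stab τ₂)) τ₂ ρ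
    (Submodule.topEquiv) (fun g x => rfl)
  have h2 : Dval τ₂ ρ F (LinearMap.range ι) hA = F.f (Λ₁ →ₗ[ℤ] X) (dualRep τ₁ ρ) :=
    F.f_iso _ _ _ _ e₁ he₁
  have h3 : F.f (Λ₂ →ₗ[ℤ] X) (dualRep τ₂ ρ) = Dval τ₂ ρ F ⊤ (top_stab τ₂) :=
    F.f_iso _ _ _ _ e₂ he₂
  rw [← h2, h1, h3]

end Fermat.Agent.ES.T56.BNChain28
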