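/-
Programme T (S56, Taylor–Wiles primes), chapter GW (Greenberg–Wiles inequality), helper21 (chapter
lead): the CONTRACT file of the chapter.  See `T56_GW.md` (helper21), `T56_GW_B.md` (helper28),
`T56_SPINE27.md` §2.3, §4 (D1–D6).

Everything is over `Rep (ZMod p) GQ` (S55 / Programme F are `𝔽_p`-only; the bridge from
`k = ResidueField 𝒪` is the single file `ResScal` of GW-A), `p` odd, `Sg : Finset Nat.Primes` the
allowed ramification set, `N = dualT p M = M.dualTwist (cycloChar p) = M^∨(1)`.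

OBJECTS (all from the Prelude): global `H¹ = continuousH1S Sg M ≤ H1 M`, global `H² = continuousH2S Sg M`,
local `H¹ = H1 (Rep.res (primeLocalToGlobal q) M)` (ABSTRACT cohomology) with continuous part
`contLoc q M = continuousH1 (primeLocalToGlobal q) _`, local `H² = continuousH2 (primeLocalToGlobal q) _`,
Selmer groups `continuousH1S Sg M ⊓ selmer (extArithLoc Sg) M L`.

EXPORTS OF THE CHAPTER (consumed by TOP / TW):
* `LocPairing p M`      : opaque local pairings for EVERY prime `q` (independent of `Sg`) with the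
                           reciprocity law `recip` (up to `Sg`-dependent unit weights, v3) and
                           right-nondegeneracy `rnd`;
* `dualSel P Sg L`      : the dual Selmer group (local conditions = exact annihilators: a DEFINITION);
* `GWLe M P`            : the Greenberg–Wiles INEQUALITY  (`gw_le`);
* `DualSelMono M P`     : enlarging `Sg` by primes where `L = ⊤` only shrinks the dual Selmer group and
                           forces the classes to be locally trivial there (`dualSel_mono`).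

INTERNAL CLAIMS (route ALT-1 = C1–C4):
* C1 = `SelLinAlg21.finrank_sel_add_le` (proved, pure linear algebra) + `LocPairing.recip`;
* `ShaCount`            : C2, `dim Ш¹(M) = dim Ш²(N)` (= S55 on main + biduality);
* `HardP2`              : C3, `dim Ш²(N) + Σ_q h⁰(G_q, M) ≤ h²(G_S, N) + h⁰(G_S, M)`;
* `GlobalChi`           : C4, Tate's global Euler characteristic (`GlobalChiGe` = the half that is used);
* the chain for C4 (six frozen statements, helper25 (O5)): `NineTermCount`, `LocH2RightExact`,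
  `EulerAdditive`, `KZeroLemma`, `BaseCaseGE` (+ `BaseLocChi`), `GlobChi`.

Every declaration is kernel-checked; no `sorry`.
-/
import Mathlib
import Fermat.Prelude.Def_GroupCohomology_ContinuousUnramified

set_option autoImplicit false

open CategoryTheory Module groupCohomology ExtCitation

namespace Fermat.Agent.ES.T56.GWIface21

/-- `G_ℚ`. -/
abbrev GQ : Type := AlgebraicClosure ℚ ≃ₐ[ℚ] AlgebraicClosure ℚ

variable (p : ℕ) [Fact p.Prime]

/-- `N = M^∨(1)`. -/
noncomputable abbrev dualT (M : Rep (ZMod p) GQ) : Rep (ZMod p) GQ := M.dualTwist (cycloChar p)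

/-- S55's hypothesis `hsm`: every vector is fixed by an open subgroup. -/
def IsSmooth (M : Rep (ZMod p) GQ) : Prop :=
  ∀ m : M, ∃ F : IntermediateField ℚ (AlgebraicClosure ℚ), FiniteDimensional ℚ F ∧
    ∀ s ∈ F.fixingSubgroup, M.ρ s m = m

/-- S55's hypothesis `hMur`: unramified outside `Sg`. -/
def IsUnramOutside (Sg : Finset Nat.Primes) (M : Rep (ZMod p) GQ) : Prop :=
  ∀ q : Nat.Primes, q ∉ Sg → ∀ A : ValuationSubring (AlgebraicClosure ℚ),
    A.LiesOverPrime (q : ℕ) → ∀ g ∈ A.inertiaSubgroupIn ℚ, M.ρ g = 1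

/-! ### Local objects -/

/-- The abstract local `H¹` at `q`. -/
abbrev H1loc (q : Nat.Primes) (M : Rep (ZMod p) GQ) : Type :=
  H1 (Rep.res (primeLocalToGlobal q) M)

/-- Its continuous part. -/
noncomputable abbrev contLoc (q : Nat.Primes) (M : Rep (ZMod p) GQ) :
    Submodule (ZMod p) (H1loc p q M) :=
  continuousH1 (primeLocalToGlobal q) (Rep.res (primeLocalToGlobal q) M)

/-- Localisation at `q` (definitionally `locRes (extArithLoc Sg) M (Sum.inr ⟨q, _⟩)`). -/
noncomputable abbrev resLoc (q : Nat.Primes) (M : Rep (ZMod p) GQ) :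
    H1 M →ₗ[ZMod p] H1loc p q M :=
  (map (primeLocalToGlobal q) (𝟙 (Rep.res (primeLocalToGlobal q) M)) 1).hom

/-! ### The numbers -/

/-- `h⁰` of a representation of any group. -/
noncomputable def h0 {G : Type} [Group G] (X : Rep (ZMod p) G) : ℕ :=
  finrank (ZMod p) ↥(X.ρ.invariants)

/-- `h⁰(G_q, X)`. -/
noncomputable def h0loc (q : Nat.Primes) (X : Rep (ZMod p) GQ) : ℕ :=
  h0 p (Rep.res (primeLocalToGlobal q) X)

/-- `h⁰(⟨c⟩, X)`, `c` the Prelude's complex conjugation. -/
noncomputable def h0c (X : Rep (ZMod p) GQ) : ℕ :=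
  finrank (ZMod p) ↥(LinearMap.ker (X.ρ complexConjugation - 1))

/-- `h¹(G_S, X)`. -/
noncomputable def h1S (Sg : Finset Nat.Primes) (X : Rep (ZMod p) GQ) : ℕ :=
  finrank (ZMod p) ↥(continuousH1S Sg X)

/-- `h²(G_S, X)`. -/
noncomputable def h2S (Sg : Finset Nat.Primes) (X : Rep (ZMod p) GQ) : ℕ :=
  finrank (ZMod p) (continuousH2S Sg X)

/-- `h¹(G_q, X)` (continuous). -/
noncomputable def h1loc (q : Nat.Primes) (X : Rep (ZMod p) GQ) : ℕ :=
  finrank (ZMod p) ↥(contLoc p q X)

/-- `h²(G_q, X)` (continuous). -/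
noncomputable def h2loc (q : Nat.Primes) (X : Rep (ZMod p) GQ) : ℕ :=
  finrank (ZMod p) (continuousH2 (primeLocalToGlobal q) (Rep.res (primeLocalToGlobal q) X))

/-! ### The local pairings (opaque; D3: PRO's Ext-pairing transported) -/

/-- Local pairings `H¹(G_q, M) × H¹(G_q, N) → 𝔽_p` for every prime `q`, with the reciprocity law on
continuous global classes and trivial right kernel on continuous local classes. -/
structure LocPairing (M : Rep (ZMod p) GQ) where
  /-- the local pairing at `q` -/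
  pair : ∀ q : Nat.Primes, H1loc p q M →ₗ[ZMod p] H1loc p q (dualT p M) →ₗ[ZMod p] ZMod p
  /-- reciprocity, up to `Sg`-dependent UNIT weights (main's `(L1)`: the global invariant restricted
  to the `q`-component is `λ_q · inv_q` with `λ_q` a unit; the normalised product formula is not on
  main and is not needed: annihilators do not see unit weights): a weighted sum of the local
  pairings of two global classes vanishes -/
  recip : ∀ Sg : Finset Nat.Primes, pPrime p ∈ Sg → IsUnramOutside p Sg M →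
    ∃ c : Nat.Primes → (ZMod p)ˣ,
      ∀ x ∈ continuousH1S Sg M, ∀ y ∈ continuousH1S Sg (dualT p M),
        ∑ q ∈ Sg, (c q : ZMod p) * pair q (resLoc p q M x) (resLoc p q (dualT p M) y) = 0
  /-- trivial right kernel -/
  rnd : ∀ (q : Nat.Primes), ∀ y ∈ contLoc p q (dualT p M),
    (∀ x ∈ contLoc p q M, pair q x y = 0) → y = 0

variable {p}

/-- Local conditions for `M` at the places of `extArithIndex Sg = Unit ⊕ Sg`. -/
abbrev LocCond (Sg : Finset Nat.Primes) (M : Rep (ZMod p) GQ) : Type :=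
  ∀ v : extArithIndex Sg, Submodule (ZMod p) (H1 (Rep.res (extArithLoc Sg v) M))

/-- The continuous part of the local condition at a finite place. -/
noncomputable def LocCond.fin {Sg : Finset Nat.Primes} {M : Rep (ZMod p) GQ} (L : LocCond Sg M)
    (q : ↥Sg) : Submodule (ZMod p) (H1loc p q.1 M) :=
  (show Submodule (ZMod p) (H1loc p q.1 M) from L (Sum.inr q)) ⊓ contLoc p q.1 M

/-- The dual local conditions: exact annihilators at the finite places, no condition at `∞`. -/
noncomputable def dualCond {M : Rep (ZMod p) GQ} (P : LocPairing p M) (Sg : Finset Nat.Primes)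
    (L : LocCond Sg M) : LocCond Sg (dualT p M)
  | Sum.inl _ => ⊤
  | Sum.inr q => orthogonal (P.pair q.1) (L.fin q)

/-- The Selmer group `H¹_L(G_S, M)`. -/
noncomputable def sel (Sg : Finset Nat.Primes) (M : Rep (ZMod p) GQ) (L : LocCond Sg M) :
    Submodule (ZMod p) (H1 M) :=
  continuousH1S Sg M ⊓ selmer (extArithLoc Sg) M L

/-- The dual Selmer group `H¹_{L^⊥}(G_S, N)`. -/
noncomputable def dualSel {M : Rep (ZMod p) GQ} (P : LocPairing p M) (Sg : Finset Nat.Primes)
    (L : LocCond Sg M) : Submodule (ZMod p) (H1 (dualT p M)) :=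
  sel Sg (dualT p M) (dualCond P Sg L)

/-! ### The exports -/

/-- **(GW≤)**, the Greenberg–Wiles inequality:
`h¹_L(M) + Σ_q h⁰(G_q, M) + h⁰(⟨c⟩, M) ≤ h¹_{L^⊥}(N) + h⁰(G_ℚ, M) + Σ_q dim L_q`. -/
def GWLe (M : Rep (ZMod p) GQ) (P : LocPairing p M) : Prop :=
  ∀ (Sg : Finset Nat.Primes), pPrime p ∈ Sg → IsUnramOutside p Sg M → ∀ L : LocCond Sg M,
    (∀ q : ↥Sg, FiniteDimensional (ZMod p) ↥(L.fin q)) →
    FiniteDimensional (ZMod p) ↥(sel Sg M L) ∧ FiniteDimensional (ZMod p) ↥(dualSel P Sg L) ∧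
    finrank (ZMod p) ↥(sel Sg M L) + ∑ q : ↥Sg, h0loc p q.1 M + h0c p M ≤
      finrank (ZMod p) ↥(dualSel P Sg L) + h0 p M + ∑ q : ↥Sg, finrank (ZMod p) ↥(L.fin q)

/-- `L'` extends `L` from `Sg` to `Sg' ⊇ Sg` by the full local `H¹` at the new primes. -/
def LocCond.ExtendsTop {Sg Sg' : Finset Nat.Primes} {M : Rep (ZMod p) GQ} (L : LocCond Sg M)
    (L' : LocCond Sg' M) (h : Sg ⊆ Sg') : Prop :=
  (∀ q : ↥Sg, L'.fin ⟨q.1, h q.2⟩ = L.fin q) ∧ ∀ q : ↥Sg', q.1 ∉ Sg → L'.fin q = contLoc p q.1 M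

/-- **`dualSel_mono`**: the dual Selmer group for `(Sg', L')` lies in the one for `(Sg, L)` and its
classes are locally trivial at the new primes. -/
def DualSelMono (M : Rep (ZMod p) GQ) (P : LocPairing p M) : Prop :=
  ∀ (Sg Sg' : Finset Nat.Primes) (h : Sg ⊆ Sg'), pPrime p ∈ Sg → IsUnramOutside p Sg M →
    ∀ (L : LocCond Sg M) (L' : LocCond Sg' M), L.ExtendsTop L' h →
      ∀ y ∈ dualSel P Sg' L', y ∈ dualSel P Sg L ∧
        ∀ q : ↥Sg', q.1 ∉ Sg → resLoc p q.1 (dualT p M) y = 0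

/-! ### The internal claims -/

/-- **C2** (S55 + biduality): `dim Ш¹_S(M) = dim Ш²_S(N)`. -/
def ShaCount (Sg : Finset Nat.Primes) (M : Rep (ZMod p) GQ) : Prop :=
  FiniteDimensional (ZMod p) ↥(sha₁ Sg M) ∧ FiniteDimensional (ZMod p) ↥(sha₂ Sg (dualT p M)) ∧
    finrank (ZMod p) ↥(sha₁ Sg M) = finrank (ZMod p) ↥(sha₂ Sg (dualT p M))

/-- **C3** (hard direction at `P²`, stated for `X` and its dual `X* = dualT p X`):
`dim Ш²(X) + Σ_q h⁰(G_q, X*) ≤ h²(G_S, X) + h⁰(G_ℚ, X*)`. -/
def HardP2 (Sg : Finset Nat.Primes) (X : Rep (ZMod p) GQ) : Prop :=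
  FiniteDimensional (ZMod p) (continuousH2S Sg X) ∧
    finrank (ZMod p) ↥(sha₂ Sg X) + ∑ q : ↥Sg, h0loc p q.1 (dualT p X) ≤
      h2S p Sg X + h0 p (dualT p X)

/-- **C4**, Tate's global Euler characteristic:
`h¹(G_S, X) + h⁰(⟨c⟩, X) = h⁰(G_ℚ, X) + h²(G_S, X) + dim X`. -/
def GlobalChi (Sg : Finset Nat.Primes) (X : Rep (ZMod p) GQ) : Prop :=
  FiniteDimensional (ZMod p) ↥(continuousH1S Sg X) ∧ FiniteDimensional (ZMod p) (continuousH2S Sg X) ∧
    h1S p Sg X + h0c p X = h0 p X + h2S p Sg X + finrank (ZMod p) X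

/-- The half of C4 that (GW≤) uses. -/
def GlobalChiGe (Sg : Finset Nat.Primes) (X : Rep (ZMod p) GQ) : Prop :=
  FiniteDimensional (ZMod p) ↥(continuousH1S Sg X) ∧ FiniteDimensional (ZMod p) (continuousH2S Sg X) ∧
    h0 p X + h2S p Sg X + finrank (ZMod p) X ≤ h1S p Sg X + h0c p X

theorem GlobalChi.ge {Sg : Finset Nat.Primes} {X : Rep (ZMod p) GQ} (h : GlobalChi Sg X) :
    GlobalChiGe Sg X :=
  ⟨h.1, h.2.1, h.2.2.ge⟩

/-! ### The chain for C4 (D5, D6, (O3)–(O5)): six frozen interface statements -/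

/-- A short exact sequence `0 → X' → X → X'' → 0` of representations (plain equivariant linear maps). -/
structure ShortExact {G : Type} [Group G] (X' X X'' : Rep.{0} (ZMod p) G)
    (φ : X' →ₗ[ZMod p] X) (ψ : X →ₗ[ZMod p] X'') : Prop where
  φ_comm : ∀ g x, φ (X'.ρ g x) = X.ρ g (φ x)
  ψ_comm : ∀ g x, ψ (X.ρ g x) = X''.ρ g (ψ x)
  inj : Function.Injective φ
  surj : Function.Surjective ψ
  exact : LinearMap.range φ = LinearMap.ker ψ

/-- **(1) The 9-term count** (D5): `e(X) + e(X*) = Σ_{q ∈ S} e_q(X)` with `e = h⁰ − h¹ + h²`, in `ℕ`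
(to be proved for every finite-dimensional smooth `X` unramified outside `Sg ∋ p`, `p` odd). -/
def NineTermCount (Sg : Finset Nat.Primes) (X : Rep (ZMod p) GQ) : Prop :=
  h0 p X + h2S p Sg X + h0 p (dualT p X) + h2S p Sg (dualT p X) + ∑ q : ↥Sg, h1loc p q.1 X =
    h1S p Sg X + h1S p Sg (dualT p X) + ∑ q : ↥Sg, (h0loc p q.1 X + h2loc p q.1 X)

/-- A representation of the local Galois group at `q` is smooth. -/
def IsSmoothLoc (q : Nat.Primes) (Y : Rep.{0} (ZMod p) (primeLocalGaloisGroup q)) : Prop :=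
  ∀ y : Y, ∃ F : IntermediateField ℚ (AlgebraicClosure ℚ), FiniteDimensional ℚ F ∧
    ∀ s : primeLocalGaloisGroup q, primeLocalToGlobal q s ∈ F.fixingSubgroup → Y.ρ s y = y

/-- **(2) Local `H²` is right exact** (from the natural local `(2,0)` duality; NOT from degree 3). -/
def LocH2RightExact (q : Nat.Primes) : Prop :=
  ∀ (Y Y'' : Rep.{0} (ZMod p) (primeLocalGaloisGroup q)) (ψ : Y →ₗ[ZMod p] Y'')
    (hψ : ∀ (g : primeLocalGaloisGroup q) (y : Y), ψ (Y.ρ ((MonoidHom.id _) g) y) = Y''.ρ g (ψ y)),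
    FiniteDimensional (ZMod p) Y → IsSmoothLoc q Y → Function.Surjective ψ →
    Function.Surjective (continuousH2Map (rH := primeLocalToGlobal q) (rG := primeLocalToGlobal q)
      (MonoidHom.id _) (fun _ => rfl) ψ hψ)

/-- **(3) Additivity of the global Euler characteristic** on short exact sequences (no `H³`). -/
def EulerAdditive (Sg : Finset Nat.Primes) : Prop :=
  ∀ (X' X X'' : Rep.{0} (ZMod p) GQ) (φ : X' →ₗ[ZMod p] X) (ψ : X →ₗ[ZMod p] X''),
    FiniteDimensional (ZMod p) X → IsSmooth p X → IsUnramOutside p Sg X → ShortExact X' X X'' φ ψ →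
    h0 p X + h2S p Sg X + h1S p Sg X' + h1S p Sg X'' =
      h1S p Sg X + h0 p X' + h2S p Sg X' + h0 p X'' + h2S p Sg X''

/-- **(4) The `K₀`-lemma** (helper28's shape, no Grothendieck group, no Brauer characters): an
isomorphism-invariant additive function on finite-dimensional `𝔽_p[G]`-modules (`G` finite) which
vanishes on `Coind_C^G N`, `C` cyclic with `p`-part acting trivially on `N`, vanishes identically. -/
def KZeroLemma (p : ℕ) [Fact p.Prime] : Prop :=
  ∀ (G : Type) [Group G] [Finite G] (f : Rep.{0} (ZMod p) G → ℤ),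
    (∀ (X Y : Rep.{0} (ZMod p) G) (e : X ≃ₗ[ZMod p] Y),
      (∀ g x, e (X.ρ g x) = Y.ρ g (e x)) → f X = f Y) →
    (∀ (X' X X'' : Rep.{0} (ZMod p) G) (φ : X' →ₗ[ZMod p] X) (ψ : X →ₗ[ZMod p] X''),
      FiniteDimensional (ZMod p) X → ShortExact X' X X'' φ ψ → f X = f X' + f X'') →
    (∀ (C : Subgroup G), IsCyclic ↥C → ∀ (N : Rep.{0} (ZMod p) ↥C), FiniteDimensional (ZMod p) N →
      (∀ c : ↥C, (∃ n : ℕ, orderOf c = p ^ n) → N.ρ c = 1) → f (Rep.coind C.subtype N) = 0) →
    ∀ (X : Rep.{0} (ZMod p) G), FiniteDimensional (ZMod p) X → f X = 0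

/-- The base class `𝔅`, field-theoretic form: `K ≤ L` finite over `ℚ`, `L` unramified outside `Sg`,
`ζ_p ∈ L`, `G_L` normal in `G_K` with CYCLIC quotient of order prime to `p`; `Y` a finite-dimensional
representation of `G_K = K.fixingSubgroup` trivial on `G_L`.  (`Coind_C^G N` with `C_p` trivial on `N`
is of this form with `K = F^C`, `L = F^{C_p} ⊇ K(μ_p)`.) -/
structure BaseDatum (Sg : Finset Nat.Primes) where
  K : IntermediateField ℚ (AlgebraicClosure ℚ)
  L : IntermediateField ℚ (AlgebraicClosure ℚ)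
  le : K ≤ L
  unram : L.IsUnramifiedOutside Sg
  zeta : ∃ ζ ∈ L, IsPrimitiveRoot ζ p
  normal : (L.fixingSubgroup.subgroupOf K.fixingSubgroup).Normal
  cyclic : ∃ σ ∈ K.fixingSubgroup, ∀ τ ∈ K.fixingSubgroup, ∃ n : ℕ, σ ^ n * τ⁻¹ ∈ L.fixingSubgroup
  prime_to_p : ¬ p ∣ (L.fixingSubgroup.subgroupOf K.fixingSubgroup).index
  Y : Rep.{0} (ZMod p) ↥K.fixingSubgroup
  fd : FiniteDimensional (ZMod p) Y
  triv : ∀ s : ↥K.fixingSubgroup, (s : GQ) ∈ L.fixingSubgroup → Y.ρ s = 1

/-- The global representation `Coind_{G_K}^{G_ℚ} Y` of a base datum. -/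
noncomputable def BaseDatum.rep {Sg : Finset Nat.Primes} (D : BaseDatum (p := p) Sg) :
    Rep.{0} (ZMod p) GQ :=
  Rep.coind D.K.fixingSubgroup.subtype D.Y

/-- **(5) The base case, ONE inequality** ((O3): `f ≥ 0` on `𝔅`; construct Kummer classes). -/
def BaseCaseGE (Sg : Finset Nat.Primes) : Prop :=
  ∀ D : BaseDatum (p := p) Sg, GlobalChiGe Sg D.rep

/-- The local Euler characteristics sum to `−dim X`: `Σ_q e_q(X) + dim X = 0`, in `ℕ`. -/
def LocChiSum (Sg : Finset Nat.Primes) (X : Rep (ZMod p) GQ) : Prop :=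
  ∑ q : ↥Sg, (h0loc p q.1 X + h2loc p q.1 X) + finrank (ZMod p) X = ∑ q : ↥Sg, h1loc p q.1 X

/-- The local input of the sign trick (O3): `LocChiSum` on the base class. -/
def BaseLocChi (Sg : Finset Nat.Primes) : Prop :=
  ∀ D : BaseDatum (p := p) Sg, LocChiSum Sg D.rep

/-- **(6) `GlobChi`**: Tate's formula for every finite-dimensional smooth `X` unramified outside `Sg`.
Chain: `NineTermCount` (all `X`) + `LocH2RightExact` + super-additivity ⇒ `EulerAdditive`;
`BaseCaseGE` + `BaseLocChi` + `NineTermCount` + (`𝔅` closed under `X ↦ X*`) ⇒ `GlobalChi` on `𝔅`;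
`KZeroLemma` + `EulerAdditive` + Shapiro/inflation ⇒ `GlobChi`. -/
def GlobChi (p : ℕ) [Fact p.Prime] (Sg : Finset Nat.Primes) : Prop :=
  ∀ (X : Rep.{0} (ZMod p) GQ), FiniteDimensional (ZMod p) X → IsSmooth p X → IsUnramOutside p Sg X →
    GlobalChi Sg X

end Fermat.Agent.ES.T56.GWIface21
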