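/-
Programme T (S56), chapter GW, helper21 (chapter lead): ADDITIONAL interface statements of the
chapter (GW-B / GW-C), on top of the contract `GWIface21` (which stays byte-stable).
Requested by helper25 (#20023): `FinAll`, `MiddleCount`, `P2Eq`, `LocDual20`; plus the statements of
the new duality bricks of GW-B in numerical form.

`NineTermCount Sg X` (GWIface21) follows by `omega` from
`ShaCount Sg X`, `ShaCount Sg X*` (C2, proved: `ShaCount21.shaCount`), `MiddleCount Sg X`,
`P2Eq Sg X`, `P2Eq Sg X*`, `LocDual20 q X`, `LocDual20 q X*` (and `X** ≅ X`).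
-/
import Mathlib
import Fermat.Agent.ES.T56.GWIface21

set_option autoImplicit false

open CategoryTheory Module groupCohomology ExtCitation

namespace Fermat.Agent.ES.T56.GWProps21

open Fermat.Agent.ES.T56.GWIface21

variable {p : ℕ} [Fact p.Prime]

/-- All the spaces whose dimensions enter the counts are finite-dimensional. -/
structure FinAll (Sg : Finset Nat.Primes) (X : Rep (ZMod p) GQ) : Prop where
  h1S : FiniteDimensional (ZMod p) ↥(continuousH1S Sg X)
  h2S : FiniteDimensional (ZMod p) (continuousH2S Sg X)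
  h1loc : ∀ q : ↥Sg, FiniteDimensional (ZMod p) ↥(contLoc p q.1 X)
  h2loc : ∀ q : ↥Sg, FiniteDimensional (ZMod p)
    (continuousH2 (primeLocalToGlobal q.1) (Rep.res (primeLocalToGlobal q.1) X))

/-- **Middle count** (`d₁(X) = 0`: exactness at `P¹`, as a count): with `w(X) = h¹(G_S,X) − ш¹(X)` the
rank of the total localisation, `w(X) + w(X*) = Σ_q h¹(G_q, X)`; written in `ℕ`. -/
def MiddleCount (Sg : Finset Nat.Primes) (X : Rep (ZMod p) GQ) : Prop :=
  h1S p Sg X + h1S p Sg (dualT p X) =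
    finrank (ZMod p) ↥(sha₁ Sg X) + finrank (ZMod p) ↥(sha₁ Sg (dualT p X)) +
      ∑ q : ↥Sg, h1loc p q.1 X

/-- **`P²` count** (`d₂(X) = 0`: `0 → Ш²(X) → H²(G_S,X) → ⊕_q H²(G_q,X) → H⁰(G_ℚ,X*)^∨ → 0` exact, as a
count).  `HardP2 Sg X` is its `≤` half combined with `LocDual20`. -/
def P2Eq (Sg : Finset Nat.Primes) (X : Rep (ZMod p) GQ) : Prop :=
  finrank (ZMod p) ↥(sha₂ Sg X) + ∑ q : ↥Sg, h2loc p q.1 X = h2S p Sg X + h0 p (dualT p X)

/-- **Local `(2,0)` duality, numerically**: `h²(G_q, X*) = h⁰(G_q, X)`. -/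
def LocDual20 (q : Nat.Primes) (X : Rep (ZMod p) GQ) : Prop :=
  h2loc p q (dualT p X) = h0loc p q X

/-- `HardP2` from `P2Eq` and `LocDual20` (for `X*`, using `h²(G_q, X) = h²(G_q, (X*)*)`-free form):
stated for the pair `(X, X*)` with the local duality applied to `X*`:
`h²(G_q, X) ≥ h⁰(G_q, X*)` is what is used. -/
def LocDual20Ge (q : Nat.Primes) (X : Rep (ZMod p) GQ) : Prop :=
  h0loc p q (dualT p X) ≤ h2loc p q X

theorem hardP2_of (Sg : Finset Nat.Primes) (X : Rep (ZMod p) GQ)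
    (hfin : FiniteDimensional (ZMod p) (continuousH2S Sg X)) (h2 : P2Eq Sg X)
    (hloc : ∀ q : ↥Sg, LocDual20Ge q.1 X) : HardP2 Sg X := by
  refine ⟨hfin, ?_⟩
  have hsum : ∑ q : ↥Sg, h0loc p q.1 (dualT p X) ≤ ∑ q : ↥Sg, h2loc p q.1 X :=
    Finset.sum_le_sum fun q _ => hloc q
  unfold P2Eq at h2
  omega

end Fermat.Agent.ES.T56.GWProps21
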