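/-
Programme T (S56), chapter GW-A, helper21: functoriality of the Prelude's `continuousH1S` and `sha₁`
in morphisms / isomorphisms of representations (needed for C2: S55 is about `sha₁ S (M')'` and we
want `sha₁ S M`).
-/
import Mathlib
import Fermat.Prelude.Def_GroupCohomology_ContinuousUnramified

set_option autoImplicit false

open CategoryTheory groupCohomology ExtCitation

namespace Fermat.Agent.ES.T56.ShaIso21

local notation "GQ" => (AlgebraicClosure ℚ ≃ₐ[ℚ] AlgebraicClosure ℚ)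

variable {K : Type} [Field K] {A B : Rep K GQ}

/-- The map on `H¹` induced by a morphism of representations. -/
noncomputable abbrev h1Map (φ : A ⟶ B) : H1 A →ₗ[K] H1 B := (map (MonoidHom.id GQ) φ 1).hom

theorem h1Map_H1π (φ : A ⟶ B) (c : cocycles₁ A) :
    h1Map φ ((H1π A).hom c) = (H1π B).hom ((mapCocycles₁ (MonoidHom.id GQ) φ).hom c) :=
  H1π_comp_map_apply (MonoidHom.id GQ) φ c

theorem coe_mapCocycles₁_id (φ : A ⟶ B) (c : cocycles₁ A) (g : GQ) :
    ((mapCocycles₁ (MonoidHom.id GQ) φ).hom c : GQ → B) g = φ.hom (c g) := rfl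

theorem h1Map_mem_continuousH1S (S : Finset Nat.Primes) (φ : A ⟶ B) {x : H1 A}
    (hx : x ∈ continuousH1S S A) : h1Map φ x ∈ continuousH1S S B := by
  obtain ⟨c, hc, rfl⟩ := (mem_continuousH1S_iff S A x).1 hx
  rw [mem_continuousH1S_iff]
  refine ⟨(mapCocycles₁ (MonoidHom.id GQ) φ).hom c, ?_, (h1Map_H1π φ c).symm⟩
  obtain ⟨F, hF, h⟩ := hc
  exact ⟨F, hF, fun g s hs => by
    rw [coe_mapCocycles₁_id, coe_mapCocycles₁_id, h g s hs]⟩

/-! ### Compatibility with localisation -/

section Loc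

variable {H : Type} [Group H] (r : H →* GQ)

/-- Restriction to `H` along `r`. -/
noncomputable abbrev resMap (M : Rep K GQ) : H1 M →ₗ[K] H1 (Rep.res r M) :=
  (map r (𝟙 (Rep.res r M)) 1).hom

/-- The map on local `H¹` induced by a morphism of representations. -/
noncomputable abbrev h1MapLoc (φ : A ⟶ B) : H1 (Rep.res r A) →ₗ[K] H1 (Rep.res r B) :=
  (map (MonoidHom.id H) ((Rep.resFunctor r).map φ) 1).hom

theorem resMap_h1Map (φ : A ⟶ B) (x : H1 A) :
    resMap r B (h1Map φ x) = h1MapLoc r φ (resMap r A x) := by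
  induction x using H1_induction_on with
  | h c =>
    show (map r (𝟙 (Rep.res r B)) 1).hom ((map (MonoidHom.id GQ) φ 1).hom ((H1π A).hom c)) =
      (map (MonoidHom.id H) ((Rep.resFunctor r).map φ) 1).hom
        ((map r (𝟙 (Rep.res r A)) 1).hom ((H1π A).hom c))
    rw [H1π_comp_map_apply, H1π_comp_map_apply, H1π_comp_map_apply, H1π_comp_map_apply]
    rfl

end Loc

/-! ### `sha₁` is functorial -/

theorem h1Map_mem_sha₁ (S : Finset Nat.Primes) (φ : A ⟶ B) {x : H1 A} (hx : x ∈ sha₁ S A) :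
    h1Map φ x ∈ sha₁ S B := by
  rw [sha₁, Submodule.mem_inf, LinearMap.mem_ker] at hx ⊢
  refine ⟨h1Map_mem_continuousH1S S φ hx.1, ?_⟩
  funext v
  have h := congrFun hx.2 v
  rw [locTotal_apply] at h ⊢
  show resMap (extArithLoc S v) B (h1Map φ x) = 0
  rw [resMap_h1Map]
  have h' : resMap (extArithLoc S v) A x = 0 := h
  rw [h', map_zero]

theorem h1Map_id (x : H1 A) : h1Map (𝟙 A) x = x := by
  show (map (MonoidHom.id GQ) (𝟙 A) 1).hom x = x
  rw [map_id]
  rfl

theorem h1Map_comp {C : Rep K GQ} (φ : A ⟶ B) (ψ : B ⟶ C) (x : H1 A) :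
    h1Map (φ ≫ ψ) x = h1Map ψ (h1Map φ x) := by
  show (map (MonoidHom.id GQ) (φ ≫ ψ) 1).hom x = _
  rw [map_id_comp]
  rfl

/-- The equivalence of `H¹` induced by an isomorphism of representations. -/
noncomputable def h1Equiv (e : A ≅ B) : H1 A ≃ₗ[K] H1 B :=
  LinearEquiv.ofLinearMap (h1Map e.hom) (h1Map e.inv)
    (LinearMap.ext fun x => by
      rw [LinearMap.comp_apply, ← h1Map_comp, e.inv_hom_id, h1Map_id, LinearMap.id_apply])
    (LinearMap.ext fun x => by
      rw [LinearMap.comp_apply, ← h1Map_comp, e.hom_inv_id, h1Map_id, LinearMap.id_apply])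

@[simp] theorem h1Equiv_apply (e : A ≅ B) (x : H1 A) : h1Equiv e x = h1Map e.hom x := rfl

@[simp] theorem h1Equiv_symm_apply (e : A ≅ B) (x : H1 B) : (h1Equiv e).symm x = h1Map e.inv x := rfl

/-- `sha₁` of isomorphic representations. -/
noncomputable def sha₁Equiv (S : Finset Nat.Primes) (e : A ≅ B) : ↥(sha₁ S A) ≃ₗ[K] ↥(sha₁ S B) :=
  LinearEquiv.ofLinearMap
    ((h1Map e.hom).restrict fun _ hx => h1Map_mem_sha₁ S e.hom hx)
    ((h1Map e.inv).restrict fun _ hx => h1Map_mem_sha₁ S e.inv hx)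
    (LinearMap.ext fun x => Subtype.ext ((h1Equiv e).apply_symm_apply x.1))
    (LinearMap.ext fun x => Subtype.ext ((h1Equiv e).symm_apply_apply x.1))

/-- `continuousH1S` of isomorphic representations. -/
noncomputable def continuousH1SEquiv (S : Finset Nat.Primes) (e : A ≅ B) :
    ↥(continuousH1S S A) ≃ₗ[K] ↥(continuousH1S S B) :=
  LinearEquiv.ofLinearMap
    ((h1Map e.hom).restrict fun _ hx => h1Map_mem_continuousH1S S e.hom hx)
    ((h1Map e.inv).restrict fun _ hx => h1Map_mem_continuousH1S S e.inv hx)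
    (LinearMap.ext fun x => Subtype.ext ((h1Equiv e).apply_symm_apply x.1))
    (LinearMap.ext fun x => Subtype.ext ((h1Equiv e).symm_apply_apply x.1))

end Fermat.Agent.ES.T56.ShaIso21
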