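/-
Programme T (S56), chapter GW-A, helper21: claim **C2** of the Greenberg–Wiles chapter,
`dim Ш¹_S(M) = dim Ш²_S(M^∨(1))`, from S55 (main) applied to `N = M^∨(1)`, the biduality
`M ≅ (M')'` (`DualTwist7.ddualIso`) and the functoriality of `sha₁` (`ShaIso21`).
-/
import Mathlib
import Fermat.Agent.S55
import Fermat.Agent.ES.T56.GWIface21
import Fermat.Agent.ES.T56.ShaIso21
import Fermat.Agent.PT.GLOB.H1FiniteCoh15
import Fermat.Agent.PT.PRO.FinH1S55_9
import Fermat.Agent.PT.BR.DualTwist7
import Fermat.Agent.PT.BR.Reduce29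

set_option autoImplicit false

open CategoryTheory Module groupCohomology ExtCitation

namespace Fermat.Agent.ES.T56.ShaCount21

open Fermat.Agent.ES.T56.GWIface21 Fermat.Agent.ES.T56.ShaIso21
open Fermat.Agent.PT.BR.DualTwist7
open Fermat.Agent.S14.Fields (zeta zeta_spec)

variable {p : ℕ} [Fact p.Prime]

/-- `H¹(G_S, M)` is finite-dimensional. -/
theorem finiteDimensional_continuousH1S (Sg : Finset Nat.Primes) (hpS : pPrime p ∈ Sg)
    (M : Rep (ZMod p) GQ) [FiniteDimensional (ZMod p) M] (hsm : IsSmooth p M)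
    (hur : IsUnramOutside p Sg M) : FiniteDimensional (ZMod p) ↥(continuousH1S Sg M) := by
  obtain ⟨F₀, hF₀, hζ, hM, -⟩ := Fermat.Agent.PT.PRO.FinH1S55_9.exists_F0 Sg hpS M hsm hur
  have := hF₀.1
  exact Fermat.Agent.PT.GLOB.H1FiniteCoh15.finiteDimensional_continuousH1S Sg M F₀ hF₀
    (zeta_spec p) hζ (fun s hs a => by rw [hM s hs]; rfl)

/-- **C2.** -/
theorem shaCount (hp2 : p ≠ 2) (Sg : Finset Nat.Primes) (hpS : pPrime p ∈ Sg)
    (M : Rep (ZMod p) GQ) [FiniteDimensional (ZMod p) M] (hsm : IsSmooth p M)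
    (hur : IsUnramOutside p Sg M) : ShaCount Sg M := by
  have hsmN := smooth_dualTwist M hsm
  have hurN := unram_dualTwist M hpS hur
  obtain ⟨B, hl, hr⟩ := Fermat.Agent.S55.result hp2 Sg hpS (dualT p M) hsmN hurN
  let e := sha₁Equiv Sg (ddualIso (cycloChar p) M)
  have := finiteDimensional_continuousH1S Sg hpS M hsm hur
  have h1 : FiniteDimensional (ZMod p) ↥(sha₁ Sg M) :=
    Submodule.finiteDimensional_of_le (inf_le_left : sha₁ Sg M ≤ continuousH1S Sg M)
  have h1' : FiniteDimensional (ZMod p) ↥(sha₁ Sg ((dualT p M).dualTwist (cycloChar p))) :=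
    LinearEquiv.finiteDimensional e
  have h2 : FiniteDimensional (ZMod p) ↥(sha₂ Sg (dualT p M)) := by
    have hinj : Function.Injective B.flip := by
      rw [← LinearMap.ker_eq_bot, LinearMap.ker_eq_bot']
      intro x hx
      exact hr x fun y => by
        have := congrArg (fun f => f y) hx
        simpa using this
    exact FiniteDimensional.of_injective B.flip hinj
  refine ⟨h1, h2, ?_⟩
  rw [e.finrank_eq]
  exact Fermat.Agent.PT.BR.Reduce29.finrank_eq_of_pairing B hl hr

end Fermat.Agent.ES.T56.ShaCount21
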