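/-
Programme T (S56), chapter GW, brick (K3) of `T56_BASE28.md` (helper21): **the duality bound for
`h²(G_S, X)`** used in the base case `BaseCaseGE`.

For `X` finite-dimensional, smooth, unramified outside `Sg ∋ p`, `p` odd:

* `sha₂_count` : `Ш²_S(X)` is finite-dimensional and `dim Ш²_S(X) = dim Ш¹_S(X*)` — S55 (main) applied
  to `X` itself (no biduality needed);
* `h2S_add_le` : `P2Eq Sg X` and the upper half of local `(2,0)` duality `h²(G_q, X) ≤ h⁰(G_q, X*)`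
  (`q ∈ Sg`) give   `h²(G_S, X) + h⁰(G_ℚ, X*) ≤ dim Ш¹_S(X*) + Σ_{q ∈ Sg} h⁰(G_q, X*)`.
-/
import Mathlib
import Fermat.Agent.S55
import Fermat.Agent.ES.T56.GWIface21
import Fermat.Agent.ES.T56.GWProps21
import Fermat.Agent.ES.T56.ShaCount21
import Fermat.Agent.PT.BR.DualTwist7
import Fermat.Agent.PT.BR.Reduce29

set_option autoImplicit false

open CategoryTheory Module groupCohomology ExtCitation

namespace Fermat.Agent.ES.T56.BaseK3_21

open Fermat.Agent.ES.T56.GWIface21 Fermat.Agent.ES.T56.GWProps21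
open Fermat.Agent.PT.BR.DualTwist7

variable {p : ℕ} [Fact p.Prime]

/-- `dim Ш²_S(X) = dim Ш¹_S(X*)` (S55 at `X`). -/
theorem sha₂_count (hp2 : p ≠ 2) (Sg : Finset Nat.Primes) (hpS : pPrime p ∈ Sg)
    (X : Rep (ZMod p) GQ) [FiniteDimensional (ZMod p) X] (hsm : IsSmooth p X)
    (hur : IsUnramOutside p Sg X) :
    FiniteDimensional (ZMod p) ↥(sha₁ Sg (dualT p X)) ∧ FiniteDimensional (ZMod p) ↥(sha₂ Sg X) ∧
      finrank (ZMod p) ↥(sha₂ Sg X) = finrank (ZMod p) ↥(sha₁ Sg (dualT p X)) := by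
  obtain ⟨B, hl, hr⟩ := Fermat.Agent.S55.result hp2 Sg hpS X hsm hur
  have hfin := ShaCount21.finiteDimensional_continuousH1S Sg hpS (dualT p X)
    (smooth_dualTwist X hsm) (unram_dualTwist X hpS hur)
  have h1 : FiniteDimensional (ZMod p) ↥(sha₁ Sg (dualT p X)) :=
    Submodule.finiteDimensional_of_le (inf_le_left : sha₁ Sg (dualT p X) ≤ continuousH1S Sg _)
  have h2 : FiniteDimensional (ZMod p) ↥(sha₂ Sg X) := by
    have hinj : Function.Injective B.flip := by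
      rw [← LinearMap.ker_eq_bot, LinearMap.ker_eq_bot']
      intro x hx
      exact hr x fun y => by
        have := congrArg (fun f => f y) hx
        simpa using this
    exact FiniteDimensional.of_injective B.flip hinj
  exact ⟨h1, h2, (Fermat.Agent.PT.BR.Reduce29.finrank_eq_of_pairing B hl hr).symm⟩

/-- **(K3)**: `h²(G_S, X) + h⁰(G_ℚ, X*) ≤ dim Ш¹_S(X*) + Σ_q h⁰(G_q, X*)`. -/
theorem h2S_add_le (hp2 : p ≠ 2) (Sg : Finset Nat.Primes) (hpS : pPrime p ∈ Sg)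
    (X : Rep (ZMod p) GQ) [FiniteDimensional (ZMod p) X] (hsm : IsSmooth p X)
    (hur : IsUnramOutside p Sg X) (hP2 : P2Eq Sg X)
    (hloc : ∀ q : ↥Sg, h2loc p q.1 X ≤ h0loc p q.1 (dualT p X)) :
    h2S p Sg X + h0 p (dualT p X) ≤
      finrank (ZMod p) ↥(sha₁ Sg (dualT p X)) + ∑ q : ↥Sg, h0loc p q.1 (dualT p X) := by
  obtain ⟨-, -, h⟩ := sha₂_count hp2 Sg hpS X hsm hur
  have hsum : ∑ q : ↥Sg, h2loc p q.1 X ≤ ∑ q : ↥Sg, h0loc p q.1 (dualT p X) :=
    Finset.sum_le_sum fun q _ => hloc q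
  unfold P2Eq at hP2
  omega

end Fermat.Agent.ES.T56.BaseK3_21
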