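/-
Programme T (S56, Taylor–Wiles primes), chapter GW (Greenberg–Wiles), brick 7 `BaseShapiro`
(helper22), part B1a: **the dimension of a coinduced module**.

For a subgroup `S ≤ G` and `Y : Rep k ↥S`, `X = Rep.coind S.subtype Y` (functions `f : G → Y`,
`f (s g) = s • f g`, right translation):

* `RC S = S \ G` (right cosets), `sOf S g ∈ S` with `g = sOf S g · rep (S g)` (`sOf_mul_out`,
  `sOf_smul`, `sOf_out`), `finite_RC`, `card_RC : Nat.card (RC S) = S.index`;
* `coindEquivPi S Y : X ≃ₗ[k] (RC S → Y)` (evaluation at the chosen representatives);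
* `finrank_coind : finrank X = S.index · finrank Y` (finite index, `Y` finite free).
-/
import Mathlib

set_option autoImplicit false

universe u v w

open Module

namespace Fermat.Agent.ES.T56.CoindFinrank22

/-! ### Right cosets and the evaluation isomorphism -/

section Cosets

variable {k : Type u} {G : Type v} [CommRing k] [Group G] (S : Subgroup G) (Y : Rep.{w} k ↥S)

/-- The right cosets `S \ G`. -/
abbrev RC : Type v := Quotient (QuotientGroup.rightRel S)

/-- The element `g · r⁻¹ ∈ S`, `r` the chosen representative of `S g`. -/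
noncomputable def sOf (g : G) : ↥S :=
  ⟨g * (Quotient.out (⟦g⟧ : RC S))⁻¹, QuotientGroup.rightRel_apply.1 (Quotient.mk_out g)⟩

theorem sOf_mul_out (g : G) : (sOf S g : G) * (Quotient.out (⟦g⟧ : RC S)) = g := by
  simp [sOf]

theorem mk_smul (s : ↥S) (g : G) : (⟦(s : G) * g⟧ : RC S) = ⟦g⟧ := by
  apply Quotient.sound
  show QuotientGroup.rightRel S _ _
  rw [QuotientGroup.rightRel_apply]
  simp

theorem sOf_smul (s : ↥S) (g : G) : sOf S ((s : G) * g) = s * sOf S g := by
  apply Subtype.ext
  simp only [sOf, mk_smul, Subgroup.coe_mul, mul_assoc]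

theorem sOf_out (q : RC S) : sOf S (Quotient.out q) = 1 := by
  apply Subtype.ext
  simp [sOf]

theorem finite_RC [S.FiniteIndex] : Finite (RC S) :=
  Finite.of_equiv _ (QuotientGroup.quotientRightRelEquivQuotientLeftRel S).symm

theorem card_RC : Nat.card (RC S) = S.index := by
  rw [Subgroup.index_eq_card,
    Nat.card_congr (QuotientGroup.quotientRightRelEquivQuotientLeftRel S).symm]

/-- Evaluation at the chosen representatives of the right cosets. -/
noncomputable def coindEquivPi : (Rep.coind S.subtype Y) ≃ₗ[k] (RC S → Y) where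
  toFun f q := f.1 (Quotient.out q)
  invFun φ := ⟨fun g => Y.ρ (sOf S g) (φ ⟦g⟧), fun s g => by
    show Y.ρ (sOf S ((s : G) * g)) (φ ⟦(s : G) * g⟧) = Y.ρ s (Y.ρ (sOf S g) (φ ⟦g⟧))
    rw [sOf_smul, mk_smul, map_mul]
    rfl⟩
  map_add' _ _ := rfl
  map_smul' _ _ := rfl
  left_inv f := by
    apply Subtype.ext
    funext g
    show Y.ρ (sOf S g) (f.1 (Quotient.out (⟦g⟧ : RC S))) = f.1 g
    rw [← f.2 (sOf S g) (Quotient.out (⟦g⟧ : RC S))]
    exact congrArg f.1 (sOf_mul_out S g)
  right_inv φ := by
    funext q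
    show Y.ρ (sOf S (Quotient.out q)) (φ ⟦Quotient.out q⟧) = φ q
    rw [sOf_out, Quotient.out_eq, map_one]
    rfl

theorem coindEquivPi_apply (f : Rep.coind S.subtype Y) (q : RC S) :
    coindEquivPi S Y f q = f.1 (Quotient.out q) := rfl

/-- `dim Coind_S^G Y = [G : S] · dim Y`. -/
theorem finrank_coind [S.FiniteIndex] [Module.Free k Y] [Module.Finite k Y]
    [StrongRankCondition k] :
    finrank k (Rep.coind S.subtype Y) = S.index * finrank k Y := by
  have := finite_RC S
  have : Fintype (RC S) := Fintype.ofFinite _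
  rw [(coindEquivPi S Y).finrank_eq, Module.finrank_pi_fintype, Finset.sum_const, smul_eq_mul,
    Finset.card_univ, ← card_RC, Nat.card_eq_fintype_card]

end Cosets

end Fermat.Agent.ES.T56.CoindFinrank22
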