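/-
Programme T (S56, Taylor–Wiles primes), chapter GW (Greenberg–Wiles), brick 7 `BaseShapiro`
(helper22), part B2a: **the twisted dual of a coinduced module is coinduced from the twisted dual**.

`S ≤ G` of finite index, `Y : Rep k ↥S`, `χ : G →* kˣ`, `X = Rep.coind S.subtype Y`:

* `deltaL S Y g : Y →ₗ[k] X`, `y ↦ δ_{g,y}` = the function supported on the coset `S g` with value
  `y` at `g` (`deltaL_smul : δ_{s g, y} = δ_{g, s⁻¹ y}`, `rho_inv_deltaL : h⁻¹ • δ_{g,y} = δ_{g h, y}`,
  `coindEquivPi_deltaL_out`: in the coordinates of `CoindFinrank22.coindEquivPi`, `δ_{rep q, y}`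
  is `Pi.single q y`);
* `dualToCoind S Y χ : X.dualTwist χ →ₗ[k] Rep.coind S.subtype (Y.dualTwist (χ.comp S.subtype))`,
  `(Ψ λ)(g)(y) = χ(g) · λ(δ_{g,y})` (no finiteness), `dualToCoind_equivariant`;
* for `S` of finite index: `dualToCoind_bijective` (in coordinates `Ψ` is `(Π_q Y)^∨ = Π_q Y^∨`
  rescaled by the units `χ(rep q)`: `dualCoordEquiv`), **`dualCoindEquiv`**,
  `dualCoindEquiv_apply`, **`dualCoindEquiv_equivariant`**.
-/
import Mathlib
import Fermat.Prelude.Def_GroupCohomology_ContinuousUnramified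
import Fermat.Agent.ES.T56.CoindFinrank22

set_option autoImplicit false

universe u

open Module

namespace Fermat.Agent.ES.T56.CoindDual22

open Fermat.Agent.ES.T56.CoindFinrank22

variable {k G : Type u} [CommRing k] [Group G] (S : Subgroup G) (Y : Rep.{u} k ↥S)

/-! ### The functions `δ_{g,y}` -/

/-- The function supported on the coset `S g` with value `y` at `g`. -/
noncomputable def deltaFun (g : G) (y : Y) (x : G) : Y := by
  classical
  exact if h : x * g⁻¹ ∈ S then Y.ρ ⟨x * g⁻¹, h⟩ y else 0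

theorem deltaFun_of_mem (g : G) (y : Y) (x : G) (h : x * g⁻¹ ∈ S) :
    deltaFun S Y g y x = Y.ρ ⟨x * g⁻¹, h⟩ y := by
  rw [deltaFun, dif_pos h]

theorem deltaFun_of_not_mem (g : G) (y : Y) (x : G) (h : x * g⁻¹ ∉ S) :
    deltaFun S Y g y x = 0 := by
  rw [deltaFun, dif_neg h]

theorem deltaFun_mem (g : G) (y : Y) : deltaFun S Y g y ∈ Representation.coindV S.subtype Y.ρ := by
  intro s x
  show deltaFun S Y g y ((s : G) * x) = Y.ρ s (deltaFun S Y g y x)
  by_cases h : x * g⁻¹ ∈ S
  · have h' : (s : G) * x * g⁻¹ ∈ S := by rw [mul_assoc]; exact S.mul_mem s.2 h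
    rw [deltaFun_of_mem S Y g y x h, deltaFun_of_mem S Y g y _ h', ← Module.End.mul_apply, ← map_mul]
    congr 2
    exact Subtype.ext (mul_assoc _ _ _)
  · have h' : (s : G) * x * g⁻¹ ∉ S := by
      rw [mul_assoc]
      intro h''
      exact h ((Subgroup.mul_mem_cancel_left S s.2).1 h'')
    rw [deltaFun_of_not_mem S Y g y x h, deltaFun_of_not_mem S Y g y _ h', map_zero]

/-- `y ↦ δ_{g,y}` as a linear map `Y → Coind Y`. -/
noncomputable def deltaL (g : G) : Y →ₗ[k] (Rep.coind S.subtype Y) where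
  toFun y := ⟨deltaFun S Y g y, deltaFun_mem S Y g y⟩
  map_add' y y' := by
    apply Subtype.ext
    funext x
    show deltaFun S Y g (y + y') x = deltaFun S Y g y x + deltaFun S Y g y' x
    by_cases h : x * g⁻¹ ∈ S
    · rw [deltaFun_of_mem S Y g _ x h, deltaFun_of_mem S Y g _ x h, deltaFun_of_mem S Y g _ x h,
        map_add]
    · rw [deltaFun_of_not_mem S Y g _ x h, deltaFun_of_not_mem S Y g _ x h,
        deltaFun_of_not_mem S Y g _ x h, add_zero]
  map_smul' a y := by
    apply Subtype.ext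
    funext x
    show deltaFun S Y g (a • y) x = a • deltaFun S Y g y x
    by_cases h : x * g⁻¹ ∈ S
    · rw [deltaFun_of_mem S Y g _ x h, deltaFun_of_mem S Y g _ x h, map_smul]
    · rw [deltaFun_of_not_mem S Y g _ x h, deltaFun_of_not_mem S Y g _ x h, smul_zero]

theorem deltaL_apply (g : G) (y : Y) (x : G) : (deltaL S Y g y).1 x = deltaFun S Y g y x := rfl

/-- `δ_{s g, y} = δ_{g, s⁻¹ y}`. -/
theorem deltaL_smul (s : ↥S) (g : G) (y : Y) :
    deltaL S Y ((s : G) * g) y = deltaL S Y g (Y.ρ s⁻¹ y) := by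
  apply Subtype.ext
  funext x
  show deltaFun S Y ((s : G) * g) y x = deltaFun S Y g (Y.ρ s⁻¹ y) x
  have e : x * ((s : G) * g)⁻¹ = x * g⁻¹ * ((s⁻¹ : ↥S) : G) := by
    rw [mul_inv_rev, mul_assoc]; rfl
  by_cases h : x * g⁻¹ ∈ S
  · have h' : x * ((s : G) * g)⁻¹ ∈ S := by rw [e]; exact S.mul_mem h (s⁻¹).2
    rw [deltaFun_of_mem S Y g _ x h, deltaFun_of_mem S Y _ _ x h', ← Module.End.mul_apply, ← map_mul]
    congr 2
    exact Subtype.ext e
  · have h' : x * ((s : G) * g)⁻¹ ∉ S := by
      rw [e]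
      intro h''
      exact h ((Subgroup.mul_mem_cancel_right S (s⁻¹).2).1 h'')
    rw [deltaFun_of_not_mem S Y g _ x h, deltaFun_of_not_mem S Y _ _ x h']

/-- Right translation: `h⁻¹ • δ_{g,y} = δ_{g h, y}`. -/
theorem rho_inv_deltaL (h : G) (g : G) (y : Y) :
    (Rep.coind S.subtype Y).ρ h⁻¹ (deltaL S Y g y) = deltaL S Y (g * h) y := by
  apply Subtype.ext
  funext x
  show deltaFun S Y g y (x * h⁻¹) = deltaFun S Y (g * h) y x
  have e : x * (g * h)⁻¹ = x * h⁻¹ * g⁻¹ := by rw [mul_inv_rev, mul_assoc]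
  by_cases hm : x * h⁻¹ * g⁻¹ ∈ S
  · have hm' : x * (g * h)⁻¹ ∈ S := by rw [e]; exact hm
    rw [deltaFun_of_mem S Y g _ _ hm, deltaFun_of_mem S Y _ _ x hm']
    congr 2
    exact Subtype.ext e.symm
  · have hm' : x * (g * h)⁻¹ ∉ S := by rw [e]; exact hm
    rw [deltaFun_of_not_mem S Y g _ _ hm, deltaFun_of_not_mem S Y _ _ x hm']

/-- In coordinates, `δ_{rep q, y}` is the function `Pi.single q y`. -/
theorem coindEquivPi_deltaL_out [DecidableEq (RC S)] (q : RC S) (y : Y) :
    coindEquivPi S Y (deltaL S Y (Quotient.out q) y) = Pi.single q y := by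
  funext q'
  show deltaFun S Y (Quotient.out q) y (Quotient.out q') = (Pi.single q y : RC S → Y) q'
  by_cases hq : q' = q
  · subst hq
    have hm : Quotient.out q' * (Quotient.out q')⁻¹ ∈ S := by rw [mul_inv_cancel]; exact S.one_mem
    rw [deltaFun_of_mem S Y _ _ _ hm, Pi.single_eq_same]
    have : (⟨Quotient.out q' * (Quotient.out q')⁻¹, hm⟩ : ↥S) = 1 := Subtype.ext (mul_inv_cancel _)
    rw [this, map_one]
    rfl
  · have hm : Quotient.out q' * (Quotient.out q)⁻¹ ∉ S := by
      intro hm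
      apply hq
      have : QuotientGroup.rightRel S (Quotient.out q) (Quotient.out q') :=
        QuotientGroup.rightRel_apply.2 hm
      have h2 : (⟦Quotient.out q⟧ : RC S) = ⟦Quotient.out q'⟧ := Quotient.sound this
      rw [Quotient.out_eq, Quotient.out_eq] at h2
      exact h2.symm
    rw [deltaFun_of_not_mem S Y _ _ _ hm, Pi.single_eq_of_ne hq]


/-! ### The duality map -/

variable (χ : G →* kˣ)

/-- `Ψ λ = (g ↦ χ(g) • (λ ∘ δ_g))`, from the twisted dual of the coinduced module to the module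
coinduced from the twisted dual. -/
noncomputable def dualToCoind :
    ((Rep.coind S.subtype Y).dualTwist χ) →ₗ[k]
      (Rep.coind S.subtype (Y.dualTwist (χ.comp S.subtype))) where
  toFun l := ⟨fun g => (χ g : k) • ((l : Module.Dual k (Rep.coind S.subtype Y)) ∘ₗ deltaL S Y g),
    fun s g => by
      show (χ ((s : G) * g) : k) • ((l : Module.Dual k (Rep.coind S.subtype Y)) ∘ₗ
          deltaL S Y ((s : G) * g)) =
        (Y.dualTwist (χ.comp S.subtype)).ρ s
          ((χ g : k) • ((l : Module.Dual k (Rep.coind S.subtype Y)) ∘ₗ deltaL S Y g))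
      apply LinearMap.ext
      intro y
      rw [Rep.dualTwist_ρ_apply]
      simp only [LinearMap.smul_apply, LinearMap.comp_apply, map_mul, Units.val_mul,
        MonoidHom.comp_apply, Subgroup.subtype_apply, smul_eq_mul, mul_assoc]
      rw [deltaL_smul]⟩
  map_add' l l' := by
    apply Subtype.ext
    funext g
    show (χ g : k) • ((l + l' : Module.Dual k (Rep.coind S.subtype Y)) ∘ₗ deltaL S Y g) =
      (χ g : k) • ((l : Module.Dual k (Rep.coind S.subtype Y)) ∘ₗ deltaL S Y g) +
        (χ g : k) • ((l' : Module.Dual k (Rep.coind S.subtype Y)) ∘ₗ deltaL S Y g)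
    rw [LinearMap.add_comp, smul_add]
  map_smul' a l := by
    apply Subtype.ext
    funext g
    show (χ g : k) • ((a • l : Module.Dual k (Rep.coind S.subtype Y)) ∘ₗ deltaL S Y g) =
      a • ((χ g : k) • ((l : Module.Dual k (Rep.coind S.subtype Y)) ∘ₗ deltaL S Y g))
    rw [LinearMap.smul_comp, smul_comm]

theorem dualToCoind_apply (l : Module.Dual k (Rep.coind S.subtype Y)) (g : G) (y : Y) :
    (dualToCoind S Y χ l).1 g y = (χ g : k) * l (deltaL S Y g y) := rfl

/-- `Ψ` is equivariant. -/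
theorem dualToCoind_equivariant (h : G) (l : Module.Dual k (Rep.coind S.subtype Y)) :
    dualToCoind S Y χ (((Rep.coind S.subtype Y).dualTwist χ).ρ h l) =
      (Rep.coind S.subtype (Y.dualTwist (χ.comp S.subtype))).ρ h (dualToCoind S Y χ l) := by
  apply Subtype.ext
  funext g
  apply LinearMap.ext
  intro y
  show (χ g : k) * (((Rep.coind S.subtype Y).dualTwist χ).ρ h l) (deltaL S Y g y) =
    (χ (g * h) : k) * l (deltaL S Y (g * h) y)
  rw [Rep.dualTwist_ρ_apply, LinearMap.smul_apply, LinearMap.comp_apply, rho_inv_deltaL, map_mul,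
    Units.val_mul, smul_eq_mul, mul_assoc]


/-! ### Bijectivity (finite index) -/

/-- The duality map in coordinates: `(Π_q Y)^∨ = Π_q Y^∨`, rescaled by the units `χ(rep q)`. -/
noncomputable def dualCoordEquiv [S.FiniteIndex] :
    Module.Dual k (Rep.coind S.subtype Y) ≃ₗ[k] (RC S → Module.Dual k Y) :=
  letI : DecidableEq (RC S) := Classical.decEq _
  haveI : Finite (RC S) := finite_RC S
  letI : Fintype (RC S) := Fintype.ofFinite _
  ((coindEquivPi S Y).symm.dualMap).trans
    ((LinearMap.lsum k (fun _ : RC S => (Y : Type u)) k).symm.trans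
      (LinearEquiv.piCongrRight fun q : RC S =>
        LinearEquiv.smulOfUnit (M := Module.Dual k Y) (χ (Quotient.out q))))

theorem dualCoordEquiv_apply [S.FiniteIndex] (l : Module.Dual k (Rep.coind S.subtype Y))
    (q : RC S) (y : Y) :
    dualCoordEquiv S Y χ l q y = (χ (Quotient.out q) : k) * l (deltaL S Y (Quotient.out q) y) := by
  let _ : DecidableEq (RC S) := Classical.decEq _
  have h := coindEquivPi_deltaL_out S Y q y
  rw [← LinearEquiv.eq_symm_apply] at h
  rw [h]
  rfl

theorem coindEquivPi_dualToCoind [S.FiniteIndex] (l : Module.Dual k (Rep.coind S.subtype Y)) :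
    coindEquivPi S (Y.dualTwist (χ.comp S.subtype)) (dualToCoind S Y χ l) =
      dualCoordEquiv S Y χ l := by
  funext q
  apply LinearMap.ext
  intro y
  rw [dualCoordEquiv_apply]
  rfl

theorem dualToCoind_bijective [S.FiniteIndex] : Function.Bijective (dualToCoind S Y χ) := by
  have h : (coindEquivPi S (Y.dualTwist (χ.comp S.subtype))) ∘ (dualToCoind S Y χ) =
      dualCoordEquiv S Y χ := funext fun l => coindEquivPi_dualToCoind S Y χ l
  refine (Function.Bijective.of_comp_iff'
    (coindEquivPi S (Y.dualTwist (χ.comp S.subtype))).bijective _).1 ?_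
  rw [h]
  exact (dualCoordEquiv S Y χ).bijective

/-- **`(Coind_S^G Y)^∨(χ) ≃ Coind_S^G (Y^∨(χ|_S))`** for `S` of finite index. -/
noncomputable def dualCoindEquiv [S.FiniteIndex] :
    ((Rep.coind S.subtype Y).dualTwist χ) ≃ₗ[k]
      (Rep.coind S.subtype (Y.dualTwist (χ.comp S.subtype))) :=
  LinearEquiv.ofBijective (dualToCoind S Y χ) (dualToCoind_bijective S Y χ)

theorem dualCoindEquiv_apply [S.FiniteIndex] (l : Module.Dual k (Rep.coind S.subtype Y)) (g : G)
    (y : Y) : (dualCoindEquiv S Y χ l).1 g y = (χ g : k) * l (deltaL S Y g y) := rfl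

theorem dualCoindEquiv_equivariant [S.FiniteIndex] (h : G)
    (l : (Rep.coind S.subtype Y).dualTwist χ) :
    dualCoindEquiv S Y χ (((Rep.coind S.subtype Y).dualTwist χ).ρ h l) =
      (Rep.coind S.subtype (Y.dualTwist (χ.comp S.subtype))).ρ h (dualCoindEquiv S Y χ l) :=
  dualToCoind_equivariant S Y χ h l

end Fermat.Agent.ES.T56.CoindDual22
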