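/-
Programme T (S56, Taylor–Wiles primes), chapter GW (Greenberg–Wiles), brick 7 `BaseShapiro`
(helper22), part B2b: **the base class `𝔅` of `GWIface21` is closed under `X ↦ X* = dualT p X`**.

For `D : BaseDatum Sg` (`K ≤ L`, `ζ_p ∈ L`, `Y` a representation of `G_K` trivial on `G_L`):

* `cycloChar_eq_one_of_mem_L D : s ∈ D.L.fixingSubgroup → cycloChar p s = 1`;
* `dualDatum D : BaseDatum Sg`, same `K`, `L`, with `Y* = D.Y.dualTwist (χ|_{G_K})`
  (`dualDatum_K`, `dualDatum_L`, `dualDatum_Y` by `rfl`);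
* **`dualRepEquiv D : dualT p D.rep ≃ₗ[ZMod p] (dualDatum D).rep`**, `dualRepEquiv_equivariant`
  (`CoindDual22.dualCoindEquiv` for `S = G_K`, `χ = cycloChar p`).
-/
import Mathlib
import Fermat.Agent.PT.BR.DualTwist7
import Fermat.Agent.PT.BR.Interface29
import Fermat.Agent.ES.T56.GWIface21
import Fermat.Agent.ES.T56.CoindDual22

set_option autoImplicit false

open Module ExtCitation

namespace Fermat.Agent.ES.T56.BaseDual22

open Fermat.Agent.ES.T56.GWIface21 Fermat.Agent.ES.T56.CoindDual22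
  Fermat.Agent.PT.BR.Interface29

variable {p : ℕ} [Fact p.Prime] {Sg : Finset Nat.Primes}

/-- The chosen primitive `p`-th root of unity lies in `L`. -/
theorem zeta_mem_L (D : BaseDatum (p := p) Sg) : Fermat.Agent.S14.Fields.zeta p ∈ D.L := by
  obtain ⟨ζ, hζL, hζ⟩ := D.zeta
  obtain ⟨i, -, hi⟩ := hζ.eq_pow_of_pow_eq_one
    (Fermat.Agent.S14.Fields.zeta_spec p).pow_eq_one
  rw [← hi]
  exact pow_mem hζL i

/-- The cyclotomic character is trivial on `G_L`. -/
theorem cycloChar_eq_one_of_mem_L (D : BaseDatum (p := p) Sg) {s : GQ}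
    (hs : s ∈ D.L.fixingSubgroup) : cycloChar p s = 1 := by
  rw [Fermat.Agent.PT.BR.DualTwist7.cycloChar_eq_one_iff]
  exact (IntermediateField.mem_fixingSubgroup_iff D.L s).1 hs _ (zeta_mem_L D)

/-- The dual base datum: same fields, `Y* = Y^∨(χ|_{G_K})`. -/
noncomputable def dualDatum (D : BaseDatum (p := p) Sg) : BaseDatum (p := p) Sg where
  K := D.K
  L := D.L
  le := D.le
  unram := D.unram
  zeta := D.zeta
  normal := D.normal
  cyclic := D.cyclic
  prime_to_p := D.prime_to_p
  Y := D.Y.dualTwist ((cycloChar p).comp D.K.fixingSubgroup.subtype)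
  fd := by
    have := D.fd
    exact inferInstanceAs (FiniteDimensional (ZMod p) (Module.Dual (ZMod p) D.Y))
  triv := fun s hs => by
    have h1 : D.Y.ρ s⁻¹ = 1 := D.triv s⁻¹ (D.L.fixingSubgroup.inv_mem hs)
    have h2 : ((cycloChar p).comp D.K.fixingSubgroup.subtype) s = 1 :=
      cycloChar_eq_one_of_mem_L D hs
    apply LinearMap.ext
    intro f
    apply LinearMap.ext
    intro y
    rw [Rep.dualTwist_ρ_apply, h1, h2]
    simp

theorem dualDatum_K (D : BaseDatum (p := p) Sg) : (dualDatum D).K = D.K := rfl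

theorem dualDatum_L (D : BaseDatum (p := p) Sg) : (dualDatum D).L = D.L := rfl

theorem dualDatum_Y (D : BaseDatum (p := p) Sg) :
    (dualDatum D).Y = D.Y.dualTwist ((cycloChar p).comp D.K.fixingSubgroup.subtype) := rfl

theorem finiteIndex_K (D : BaseDatum (p := p) Sg) : D.K.fixingSubgroup.FiniteIndex := by
  have : FiniteDimensional ℚ D.K := (D.unram.of_le D.le).1
  exact finiteIndex_fixingSubgroup D.K

/-- **`(Coind_{G_K}^{G_ℚ} Y)* ≃ Coind_{G_K}^{G_ℚ} (Y*)`**: the dual of the representation of a base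
datum is the representation of the dual base datum. -/
noncomputable def dualRepEquiv (D : BaseDatum (p := p) Sg) :
    (dualT p D.rep) ≃ₗ[ZMod p] ((dualDatum D).rep) :=
  haveI := finiteIndex_K D
  dualCoindEquiv D.K.fixingSubgroup D.Y (cycloChar p)

theorem dualRepEquiv_equivariant (D : BaseDatum (p := p) Sg) (g : GQ) (x : dualT p D.rep) :
    dualRepEquiv D ((dualT p D.rep).ρ g x) = (dualDatum D).rep.ρ g (dualRepEquiv D x) :=
  haveI := finiteIndex_K D
  dualCoindEquiv_equivariant D.K.fixingSubgroup D.Y (cycloChar p) g x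

end Fermat.Agent.ES.T56.BaseDual22
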