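/-
Programme T (S56), chapter GW-D, glue for brick 10 (`BaseLocChi`) — helper8.

**Only the UPPER bound on the local `H¹` is new work.**  With `f(X) := h¹_S + h⁰_c − h⁰ − h²_S − dim X`,
the 9-term count and `h⁰_c(X) + h⁰_c(X*) = dim X` give `f(X) + f(X*) = −(Σ_q e_q(X) + dim X)`, and the
one-sided base case (`GlobalChiGe`, i.e. `f ≥ 0`) for `X` and `X*` gives
`Σ_q (h⁰_q + h²_q) + dim X ≤ Σ_q h¹_q` for free.  Hence the ONE-SIDED literal

  `BaseLocChiLe Sg := ∀ D, Σ_q h1loc q D.rep ≤ Σ_q (h0loc q D.rep + h2loc q D.rep) + dim D.rep`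

implies the equality literal `GWIface21.BaseLocChi Sg` and Tate's formula `GlobalChi` on the base class.

* `cycloChar_complexConjugation : cycloChar p c = -1`;
* `h0c_dualT` : `h⁰_c(X*) = dim ker (ρ_X(c) + 1)`;  `h0c_add_h0c_dualT` (`p` odd) : `h⁰_c(X) + h⁰_c(X*) = dim X`;
* `locChiSum_of_le`, `globalChi_of_le`, `globalChi_dualT_of_le` : the arithmetic, for one `X`;
* `baseLocChi_of_le`, `globalChi_base_of_le` : on the base class `𝔅`.
-/
import Mathlib
import Fermat.Agent.ES.R48.ModCyclo13
import Fermat.Agent.ES.T56.GWIface21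

set_option autoImplicit false

namespace Fermat.Agent.ES.T56.BaseLocChiOfLe8

open Module ExtCitation Fermat.Agent.ES.T56.GWIface21

variable (p : ℕ) [Fact p.Prime]

/-! ### Complex conjugation and the twisted dual -/

/-- The mod-`p` cyclotomic character of the Prelude takes the value `-1` at complex conjugation. -/
theorem cycloChar_complexConjugation : cycloChar p complexConjugation = -1 := by
  have : NeZero p := ⟨(Fact.out : p.Prime).ne_zero⟩
  exact Fermat.Agent.ES.R48.ModCyclo13.chiMod_complexConjugation' p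

section Involution

variable {k V : Type*} [Field k] [AddCommGroup V] [Module k V]

/-- For an involution `T` (`2 ≠ 0`), `ker (T - 1)` and `ker (T + 1)` are complementary. -/
theorem isCompl_ker (T : V →ₗ[k] V) (hT : ∀ v, T (T v) = v) (h2 : (2 : k) ≠ 0) :
    IsCompl (LinearMap.ker (T - 1)) (LinearMap.ker (T + 1)) := by
  refine ⟨?_, ?_⟩
  · rw [Submodule.disjoint_def]
    intro v h1 h2'
    rw [LinearMap.mem_ker, LinearMap.sub_apply, Module.End.one_apply, sub_eq_zero] at h1
    rw [LinearMap.mem_ker, LinearMap.add_apply, Module.End.one_apply, h1] at h2'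
    have h3 : (2 : k) • v = 0 := by rw [two_smul]; exact h2'
    exact (smul_eq_zero.mp h3).resolve_left h2
  · rw [codisjoint_iff, eq_top_iff]
    intro v _
    rw [Submodule.mem_sup]
    refine ⟨(2 : k)⁻¹ • (v + T v), ?_, (2 : k)⁻¹ • (v - T v), ?_, ?_⟩
    · rw [LinearMap.mem_ker, LinearMap.sub_apply, Module.End.one_apply, map_smul, map_add, hT,
        add_comm, sub_self]
    · rw [LinearMap.mem_ker, LinearMap.add_apply, Module.End.one_apply, map_smul, map_sub, hT,
        ← smul_add, sub_add_sub_cancel, sub_self, smul_zero]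
    · rw [← smul_add, add_add_sub_cancel, ← two_smul k v, smul_smul, inv_mul_cancel₀ h2, one_smul]

theorem finrank_ker_add [FiniteDimensional k V] (T : V →ₗ[k] V) (hT : ∀ v, T (T v) = v)
    (h2 : (2 : k) ≠ 0) :
    finrank k ↥(LinearMap.ker (T - 1)) + finrank k ↥(LinearMap.ker (T + 1)) = finrank k V :=
  Submodule.finrank_add_eq_of_isCompl (isCompl_ker T hT h2)

/-- `dim ker (S.dualMap) = dim ker S` for an endomorphism of a finite-dimensional space. -/
theorem finrank_ker_dualMap [FiniteDimensional k V] (S : V →ₗ[k] V) :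
    finrank k ↥(LinearMap.ker S.dualMap) = finrank k ↥(LinearMap.ker S) := by
  have h1 := LinearMap.finrank_range_add_finrank_ker S
  have h2 := LinearMap.finrank_range_add_finrank_ker S.dualMap
  rw [LinearMap.finrank_range_dualMap_eq_finrank_range, Subspace.dual_finrank_eq] at h2
  omega

end Involution

variable {p}

/-- `h⁰_c(X*) = dim ker (ρ_X(c) + 1)`: complex conjugation acts on `X* = X^∨(1)` by `-(ρ_X c)^∨`. -/
theorem h0c_dualT (X : Rep.{0} (ZMod p) GQ) [FiniteDimensional (ZMod p) X] :
    h0c p (dualT p X) = finrank (ZMod p) ↥(LinearMap.ker (X.ρ complexConjugation + 1)) := by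
  rw [← finrank_ker_dualMap]
  have hker : LinearMap.ker ((dualT p X).ρ complexConjugation - 1) =
      LinearMap.ker (X.ρ complexConjugation + 1).dualMap := by
    ext f
    have h1 : (dualT p X).ρ complexConjugation f = -(f ∘ₗ X.ρ complexConjugation) := by
      rw [Rep.dualTwist_ρ_apply, cycloChar_complexConjugation, complexConjugation_inv]
      apply LinearMap.ext
      intro x
      rw [LinearMap.smul_apply, LinearMap.neg_apply, Units.val_neg, Units.val_one, smul_eq_mul,
        neg_one_mul]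
    rw [LinearMap.mem_ker, LinearMap.mem_ker, LinearMap.sub_apply, Module.End.one_apply, h1,
      LinearMap.dualMap_apply', LinearMap.comp_add, Module.End.one_eq_id, LinearMap.comp_id]
    constructor
    · intro h
      rw [← neg_eq_zero, neg_add, ← sub_eq_add_neg]
      exact h
    · intro h
      rw [← neg_eq_zero, neg_sub, sub_neg_eq_add, add_comm]
      exact h
  unfold h0c
  rw [hker]

/-- **`h⁰_c(X) + h⁰_c(X*) = dim X`** (`p` odd). -/
theorem h0c_add_h0c_dualT (hp2 : p ≠ 2) (X : Rep.{0} (ZMod p) GQ) [FiniteDimensional (ZMod p) X] :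
    h0c p X + h0c p (dualT p X) = finrank (ZMod p) X := by
  rw [h0c_dualT]
  unfold h0c
  refine finrank_ker_add (X.ρ complexConjugation) (fun v => ?_) ?_
  · rw [← Module.End.mul_apply, ← map_mul, complexConjugation_mul_self, map_one,
      Module.End.one_apply]
  · intro h
    have h1 : ((2 : ℕ) : ZMod p) = 0 := by exact_mod_cast h
    rw [ZMod.natCast_eq_zero_iff] at h1
    exact hp2 ((Nat.prime_dvd_prime_iff_eq Fact.out Nat.prime_two).mp h1)

/-! ### The arithmetic -/

/-- The one-sided count for a single representation. -/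
def LocChiLe (Sg : Finset Nat.Primes) (X : Rep (ZMod p) GQ) : Prop :=
  ∑ q : ↥Sg, h1loc p q.1 X ≤ ∑ q : ↥Sg, (h0loc p q.1 X + h2loc p q.1 X) + finrank (ZMod p) X

/-- The one-sided literal of brick 10: the UPPER bound on the local `H¹` on the base class. -/
def BaseLocChiLe (Sg : Finset Nat.Primes) : Prop :=
  ∀ D : BaseDatum (p := p) Sg, LocChiLe Sg D.rep

variable {Sg : Finset Nat.Primes} {X : Rep.{0} (ZMod p) GQ}

/-- The three equalities, from the two one-sided global statements, the 9-term count, the `h⁰_c`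
identity and the one-sided local count. -/
theorem counts_of_le (hGE : GlobalChiGe Sg X) (hGE' : GlobalChiGe Sg (dualT p X))
    (hN : NineTermCount Sg X) (hc : h0c p X + h0c p (dualT p X) = finrank (ZMod p) X)
    (hd : finrank (ZMod p) (dualT p X) = finrank (ZMod p) X) (hLe : LocChiLe Sg X) :
    LocChiSum Sg X ∧
      h1S p Sg X + h0c p X = h0 p X + h2S p Sg X + finrank (ZMod p) X ∧
      h1S p Sg (dualT p X) + h0c p (dualT p X) =
        h0 p (dualT p X) + h2S p Sg (dualT p X) + finrank (ZMod p) (dualT p X) := by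
  have h1 := hGE.2.2
  have h2 := hGE'.2.2
  unfold NineTermCount at hN
  unfold LocChiLe at hLe
  unfold LocChiSum
  rw [hd] at h2 ⊢
  refine ⟨?_, ?_, ?_⟩ <;> omega

theorem locChiSum_of_le (hGE : GlobalChiGe Sg X) (hGE' : GlobalChiGe Sg (dualT p X))
    (hN : NineTermCount Sg X) (hc : h0c p X + h0c p (dualT p X) = finrank (ZMod p) X)
    (hd : finrank (ZMod p) (dualT p X) = finrank (ZMod p) X) (hLe : LocChiLe Sg X) :
    LocChiSum Sg X :=
  (counts_of_le hGE hGE' hN hc hd hLe).1

theorem globalChi_of_le (hGE : GlobalChiGe Sg X) (hGE' : GlobalChiGe Sg (dualT p X))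
    (hN : NineTermCount Sg X) (hc : h0c p X + h0c p (dualT p X) = finrank (ZMod p) X)
    (hd : finrank (ZMod p) (dualT p X) = finrank (ZMod p) X) (hLe : LocChiLe Sg X) :
    GlobalChi Sg X :=
  ⟨hGE.1, hGE.2.1, (counts_of_le hGE hGE' hN hc hd hLe).2.1⟩

theorem globalChi_dualT_of_le (hGE : GlobalChiGe Sg X) (hGE' : GlobalChiGe Sg (dualT p X))
    (hN : NineTermCount Sg X) (hc : h0c p X + h0c p (dualT p X) = finrank (ZMod p) X)
    (hd : finrank (ZMod p) (dualT p X) = finrank (ZMod p) X) (hLe : LocChiLe Sg X) :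
    GlobalChi Sg (dualT p X) :=
  ⟨hGE'.1, hGE'.2.1, (counts_of_le hGE hGE' hN hc hd hLe).2.2⟩

/-! ### On the base class -/

/-- **`BaseLocChi` from its one-sided half.**  `hGE'` is `BaseCaseGE` at the dual datum transported
along `BaseDual22.dualRepEquiv` (`𝔅` is closed under `X ↦ X*`). -/
theorem baseLocChi_of_le (hp2 : p ≠ 2)
    (hfd : ∀ D : BaseDatum (p := p) Sg, FiniteDimensional (ZMod p) D.rep)
    (hGE : BaseCaseGE (p := p) Sg)
    (hGE' : ∀ D : BaseDatum (p := p) Sg, GlobalChiGe Sg (dualT p D.rep))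
    (hN : ∀ D : BaseDatum (p := p) Sg, NineTermCount Sg D.rep) (hLe : BaseLocChiLe (p := p) Sg) :
    BaseLocChi (p := p) Sg := fun D => by
  have := hfd D
  exact locChiSum_of_le (hGE D) (hGE' D) (hN D) (h0c_add_h0c_dualT hp2 D.rep)
    (Rep.finrank_dualTwist (ZMod p) D.rep (cycloChar p)) (hLe D)

/-- **Tate's formula on the base class** from the one-sided statements. -/
theorem globalChi_base_of_le (hp2 : p ≠ 2)
    (hfd : ∀ D : BaseDatum (p := p) Sg, FiniteDimensional (ZMod p) D.rep)
    (hGE : BaseCaseGE (p := p) Sg)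
    (hGE' : ∀ D : BaseDatum (p := p) Sg, GlobalChiGe Sg (dualT p D.rep))
    (hN : ∀ D : BaseDatum (p := p) Sg, NineTermCount Sg D.rep) (hLe : BaseLocChiLe (p := p) Sg)
    (D : BaseDatum (p := p) Sg) : GlobalChi Sg D.rep := by
  have := hfd D
  exact globalChi_of_le (hGE D) (hGE' D) (hN D) (h0c_add_h0c_dualT hp2 D.rep)
    (Rep.finrank_dualTwist (ZMod p) D.rep (cycloChar p)) (hLe D)

end Fermat.Agent.ES.T56.BaseLocChiOfLe8
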