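/-
Programme T (S56, Taylor–Wiles primes), chapter GW (Greenberg–Wiles), brick 7 `BaseShapiro`
(helper22), part B1b: **eigenspaces of a twisted permutation operator attached to an involution of
the index set** (pure linear algebra, Mathlib only).

`Q` a type with an involution `τ`, `r : Q → End_k(Y)` with `r_q ∘ r_{τ q} = 1`,
`(T φ)(q) = r_q (φ (τ q))` on `Q → Y` (`twOp`).  For `a · a = 1`:

* `eig T a = {v | T v = a • v}` (`eig_one : eig T 1 = ker (T − 1)`, `eig_neg_one : eig T (−1) =
  ker (T + 1)`);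
* `kerEquiv : eig (twOp τ r) a ≃ₗ (Π_{τ q = q} eig (r q) a) × ({q | q < τ q} → Y)` (for a linear
  order on `Q`); `two_mul_card_lt : 2 · #{q | q < τ q} = #{q | τ q ≠ q}`;
* `finrank_ker_twOp` (`k` a field, `Q` finite, no order needed):
  `dim eig (twOp τ r) a = Σ_{τ q = q} dim eig (r q) a + (#{q | τ q ≠ q} / 2) · dim Y`;
  `even_card_nonfixed`;
* `isCompl_ker_sub_one_ker_add_one`, `finrank_ker_sub_add_ker_add`: for an involution `T` with `2`
  invertible, `dim ker (T − 1) + dim ker (T + 1) = dim V`.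
-/
import Mathlib

set_option autoImplicit false

universe u v w

open Module

namespace Fermat.Agent.ES.T56.InvolutionCount22

/-! ### Eigenspaces -/

section Eig

variable {k : Type u} [CommRing k] {V : Type w} [AddCommGroup V] [Module k V]

/-- The eigenspace `{v | T v = a • v}`. -/
def eig (T : V →ₗ[k] V) (a : k) : Submodule k V where
  carrier := {v | T v = a • v}
  add_mem' {v w} hv hw := by
    show T (v + w) = a • (v + w)
    rw [map_add, smul_add, show T v = a • v from hv, show T w = a • w from hw]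
  zero_mem' := by
    show T 0 = a • (0 : V)
    rw [map_zero, smul_zero]
  smul_mem' b v hv := by
    show T (b • v) = a • b • v
    rw [map_smul, show T v = a • v from hv, smul_comm]

theorem mem_eig (T : V →ₗ[k] V) (a : k) (v : V) : v ∈ eig T a ↔ T v = a • v := Iff.rfl

theorem eig_one (T : V →ₗ[k] V) : eig T 1 = LinearMap.ker (T - 1) := by
  ext v
  rw [mem_eig, LinearMap.mem_ker, LinearMap.sub_apply, Module.End.one_apply, sub_eq_zero, one_smul]

theorem eig_neg_one (T : V →ₗ[k] V) : eig T (-1) = LinearMap.ker (T + 1) := by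
  ext v
  rw [mem_eig, LinearMap.mem_ker, LinearMap.add_apply, Module.End.one_apply, neg_smul, one_smul,
    ← sub_eq_zero, sub_neg_eq_add]

end Eig

/-! ### A twisted permutation operator attached to an involution of the index set -/

section Abstract

variable {k : Type u} [CommRing k] {Y : Type w} [AddCommGroup Y] [Module k Y]
variable {Q : Type v} (τ : Q → Q) (r : Q → Y →ₗ[k] Y)

/-- The twisted permutation operator `(T φ)(q) = r_q (φ (τ q))`. -/
def twOp : (Q → Y) →ₗ[k] (Q → Y) where
  toFun φ q := r q (φ (τ q))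
  map_add' φ ψ := by funext q; simp
  map_smul' a φ := by funext q; simp

theorem twOp_apply (φ : Q → Y) (q : Q) : twOp τ r φ q = r q (φ (τ q)) := rfl

variable (a : k)

theorem mem_eig_twOp (φ : Q → Y) :
    φ ∈ eig (twOp τ r) a ↔ ∀ q, r q (φ (τ q)) = a • φ q := by
  rw [mem_eig]
  constructor
  · intro h q
    exact congrFun h q
  · intro h
    funext q
    exact h q

variable [LinearOrder Q] (hτ : ∀ q, τ (τ q) = q)

/-- Glue a function on `Q` from its values on the fixed points and on `{q < τ q}`. -/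
def glue (x1 : {q : Q // τ q = q} → Y) (x2 : {q : Q // q < τ q} → Y) (q : Q) : Y :=
  if h : τ q = q then x1 ⟨q, h⟩ else
    if h' : q < τ q then x2 ⟨q, h'⟩ else
      a • r q (x2 ⟨τ q, by rw [hτ]; exact lt_of_le_of_ne (not_lt.1 h') h⟩)

variable (x1 : {q : Q // τ q = q} → Y) (x2 : {q : Q // q < τ q} → Y)

theorem glue_fix (q : Q) (h : τ q = q) : glue τ r a hτ x1 x2 q = x1 ⟨q, h⟩ := by
  rw [glue, dif_pos h]

theorem glue_lt (q : Q) (h : q < τ q) : glue τ r a hτ x1 x2 q = x2 ⟨q, h⟩ := by
  rw [glue, dif_neg (ne_of_gt h), dif_pos h]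

theorem glue_gt (q : Q) (h : τ q < q) :
    glue τ r a hτ x1 x2 q = a • r q (x2 ⟨τ q, by rw [hτ]; exact h⟩) := by
  rw [glue, dif_neg (ne_of_lt h), dif_neg (not_lt.2 h.le)]

theorem glue_mem (hr : ∀ q y, r q (r (τ q) y) = y) (ha : a * a = 1)
    (h1 : ∀ q, r q.1 (x1 q) = a • x1 q) (q : Q) :
    r q (glue τ r a hτ x1 x2 (τ q)) = a • glue τ r a hτ x1 x2 q := by
  rcases lt_trichotomy (τ q) q with h | h | h
  · have h' : τ q < τ (τ q) := by rw [hτ]; exact h
    rw [glue_gt τ r a hτ x1 x2 q h, glue_lt τ r a hτ x1 x2 (τ q) h', smul_smul, ha, one_smul]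
  · have h' : τ (τ q) = τ q := by rw [h, h]
    rw [glue_fix τ r a hτ x1 x2 q h, glue_fix τ r a hτ x1 x2 (τ q) h']
    have := h1 ⟨q, h⟩
    convert this using 3
    exact Subtype.ext h
  · have h' : τ (τ q) < τ q := by rw [hτ]; exact h
    rw [glue_lt τ r a hτ x1 x2 q h, glue_gt τ r a hτ x1 x2 (τ q) h', map_smul]
    congr 1
    have : (⟨τ (τ q), by rw [hτ]; exact h⟩ : {q : Q // q < τ q}) = ⟨q, h⟩ := Subtype.ext (hτ q)
    rw [this]
    exact hr q _

/-- The kernel of `T - a` (`a² = 1`) is the product of the kernels of `r_q - a` over the fixed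
points `q` of `τ` and of one copy of `Y` for each two-element orbit. -/
def kerEquiv (hr : ∀ q y, r q (r (τ q) y) = y) (ha : a * a = 1) :
    ↥(eig (twOp τ r) a) ≃ₗ[k]
      ((∀ q : {q : Q // τ q = q}, ↥(eig (r q.1) a)) × ({q : Q // q < τ q} → Y)) where
  toFun φ := (fun q => ⟨φ.1 q.1, by
      have h := (mem_eig_twOp τ r a φ.1).1 φ.2 q.1
      rw [q.2] at h
      exact h⟩, fun q => φ.1 q.1)
  map_add' _ _ := rfl
  map_smul' _ _ := rfl
  invFun x := ⟨glue τ r a hτ (fun q => (x.1 q : Y)) x.2, (mem_eig_twOp τ r a _).2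
    (glue_mem τ r a hτ _ _ hr ha fun q => (x.1 q).2)⟩
  left_inv φ := by
    apply Subtype.ext
    funext q
    show glue τ r a hτ (fun q => φ.1 q.1) (fun q => φ.1 q.1) q = φ.1 q
    rcases lt_trichotomy (τ q) q with h | h | h
    · rw [glue_gt τ r a hτ _ _ q h]
      have h2 := (mem_eig_twOp τ r a φ.1).1 φ.2 q
      show a • r q (φ.1 (τ q)) = φ.1 q
      rw [h2, smul_smul, ha, one_smul]
    · rw [glue_fix τ r a hτ _ _ q h]
    · rw [glue_lt τ r a hτ _ _ q h]
  right_inv x := by
    refine Prod.ext ?_ ?_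
    · funext q
      apply Subtype.ext
      show glue τ r a hτ (fun q => (x.1 q : Y)) x.2 q.1 = x.1 q
      rw [glue_fix τ r a hτ _ _ q.1 q.2]
    · funext q
      show glue τ r a hτ (fun q => (x.1 q : Y)) x.2 q.1 = x.2 q
      rw [glue_lt τ r a hτ _ _ q.1 q.2]

/-- The non-fixed points come in pairs. -/
theorem two_mul_card_lt [Finite Q] (hτ : ∀ q, τ (τ q) = q) :
    2 * Nat.card {q : Q // q < τ q} = Nat.card {q : Q // τ q ≠ q} := by
  classical
  have e1 : {q : Q // q < τ q} ≃ {q : Q // τ q < q} :=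
    { toFun := fun q => ⟨τ q.1, by rw [hτ]; exact q.2⟩
      invFun := fun q => ⟨τ q.1, by rw [hτ]; exact q.2⟩
      left_inv := fun q => Subtype.ext (hτ q.1)
      right_inv := fun q => Subtype.ext (hτ q.1) }
  have e2 : {q : Q // τ q ≠ q} ≃ {q : Q // q < τ q} ⊕ {q : Q // τ q < q} :=
    { toFun := fun q => if h : q.1 < τ q.1 then Sum.inl ⟨q.1, h⟩ else
        Sum.inr ⟨q.1, lt_of_le_of_ne (not_lt.1 h) q.2⟩
      invFun := fun x => Sum.elim (fun q => ⟨q.1, ne_of_gt q.2⟩) (fun q => ⟨q.1, ne_of_lt q.2⟩) x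
      left_inv := fun q => by
        by_cases h : q.1 < τ q.1
        · simp [h]
        · simp [h]
      right_inv := fun x => by
        rcases x with q | q
        · simp [q.2]
        · simp [not_lt.2 q.2.le] }
  rw [Nat.card_congr e2, Nat.card_sum, ← Nat.card_congr e1]
  ring

end Abstract

/-! ### The count over a field -/

section Count

variable {k : Type u} [Field k] {Y : Type w} [AddCommGroup Y] [Module k Y] [FiniteDimensional k Y]
variable {Q : Type v} [Finite Q] (τ : Q → Q) (r : Q → Y →ₗ[k] Y) (a : k)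

/-- **The count**: `dim ker (T − a) = Σ_{τ q = q} dim ker (r_q − a) + (#{q | τ q ≠ q} / 2) · dim Y`. -/
theorem finrank_ker_twOp (hτ : ∀ q, τ (τ q) = q) (hr : ∀ q y, r q (r (τ q) y) = y)
    (ha : a * a = 1) :
    finrank k ↥(eig (twOp τ r) a) =
      (∑ᶠ q : {q : Q // τ q = q}, finrank k ↥(eig (r q.1) a)) +
        Nat.card {q : Q // τ q ≠ q} / 2 * finrank k Y := by
  classical
  let _ : LinearOrder Q := IsWellOrder.linearOrder WellOrderingRel
  have : Fintype {q : Q // τ q = q} := Fintype.ofFinite _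
  have : Fintype {q : Q // q < τ q} := Fintype.ofFinite _
  rw [(kerEquiv τ r a hτ hr ha).finrank_eq, Module.finrank_prod, Module.finrank_pi_fintype,
    Module.finrank_pi_fintype, finsum_eq_sum_of_fintype, Finset.sum_const, smul_eq_mul,
    Finset.card_univ, ← two_mul_card_lt τ hτ, Nat.mul_div_cancel_left _ (by norm_num : 0 < 2),
    Nat.card_eq_fintype_card]

theorem even_card_nonfixed (hτ : ∀ q, τ (τ q) = q) : Even (Nat.card {q : Q // τ q ≠ q}) := by
  classical
  let _ : LinearOrder Q := IsWellOrder.linearOrder WellOrderingRel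
  rw [← two_mul_card_lt τ hτ]
  exact even_two_mul _

end Count

/-! ### Involutions with `2` invertible -/

section Split

variable {k : Type u} [Field k] {V : Type w} [AddCommGroup V] [Module k V]

/-- For an involution `T` with `2` invertible, `V = ker (T − 1) ⊕ ker (T + 1)`. -/
theorem isCompl_ker_sub_one_ker_add_one (T : V →ₗ[k] V) (hT : ∀ v, T (T v) = v)
    (h2 : (2 : k) ≠ 0) : IsCompl (LinearMap.ker (T - 1)) (LinearMap.ker (T + 1)) := by
  constructor
  · rw [Submodule.disjoint_def]
    intro v h1 h2'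
    rw [LinearMap.mem_ker, LinearMap.sub_apply, Module.End.one_apply, sub_eq_zero] at h1
    rw [LinearMap.mem_ker, LinearMap.add_apply, Module.End.one_apply, h1] at h2'
    have : (2 : k) • v = 0 := by rw [two_smul]; exact h2'
    exact (smul_eq_zero.1 this).resolve_left h2
  · rw [codisjoint_iff, eq_top_iff]
    intro v _
    rw [Submodule.mem_sup]
    refine ⟨(2 : k)⁻¹ • (v + T v), ?_, (2 : k)⁻¹ • (v - T v), ?_, ?_⟩
    · rw [LinearMap.mem_ker, LinearMap.sub_apply, Module.End.one_apply, map_smul, map_add, hT,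
        add_comm, sub_self]
    · rw [LinearMap.mem_ker, LinearMap.add_apply, Module.End.one_apply, map_smul, map_sub, hT,
        ← smul_add]
      simp
    · rw [← smul_add, add_add_sub_cancel, ← two_smul k v, smul_smul, inv_mul_cancel₀ h2, one_smul]

theorem finrank_ker_sub_add_ker_add [FiniteDimensional k V] (T : V →ₗ[k] V)
    (hT : ∀ v, T (T v) = v) (h2 : (2 : k) ≠ 0) :
    finrank k ↥(LinearMap.ker (T - 1)) + finrank k ↥(LinearMap.ker (T + 1)) = finrank k V :=
  Submodule.finrank_add_eq_of_isCompl (isCompl_ker_sub_one_ker_add_one T hT h2)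

end Split

end Fermat.Agent.ES.T56.InvolutionCount22
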