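/-
Programme T (S56, Taylor–Wiles primes), chapter GW (Greenberg–Wiles), brick 7 `BaseShapiro`
(helper22), part B1c: **Mackey's formula for an involution on a coinduced module**, and the two
remaining terms `finrank X`, `h⁰(⟨c⟩, X)` of `GWIface21.GlobalChiGe` on the base class.

`S ≤ G` of finite index, `Y : Rep k ↥S`, `X = Rep.coind S.subtype Y`, `c : G` with `c · c = 1`:

* `cAct S c : RC S → RC S` (right multiplication, an involution: `cAct_cAct`),
  `tw S c q ∈ S` with `rep q · c = tw S c q · rep (q c)` (`tw_mul_out`, `tw_mul_tw`); on a fixed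
  coset `q = S g`, `tw S c q = g c g⁻¹` for `g = rep q` (`coe_tw_of_fixed`);
* `coindEquivPi_rho`: in the coordinates `coindEquivPi`, `X.ρ c` is the twisted permutation
  operator `twOp (cAct S c) (fun q => Y.ρ (tw S c q))`; `kerRhoEquiv`;
* **`finrank_ker_coind`** (`k` a field, `a · a = 1`):
  `dim eig (X.ρ c) a = Σ_{q c = q} dim eig (Y.ρ (tw q)) a + (#{q | q c ≠ q} / 2) · dim Y`,
  with the forms `finrank_ker_coind_sub_one` (`ker (X.ρ c − 1)`), `finrank_ker_coind_add_one`;
* for the contract `GWIface21.BaseDatum`: `finiteDimensional_K`, `finiteIndex_K`,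
  **`finrank_rep : finrank D.rep = [K:ℚ] · finrank D.Y`**, `finiteDimensional_rep`,
  **`h0c_rep`** (Mackey for `h0c p D.rep`: the cosets `G_K g` fixed by `c`, i.e. the real places of
  `K`, contribute `dim ker (Y.ρ (g c g⁻¹) − 1)`, each pair `{G_K g, G_K g c}`, i.e. complex place,
  `dim Y`), `finrank_ker_add_one_rep`, `finrank_rep_eq_h0c_add` (`p` odd:
  `dim X = h⁰(⟨c⟩, X) + dim X^{c = −1}`).
-/
import Mathlib
import Fermat.Agent.PT.BR.Interface29
import Fermat.Agent.ES.T56.GWIface21
import Fermat.Agent.ES.T56.CoindFinrank22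
import Fermat.Agent.ES.T56.InvolutionCount22

set_option autoImplicit false

universe u v w

open Module

namespace Fermat.Agent.ES.T56.CoindMackey22

open Fermat.Agent.ES.T56.CoindFinrank22 Fermat.Agent.ES.T56.InvolutionCount22

/-! ### The involution `c` on the coinduced module -/

section Involution

variable {k : Type u} {G : Type v} [CommRing k] [Group G] (S : Subgroup G) (Y : Rep.{w} k ↥S)
  (c : G)

/-- Right multiplication by `c` on the right cosets `S \ G`. -/
def cAct : RC S → RC S :=
  Quotient.map' (· * c) (by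
    intro x y h
    have h' : y * x⁻¹ ∈ S := QuotientGroup.rightRel_apply.1 h
    show QuotientGroup.rightRel S (x * c) (y * c)
    rw [QuotientGroup.rightRel_apply]
    simpa [mul_assoc] using h')

theorem cAct_mk (g : G) : cAct S c ⟦g⟧ = ⟦g * c⟧ := rfl

theorem cAct_cAct (hc : c * c = 1) (q : RC S) : cAct S c (cAct S c q) = q := by
  induction q using Quotient.inductionOn with
  | h g => rw [cAct_mk, cAct_mk, mul_assoc, hc, mul_one]

/-- The element of `S` with `rep q · c = tw q · rep (q c)`. -/
noncomputable def tw (q : RC S) : ↥S := sOf S (Quotient.out q * c)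

theorem tw_mul_out (q : RC S) :
    (tw S c q : G) * Quotient.out (cAct S c q) = Quotient.out q * c := by
  have h := sOf_mul_out S (Quotient.out q * c)
  rw [← cAct_mk, Quotient.out_eq] at h
  exact h

theorem tw_mul_tw (hc : c * c = 1) (q : RC S) : tw S c q * tw S c (cAct S c q) = 1 := by
  apply Subtype.ext
  have h1 := tw_mul_out S c q
  have h2 := tw_mul_out S c (cAct S c q)
  rw [cAct_cAct S c hc] at h2
  have h3 : (tw S c q : G) * (tw S c (cAct S c q) : G) * Quotient.out q = Quotient.out q := by
    rw [mul_assoc, h2, ← mul_assoc, h1, mul_assoc, hc, mul_one]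
  simpa using mul_eq_right.1 h3

theorem coe_tw_of_fixed (q : RC S) (h : cAct S c q = q) :
    (tw S c q : G) = Quotient.out q * c * (Quotient.out q)⁻¹ := by
  have h1 := tw_mul_out S c q
  rw [h] at h1
  rw [← h1, mul_inv_cancel_right]

/-- In the coordinates `coindEquivPi`, the action of `c` is the twisted permutation operator. -/
theorem coindEquivPi_rho (f : Rep.coind S.subtype Y) :
    coindEquivPi S Y ((Rep.coind S.subtype Y).ρ c f) =
      twOp (cAct S c) (fun q => Y.ρ (tw S c q)) (coindEquivPi S Y f) := by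
  funext q
  show f.1 (Quotient.out q * c) = Y.ρ (tw S c q) (f.1 (Quotient.out (cAct S c q)))
  rw [← f.2 (tw S c q) (Quotient.out (cAct S c q))]
  exact congrArg f.1 (tw_mul_out S c q).symm

/-- The eigenspaces of `c` on the coinduced module, in coordinates. -/
noncomputable def kerRhoEquiv (a : k) :
    ↥(eig ((Rep.coind S.subtype Y).ρ c) a) ≃ₗ[k]
      ↥(eig (twOp (cAct S c) (fun q => Y.ρ (tw S c q))) a) :=
  (coindEquivPi S Y).ofSubmodules _ _ (by
    ext φ
    rw [Submodule.mem_map_equiv, mem_eig, mem_eig]
    have h := coindEquivPi_rho S Y c ((coindEquivPi S Y).symm φ)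
    rw [LinearEquiv.apply_symm_apply] at h
    rw [← h]
    constructor
    · intro h'
      rw [h', map_smul, LinearEquiv.apply_symm_apply]
    · intro h'
      apply (coindEquivPi S Y).injective
      rw [h', map_smul, LinearEquiv.apply_symm_apply])

end Involution

section Field

variable {k : Type u} {G : Type v} [Field k] [Group G] (S : Subgroup G) [S.FiniteIndex]
  (Y : Rep.{w} k ↥S) [FiniteDimensional k Y] (c : G)

/-- **Mackey's formula for an involution** `c` on `X = Coind_S^G Y` (`a = ±1`):
`dim ker (X.ρ c − a) = Σ_{q c = q} dim ker (Y.ρ (tw q) − a) + (#{q | q c ≠ q} / 2) · dim Y`. -/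
theorem finrank_ker_coind (hc : c * c = 1) (a : k) (ha : a * a = 1) :
    finrank k ↥(eig ((Rep.coind S.subtype Y).ρ c) a) =
      (∑ᶠ q : {q : RC S // cAct S c q = q}, finrank k ↥(eig (Y.ρ (tw S c q.1)) a)) +
        Nat.card {q : RC S // cAct S c q ≠ q} / 2 * finrank k Y := by
  have := finite_RC S
  rw [(kerRhoEquiv S Y c a).finrank_eq]
  exact finrank_ker_twOp (cAct S c) (fun q => Y.ρ (tw S c q)) a (cAct_cAct S c hc)
    (fun q y => by
      show (Y.ρ (tw S c q) * Y.ρ (tw S c (cAct S c q))) y = y
      rw [← map_mul, tw_mul_tw S c hc, map_one]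
      rfl) ha

theorem finrank_ker_coind_sub_one (hc : c * c = 1) :
    finrank k ↥(LinearMap.ker ((Rep.coind S.subtype Y).ρ c - 1)) =
      (∑ᶠ q : {q : RC S // cAct S c q = q},
          finrank k ↥(LinearMap.ker (Y.ρ (tw S c q.1) - 1))) +
        Nat.card {q : RC S // cAct S c q ≠ q} / 2 * finrank k Y := by
  have h := finrank_ker_coind S Y c hc 1 (one_mul 1)
  rw [eig_one] at h
  rw [h]
  congr 1
  exact finsum_congr fun q => by rw [eig_one]

theorem finrank_ker_coind_add_one (hc : c * c = 1) :
    finrank k ↥(LinearMap.ker ((Rep.coind S.subtype Y).ρ c + 1)) =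
      (∑ᶠ q : {q : RC S // cAct S c q = q},
          finrank k ↥(LinearMap.ker (Y.ρ (tw S c q.1) + 1))) +
        Nat.card {q : RC S // cAct S c q ≠ q} / 2 * finrank k Y := by
  have h := finrank_ker_coind S Y c hc (-1) (by ring)
  rw [eig_neg_one] at h
  rw [h]
  congr 1
  exact finsum_congr fun q => by rw [eig_neg_one]

end Field

/-! ### The contract objects of `GWIface21` -/

section Base

open Fermat.Agent.ES.T56.GWIface21 Fermat.Agent.PT.BR.Interface29

variable {p : ℕ} [Fact p.Prime] {Sg : Finset Nat.Primes}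

theorem finiteDimensional_K (D : BaseDatum (p := p) Sg) : FiniteDimensional ℚ D.K :=
  (D.unram.of_le D.le).1

theorem finiteIndex_K (D : BaseDatum (p := p) Sg) : D.K.fixingSubgroup.FiniteIndex := by
  have := finiteDimensional_K D
  exact finiteIndex_fixingSubgroup D.K

/-- `dim Coind_{G_K}^{G_ℚ} Y = [K:ℚ] · dim Y`. -/
theorem finrank_rep (D : BaseDatum (p := p) Sg) :
    finrank (ZMod p) D.rep = finrank ℚ D.K * finrank (ZMod p) D.Y := by
  have := finiteIndex_K D
  have := D.fd
  rw [IntermediateField.finrank_eq_fixingSubgroup_index]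
  exact finrank_coind D.K.fixingSubgroup D.Y

theorem finiteDimensional_rep (D : BaseDatum (p := p) Sg) : FiniteDimensional (ZMod p) D.rep := by
  have := finiteIndex_K D
  have := D.fd
  have := finite_RC D.K.fixingSubgroup
  exact Module.Finite.equiv (coindEquivPi D.K.fixingSubgroup D.Y).symm

/-- **`h⁰(⟨c⟩, Coind Y)`** by Mackey: the cosets `G_K g` fixed by `c` (the real places of `K`)
contribute `dim ker (Y.ρ (g c g⁻¹) − 1)`, each pair `{G_K g, G_K g c}` (complex place) `dim Y`. -/
theorem h0c_rep (D : BaseDatum (p := p) Sg) :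
    h0c p D.rep =
      (∑ᶠ q : {q : RC D.K.fixingSubgroup // cAct D.K.fixingSubgroup complexConjugation q = q},
          finrank (ZMod p) ↥(LinearMap.ker
            (D.Y.ρ (tw D.K.fixingSubgroup complexConjugation q.1) - 1))) +
        Nat.card {q : RC D.K.fixingSubgroup //
          cAct D.K.fixingSubgroup complexConjugation q ≠ q} / 2 * finrank (ZMod p) D.Y := by
  have := finiteIndex_K D
  have := D.fd
  exact finrank_ker_coind_sub_one D.K.fixingSubgroup D.Y complexConjugation
    complexConjugation_mul_self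

/-- The `(−1)`-eigenspace of `c`, by Mackey. -/
theorem finrank_ker_add_one_rep (D : BaseDatum (p := p) Sg) :
    finrank (ZMod p) ↥(LinearMap.ker (D.rep.ρ complexConjugation + 1)) =
      (∑ᶠ q : {q : RC D.K.fixingSubgroup // cAct D.K.fixingSubgroup complexConjugation q = q},
          finrank (ZMod p) ↥(LinearMap.ker
            (D.Y.ρ (tw D.K.fixingSubgroup complexConjugation q.1) + 1))) +
        Nat.card {q : RC D.K.fixingSubgroup //
          cAct D.K.fixingSubgroup complexConjugation q ≠ q} / 2 * finrank (ZMod p) D.Y := by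
  have := finiteIndex_K D
  have := D.fd
  exact finrank_ker_coind_add_one D.K.fixingSubgroup D.Y complexConjugation
    complexConjugation_mul_self

/-- For `p` odd: `dim X = h⁰(⟨c⟩, X) + dim X^{c = −1}`. -/
theorem finrank_rep_eq_h0c_add (D : BaseDatum (p := p) Sg) (hp : p ≠ 2) :
    finrank (ZMod p) D.rep =
      h0c p D.rep + finrank (ZMod p) ↥(LinearMap.ker (D.rep.ρ complexConjugation + 1)) := by
  have := finiteDimensional_rep D
  refine (finrank_ker_sub_add_ker_add (D.rep.ρ complexConjugation) (fun v => ?_) ?_).symm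
  · show (D.rep.ρ complexConjugation * D.rep.ρ complexConjugation) v = v
    rw [← map_mul, complexConjugation_mul_self, map_one]
    rfl
  · intro h
    have h2 : ((2 : ℕ) : ZMod p) = 0 := by exact_mod_cast h
    rw [ZMod.natCast_eq_zero_iff] at h2
    exact hp ((Nat.prime_dvd_prime_iff_eq Fact.out Nat.prime_two).1 h2)

end Base

end Fermat.Agent.ES.T56.CoindMackey22
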