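/-
Programme T (S56, Taylor–Wiles primes), chapter GW (Greenberg–Wiles), brick 7 `BaseShapiro`
(helper22), part 0: **functoriality of PRO's level cohomology (`PRO/LevelCoh28`) in equivariant
linear isomorphisms** — `mapH1`, `mapH2` of the identity / of a composite, the induced linear
equivalences `mapH1Equiv`, `mapH2Equiv`, the equivalence of invariants `invariantsEquiv`, and
transport of discreteness.  Generic in `(k, G, 𝓑)`; no arithmetic.
-/
import Mathlib
import Fermat.Agent.PT.PRO.LevelCoh28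

set_option autoImplicit false
set_option linter.unusedSectionVars false

universe u

open CategoryTheory groupCohomology

namespace Fermat.Agent.ES.T56.LevelCohIso22

open Fermat.Agent.PT.PRO.LevelCoh28

variable {k G : Type u} [CommRing k] [Group G] (𝓑 : LevelBasis G)
variable {A B C : Rep.{u} k G}

/-- `mapH1` of the identity. -/
theorem mapH1_id (x : H1 𝓑 A) :
    mapH1 (𝓑 := 𝓑) (LinearMap.id : A →ₗ[k] A) (fun _ _ => rfl) x = x := by
  obtain ⟨c, rfl⟩ := H1mk_surjective 𝓑 A x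
  rw [mapH1_mk]
  rfl

/-- `mapH2` of the identity. -/
theorem mapH2_id (x : H2 𝓑 A) :
    mapH2 (𝓑 := 𝓑) (LinearMap.id : A →ₗ[k] A) (fun _ _ => rfl) x = x := by
  obtain ⟨c, rfl⟩ := H2mk_surjective 𝓑 A x
  rw [mapH2_mk]
  rfl

/-- `mapH1` of a composite. -/
theorem mapH1_comp (φ : A →ₗ[k] B) (hφ : ∀ g a, φ (A.ρ g a) = B.ρ g (φ a))
    (ψ : B →ₗ[k] C) (hψ : ∀ g b, ψ (B.ρ g b) = C.ρ g (ψ b)) (x : H1 𝓑 A) :
    mapH1 (𝓑 := 𝓑) (ψ ∘ₗ φ) (fun g a => by
      rw [LinearMap.comp_apply, LinearMap.comp_apply, hφ, hψ]) x =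
      mapH1 (𝓑 := 𝓑) ψ hψ (mapH1 (𝓑 := 𝓑) φ hφ x) := by
  obtain ⟨c, rfl⟩ := H1mk_surjective 𝓑 A x
  rw [mapH1_mk, mapH1_mk, mapH1_mk]
  rfl

/-- `mapH2` of a composite. -/
theorem mapH2_comp (φ : A →ₗ[k] B) (hφ : ∀ g a, φ (A.ρ g a) = B.ρ g (φ a))
    (ψ : B →ₗ[k] C) (hψ : ∀ g b, ψ (B.ρ g b) = C.ρ g (ψ b)) (x : H2 𝓑 A) :
    mapH2 (𝓑 := 𝓑) (ψ ∘ₗ φ) (fun g a => by
      rw [LinearMap.comp_apply, LinearMap.comp_apply, hφ, hψ]) x =
      mapH2 (𝓑 := 𝓑) ψ hψ (mapH2 (𝓑 := 𝓑) φ hφ x) := by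
  obtain ⟨c, rfl⟩ := H2mk_surjective 𝓑 A x
  rw [mapH2_mk, mapH2_mk, mapH2_mk]
  rfl

section Equiv

variable (e : A ≃ₗ[k] B) (he : ∀ g a, e (A.ρ g a) = B.ρ g (e a))

include he in
/-- The inverse of an equivariant linear equivalence is equivariant. -/
theorem symm_equivariant (g : G) (b : B) : e.symm (B.ρ g b) = A.ρ g (e.symm b) := by
  apply e.injective
  rw [e.apply_symm_apply, he, e.apply_symm_apply]

/-- An equivariant linear equivalence induces a linear equivalence on level `H¹`. -/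
noncomputable def mapH1Equiv : H1 𝓑 A ≃ₗ[k] H1 𝓑 B :=
  LinearEquiv.ofLinearMap (mapH1 (𝓑 := 𝓑) (e : A →ₗ[k] B) he)
    (mapH1 (𝓑 := 𝓑) (e.symm : B →ₗ[k] A) (symm_equivariant e he))
    (LinearMap.ext fun x => by
      obtain ⟨c, rfl⟩ := H1mk_surjective 𝓑 B x
      rw [LinearMap.comp_apply, mapH1_mk, mapH1_mk]
      refine congrArg (H1mk 𝓑 B) (Subtype.ext (funext fun g => ?_))
      exact e.apply_symm_apply _)
    (LinearMap.ext fun x => by
      obtain ⟨c, rfl⟩ := H1mk_surjective 𝓑 A x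
      rw [LinearMap.comp_apply, mapH1_mk, mapH1_mk]
      refine congrArg (H1mk 𝓑 A) (Subtype.ext (funext fun g => ?_))
      exact e.symm_apply_apply _)

/-- An equivariant linear equivalence induces a linear equivalence on level `H²`. -/
noncomputable def mapH2Equiv : H2 𝓑 A ≃ₗ[k] H2 𝓑 B :=
  LinearEquiv.ofLinearMap (mapH2 (𝓑 := 𝓑) (e : A →ₗ[k] B) he)
    (mapH2 (𝓑 := 𝓑) (e.symm : B →ₗ[k] A) (symm_equivariant e he))
    (LinearMap.ext fun x => by
      obtain ⟨c, rfl⟩ := H2mk_surjective 𝓑 B x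
      rw [LinearMap.comp_apply, mapH2_mk, mapH2_mk]
      refine congrArg (H2mk 𝓑 B) (Subtype.ext (funext fun g => ?_))
      exact e.apply_symm_apply _)
    (LinearMap.ext fun x => by
      obtain ⟨c, rfl⟩ := H2mk_surjective 𝓑 A x
      rw [LinearMap.comp_apply, mapH2_mk, mapH2_mk]
      refine congrArg (H2mk 𝓑 A) (Subtype.ext (funext fun g => ?_))
      exact e.symm_apply_apply _)

theorem mapH1Equiv_apply (x : H1 𝓑 A) :
    mapH1Equiv 𝓑 e he x = mapH1 (𝓑 := 𝓑) (e : A →ₗ[k] B) he x := rfl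

theorem mapH2Equiv_apply (x : H2 𝓑 A) :
    mapH2Equiv 𝓑 e he x = mapH2 (𝓑 := 𝓑) (e : A →ₗ[k] B) he x := rfl

/-- An equivariant linear equivalence induces a linear equivalence of the invariants. -/
noncomputable def invariantsEquiv : ↥A.ρ.invariants ≃ₗ[k] ↥B.ρ.invariants where
  toFun a := ⟨e a.1, fun g => by rw [← he, a.2 g]⟩
  invFun b := ⟨e.symm b.1, fun g => by rw [← symm_equivariant e he, b.2 g]⟩
  map_add' a a' := Subtype.ext (map_add e _ _)
  map_smul' c a := Subtype.ext (map_smul e _ _)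
  left_inv a := Subtype.ext (e.symm_apply_apply _)
  right_inv b := Subtype.ext (e.apply_symm_apply _)

theorem coe_invariantsEquiv (a : ↥A.ρ.invariants) :
    ((invariantsEquiv e he a : ↥B.ρ.invariants) : B) = e a.1 := rfl

include he in
/-- Discreteness is transported by equivariant linear equivalences. -/
theorem isDiscrete_of_equiv {𝓤 : Set (Subgroup G)} (hA : IsDiscrete 𝓤 A) : IsDiscrete 𝓤 B := by
  intro b
  obtain ⟨U, hU, h⟩ := hA (e.symm b)
  refine ⟨U, hU, fun s hs => ?_⟩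
  have := congrArg e (h s hs)
  rwa [he, e.apply_symm_apply] at this

end Equiv

end Fermat.Agent.ES.T56.LevelCohIso22
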