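/-
Programme T (S56, Taylor–Wiles primes), chapter GW (Greenberg–Wiles), brick 7 `BaseShapiro`
(helper22), part B3a: **all the numbers and claims of `GWIface21` are invariant under equivariant
linear isomorphisms** `e : X ≃ₗ[ZMod p] X'`, `he : ∀ g x, e (X.ρ g x) = X'.ρ g (e x)`.

* `h0_congr` (any group), `h0loc_congr`, `h0c_congr`, `finrank_congr`;
* `continuousH1SEquiv`, `continuousH2SEquiv`, `contLocEquiv`, `continuousH2LocEquiv` (through PRO's level
  cohomology: `LevelCohIso22.mapH1Equiv/mapH2Equiv` + `Interface29.h1SEquiv/h2SEquiv/h1Equiv/h2Equiv`),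
  hence `h1S_congr`, `h2S_congr`, `h1loc_congr`, `h2loc_congr` and the transport of finite-dimensionality;
* `dualTEquiv e : dualT p X ≃ₗ dualT p X'` with `dualTEquiv_equivariant`;
* `isSmooth_congr`, `isUnramOutside_congr`;
* `globalChi_congr`, `globalChiGe_congr`, `locChiSum_congr`, `nineTermCount_congr` (iff statements).
-/
import Mathlib
import Fermat.Agent.PT.BR.Interface29
import Fermat.Agent.ES.T56.LevelCohIso22
import Fermat.Agent.ES.T56.GWIface21

set_option autoImplicit false

open CategoryTheory groupCohomology Module ExtCitation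

namespace Fermat.Agent.ES.T56.GWNumIso22

open Fermat.Agent.PT.PRO.LevelCoh28 Fermat.Agent.PT.BR.Interface29
  Fermat.Agent.ES.T56.LevelCohIso22 Fermat.Agent.ES.T56.GWIface21

variable {p : ℕ} [Fact p.Prime]

/-! ### `h⁰` over any group -/

section AnyGroup

variable {G : Type} [Group G] {X X' : Rep.{0} (ZMod p) G} (e : X ≃ₗ[ZMod p] X')
  (he : ∀ g x, e (X.ρ g x) = X'.ρ g (e x))

include he in
theorem h0_congr : h0 p X = h0 p X' :=
  (invariantsEquiv e he).finrank_eq

end AnyGroup

/-! ### Representations of `G_ℚ` -/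

variable {X X' : Rep.{0} (ZMod p) GQ} (e : X ≃ₗ[ZMod p] X')
  (he : ∀ g x, e (X.ρ g x) = X'.ρ g (e x))

include e in
theorem finrank_congr : finrank (ZMod p) X = finrank (ZMod p) X' := e.finrank_eq

include he in
/-- `e` is equivariant for the restrictions to the local Galois group at `q`. -/
theorem res_equivariant (q : Nat.Primes) (g : primeLocalGaloisGroup q) (x : X) :
    e ((Rep.res (primeLocalToGlobal q) X).ρ g x) = (Rep.res (primeLocalToGlobal q) X').ρ g (e x) :=
  he (primeLocalToGlobal q g) x

include he in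
theorem h0loc_congr (q : Nat.Primes) : h0loc p q X = h0loc p q X' :=
  h0_congr (X := Rep.res (primeLocalToGlobal q) X) (X' := Rep.res (primeLocalToGlobal q) X') e
    (res_equivariant e he q)

/-- The fixed spaces of complex conjugation. -/
noncomputable def kerConjEquiv :
    ↥(LinearMap.ker (X.ρ complexConjugation - 1)) ≃ₗ[ZMod p]
      ↥(LinearMap.ker (X'.ρ complexConjugation - 1)) :=
  e.ofSubmodules _ _ (by
    ext x'
    rw [Submodule.mem_map_equiv, LinearMap.mem_ker, LinearMap.mem_ker, LinearMap.sub_apply,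
      LinearMap.sub_apply, Module.End.one_apply, Module.End.one_apply, sub_eq_zero, sub_eq_zero]
    constructor
    · intro h
      have := congrArg e h
      rwa [he, e.apply_symm_apply] at this
    · intro h
      apply e.injective
      rw [he, e.apply_symm_apply, h])

include he in
theorem h0c_congr : h0c p X = h0c p X' :=
  (kerConjEquiv e he).finrank_eq

/-- Global `H¹` unramified outside `Sg`. -/
noncomputable def continuousH1SEquiv (Sg : Finset Nat.Primes) :
    ↥(continuousH1S Sg X) ≃ₗ[ZMod p] ↥(continuousH1S Sg X') :=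
  ((h1SEquiv Sg X).symm.trans (mapH1Equiv (levelBasisS Sg) e he)).trans (h1SEquiv Sg X')

/-- Global `H²` unramified outside `Sg`. -/
noncomputable def continuousH2SEquiv (Sg : Finset Nat.Primes) :
    continuousH2S Sg X ≃ₗ[ZMod p] continuousH2S Sg X' :=
  ((h2SEquiv Sg X).trans (mapH2Equiv (levelBasisS Sg) e he)).trans (h2SEquiv Sg X').symm

/-- Continuous local `H¹` at `q`. -/
noncomputable def contLocEquiv (q : Nat.Primes) :
    ↥(contLoc p q X) ≃ₗ[ZMod p] ↥(contLoc p q X') :=
  ((h1Equiv (primeLocalToGlobal q) (Rep.res (primeLocalToGlobal q) X)).symm.trans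
    (mapH1Equiv (A := Rep.res (primeLocalToGlobal q) X) (B := Rep.res (primeLocalToGlobal q) X')
      (levelBasisOf (primeLocalToGlobal q)) e (res_equivariant e he q))).trans
    (h1Equiv (primeLocalToGlobal q) (Rep.res (primeLocalToGlobal q) X'))

/-- Continuous local `H²` at `q`. -/
noncomputable def continuousH2LocEquiv (q : Nat.Primes) :
    continuousH2 (primeLocalToGlobal q) (Rep.res (primeLocalToGlobal q) X) ≃ₗ[ZMod p]
      continuousH2 (primeLocalToGlobal q) (Rep.res (primeLocalToGlobal q) X') :=
  ((h2Equiv (primeLocalToGlobal q) (Rep.res (primeLocalToGlobal q) X)).trans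
    (mapH2Equiv (A := Rep.res (primeLocalToGlobal q) X) (B := Rep.res (primeLocalToGlobal q) X')
      (levelBasisOf (primeLocalToGlobal q)) e (res_equivariant e he q))).trans
    (h2Equiv (primeLocalToGlobal q) (Rep.res (primeLocalToGlobal q) X')).symm

include he in
theorem h1S_congr (Sg : Finset Nat.Primes) : h1S p Sg X = h1S p Sg X' :=
  (continuousH1SEquiv e he Sg).finrank_eq

include he in
theorem h2S_congr (Sg : Finset Nat.Primes) : h2S p Sg X = h2S p Sg X' :=
  (continuousH2SEquiv e he Sg).finrank_eq

include he in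
theorem h1loc_congr (q : Nat.Primes) : h1loc p q X = h1loc p q X' :=
  (contLocEquiv e he q).finrank_eq

include he in
theorem h2loc_congr (q : Nat.Primes) : h2loc p q X = h2loc p q X' :=
  (continuousH2LocEquiv e he q).finrank_eq

include he in
theorem finiteDimensional_h1S_congr (Sg : Finset Nat.Primes) :
    FiniteDimensional (ZMod p) ↥(continuousH1S Sg X) ↔
      FiniteDimensional (ZMod p) ↥(continuousH1S Sg X') :=
  ⟨fun _ => Module.Finite.equiv (continuousH1SEquiv e he Sg),
    fun _ => Module.Finite.equiv (continuousH1SEquiv e he Sg).symm⟩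

include he in
theorem finiteDimensional_h2S_congr (Sg : Finset Nat.Primes) :
    FiniteDimensional (ZMod p) (continuousH2S Sg X) ↔
      FiniteDimensional (ZMod p) (continuousH2S Sg X') :=
  ⟨fun _ => Module.Finite.equiv (continuousH2SEquiv e he Sg),
    fun _ => Module.Finite.equiv (continuousH2SEquiv e he Sg).symm⟩

/-! ### The dual -/

/-- The induced isomorphism of the duals `X* ≃ X'*` (transpose of `e⁻¹`). -/
noncomputable def dualTEquiv : (dualT p X) ≃ₗ[ZMod p] (dualT p X') :=
  e.symm.dualMap

theorem dualTEquiv_apply (f : Module.Dual (ZMod p) X) (x' : X') :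
    dualTEquiv e f x' = f (e.symm x') := rfl

include he in
theorem dualTEquiv_equivariant (g : GQ) (f : dualT p X) :
    dualTEquiv e ((dualT p X).ρ g f) = (dualT p X').ρ g (dualTEquiv e f) := by
  apply LinearMap.ext
  intro x'
  rw [Rep.dualTwist_ρ_apply, dualTEquiv_apply, Rep.dualTwist_ρ_apply, LinearMap.smul_apply,
    LinearMap.smul_apply, LinearMap.comp_apply, LinearMap.comp_apply, dualTEquiv_apply,
    symm_equivariant e he]

/-! ### The hypotheses -/

include he in
theorem isSmooth_congr : IsSmooth p X ↔ IsSmooth p X' := by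
  constructor
  · intro h x'
    obtain ⟨F, hF, hs⟩ := h (e.symm x')
    refine ⟨F, hF, fun s hsF => ?_⟩
    have := congrArg e (hs s hsF)
    rwa [he, e.apply_symm_apply] at this
  · intro h x
    obtain ⟨F, hF, hs⟩ := h (e x)
    refine ⟨F, hF, fun s hsF => ?_⟩
    apply e.injective
    rw [he, hs s hsF]

include he in
theorem isUnramOutside_congr (Sg : Finset Nat.Primes) :
    IsUnramOutside p Sg X ↔ IsUnramOutside p Sg X' := by
  constructor
  · intro h q hq A hA g hg
    apply LinearMap.ext
    intro x'
    have h1 := h q hq A hA g hg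
    have := he g (e.symm x')
    rw [h1, Module.End.one_apply, e.apply_symm_apply] at this
    exact this.symm
  · intro h q hq A hA g hg
    apply LinearMap.ext
    intro x
    have h1 := h q hq A hA g hg
    apply e.injective
    rw [he, h1]
    rfl

/-! ### The claims -/

include he in
theorem globalChi_congr (Sg : Finset Nat.Primes) : GlobalChi Sg X ↔ GlobalChi Sg X' := by
  unfold GlobalChi
  rw [finiteDimensional_h1S_congr e he Sg, finiteDimensional_h2S_congr e he Sg,
    h1S_congr e he Sg, h2S_congr e he Sg, h0c_congr e he, h0_congr e he, finrank_congr e]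

include he in
theorem globalChiGe_congr (Sg : Finset Nat.Primes) : GlobalChiGe Sg X ↔ GlobalChiGe Sg X' := by
  unfold GlobalChiGe
  rw [finiteDimensional_h1S_congr e he Sg, finiteDimensional_h2S_congr e he Sg,
    h1S_congr e he Sg, h2S_congr e he Sg, h0c_congr e he, h0_congr e he, finrank_congr e]

include he in
theorem locChiSum_congr (Sg : Finset Nat.Primes) : LocChiSum Sg X ↔ LocChiSum Sg X' := by
  have hs1 : ∑ q : ↥Sg, (h0loc p q.1 X + h2loc p q.1 X) =
      ∑ q : ↥Sg, (h0loc p q.1 X' + h2loc p q.1 X') :=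
    Finset.sum_congr rfl fun q _ => by rw [h0loc_congr e he q.1, h2loc_congr e he q.1]
  have hs2 : ∑ q : ↥Sg, h1loc p q.1 X = ∑ q : ↥Sg, h1loc p q.1 X' :=
    Finset.sum_congr rfl fun q _ => h1loc_congr e he q.1
  unfold LocChiSum
  rw [finrank_congr e, hs1, hs2]

include he in
theorem nineTermCount_congr (Sg : Finset Nat.Primes) :
    NineTermCount Sg X ↔ NineTermCount Sg X' := by
  have hs1 : ∑ q : ↥Sg, (h0loc p q.1 X + h2loc p q.1 X) =
      ∑ q : ↥Sg, (h0loc p q.1 X' + h2loc p q.1 X') :=
    Finset.sum_congr rfl fun q _ => by rw [h0loc_congr e he q.1, h2loc_congr e he q.1]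
  have hs2 : ∑ q : ↥Sg, h1loc p q.1 X = ∑ q : ↥Sg, h1loc p q.1 X' :=
    Finset.sum_congr rfl fun q _ => h1loc_congr e he q.1
  unfold NineTermCount
  rw [h0_congr e he, h2S_congr e he Sg, h1S_congr e he Sg,
    h0_congr (dualTEquiv e) (dualTEquiv_equivariant e he),
    h2S_congr (dualTEquiv e) (dualTEquiv_equivariant e he) Sg,
    h1S_congr (dualTEquiv e) (dualTEquiv_equivariant e he) Sg, hs1, hs2]

end Fermat.Agent.ES.T56.GWNumIso22
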