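/-
Programme T (S56), chapter GW-D, glue for brick 10 (`BaseLocChi`), final form — helper8.

`BaseLocChiOfLe8` with its two plumbing hypotheses discharged by helper22's files:
`hfd := CoindMackey22.finiteDimensional_rep` and `hGE' D :=` the one-sided base case at the dual
datum `BaseDual22.dualDatum D`, transported along `BaseDual22.dualRepEquiv D` by
`GWNumIso22.globalChiGe_congr`.

* `baseLocChi_of_baseLocChiLe : p ≠ 2 → BaseCaseGE Sg → (∀ D, NineTermCount Sg D.rep) → BaseLocChiLe Sg →
    BaseLocChi Sg`;
* `globalChi_base : … → ∀ D, GlobalChi Sg D.rep` (Tate's formula on the base class `𝔅`).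
-/
import Mathlib
import Fermat.Agent.ES.T56.BaseLocChiOfLe8
import Fermat.Agent.ES.T56.CoindMackey22
import Fermat.Agent.ES.T56.BaseDual22
import Fermat.Agent.ES.T56.GWNumIso22

set_option autoImplicit false

namespace Fermat.Agent.ES.T56.BaseLocChiFinal8

open Module ExtCitation Fermat.Agent.ES.T56.GWIface21 Fermat.Agent.ES.T56.BaseLocChiOfLe8

variable {p : ℕ} [Fact p.Prime] {Sg : Finset Nat.Primes}

/-- The one-sided base case for the dual `X* = dualT p D.rep` of a base representation. -/
theorem globalChiGe_dualT (hGE : BaseCaseGE (p := p) Sg) (D : BaseDatum (p := p) Sg) :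
    GlobalChiGe Sg (dualT p D.rep) :=
  (GWNumIso22.globalChiGe_congr (BaseDual22.dualRepEquiv D)
    (BaseDual22.dualRepEquiv_equivariant D) Sg).mpr (hGE (BaseDual22.dualDatum D))

/-- **`BaseLocChi` from the one-sided local count.** -/
theorem baseLocChi_of_baseLocChiLe (hp2 : p ≠ 2) (hGE : BaseCaseGE (p := p) Sg)
    (hN : ∀ D : BaseDatum (p := p) Sg, NineTermCount Sg D.rep)
    (hLe : BaseLocChiLe (p := p) Sg) : BaseLocChi (p := p) Sg :=
  baseLocChi_of_le hp2 CoindMackey22.finiteDimensional_rep hGE (globalChiGe_dualT hGE) hN hLe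

/-- **Tate's formula on the base class** from `BaseCaseGE`, the 9-term count and the one-sided local
count. -/
theorem globalChi_base (hp2 : p ≠ 2) (hGE : BaseCaseGE (p := p) Sg)
    (hN : ∀ D : BaseDatum (p := p) Sg, NineTermCount Sg D.rep)
    (hLe : BaseLocChiLe (p := p) Sg) (D : BaseDatum (p := p) Sg) : GlobalChi Sg D.rep :=
  globalChi_base_of_le hp2 CoindMackey22.finiteDimensional_rep hGE (globalChiGe_dualT hGE) hN hLe D

end Fermat.Agent.ES.T56.BaseLocChiFinal8
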