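/-
Programme T (S56, Taylor–Wiles primes), chapter GW (Greenberg–Wiles), brick 7 `BaseShapiro`
(helper22), part 1: **Mathlib's full coinduction `Rep.coind i X` versus PRO's smooth coinduction
`SmoothCoind28.scoind i 𝓑G X`**.  Both are spaces of functions `f : G → X` with
`f (i h * g) = h • f g`, with `G` acting by right translation; `scoind` keeps the level functions.
When EVERY coinduced function is a level function (`AllLevel`; e.g. when some normal member `U` of
the basis of `G` lies in the image of elements of `H` acting trivially on `X`), the two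
representations are isomorphic, hence have the same level cohomology and the same invariants.

* `AllLevel i 𝓑G X`, `allLevel_of_normal`;
* `coindEquivScoind`, `coindEquivScoind_equivariant`, `isDiscrete_coind`;
* `coindH1Equiv`, `coindH2Equiv` : `Hⁿ(𝓑G; Rep.coind i X) ≃ Hⁿ(𝓑G; scoind i 𝓑G X)`;
* `shapiroH1`, `shapiroH2` : composed with `ShapiroLevel28.sh1Equiv/sh2Equiv`:
  `Hⁿ(𝓑G; Rep.coind i X) ≃ Hⁿ(𝓑H; X)`;
* `coindInvariantsEquiv` : `(Rep.coind i X)^G ≃ X^H` (evaluation at `1`; no hypothesis).
-/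
import Mathlib
import Fermat.Agent.PT.PRO.ShapiroLevel28
import Fermat.Agent.ES.T56.LevelCohIso22

set_option autoImplicit false
set_option linter.unusedSectionVars false

universe u

open CategoryTheory groupCohomology

namespace Fermat.Agent.ES.T56.CoindSmooth22

open Fermat.Agent.PT.PRO.LevelCoh28 Fermat.Agent.PT.PRO.LevelCohRes28
  Fermat.Agent.PT.PRO.SmoothCoind28 Fermat.Agent.PT.PRO.ShapiroLevel28
  Fermat.Agent.ES.T56.LevelCohIso22

variable {k G H : Type u} [CommRing k] [Group G] [Group H]
variable (i : H →* G) (𝓑G : LevelBasis G) (X : Rep.{u} k H)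

/-- Every coinduced function is a level function for the basis `𝓑G`. -/
def AllLevel : Prop :=
  ∀ f : G → X, f ∈ Representation.coindV i X.ρ → IsLevel₁ 𝓑G.sets f

/-- `AllLevel` holds when some NORMAL member `U` of the basis consists of images of elements of `H`
acting trivially on `X`. -/
theorem allLevel_of_normal {U : Subgroup G} (hU : U ∈ 𝓑G.sets) (hn : U.Normal)
    (htriv : ∀ u ∈ U, ∃ h : H, i h = u ∧ X.ρ h = 1) : AllLevel i 𝓑G X := by
  intro f hf
  refine ⟨U, hU, fun g s hs => ?_⟩
  obtain ⟨h, hh, hρ⟩ := htriv (g * s * g⁻¹) (hn.conj_mem s hs g)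
  have h1 : g * s = i h * g := by rw [hh]; group
  rw [h1, hf h g, hρ]
  rfl

variable {i 𝓑G X}

/-- The identity on functions, from the full to the smooth coinduced module. -/
noncomputable def coindEquivScoind (hall : AllLevel i 𝓑G X) :
    (Rep.coind i X) ≃ₗ[k] (scoind i 𝓑G X) where
  toFun f := ⟨f.1, fun h g => f.2 h g, hall f.1 f.2⟩
  invFun f := ⟨f.1, fun h g => f.2.1 h g⟩
  map_add' _ _ := rfl
  map_smul' _ _ := rfl
  left_inv _ := rfl
  right_inv _ := rfl

theorem coindEquivScoind_apply (hall : AllLevel i 𝓑G X) (f : Rep.coind i X) (g : G) :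
    (coindEquivScoind hall f).1 g = f.1 g := rfl

theorem coindEquivScoind_equivariant (hall : AllLevel i 𝓑G X) (g : G) (f : Rep.coind i X) :
    coindEquivScoind hall ((Rep.coind i X).ρ g f) =
      (scoind i 𝓑G X).ρ g (coindEquivScoind hall f) := rfl

/-- Under `AllLevel`, the full coinduced module is discrete. -/
theorem isDiscrete_coind (hall : AllLevel i 𝓑G X) : IsDiscrete 𝓑G.sets (Rep.coind i X) :=
  isDiscrete_of_equiv (coindEquivScoind hall).symm
    (symm_equivariant (coindEquivScoind hall) (coindEquivScoind_equivariant hall))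
    (isDiscrete_scoind i 𝓑G X)

/-- Level `H¹` of the full and of the smooth coinduced module. -/
noncomputable def coindH1Equiv (hall : AllLevel i 𝓑G X) :
    H1 𝓑G (Rep.coind i X) ≃ₗ[k] H1 𝓑G (scoind i 𝓑G X) :=
  mapH1Equiv 𝓑G (coindEquivScoind hall) (coindEquivScoind_equivariant hall)

/-- Level `H²` of the full and of the smooth coinduced module. -/
noncomputable def coindH2Equiv (hall : AllLevel i 𝓑G X) :
    H2 𝓑G (Rep.coind i X) ≃ₗ[k] H2 𝓑G (scoind i 𝓑G X) :=
  mapH2Equiv 𝓑G (coindEquivScoind hall) (coindEquivScoind_equivariant hall)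

section Shapiro

variable (𝓑H : LevelBasis H) (hcont : IsLevelHom i 𝓑H.sets 𝓑G.sets)
  (hind : ∀ V ∈ 𝓑H.sets, ∃ U ∈ 𝓑G.sets, U.comap i ≤ V)
  (hX : IsDiscrete 𝓑H.sets X) (hall : AllLevel i 𝓑G X)

/-- **Shapiro's lemma in degree 1 for Mathlib's coinduction.** -/
noncomputable def shapiroH1 : H1 𝓑G (Rep.coind i X) ≃ₗ[k] H1 𝓑H X :=
  (coindH1Equiv hall).trans (sh1Equiv i 𝓑G 𝓑H hcont hind X hX)

/-- **Shapiro's lemma in degree 2 for Mathlib's coinduction.** -/
noncomputable def shapiroH2 : H2 𝓑G (Rep.coind i X) ≃ₗ[k] H2 𝓑H X :=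
  (coindH2Equiv hall).trans (sh2Equiv i 𝓑G 𝓑H hcont hind X hX)

end Shapiro

/-- **Shapiro's lemma in degree 0**: evaluation at `1` identifies the invariants of the coinduced
module with the invariants of `X`. -/
noncomputable def coindInvariantsEquiv :
    ↥(Rep.coind i X).ρ.invariants ≃ₗ[k] ↥X.ρ.invariants where
  toFun f := ⟨f.1.1 1, fun h => by
    have h1 := f.1.2 h 1
    have h2 := congrArg (fun φ : Rep.coind i X => φ.1 1) (f.2 (i h))
    simp only [Rep.coind, Representation.coind_apply] at h2
    rw [← h1]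
    simpa using h2⟩
  invFun x := ⟨⟨fun _ => x.1, fun h g => (x.2 h).symm⟩, fun g => rfl⟩
  map_add' _ _ := rfl
  map_smul' _ _ := rfl
  left_inv f := by
    apply Subtype.ext
    apply Subtype.ext
    funext g
    have h2 := congrArg (fun φ : Rep.coind i X => φ.1 1) (f.2 g)
    simpa using h2.symm
  right_inv _ := rfl

theorem coe_coindInvariantsEquiv (f : ↥(Rep.coind i X).ρ.invariants) :
    ((coindInvariantsEquiv (i := i) (X := X) f : ↥X.ρ.invariants) : X) = f.1.1 1 := rfl

end Fermat.Agent.ES.T56.CoindSmooth22
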