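/-
Programme T (S56, Taylor–Wiles primes), chapter GW (Greenberg–Wiles), brick 7 `BaseShapiro`
(helper22), part 2: **the Shapiro bridge for number fields** (spine risk R1).  For a subfield
`K ≤ ℚ̄`, a finite set `Sg` of primes and a representation `Y` of `G_K = K.fixingSubgroup` which
is trivial on `G_L` for some `L ⊇ K` unramified outside `Sg` (`TrivOn`; so `K` is a number field
unramified outside `Sg` and `Y` is a module of `Gal(L/K)`), the cohomology of `G_ℚ` with
coefficients in Mathlib's coinduced module `Rep.coind K.fixingSubgroup.subtype Y`, in the Prelude's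
`continuousH1S Sg`, `continuousH2S Sg` sense, is PRO's level cohomology of the group `G_K` for the
basis `basisK Sg K = {G_K ∩ G_F : F unramified outside Sg}` with coefficients in `Y`:

* `shapiroH0 : (Rep.coind … Y)^{G_ℚ} ≃ Y^{G_K}`                               (no hypothesis),
* `shapiroH1S : continuousH1S Sg (Rep.coind … Y) ≃ H1 (basisK Sg K) Y`,
* `shapiroH2S : continuousH2S Sg (Rep.coind … Y) ≃ H2 (basisK Sg K) Y`,

and, for the contract `GWIface21.BaseDatum` (`D.rep = Rep.coind D.K.fixingSubgroup.subtype D.Y`):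
`trivOn_baseDatum`, `h0_rep`, `h1S_rep`, `h2S_rep` (the numbers of `GWIface21`).
Generic in the coefficient ring `k : Type`.
-/
import Mathlib
import Fermat.Agent.PT.BR.Interface29
import Fermat.Agent.ES.T56.CoindSmooth22
import Fermat.Agent.ES.T56.GWIface21

set_option autoImplicit false
set_option linter.unusedSectionVars false

open CategoryTheory groupCohomology Module

namespace Fermat.Agent.ES.T56.BaseShapiro22

open Fermat.Agent.PT.PRO.LevelCoh28 Fermat.Agent.PT.PRO.LevelCohRes28
  Fermat.Agent.PT.BR.Interface29 Fermat.Agent.ES.T56.CoindSmooth22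

variable {k : Type} [CommRing k]
variable (Sg : Finset Nat.Primes) (K : IntermediateField ℚ (AlgebraicClosure ℚ))

/-- The level basis of `G_K`: the subgroups `G_K ∩ G_F`, `F` finite over `ℚ` and unramified outside
`Sg`. -/
noncomputable def basisK : LevelBasis ↥K.fixingSubgroup :=
  levelBasisOfS K.fixingSubgroup.subtype Sg

/-- `Y` is trivial on `G_L`, for a field `L ⊇ K` unramified outside `Sg`. -/
structure TrivOn (Y : Rep.{0} k ↥K.fixingSubgroup)
    (L : IntermediateField ℚ (AlgebraicClosure ℚ)) : Prop where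
  le : K ≤ L
  unram : L.IsUnramifiedOutside Sg
  triv : ∀ s : ↥K.fixingSubgroup, (s : GalQ) ∈ L.fixingSubgroup → Y.ρ s = 1

variable {Sg K} {Y : Rep.{0} k ↥K.fixingSubgroup} {L : IntermediateField ℚ (AlgebraicClosure ℚ)}

/-- `Y` is a discrete `G_K`-module for the basis `basisK Sg K`. -/
theorem TrivOn.isDiscrete (h : TrivOn Sg K Y L) : IsDiscrete (basisK Sg K).sets Y := by
  intro y
  refine ⟨L.fixingSubgroup.comap K.fixingSubgroup.subtype, ⟨L, h.unram, rfl⟩, fun s hs => ?_⟩
  rw [h.triv s hs]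
  rfl

/-- Every coinduced function is a level function for `levelBasisS Sg`. -/
theorem TrivOn.allLevel (h : TrivOn Sg K Y L) :
    AllLevel K.fixingSubgroup.subtype (levelBasisS Sg) Y := by
  obtain ⟨L', hLL', hgal, hun⟩ :=
    Fermat.Agent.PT.BR.UnramBridge13.exists_isGalois_isUnramifiedOutside h.unram
  refine allLevel_of_normal _ _ _ (U := L'.fixingSubgroup) ⟨L', hun, rfl⟩
    (normal_fixingSubgroup L' hgal) fun u hu => ?_
  have huL : u ∈ L.fixingSubgroup := IntermediateField.fixingSubgroup_antitone hLL' hu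
  have huK : u ∈ K.fixingSubgroup := IntermediateField.fixingSubgroup_antitone h.le huL
  exact ⟨⟨u, huK⟩, rfl, h.triv ⟨u, huK⟩ huL⟩

/-- The basis of `G_K` is induced from the basis of `G_ℚ`. -/
theorem basisK_induced : ∀ V ∈ (basisK Sg K).sets,
    ∃ U ∈ (levelBasisS Sg).sets, U.comap K.fixingSubgroup.subtype ≤ V := by
  rintro V ⟨F, hF, rfl⟩
  exact ⟨_, ⟨F, hF, rfl⟩, le_rfl⟩

/-- The inclusion `G_K → G_ℚ` is continuous for the two bases. -/
theorem isLevelHom_subtype :
    IsLevelHom K.fixingSubgroup.subtype (basisK Sg K).sets (levelBasisS Sg).sets :=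
  isLevelHom_levelsOfS_levelsS K.fixingSubgroup.subtype Sg

/-- **Shapiro in degree 0.** -/
noncomputable def shapiroH0 (Y : Rep.{0} k ↥K.fixingSubgroup) :
    ↥(Rep.coind K.fixingSubgroup.subtype Y).ρ.invariants ≃ₗ[k] ↥Y.ρ.invariants :=
  coindInvariantsEquiv

/-- **Shapiro in degree 1**, level form. -/
noncomputable def shapiroH1L (h : TrivOn Sg K Y L) :
    H1 (levelBasisS Sg) (Rep.coind K.fixingSubgroup.subtype Y) ≃ₗ[k] H1 (basisK Sg K) Y :=
  shapiroH1 (basisK Sg K) isLevelHom_subtype basisK_induced h.isDiscrete h.allLevel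

/-- **Shapiro in degree 2**, level form. -/
noncomputable def shapiroH2L (h : TrivOn Sg K Y L) :
    H2 (levelBasisS Sg) (Rep.coind K.fixingSubgroup.subtype Y) ≃ₗ[k] H2 (basisK Sg K) Y :=
  shapiroH2 (basisK Sg K) isLevelHom_subtype basisK_induced h.isDiscrete h.allLevel

/-- **Shapiro in degree 1**: the Prelude's `H¹(G_S, Coind Y)` is the level `H¹` of `G_K`. -/
noncomputable def shapiroH1S (h : TrivOn Sg K Y L) :
    ↥(continuousH1S Sg (Rep.coind K.fixingSubgroup.subtype Y)) ≃ₗ[k] H1 (basisK Sg K) Y :=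
  (h1SEquiv Sg _).symm.trans (shapiroH1L h)

/-- **Shapiro in degree 2**: the Prelude's `H²(G_S, Coind Y)` is the level `H²` of `G_K`. -/
noncomputable def shapiroH2S (h : TrivOn Sg K Y L) :
    continuousH2S Sg (Rep.coind K.fixingSubgroup.subtype Y) ≃ₗ[k] H2 (basisK Sg K) Y :=
  (h2SEquiv Sg _).trans (shapiroH2L h)

/-- The coinduced module is discrete for `levelBasisS Sg`. -/
theorem TrivOn.isDiscrete_coind (h : TrivOn Sg K Y L) :
    IsDiscrete (levelBasisS Sg).sets (Rep.coind K.fixingSubgroup.subtype Y) :=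
  CoindSmooth22.isDiscrete_coind h.allLevel

/-! ### The contract objects of `GWIface21` -/

section Base

open Fermat.Agent.ES.T56.GWIface21

variable {p : ℕ} [Fact p.Prime] {Sg : Finset Nat.Primes}

/-- The representation of a base datum is trivial on `G_L`. -/
theorem trivOn_baseDatum (D : BaseDatum (p := p) Sg) : TrivOn Sg D.K D.Y D.L :=
  ⟨D.le, D.unram, D.triv⟩

/-- `h⁰(G_ℚ, Coind Y) = h⁰(G_K, Y)`. -/
theorem h0_rep (D : BaseDatum (p := p) Sg) : h0 p D.rep = h0 p D.Y :=
  (shapiroH0 D.Y).finrank_eq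

/-- `h¹(G_S, Coind Y) = dim H¹(G_{K,S}, Y)`. -/
theorem h1S_rep (D : BaseDatum (p := p) Sg) :
    h1S p Sg D.rep = finrank (ZMod p) (H1 (basisK Sg D.K) D.Y) :=
  (shapiroH1S (trivOn_baseDatum D)).finrank_eq

/-- `h²(G_S, Coind Y) = dim H²(G_{K,S}, Y)`. -/
theorem h2S_rep (D : BaseDatum (p := p) Sg) :
    h2S p Sg D.rep = finrank (ZMod p) (H2 (basisK Sg D.K) D.Y) :=
  (shapiroH2S (trivOn_baseDatum D)).finrank_eq

end Base

end Fermat.Agent.ES.T56.BaseShapiro22
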