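/-
Programme T (S56), chapter GW, helper21: **coinduction from a subgroup is exact, and transitive**.

`S ≤ G`, `A B : Rep k ↥S`, `X = Rep.coind S.subtype A` (functions `f : G → A`, `f (s g) = s • f g`,
right translation).

* `cmap S φ hφ : Rep.coind S.subtype A →ₗ[k] Rep.coind S.subtype B` (post-composition with an
  equivariant `φ`), `cmap_apply`, `cmap_equivariant`;
* `cmap_injective`, `cmap_surjective` (through helper22's coset representatives
  `CoindFinrank22.coindEquivPi`), `range_cmap_eq_ker`;
* `coindTrans` : transitivity `Coind_H^G (Coind_{H'}^H T) ≃ Coind_{H''}^G (T ∘ e)` for group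
  homomorphisms `i : H →* G`, `j : H' →* H`, a surjection `e : H'' →* H'` and `ij : H'' →* G` with
  `ij x = i (j (e x))` (so that `ij` may be LITERALLY a `Subgroup.subtype`), with `coindTrans_equivariant`.
-/
import Mathlib
import Fermat.Agent.ES.T56.CoindFinrank22

set_option autoImplicit false

universe u v w

namespace Fermat.Agent.ES.T56.CoindExact21

open Fermat.Agent.ES.T56.CoindFinrank22

/-! ### Post-composition -/

section Map

variable {k : Type u} {G : Type v} [CommRing k] [Group G] (S : Subgroup G)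
  {A B C : Rep.{w} k ↥S}

/-- Post-composition with an equivariant map. -/
def cmap (φ : A →ₗ[k] B) (hφ : ∀ s a, φ (A.ρ s a) = B.ρ s (φ a)) :
    (Rep.coind S.subtype A) →ₗ[k] (Rep.coind S.subtype B) where
  toFun f := ⟨fun g => φ (f.1 g), fun s g => by
    show φ (f.1 (S.subtype s * g)) = B.ρ s (φ (f.1 g))
    rw [f.2 s g, hφ]⟩
  map_add' f f' := by
    apply Subtype.ext
    funext g
    exact map_add φ (f.1 g) (f'.1 g)
  map_smul' c f := by
    apply Subtype.ext
    funext g
    exact map_smul φ c (f.1 g)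

theorem cmap_apply (φ : A →ₗ[k] B) (hφ : ∀ s a, φ (A.ρ s a) = B.ρ s (φ a))
    (f : Rep.coind S.subtype A) (g : G) : (cmap S φ hφ f).1 g = φ (f.1 g) := rfl

theorem cmap_equivariant (φ : A →ₗ[k] B) (hφ : ∀ s a, φ (A.ρ s a) = B.ρ s (φ a)) (g : G)
    (f : Rep.coind S.subtype A) :
    cmap S φ hφ ((Rep.coind S.subtype A).ρ g f) = (Rep.coind S.subtype B).ρ g (cmap S φ hφ f) :=
  rfl

theorem cmap_injective (φ : A →ₗ[k] B) (hφ : ∀ s a, φ (A.ρ s a) = B.ρ s (φ a))
    (hinj : Function.Injective φ) : Function.Injective (cmap S φ hφ) := by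
  intro f f' h
  apply Subtype.ext
  funext g
  exact hinj (congrFun (congrArg Subtype.val h) g)

theorem cmap_surjective (ψ : B →ₗ[k] C) (hψ : ∀ s b, ψ (B.ρ s b) = C.ρ s (ψ b))
    (hsurj : Function.Surjective ψ) : Function.Surjective (cmap S ψ hψ) := by
  intro f''
  refine ⟨(coindEquivPi S B).symm fun q => Classical.choose (hsurj (coindEquivPi S C f'' q)), ?_⟩
  apply (coindEquivPi S C).injective
  funext q
  rw [coindEquivPi_apply, cmap_apply]
  have h1 : ((coindEquivPi S B).symm fun q =>
      Classical.choose (hsurj (coindEquivPi S C f'' q))).1 (Quotient.out q) =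
      Classical.choose (hsurj (coindEquivPi S C f'' q)) := by
    have := congrFun ((coindEquivPi S B).apply_symm_apply fun q =>
      Classical.choose (hsurj (coindEquivPi S C f'' q))) q
    rwa [coindEquivPi_apply] at this
  rw [h1]
  exact Classical.choose_spec (hsurj (coindEquivPi S C f'' q))

theorem range_cmap_eq_ker (φ : A →ₗ[k] B) (hφ : ∀ s a, φ (A.ρ s a) = B.ρ s (φ a))
    (ψ : B →ₗ[k] C) (hψ : ∀ s b, ψ (B.ρ s b) = C.ρ s (ψ b))
    (hinj : Function.Injective φ) (hex : LinearMap.range φ = LinearMap.ker ψ) :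
    LinearMap.range (cmap S φ hφ) = LinearMap.ker (cmap S ψ hψ) := by
  ext f
  rw [LinearMap.mem_range, LinearMap.mem_ker]
  constructor
  · rintro ⟨f', rfl⟩
    apply Subtype.ext
    funext g
    show ψ (φ (f'.1 g)) = 0
    have : φ (f'.1 g) ∈ LinearMap.range φ := ⟨_, rfl⟩
    rw [hex] at this
    exact this
  · intro hf
    have hmem : ∀ g, f.1 g ∈ LinearMap.range φ := by
      intro g
      rw [hex]
      exact congrFun (congrArg Subtype.val hf) g
    refine ⟨⟨fun g => Classical.choose (hmem g), fun s g => ?_⟩, ?_⟩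
    · apply hinj
      show φ (Classical.choose (hmem (S.subtype s * g))) = φ (A.ρ s (Classical.choose (hmem g)))
      rw [Classical.choose_spec (hmem (S.subtype s * g)), hφ, Classical.choose_spec (hmem g)]
      exact f.2 s g
    · apply Subtype.ext
      funext g
      exact Classical.choose_spec (hmem g)

end Map

/-! ### Transitivity -/

section Trans

variable {k : Type u} {G H H' H'' : Type v} [CommRing k] [Group G] [Group H] [Group H'] [Group H'']
  (i : H →* G) (j : H' →* H) (e : H'' →* H') (he : Function.Surjective e) (ij : H'' →* G)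
  (hij : ∀ x, ij x = i (j (e x))) (T : Rep.{w} k H')

/-- **Transitivity of coinduction**, `F ↦ (g ↦ F g 1)`. -/
noncomputable def coindTrans :
    (Rep.coind i (Rep.coind j T)) ≃ₗ[k] (Rep.coind ij (Rep.res e T)) where
  toFun F := ⟨fun g => (F.1 g).1 1, fun x g => by
    show (F.1 (ij x * g)).1 1 = T.ρ (e x) ((F.1 g).1 1)
    rw [hij, F.2 (j (e x)) g]
    show (F.1 g).1 (1 * j (e x)) = T.ρ (e x) ((F.1 g).1 1)
    rw [one_mul, ← mul_one (j (e x))]
    exact (F.1 g).2 (e x) 1⟩
  map_add' _ _ := rfl
  map_smul' _ _ := rfl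
  invFun f := ⟨fun g => ⟨fun h => f.1 (i h * g), fun x' h => by
      obtain ⟨x, rfl⟩ := he x'
      show f.1 (i (j (e x) * h) * g) = T.ρ (e x) (f.1 (i h * g))
      rw [map_mul, mul_assoc, ← hij]
      exact f.2 x (i h * g)⟩, fun h₀ g => by
    apply Subtype.ext
    funext h
    show f.1 (i h * (i h₀ * g)) = f.1 (i (h * h₀) * g)
    rw [map_mul, mul_assoc]⟩
  left_inv F := by
    apply Subtype.ext
    funext g
    apply Subtype.ext
    funext h
    show (F.1 (i h * g)).1 1 = (F.1 g).1 h
    rw [F.2 h g]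
    show (F.1 g).1 (1 * h) = (F.1 g).1 h
    rw [one_mul]
  right_inv f := by
    apply Subtype.ext
    funext g
    show f.1 (i 1 * g) = f.1 g
    rw [map_one, one_mul]

theorem coindTrans_apply (F : Rep.coind i (Rep.coind j T)) (g : G) :
    (coindTrans i j e he ij hij T F).1 g = (F.1 g).1 1 := rfl

theorem coindTrans_equivariant (g : G) (F : Rep.coind i (Rep.coind j T)) :
    coindTrans i j e he ij hij T ((Rep.coind i (Rep.coind j T)).ρ g F) =
      (Rep.coind ij (Rep.res e T)).ρ g (coindTrans i j e he ij hij T F) := rfl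

end Trans

end Fermat.Agent.ES.T56.CoindExact21
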