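/-
Programme T (S56), chapter GW, helper21: **the direct-summand trick on the base class** — Tate's
formula on `𝔅` needs the LOCAL count only for base data with `K = L` and TRIVIAL coefficients.

Let `D = (K ≤ L, Y)` be a base datum, `X = Coind_{G_K}^{G_ℚ} Y`.  Put `S = G_L ⊴ G_K`,
`N'' = Coind_S^{G_K} (Res Y)` (a representation of `G_K`, trivial on `G_L`), `ι : Y ↪ N''` the unit,
`Q = N'' ⧸ ι Y`.  Then
* `D' = (K ≤ L, Q)` is a base datum (`complDatum`),
* `D'' = (L ≤ L, Res_{G_L} Y)` is a base datum with `K = L` and trivial coefficients (`trivDatum`),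
* `0 → X → D''.rep → D'.rep → 0` is exact (`shortExact_trick`: coinduction is exact,
  `Coind_{G_K}^{G_ℚ} N'' ≅ Coind_{G_L}^{G_ℚ} Res Y` by transitivity).
The defect `δ` of Tate's formula is additive (`GlobChiOf21.defect_add`, from `EulerAdditive`), `≥ 0` on
`𝔅` (`BaseCaseGE`) and `= 0` on `D''.rep` (sign trick `BaseLocChiOfLe8.globalChi_of_le` with the local
count for `D''` only).  Hence `δ(X) = 0`: `globalChi_base_of_triv`.
-/
import Mathlib
import Fermat.Agent.ES.T56.GWIface21
import Fermat.Agent.ES.T56.GlobChiOf21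
import Fermat.Agent.ES.T56.CoindFinrank22
import Fermat.Agent.ES.T56.CoindExact21
import Fermat.Agent.ES.T56.CoindMackey22
import Fermat.Agent.ES.T56.BaseShapiro22
import Fermat.Agent.ES.T56.BaseLocChiOfLe8
import Fermat.Agent.ES.T56.BaseLocChiFinal8
import Fermat.Agent.PT.BR.Interface29

set_option autoImplicit false

open CategoryTheory Module groupCohomology ExtCitation

namespace Fermat.Agent.ES.T56.BaseTrivTrick21

open Fermat.Agent.ES.T56.GWIface21 Fermat.Agent.ES.T56.CoindFinrank22
  Fermat.Agent.ES.T56.CoindExact21 Fermat.Agent.ES.T56.BaseLocChiOfLe8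
open Fermat.Agent.PT.BR.Interface29 Fermat.Agent.PT.PRO

variable {p : ℕ} [Fact p.Prime] {Sg : Finset Nat.Primes}

/-! ### Base representations are smooth and unramified outside `Sg` -/

theorem isSmooth_of_isDiscrete {X : Rep.{0} (ZMod p) GQ}
    (h : LevelCoh28.IsDiscrete (levelBasisS Sg).sets X) : IsSmooth p X := by
  intro x
  obtain ⟨U, ⟨F, hF, rfl⟩, hU⟩ := h x
  exact ⟨F, hF.1, fun s hs => hU s hs⟩

theorem isUnramOutside_of_isDiscrete {X : Rep.{0} (ZMod p) GQ}
    (h : LevelCoh28.IsDiscrete (levelBasisS Sg).sets X) : IsUnramOutside p Sg X := by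
  intro q hq A hA g hg
  apply LinearMap.ext
  intro x
  obtain ⟨U, ⟨F, hF, rfl⟩, hU⟩ := h x
  exact hU g (hF.2 q hq A hA hg)

/-- The representation of a base datum is smooth. -/
theorem isSmooth_rep (D : BaseDatum (p := p) Sg) : IsSmooth p D.rep :=
  isSmooth_of_isDiscrete (BaseShapiro22.trivOn_baseDatum D).isDiscrete_coind

/-- The representation of a base datum is unramified outside `Sg`. -/
theorem isUnramOutside_rep (D : BaseDatum (p := p) Sg) : IsUnramOutside p Sg D.rep :=
  isUnramOutside_of_isDiscrete (BaseShapiro22.trivOn_baseDatum D).isDiscrete_coind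

/-! ### The objects -/

section Objects

variable (D : BaseDatum (p := p) Sg)

/-- `G_L ≤ G_K`. -/
theorem fix_le : D.L.fixingSubgroup ≤ D.K.fixingSubgroup :=
  IntermediateField.fixingSubgroup_antitone D.le

/-- `S = G_L` as a subgroup of `G_K`. -/
noncomputable abbrev SL : Subgroup ↥D.K.fixingSubgroup := D.L.fixingSubgroup.subgroupOf D.K.fixingSubgroup

theorem finiteIndex_SL : (SL D).FiniteIndex := by
  refine ⟨fun h => D.prime_to_p ?_⟩
  show p ∣ (SL D).index
  rw [h]
  exact dvd_zero p

/-- `Res_S Y`, a trivial representation of `S`. -/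
noncomputable abbrev TL : Rep.{0} (ZMod p) ↥(SL D) := Rep.res (SL D).subtype D.Y

theorem TL_ρ (s : ↥(SL D)) : (TL D).ρ s = 1 :=
  D.triv s.1 (Subgroup.mem_subgroupOf.1 s.2)

/-- `N'' = Coind_S^{G_K} Res Y`. -/
noncomputable abbrev NN : Rep.{0} (ZMod p) ↥D.K.fixingSubgroup := Rep.coind (SL D).subtype (TL D)

theorem finiteDimensional_NN : FiniteDimensional (ZMod p) (NN D) := by
  have := finiteIndex_SL D
  have := finite_RC (SL D)
  have : FiniteDimensional (ZMod p) (TL D) := D.fd
  exact Module.Finite.equiv (coindEquivPi (SL D) (TL D)).symm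

/-- `G_L` acts trivially on `N''` (`G_L` is normal in `G_K` and acts trivially on `Y`). -/
theorem NN_ρ_eq_one (s : ↥D.K.fixingSubgroup) (hs : (s : GQ) ∈ D.L.fixingSubgroup) :
    (NN D).ρ s = 1 := by
  apply LinearMap.ext
  intro f
  apply Subtype.ext
  funext y
  show f.1 (y * s) = f.1 y
  have hn : y * s * y⁻¹ ∈ SL D := by
    have := D.normal
    exact this.conj_mem s (Subgroup.mem_subgroupOf.2 hs) y
  have h1 : y * s = (SL D).subtype ⟨y * s * y⁻¹, hn⟩ * y := by
    show y * s = y * s * y⁻¹ * y
    rw [inv_mul_cancel_right]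
  rw [h1, f.2 ⟨y * s * y⁻¹, hn⟩ y, TL_ρ]
  rfl

/-- The unit `ι : Y → Coind_S^{G_K} Res Y`, `n ↦ (x ↦ x • n)`. -/
noncomputable def unit : D.Y →ₗ[ZMod p] NN D where
  toFun n := ⟨fun x => D.Y.ρ x n, fun s x => by
    show D.Y.ρ ((SL D).subtype s * x) n = D.Y.ρ ((SL D).subtype s) (D.Y.ρ x n)
    rw [map_mul]
    rfl⟩
  map_add' n n' := by
    apply Subtype.ext
    funext x
    exact map_add (D.Y.ρ x) n n'
  map_smul' c n := by
    apply Subtype.ext
    funext x
    exact map_smul (D.Y.ρ x) c n

theorem unit_apply (n : D.Y) (x : ↥D.K.fixingSubgroup) : (unit D n).1 x = D.Y.ρ x n := rfl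

theorem unit_equivariant (g : ↥D.K.fixingSubgroup) (n : D.Y) :
    unit D (D.Y.ρ g n) = (NN D).ρ g (unit D n) := by
  apply Subtype.ext
  funext x
  show D.Y.ρ x (D.Y.ρ g n) = D.Y.ρ (x * g) n
  rw [map_mul]
  rfl

theorem unit_injective : Function.Injective (unit D) := by
  intro n n' h
  have := congrFun (congrArg Subtype.val h) 1
  rw [unit_apply, unit_apply, map_one] at this
  exact this

/-- The image of the unit is stable. -/
theorem range_unit_le_comap (g : ↥D.K.fixingSubgroup) :
    LinearMap.range (unit D) ≤ (LinearMap.range (unit D)).comap ((NN D).ρ g) := by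
  rintro _ ⟨n, rfl⟩
  exact ⟨D.Y.ρ g n, unit_equivariant D g n⟩

/-- `Q = N'' ⧸ ι Y`. -/
noncomputable abbrev QQ : Rep.{0} (ZMod p) ↥D.K.fixingSubgroup :=
  Rep.of ((NN D).ρ.quotient (LinearMap.range (unit D)) (range_unit_le_comap D))

/-- The projection `N'' → Q`. -/
noncomputable def proj : NN D →ₗ[ZMod p] QQ D := (LinearMap.range (unit D)).mkQ

theorem proj_equivariant (g : ↥D.K.fixingSubgroup) (f : NN D) :
    proj D ((NN D).ρ g f) = (QQ D).ρ g (proj D f) := rfl

theorem proj_surjective : Function.Surjective (proj D) :=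
  Submodule.mkQ_surjective _

theorem range_unit_eq_ker_proj : LinearMap.range (unit D) = LinearMap.ker (proj D) :=
  (Submodule.ker_mkQ _).symm

theorem QQ_ρ_eq_one (s : ↥D.K.fixingSubgroup) (hs : (s : GQ) ∈ D.L.fixingSubgroup) :
    (QQ D).ρ s = 1 := by
  apply LinearMap.ext
  intro x
  obtain ⟨f, rfl⟩ := proj_surjective D x
  rw [← proj_equivariant, NN_ρ_eq_one D s hs]
  rfl

/-- The complementary base datum `(K ≤ L, Q)`. -/
noncomputable def complDatum : BaseDatum (p := p) Sg :=
  { D with
    Y := QQ D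
    fd := by
      have := finiteDimensional_NN D
      exact Module.Finite.of_surjective (proj D) (proj_surjective D)
    triv := QQ_ρ_eq_one D }

/-- `G_L → S`. -/
def toSL : ↥D.L.fixingSubgroup →* ↥(SL D) where
  toFun x := ⟨⟨x.1, fix_le D x.2⟩, Subgroup.mem_subgroupOf.2 x.2⟩
  map_one' := rfl
  map_mul' _ _ := rfl

theorem toSL_surjective : Function.Surjective (toSL D) := by
  rintro ⟨⟨x, hx⟩, hxL⟩
  exact ⟨⟨x, Subgroup.mem_subgroupOf.1 hxL⟩, rfl⟩

/-- The base datum `(L ≤ L, Res_{G_L} Y)`: `K = L` and trivial coefficients. -/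
noncomputable def trivDatum : BaseDatum (p := p) Sg where
  K := D.L
  L := D.L
  le := le_rfl
  unram := D.unram
  zeta := D.zeta
  normal := by
    rw [Subgroup.subgroupOf_self]
    infer_instance
  cyclic := ⟨1, one_mem _, fun τ hτ => ⟨0, by
    rw [pow_zero, one_mul]
    exact inv_mem hτ⟩⟩
  prime_to_p := by
    rw [Subgroup.subgroupOf_self, Subgroup.index_top]
    exact (Fact.out : p.Prime).not_dvd_one
  Y := Rep.res (toSL D) (TL D)
  fd := D.fd
  triv := fun s _ => TL_ρ D (toSL D s)

theorem trivDatum_K : (trivDatum D).K = (trivDatum D).L := rfl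

theorem trivDatum_ρ (s : ↥(trivDatum D).K.fixingSubgroup) : (trivDatum D).Y.ρ s = 1 :=
  TL_ρ D (toSL D s)

/-! ### The short exact sequence -/

/-- Transitivity: `Coind_{G_K}^{G_ℚ} N'' ≃ (trivDatum D).rep`. -/
noncomputable def trans : (Rep.coind D.K.fixingSubgroup.subtype (NN D)) ≃ₗ[ZMod p]
    ((trivDatum D).rep) :=
  coindTrans D.K.fixingSubgroup.subtype (SL D).subtype (toSL D) (toSL_surjective D)
    D.L.fixingSubgroup.subtype (fun _ => rfl) (TL D)

theorem trans_equivariant (g : GQ) (F : Rep.coind D.K.fixingSubgroup.subtype (NN D)) :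
    trans D ((Rep.coind D.K.fixingSubgroup.subtype (NN D)).ρ g F) =
      (trivDatum D).rep.ρ g (trans D F) := rfl

/-- `X → D''.rep`. -/
noncomputable def incl : D.rep →ₗ[ZMod p] (trivDatum D).rep :=
  (trans D).toLinearMap ∘ₗ cmap D.K.fixingSubgroup (unit D) (unit_equivariant D)

/-- `D''.rep → D'.rep`. -/
noncomputable def quot : (trivDatum D).rep →ₗ[ZMod p] (complDatum D).rep :=
  cmap D.K.fixingSubgroup (proj D) (proj_equivariant D) ∘ₗ (trans D).symm.toLinearMap

/-- **`0 → X → D''.rep → D'.rep → 0`.** -/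
theorem shortExact_trick :
    ShortExact D.rep (trivDatum D).rep (complDatum D).rep (incl D) (quot D) where
  φ_comm g x := rfl
  ψ_comm g x := by
    show cmap _ (proj D) (proj_equivariant D) ((trans D).symm ((trivDatum D).rep.ρ g x)) = _
    have h1 : (trans D).symm ((trivDatum D).rep.ρ g x) =
        (Rep.coind D.K.fixingSubgroup.subtype (NN D)).ρ g ((trans D).symm x) := by
      apply (trans D).injective
      rw [LinearEquiv.apply_symm_apply, trans_equivariant, LinearEquiv.apply_symm_apply]
    rw [h1]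
    rfl
  inj := (trans D).injective.comp
    (cmap_injective _ (unit D) (unit_equivariant D) (unit_injective D))
  surj := (cmap_surjective _ (proj D) (proj_equivariant D) (proj_surjective D)).comp
    (trans D).symm.surjective
  exact := by
    have h := range_cmap_eq_ker D.K.fixingSubgroup (unit D) (unit_equivariant D) (proj D)
      (proj_equivariant D) (unit_injective D) (range_unit_eq_ker_proj D)
    ext x
    rw [LinearMap.mem_range, LinearMap.mem_ker]
    constructor
    · rintro ⟨y, rfl⟩
      show cmap _ (proj D) (proj_equivariant D) ((trans D).symm (trans D (cmap _ (unit D)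
        (unit_equivariant D) y))) = 0
      rw [LinearEquiv.symm_apply_apply]
      have : cmap _ (unit D) (unit_equivariant D) y ∈ LinearMap.range
          (cmap D.K.fixingSubgroup (unit D) (unit_equivariant D)) := ⟨y, rfl⟩
      rw [h] at this
      exact this
    · intro hx
      have : (trans D).symm x ∈ LinearMap.ker
          (cmap D.K.fixingSubgroup (proj D) (proj_equivariant D)) := hx
      rw [← h] at this
      obtain ⟨y, hy⟩ := this
      refine ⟨y, ?_⟩
      show trans D (cmap _ (unit D) (unit_equivariant D) y) = x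
      rw [hy, LinearEquiv.apply_symm_apply]

end Objects

/-! ### The conclusion -/

/-- The local count is needed only for base data with `K = L` and trivial coefficients. -/
def BaseLocChiLeTriv (Sg : Finset Nat.Primes) : Prop :=
  ∀ D : BaseDatum (p := p) Sg, D.K = D.L → (∀ s, D.Y.ρ s = 1) → LocChiLe Sg D.rep

theorem defect_nonneg_of_ge {X : Rep.{0} (ZMod p) GQ} (h : GlobalChiGe Sg X) :
    0 ≤ GlobChiOf21.defect Sg X := by
  have := h.2.2
  unfold GlobChiOf21.defect
  omega

/-- **Tate's formula on the base class** from `BaseCaseGE`, `EulerAdditive`, the 9-term count on `𝔅` and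
the one-sided local count for TRIVIAL data only. -/
theorem globalChi_base_of_triv (hp2 : p ≠ 2) (hEA : EulerAdditive (p := p) Sg)
    (hGE : BaseCaseGE (p := p) Sg)
    (hN : ∀ D : BaseDatum (p := p) Sg, NineTermCount Sg D.rep)
    (hLeT : BaseLocChiLeTriv (p := p) Sg) (D : BaseDatum (p := p) Sg) : GlobalChi Sg D.rep := by
  have hfd'' : FiniteDimensional (ZMod p) (trivDatum D).rep :=
    CoindMackey22.finiteDimensional_rep (trivDatum D)
  -- Tate's formula for the trivial datum, by the sign trick
  have h'' : GlobalChi Sg (trivDatum D).rep :=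
    globalChi_of_le (hGE (trivDatum D)) (BaseLocChiFinal8.globalChiGe_dualT hGE (trivDatum D))
      (hN (trivDatum D)) (h0c_add_h0c_dualT hp2 (trivDatum D).rep)
      (Rep.finrank_dualTwist (ZMod p) (trivDatum D).rep (cycloChar p))
      (hLeT (trivDatum D) (trivDatum_K D) (trivDatum_ρ D))
  have h0 : GlobChiOf21.defect Sg (trivDatum D).rep = 0 :=
    (GlobChiOf21.defect_eq_zero_iff Sg _).2 h''.2.2
  have hadd := GlobChiOf21.defect_add hp2 hEA (isSmooth_rep (trivDatum D))
    (isUnramOutside_rep (trivDatum D)) (shortExact_trick D)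
  have h1 := defect_nonneg_of_ge (hGE D)
  have h2 := defect_nonneg_of_ge (hGE (complDatum D))
  refine ⟨(hGE D).1, (hGE D).2.1, (GlobChiOf21.defect_eq_zero_iff Sg _).1 ?_⟩
  omega

end Fermat.Agent.ES.T56.BaseTrivTrick21
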