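/-
Programme T (S56, Taylor–Wiles primes), chapter GW (Greenberg–Wiles), helper6.

Finiteness of the global `H²(G_S, X)` (Prelude `continuousH2S Sg X`) from finiteness of `Ш²_S(X)` and of
the local `H²(G_q, X)`, `q ∈ Sg` (`p` odd, so that the archimedean component vanishes): the total
localisation `locTotal₂S` has kernel `sha₂ Sg X` BY DEFINITION and lands in a finite product of
finite-dimensional spaces.  This is the `h2S` field of `GWProps21.FinAll`; `finAll_of` packages the
four fields.
-/
import Mathlib
import Fermat.Agent.ES.T56.GWIface21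
import Fermat.Agent.ES.T56.GWProps21
import Fermat.Agent.PT.BR.Arch7

set_option autoImplicit false
set_option maxHeartbeats 200000

open CategoryTheory Module groupCohomology ExtCitation

namespace Fermat.Agent.ES.T56.FinH2S6

open Fermat.Agent.ES.T56.GWIface21 Fermat.Agent.ES.T56.GWProps21

variable {p : ℕ} [Fact p.Prime]

/-- The target of the total localisation in degree 2 is finite. -/
theorem finite_locTarget (hp2 : p ≠ 2) (Sg : Finset Nat.Primes) (X : Rep.{0} (ZMod p) GQ)
    (hloc : ∀ q : ↥Sg, FiniteDimensional (ZMod p)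
      (continuousH2 (primeLocalToGlobal q.1) (Rep.res (primeLocalToGlobal q.1) X))) :
    Finite (∀ v : extArithIndex Sg,
      continuousH2 (extArithLoc Sg v) (Rep.res (extArithLoc Sg v) X)) := by
  have h : ∀ v : extArithIndex Sg,
      Finite (continuousH2 (extArithLoc Sg v) (Rep.res (extArithLoc Sg v) X)) := by
    rintro (v | q)
    · have := Fermat.Agent.PT.BR.Arch7.subsingleton_continuousH2_arch hp2 X
      show Finite (continuousH2 archimedeanLoc (Rep.res archimedeanLoc X))
      exact Finite.of_subsingleton
    · have := hloc q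
      show Finite (continuousH2 (primeLocalToGlobal q.1) (Rep.res (primeLocalToGlobal q.1) X))
      exact Module.finite_of_finite (ZMod p)
  exact Pi.finite

/-- **`H²(G_S, X)` is finite-dimensional** as soon as `Ш²_S(X)` and the local `H²` are. -/
theorem finiteDimensional_continuousH2S (hp2 : p ≠ 2) (Sg : Finset Nat.Primes)
    (X : Rep.{0} (ZMod p) GQ) (hsha : FiniteDimensional (ZMod p) ↥(sha₂ Sg X))
    (hloc : ∀ q : ↥Sg, FiniteDimensional (ZMod p)
      (continuousH2 (primeLocalToGlobal q.1) (Rep.res (primeLocalToGlobal q.1) X))) :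
    FiniteDimensional (ZMod p) (continuousH2S Sg X) := by
  have hT := finite_locTarget hp2 Sg X hloc
  have h1 : Module.Finite (ZMod p) ↥(sha₂ Sg X) := hsha
  have hkerfin : Finite ↥(sha₂ Sg X) := Module.finite_of_finite (ZMod p)
  -- the total localisation as a plain function (no algebra on the product is needed)
  let g : continuousH2S Sg X → ∀ v : extArithIndex Sg,
      continuousH2 (extArithLoc Sg v) (Rep.res (extArithLoc Sg v) X) :=
    fun x v => locRes₂S Sg X (extArithLoc Sg v) x
  have hmem : ∀ x a : continuousH2S Sg X, g x = g a → x - a ∈ sha₂ Sg X := by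
    intro x a hxa
    show x - a ∈ LinearMap.ker (locTotal₂S Sg X)
    rw [LinearMap.mem_ker]
    funext v
    show locRes₂S Sg X (extArithLoc Sg v) (x - a) = 0
    have hv : locRes₂S Sg X (extArithLoc Sg v) x = locRes₂S Sg X (extArithLoc Sg v) a :=
      congrFun hxa v
    rw [map_sub, hv, sub_self]
  have huniv : (Set.univ : Set (continuousH2S Sg X)).Finite := by
    refine Set.Finite.of_finite_fibers g (Set.finite_univ.subset (Set.subset_univ _)) ?_
    rintro _ ⟨a, -, rfl⟩
    have hsub : Set.univ ∩ g ⁻¹' {g a} ⊆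
        (fun k : ↥(sha₂ Sg X) => a + k.1) '' Set.univ := by
      rintro x ⟨-, hx⟩
      refine ⟨⟨x - a, hmem x a hx⟩, trivial, ?_⟩
      show a + (x - a) = x
      abel
    exact (Set.toFinite _).subset hsub
  have hfin : Finite (continuousH2S Sg X) := Set.finite_univ_iff.1 huniv
  exact Module.Finite.of_finite

/-- Packaging of `GWProps21.FinAll`. -/
theorem finAll_of (hp2 : p ≠ 2) (Sg : Finset Nat.Primes) (X : Rep.{0} (ZMod p) GQ)
    (h1S : FiniteDimensional (ZMod p) ↥(continuousH1S Sg X))
    (hsha : FiniteDimensional (ZMod p) ↥(sha₂ Sg X))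
    (h1loc : ∀ q : ↥Sg, FiniteDimensional (ZMod p) ↥(contLoc p q.1 X))
    (h2loc : ∀ q : ↥Sg, FiniteDimensional (ZMod p)
      (continuousH2 (primeLocalToGlobal q.1) (Rep.res (primeLocalToGlobal q.1) X))) :
    FinAll Sg X :=
  ⟨h1S, finiteDimensional_continuousH2S hp2 Sg X hsha h2loc, h1loc, h2loc⟩

end Fermat.Agent.ES.T56.FinH2S6
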