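/-
Programme T (S56, Taylor–Wiles primes), chapter GW (Greenberg–Wiles), helper6.

`GWProps21.FinAll Sg Y` for EVERY finite-dimensional smooth `Y` unramified outside `Sg ∋ p` (`p` odd),
from the finiteness of the local `H²(G_q, ·)` (`LocH2Fin p`, the only input left as a hypothesis here;
it is a by-product of the local `(2,0)` duality):

* `h1S`, `h1loc` : `MiddleCount25.finAll_h1` (helper25);
* `Ш²_S(Y)` finite : S55 (main) applied to `Y` ITSELF — the pairing `Ш¹_S(Y*) × Ш²_S(Y) → 𝔽_p` has
  trivial right kernel and `Ш¹_S(Y*) ≤ H¹(G_S, Y*)` is finite (`ShaCount21`), no biduality needed;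
* `h2S` : `FinH2S6.finiteDimensional_continuousH2S` (kernel of the total localisation is `Ш²_S`,
  the target is a finite product of finite spaces, the archimedean one being `0` for `p` odd).

`finAll_forall` is literally the hypothesis `hF` of `EulerSuperAdd6.eulerAdditive_of`.
-/
import Mathlib
import Fermat.Agent.S55
import Fermat.Agent.ES.T56.GWIface21
import Fermat.Agent.ES.T56.GWProps21
import Fermat.Agent.ES.T56.ShaCount21
import Fermat.Agent.ES.T56.FinH2S6
import Fermat.Agent.ES.T56.MiddleCount25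
import Fermat.Agent.PT.BR.DualTwist7
import Fermat.Agent.PT.BR.Interface29
import Fermat.Agent.PT.PRO.LevelCoh28

set_option autoImplicit false
set_option maxHeartbeats 200000

open CategoryTheory Module groupCohomology ExtCitation

namespace Fermat.Agent.ES.T56.FinAll6

open Fermat.Agent.ES.T56.GWIface21 Fermat.Agent.ES.T56.GWProps21
open Fermat.Agent.PT.BR.DualTwist7

variable {p : ℕ} [Fact p.Prime]

/-- **`Ш²_S(Y)` is finite-dimensional**, for every finite-dimensional smooth `Y` unramified outside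
`Sg ∋ p`: the S55 pairing `Ш¹_S(Y*) × Ш²_S(Y) → 𝔽_p` has trivial right kernel. -/
theorem finiteDimensional_sha₂ (hp2 : p ≠ 2) (Sg : Finset Nat.Primes) (hpS : pPrime p ∈ Sg)
    (Y : Rep.{0} (ZMod p) GQ) [FiniteDimensional (ZMod p) Y] (hsm : IsSmooth p Y)
    (hur : IsUnramOutside p Sg Y) : FiniteDimensional (ZMod p) ↥(sha₂ Sg Y) := by
  obtain ⟨B, -, hr⟩ := Fermat.Agent.S55.result hp2 Sg hpS Y hsm hur
  have hsmN := smooth_dualTwist Y hsm
  have hurN := unram_dualTwist Y hpS hur
  have h1 : FiniteDimensional (ZMod p) ↥(continuousH1S Sg (dualT p Y)) :=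
    ShaCount21.finiteDimensional_continuousH1S Sg hpS (dualT p Y) hsmN hurN
  have h1' : FiniteDimensional (ZMod p) ↥(sha₁ Sg (Y.dualTwist (cycloChar p))) :=
    Submodule.finiteDimensional_of_le
      (inf_le_left : sha₁ Sg (dualT p Y) ≤ continuousH1S Sg (dualT p Y))
  have hinj : Function.Injective B.flip := by
    rw [← LinearMap.ker_eq_bot, LinearMap.ker_eq_bot']
    intro x hx
    exact hr x fun y => by
      have := congrArg (fun f => f y) hx
      simpa using this
  exact FiniteDimensional.of_injective B.flip hinj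

/-- Finiteness of the local `H²(G_q, Y)` for all primes `q` and all finite-dimensional smooth `Y`
(by-product of the local `(2,0)` duality `#H²(G_q, Y) = #H⁰(G_q, Y*)`). -/
def LocH2Fin (p : ℕ) [Fact p.Prime] : Prop :=
  ∀ (q : Nat.Primes) (Y : Rep.{0} (ZMod p) GQ), FiniteDimensional (ZMod p) Y → IsSmooth p Y →
    FiniteDimensional (ZMod p)
      (continuousH2 (primeLocalToGlobal q) (Rep.res (primeLocalToGlobal q) Y))

/-- **`H²(G_S, Y)` is finite-dimensional.** -/
theorem finiteDimensional_continuousH2S (hp2 : p ≠ 2) (Sg : Finset Nat.Primes)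
    (hpS : pPrime p ∈ Sg) (hloc : LocH2Fin p) (Y : Rep.{0} (ZMod p) GQ)
    [hfd : FiniteDimensional (ZMod p) Y] (hsm : IsSmooth p Y) (hur : IsUnramOutside p Sg Y) :
    FiniteDimensional (ZMod p) (continuousH2S Sg Y) :=
  FinH2S6.finiteDimensional_continuousH2S hp2 Sg Y (finiteDimensional_sha₂ hp2 Sg hpS Y hsm hur)
    fun q => hloc q.1 Y hfd hsm

/-- **`FinAll Sg Y`.** -/
theorem finAll (hp2 : p ≠ 2) (Sg : Finset Nat.Primes) (hpS : pPrime p ∈ Sg) (hloc : LocH2Fin p)
    (Y : Rep.{0} (ZMod p) GQ) [hfd : FiniteDimensional (ZMod p) Y] (hsm : IsSmooth p Y)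
    (hur : IsUnramOutside p Sg Y) : FinAll Sg Y := by
  obtain ⟨h1S, -, h1loc⟩ := MiddleCount25.finAll_h1 hp2 Sg hpS Y hsm hur
  exact FinH2S6.finAll_of hp2 Sg Y h1S (finiteDimensional_sha₂ hp2 Sg hpS Y hsm hur) h1loc
    fun q => hloc q.1 Y hfd hsm

/-- The hypothesis `hF` of `EulerSuperAdd6.eulerAdditive_of`, literally. -/
theorem finAll_forall (hp2 : p ≠ 2) (Sg : Finset Nat.Primes) (hpS : pPrime p ∈ Sg)
    (hloc : LocH2Fin p) :
    ∀ Y : Rep.{0} (ZMod p) GQ, FiniteDimensional (ZMod p) Y → IsSmooth p Y →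
      IsUnramOutside p Sg Y → FinAll Sg Y :=
  fun Y _ hsm hur => finAll hp2 Sg hpS hloc Y hsm hur

/-! ### Biduality: it suffices to know the finiteness of `H²(G_q, X*)` for all `X` -/

/-- A retraction of equivariant maps induces an injection on level `H²`. -/
theorem mapH2_injective_of_leftInverse {k : Type} [CommRing k] {G : Type} [Group G]
    (𝓑 : Fermat.Agent.PT.PRO.LevelCoh28.LevelBasis G) {A B : Rep.{0} k G} (φ : A →ₗ[k] B)
    (hφ : ∀ g a, φ (A.ρ g a) = B.ρ g (φ a)) (ψ : B →ₗ[k] A)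
    (hψ : ∀ g b, ψ (B.ρ g b) = A.ρ g (ψ b)) (h : ∀ a, ψ (φ a) = a) :
    Function.Injective (Fermat.Agent.PT.PRO.LevelCoh28.mapH2 (𝓑 := 𝓑) φ hφ) := by
  have key : ∀ x, Fermat.Agent.PT.PRO.LevelCoh28.mapH2 (𝓑 := 𝓑) ψ hψ
      (Fermat.Agent.PT.PRO.LevelCoh28.mapH2 (𝓑 := 𝓑) φ hφ x) = x := by
    intro x
    obtain ⟨c, rfl⟩ := Fermat.Agent.PT.PRO.LevelCoh28.H2mk_surjective 𝓑 A x
    rw [Fermat.Agent.PT.PRO.LevelCoh28.mapH2_mk, Fermat.Agent.PT.PRO.LevelCoh28.mapH2_mk]
    congr 1
    apply Subtype.ext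
    funext g
    exact h _
  exact Function.LeftInverse.injective key

/-- Finiteness of the local `H²(G_q, X*)` for all primes `q` and all finite-dimensional smooth `X`:
the form in which the local `(2,0)` duality delivers it. -/
def LocH2FinDual (p : ℕ) [Fact p.Prime] : Prop :=
  ∀ (q : Nat.Primes) (X : Rep.{0} (ZMod p) GQ), FiniteDimensional (ZMod p) X → IsSmooth p X →
    Finite (continuousH2 (primeLocalToGlobal q) (Rep.res (primeLocalToGlobal q) (dualT p X)))

/-- `LocH2FinDual ⇒ LocH2Fin`, through `Y ≅ (Y*)*`. -/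
theorem locH2Fin_of_dual (h : LocH2FinDual p) : LocH2Fin p := by
  intro q Y hfd hsm
  have hsmN := smooth_dualTwist Y hsm
  have hfin : Finite (continuousH2 (primeLocalToGlobal q)
      (Rep.res (primeLocalToGlobal q) (dualT p (dualT p Y)))) :=
    h q (dualT p Y) inferInstance hsmN
  let e1 := Fermat.Agent.PT.BR.Interface29.h2Equiv (primeLocalToGlobal q)
    (Rep.res (primeLocalToGlobal q) Y)
  let e2 := Fermat.Agent.PT.BR.Interface29.h2Equiv (primeLocalToGlobal q)
    (Rep.res (primeLocalToGlobal q) (dualT p (dualT p Y)))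
  have hinj := mapH2_injective_of_leftInverse
    (Fermat.Agent.PT.BR.Interface29.levelBasisOf (primeLocalToGlobal q))
    (A := Rep.res (primeLocalToGlobal q) Y)
    (B := Rep.res (primeLocalToGlobal q) (dualT p (dualT p Y)))
    (ddualEquiv (cycloChar p) Y).toLinearMap
    (fun g a => ddualEquiv_ρ (cycloChar p) Y (primeLocalToGlobal q g) a)
    (ddualEquiv (cycloChar p) Y).symm.toLinearMap
    (fun g b => by
      apply (ddualEquiv (cycloChar p) Y).injective
      have h1 := ddualEquiv_ρ (cycloChar p) Y (primeLocalToGlobal q g)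
        ((ddualEquiv (cycloChar p) Y).symm b)
      rw [LinearEquiv.apply_symm_apply] at h1
      exact ((ddualEquiv (cycloChar p) Y).apply_symm_apply _).trans h1.symm)
    (fun a => (ddualEquiv (cycloChar p) Y).symm_apply_apply a)
  have : Finite (continuousH2 (primeLocalToGlobal q) (Rep.res (primeLocalToGlobal q) Y)) :=
    Finite.of_injective _ ((e2.symm.injective.comp hinj).comp e1.injective)
  exact Module.Finite.of_finite

end Fermat.Agent.ES.T56.FinAll6
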