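/-
Programme T (S56), chapter GW, part D (`BaseCaseGE`), helper28: the `Δ`-DICTIONARY of a base datum
(`T56_BASE28.md` §2).

For `D : GWIface21.BaseDatum Sg` (`K = D.K ≤ L = D.L ≤ ℚ̄`, `G_L ⊴ G_K` with cyclic quotient of order
prime to `p`, `ζ_p ∈ L`, `Y = D.Y` a representation of `G_K = D.K.fixingSubgroup` trivial on `G_L`):

* `LK D : IntermediateField ↥D.K ℚ̄` is `L` as an extension of `K` (`mem_LK`); `numberField_K`,
  `numberField_L`, `numberField_LK`, `isGalois_LK : IsGalois ↥D.K ↥(LK D)`;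
* `Δ D := ↥(LK D) ≃ₐ[↥D.K] ↥(LK D)` (`finite_Δ`, `isCyclic_Δ`, `card_Δ`, `not_dvd_card_Δ`);
* `π D : ↥D.K.fixingSubgroup →* Δ D` the restriction (`π_apply`, `π_surjective`, `π_eq_one_iff`,
  `ker_π`);
* `descend D f hf : Δ D →* M` for `f : G_K →* M` killing `G_L` (`descend_π`);
* `ρΔ D : Representation (ZMod p) (Δ D) D.Y` (`ρΔ_π : ρΔ D (π D s) = D.Y.ρ s`, `invariants_ρΔ`);
* `ω D : Δ D →* (ZMod p)ˣ` the mod `p` cyclotomic character (`ω_π : ω D (π D s) = cycloChar p s`,
  `ω_spec : δ t = t ^ (ω D δ).val` for `t ^ p = 1`), `cycloChar_spec`, `exists_zeta_LK`.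

All arithmetic bricks of the base case are stated for abstract number fields `K L` with
`[Algebra K L] [IsGalois K L]` and are instantiated at `↥D.K`, `↥(LK D)`.
Fully proved; imports Mathlib and the contract file only.
-/
import Mathlib
import Fermat.Agent.ES.T56.GWIface21

set_option autoImplicit false
set_option linter.style.haveILetI false
open Fermat.Agent.ES.T56 GWIface21 ExtCitation

namespace Fermat.Agent.ES.T56.BaseDict28

local notation "Ω" => AlgebraicClosure ℚ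

variable {p : ℕ} [Fact p.Prime] {Sg : Finset Nat.Primes} (D : BaseDatum (p := p) Sg)

/-- `L` as an intermediate field of `ℚ̄ / K`. -/
noncomputable def LK : IntermediateField ↥D.K Ω := IntermediateField.extendScalars D.le

theorem mem_LK {x : Ω} : x ∈ LK D ↔ x ∈ D.L := IntermediateField.mem_extendScalars D.le

theorem finiteDimensional_L : FiniteDimensional ℚ ↥D.L := D.unram.1

theorem finiteDimensional_K : FiniteDimensional ℚ ↥D.K := (D.unram.of_le D.le).1

theorem numberField_K : NumberField ↥D.K :=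
  haveI := finiteDimensional_K D
  ⟨⟩

theorem numberField_L : NumberField ↥D.L :=
  haveI := finiteDimensional_L D
  ⟨⟩

theorem numberField_LK : NumberField ↥(LK D) := by
  haveI := finiteDimensional_L D
  refine @NumberField.mk _ _ inferInstance ?_
  let e : ↥D.L ≃ₗ[ℚ] ↥(LK D) :=
    { toFun := fun x => ⟨x.1, (mem_LK D).2 x.2⟩
      invFun := fun x => ⟨x.1, (mem_LK D).1 x.2⟩
      map_add' := fun _ _ => rfl
      map_smul' := fun _ _ => rfl
      left_inv := fun _ => rfl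
      right_inv := fun _ => rfl }
  exact Module.Finite.equiv e

theorem isAlgClosure_K : IsAlgClosure ↥D.K Ω :=
  haveI : Algebra.IsAlgebraic ℚ Ω := AlgebraicClosure.isAlgebraic ℚ
  ⟨inferInstance, Algebra.IsAlgebraic.tower_top (K := ℚ) ↥D.K⟩

theorem isGalois_Ω : IsGalois ↥D.K Ω :=
  haveI := isAlgClosure_K D
  IsAlgClosure.isGalois ↥D.K Ω

/-- `G_K ≃ Gal(ℚ̄/K)`. -/
noncomputable abbrev eK : ↥D.K.fixingSubgroup ≃* (Ω ≃ₐ[↥D.K] Ω) :=
  IntermediateField.fixingSubgroupEquiv D.K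

theorem eK_apply (s : ↥D.K.fixingSubgroup) (x : Ω) : eK D s x = (s : GQ) x := rfl

theorem mem_fixingSubgroup_LK (s : ↥D.K.fixingSubgroup) :
    eK D s ∈ (LK D).fixingSubgroup ↔ (s : GQ) ∈ D.L.fixingSubgroup := by
  rw [IntermediateField.mem_fixingSubgroup_iff, IntermediateField.mem_fixingSubgroup_iff]
  constructor
  · intro h x hx
    exact h x ((mem_LK D).2 hx)
  · intro h x hx
    exact h x ((mem_LK D).1 hx)

theorem normal_fixingSubgroup_LK : (LK D).fixingSubgroup.Normal := by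
  haveI := D.normal
  constructor
  intro n hn g
  obtain ⟨s, rfl⟩ := (eK D).surjective n
  obtain ⟨t, rfl⟩ := (eK D).surjective g
  rw [← map_inv, ← map_mul, ← map_mul, mem_fixingSubgroup_LK]
  have h1 : s ∈ D.L.fixingSubgroup.subgroupOf D.K.fixingSubgroup :=
    Subgroup.mem_subgroupOf.2 ((mem_fixingSubgroup_LK D s).1 hn)
  have h2 := D.normal.conj_mem s h1 t
  exact Subgroup.mem_subgroupOf.1 h2

theorem isGalois_LK : IsGalois ↥D.K ↥(LK D) :=
  haveI := isGalois_Ω D
  (InfiniteGalois.normal_iff_isGalois (LK D)).1 (normal_fixingSubgroup_LK D)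

/-- `Δ = Gal(L/K)`. -/
abbrev Δ : Type := ↥(LK D) ≃ₐ[↥D.K] ↥(LK D)

/-- The restriction `G_K → Gal(L/K)`. -/
noncomputable def π : ↥D.K.fixingSubgroup →* Δ D :=
  haveI := isGalois_LK D
  (AlgEquiv.restrictNormalHom (F := ↥D.K) (K₁ := Ω) ↥(LK D)).comp (eK D).toMonoidHom

theorem π_apply (s : ↥D.K.fixingSubgroup) (x : ↥(LK D)) : ((π D s x : ↥(LK D)) : Ω) = (s : GQ) x := by
  haveI := isGalois_LK D
  exact AlgEquiv.restrictNormal_commutes (eK D s) ↥(LK D) x

theorem π_surjective : Function.Surjective (π D) := by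
  haveI := isGalois_LK D
  haveI := isGalois_Ω D
  intro δ
  obtain ⟨g, hg⟩ := AlgEquiv.restrictNormalHom_surjective (F := ↥D.K) (K₁ := ↥(LK D)) Ω δ
  obtain ⟨s, rfl⟩ := (eK D).surjective g
  exact ⟨s, hg⟩

theorem π_eq_one_iff (s : ↥D.K.fixingSubgroup) : π D s = 1 ↔ (s : GQ) ∈ D.L.fixingSubgroup := by
  rw [IntermediateField.mem_fixingSubgroup_iff]
  constructor
  · intro h x hx
    have := π_apply D s ⟨x, (mem_LK D).2 hx⟩
    rw [h] at this
    exact this.symm
  · intro h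
    ext x
    rw [π_apply]
    exact h x.1 ((mem_LK D).1 x.2)

theorem ker_π : (π D).ker = D.L.fixingSubgroup.subgroupOf D.K.fixingSubgroup := by
  ext s
  rw [MonoidHom.mem_ker, π_eq_one_iff, Subgroup.mem_subgroupOf]

/-- Descent along `π`: a homomorphism on `G_K` which kills `G_L` factors through `Δ`. -/
noncomputable def descend {M : Type*} [Monoid M] (f : ↥D.K.fixingSubgroup →* M)
    (hf : ∀ s : ↥D.K.fixingSubgroup, (s : GQ) ∈ D.L.fixingSubgroup → f s = 1) : Δ D →* M :=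
  (QuotientGroup.lift (π D).ker f (fun s hs => MonoidHom.mem_ker.2
    (hf s ((π_eq_one_iff D s).1 (MonoidHom.mem_ker.1 hs))))).comp
    (QuotientGroup.quotientKerEquivOfSurjective (π D) (π_surjective D)).symm.toMonoidHom

theorem descend_π {M : Type*} [Monoid M] (f : ↥D.K.fixingSubgroup →* M)
    (hf : ∀ s : ↥D.K.fixingSubgroup, (s : GQ) ∈ D.L.fixingSubgroup → f s = 1)
    (s : ↥D.K.fixingSubgroup) : descend D f hf (π D s) = f s := by
  have h : (QuotientGroup.quotientKerEquivOfSurjective (π D) (π_surjective D)).symm (π D s) =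
      (s : ↥D.K.fixingSubgroup ⧸ (π D).ker) := by
    rw [MulEquiv.symm_apply_eq]
    rfl
  unfold descend
  rw [MonoidHom.comp_apply, MulEquiv.coe_toMonoidHom, h]
  exact QuotientGroup.lift_mk _ _ _

/-- `Y` as a representation of `Δ`. -/
noncomputable def ρΔ : Representation (ZMod p) (Δ D) D.Y :=
  descend D D.Y.ρ D.triv

theorem ρΔ_π (s : ↥D.K.fixingSubgroup) : ρΔ D (π D s) = D.Y.ρ s := descend_π D _ _ s

/-- Every `p`-th root of unity of `ℚ̄` lies in `L`. -/
theorem mem_L_of_pow_eq_one {t : Ω} (ht : t ^ p = 1) : t ∈ D.L := by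
  obtain ⟨ζ, hζL, hζ⟩ := D.zeta
  haveI : NeZero p := ⟨(Fact.out : p.Prime).ne_zero⟩
  obtain ⟨i, -, rfl⟩ := hζ.eq_pow_of_pow_eq_one ht
  exact pow_mem hζL i

/-- The spec of the Prelude's cyclotomic character. -/
theorem cycloChar_spec (σ : GQ) {t : Ω} (ht : t ^ p = 1) :
    σ t = t ^ ((cycloChar p σ : (ZMod p)ˣ) : ZMod p).val := by
  haveI : NeZero p := ⟨(Fact.out : p.Prime).ne_zero⟩
  have ht0 : t ≠ 0 := by
    rintro rfl
    rw [zero_pow (NeZero.ne p)] at ht
    exact zero_ne_one ht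
  have hmem : Units.mk0 t ht0 ∈ rootsOfUnity p Ω := by
    rw [mem_rootsOfUnity]
    ext
    simpa using ht
  exact modularCyclotomicCharacter.spec Ω (card_rootsOfUnity_eq_self p)
    (σ : Ω ≃+* Ω) hmem

theorem cycloChar_eq_one_of_mem (σ : GQ) (hσ : σ ∈ D.L.fixingSubgroup) : cycloChar p σ = 1 := by
  haveI : NeZero p := ⟨(Fact.out : p.Prime).ne_zero⟩
  haveI : Fact (1 < p) := ⟨(Fact.out : p.Prime).one_lt⟩
  have h := modularCyclotomicCharacter.unique Ω (card_rootsOfUnity_eq_self p)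
    (σ : Ω ≃+* Ω) (c := 1) (fun t ht => by
      rw [ZMod.val_one, pow_one]
      have ht' : (t : Ω) ^ p = 1 := by
        have := (mem_rootsOfUnity _ _).1 ht
        rw [← Units.val_pow_eq_pow_val, this, Units.val_one]
      exact (IntermediateField.mem_fixingSubgroup_iff _ _).1 hσ _ (mem_L_of_pow_eq_one D ht'))
  exact Units.ext h.symm

/-- The mod `p` cyclotomic character of `Δ`. -/
noncomputable def ω : Δ D →* (ZMod p)ˣ :=
  descend D ((cycloChar p).comp D.K.fixingSubgroup.subtype)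
    (fun s hs => cycloChar_eq_one_of_mem D (s : GQ) hs)

theorem ω_π (s : ↥D.K.fixingSubgroup) : ω D (π D s) = cycloChar p (s : GQ) := descend_π D _ _ s

/-- `δ t = t ^ ω(δ)` for a `p`-th root of unity `t ∈ L`. -/
theorem ω_spec (δ : Δ D) {t : ↥(LK D)} (ht : t ^ p = 1) :
    δ t = t ^ ((ω D δ : (ZMod p)ˣ) : ZMod p).val := by
  obtain ⟨s, rfl⟩ := π_surjective D δ
  apply Subtype.ext
  rw [π_apply, ω_π, SubmonoidClass.coe_pow]
  refine cycloChar_spec (s : GQ) ?_
  rw [← SubmonoidClass.coe_pow, ht]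
  rfl

theorem finite_Δ : Finite (Δ D) :=
  haveI := numberField_K D
  haveI := numberField_LK D
  inferInstance

theorem isCyclic_Δ : IsCyclic (Δ D) := by
  obtain ⟨σ, hσ, h⟩ := D.cyclic
  refine ⟨π D ⟨σ, hσ⟩, fun δ => ?_⟩
  obtain ⟨τ, rfl⟩ := π_surjective D δ
  obtain ⟨n, hn⟩ := h τ τ.2
  refine ⟨(n : ℤ), ?_⟩
  have h1 : π D (⟨σ, hσ⟩ ^ n * τ⁻¹) = 1 := (π_eq_one_iff D _).2 (by simpa using hn)
  rw [map_mul, map_pow, map_inv, mul_inv_eq_one] at h1
  simpa using h1

theorem card_Δ : Nat.card (Δ D) = (D.L.fixingSubgroup.subgroupOf D.K.fixingSubgroup).index := by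
  rw [← ker_π, Subgroup.index_ker, MonoidHom.range_eq_top.2 (π_surjective D), Subgroup.card_top]

theorem not_dvd_card_Δ : ¬ p ∣ Nat.card (Δ D) := by
  rw [card_Δ]
  exact D.prime_to_p

theorem invariants_ρΔ : (ρΔ D).invariants = D.Y.ρ.invariants := by
  ext y
  rw [Representation.mem_invariants, Representation.mem_invariants]
  constructor
  · intro h s
    rw [← ρΔ_π]
    exact h _
  · intro h δ
    obtain ⟨s, rfl⟩ := π_surjective D δ
    rw [ρΔ_π]
    exact h s

/-- A primitive `p`-th root of unity in `L`. -/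
theorem exists_zeta_LK : ∃ ζ : ↥(LK D), IsPrimitiveRoot ζ p := by
  obtain ⟨ζ, hζL, hζ⟩ := D.zeta
  refine ⟨⟨ζ, (mem_LK D).2 hζL⟩, ?_⟩
  exact IsPrimitiveRoot.of_map_of_injective (f := (LK D).val) hζ (LK D).val.injective

end Fermat.Agent.ES.T56.BaseDict28
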