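/-
Programme T (S56), chapter GW-D, brick (K2b-core) of `T56_BASE28.md` (helper23), file 1:
subextensions of an everywhere unramified abelian extension `M/F` of number fields.

For `E : IntermediateField F M` Galois over `F`:
* `inertia_eq_bot_of_tower` : `E/F` is unramified at every nonzero prime;
* `restrictNormal_artin`    : `(artin F M I).restrictNormal E = artin F E I` for every `I ≠ ⊥`.
-/
import Mathlib
import Fermat.Agent.CFT.ArtinMap
import Fermat.Agent.CFT.FrobOmega

set_option autoImplicit false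
set_option linter.unusedSectionVars false
set_option linter.style.haveILetI false

open NumberField
open scoped Pointwise

namespace Fermat.Agent.ES.T56.ElemArtinSub23

open Fermat.Agent.CFT.ArtinMap

variable {F M : Type} [Field F] [Field M] [NumberField F] [NumberField M] [Algebra F M]
  [IsGalois F M]

/-- A Galois subextension of an everywhere unramified Galois extension is everywhere unramified. -/
theorem inertia_eq_bot_of_tower (E : IntermediateField F M) [IsGalois F E]
    (hunr : ∀ Q : Ideal (𝓞 M), Q.IsPrime → Q ≠ ⊥ → Q.inertia (M ≃ₐ[F] M) = ⊥)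
    (P : Ideal (𝓞 E)) (hP : P.IsPrime) (hP0 : P ≠ ⊥) : P.inertia (E ≃ₐ[F] E) = ⊥ := by
  haveI := hP
  -- a prime `Q` of `M` over `P`
  let Q : Ideal (𝓞 M) := (Classical.arbitrary (P.primesOver (𝓞 M))).1
  haveI hQprime : Q.IsPrime := (Classical.arbitrary (P.primesOver (𝓞 M))).2.1
  haveI hQover : Q.LiesOver P := (Classical.arbitrary (P.primesOver (𝓞 M))).2.2
  have hQ0 : Q ≠ ⊥ := Ideal.ne_bot_of_liesOver_of_ne_bot hP0 Q
  haveI hPq : P.LiesOver (P.under (𝓞 F)) := ⟨rfl⟩
  haveI hQq : Q.LiesOver (P.under (𝓞 F)) := Ideal.LiesOver.trans Q P (P.under (𝓞 F))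
  haveI : (P.under (𝓞 F)).IsPrime := Ideal.IsPrime.under (𝓞 F) P
  -- ramification indices
  have h1 := Ideal.card_inertia_eq_ramificationIdxIn (G := M ≃ₐ[F] M) (P.under (𝓞 F)) Q
  rw [hunr Q hQprime hQ0, Ideal.ramificationIdxIn_eq_ramificationIdx (P.under (𝓞 F)) Q (M ≃ₐ[F] M),
    Ideal.ramificationIdx_tower P Q] at h1
  have h2 : P.ramificationIdx (𝓞 F) = 1 := by
    have h3 : Nat.card (⊥ : Subgroup (M ≃ₐ[F] M)) = 1 := Subgroup.card_bot
    rw [h3] at h1
    exact Nat.eq_one_of_mul_eq_one_right h1.symm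
  have h4 := Ideal.card_inertia_eq_ramificationIdxIn (G := E ≃ₐ[F] E) (P.under (𝓞 F)) P
  rw [Ideal.ramificationIdxIn_eq_ramificationIdx (P.under (𝓞 F)) P (E ≃ₐ[F] E), h2] at h4
  exact Subgroup.card_eq_one.mp h4

variable [IsMulCommutative (M ≃ₐ[F] M)]

/-- The Artin map of `M/F` restricts to the Artin map of a subextension `E/F` (everything
unramified), on all nonzero ideals. -/
theorem restrictNormal_artin (E : IntermediateField F M) [IsGalois F E]
    [IsMulCommutative (E ≃ₐ[F] E)]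
    (hunr : ∀ Q : Ideal (𝓞 M), Q.IsPrime → Q ≠ ⊥ → Q.inertia (M ≃ₐ[F] M) = ⊥)
    (I : Ideal (𝓞 F)) (hI : I ≠ ⊥) :
    (artin F M I).restrictNormal E = artin F E I := by
  have hunrE : ∀ (𝔞 : Ideal (𝓞 F)), 𝔞 ≠ ⊥ → ∀ Q : Ideal (𝓞 E), Q.IsPrime → Q.under (𝓞 F) = 𝔞 →
      Q.inertia (E ≃ₐ[F] E) = ⊥ := by
    intro 𝔞 h𝔞 Q hQ hQ𝔞
    refine inertia_eq_bot_of_tower E hunr Q hQ ?_
    rintro rfl
    apply h𝔞
    rw [← hQ𝔞]
    exact Ideal.under_bot (𝓞 F) (𝓞 E)
  have key := artin_ext (K := F) M (AlgEquiv.restrictNormalHom (F := F) (K₁ := M) E)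
    (artin F E) (artin_one F E) (fun q J _ hq hJ => artin_mul E hq hJ) ?_ I hI
  · exact key.symm
  · intro q hq hq0
    haveI := hq
    rw [← artin_prime M q hq0]
    exact (Fermat.Agent.CFT.FrobOmega.restrictNormal_artin (L := E) (Ω := M) hq0
      (hunrE q hq0)).symm

end Fermat.Agent.ES.T56.ElemArtinSub23
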