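/-
Programme T (S56), chapter GW-D, brick (K2b-core) of `T56_BASE28.md` (helper23), file 2:
**Artin reciprocity for everywhere unramified ELEMENTARY ABELIAN `p`-extensions of a totally complex
number field**: the Artin map kills principal ideals.

* `exists_index_prime_not_mem` : in a finite commutative group of exponent `p` every `σ ≠ 1` lies
  outside some subgroup of index `p`;
* `artin_span_singleton_eq_one_cyclic` : main's theorem (S14, Programme E: `ArtinRecipCore` +
  `ArtinRecipInputs` + `PairCross.pairInput` + `AuxChoiceProof.auxChoice`) in one statement;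
* **`artin_span_singleton_eq_one`** : the elementary abelian case, by restriction to the fixed fields
  of all subgroups of index `p` (`ElemArtinSub23.restrictNormal_artin`).
-/
import Mathlib
import Fermat.Agent.CFT.ArtinRecipInputs
import Fermat.Agent.CFT.PairCross
import Fermat.Agent.CFT.AuxChoiceProof
import Fermat.Agent.ES.T56.ElemArtinSub23

set_option autoImplicit false
set_option linter.unusedSectionVars false
set_option linter.style.haveILetI false

open NumberField Module
open scoped Pointwise

namespace Fermat.Agent.ES.T56.ElemArtinKill23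

open Fermat.Agent.CFT.ArtinMap

/-- In a finite commutative group of exponent `p`, every nontrivial element lies outside some
subgroup of index `p`. -/
theorem exists_index_prime_not_mem {G : Type*} [CommGroup G] {p : ℕ} (hp : p.Prime)
    (hexp : ∀ g : G, g ^ p = 1) {σ : G} (hσ : σ ≠ 1) :
    ∃ H : Subgroup G, H.index = p ∧ σ ∉ H := by
  haveI : Fact p.Prime := ⟨hp⟩
  have hexp' : ∀ x : Additive G, p • x = 0 := fun x => by
    show Additive.ofMul (x.toMul ^ p) = 0
    rw [hexp]; rfl
  have instMod : Module (ZMod p) (Additive G) := AddCommGroup.zmodModule hexp'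
  have hne : Additive.ofMul σ ≠ 0 := fun h => hσ (by simpa using h)
  obtain ⟨φ, hφ⟩ : ∃ φ : Additive G →ₗ[ZMod p] ZMod p, φ (Additive.ofMul σ) ≠ 0 := by
    by_contra h
    apply hne
    refine (Module.forall_dual_apply_eq_zero_iff (ZMod p) (Additive.ofMul σ)).mp fun ψ => ?_
    by_contra hψ
    exact h ⟨ψ, hψ⟩
  let f : G →* Multiplicative (ZMod p) := AddMonoidHom.toMultiplicativeRight φ.toAddMonoidHom
  have hf : ∀ g : G, f g = Multiplicative.ofAdd (φ (Additive.ofMul g)) := fun _ => rfl
  have hfσ : f σ ≠ 1 := by
    rw [hf]
    intro h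
    exact hφ (by simpa using h)
  refine ⟨f.ker, ?_, fun h => hfσ (MonoidHom.mem_ker.mp h)⟩
  rw [Subgroup.index_ker]
  have hcard : Nat.card (Multiplicative (ZMod p)) = p := by
    rw [Nat.card_congr Multiplicative.toAdd, Nat.card_zmod]
  have hdvd : Nat.card f.range ∣ p := by
    have h := Subgroup.card_subgroup_dvd_card f.range
    rwa [hcard] at h
  rcases (Nat.dvd_prime hp).mp hdvd with h1 | h1
  · exfalso
    have hbot : f.range = ⊥ := Subgroup.card_eq_one.mp h1
    have hmem : f σ ∈ f.range := ⟨σ, rfl⟩
    rw [hbot, Subgroup.mem_bot] at hmem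
    exact hfσ hmem
  · exact h1

section Main

open scoped IsMulCommutative

open Fermat.Agent.CFT

variable (F M : Type) [Field F] [Field M] [NumberField F] [NumberField M] [Algebra F M]
  [IsGalois F M] [IsTotallyComplex F] [IsMulCommutative (M ≃ₐ[F] M)]

/-- Main's Artin reciprocity (S14, Programme E) in one statement: for `M/F` Galois of prime degree
`p`, `F` totally complex, everywhere unramified, the Artin map kills principal ideals. -/
theorem artin_span_singleton_eq_one_cyclic {p : ℕ} (hp : p.Prime) (hdeg : finrank F M = p)
    (hunr : ∀ P : Ideal (𝓞 M), P.IsPrime → P ≠ ⊥ → P.inertia (M ≃ₐ[F] M) = ⊥)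
    (a : 𝓞 F) (ha : a ≠ 0) : artin F M (Ideal.span {a}) = 1 := by
  haveI : Fact p.Prime := ⟨hp⟩
  exact ArtinRecipCore.artin_span_singleton_eq_one F M hp hdeg (ArtinRecipInputs.splitInput F M)
    (PairCross.pairInput F M AuxChoiceProof.auxChoice hp hdeg hunr)
    (ArtinRecipInputs.secondIneqInput F M p hdeg hunr) a ha

/-- **Artin reciprocity for everywhere unramified elementary abelian `p`-extensions of a totally
complex number field: the Artin map kills principal ideals.** -/
theorem artin_span_singleton_eq_one {p : ℕ} (hp : p.Prime)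
    (hexp : ∀ σ : M ≃ₐ[F] M, σ ^ p = 1)
    (hunr : ∀ P : Ideal (𝓞 M), P.IsPrime → P ≠ ⊥ → P.inertia (M ≃ₐ[F] M) = ⊥)
    (a : 𝓞 F) (ha : a ≠ 0) : artin F M (Ideal.span {a}) = 1 := by
  by_contra hne
  obtain ⟨H, hidx, hH⟩ := exists_index_prime_not_mem hp hexp hne
  haveI : H.Normal := Subgroup.normal_of_isMulCommutative H
  haveI : IsGalois F (IntermediateField.fixedField H) := IsGalois.of_fixedField_normal_subgroup H
  have hdeg : finrank F (IntermediateField.fixedField H) = p := by
    rw [IntermediateField.finrank_eq_fixingSubgroup_index,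
      IntermediateField.fixingSubgroup_fixedField, hidx]
  haveI : IsMulCommutative ((IntermediateField.fixedField H) ≃ₐ[F] (IntermediateField.fixedField H)) :=
    ArtinRecipCore.isMulCommutative_gal F (IntermediateField.fixedField H) hp hdeg
  have hunrE := fun P hP hP0 =>
    ElemArtinSub23.inertia_eq_bot_of_tower (IntermediateField.fixedField H) hunr P hP hP0
  have h1 := artin_span_singleton_eq_one_cyclic F (IntermediateField.fixedField H) hp hdeg hunrE a ha
  have hI : Ideal.span {a} ≠ (⊥ : Ideal (𝓞 F)) := by
    rwa [Ne, Ideal.span_singleton_eq_bot]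
  have h2 := ElemArtinSub23.restrictNormal_artin (IntermediateField.fixedField H) hunr
    (Ideal.span {a}) hI
  rw [h1] at h2
  apply hH
  have hmem : artin F M (Ideal.span {a}) ∈ (IntermediateField.fixedField H).fixingSubgroup := by
    rw [IntermediateField.mem_fixingSubgroup_iff]
    intro x hx
    have h3 := AlgEquiv.restrictNormal_commutes (artin F M (Ideal.span {a}))
      (IntermediateField.fixedField H) ⟨x, hx⟩
    rw [h2] at h3
    exact h3.symm
  rwa [IntermediateField.fixingSubgroup_fixedField] at hmem

end Main

end Fermat.Agent.ES.T56.ElemArtinKill23
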