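/-
Programme T (S56), chapter GW-D, brick (K2b-core) of `T56_BASE28.md` (helper23), file 3:
**the Artin map on the class group of a totally complex number field `F`, for an everywhere
unramified elementary abelian `p`-extension `M/F`, and its surjectivity.**

* `isMulCommutative_sub`    : Galois groups of subextensions of an abelian extension are abelian;
* `artCl hp hexp hunr : ClassGroup (𝓞 F) →* (M ≃ₐ[F] M)` with `artCl_mk0` (`= artin F M I`),
  `artCl_isArithFrobAt` (Frobenius property at every prime), `artCl_pow` (killed by `p`);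
* **`artCl_surjective`**      : from `NotAllSplit10.notAllSplitShape` applied to the fixed field of
  the image;
* `artCl_eq_one_of_stabilizer_eq_bot` : primes with trivial decomposition group are killed.
-/
import Mathlib
import Fermat.Agent.CFT.NotAllSplit10
import Fermat.Agent.ES.T56.ElemArtinKill23

set_option autoImplicit false
set_option linter.unusedSectionVars false
set_option linter.style.haveILetI false

open NumberField Module
open scoped Pointwise nonZeroDivisors

namespace Fermat.Agent.ES.T56.ElemArtinClass23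

open Fermat.Agent.CFT.ArtinMap Fermat.Agent.CFT

section Sub

variable {F M : Type} [Field F] [Field M] [Algebra F M] [IsGalois F M]
  [IsMulCommutative (M ≃ₐ[F] M)]

/-- Galois groups of subextensions of an abelian extension are abelian. -/
theorem isMulCommutative_sub (E : IntermediateField F M) [IsGalois F E] :
    IsMulCommutative (E ≃ₐ[F] E) := by
  refine ⟨⟨fun a b => ?_⟩⟩
  obtain ⟨a', rfl⟩ := AlgEquiv.restrictNormalHom_surjective (F := F) (K₁ := E) (E := M) a
  obtain ⟨b', rfl⟩ := AlgEquiv.restrictNormalHom_surjective (F := F) (K₁ := E) (E := M) b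
  rw [← map_mul, ← map_mul, mul_comm' a' b']

end Sub

section Class

variable {F M : Type} [Field F] [Field M] [NumberField F] [NumberField M] [Algebra F M]
  [IsGalois F M] [IsTotallyComplex F] [IsMulCommutative (M ≃ₐ[F] M)]
  {p : ℕ} (hp : p.Prime) (hexp : ∀ σ : M ≃ₐ[F] M, σ ^ p = 1)
  (hunr : ∀ P : Ideal (𝓞 M), P.IsPrime → P ≠ ⊥ → P.inertia (M ≃ₐ[F] M) = ⊥)

/-- **The Artin map on the class group** of the totally complex field `F`, for the everywhere
unramified elementary abelian `p`-extension `M/F`. -/
noncomputable def artCl : ClassGroup (𝓞 F) →* (M ≃ₐ[F] M) :=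
  artinClass M (ElemArtinKill23.artin_span_singleton_eq_one F M hp hexp hunr)

theorem artCl_mk0 (I : (Ideal (𝓞 F))⁰) :
    artCl hp hexp hunr (ClassGroup.mk0 I) = artin F M (I : Ideal (𝓞 F)) :=
  artinClass_mk0 M _ I

/-- The class of a nonzero prime `q` goes to a Frobenius at every prime over `q`. -/
theorem artCl_isArithFrobAt (q : Ideal (𝓞 F)) (hq : q ∈ (Ideal (𝓞 F))⁰) (P : Ideal (𝓞 M))
    (hqp : q.IsPrime) (hPp : P.IsPrime) (hPq : P.under (𝓞 F) = q) :
    IsArithFrobAt (𝓞 F) (artCl hp hexp hunr (ClassGroup.mk0 ⟨q, hq⟩)) P := by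
  haveI := hqp
  haveI := hPp
  haveI : P.LiesOver q := ⟨hPq.symm⟩
  rw [artCl_mk0]
  exact isArithFrobAt_artin M q (coe_ne_bot' F ⟨q, hq⟩) P

theorem artCl_pow (c : ClassGroup (𝓞 F)) : artCl hp hexp hunr (c ^ p) = 1 := by
  rw [map_pow, hexp]

/-- Primes with trivial decomposition group are killed. -/
theorem artCl_eq_one_of_stabilizer_eq_bot (q : Ideal (𝓞 F)) (hq : q ∈ (Ideal (𝓞 F))⁰)
    (hqp : q.IsPrime) (P : Ideal (𝓞 M)) (hPp : P.IsPrime) (hPq : P.under (𝓞 F) = q)
    (h : MulAction.stabilizer (M ≃ₐ[F] M) P = ⊥) :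
    artCl hp hexp hunr (ClassGroup.mk0 ⟨q, hq⟩) = 1 := by
  haveI := hqp
  haveI := hPp
  haveI : P.LiesOver q := ⟨hPq.symm⟩
  rw [artCl_mk0]
  exact artin_eq_one_of_stabilizer_eq_bot M q (coe_ne_bot' F ⟨q, hq⟩) P h

/-- **The Artin map is surjective.** -/
theorem artCl_surjective : Function.Surjective (artCl hp hexp hunr) := by
  rw [← MonoidHom.range_eq_top]
  by_contra hne
  set R : Subgroup (M ≃ₐ[F] M) := (artCl hp hexp hunr).range with hR
  haveI : R.Normal := Subgroup.normal_of_isMulCommutative R
  haveI : IsGalois F (IntermediateField.fixedField R) := IsGalois.of_fixedField_normal_subgroup R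
  haveI : IsMulCommutative ((IntermediateField.fixedField R) ≃ₐ[F] (IntermediateField.fixedField R)) :=
    isMulCommutative_sub (IntermediateField.fixedField R)
  have hdeg : finrank F (IntermediateField.fixedField R) ≠ 1 := by
    rw [IntermediateField.finrank_eq_fixingSubgroup_index,
      IntermediateField.fixingSubgroup_fixedField]
    intro h
    exact hne (Subgroup.index_eq_one.mp h)
  obtain ⟨q, P, σ, hqp, hqN, -, hPp, hPq, hσ, hσ1⟩ :=
    NotAllSplit10.notAllSplitShape F (IntermediateField.fixedField R) hdeg 1 one_ne_zero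
  haveI := hqp
  haveI := hPp
  haveI : P.LiesOver q := ⟨hPq.symm⟩
  have hq0 : q ≠ ⊥ := by
    rintro rfl
    rw [Ideal.absNorm_bot] at hqN
    exact Nat.not_prime_zero hqN
  have hqmem : q ∈ (Ideal (𝓞 F))⁰ := by
    rw [mem_nonZeroDivisors_iff_ne_zero, Ideal.zero_eq_bot]
    exact hq0
  have hP0 : P ≠ ⊥ := Ideal.ne_bot_of_liesOver_of_ne_bot hq0 P
  have hunrE := ElemArtinSub23.inertia_eq_bot_of_tower (IntermediateField.fixedField R) hunr P hPp hP0
  have h1 : σ = artin F (IntermediateField.fixedField R) q :=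
    eq_artin_of_isArithFrobAt (IntermediateField.fixedField R) q hq0 P hunrE hσ
  have h2 := ElemArtinSub23.restrictNormal_artin (IntermediateField.fixedField R) hunr q hq0
  have hmem : artin F M q ∈ R := ⟨ClassGroup.mk0 ⟨q, hqmem⟩, artCl_mk0 hp hexp hunr ⟨q, hqmem⟩⟩
  apply hσ1
  rw [h1, ← h2]
  refine AlgEquiv.ext fun x => ?_
  rw [AlgEquiv.one_apply]
  have h3 := AlgEquiv.restrictNormal_commutes (artin F M q) (IntermediateField.fixedField R) x
  have h4 : artin F M q (algebraMap (IntermediateField.fixedField R) M x) =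
      algebraMap (IntermediateField.fixedField R) M x := x.2 ⟨artin F M q, hmem⟩
  rw [h4] at h3
  exact (algebraMap (IntermediateField.fixedField R) M).injective h3

end Class

end Fermat.Agent.ES.T56.ElemArtinClass23
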