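/-
Programme T (S56), chapter GW-D, brick (K2b-core) of `T56_BASE28.md` (helper23), file 4:
**Galois equivariance of the Artin map** in a tower `k ⊆ F ⊆ M` (`F/k`, `M/k`, `M/F` Galois, `M/F`
abelian and everywhere unramified).

* `conjK δ g : M ≃ₐ[F] M` for `δ : M ≃ₐ[k] M`, `g : M ≃ₐ[F] M`  (`x ↦ δ (g (δ⁻¹ x))`), `conjHom δ`;
* `isArithFrobAt_conjK`  : `g` Frobenius at `P` ⇒ `δ g δ⁻¹` Frobenius at `δ • P`
  (S14's `ArtinGlue.isArithFrobAt_conjK` with the base `ℚ` replaced by any number field `k`);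
* **`artin_smul`**         : `artin F M (δ|_F • I) = conjK δ (artin F M I)` for all `I ≠ ⊥`.
-/
import Mathlib
import Fermat.Agent.CFT.ArtinMap

set_option autoImplicit false
set_option linter.unusedSectionVars false
set_option linter.style.haveILetI false

open NumberField
open scoped Pointwise

namespace Fermat.Agent.ES.T56.ElemArtinEquiv23

open Fermat.Agent.CFT.ArtinMap

section Conj

variable {k F M : Type} [Field k] [Field F] [Field M] [NumberField k] [NumberField F]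
  [NumberField M] [Algebra k F] [Algebra F M] [Algebra k M] [IsScalarTower k F M] [Normal k F]

/-- `δ (algebraMap x) = algebraMap (σ x)` where `σ` is the restriction of `δ` to `F`. -/
theorem apply_algebraMap (δ : M ≃ₐ[k] M) (x : F) :
    δ (algebraMap F M x) = algebraMap F M (δ.restrictNormal F x) :=
  (AlgEquiv.restrictNormal_commutes δ F x).symm

/-- Conjugation of `g ∈ Gal(M/F)` by `δ ∈ Gal(M/k)`, as an element of `Gal(M/F)`. -/
noncomputable def conjK (δ : M ≃ₐ[k] M) (g : M ≃ₐ[F] M) : M ≃ₐ[F] M :=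
  AlgEquiv.ofRingEquiv
    (f := (δ.symm.toRingEquiv.trans g.toRingEquiv).trans δ.toRingEquiv) (by
      intro x
      show δ (g (δ.symm (algebraMap F M x))) = algebraMap F M x
      rw [apply_algebraMap δ.symm x, g.commutes, ← apply_algebraMap δ.symm x,
        AlgEquiv.apply_symm_apply])

@[simp] theorem conjK_apply (δ : M ≃ₐ[k] M) (g : M ≃ₐ[F] M) (x : M) :
    conjK δ g x = δ (g (δ.symm x)) := rfl

theorem conjK_restrictScalars (δ : M ≃ₐ[k] M) (g : M ≃ₐ[F] M) :
    (conjK δ g).restrictScalars k = δ * g.restrictScalars k * δ⁻¹ := by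
  ext x
  rfl

theorem conjK_one (δ : M ≃ₐ[k] M) : conjK δ (1 : M ≃ₐ[F] M) = 1 := by
  ext x
  simp

theorem conjK_mul (δ : M ≃ₐ[k] M) (g h : M ≃ₐ[F] M) :
    conjK δ (g * h) = conjK δ g * conjK δ h := by
  ext x
  simp [AlgEquiv.mul_apply]

/-- Conjugation by `δ` as a group homomorphism of `Gal(M/F)`. -/
noncomputable def conjHom (δ : M ≃ₐ[k] M) : (M ≃ₐ[F] M) →* (M ≃ₐ[F] M) where
  toFun := conjK δ
  map_one' := conjK_one δ
  map_mul' := conjK_mul δ

@[simp] theorem conjHom_apply (δ : M ≃ₐ[k] M) (g : M ≃ₐ[F] M) : conjHom δ g = conjK δ g := rfl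

variable [IsGalois F M] [IsGalois k M]

/-- Compatibility of the canonical actions on rings of integers with `algebraMap`. -/
theorem smul_algebraMap_int (δ : M ≃ₐ[k] M) (x : 𝓞 F) :
    δ • (algebraMap (𝓞 F) (𝓞 M) x) = algebraMap (𝓞 F) (𝓞 M) ((δ.restrictNormal F) • x) := by
  apply RingOfIntegers.ext
  show δ (algebraMap F M (x : F)) = algebraMap F M ((δ.restrictNormal F) (x : F))
  exact apply_algebraMap δ (x : F)

theorem restrictNormal_inv (δ : M ≃ₐ[k] M) :
    (δ⁻¹).restrictNormal F = (δ.restrictNormal F)⁻¹ := by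
  have := map_inv (AlgEquiv.restrictNormalHom (F := k) (K₁ := M) F) δ
  exact this

/-- The prime below `δ • P` is `σ • (prime below P)`. -/
theorem under_smul (δ : M ≃ₐ[k] M) (P : Ideal (𝓞 M)) :
    (δ • P).under (𝓞 F) = (δ.restrictNormal F) • (P.under (𝓞 F)) := by
  ext x
  rw [Ideal.under_def, Ideal.mem_comap, Ideal.mem_pointwise_smul_iff_inv_smul_mem,
    Ideal.mem_pointwise_smul_iff_inv_smul_mem, Ideal.under_def, Ideal.mem_comap,
    smul_algebraMap_int, restrictNormal_inv]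

/-- The residue fields of `q` and `σ • q` have the same cardinality. -/
theorem card_quotient_smul (σ : F ≃ₐ[k] F) (q : Ideal (𝓞 F)) :
    Nat.card (𝓞 F ⧸ σ • q) = Nat.card (𝓞 F ⧸ q) := by
  have e : 𝓞 F ⧸ q ≃+* 𝓞 F ⧸ σ • q :=
    Ideal.quotientEquiv q (σ • q) (MulSemiringAction.toRingEquiv (F ≃ₐ[k] F) (𝓞 F) σ)
      (Ideal.pointwise_smul_def q)
  exact (Nat.card_congr e.toEquiv).symm

/-- Semilinear conjugation: if `g` is a Frobenius at `P` (for `M/F`), then `δ g δ⁻¹` is a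
Frobenius at `δ • P`, for every `δ ∈ Gal(M/k)`. -/
theorem isArithFrobAt_conjK {g : M ≃ₐ[F] M} {P : Ideal (𝓞 M)}
    (h : IsArithFrobAt (𝓞 F) g P) (δ : M ≃ₐ[k] M) :
    IsArithFrobAt (𝓞 F) (conjK δ g) (δ • P) := by
  intro x
  have hcard : Nat.card (𝓞 F ⧸ (δ • P).under (𝓞 F)) = Nat.card (𝓞 F ⧸ P.under (𝓞 F)) := by
    rw [under_smul, card_quotient_smul]
  rw [hcard, Ideal.mem_pointwise_smul_iff_inv_smul_mem]
  have hx := h (δ⁻¹ • x)
  convert hx using 1
  rw [smul_sub, smul_pow']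
  congr 1
  apply RingOfIntegers.ext
  show δ⁻¹ (δ (g (δ.symm (x : M)))) = g (δ⁻¹ (x : M))
  rw [AlgEquiv.aut_inv, AlgEquiv.symm_apply_apply]

end Conj

section Artin

variable {k F M : Type} [Field k] [Field F] [Field M] [NumberField k] [NumberField F]
  [NumberField M] [Algebra k F] [Algebra F M] [Algebra k M] [IsScalarTower k F M]
  [IsGalois k F] [IsGalois F M] [IsGalois k M]

theorem smul_ideal_ne_bot (σ : F ≃ₐ[k] F) {q : Ideal (𝓞 F)} (hq : q ≠ ⊥) : σ • q ≠ ⊥ := by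
  intro h
  apply hq
  have h2 : σ⁻¹ • (σ • q) = σ⁻¹ • (⊥ : Ideal (𝓞 F)) := by rw [h]
  rw [inv_smul_smul] at h2
  rw [h2, Ideal.pointwise_smul_def, Ideal.map_bot]

variable [IsMulCommutative (M ≃ₐ[F] M)]

/-- Equivariance at primes. -/
theorem artin_smul_prime
    (hunr : ∀ P : Ideal (𝓞 M), P.IsPrime → P ≠ ⊥ → P.inertia (M ≃ₐ[F] M) = ⊥)
    (δ : M ≃ₐ[k] M) (q : Ideal (𝓞 F)) [q.IsPrime] (hq : q ≠ ⊥) :
    artin F M ((δ.restrictNormal F) • q) = conjK δ (artin F M q) := by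
  have hσq : (δ.restrictNormal F) • q ≠ ⊥ := smul_ideal_ne_bot _ hq
  have hP : IsArithFrobAt (𝓞 F) (artin F M q) (primeOver F M q) :=
    isArithFrobAt_artin M q hq (primeOver F M q)
  have hP' := isArithFrobAt_conjK hP δ
  have hunder : (δ • primeOver F M q).under (𝓞 F) = (δ.restrictNormal F) • q := by
    rw [under_smul, ← Ideal.over_def (primeOver F M q) q]
  haveI : (δ • primeOver F M q).LiesOver ((δ.restrictNormal F) • q) := ⟨hunder.symm⟩
  have hne : δ • primeOver F M q ≠ ⊥ := Ideal.ne_bot_of_liesOver_of_ne_bot hσq _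
  exact (eq_artin_of_isArithFrobAt M ((δ.restrictNormal F) • q) hσq (δ • primeOver F M q)
    (hunr _ inferInstance hne) hP').symm

/-- **Galois equivariance of the Artin map**: `Art(δ|_F • I) = δ Art(I) δ⁻¹`. -/
theorem artin_smul
    (hunr : ∀ P : Ideal (𝓞 M), P.IsPrime → P ≠ ⊥ → P.inertia (M ≃ₐ[F] M) = ⊥)
    (δ : M ≃ₐ[k] M) (I : Ideal (𝓞 F)) (hI : I ≠ ⊥) :
    artin F M ((δ.restrictNormal F) • I) = conjK δ (artin F M I) := by
  have key := artin_ext (K := F) M (conjHom δ) (fun J => artin F M ((δ.restrictNormal F) • J))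
    ?_ ?_ ?_ I hI
  · exact key
  · show artin F M ((δ.restrictNormal F) • (1 : Ideal (𝓞 F))) = 1
    rw [smul_one, artin_one]
  · intro q J _ hq hJ
    show artin F M ((δ.restrictNormal F) • (q * J)) = _
    rw [smul_mul', artin_mul M (smul_ideal_ne_bot _ hq) (smul_ideal_ne_bot _ hJ)]
  · intro q hqp hq
    haveI := hqp
    show artin F M ((δ.restrictNormal F) • q) = conjK δ (frobAt F M q)
    rw [artin_smul_prime hunr δ q hq, artin_prime M q hq]

end Artin

end Fermat.Agent.ES.T56.ElemArtinEquiv23
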