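/-
Programme T (S56), chapter GW-D, brick (K2b-core) of `T56_BASE28.md` (helper23), file 5: the export.

Tower `k ⊆ F ⊆ M` of number fields, `F` totally complex, `F/k`, `M/k`, `M/F` Galois, `Gal(M/F)`
commutative of exponent `p`, `M/F` unramified at every nonzero prime.  Then
`artCl : ClassGroup (𝓞 F) →* Gal(M/F)` (file 3) is
* surjective (`ElemArtinClass23.artCl_surjective`), trivial on `p`-th powers (`artCl_pow`), trivial on
  the classes of primes with trivial decomposition group (`artCl_eq_one_of_stabilizer_eq_bot`),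
  Frobenius at every prime (`artCl_isArithFrobAt`);
* **Galois equivariant** (`artCl_smul`): `artCl [δ|_F • I] = δ (artCl [I]) δ⁻¹` for `δ ∈ Gal(M/k)`.
`exists_artCl` packages all of it in one existential statement.
-/
import Mathlib
import Fermat.Agent.ES.T56.ElemArtinClass23
import Fermat.Agent.ES.T56.ElemArtinEquiv23

set_option autoImplicit false
set_option linter.unusedSectionVars false
set_option linter.style.haveILetI false

open NumberField Module
open scoped Pointwise nonZeroDivisors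

namespace Fermat.Agent.ES.T56.ElemArtinExport23

open Fermat.Agent.CFT.ArtinMap Fermat.Agent.ES.T56.ElemArtinClass23
  Fermat.Agent.ES.T56.ElemArtinEquiv23

variable {k F M : Type} [Field k] [Field F] [Field M] [NumberField k] [NumberField F]
  [NumberField M] [Algebra k F] [Algebra F M] [Algebra k M] [IsScalarTower k F M]
  [IsGalois k F] [IsGalois F M] [IsGalois k M] [IsTotallyComplex F]
  [IsMulCommutative (M ≃ₐ[F] M)]
  {p : ℕ} (hp : p.Prime) (hexp : ∀ σ : M ≃ₐ[F] M, σ ^ p = 1)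
  (hunr : ∀ P : Ideal (𝓞 M), P.IsPrime → P ≠ ⊥ → P.inertia (M ≃ₐ[F] M) = ⊥)

theorem smul_mem_nonZeroDivisors (σ : F ≃ₐ[k] F) (I : (Ideal (𝓞 F))⁰) :
    σ • (I : Ideal (𝓞 F)) ∈ (Ideal (𝓞 F))⁰ := by
  rw [mem_nonZeroDivisors_iff_ne_zero, Ideal.zero_eq_bot]
  exact smul_ideal_ne_bot σ (coe_ne_bot' F I)

/-- **Galois equivariance of the Artin map on the class group.** -/
theorem artCl_smul (δ : M ≃ₐ[k] M) (I : (Ideal (𝓞 F))⁰) :
    artCl hp hexp hunr (ClassGroup.mk0
        ⟨(δ.restrictNormal F) • (I : Ideal (𝓞 F)), smul_mem_nonZeroDivisors _ I⟩) =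
      conjK δ (artCl hp hexp hunr (ClassGroup.mk0 I)) := by
  rw [artCl_mk0, artCl_mk0]
  exact artin_smul hunr δ (I : Ideal (𝓞 F)) (coe_ne_bot' F I)

include hp hexp hunr in
/-- The whole package in one statement. -/
theorem exists_artCl :
    ∃ Art : ClassGroup (𝓞 F) →* (M ≃ₐ[F] M), Function.Surjective Art ∧
      (∀ c, Art (c ^ p) = 1) ∧
      (∀ I : (Ideal (𝓞 F))⁰, Art (ClassGroup.mk0 I) = artin F M (I : Ideal (𝓞 F))) ∧
      (∀ (q : Ideal (𝓞 F)) (hq : q ∈ (Ideal (𝓞 F))⁰) (P : Ideal (𝓞 M)), q.IsPrime → P.IsPrime →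
        P.under (𝓞 F) = q → IsArithFrobAt (𝓞 F) (Art (ClassGroup.mk0 ⟨q, hq⟩)) P) ∧
      (∀ (q : Ideal (𝓞 F)) (hq : q ∈ (Ideal (𝓞 F))⁰) (P : Ideal (𝓞 M)), q.IsPrime → P.IsPrime →
        P.under (𝓞 F) = q → MulAction.stabilizer (M ≃ₐ[F] M) P = ⊥ →
          Art (ClassGroup.mk0 ⟨q, hq⟩) = 1) ∧
      (∀ (δ : M ≃ₐ[k] M) (I : (Ideal (𝓞 F))⁰),
        Art (ClassGroup.mk0 ⟨(δ.restrictNormal F) • (I : Ideal (𝓞 F)),
          smul_mem_nonZeroDivisors _ I⟩) = conjK δ (Art (ClassGroup.mk0 I))) :=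
  ⟨artCl hp hexp hunr, artCl_surjective hp hexp hunr, artCl_pow hp hexp hunr,
    artCl_mk0 hp hexp hunr, artCl_isArithFrobAt hp hexp hunr,
    fun q hq P hqp hPp hPq h =>
      artCl_eq_one_of_stabilizer_eq_bot hp hexp hunr q hq hqp P hPp hPq h,
    artCl_smul hp hexp hunr⟩

end Fermat.Agent.ES.T56.ElemArtinExport23
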