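/-
Programme T (S56), chapter GW-D, brick (K2b-core) of `T56_BASE28.md` (helper23), file 6:
**the Artin map on the divisor model `DivT T F` of main's `PT/GLOB/Interface23`**
(`DivT T F` = free abelian group, written multiplicatively, on the primes of `𝓞 F` not above `T`;
`divT T F : Fˣ →* DivT T F` the divisor map; `Cl_T(F) = DivT T F / divT T F (Fˣ)`).

Tower `k ⊆ F ⊆ M` of number fields, `F` totally complex, `F/k`, `M/k`, `M/F` Galois, `Gal(M/F)`
commutative of exponent `p`, `M/F` unramified at every nonzero prime (`hunr`), and every prime of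
`M` above `T` has trivial decomposition group in `Gal(M/F)` (`hT`).  Then
`artDiv : DivT T F →* Gal(M/F)` (`gen P ↦ artCl [P]`) satisfies
* `artDiv_divT`        : it kills the principal divisors `divT T F x`, `x ∈ Fˣ`;
* `artDiv_surjective`  : it is onto;
* `artDiv_pow`         : it kills `p`-th powers;
* `artDiv_isArithFrobAt` : `artDiv (gen P)` is a Frobenius at every prime of `M` over `P`;
* `artDiv_smul`        : `artDiv (δ|_F • D) = δ (artDiv D) δ⁻¹` for `δ ∈ Gal(M/k)` (`•` = main's
  `Interface23.instMulDistribMulActionDivT`).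
`exists_artDiv` packages all of it in one existential statement.
-/
import Mathlib
import Fermat.Agent.PT.GLOB.Interface23
import Fermat.Agent.PT.GLOB.ClassAction23
import Fermat.Agent.ES.T56.ElemArtinExport23

set_option autoImplicit false
set_option linter.unusedSectionVars false
set_option linter.style.haveILetI false

open NumberField Module IsDedekindDomain
open scoped Pointwise nonZeroDivisors

namespace Fermat.Agent.ES.T56.ElemArtinDiv23

open Fermat.Agent.CFT.ArtinMap Fermat.Agent.ES.T56.ElemArtinClass23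
  Fermat.Agent.ES.T56.ElemArtinEquiv23 Fermat.Agent.ES.T56.ElemArtinExport23
  Fermat.Agent.PT.GLOB.Interface23 Fermat.Agent.PT.GLOB.ClassAction23

section Generic

variable (T : Finset Nat.Primes) (F : Type) [Field F] [NumberField F]

/-- The generator of `DivT T F` attached to a prime away from `T`. -/
noncomputable def gen (P : PrimeAway T F) : DivT T F :=
  DivT.ofFinsupp T F (Finsupp.single P 1)

theorem toFinsupp_gen (P : PrimeAway T F) :
    DivT.toFinsupp T F (gen T F P) = Finsupp.single P 1 := rfl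

/-- Homomorphisms out of `DivT T F` are determined by their values on the generators. -/
theorem hom_ext {H : Type*} [Monoid H] {f g : DivT T F →* H}
    (h : ∀ P : PrimeAway T F, f (gen T F P) = g (gen T F P)) : f = g := by
  have key : MonoidHom.toAdditiveRight
        (show Multiplicative (PrimeAway T F →₀ ℤ) →* H from f) =
      MonoidHom.toAdditiveRight (show Multiplicative (PrimeAway T F →₀ ℤ) →* H from g) := by
    apply Finsupp.addHom_ext'
    intro P
    apply AddMonoidHom.ext_int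
    exact congrArg Additive.ofMul (h P)
  exact MonoidHom.toAdditiveRight.injective key

/-- The prime ideal of a `PrimeAway`, as a nonzero ideal. -/
noncomputable def primeIdeal0 (P : PrimeAway T F) : (Ideal (𝓞 F))⁰ :=
  ⟨P.1.asIdeal, by
    rw [mem_nonZeroDivisors_iff_ne_zero, Ideal.zero_eq_bot]
    exact P.1.ne_bot⟩

theorem coe_primeIdeal0 (P : PrimeAway T F) :
    (primeIdeal0 T F P : Ideal (𝓞 F)) = P.1.asIdeal := rfl

/-- The class map `DivT T F → Cl(𝓞 F)`, `gen P ↦ [P]`. -/
noncomputable def clsDiv : DivT T F →* ClassGroup (𝓞 F) :=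
  AddMonoidHom.toMultiplicativeLeft (Finsupp.liftAddHom fun P : PrimeAway T F =>
    zmultiplesHom (Additive (ClassGroup (𝓞 F)))
      (Additive.ofMul (ClassGroup.mk0 (primeIdeal0 T F P))))

theorem clsDiv_gen (P : PrimeAway T F) :
    clsDiv T F (gen T F P) = ClassGroup.mk0 (primeIdeal0 T F P) := by
  show Additive.toMul (Finsupp.liftAddHom _ (Finsupp.single P (1 : ℤ))) = _
  rw [Finsupp.liftAddHom_apply_single, zmultiplesHom_apply, one_smul]
  rfl

theorem finite_count_ne_zero (J : FractionalIdeal (𝓞 F)⁰ F) :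
    {P : PrimeAway T F | FractionalIdeal.count F P.1 J ≠ 0}.Finite := by
  have h := FractionalIdeal.finite_factors (R := 𝓞 F) (K := F) J
  rw [Filter.eventually_cofinite] at h
  exact Set.Finite.preimage (Subtype.val_injective.injOn) h

/-- The prime-to-`T` divisor of a fractional ideal. -/
noncomputable def dvF (J : FractionalIdeal (𝓞 F)⁰ F) : DivT T F :=
  DivT.ofFinsupp T F
    (Finsupp.ofSupportFinite (fun P : PrimeAway T F => FractionalIdeal.count F P.1 J)
      (finite_count_ne_zero T F J))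

theorem dvF_apply (J : FractionalIdeal (𝓞 F)⁰ F) (P : PrimeAway T F) :
    DivT.toFinsupp T F (dvF T F J) P = FractionalIdeal.count F P.1 J := rfl

theorem divT_eq_dvF (x : Fˣ) :
    divT T F x = dvF T F (FractionalIdeal.spanSingleton (𝓞 F)⁰ (x : F)) := rfl

theorem toFinsupp_mul (D E : DivT T F) :
    DivT.toFinsupp T F (D * E) = DivT.toFinsupp T F D + DivT.toFinsupp T F E := rfl

theorem toFinsupp_one : DivT.toFinsupp T F (1 : DivT T F) = 0 := rfl

theorem dvF_mul {I J : FractionalIdeal (𝓞 F)⁰ F} (hI : I ≠ 0) (hJ : J ≠ 0) :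
    dvF T F (I * J) = dvF T F I * dvF T F J := by
  apply divT_ext
  intro P
  rw [toFinsupp_mul, Finsupp.add_apply, dvF_apply, dvF_apply, dvF_apply,
    FractionalIdeal.count_mul F P.1 hI hJ]

theorem dvF_one : dvF T F (1 : FractionalIdeal (𝓞 F)⁰ F) = 1 := by
  apply divT_ext
  intro P
  rw [toFinsupp_one, Finsupp.zero_apply, dvF_apply, FractionalIdeal.count_one]

/-- The divisor of a prime away from `T` is the generator. -/
theorem dvF_prime_away (P : PrimeAway T F) :
    dvF T F (P.1.asIdeal : FractionalIdeal (𝓞 F)⁰ F) = gen T F P := by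
  classical
  apply divT_ext
  intro Q
  rw [dvF_apply, toFinsupp_gen, Finsupp.single_apply, FractionalIdeal.count_maximal]
  by_cases h : P = Q
  · rw [if_pos h, if_pos (congrArg Subtype.val h)]
  · rw [if_neg h, if_neg (fun h' => h (Subtype.ext h'))]

/-- The divisor of a prime above `T` is trivial. -/
theorem dvF_prime_above (q : HeightOneSpectrum (𝓞 F))
    (hq : ¬ ∀ t ∈ T, (((t : ℕ) : ℤ) : 𝓞 F) ∉ q.asIdeal) :
    dvF T F (q.asIdeal : FractionalIdeal (𝓞 F)⁰ F) = 1 := by
  apply divT_ext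
  intro Q
  rw [dvF_apply, toFinsupp_one, Finsupp.zero_apply]
  apply FractionalIdeal.count_maximal_coprime
  rintro rfl
  exact hq Q.2

end Generic

section Tower

variable (T : Finset Nat.Primes)
variable {k F M : Type} [Field k] [Field F] [Field M] [NumberField k] [NumberField F]
  [NumberField M] [Algebra k F] [Algebra F M] [Algebra k M] [IsScalarTower k F M]
  [IsGalois k F] [IsGalois F M] [IsGalois k M] [IsTotallyComplex F]
  [IsMulCommutative (M ≃ₐ[F] M)]
  {p : ℕ} (hp : p.Prime) (hexp : ∀ σ : M ≃ₐ[F] M, σ ^ p = 1)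
  (hunr : ∀ P : Ideal (𝓞 M), P.IsPrime → P ≠ ⊥ → P.inertia (M ≃ₐ[F] M) = ⊥)
  (hT : ∀ P : Ideal (𝓞 M), P.IsPrime → (∃ t ∈ T, (((t : ℕ) : ℤ) : 𝓞 M) ∈ P) →
    MulAction.stabilizer (M ≃ₐ[F] M) P = ⊥)

/-- **The Artin map on the divisors prime to `T`.** -/
noncomputable def artDiv : DivT T F →* (M ≃ₐ[F] M) :=
  (artCl hp hexp hunr).comp (clsDiv T F)

theorem artDiv_gen (P : PrimeAway T F) :
    artDiv T hp hexp hunr (gen T F P) = artin F M P.1.asIdeal := by
  show artCl hp hexp hunr (clsDiv T F (gen T F P)) = _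
  rw [clsDiv_gen, artCl_mk0, coe_primeIdeal0]

theorem artDiv_pow (D : DivT T F) : artDiv T hp hexp hunr (D ^ p) = 1 := by
  rw [map_pow, hexp]

/-- `artDiv (gen P)` is a Frobenius at every prime of `M` over `P`. -/
theorem artDiv_isArithFrobAt (P : PrimeAway T F) (Q : Ideal (𝓞 M)) (hQp : Q.IsPrime)
    (hQ : Q.under (𝓞 F) = P.1.asIdeal) :
    IsArithFrobAt (𝓞 F) (artDiv T hp hexp hunr (gen T F P)) Q := by
  show IsArithFrobAt (𝓞 F) (artCl hp hexp hunr (clsDiv T F (gen T F P))) Q
  rw [clsDiv_gen]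
  exact artCl_isArithFrobAt hp hexp hunr P.1.asIdeal (primeIdeal0 T F P).2 Q P.1.isPrime hQp hQ

include hT in
/-- On integral ideals, `artDiv ∘ dvF` is the Artin map. -/
theorem artDiv_dvF_coe (I : Ideal (𝓞 F)) (hI : I ≠ ⊥) :
    artDiv T hp hexp hunr (dvF T F (I : FractionalIdeal (𝓞 F)⁰ F)) = artin F M I := by
  have key := artin_ext M (MonoidHom.id (M ≃ₐ[F] M))
    (fun I : Ideal (𝓞 F) => artDiv T hp hexp hunr (dvF T F (I : FractionalIdeal (𝓞 F)⁰ F)))
    ?_ ?_ ?_ I hI
  · exact key
  · show artDiv T hp hexp hunr (dvF T F ((1 : Ideal (𝓞 F)) : FractionalIdeal (𝓞 F)⁰ F)) = 1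
    rw [Ideal.one_eq_top, FractionalIdeal.coeIdeal_top, dvF_one, map_one]
  · intro q J _ hq0 hJ
    show artDiv T hp hexp hunr (dvF T F ((q * J : Ideal (𝓞 F)) : FractionalIdeal (𝓞 F)⁰ F)) = _
    rw [FractionalIdeal.coeIdeal_mul, dvF_mul T F (FractionalIdeal.coeIdeal_ne_zero.mpr hq0)
      (FractionalIdeal.coeIdeal_ne_zero.mpr hJ), map_mul]
  · intro q hqp hq0
    haveI := hqp
    show artDiv T hp hexp hunr (dvF T F (q : FractionalIdeal (𝓞 F)⁰ F)) = frobAt F M q
    rw [← artin_prime M q hq0]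
    by_cases haway : ∀ t ∈ T, (((t : ℕ) : ℤ) : 𝓞 F) ∉ q
    · have h1 := dvF_prime_away T F ⟨⟨q, hqp, hq0⟩, haway⟩
      have h2 := artDiv_gen T hp hexp hunr ⟨⟨q, hqp, hq0⟩, haway⟩
      rw [← h1] at h2
      exact h2
    · have h1 := dvF_prime_above T F ⟨q, hqp, hq0⟩ haway
      have h1' : dvF T F (q : FractionalIdeal (𝓞 F)⁰ F) = 1 := h1
      rw [h1', map_one]
      push Not at haway
      obtain ⟨t, ht, hmem⟩ := haway
      symm
      refine artin_eq_one_of_stabilizer_eq_bot M q hq0 (primeOver F M q) ?_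
      refine hT (primeOver F M q) inferInstance ⟨t, ht, ?_⟩
      have hu : (primeOver F M q).under (𝓞 F) = q := (Ideal.over_def (primeOver F M q) q).symm
      rw [← hu, Ideal.under_def, Ideal.mem_comap, map_intCast] at hmem
      exact hmem

include hT in
/-- **Principal divisors are killed.** -/
theorem artDiv_divT (x : Fˣ) : artDiv T hp hexp hunr (divT T F x) = 1 := by
  obtain ⟨a, b, hb, hab⟩ := IsFractionRing.div_surjective (A := 𝓞 F) (x : F)
  have hb0 : b ≠ 0 := nonZeroDivisors.ne_zero hb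
  have ha0 : a ≠ 0 := by
    rintro rfl
    rw [map_zero, zero_div] at hab
    exact x.ne_zero hab.symm
  have hbF : algebraMap (𝓞 F) F b ≠ 0 := by
    rwa [Ne, FaithfulSMul.algebraMap_eq_zero_iff]
  have hmul : FractionalIdeal.spanSingleton (𝓞 F)⁰ (x : F) *
      ((Ideal.span {b} : Ideal (𝓞 F)) : FractionalIdeal (𝓞 F)⁰ F) =
      ((Ideal.span {a} : Ideal (𝓞 F)) : FractionalIdeal (𝓞 F)⁰ F) := by
    rw [FractionalIdeal.coeIdeal_span_singleton, FractionalIdeal.coeIdeal_span_singleton,
      FractionalIdeal.spanSingleton_mul_spanSingleton, ← hab, div_mul_cancel₀ _ hbF]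
  have hx0 : FractionalIdeal.spanSingleton (𝓞 F)⁰ (x : F) ≠ 0 := fun h =>
    x.ne_zero (FractionalIdeal.spanSingleton_eq_zero_iff.mp h)
  have hsa : (Ideal.span {a} : Ideal (𝓞 F)) ≠ ⊥ := by
    rwa [Ne, Ideal.span_singleton_eq_bot]
  have hsb : (Ideal.span {b} : Ideal (𝓞 F)) ≠ ⊥ := by
    rwa [Ne, Ideal.span_singleton_eq_bot]
  have h1 := congrArg (fun J => artDiv T hp hexp hunr (dvF T F J)) hmul
  beta_reduce at h1
  rw [dvF_mul T F hx0 (FractionalIdeal.coeIdeal_ne_zero.mpr hsb), map_mul,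
    artDiv_dvF_coe T hp hexp hunr hT _ hsb, artDiv_dvF_coe T hp hexp hunr hT _ hsa,
    ElemArtinKill23.artin_span_singleton_eq_one F M hp hexp hunr a ha0,
    ElemArtinKill23.artin_span_singleton_eq_one F M hp hexp hunr b hb0, mul_one] at h1
  rw [divT_eq_dvF]
  exact h1

include hT in
/-- **The Artin map on divisors prime to `T` is onto.** -/
theorem artDiv_surjective : Function.Surjective (artDiv T hp hexp hunr) := by
  intro g
  obtain ⟨c, rfl⟩ := artCl_surjective hp hexp hunr g
  obtain ⟨I, rfl⟩ := ClassGroup.mk0_surjective c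
  refine ⟨dvF T F ((I : Ideal (𝓞 F)) : FractionalIdeal (𝓞 F)⁰ F), ?_⟩
  rw [artDiv_dvF_coe T hp hexp hunr hT _ (coe_ne_bot' F I), artCl_mk0]

theorem smul_gen (σ : F ≃ₐ[k] F) (P : PrimeAway T F) :
    σ • gen T F P = gen T F (σ • P) := by
  apply divT_ext
  intro Q
  rw [toFinsupp_smul, toFinsupp_gen, toFinsupp_gen, Finsupp.mapDomain_single]

/-- **Galois equivariance.** -/
theorem artDiv_smul (δ : M ≃ₐ[k] M) (D : DivT T F) :
    artDiv T hp hexp hunr ((δ.restrictNormal F) • D) = conjK δ (artDiv T hp hexp hunr D) := by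
  have key : (artDiv T hp hexp hunr).comp
        (MulDistribMulAction.toMonoidHom (DivT T F) (δ.restrictNormal F)) =
      (conjHom δ).comp (artDiv T hp hexp hunr) := by
    apply hom_ext
    intro P
    show artDiv T hp hexp hunr ((δ.restrictNormal F) • gen T F P) =
      conjK δ (artDiv T hp hexp hunr (gen T F P))
    rw [smul_gen, artDiv_gen, artDiv_gen]
    exact artin_smul hunr δ P.1.asIdeal P.1.ne_bot
  exact DFunLike.congr_fun key D

include hp hexp hunr hT in
/-- The whole package in one statement. -/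
theorem exists_artDiv :
    ∃ A : DivT T F →* (M ≃ₐ[F] M), Function.Surjective A ∧
      (∀ x : Fˣ, A (divT T F x) = 1) ∧
      (∀ D, A (D ^ p) = 1) ∧
      (∀ P : PrimeAway T F, A (gen T F P) = artin F M P.1.asIdeal) ∧
      (∀ (P : PrimeAway T F) (Q : Ideal (𝓞 M)), Q.IsPrime → Q.under (𝓞 F) = P.1.asIdeal →
        IsArithFrobAt (𝓞 F) (A (gen T F P)) Q) ∧
      (∀ (δ : M ≃ₐ[k] M) (D : DivT T F),
        A ((δ.restrictNormal F) • D) = conjK δ (A D)) :=
  ⟨artDiv T hp hexp hunr, artDiv_surjective T hp hexp hunr hT, artDiv_divT T hp hexp hunr hT,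
    artDiv_pow T hp hexp hunr, artDiv_gen T hp hexp hunr,
    artDiv_isArithFrobAt T hp hexp hunr, artDiv_smul T hp hexp hunr⟩

end Tower

end Fermat.Agent.ES.T56.ElemArtinDiv23
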