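/-
Programme T (S56), chapter GW-D, brick (K2c-core) of `T56_BASE28.md` (helper23):
**equivariant homomorphisms on `Gal(M/F)` inject into the twisted Hom space of `Cl_T(F)`.**

Tower `k ⊆ F ⊆ M` as in `ElemArtinDiv23` (`M/F` abelian of exponent `p`, everywhere unramified,
primes above `T` split completely).  `Y` an `𝔽_p`-space with `ρ : Representation (ZMod p) Gal(F/k) Y`,
`ω : Gal(F/k) →* (ZMod p)ˣ`.

* `eqHom ρ ω` : the `𝔽_p`-space of additive maps `c : Gal(M/F) → Y^∨` with
  `c (δ g δ⁻¹) (ρ(δ|_F) y) = ω(δ|_F) · c g y` for all `δ ∈ Gal(M/k)` (= `Hom_{Gal(F/k)}(Gal(M/F), Y^∨(1))`);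
* ANY model `C` of `Cl_T(F)`: an abelian group with `τC : Representation R Gal(F/k) C` and a surjective
  equivariant `q : Additive (DivT T F) →+ C` whose kernel consists of principal divisors;
* `toTwAdd … : eqHom ρ ω →ₗ[ZMod p] twAdd τC ω ρ` (`TwistNum28.twAdd`), `c ↦ a` with
  `a (q D) = c (artDiv D)`; **`toTwAdd_injective`**; **`finrank_eqHom_le_twNum`**;
* `finite_twAdd` : `twAdd τC ω ρ` is a finite module when `C` and `Y` are finite.
-/
import Mathlib
import Fermat.Agent.ES.T56.TwistNum28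
import Fermat.Agent.ES.T56.ElemArtinDiv23

set_option autoImplicit false
set_option linter.unusedSectionVars false
set_option linter.style.haveILetI false

open NumberField Module
open scoped Pointwise nonZeroDivisors

namespace Fermat.Agent.ES.T56.ElemArtinTwist23

open Fermat.Agent.CFT.ArtinMap Fermat.Agent.ES.T56.ElemArtinEquiv23
  Fermat.Agent.ES.T56.ElemArtinDiv23 Fermat.Agent.ES.T56.TwistNum28
  Fermat.Agent.PT.GLOB.Interface23

section EqHom

variable {k F M : Type} [Field k] [Field F] [Field M] [NumberField k] [NumberField F]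
  [NumberField M] [Algebra k F] [Algebra F M] [Algebra k M] [IsScalarTower k F M] [Normal k F]
  {p : ℕ} [Fact p.Prime] {Y : Type*} [AddCommGroup Y] [Module (ZMod p) Y]

/-- `Hom_{Gal(F/k)}(Gal(M/F), Y^∨(1))`: additive maps `c : Gal(M/F) → Y^∨` with
`c (δ g δ⁻¹) (δ y) = ω(δ) c g y` for `δ ∈ Gal(M/k)` (acting on `Y` and through `ω` via `δ|_F`). -/
def eqHom (ρ : Representation (ZMod p) (F ≃ₐ[k] F) Y) (ω : (F ≃ₐ[k] F) →* (ZMod p)ˣ) :
    Submodule (ZMod p) (Additive (M ≃ₐ[F] M) →+ Module.Dual (ZMod p) Y) where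
  carrier := {c | ∀ (δ : M ≃ₐ[k] M) (g : M ≃ₐ[F] M) (y : Y),
    c (Additive.ofMul (conjK δ g)) (ρ (δ.restrictNormal F) y) =
      ((ω (δ.restrictNormal F) : (ZMod p)ˣ) : ZMod p) * c (Additive.ofMul g) y}
  add_mem' := by
    intro a b ha hb δ g y
    simp only [AddMonoidHom.add_apply, LinearMap.add_apply, ha δ g y, hb δ g y, mul_add]
  zero_mem' := by
    intro δ g y
    simp
  smul_mem' := by
    intro r a ha δ g y
    simp only [AddMonoidHom.smul_apply, LinearMap.smul_apply, ha δ g y, smul_eq_mul]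
    ring

theorem mem_eqHom {ρ : Representation (ZMod p) (F ≃ₐ[k] F) Y} {ω : (F ≃ₐ[k] F) →* (ZMod p)ˣ}
    {c : Additive (M ≃ₐ[F] M) →+ Module.Dual (ZMod p) Y} :
    c ∈ eqHom (M := M) ρ ω ↔ ∀ (δ : M ≃ₐ[k] M) (g : M ≃ₐ[F] M) (y : Y),
      c (Additive.ofMul (conjK δ g)) (ρ (δ.restrictNormal F) y) =
        ((ω (δ.restrictNormal F) : (ZMod p)ˣ) : ZMod p) * c (Additive.ofMul g) y := Iff.rfl

end EqHom

section Main

variable (T : Finset Nat.Primes)
variable {k F M : Type} [Field k] [Field F] [Field M] [NumberField k] [NumberField F]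
  [NumberField M] [Algebra k F] [Algebra F M] [Algebra k M] [IsScalarTower k F M]
  [IsGalois k F] [IsGalois F M] [IsGalois k M] [IsTotallyComplex F]
  [IsMulCommutative (M ≃ₐ[F] M)]
  {p : ℕ} [hpF : Fact p.Prime] (hexp : ∀ σ : M ≃ₐ[F] M, σ ^ p = 1)
  (hunr : ∀ P : Ideal (𝓞 M), P.IsPrime → P ≠ ⊥ → P.inertia (M ≃ₐ[F] M) = ⊥)
  (hT : ∀ P : Ideal (𝓞 M), P.IsPrime → (∃ t ∈ T, (((t : ℕ) : ℤ) : 𝓞 M) ∈ P) →
    MulAction.stabilizer (M ≃ₐ[F] M) P = ⊥)
  {Y : Type*} [AddCommGroup Y] [Module (ZMod p) Y]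
  (ρ : Representation (ZMod p) (F ≃ₐ[k] F) Y) (ω : (F ≃ₐ[k] F) →* (ZMod p)ˣ)
  {R : Type*} [CommRing R] {C : Type*} [AddCommGroup C] [Module R C]
  (τC : Representation R (F ≃ₐ[k] F) C) (q : Additive (DivT T F) →+ C)
  (hq : Function.Surjective q)
  (hker : ∀ D : DivT T F, q (Additive.ofMul D) = 0 → ∃ x : Fˣ, divT T F x = D)
  (hqeq : ∀ (σ : F ≃ₐ[k] F) (D : DivT T F),
    q (Additive.ofMul (σ • D)) = τC σ (q (Additive.ofMul D)))

/-- The additive version of `artDiv`. -/
noncomputable def artAdd : Additive (DivT T F) →+ Additive (M ≃ₐ[F] M) :=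
  MonoidHom.toAdditive (artDiv T hpF.out hexp hunr)

theorem artAdd_apply (D : DivT T F) :
    artAdd T hexp hunr (Additive.ofMul D) = Additive.ofMul (artDiv T hpF.out hexp hunr D) := rfl

include hT hker in
theorem ker_le (c : Additive (M ≃ₐ[F] M) →+ Module.Dual (ZMod p) Y) :
    q.ker ≤ (c.comp (artAdd T hexp hunr)).ker := by
  intro D hD
  rw [AddMonoidHom.mem_ker] at hD ⊢
  obtain ⟨x, hx⟩ := hker (Additive.toMul D) hD
  have hD' : D = Additive.ofMul (divT T F x) := by rw [hx]; rfl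
  rw [hD', AddMonoidHom.comp_apply, artAdd_apply, artDiv_divT T hpF.out hexp hunr hT x]
  exact map_zero c

/-- The descended map `C →+ Y^∨`, `q D ↦ c (artDiv D)`. -/
noncomputable def descendHom (c : Additive (M ≃ₐ[F] M) →+ Module.Dual (ZMod p) Y) :
    C →+ Module.Dual (ZMod p) Y :=
  q.liftOfRightInverse (Function.surjInv hq) (Function.rightInverse_surjInv hq)
    ⟨c.comp (artAdd T hexp hunr), ker_le T hexp hunr hT q hker c⟩

theorem descendHom_q (c : Additive (M ≃ₐ[F] M) →+ Module.Dual (ZMod p) Y) (D : DivT T F) :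
    descendHom T hexp hunr hT q hq hker c (q (Additive.ofMul D)) =
      c (Additive.ofMul (artDiv T hpF.out hexp hunr D)) := by
  unfold descendHom
  rw [AddMonoidHom.liftOfRightInverse_comp_apply]
  rfl

include hqeq in
theorem descendHom_mem {c : Additive (M ≃ₐ[F] M) →+ Module.Dual (ZMod p) Y}
    (hc : c ∈ eqHom (M := M) ρ ω) :
    descendHom T hexp hunr hT q hq hker c ∈ twAdd τC ω ρ := by
  intro σ x y
  obtain ⟨D, rfl⟩ := hq x
  obtain ⟨δ, rfl⟩ := AlgEquiv.restrictNormalHom_surjective (F := k) (K₁ := F) (E := M) σ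
  have hD : D = Additive.ofMul (Additive.toMul D) := rfl
  rw [hD, ← hqeq, descendHom_q, descendHom_q]
  have h1 : artDiv T hpF.out hexp hunr ((AlgEquiv.restrictNormalHom F δ) • Additive.toMul D) =
      conjK δ (artDiv T hpF.out hexp hunr (Additive.toMul D)) :=
    artDiv_smul T hpF.out hexp hunr δ (Additive.toMul D)
  rw [h1]
  exact hc δ _ y

/-- **The comparison map** `Hom_{Gal(F/k)}(Gal(M/F), Y^∨(1)) → Hom_{Gal(F/k)}(C, Y^∨(1))`. -/
noncomputable def toTwAdd : ↥(eqHom (M := M) ρ ω) →ₗ[ZMod p] ↥(twAdd τC ω ρ) where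
  toFun c := ⟨descendHom T hexp hunr hT q hq hker c.1,
    descendHom_mem T hexp hunr hT ρ ω τC q hq hker hqeq c.2⟩
  map_add' c d := by
    apply Subtype.ext
    apply AddMonoidHom.ext
    intro x
    obtain ⟨D, rfl⟩ := hq x
    show descendHom T hexp hunr hT q hq hker (c.1 + d.1) (q (Additive.ofMul (Additive.toMul D))) =
      descendHom T hexp hunr hT q hq hker c.1 (q (Additive.ofMul (Additive.toMul D))) +
        descendHom T hexp hunr hT q hq hker d.1 (q (Additive.ofMul (Additive.toMul D)))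
    rw [descendHom_q, descendHom_q, descendHom_q]
    rfl
  map_smul' r c := by
    apply Subtype.ext
    apply AddMonoidHom.ext
    intro x
    obtain ⟨D, rfl⟩ := hq x
    show descendHom T hexp hunr hT q hq hker (r • c.1) (q (Additive.ofMul (Additive.toMul D))) =
      r • descendHom T hexp hunr hT q hq hker c.1 (q (Additive.ofMul (Additive.toMul D)))
    rw [descendHom_q, descendHom_q]
    rfl

theorem toTwAdd_apply (c : ↥(eqHom (M := M) ρ ω)) (D : DivT T F) :
    (toTwAdd T hexp hunr hT ρ ω τC q hq hker hqeq c : C →+ Module.Dual (ZMod p) Y)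
        (q (Additive.ofMul D)) =
      (c : Additive (M ≃ₐ[F] M) →+ Module.Dual (ZMod p) Y)
        (Additive.ofMul (artDiv T hpF.out hexp hunr D)) :=
  descendHom_q T hexp hunr hT q hq hker c.1 D

/-- **The comparison map is injective** (the Artin map is onto). -/
theorem toTwAdd_injective :
    Function.Injective (toTwAdd T hexp hunr hT ρ ω τC q hq hker hqeq) := by
  intro c d hcd
  apply Subtype.ext
  apply AddMonoidHom.ext
  intro g
  obtain ⟨D, hD⟩ := artDiv_surjective T hpF.out hexp hunr hT (Additive.toMul g)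
  have h1 := toTwAdd_apply T hexp hunr hT ρ ω τC q hq hker hqeq c D
  have h2 := toTwAdd_apply T hexp hunr hT ρ ω τC q hq hker hqeq d D
  rw [hcd, h2, hD] at h1
  exact h1.symm

include hexp hunr hT hq hker hqeq in
/-- **`dim Hom_{Gal(F/k)}(Gal(M/F), Y^∨(1)) ≤ ⟨C⟩`.** -/
theorem finrank_eqHom_le_twNum [Module.Finite (ZMod p) ↥(twAdd τC ω ρ)] :
    finrank (ZMod p) ↥(eqHom (M := M) ρ ω) ≤ twNum τC ω ρ :=
  LinearMap.finrank_le_finrank_of_injective
    (toTwAdd_injective T hexp hunr hT ρ ω τC q hq hker hqeq)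

end Main

section Fin

variable {p : ℕ} [Fact p.Prime] {Δ : Type*} [Group Δ] {Y : Type*} [AddCommGroup Y]
  [Module (ZMod p) Y] {R : Type*} [CommRing R] {C : Type*} [AddCommGroup C] [Module R C]

/-- `Hom_Δ(C, Y^∨(1))` is finite when `C` and `Y` are. -/
theorem finite_twAdd [Finite C] [Finite Y] (τC : Representation R Δ C) (ω : Δ →* (ZMod p)ˣ)
    (ρ : Representation (ZMod p) Δ Y) : Module.Finite (ZMod p) ↥(twAdd τC ω ρ) := by
  haveI : Finite (Module.Dual (ZMod p) Y) := DFunLike.finite _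
  haveI : Finite (C →+ Module.Dual (ZMod p) Y) := DFunLike.finite _
  haveI : Finite ↥(twAdd τC ω ρ) := Subtype.finite
  exact Module.Finite.of_finite

end Fin

end Fermat.Agent.ES.T56.ElemArtinTwist23
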