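/-
Programme T (S56), chapter GW-D, brick (K2c-core) of `T56_BASE28.md` (helper23), file 2:
`ElemArtinTwist23.finrank_eqHom_le_twNum` for the CONCRETE cokernel model of `Cl_T(F)`:

* `divRep T k F := Representation.ofMulDistribMulAction (F ≃ₐ[k] F) (DivT T F)` (over `ℤ`);
* `princ T F ≤ Additive (DivT T F)` : the `ℤ`-submodule of principal divisors `divT T F x`;
* `cokerRep T k F := (divRep T k F).quotient (princ T F) _` on `Additive (DivT T F) ⧸ princ T F`;
* **`finrank_eqHom_le_twNum_coker`** : `dim Hom_{Gal(F/k)}(Gal(M/F), Y^∨(1)) ≤ twNum (cokerRep T k F) ω ρ`.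
-/
import Mathlib
import Fermat.Agent.ES.T56.ElemArtinTwist23

set_option autoImplicit false
set_option linter.unusedSectionVars false
set_option linter.style.haveILetI false

open NumberField Module
open scoped Pointwise nonZeroDivisors

namespace Fermat.Agent.ES.T56.ElemArtinCoker23

open Fermat.Agent.ES.T56.ElemArtinEquiv23 Fermat.Agent.ES.T56.ElemArtinDiv23
  Fermat.Agent.ES.T56.ElemArtinTwist23 Fermat.Agent.ES.T56.TwistNum28
  Fermat.Agent.PT.GLOB.Interface23 Fermat.Agent.PT.GLOB.ClassAction23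

section Model

variable (T : Finset Nat.Primes) (k F : Type) [Field k] [Field F] [NumberField k] [NumberField F]
  [Algebra k F]

/-- The divisors prime to `T` as a `ℤ`-linear representation of `Gal(F/k)`. -/
noncomputable def divRep : Representation ℤ (F ≃ₐ[k] F) (Additive (DivT T F)) :=
  Representation.ofMulDistribMulAction (F ≃ₐ[k] F) (DivT T F)

theorem divRep_apply (σ : F ≃ₐ[k] F) (D : DivT T F) :
    divRep T k F σ (Additive.ofMul D) = Additive.ofMul (σ • D) := rfl

/-- The principal divisors. -/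
noncomputable def princ : Submodule ℤ (Additive (DivT T F)) :=
  AddSubgroup.toIntSubmodule (MonoidHom.toAdditive (divT T F)).range

theorem mem_princ {D : Additive (DivT T F)} :
    D ∈ princ T F ↔ ∃ x : Fˣ, divT T F x = Additive.toMul D := by
  constructor
  · rintro ⟨x, rfl⟩
    exact ⟨Additive.toMul x, rfl⟩
  · rintro ⟨x, hx⟩
    exact ⟨Additive.ofMul x, congrArg Additive.ofMul hx⟩

theorem princ_le_comap (σ : F ≃ₐ[k] F) :
    princ T F ≤ (princ T F).comap (divRep T k F σ) := by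
  intro D hD
  rw [Submodule.mem_comap]
  obtain ⟨x, hx⟩ := (mem_princ T F).mp hD
  refine (mem_princ T F).mpr ⟨σ • x, ?_⟩
  rw [divT_smul, hx]
  rfl

/-- `Cl_T(F) = DivT T F / principal divisors`, as a `ℤ`-linear representation of `Gal(F/k)`. -/
noncomputable def cokerRep :
    Representation ℤ (F ≃ₐ[k] F) (Additive (DivT T F) ⧸ princ T F) :=
  (divRep T k F).quotient (princ T F) (princ_le_comap T k F)

theorem cokerRep_mk (σ : F ≃ₐ[k] F) (D : DivT T F) :
    cokerRep T k F σ ((princ T F).mkQ (Additive.ofMul D)) =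
      (princ T F).mkQ (Additive.ofMul (σ • D)) := rfl

end Model

section Main

variable (T : Finset Nat.Primes)
variable {k F M : Type} [Field k] [Field F] [Field M] [NumberField k] [NumberField F]
  [NumberField M] [Algebra k F] [Algebra F M] [Algebra k M] [IsScalarTower k F M]
  [IsGalois k F] [IsGalois F M] [IsGalois k M] [IsTotallyComplex F]
  [IsMulCommutative (M ≃ₐ[F] M)]
  {p : ℕ} [hpF : Fact p.Prime] (hexp : ∀ σ : M ≃ₐ[F] M, σ ^ p = 1)
  (hunr : ∀ P : Ideal (𝓞 M), P.IsPrime → P ≠ ⊥ → P.inertia (M ≃ₐ[F] M) = ⊥)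
  (hT : ∀ P : Ideal (𝓞 M), P.IsPrime → (∃ t ∈ T, (((t : ℕ) : ℤ) : 𝓞 M) ∈ P) →
    MulAction.stabilizer (M ≃ₐ[F] M) P = ⊥)
  {Y : Type*} [AddCommGroup Y] [Module (ZMod p) Y]
  (ρ : Representation (ZMod p) (F ≃ₐ[k] F) Y) (ω : (F ≃ₐ[k] F) →* (ZMod p)ˣ)

include hexp hunr hT in
/-- **`dim Hom_{Gal(F/k)}(Gal(M/F), Y^∨(1)) ≤ ⟨Cl_T(F)⟩`** for the cokernel model. -/
theorem finrank_eqHom_le_twNum_coker [Module.Finite (ZMod p) ↥(twAdd (cokerRep T k F) ω ρ)] :
    finrank (ZMod p) ↥(eqHom (M := M) ρ ω) ≤ twNum (cokerRep T k F) ω ρ := by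
  refine finrank_eqHom_le_twNum T hexp hunr hT ρ ω (cokerRep T k F)
    ((princ T F).mkQ.toAddMonoidHom) (Submodule.mkQ_surjective _) ?_ ?_
  · intro D hD
    have h : (princ T F).mkQ (Additive.ofMul D) = 0 := hD
    rw [Submodule.mkQ_apply, Submodule.Quotient.mk_eq_zero] at h
    exact (mem_princ T F).mp h
  · intro σ D
    exact (cokerRep_mk T k F σ D).symm

end Main

end Fermat.Agent.ES.T56.ElemArtinCoker23
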