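/-
Programme T (S56), chapter GW-D, brick (K2-bridge), part 2 (helper16): from a pair of intermediate
fields `L ≤ M` of a Galois extension `Ω/k₀` (in the application `Ω = k₀̄` and `k₀ = k₀` or `k₀ = ↥K`,
`K` a number field inside `k₀̄`) to the ABSTRACT Galois pair `(↥L, ↥M)`.

* `algOfLE h : Algebra ↥L ↥M` (the inclusion), with the scalar towers `k₀ → L → M`, `L → M → k₀̄`,
  `K → L → M`;
* `Stable L M` : `G_L` maps `M` into itself (⇔ `G_M ⊴ G_L` for `L ≤ M`, `stable_of_normal`);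
* `resHom h hst : ↥L.fixingSubgroup →* (↥M ≃ₐ[↥L] ↥M)`, `resHom_apply`, `resHom_surjective`,
  `resHom_eq_one_iff` (kernel `= G_M`), `resHom_conj`;
* `isGalois h hst : IsGalois ↥L ↥M` (for `M` finite over `k₀`);
* for a subgroup `N ≤ G_L` containing some `G_F`, `F` finite: `fixedField N` is finite over `k₀`, contains
  `L`, and its fixing subgroup is `N`.
-/
import Mathlib

set_option autoImplicit false
set_option linter.style.haveILetI false

namespace Fermat.Agent.ES.T56.FieldPair16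

variable {k₀ Ω : Type*} [Field k₀] [Field Ω] [Algebra k₀ Ω]

variable {K L M : IntermediateField k₀ Ω}

/-- The algebra structure `↥L → ↥M` of an inclusion of intermediate fields. -/
@[reducible] noncomputable def algOfLE (h : L ≤ M) : Algebra ↥L ↥M :=
  (IntermediateField.inclusion h).toRingHom.toAlgebra

theorem algebraMap_coe (h : L ≤ M) (x : ↥L) :
    ((@algebraMap ↥L ↥M _ _ (algOfLE h) x : ↥M) : Ω) = (x : Ω) := rfl

theorem isScalarTower_rat (h : L ≤ M) : @IsScalarTower k₀ ↥L ↥M _ (algOfLE h).toSMul _ := by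
  letI := algOfLE h
  exact IsScalarTower.of_algebraMap_eq fun r => Subtype.ext rfl

theorem isScalarTower_qbar (h : L ≤ M) : @IsScalarTower ↥L ↥M Ω (algOfLE h).toSMul _ _ := by
  letI := algOfLE h
  exact IsScalarTower.of_algebraMap_eq fun r => rfl

theorem isScalarTower_three (h₁ : K ≤ L) (h₂ : L ≤ M) :
    @IsScalarTower ↥K ↥L ↥M (algOfLE h₁).toSMul (algOfLE h₂).toSMul (algOfLE (h₁.trans h₂)).toSMul := by
  letI := algOfLE h₁
  letI := algOfLE h₂
  letI := algOfLE (h₁.trans h₂)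
  exact IsScalarTower.of_algebraMap_eq fun r => Subtype.ext rfl

/-- `G_L` maps `M` into itself. -/
def Stable (L M : IntermediateField k₀ Ω) : Prop :=
  ∀ σ ∈ L.fixingSubgroup, ∀ x ∈ M, (σ : (Ω ≃ₐ[k₀] Ω)) x ∈ M

theorem Stable.symm_mem (hst : Stable L M) {σ : (Ω ≃ₐ[k₀] Ω)} (hσ : σ ∈ L.fixingSubgroup) {x : Ω}
    (hx : x ∈ M) : σ.symm x ∈ M :=
  hst σ⁻¹ (inv_mem hσ) x hx

variable [IsGalois k₀ Ω]

/-- If `G_M` is normalised by `G_L`, then `G_L` stabilises `M`. -/
theorem stable_of_normal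
    (hn : ∀ σ ∈ L.fixingSubgroup, ∀ s ∈ M.fixingSubgroup, σ⁻¹ * s * σ ∈ M.fixingSubgroup) :
    Stable L M := by
  intro σ hσ x hx
  rw [← InfiniteGalois.fixedField_fixingSubgroup M, IntermediateField.mem_fixedField_iff]
  intro s hs
  have h1 := (IntermediateField.mem_fixingSubgroup_iff M _).1 (hn σ hσ s hs) x hx
  rw [AlgEquiv.mul_apply, AlgEquiv.mul_apply] at h1
  have h2 := congrArg σ h1
  rwa [AlgEquiv.aut_inv, AlgEquiv.apply_symm_apply] at h2

/-- The form with `Subgroup.subgroupOf … .Normal` (as in `GWIface21.BaseDatum.normal`). -/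
theorem stable_of_subgroupOf_normal (h : L ≤ M)
    (hn : (M.fixingSubgroup.subgroupOf L.fixingSubgroup).Normal) : Stable L M := by
  refine stable_of_normal fun σ hσ s hs => ?_
  have hsL : s ∈ L.fixingSubgroup := IntermediateField.fixingSubgroup_antitone h hs
  have h1 : (⟨s, hsL⟩ : ↥L.fixingSubgroup) ∈ M.fixingSubgroup.subgroupOf L.fixingSubgroup :=
    Subgroup.mem_subgroupOf.2 hs
  have h2 := hn.conj_mem _ h1 (⟨σ, hσ⟩ : ↥L.fixingSubgroup)⁻¹
  rw [Subgroup.mem_subgroupOf] at h2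
  simpa using h2

section Res

variable (h : L ≤ M) (hst : Stable L M)

/-- The restriction `G_L → Gal(M/L)`. -/
noncomputable def resHom : ↥L.fixingSubgroup →* (@AlgEquiv ↥L ↥M ↥M _ _ _ (algOfLE h) (algOfLE h)) :=
  letI := algOfLE h
  { toFun := fun σ =>
      { toFun := fun x => ⟨(σ : (Ω ≃ₐ[k₀] Ω)) x, hst σ σ.2 x x.2⟩
        invFun := fun x => ⟨(σ : (Ω ≃ₐ[k₀] Ω)).symm x, hst.symm_mem σ.2 x.2⟩
        left_inv := fun x => Subtype.ext ((σ : (Ω ≃ₐ[k₀] Ω)).symm_apply_apply x)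
        right_inv := fun x => Subtype.ext ((σ : (Ω ≃ₐ[k₀] Ω)).apply_symm_apply x)
        map_mul' := fun x y => Subtype.ext (map_mul (σ : (Ω ≃ₐ[k₀] Ω)) (x : Ω) y)
        map_add' := fun x y => Subtype.ext (map_add (σ : (Ω ≃ₐ[k₀] Ω)) (x : Ω) y)
        commutes' := fun r => Subtype.ext
          ((IntermediateField.mem_fixingSubgroup_iff L _).1 σ.2 (r : Ω) r.2) }
    map_one' := by
      apply AlgEquiv.ext
      intro x
      exact Subtype.ext rfl
    map_mul' := fun σ τ => by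
      apply AlgEquiv.ext
      intro x
      exact Subtype.ext rfl }

omit [IsGalois k₀ Ω] in
theorem resHom_apply (σ : ↥L.fixingSubgroup) (x : ↥M) :
    ((resHom h hst σ x : ↥M) : Ω) = (σ : (Ω ≃ₐ[k₀] Ω)) x := rfl

omit [IsGalois k₀ Ω] in
theorem resHom_eq_one_iff (σ : ↥L.fixingSubgroup) :
    resHom h hst σ = 1 ↔ (σ : (Ω ≃ₐ[k₀] Ω)) ∈ M.fixingSubgroup := by
  letI := algOfLE h
  rw [IntermediateField.mem_fixingSubgroup_iff]
  constructor
  · intro h1 x hx
    have := congrArg (fun τ : ↥M ≃ₐ[↥L] ↥M => ((τ ⟨x, hx⟩ : ↥M) : Ω)) h1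
    exact this
  · intro h1
    apply AlgEquiv.ext
    intro x
    exact Subtype.ext (h1 x x.2)

/-- Every `L`-automorphism of `M` is the restriction of an element of `G_L`. -/
theorem resHom_surjective : Function.Surjective (resHom h hst) := by
  letI := algOfLE h
  haveI := isScalarTower_rat h
  intro τ
  set σ : (Ω ≃ₐ[k₀] Ω) := (τ.restrictScalars k₀).liftNormal Ω with hσ
  have hσM : ∀ x : ↥M, σ (x : Ω) = (τ x : ↥M) := fun x =>
    (τ.restrictScalars k₀).liftNormal_commutes Ω x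
  have hσL : σ ∈ L.fixingSubgroup := by
    rw [IntermediateField.mem_fixingSubgroup_iff]
    intro x hx
    have h1 := hσM (algebraMap ↥L ↥M ⟨x, hx⟩)
    rw [τ.commutes] at h1
    exact h1
  refine ⟨⟨σ, hσL⟩, ?_⟩
  apply AlgEquiv.ext
  intro x
  exact Subtype.ext (hσM x)

omit [IsGalois k₀ Ω] in
/-- Conjugation by `g ∈ G_K` (`K ≤ L`), pointwise: `res_{M/L}(g s g⁻¹) = res_{M/K}(g) ∘ res_{M/L}(s) ∘
res_{M/K}(g)⁻¹` (the `conjK` of `S14.ArtinGlue` / `ElemArtinEquiv23`). -/
theorem resHom_conj_apply (hK : K ≤ L) (hstK : Stable K M)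
    (g : ↥K.fixingSubgroup) (s : ↥L.fixingSubgroup)
    (hgs : (g : (Ω ≃ₐ[k₀] Ω)) * s * (g : (Ω ≃ₐ[k₀] Ω))⁻¹ ∈ L.fixingSubgroup) (x : ↥M) :
    letI := algOfLE (hK.trans h)
    resHom h hst ⟨(g : (Ω ≃ₐ[k₀] Ω)) * s * (g : (Ω ≃ₐ[k₀] Ω))⁻¹, hgs⟩ x =
      resHom (hK.trans h) hstK g
        ((resHom h hst s) ((resHom (hK.trans h) hstK g).symm x)) :=
  Subtype.ext rfl

end Res

/-! ### `M/L` is Galois -/

theorem isGalois (h : L ≤ M) (hst : Stable L M) [FiniteDimensional k₀ ↥M] :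
    @IsGalois ↥L _ ↥M _ (algOfLE h) := by
  letI := algOfLE h
  haveI := isScalarTower_rat h
  haveI : FiniteDimensional ↥L ↥M := Module.Finite.of_restrictScalars_finite k₀ ↥L ↥M
  apply IsGalois.of_fixedField_eq_bot
  rw [eq_bot_iff]
  intro x hx
  rw [IntermediateField.mem_fixedField_iff] at hx
  -- `x` is fixed by `G_L`, hence lies in `L`
  have hxL : ((x : ↥M) : Ω) ∈ L := by
    rw [← InfiniteGalois.fixedField_fixingSubgroup L, IntermediateField.mem_fixedField_iff]
    intro σ hσ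
    have h1 := hx (resHom h hst ⟨σ, hσ⟩) (Subgroup.mem_top _)
    exact congrArg (fun y : ↥M => (y : Ω)) h1
  rw [IntermediateField.mem_bot]
  exact ⟨⟨_, hxL⟩, Subtype.ext rfl⟩

/-- If ALL of `Gal(Ω/k₀)` stabilises `M`, then `M/k₀` is Galois. -/
theorem isGalois_of_stable_bot (hst : Stable (⊥ : IntermediateField k₀ Ω) M) : IsGalois k₀ ↥M := by
  haveI : Normal k₀ ↥M := by
    rw [IntermediateField.normal_iff_forall_map_le']
    intro σ x hx
    obtain ⟨y, hy, rfl⟩ := (IntermediateField.mem_map M).1 hx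
    refine hst σ ?_ y hy
    rw [IntermediateField.mem_fixingSubgroup_iff]
    intro z hz
    obtain ⟨r, rfl⟩ := IntermediateField.mem_bot.1 hz
    exact σ.commutes r
  haveI : Algebra.IsSeparable k₀ ↥M := Algebra.isSeparable_tower_bot_of_isSeparable k₀ ↥M Ω
  exact ⟨⟩

/-! ### Open subgroups of `G_L` -/

section Open

variable (N : Subgroup (Ω ≃ₐ[k₀] Ω)) (F : IntermediateField k₀ Ω) [FiniteDimensional k₀ ↥F]

omit [IsGalois k₀ Ω] in
theorem isClosed_of_le (hF : F.fixingSubgroup ≤ N) : IsClosed (N : Set (Ω ≃ₐ[k₀] Ω)) :=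
  Subgroup.isClosed_of_isOpen N
    (Subgroup.isOpen_mono hF (IntermediateField.fixingSubgroup_isOpen F))

/-- `G_{fixedField N} = N`. -/
theorem fixingSubgroup_fixedField (hF : F.fixingSubgroup ≤ N) :
    (IntermediateField.fixedField N).fixingSubgroup = N :=
  InfiniteGalois.fixingSubgroup_fixedField ⟨N, isClosed_of_le N F hF⟩

omit [FiniteDimensional k₀ ↥F] in
theorem fixedField_le (hF : F.fixingSubgroup ≤ N) : IntermediateField.fixedField N ≤ F := by
  have h1 := IntermediateField.fixedField_antitone hF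
  rwa [InfiniteGalois.fixedField_fixingSubgroup] at h1

theorem finiteDimensional_fixedField (hF : F.fixingSubgroup ≤ N) :
    FiniteDimensional k₀ ↥(IntermediateField.fixedField N) :=
  FiniteDimensional.of_injective (IntermediateField.inclusion (fixedField_le N F hF)).toLinearMap
    (IntermediateField.inclusion_injective (fixedField_le N F hF))

theorem le_fixedField (hN : N ≤ L.fixingSubgroup) : L ≤ IntermediateField.fixedField N := by
  have h1 := IntermediateField.fixedField_antitone hN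
  rwa [InfiniteGalois.fixedField_fixingSubgroup] at h1

/-- `G_L` stabilises `fixedField N` when it normalises `N`. -/
theorem stable_fixedField (hF : F.fixingSubgroup ≤ N)
    (hn : ∀ σ ∈ L.fixingSubgroup, ∀ s ∈ N, σ⁻¹ * s * σ ∈ N) :
    Stable L (IntermediateField.fixedField N) := by
  refine stable_of_normal fun σ hσ s hs => ?_
  rw [fixingSubgroup_fixedField N F hF] at hs ⊢
  exact hn σ hσ s hs

end Open

end Fermat.Agent.ES.T56.FieldPair16
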