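/-
Programme T (S56, Taylor–Wiles primes), chapters LOC / GW, leaf `LocSurj16` (helper16):

  **`Γ_q = Gal(ℚ̄_q/ℚ_q)` surjects onto the decomposition group `D_w` of `padicPlace q`.**

`ι = padicEmbedding q : ℚ̄ → ℚ̄_q`, `A = padicPlace q = {x | ‖ι x‖ ≤ 1}`,
`r = localGaloisToGlobal q : Γ_q → G_ℚ` (`ι (r τ x) = τ (ι x)`).  The Prelude proves `r τ ∈ D_w`; here:

  `decomposition_le_range : A.decompositionSubgroup ℚ ≤ r.range`.

Proof.  Let `σ ∈ D_w`.  (★) `‖ι x‖ ≤ q⁻ⁿ → ‖ι (σ x)‖ ≤ q⁻ⁿ` (apply `σ A = A` to `x / qⁿ`).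
CONTINUITY: if `∑ aᵢ ι xᵢ = 0` (`aᵢ ∈ ℚ_q`, `xᵢ ∈ ℚ̄`) then `∑ aᵢ ι (σ xᵢ) = 0`: approximate the `aᵢ` by
rationals `bᵢ`; `y = ∑ bᵢ xᵢ ∈ ℚ̄` has `ι y` small, hence `ι (σ y) = ∑ bᵢ ι (σ xᵢ)` is small.
So the two `ℚ_q`-algebra maps `m, m' : ℚ_q ⊗_ℚ ℚ̄ → ℚ̄_q`, `a ⊗ x ↦ a ι x`, `a ⊗ x ↦ a ι (σ x)` satisfy
`ker m ≤ ker m'`; `m` is onto (Krasner: main's `LocInj13.exists_mem_adjoin_padicEmbedding`), so `m'`
factors as `τ ∘ m` with `τ : ℚ̄_q →ₐ[ℚ_q] ℚ̄_q`, `τ (ι x) = ι (σ x)`; `τ` is bijective (algebraic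
extension) and `r τ = σ` because `ι` is injective.
-/
import Mathlib
import Fermat.Prelude.Def_GaloisRep_CompletionBridge
import Fermat.Prelude.Def_ExtEndgame_ProductionDatum
import Fermat.Agent.PT.BR.LocInj13

set_option autoImplicit false
set_option linter.unusedSectionVars false

open scoped TensorProduct Pointwise IntermediateField

namespace Fermat.Agent.ES.T56.LocSurj16

noncomputable section

local notation "Qbar" => AlgebraicClosure ℚ

variable (q : ℕ) [Fact q.Prime]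

/-- `ℚ → ℚ_q → ℚ̄_q` is a tower. -/
local instance towerQqPadic : IsScalarTower ℚ ℚ_[q] (PadicAlgCl q) :=
  IsScalarTower.of_algebraMap_eq' (Subsingleton.elim _ _)

/-! ### Norms -/

theorem norm_q : ‖((q : ℕ) : PadicAlgCl q)‖ = (q : ℝ)⁻¹ := by
  have h1 : ((q : ℕ) : PadicAlgCl q) = algebraMap ℚ_[q] (PadicAlgCl q) (q : ℚ_[q]) := by
    rw [map_natCast]
  rw [h1, norm_algebraMap', Padic.norm_p]

theorem q_inv_pos : (0 : ℝ) < (q : ℝ)⁻¹ := by
  have : (0 : ℝ) < q := by exact_mod_cast (Fact.out : q.Prime).pos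
  exact inv_pos.2 this

theorem q_inv_lt_one : (q : ℝ)⁻¹ < 1 := by
  have hq : (1 : ℝ) < q := by exact_mod_cast (Fact.out : q.Prime).one_lt
  exact inv_lt_one_of_one_lt₀ hq

theorem mem_padicPlace_iff_norm (x : Qbar) : x ∈ padicPlace q ↔ ‖padicEmbedding q x‖ ≤ 1 := by
  rw [mem_padicPlace_iff, ← NNReal.coe_le_coe]
  rfl

/-- Elements of the decomposition group preserve `padicPlace q`. -/
theorem apply_mem_padicPlace {σ : Qbar ≃ₐ[ℚ] Qbar}
    (hσ : σ ∈ (padicPlace q).decompositionSubgroup ℚ) {x : Qbar} (hx : x ∈ padicPlace q) :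
    σ x ∈ padicPlace q := by
  have h1 : σ • padicPlace q = padicPlace q := MulAction.mem_stabilizer_iff.1 hσ
  have h2 : σ • x ∈ σ • padicPlace q := ValuationSubring.smul_mem_pointwise_smul σ x _ hx
  rw [h1] at h2
  exact h2

/-- (★) -/
theorem norm_apply_le {σ : Qbar ≃ₐ[ℚ] Qbar}
    (hσ : σ ∈ (padicPlace q).decompositionSubgroup ℚ) (x : Qbar) (n : ℕ)
    (hx : ‖padicEmbedding q x‖ ≤ ((q : ℝ)⁻¹) ^ n) :
    ‖padicEmbedding q (σ x)‖ ≤ ((q : ℝ)⁻¹) ^ n := by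
  have hq0 : ((q : ℕ) : Qbar) ≠ 0 := by
    exact_mod_cast (Fact.out : q.Prime).ne_zero
  have hqn : 0 < ((q : ℝ)⁻¹) ^ n := pow_pos (q_inv_pos q) n
  have key : ∀ z : Qbar, ‖padicEmbedding q (z / (q : Qbar) ^ n)‖
      = ‖padicEmbedding q z‖ / ((q : ℝ)⁻¹) ^ n := by
    intro z
    rw [map_div₀, map_pow, map_natCast, norm_div, norm_pow, norm_q]
  have h1 : x / (q : Qbar) ^ n ∈ padicPlace q := by
    rw [mem_padicPlace_iff_norm, key, div_le_one hqn]
    exact hx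
  have h2 := apply_mem_padicPlace q hσ h1
  rw [map_div₀, map_pow, map_natCast, mem_padicPlace_iff_norm, key, div_le_one hqn] at h2
  exact h2

/-! ### Continuity -/

/-- The image of a rational number. -/
theorem algebraMap_ratCast (b : ℚ) :
    algebraMap ℚ_[q] (PadicAlgCl q) (b : ℚ_[q]) = algebraMap ℚ (PadicAlgCl q) b := by
  rw [map_ratCast, eq_ratCast]

/-- **Continuity**: a `ℚ_q`-linear relation between the `ι xᵢ` persists after applying `σ ∈ D_w`. -/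
theorem sum_apply_eq_zero {σ : Qbar ≃ₐ[ℚ] Qbar}
    (hσ : σ ∈ (padicPlace q).decompositionSubgroup ℚ) (S : Finset (ℚ_[q] × Qbar))
    (h : ∑ i ∈ S, algebraMap ℚ_[q] (PadicAlgCl q) i.1 * padicEmbedding q i.2 = 0) :
    ∑ i ∈ S, algebraMap ℚ_[q] (PadicAlgCl q) i.1 * padicEmbedding q (σ i.2) = 0 := by
  -- a common bound `q^M` for the norms of the `ι xᵢ`, `ι σ xᵢ`
  have hq1 : (1 : ℝ) < q := by exact_mod_cast (Fact.out : q.Prime).one_lt
  set B : ℝ := ∑ i ∈ S, (‖padicEmbedding q i.2‖ + ‖padicEmbedding q (σ i.2)‖) with hB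
  obtain ⟨M, hM⟩ := pow_unbounded_of_one_lt B hq1
  have hbound : ∀ i ∈ S, ‖padicEmbedding q i.2‖ ≤ (q : ℝ) ^ M ∧
      ‖padicEmbedding q (σ i.2)‖ ≤ (q : ℝ) ^ M := by
    intro i hi
    have h1 : ‖padicEmbedding q i.2‖ + ‖padicEmbedding q (σ i.2)‖ ≤ B :=
      Finset.single_le_sum (f := fun i : ℚ_[q] × Qbar =>
        ‖padicEmbedding q i.2‖ + ‖padicEmbedding q (σ i.2)‖)
        (fun j _ => add_nonneg (norm_nonneg _) (norm_nonneg _)) hi
    constructor
    · linarith [norm_nonneg (padicEmbedding q (σ i.2))]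
    · linarith [norm_nonneg (padicEmbedding q i.2)]
  -- it suffices to bound the norm by `q⁻ⁿ` for every `n`
  rw [← norm_eq_zero]
  apply le_antisymm _ (norm_nonneg _)
  apply le_of_forall_pos_le_add
  intro ε hε
  rw [zero_add]
  obtain ⟨n, hn⟩ := exists_pow_lt_of_lt_one hε (q_inv_lt_one q)
  refine le_trans ?_ hn.le
  -- rational approximations
  have hδ : (0 : ℝ) < ((q : ℝ)⁻¹) ^ (n + M) := pow_pos (q_inv_pos q) _
  choose b hb using fun a : ℚ_[q] => Padic.rat_dense q a hδ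
  set y : Qbar := ∑ i ∈ S, (b i.1) • i.2 with hy
  have hmul : ((q : ℝ)⁻¹) ^ (n + M) * (q : ℝ) ^ M = ((q : ℝ)⁻¹) ^ n := by
    have hq0 : (q : ℝ) ≠ 0 := by positivity
    rw [pow_add, mul_assoc, ← mul_pow, inv_mul_cancel₀ hq0, one_pow, mul_one]
  -- `ι y` is small
  have hιy : padicEmbedding q y
      = ∑ i ∈ S, algebraMap ℚ_[q] (PadicAlgCl q) ((b i.1 : ℚ_[q]) - i.1) * padicEmbedding q i.2 := by
    have h1 : padicEmbedding q y
        = ∑ i ∈ S, algebraMap ℚ_[q] (PadicAlgCl q) (b i.1 : ℚ_[q]) * padicEmbedding q i.2 := by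
      rw [hy, map_sum]
      refine Finset.sum_congr rfl fun i _ => ?_
      rw [Algebra.smul_def, map_mul, AlgHom.commutes, algebraMap_ratCast]
    rw [h1, ← sub_zero (∑ i ∈ S, _ * _), ← h, ← Finset.sum_sub_distrib]
    refine Finset.sum_congr rfl fun i _ => ?_
    rw [map_sub, sub_mul]
  have hsmall : ‖padicEmbedding q y‖ ≤ ((q : ℝ)⁻¹) ^ n := by
    rw [hιy]
    refine IsUltrametricDist.norm_sum_le_of_forall_le_of_nonneg (pow_pos (q_inv_pos q) n).le ?_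
    intro i hi
    rw [norm_mul, norm_algebraMap', ← hmul, norm_sub_rev]
    exact mul_le_mul (hb i.1).le (hbound i hi).1 (norm_nonneg _) hδ.le
  have hsmall' := norm_apply_le q hσ y n hsmall
  -- `ι (σ y)`
  have hισy : padicEmbedding q (σ y)
      = ∑ i ∈ S, algebraMap ℚ_[q] (PadicAlgCl q) (b i.1 : ℚ_[q]) * padicEmbedding q (σ i.2) := by
    rw [hy, map_sum, map_sum]
    refine Finset.sum_congr rfl fun i _ => ?_
    rw [Algebra.smul_def, map_mul, map_mul, AlgEquiv.commutes, AlgHom.commutes, algebraMap_ratCast]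
  have hdecomp : ∑ i ∈ S, algebraMap ℚ_[q] (PadicAlgCl q) i.1 * padicEmbedding q (σ i.2)
      = padicEmbedding q (σ y)
        + ∑ i ∈ S, algebraMap ℚ_[q] (PadicAlgCl q) (i.1 - (b i.1 : ℚ_[q]))
            * padicEmbedding q (σ i.2) := by
    rw [hισy, ← Finset.sum_add_distrib]
    refine Finset.sum_congr rfl fun i _ => ?_
    rw [map_sub, sub_mul]
    ring
  rw [hdecomp]
  refine le_trans (IsUltrametricDist.norm_add_le_max _ _) (max_le hsmall' ?_)
  refine IsUltrametricDist.norm_sum_le_of_forall_le_of_nonneg (pow_pos (q_inv_pos q) n).le ?_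
  intro i hi
  rw [norm_mul, norm_algebraMap', ← hmul]
  exact mul_le_mul (hb i.1).le (hbound i hi).2 (norm_nonneg _) hδ.le

/-! ### The two maps out of `ℚ_q ⊗ ℚ̄` -/

/-- `a ⊗ x ↦ a · ι (f x)`. -/
def tmap (f : Qbar →ₐ[ℚ] Qbar) : ℚ_[q] ⊗[ℚ] Qbar →ₐ[ℚ_[q]] PadicAlgCl q :=
  Algebra.TensorProduct.lift (Algebra.ofId ℚ_[q] (PadicAlgCl q)) ((padicEmbedding q).comp f)
    (fun _ _ => Commute.all _ _)

theorem tmap_tmul (f : Qbar →ₐ[ℚ] Qbar) (a : ℚ_[q]) (x : Qbar) :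
    tmap q f (a ⊗ₜ[ℚ] x) = algebraMap ℚ_[q] (PadicAlgCl q) a * padicEmbedding q (f x) := by
  rw [tmap, Algebra.TensorProduct.lift_tmul]
  rfl

theorem tmap_sum (f : Qbar →ₐ[ℚ] Qbar) (S : Finset (ℚ_[q] × Qbar)) :
    tmap q f (∑ i ∈ S, i.1 ⊗ₜ[ℚ] i.2)
      = ∑ i ∈ S, algebraMap ℚ_[q] (PadicAlgCl q) i.1 * padicEmbedding q (f i.2) := by
  rw [map_sum]
  exact Finset.sum_congr rfl fun i _ => tmap_tmul q f i.1 i.2

/-- `m` is onto (Krasner). -/
theorem tmap_id_surjective : Function.Surjective (tmap q (AlgHom.id ℚ Qbar)) := by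
  intro a
  obtain ⟨β, hβ⟩ := Fermat.Agent.PT.BR.LocInj13.exists_mem_adjoin_padicEmbedding q a
  have hint : IsIntegral ℚ_[q] (padicEmbedding q β) := Algebra.IsIntegral.isIntegral _
  have h1 : a ∈ (ℚ_[q]⟮padicEmbedding q β⟯).toSubalgebra := hβ
  rw [IntermediateField.adjoin_simple_toSubalgebra_of_isAlgebraic hint.isAlgebraic] at h1
  have h2 : Algebra.adjoin ℚ_[q] {padicEmbedding q β} ≤ (tmap q (AlgHom.id ℚ Qbar)).range := by
    rw [Algebra.adjoin_le_iff, Set.singleton_subset_iff]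
    refine ⟨(1 : ℚ_[q]) ⊗ₜ[ℚ] β, ?_⟩
    change tmap q (AlgHom.id ℚ Qbar) ((1 : ℚ_[q]) ⊗ₜ[ℚ] β) = padicEmbedding q β
    rw [tmap_tmul, map_one, one_mul]
    rfl
  exact h2 h1

/-- `ker m ≤ ker m'`. -/
theorem ker_le {σ : Qbar ≃ₐ[ℚ] Qbar} (hσ : σ ∈ (padicPlace q).decompositionSubgroup ℚ) :
    RingHom.ker (tmap q (AlgHom.id ℚ Qbar)).toRingHom ≤ RingHom.ker (tmap q σ.toAlgHom).toRingHom := by
  intro t ht
  rw [RingHom.mem_ker] at ht ⊢
  obtain ⟨S, rfl⟩ := TensorProduct.exists_finset t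
  change tmap q (AlgHom.id ℚ Qbar) _ = 0 at ht
  change tmap q σ.toAlgHom _ = 0
  rw [tmap_sum] at ht ⊢
  exact sum_apply_eq_zero q hσ S ht

/-! ### The lift -/

/-- The endomorphism `τ` of `ℚ̄_q` with `τ ∘ ι = ι ∘ σ`. -/
def liftHom {σ : Qbar ≃ₐ[ℚ] Qbar} (hσ : σ ∈ (padicPlace q).decompositionSubgroup ℚ) :
    PadicAlgCl q →ₐ[ℚ_[q]] PadicAlgCl q :=
  AlgHom.liftOfSurjective (tmap q (AlgHom.id ℚ Qbar)) (tmap_id_surjective q) (tmap q σ.toAlgHom)
    (ker_le q hσ)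

theorem liftHom_padicEmbedding {σ : Qbar ≃ₐ[ℚ] Qbar}
    (hσ : σ ∈ (padicPlace q).decompositionSubgroup ℚ) (x : Qbar) :
    liftHom q hσ (padicEmbedding q x) = padicEmbedding q (σ x) := by
  have h1 : padicEmbedding q x = tmap q (AlgHom.id ℚ Qbar) ((1 : ℚ_[q]) ⊗ₜ[ℚ] x) := by
    rw [tmap_tmul, map_one, one_mul]
    rfl
  rw [h1, liftHom, AlgHom.liftOfSurjective_apply, tmap_tmul, map_one, one_mul]
  rfl

/-- The automorphism `τ`. -/
def liftEquiv {σ : Qbar ≃ₐ[ℚ] Qbar} (hσ : σ ∈ (padicPlace q).decompositionSubgroup ℚ) :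
    PadicAlgCl q ≃ₐ[ℚ_[q]] PadicAlgCl q :=
  AlgEquiv.ofBijective (liftHom q hσ) (Algebra.IsAlgebraic.algHom_bijective _)

theorem localGaloisToGlobal_liftEquiv {σ : Qbar ≃ₐ[ℚ] Qbar}
    (hσ : σ ∈ (padicPlace q).decompositionSubgroup ℚ) :
    localGaloisToGlobal q (liftEquiv q hσ) = σ := by
  refine AlgEquiv.ext fun x => ?_
  apply (padicEmbedding q).injective
  change padicEmbedding q (localGaloisToGlobal q (liftEquiv q hσ) x) = padicEmbedding q (σ x)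
  rw [padicEmbedding_localGaloisToGlobal]
  exact liftHom_padicEmbedding q hσ x

/-! ### The results -/

/-- **`Γ_q → D_w` is onto.** -/
theorem decomposition_le_range :
    (padicPlace q).decompositionSubgroup ℚ ≤ (localGaloisToGlobal q).range := fun _ hσ =>
  ⟨liftEquiv q hσ, localGaloisToGlobal_liftEquiv q hσ⟩

/-- The image of `Γ_q` is the decomposition group. -/
theorem range_eq : (localGaloisToGlobal q).range = (padicPlace q).decompositionSubgroup ℚ := by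
  apply le_antisymm
  · rintro _ ⟨τ, rfl⟩
    exact localGaloisToGlobal_mem_decompositionSubgroup q τ
  · exact decomposition_le_range q

/-- The inertia group lies in the image of `Γ_q`. -/
theorem inertia_le_range :
    (padicPlace q).inertiaSubgroupIn ℚ ≤ (localGaloisToGlobal q).range := by
  intro σ hσ
  apply decomposition_le_range q
  rw [ValuationSubring.inertiaSubgroupIn, Subgroup.mem_map] at hσ
  obtain ⟨d, -, rfl⟩ := hσ
  exact d.2

end

/-! ### `Nat.Primes` forms -/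

open ExtCitation

theorem decomposition_le_range_primes (q : Nat.Primes) :
    (primeLocalPlace q).decompositionSubgroup ℚ ≤ (primeLocalToGlobal q).range := by
  have : Fact (q : ℕ).Prime := ⟨q.2⟩
  exact decomposition_le_range (q : ℕ)

theorem inertia_le_range_primes (q : Nat.Primes) :
    (primeLocalPlace q).inertiaSubgroupIn ℚ ≤ (primeLocalToGlobal q).range := by
  have : Fact (q : ℕ).Prime := ⟨q.2⟩
  exact inertia_le_range (q : ℕ)

theorem range_eq_primes (q : Nat.Primes) :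
    (primeLocalToGlobal q).range = (primeLocalPlace q).decompositionSubgroup ℚ := by
  have : Fact (q : ℕ).Prime := ⟨q.2⟩
  exact range_eq (q : ℕ)

end Fermat.Agent.ES.T56.LocSurj16
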