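/-
Programme T (S56, Taylor–Wiles primes), chapters LOC / GW, leaf `PlacesConj16` (helper16):

  **`G_ℚ` acts transitively on the valuation subrings of `ℚ̄` over a prime `q`.**

`exists_smul_eq` : `A`, `A'` over `q` ⟹ `∃ g, A' = g • A`;
`placesConj` / `placesConj_primes` : every `A` over `q` is `g • padicPlace q` (`g • primeLocalPlace q`).

Proof.  `OQ` = the ring of all algebraic integers (main's `S54.GaloisSetup`); `primeQ A = 𝔪_A ∩ OQ`
(main's `S13.UnramLift`).  Both `primeQ A`, `primeQ A'` lie over `(q) ⊂ ℤ`, so they are conjugate under the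
profinite group `G_ℚ` (Mathlib's `Algebra.IsInvariant.exists_smul_of_under_eq_of_profinite`, instances on
main).  `primeQ (g • A) = g • primeQ A`, and a valuation subring over `q` is determined by its prime
`primeQ` (it is the localisation of `OQ` there: main's `UnramVal.exists_integral_fraction`).
-/
import Mathlib
import Fermat.Prelude.Def_GaloisRep_CompletionBridge
import Fermat.Prelude.Def_ExtEndgame_ProductionDatum
import Fermat.Agent.S05.Inertia
import Fermat.Agent.S13.UnramLift
import Fermat.Agent.PT.BR.UnramBridge13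
import Fermat.Agent.ES.T56.LocSurj16

set_option autoImplicit false
set_option linter.unusedSectionVars false

open scoped Pointwise

namespace Fermat.Agent.ES.T56.PlacesConj16

open Fermat.Agent.S54 Fermat.Agent.S13.UnramVal Fermat.Agent.S13.UnramLift
  Fermat.Agent.PT.BR.UnramBridge13

attribute [local instance] topOQ

local notation "Qbar" => AlgebraicClosure ℚ

/-- `G_ℚ`. -/
abbrev GQ : Type := Qbar ≃ₐ[ℚ] Qbar

/-- The prime of `OQ` below a valuation subring over `q` lies over `(q)`. -/
theorem under_primeQ {q : ℕ} (hq : q.Prime) {A : ValuationSubring Qbar} (hA : A.LiesOverPrime q) :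
    (primeQ A).under ℤ = Ideal.span {(q : ℤ)} := by
  ext n
  rw [Ideal.mem_comap, mem_primeQ, Ideal.mem_span_singleton, ValuationSubring.mem_nonunits_iff,
    ← Fermat.Agent.S05.Inertia.valuation_intCast_lt_one_iff hq hA n]
  have : ((algebraMap ℤ OQ n : OQ) : Qbar) = ((n : ℤ) : Qbar) := by
    rw [eq_intCast]
    rfl
  rw [this]

/-- `primeQ (g • A) = g • primeQ A`. -/
theorem primeQ_smul (g : GQ) (A : ValuationSubring Qbar) : primeQ (g • A) = g • primeQ A := by
  ext b
  rw [Ideal.mem_pointwise_smul_iff_inv_smul_mem, mem_primeQ, mem_primeQ, mem_smul_nonunits_iff]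
  rfl

/-- A valuation subring over `q` is determined by its prime of `OQ` (one inclusion). -/
theorem le_of_primeQ_eq {q : ℕ} (hq : q.Prime) {A A' : ValuationSubring Qbar}
    (hA : A.LiesOverPrime q) (h : primeQ A = primeQ A') : A ≤ A' := by
  intro a ha
  obtain ⟨y, z, hy, hz, hyu, e⟩ := exists_integral_fraction A hq hA (isAlgebraic_int_qbar a) ha
  have hyA' : y ∈ A' := mem_of_isIntegral_int A' hy
  have hzA' : z ∈ A' := mem_of_isIntegral_int A' hz
  have hyu' : y ∉ A'.nonunits := by
    have h1 : (⟨y, mem_OQ.2 hy⟩ : OQ) ∉ primeQ A := by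
      rw [mem_primeQ]
      exact hyu
    rw [h, mem_primeQ] at h1
    exact h1
  have hvy : A'.valuation y = 1 := by
    refine le_antisymm ((ValuationSubring.valuation_le_one_iff A' y).mpr hyA') ?_
    rw [ValuationSubring.mem_nonunits_iff, not_lt] at hyu'
    exact hyu'
  have hy0 : y ≠ 0 := by
    rintro rfl
    rw [map_zero] at hvy
    exact zero_ne_one hvy
  have ha' : a = z / y := by
    rw [← e]
    field_simp
  rw [← ValuationSubring.valuation_le_one_iff, ha', map_div₀, hvy, div_one]
  exact (ValuationSubring.valuation_le_one_iff A' z).mpr hzA'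

/-- **Transitivity.** -/
theorem exists_smul_eq {q : ℕ} (hq : q.Prime) {A A' : ValuationSubring Qbar}
    (hA : A.LiesOverPrime q) (hA' : A'.LiesOverPrime q) : ∃ g : GQ, A' = g • A := by
  have hunder : (primeQ A).under ℤ = (primeQ A').under ℤ := by
    rw [under_primeQ hq hA, under_primeQ hq hA']
  obtain ⟨g, hg⟩ := Algebra.IsInvariant.exists_smul_of_under_eq_of_profinite
    (A := ℤ) (B := OQ) (G := GQ) (primeQ A) (primeQ A') hunder
  refine ⟨g, ?_⟩
  rw [← primeQ_smul] at hg
  exact le_antisymm (le_of_primeQ_eq hq hA' hg)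
    (le_of_primeQ_eq hq (liesOverPrime_smul g hA) hg.symm)

/-- `padicPlace q` lies over `q`. -/
theorem padicPlace_liesOver (q : ℕ) [Fact q.Prime] : (padicPlace q).LiesOverPrime q := by
  show ((q : ℕ) : Qbar) ∈ (padicPlace q).nonunits
  rw [ValuationSubring.mem_nonunits_iff_or]
  right
  have hq0 : ((q : ℕ) : Qbar) ≠ 0 := by
    exact_mod_cast (Fact.out : q.Prime).ne_zero
  rw [LocSurj16.mem_padicPlace_iff_norm, map_inv₀, map_natCast, norm_inv, LocSurj16.norm_q, inv_inv,
    not_le]
  exact_mod_cast (Fact.out : q.Prime).one_lt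

/-- **`PlacesConj`** for `padicPlace q`. -/
theorem placesConj (q : ℕ) [Fact q.Prime] (A : ValuationSubring Qbar) (hA : A.LiesOverPrime q) :
    ∃ g : GQ, A = g • padicPlace q :=
  exists_smul_eq (Fact.out : q.Prime) (padicPlace_liesOver q) hA

open ExtCitation in
/-- **`PlacesConj`**, `Nat.Primes` form (helper21's literal). -/
theorem placesConj_primes (q : Nat.Primes) :
    ∀ A : ValuationSubring Qbar, A.LiesOverPrime (q : ℕ) → ∃ g : GQ, A = g • primeLocalPlace q := by
  have : Fact (q : ℕ).Prime := ⟨q.2⟩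
  exact placesConj (q : ℕ)

open ExtCitation in
/-- `primeLocalPlace q` lies over `q`. -/
theorem primeLocalPlace_liesOver (q : Nat.Primes) : (primeLocalPlace q).LiesOverPrime (q : ℕ) := by
  have : Fact (q : ℕ).Prime := ⟨q.2⟩
  exact padicPlace_liesOver (q : ℕ)

end Fermat.Agent.ES.T56.PlacesConj16
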