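/-
Programme T (S56), chapter GW-D, brick (K2-bridge), part 3 (helper16): from the `ℚ̄`-world (places of
`ℚ̄`, inertia / decomposition subgroups of `G_ℚ`) to ABSTRACT Galois pairs of number fields, in the
literal shape of main's `S14.ArtinGlue.ARTHyp` / helper23's `ElemArtin*23`
(`hunr : ∀ P, P.IsPrime → P ≠ ⊥ → P.inertia (M ≃ₐ[F] M) = ⊥`, `MulAction.stabilizer (M ≃ₐ[F] M) P = ⊥`).

§ Abstract.  `Ft`, `Mt` fields, `[Algebra Ft Mt]`, `ι : Mt →+* ℚ̄` with image `M`, `L ≤ M` inside `ℚ̄`,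
and every `τ ∈ Gal(Mt/Ft)` is induced by some `σ ∈ G_L` (`hlift`).  Then
* `inertia_eq_bot_of_cuts` / `inertia_eq_bot` **(B2)**: if `I_A ⊓ G_L ≤ G_M` for the places `A` of `ℚ̄`,
  every nonzero prime of `𝓞 Mt` has trivial inertia group in `Gal(Mt/Ft)`;
* `stabilizer_eq_bot_of_cuts` / `stabilizer_eq_bot` **(B3)**: if `D_A ⊓ G_L ≤ G_M` for the places `A` over
  a set `T` of rational primes, the primes of `𝓞 Mt` over `T` have trivial decomposition group.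

§ Tower.  `K` a subfield of `ℚ̄`, `L' ≤ M'` intermediate fields of `ℚ̄/↥K` (in the application
`L' = BaseDict28.LK D = extendScalars D.le`), `Ft = ↥L'`, `Mt = ↥M'` with `FieldPair16.algOfLE`:
`toK`, `resTower : G_L →* Gal(↥M'/↥L')` (`G_L ≤ G_ℚ`), surjective, kernel `G_M`; (B2), (B3).

§ Fixed.  `M' = extendScalars (K ≤ fixedField N)`, `N ≤ G_L` open, normalised by `G_K`.

§ Hyp.  `inertia_mem_of_unram_of_decomp` **(B4)**: the inertia hypothesis from "`N ⊇ G_F ⊓ G_L`, `F`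
unramified outside `Sg`" and "`N ⊇ D_A ⊓ G_L` for all `A` over `Sg`"; `exists_conj_range`: the
decomposition group of ANY place over `q` is a conjugate of the image of `primeLocalToGlobal q`.
-/
import Mathlib
import Fermat.Prelude.Def_FLTPrelim_Ramification
import Fermat.Prelude.Def_GroupCohomology_ContinuousUnramified
import Fermat.Agent.S54.GaloisSetup
import Fermat.Agent.ES.T56.LocSurj16
import Fermat.Agent.ES.T56.PlacesConj16
import Fermat.Agent.ES.T56.RelLift16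
import Fermat.Agent.ES.T56.FieldPair16

set_option autoImplicit false
set_option linter.style.haveILetI false

open scoped Pointwise NumberField

namespace Fermat.Agent.ES.T56.K2Bridge16

open Fermat.Agent.ES.T56.FieldPair16 Fermat.Agent.ES.T56.RelLift16

local notation "Qbar" => AlgebraicClosure ℚ
local notation "GQ" => (AlgebraicClosure ℚ ≃ₐ[ℚ] AlgebraicClosure ℚ)

/-! ### The abstract bridge -/

section Abstract

variable {Ft Mt : Type*} [Field Ft] [Field Mt] [Algebra Ft Mt] (ι : Mt →+* Qbar)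
  (L M : IntermediateField ℚ Qbar)

/-- An integral element of `Mt`, as an element of `𝓞 Mt`. -/
noncomputable def mkInt (x : Mt) (hxi : IsIntegral ℤ (ι x)) : 𝓞 Mt :=
  ⟨x, (isIntegral_map_iff ι x).1 hxi⟩

theorem toQbar_mkInt (x : Mt) (hxi : IsIntegral ℤ (ι x)) : toQbar ι (mkInt ι x hxi) = ι x := rfl

theorem toQbar_smul (τ : Mt ≃ₐ[Ft] Mt) (y : 𝓞 Mt) : toQbar ι (τ • y) = ι (τ (y : Mt)) := rfl

variable (hM : ∀ y, y ∈ M ↔ ∃ x, ι x = y) (hLM : L ≤ M)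

include hM in
/-- An automorphism of `ℚ̄` inducing `τ` on `Mt` stabilises `M`, in both directions. -/
theorem stable_of_induces (τ : Mt ≃ₐ[Ft] Mt) (σ : GQ) (hσ : ∀ x, ι (τ x) = σ (ι x)) :
    (∀ y ∈ M, σ y ∈ M) ∧ ∀ y ∈ M, σ.symm y ∈ M := by
  refine ⟨fun y hy => ?_, fun y hy => ?_⟩
  · obtain ⟨x, rfl⟩ := (hM y).1 hy
    exact (hM _).2 ⟨τ x, hσ x⟩
  · obtain ⟨x, rfl⟩ := (hM y).1 hy
    refine (hM _).2 ⟨τ.symm x, ?_⟩
    have h1 := hσ (τ.symm x)
    rw [AlgEquiv.apply_symm_apply] at h1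
    rw [h1, AlgEquiv.symm_apply_apply]

include hM hLM in
/-- The common endgame of (B2) and (B3). -/
theorem eq_one_of_agrees (τ : Mt ≃ₐ[Ft] Mt) (σ σ' : GQ) (hσL : σ ∈ L.fixingSubgroup)
    (hσ : ∀ x, ι (τ x) = σ (ι x)) (hσ' : ∀ y ∈ M, σ' y = σ y)
    (hmem : σ' ∈ L.fixingSubgroup → σ' ∈ M.fixingSubgroup) : τ = 1 := by
  have hσ'L : σ' ∈ L.fixingSubgroup := by
    rw [IntermediateField.mem_fixingSubgroup_iff]
    intro x hx
    rw [hσ' x (hLM hx)]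
    exact (IntermediateField.mem_fixingSubgroup_iff L _).1 hσL x hx
  have h3 := (IntermediateField.mem_fixingSubgroup_iff M _).1 (hmem hσ'L)
  apply AlgEquiv.ext
  intro x
  apply ι.injective
  have hxM : ι x ∈ M := (hM _).2 ⟨x, rfl⟩
  rw [AlgEquiv.one_apply, hσ x, ← hσ' _ hxM]
  exact h3 _ hxM

variable [NumberField Mt]
  (hlift : ∀ τ : Mt ≃ₐ[Ft] Mt, ∃ σ ∈ L.fixingSubgroup, ∀ x, ι (τ x) = (σ : GQ) (ι x))

include hM hLM hlift

/-- **(B2)**, one prime at a time. -/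
theorem inertia_eq_bot_of_cuts (P : Ideal (𝓞 Mt)) (hP0 : P ≠ ⊥)
    (A : ValuationSubring Qbar) (hA : Cuts ι A P)
    (hI : ∀ σ ∈ A.inertiaSubgroupIn ℚ, σ ∈ L.fixingSubgroup → σ ∈ M.fixingSubgroup) :
    P.inertia (Mt ≃ₐ[Ft] Mt) = ⊥ := by
  rw [eq_bot_iff]
  intro τ hτ
  rw [Subgroup.mem_bot]
  obtain ⟨q, hq, hAq⟩ := hA.exists_liesOverPrime ι hP0
  obtain ⟨σ, hσL, hσ⟩ := hlift τ
  obtain ⟨hst, hst'⟩ := stable_of_induces ι M hM τ σ hσ
  have h1 : ∀ y ∈ M, IsIntegral ℤ y → σ y - y ∈ A.nonunits := by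
    intro y hy hyi
    obtain ⟨x, rfl⟩ := (hM y).1 hy
    have h2 := (hA _).1 (hτ (mkInt ι x hyi))
    rwa [map_sub, toQbar_smul, toQbar_mkInt, hσ] at h2
  obtain ⟨σ', hσ'I, hσ'M⟩ := exists_inertia_lift_of_stable M A hq hAq σ hst hst' h1
  exact eq_one_of_agrees ι L M hM hLM τ σ σ' hσL hσ hσ'M (hI σ' hσ'I)

/-- **(B2)**: the hypothesis shape of main's `S14.ArtinGlue.ARTHyp` / helper23's `hunr`. -/
theorem inertia_eq_bot
    (hI : ∀ (A : ValuationSubring Qbar) (q : ℕ), q.Prime → A.LiesOverPrime q →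
      ∀ σ ∈ A.inertiaSubgroupIn ℚ, σ ∈ L.fixingSubgroup → σ ∈ M.fixingSubgroup) :
    ∀ P : Ideal (𝓞 Mt), P.IsPrime → P ≠ ⊥ → P.inertia (Mt ≃ₐ[Ft] Mt) = ⊥ := by
  intro P hP hP0
  haveI := hP
  obtain ⟨A, hA⟩ := exists_place_of_prime ι P hP0
  obtain ⟨q, hq, hAq⟩ := hA.exists_liesOverPrime ι hP0
  exact inertia_eq_bot_of_cuts ι L M hM hLM hlift P hP0 A hA (hI A q hq hAq)

/-- **(B3)**, one prime at a time: trivial decomposition group. -/
theorem stabilizer_eq_bot_of_cuts (P : Ideal (𝓞 Mt)) (hP0 : P ≠ ⊥)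
    (A : ValuationSubring Qbar) (hA : Cuts ι A P)
    (hD : ∀ σ ∈ A.decompositionSubgroup ℚ, σ ∈ L.fixingSubgroup → σ ∈ M.fixingSubgroup) :
    MulAction.stabilizer (Mt ≃ₐ[Ft] Mt) P = ⊥ := by
  rw [eq_bot_iff]
  intro τ hτ
  rw [Subgroup.mem_bot]
  rw [MulAction.mem_stabilizer_iff] at hτ
  obtain ⟨q, hq, hAq⟩ := hA.exists_liesOverPrime ι hP0
  obtain ⟨σ, hσL, hσ⟩ := hlift τ
  obtain ⟨hst, hst'⟩ := stable_of_induces ι M hM τ σ hσ
  have h1 : ∀ y ∈ M, IsIntegral ℤ y → (σ y ∈ A.nonunits ↔ y ∈ A.nonunits) := by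
    intro y hy hyi
    obtain ⟨x, rfl⟩ := (hM y).1 hy
    have h2 : τ • mkInt ι x hyi ∈ P ↔ mkInt ι x hyi ∈ P := by
      conv_lhs => rw [← hτ]
      exact Ideal.smul_mem_pointwise_smul_iff
    rw [hA, hA, toQbar_smul, toQbar_mkInt, hσ] at h2
    exact h2
  obtain ⟨σ', hσ'D, hσ'M⟩ := exists_decomposition_lift_of_stable M A hq hAq σ hst hst' h1
  exact eq_one_of_agrees ι L M hM hLM τ σ σ' hσL hσ hσ'M (hD σ' hσ'D)

/-- **(B3)** for all primes over a set of rational primes. -/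
theorem stabilizer_eq_bot (T : Set ℕ)
    (hD : ∀ q ∈ T, ∀ (A : ValuationSubring Qbar), A.LiesOverPrime q →
      ∀ σ ∈ A.decompositionSubgroup ℚ, σ ∈ L.fixingSubgroup → σ ∈ M.fixingSubgroup) :
    ∀ P : Ideal (𝓞 Mt), P.IsPrime → P ≠ ⊥ → ∀ q ∈ T, ((q : ℕ) : 𝓞 Mt) ∈ P →
      MulAction.stabilizer (Mt ≃ₐ[Ft] Mt) P = ⊥ := by
  intro P hP hP0 q hqT hqP
  haveI := hP
  obtain ⟨A, hA⟩ := exists_place_of_prime ι P hP0
  exact stabilizer_eq_bot_of_cuts ι L M hM hLM hlift P hP0 A hA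
    (hD q hqT A ((hA.liesOverPrime_iff ι q).2 hqP))

end Abstract

/-! ### Towers `ℚ ⊆ K ⊆ L' ⊆ M' ⊆ ℚ̄` -/

section Tower

variable {K : IntermediateField ℚ Qbar} {L' M' : IntermediateField ↥K Qbar}

/-- `G_L ≤ G_ℚ` as a subgroup of `Gal(ℚ̄/K)`. -/
noncomputable def toK (L' : IntermediateField ↥K Qbar) :
    ↥(L'.restrictScalars ℚ).fixingSubgroup →* ↥L'.fixingSubgroup where
  toFun σ :=
    ⟨{ (σ : GQ) with
        commutes' := fun r =>
          (IntermediateField.mem_fixingSubgroup_iff (L'.restrictScalars ℚ) _).1 σ.2 _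
            (L'.algebraMap_mem r) },
      (IntermediateField.mem_fixingSubgroup_iff L' _).2 fun x hx =>
        (IntermediateField.mem_fixingSubgroup_iff (L'.restrictScalars ℚ) _).1 σ.2 x hx⟩
  map_one' := Subtype.ext (AlgEquiv.ext fun _ => rfl)
  map_mul' _ _ := Subtype.ext (AlgEquiv.ext fun _ => rfl)

theorem toK_apply (σ : ↥(L'.restrictScalars ℚ).fixingSubgroup) (x : Qbar) :
    ((toK L' σ : ↥L'.fixingSubgroup) : Qbar ≃ₐ[↥K] Qbar) x = (σ : GQ) x := rfl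

theorem toK_surjective : Function.Surjective (toK L') := by
  intro σ₀
  refine ⟨⟨(σ₀ : Qbar ≃ₐ[↥K] Qbar).restrictScalars ℚ, ?_⟩, Subtype.ext (AlgEquiv.ext fun _ => rfl)⟩
  rw [IntermediateField.mem_fixingSubgroup_iff]
  intro x hx
  exact (IntermediateField.mem_fixingSubgroup_iff L' _).1 σ₀.2 x hx

variable (h : L' ≤ M') (hst : Stable L' M')

/-- The restriction `G_L → Gal(↥M'/↥L')`, `G_L ≤ G_ℚ`. -/
noncomputable def resTower :
    ↥(L'.restrictScalars ℚ).fixingSubgroup →*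
      (@AlgEquiv ↥L' ↥M' ↥M' _ _ _ (algOfLE h) (algOfLE h)) :=
  (resHom h hst).comp (toK L')

theorem resTower_apply (σ : ↥(L'.restrictScalars ℚ).fixingSubgroup) (x : ↥M') :
    ((resTower h hst σ x : ↥M') : Qbar) = (σ : GQ) x := rfl

theorem resTower_surjective : Function.Surjective (resTower h hst) :=
  (resHom_surjective h hst).comp toK_surjective

theorem resTower_eq_one_iff (σ : ↥(L'.restrictScalars ℚ).fixingSubgroup) :
    resTower h hst σ = 1 ↔ (σ : GQ) ∈ (M'.restrictScalars ℚ).fixingSubgroup := by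
  rw [resTower, MonoidHom.comp_apply, resHom_eq_one_iff, IntermediateField.mem_fixingSubgroup_iff,
    IntermediateField.mem_fixingSubgroup_iff]
  rfl

include hst in
/-- The lifting hypothesis of the abstract bridge. -/
theorem hlift_tower :
    letI := algOfLE h
    ∀ τ : ↥M' ≃ₐ[↥L'] ↥M', ∃ σ ∈ (L'.restrictScalars ℚ).fixingSubgroup,
      ∀ x, algebraMap ↥M' Qbar (τ x) = (σ : GQ) (algebraMap ↥M' Qbar x) := by
  intro τ
  obtain ⟨σ, rfl⟩ := resTower_surjective h hst τ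
  exact ⟨σ, σ.2, fun x => rfl⟩

theorem mem_restrictScalars_iff (y : Qbar) :
    y ∈ M'.restrictScalars ℚ ↔ ∃ x : ↥M', algebraMap ↥M' Qbar x = y :=
  ⟨fun hy => ⟨⟨y, hy⟩, rfl⟩, fun ⟨x, hx⟩ => hx ▸ x.2⟩

variable [NumberField ↥M']
include hst

/-- **(B2)** for a tower. -/
theorem inertia_eq_bot_tower
    (hI : ∀ (A : ValuationSubring Qbar) (q : ℕ), q.Prime → A.LiesOverPrime q →
      ∀ σ ∈ A.inertiaSubgroupIn ℚ, σ ∈ (L'.restrictScalars ℚ).fixingSubgroup →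
        σ ∈ (M'.restrictScalars ℚ).fixingSubgroup) :
    letI := algOfLE h
    ∀ P : Ideal (𝓞 ↥M'), P.IsPrime → P ≠ ⊥ → P.inertia (↥M' ≃ₐ[↥L'] ↥M') = ⊥ := by
  letI := algOfLE h
  exact inertia_eq_bot (algebraMap ↥M' Qbar) (L'.restrictScalars ℚ) (M'.restrictScalars ℚ)
    mem_restrictScalars_iff (fun x hx => h hx) (hlift_tower h hst) hI

/-- **(B3)** for a tower. -/
theorem stabilizer_eq_bot_tower (T : Set ℕ)
    (hD : ∀ q ∈ T, ∀ (A : ValuationSubring Qbar), A.LiesOverPrime q →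
      ∀ σ ∈ A.decompositionSubgroup ℚ, σ ∈ (L'.restrictScalars ℚ).fixingSubgroup →
        σ ∈ (M'.restrictScalars ℚ).fixingSubgroup) :
    letI := algOfLE h
    ∀ P : Ideal (𝓞 ↥M'), P.IsPrime → P ≠ ⊥ → ∀ q ∈ T, ((q : ℕ) : 𝓞 ↥M') ∈ P →
      MulAction.stabilizer (↥M' ≃ₐ[↥L'] ↥M') P = ⊥ := by
  letI := algOfLE h
  exact stabilizer_eq_bot (algebraMap ↥M' Qbar) (L'.restrictScalars ℚ) (M'.restrictScalars ℚ)
    mem_restrictScalars_iff (fun x hx => h hx) (hlift_tower h hst) T hD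

end Tower

/-! ### `M' = ` the fixed field of an open subgroup `N ≤ G_L`, as an extension of `↥K` -/

section Fixed

variable {K L : IntermediateField ℚ Qbar} (hKL : K ≤ L) (N : Subgroup GQ)
  (hNL : N ≤ L.fixingSubgroup)

/-- `L`, as an intermediate field of `ℚ̄/K` (`= BaseDict28.LK D` for `K = D.K`, `L = D.L`). -/
noncomputable abbrev LK : IntermediateField ↥K Qbar := IntermediateField.extendScalars hKL

/-- The fixed field of `N`, as an intermediate field of `ℚ̄/K`. -/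
noncomputable def MK : IntermediateField ↥K Qbar :=
  IntermediateField.extendScalars (hKL.trans (le_fixedField N hNL))

theorem mem_MK (x : Qbar) : x ∈ MK hKL N hNL ↔ x ∈ IntermediateField.fixedField N := Iff.rfl

theorem restrictScalars_MK :
    (MK hKL N hNL).restrictScalars ℚ = IntermediateField.fixedField N := rfl

theorem LK_le_MK : LK hKL ≤ MK hKL N hNL := fun _ hx => le_fixedField N hNL hx

variable (F : IntermediateField ℚ Qbar) [FiniteDimensional ℚ ↥F] (hF : F.fixingSubgroup ≤ N)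
include hF

theorem fixingSubgroup_MK : ((MK hKL N hNL).restrictScalars ℚ).fixingSubgroup = N :=
  fixingSubgroup_fixedField N F hF

theorem finiteDimensional_MK : FiniteDimensional ℚ ↥(MK hKL N hNL) :=
  finiteDimensional_fixedField N F hF

theorem numberField_MK : NumberField ↥(MK hKL N hNL) :=
  @NumberField.mk _ _ inferInstance (finiteDimensional_MK hKL N hNL F hF)

theorem finiteDimensional_MK_K : FiniteDimensional ↥K ↥(MK hKL N hNL) :=
  haveI := finiteDimensional_MK hKL N hNL F hF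
  Module.Finite.of_restrictScalars_finite ℚ ↥K ↥(MK hKL N hNL)

/-- `G_L` stabilises `fixedField N` when it normalises `N`. -/
theorem stable_MK (hn : ∀ σ ∈ L.fixingSubgroup, ∀ s ∈ N, σ⁻¹ * s * σ ∈ N) :
    Stable (LK hKL) (MK hKL N hNL) := by
  intro σ₀ hσ₀ x hx
  have hσL : (σ₀.restrictScalars ℚ : GQ) ∈ L.fixingSubgroup := by
    rw [IntermediateField.mem_fixingSubgroup_iff]
    intro y hy
    exact (IntermediateField.mem_fixingSubgroup_iff (LK hKL) _).1 hσ₀ y hy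
  exact stable_fixedField N F hF hn (σ₀.restrictScalars ℚ) hσL x hx

/-- `fixedField N` is Galois over `K` when `G_K` normalises `N`. -/
theorem isGalois_MK_K (hnK : ∀ σ ∈ K.fixingSubgroup, ∀ s ∈ N, σ⁻¹ * s * σ ∈ N) :
    IsGalois ↥K ↥(MK hKL N hNL) := by
  apply isGalois_of_stable_bot
  intro σ₀ _ x hx
  have hσK : (σ₀.restrictScalars ℚ : GQ) ∈ K.fixingSubgroup := by
    rw [IntermediateField.mem_fixingSubgroup_iff]
    intro y hy
    exact σ₀.commutes ⟨y, hy⟩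
  exact stable_fixedField N F hF hnK (σ₀.restrictScalars ℚ) hσK x hx

/-- `fixedField N` is Galois over `L`. -/
theorem isGalois_MK_LK (hn : ∀ σ ∈ L.fixingSubgroup, ∀ s ∈ N, σ⁻¹ * s * σ ∈ N) :
    @IsGalois ↥(LK hKL) _ ↥(MK hKL N hNL) _ (algOfLE (LK_le_MK hKL N hNL)) :=
  haveI := finiteDimensional_MK_K hKL N hNL F hF
  isGalois (LK_le_MK hKL N hNL) (stable_MK hKL N hNL F hF hn)

/-- **(B2)** for `M' = MK`. -/
theorem inertia_eq_bot_MK (hn : ∀ σ ∈ L.fixingSubgroup, ∀ s ∈ N, σ⁻¹ * s * σ ∈ N)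
    (hI : ∀ (A : ValuationSubring Qbar) (q : ℕ), q.Prime → A.LiesOverPrime q →
      ∀ σ ∈ A.inertiaSubgroupIn ℚ, σ ∈ L.fixingSubgroup → σ ∈ N) :
    letI := algOfLE (LK_le_MK hKL N hNL)
    ∀ P : Ideal (𝓞 ↥(MK hKL N hNL)), P.IsPrime → P ≠ ⊥ →
      P.inertia (↥(MK hKL N hNL) ≃ₐ[↥(LK hKL)] ↥(MK hKL N hNL)) = ⊥ := by
  haveI := numberField_MK hKL N hNL F hF
  refine inertia_eq_bot_tower (LK_le_MK hKL N hNL) (stable_MK hKL N hNL F hF hn) ?_
  intro A q hq hA σ hσ hσL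
  rw [fixingSubgroup_MK hKL N hNL F hF]
  exact hI A q hq hA σ hσ hσL

/-- **(B3)** for `M' = MK`. -/
theorem stabilizer_eq_bot_MK (hn : ∀ σ ∈ L.fixingSubgroup, ∀ s ∈ N, σ⁻¹ * s * σ ∈ N) (T : Set ℕ)
    (hD : ∀ q ∈ T, ∀ (A : ValuationSubring Qbar), A.LiesOverPrime q →
      ∀ σ ∈ A.decompositionSubgroup ℚ, σ ∈ L.fixingSubgroup → σ ∈ N) :
    letI := algOfLE (LK_le_MK hKL N hNL)
    ∀ P : Ideal (𝓞 ↥(MK hKL N hNL)), P.IsPrime → P ≠ ⊥ → ∀ q ∈ T,
      ((q : ℕ) : 𝓞 ↥(MK hKL N hNL)) ∈ P →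
      MulAction.stabilizer (↥(MK hKL N hNL) ≃ₐ[↥(LK hKL)] ↥(MK hKL N hNL)) P = ⊥ := by
  haveI := numberField_MK hKL N hNL F hF
  refine stabilizer_eq_bot_tower (LK_le_MK hKL N hNL) (stable_MK hKL N hNL F hF hn) T ?_
  intro q hq A hA σ hσ hσL
  rw [fixingSubgroup_MK hKL N hNL F hF]
  exact hD q hq A hA σ hσ hσL

/-- The kernel of `G_L → Gal(MK/LK)` is `N`. -/
theorem resTower_MK_eq_one_iff (hn : ∀ σ ∈ L.fixingSubgroup, ∀ s ∈ N, σ⁻¹ * s * σ ∈ N)
    (σ : ↥((LK hKL).restrictScalars ℚ).fixingSubgroup) :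
    resTower (LK_le_MK hKL N hNL) (stable_MK hKL N hNL F hF hn) σ = 1 ↔ (σ : GQ) ∈ N := by
  rw [resTower_eq_one_iff, fixingSubgroup_MK hKL N hNL F hF]

/-! #### The restriction maps `G_L → Gal(MK/LK)`, `G_K → Gal(MK/K)` -/

section ResMK

variable (hn : ∀ σ ∈ L.fixingSubgroup, ∀ s ∈ N, σ⁻¹ * s * σ ∈ N)

/-- `G_L → Gal(MK/LK)` (source: the subgroup `L.fixingSubgroup` of `G_ℚ`). -/
noncomputable def resMK :
    ↥L.fixingSubgroup →* (@AlgEquiv ↥(LK hKL) ↥(MK hKL N hNL) ↥(MK hKL N hNL) _ _ _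
      (algOfLE (LK_le_MK hKL N hNL)) (algOfLE (LK_le_MK hKL N hNL))) :=
  resTower (LK_le_MK hKL N hNL) (stable_MK hKL N hNL F hF hn)

theorem resMK_apply (σ : ↥L.fixingSubgroup) (x : ↥(MK hKL N hNL)) :
    ((resMK hKL N hNL F hF hn σ x : ↥(MK hKL N hNL)) : Qbar) = (σ : GQ) x := rfl

theorem resMK_surjective : Function.Surjective (resMK hKL N hNL F hF hn) :=
  resTower_surjective (LK_le_MK hKL N hNL) (stable_MK hKL N hNL F hF hn)

theorem resMK_eq_one_iff (σ : ↥L.fixingSubgroup) :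
    resMK hKL N hNL F hF hn σ = 1 ↔ (σ : GQ) ∈ N :=
  resTower_MK_eq_one_iff hKL N hNL F hF hn σ

include hn in
/-- `Gal(MK/LK)` is commutative when `N` contains the commutators of `G_L`. -/
theorem resMK_comm
    (hcomm : ∀ σ ∈ L.fixingSubgroup, ∀ τ ∈ L.fixingSubgroup, σ * τ * σ⁻¹ * τ⁻¹ ∈ N) :
    letI := algOfLE (LK_le_MK hKL N hNL)
    ∀ a b : ↥(MK hKL N hNL) ≃ₐ[↥(LK hKL)] ↥(MK hKL N hNL), a * b = b * a := by
  intro a b
  obtain ⟨σ, rfl⟩ := resMK_surjective hKL N hNL F hF hn a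
  obtain ⟨τ, rfl⟩ := resMK_surjective hKL N hNL F hF hn b
  have h1 := (resMK_eq_one_iff hKL N hNL F hF hn (σ * τ * σ⁻¹ * τ⁻¹)).2 (hcomm σ σ.2 τ τ.2)
  rw [map_mul, map_mul, map_mul, map_inv, map_inv] at h1
  calc _ = (resMK hKL N hNL F hF hn σ * resMK hKL N hNL F hF hn τ *
          (resMK hKL N hNL F hF hn σ)⁻¹ * (resMK hKL N hNL F hF hn τ)⁻¹) *
          (resMK hKL N hNL F hF hn τ * resMK hKL N hNL F hF hn σ) := by group
    _ = _ := by rw [h1, one_mul]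

include hn in
/-- `Gal(MK/LK)` has exponent `p` when `N` contains the `p`-th powers of `G_L`. -/
theorem resMK_pow (p : ℕ) (hpow : ∀ σ ∈ L.fixingSubgroup, σ ^ p ∈ N) :
    letI := algOfLE (LK_le_MK hKL N hNL)
    ∀ a : ↥(MK hKL N hNL) ≃ₐ[↥(LK hKL)] ↥(MK hKL N hNL), a ^ p = 1 := by
  intro a
  obtain ⟨σ, rfl⟩ := resMK_surjective hKL N hNL F hF hn a
  rw [← map_pow]
  exact (resMK_eq_one_iff hKL N hNL F hF hn (σ ^ p)).2 (hpow σ σ.2)

/-- A homomorphism on `G_L` killing `N` descends to `Gal(MK/LK)`. -/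
noncomputable def descendMK {H : Type*} [Group H] (χ : ↥L.fixingSubgroup →* H)
    (hχ : ∀ σ : ↥L.fixingSubgroup, (σ : GQ) ∈ N → χ σ = 1) :
    (@AlgEquiv ↥(LK hKL) ↥(MK hKL N hNL) ↥(MK hKL N hNL) _ _ _
      (algOfLE (LK_le_MK hKL N hNL)) (algOfLE (LK_le_MK hKL N hNL))) →* H :=
  (resMK hKL N hNL F hF hn).liftOfSurjective (resMK_surjective hKL N hNL F hF hn)
    ⟨χ, fun σ hσ => hχ σ ((resMK_eq_one_iff hKL N hNL F hF hn σ).1 hσ)⟩

theorem descendMK_resMK {H : Type*} [Group H] (χ : ↥L.fixingSubgroup →* H)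
    (hχ : ∀ σ : ↥L.fixingSubgroup, (σ : GQ) ∈ N → χ σ = 1) (σ : ↥L.fixingSubgroup) :
    descendMK hKL N hNL F hF hn χ hχ (resMK hKL N hNL F hF hn σ) = χ σ :=
  MonoidHom.liftOfRightInverse_comp_apply _ _ _ _ σ

variable (hnK : ∀ σ ∈ K.fixingSubgroup, ∀ s ∈ N, σ⁻¹ * s * σ ∈ N)

include hnK in
theorem stable_K : ∀ σ ∈ K.fixingSubgroup, ∀ x ∈ MK hKL N hNL, (σ : GQ) x ∈ MK hKL N hNL :=
  fun σ hσ x hx => stable_fixedField N F hF hnK σ hσ x hx

/-- `G_K → Gal(MK/K)`. -/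
noncomputable def resK : ↥K.fixingSubgroup →* (↥(MK hKL N hNL) ≃ₐ[↥K] ↥(MK hKL N hNL)) where
  toFun g :=
    { toFun := fun x => ⟨(g : GQ) x, stable_K hKL N hNL F hF hnK g g.2 x x.2⟩
      invFun := fun x => ⟨(g : GQ).symm x,
        stable_K hKL N hNL F hF hnK g⁻¹ (inv_mem g.2) x x.2⟩
      left_inv := fun x => Subtype.ext ((g : GQ).symm_apply_apply x)
      right_inv := fun x => Subtype.ext ((g : GQ).apply_symm_apply x)
      map_mul' := fun x y => Subtype.ext (map_mul (g : GQ) (x : Qbar) y)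
      map_add' := fun x y => Subtype.ext (map_add (g : GQ) (x : Qbar) y)
      commutes' := fun r => Subtype.ext
        ((IntermediateField.mem_fixingSubgroup_iff K _).1 g.2 (r : Qbar) r.2) }
  map_one' := AlgEquiv.ext fun _ => Subtype.ext rfl
  map_mul' _ _ := AlgEquiv.ext fun _ => Subtype.ext rfl

theorem resK_apply (g : ↥K.fixingSubgroup) (x : ↥(MK hKL N hNL)) :
    ((resK hKL N hNL F hF hnK g x : ↥(MK hKL N hNL)) : Qbar) = (g : GQ) x := rfl

/-- Conjugation by `g ∈ G_K`, pointwise (`= conjK (resK g) (resMK s)` of `ElemArtinEquiv23`). -/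
theorem resMK_conj_apply (g : ↥K.fixingSubgroup) (s : ↥L.fixingSubgroup)
    (hgs : (g : GQ) * s * (g : GQ)⁻¹ ∈ L.fixingSubgroup) (x : ↥(MK hKL N hNL)) :
    resMK hKL N hNL F hF hn ⟨(g : GQ) * s * (g : GQ)⁻¹, hgs⟩ x =
      resK hKL N hNL F hF hnK g
        (resMK hKL N hNL F hF hn s ((resK hKL N hNL F hF hnK g).symm x)) :=
  Subtype.ext rfl

end ResMK

end Fixed

/-! ### The hypotheses from "unramified outside `Sg`" and "trivial on decomposition groups over `Sg`" -/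

section Hyp

variable {L : IntermediateField ℚ Qbar} (N : Subgroup GQ)

/-- **(B4)**: the inertia hypothesis `hI` of (B2) with `G_M = N`. -/
theorem inertia_mem_of_unram_of_decomp {Sg : Finset Nat.Primes} (F : IntermediateField ℚ Qbar)
    (hFur : F.IsUnramifiedOutside Sg)
    (hFN : ∀ σ ∈ F.fixingSubgroup, σ ∈ L.fixingSubgroup → σ ∈ N)
    (hD : ∀ q ∈ Sg, ∀ (A : ValuationSubring Qbar), A.LiesOverPrime (q : ℕ) →
      ∀ σ ∈ A.decompositionSubgroup ℚ, σ ∈ L.fixingSubgroup → σ ∈ N)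
    (A : ValuationSubring Qbar) (q : ℕ) (hq : q.Prime) (hA : A.LiesOverPrime q) :
    ∀ σ ∈ A.inertiaSubgroupIn ℚ, σ ∈ L.fixingSubgroup → σ ∈ N := by
  intro σ hσ hσL
  by_cases hqS : (⟨q, hq⟩ : Nat.Primes) ∈ Sg
  · refine hD ⟨q, hq⟩ hqS A hA σ ?_ hσL
    obtain ⟨s, -, rfl⟩ := Subgroup.mem_map.1 hσ
    exact s.2
  · exact hFN σ (hFur.2 ⟨q, hq⟩ hqS A hA hσ) hσL

end Hyp

/-! ### Decomposition groups are conjugates of the image of the local Galois group -/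

open ExtCitation in
theorem exists_conj_range (q : Nat.Primes) (A : ValuationSubring Qbar)
    (hA : A.LiesOverPrime (q : ℕ)) :
    ∃ g : GQ, ∀ σ : GQ, σ ∈ A.decompositionSubgroup ℚ ↔
      g⁻¹ * σ * g ∈ (primeLocalToGlobal q).range := by
  obtain ⟨g, hg⟩ := PlacesConj16.placesConj_primes q A hA
  refine ⟨g, fun σ => ?_⟩
  rw [LocSurj16.range_eq_primes, ValuationSubring.decompositionSubgroup,
    ValuationSubring.decompositionSubgroup, MulAction.mem_stabilizer_iff,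
    MulAction.mem_stabilizer_iff, hg, mul_smul, mul_smul, inv_smul_eq_iff]

end Fermat.Agent.ES.T56.K2Bridge16
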