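/-
Programme T (S56), chapter GW-D, brick (K1a) of `T56_BASE28.md` (helper3): **extension of an
equivariant homomorphism by transfer.**

`Γ` a group, `N ⊴ Γ` with finite quotient whose order is invertible in `k` (`u * #(Γ/N) = 1`),
`ρ : Γ →* End_k Y`, and `χ : Γ → Y` (only its values on `N` matter) such that
`χ (a * b) = χ a + χ b` for `a, b ∈ N` and `χ (g * a * g⁻¹) = ρ g (χ a)` for `a ∈ N`, `g ∈ Γ`.
With `s : Γ/N → Γ` a set-theoretic section and `nu g x = g * s x * (s (g x))⁻¹ ∈ N`,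

  `ext u χ g = u • ∑ x : Γ ⧸ N, χ (nu g x)`      (`= (1/m) · cor χ`)

is a 1-cocycle on `Γ` (`ext_mul`) restricting to `χ` on `N` (`ext_of_mem`); it depends linearly on
`χ` (`ext_add`, `ext_smul`), is constant on cosets of any `v ∈ N` killed by `χ` (`ext_mul_of_apply_eq_zero`),
and if `N` acts trivially on `Y` and `ext u χ` is a coboundary then `χ` vanishes on `N`
(`apply_eq_zero_of_ext_coboundary`).  Mathlib only.
-/
import Mathlib

set_option autoImplicit false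
set_option linter.unusedSectionVars false

namespace Fermat.Agent.ES.T56.TransferExt3

variable {Γ : Type*} [Group Γ] (N : Subgroup Γ) [hN : N.Normal]

/-- A set-theoretic section of `Γ → Γ ⧸ N`. -/
noncomputable def sec (x : Γ ⧸ N) : Γ := Quotient.out x

theorem mk_sec (x : Γ ⧸ N) : (QuotientGroup.mk (sec N x) : Γ ⧸ N) = x :=
  QuotientGroup.out_eq' x

/-- `nu g x = g * s x * (s (g x))⁻¹`, an element of `N`. -/
noncomputable def nu (g : Γ) (x : Γ ⧸ N) : Γ :=
  g * sec N x * (sec N ((g : Γ ⧸ N) * x))⁻¹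

theorem nu_mem (g : Γ) (x : Γ ⧸ N) : nu N g x ∈ N := by
  rw [← QuotientGroup.eq_one_iff, nu, QuotientGroup.mk_mul, QuotientGroup.mk_mul,
    QuotientGroup.mk_inv, mk_sec, mk_sec, mul_inv_cancel]

/-- The cocycle relation of `nu`. -/
theorem nu_mul (g h : Γ) (x : Γ ⧸ N) :
    nu N (g * h) x = g * nu N h x * g⁻¹ * nu N g ((h : Γ ⧸ N) * x) := by
  unfold nu
  rw [QuotientGroup.mk_mul, mul_assoc ((g : Γ ⧸ N))]
  group

theorem nu_of_mem {g : Γ} (hg : g ∈ N) (x : Γ ⧸ N) : nu N g x = g := by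
  have h1 : (g : Γ ⧸ N) = 1 := (QuotientGroup.eq_one_iff g).mpr hg
  unfold nu
  rw [h1, one_mul, mul_assoc, mul_inv_cancel, mul_one]

theorem conj_mem {g a : Γ} (ha : a ∈ N) : g * a * g⁻¹ ∈ N := hN.conj_mem a ha g

variable [Fintype (Γ ⧸ N)] {k : Type*} [CommRing k] {Y : Type*} [AddCommGroup Y] [Module k Y]

/-- **The transfer extension** `(1/m) · cor χ`. -/
noncomputable def ext (u : k) (χ : Γ → Y) (g : Γ) : Y :=
  u • ∑ x : Γ ⧸ N, χ (nu N g x)

theorem ext_add (u : k) (χ χ' : Γ → Y) (g : Γ) :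
    ext N u (χ + χ') g = ext N u χ g + ext N u χ' g := by
  unfold ext
  simp only [Pi.add_apply]
  rw [Finset.sum_add_distrib, smul_add]

theorem ext_smul (u a : k) (χ : Γ → Y) (g : Γ) :
    ext N u (a • χ) g = a • ext N u χ g := by
  unfold ext
  simp only [Pi.smul_apply]
  rw [← Finset.smul_sum, smul_comm]

theorem ext_zero (u : k) (g : Γ) : ext N u (0 : Γ → Y) g = 0 := by
  unfold ext
  simp

variable (ρ : Γ →* Module.End k Y)

/-- **The cocycle identity.** -/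
theorem ext_mul (u : k) (χ : Γ → Y)
    (hadd : ∀ a ∈ N, ∀ b ∈ N, χ (a * b) = χ a + χ b)
    (hconj : ∀ g : Γ, ∀ a ∈ N, χ (g * a * g⁻¹) = ρ g (χ a)) (g h : Γ) :
    ext N u χ (g * h) = ext N u χ g + ρ g (ext N u χ h) := by
  unfold ext
  have h1 : ∀ x : Γ ⧸ N, χ (nu N (g * h) x) =
      ρ g (χ (nu N h x)) + χ (nu N g ((h : Γ ⧸ N) * x)) := by
    intro x
    rw [nu_mul, hadd _ (conj_mem N (nu_mem N h x)) _ (nu_mem N g _), hconj g _ (nu_mem N h x)]
  rw [Finset.sum_congr rfl (fun x _ => h1 x), Finset.sum_add_distrib, ← map_sum, smul_add,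
    map_smul, add_comm]
  congr 2
  exact Fintype.sum_equiv (Equiv.mulLeft (h : Γ ⧸ N)) _ _ (fun x => rfl)

/-- **Restriction to `N`.** -/
theorem ext_of_mem (u : k) (hu : u * (Fintype.card (Γ ⧸ N) : k) = 1) (χ : Γ → Y) {g : Γ}
    (hg : g ∈ N) : ext N u χ g = χ g := by
  unfold ext
  rw [Finset.sum_congr rfl (fun x _ => by rw [nu_of_mem N hg x]), Finset.sum_const,
    Finset.card_univ, ← Nat.cast_smul_eq_nsmul k, smul_smul, hu, one_smul]

/-- `ext` vanishes at `1`. -/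
theorem ext_one (u : k) (χ : Γ → Y)
    (hadd : ∀ a ∈ N, ∀ b ∈ N, χ (a * b) = χ a + χ b)
    (hconj : ∀ g : Γ, ∀ a ∈ N, χ (g * a * g⁻¹) = ρ g (χ a)) : ext N u χ 1 = 0 := by
  have h := ext_mul N ρ u χ hadd hconj 1 1
  rw [mul_one, map_one, Module.End.one_apply] at h
  exact left_eq_add.mp h

/-- **Level.** `ext` is constant on the cosets `g * v`, `v ∈ N` killed by `χ`. -/
theorem ext_mul_of_apply_eq_zero (u : k) (hu : u * (Fintype.card (Γ ⧸ N) : k) = 1) (χ : Γ → Y)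
    (hadd : ∀ a ∈ N, ∀ b ∈ N, χ (a * b) = χ a + χ b)
    (hconj : ∀ g : Γ, ∀ a ∈ N, χ (g * a * g⁻¹) = ρ g (χ a)) (g : Γ) {v : Γ} (hv : v ∈ N)
    (hχv : χ v = 0) : ext N u χ (g * v) = ext N u χ g := by
  rw [ext_mul N ρ u χ hadd hconj, ext_of_mem N u hu χ hv, hχv, map_zero, add_zero]

/-- **Injectivity on classes.** If `N` acts trivially on `Y` and `ext u χ` is a coboundary, then `χ`
vanishes on `N`. -/
theorem apply_eq_zero_of_ext_coboundary (u : k) (hu : u * (Fintype.card (Γ ⧸ N) : k) = 1)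
    (χ : Γ → Y) (htriv : ∀ a ∈ N, ρ a = 1) (y : Y) (hy : ∀ g : Γ, ext N u χ g = ρ g y - y)
    {a : Γ} (ha : a ∈ N) : χ a = 0 := by
  rw [← ext_of_mem N u hu χ ha, hy a, htriv a ha, Module.End.one_apply, sub_self]

end Fermat.Agent.ES.T56.TransferExt3
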