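/-
Programme T (S56), chapter GW-D, brick (K2a) of `T56_BASE28.md` (helper3), file 1 (Mathlib +
`TransferExt3` only): the averaging argument `H¹(Γ/N, Y) = 0` for `#(Γ/N)` invertible, in the form
needed for the injectivity of restriction `H¹(Γ, Y) → Hom_Γ(N, Y)`.

`ρ : Γ →* End_k Y`, `N ⊴ Γ` of finite index `m` with `u * m = 1` in `k`, `N` acting trivially on
`Y`, `c : Γ → Y` a 1-cocycle in Mathlib's convention `c (g * h) = ρ g (c h) + c g`.

* `apply_mul_of_mem` : `c (g * a) = ρ g (c a) + c g`; `conj` : `c (g a g⁻¹) = ρ g (c a)` for `a ∈ N`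
  (so `c|_N` is an equivariant additive map);
* **`exists_coboundary_of_apply_eq_zero`** : if `c` vanishes on `N` then `c g = ρ g y - y` for
  `y = -(1/m) Σ_{x ∈ Γ/N} c (s x)`.
-/
import Mathlib
import Fermat.Agent.ES.T56.TransferExt3

set_option autoImplicit false
set_option linter.unusedSectionVars false

namespace Fermat.Agent.ES.T56.RestrictAvg3

open Fermat.Agent.ES.T56.TransferExt3

variable {Γ : Type*} [Group Γ] (N : Subgroup Γ) [hN : N.Normal]
  {k : Type*} [CommRing k] {Y : Type*} [AddCommGroup Y] [Module k Y] (ρ : Γ →* Module.End k Y)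
  (c : Γ → Y) (hc : ∀ g h : Γ, c (g * h) = ρ g (c h) + c g)

include hc in
theorem apply_one : c 1 = 0 := by
  have h := hc 1 1
  rw [mul_one, map_one, Module.End.one_apply] at h
  exact left_eq_add.mp h

include hc in
theorem apply_inv (g : Γ) : ρ g (c g⁻¹) = -c g := by
  have h := hc g g⁻¹
  rw [mul_inv_cancel, apply_one ρ c hc] at h
  exact eq_neg_of_add_eq_zero_left h.symm

include hc in
/-- On `N` (acting trivially) a cocycle is additive. -/
theorem apply_mul_of_mem (htriv : ∀ a ∈ N, ρ a = 1) {a : Γ} (ha : a ∈ N) (b : Γ) :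
    c (a * b) = c a + c b := by
  rw [hc, htriv a ha, Module.End.one_apply, add_comm]

include hc in
/-- On `N` (acting trivially) a cocycle is equivariant for conjugation. -/
theorem apply_conj (htriv : ∀ a ∈ N, ρ a = 1) (g : Γ) {a : Γ} (ha : a ∈ N) :
    c (g * a * g⁻¹) = ρ g (c a) := by
  have h1 : ρ (g * a * g⁻¹) = 1 := htriv _ (hN.conj_mem a ha g)
  have h2 : c (g * a * g⁻¹) = ρ (g * a) (c g⁻¹) + c (g * a) := hc (g * a) g⁻¹
  have h3 : ρ (g * a) (c g⁻¹) = -c g := by
    have : ρ (g * a) (c g⁻¹) = ρ (g * a * g⁻¹) (ρ g (c g⁻¹)) := by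
      rw [← Module.End.mul_apply, ← map_mul, inv_mul_cancel_right]
    rw [this, h1, Module.End.one_apply, apply_inv ρ c hc]
  rw [h2, h3, hc g a]
  abel

include hc in
/-- A cocycle vanishing on `N` is constant on the cosets `n * g`, `n ∈ N`. -/
theorem apply_mul_left_of_eq_zero (htriv : ∀ a ∈ N, ρ a = 1) (h0 : ∀ a ∈ N, c a = 0) {a : Γ}
    (ha : a ∈ N) (g : Γ) : c (a * g) = c g := by
  rw [apply_mul_of_mem N ρ c hc htriv ha, h0 a ha, zero_add]

variable [Fintype (Γ ⧸ N)]

include hc in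
/-- **Averaging**: a cocycle vanishing on `N` (which acts trivially, of index invertible in `k`) is a
coboundary. -/
theorem exists_coboundary_of_apply_eq_zero (u : k) (hu : u * (Fintype.card (Γ ⧸ N) : k) = 1)
    (htriv : ∀ a ∈ N, ρ a = 1) (h0 : ∀ a ∈ N, c a = 0) :
    ∃ y : Y, ∀ g : Γ, c g = ρ g y - y := by
  refine ⟨-(u • ∑ x : Γ ⧸ N, c (sec N x)), fun g => ?_⟩
  have h1 : ∀ x : Γ ⧸ N, ρ g (c (sec N x)) = c (sec N ((g : Γ ⧸ N) * x)) - c g := by
    intro x
    have e : g * sec N x = nu N g x * sec N ((g : Γ ⧸ N) * x) := by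
      unfold nu
      rw [inv_mul_cancel_right]
    have h2 : c (g * sec N x) = c (sec N ((g : Γ ⧸ N) * x)) := by
      rw [e]
      exact apply_mul_left_of_eq_zero N ρ c hc htriv h0 (nu_mem N g x) _
    rw [← h2, hc g (sec N x)]
    abel
  have h3 : ∑ x : Γ ⧸ N, c (sec N ((g : Γ ⧸ N) * x)) = ∑ x : Γ ⧸ N, c (sec N x) :=
    Fintype.sum_equiv (Equiv.mulLeft (g : Γ ⧸ N)) _ _ (fun x => rfl)
  have h4 : ρ g (u • ∑ x : Γ ⧸ N, c (sec N x)) = u • ∑ x : Γ ⧸ N, c (sec N x) - c g := by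
    rw [map_smul, map_sum, Finset.sum_congr rfl (fun x _ => h1 x), Finset.sum_sub_distrib, h3,
      Finset.sum_const, Finset.card_univ, smul_sub, ← Nat.cast_smul_eq_nsmul k, smul_smul, hu,
      one_smul]
  rw [map_neg, h4]
  abel

end Fermat.Agent.ES.T56.RestrictAvg3
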