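/-
Programme T (S56), chapter GW-D, brick (K1a) of `T56_BASE28.md` (helper3), second file: the transfer
extension of `TransferExt3` packaged for Mathlib's `Rep` / `cocycles₁` / `H1`.

`A : Rep k Γ`, `N ⊴ Γ` with `[Fintype (Γ ⧸ N)]` and `u * #(Γ/N) = 1` in `k`.

* `EqHom N A : Submodule k (↥N → A)` : the additive maps `χ : N → A` with `χ (g a g⁻¹) = g • χ a`
  for all `g : Γ`;
* `extend0 N χ : Γ → A` : extension by zero (linear in `χ`);
* **`extCoc N A u hu : EqHom N A →ₗ[k] cocycles₁ A`**, `χ ↦ (1/m) · cor χ`, with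
  `extCoc_apply_of_mem` (restriction to `N` is `χ`), `extCoc_apply_mul_of_eq_zero` (level);
* **`H1π_extCoc_injective`** : if `N` acts trivially on `A` then `χ ↦ [extCoc χ] : EqHom N A → H1 A`
  is injective; `finrank_eqHom_le` : `dim EqHom N A ≤ dim W` for any submodule `W ≤ H1 A` containing
  all the classes `[extCoc χ]`.
-/
import Mathlib
import Fermat.Agent.ES.T56.TransferExt3

set_option autoImplicit false
set_option linter.unusedSectionVars false

open CategoryTheory groupCohomology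

namespace Fermat.Agent.ES.T56.TransferExtRep3

open Fermat.Agent.ES.T56.TransferExt3

universe u

variable {k Γ : Type u} [CommRing k] [Group Γ] (N : Subgroup Γ) [hN : N.Normal] (A : Rep k Γ)

/-- Additive, `Γ`-equivariant maps `N → A`. -/
def EqHom : Submodule k (↥N → A) where
  carrier := {χ | (∀ a b : ↥N, χ (a * b) = χ a + χ b) ∧
    ∀ (g : Γ) (a : ↥N), χ ⟨g * a * g⁻¹, hN.conj_mem a a.2 g⟩ = A.ρ g (χ a)}
  add_mem' := by
    rintro χ χ' ⟨h1, h2⟩ ⟨h1', h2'⟩
    refine ⟨fun a b => ?_, fun g a => ?_⟩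
    · simp only [Pi.add_apply, h1, h1']
      abel
    · simp only [Pi.add_apply, h2, h2', map_add]
  zero_mem' := ⟨fun _ _ => by simp, fun _ _ => by simp⟩
  smul_mem' := by
    rintro c χ ⟨h1, h2⟩
    refine ⟨fun a b => ?_, fun g a => ?_⟩
    · simp only [Pi.smul_apply, h1, smul_add]
    · simp only [Pi.smul_apply, h2, map_smul]

theorem mem_EqHom {χ : ↥N → A} : χ ∈ EqHom N A ↔ (∀ a b : ↥N, χ (a * b) = χ a + χ b) ∧
    ∀ (g : Γ) (a : ↥N), χ ⟨g * a * g⁻¹, hN.conj_mem a a.2 g⟩ = A.ρ g (χ a) := Iff.rfl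

open Classical in
/-- Extension by zero of a function on `N`, linear in the function. -/
noncomputable def extend0 : (↥N → A) →ₗ[k] (Γ → A) where
  toFun χ g := if h : g ∈ N then χ ⟨g, h⟩ else 0
  map_add' χ χ' := by
    funext g
    by_cases h : g ∈ N <;> simp [h]
  map_smul' c χ := by
    funext g
    by_cases h : g ∈ N <;> simp [h]

theorem extend0_of_mem (χ : ↥N → A) {g : Γ} (h : g ∈ N) : extend0 N A χ g = χ ⟨g, h⟩ := by
  unfold extend0
  simp only [LinearMap.coe_mk, AddHom.coe_mk, dif_pos h]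

theorem extend0_add_of_mem {χ : ↥N → A} (hχ : χ ∈ EqHom N A) :
    ∀ a ∈ N, ∀ b ∈ N, extend0 N A χ (a * b) = extend0 N A χ a + extend0 N A χ b := by
  intro a ha b hb
  rw [extend0_of_mem N A χ ha, extend0_of_mem N A χ hb, extend0_of_mem N A χ (N.mul_mem ha hb)]
  exact hχ.1 ⟨a, ha⟩ ⟨b, hb⟩

theorem extend0_conj_of_mem {χ : ↥N → A} (hχ : χ ∈ EqHom N A) :
    ∀ g : Γ, ∀ a ∈ N, extend0 N A χ (g * a * g⁻¹) = A.ρ g (extend0 N A χ a) := by
  intro g a ha
  rw [extend0_of_mem N A χ ha, extend0_of_mem N A χ (hN.conj_mem a ha g)]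
  exact hχ.2 g ⟨a, ha⟩

variable [Fintype (Γ ⧸ N)] (u : k) (hu : u * (Fintype.card (Γ ⧸ N) : k) = 1)

/-- **The transfer extension as a linear map into the 1-cocycles.** -/
noncomputable def extCoc : ↥(EqHom N A) →ₗ[k] ↥(cocycles₁ A) where
  toFun χ := ⟨fun g => ext N u (extend0 N A χ.1) g, by
    rw [mem_cocycles₁_iff]
    intro g h
    rw [ext_mul N A.ρ u _ (extend0_add_of_mem N A χ.2) (extend0_conj_of_mem N A χ.2), add_comm]⟩
  map_add' χ χ' := by
    apply Subtype.ext
    funext g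
    show ext N u (extend0 N A (χ.1 + χ'.1)) g = _
    rw [map_add, ext_add]
    rfl
  map_smul' c χ := by
    apply Subtype.ext
    funext g
    show ext N u (extend0 N A (c • χ.1)) g = _
    rw [map_smul, ext_smul]
    rfl

theorem extCoc_apply (χ : ↥(EqHom N A)) (g : Γ) :
    (extCoc N A u χ : Γ → A) g = ext N u (extend0 N A χ.1) g := rfl

include hu in
/-- The restriction of `extCoc χ` to `N` is `χ`. -/
theorem extCoc_apply_of_mem (χ : ↥(EqHom N A)) (a : ↥N) :
    (extCoc N A u χ : Γ → A) a = χ.1 a := by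
  rw [extCoc_apply, ext_of_mem N u hu _ a.2, extend0_of_mem N A χ.1 a.2]

include hu in
/-- **Level**: `extCoc χ` is constant on the cosets `g * v`, `v ∈ N` killed by `χ`. -/
theorem extCoc_apply_mul_of_eq_zero (χ : ↥(EqHom N A)) (g : Γ) (v : ↥N) (hv : χ.1 v = 0) :
    (extCoc N A u χ : Γ → A) (g * v) = (extCoc N A u χ : Γ → A) g := by
  rw [extCoc_apply, extCoc_apply]
  apply ext_mul_of_apply_eq_zero N A.ρ u hu _ (extend0_add_of_mem N A χ.2)
    (extend0_conj_of_mem N A χ.2) g v.2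
  rw [extend0_of_mem N A χ.1 v.2]
  exact hv

include hu in
/-- **Injectivity on classes** when `N` acts trivially. -/
theorem H1π_extCoc_injective (htriv : ∀ a ∈ N, A.ρ a = 1) :
    Function.Injective ((H1π A).hom ∘ₗ extCoc N A u) := by
  rw [← LinearMap.ker_eq_bot, LinearMap.ker_eq_bot']
  intro χ hχ
  rw [LinearMap.comp_apply, H1π_eq_zero_iff] at hχ
  obtain ⟨y, hy⟩ := hχ
  apply Subtype.ext
  funext a
  have h1 : ∀ g : Γ, ext N u (extend0 N A χ.1) g = A.ρ g y - y := by
    intro g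
    have h2 := congrFun hy g
    rw [d₀₁_hom_apply] at h2
    rw [h2]
    rfl
  have h3 := apply_eq_zero_of_ext_coboundary N A.ρ u hu (extend0 N A χ.1) htriv y h1 a.2
  rw [extend0_of_mem N A χ.1 a.2] at h3
  exact h3

section Field

variable {K Γ' : Type u} [Field K] [Group Γ'] (N' : Subgroup Γ') [N'.Normal]
  [Fintype (Γ' ⧸ N')] (B : Rep K Γ')

/-- The dimension count: `dim EqHom N B ≤ dim W` whenever `W ≤ H1 B` contains all the classes
`[extCoc χ]` (over a field, `N` acting trivially on `B`). -/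
theorem finrank_eqHom_le (u' : K) (hu' : u' * (Fintype.card (Γ' ⧸ N') : K) = 1)
    (htriv : ∀ a ∈ N', B.ρ a = 1) (W : Submodule K (H1 B)) [FiniteDimensional K ↥W]
    (hW : ∀ χ : ↥(EqHom N' B), (H1π B).hom (extCoc N' B u' χ) ∈ W) :
    FiniteDimensional K ↥(EqHom N' B) ∧
      Module.finrank K ↥(EqHom N' B) ≤ Module.finrank K ↥W := by
  let f : ↥(EqHom N' B) →ₗ[K] ↥W :=
    ((H1π B).hom ∘ₗ extCoc N' B u').codRestrict W hW
  have hf : Function.Injective f := by
    intro χ χ' h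
    apply H1π_extCoc_injective N' B u' hu' htriv
    exact congrArg Subtype.val h
  exact ⟨FiniteDimensional.of_injective f hf, LinearMap.finrank_le_finrank_of_injective hf⟩

/-- The inverse of the index, over a field in which it is nonzero. -/
theorem exists_inv_card (h : (Fintype.card (Γ' ⧸ N') : K) ≠ 0) :
    ∃ u' : K, u' * (Fintype.card (Γ' ⧸ N') : K) = 1 :=
  ⟨((Fintype.card (Γ' ⧸ N') : K))⁻¹, inv_mul_cancel₀ h⟩

end Field

end Fermat.Agent.ES.T56.TransferExtRep3
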