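/-
Programme T (S56), chapter GW-D, brick (K1a) of `T56_BASE28.md` (helper3), third file: the transfer
extension in PRO's LEVEL cohomology `LevelCoh28.H1 𝓑 A` (the target of `BaseShapiro22.h1S_rep`).

`G` a group with a level basis `𝓑`, `A : Rep k G`, `N ⊴ G` with `[Fintype (G ⧸ N)]`,
`u * #(G/N) = 1`, `N` acting trivially on `A`, and `V ∈ 𝓑.sets`, `V ≤ N`.

* `EqHomV N V A : Submodule k ↥(EqHom N A)` : the equivariant additive maps `χ : N → A` killing `V`;
* `levelCoc : EqHomV N V A →ₗ[k] Z1 𝓑 A` : `χ ↦ (1/m) · cor χ`, a LEVEL cocycle (invariant under `V`);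
* **`levelClass_injective`** : `χ ↦ [levelCoc χ] : EqHomV N V A → H1 𝓑 A` is injective;
* **`finrank_eqHomV_le`** : over a field, `dim EqHomV N V A ≤ dim H1 𝓑 A` (when the latter is finite).
-/
import Mathlib
import Fermat.Agent.PT.PRO.LevelCoh28
import Fermat.Agent.ES.T56.TransferExtRep3

set_option autoImplicit false
set_option linter.unusedSectionVars false

open CategoryTheory groupCohomology

namespace Fermat.Agent.ES.T56.TransferLevel3

open Fermat.Agent.PT.PRO.LevelCoh28 Fermat.Agent.ES.T56.TransferExt3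
  Fermat.Agent.ES.T56.TransferExtRep3

universe u

variable {k G : Type u} [CommRing k] [Group G] (N : Subgroup G) [hN : N.Normal] (V : Subgroup G)
  (A : Rep.{u} k G)

/-- The equivariant additive maps `N → A` which kill `V`. -/
def EqHomV : Submodule k ↥(EqHom N A) where
  carrier := {χ | ∀ v : ↥N, (v : G) ∈ V → χ.1 v = 0}
  add_mem' := by
    intro χ χ' h h' v hv
    show χ.1 v + χ'.1 v = 0
    rw [h v hv, h' v hv, add_zero]
  zero_mem' := fun _ _ => rfl
  smul_mem' := by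
    intro c χ h v hv
    show c • χ.1 v = 0
    rw [h v hv, smul_zero]

theorem mem_EqHomV {χ : ↥(EqHom N A)} :
    χ ∈ EqHomV N V A ↔ ∀ v : ↥N, (v : G) ∈ V → χ.1 v = 0 := Iff.rfl

variable [Fintype (G ⧸ N)] (u : k) (hu : u * (Fintype.card (G ⧸ N) : k) = 1) (𝓑 : LevelBasis G)

include hu in
/-- The transfer extension of `χ ∈ EqHomV` is a level cocycle. -/
theorem extCoc_mem_Z1 (hV : V ∈ 𝓑.sets) (hVN : V ≤ N) (χ : ↥(EqHomV N V A)) :
    ((extCoc N A u χ.1 : ↥(cocycles₁ A)) : G → A) ∈ Z1 𝓑 A := by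
  refine ⟨(extCoc N A u χ.1).2, V, hV, fun g s hs => ?_⟩
  exact extCoc_apply_mul_of_eq_zero N A u hu χ.1 g ⟨s, hVN hs⟩ (χ.2 ⟨s, hVN hs⟩ hs)

/-- **The transfer extension as a linear map into the level cocycles.** -/
noncomputable def levelCoc (hV : V ∈ 𝓑.sets) (hVN : V ≤ N) :
    ↥(EqHomV N V A) →ₗ[k] ↥(Z1 𝓑 A) where
  toFun χ := ⟨_, extCoc_mem_Z1 N V A u hu 𝓑 hV hVN χ⟩
  map_add' χ χ' := by
    apply Subtype.ext
    show ((extCoc N A u (χ.1 + χ'.1) : ↥(cocycles₁ A)) : G → A) = _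
    rw [map_add]
    rfl
  map_smul' c χ := by
    apply Subtype.ext
    show ((extCoc N A u (c • χ.1) : ↥(cocycles₁ A)) : G → A) = _
    rw [map_smul]
    rfl

theorem levelCoc_apply (hV : V ∈ 𝓑.sets) (hVN : V ≤ N) (χ : ↥(EqHomV N V A)) (g : G) :
    (levelCoc N V A u hu 𝓑 hV hVN χ : G → A) g = (extCoc N A u χ.1 : G → A) g := rfl

/-- **Injectivity on level classes.** -/
theorem levelClass_injective (hV : V ∈ 𝓑.sets) (hVN : V ≤ N) (htriv : ∀ a ∈ N, A.ρ a = 1) :
    Function.Injective (H1mk 𝓑 A ∘ₗ levelCoc N V A u hu 𝓑 hV hVN) := by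
  rw [injective_iff_map_eq_zero]
  intro χ hχ
  rw [LinearMap.comp_apply, H1mk_eq_zero_iff] at hχ
  have h1 : (H1π A).hom (extCoc N A u χ.1) = 0 := by
    rw [H1π_eq_zero_iff]
    exact hχ
  have h2 : ((H1π A).hom ∘ₗ extCoc N A u) χ.1 = ((H1π A).hom ∘ₗ extCoc N A u) 0 := by
    rw [LinearMap.comp_apply, h1, map_zero]
  exact Subtype.ext (H1π_extCoc_injective N A u hu htriv h2)

section Field

variable {K G' : Type u} [Field K] [Group G'] (N' : Subgroup G') [N'.Normal] (V' : Subgroup G')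
  (B : Rep.{u} K G') [Fintype (G' ⧸ N')] (𝓑' : LevelBasis G')

/-- **The dimension count**: `dim EqHomV N V B ≤ dim H1 𝓑 B`. -/
theorem finrank_eqHomV_le (u' : K) (hu' : u' * (Fintype.card (G' ⧸ N') : K) = 1)
    (hV : V' ∈ 𝓑'.sets) (hVN : V' ≤ N') (htriv : ∀ a ∈ N', B.ρ a = 1)
    [FiniteDimensional K (H1 𝓑' B)] :
    FiniteDimensional K ↥(EqHomV N' V' B) ∧
      Module.finrank K ↥(EqHomV N' V' B) ≤ Module.finrank K (H1 𝓑' B) := by
  have hf := levelClass_injective N' V' B u' hu' 𝓑' hV hVN htriv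
  exact ⟨FiniteDimensional.of_injective _ hf, LinearMap.finrank_le_finrank_of_injective hf⟩

end Field

end Fermat.Agent.ES.T56.TransferLevel3
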