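/-
Programme T (S56), chapter GW-D, brick (K2a) of `T56_BASE28.md` (helper3), file 2: restriction of
level classes to a normal subgroup acting trivially.

`G` a group with a level basis `𝓑`, `A : Rep k G`, `N ⊴ G` acting trivially on `A`.

* `resFun N A : (G → A) →ₗ[k] (↥N → A)`; `resFun_mem_EqHom` (a cocycle restricts to an equivariant
  additive map), `resFun_eq_zero_of_mem_coboundaries₁`;
* **`resLevel N A 𝓑 htriv : H1 𝓑 A →ₗ[k] ↥(EqHom N A)`**, `resLevel_mk`;
* `exists_level_resLevel` : the restricted map kills `V ∩ N` for some `V ∈ 𝓑.sets`;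
* **`resLevel_injective`** : for `[Fintype (G ⧸ N)]` with `u * #(G/N) = 1` in `k`;
* `resLevel_levelCoc` : `resLevel` is a retraction of `TransferLevel3.levelCoc` (so both are
  isomorphisms onto / from the level equivariant maps).
-/
import Mathlib
import Fermat.Agent.PT.PRO.LevelCoh28
import Fermat.Agent.ES.T56.TransferLevel3
import Fermat.Agent.ES.T56.RestrictAvg3

set_option autoImplicit false
set_option linter.unusedSectionVars false

open CategoryTheory groupCohomology

namespace Fermat.Agent.ES.T56.RestrictLevel3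

open Fermat.Agent.PT.PRO.LevelCoh28 Fermat.Agent.ES.T56.TransferExt3
  Fermat.Agent.ES.T56.TransferExtRep3 Fermat.Agent.ES.T56.TransferLevel3
  Fermat.Agent.ES.T56.RestrictAvg3

universe u

variable {k G : Type u} [CommRing k] [Group G] (N : Subgroup G) [hN : N.Normal]
  (A : Rep.{u} k G)

/-- Restriction of functions to `N`. -/
def resFun : (G → A) →ₗ[k] (↥N → A) where
  toFun f n := f (n : G)
  map_add' _ _ := rfl
  map_smul' _ _ := rfl

theorem resFun_apply (f : G → A) (n : ↥N) : resFun N A f n = f (n : G) := rfl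

theorem cocycle_rel {f : G → A} (hf : f ∈ cocycles₁ A) :
    ∀ g h : G, f (g * h) = A.ρ g (f h) + f g := (mem_cocycles₁_iff f).mp hf

/-- A cocycle restricts to an equivariant additive map on `N`. -/
theorem resFun_mem_EqHom (htriv : ∀ a ∈ N, A.ρ a = 1) {f : G → A} (hf : f ∈ cocycles₁ A) :
    resFun N A f ∈ EqHom N A := by
  refine ⟨fun a b => ?_, fun g a => ?_⟩
  · exact apply_mul_of_mem N A.ρ f (cocycle_rel A hf) htriv a.2 b
  · exact apply_conj N A.ρ f (cocycle_rel A hf) htriv g a.2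

/-- A coboundary restricts to zero on `N`. -/
theorem resFun_eq_zero_of_mem_coboundaries₁ (htriv : ∀ a ∈ N, A.ρ a = 1) {f : G → A}
    (hf : f ∈ coboundaries₁ A) : resFun N A f = 0 := by
  obtain ⟨y, rfl⟩ := hf
  funext n
  rw [resFun_apply, d₀₁_hom_apply, htriv n n.2, Module.End.one_apply, sub_self]
  rfl

variable (𝓑 : LevelBasis G)

/-- Restriction of level cocycles to `N`. -/
def resZ1 (htriv : ∀ a ∈ N, A.ρ a = 1) : ↥(Z1 𝓑 A) →ₗ[k] ↥(EqHom N A) :=
  LinearMap.codRestrict (EqHom N A) (resFun N A ∘ₗ (Z1 𝓑 A).subtype)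
    (fun c => resFun_mem_EqHom N A htriv c.2.1)

/-- **Restriction of level classes to `N`.** -/
def resLevel (htriv : ∀ a ∈ N, A.ρ a = 1) : H1 𝓑 A →ₗ[k] ↥(EqHom N A) :=
  Submodule.liftQ _ (resZ1 N A 𝓑 htriv) (by
    intro c hc
    rw [Submodule.mem_comap] at hc
    rw [LinearMap.mem_ker]
    apply Subtype.ext
    exact resFun_eq_zero_of_mem_coboundaries₁ N A htriv hc)

theorem resLevel_mk (htriv : ∀ a ∈ N, A.ρ a = 1) (c : ↥(Z1 𝓑 A)) (n : ↥N) :
    (resLevel N A 𝓑 htriv (H1mk 𝓑 A c) : ↥N → A) n = (c : G → A) (n : G) := rfl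

/-- The restriction of a level class kills `V ∩ N` for some level `V`. -/
theorem exists_level_resLevel (htriv : ∀ a ∈ N, A.ρ a = 1) (x : H1 𝓑 A) :
    ∃ V ∈ 𝓑.sets, ∀ n : ↥N, (n : G) ∈ V → (resLevel N A 𝓑 htriv x : ↥N → A) n = 0 := by
  obtain ⟨c, rfl⟩ := H1mk_surjective 𝓑 A x
  obtain ⟨V, hV, hinv⟩ := c.2.2
  refine ⟨V, hV, fun n hn => ?_⟩
  rw [resLevel_mk]
  have h1 := hinv 1 (n : G) hn
  rw [one_mul] at h1
  rw [h1]
  exact apply_one A.ρ _ (cocycle_rel A c.2.1)

variable [Fintype (G ⧸ N)] (u : k) (hu : u * (Fintype.card (G ⧸ N) : k) = 1)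

include hu in
/-- **Restriction to `N` is injective on level classes** (`#(G/N)` invertible, `N` acting
trivially). -/
theorem resLevel_injective (htriv : ∀ a ∈ N, A.ρ a = 1) :
    Function.Injective (resLevel N A 𝓑 htriv) := by
  rw [injective_iff_map_eq_zero]
  intro x hx
  obtain ⟨c, rfl⟩ := H1mk_surjective 𝓑 A x
  rw [H1mk_eq_zero_iff]
  have h0 : ∀ a ∈ N, (c : G → A) a = 0 := by
    intro a ha
    have := congrArg (fun χ : ↥(EqHom N A) => (χ : ↥N → A) ⟨a, ha⟩) hx
    exact this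
  obtain ⟨y, hy⟩ := exists_coboundary_of_apply_eq_zero N A.ρ _ (cocycle_rel A c.2.1) u hu htriv h0
  refine ⟨y, ?_⟩
  funext g
  rw [d₀₁_hom_apply, hy g]

include hu in
/-- `resLevel` is a retraction of the transfer extension `levelCoc`. -/
theorem resLevel_levelCoc (V : Subgroup G) (hV : V ∈ 𝓑.sets) (hVN : V ≤ N)
    (htriv : ∀ a ∈ N, A.ρ a = 1) (χ : ↥(EqHomV N V A)) :
    resLevel N A 𝓑 htriv (H1mk 𝓑 A (levelCoc N V A u hu 𝓑 hV hVN χ)) = χ.1 := by
  apply Subtype.ext
  funext n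
  rw [resLevel_mk, levelCoc_apply]
  exact extCoc_apply_of_mem N A u hu χ.1 n

end Fermat.Agent.ES.T56.RestrictLevel3
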