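/-
Programme T (S56), chapter GW-D, brick (K2a) of `T56_BASE28.md` (helper3), file 3: for a base datum
`D` (`K ≤ L`, `Y` a `G_K`-module trivial on `G_L`, `p ∤ [G_K : G_L]`), the classes of
`Ш¹_{Sg}(G_ℚ, Coind_{G_K}^{G_ℚ} Y)` restrict INJECTIVELY to `G_K`-equivariant level homomorphisms
`χ : G_L → Y` which kill every `G_L ∩ g D_q g⁻¹` (`q ∈ Sg`, `g ∈ G_ℚ`, `D_q` the image of
`primeLocalToGlobal q`).

* `coind_eval_conj_eq_zero` (abstract): a cocycle `c : G → Coind X` which is the coboundary of `m`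
  at `s` satisfies `(c (g s g⁻¹))(1) = 0` when `g s g⁻¹ = i n` with `n` acting trivially on `X`;
* `NL D` (`= G_L` in `G_K`), `normal_NL`, `triv_NL`, `finiteIndex_NL`, `fintypeQuotNL`,
  `exists_inv_card` (`#(G_K/G_L)` invertible in `𝔽_p`);
* **`shaRes D : ↥(sha₁ Sg D.rep) →ₗ ↥(EqHom (NL D) D.Y)`** (`= resLevel ∘ shapiroH1S`),
  **`shaRes_injective`**, `exists_rep` (cocycle formula `shaRes x n = (c n)(1)`),
  `shaRes_level`, **`shaRes_decomp`**;
* `ShaHom D : Submodule _ ↥(EqHom (NL D) D.Y)`, **`shaRes_mem_ShaHom`**, `range_shaRes_le`,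
  `shaEquivRange`.
-/
import Mathlib
import Fermat.Agent.ES.T56.BaseShapiro22
import Fermat.Agent.ES.T56.RestrictLevel3

set_option autoImplicit false
set_option linter.unusedSectionVars false

open CategoryTheory groupCohomology Module ExtCitation

namespace Fermat.Agent.ES.T56.ShaRestrict3

open Fermat.Agent.PT.PRO.LevelCoh28 Fermat.Agent.PT.PRO.LevelCohRes28
  Fermat.Agent.PT.BR.Interface29 Fermat.Agent.ES.T56.CoindSmooth22
  Fermat.Agent.ES.T56.BaseShapiro22 Fermat.Agent.ES.T56.GWIface21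
  Fermat.Agent.ES.T56.TransferExtRep3 Fermat.Agent.ES.T56.RestrictLevel3
  Fermat.Agent.ES.T56.RestrictAvg3

section Abstract

universe u

variable {k G H : Type u} [CommRing k] [Group G] [Group H] (i : H →* G) (X : Rep.{u} k H)

/-- A cocycle with values in `Coind X` which is a coboundary on `s` is, at a conjugate `g s g⁻¹`
coming from an element `n` of `H` acting trivially on `X`, killed by evaluation at `1`. -/
theorem coind_eval_conj_eq_zero (c : G → Rep.coind i X)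
    (hc : ∀ a b : G, c (a * b) = (Rep.coind i X).ρ a (c b) + c a) (g s : G) (m : Rep.coind i X)
    (hs : c s = (Rep.coind i X).ρ s m - m) (n : H) (hn : i n = g * s * g⁻¹) (hX : X.ρ n = 1) :
    (c (i n)).1 1 = 0 := by
  set ρ := (Rep.coind i X).ρ with hρ
  set m' : Rep.coind i X := ρ g m - c g with hm'
  have h1 : c (g * s * g⁻¹) = ρ (g * s * g⁻¹) m' - m' := by
    have e1 : c (g * s * g⁻¹) = ρ (g * s) (c g⁻¹) + (ρ g (c s) + c g) := by
      rw [hc (g * s) g⁻¹, hc g s]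
    have e2 : ρ (g * s) (c g⁻¹) = -ρ (g * s * g⁻¹) (c g) := by
      have : ρ (g * s) (c g⁻¹) = ρ (g * s * g⁻¹) (ρ g (c g⁻¹)) := by
        rw [← Module.End.mul_apply, ← map_mul, inv_mul_cancel_right]
      rw [this, apply_inv ρ c hc, map_neg]
    have e3 : ρ g (c s) = ρ (g * s * g⁻¹) (ρ g m) - ρ g m := by
      rw [hs, map_sub, ← Module.End.mul_apply, ← map_mul, ← Module.End.mul_apply, ← map_mul,
        inv_mul_cancel_right]
    rw [e1, e2, e3, hm', map_sub]
    abel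
  rw [hn, h1]
  have h2 : (ρ (g * s * g⁻¹) m').1 1 = m'.1 (i n * 1) := by
    rw [← hn, mul_one]
    show m'.1 (1 * i n) = m'.1 (i n)
    rw [one_mul]
  have h3 : m'.1 (i n * 1) = X.ρ n (m'.1 1) := m'.2 n 1
  show (ρ (g * s * g⁻¹) m').1 1 - m'.1 1 = 0
  rw [h2, h3, hX, Module.End.one_apply, sub_self]

end Abstract

variable {p : ℕ} [Fact p.Prime] {Sg : Finset Nat.Primes} (D : BaseDatum (p := p) Sg)

/-- `G_L` as a subgroup of `G_K`. -/
noncomputable abbrev NL : Subgroup ↥D.K.fixingSubgroup :=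
  D.L.fixingSubgroup.subgroupOf D.K.fixingSubgroup

theorem normal_NL : (NL D).Normal := D.normal

attribute [local instance] normal_NL

theorem triv_NL : ∀ a ∈ NL D, D.Y.ρ a = 1 := fun a ha => D.triv a ha

theorem finiteIndex_NL : (NL D).FiniteIndex := by
  have := D.unram.1
  have : D.L.fixingSubgroup.FiniteIndex := finiteIndex_fixingSubgroup D.L
  infer_instance

theorem finite_quot_NL : Finite (↥D.K.fixingSubgroup ⧸ NL D) := by
  have := finiteIndex_NL D
  exact Subgroup.finite_quotient_of_finiteIndex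

/-- The `Fintype` structure on `G_K / G_L`. -/
@[reducible] noncomputable def fintypeQuotNL : Fintype (↥D.K.fixingSubgroup ⧸ NL D) :=
  haveI := finite_quot_NL D
  Fintype.ofFinite _

attribute [local instance] fintypeQuotNL

/-- `#(G_K/G_L)` is invertible in `𝔽_p`. -/
theorem exists_inv_card :
    ∃ u : ZMod p, u * (Fintype.card (↥D.K.fixingSubgroup ⧸ NL D) : ZMod p) = 1 := by
  have h1 : Fintype.card (↥D.K.fixingSubgroup ⧸ NL D) = (NL D).index := by
    rw [Subgroup.index_eq_card, Nat.card_eq_fintype_card]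
  have h2 : ((NL D).index : ZMod p) ≠ 0 := by
    intro h0
    exact D.prime_to_p ((ZMod.natCast_eq_zero_iff _ _).mp h0)
  rw [h1]
  exact ⟨((NL D).index : ZMod p)⁻¹, inv_mul_cancel₀ h2⟩

/-- **(K2a) the restriction map** `Ш¹_S(G_ℚ, Coind Y) → Hom_{G_K}(G_L, Y)`. -/
noncomputable def shaRes : ↥(sha₁ Sg D.rep) →ₗ[ZMod p] ↥(EqHom (NL D) D.Y) :=
  resLevel (NL D) D.Y (basisK Sg D.K) (triv_NL D) ∘ₗ
    (shapiroH1S (trivOn_baseDatum D)).toLinearMap ∘ₗ
      Submodule.inclusion (inf_le_left : sha₁ Sg D.rep ≤ continuousH1S Sg D.rep)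

theorem shaRes_injective : Function.Injective (shaRes D) := by
  obtain ⟨u, hu⟩ := exists_inv_card D
  intro x y h
  apply Submodule.inclusion_injective (inf_le_left : sha₁ Sg D.rep ≤ continuousH1S Sg D.rep)
  apply (shapiroH1S (trivOn_baseDatum D)).injective
  exact resLevel_injective (NL D) D.Y (basisK Sg D.K) u hu (triv_NL D) h


/-- A cocycle representative: every `x ∈ Ш¹` is the class of a level cocycle `c`, and `shaRes x`
is `n ↦ (c n)(1)`. -/
theorem exists_rep (x : ↥(sha₁ Sg D.rep)) :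
    ∃ c : ↥(Z1 (levelBasisS Sg) D.rep),
      (x : groupCohomology.H1 D.rep) = (H1π D.rep).hom (z1ToCocycles (levelBasisS Sg) D.rep c) ∧
      ∀ n : ↥(NL D), (shaRes D x : ↥(NL D) → D.Y) n =
        ((c : GalQ → D.rep) ((n : ↥D.K.fixingSubgroup) : GalQ)).1 1 := by
  set xS : ↥(continuousH1S Sg D.rep) :=
    Submodule.inclusion (inf_le_left : sha₁ Sg D.rep ≤ continuousH1S Sg D.rep) x with hxS
  obtain ⟨c, hc⟩ := H1mk_surjective (levelBasisS Sg) D.rep ((h1SEquiv Sg D.rep).symm xS)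
  have h1 : h1SEquiv Sg D.rep (H1mk (levelBasisS Sg) D.rep c) = xS := by
    rw [hc, LinearEquiv.apply_symm_apply]
  refine ⟨c, ?_, fun n => ?_⟩
  · have h2 := congrArg (fun z : ↥(continuousH1S Sg D.rep) => (z : groupCohomology.H1 D.rep)) h1
    simp only [coe_h1SEquiv, toH1_mk] at h2
    rw [h2]
    rfl
  · have h3 : shaRes D x = resLevel (NL D) D.Y (basisK Sg D.K) (triv_NL D)
        (shapiroH1L (trivOn_baseDatum D) (H1mk (levelBasisS Sg) D.rep c)) := by
      show resLevel (NL D) D.Y (basisK Sg D.K) (triv_NL D)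
        (shapiroH1S (trivOn_baseDatum D) xS) = _
      rw [← h1]
      exact congrArg (fun z => resLevel (NL D) D.Y (basisK Sg D.K) (triv_NL D)
        (shapiroH1L (trivOn_baseDatum D) z)) ((h1SEquiv Sg D.rep).symm_apply_apply _)
    rw [h3]
    rfl


/-- **Level**: `shaRes x` kills `G_F ∩ G_L` for some `F` unramified outside `Sg`. -/
theorem shaRes_level (x : ↥(sha₁ Sg D.rep)) :
    ∃ F : IntermediateField ℚ (AlgebraicClosure ℚ), F.IsUnramifiedOutside Sg ∧
      ∀ n : ↥(NL D), ((n : ↥D.K.fixingSubgroup) : GalQ) ∈ F.fixingSubgroup →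
        (shaRes D x : ↥(NL D) → D.Y) n = 0 := by
  obtain ⟨V, ⟨F, hF, rfl⟩, hV⟩ := exists_level_resLevel (NL D) D.Y (basisK Sg D.K) (triv_NL D)
    (shapiroH1S (trivOn_baseDatum D)
      (Submodule.inclusion (inf_le_left : sha₁ Sg D.rep ≤ continuousH1S Sg D.rep) x))
  exact ⟨F, hF, fun n hn => hV n hn⟩

/-- **Local triviality**: `shaRes x` kills `G_L ∩ g D_q g⁻¹` for every `q ∈ Sg` and `g ∈ G_ℚ`, where
`D_q` is the image of `primeLocalToGlobal q`. -/
theorem shaRes_decomp (x : ↥(sha₁ Sg D.rep)) (q : ↥Sg) (g : GalQ)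
    (h : primeLocalGaloisGroup q.1) (n : ↥(NL D))
    (hn : ((n : ↥D.K.fixingSubgroup) : GalQ) = g * primeLocalToGlobal q.1 h * g⁻¹) :
    (shaRes D x : ↥(NL D) → D.Y) n = 0 := by
  obtain ⟨c, hc, hform⟩ := exists_rep D x
  rw [hform n]
  -- local triviality at `q`
  have hx2 : (x : groupCohomology.H1 D.rep) ∈ LinearMap.ker (locTotal (extArithLoc Sg) D.rep) :=
    x.2.2
  have h1 : (locRes (extArithLoc Sg) D.rep (Sum.inr q)).hom (x : groupCohomology.H1 D.rep) = 0 := by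
    exact congrFun (LinearMap.mem_ker.mp hx2) (Sum.inr q)
  rw [hc] at h1
  change (groupCohomology.map (primeLocalToGlobal q.1) (𝟙 (Rep.res (primeLocalToGlobal q.1) D.rep)) 1).hom
    ((H1π D.rep).hom (z1ToCocycles (levelBasisS Sg) D.rep c)) = 0 at h1
  rw [H1π_comp_map_apply, H1π_eq_zero_iff] at h1
  obtain ⟨m, hm⟩ := h1
  have hm' := congrFun hm h
  have hloc : (c : GalQ → D.rep) (primeLocalToGlobal q.1 h) =
      D.rep.ρ (primeLocalToGlobal q.1 h) m - m := by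
    rw [d₀₁_hom_apply] at hm'
    exact hm'.symm
  have hrel : ∀ a b : GalQ, (c : GalQ → D.rep) (a * b) =
      D.rep.ρ a ((c : GalQ → D.rep) b) + (c : GalQ → D.rep) a := cocycle_rel D.rep c.2.1
  exact coind_eval_conj_eq_zero D.K.fixingSubgroup.subtype D.Y (c : GalQ → D.rep) hrel g
    (primeLocalToGlobal q.1 h) m hloc (n : ↥D.K.fixingSubgroup) hn (triv_NL D n n.2)


/-- **The target of (K2a)**: the `G_K`-equivariant additive maps `χ : G_L → Y` which are level maps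
for `basisK Sg K` (kill `G_F ∩ G_L`, `F` unramified outside `Sg`) and kill `G_L ∩ g D_q g⁻¹` for all
`q ∈ Sg`, `g ∈ G_ℚ`. -/
def ShaHom : Submodule (ZMod p) ↥(EqHom (NL D) D.Y) where
  carrier := {χ |
    (∃ F : IntermediateField ℚ (AlgebraicClosure ℚ), F.IsUnramifiedOutside Sg ∧
      ∀ n : ↥(NL D), ((n : ↥D.K.fixingSubgroup) : GalQ) ∈ F.fixingSubgroup →
        (χ : ↥(NL D) → D.Y) n = 0) ∧
    ∀ (q : ↥Sg) (g : GalQ) (h : primeLocalGaloisGroup q.1) (n : ↥(NL D)),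
      ((n : ↥D.K.fixingSubgroup) : GalQ) = g * primeLocalToGlobal q.1 h * g⁻¹ →
        (χ : ↥(NL D) → D.Y) n = 0}
  add_mem' := by
    rintro χ χ' ⟨⟨F, hF, h1⟩, h2⟩ ⟨⟨F', hF', h1'⟩, h2'⟩
    refine ⟨⟨F ⊔ F', hF.sup hF', fun n hn => ?_⟩, fun q g h n hn => ?_⟩
    · rw [IntermediateField.fixingSubgroup_sup] at hn
      show (χ : ↥(NL D) → D.Y) n + (χ' : ↥(NL D) → D.Y) n = 0
      rw [h1 n hn.1, h1' n hn.2, add_zero]
    · show (χ : ↥(NL D) → D.Y) n + (χ' : ↥(NL D) → D.Y) n = 0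
      rw [h2 q g h n hn, h2' q g h n hn, add_zero]
  zero_mem' := ⟨⟨⊥, IntermediateField.isUnramifiedOutside_bot Sg, fun _ _ => rfl⟩,
    fun _ _ _ _ _ => rfl⟩
  smul_mem' := by
    rintro a χ ⟨⟨F, hF, h1⟩, h2⟩
    refine ⟨⟨F, hF, fun n hn => ?_⟩, fun q g h n hn => ?_⟩
    · show a • (χ : ↥(NL D) → D.Y) n = 0
      rw [h1 n hn, smul_zero]
    · show a • (χ : ↥(NL D) → D.Y) n = 0
      rw [h2 q g h n hn, smul_zero]

theorem mem_ShaHom {χ : ↥(EqHom (NL D) D.Y)} : χ ∈ ShaHom D ↔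
    (∃ F : IntermediateField ℚ (AlgebraicClosure ℚ), F.IsUnramifiedOutside Sg ∧
      ∀ n : ↥(NL D), ((n : ↥D.K.fixingSubgroup) : GalQ) ∈ F.fixingSubgroup →
        (χ : ↥(NL D) → D.Y) n = 0) ∧
    ∀ (q : ↥Sg) (g : GalQ) (h : primeLocalGaloisGroup q.1) (n : ↥(NL D)),
      ((n : ↥D.K.fixingSubgroup) : GalQ) = g * primeLocalToGlobal q.1 h * g⁻¹ →
        (χ : ↥(NL D) → D.Y) n = 0 := Iff.rfl

/-- **(K2a)**: the restriction of a class of `Ш¹` lies in `ShaHom`. -/
theorem shaRes_mem_ShaHom (x : ↥(sha₁ Sg D.rep)) : shaRes D x ∈ ShaHom D :=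
  ⟨shaRes_level D x, fun q g h n hn => shaRes_decomp D x q g h n hn⟩

/-- **(K2a), numerical form**: `Ш¹` embeds into any subspace of `ShaHom` containing the image. -/
theorem range_shaRes_le : LinearMap.range (shaRes D) ≤ ShaHom D := by
  rintro _ ⟨x, rfl⟩
  exact shaRes_mem_ShaHom D x

/-- `Ш¹ ≃ range shaRes`. -/
noncomputable def shaEquivRange : ↥(sha₁ Sg D.rep) ≃ₗ[ZMod p] ↥(LinearMap.range (shaRes D)) :=
  LinearEquiv.ofInjective (shaRes D) (shaRes_injective D)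

end Fermat.Agent.ES.T56.ShaRestrict3
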