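/-
Programme T (S56), chapter GW-D, brick (K2a) of `T56_BASE28.md` (helper3), file 4: `Ш¹_{Sg}` is
invariant under equivariant linear isomorphisms of the coefficients (the companion for `sha₁` of
`GWNumIso22`).

* `locRes_H1π_eq_zero_iff` : the class of a cocycle `c` restricts to `0` along `f : H →* G_ℚ` iff
  `c ∘ f` is a coboundary `h ↦ f h • m - m`;
* `mem_ker_locTotal_congr` : `GWNumIso22.continuousH1SEquiv e he Sg` preserves local triviality at
  every place of `extArithIndex Sg`;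
* **`shaMap e he Sg : ↥(sha₁ Sg X) →ₗ ↥(sha₁ Sg X')`**, `shaMap_coe`, **`shaMap_injective`**.
-/
import Mathlib
import Fermat.Agent.ES.T56.GWNumIso22

set_option autoImplicit false
set_option linter.unusedSectionVars false

open CategoryTheory groupCohomology Module ExtCitation

namespace Fermat.Agent.ES.T56.ShaCongr3

open Fermat.Agent.PT.PRO.LevelCoh28 Fermat.Agent.PT.BR.Interface29
  Fermat.Agent.ES.T56.LevelCohIso22 Fermat.Agent.ES.T56.GWIface21 Fermat.Agent.ES.T56.GWNumIso22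

variable {p : ℕ} [Fact p.Prime] {X X' : Rep.{0} (ZMod p) GQ} (e : X ≃ₗ[ZMod p] X')
  (he : ∀ g x, e (X.ρ g x) = X'.ρ g (e x)) (Sg : Finset Nat.Primes)

/-- Local triviality of the class of a cocycle, in cocycle terms. -/
theorem locRes_H1π_eq_zero_iff {H : Type} [Group H] (f : H →* GQ) (M : Rep.{0} (ZMod p) GQ)
    (c : cocycles₁ M) :
    (groupCohomology.map f (𝟙 (Rep.res f M)) 1).hom ((H1π M).hom c) = 0 ↔
      ∃ m : M, ∀ h : H, (c : GQ → M) (f h) = M.ρ (f h) m - m := by
  rw [H1π_comp_map_apply, H1π_eq_zero_iff]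
  constructor
  · rintro ⟨m, hm⟩
    refine ⟨m, fun h => ?_⟩
    have := congrFun hm h
    rw [d₀₁_hom_apply] at this
    exact this.symm
  · rintro ⟨m, hm⟩
    refine ⟨m, ?_⟩
    funext h
    rw [d₀₁_hom_apply]
    exact (hm h).symm


include he in
/-- The isomorphism `continuousH1SEquiv` preserves local triviality at all places of
`extArithIndex Sg`. -/
theorem mem_ker_locTotal_congr (x : ↥(continuousH1S Sg X))
    (hx : (x : groupCohomology.H1 X) ∈ LinearMap.ker (locTotal (extArithLoc Sg) X)) :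
    ((continuousH1SEquiv e he Sg x : ↥(continuousH1S Sg X')) : groupCohomology.H1 X') ∈
      LinearMap.ker (locTotal (extArithLoc Sg) X') := by
  obtain ⟨c, hc⟩ := H1mk_surjective (levelBasisS Sg) X ((h1SEquiv Sg X).symm x)
  have h1 : h1SEquiv Sg X (H1mk (levelBasisS Sg) X c) = x := by
    rw [hc, LinearEquiv.apply_symm_apply]
  have h2 : (x : groupCohomology.H1 X) = (H1π X).hom (z1ToCocycles (levelBasisS Sg) X c) := by
    rw [← h1]; rfl
  have h3 : ((continuousH1SEquiv e he Sg x : ↥(continuousH1S Sg X')) : groupCohomology.H1 X') =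
      (H1π X').hom (z1ToCocycles (levelBasisS Sg) X' (mapZ1 (e : X →ₗ[ZMod p] X') he c)) := by
    rw [← h1]
    unfold continuousH1SEquiv
    rw [LinearEquiv.trans_apply, LinearEquiv.trans_apply, LinearEquiv.symm_apply_apply,
      mapH1Equiv_apply, mapH1_mk]
    rfl
  rw [LinearMap.mem_ker] at hx ⊢
  funext v
  have hv : (groupCohomology.map (extArithLoc Sg v) (𝟙 (Rep.res (extArithLoc Sg v) X)) 1).hom
      (x : groupCohomology.H1 X) = 0 := congrFun hx v
  rw [h2, locRes_H1π_eq_zero_iff] at hv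
  obtain ⟨m, hm⟩ := hv
  show (groupCohomology.map (extArithLoc Sg v) (𝟙 (Rep.res (extArithLoc Sg v) X')) 1).hom _ = 0
  rw [h3, locRes_H1π_eq_zero_iff]
  refine ⟨e m, fun h => ?_⟩
  have hm' : (c : GalQ → X) (extArithLoc Sg v h) = X.ρ (extArithLoc Sg v h) m - m := hm h
  show e ((c : GalQ → X) (extArithLoc Sg v h)) = _
  rw [hm', map_sub, he]

/-- **`Ш¹` is invariant under equivariant isomorphisms** (one direction; apply to `e.symm` for the
other). -/
noncomputable def shaMap : ↥(sha₁ Sg X) →ₗ[ZMod p] ↥(sha₁ Sg X') where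
  toFun x := ⟨(continuousH1SEquiv e he Sg ⟨x.1, x.2.1⟩ : ↥(continuousH1S Sg X')).1,
    ⟨(continuousH1SEquiv e he Sg ⟨x.1, x.2.1⟩).2,
      mem_ker_locTotal_congr e he Sg ⟨x.1, x.2.1⟩ x.2.2⟩⟩
  map_add' x y := by
    apply Subtype.ext
    show ((continuousH1SEquiv e he Sg ⟨(x + y : ↥(sha₁ Sg X)).1, _⟩ :
      ↥(continuousH1S Sg X')) : groupCohomology.H1 X') = _
    have : (⟨(x + y : ↥(sha₁ Sg X)).1, (x + y).2.1⟩ : ↥(continuousH1S Sg X)) =
        ⟨x.1, x.2.1⟩ + ⟨y.1, y.2.1⟩ := rfl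
    rw [this, map_add]
    rfl
  map_smul' a x := by
    apply Subtype.ext
    show ((continuousH1SEquiv e he Sg ⟨(a • x : ↥(sha₁ Sg X)).1, _⟩ :
      ↥(continuousH1S Sg X')) : groupCohomology.H1 X') = _
    have : (⟨(a • x : ↥(sha₁ Sg X)).1, (a • x).2.1⟩ : ↥(continuousH1S Sg X)) =
        a • ⟨x.1, x.2.1⟩ := rfl
    rw [this, map_smul]
    rfl

theorem shaMap_coe (x : ↥(sha₁ Sg X)) :
    (shaMap e he Sg x : groupCohomology.H1 X') =
      (continuousH1SEquiv e he Sg ⟨x.1, x.2.1⟩ : ↥(continuousH1S Sg X')).1 := rfl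

theorem shaMap_injective : Function.Injective (shaMap e he Sg) := by
  intro x y h
  have h1 : (continuousH1SEquiv e he Sg ⟨x.1, x.2.1⟩ : ↥(continuousH1S Sg X')).1 =
      (continuousH1SEquiv e he Sg ⟨y.1, y.2.1⟩ : ↥(continuousH1S Sg X')).1 :=
    congrArg (fun z : ↥(sha₁ Sg X') => (z : groupCohomology.H1 X')) h
  have h2 := (continuousH1SEquiv e he Sg).injective (Subtype.ext h1)
  exact Subtype.ext (congrArg (fun z : ↥(continuousH1S Sg X) => (z : groupCohomology.H1 X)) h2)

end Fermat.Agent.ES.T56.ShaCongr3
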