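/-
Programme T (S56), chapter GW-D, brick (K2a) of `T56_BASE28.md` (helper3), file 5 (final export):
(K2a) for the dual `X* = dualT p D.rep` of the representation of a base datum, through helper22's
`BaseDual22.dualRepEquiv D : X* ≃ (dualDatum D).rep` (`Y* = Y^∨(1)`).

* **`shaResDual D : ↥(sha₁ Sg (dualT p D.rep)) →ₗ ↥(EqHom (NL (dualDatum D)) (dualDatum D).Y)`**,
  **`shaResDual_injective`**, **`shaResDual_mem_ShaHom`** (level for `basisK Sg D.K`, kills every
  `G_L ∩ g D_q g⁻¹`, `q ∈ Sg`), `range_shaResDual_le`, `shaDualEquivRange`;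
* **`finrank_sha_dual_le`** : a bound valid for all finite-dimensional subspaces of
  `ShaHom (dualDatum D)` bounds `dim Ш¹_{Sg}(X*)` — the input shape of (K2-bridge)/(K2c).
-/
import Mathlib
import Fermat.Agent.ES.T56.BaseDual22
import Fermat.Agent.ES.T56.ShaRestrict3
import Fermat.Agent.ES.T56.ShaCongr3

set_option autoImplicit false
set_option linter.unusedSectionVars false

open CategoryTheory groupCohomology Module ExtCitation

namespace Fermat.Agent.ES.T56.ShaRestrictDual3

open Fermat.Agent.PT.BR.Interface29 Fermat.Agent.ES.T56.GWIface21 Fermat.Agent.ES.T56.BaseDual22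
  Fermat.Agent.ES.T56.TransferExtRep3 Fermat.Agent.ES.T56.ShaRestrict3 Fermat.Agent.ES.T56.ShaCongr3

variable {p : ℕ} [Fact p.Prime] {Sg : Finset Nat.Primes} (D : BaseDatum (p := p) Sg)

attribute [local instance] normal_NL

/-- **(K2a) for `X* = (Coind Y)^∨(1)`**: restriction of `Ш¹_{Sg}(G_ℚ, X*)` to equivariant
homomorphisms `G_L → Y* = Y^∨(1)`. -/
noncomputable def shaResDual :
    ↥(sha₁ Sg (dualT p D.rep)) →ₗ[ZMod p] ↥(EqHom (NL (dualDatum D)) (dualDatum D).Y) :=
  shaRes (dualDatum D) ∘ₗ shaMap (dualRepEquiv D) (dualRepEquiv_equivariant D) Sg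

theorem shaResDual_injective : Function.Injective (shaResDual D) := by
  intro x y h
  exact shaMap_injective (dualRepEquiv D) (dualRepEquiv_equivariant D) Sg
    (shaRes_injective (dualDatum D) h)

theorem shaResDual_mem_ShaHom (x : ↥(sha₁ Sg (dualT p D.rep))) :
    shaResDual D x ∈ ShaHom (dualDatum D) :=
  shaRes_mem_ShaHom (dualDatum D) _

theorem range_shaResDual_le : LinearMap.range (shaResDual D) ≤ ShaHom (dualDatum D) := by
  rintro _ ⟨x, rfl⟩
  exact shaResDual_mem_ShaHom D x

/-- `Ш¹(X*) ≃ range shaResDual`, a subspace of `ShaHom (dualDatum D)`. -/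
noncomputable def shaDualEquivRange :
    ↥(sha₁ Sg (dualT p D.rep)) ≃ₗ[ZMod p] ↥(LinearMap.range (shaResDual D)) :=
  LinearEquiv.ofInjective (shaResDual D) (shaResDual_injective D)

/-- **(K2a), numerical export**: any bound `dim W ≤ B` valid for ALL finite-dimensional subspaces
`W` of `ShaHom (dualDatum D)` bounds `dim Ш¹_{Sg}(X*)`. -/
theorem finrank_sha_dual_le [FiniteDimensional (ZMod p) ↥(sha₁ Sg (dualT p D.rep))] (B : ℕ)
    (hB : ∀ W : Submodule (ZMod p) ↥(EqHom (NL (dualDatum D)) (dualDatum D).Y),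
      W ≤ ShaHom (dualDatum D) → FiniteDimensional (ZMod p) ↥W → finrank (ZMod p) ↥W ≤ B) :
    finrank (ZMod p) ↥(sha₁ Sg (dualT p D.rep)) ≤ B := by
  rw [(shaDualEquivRange D).finrank_eq]
  exact hB _ (range_shaResDual_le D) (Module.Finite.equiv (shaDualEquivRange D))

end Fermat.Agent.ES.T56.ShaRestrictDual3
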