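/-
Programme T (S56), chapter GW-D, the FINAL GLUE of brick (K2) of `T56_BASE28.md` (helper16):

    `dim Ш¹_{Sg}(G_ℚ, (Coind_{G_K} Y)^∨(1))  ≤  ⟨Cl_{Sg}(L)⟩ = twNum (cokerRep Sg K L) ω ρ`.

Inputs: (K2a) helper3's `ShaRestrictDual3.finrank_sha_dual_le` (`Ш¹(X*)` embeds in the space `ShaHom` of
`G_K`-equivariant level homomorphisms `G_L → Y^∨(1)` killing all decomposition groups over `Sg`),
(K2b/K2c) helper23's `ElemArtinCoker23` (`Hom_Δ(Gal(M/L), Y^∨(1)) ↪ twAdd` through the Artin map of an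
everywhere unramified elementary abelian `M/L` in which the primes over `Sg` split), helper28's
dictionary `BaseDict28` (`LK D`, `Δ D`, `π`, `ρΔ`, `ω`), and the bridge `K2Bridge16`.

For a finite-dimensional `W ≤ ShaHom (dualDatum D)`: `N := ⋂_{χ ∈ W} ker χ ≤ G_L` is open, normalised by
`G_K`, contains the commutators and `p`-th powers of `G_L`, all inertia groups and the decomposition
groups over `Sg`; `M := fixedField N`; `χ ↦ χ̄ ∈ eqHom (ρΔ D) (ω D)` is linear and injective.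
-/
import Mathlib
import Fermat.Agent.ES.T56.GWIface21
import Fermat.Agent.ES.T56.BaseDual22
import Fermat.Agent.ES.T56.BaseDict28
import Fermat.Agent.ES.T56.ShaRestrict3
import Fermat.Agent.ES.T56.ShaRestrictDual3
import Fermat.Agent.ES.T56.ElemArtinCoker23
import Fermat.Agent.ES.T56.K2Bridge16

set_option autoImplicit false
set_option linter.style.haveILetI false
set_option linter.unusedSectionVars false

open Module ExtCitation
open scoped Pointwise NumberField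

namespace Fermat.Agent.ES.T56.K2Final16

open Fermat.Agent.ES.T56.GWIface21 Fermat.Agent.ES.T56.BaseDual22 Fermat.Agent.ES.T56.BaseDict28
  Fermat.Agent.ES.T56.TransferExtRep3 Fermat.Agent.ES.T56.ShaRestrict3
  Fermat.Agent.ES.T56.K2Bridge16 Fermat.Agent.ES.T56.FieldPair16

local notation "Ω" => AlgebraicClosure ℚ

variable {p : ℕ} [Fact p.Prime] {Sg : Finset Nat.Primes} (D : BaseDatum (p := p) Sg)

attribute [local instance] normal_NL

/-! ### Evaluation of an equivariant homomorphism at an element of `G_L` -/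

/-- `σ ∈ G_L` as an element of `NL (dualDatum D)`. -/
def toNL (σ : GQ) (hσ : σ ∈ D.L.fixingSubgroup) : ↥(NL (dualDatum D)) :=
  ⟨⟨σ, IntermediateField.fixingSubgroup_antitone D.le hσ⟩, Subgroup.mem_subgroupOf.2 hσ⟩

theorem toNL_coe (n : ↥(NL (dualDatum D))) :
    toNL D ((n : ↥(dualDatum D).K.fixingSubgroup) : GQ) (Subgroup.mem_subgroupOf.1 n.2) = n := rfl

/-- The value of `χ` at `σ ∈ G_L`, a linear form on `Y`. -/
def ev (χ : ↥(EqHom (NL (dualDatum D)) (dualDatum D).Y)) (σ : GQ) (hσ : σ ∈ D.L.fixingSubgroup) :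
    Module.Dual (ZMod p) D.Y :=
  χ.1 (toNL D σ hσ)

theorem ev_add (χ χ' : ↥(EqHom (NL (dualDatum D)) (dualDatum D).Y)) (σ : GQ)
    (hσ : σ ∈ D.L.fixingSubgroup) : ev D (χ + χ') σ hσ = ev D χ σ hσ + ev D χ' σ hσ := rfl

theorem ev_smul (r : ZMod p) (χ : ↥(EqHom (NL (dualDatum D)) (dualDatum D).Y)) (σ : GQ)
    (hσ : σ ∈ D.L.fixingSubgroup) : ev D (r • χ) σ hσ = r • ev D χ σ hσ := rfl

theorem ev_mul (χ : ↥(EqHom (NL (dualDatum D)) (dualDatum D).Y)) (σ τ : GQ)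
    (hσ : σ ∈ D.L.fixingSubgroup) (hτ : τ ∈ D.L.fixingSubgroup) :
    ev D χ (σ * τ) (mul_mem hσ hτ) = ev D χ σ hσ + ev D χ τ hτ :=
  χ.2.1 (toNL D σ hσ) (toNL D τ hτ)

theorem ev_conj (χ : ↥(EqHom (NL (dualDatum D)) (dualDatum D).Y)) (γ : ↥D.K.fixingSubgroup)
    (σ : GQ) (hσ : σ ∈ D.L.fixingSubgroup) (h' : (γ : GQ) * σ * (γ : GQ)⁻¹ ∈ D.L.fixingSubgroup)
    (y : D.Y) :
    ev D χ ((γ : GQ) * σ * (γ : GQ)⁻¹) h' (D.Y.ρ γ y) =
      ((cycloChar p (γ : GQ) : (ZMod p)ˣ) : ZMod p) * ev D χ σ hσ y := by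
  have h1 := χ.2.2 γ (toNL D σ hσ)
  have h2 : ev D χ ((γ : GQ) * σ * (γ : GQ)⁻¹) h' =
      (dualDatum D).Y.ρ γ (ev D χ σ hσ) := h1
  rw [h2]
  show (((cycloChar p).comp D.K.fixingSubgroup.subtype) γ : ZMod p) •
    ((ev D χ σ hσ) ∘ₗ D.Y.ρ γ⁻¹) (D.Y.ρ γ y) = _
  rw [LinearMap.comp_apply, ← Module.End.mul_apply, ← map_mul,
    inv_mul_cancel, map_one, Module.End.one_apply, smul_eq_mul]
  rfl

theorem eq_zero_of_ev (χ : ↥(EqHom (NL (dualDatum D)) (dualDatum D).Y))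
    (h : ∀ σ hσ, ev D χ σ hσ = 0) : χ = 0 := by
  apply Subtype.ext
  funext n
  exact h _ (Subgroup.mem_subgroupOf.1 n.2)

/-! ### The homomorphism `G_L → Y^∨` of an element of `EqHom`, and the common kernel of `W` -/

/-- `χ` as a group homomorphism on `G_L ≤ G_ℚ`. -/
noncomputable def χhom (χ : ↥(EqHom (NL (dualDatum D)) (dualDatum D).Y)) :
    ↥D.L.fixingSubgroup →* Multiplicative (Module.Dual (ZMod p) D.Y) :=
  MonoidHom.mk' (fun σ => Multiplicative.ofAdd (ev D χ σ σ.2))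
    (fun a b => congrArg Multiplicative.ofAdd (ev_mul D χ a b a.2 b.2))

theorem χhom_apply (χ : ↥(EqHom (NL (dualDatum D)) (dualDatum D).Y)) (σ : ↥D.L.fixingSubgroup) :
    χhom D χ σ = Multiplicative.ofAdd (ev D χ σ σ.2) := rfl

theorem χhom_eq_one_iff (χ : ↥(EqHom (NL (dualDatum D)) (dualDatum D).Y))
    (σ : ↥D.L.fixingSubgroup) : χhom D χ σ = 1 ↔ ev D χ σ σ.2 = 0 := Iff.rfl

variable (W : Submodule (ZMod p) ↥(EqHom (NL (dualDatum D)) (dualDatum D).Y))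

/-- The common kernel of the `χ ∈ W`, a subgroup of `G_ℚ` contained in `G_L`. -/
def kerW : Subgroup GQ where
  carrier := {σ | ∃ hσ : σ ∈ D.L.fixingSubgroup, ∀ χ ∈ W, χhom D χ ⟨σ, hσ⟩ = 1}
  mul_mem' := by
    rintro a b ⟨ha, ha'⟩ ⟨hb, hb'⟩
    refine ⟨mul_mem ha hb, fun χ hχ => ?_⟩
    have h1 : (⟨a * b, mul_mem ha hb⟩ : ↥D.L.fixingSubgroup) = ⟨a, ha⟩ * ⟨b, hb⟩ := rfl
    rw [h1, map_mul, ha' χ hχ, hb' χ hχ, one_mul]
  one_mem' := ⟨one_mem _, fun χ _ => map_one (χhom D χ)⟩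
  inv_mem' := by
    rintro a ⟨ha, ha'⟩
    refine ⟨inv_mem ha, fun χ hχ => ?_⟩
    have h1 : (⟨a⁻¹, inv_mem ha⟩ : ↥D.L.fixingSubgroup) = (⟨a, ha⟩ : ↥D.L.fixingSubgroup)⁻¹ := rfl
    rw [h1, map_inv, ha' χ hχ, inv_one]

theorem kerW_le : kerW D W ≤ D.L.fixingSubgroup := fun _ hσ => hσ.1

theorem mem_kerW_iff (σ : ↥D.L.fixingSubgroup) :
    (σ : GQ) ∈ kerW D W ↔ ∀ χ ∈ W, χhom D χ σ = 1 :=
  ⟨fun h => h.2, fun h => ⟨σ.2, h⟩⟩

/-- `G_L` is normalised by `G_K`. -/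
theorem conj_mem_L (γ : GQ) (hγ : γ ∈ D.K.fixingSubgroup) (s : GQ) (hs : s ∈ D.L.fixingSubgroup) :
    γ * s * γ⁻¹ ∈ D.L.fixingSubgroup := by
  have h1 : (⟨s, IntermediateField.fixingSubgroup_antitone D.le hs⟩ : ↥D.K.fixingSubgroup) ∈
      D.L.fixingSubgroup.subgroupOf D.K.fixingSubgroup := Subgroup.mem_subgroupOf.2 hs
  have h2 := D.normal.conj_mem _ h1 ⟨γ, hγ⟩
  exact Subgroup.mem_subgroupOf.1 h2

/-- `kerW` is normalised by `G_K`. -/
theorem kerW_normal (γ : GQ) (hγ : γ ∈ D.K.fixingSubgroup) (s : GQ) (hs : s ∈ kerW D W) :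
    γ⁻¹ * s * γ ∈ kerW D W := by
  obtain ⟨hsL, hs'⟩ := hs
  have hγ' : γ⁻¹ ∈ D.K.fixingSubgroup := inv_mem hγ
  have hmem : γ⁻¹ * s * γ⁻¹⁻¹ ∈ D.L.fixingSubgroup := conj_mem_L D γ⁻¹ hγ' s hsL
  have hmem' : γ⁻¹ * s * γ ∈ D.L.fixingSubgroup := by rwa [inv_inv] at hmem
  refine ⟨hmem', fun χ hχ => ?_⟩
  rw [χhom_eq_one_iff]
  apply LinearMap.ext
  intro y
  have h0 : ev D χ s hsL = 0 := (χhom_eq_one_iff D χ ⟨s, hsL⟩).1 (hs' χ hχ)
  have h1 := ev_conj D χ ⟨γ⁻¹, hγ'⟩ s hsL hmem (D.Y.ρ ⟨γ, hγ⟩ y)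
  rw [h0, LinearMap.zero_apply, mul_zero, ← Module.End.mul_apply, ← map_mul] at h1
  have h2 : (⟨γ⁻¹, hγ'⟩ : ↥D.K.fixingSubgroup) * ⟨γ, hγ⟩ = 1 := Subtype.ext (inv_mul_cancel γ)
  rw [h2, map_one, Module.End.one_apply] at h1
  rw [LinearMap.zero_apply, ← h1]
  congr 1

/-- `kerW` contains the commutators of `G_L`. -/
theorem kerW_comm (σ : GQ) (hσ : σ ∈ D.L.fixingSubgroup) (τ : GQ) (hτ : τ ∈ D.L.fixingSubgroup) :
    σ * τ * σ⁻¹ * τ⁻¹ ∈ kerW D W := by
  have h1 : σ * τ * σ⁻¹ * τ⁻¹ =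
      (((⟨σ, hσ⟩ * ⟨τ, hτ⟩ * ⟨σ, hσ⟩⁻¹ * ⟨τ, hτ⟩⁻¹ : ↥D.L.fixingSubgroup)) : GQ) := rfl
  rw [h1, mem_kerW_iff]
  intro χ _
  rw [map_mul, map_mul, map_mul, map_inv, map_inv]
  rw [mul_comm (χhom D χ ⟨σ, hσ⟩), mul_inv_cancel_right, mul_inv_cancel]

/-- `kerW` contains the `p`-th powers of `G_L`. -/
theorem kerW_pow (σ : GQ) (hσ : σ ∈ D.L.fixingSubgroup) : σ ^ p ∈ kerW D W := by
  have h1 : σ ^ p = (((⟨σ, hσ⟩ : ↥D.L.fixingSubgroup) ^ p : ↥D.L.fixingSubgroup) : GQ) := rfl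
  rw [h1, mem_kerW_iff]
  intro χ _
  rw [map_pow, χhom_apply, ← ofAdd_nsmul]
  have h2 : p • ev D χ σ hσ = 0 := by
    rw [← Nat.cast_smul_eq_nsmul (ZMod p), ZMod.natCast_self, zero_smul]
  rw [h2]
  rfl

variable (hW : W ≤ ShaHom (dualDatum D))

include hW in
/-- `kerW` contains the decomposition groups (intersected with `G_L`) of all places over `Sg`. -/
theorem kerW_decomp (q : Nat.Primes) (hq : q ∈ Sg) (A : ValuationSubring Ω)
    (hA : A.LiesOverPrime (q : ℕ)) (σ : GQ) (hσA : σ ∈ A.decompositionSubgroup ℚ)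
    (hσ : σ ∈ D.L.fixingSubgroup) : σ ∈ kerW D W := by
  obtain ⟨g, hg⟩ := exists_conj_range q A hA
  obtain ⟨h, hh⟩ := (hg σ).1 hσA
  have hσeq : σ = g * primeLocalToGlobal q h * g⁻¹ := by
    rw [hh]
    group
  refine ⟨hσ, fun χ hχ => ?_⟩
  rw [χhom_eq_one_iff]
  exact ((mem_ShaHom (dualDatum D)).1 (hW hχ)).2 ⟨q, hq⟩ g h (toNL D σ hσ) hσeq

include hW in
/-- A common level field for a finitely generated `W ≤ ShaHom`. -/
theorem exists_common_level [FiniteDimensional (ZMod p) ↥W] :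
    ∃ F : IntermediateField ℚ Ω, F.IsUnramifiedOutside Sg ∧
      ∀ σ ∈ F.fixingSubgroup, σ ∈ D.L.fixingSubgroup → σ ∈ kerW D W := by
  classical
  obtain ⟨S, hS⟩ := (Submodule.fg_iff_finiteDimensional W).2 inferInstance
  suffices h : ∀ S : Finset ↥(EqHom (NL (dualDatum D)) (dualDatum D).Y),
      (∀ χ ∈ S, χ ∈ W) → ∃ F : IntermediateField ℚ Ω, F.IsUnramifiedOutside Sg ∧
        ∀ χ ∈ Submodule.span (ZMod p) (S : Set ↥(EqHom (NL (dualDatum D)) (dualDatum D).Y)),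
          ∀ σ (hσ : σ ∈ D.L.fixingSubgroup), σ ∈ F.fixingSubgroup → ev D χ σ hσ = 0 by
    obtain ⟨F, hF, hFW⟩ := h S (fun χ hχ => hS ▸ Submodule.subset_span hχ)
    refine ⟨F, hF, fun σ hσF hσL => ⟨hσL, fun χ hχ => ?_⟩⟩
    rw [χhom_eq_one_iff]
    exact hFW χ (hS ▸ hχ) σ hσL hσF
  intro S
  induction S using Finset.induction_on with
  | empty =>
    intro _
    refine ⟨⊥, IntermediateField.isUnramifiedOutside_bot Sg, fun χ hχ σ hσ _ => ?_⟩
    rw [Finset.coe_empty, Submodule.span_empty, Submodule.mem_bot] at hχ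
    rw [hχ]
    rfl
  | insert a S _ ih =>
    intro hS'
    obtain ⟨F, hF, hFS⟩ := ih (fun χ hχ => hS' χ (Finset.mem_insert_of_mem hχ))
    obtain ⟨⟨Fa, hFa, hFa'⟩, -⟩ :=
      (mem_ShaHom (dualDatum D)).1 (hW (hS' a (Finset.mem_insert_self a S)))
    refine ⟨Fa ⊔ F, hFa.sup hF, fun χ hχ σ hσ hσF => ?_⟩
    rw [Finset.coe_insert, Submodule.mem_span_insert] at hχ
    obtain ⟨r, χ', hχ', rfl⟩ := hχ
    rw [IntermediateField.fixingSubgroup_sup] at hσF
    rw [ev_add, ev_smul, hFS χ' hχ' σ hσ hσF.2]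
    have h1 : ev D a σ hσ = 0 := hFa' (toNL D σ hσ) hσF.1
    rw [h1, smul_zero, add_zero]

/-! ### The field `M = fixedField (kerW)` over `F = LK D` over `k = D.K` -/

section Field

variable (F : IntermediateField ℚ Ω) (hFur : F.IsUnramifiedOutside Sg)
  (hFN : ∀ σ ∈ F.fixingSubgroup, σ ∈ D.L.fixingSubgroup → σ ∈ kerW D W)

include hFur in
/-- The finite field `F ⊔ L`, whose fixing subgroup lies in `kerW`. -/
theorem finiteDimensional_sup : FiniteDimensional ℚ ↥(F ⊔ D.L) :=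
  haveI := hFur.1
  haveI := D.unram.1
  IntermediateField.finiteDimensional_sup F D.L

include hFN in
theorem fixingSubgroup_sup_le : (F ⊔ D.L).fixingSubgroup ≤ kerW D W := by
  intro σ hσ
  rw [IntermediateField.fixingSubgroup_sup] at hσ
  exact hFN σ hσ.1 hσ.2

theorem kerW_normal_L : ∀ σ ∈ D.L.fixingSubgroup, ∀ s ∈ kerW D W, σ⁻¹ * s * σ ∈ kerW D W :=
  fun σ hσ s hs => kerW_normal D W σ (IntermediateField.fixingSubgroup_antitone D.le hσ) s hs

/-- `M`, as an intermediate field of `ℚ̄/K`. -/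
noncomputable abbrev MW : IntermediateField ↥D.K Ω := MK D.le (kerW D W) (kerW_le D W)

theorem LK_le_MW : BaseDict28.LK D ≤ MW D W := LK_le_MK D.le (kerW D W) (kerW_le D W)

/-- The algebra structure `LK D → MW`. -/
@[reducible] noncomputable def algFM : Algebra ↥(BaseDict28.LK D) ↥(MW D W) :=
  algOfLE (LK_le_MW D W)

theorem isScalarTower_kFM :
    @IsScalarTower ↥D.K ↥(BaseDict28.LK D) ↥(MW D W) _ (algFM D W).toSMul _ :=
  isScalarTower_rat (LK_le_MW D W)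

include hFur hFN

theorem numberField_MW : NumberField ↥(MW D W) :=
  haveI := finiteDimensional_sup D F hFur
  numberField_MK D.le (kerW D W) (kerW_le D W) (F ⊔ D.L) (fixingSubgroup_sup_le D W F hFN)

theorem isGalois_kM : IsGalois ↥D.K ↥(MW D W) :=
  haveI := finiteDimensional_sup D F hFur
  isGalois_MK_K D.le (kerW D W) (kerW_le D W) (F ⊔ D.L) (fixingSubgroup_sup_le D W F hFN)
    (kerW_normal D W)

theorem isGalois_FM : @IsGalois ↥(BaseDict28.LK D) _ ↥(MW D W) _ (algFM D W) :=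
  haveI := finiteDimensional_sup D F hFur
  isGalois_MK_LK D.le (kerW D W) (kerW_le D W) (F ⊔ D.L) (fixingSubgroup_sup_le D W F hFN)
    (kerW_normal_L D W)

/-- The restriction `G_L → Gal(M/F)`. -/
noncomputable def resW :
    ↥D.L.fixingSubgroup →* (@AlgEquiv ↥(BaseDict28.LK D) ↥(MW D W) ↥(MW D W) _ _ _
      (algFM D W) (algFM D W)) :=
  haveI := finiteDimensional_sup D F hFur
  resMK D.le (kerW D W) (kerW_le D W) (F ⊔ D.L) (fixingSubgroup_sup_le D W F hFN)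
    (kerW_normal_L D W)

theorem resW_apply (σ : ↥D.L.fixingSubgroup) (x : ↥(MW D W)) :
    ((resW D W F hFur hFN σ x : ↥(MW D W)) : Ω) = (σ : GQ) x := rfl

theorem resW_surjective : Function.Surjective (resW D W F hFur hFN) :=
  haveI := finiteDimensional_sup D F hFur
  resMK_surjective D.le (kerW D W) (kerW_le D W) (F ⊔ D.L) (fixingSubgroup_sup_le D W F hFN)
    (kerW_normal_L D W)

theorem resW_eq_one_iff (σ : ↥D.L.fixingSubgroup) :
    resW D W F hFur hFN σ = 1 ↔ (σ : GQ) ∈ kerW D W :=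
  haveI := finiteDimensional_sup D F hFur
  resMK_eq_one_iff D.le (kerW D W) (kerW_le D W) (F ⊔ D.L) (fixingSubgroup_sup_le D W F hFN)
    (kerW_normal_L D W) σ

theorem comm_FM :
    letI := algFM D W
    ∀ a b : ↥(MW D W) ≃ₐ[↥(BaseDict28.LK D)] ↥(MW D W), a * b = b * a :=
  haveI := finiteDimensional_sup D F hFur
  resMK_comm D.le (kerW D W) (kerW_le D W) (F ⊔ D.L) (fixingSubgroup_sup_le D W F hFN)
    (kerW_normal_L D W) (kerW_comm D W)

theorem pow_FM :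
    letI := algFM D W
    ∀ a : ↥(MW D W) ≃ₐ[↥(BaseDict28.LK D)] ↥(MW D W), a ^ p = 1 :=
  haveI := finiteDimensional_sup D F hFur
  resMK_pow D.le (kerW D W) (kerW_le D W) (F ⊔ D.L) (fixingSubgroup_sup_le D W F hFN)
    (kerW_normal_L D W) p (kerW_pow D W)

include hW in
/-- `M/F` is unramified at every prime. -/
theorem hunr_FM :
    letI := algFM D W
    ∀ P : Ideal (𝓞 ↥(MW D W)), P.IsPrime → P ≠ ⊥ →
      P.inertia (↥(MW D W) ≃ₐ[↥(BaseDict28.LK D)] ↥(MW D W)) = ⊥ :=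
  haveI := finiteDimensional_sup D F hFur
  inertia_eq_bot_MK D.le (kerW D W) (kerW_le D W) (F ⊔ D.L) (fixingSubgroup_sup_le D W F hFN)
    (kerW_normal_L D W)
    (inertia_mem_of_unram_of_decomp (kerW D W) F hFur hFN
      (fun q hq A hA σ hσA hσ => kerW_decomp D W hW q hq A hA σ hσA hσ))

include hW in
/-- The primes of `M` over `Sg` split completely in `M/F`. -/
theorem hT_FM :
    letI := algFM D W
    ∀ P : Ideal (𝓞 ↥(MW D W)), P.IsPrime →
      (∃ t ∈ Sg, (((t : ℕ) : ℤ) : 𝓞 ↥(MW D W)) ∈ P) →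
      MulAction.stabilizer (↥(MW D W) ≃ₐ[↥(BaseDict28.LK D)] ↥(MW D W)) P = ⊥ := by
  haveI := finiteDimensional_sup D F hFur
  haveI := numberField_MW D W F hFur hFN
  intro P hP ⟨t, ht, htP⟩
  have hP0 : P ≠ ⊥ := by
    rintro rfl
    rw [Ideal.mem_bot] at htP
    have : ((t : ℕ) : ℤ) = 0 := by exact_mod_cast htP
    exact t.2.ne_zero (by exact_mod_cast this)
  refine stabilizer_eq_bot_MK D.le (kerW D W) (kerW_le D W) (F ⊔ D.L)
    (fixingSubgroup_sup_le D W F hFN) (kerW_normal_L D W) {n | ∃ t ∈ Sg, (t : ℕ) = n} ?_ P hP hP0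
    (t : ℕ) ⟨t, ht, rfl⟩ (by exact_mod_cast htP)
  rintro q ⟨t', ht', rfl⟩ A hA σ hσA hσ
  exact kerW_decomp D W hW t' ht' A hA σ hσA hσ

end Field

/-! ### `G_K → Gal(M/K)` and the conjugation action -/

section ResK

variable (F : IntermediateField ℚ Ω) (hFur : F.IsUnramifiedOutside Sg)
  (hFN : ∀ σ ∈ F.fixingSubgroup, σ ∈ D.L.fixingSubgroup → σ ∈ kerW D W)
include hFur hFN

/-- The restriction `G_K → Gal(M/K)`. -/
noncomputable def resKW : ↥D.K.fixingSubgroup →* (↥(MW D W) ≃ₐ[↥D.K] ↥(MW D W)) :=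
  haveI := finiteDimensional_sup D F hFur
  resK D.le (kerW D W) (kerW_le D W) (F ⊔ D.L) (fixingSubgroup_sup_le D W F hFN)
    (kerW_normal D W)

theorem resKW_apply (γ : ↥D.K.fixingSubgroup) (x : ↥(MW D W)) :
    ((resKW D W F hFur hFN γ x : ↥(MW D W)) : Ω) = (γ : GQ) x := rfl

theorem resKW_surjective : Function.Surjective (resKW D W F hFur hFN) := by
  intro δ
  set σ : GQ := (δ.restrictScalars ℚ).liftNormal Ω with hσ
  have hσM : ∀ x : ↥(MW D W), σ (x : Ω) = (δ x : ↥(MW D W)) := fun x =>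
    (δ.restrictScalars ℚ).liftNormal_commutes Ω x
  have hσK : σ ∈ D.K.fixingSubgroup := by
    rw [IntermediateField.mem_fixingSubgroup_iff]
    intro x hx
    have h1 := hσM (algebraMap ↥D.K ↥(MW D W) ⟨x, hx⟩)
    rw [δ.commutes] at h1
    exact h1
  refine ⟨⟨σ, hσK⟩, ?_⟩
  apply AlgEquiv.ext
  intro x
  exact Subtype.ext (hσM x)

/-- The restriction to `L` of `resKW γ` is `π D γ`. -/
theorem restrictNormal_resKW (γ : ↥D.K.fixingSubgroup) :
    letI := algFM D W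
    haveI := isScalarTower_kFM D W
    haveI := isGalois_LK D
    (resKW D W F hFur hFN γ).restrictNormal ↥(BaseDict28.LK D) = π D γ := by
  letI := algFM D W
  haveI := isScalarTower_kFM D W
  haveI := isGalois_LK D
  apply AlgEquiv.ext
  intro x
  apply Subtype.ext
  have h := AlgEquiv.restrictNormal_commutes (resKW D W F hFur hFN γ) ↥(BaseDict28.LK D) x
  have h' := congrArg (fun z : ↥(MW D W) => (z : Ω)) h
  rw [π_apply]
  exact h'

/-- `conjK (resKW γ) (resW s) = resW (γ s γ⁻¹)`. -/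
theorem conjK_resW (γ : ↥D.K.fixingSubgroup) (s : ↥D.L.fixingSubgroup)
    (hgs : (γ : GQ) * s * (γ : GQ)⁻¹ ∈ D.L.fixingSubgroup) :
    letI := algFM D W
    haveI := isScalarTower_kFM D W
    haveI := numberField_K D
    haveI := numberField_LK D
    haveI := numberField_MW D W F hFur hFN
    haveI := isGalois_LK D
    ElemArtinEquiv23.conjK (resKW D W F hFur hFN γ) (resW D W F hFur hFN s) =
      resW D W F hFur hFN ⟨(γ : GQ) * s * (γ : GQ)⁻¹, hgs⟩ := by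
  letI := algFM D W
  haveI := isScalarTower_kFM D W
  haveI := numberField_K D
  haveI := numberField_LK D
  haveI := numberField_MW D W F hFur hFN
  haveI := isGalois_LK D
  apply AlgEquiv.ext
  intro x
  exact Subtype.ext rfl

end ResK

/-! ### The map `W → eqHom (ρΔ D) (ω D)` and the bound -/

section Final

variable (F : IntermediateField ℚ Ω) (hFur : F.IsUnramifiedOutside Sg)
  (hFN : ∀ σ ∈ F.fixingSubgroup, σ ∈ D.L.fixingSubgroup → σ ∈ kerW D W)
include hFur hFN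

/-- `χ ∈ W` descended to `Gal(M/F)`. -/
noncomputable def cHom (χ : ↥W) :
    Additive (@AlgEquiv ↥(BaseDict28.LK D) ↥(MW D W) ↥(MW D W) _ _ _ (algFM D W) (algFM D W)) →+
      Module.Dual (ZMod p) D.Y :=
  haveI := finiteDimensional_sup D F hFur
  MonoidHom.toAdditiveLeft (descendMK D.le (kerW D W) (kerW_le D W) (F ⊔ D.L)
    (fixingSubgroup_sup_le D W F hFN) (kerW_normal_L D W) (χhom D χ.1)
    (fun _ hσ => hσ.2 χ.1 χ.2))

theorem cHom_res (χ : ↥W) (σ : ↥D.L.fixingSubgroup) :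
    cHom D W F hFur hFN χ (Additive.ofMul (resW D W F hFur hFN σ)) = ev D χ.1 σ σ.2 := by
  haveI := finiteDimensional_sup D F hFur
  exact congrArg Multiplicative.toAdd (descendMK_resMK D.le (kerW D W) (kerW_le D W) (F ⊔ D.L)
    (fixingSubgroup_sup_le D W F hFN) (kerW_normal_L D W) (χhom D χ.1)
    (fun _ hσ => hσ.2 χ.1 χ.2) σ)

/-- Two additive maps on `Gal(M/F)` agreeing on all `resW σ` are equal. -/
theorem hom_ext_res {A : Type*} [AddCommMonoid A]
    (f g : Additive (@AlgEquiv ↥(BaseDict28.LK D) ↥(MW D W) ↥(MW D W) _ _ _ (algFM D W)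
      (algFM D W)) →+ A)
    (h : ∀ σ : ↥D.L.fixingSubgroup, f (Additive.ofMul (resW D W F hFur hFN σ)) =
      g (Additive.ofMul (resW D W F hFur hFN σ))) : f = g := by
  apply AddMonoidHom.ext
  intro a
  obtain ⟨σ, hσ⟩ := resW_surjective D W F hFur hFN (Additive.toMul a)
  have : a = Additive.ofMul (resW D W F hFur hFN σ) := by rw [hσ]; rfl
  rw [this]
  exact h σ

/-- `cHom χ` is `Gal(M/K)`-equivariant: it lies in helper23's `eqHom (ρΔ D) (ω D)`. -/
theorem cHom_mem (χ : ↥W) :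
    letI := algFM D W
    haveI := isScalarTower_kFM D W
    haveI := numberField_K D
    haveI := numberField_LK D
    haveI := numberField_MW D W F hFur hFN
    haveI := isGalois_LK D
    cHom D W F hFur hFN χ ∈ ElemArtinTwist23.eqHom (M := ↥(MW D W)) (ρΔ D) (ω D) := by
  letI := algFM D W
  haveI := isScalarTower_kFM D W
  haveI := numberField_K D
  haveI := numberField_LK D
  haveI := numberField_MW D W F hFur hFN
  haveI := isGalois_LK D
  rw [ElemArtinTwist23.mem_eqHom]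
  intro δ g y
  obtain ⟨γ, rfl⟩ := resKW_surjective D W F hFur hFN δ
  obtain ⟨s, rfl⟩ := resW_surjective D W F hFur hFN g
  have hgs := conj_mem_L D γ γ.2 s s.2
  rw [conjK_resW D W F hFur hFN γ s hgs, restrictNormal_resKW D W F hFur hFN γ, cHom_res,
    cHom_res, ρΔ_π, ω_π]
  exact ev_conj D χ.1 γ s s.2 hgs y

/-- **The comparison map** `W → Hom_Δ(Gal(M/L), Y^∨(1))`. -/
noncomputable def Ψ :
    letI := algFM D W
    haveI := isScalarTower_kFM D W
    haveI := numberField_K D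
    haveI := numberField_LK D
    haveI := numberField_MW D W F hFur hFN
    haveI := isGalois_LK D
    ↥W →ₗ[ZMod p] ↥(ElemArtinTwist23.eqHom (M := ↥(MW D W)) (ρΔ D) (ω D)) :=
  letI := algFM D W
  haveI := isScalarTower_kFM D W
  haveI := numberField_K D
  haveI := numberField_LK D
  haveI := numberField_MW D W F hFur hFN
  haveI := isGalois_LK D
  { toFun := fun χ => ⟨cHom D W F hFur hFN χ, cHom_mem D W F hFur hFN χ⟩
    map_add' := fun χ χ' => by
      apply Subtype.ext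
      apply hom_ext_res D W F hFur hFN
      intro σ
      show cHom D W F hFur hFN (χ + χ') _ = cHom D W F hFur hFN χ _ + cHom D W F hFur hFN χ' _
      rw [cHom_res, cHom_res, cHom_res]
      rfl
    map_smul' := fun r χ => by
      apply Subtype.ext
      apply hom_ext_res D W F hFur hFN
      intro σ
      show cHom D W F hFur hFN (r • χ) _ = r • cHom D W F hFur hFN χ _
      rw [cHom_res, cHom_res]
      rfl }

theorem Ψ_injective : Function.Injective (Ψ D W F hFur hFN) := by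
  intro χ χ' h
  have h1 : ∀ σ : ↥D.L.fixingSubgroup, ev D χ.1 σ σ.2 = ev D χ'.1 σ σ.2 := by
    intro σ
    rw [← cHom_res D W F hFur hFN χ σ, ← cHom_res D W F hFur hFN χ' σ]
    exact congrArg (fun c => (c.1 : _ →+ Module.Dual (ZMod p) D.Y)
      (Additive.ofMul (resW D W F hFur hFN σ))) h
  apply Subtype.ext
  rw [← sub_eq_zero]
  apply eq_zero_of_ev
  intro σ hσ
  show ev D χ.1 σ hσ - ev D χ'.1 σ hσ = 0
  rw [sub_eq_zero]
  exact h1 ⟨σ, hσ⟩

end Final

/-! ### The bound -/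

/-- `L ∋ ζ_p` is totally complex for `p` odd. -/
theorem isTotallyComplex_LK (hp2 : p ≠ 2) :
    haveI := numberField_LK D
    NumberField.IsTotallyComplex ↥(BaseDict28.LK D) := by
  haveI := numberField_LK D
  obtain ⟨ζ, hζ⟩ := exists_zeta_LK D
  have h2 : 2 < p := lt_of_le_of_ne (Fact.out : p.Prime).two_le (Ne.symm hp2)
  exact NumberField.nrRealPlaces_eq_zero_iff.mp
    (NumberField.InfinitePlace.IsPrimitiveRoot.nrRealPlaces_eq_zero_of_two_lt h2 hζ)

open Fermat.Agent.ES.T56.TwistNum28 Fermat.Agent.ES.T56.ElemArtinCoker23 in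
/-- **(K2) for a finite-dimensional `W ≤ ShaHom (dualDatum D)`.** -/
theorem finrank_le_twNum (hp2 : p ≠ 2) (hW : W ≤ ShaHom (dualDatum D))
    [FiniteDimensional (ZMod p) ↥W] :
    haveI := numberField_K D
    haveI := numberField_LK D
    ∀ [Module.Finite (ZMod p) ↥(twAdd (cokerRep Sg ↥D.K ↥(BaseDict28.LK D)) (ω D) (ρΔ D))],
      finrank (ZMod p) ↥W ≤ twNum (cokerRep Sg ↥D.K ↥(BaseDict28.LK D)) (ω D) (ρΔ D) := by
  haveI := numberField_K D
  haveI := numberField_LK D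
  intro hfin
  obtain ⟨F, hFur, hFN⟩ := exists_common_level D W hW
  letI := algFM D W
  haveI := isScalarTower_kFM D W
  haveI := numberField_MW D W F hFur hFN
  haveI := isGalois_LK D
  haveI := isGalois_kM D W F hFur hFN
  haveI := isGalois_FM D W F hFur hFN
  haveI := isTotallyComplex_LK D hp2
  haveI : IsMulCommutative (↥(MW D W) ≃ₐ[↥(BaseDict28.LK D)] ↥(MW D W)) :=
    ⟨⟨comm_FM D W F hFur hFN⟩⟩
  have h1 := finrank_eqHom_le_twNum_coker Sg (k := ↥D.K) (F := ↥(BaseDict28.LK D))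
    (M := ↥(MW D W)) (pow_FM D W F hFur hFN) (hunr_FM D W hW F hFur hFN)
    (hT_FM D W hW F hFur hFN) (ρΔ D) (ω D)
  haveI := D.fd
  haveI : Finite D.Y := Module.finite_of_finite (ZMod p)
  haveI : Finite (Module.Dual (ZMod p) D.Y) := DFunLike.finite _
  haveI : Finite (Additive (↥(MW D W) ≃ₐ[↥(BaseDict28.LK D)] ↥(MW D W)) →+
      Module.Dual (ZMod p) D.Y) := DFunLike.finite _
  haveI : Module.Finite (ZMod p)
      ↥(ElemArtinTwist23.eqHom (M := ↥(MW D W)) (ρΔ D) (ω D)) := Module.Finite.of_finite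
  exact (LinearMap.finrank_le_finrank_of_injective (Ψ_injective D W F hFur hFN)).trans h1

open Fermat.Agent.ES.T56.TwistNum28 Fermat.Agent.ES.T56.ElemArtinCoker23 in
/-- **(K2)**: `dim Ш¹_{Sg}(G_ℚ, (Coind_{G_K}^{G_ℚ} Y)^∨(1)) ≤ ⟨Cl_{Sg}(L)⟩`. -/
theorem finrank_sha_dual_le_twNum (hp2 : p ≠ 2)
    [FiniteDimensional (ZMod p) ↥(groupCohomology.sha₁ Sg (dualT p D.rep))] :
    haveI := numberField_K D
    haveI := numberField_LK D
    ∀ [Module.Finite (ZMod p) ↥(twAdd (cokerRep Sg ↥D.K ↥(BaseDict28.LK D)) (ω D) (ρΔ D))],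
      finrank (ZMod p) ↥(groupCohomology.sha₁ Sg (dualT p D.rep)) ≤
        twNum (cokerRep Sg ↥D.K ↥(BaseDict28.LK D)) (ω D) (ρΔ D) := by
  haveI := numberField_K D
  haveI := numberField_LK D
  intro hfin
  refine ShaRestrictDual3.finrank_sha_dual_le D _ fun W hW hWfd => ?_
  haveI := hWfd
  exact finrank_le_twNum D W hp2 hW

end Fermat.Agent.ES.T56.K2Final16
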