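/-
Programme T (S56), chapter GW-D (base case of Tate's global Euler characteristic), helper13:
**a rational representation of a finite cyclic group is determined by the dimensions of the fixed
spaces of its subgroups** (leaf of the equivariant Dirichlet unit theorem, (O4) of the GW plan).

* `exists_linearEquiv_of_finrank_torsionBy_eq` : `K` a field, `M N` finite-dimensional `K`-spaces
  with compatible `K[X]`-module structures, both killed by `∏ i ∈ S, q i` with the `q i` irreducible
  and pairwise coprime: if `dim_K M[q i] = dim_K N[q i]` for all `i ∈ S` then `M ≃ N` as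
  `K[X]`-modules (`M[q i]` is a vector space over the field `K[X]/(q i)`).
* `finrank_torsionBy_prod` : `dim_K M[∏ q i] = ∑ dim_K M[q i]` for pairwise coprime `q i`.
* `exists_equiv_of_finrank_ker_pow_eq` : `f : End V`, `f' : End W` over `ℚ` with `f^n = 1 = f'^n`
  and `dim ker (f^e - 1) = dim ker (f'^e - 1)` for all `e ∣ n`: `V ≃ W` intertwining `f` and `f'`.
* **`exists_equiv_of_finrank_fixed_eq`** : `Δ` finite cyclic, `ρ σ` representations of `Δ` on
  finite-dimensional `ℚ`-spaces with `dim V^H = dim W^H` for all subgroups `H`: `ρ ≅ σ`.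
-/
import Mathlib

set_option autoImplicit false
set_option linter.style.haveILetI false
set_option linter.unusedSectionVars false

open Polynomial Module Submodule

namespace Fermat.Agent.ES.T56.CyclicFixed13

/-! ### `K[X]`-modules killed by a product of coprime irreducibles -/

section PolyModule

variable {K : Type*} [Field K]
variable {M : Type*} [AddCommGroup M] [Module K M] [Module K[X] M] [IsScalarTower K K[X] M]
variable {N : Type*} [AddCommGroup N] [Module K N] [Module K[X] N] [IsScalarTower K K[X] N]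

/-- the `K`-structure of `M[π]` is the restriction of its `K[X]/(π)`-structure. -/
theorem isScalarTower_torsionBy (π : K[X]) :
    IsScalarTower K (K[X] ⧸ Ideal.span {π}) ↥(torsionBy K[X] M π) := by
  refine ⟨fun a b x => ?_⟩
  obtain ⟨c, rfl⟩ := Ideal.Quotient.mk_surjective b
  have h1 : a • (Ideal.Quotient.mk (Ideal.span {π}) c) =
      Ideal.Quotient.mk (Ideal.span {π}) (a • c) := rfl
  rw [h1, torsionBy.mk_ideal_smul, torsionBy.mk_ideal_smul, smul_assoc]

/-- a `K[X]`-submodule of a finite-dimensional space is finite-dimensional over `K`. -/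
theorem finite_of_submodule [FiniteDimensional K M] (P : Submodule K[X] M) : Module.Finite K ↥P :=
  Module.Finite.of_injective (P.subtype.restrictScalars K) Subtype.val_injective

/-- for `π` irreducible, `M[π] ≃ N[π]` as `K[X]`-modules as soon as the `K`-dimensions agree:
both are vector spaces over the field `K[X]/(π)`. -/
theorem exists_linearEquiv_torsionBy [FiniteDimensional K M] [FiniteDimensional K N]
    (π : K[X]) (hπ : Irreducible π)
    (h : finrank K ↥(torsionBy K[X] M π) = finrank K ↥(torsionBy K[X] N π)) :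
    Nonempty (↥(torsionBy K[X] M π) ≃ₗ[K[X]] ↥(torsionBy K[X] N π)) := by
  haveI : (Ideal.span {π}).IsMaximal := PrincipalIdealRing.isMaximal_of_irreducible hπ
  letI : Field (K[X] ⧸ Ideal.span {π}) := Ideal.Quotient.field _
  have h1 : finrank K (K[X] ⧸ Ideal.span {π}) = π.natDegree :=
    (AdjoinRoot.powerBasis hπ.ne_zero).finrank
  have hdeg : π.natDegree ≠ 0 := (Polynomial.natDegree_pos_iff_degree_pos.mpr
    (Polynomial.degree_pos_of_irreducible hπ)).ne'
  haveI := isScalarTower_torsionBy (M := M) π
  haveI := isScalarTower_torsionBy (M := N) π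
  haveI := finite_of_submodule (torsionBy K[X] M π)
  haveI := finite_of_submodule (torsionBy K[X] N π)
  haveI : Module.Finite (K[X] ⧸ Ideal.span {π}) ↥(torsionBy K[X] M π) :=
    Module.Finite.of_restrictScalars_finite K _ _
  haveI : Module.Finite (K[X] ⧸ Ideal.span {π}) ↥(torsionBy K[X] N π) :=
    Module.Finite.of_restrictScalars_finite K _ _
  have hM := Module.finrank_mul_finrank K (K[X] ⧸ Ideal.span {π}) ↥(torsionBy K[X] M π)
  have hN := Module.finrank_mul_finrank K (K[X] ⧸ Ideal.span {π}) ↥(torsionBy K[X] N π)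
  rw [h1] at hM hN
  have hF : finrank (K[X] ⧸ Ideal.span {π}) ↥(torsionBy K[X] M π) =
      finrank (K[X] ⧸ Ideal.span {π}) ↥(torsionBy K[X] N π) := by
    apply Nat.eq_of_mul_eq_mul_left (Nat.pos_of_ne_zero hdeg)
    rw [hM, hN, h]
  let e := LinearEquiv.ofFinrankEq _ _ hF
  refine ⟨{ e.toAddEquiv with map_smul' := fun c x => ?_ }⟩
  show e (c • x) = c • e x
  rw [← torsionBy.mk_ideal_smul, map_smul, torsionBy.mk_ideal_smul]

open scoped Function in
/-- **a `K[X]`-module killed by a product of pairwise coprime irreducibles is determined by the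
`K`-dimensions of its primary parts.** -/
theorem exists_linearEquiv_of_finrank_torsionBy_eq [FiniteDimensional K M] [FiniteDimensional K N]
    {ι : Type*} [DecidableEq ι] (S : Finset ι) (q : ι → K[X])
    (hirr : ∀ i ∈ S, Irreducible (q i)) (hcop : (S : Set ι).Pairwise (IsCoprime on q))
    (hM : Module.IsTorsionBy K[X] M (∏ i ∈ S, q i))
    (hN : Module.IsTorsionBy K[X] N (∏ i ∈ S, q i))
    (h : ∀ i ∈ S, finrank K ↥(torsionBy K[X] M (q i)) = finrank K ↥(torsionBy K[X] N (q i))) :
    Nonempty (M ≃ₗ[K[X]] N) := by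
  classical
  have hIM := torsionBy_isInternal hcop hM
  have hIN := torsionBy_isInternal hcop hN
  let eM := LinearEquiv.ofBijective (DirectSum.coeLinearMap _) hIM
  let eN := LinearEquiv.ofBijective (DirectSum.coeLinearMap _) hIN
  have he : ∀ i : S, Nonempty (↥(torsionBy K[X] M (q i)) ≃ₗ[K[X]] ↥(torsionBy K[X] N (q i))) :=
    fun i => exists_linearEquiv_torsionBy (q i) (hirr i i.2) (h i i.2)
  let e : ∀ i : S, ↥(torsionBy K[X] M (q i)) ≃ₗ[K[X]] ↥(torsionBy K[X] N (q i)) :=
    fun i => (he i).some
  exact ⟨eM.symm.trans ((DFinsupp.mapRange.linearEquiv e).trans eN)⟩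

end PolyModule

/-! ### Endomorphisms killed by a product of coprime irreducibles -/

section Endo

variable {K : Type*} [Field K]
variable {V : Type*} [AddCommGroup V] [Module K V] [FiniteDimensional K V]
variable {W : Type*} [AddCommGroup W] [Module K W] [FiniteDimensional K W]

/-- `dim ker (pq)(f) = dim ker p(f) + dim ker q(f)` for coprime `p`, `q`. -/
theorem finrank_ker_aeval_mul (f : V →ₗ[K] V) {p q : K[X]} (hpq : IsCoprime p q) :
    finrank K ↥(LinearMap.ker (aeval f (p * q))) =
      finrank K ↥(LinearMap.ker (aeval f p)) + finrank K ↥(LinearMap.ker (aeval f q)) := by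
  have h := Submodule.finrank_sup_add_finrank_inf_eq (LinearMap.ker (aeval f p))
    (LinearMap.ker (aeval f q))
  rw [sup_ker_aeval_eq_ker_aeval_mul_of_coprime f hpq,
    (disjoint_ker_aeval_of_isCoprime f hpq).eq_bot, finrank_bot, add_zero] at h
  exact h

open scoped Function in
/-- `dim ker (∏ q i)(f) = ∑ dim ker (q i)(f)` for pairwise coprime `q i`. -/
theorem finrank_ker_aeval_prod (f : V →ₗ[K] V) {ι : Type*} [DecidableEq ι] (S : Finset ι)
    (q : ι → K[X]) (hcop : (S : Set ι).Pairwise (IsCoprime on q)) :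
    finrank K ↥(LinearMap.ker (aeval f (∏ i ∈ S, q i))) =
      ∑ i ∈ S, finrank K ↥(LinearMap.ker (aeval f (q i))) := by
  induction S using Finset.induction_on with
  | empty =>
    rw [Finset.prod_empty, Finset.sum_empty, map_one]
    have : LinearMap.ker (1 : V →ₗ[K] V) = ⊥ := LinearMap.ker_eq_bot.mpr (fun _ _ h => h)
    rw [this, finrank_bot]
  | insert a S ha ih =>
    rw [Finset.prod_insert ha, Finset.sum_insert ha]
    have hcop' : (S : Set ι).Pairwise (IsCoprime on q) :=
      hcop.mono (by rw [Finset.coe_insert]; exact Set.subset_insert _ _)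
    have hco : IsCoprime (q a) (∏ i ∈ S, q i) := by
      refine IsCoprime.prod_right fun i hi => ?_
      have hai : a ≠ i := fun h => ha (h ▸ hi)
      exact hcop (by rw [Finset.coe_insert]; exact Set.mem_insert _ _)
        (by rw [Finset.coe_insert]; exact Set.mem_insert_of_mem _ hi) hai
    rw [finrank_ker_aeval_mul f hco, ih hcop']

/-- the `a`-torsion of `Module.AEval' f` is `ker a(f)`. -/
theorem finrank_torsionBy_aeval' (f : V →ₗ[K] V) (a : K[X]) :
    finrank K ↥(torsionBy K[X] (Module.AEval' f) a) = finrank K ↥(LinearMap.ker (aeval f a)) := by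
  refine LinearEquiv.finrank_eq
    { toFun := fun x => ⟨(Module.AEval'.of f).symm x.1, ?_⟩
      invFun := fun y => ⟨Module.AEval'.of f y.1, ?_⟩
      map_add' := fun x y => by ext; simp
      map_smul' := fun c x => by ext; simp
      left_inv := fun x => by ext; simp
      right_inv := fun y => by ext; simp }
  · rw [LinearMap.mem_ker]
    have hx := x.2
    rw [mem_torsionBy_iff] at hx
    have h2 := Module.AEval.of_aeval_smul (R := K) (M := V) f a ((Module.AEval'.of f).symm x.1)
    rw [LinearEquiv.apply_symm_apply, hx] at h2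
    exact (Module.AEval'.of f).map_eq_zero_iff.mp h2
  · rw [mem_torsionBy_iff, ← Module.AEval.of_aeval_smul]
    have hy := y.2
    rw [LinearMap.mem_ker] at hy
    show (Module.AEval'.of f) (aeval f a • y.1) = 0
    rw [Module.End.smul_def, hy, map_zero]

open scoped Function in
/-- **two endomorphisms killed by a product of pairwise coprime irreducibles `q i`, with the same
`dim ker (q i)`, are conjugate.** -/
theorem exists_equiv_of_finrank_ker_aeval_eq (f : V →ₗ[K] V) (f' : W →ₗ[K] W)
    {ι : Type*} [DecidableEq ι] (S : Finset ι) (q : ι → K[X])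
    (hirr : ∀ i ∈ S, Irreducible (q i)) (hcop : (S : Set ι).Pairwise (IsCoprime on q))
    (hf : aeval f (∏ i ∈ S, q i) = 0) (hf' : aeval f' (∏ i ∈ S, q i) = 0)
    (h : ∀ i ∈ S, finrank K ↥(LinearMap.ker (aeval f (q i))) =
      finrank K ↥(LinearMap.ker (aeval f' (q i)))) :
    ∃ e : V ≃ₗ[K] W, ∀ v, e (f v) = f' (e v) := by
  have hM : Module.IsTorsionBy K[X] (Module.AEval' f) (∏ i ∈ S, q i) := by
    intro x
    obtain ⟨v, rfl⟩ := (Module.AEval'.of f).surjective x
    rw [← Module.AEval.of_aeval_smul, hf, zero_smul, map_zero]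
  have hN : Module.IsTorsionBy K[X] (Module.AEval' f') (∏ i ∈ S, q i) := by
    intro x
    obtain ⟨v, rfl⟩ := (Module.AEval'.of f').surjective x
    rw [← Module.AEval.of_aeval_smul, hf', zero_smul, map_zero]
  obtain ⟨φ⟩ := exists_linearEquiv_of_finrank_torsionBy_eq (K := K) S q hirr hcop hM hN
    (fun i hi => by rw [finrank_torsionBy_aeval', finrank_torsionBy_aeval', h i hi])
  refine ⟨(Module.AEval'.of f).trans ((φ.restrictScalars K).trans (Module.AEval'.of f').symm),
    fun v => ?_⟩
  show (Module.AEval'.of f').symm (φ (Module.AEval'.of f (f v))) =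
    f' ((Module.AEval'.of f').symm (φ (Module.AEval'.of f v)))
  rw [← Module.AEval'.X_smul_of, map_smul, Module.AEval'.of_symm_X_smul]

end Endo

/-! ### Over `ℚ`: endomorphisms of finite order -/

section Rat

variable {V : Type*} [AddCommGroup V] [Module ℚ V] [FiniteDimensional ℚ V]
variable {W : Type*} [AddCommGroup W] [Module ℚ W] [FiniteDimensional ℚ W]

theorem aeval_X_pow_sub_one (f : V →ₗ[ℚ] V) (e : ℕ) :
    aeval f (X ^ e - 1 : ℚ[X]) = f ^ e - 1 := by
  rw [map_sub, map_pow, aeval_X, map_one]

/-- `dim ker (f^e - 1) = ∑_{d ∣ e} dim ker Φ_d(f)`. -/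
theorem finrank_ker_pow_sub_one (f : V →ₗ[ℚ] V) {e : ℕ} (he : 0 < e) :
    finrank ℚ ↥(LinearMap.ker (f ^ e - 1)) =
      ∑ d ∈ e.divisors, finrank ℚ ↥(LinearMap.ker (aeval f (cyclotomic d ℚ))) := by
  rw [← aeval_X_pow_sub_one, ← prod_cyclotomic_eq_X_pow_sub_one he ℚ]
  exact finrank_ker_aeval_prod f e.divisors (fun d => cyclotomic d ℚ)
    (fun i _ j _ hij => cyclotomic.isCoprime_rat hij)

/-- the dimensions of `ker (f^e - 1)`, `e ∣ n`, determine those of `ker Φ_d(f)`, `d ∣ n`. -/
theorem finrank_ker_cyclotomic_eq (f : V →ₗ[ℚ] V) (f' : W →ₗ[ℚ] W) {n : ℕ} (hn : 0 < n)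
    (h : ∀ e, e ∣ n → finrank ℚ ↥(LinearMap.ker (f ^ e - 1)) =
      finrank ℚ ↥(LinearMap.ker (f' ^ e - 1))) :
    ∀ d, d ∣ n → finrank ℚ ↥(LinearMap.ker (aeval f (cyclotomic d ℚ))) =
      finrank ℚ ↥(LinearMap.ker (aeval f' (cyclotomic d ℚ))) := by
  intro d
  induction d using Nat.strong_induction_on with
  | _ d ih =>
    intro hd
    have hd0 : 0 < d := Nat.pos_of_dvd_of_pos hd hn
    have h1 := finrank_ker_pow_sub_one f hd0
    have h2 := finrank_ker_pow_sub_one f' hd0
    rw [← Nat.insert_self_properDivisors hd0.ne',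
      Finset.sum_insert Nat.self_notMem_properDivisors] at h1 h2
    have h3 : ∑ i ∈ d.properDivisors, finrank ℚ ↥(LinearMap.ker (aeval f (cyclotomic i ℚ))) =
        ∑ i ∈ d.properDivisors, finrank ℚ ↥(LinearMap.ker (aeval f' (cyclotomic i ℚ))) := by
      refine Finset.sum_congr rfl fun i hi => ?_
      rw [Nat.mem_properDivisors] at hi
      exact ih i hi.2 (hi.1.trans hd)
    have h4 := h d hd
    omega

/-- **two endomorphisms of finite order `n` over `ℚ` with `dim ker (f^e - 1) = dim ker (f'^e - 1)`
for all `e ∣ n` are conjugate.** -/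
theorem exists_equiv_of_finrank_ker_pow_eq (f : V →ₗ[ℚ] V) (f' : W →ₗ[ℚ] W) {n : ℕ} (hn : 0 < n)
    (hf : f ^ n = 1) (hf' : f' ^ n = 1)
    (h : ∀ e, e ∣ n → finrank ℚ ↥(LinearMap.ker (f ^ e - 1)) =
      finrank ℚ ↥(LinearMap.ker (f' ^ e - 1))) :
    ∃ e : V ≃ₗ[ℚ] W, ∀ v, e (f v) = f' (e v) := by
  refine exists_equiv_of_finrank_ker_aeval_eq f f' n.divisors (fun d => cyclotomic d ℚ)
    (fun d hd => cyclotomic.irreducible_rat (Nat.pos_of_mem_divisors hd))
    (fun i _ j _ hij => cyclotomic.isCoprime_rat hij) ?_ ?_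
    (fun d hd => finrank_ker_cyclotomic_eq f f' hn h d (Nat.dvd_of_mem_divisors hd))
  · rw [prod_cyclotomic_eq_X_pow_sub_one hn ℚ, aeval_X_pow_sub_one, hf, sub_self]
  · rw [prod_cyclotomic_eq_X_pow_sub_one hn ℚ, aeval_X_pow_sub_one, hf', sub_self]

end Rat

/-! ### Representations of a finite cyclic group over `ℚ` -/

section Group

variable {k : Type*} [Field k] {Δ : Type*} [Group Δ]
variable {V : Type*} [AddCommGroup V] [Module k V]

/-- the fixed space `V^H` of a subgroup. -/
def fixedSpace (ρ : Representation k Δ V) (H : Subgroup Δ) : Submodule k V where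
  carrier := {v | ∀ h ∈ H, ρ h v = v}
  add_mem' := fun {a b} ha hb h hh => by rw [map_add, ha h hh, hb h hh]
  zero_mem' := fun h _ => map_zero _
  smul_mem' := fun c v hv h hh => by rw [map_smul, hv h hh]

theorem mem_fixedSpace {ρ : Representation k Δ V} {H : Subgroup Δ} {v : V} :
    v ∈ fixedSpace ρ H ↔ ∀ h ∈ H, ρ h v = v := Iff.rfl

/-- the fixed space of the cyclic subgroup generated by `x` is `ker (ρ x - 1)`. -/
theorem fixedSpace_zpowers (ρ : Representation k Δ V) (x : Δ) :
    fixedSpace ρ (Subgroup.zpowers x) = LinearMap.ker (ρ x - 1) := by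
  ext v
  rw [mem_fixedSpace, LinearMap.mem_ker, LinearMap.sub_apply, Module.End.one_apply, sub_eq_zero]
  constructor
  · intro h
    exact h x (Subgroup.mem_zpowers x)
  · intro h y hy
    -- the stabiliser of `v` is a subgroup containing `x`
    let St : Subgroup Δ :=
      { carrier := {y | ρ y v = v}
        mul_mem' := fun {a b} ha hb => by
          show ρ (a * b) v = v
          rw [map_mul, Module.End.mul_apply, hb, ha]
        one_mem' := by
          show ρ 1 v = v
          rw [map_one, Module.End.one_apply]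
        inv_mem' := fun {a} ha => by
          show ρ a⁻¹ v = v
          have h1 : ρ a⁻¹ (ρ a v) = v := by
            rw [← Module.End.mul_apply, ← map_mul, inv_mul_cancel, map_one, Module.End.one_apply]
          rwa [ha] at h1 }
    have hle : Subgroup.zpowers x ≤ St := (Subgroup.zpowers_le).mpr h
    exact hle hy

end Group

section CyclicRat

variable {Δ : Type*} [Group Δ] [Finite Δ] [IsCyclic Δ]
variable {V : Type*} [AddCommGroup V] [Module ℚ V] [FiniteDimensional ℚ V]
variable {W : Type*} [AddCommGroup W] [Module ℚ W] [FiniteDimensional ℚ W]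

/-- **A rational representation of a finite cyclic group is determined by the dimensions of the
fixed spaces of its subgroups.** -/
theorem exists_equiv_of_finrank_fixed_eq (ρ : Representation ℚ Δ V) (σ : Representation ℚ Δ W)
    (h : ∀ H : Subgroup Δ, finrank ℚ ↥(fixedSpace ρ H) = finrank ℚ ↥(fixedSpace σ H)) :
    ∃ e : V ≃ₗ[ℚ] W, ∀ g v, e (ρ g v) = σ g (e v) := by
  obtain ⟨g, hg⟩ := IsCyclic.exists_generator (α := Δ)
  have hn : 0 < Nat.card Δ := Nat.card_pos
  have hgn : g ^ Nat.card Δ = 1 := pow_card_eq_one'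
  obtain ⟨e, he⟩ := exists_equiv_of_finrank_ker_pow_eq (ρ g) (σ g) hn
    (by rw [← map_pow, hgn, map_one]) (by rw [← map_pow, hgn, map_one])
    (fun m _ => by
      rw [← map_pow, ← map_pow, ← fixedSpace_zpowers, ← fixedSpace_zpowers]
      exact h _)
  refine ⟨e, fun x v => ?_⟩
  -- the elements intertwined by `e` form a subgroup containing the generator
  let H₀ : Subgroup Δ :=
    { carrier := {x | ∀ v, e (ρ x v) = σ x (e v)}
      mul_mem' := fun {a b} ha hb v => by
        rw [map_mul, map_mul, Module.End.mul_apply, Module.End.mul_apply, ha, hb]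
      one_mem' := fun v => by
        rw [map_one, map_one, Module.End.one_apply, Module.End.one_apply]
      inv_mem' := fun {a} ha v => by
        have h1 : σ a (e (ρ a⁻¹ v)) = e v := by
          rw [← ha, ← Module.End.mul_apply, ← map_mul, mul_inv_cancel, map_one,
            Module.End.one_apply]
        have h2 : σ a⁻¹ (σ a (e (ρ a⁻¹ v))) = e (ρ a⁻¹ v) := by
          rw [← Module.End.mul_apply, ← map_mul, inv_mul_cancel, map_one, Module.End.one_apply]
        rw [← h2, h1] }
  have hle : Subgroup.zpowers g ≤ H₀ := (Subgroup.zpowers_le).mpr he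
  exact hle (hg x) v

end CyclicRat

end Fermat.Agent.ES.T56.CyclicFixed13
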