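/-
Programme T (S56), chapter GW-D (base case), helper13.

`BrauerNesbitt13`: **Brauer–Nesbitt for a cyclic group of order prime to `p`, by characteristic
polynomials** (no `K₀`, no lattice chains; gives honest ISOMORPHISMS).

* `matrix_charpoly_dvd_pow`, `charpoly_dvd_pow`: if `q(f) = 0` then `charpoly f ∣ q ^ dim`
  (from `q(X)·1 - q(A) = Z · (X·1 - A)` and determinants);
* `charpoly_eq_pow_of_irreducible`: `π(f) = 0`, `π` irreducible monic ⇒ `charpoly f = π ^ m`,
  `m · deg π = dim`;
* `charpoly_eq_mul_of_coprime`: `(ab)(f) = 0`, `a`, `b` coprime ⇒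
  `charpoly f = charpoly (f | ker a(f)) · charpoly (f | ker b(f))`;
* `finrank_ker_eq_multiplicity_mul`: `dim ker π(f) = mult_π(charpoly f) · deg π`;
* `exists_equiv_of_charpoly_eq`: two endomorphisms killed by a squarefree polynomial with the same
  characteristic polynomial are conjugate; `exists_equiv_of_pow_eq_one`: the case `f ^ n = 1`,
  `n` invertible;
* `exists_equiv_baseChange`, `charpoly_eq_of_baseChange_equiv`, `exists_equiv_zmod_of_rat`:
  lattices with automorphisms of order prime to `p` which are conjugate over `ℚ` are conjugate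
  mod `p`;
* `finrank_ker_baseChange_rat`, `exists_equiv_rat_of_finrank_ker_pow_eq`;
* `fixedLattice`, `baseChangeRep`, **`exists_equiv_zmod_of_finrank_fixed_eq`**: two representations
  of a finite cyclic group `Δ`, `p ∤ #Δ`, on `ℤ`-lattices with `rank A^H = rank B^H` for all `H ≤ Δ`
  have `Δ`-isomorphic reductions mod `p`.
-/
import Mathlib
import Fermat.Agent.ES.T56.CyclicFixed13

set_option autoImplicit false

open Polynomial Module

namespace Fermat.Agent.ES.T56.BrauerNesbitt13

open Fermat.Agent.ES.T56.CyclicFixed13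

/-! ### `charpoly f ∣ q ^ dim` when `q(f) = 0` -/

/-- for commuting `x y` in a `K`-algebra, `x - y` right-divides `q(x) - q(y)`. -/
theorem exists_aeval_sub_aeval_eq_mul {K B : Type*} [CommRing K] [Ring B] [Algebra K B]
    {x y : B} (h : Commute x y) (q : K[X]) :
    ∃ z : B, aeval x q - aeval y q = z * (x - y) := by
  induction q using Polynomial.induction_on' with
  | add p q hp hq =>
    obtain ⟨z₁, h₁⟩ := hp
    obtain ⟨z₂, h₂⟩ := hq
    refine ⟨z₁ + z₂, ?_⟩
    rw [map_add, map_add, add_mul, ← h₁, ← h₂]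
    abel
  | monomial n a =>
    refine ⟨a • ∑ i ∈ Finset.range n, x ^ i * y ^ (n - 1 - i), ?_⟩
    rw [aeval_monomial, aeval_monomial, smul_mul_assoc, h.geom_sum₂_mul, ← Algebra.smul_def,
      ← Algebra.smul_def, smul_sub]

/-- **if `q(A) = 0` then the characteristic polynomial of `A` divides `q ^ n`.** -/
theorem matrix_charpoly_dvd_pow {K : Type*} [CommRing K] {n : Type*} [Fintype n] [DecidableEq n]
    (A : Matrix n n K) (q : K[X]) (hq : aeval A q = 0) :
    A.charpoly ∣ q ^ Fintype.card n := by
  set x : Matrix n n K[X] := algebraMap K[X] (Matrix n n K[X]) X with hx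
  set y : Matrix n n K[X] := (C : K →+* K[X]).mapMatrix A with hy
  have hcomm : Commute x y := Algebra.commutes X y
  obtain ⟨z, hz⟩ := exists_aeval_sub_aeval_eq_mul (K := K) hcomm q
  have h1 : aeval x q = algebraMap K[X] (Matrix n n K[X]) q := by
    rw [hx, aeval_algebraMap_apply, aeval_X_left_apply]
  have h2 : aeval y q = 0 := by
    have : y = (Polynomial.CAlgHom (R := K) (A := K)).mapMatrix A := rfl
    rw [this, aeval_algHom_apply, hq, map_zero]
  have h3 : x - y = A.charmatrix := by
    rw [hx, hy, Matrix.charmatrix]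
    rfl
  rw [h1, h2, sub_zero, h3] at hz
  have h4 := congrArg Matrix.det hz
  rw [Matrix.det_mul, Matrix.algebraMap_eq_diagonal, Matrix.det_diagonal] at h4
  simp only [Pi.algebraMap_apply, Algebra.algebraMap_self, RingHom.id_apply,
    Finset.prod_const, Finset.card_univ] at h4
  rw [h4]
  exact Dvd.intro_left _ rfl

section Field

variable {K : Type*} [Field K]
variable {V : Type*} [AddCommGroup V] [Module K V] [FiniteDimensional K V]
variable {W : Type*} [AddCommGroup W] [Module K W] [FiniteDimensional K W]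

/-- **if `q(f) = 0` then `charpoly f ∣ q ^ dim V`.** -/
theorem charpoly_dvd_pow (f : V →ₗ[K] V) (q : K[X]) (hq : aeval f q = 0) :
    f.charpoly ∣ q ^ finrank K V := by
  classical
  let b := Module.Free.chooseBasis K V
  rw [← LinearMap.charpoly_toMatrix f b, Module.finrank_eq_card_chooseBasisIndex]
  refine matrix_charpoly_dvd_pow _ q ?_
  have : LinearMap.toMatrix b b f = LinearMap.toMatrixAlgEquiv b f := rfl
  rw [this, aeval_algHom_apply, hq, map_zero]

/-- an endomorphism killed by an irreducible monic `π` has characteristic polynomial `π ^ m`,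
`m * deg π = dim V`. -/
theorem charpoly_eq_pow_of_irreducible (f : V →ₗ[K] V) {π : K[X]} (hπ : Irreducible π)
    (hm : π.Monic) (hq : aeval f π = 0) :
    ∃ m : ℕ, f.charpoly = π ^ m ∧ m * π.natDegree = finrank K V := by
  obtain ⟨m, -, hm'⟩ := (dvd_prime_pow hπ.prime _).1 (charpoly_dvd_pow f π hq)
  have h1 : f.charpoly = π ^ m :=
    eq_of_monic_of_associated f.charpoly_monic (hm.pow m) hm'
  refine ⟨m, h1, ?_⟩
  have h2 := LinearMap.charpoly_natDegree f
  rw [h1, natDegree_pow] at h2
  exact h2

omit [FiniteDimensional K V] in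
/-- `q(f|_p) = q(f)|_p`. -/
theorem coe_aeval_restrict (f : V →ₗ[K] V) (p : Submodule K V) (hp : ∀ x ∈ p, f x ∈ p)
    (q : K[X]) (x : p) :
    ((aeval (f.restrict hp) q x : p) : V) = aeval f q (x : V) := by
  induction q using Polynomial.induction_on' with
  | add a b ha hb =>
    rw [map_add, map_add, LinearMap.add_apply, LinearMap.add_apply, Submodule.coe_add, ha, hb]
  | monomial n a =>
    rw [aeval_monomial, aeval_monomial, Module.End.mul_apply, Module.End.mul_apply,
      Module.algebraMap_end_apply, Module.algebraMap_end_apply, Submodule.coe_smul,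
      Module.End.pow_restrict n hp, LinearMap.restrict_apply]

omit [FiniteDimensional K V] in
/-- `ker q(f)` is `f`-stable. -/
theorem ker_aeval_invariant (f : V →ₗ[K] V) (q : K[X]) :
    ∀ x ∈ LinearMap.ker (aeval f q), f x ∈ LinearMap.ker (aeval f q) := by
  intro x hx
  rw [LinearMap.mem_ker] at hx ⊢
  have h : aeval f q * f = f * aeval f q := by
    have h1 : aeval f (q * X) = aeval f (X * q) := by rw [mul_comm]
    rwa [map_mul, map_mul, aeval_X] at h1
  calc aeval f q (f x) = (aeval f q * f) x := rfl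
    _ = (f * aeval f q) x := by rw [h]
    _ = f (aeval f q x) := rfl
    _ = 0 := by rw [hx, map_zero]

/-- the characteristic polynomial of `f` killed by `a * b` (coprime) is the product of those of
the restrictions to `ker a(f)` and `ker b(f)`. -/
theorem charpoly_eq_mul_of_coprime (f : V →ₗ[K] V) {a b : K[X]} (hab : IsCoprime a b)
    (hf : aeval f (a * b) = 0) :
    f.charpoly = (f.restrict (ker_aeval_invariant f a)).charpoly *
      (f.restrict (ker_aeval_invariant f b)).charpoly := by
  have hc : IsCompl (LinearMap.ker (aeval f a)) (LinearMap.ker (aeval f b)) := by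
    refine ⟨disjoint_ker_aeval_of_isCoprime f hab, ?_⟩
    rw [codisjoint_iff, sup_ker_aeval_eq_ker_aeval_mul_of_coprime f hab, hf]
    exact LinearMap.ker_zero
  let e := Submodule.prodEquivOfIsCompl _ _ hc
  have he : e.conj ((f.restrict (ker_aeval_invariant f a)).prodMap
      (f.restrict (ker_aeval_invariant f b))) = f := by
    apply LinearMap.ext
    intro v
    obtain ⟨⟨x, y⟩, rfl⟩ := e.surjective v
    rw [LinearEquiv.conj_apply_apply, LinearEquiv.symm_apply_apply]
    show ((f.restrict (ker_aeval_invariant f a) x : LinearMap.ker (aeval f a)) : V) +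
      ((f.restrict (ker_aeval_invariant f b) y : LinearMap.ker (aeval f b)) : V) =
        f ((x : V) + (y : V))
    rw [LinearMap.restrict_apply, LinearMap.restrict_apply, map_add]
  rw [← LinearMap.charpoly_prodMap, ← LinearEquiv.charpoly_conj e, he]

/-- **multiplicity formula**: for `f` killed by `π * r`, `π` irreducible monic coprime to `r`,
`dim ker π(f) = (multiplicity of π in charpoly f) * deg π`. -/
theorem finrank_ker_eq_multiplicity_mul (f : V →ₗ[K] V) {π r : K[X]} (hπ : Irreducible π)
    (hm : π.Monic) (hco : IsCoprime π r) (hf : aeval f (π * r) = 0) :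
    finrank K ↥(LinearMap.ker (aeval f π)) = multiplicity π f.charpoly * π.natDegree := by
  set f₁ := f.restrict (ker_aeval_invariant f π) with hf₁
  set f₂ := f.restrict (ker_aeval_invariant f r) with hf₂
  have h1 : aeval f₁ π = 0 := by
    apply LinearMap.ext
    intro x
    apply Subtype.ext
    rw [hf₁, coe_aeval_restrict, LinearMap.zero_apply, Submodule.coe_zero]
    exact LinearMap.mem_ker.mp x.2
  have h2 : aeval f₂ r = 0 := by
    apply LinearMap.ext
    intro x
    apply Subtype.ext
    rw [hf₂, coe_aeval_restrict, LinearMap.zero_apply, Submodule.coe_zero]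
    exact LinearMap.mem_ker.mp x.2
  obtain ⟨m, hm1, hm2⟩ := charpoly_eq_pow_of_irreducible f₁ hπ hm h1
  have h3 : f₂.charpoly ∣ r ^ finrank K ↥(LinearMap.ker (aeval f r)) := charpoly_dvd_pow f₂ r h2
  have h4 : ¬ π ∣ f₂.charpoly := by
    intro h
    have h5 : π ∣ r := hπ.prime.dvd_of_dvd_pow (h.trans h3)
    exact hπ.not_isUnit (hco.isUnit_of_dvd' dvd_rfl h5)
  have h6 : f.charpoly = π ^ m * f₂.charpoly := by
    rw [charpoly_eq_mul_of_coprime f hco hf, ← hm1]
  have h7 : multiplicity π f.charpoly = m := by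
    rw [h6]
    have hfin : FiniteMultiplicity π (π ^ m * f₂.charpoly) := by
      apply FiniteMultiplicity.of_not_isUnit hπ.not_isUnit
      exact mul_ne_zero (pow_ne_zero _ hπ.ne_zero) f₂.charpoly_monic.ne_zero
    rw [multiplicity_mul hπ.prime hfin, multiplicity_pow_self hπ.ne_zero hπ.not_isUnit,
      multiplicity_eq_zero.mpr h4, add_zero]
  rw [h7, hm2]

open scoped Function in
/-- **semisimple endomorphisms with the same characteristic polynomial are conjugate**
(family form). -/
theorem exists_equiv_of_charpoly_eq' (f : V →ₗ[K] V) (f' : W →ₗ[K] W)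
    {ι : Type*} [DecidableEq ι] (S : Finset ι) (q : ι → K[X])
    (hirr : ∀ i ∈ S, Irreducible (q i)) (hmon : ∀ i ∈ S, (q i).Monic)
    (hcop : (S : Set ι).Pairwise (IsCoprime on q))
    (hf : aeval f (∏ i ∈ S, q i) = 0) (hf' : aeval f' (∏ i ∈ S, q i) = 0)
    (h : f.charpoly = f'.charpoly) :
    ∃ e : V ≃ₗ[K] W, ∀ v, e (f v) = f' (e v) := by
  refine exists_equiv_of_finrank_ker_aeval_eq f f' S q hirr hcop hf hf' fun i hi => ?_
  have hco : IsCoprime (q i) (∏ j ∈ S.erase i, q j) := by
    refine IsCoprime.prod_right fun j hj => ?_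
    exact hcop (Finset.mem_coe.mpr hi) (Finset.mem_coe.mpr (Finset.mem_of_mem_erase hj))
      (Finset.ne_of_mem_erase hj).symm
  have hp : q i * ∏ j ∈ S.erase i, q j = ∏ j ∈ S, q j := Finset.mul_prod_erase S q hi
  rw [finrank_ker_eq_multiplicity_mul f (hirr i hi) (hmon i hi) hco (by rw [hp]; exact hf),
    finrank_ker_eq_multiplicity_mul f' (hirr i hi) (hmon i hi) hco (by rw [hp]; exact hf'), h]

/-- **semisimple endomorphisms (killed by a squarefree polynomial) with the same characteristic
polynomial are conjugate.** -/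
theorem exists_equiv_of_charpoly_eq (f : V →ₗ[K] V) (f' : W →ₗ[K] W) {P : K[X]}
    (hP : Squarefree P) (hf : aeval f P = 0) (hf' : aeval f' P = 0)
    (h : f.charpoly = f'.charpoly) :
    ∃ e : V ≃ₗ[K] W, ∀ v, e (f v) = f' (e v) := by
  classical
  have hP0 : P ≠ 0 := hP.ne_zero
  set S : Finset K[X] := (UniqueFactorizationMonoid.normalizedFactors P).toFinset with hS
  have hprod : ∏ i ∈ S, (id i : K[X]) = (UniqueFactorizationMonoid.normalizedFactors P).prod := by
    rw [Finset.prod_eq_multiset_prod, hS, Multiset.toFinset_val,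
      Multiset.dedup_eq_self.mpr ((UniqueFactorizationMonoid.squarefree_iff_nodup_normalizedFactors
        hP0).mp hP), Multiset.map_id]
  have hassoc : Associated (∏ i ∈ S, (id i : K[X])) P := by
    rw [hprod]
    exact UniqueFactorizationMonoid.prod_normalizedFactors hP0
  have hdvd : P ∣ ∏ i ∈ S, (id i : K[X]) := hassoc.symm.dvd
  obtain ⟨c, hc⟩ := hdvd
  have hk : aeval f (∏ i ∈ S, (id i : K[X])) = 0 := by rw [hc, map_mul, hf, zero_mul]
  have hk' : aeval f' (∏ i ∈ S, (id i : K[X])) = 0 := by rw [hc, map_mul, hf', zero_mul]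
  refine exists_equiv_of_charpoly_eq' f f' S id ?_ ?_ ?_ hk hk' h
  · intro i hi
    exact UniqueFactorizationMonoid.irreducible_of_normalized_factor i (Multiset.mem_toFinset.mp hi)
  · intro i hi
    have h1 := UniqueFactorizationMonoid.normalize_normalized_factor i (Multiset.mem_toFinset.mp hi)
    have h2 : i ≠ 0 :=
      (UniqueFactorizationMonoid.irreducible_of_normalized_factor i
        (Multiset.mem_toFinset.mp hi)).ne_zero
    have h3 := Polynomial.monic_normalize h2
    rwa [h1] at h3
  · intro i hi j hj hij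
    have hi' := Multiset.mem_toFinset.mp (Finset.mem_coe.mp hi)
    have hj' := Multiset.mem_toFinset.mp (Finset.mem_coe.mp hj)
    have hirri := UniqueFactorizationMonoid.irreducible_of_normalized_factor i hi'
    have hirrj := UniqueFactorizationMonoid.irreducible_of_normalized_factor j hj'
    show IsCoprime i j
    rw [hirri.coprime_iff_not_dvd]
    intro hd
    exact hij ((hirri.associated_of_dvd hirrj hd).eq_of_normalized
      (UniqueFactorizationMonoid.normalize_normalized_factor i hi')
      (UniqueFactorizationMonoid.normalize_normalized_factor j hj'))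

/-- **endomorphisms of order dividing `n` (invertible in `K`) with the same characteristic
polynomial are conjugate.** -/
theorem exists_equiv_of_pow_eq_one (f : V →ₗ[K] V) (f' : W →ₗ[K] W) {n : ℕ}
    (hn : (n : K) ≠ 0) (hf : f ^ n = 1) (hf' : f' ^ n = 1)
    (h : f.charpoly = f'.charpoly) :
    ∃ e : V ≃ₗ[K] W, ∀ v, e (f v) = f' (e v) := by
  have hsep : (X ^ n - C (1 : K)).Separable := separable_X_pow_sub_C 1 hn one_ne_zero
  refine exists_equiv_of_charpoly_eq f f' hsep.squarefree ?_ ?_ h
  · rw [map_sub, map_pow, aeval_X, aeval_C, map_one, hf, sub_self]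
  · rw [map_sub, map_pow, aeval_X, aeval_C, map_one, hf', sub_self]

end Field

/-! ### Lattices: conjugate over the fraction field ⇒ conjugate mod `p` -/

section Lattice

open TensorProduct

variable {R : Type*} [CommRing R]
variable {A : Type*} [AddCommGroup A] [Module R A] [Module.Free R A] [Module.Finite R A]
variable {B : Type*} [AddCommGroup B] [Module R B] [Module.Free R B] [Module.Finite R B]

/-- **Brauer–Nesbitt, one operator**: endomorphisms `a`, `b` of finite free `R`-modules with
`a ^ n = 1 = b ^ n` and the same characteristic polynomial become conjugate over every field `K`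
in which `n` is invertible. -/
theorem exists_equiv_baseChange (K : Type*) [Field K] [Algebra R K] (a : A →ₗ[R] A)
    (b : B →ₗ[R] B) {n : ℕ} (hn : (n : K) ≠ 0) (ha : a ^ n = 1) (hb : b ^ n = 1)
    (h : a.charpoly = b.charpoly) :
    ∃ e : (K ⊗[R] A) ≃ₗ[K] (K ⊗[R] B), ∀ x, e (a.baseChange K x) = b.baseChange K (e x) := by
  refine exists_equiv_of_pow_eq_one (a.baseChange K) (b.baseChange K) hn ?_ ?_ ?_
  · rw [← LinearMap.baseChange_pow, ha, LinearMap.baseChange_one]
  · rw [← LinearMap.baseChange_pow, hb, LinearMap.baseChange_one]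
  · rw [LinearMap.charpoly_baseChange, LinearMap.charpoly_baseChange, h]

/-- conjugate base changes along an injective `R → K` have equal characteristic polynomials. -/
theorem charpoly_eq_of_baseChange_equiv (K : Type*) [Field K] [Algebra R K]
    (hinj : Function.Injective (algebraMap R K)) (a : A →ₗ[R] A) (b : B →ₗ[R] B)
    (e : (K ⊗[R] A) ≃ₗ[K] (K ⊗[R] B))
    (he : ∀ x, e (a.baseChange K x) = b.baseChange K (e x)) :
    a.charpoly = b.charpoly := by
  apply Polynomial.map_injective (algebraMap R K) hinj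
  rw [← LinearMap.charpoly_baseChange, ← LinearMap.charpoly_baseChange]
  have h1 : e.conj (a.baseChange K) = b.baseChange K := by
    apply LinearMap.ext
    intro y
    rw [LinearEquiv.conj_apply_apply, he, LinearEquiv.apply_symm_apply]
  rw [← h1, LinearEquiv.charpoly_conj]

end Lattice

section Integral

open TensorProduct

variable {A : Type*} [AddCommGroup A] [Module.Free ℤ A] [Module.Finite ℤ A]
variable {B : Type*} [AddCommGroup B] [Module.Free ℤ B] [Module.Finite ℤ B]

/-- **Brauer–Nesbitt for an automorphism of order prime to `p`**: two `ℤ`-lattices with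
automorphisms `a`, `b` of order dividing `n`, `p ∤ n`, which are conjugate over `ℚ`, are conjugate
mod `p`. -/
theorem exists_equiv_zmod_of_rat (p : ℕ) [Fact p.Prime] (a : A →ₗ[ℤ] A) (b : B →ₗ[ℤ] B) {n : ℕ}
    (hn : ¬ p ∣ n) (ha : a ^ n = 1) (hb : b ^ n = 1)
    (e : (ℚ ⊗[ℤ] A) ≃ₗ[ℚ] (ℚ ⊗[ℤ] B))
    (he : ∀ x, e (a.baseChange ℚ x) = b.baseChange ℚ (e x)) :
    ∃ e' : (ZMod p ⊗[ℤ] A) ≃ₗ[ZMod p] (ZMod p ⊗[ℤ] B),
      ∀ x, e' (a.baseChange (ZMod p) x) = b.baseChange (ZMod p) (e' x) := by
  refine exists_equiv_baseChange (ZMod p) a b (n := n) ?_ ha hb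
    (charpoly_eq_of_baseChange_equiv ℚ (by
      rw [algebraMap_int_eq]; exact Int.cast_injective) a b e he)
  rwa [Ne, ZMod.natCast_eq_zero_iff]

/-- flat base change of kernels, numerically: `dim_ℚ ker (φ ⊗ ℚ) = rank_ℤ ker φ`. -/
theorem finrank_ker_baseChange_rat (φ : A →ₗ[ℤ] A) :
    finrank ℚ ↥(LinearMap.ker (φ.baseChange ℚ)) = finrank ℤ ↥(LinearMap.ker φ) := by
  have e := LinearMap.tensorKerEquiv ℚ ℚ φ
  have h1 : finrank ℚ ↥(LinearMap.ker (φ.baseChange ℚ)) =
      finrank ℚ (ℚ ⊗[ℤ] ↥(LinearMap.ker φ)) := (LinearEquiv.finrank_eq e).symm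
  rw [h1, Module.finrank_baseChange]

/-- two lattice automorphisms of order dividing `n` with `rank ker (a^e - 1) = rank ker (b^e - 1)`
for all `e ∣ n` are conjugate over `ℚ`. -/
theorem exists_equiv_rat_of_finrank_ker_pow_eq (a : A →ₗ[ℤ] A) (b : B →ₗ[ℤ] B) {n : ℕ}
    (hn : 0 < n) (ha : a ^ n = 1) (hb : b ^ n = 1)
    (h : ∀ e, e ∣ n → finrank ℤ ↥(LinearMap.ker (a ^ e - 1)) =
      finrank ℤ ↥(LinearMap.ker (b ^ e - 1))) :
    ∃ e : (ℚ ⊗[ℤ] A) ≃ₗ[ℚ] (ℚ ⊗[ℤ] B), ∀ x, e (a.baseChange ℚ x) = b.baseChange ℚ (e x) := by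
  refine exists_equiv_of_finrank_ker_pow_eq (a.baseChange ℚ) (b.baseChange ℚ) hn ?_ ?_ ?_
  · rw [← LinearMap.baseChange_pow, ha, LinearMap.baseChange_one]
  · rw [← LinearMap.baseChange_pow, hb, LinearMap.baseChange_one]
  · intro e he
    have h1 : (a.baseChange ℚ) ^ e - 1 = (a ^ e - 1).baseChange ℚ := by
      rw [LinearMap.baseChange_sub, LinearMap.baseChange_pow, LinearMap.baseChange_one]
    have h2 : (b.baseChange ℚ) ^ e - 1 = (b ^ e - 1).baseChange ℚ := by
      rw [LinearMap.baseChange_sub, LinearMap.baseChange_pow, LinearMap.baseChange_one]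
    rw [h1, h2, finrank_ker_baseChange_rat, finrank_ker_baseChange_rat, h e he]

end Integral

/-! ### Representations of a finite cyclic group on lattices -/

section Group

variable {R : Type*} [CommRing R] {Δ : Type*} [Group Δ]
variable {M : Type*} [AddCommGroup M] [Module R M]

/-- the fixed submodule `M^H` of a subgroup (any commutative base ring). -/
def fixedLattice (ρ : Representation R Δ M) (H : Subgroup Δ) : Submodule R M where
  carrier := {v | ∀ h ∈ H, ρ h v = v}
  add_mem' := fun {a b} ha hb h hh => by rw [map_add, ha h hh, hb h hh]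
  zero_mem' := fun h _ => map_zero _
  smul_mem' := fun c v hv h hh => by rw [map_smul, hv h hh]

theorem mem_fixedLattice {ρ : Representation R Δ M} {H : Subgroup Δ} {v : M} :
    v ∈ fixedLattice ρ H ↔ ∀ h ∈ H, ρ h v = v := Iff.rfl

/-- the stabiliser of a vector. -/
def stabSubgroup (ρ : Representation R Δ M) (v : M) : Subgroup Δ where
  carrier := {y | ρ y v = v}
  mul_mem' := fun {a b} ha hb => by
    show ρ (a * b) v = v
    rw [map_mul, Module.End.mul_apply, hb, ha]
  one_mem' := by
    show ρ 1 v = v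
    rw [map_one, Module.End.one_apply]
  inv_mem' := fun {a} ha => by
    show ρ a⁻¹ v = v
    have h1 : ρ a⁻¹ (ρ a v) = v := by
      rw [← Module.End.mul_apply, ← map_mul, inv_mul_cancel, map_one, Module.End.one_apply]
    rwa [ha] at h1

/-- the elements intertwined by a linear map form a subgroup. -/
def intertwinedSubgroup {N : Type*} [AddCommGroup N] [Module R N] (ρ : Representation R Δ M)
    (σ : Representation R Δ N) (e : M →ₗ[R] N) : Subgroup Δ where
  carrier := {x | ∀ v, e (ρ x v) = σ x (e v)}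
  mul_mem' := fun {a b} ha hb v => by
    rw [map_mul, map_mul, Module.End.mul_apply, Module.End.mul_apply, ha, hb]
  one_mem' := fun v => by
    rw [map_one, map_one, Module.End.one_apply, Module.End.one_apply]
  inv_mem' := fun {a} ha v => by
    have h1 : σ a (e (ρ a⁻¹ v)) = e v := by
      rw [← ha, ← Module.End.mul_apply, ← map_mul, mul_inv_cancel, map_one,
        Module.End.one_apply]
    have h2 : σ a⁻¹ (σ a (e (ρ a⁻¹ v))) = e (ρ a⁻¹ v) := by
      rw [← Module.End.mul_apply, ← map_mul, inv_mul_cancel, map_one, Module.End.one_apply]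
    rw [← h2, h1]

/-- the fixed submodule of the cyclic subgroup generated by `x` is `ker (ρ x - 1)`. -/
theorem fixedLattice_zpowers (ρ : Representation R Δ M) (x : Δ) :
    fixedLattice ρ (Subgroup.zpowers x) = LinearMap.ker (ρ x - 1) := by
  ext v
  rw [mem_fixedLattice, LinearMap.mem_ker, LinearMap.sub_apply, Module.End.one_apply, sub_eq_zero]
  constructor
  · intro h
    exact h x (Subgroup.mem_zpowers x)
  · intro h y hy
    have hle : Subgroup.zpowers x ≤ stabSubgroup ρ v := (Subgroup.zpowers_le).mpr h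
    exact hle hy

/-- the base change of a representation. -/
noncomputable def baseChangeRep (K : Type*) [CommRing K] [Algebra R K] (ρ : Representation R Δ M) :
    Representation K Δ (TensorProduct R K M) where
  toFun g := (ρ g).baseChange K
  map_one' := by rw [map_one, LinearMap.baseChange_one]
  map_mul' g h := by rw [map_mul, LinearMap.baseChange_mul]

@[simp]
theorem baseChangeRep_apply (K : Type*) [CommRing K] [Algebra R K] (ρ : Representation R Δ M)
    (g : Δ) : baseChangeRep K ρ g = (ρ g).baseChange K := rfl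

end Group

section CyclicLattice

open TensorProduct

variable {Δ : Type*} [Group Δ] [Finite Δ] [IsCyclic Δ]
variable {A : Type*} [AddCommGroup A] [Module.Free ℤ A] [Module.Finite ℤ A]
variable {B : Type*} [AddCommGroup B] [Module.Free ℤ B] [Module.Finite ℤ B]

/-- two lattices with an action of a finite cyclic group `Δ` and `rank A^H = rank B^H` for all
`H ≤ Δ` are `Δ`-isomorphic over `ℚ`. -/
theorem exists_equiv_rat_of_finrank_fixed_eq (ρ : Representation ℤ Δ A) (σ : Representation ℤ Δ B)
    (h : ∀ H : Subgroup Δ, finrank ℤ ↥(fixedLattice ρ H) = finrank ℤ ↥(fixedLattice σ H)) :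
    ∃ e : (ℚ ⊗[ℤ] A) ≃ₗ[ℚ] (ℚ ⊗[ℤ] B),
      ∀ g x, e (baseChangeRep ℚ ρ g x) = baseChangeRep ℚ σ g (e x) := by
  obtain ⟨g, hg⟩ := IsCyclic.exists_generator (α := Δ)
  have hn : 0 < Nat.card Δ := Nat.card_pos
  have hgn : g ^ Nat.card Δ = 1 := pow_card_eq_one'
  obtain ⟨e, he⟩ := exists_equiv_rat_of_finrank_ker_pow_eq (ρ g) (σ g) hn
    (by rw [← map_pow, hgn, map_one]) (by rw [← map_pow, hgn, map_one])
    (fun m _ => by
      rw [← map_pow, ← map_pow, ← fixedLattice_zpowers, ← fixedLattice_zpowers]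
      exact h _)
  refine ⟨e, fun x v => ?_⟩
  have hle : Subgroup.zpowers g ≤
      intertwinedSubgroup (baseChangeRep ℚ ρ) (baseChangeRep ℚ σ) (e : _ →ₗ[ℚ] _) :=
    (Subgroup.zpowers_le).mpr he
  exact hle (hg x) v

omit [Finite Δ] in
/-- **Brauer–Nesbitt for a finite cyclic group of order prime to `p`**: two lattices with
`Δ`-action which are `Δ`-isomorphic over `ℚ` have `Δ`-isomorphic reductions mod `p`. -/
theorem exists_equiv_zmod_of_equiv_rat (p : ℕ) [Fact p.Prime] (hp : ¬ p ∣ Nat.card Δ)
    (ρ : Representation ℤ Δ A) (σ : Representation ℤ Δ B)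
    (e : (ℚ ⊗[ℤ] A) ≃ₗ[ℚ] (ℚ ⊗[ℤ] B))
    (he : ∀ g x, e (baseChangeRep ℚ ρ g x) = baseChangeRep ℚ σ g (e x)) :
    ∃ e' : (ZMod p ⊗[ℤ] A) ≃ₗ[ZMod p] (ZMod p ⊗[ℤ] B),
      ∀ g x, e' (baseChangeRep (ZMod p) ρ g x) = baseChangeRep (ZMod p) σ g (e' x) := by
  obtain ⟨g, hg⟩ := IsCyclic.exists_generator (α := Δ)
  have hgn : g ^ Nat.card Δ = 1 := pow_card_eq_one'
  obtain ⟨e', he'⟩ := exists_equiv_zmod_of_rat p (ρ g) (σ g) hp
    (by rw [← map_pow, hgn, map_one]) (by rw [← map_pow, hgn, map_one]) e (he g)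
  refine ⟨e', fun x v => ?_⟩
  have hle : Subgroup.zpowers g ≤
      intertwinedSubgroup (baseChangeRep (ZMod p) ρ) (baseChangeRep (ZMod p) σ)
        (e' : _ →ₗ[ZMod p] _) :=
    (Subgroup.zpowers_le).mpr he'
  exact hle (hg x) v

/-- **two lattices with an action of a finite cyclic group `Δ`, `p ∤ #Δ`, and
`rank A^H = rank B^H` for all `H ≤ Δ` have `Δ`-isomorphic reductions mod `p`.** -/
theorem exists_equiv_zmod_of_finrank_fixed_eq (p : ℕ) [Fact p.Prime] (hp : ¬ p ∣ Nat.card Δ)
    (ρ : Representation ℤ Δ A) (σ : Representation ℤ Δ B)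
    (h : ∀ H : Subgroup Δ, finrank ℤ ↥(fixedLattice ρ H) = finrank ℤ ↥(fixedLattice σ H)) :
    ∃ e' : (ZMod p ⊗[ℤ] A) ≃ₗ[ZMod p] (ZMod p ⊗[ℤ] B),
      ∀ g x, e' (baseChangeRep (ZMod p) ρ g x) = baseChangeRep (ZMod p) σ g (e' x) := by
  obtain ⟨e, he⟩ := exists_equiv_rat_of_finrank_fixed_eq ρ σ h
  exact exists_equiv_zmod_of_equiv_rat p hp ρ σ e he

end CyclicLattice

end Fermat.Agent.ES.T56.BrauerNesbitt13
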