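/-
Programme T (S56), chapter GW-D (base case), helper13.

`EqDirichlet13`: **the equivariant Dirichlet unit theorem mod `p`, abstract form.**
`Δ` a finite cyclic group, `p ∤ #Δ`, `U` a `ℤ`-lattice with `Δ`-action, `S` a finite `Δ`-set with
`rank U^H + 1 = #(H \ S)` for every subgroup `H ≤ Δ`.  Then `(U/p) × 𝔽_p ≅ 𝔽_p[S]` as
`𝔽_p[Δ]`-modules (`U/p = ZMod p ⊗ U`, `𝔽_p[S] = PermChar28.permRep (ZMod p) S` on `S → ZMod p`).

* `prodTrivRep R ρ` : `ρ ⊕ 1` on `M × R`;
* `fixedLattice_prodTrivRep`, `finrank_fixedLattice_prodTrivRep` : `rank (U × ℤ)^H = rank U^H + 1`;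
* `fixedLattice_permRep`, `finrank_fixedLattice_permRep` : `rank ℤ[S]^H = #(H \ S)`;
* `exists_equiv_permRep` : the theorem.
-/
import Mathlib
import Fermat.Agent.ES.T56.BrauerNesbitt13
import Fermat.Agent.ES.T56.PermChar28

set_option autoImplicit false

open Module

namespace Fermat.Agent.ES.T56.EqDirichlet13

open Fermat.Agent.ES.T56.BrauerNesbitt13 Fermat.Agent.ES.T56.PermChar28

section ProdTriv

variable (R : Type*) [CommRing R] {Δ : Type*} [Group Δ]
variable {M : Type*} [AddCommGroup M] [Module R M]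

/-- `ρ ⊕ 1` on `M × R`. -/
def prodTrivRep (ρ : Representation R Δ M) : Representation R Δ (M × R) where
  toFun g := (ρ g).prodMap LinearMap.id
  map_one' := by
    rw [map_one]
    exact LinearMap.prodMap_one
  map_mul' g h := by
    rw [map_mul]
    rfl

theorem prodTrivRep_apply (ρ : Representation R Δ M) (g : Δ) (x : M × R) :
    prodTrivRep R ρ g x = (ρ g x.1, x.2) := rfl

/-- `(M × R)^H = M^H × R`. -/
theorem fixedLattice_prodTrivRep (ρ : Representation R Δ M) (H : Subgroup Δ) :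
    fixedLattice (prodTrivRep R ρ) H = (fixedLattice ρ H).prod ⊤ := by
  ext x
  rw [mem_fixedLattice, Submodule.mem_prod, mem_fixedLattice]
  constructor
  · intro h
    refine ⟨fun g hg => ?_, Submodule.mem_top⟩
    have h1 := h g hg
    rw [prodTrivRep_apply] at h1
    exact congrArg Prod.fst h1
  · rintro ⟨h, -⟩ g hg
    rw [prodTrivRep_apply, h g hg]

end ProdTriv

section Ranks

variable {Δ : Type*} [Group Δ]

/-- `rank (U × ℤ)^H = rank U^H + 1`. -/
theorem finrank_fixedLattice_prodTrivRep {U : Type*} [AddCommGroup U] [Module.Free ℤ U]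
    [Module.Finite ℤ U] (ρ : Representation ℤ Δ U) (H : Subgroup Δ) :
    finrank ℤ ↥(fixedLattice (prodTrivRep ℤ ρ) H) = finrank ℤ ↥(fixedLattice ρ H) + 1 := by
  rw [fixedLattice_prodTrivRep]
  have e : ↥((fixedLattice ρ H).prod (⊤ : Submodule ℤ ℤ)) ≃ₗ[ℤ] ↥(fixedLattice ρ H) × ℤ :=
    { toFun := fun x => (⟨x.1.1, x.2.1⟩, x.1.2)
      invFun := fun y => ⟨(y.1.1, y.2), ⟨y.1.2, Submodule.mem_top⟩⟩
      map_add' := fun x y => rfl
      map_smul' := fun c x => rfl
      left_inv := fun x => rfl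
      right_inv := fun y => rfl }
  rw [e.finrank_eq, Module.finrank_prod, Module.finrank_self]

variable (S : Type*) [MulAction Δ S]

/-- the functions constant on `H`-orbits. -/
def orbitFun (H : Subgroup Δ) :
    (MulAction.orbitRel.Quotient ↥H S → ℤ) →ₗ[ℤ] (S → ℤ) :=
  LinearMap.funLeft ℤ ℤ (fun s => (Quotient.mk'' s : MulAction.orbitRel.Quotient ↥H S))

theorem orbitFun_apply (H : Subgroup Δ) (F : MulAction.orbitRel.Quotient ↥H S → ℤ) (s : S) :
    orbitFun S H F s = F (Quotient.mk'' s) := rfl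

theorem orbitFun_injective (H : Subgroup Δ) : Function.Injective (orbitFun S H) :=
  LinearMap.funLeft_injective_of_surjective ℤ ℤ _ Quotient.mk''_surjective

/-- `ℤ[S]^H` = functions constant on `H`-orbits. -/
theorem fixedLattice_permRep (H : Subgroup Δ) :
    fixedLattice (permRep ℤ (G := Δ) S) H = LinearMap.range (orbitFun S H) := by
  ext f
  rw [mem_fixedLattice, LinearMap.mem_range]
  constructor
  · intro h
    have hf : ∀ (g : ↥H) (s : S), f (g • s) = f s := by
      intro g s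
      have h1 := congrFun (h (g : Δ)⁻¹ (H.inv_mem g.2)) s
      rw [permRep_apply, inv_inv] at h1
      exact h1
    refine ⟨fun q => Quotient.liftOn' q f ?_, ?_⟩
    · intro a b hab
      obtain ⟨g, rfl⟩ := (MulAction.orbitRel_apply.mp hab)
      exact hf g b
    · funext s
      rfl
  · rintro ⟨F, rfl⟩ g hg
    funext s
    rw [permRep_apply, orbitFun_apply, orbitFun_apply]
    congr 1
    apply Quotient.sound'
    exact MulAction.orbitRel_apply.mpr ⟨⟨g⁻¹, H.inv_mem hg⟩, rfl⟩

/-- `rank ℤ[S]^H = #(H \ S)`. -/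
theorem finrank_fixedLattice_permRep [Finite S] (H : Subgroup Δ) :
    finrank ℤ ↥(fixedLattice (permRep ℤ (G := Δ) S) H) =
      Nat.card (MulAction.orbitRel.Quotient ↥H S) := by
  classical
  have : Fintype (MulAction.orbitRel.Quotient ↥H S) := Fintype.ofFinite _
  rw [fixedLattice_permRep, LinearMap.finrank_range_of_inj (orbitFun_injective S H),
    Module.finrank_fintype_fun_eq_card, Nat.card_eq_fintype_card]

end Ranks

section Transport

open TensorProduct

variable {Δ : Type*} [Group Δ]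

/-- `ZMod p ⊗ (U × ℤ) ≃ (ZMod p ⊗ U) × ZMod p`, compatible with `ρ ⊕ 1`. -/
theorem exists_equiv_prodTrivRep (K : Type*) [CommRing K] {U : Type*} [AddCommGroup U]
    (ρ : Representation ℤ Δ U) :
    ∃ e : (K ⊗[ℤ] (U × ℤ)) ≃ₗ[K] ((K ⊗[ℤ] U) × K),
      ∀ g x, e (baseChangeRep K (prodTrivRep ℤ ρ) g x) =
        prodTrivRep K (baseChangeRep K ρ) g (e x) := by
  refine ⟨(TensorProduct.prodRight ℤ K K U ℤ).trans
    ((LinearEquiv.refl K _).prodCongr (TensorProduct.AlgebraTensorModule.rid ℤ K K)),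
    fun g x => ?_⟩
  induction x using TensorProduct.induction_on with
  | zero => simp only [map_zero]
  | tmul c y =>
    rw [baseChangeRep_apply, LinearMap.baseChange_tmul, prodTrivRep_apply, prodTrivRep_apply,
      LinearEquiv.trans_apply, LinearEquiv.trans_apply, TensorProduct.prodRight_tmul,
      TensorProduct.prodRight_tmul]
    rfl
  | add a b ha hb => simp only [map_add, ha, hb]

/-- `ZMod p ⊗ ℤ[S] ≃ 𝔽_p[S]`, compatible with the permutation actions. -/
theorem exists_equiv_permRep_baseChange (K : Type*) [CommRing K] (S : Type*) [MulAction Δ S]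
    [Finite S] :
    ∃ e : (K ⊗[ℤ] (S → ℤ)) ≃ₗ[K] (S → K),
      ∀ g x, e (baseChangeRep K (permRep ℤ (G := Δ) S) g x) = permRep K S g (e x) := by
  classical
  have : Fintype S := Fintype.ofFinite S
  refine ⟨TensorProduct.piScalarRight ℤ K K S, fun g x => ?_⟩
  induction x using TensorProduct.induction_on with
  | zero => simp only [map_zero]
  | tmul c f =>
    rw [baseChangeRep_apply, LinearMap.baseChange_tmul, TensorProduct.piScalarRight_apply,
      TensorProduct.piScalarRight_apply, TensorProduct.piScalarRightHom_tmul,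
      TensorProduct.piScalarRightHom_tmul]
    funext s
    rw [permRep_apply, permRep_apply]
  | add a b ha hb => simp only [map_add, ha, hb]

end Transport

section Main

open TensorProduct

variable {Δ : Type*} [Group Δ] [Finite Δ] [IsCyclic Δ]
variable {U : Type*} [AddCommGroup U] [Module.Free ℤ U] [Module.Finite ℤ U]

/-- **Equivariant Dirichlet mod `p`** (abstract form): `Δ` finite cyclic, `p ∤ #Δ`, `U` a lattice
with `Δ`-action, `S` a finite `Δ`-set with `rank U^H + 1 = #(H \ S)` for all `H ≤ Δ`. Then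
`(U/p) × 𝔽_p ≅ 𝔽_p[S]` as `𝔽_p[Δ]`-modules. -/
theorem exists_equiv_permRep (p : ℕ) [Fact p.Prime] (hp : ¬ p ∣ Nat.card Δ)
    (ρ : Representation ℤ Δ U) (S : Type*) [MulAction Δ S] [Finite S]
    (h : ∀ H : Subgroup Δ, finrank ℤ ↥(fixedLattice ρ H) + 1 =
      Nat.card (MulAction.orbitRel.Quotient ↥H S)) :
    ∃ e : ((ZMod p ⊗[ℤ] U) × ZMod p) ≃ₗ[ZMod p] (S → ZMod p),
      ∀ g x, e (prodTrivRep (ZMod p) (baseChangeRep (ZMod p) ρ) g x) =
        permRep (ZMod p) S g (e x) := by
  obtain ⟨e₀, he₀⟩ := exists_equiv_zmod_of_finrank_fixed_eq p hp (prodTrivRep ℤ ρ)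
    (permRep ℤ (G := Δ) S) (fun H => by
      rw [finrank_fixedLattice_prodTrivRep, finrank_fixedLattice_permRep, h H])
  obtain ⟨e₁, he₁⟩ := exists_equiv_prodTrivRep (Δ := Δ) (ZMod p) ρ
  obtain ⟨e₂, he₂⟩ := exists_equiv_permRep_baseChange (Δ := Δ) (ZMod p) S
  refine ⟨e₁.symm.trans (e₀.trans e₂), fun g x => ?_⟩
  obtain ⟨y, rfl⟩ := e₁.surjective x
  rw [← he₁, LinearEquiv.trans_apply, LinearEquiv.trans_apply, LinearEquiv.symm_apply_apply,
    LinearEquiv.trans_apply, LinearEquiv.trans_apply, LinearEquiv.symm_apply_apply, he₀, he₂]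

end Main

end Fermat.Agent.ES.T56.EqDirichlet13
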