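/-
Programme T (S56), chapter GW-D (base case), helper13.

`TorsionFixed13`: for a finitely generated `ℤ`-module `M` with an action of a group `Δ`, the induced
representation on the lattice `M ⧸ torsion`, and **the ranks of the fixed submodules of finite
subgroups do not change**: `rank (M ⧸ torsion)^H = rank M^H` (kernel of `M^H → (M/tors)^H` is
torsion, cokernel is killed by `#H` via the norm).
-/
import Mathlib
import Fermat.Agent.ES.T56.BrauerNesbitt13

set_option autoImplicit false

open Module

namespace Fermat.Agent.ES.T56.TorsionFixed13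

open Fermat.Agent.ES.T56.BrauerNesbitt13

/-- a submodule containing `n • X` (`n ≠ 0`) has full rank. -/
theorem finrank_eq_of_nsmul_mem' (n : ℕ) (hn : n ≠ 0) {X : Type*} [AddCommGroup X]
    [Module.Finite ℤ X] (S : Submodule ℤ X) (h : ∀ x : X, n • x ∈ S) :
    finrank ℤ S = finrank ℤ X := by
  have h1 := Submodule.finrank_quotient_add_finrank S
  have h2 : finrank ℤ (X ⧸ S) = 0 := by
    apply Module.finrank_eq_zero_of_rank_eq_zero
    rw [rank_eq_zero_iff]
    intro x
    obtain ⟨y, rfl⟩ := Submodule.Quotient.mk_surjective S x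
    refine ⟨(n : ℤ), by exact_mod_cast hn, ?_⟩
    rw [← Submodule.Quotient.mk_smul, Submodule.Quotient.mk_eq_zero, natCast_zsmul]
    exact h y
  omega

variable {Δ : Type*} [Group Δ] {M : Type*} [AddCommGroup M]

theorem torsion_le_comap (φ : M →ₗ[ℤ] M) :
    Submodule.torsion ℤ M ≤ (Submodule.torsion ℤ M).comap φ := by
  intro x hx
  rw [Submodule.mem_comap]
  rw [Submodule.mem_torsion_iff] at hx ⊢
  obtain ⟨a, ha⟩ := hx
  refine ⟨a, ?_⟩
  rw [Submonoid.smul_def] at ha ⊢
  rw [← map_smul, ha, map_zero]

/-- the representation induced on `M ⧸ torsion`. -/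
def quotTorsionRep (τ : Representation ℤ Δ M) :
    Representation ℤ Δ (M ⧸ Submodule.torsion ℤ M) where
  toFun g := (Submodule.torsion ℤ M).mapQ (Submodule.torsion ℤ M) (τ g) (torsion_le_comap (τ g))
  map_one' := by
    apply LinearMap.ext
    intro y
    obtain ⟨x, rfl⟩ := Submodule.Quotient.mk_surjective _ y
    rw [Submodule.mapQ_apply, map_one]
    rfl
  map_mul' g h := by
    apply LinearMap.ext
    intro y
    obtain ⟨x, rfl⟩ := Submodule.Quotient.mk_surjective _ y
    show Submodule.Quotient.mk (τ (g * h) x) = Submodule.Quotient.mk (τ g (τ h x))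
    rw [map_mul]
    rfl

theorem quotTorsionRep_mk (τ : Representation ℤ Δ M) (g : Δ) (x : M) :
    quotTorsionRep τ g (Submodule.Quotient.mk x) = Submodule.Quotient.mk (τ g x) := rfl

/-- **passing to `M ⧸ torsion` does not change the ranks of the fixed submodules of finite
subgroups.** -/
theorem finrank_fixedLattice_quotTorsionRep [Module.Finite ℤ M] (τ : Representation ℤ Δ M)
    (H : Subgroup Δ) [Finite H] :
    finrank ℤ ↥(fixedLattice (quotTorsionRep τ) H) = finrank ℤ ↥(fixedLattice τ H) := by
  classical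
  have : Fintype H := Fintype.ofFinite H
  have : IsNoetherian ℤ M := isNoetherian_of_isNoetherianRing_of_finite ℤ M
  set π : M →ₗ[ℤ] (M ⧸ Submodule.torsion ℤ M) := (Submodule.torsion ℤ M).mkQ with hπ
  have hmaps : ∀ x ∈ fixedLattice τ H, π x ∈ fixedLattice (quotTorsionRep τ) H := by
    intro x hx h hh
    show quotTorsionRep τ h (Submodule.Quotient.mk x) = Submodule.Quotient.mk x
    rw [quotTorsionRep_mk, hx h hh]
  set f : ↥(fixedLattice τ H) →ₗ[ℤ] ↥(fixedLattice (quotTorsionRep τ) H) :=
    π.restrict hmaps with hf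
  -- the kernel is torsion
  have hker : finrank ℤ ↥(LinearMap.ker f) = 0 := by
    apply Module.finrank_eq_zero_of_rank_eq_zero
    rw [rank_eq_zero_iff]
    rintro ⟨⟨x, hx⟩, hxk⟩
    have h1 : π x = 0 := by
      have := congrArg Subtype.val (LinearMap.mem_ker.mp hxk)
      exact this
    have h2 : x ∈ Submodule.torsion ℤ M := (Submodule.Quotient.mk_eq_zero _).mp h1
    rw [Submodule.mem_torsion_iff] at h2
    obtain ⟨a, ha⟩ := h2
    refine ⟨(a : ℤ), nonZeroDivisors.coe_ne_zero a, ?_⟩
    apply Subtype.ext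
    apply Subtype.ext
    exact ha
  have hrn := Submodule.finrank_quotient_add_finrank (LinearMap.ker f)
  rw [(LinearMap.quotKerEquivRange f).finrank_eq] at hrn
  -- the range contains `#H • U^H`
  have hrange : finrank ℤ ↥(LinearMap.range f) = finrank ℤ ↥(fixedLattice (quotTorsionRep τ) H) := by
    refine finrank_eq_of_nsmul_mem' (Fintype.card H) Fintype.card_ne_zero _ ?_
    rintro ⟨u, hu⟩
    obtain ⟨x, rfl⟩ := Submodule.Quotient.mk_surjective _ u
    have hN : (∑ h : H, τ (h : Δ) x) ∈ fixedLattice τ H := by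
      intro g hg
      rw [map_sum]
      refine Fintype.sum_equiv (Equiv.mulLeft (⟨g, hg⟩ : H)) _ _ fun h => ?_
      rw [← Module.End.mul_apply, ← map_mul]
      rfl
    refine ⟨⟨_, hN⟩, ?_⟩
    apply Subtype.ext
    show π (∑ h : H, τ (h : Δ) x) = Fintype.card H • Submodule.Quotient.mk x
    rw [map_sum]
    have : ∀ h : H, π (τ (h : Δ) x) = Submodule.Quotient.mk x := by
      intro h
      have := hu (h : Δ) h.2
      rw [quotTorsionRep_mk] at this
      exact this
    rw [Finset.sum_congr rfl (fun h _ => this h), Finset.sum_const, Finset.card_univ]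
  omega

end Fermat.Agent.ES.T56.TorsionFixed13
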