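/-
Programme T (S56), chapter GW-D (base case), helper13.

`SUnitRep13`: **the equivariant Dirichlet `S`-unit theorem mod `p` for a cyclic extension of number
fields of degree prime to `p`** (number-field instantiation of `EqDirichlet13`).

`L/K` Galois extension of number fields, `Δ = Gal(L/K)`, `T` a finite set of primes of `K`,
`T_L = above T` (main's `PrimesAbove24`), `U_{L,T_L} = sUnit L T_L` (main's `SUnits24`) with the
Galois action `sUnitSmul` (main's `SUnitsGalois24`).
* `sUnitRep K L T : Representation ℤ Δ (Additive (sUnit L T_L))`;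
* `fixedLattice_sUnitRep`, `finrank_fixedLattice_sUnitRep_add_one`: for an intermediate field `F`,
  the `Gal(L/F)`-fixed `T_L`-units are the `T_F`-units of `F`; rank `+ 1 = #S_∞(F) + #T_F`;
* `PlaceSet K L T` = `T_L ⊔ S_∞(L)` with its `Δ`-action; `card_orbits_placeSet`:
  `#(Gal(L/F) \ PlaceSet) = #S_∞(F) + #T_F`;
* `sUnitLattice K L T = U_{L,T_L} ⧸ torsion`, `sUnitLatticeRep`,
  `finrank_fixedLattice_sUnitLatticeRep_add_one : ∀ H ≤ Δ, rank Λ^H + 1 = #(H \ PlaceSet)`;
* **`exists_equiv_sUnit`**: `Δ` cyclic, `p ∤ #Δ` ⇒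
  `((ZMod p ⊗ Λ) × ZMod p) ≃ₗ[ZMod p] (PlaceSet K L T → ZMod p)`, `Δ`-equivariantly.
-/
import Mathlib
import Fermat.Agent.PT.GLOB.SUnits24
import Fermat.Agent.PT.GLOB.PrimesAbove24
import Fermat.Agent.PT.GLOB.SUnitsGalois24
import Fermat.Agent.ES.T56.BrauerNesbitt13
import Fermat.Agent.ES.T56.EqDirichlet13
import Fermat.Agent.ES.T56.TorsionFixed13

set_option autoImplicit false

open NumberField IsDedekindDomain HeightOneSpectrum Module
open scoped Pointwise
open Fermat.Agent.PT.GLOB.SUnits24 Fermat.Agent.PT.GLOB.PrimesAbove24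
  Fermat.Agent.PT.GLOB.SUnitsGalois24 Fermat.Agent.ES.T56.BrauerNesbitt13
  Fermat.Agent.ES.T56.EqDirichlet13 Fermat.Agent.ES.T56.TorsionFixed13
  Fermat.Agent.ES.T56.PermChar28

namespace Fermat.Agent.ES.T56.SUnitRep13

universe u v

/-- counting orbits through a surjection whose fibres are the orbits. -/
theorem card_orbitRel_quotient_eq_of_fibers {G X Y : Type*} [Group G] [MulAction G X] (f : X → Y)
    (hsurj : Function.Surjective f) (hfib : ∀ x x', f x = f x' ↔ ∃ g : G, g • x = x') :
    Nat.card (MulAction.orbitRel.Quotient G X) = Nat.card Y := by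
  refine Nat.card_congr (Equiv.ofBijective (Quotient.lift f ?_) ⟨?_, ?_⟩)
  · intro a b hab
    obtain ⟨g, hg⟩ := MulAction.mem_orbit_iff.mp (MulAction.orbitRel_apply.mp hab)
    exact ((hfib b a).mpr ⟨g, hg⟩).symm
  · rintro ⟨a⟩ ⟨b⟩ hab
    obtain ⟨g, hg⟩ := (hfib a b).mp hab
    apply Quotient.sound
    exact MulAction.orbitRel_apply.mpr (MulAction.mem_orbit_iff.mpr ⟨g⁻¹, by rw [← hg, inv_smul_smul]⟩)
  · intro y
    obtain ⟨x, rfl⟩ := hsurj y
    exact ⟨Quotient.mk'' x, rfl⟩

variable (K : Type u) (L : Type v) [Field K] [Field L] [NumberField K] [NumberField L]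
  [Algebra K L] [IsGalois K L] (T : Finset (HeightOneSpectrum (𝓞 K)))

/-- the Galois action on the `T_L`-units, as an integral representation. -/
noncomputable def sUnitRep :
    Representation ℤ (L ≃ₐ[K] L) (Additive (sUnit L (above (𝓞 K) (𝓞 L) T))) where
  toFun g := (MonoidHom.toAdditive (sUnitSmul K L T g)).toIntLinearMap
  map_one' := by
    apply LinearMap.ext
    intro x
    exact congrArg Additive.ofMul (sUnitSmul_one K L T (Additive.toMul x))
  map_mul' g h := by
    apply LinearMap.ext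
    intro x
    exact congrArg Additive.ofMul (sUnitSmul_mul K L T g h (Additive.toMul x))

theorem sUnitRep_apply (g : L ≃ₐ[K] L) (x : Additive (sUnit L (above (𝓞 K) (𝓞 L) T))) :
    sUnitRep K L T g x = Additive.ofMul (sUnitSmul K L T g (Additive.toMul x)) := rfl

variable (F : IntermediateField K L)

omit [IsGalois K L] in
/-- the primes of `L` above the primes of `F` above `T` are the primes of `L` above `T`. -/
theorem above_above :
    above (𝓞 F) (𝓞 L) (above (𝓞 K) (𝓞 F) T) = above (𝓞 K) (𝓞 L) T := by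
  ext w
  rw [mem_above, mem_above, mem_above]
  have : (w.under (𝓞 F)).under (𝓞 K) = w.under (𝓞 K) := by
    apply HeightOneSpectrum.ext
    simp only [HeightOneSpectrum.under_asIdeal]
    exact Ideal.under_under _
  rw [this]

/-- the `T_F`-units of `F` inside the `T_L`-units of `L`. -/
noncomputable def extF :
    sUnit F (above (𝓞 K) (𝓞 F) T) →* sUnit L (above (𝓞 K) (𝓞 L) T) :=
  (Subgroup.inclusion (le_of_eq (congrArg (fun S => sUnit L S) (above_above K L T F)))).comp
    (extHom F L (above (𝓞 K) (𝓞 F) T))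

theorem coe_extF (y : sUnit F (above (𝓞 K) (𝓞 F) T)) :
    (((extF K L T F y : sUnit L (above (𝓞 K) (𝓞 L) T)) : Lˣ) : L) =
      algebraMap F L ((y : Fˣ) : F) := rfl

theorem extF_injective : Function.Injective (extF K L T F) := by
  intro y y' h
  apply extHom_injective F L (above (𝓞 K) (𝓞 F) T)
  apply sUnit_ext
  have := congrArg (fun z : sUnit L (above (𝓞 K) (𝓞 L) T) => ((z : Lˣ) : L)) h
  exact this

/-- additive version of `extF`. -/
noncomputable def extFLin :
    Additive (sUnit F (above (𝓞 K) (𝓞 F) T)) →ₗ[ℤ] Additive (sUnit L (above (𝓞 K) (𝓞 L) T)) :=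
  (MonoidHom.toAdditive (extF K L T F)).toIntLinearMap

theorem extFLin_injective : Function.Injective (extFLin K L T F) := by
  intro y y' h
  exact congrArg Additive.ofMul (extF_injective K L T F (congrArg Additive.toMul h))

/-- **the `Gal(L/F)`-fixed `T_L`-units are the `T_F`-units of `F`.** -/
theorem fixedLattice_sUnitRep :
    fixedLattice (sUnitRep K L T) F.fixingSubgroup = LinearMap.range (extFLin K L T F) := by
  ext x
  rw [mem_fixedLattice, LinearMap.mem_range]
  constructor
  · intro hx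
    have hmem : (Additive.toMul x : sUnit L (above (𝓞 K) (𝓞 L) T)).1 ∈
        sUnit L (above (𝓞 F) (𝓞 L) (above (𝓞 K) (𝓞 F) T)) := by
      rw [above_above]
      exact (Additive.toMul x).2
    obtain ⟨y, hy⟩ := exists_extHom_eq F L (above (𝓞 K) (𝓞 F) T)
      (x := ⟨(Additive.toMul x).1, hmem⟩) (by
        intro σ
        apply sUnit_ext
        rw [coe_sUnitSmul]
        have hσ : σ.restrictScalars K ∈ F.fixingSubgroup := by
          rw [IntermediateField.mem_fixingSubgroup_iff]
          intro z hz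
          exact σ.commutes ⟨z, hz⟩
        have h1 := hx _ hσ
        rw [sUnitRep_apply] at h1
        have h2 := congrArg (fun z : Additive (sUnit L (above (𝓞 K) (𝓞 L) T)) =>
          (((Additive.toMul z : sUnit L (above (𝓞 K) (𝓞 L) T)) : Lˣ) : L)) h1
        exact h2)
    refine ⟨Additive.ofMul y, ?_⟩
    apply Additive.toMul.injective
    apply sUnit_ext
    have h3 := congrArg (fun z : sUnit L (above (𝓞 F) (𝓞 L) (above (𝓞 K) (𝓞 F) T)) =>
      ((z : Lˣ) : L)) hy
    exact h3
  · rintro ⟨y, rfl⟩ h hh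
    apply Additive.toMul.injective
    apply sUnit_ext
    rw [sUnitRep_apply]
    show h (algebraMap F L ((Additive.toMul y : sUnit F (above (𝓞 K) (𝓞 F) T)) : Fˣ)) =
      algebraMap F L ((Additive.toMul y : sUnit F (above (𝓞 K) (𝓞 F) T)) : Fˣ)
    rw [IntermediateField.mem_fixingSubgroup_iff] at hh
    exact hh _ (SetLike.coe_mem _)

/-- **rank of the fixed lattice**: `rank (U_{L,T_L})^{Gal(L/F)} + 1 = #S_∞(F) + #T_F`. -/
theorem finrank_fixedLattice_sUnitRep_add_one :
    finrank ℤ ↥(fixedLattice (sUnitRep K L T) F.fixingSubgroup) + 1 =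
      Fintype.card (InfinitePlace F) + (above (𝓞 K) (𝓞 F) T).card := by
  rw [fixedLattice_sUnitRep, LinearMap.finrank_range_of_inj (extFLin_injective K L T F)]
  exact finrank_sUnit_add_one F (above (𝓞 K) (𝓞 F) T)


/-- the set of places `T_L ⊔ S_∞(L)`. -/
inductive PlaceSet : Type v
  | fin (w : {w : HeightOneSpectrum (𝓞 L) // w ∈ above (𝓞 K) (𝓞 L) T}) : PlaceSet
  | inf (w : InfinitePlace L) : PlaceSet

/-- `PlaceSet` as a sum. -/
def placeSetEquiv : PlaceSet K L T ≃
    {w : HeightOneSpectrum (𝓞 L) // w ∈ above (𝓞 K) (𝓞 L) T} ⊕ InfinitePlace L where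
  toFun s := match s with
    | .fin w => Sum.inl w
    | .inf w => Sum.inr w
  invFun s := match s with
    | Sum.inl w => .fin w
    | Sum.inr w => .inf w
  left_inv s := by cases s <;> rfl
  right_inv s := by cases s <;> rfl

instance placeSetFinite : Finite (PlaceSet K L T) :=
  Finite.of_equiv _ (placeSetEquiv K L T).symm

/-- the Galois action on `T_L ⊔ S_∞(L)`. -/
noncomputable instance placeSetAction : MulAction (L ≃ₐ[K] L) (PlaceSet K L T) where
  smul σ s := match s with
    | .fin w => .fin ⟨smulH K L σ w.1, (smulH_mem_above K L T σ w.1).mpr w.2⟩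
    | .inf w => .inf (σ • w)
  one_smul s := by
    cases s with
    | fin w => exact congrArg PlaceSet.fin (Subtype.ext (smulH_one K L w.1))
    | inf w => exact congrArg PlaceSet.inf (one_smul _ w)
  mul_smul σ τ s := by
    cases s with
    | fin w => exact congrArg PlaceSet.fin (Subtype.ext (smulH_smulH K L σ τ w.1).symm)
    | inf w => exact congrArg PlaceSet.inf (mul_smul σ τ w)

theorem smul_fin (σ : L ≃ₐ[K] L) (w : {w : HeightOneSpectrum (𝓞 L) // w ∈ above (𝓞 K) (𝓞 L) T}) :
    σ • (PlaceSet.fin w : PlaceSet K L T) =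
      PlaceSet.fin ⟨smulH K L σ w.1, (smulH_mem_above K L T σ w.1).mpr w.2⟩ := rfl

theorem smul_inf (σ : L ≃ₐ[K] L) (w : InfinitePlace L) :
    σ • (PlaceSet.inf w : PlaceSet K L T) = PlaceSet.inf (σ • w) := rfl



omit [IsGalois K L] [NumberField K] [NumberField L] in
theorem under_under_eq (w : HeightOneSpectrum (𝓞 L)) :
    (w.under (𝓞 F)).under (𝓞 K) = w.under (𝓞 K) := by
  apply HeightOneSpectrum.ext
  simp only [HeightOneSpectrum.under_asIdeal]
  exact Ideal.under_under _

/-- restriction of places to `F`. -/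
noncomputable def resPlace : PlaceSet K L T →
    {v : HeightOneSpectrum (𝓞 F) // v ∈ above (𝓞 K) (𝓞 F) T} ⊕ InfinitePlace F
  | .fin w => Sum.inl ⟨w.1.under (𝓞 F), by
      rw [mem_above, under_under_eq]
      exact mem_above.mp w.2⟩
  | .inf w => Sum.inr (w.comap (algebraMap F L))

theorem resPlace_surjective : Function.Surjective (resPlace K L T F) := by
  rintro (v | v)
  · obtain ⟨w, hw⟩ := exists_under_eq F L v.1
    have hwT : w ∈ above (𝓞 K) (𝓞 L) T := by
      rw [mem_above, ← under_under_eq K L F, hw]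
      exact mem_above.mp v.2
    exact ⟨.fin ⟨w, hwT⟩, congrArg Sum.inl (Subtype.ext hw)⟩
  · obtain ⟨w, hw⟩ := InfinitePlace.comap_surjective (K := L) v
    exact ⟨.inf w, congrArg Sum.inr hw⟩

theorem resPlace_fin_fin (w w' : {w : HeightOneSpectrum (𝓞 L) // w ∈ above (𝓞 K) (𝓞 L) T}) :
    resPlace K L T F (.fin w) = resPlace K L T F (.fin w') ↔
      ∃ g : ↥F.fixingSubgroup, g • (PlaceSet.fin w : PlaceSet K L T) = PlaceSet.fin w' := by
  constructor
  · intro h
    have h1 : w.1.asIdeal.under (𝓞 F) = w'.1.asIdeal.under (𝓞 F) := by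
      have := congrArg (fun z : {v : HeightOneSpectrum (𝓞 F) // v ∈ above (𝓞 K) (𝓞 F) T} =>
        z.1.asIdeal) (Sum.inl_injective h)
      exact this
    obtain ⟨g, hg⟩ := Algebra.IsInvariant.exists_smul_of_under_eq (𝓞 F) (𝓞 L) (L ≃ₐ[F] L)
      w.1.asIdeal w'.1.asIdeal h1
    have hgF : g.restrictScalars K ∈ F.fixingSubgroup := by
      rw [IntermediateField.mem_fixingSubgroup_iff]
      intro z hz
      exact g.commutes ⟨z, hz⟩
    refine ⟨⟨g.restrictScalars K, hgF⟩, ?_⟩
    show (g.restrictScalars K) • (PlaceSet.fin w : PlaceSet K L T) = PlaceSet.fin w'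
    rw [smul_fin]
    apply congrArg PlaceSet.fin
    apply Subtype.ext
    apply HeightOneSpectrum.ext
    exact hg.symm
  · rintro ⟨⟨g, hg⟩, h⟩
    have h0 : g • (PlaceSet.fin w : PlaceSet K L T) = PlaceSet.fin w' := h
    rw [smul_fin] at h0
    have h1 : (⟨smulH K L g w.1, (smulH_mem_above K L T g w.1).mpr w.2⟩ :
        {w : HeightOneSpectrum (𝓞 L) // w ∈ above (𝓞 K) (𝓞 L) T}) = w' :=
      PlaceSet.fin.inj h0
    apply congrArg Sum.inl
    apply Subtype.ext
    apply HeightOneSpectrum.ext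
    show w.1.asIdeal.under (𝓞 F) = w'.1.asIdeal.under (𝓞 F)
    rw [← h1]
    show w.1.asIdeal.under (𝓞 F) = (g • w.1.asIdeal).under (𝓞 F)
    have h2 : g • w.1.asIdeal = (F.fixingSubgroupEquiv ⟨g, hg⟩) • w.1.asIdeal := rfl
    rw [h2, Ideal.under_smul]

theorem resPlace_inf_inf (w w' : InfinitePlace L) :
    resPlace K L T F (.inf w) = resPlace K L T F (.inf w') ↔
      ∃ g : ↥F.fixingSubgroup, g • (PlaceSet.inf w : PlaceSet K L T) = PlaceSet.inf w' := by
  constructor
  · intro h
    have h1 : w.comap (algebraMap F L) = w'.comap (algebraMap F L) := Sum.inr_injective h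
    obtain ⟨g, hg⟩ := InfinitePlace.exists_smul_eq_of_comap_eq h1
    have hgF : g.restrictScalars K ∈ F.fixingSubgroup := by
      rw [IntermediateField.mem_fixingSubgroup_iff]
      intro z hz
      exact g.commutes ⟨z, hz⟩
    refine ⟨⟨g.restrictScalars K, hgF⟩, ?_⟩
    show (g.restrictScalars K) • (PlaceSet.inf w : PlaceSet K L T) = PlaceSet.inf w'
    rw [smul_inf]
    apply congrArg PlaceSet.inf
    rw [← hg]
    rfl
  · rintro ⟨⟨g, hg⟩, h⟩
    have h0 : g • (PlaceSet.inf w : PlaceSet K L T) = PlaceSet.inf w' := h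
    rw [smul_inf] at h0
    have h1 : g • w = w' := PlaceSet.inf.inj h0
    apply congrArg Sum.inr
    show w.comap (algebraMap F L) = w'.comap (algebraMap F L)
    rw [← h1]
    have h2 : g • w = (F.fixingSubgroupEquiv ⟨g, hg⟩) • w := rfl
    rw [h2]
    exact (InfinitePlace.mem_orbit_iff.mp ⟨F.fixingSubgroupEquiv ⟨g, hg⟩, rfl⟩)

theorem resPlace_eq_iff (x x' : PlaceSet K L T) :
    resPlace K L T F x = resPlace K L T F x' ↔ ∃ g : ↥F.fixingSubgroup, g • x = x' := by
  cases x with
  | fin w =>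
    cases x' with
    | fin w' => exact resPlace_fin_fin K L T F w w'
    | inf w' =>
      constructor
      · intro h
        exact absurd h Sum.inl_ne_inr
      · rintro ⟨g, h⟩
        have h0 : (g : L ≃ₐ[K] L) • (PlaceSet.fin w : PlaceSet K L T) = PlaceSet.inf w' := h
        rw [smul_fin] at h0
        exact absurd h0 (by simp)
  | inf w =>
    cases x' with
    | fin w' =>
      constructor
      · intro h
        exact absurd h Sum.inr_ne_inl
      · rintro ⟨g, h⟩
        have h0 : (g : L ≃ₐ[K] L) • (PlaceSet.inf w : PlaceSet K L T) = PlaceSet.fin w' := h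
        rw [smul_inf] at h0
        exact absurd h0 (by simp)
    | inf w' => exact resPlace_inf_inf K L T F w w'

/-- **the number of `Gal(L/F)`-orbits on `T_L ⊔ S_∞(L)` is `#S_∞(F) + #T_F`.** -/
theorem card_orbits_placeSet :
    Nat.card (MulAction.orbitRel.Quotient ↥F.fixingSubgroup (PlaceSet K L T)) =
      Fintype.card (InfinitePlace F) + (above (𝓞 K) (𝓞 F) T).card := by
  rw [card_orbitRel_quotient_eq_of_fibers (G := ↥F.fixingSubgroup) (resPlace K L T F)
    (resPlace_surjective K L T F) (resPlace_eq_iff K L T F), Nat.card_sum, add_comm,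
    Nat.card_eq_fintype_card]
  congr 1
  rw [Nat.card_eq_fintype_card, Fintype.card_coe]


/-! ### The lattice and the theorem -/

/-- the lattice `U_{L,T_L} ⧸ torsion`. -/
abbrev sUnitLattice : Type v :=
  Additive (sUnit L (above (𝓞 K) (𝓞 L) T)) ⧸
    Submodule.torsion ℤ (Additive (sUnit L (above (𝓞 K) (𝓞 L) T)))

/-- the Galois action on `U_{L,T_L} ⧸ torsion`. -/
noncomputable def sUnitLatticeRep : Representation ℤ (L ≃ₐ[K] L) (sUnitLattice K L T) :=
  quotTorsionRep (sUnitRep K L T)

/-- **`rank Λ^H + 1 = #(H \ (T_L ⊔ S_∞(L)))` for every subgroup `H ≤ Gal(L/K)`.** -/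
theorem finrank_fixedLattice_sUnitLatticeRep_add_one (H : Subgroup (L ≃ₐ[K] L)) :
    finrank ℤ ↥(fixedLattice (sUnitLatticeRep K L T) H) + 1 =
      Nat.card (MulAction.orbitRel.Quotient ↥H (PlaceSet K L T)) := by
  have hH : (IntermediateField.fixedField H).fixingSubgroup = H :=
    IntermediateField.fixingSubgroup_fixedField H
  have key : ∀ F : IntermediateField K L,
      finrank ℤ ↥(fixedLattice (sUnitLatticeRep K L T) F.fixingSubgroup) + 1 =
        Nat.card (MulAction.orbitRel.Quotient ↥F.fixingSubgroup (PlaceSet K L T)) := by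
    intro F
    rw [sUnitLatticeRep, finrank_fixedLattice_quotTorsionRep,
      finrank_fixedLattice_sUnitRep_add_one, card_orbits_placeSet]
  have := key (IntermediateField.fixedField H)
  rw [hH] at this
  exact this

open TensorProduct in
/-- **Equivariant Dirichlet `S`-unit theorem mod `p`**: `L/K` cyclic of degree prime to `p`,
`Λ = U_{L,T_L} ⧸ torsion`. Then `(Λ/p) × 𝔽_p ≅ 𝔽_p[T_L ⊔ S_∞(L)]` as `𝔽_p[Gal(L/K)]`-modules. -/
theorem exists_equiv_sUnit (p : ℕ) [Fact p.Prime] [IsCyclic (L ≃ₐ[K] L)]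
    (hp : ¬ p ∣ Nat.card (L ≃ₐ[K] L)) :
    ∃ e : ((ZMod p ⊗[ℤ] sUnitLattice K L T) × ZMod p) ≃ₗ[ZMod p] (PlaceSet K L T → ZMod p),
      ∀ g x, e (prodTrivRep (ZMod p) (baseChangeRep (ZMod p) (sUnitLatticeRep K L T)) g x) =
        permRep (ZMod p) (PlaceSet K L T) g (e x) :=
  exists_equiv_permRep p hp (sUnitLatticeRep K L T) (PlaceSet K L T)
    (finrank_fixedLattice_sUnitLatticeRep_add_one K L T)

end Fermat.Agent.ES.T56.SUnitRep13
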