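/-
Programme T (S56), chapter GW-D (base case, brick K4b), helper13.

`CyclicRed13`: reduction mod `p` of a finite cyclic group `N` with `p ∣ #N`:
* `finrank_tensor_eq_one` : `dim_{𝔽_p} (ZMod p ⊗ N) = 1`;
* `baseChange_eq_smul`    : an endomorphism `x ↦ a • x` of `N` becomes multiplication by `a`;
* `exists_equiv_zmod`     : `∃ e : ZMod p ⊗ N ≃ₗ ZMod p`, with
  `e (φ.baseChange y) = a * e y` for every endomorphism `φ = a •`.
-/
import Mathlib

set_option autoImplicit false

open Module TensorProduct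

namespace Fermat.Agent.ES.T56.CyclicRed13

variable (N : Type*) [AddCommGroup N] (p : ℕ) [Fact p.Prime]

/-- an endomorphism `x ↦ a • x` becomes multiplication by `a` after any base change. -/
theorem baseChange_eq_smul {N : Type*} [AddCommGroup N] (k : Type*) [CommRing k]
    (φ : N →ₗ[ℤ] N) (a : ℤ) (ha : ∀ x, φ x = a • x) (y : k ⊗[ℤ] N) :
    φ.baseChange k y = (a : k) • y := by
  induction y using TensorProduct.induction_on with
  | zero => rw [map_zero, smul_zero]
  | tmul c x =>
    rw [LinearMap.baseChange_tmul, ha, TensorProduct.tmul_smul, TensorProduct.smul_tmul',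
      TensorProduct.smul_tmul', smul_eq_mul, zsmul_eq_mul]
  | add y z hy hz => rw [map_add, hy, hz, smul_add]

/-- `dim_{𝔽_p} (ZMod p ⊗ N) = 1` for a finite cyclic group `N` of order divisible by `p`. -/
theorem finrank_tensor_eq_one [Finite N] [IsAddCyclic N] (hp : p ∣ Nat.card N) :
    finrank (ZMod p) (ZMod p ⊗[ℤ] N) = 1 := by
  obtain ⟨g₀, hg₀⟩ := IsAddCyclic.exists_generator (α := N)
  -- upper bound: `c ↦ c ⊗ g₀` is onto
  have h1 : finrank (ZMod p) (ZMod p ⊗[ℤ] N) ≤ 1 := by
    have hsurj : Function.Surjective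
        (LinearMap.toSpanSingleton (ZMod p) (ZMod p ⊗[ℤ] N) ((1 : ZMod p) ⊗ₜ[ℤ] g₀)) := by
      intro y
      induction y using TensorProduct.induction_on with
      | zero => exact ⟨0, map_zero _⟩
      | tmul c x =>
        obtain ⟨n, rfl⟩ := AddSubgroup.mem_zmultiples_iff.mp (hg₀ x)
        refine ⟨n • c, ?_⟩
        rw [LinearMap.toSpanSingleton_apply, TensorProduct.smul_tmul', smul_eq_mul, mul_one,
          TensorProduct.tmul_smul, TensorProduct.smul_tmul']
      | add y z hy hz =>
        obtain ⟨a, rfl⟩ := hy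
        obtain ⟨b, rfl⟩ := hz
        exact ⟨a + b, map_add _ _ _⟩
    have := LinearMap.finrank_range_le
      (LinearMap.toSpanSingleton (ZMod p) (ZMod p ⊗[ℤ] N) ((1 : ZMod p) ⊗ₜ[ℤ] g₀))
    rw [LinearMap.range_eq_top.mpr hsurj, finrank_top, Module.finrank_self] at this
    exact this
  -- lower bound: a surjection onto `ZMod p`
  have h2 : 1 ≤ finrank (ZMod p) (ZMod p ⊗[ℤ] N) := by
    have : NeZero (Nat.card N) := ⟨Nat.card_pos.ne'⟩
    let f : N →+ ZMod p :=
      (ZMod.castHom hp (ZMod p)).toAddMonoidHom.comp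
        (zmodAddCyclicAddEquiv (G := N) inferInstance).symm.toAddMonoidHom
    have hf : Function.Surjective f := by
      intro c
      obtain ⟨z, hz⟩ := ZMod.castHom_surjective hp c
      exact ⟨zmodAddCyclicAddEquiv (G := N) inferInstance z, by
        show (ZMod.castHom hp (ZMod p))
          ((zmodAddCyclicAddEquiv (G := N) inferInstance).symm
            (zmodAddCyclicAddEquiv (G := N) inferInstance z)) = c
        rw [AddEquiv.symm_apply_apply, hz]⟩
    let E : (ZMod p ⊗[ℤ] N) →ₗ[ZMod p] ZMod p :=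
      (Algebra.TensorProduct.lmul'' ℤ (S := ZMod p)).toLinearMap ∘ₗ
        (f.toIntLinearMap.baseChange (ZMod p))
    have hE : Function.Surjective E := by
      intro c
      obtain ⟨x, hx⟩ := hf 1
      refine ⟨c ⊗ₜ[ℤ] x, ?_⟩
      show (Algebra.TensorProduct.lmul'' ℤ (S := ZMod p))
        (f.toIntLinearMap.baseChange (ZMod p) (c ⊗ₜ[ℤ] x)) = c
      rw [LinearMap.baseChange_tmul]
      show (Algebra.TensorProduct.lmul'' ℤ (S := ZMod p)) (c ⊗ₜ[ℤ] f x) = c
      rw [hx]
      simp [Algebra.TensorProduct.lmul'']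
    have := LinearMap.finrank_range_le E
    rw [LinearMap.range_eq_top.mpr hE, finrank_top, Module.finrank_self] at this
    -- need finite-dimensionality of the source to conclude
    exact this
  omega

/-- `ZMod p ⊗ N ≃ ZMod p`; endomorphisms `x ↦ a • x` of `N` act by `a`. -/
theorem exists_equiv_zmod [Finite N] [IsAddCyclic N] (hp : p ∣ Nat.card N) :
    ∃ e : (ZMod p ⊗[ℤ] N) ≃ₗ[ZMod p] ZMod p,
      ∀ (φ : N →ₗ[ℤ] N) (a : ℤ), (∀ x, φ x = a • x) →
        ∀ y, e (φ.baseChange (ZMod p) y) = (a : ZMod p) * e y := by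
  have h := finrank_tensor_eq_one N p hp
  have hfd : Module.Finite (ZMod p) (ZMod p ⊗[ℤ] N) := Module.finite_of_finrank_pos (by omega)
  have e : (ZMod p ⊗[ℤ] N) ≃ₗ[ZMod p] ZMod p :=
    LinearEquiv.ofFinrankEq _ _ (by rw [h, Module.finrank_self])
  refine ⟨e, fun φ a ha y => ?_⟩
  rw [baseChange_eq_smul (ZMod p) φ a ha y, map_smul, smul_eq_mul]

end Fermat.Agent.ES.T56.CyclicRed13
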