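/-
Programme T (S56), chapter GW-D (base case, brick K4b), helper13.

`TorsionSeq13`: for a finitely generated `ℤ`-module `M` with an action `τ` of a group `Δ` and any
commutative ring `k` (in the application `k = ZMod p`), the `Δ`-equivariant short exact sequence

    0 → k ⊗ M_tors → k ⊗ M → k ⊗ (M ⧸ M_tors) → 0

(`torsionIncl`, `torsionProj`; left injectivity because `M ⧸ M_tors` is free, hence the sequence
`0 → M_tors → M → M ⧸ M_tors → 0` splits).
-/
import Mathlib
import Fermat.Agent.ES.T56.BrauerNesbitt13
import Fermat.Agent.ES.T56.TorsionFixed13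

set_option autoImplicit false

open Module TensorProduct

namespace Fermat.Agent.ES.T56.TorsionSeq13

open Fermat.Agent.ES.T56.BrauerNesbitt13 Fermat.Agent.ES.T56.TorsionFixed13

variable {Δ : Type*} [Group Δ] {M : Type*} [AddCommGroup M]

/-- the representation on the torsion submodule. -/
def torsionRep (τ : Representation ℤ Δ M) : Representation ℤ Δ ↥(Submodule.torsion ℤ M) where
  toFun g := (τ g).restrict (fun x hx => torsion_le_comap (τ g) hx)
  map_one' := by
    apply LinearMap.ext
    intro x
    apply Subtype.ext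
    rw [LinearMap.restrict_apply, map_one]
    rfl
  map_mul' g h := by
    apply LinearMap.ext
    intro x
    apply Subtype.ext
    rw [LinearMap.restrict_apply, map_mul]
    rfl

theorem coe_torsionRep (τ : Representation ℤ Δ M) (g : Δ) (x : ↥(Submodule.torsion ℤ M)) :
    ((torsionRep τ g x : ↥(Submodule.torsion ℤ M)) : M) = τ g (x : M) := rfl

variable (k : Type*) [CommRing k] (M)

/-- `k ⊗ M_tors → k ⊗ M`. -/
noncomputable def torsionIncl : (k ⊗[ℤ] ↥(Submodule.torsion ℤ M)) →ₗ[k] (k ⊗[ℤ] M) :=
  (Submodule.torsion ℤ M).subtype.baseChange k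

/-- `k ⊗ M → k ⊗ (M ⧸ M_tors)`. -/
noncomputable def torsionProj : (k ⊗[ℤ] M) →ₗ[k] (k ⊗[ℤ] (M ⧸ Submodule.torsion ℤ M)) :=
  (Submodule.torsion ℤ M).mkQ.baseChange k

/-- a retraction `M → M_tors` (the sequence splits because `M ⧸ M_tors` is free). -/
theorem exists_retraction [Module.Finite ℤ M] :
    ∃ r : M →ₗ[ℤ] ↥(Submodule.torsion ℤ M), r ∘ₗ (Submodule.torsion ℤ M).subtype = LinearMap.id := by
  obtain ⟨s, hs⟩ := Module.projective_lifting_property (Submodule.torsion ℤ M).mkQ
    (LinearMap.id : (M ⧸ Submodule.torsion ℤ M) →ₗ[ℤ] (M ⧸ Submodule.torsion ℤ M))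
    (Submodule.mkQ_surjective _)
  have hmem : ∀ x : M, x - s ((Submodule.torsion ℤ M).mkQ x) ∈ Submodule.torsion ℤ M := by
    intro x
    have h0 : (Submodule.torsion ℤ M).mkQ (x - s ((Submodule.torsion ℤ M).mkQ x)) = 0 := by
      rw [map_sub]
      have := LinearMap.congr_fun hs ((Submodule.torsion ℤ M).mkQ x)
      rw [LinearMap.comp_apply, LinearMap.id_apply] at this
      rw [this, sub_self]
    exact (Submodule.Quotient.mk_eq_zero _).mp h0
  refine ⟨(LinearMap.id - s ∘ₗ (Submodule.torsion ℤ M).mkQ).codRestrict _ hmem, ?_⟩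
  apply LinearMap.ext
  intro x
  apply Subtype.ext
  have hx : (Submodule.torsion ℤ M).mkQ (x : M) = 0 :=
    (Submodule.Quotient.mk_eq_zero _).mpr x.2
  show (x : M) - s ((Submodule.torsion ℤ M).mkQ (x : M)) = x
  rw [hx, map_zero, sub_zero]

theorem torsionIncl_injective [Module.Finite ℤ M] : Function.Injective (torsionIncl M k) := by
  obtain ⟨r, hr⟩ := exists_retraction M
  have h : (r.baseChange k) ∘ₗ (torsionIncl M k) = LinearMap.id := by
    rw [torsionIncl, ← LinearMap.baseChange_comp, hr, LinearMap.baseChange_id]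
  intro x y hxy
  have := congrArg (r.baseChange k) hxy
  rw [← LinearMap.comp_apply, ← LinearMap.comp_apply, h] at this
  exact this

theorem torsionProj_surjective : Function.Surjective (torsionProj M k) := by
  rw [torsionProj, LinearMap.baseChange_eq_ltensor]
  exact LinearMap.lTensor_surjective k (Submodule.mkQ_surjective _)

theorem torsion_exact : Function.Exact (torsionIncl M k) (torsionProj M k) := by
  rw [torsionIncl, torsionProj, LinearMap.baseChange_eq_ltensor, LinearMap.baseChange_eq_ltensor]
  exact lTensor_exact k (LinearMap.exact_subtype_mkQ _) (Submodule.mkQ_surjective _)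

variable {M}

theorem torsionIncl_equivariant (τ : Representation ℤ Δ M) (g : Δ)
    (x : k ⊗[ℤ] ↥(Submodule.torsion ℤ M)) :
    torsionIncl M k (baseChangeRep k (torsionRep τ) g x) =
      baseChangeRep k τ g (torsionIncl M k x) := by
  rw [baseChangeRep_apply, baseChangeRep_apply, torsionIncl, ← LinearMap.comp_apply,
    ← LinearMap.comp_apply, ← LinearMap.baseChange_comp, ← LinearMap.baseChange_comp]
  rfl

theorem torsionProj_equivariant (τ : Representation ℤ Δ M) (g : Δ) (x : k ⊗[ℤ] M) :
    torsionProj M k (baseChangeRep k τ g x) =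
      baseChangeRep k (quotTorsionRep τ) g (torsionProj M k x) := by
  rw [baseChangeRep_apply, baseChangeRep_apply, torsionProj, ← LinearMap.comp_apply,
    ← LinearMap.comp_apply, ← LinearMap.baseChange_comp, ← LinearMap.baseChange_comp]
  rfl

end Fermat.Agent.ES.T56.TorsionSeq13
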