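/-
Programme T (S56), chapter GW-D (base case, brick K4b), helper13.

`SUnitTorsion13`: **the torsion of the `T_L`-units mod `p` is `μ_p` as a Galois module.**
`L/K` Galois extension of number fields, `M = Additive (sUnit L T_L)`, `torsU = M_tors` (= `μ(L)`).
* `torsVal : Multiplicative torsU →* L` (injective), `torsU_finite`, `torsU_isAddCyclic`;
* `exists_torsU_of_pow_eq_one` : roots of unity of `L` are torsion `T_L`-units;
* `dvd_card_torsU` : `p ∣ #torsU` when `ζ_p ∈ L`;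
* **`exists_equiv_torsU`** : `∃ e : ZMod p ⊗ torsU ≃ₗ[ZMod p] ZMod p` such that `g ∈ Gal(L/K)` acts
  as multiplication by `a` whenever `g ζ = ζ ^ a` (`ζ` a primitive `p`-th root of unity of `L`),
  i.e. `ZMod p ⊗ μ(L) ≅ 𝔽_p(ω)`.
Together with `TorsionSeq13` (`0 → 𝔽_p ⊗ M_tors → 𝔽_p ⊗ M → 𝔽_p ⊗ (M/tors) → 0`, equivariant) and
`SUnitRep13.exists_equiv_sUnit` this is brick (K4) of `T56_BASE28.md`.
-/
import Mathlib
import Fermat.Agent.PT.GLOB.SUnits24
import Fermat.Agent.PT.GLOB.PrimesAbove24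
import Fermat.Agent.PT.GLOB.SUnitsGalois24
import Fermat.Agent.ES.T56.BrauerNesbitt13
import Fermat.Agent.ES.T56.TorsionSeq13
import Fermat.Agent.ES.T56.CyclicRed13
import Fermat.Agent.ES.T56.SUnitRep13

set_option autoImplicit false
set_option linter.unusedSectionVars false

open NumberField IsDedekindDomain HeightOneSpectrum Module TensorProduct
open scoped nonZeroDivisors
open Fermat.Agent.PT.GLOB.SUnits24 Fermat.Agent.PT.GLOB.PrimesAbove24
  Fermat.Agent.PT.GLOB.SUnitsGalois24 Fermat.Agent.ES.T56.BrauerNesbitt13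
  Fermat.Agent.ES.T56.TorsionSeq13 Fermat.Agent.ES.T56.CyclicRed13 Fermat.Agent.ES.T56.SUnitRep13

namespace Fermat.Agent.ES.T56.SUnitTorsion13

universe u v

variable (K : Type u) (L : Type v) [Field K] [Field L] [NumberField K] [NumberField L]
  [Algebra K L] [IsGalois K L] (T : Finset (HeightOneSpectrum (𝓞 K)))

/-- the torsion of the `T_L`-units (additively). -/
noncomputable abbrev torsU : Submodule ℤ (Additive (sUnit L (above (𝓞 K) (𝓞 L) T))) :=
  Submodule.torsion ℤ (Additive (sUnit L (above (𝓞 K) (𝓞 L) T)))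

/-- the underlying element of `L`. -/
noncomputable def torsVal : Multiplicative ↥(torsU K L T) →* L where
  toFun x := (((Additive.toMul (Multiplicative.toAdd x).1 : sUnit L (above (𝓞 K) (𝓞 L) T)) : Lˣ) : L)
  map_one' := rfl
  map_mul' _ _ := rfl

theorem torsVal_injective : Function.Injective (torsVal K L T) := by
  intro x y h
  apply Multiplicative.toAdd.injective
  apply Subtype.ext
  apply Additive.toMul.injective
  apply Subtype.ext
  apply Units.ext
  exact h

theorem torsU_finite : Finite ↥(torsU K L T) := by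
  have : IsNoetherian ℤ (Additive (sUnit L (above (𝓞 K) (𝓞 L) T))) :=
    isNoetherian_of_isNoetherianRing_of_finite ℤ _
  exact Module.finite_of_fg_torsion _ (Submodule.torsion_isTorsion)

theorem torsU_isAddCyclic : IsAddCyclic ↥(torsU K L T) := by
  have := torsU_finite K L T
  have : IsCyclic (Multiplicative ↥(torsU K L T)) :=
    isCyclic_of_injective_ringHom (torsVal K L T) (torsVal_injective K L T)
  exact isCyclic_multiplicative_iff.mp this

/-- value of `n • x`. -/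
theorem torsVal_zsmul (x : ↥(torsU K L T)) (n : ℤ) :
    torsVal K L T (Multiplicative.ofAdd (n • x)) = torsVal K L T (Multiplicative.ofAdd x) ^ n := by
  rw [← map_zpow]
  rfl

/-- the Galois action on values. -/
theorem torsVal_torsionRep (g : L ≃ₐ[K] L) (x : ↥(torsU K L T)) :
    torsVal K L T (Multiplicative.ofAdd (torsionRep (sUnitRep K L T) g x)) =
      g (torsVal K L T (Multiplicative.ofAdd x)) := rfl

/-- a root of unity of `L`, as a torsion `T_L`-unit. -/
theorem exists_torsU_of_pow_eq_one {ζ : L} {n : ℕ} (hn : n ≠ 0) (hζ : ζ ^ n = 1) :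
    ∃ z : ↥(torsU K L T), torsVal K L T (Multiplicative.ofAdd z) = ζ := by
  have hζ0 : ζ ≠ 0 := by
    rintro rfl
    rw [zero_pow hn] at hζ
    exact zero_ne_one hζ
  have hmem : Units.mk0 ζ hζ0 ∈ sUnit L (above (𝓞 K) (𝓞 L) T) := by
    rw [mem_sUnit_iff]
    intro v _
    apply withZero_pow_eq_one hn
    rw [Units.val_mk0, ← map_pow, hζ, map_one]
  have htors : Additive.ofMul (⟨Units.mk0 ζ hζ0, hmem⟩ : sUnit L (above (𝓞 K) (𝓞 L) T)) ∈
      torsU K L T := by
    rw [Submodule.mem_torsion_iff]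
    refine ⟨⟨(n : ℤ), mem_nonZeroDivisors_of_ne_zero (by exact_mod_cast hn)⟩, ?_⟩
    rw [Submonoid.smul_def]
    show ((n : ℤ) • Additive.ofMul (⟨Units.mk0 ζ hζ0, hmem⟩ : sUnit L (above (𝓞 K) (𝓞 L) T))) = 0
    rw [natCast_zsmul, ← ofMul_pow]
    apply congrArg Additive.ofMul
    apply Subtype.ext
    apply Units.ext
    show ζ ^ n = 1
    exact hζ
  exact ⟨⟨_, htors⟩, rfl⟩

/-- `p ∣ #μ(L)` when `ζ_p ∈ L`. -/
theorem dvd_card_torsU (p : ℕ) [hp : Fact p.Prime] {ζ : L} (hζ : IsPrimitiveRoot ζ p) :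
    p ∣ Nat.card ↥(torsU K L T) := by
  obtain ⟨z, hz⟩ := exists_torsU_of_pow_eq_one K L T hp.out.ne_zero hζ.pow_eq_one
  have h1 : p • z = 0 := by
    apply Multiplicative.ofAdd.injective
    apply torsVal_injective K L T
    have := torsVal_zsmul K L T z (p : ℤ)
    rw [natCast_zsmul, hz, zpow_natCast, hζ.pow_eq_one] at this
    rw [this]
    rfl
  have h2 : z ≠ 0 := by
    rintro rfl
    have h3 : torsVal K L T (Multiplicative.ofAdd (0 : ↥(torsU K L T))) = 1 := rfl
    rw [hz] at h3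
    exact hζ.ne_one hp.out.one_lt h3
  rw [← addOrderOf_eq_prime h1 h2]
  exact addOrderOf_dvd_natCard z

/-- **`ZMod p ⊗ μ(L) ≅ μ_p` as Galois modules**: `ZMod p ⊗ (U_{L,T_L})_tors ≃ ZMod p`, and
`g ∈ Gal(L/K)` acts as multiplication by `a` whenever `g ζ = ζ ^ a` for a primitive `p`-th root of
unity `ζ ∈ L`. -/
theorem exists_equiv_torsU (p : ℕ) [hp : Fact p.Prime] {ζ : L} (hζ : IsPrimitiveRoot ζ p) :
    ∃ e : (ZMod p ⊗[ℤ] ↥(torsU K L T)) ≃ₗ[ZMod p] ZMod p,
      ∀ (g : L ≃ₐ[K] L) (a : ℕ), g ζ = ζ ^ a →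
        ∀ y, e (baseChangeRep (ZMod p) (torsionRep (sUnitRep K L T)) g y) =
          (a : ZMod p) * e y := by
  have hfin := torsU_finite K L T
  have hcyc := torsU_isAddCyclic K L T
  obtain ⟨e, he⟩ := exists_equiv_zmod ↥(torsU K L T) p (dvd_card_torsU K L T p hζ)
  refine ⟨e, fun g a hga y => ?_⟩
  obtain ⟨g₀, hg₀⟩ := IsAddCyclic.exists_generator (α := ↥(torsU K L T))
  obtain ⟨b, hb⟩ := AddSubgroup.mem_zmultiples_iff.mp
    (hg₀ (torsionRep (sUnitRep K L T) g g₀))
  have hall : ∀ x, torsionRep (sUnitRep K L T) g x = b • x := by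
    intro x
    obtain ⟨n, rfl⟩ := AddSubgroup.mem_zmultiples_iff.mp (hg₀ x)
    rw [map_zsmul, ← hb, smul_comm]
  rw [baseChangeRep_apply, he _ b hall y]
  congr 1
  -- `b ≡ a mod p`
  obtain ⟨z, hz⟩ := exists_torsU_of_pow_eq_one K L T hp.out.ne_zero hζ.pow_eq_one
  have h1 := torsVal_torsionRep K L T g z
  rw [hall z, torsVal_zsmul, hz, hga, ← zpow_natCast] at h1
  have h2 : ζ ^ (b - (a : ℤ)) = 1 := by
    have hζ0 : ζ ≠ 0 := hζ.ne_zero hp.out.ne_zero
    rw [zpow_sub₀ hζ0, h1, div_self (zpow_ne_zero _ hζ0)]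
  have h3 : ((p : ℕ) : ℤ) ∣ b - (a : ℤ) := (hζ.zpow_eq_one_iff_dvd _).mp h2
  have h4 : ((a : ℤ) : ZMod p) = ((b : ℤ) : ZMod p) :=
    (ZMod.intCast_eq_intCast_iff_dvd_sub _ _ p).mpr h3
  rw [← h4, Int.cast_natCast]

end Fermat.Agent.ES.T56.SUnitTorsion13
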