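/-
Programme T (S56), chapter GW, part D (`BaseCaseGE`), helper13: the twist number does not see
the reduction mod `p`:  `twNum (baseChangeRep (ZMod p) τ) ω ρ = twNum τ ω ρ` for
`τ : Representation ℤ Δ A` (`ZMod p ⊗[ℤ] A` is `A / p A`, and `Y^∨` is killed by `p`).

* `eqHomBaseChange τ σ : eqHom τ σ ≃ₗ[ZMod p] eqHom (baseChangeRep (ZMod p) τ) σ`;
* **`twNum_baseChange`**.

Fully proved; Mathlib + TwistNum28 + TwExact13 + BrauerNesbitt13 (`baseChangeRep`).
-/
import Mathlib
import Fermat.Agent.ES.T56.TwExact13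
import Fermat.Agent.ES.T56.BrauerNesbitt13

set_option autoImplicit false

open Module

namespace Fermat.Agent.ES.T56.TwBaseChange13

open Fermat.Agent.ES.T56.TwistNum28 Fermat.Agent.ES.T56.TwExact13
open Fermat.Agent.ES.T56.BrauerNesbitt13

variable {p : ℕ} [Fact p.Prime]
variable {Δ : Type*} [Group Δ]
variable {W : Type*} [AddCommGroup W] [Module (ZMod p) W]
variable {A : Type*} [AddCommGroup A]

/-- `x ↦ 1 ⊗ x`. -/
noncomputable def inclOne : A →+ TensorProduct ℤ (ZMod p) A :=
  (TensorProduct.mk ℤ (ZMod p) A 1).toAddMonoidHom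

theorem inclOne_apply (x : A) : inclOne (p := p) x = (1 : ZMod p) ⊗ₜ[ℤ] x := rfl

/-- the linear extension of an additive map to `ZMod p ⊗ A`. -/
noncomputable def liftAdd (a : A →+ W) : TensorProduct ℤ (ZMod p) A →+ W :=
  (LinearMap.liftBaseChange (ZMod p) a.toIntLinearMap).toAddMonoidHom

theorem liftAdd_tmul (a : A →+ W) (c : ZMod p) (x : A) :
    liftAdd a (c ⊗ₜ[ℤ] x) = c • a x := by
  simp [liftAdd]

theorem liftAdd_comp_inclOne (b : TensorProduct ℤ (ZMod p) A →+ W) :
    liftAdd (b.comp inclOne) = b := by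
  ext t
  induction t using TensorProduct.induction_on with
  | zero => simp
  | tmul c x =>
    rw [liftAdd_tmul, AddMonoidHom.comp_apply, inclOne_apply, ← ZMod.map_smul b c,
      TensorProduct.smul_tmul', smul_eq_mul, mul_one]
  | add s t hs ht => rw [map_add, map_add, hs, ht]

/-- Equivariant additive maps out of `A` and out of `ZMod p ⊗ A` are the same. -/
noncomputable def eqHomBaseChange (τ : Representation ℤ Δ A) (σ : Representation (ZMod p) Δ W) :
    ↥(eqHom τ σ) ≃ₗ[ZMod p] ↥(eqHom (baseChangeRep (ZMod p) τ) σ) where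
  toFun a := ⟨liftAdd a.1, by
    intro δ t
    induction t using TensorProduct.induction_on with
    | zero => simp
    | tmul c x =>
      rw [baseChangeRep_apply, LinearMap.baseChange_tmul, liftAdd_tmul, liftAdd_tmul, a.2 δ x,
        map_smul]
    | add s t hs ht => rw [map_add, map_add, hs, ht, map_add, map_add]⟩
  map_add' a b := by
    apply Subtype.ext
    ext t
    induction t using TensorProduct.induction_on with
    | zero => simp
    | tmul c x => simp [liftAdd_tmul]
    | add s t hs ht => rw [map_add, hs, ht, map_add]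
  map_smul' c a := by
    apply Subtype.ext
    ext t
    induction t using TensorProduct.induction_on with
    | zero => simp
    | tmul d x => simp [liftAdd_tmul, smul_comm c d]
    | add s t hs ht => rw [map_add, hs, ht, map_add]
  invFun b := ⟨b.1.comp inclOne, by
    intro δ x
    rw [AddMonoidHom.comp_apply, AddMonoidHom.comp_apply, inclOne_apply, inclOne_apply,
      ← b.2 δ, baseChangeRep_apply, LinearMap.baseChange_tmul]⟩
  left_inv a := by
    apply Subtype.ext
    ext x
    change liftAdd a.1 ((1 : ZMod p) ⊗ₜ[ℤ] x) = a.1 x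
    rw [liftAdd_tmul, one_smul]
  right_inv b := by
    apply Subtype.ext
    exact liftAdd_comp_inclOne b.1

/-- **The twist number of `ZMod p ⊗ A` is that of `A`.** -/
theorem twNum_baseChange {Y : Type*} [AddCommGroup Y] [Module (ZMod p) Y]
    (τ : Representation ℤ Δ A) (ω : Δ →* (ZMod p)ˣ) (ρ : Representation (ZMod p) Δ Y) :
    twNum (baseChangeRep (ZMod p) τ) ω ρ = twNum τ ω ρ := by
  rw [twNum_eq_finrank_eqHom, twNum_eq_finrank_eqHom]
  exact (LinearEquiv.finrank_eq (eqHomBaseChange τ (twDual ω ρ))).symm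

end Fermat.Agent.ES.T56.TwBaseChange13
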