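/-
Programme T (S56), chapter GW, part D (`BaseCaseGE`), helper28: the TWIST NUMBERS (`T56_BASE28.md` §0).

`Δ` a group, `Y` an `𝔽_p`-vector space with `ρ : Representation (ZMod p) Δ Y`, `ω : Δ →* (ZMod p)ˣ`
(the mod `p` cyclotomic character).  For an abelian group `A` with a `Δ`-action
`τ : Representation R Δ A` (`R` ANY commutative ring: `ℤ`, `ZMod p`, …; only additivity is used):

* `twAdd τ ω ρ ≤ (A →+ Module.Dual (ZMod p) Y)` : `{a | a (τ δ x) (ρ δ y) = ω δ * a x y}`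
  = `Hom_Δ(A, Y^∨(1))` = `Hom_Δ(A / p A, Y^∨(1))`  (FORM 2);   `twNum τ ω ρ` its `𝔽_p`-dimension;
* `twHom τ ω ρ ≤ ((A →+ ZMod p) →ₗ[ZMod p] Y)` : `{Φ | ρ δ (Φ l) = ω δ • Φ (l ∘ τ δ⁻¹)}`
  = `Hom_Δ(Hom(A, 𝔽_p)(1), Y)`  (FORM 1, the Kummer side);   `twNum₁ τ ω ρ` its dimension;
* `twAddCongr`, `twNum_congr` : invariance under an equivariant additive isomorphism `e : A ≃+ B`,
  possibly over different coefficient rings (T0).

`⟨A⟩ := twNum τ ω ρ` is the number of `T56_BASE28.md`; no reduction mod `p` of `A` is ever formed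
(`Y^∨` is killed by `p`).  Fully proved; Mathlib only.
-/
import Mathlib

set_option autoImplicit false

open Module

namespace Fermat.Agent.ES.T56.TwistNum28

variable {p : ℕ} [Fact p.Prime]
variable {Δ : Type*} [Group Δ] {Y : Type*} [AddCommGroup Y] [Module (ZMod p) Y]

section Defs

variable {R : Type*} [CommRing R] {A : Type*} [AddCommGroup A] [Module R A]

/-- FORM 2: `Hom_Δ(A, Y^∨(1))`, the additive maps `a : A → Y^∨` with
`a (δ x) (δ y) = ω(δ) a x y`. -/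
def twAdd (τ : Representation R Δ A) (ω : Δ →* (ZMod p)ˣ) (ρ : Representation (ZMod p) Δ Y) :
    Submodule (ZMod p) (A →+ Module.Dual (ZMod p) Y) where
  carrier := {a | ∀ (δ : Δ) (x : A) (y : Y),
    a (τ δ x) (ρ δ y) = ((ω δ : (ZMod p)ˣ) : ZMod p) * a x y}
  add_mem' := by
    intro a b ha hb δ x y
    simp only [AddMonoidHom.add_apply, LinearMap.add_apply, ha δ x y, hb δ x y, mul_add]
  zero_mem' := by
    intro δ x y
    simp
  smul_mem' := by
    intro c a ha δ x y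
    simp only [AddMonoidHom.smul_apply, LinearMap.smul_apply, ha δ x y, smul_eq_mul]
    ring

theorem mem_twAdd {τ : Representation R Δ A} {ω : Δ →* (ZMod p)ˣ}
    {ρ : Representation (ZMod p) Δ Y} {a : A →+ Module.Dual (ZMod p) Y} :
    a ∈ twAdd τ ω ρ ↔ ∀ (δ : Δ) (x : A) (y : Y),
      a (τ δ x) (ρ δ y) = ((ω δ : (ZMod p)ˣ) : ZMod p) * a x y := Iff.rfl

/-- The twist number `⟨A⟩ = dim Hom_Δ(A, Y^∨(1))`. -/
noncomputable def twNum (τ : Representation R Δ A) (ω : Δ →* (ZMod p)ˣ)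
    (ρ : Representation (ZMod p) Δ Y) : ℕ :=
  finrank (ZMod p) ↥(twAdd τ ω ρ)

/-- FORM 1: `Hom_Δ(Hom(A, 𝔽_p)(1), Y)`, the linear maps `Φ : Hom(A, 𝔽_p) → Y` with
`δ (Φ l) = ω(δ) Φ (l ∘ δ⁻¹)`. -/
def twHom (τ : Representation R Δ A) (ω : Δ →* (ZMod p)ˣ) (ρ : Representation (ZMod p) Δ Y) :
    Submodule (ZMod p) ((A →+ ZMod p) →ₗ[ZMod p] Y) where
  carrier := {Φ | ∀ (δ : Δ) (l : A →+ ZMod p),
    ρ δ (Φ l) = ((ω δ : (ZMod p)ˣ) : ZMod p) • Φ (l.comp (τ δ⁻¹).toAddMonoidHom)}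
  add_mem' := by
    intro Φ Ψ hΦ hΨ δ l
    simp only [LinearMap.add_apply, map_add, hΦ δ l, hΨ δ l, smul_add]
  zero_mem' := by
    intro δ l
    simp
  smul_mem' := by
    intro c Φ hΦ δ l
    simp only [LinearMap.smul_apply, map_smul, hΦ δ l]
    rw [smul_comm]

theorem mem_twHom {τ : Representation R Δ A} {ω : Δ →* (ZMod p)ˣ}
    {ρ : Representation (ZMod p) Δ Y} {Φ : (A →+ ZMod p) →ₗ[ZMod p] Y} :
    Φ ∈ twHom τ ω ρ ↔ ∀ (δ : Δ) (l : A →+ ZMod p),
      ρ δ (Φ l) = ((ω δ : (ZMod p)ˣ) : ZMod p) • Φ (l.comp (τ δ⁻¹).toAddMonoidHom) := Iff.rfl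

/-- The dimension of FORM 1. -/
noncomputable def twNum₁ (τ : Representation R Δ A) (ω : Δ →* (ZMod p)ˣ)
    (ρ : Representation (ZMod p) Δ Y) : ℕ :=
  finrank (ZMod p) ↥(twHom τ ω ρ)

end Defs

section Congr

variable {R R' : Type*} [CommRing R] [CommRing R'] {A B : Type*} [AddCommGroup A] [Module R A]
  [AddCommGroup B] [Module R' B]

/-- Precomposition with an additive isomorphism. -/
def precompEquiv (e : A ≃+ B) :
    (B →+ Module.Dual (ZMod p) Y) ≃ₗ[ZMod p] (A →+ Module.Dual (ZMod p) Y) where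
  toFun b := b.comp e.toAddMonoidHom
  invFun a := a.comp e.symm.toAddMonoidHom
  map_add' _ _ := rfl
  map_smul' _ _ := rfl
  left_inv b := by
    ext x y
    simp
  right_inv a := by
    ext x y
    simp

/-- (T0) `Hom_Δ(B, Y^∨(1)) ≃ Hom_Δ(A, Y^∨(1))` for an equivariant isomorphism `A ≃ B`. -/
def twAddCongr (τ : Representation R Δ A) (σ : Representation R' Δ B) (ω : Δ →* (ZMod p)ˣ)
    (ρ : Representation (ZMod p) Δ Y) (e : A ≃+ B) (he : ∀ δ x, e (τ δ x) = σ δ (e x)) :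
    ↥(twAdd σ ω ρ) ≃ₗ[ZMod p] ↥(twAdd τ ω ρ) :=
  LinearEquiv.ofSubmodules (precompEquiv (p := p) (Y := Y) e) (twAdd σ ω ρ) (twAdd τ ω ρ) (by
    ext a
    constructor
    · rintro ⟨b, hb, rfl⟩ δ x y
      change b (e (τ δ x)) (ρ δ y) = _ * b (e x) y
      rw [he]
      exact hb δ (e x) y
    · intro ha
      refine ⟨(precompEquiv (p := p) (Y := Y) e).symm a, ?_, LinearEquiv.apply_symm_apply _ _⟩
      intro δ x y
      change a (e.symm (σ δ x)) (ρ δ y) = _ * a (e.symm x) y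
      have h1 : e.symm (σ δ x) = τ δ (e.symm x) := by
        rw [AddEquiv.symm_apply_eq, he, AddEquiv.apply_symm_apply]
      rw [h1]
      exact ha δ (e.symm x) y)

/-- (T0) The twist number is invariant under equivariant isomorphisms. -/
theorem twNum_congr (τ : Representation R Δ A) (σ : Representation R' Δ B) (ω : Δ →* (ZMod p)ˣ)
    (ρ : Representation (ZMod p) Δ Y) (e : A ≃+ B) (he : ∀ δ x, e (τ δ x) = σ δ (e x)) :
    twNum τ ω ρ = twNum σ ω ρ :=
  (LinearEquiv.finrank_eq (twAddCongr τ σ ω ρ e he)).symm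

end Congr

end Fermat.Agent.ES.T56.TwistNum28
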