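/-
Programme T (S56), chapter GW, part D (`BaseCaseGE`), helper13: the T-algebra, part (T1)
(`T56_BASE28.md` §0), written against helper28's literals `TwistNum28.twAdd` / `twNum`.

* `eqHom τ σ ≤ (A →+ W)` : the `Δ`-equivariant additive maps from `(A, τ)` (any coefficient
  ring) to an `𝔽_p[Δ]`-module `(W, σ)`;
* `twDual ω ρ` : the action of `Δ` on `Y^∨(1)`, `(δ λ)(y) = ω(δ) λ(δ⁻¹ y)`;
  `twAdd_eq_eqHom : twAdd τ ω ρ = eqHom τ (twDual ω ρ)`;
* `exists_extension_of_pure` : additive maps to an `𝔽_p`-vector space extend along `f : A' → A`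
  whenever `A'/p → A/p` is injective (through Mathlib's `ModN`);
* `exists_equivariant_extension` : averaging (`p ∤ #Δ`);
* `finrank_eqHom_exact`, **`twNum_exact`** (T1), **`twNum_prod`**;
* `finite_addMonoidHom_of_fg`, `finite_eqHom_of_fg`, `finite_twAdd_of_fg` : the finiteness
  hypothesis of (T1) for finitely generated `A` and finite `Y`.

Fully proved; Mathlib + TwistNum28 only.
-/
import Mathlib
import Fermat.Agent.ES.T56.TwistNum28

set_option autoImplicit false

open Module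

namespace Fermat.Agent.ES.T56.TwExact13

open Fermat.Agent.ES.T56.TwistNum28

variable {p : ℕ} [Fact p.Prime]
variable {Δ : Type*} [Group Δ]

section EqHom

variable {W : Type*} [AddCommGroup W] [Module (ZMod p) W]
variable {R : Type*} [CommRing R] {A : Type*} [AddCommGroup A] [Module R A]

/-- The `Δ`-equivariant additive maps `A → W`. -/
def eqHom (τ : Representation R Δ A) (σ : Representation (ZMod p) Δ W) :
    Submodule (ZMod p) (A →+ W) where
  carrier := {a | ∀ (δ : Δ) (x : A), a (τ δ x) = σ δ (a x)}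
  add_mem' := by
    intro a b ha hb δ x
    simp only [AddMonoidHom.add_apply, ha δ x, hb δ x, map_add]
  zero_mem' := by
    intro δ x
    simp
  smul_mem' := by
    intro c a ha δ x
    simp only [AddMonoidHom.smul_apply, ha δ x, map_smul]

theorem mem_eqHom {τ : Representation R Δ A} {σ : Representation (ZMod p) Δ W} {a : A →+ W} :
    a ∈ eqHom τ σ ↔ ∀ (δ : Δ) (x : A), a (τ δ x) = σ δ (a x) := Iff.rfl

end EqHom

section Helpers


theorem nsmul_eq_zero_of_zmod {W : Type*} [AddCommGroup W] [Module (ZMod p) W] (w : W) :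
    p • w = 0 := by
  rw [← Nat.cast_smul_eq_nsmul (ZMod p) p w, ZMod.natCast_self, zero_smul]

/-- linear map out of `ModN` -/
noncomputable def modNLift {A W : Type*} [AddCommGroup A] [AddCommGroup W] [Module (ZMod p) W]
    (a : A →+ W) : ModN A p →ₗ[ZMod p] W :=
  ((LinearMap.range (LinearMap.lsmul ℤ A p)).liftQ a.toIntLinearMap (by
    rintro _ ⟨x, rfl⟩
    simp only [LinearMap.mem_ker, LinearMap.lsmul_apply, map_smul]
    rw [Nat.cast_smul_eq_nsmul]
    exact nsmul_eq_zero_of_zmod _)).toAddMonoidHom.toZModLinearMap p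

theorem modNLift_mkQ {A W : Type*} [AddCommGroup A] [AddCommGroup W] [Module (ZMod p) W]
    (a : A →+ W) (x : A) : modNLift (p := p) a (ModN.mkQ p x) = a x := by
  simp [modNLift, ModN.mkQ]

theorem exists_extension_of_pure {A' A W : Type*} [AddCommGroup A'] [AddCommGroup A]
    [AddCommGroup W] [Module (ZMod p) W] (f : A' →+ A)
    (hpure : ∀ x, (∃ y, f x = p • y) → ∃ z, x = p • z) (a' : A' →+ W) :
    ∃ a₀ : A →+ W, ∀ x, a₀ (f x) = a' x := by
  let F : ModN A' p →ₗ[ZMod p] ModN A p := modNLift ((ModN.mkQ p).comp f)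
  have hF : ∀ x, F (ModN.mkQ p x) = ModN.mkQ p (f x) := fun x => modNLift_mkQ _ x
  have hinj : LinearMap.ker F = ⊥ := by
    rw [LinearMap.ker_eq_bot']
    intro q hq
    obtain ⟨x, rfl⟩ : ∃ x, ModN.mkQ p x = q := Submodule.mkQ_surjective _ q
    rw [hF] at hq
    have h1 : f x ∈ LinearMap.range (LinearMap.lsmul ℤ A p) :=
      (Submodule.Quotient.mk_eq_zero _).1 hq
    obtain ⟨y, hy⟩ := h1
    obtain ⟨z, rfl⟩ := hpure x ⟨y, by rw [← hy]; simp⟩
    exact (Submodule.Quotient.mk_eq_zero _).2 ⟨z, by simp⟩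
  obtain ⟨G, hG⟩ := LinearMap.exists_leftInverse_of_injective F hinj
  refine ⟨((modNLift a').comp G).toAddMonoidHom.comp (ModN.mkQ p), fun x => ?_⟩
  have h2 : G (F (ModN.mkQ p x)) = ModN.mkQ p x := by
    have := LinearMap.congr_fun hG (ModN.mkQ p x)
    simpa using this
  simp only [AddMonoidHom.coe_comp, Function.comp_apply, LinearMap.toAddMonoidHom_coe,
    LinearMap.coe_comp]
  rw [← hF, h2, modNLift_mkQ]


theorem exists_factor_of_surjective {A A'' W : Type*} [AddCommGroup A] [AddCommGroup A'']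
    [AddCommGroup W] (g : A →+ A'') (hsurj : Function.Surjective g) (a : A →+ W)
    (h : ∀ x, g x = 0 → a x = 0) : ∃ a'' : A'' →+ W, ∀ x, a'' (g x) = a x := by
  refine ⟨g.liftOfRightInverse (Function.surjInv hsurj) (Function.rightInverse_surjInv hsurj)
    ⟨a, fun x hx => ?_⟩, fun x => ?_⟩
  · exact h x hx
  · exact AddMonoidHom.liftOfRightInverse_comp_apply _ _ _ _ x

end Helpers

section Exact

variable {W : Type*} [AddCommGroup W] [Module (ZMod p) W]
variable {R' R R'' : Type*} [CommRing R'] [CommRing R] [CommRing R'']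
variable {A' A A'' : Type*} [AddCommGroup A'] [AddCommGroup A] [AddCommGroup A'']
  [Module R' A'] [Module R A] [Module R'' A'']

/-- Precomposition with an equivariant additive map. -/
def eqHomComp (τ₁ : Representation R' Δ A') (τ₂ : Representation R Δ A)
    (σ : Representation (ZMod p) Δ W) (f : A' →+ A) (hf : ∀ δ x, f (τ₁ δ x) = τ₂ δ (f x)) :
    ↥(eqHom τ₂ σ) →ₗ[ZMod p] ↥(eqHom τ₁ σ) where
  toFun a := ⟨a.1.comp f, fun δ x => by
    change a.1 (f (τ₁ δ x)) = σ δ (a.1 (f x))
    rw [hf]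
    exact a.2 δ (f x)⟩
  map_add' _ _ := rfl
  map_smul' _ _ := rfl

theorem eqHomComp_apply (τ₁ : Representation R' Δ A') (τ₂ : Representation R Δ A)
    (σ : Representation (ZMod p) Δ W) (f : A' →+ A) (hf : ∀ δ x, f (τ₁ δ x) = τ₂ δ (f x))
    (a : ↥(eqHom τ₂ σ)) (x : A') : (eqHomComp τ₁ τ₂ σ f hf a).1 x = a.1 (f x) := rfl

/-- Averaging: an additive extension of an equivariant map can be made equivariant. -/
theorem exists_equivariant_extension [Finite Δ] (hp : ¬ p ∣ Nat.card Δ)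
    (τ₁ : Representation R' Δ A') (τ₂ : Representation R Δ A)
    (σ : Representation (ZMod p) Δ W) (f : A' →+ A) (hf : ∀ δ x, f (τ₁ δ x) = τ₂ δ (f x))
    (a' : A' →+ W) (ha' : a' ∈ eqHom τ₁ σ) (a₀ : A →+ W) (h₀ : ∀ x, a₀ (f x) = a' x) :
    ∃ a ∈ eqHom τ₂ σ, ∀ x, a (f x) = a' x := by
  classical
  have := Fintype.ofFinite Δ
  have hc : (Fintype.card Δ : ZMod p) ≠ 0 := by
    rw [Ne, ZMod.natCast_eq_zero_iff, ← Nat.card_eq_fintype_card]
    exact hp
  let a : A →+ W := (Fintype.card Δ : ZMod p)⁻¹ •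
    ∑ δ : Δ, ((σ δ⁻¹).toAddMonoidHom.comp (a₀.comp (τ₂ δ).toAddMonoidHom))
  have ha : ∀ x, a x = (Fintype.card Δ : ZMod p)⁻¹ • ∑ δ : Δ, σ δ⁻¹ (a₀ (τ₂ δ x)) := by
    intro x
    simp [a]
  refine ⟨a, ?_, ?_⟩
  · intro h x
    rw [ha, ha, map_smul, map_sum]
    congr 1
    rw [← Equiv.sum_comp (Equiv.mulRight h⁻¹)]
    refine Finset.sum_congr rfl fun δ _ => ?_
    simp only [Equiv.coe_mulRight, mul_inv_rev, inv_inv, map_mul, Module.End.mul_apply]
    congr 3
    have h2 : τ₂ h⁻¹ (τ₂ h x) = x := by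
      rw [← Module.End.mul_apply, ← map_mul, inv_mul_cancel, map_one, Module.End.one_apply]
    rw [h2]
  · intro x
    rw [ha]
    have h1 : ∀ δ : Δ, σ δ⁻¹ (a₀ (τ₂ δ (f x))) = a' x := by
      intro δ
      rw [← hf, h₀, ha' δ x, ← Module.End.mul_apply, ← map_mul, inv_mul_cancel, map_one,
        Module.End.one_apply]
    rw [Finset.sum_congr rfl (fun δ _ => h1 δ), Finset.sum_const, Finset.card_univ,
      ← Nat.cast_smul_eq_nsmul (ZMod p), smul_smul, inv_mul_cancel₀ hc, one_smul]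

/-- **(T1)** for equivariant Hom spaces: additivity on short exact sequences
`A' → A → A'' → 0` with `A'/p → A/p` injective. -/
theorem finrank_eqHom_exact [Finite Δ] (hp : ¬ p ∣ Nat.card Δ)
    (τ₁ : Representation R' Δ A') (τ₂ : Representation R Δ A) (τ₃ : Representation R'' Δ A'')
    (σ : Representation (ZMod p) Δ W) (f : A' →+ A) (g : A →+ A'')
    (hf : ∀ δ x, f (τ₁ δ x) = τ₂ δ (f x)) (hg : ∀ δ x, g (τ₂ δ x) = τ₃ δ (g x))
    (hsurj : Function.Surjective g) (hex : ∀ x, g x = 0 ↔ ∃ y, f y = x)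
    (hpure : ∀ x, (∃ y, f x = p • y) → ∃ z, x = p • z)
    [Module.Finite (ZMod p) ↥(eqHom τ₂ σ)] :
    finrank (ZMod p) ↥(eqHom τ₂ σ) =
      finrank (ZMod p) ↥(eqHom τ₁ σ) + finrank (ZMod p) ↥(eqHom τ₃ σ) := by
  set F := eqHomComp τ₁ τ₂ σ f hf with hFdef
  set G := eqHomComp τ₂ τ₃ σ g hg with hGdef
  have hGinj : Function.Injective G := by
    intro a b hab
    apply Subtype.ext
    ext y
    obtain ⟨x, rfl⟩ := hsurj y
    have := congrArg (fun c : ↥(eqHom τ₂ σ) => c.1 x) hab
    exact this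
  have hFsurj : Function.Surjective F := by
    intro a'
    obtain ⟨a₀, h₀⟩ := exists_extension_of_pure f hpure a'.1
    obtain ⟨a, ha, hax⟩ := exists_equivariant_extension hp τ₁ τ₂ σ f hf a'.1 a'.2 a₀ h₀
    refine ⟨⟨a, ha⟩, ?_⟩
    apply Subtype.ext
    ext x
    exact hax x
  have hexact : LinearMap.range G = LinearMap.ker F := by
    apply le_antisymm
    · rintro _ ⟨a'', rfl⟩
      rw [LinearMap.mem_ker]
      apply Subtype.ext
      ext x
      change a''.1 (g (f x)) = 0
      rw [(hex (f x)).2 ⟨x, rfl⟩, map_zero]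
    · intro a ha
      rw [LinearMap.mem_ker] at ha
      have hker : ∀ x, g x = 0 → a.1 x = 0 := by
        intro x hx
        obtain ⟨y, rfl⟩ := (hex x).1 hx
        have := congrArg (fun c : ↥(eqHom τ₁ σ) => c.1 y) ha
        exact this
      obtain ⟨a'', ha''⟩ := exists_factor_of_surjective g hsurj a.1 hker
      refine ⟨⟨a'', fun δ y => ?_⟩, ?_⟩
      · obtain ⟨x, rfl⟩ := hsurj y
        rw [← hg, ha'', ha'', a.2 δ x]
      · apply Subtype.ext
        ext x
        exact ha'' x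
  have h1 := LinearMap.finrank_range_add_finrank_ker F
  rw [LinearMap.range_eq_top.2 hFsurj, finrank_top, ← hexact,
    ← LinearEquiv.finrank_eq (LinearEquiv.ofInjective G hGinj)] at h1
  exact h1.symm

end Exact

section TwDual

variable {Y : Type*} [AddCommGroup Y] [Module (ZMod p) Y]

/-- The action of `Δ` on `Y^∨(1)`: `(δ λ)(y) = ω(δ) λ(δ⁻¹ y)`. -/
def twDual (ω : Δ →* (ZMod p)ˣ) (ρ : Representation (ZMod p) Δ Y) :
    Representation (ZMod p) Δ (Module.Dual (ZMod p) Y) where
  toFun δ := ((ω δ : (ZMod p)ˣ) : ZMod p) • ρ.dual δ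
  map_one' := by
    ext l y
    simp [Module.Dual.transpose_apply]
  map_mul' δ₁ δ₂ := by
    ext l y
    simp [Module.Dual.transpose_apply, Module.End.mul_apply]
    ring

theorem twDual_apply (ω : Δ →* (ZMod p)ˣ) (ρ : Representation (ZMod p) Δ Y) (δ : Δ)
    (l : Module.Dual (ZMod p) Y) (y : Y) :
    twDual ω ρ δ l y = ((ω δ : (ZMod p)ˣ) : ZMod p) * l (ρ δ⁻¹ y) := by
  simp [twDual, Module.Dual.transpose_apply]

variable {R : Type*} [CommRing R] {A : Type*} [AddCommGroup A] [Module R A]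

theorem twAdd_eq_eqHom (τ : Representation R Δ A) (ω : Δ →* (ZMod p)ˣ)
    (ρ : Representation (ZMod p) Δ Y) : twAdd τ ω ρ = eqHom τ (twDual ω ρ) := by
  ext a
  rw [mem_twAdd, mem_eqHom]
  constructor
  · intro h δ x
    ext y
    rw [twDual_apply]
    have := h δ x (ρ δ⁻¹ y)
    rw [← this]
    congr 1
    rw [← Module.End.mul_apply, ← map_mul, mul_inv_cancel, map_one, Module.End.one_apply]
  · intro h δ x y
    rw [h δ x, twDual_apply]
    congr 2
    rw [← Module.End.mul_apply, ← map_mul, inv_mul_cancel, map_one, Module.End.one_apply]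

end TwDual

section TwNumExact

variable {Y : Type*} [AddCommGroup Y] [Module (ZMod p) Y]
variable {R' R R'' : Type*} [CommRing R'] [CommRing R] [CommRing R'']
variable {A' A A'' : Type*} [AddCommGroup A'] [AddCommGroup A] [AddCommGroup A'']
  [Module R' A'] [Module R A] [Module R'' A'']

theorem twNum_eq_finrank_eqHom (τ : Representation R Δ A) (ω : Δ →* (ZMod p)ˣ)
    (ρ : Representation (ZMod p) Δ Y) :
    twNum τ ω ρ = finrank (ZMod p) ↥(eqHom τ (twDual ω ρ)) := by
  unfold twNum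
  rw [twAdd_eq_eqHom]

/-- **(T1)** The twist number is additive on `Δ`-equivariant sequences `A' → A → A'' → 0`,
exact at `A` and `A''`, with `A'/p → A/p` injective (`p ∤ #Δ`). -/
theorem twNum_exact [Finite Δ] (hp : ¬ p ∣ Nat.card Δ)
    (τ₁ : Representation R' Δ A') (τ₂ : Representation R Δ A) (τ₃ : Representation R'' Δ A'')
    (ω : Δ →* (ZMod p)ˣ) (ρ : Representation (ZMod p) Δ Y) (f : A' →+ A) (g : A →+ A'')
    (hf : ∀ δ x, f (τ₁ δ x) = τ₂ δ (f x)) (hg : ∀ δ x, g (τ₂ δ x) = τ₃ δ (g x))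
    (hsurj : Function.Surjective g) (hex : ∀ x, g x = 0 ↔ ∃ y, f y = x)
    (hpure : ∀ x, (∃ y, f x = p • y) → ∃ z, x = p • z)
    (hfin : Module.Finite (ZMod p) ↥(twAdd τ₂ ω ρ)) :
    twNum τ₂ ω ρ = twNum τ₁ ω ρ + twNum τ₃ ω ρ := by
  rw [twNum_eq_finrank_eqHom, twNum_eq_finrank_eqHom, twNum_eq_finrank_eqHom]
  rw [twAdd_eq_eqHom] at hfin
  exact finrank_eqHom_exact hp τ₁ τ₂ τ₃ (twDual ω ρ) f g hf hg hsurj hex hpure

end TwNumExact

section TwNumProd

variable {Y : Type*} [AddCommGroup Y] [Module (ZMod p) Y]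
variable {R : Type*} [CommRing R] {B' B'' : Type*} [AddCommGroup B'] [AddCommGroup B'']
  [Module R B'] [Module R B'']

/-- The twist number of a product. -/
theorem twNum_prod [Finite Δ] (hp : ¬ p ∣ Nat.card Δ)
    (τ₁ : Representation R Δ B') (τ₃ : Representation R Δ B'')
    (τ₂ : Representation R Δ (B' × B''))
    (hτ : ∀ δ x, τ₂ δ x = (τ₁ δ x.1, τ₃ δ x.2))
    (ω : Δ →* (ZMod p)ˣ) (ρ : Representation (ZMod p) Δ Y)
    (hfin : Module.Finite (ZMod p) ↥(twAdd τ₂ ω ρ)) :
    twNum τ₂ ω ρ = twNum τ₁ ω ρ + twNum τ₃ ω ρ := by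
  refine twNum_exact hp τ₁ τ₂ τ₃ ω ρ (AddMonoidHom.inl B' B'') (AddMonoidHom.snd B' B'')
    (fun δ x => ?_) (fun δ x => ?_) (fun y => ⟨(0, y), rfl⟩) (fun x => ?_) (fun x => ?_) hfin
  · rw [hτ]
    simp
  · rw [hτ]
    simp
  · constructor
    · intro hx
      refine ⟨x.1, ?_⟩
      ext
      · simp
      · simpa using hx.symm
    · rintro ⟨y, rfl⟩
      simp
  · rintro ⟨y, hy⟩
    refine ⟨y.1, ?_⟩
    have := congrArg Prod.fst hy
    simpa using this

end TwNumProd

section Finiteness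

variable {W : Type*} [AddCommGroup W] [Module (ZMod p) W]
variable {R : Type*} [CommRing R] {A : Type*} [AddCommGroup A] [Module R A]

/-- Additive maps from a finitely generated abelian group to a finite one: finitely many. -/
theorem finite_addMonoidHom_of_fg [Module.Finite ℤ A] [Finite W] : Finite (A →+ W) := by
  obtain ⟨S, hS⟩ := (Module.Finite.fg_top : (⊤ : Submodule ℤ A).FG)
  let r : (A →+ W) → (S → W) := fun a s => a s.1
  refine Finite.of_injective r ?_
  intro a b hab
  have h1 : a.toIntLinearMap = b.toIntLinearMap := by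
    apply LinearMap.ext_on_range (v := fun s : S => (s : A))
    · rw [Subtype.range_coe_subtype]
      simpa using hS
    · intro s
      exact congrFun hab s
  ext x
  exact LinearMap.congr_fun h1 x

theorem finite_eqHom_of_fg [Module.Finite ℤ A] [Finite W] (τ : Representation R Δ A)
    (σ : Representation (ZMod p) Δ W) : Module.Finite (ZMod p) ↥(eqHom τ σ) := by
  have : Finite (A →+ W) := finite_addMonoidHom_of_fg
  infer_instance

theorem finite_twAdd_of_fg {Y : Type*} [AddCommGroup Y] [Module (ZMod p) Y] [Finite Y]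
    [Module.Finite ℤ A] (τ : Representation R Δ A) (ω : Δ →* (ZMod p)ˣ)
    (ρ : Representation (ZMod p) Δ Y) : Module.Finite (ZMod p) ↥(twAdd τ ω ρ) := by
  have : Finite (Module.Dual (ZMod p) Y) := by
    have : Module.Finite (ZMod p) Y := Module.Finite.of_finite
    exact Module.finite_of_finite (ZMod p)
  have : Finite (A →+ Module.Dual (ZMod p) Y) := finite_addMonoidHom_of_fg
  infer_instance

end Finiteness

end Fermat.Agent.ES.T56.TwExact13
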