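/-
Programme T (S56), chapter GW, part D (`BaseCaseGE`), helper13: the T-algebra, parts (T2), (T3)
(`T56_BASE28.md` §0), against helper28's `TwistNum28.twNum` and `PermChar28.permRep`.

* `omegaRep χ` : the one-dimensional representation `𝔽_p(χ)`; `eigSpace σ χ`;
  `eqHomOmegaEquiv : eqHom (omegaRep χ) σ ≃ eigSpace σ χ`;
* `finrank_invariants_dual` : `dim (Y^∨)^Δ = dim Y^Δ` for `p ∤ #Δ` (rank of the averaging
  projector = rank of its transpose);
* **(T2)** `twNum_omegaRep : twNum (omegaRep ω) ω ρ = finrank ρ.invariants`,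
  `twNum_trivial : twNum (trivial) ω ρ = finrank (twDual ω ρ).invariants`
  (`mem_invariants_twDual : l ∈ _ ↔ ∀ δ y, l (ρ δ y) = ω δ * l y`);
* **(T3)** `permFun σ Ω` (equivariant functions), `eqHomPermEquiv` (function form),
  `stabInv σ x`, `permFunEquivPi` (orbit form, for ANY system of orbit representatives),
  `twNum_permRep : twNum (permRep (ZMod p) Ω) ω ρ = ∑ i, finrank (stabInv (twDual ω ρ) (r i))`,
  `mem_stabInv_twDual`.

Fully proved; Mathlib + TwistNum28 + TwExact13 + PermChar28.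
-/
import Mathlib
import Fermat.Agent.ES.T56.TwExact13
import Fermat.Agent.ES.T56.PermChar28

set_option autoImplicit false

open Module

namespace Fermat.Agent.ES.T56.TwPerm13

open Fermat.Agent.ES.T56.TwistNum28 Fermat.Agent.ES.T56.TwExact13
open Fermat.Agent.ES.T56.PermChar28

variable {p : ℕ} [Fact p.Prime]
variable {Δ : Type*} [Group Δ]

section Char

variable {W : Type*} [AddCommGroup W] [Module (ZMod p) W]

/-- The one-dimensional representation `𝔽_p(χ)`. -/
def omegaRep (χ : Δ →* (ZMod p)ˣ) : Representation (ZMod p) Δ (ZMod p) where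
  toFun δ := ((χ δ : (ZMod p)ˣ) : ZMod p) • LinearMap.id
  map_one' := by
    ext
    simp
  map_mul' a b := by
    ext
    simp [mul_comm]

theorem omegaRep_apply (χ : Δ →* (ZMod p)ˣ) (δ : Δ) (c : ZMod p) :
    omegaRep χ δ c = ((χ δ : (ZMod p)ˣ) : ZMod p) * c := by
  simp [omegaRep]

theorem omegaRep_one : omegaRep (1 : Δ →* (ZMod p)ˣ) = Representation.trivial (ZMod p) Δ (ZMod p) := by
  ext δ
  simp [omegaRep]

/-- The `χ`-eigenspace of a representation. -/
def eigSpace (σ : Representation (ZMod p) Δ W) (χ : Δ →* (ZMod p)ˣ) : Submodule (ZMod p) W where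
  carrier := {w | ∀ δ : Δ, σ δ w = ((χ δ : (ZMod p)ˣ) : ZMod p) • w}
  add_mem' := by
    intro a b ha hb δ
    rw [map_add, ha δ, hb δ, smul_add]
  zero_mem' := by
    intro δ
    simp
  smul_mem' := by
    intro c a ha δ
    rw [map_smul, ha δ, smul_comm]

theorem mem_eigSpace {σ : Representation (ZMod p) Δ W} {χ : Δ →* (ZMod p)ˣ} {w : W} :
    w ∈ eigSpace σ χ ↔ ∀ δ : Δ, σ δ w = ((χ δ : (ZMod p)ˣ) : ZMod p) • w := Iff.rfl

theorem eigSpace_one (σ : Representation (ZMod p) Δ W) : eigSpace σ 1 = σ.invariants := by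
  ext w
  simp [mem_eigSpace, Representation.mem_invariants]

/-- `Hom_Δ(𝔽_p(χ), W) = W^{χ}`. -/
noncomputable def eqHomOmegaEquiv (χ : Δ →* (ZMod p)ˣ) (σ : Representation (ZMod p) Δ W) :
    ↥(eqHom (omegaRep χ) σ) ≃ₗ[ZMod p] ↥(eigSpace σ χ) where
  toFun a := ⟨a.1 1, fun δ => by
    have h := a.2 δ 1
    rw [omegaRep_apply, mul_one] at h
    rw [← h, ← ZMod.map_smul a.1, smul_eq_mul, mul_one]⟩
  map_add' _ _ := rfl
  map_smul' _ _ := rfl
  invFun w := ⟨(LinearMap.toSpanSingleton (ZMod p) W w.1).toAddMonoidHom, fun δ c => by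
    simp only [LinearMap.toAddMonoidHom_coe, LinearMap.toSpanSingleton_apply, omegaRep_apply]
    rw [map_smul, w.2 δ, smul_smul, mul_comm]⟩
  left_inv a := by
    apply Subtype.ext
    ext c
    change c • a.1 1 = a.1 c
    rw [← ZMod.map_smul a.1, smul_eq_mul, mul_one]
  right_inv w := by
    apply Subtype.ext
    simp

end Char

section T2

variable {Y : Type*} [AddCommGroup Y] [Module (ZMod p) Y]

theorem twNum_omegaRep_eq (χ ω : Δ →* (ZMod p)ˣ) (ρ : Representation (ZMod p) Δ Y) :
    twNum (omegaRep χ) ω ρ = finrank (ZMod p) ↥(eigSpace (twDual ω ρ) χ) := by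
  rw [twNum_eq_finrank_eqHom]
  exact LinearEquiv.finrank_eq (eqHomOmegaEquiv χ (twDual ω ρ))

theorem eigSpace_twDual_self (ω : Δ →* (ZMod p)ˣ) (ρ : Representation (ZMod p) Δ Y) :
    eigSpace (twDual ω ρ) ω = ρ.dual.invariants := by
  ext l
  rw [mem_eigSpace, Representation.mem_invariants]
  refine forall_congr' fun δ => ?_
  have hu : IsUnit (((ω δ : (ZMod p)ˣ) : ZMod p)) := (ω δ).isUnit
  change ((ω δ : (ZMod p)ˣ) : ZMod p) • ρ.dual δ l = _ • l ↔ _
  exact hu.smul_left_cancel

theorem mem_invariants_twDual (ω : Δ →* (ZMod p)ˣ) (ρ : Representation (ZMod p) Δ Y)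
    (l : Module.Dual (ZMod p) Y) :
    l ∈ (twDual ω ρ).invariants ↔
      ∀ (δ : Δ) (y : Y), l (ρ δ y) = ((ω δ : (ZMod p)ˣ) : ZMod p) * l y := by
  rw [Representation.mem_invariants]
  constructor
  · intro h δ y
    have h1 := LinearMap.congr_fun (h δ) (ρ δ y)
    rw [twDual_apply] at h1
    rw [← h1]
    congr 2
    rw [← Module.End.mul_apply, ← map_mul, inv_mul_cancel, map_one, Module.End.one_apply]
  · intro h δ
    ext y
    rw [twDual_apply, ← h δ]
    congr 1
    rw [← Module.End.mul_apply, ← map_mul, mul_inv_cancel, map_one, Module.End.one_apply]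

/-- `dim (Y^∨)^Δ = dim Y^Δ` when `p ∤ #Δ`. -/
theorem finrank_invariants_dual [Finite Δ] (hp : ¬ p ∣ Nat.card Δ) [Module.Finite (ZMod p) Y]
    (ρ : Representation (ZMod p) Δ Y) :
    finrank (ZMod p) ↥ρ.dual.invariants = finrank (ZMod p) ↥ρ.invariants := by
  classical
  have := Fintype.ofFinite Δ
  have hc : (Fintype.card Δ : ZMod p) ≠ 0 := by
    rw [Ne, ZMod.natCast_eq_zero_iff, ← Nat.card_eq_fintype_card]
    exact hp
  have : Invertible (Fintype.card Δ : ZMod p) := invertibleOfNonzero hc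
  have h1 : LinearMap.range ρ.averageMap = ρ.invariants :=
    (LinearMap.IsProj.range ρ.isProj_averageMap)
  have h2 : LinearMap.range ρ.dual.averageMap = ρ.dual.invariants :=
    (LinearMap.IsProj.range ρ.dual.isProj_averageMap)
  have h3 : ρ.dual.averageMap = ρ.averageMap.dualMap := by
    ext l y
    simp only [Representation.averageMap, GroupAlgebra.average, map_smul, map_sum,
      Representation.asAlgebraHom_of, LinearMap.smul_apply, LinearMap.sum_apply,
      Representation.dual_apply, Module.Dual.transpose_apply, LinearMap.comp_apply,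
      LinearMap.dualMap_apply, smul_eq_mul]
    congr 1
    exact Equiv.sum_comp (Equiv.inv Δ) (fun g => l (ρ g y))
  rw [← h1, ← h2, h3, LinearMap.finrank_range_dualMap_eq_finrank_range]

/-- **(T2)** `⟨μ_p⟩ = dim Y^Δ`. -/
theorem twNum_omegaRep [Finite Δ] (hp : ¬ p ∣ Nat.card Δ) [Module.Finite (ZMod p) Y]
    (ω : Δ →* (ZMod p)ˣ) (ρ : Representation (ZMod p) Δ Y) :
    twNum (omegaRep ω) ω ρ = finrank (ZMod p) ↥ρ.invariants := by
  rw [twNum_omegaRep_eq, eigSpace_twDual_self, finrank_invariants_dual hp]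

/-- **(T2)** `⟨𝔽_p⟩ = dim (Y^∨(1))^Δ`. -/
theorem twNum_trivial (ω : Δ →* (ZMod p)ˣ) (ρ : Representation (ZMod p) Δ Y) :
    twNum (Representation.trivial (ZMod p) Δ (ZMod p)) ω ρ =
      finrank (ZMod p) ↥(twDual ω ρ).invariants := by
  rw [← omegaRep_one, twNum_omegaRep_eq, eigSpace_one]

end T2

section Perm

variable {W : Type*} [AddCommGroup W] [Module (ZMod p) W]
variable (σ : Representation (ZMod p) Δ W) (Ω : Type*) [MulAction Δ Ω]

/-- The `Δ`-equivariant functions `Ω → W`. -/
def permFun : Submodule (ZMod p) (Ω → W) where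
  carrier := {φ | ∀ (δ : Δ) (x : Ω), φ (δ • x) = σ δ (φ x)}
  add_mem' := by
    intro a b ha hb δ x
    simp only [Pi.add_apply, ha δ x, hb δ x, map_add]
  zero_mem' := by
    intro δ x
    simp
  smul_mem' := by
    intro c a ha δ x
    simp only [Pi.smul_apply, ha δ x, map_smul]

theorem mem_permFun {φ : Ω → W} :
    φ ∈ permFun σ Ω ↔ ∀ (δ : Δ) (x : Ω), φ (δ • x) = σ δ (φ x) := Iff.rfl

open scoped Classical in
theorem permRep_single (δ : Δ) (x : Ω) :
    permRep (ZMod p) Ω δ (Pi.single x 1) = Pi.single (δ • x) 1 := by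
  funext u
  rw [permRep_apply, Pi.single_apply, Pi.single_apply]
  simp only [inv_smul_eq_iff]

open scoped Classical in
/-- Evaluation on the basis functions. -/
noncomputable def evalSingle : ↥(eqHom (permRep (ZMod p) Ω) σ) →ₗ[ZMod p] ↥(permFun σ Ω) where
  toFun a := ⟨fun x => a.1 (Pi.single x 1), fun δ x => by
    rw [← a.2 δ, permRep_single]⟩
  map_add' _ _ := rfl
  map_smul' _ _ := rfl

open scoped Classical in
theorem evalSingle_apply (a : ↥(eqHom (permRep (ZMod p) Ω) σ)) (x : Ω) :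
    (evalSingle σ Ω a).1 x = a.1 (Pi.single x 1) := rfl

open scoped Classical in
theorem evalSingle_bijective [Finite Ω] : Function.Bijective (evalSingle σ Ω) := by
  have := Fintype.ofFinite Ω
  constructor
  · intro a b hab
    apply Subtype.ext
    apply AddMonoidHom.functions_ext
    intro x c
    have h1 : (Pi.single x c : Ω → ZMod p) = c • Pi.single x 1 := by
      rw [← Pi.single_smul, smul_eq_mul, mul_one]
    have h2 : a.1 (Pi.single x 1) = b.1 (Pi.single x 1) :=
      congrFun (congrArg Subtype.val hab) x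
    rw [h1, ZMod.map_smul a.1, ZMod.map_smul b.1, h2]
  · intro φ
    refine ⟨⟨(Fintype.linearCombination (ZMod p) φ.1).toAddMonoidHom, fun δ f => ?_⟩, ?_⟩
    · simp only [LinearMap.toAddMonoidHom_coe, Fintype.linearCombination_apply, map_sum, map_smul,
        permRep_apply]
      rw [← Equiv.sum_comp (MulAction.toPerm δ)]
      refine Finset.sum_congr rfl fun x _ => ?_
      rw [MulAction.toPerm_apply, inv_smul_smul, φ.2 δ x]
    · apply Subtype.ext
      funext x
      rw [evalSingle_apply]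
      simp [Fintype.linearCombination_apply_single]

/-- **(T3), function form**: `Hom_Δ(𝔽_p[Ω], W)` is the space of equivariant functions `Ω → W`. -/
noncomputable def eqHomPermEquiv [Finite Ω] :
    ↥(eqHom (permRep (ZMod p) Ω) σ) ≃ₗ[ZMod p] ↥(permFun σ Ω) :=
  LinearEquiv.ofBijective (evalSingle σ Ω) (evalSingle_bijective σ Ω)

variable {Ω}

/-- The vectors fixed by the stabiliser of `x`. -/
def stabInv (x : Ω) : Submodule (ZMod p) W where
  carrier := {w | ∀ s : Δ, s • x = x → σ s w = w}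
  add_mem' := by
    intro a b ha hb s hs
    rw [map_add, ha s hs, hb s hs]
  zero_mem' := by
    intro s _
    simp
  smul_mem' := by
    intro c a ha s hs
    rw [map_smul, ha s hs]

theorem mem_stabInv {x : Ω} {w : W} :
    w ∈ stabInv σ x ↔ ∀ s : Δ, s • x = x → σ s w = w := Iff.rfl

/-- Evaluation at a system of representatives. -/
def evalReps {I : Type*} (r : I → Ω) : ↥(permFun σ Ω) →ₗ[ZMod p] (∀ i : I, ↥(stabInv σ (r i))) where
  toFun φ i := ⟨φ.1 (r i), fun s hs => by rw [← φ.2 s (r i), hs]⟩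
  map_add' _ _ := rfl
  map_smul' _ _ := rfl

theorem evalReps_bijective {I : Type*} (r : I → Ω) (hr : ∀ x : Ω, ∃! i : I, ∃ δ : Δ, δ • r i = x) :
    Function.Bijective (evalReps σ r) := by
  constructor
  · intro φ ψ h
    apply Subtype.ext
    funext x
    obtain ⟨i, ⟨δ, rfl⟩, -⟩ := hr x
    have h1 : φ.1 (r i) = ψ.1 (r i) := congrArg Subtype.val (congrFun h i)
    rw [φ.2, ψ.2, h1]
  · intro w
    choose idx hidx huniq using hr
    choose el hel using hidx
    have key : ∀ (x : Ω) (i : I) (δ : Δ), δ • r i = x →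
        σ (el x) (w (idx x)).1 = σ δ (w i).1 := by
      intro x i δ hδ
      have hi : i = idx x := huniq x i ⟨δ, hδ⟩
      subst hi
      have hs : (δ⁻¹ * el x) • r (idx x) = r (idx x) := by
        rw [mul_smul, hel x]
        exact inv_smul_eq_iff.2 hδ.symm
      have h1 := (w (idx x)).2 (δ⁻¹ * el x) hs
      rw [map_mul, Module.End.mul_apply] at h1
      have h2 := congrArg (σ δ) h1
      rw [← h2, ← Module.End.mul_apply, ← map_mul, mul_inv_cancel, map_one, Module.End.one_apply]
    refine ⟨⟨fun x => σ (el x) (w (idx x)).1, fun h x => ?_⟩, ?_⟩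
    · have hx : (h * el x) • r (idx x) = h • x := by rw [mul_smul, hel x]
      change σ (el (h • x)) (w (idx (h • x))).1 = σ h (σ (el x) (w (idx x)).1)
      rw [key (h • x) (idx x) (h * el x) hx, map_mul, Module.End.mul_apply]
    · funext i
      apply Subtype.ext
      change σ (el (r i)) (w (idx (r i))).1 = (w i).1
      rw [key (r i) i 1 (one_smul _ _), map_one, Module.End.one_apply]

/-- **(T3), orbit form**: the equivariant functions are determined by their values on a system of
representatives of the orbits, with values in the fixed vectors of the stabilisers. -/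
noncomputable def permFunEquivPi {I : Type*} (r : I → Ω)
    (hr : ∀ x : Ω, ∃! i : I, ∃ δ : Δ, δ • r i = x) :
    ↥(permFun σ Ω) ≃ₗ[ZMod p] (∀ i : I, ↥(stabInv σ (r i))) :=
  LinearEquiv.ofBijective (evalReps σ r) (evalReps_bijective σ r hr)

theorem finrank_eqHom_permRep [Finite Ω] [Module.Finite (ZMod p) W] {I : Type*} [Fintype I]
    (r : I → Ω) (hr : ∀ x : Ω, ∃! i : I, ∃ δ : Δ, δ • r i = x) :
    finrank (ZMod p) ↥(eqHom (permRep (ZMod p) Ω) σ) =
      ∑ i : I, finrank (ZMod p) ↥(stabInv σ (r i)) := by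
  rw [LinearEquiv.finrank_eq ((eqHomPermEquiv σ Ω).trans (permFunEquivPi σ r hr)),
    Module.finrank_pi_fintype]

end Perm

section T3

variable {Y : Type*} [AddCommGroup Y] [Module (ZMod p) Y]
variable {Ω : Type*} [MulAction Δ Ω]

/-- **(T3)** `⟨𝔽_p[Ω]⟩ = Σ_{orbits} dim (Y^∨(1))^{Δ_x}`. -/
theorem twNum_permRep [Finite Ω] [Module.Finite (ZMod p) Y] {I : Type*} [Fintype I]
    (r : I → Ω) (hr : ∀ x : Ω, ∃! i : I, ∃ δ : Δ, δ • r i = x)
    (ω : Δ →* (ZMod p)ˣ) (ρ : Representation (ZMod p) Δ Y) :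
    twNum (permRep (ZMod p) Ω) ω ρ =
      ∑ i : I, finrank (ZMod p) ↥(stabInv (twDual ω ρ) (r i)) := by
  rw [twNum_eq_finrank_eqHom]
  exact finrank_eqHom_permRep (twDual ω ρ) r hr

theorem mem_stabInv_twDual (ω : Δ →* (ZMod p)ˣ) (ρ : Representation (ZMod p) Δ Y) (x : Ω)
    (l : Module.Dual (ZMod p) Y) :
    l ∈ stabInv (twDual ω ρ) x ↔
      ∀ s : Δ, s • x = x → ∀ y : Y, l (ρ s y) = ((ω s : (ZMod p)ˣ) : ZMod p) * l y := by
  rw [mem_stabInv]
  refine forall_congr' fun s => forall_congr' fun _ => ?_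
  constructor
  · intro h y
    have h1 := LinearMap.congr_fun h (ρ s y)
    rw [twDual_apply] at h1
    rw [← h1]
    congr 2
    rw [← Module.End.mul_apply, ← map_mul, inv_mul_cancel, map_one, Module.End.one_apply]
  · intro h
    ext y
    rw [twDual_apply, ← h]
    congr 1
    rw [← Module.End.mul_apply, ← map_mul, mul_inv_cancel, map_one, Module.End.one_apply]

end T3

end Fermat.Agent.ES.T56.TwPerm13
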