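/-
Programme T (S56), chapter GW, part D (`BaseCaseGE`), helper13: brick (K4) in twist numbers.

`L/K` a cyclic extension of number fields of degree prime to `p`, `ζ_p ∈ L`, `T` a finite set of
primes of `K`, `χ` the mod `p` cyclotomic character of `Gal(L/K)`.  Then for every `ω`, `ρ`:

  `⟨U_{L,T_L}⟩ + ⟨𝔽_p⟩ = ⟨𝔽_p[T_L ⊔ S_∞(L)]⟩ + ⟨μ_p⟩`       (`twNum_sUnit`)

in helper28's twist numbers `TwistNum28.twNum`, with the models `SUnitRep13.sUnitRep`,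
`Representation.trivial`, `PermChar28.permRep _ (SUnitRep13.PlaceSet K L T)`, `TwPerm13.omegaRep χ`.

* `twNum_torsion_add` : `⟨M⟩ = ⟨M_tors⟩ + ⟨M/M_tors⟩` for any `ℤ[Δ]`-module `M` (T1);
* `twNum_torsU` : `⟨μ(L)⟩ = ⟨𝔽_p(χ)⟩`;  `twNum_sUnitLattice_add_trivial` : equivariant Dirichlet;
* **`twNum_sUnit`**.

Fully proved; Mathlib + the T-algebra files + SUnitRep13, TorsionSeq13, SUnitTorsion13.
-/
import Mathlib
import Fermat.Agent.ES.T56.TwExact13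
import Fermat.Agent.ES.T56.TwBaseChange13
import Fermat.Agent.ES.T56.TwPerm13
import Fermat.Agent.ES.T56.SUnitRep13
import Fermat.Agent.ES.T56.TorsionSeq13
import Fermat.Agent.ES.T56.SUnitTorsion13

set_option autoImplicit false

open NumberField IsDedekindDomain HeightOneSpectrum Module
open Fermat.Agent.PT.GLOB.SUnits24 Fermat.Agent.PT.GLOB.PrimesAbove24
open Fermat.Agent.ES.T56.TwistNum28 Fermat.Agent.ES.T56.TwExact13
open Fermat.Agent.ES.T56.TwBaseChange13 Fermat.Agent.ES.T56.TwPerm13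
open Fermat.Agent.ES.T56.BrauerNesbitt13 Fermat.Agent.ES.T56.EqDirichlet13
open Fermat.Agent.ES.T56.TorsionFixed13 Fermat.Agent.ES.T56.TorsionSeq13
open Fermat.Agent.ES.T56.SUnitRep13 Fermat.Agent.ES.T56.SUnitTorsion13
open Fermat.Agent.ES.T56.PermChar28

namespace Fermat.Agent.ES.T56.K4Num13

section General

variable {p : ℕ} [Fact p.Prime]
variable {Δ : Type*} [Group Δ] {Y : Type*} [AddCommGroup Y] [Module (ZMod p) Y]
variable {M : Type*} [AddCommGroup M]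

/-- `⟨M⟩ = ⟨M_tors⟩ + ⟨M / M_tors⟩`. -/
theorem twNum_torsion_add [Finite Δ] (hp : ¬ p ∣ Nat.card Δ) (τ : Representation ℤ Δ M)
    (ω : Δ →* (ZMod p)ˣ) (ρ : Representation (ZMod p) Δ Y)
    (hfin : Module.Finite (ZMod p) ↥(twAdd τ ω ρ)) :
    twNum τ ω ρ = twNum (torsionRep τ) ω ρ + twNum (quotTorsionRep τ) ω ρ := by
  refine twNum_exact hp (torsionRep τ) τ (quotTorsionRep τ) ω ρ
    (Submodule.torsion ℤ M).subtype.toAddMonoidHom (Submodule.torsion ℤ M).mkQ.toAddMonoidHom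
    (fun δ x => rfl) (fun δ x => rfl) (Submodule.mkQ_surjective _) (fun x => ?_) (fun x => ?_) hfin
  · change (Submodule.torsion ℤ M).mkQ x = 0 ↔ ∃ y : ↥(Submodule.torsion ℤ M), (y : M) = x
    rw [Submodule.mkQ_apply, Submodule.Quotient.mk_eq_zero]
    exact ⟨fun h => ⟨⟨x, h⟩, rfl⟩, fun ⟨y, hy⟩ => hy ▸ y.2⟩
  · rintro ⟨y, hy⟩
    change (x : M) = p • y at hy
    have hp0 : p ≠ 0 := (Fact.out : p.Prime).ne_zero
    have hy' : y ∈ Submodule.torsion ℤ M := by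
      obtain ⟨a, ha⟩ := (Submodule.mem_torsion_iff (x : M)).1 x.2
      have hpz : (p : ℤ) ∈ nonZeroDivisors ℤ :=
        mem_nonZeroDivisors_of_ne_zero (by exact_mod_cast hp0)
      refine (Submodule.mem_torsion_iff y).2 ⟨a * ⟨(p : ℤ), hpz⟩, ?_⟩
      have ha' : (a : ℤ) • (x : M) = 0 := ha
      change ((a : ℤ) * (p : ℤ)) • y = 0
      rw [mul_smul, Nat.cast_smul_eq_nsmul, ← hy, ha']
    refine ⟨⟨y, hy'⟩, ?_⟩
    apply Subtype.ext
    exact hy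

end General

universe u v

variable (K : Type u) (L : Type v) [Field K] [Field L] [NumberField K] [NumberField L]
  [Algebra K L] [IsGalois K L] (T : Finset (HeightOneSpectrum (𝓞 K)))

variable (p : ℕ) [Fact p.Prime] {Y : Type*} [AddCommGroup Y] [Module (ZMod p) Y]

/-- `⟨μ(L)⟩ = ⟨𝔽_p(χ)⟩`, `χ` the mod `p` cyclotomic character. -/
theorem twNum_torsU {ζ : L} (hζ : IsPrimitiveRoot ζ p) (χ : (L ≃ₐ[K] L) →* (ZMod p)ˣ)
    (hχ : ∀ g : L ≃ₐ[K] L, g ζ = ζ ^ ((χ g : (ZMod p)ˣ) : ZMod p).val)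
    (ω : (L ≃ₐ[K] L) →* (ZMod p)ˣ) (ρ : Representation (ZMod p) (L ≃ₐ[K] L) Y) :
    twNum (torsionRep (sUnitRep K L T)) ω ρ = twNum (omegaRep χ) ω ρ := by
  rw [← twNum_baseChange]
  obtain ⟨e, he⟩ := exists_equiv_torsU K L T p hζ
  refine twNum_congr _ _ ω ρ e.toAddEquiv (fun δ x => ?_)
  change e (baseChangeRep (ZMod p) (torsionRep (sUnitRep K L T)) δ x) = omegaRep χ δ (e x)
  rw [he δ _ (hχ δ), omegaRep_apply, ZMod.natCast_zmod_val]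

/-- Equivariant Dirichlet in twist numbers: `⟨U/tors⟩ + ⟨𝔽_p⟩ = ⟨𝔽_p[T_L ⊔ S_∞(L)]⟩`. -/
theorem twNum_sUnitLattice_add_trivial [Finite Y] [IsCyclic (L ≃ₐ[K] L)]
    (hp : ¬ p ∣ Nat.card (L ≃ₐ[K] L))
    (ω : (L ≃ₐ[K] L) →* (ZMod p)ˣ) (ρ : Representation (ZMod p) (L ≃ₐ[K] L) Y) :
    twNum (sUnitLatticeRep K L T) ω ρ +
        twNum (Representation.trivial (ZMod p) (L ≃ₐ[K] L) (ZMod p)) ω ρ =
      twNum (permRep (ZMod p) (PlaceSet K L T)) ω ρ := by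
  obtain ⟨e, he⟩ := exists_equiv_sUnit K L T p hp
  rw [← twNum_baseChange (sUnitLatticeRep K L T),
    ← twNum_prod hp _ _ (prodTrivRep (ZMod p) (baseChangeRep (ZMod p) (sUnitLatticeRep K L T)))
      (fun δ x => by rw [prodTrivRep_apply]; simp) ω ρ (finite_twAdd_of_fg _ ω ρ)]
  exact twNum_congr _ _ ω ρ e.toAddEquiv he

/-- **(K4)** `⟨U_{L,T_L}⟩ + ⟨𝔽_p⟩ = ⟨𝔽_p[T_L ⊔ S_∞(L)]⟩ + ⟨μ_p⟩`. -/
theorem twNum_sUnit [Finite Y] [IsCyclic (L ≃ₐ[K] L)] (hp : ¬ p ∣ Nat.card (L ≃ₐ[K] L))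
    {ζ : L} (hζ : IsPrimitiveRoot ζ p) (χ : (L ≃ₐ[K] L) →* (ZMod p)ˣ)
    (hχ : ∀ g : L ≃ₐ[K] L, g ζ = ζ ^ ((χ g : (ZMod p)ˣ) : ZMod p).val)
    (ω : (L ≃ₐ[K] L) →* (ZMod p)ˣ) (ρ : Representation (ZMod p) (L ≃ₐ[K] L) Y) :
    twNum (sUnitRep K L T) ω ρ +
        twNum (Representation.trivial (ZMod p) (L ≃ₐ[K] L) (ZMod p)) ω ρ =
      twNum (permRep (ZMod p) (PlaceSet K L T)) ω ρ + twNum (omegaRep χ) ω ρ := by
  have h1 := twNum_torsion_add hp (sUnitRep K L T) ω ρ (finite_twAdd_of_fg _ ω ρ)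
  have h2 := twNum_torsU K L T p hζ χ hχ ω ρ
  have h3 := twNum_sUnitLattice_add_trivial K L T p hp ω ρ
  rw [sUnitLatticeRep] at h3
  omega

end Fermat.Agent.ES.T56.K4Num13
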