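/-
Programme T (S56), chapter GW-D, brick (K1b) of `T56_BASE28.md` (helper3), file 2: the dictionary
between a valuation subring `A` of `ℚ̄` over a prime `q` and the prime `A.nonunits ∩ 𝓞 L` of a
number field `L ≤ ℚ̄`, and its consequence for Selmer elements.

* `incl L : 𝓞 L →+* ℚ̄`, `primeAt L A : Ideal (𝓞 L)` (`= {x | v_A(x) < 1}`), `primeAt_isPrime`,
  `heightOneAt`, `primeAwayAt` (a `PrimeAway Sg L` when `q ∉ Sg`);
* `valuation_le_one_of_le_one`, `valuation_eq_one_of_eq_one` : integral elements / units of `L` at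
  `heightOneAt` are integral elements / units of `A`;
* **`exists_twist_unit`** : `d ∈ selS Sg L p` ⇒ `∃ t ∈ Lˣ, v_A(d * t ^ p) = 1`.
-/
import Mathlib
import Fermat.Agent.S13.UnramVal
import Fermat.Agent.PT.BR.UnramGlob13
import Fermat.Agent.PT.GLOB.RecKummer15

set_option autoImplicit false
set_option linter.unusedSectionVars false

namespace Fermat.Agent.ES.T56.KumUnitAt3

local notation "Qb" => AlgebraicClosure ℚ

open NumberField IsDedekindDomain
open Fermat.Agent.PT.GLOB.Interface23 Fermat.Agent.PT.GLOB.RecKummer15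

variable (L : IntermediateField ℚ Qb) [NumberField L] (A : ValuationSubring Qb)

/-- The inclusion `𝓞 L → ℚ̄`. -/
noncomputable def incl : 𝓞 L →+* Qb := (algebraMap L Qb).comp (algebraMap (𝓞 L) L)

theorem incl_apply (x : 𝓞 L) : incl L x = ((x : L) : Qb) := rfl

theorem incl_mem (x : 𝓞 L) : incl L x ∈ A :=
  Fermat.Agent.S13.UnramVal.mem_of_isIntegral_int A
    (map_isIntegral_int (algebraMap L Qb) (NumberField.RingOfIntegers.isIntegral_coe x))

theorem valuation_incl_le_one (x : 𝓞 L) : A.valuation (incl L x) ≤ 1 :=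
  (ValuationSubring.valuation_le_one_iff A _).mpr (incl_mem L A x)

/-- The prime of `𝓞 L` below the maximal ideal of `A`. -/
def primeAt : Ideal (𝓞 L) where
  carrier := {x | A.valuation (incl L x) < 1}
  add_mem' := by
    intro x y hx hy
    show A.valuation (incl L (x + y)) < 1
    rw [map_add]
    exact lt_of_le_of_lt (Valuation.map_add _ _ _) (max_lt hx hy)
  zero_mem' := by
    show A.valuation (incl L 0) < 1
    rw [map_zero, map_zero]
    exact zero_lt_one
  smul_mem' := by
    intro c x hx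
    show A.valuation (incl L (c * x)) < 1
    rw [map_mul, map_mul]
    calc A.valuation (incl L c) * A.valuation (incl L x)
        ≤ 1 * A.valuation (incl L x) := mul_le_mul_left (valuation_incl_le_one L A c) _
      _ < 1 := by rw [one_mul]; exact hx

theorem mem_primeAt (x : 𝓞 L) : x ∈ primeAt L A ↔ A.valuation (incl L x) < 1 := Iff.rfl

theorem primeAt_isPrime : (primeAt L A).IsPrime := by
  refine ⟨?_, ?_⟩
  · intro h
    have h1 : (1 : 𝓞 L) ∈ primeAt L A := by rw [h]; exact Submodule.mem_top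
    rw [mem_primeAt, map_one, map_one] at h1
    exact lt_irrefl _ h1
  · intro x y hxy
    rw [mem_primeAt, map_mul, map_mul] at hxy
    by_contra hcon
    rw [not_or, mem_primeAt, mem_primeAt, not_lt, not_lt] at hcon
    have hx : A.valuation (incl L x) = 1 := le_antisymm (valuation_incl_le_one L A x) hcon.1
    have hy : A.valuation (incl L y) = 1 := le_antisymm (valuation_incl_le_one L A y) hcon.2
    rw [hx, hy, one_mul] at hxy
    exact lt_irrefl _ hxy

theorem natCast_mem_primeAt {q : ℕ} (hA : A.LiesOverPrime q) : (q : 𝓞 L) ∈ primeAt L A := by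
  rw [mem_primeAt, map_natCast]
  exact (ValuationSubring.mem_nonunits_iff (A := A)).mp hA

theorem primeAt_ne_bot {q : ℕ} (hq : q.Prime) (hA : A.LiesOverPrime q) : primeAt L A ≠ ⊥ := by
  intro h
  have h1 := natCast_mem_primeAt L A hA
  rw [h, Ideal.mem_bot] at h1
  exact hq.ne_zero (by exact_mod_cast h1)

/-- The height one prime of `𝓞 L` below `A`. -/
def heightOneAt {q : ℕ} (hq : q.Prime) (hA : A.LiesOverPrime q) : HeightOneSpectrum (𝓞 L) :=
  ⟨primeAt L A, primeAt_isPrime L A, primeAt_ne_bot L A hq hA⟩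

/-- It is a prime away from `Sg` when `q ∉ Sg`. -/
def primeAwayAt (Sg : Finset Nat.Primes) {q : ℕ} (hq : q.Prime) (hA : A.LiesOverPrime q)
    (hqS : ∀ q' ∈ Sg, (q' : ℕ) ≠ q) : PrimeAway Sg L :=
  ⟨heightOneAt L A hq hA, fun q' hq' hmem => by
    have := primeAt_isPrime L A
    have h1 : ((q' : ℕ) : 𝓞 L) ∈ primeAt L A := by
      have : ((((q' : ℕ) : ℤ) : 𝓞 L)) = (((q' : ℕ)) : 𝓞 L) := by push_cast; rfl
      rw [← this]; exact hmem
    exact hqS q' hq' (Fermat.Agent.PT.BR.UnramGlob13.eq_of_natCast_mem (primeAt L A) q'.2 hq h1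
      (natCast_mem_primeAt L A hA))⟩


variable {L A} in
/-- An element of `L` which is integral at `heightOneAt` lies in `A`. -/
theorem valuation_le_one_of_le_one {q : ℕ} (hq : q.Prime) (hA : A.LiesOverPrime q) (u : L)
    (hu : (heightOneAt L A hq hA).valuation L u ≤ 1) : A.valuation (u : Qb) ≤ 1 := by
  obtain ⟨n, ⟨s, hs⟩, hns⟩ :=
    HeightOneSpectrum.exists_primeCompl_mul_eq_of_integer (heightOneAt L A hq hA) u hu
  have hs' : A.valuation (incl L s) = 1 := by
    refine le_antisymm (valuation_incl_le_one L A s) ?_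
    have : s ∉ primeAt L A := hs
    rw [mem_primeAt, not_lt] at this
    exact this
  have h1 : (u : Qb) * incl L s = incl L n := by
    have := congrArg (algebraMap L Qb) hns
    rw [map_mul] at this
    exact this
  have h2 : A.valuation (u : Qb) * A.valuation (incl L s) = A.valuation (incl L n) := by
    rw [← map_mul, h1]
  rw [hs', mul_one] at h2
  rw [h2]
  exact valuation_incl_le_one L A n

variable {L A} in
/-- A unit at `heightOneAt` is a unit of `A`. -/
theorem valuation_eq_one_of_eq_one {q : ℕ} (hq : q.Prime) (hA : A.LiesOverPrime q) (u : L)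
    (hu : (heightOneAt L A hq hA).valuation L u = 1) : A.valuation (u : Qb) = 1 := by
  have hu0 : u ≠ 0 := by
    rintro rfl
    rw [map_zero] at hu
    exact zero_ne_one hu
  refine le_antisymm (valuation_le_one_of_le_one hq hA u hu.le) ?_
  have h1 : (heightOneAt L A hq hA).valuation L u⁻¹ ≤ 1 := by rw [map_inv₀, hu, inv_one]
  have h2 := valuation_le_one_of_le_one hq hA u⁻¹ h1
  have h3 : ((u⁻¹ : L) : Qb) = ((u : L) : Qb)⁻¹ := map_inv₀ (algebraMap L Qb) u
  rw [h3, map_inv₀] at h2
  have hpos : 0 < A.valuation (u : Qb) := by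
    rw [Valuation.pos_iff]
    intro h0
    exact hu0 ((algebraMap L Qb).injective (by rw [map_zero]; exact h0))
  exact (inv_le_one₀ hpos).mp h2


variable {L A} in
/-- **The dictionary**: a Selmer element of `L` is, up to a `p`-th power of `Lˣ`, a unit at every
valuation subring `A` of `ℚ̄` over a prime `q ∉ Sg`. -/
theorem exists_twist_unit (Sg : Finset Nat.Primes) {q : ℕ} (hq : q.Prime) (hA : A.LiesOverPrime q)
    (hqS : ∀ q' ∈ Sg, (q' : ℕ) ≠ q) (p : ℕ) {d : (↥L)ˣ} (hd : d ∈ selS Sg ↥L p) :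
    ∃ t : L, t ≠ 0 ∧ A.valuation (((d : L) : Qb) * (t : Qb) ^ p) = 1 := by
  obtain ⟨k, hk⟩ := dvd_ordAt_of_mem_selS hd (primeAwayAt L A Sg hq hA hqS)
  set v := heightOneAt L A hq hA with hv
  have hvd : v.valuation L (d : L) = WithZero.exp (-((p : ℤ) * k)) := by
    rw [Fermat.Agent.PT.GLOB.ClassKill15.valuation_eq_exp_neg_count L v _ d.ne_zero, ← hk]
    rfl
  obtain ⟨π, hπ⟩ := v.valuation_exists_uniformizer L
  have hπ0 : π ≠ 0 := by
    rintro rfl
    rw [map_zero] at hπ
    exact WithZero.exp_ne_zero hπ.symm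
  refine ⟨π ^ (-k), zpow_ne_zero _ hπ0, ?_⟩
  have h1 : v.valuation L ((d : L) * (π ^ (-k)) ^ p) = 1 := by
    rw [map_mul, map_pow, map_zpow₀, hvd, hπ, ← WithZero.exp_zsmul, ← WithZero.exp_nsmul,
      ← WithZero.exp_add, WithZero.exp_eq_one]
    simp
  have h2 := valuation_eq_one_of_eq_one hq hA _ h1
  rw [← h2]
  congr 1

end Fermat.Agent.ES.T56.KumUnitAt3
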