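/-
Programme T (S56), chapter GW-D, brick (K1b) of `T56_BASE28.md` (helper3), file 1: the local
unramifiedness of a Kummer root in PRELUDE's language (valuation subrings of `ℚ̄`, the inertia
subgroup `A.inertiaSubgroupIn ℚ`).

`A` a valuation subring of `ℚ̄` over the prime `q ≠ p`, `σ` in the inertia group at `A`.

* `apply_eq_of_pow_eq_unit` : `y ^ p = e`, `σ e = e`, `v_A(e) = 1` ⇒ `σ y = y`
  (`σ y / y` is a `p`-th root of unity congruent to `1` modulo `𝔪_A`, and `q ≠ p`);
* **`apply_root_eq`** : `x ^ p = d`, `σ d = d`, `σ t = t`, `t ≠ 0`, `v_A(d * t ^ p) = 1` ⇒ `σ x = x`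
  (apply the first to `y = x * t`);
* **`forall_mem_adjoin_apply_eq`** : if `σ` fixes the field `L` and every generator `x ∈ T` has
  `x ^ p = d ∈ L` with such a `t ∈ L`, then `σ` fixes `L(T)` pointwise.
-/
import Mathlib
import Fermat.Prelude.Def_FLTPrelim_Ramification
import Fermat.Agent.S05.Inertia
import Fermat.Agent.ES.J.CycloChar8

set_option autoImplicit false

namespace Fermat.Agent.ES.T56.KumUnramQbar3

local notation "Qb" => AlgebraicClosure ℚ

open Fermat.Agent.ES.J.CycloChar8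

variable {p q : ℕ} {A : ValuationSubring Qb} {σ : Qb ≃ₐ[ℚ] Qb}

/-- A `p`-th root of a `σ`-fixed `A`-unit is fixed by `σ` in the inertia group (`q ≠ p`). -/
theorem apply_eq_of_pow_eq_unit (hp : p.Prime) (hq : q.Prime) (hqp : q ≠ p)
    (hA : A.LiesOverPrime q) (hσ : σ ∈ A.inertiaSubgroupIn ℚ) {y e : Qb} (hy : y ^ p = e)
    (hσe : σ e = e) (hve : A.valuation e = 1) : σ y = y := by
  have hp0 : p ≠ 0 := hp.ne_zero
  have hvy : A.valuation y = 1 := by
    have h1 : A.valuation y ^ p = 1 := by rw [← map_pow, hy, hve]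
    exact (pow_eq_one_iff_of_nonneg zero_le hp0).mp h1
  have hy0 : y ≠ 0 := by
    intro h0
    rw [h0, map_zero] at hvy
    exact zero_ne_one hvy
  have hyA : y ∈ A := (ValuationSubring.valuation_le_one_iff A y).mp hvy.le
  have h1 := Fermat.Agent.S05.Inertia.apply_sub_mem_nonunits hσ hyA
  have hη : (σ y * y⁻¹) ^ p = 1 := by
    rw [mul_pow, ← map_pow, hy, hσe, inv_pow, hy, ← hy, mul_inv_cancel₀ (pow_ne_zero _ hy0)]
  have hvinv : A.valuation y⁻¹ = 1 := by rw [map_inv₀, hvy, inv_one]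
  have hη1 : σ y * y⁻¹ - 1 ∈ A.nonunits := by
    have e1 : σ y * y⁻¹ - 1 = (σ y - y) * y⁻¹ := by
      rw [sub_mul, mul_inv_cancel₀ hy0]
    rw [e1, ValuationSubring.mem_nonunits_iff, map_mul, hvinv, mul_one]
    exact (ValuationSubring.mem_nonunits_iff (A := A)).mp h1
  have hqp' : ¬ q ∣ p := fun h => hqp ((Nat.prime_dvd_prime_iff_eq hq hp).mp h)
  have h2 := eq_one_of_sub_one_mem_nonunits hq hA hqp' hη hη1
  have h3 := congrArg (· * y) h2
  simpa [mul_assoc, inv_mul_cancel₀ hy0] using h3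

/-- **A Kummer root of an element which is a unit at `A` up to a `p`-th power of a fixed element is
fixed by the inertia group at `A`.** -/
theorem apply_root_eq (hp : p.Prime) (hq : q.Prime) (hqp : q ≠ p)
    (hA : A.LiesOverPrime q) (hσ : σ ∈ A.inertiaSubgroupIn ℚ) {x d t : Qb} (hx : x ^ p = d)
    (hσd : σ d = d) (hσt : σ t = t) (ht : t ≠ 0) (hv : A.valuation (d * t ^ p) = 1) :
    σ x = x := by
  have h1 : (x * t) ^ p = d * t ^ p := by rw [mul_pow, hx]
  have h2 : σ (d * t ^ p) = d * t ^ p := by rw [map_mul, map_pow, hσd, hσt]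
  have h3 := apply_eq_of_pow_eq_unit hp hq hqp hA hσ h1 h2 hv
  rw [map_mul, hσt] at h3
  exact mul_right_cancel₀ ht h3

/-- **The field version**: `σ` (in the inertia group at `A | q`, `q ≠ p`) fixing `L` pointwise fixes
`L(T)` pointwise, if every `x ∈ T` is a `p`-th root of some `d ∈ L` which is an `A`-unit up to the
`p`-th power of a nonzero element of `L`. -/
theorem forall_mem_adjoin_apply_eq (hp : p.Prime) (hq : q.Prime) (hqp : q ≠ p)
    (hA : A.LiesOverPrime q) (hσ : σ ∈ A.inertiaSubgroupIn ℚ)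
    (L : IntermediateField ℚ Qb) (hL : ∀ x ∈ L, σ x = x) (T : Set Qb)
    (hT : ∀ x ∈ T, x ^ p ∈ L ∧ ∃ t ∈ L, t ≠ 0 ∧ A.valuation (x ^ p * t ^ p) = 1) :
    ∀ z ∈ IntermediateField.adjoin ℚ ((L : Set Qb) ∪ T), σ z = z := by
  have hle : IntermediateField.adjoin ℚ ((L : Set Qb) ∪ T) ≤
      IntermediateField.fixedField (Subgroup.zpowers σ) := by
    rw [IntermediateField.adjoin_le_iff]
    have hfix : ∀ x ∈ (L : Set Qb) ∪ T, σ x = x := by
      rintro x (hx | hx)
      · exact hL x hx
      · obtain ⟨hd, t, htL, ht0, hv⟩ := hT x hx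
        exact apply_root_eq hp hq hqp hA hσ rfl (hL _ hd) (hL t htL) ht0 hv
    intro x hx
    rw [SetLike.mem_coe, IntermediateField.mem_fixedField_iff]
    intro τ hτ
    obtain ⟨k, rfl⟩ := Subgroup.mem_zpowers_iff.mp hτ
    have hσx := hfix x hx
    have : ∀ k : ℤ, (σ ^ k) x = x := by
      intro k
      induction k using Int.induction_on with
      | zero => simp
      | succ n ih => rw [zpow_add_one, AlgEquiv.mul_apply, hσx, ih]
      | pred n ih =>
        rw [zpow_sub_one, AlgEquiv.mul_apply]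
        have : σ⁻¹ x = x := by
          conv_lhs => rw [← hσx]
          exact σ.symm_apply_apply x
        rw [this, ih]
    exact this k
  intro z hz
  have := (IntermediateField.mem_fixedField_iff _ z).mp (hle hz) σ (Subgroup.mem_zpowers σ)
  simpa using this

end Fermat.Agent.ES.T56.KumUnramQbar3
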