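/-
Programme T (S56), chapter GW-D, brick (K1b) of `T56_BASE28.md` (helper3), file 3: the Kummer field
`L(D^{1/p}) ⊆ ℚ̄` of a group `D` of Selmer elements of a number field `L ≤ ℚ̄` (`ζ_p ∈ L`, `L`
unramified outside `Sg ∋ p`, NO Galois hypothesis on `L/ℚ`) is unramified outside `Sg` in PRELUDE's
sense `IntermediateField.IsUnramifiedOutside` — hence its fixing subgroup is a level of
`Interface29.levelsOfS r Sg`.

* `kumField L p D : IntermediateField ℚ ℚ̄` (`= restrictScalars` of `KummerPairing19.kummerField`),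
  `kumField_eq_adjoin`, `le_kumField`, `mem_kumField_of_pow_eq`, `finiteDimensional_kumField`;
* **`kumField_isUnramifiedOutside`**.
-/
import Mathlib
import Fermat.Prelude.Def_GroupCohomology_ContinuousUnramified
import Fermat.Agent.PT.GLOB.RecKummer15
import Fermat.Agent.ES.T56.KumUnramQbar3
import Fermat.Agent.ES.T56.KumUnitAt3

set_option autoImplicit false
set_option linter.unusedSectionVars false

namespace Fermat.Agent.ES.T56.KumFieldUnram3

local notation "Qb" => AlgebraicClosure ℚ

open NumberField IsDedekindDomain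
open Fermat.Agent.PT.GLOB.Interface23 Fermat.Agent.PT.GLOB.RecKummer15
  Fermat.Agent.PT.GLOB.KummerPairing19

variable (Sg : Finset Nat.Primes) (L : IntermediateField ℚ Qb) [NumberField L]
  (p : ℕ) [hp : Fact p.Prime] (D : Subgroup (↥L)ˣ)

theorem isAlgClosure_intermediate : IsAlgClosure (↥L) Qb :=
  ⟨inferInstance, Algebra.IsAlgebraic.tower_top (K := ℚ) ↥L⟩

/-- The Kummer field `L(D^{1/p})` as an intermediate field of `ℚ̄/ℚ`. -/
noncomputable def kumField : IntermediateField ℚ Qb :=
  (kummerField (Ω := Qb) p D).restrictScalars ℚ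

theorem kumField_eq_adjoin :
    kumField L p D = IntermediateField.adjoin ℚ ((L : Set Qb) ∪ rootsOf (Ω := Qb) p D) := by
  unfold kumField kummerField
  exact IntermediateField.restrictScalars_adjoin (F := ℚ) L (rootsOf p D)


theorem le_kumField : L ≤ kumField L p D := by
  rw [kumField_eq_adjoin]
  intro x hx
  exact IntermediateField.subset_adjoin ℚ _ (Or.inl hx)

theorem mem_kumField_of_pow_eq {x : Qb} {d : (↥L)ˣ} (hd : d ∈ D)
    (hx : x ^ p = ((d : ↥L) : Qb)) : x ∈ kumField L p D := by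
  rw [kumField_eq_adjoin]
  exact IntermediateField.subset_adjoin ℚ _ (Or.inr ⟨d, hd, hx⟩)

theorem finiteDimensional_kumField {ζ : ↥L} (hζ : IsPrimitiveRoot ζ p)
    (hD : D ≤ selS Sg ↥L p) : FiniteDimensional ℚ (kumField L p D) := by
  have h0 := isAlgClosure_intermediate L
  have h1 : FiniteDimensional ↥L (kummerField (Ω := Qb) p D) :=
    finiteDimensional_kummerField Sg ↥L Qb p hζ D hD
  have h2 : FiniteDimensional ℚ ↥(kummerField (Ω := Qb) p D) := Module.Finite.trans ↥L _
  let f : ↥(kumField L p D) →ₗ[ℚ] ↥(kummerField (Ω := Qb) p D) :=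
    { toFun := fun x => ⟨x.1, x.2⟩
      map_add' := fun _ _ => rfl
      map_smul' := fun c x => by
        apply Subtype.ext
        show ((c • x : ↥(kumField L p D)) : Qb) = _
        rw [IntermediateField.coe_smul, RingHom.id_apply, IntermediateField.coe_smul] }
  exact FiniteDimensional.of_injective f (fun x y h => Subtype.ext (congrArg Subtype.val h))

/-- **`L(D^{1/p})` is unramified outside `Sg` in PRELUDE's sense**, for `L` unramified outside
`Sg ∋ p`, `ζ_p ∈ L`, `D` a group of Selmer elements.  (No Galois hypothesis on `L/ℚ`.) -/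
theorem kumField_isUnramifiedOutside (hL : L.IsUnramifiedOutside Sg)
    (hpS : ∃ q ∈ Sg, (q : ℕ) = p) {ζ : ↥L} (hζ : IsPrimitiveRoot ζ p)
    (hD : D ≤ selS Sg ↥L p) : (kumField L p D).IsUnramifiedOutside Sg := by
  refine ⟨finiteDimensional_kumField Sg L p D hζ hD, fun q hq A hA σ hσ => ?_⟩
  have hσL := hL.2 q hq A hA hσ
  have hqp : (q : ℕ) ≠ p := by
    obtain ⟨q', hq'S, hq'⟩ := hpS
    intro h
    apply hq
    have : q = q' := Subtype.ext (h.trans hq'.symm)
    rw [this]; exact hq'S
  have hqS : ∀ q' ∈ Sg, ((q' : Nat.Primes) : ℕ) ≠ (q : ℕ) := by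
    intro q' hq' h
    apply hq
    have : q = q' := Subtype.ext h.symm
    rw [this]; exact hq'
  rw [IntermediateField.mem_fixingSubgroup_iff]
  intro z hz
  rw [kumField_eq_adjoin] at hz
  refine Fermat.Agent.ES.T56.KumUnramQbar3.forall_mem_adjoin_apply_eq hp.out q.2 hqp hA hσ L
    (fun x hx => (IntermediateField.mem_fixingSubgroup_iff L σ).mp hσL x hx)
    (rootsOf (Ω := Qb) p D) ?_ z hz
  rintro x ⟨d, hd, hx⟩
  obtain ⟨t, ht0, hv⟩ := Fermat.Agent.ES.T56.KumUnitAt3.exists_twist_unit Sg q.2 hA hqS p (hD hd)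
  refine ⟨?_, (t : Qb), t.2, ?_, ?_⟩
  · rw [hx]; exact (d : ↥L).2
  · intro h0
    exact ht0 (Subtype.ext h0)
  · rw [hx]; exact hv

end Fermat.Agent.ES.T56.KumFieldUnram3
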