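/-
Programme T (S56), chapter GW-D, brick (K1b) of `T56_BASE28.md` (helper19), file 1 of 4:
**the Kummer symbol inside `ℚ̄`**, for an intermediate field `L` of `ℚ̄/ℚ` containing a primitive
`p`-th root of unity `ζ`.

* `root p d` : a chosen `p`-th root of `d ∈ ℚ̄`;  `kumVal p σ d = σ(d^{1/p}) / d^{1/p}`;
* for `σ ∈ G_L = L.fixingSubgroup`: `kumVal` does not depend on the root (`kumVal_eq`), is a `p`-th root of
  unity for `d ∈ L` (`kumVal_pow`), multiplicative in `d` (`kumVal_mul`) and in `σ` (`kumVal_mul_left`),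
  trivial on `p`-th powers of `L` (`kumVal_pow_arg`), and `kumVal (g σ g⁻¹) d = g (kumVal σ (g⁻¹ d))`
  for every `g ∈ G_ℚ` (`kumVal_conj`);
* nondegeneracy: if `kumVal σ d = 1` for all `σ ∈ G_L` then `d^{1/p} ∈ L` (`root_mem_of_kumVal_eq_one`;
  the fixed field of `G_L` is `L` — no degree count);
* `logZ hζ η : ZMod p` with `ζ ^ (logZ hζ η).val = η` for `η ^ p = 1`; `logZ_apply` :
  `logZ (g η) = cycloChar p g * logZ η`;
* `kumLog hζ σ d = logZ hζ (kumVal p σ d)` and its rules (`kumLog_mul`, `kumLog_mul_left`, `kumLog_pow_arg`,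
  `kumLog_conj`, `root_mem_of_kumLog_eq_zero`).
-/
import Mathlib
import Fermat.Prelude.Def_ExtCitation_KummerBridge

set_option autoImplicit false
set_option linter.unusedSectionVars false

open ExtCitation

namespace Fermat.Agent.ES.T56.KumRoot19

local notation "Qbar" => AlgebraicClosure ℚ

/-- `G_ℚ`. -/
abbrev GQ : Type := Qbar ≃ₐ[ℚ] Qbar

local instance isAlgebraicQbar19 : Algebra.IsAlgebraic ℚ Qbar := AlgebraicClosure.isAlgebraic ℚ

local instance isAlgClosureQbar19 : IsAlgClosure ℚ Qbar := ⟨inferInstance, inferInstance⟩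

local instance isGaloisQbar19 : IsGalois ℚ Qbar := IsAlgClosure.isGalois ℚ Qbar

variable (p : ℕ) [hp : Fact p.Prime]

local instance neZero19 : NeZero p := ⟨hp.out.ne_zero⟩

/-! ### Chosen roots and the Kummer symbol -/

theorem exists_root (d : Qbar) : ∃ x : Qbar, x ^ p = d :=
  IsAlgClosed.exists_pow_nat_eq d hp.out.pos

/-- A chosen `p`-th root. -/
noncomputable def root (d : Qbar) : Qbar := Classical.choose (exists_root p d)

theorem root_pow (d : Qbar) : root p d ^ p = d := Classical.choose_spec (exists_root p d)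

theorem root_ne_zero {d : Qbar} (hd : d ≠ 0) : root p d ≠ 0 := by
  intro h
  apply hd
  rw [← root_pow p d, h, zero_pow hp.out.ne_zero]

/-- The Kummer symbol `σ(d^{1/p}) / d^{1/p}`. -/
noncomputable def kumVal (σ : GQ) (d : Qbar) : Qbar := σ (root p d) / root p d

theorem kumVal_eq_one_of_fixed {σ : GQ} {d : Qbar} (hd : d ≠ 0) (h : σ (root p d) = root p d) :
    kumVal p σ d = 1 := by
  unfold kumVal
  rw [h, div_self (root_ne_zero p hd)]

variable {p}
variable {L : IntermediateField ℚ Qbar} {ζ : Qbar} (hζ : IsPrimitiveRoot ζ p) (hζL : ζ ∈ L)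

theorem apply_of_mem {σ : GQ} (hσ : σ ∈ L.fixingSubgroup) {x : Qbar} (hx : x ∈ L) : σ x = x :=
  (IntermediateField.mem_fixingSubgroup_iff L σ).1 hσ x hx

include hζ hζL in
/-- An element of `G_L` fixes every `p`-th root of unity. -/
theorem apply_rootOfUnity {σ : GQ} (hσ : σ ∈ L.fixingSubgroup) {η : Qbar} (hη : η ^ p = 1) :
    σ η = η := by
  obtain ⟨i, -, rfl⟩ := hζ.eq_pow_of_pow_eq_one hη
  rw [map_pow, apply_of_mem hσ hζL]

include hζ hζL in
/-- The ratio `σ x / x` only depends on `x ^ p`. -/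
theorem ratio_eq {σ : GQ} (hσ : σ ∈ L.fixingSubgroup) {x y : Qbar} (hy : y ≠ 0)
    (h : x ^ p = y ^ p) : σ x / x = σ y / y := by
  have hx : x ≠ 0 := by
    intro h0
    rw [h0, zero_pow hp.out.ne_zero] at h
    exact hy ((pow_eq_zero_iff hp.out.ne_zero).1 h.symm)
  have h1 : (x / y) ^ p = 1 := by rw [div_pow, h, div_self (pow_ne_zero _ hy)]
  have h2 := apply_rootOfUnity hζ hζL hσ h1
  rw [map_div₀] at h2
  have hσy : σ y ≠ 0 := (map_ne_zero σ).2 hy
  rw [div_eq_div_iff hσy hy] at h2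
  rw [div_eq_div_iff hx hy, h2, mul_comm]

include hζ hζL in
theorem kumVal_eq {σ : GQ} (hσ : σ ∈ L.fixingSubgroup) {d x : Qbar} (hd : d ≠ 0)
    (hx : x ^ p = d) : kumVal p σ d = σ x / x := by
  have hx0 : x ≠ 0 := by
    intro h0
    rw [h0, zero_pow hp.out.ne_zero] at hx
    exact hd hx.symm
  exact ratio_eq hζ hζL hσ hx0 (by rw [root_pow, hx])

theorem kumVal_pow {σ : GQ} (hσ : σ ∈ L.fixingSubgroup) {d : Qbar} (hd : d ≠ 0) (hdL : d ∈ L) :
    kumVal p σ d ^ p = 1 := by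
  unfold kumVal
  rw [div_pow, ← map_pow, root_pow, apply_of_mem hσ hdL, div_self hd]

include hζ hζL in
theorem kumVal_mul {σ : GQ} (hσ : σ ∈ L.fixingSubgroup) {d d' : Qbar} (hd : d ≠ 0)
    (hd' : d' ≠ 0) : kumVal p σ (d * d') = kumVal p σ d * kumVal p σ d' := by
  rw [kumVal_eq hζ hζL hσ (mul_ne_zero hd hd') (x := root p d * root p d')
    (by rw [mul_pow, root_pow, root_pow])]
  unfold kumVal
  rw [map_mul, mul_div_mul_comm]

include hζ hζL in
theorem kumVal_mul_left {σ τ : GQ} (hσ : σ ∈ L.fixingSubgroup) (hτ : τ ∈ L.fixingSubgroup)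
    {d : Qbar} (hd : d ≠ 0) (hdL : d ∈ L) :
    kumVal p (σ * τ) d = kumVal p σ d * kumVal p τ d := by
  have hx0 := root_ne_zero p hd
  have h1 : σ (kumVal p τ d) = kumVal p τ d :=
    apply_rootOfUnity hζ hζL hσ (kumVal_pow hτ hd hdL)
  unfold kumVal at h1 ⊢
  have h2 : σ (τ (root p d)) = τ (root p d) / root p d * σ (root p d) := by
    rw [← h1, ← map_mul, div_mul_cancel₀ _ hx0]
  rw [AlgEquiv.mul_apply, h2]
  field_simp

include hζ hζL in
theorem kumVal_pow_arg {σ : GQ} (hσ : σ ∈ L.fixingSubgroup) {y : Qbar} (hy : y ≠ 0)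
    (hyL : y ∈ L) : kumVal p σ (y ^ p) = 1 := by
  rw [kumVal_eq hζ hζL hσ (pow_ne_zero _ hy) (x := y) rfl, apply_of_mem hσ hyL, div_self hy]

include hζ hζL in
/-- Conjugation: `κ_{g σ g⁻¹}(d) = g (κ_σ (g⁻¹ d))`. -/
theorem kumVal_conj (g : GQ) {σ : GQ} (hσ : σ ∈ L.fixingSubgroup) {d : Qbar} (hd : d ≠ 0) :
    kumVal p (g * σ * g⁻¹) d = g (kumVal p σ (g⁻¹ d)) := by
  have hgd : g⁻¹ d ≠ 0 := (map_ne_zero g⁻¹).2 hd
  have hx' : (g⁻¹ (root p d)) ^ p = g⁻¹ d := by rw [← map_pow, root_pow]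
  rw [kumVal_eq hζ hζL hσ hgd hx', map_div₀]
  unfold kumVal
  have h1 : g (g⁻¹ (root p d)) = root p d := by
    rw [← AlgEquiv.mul_apply, mul_inv_cancel, AlgEquiv.one_apply]
  rw [h1, AlgEquiv.mul_apply, AlgEquiv.mul_apply]

/-- **Nondegeneracy**: if all Kummer symbols of `d` are trivial, `d` has a `p`-th root in `L`. -/
theorem root_mem_of_kumVal_eq_one {d : Qbar} (hd : d ≠ 0)
    (h : ∀ σ ∈ L.fixingSubgroup, kumVal p σ d = 1) : root p d ∈ L := by
  rw [← InfiniteGalois.fixedField_fixingSubgroup L, IntermediateField.mem_fixedField_iff]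
  intro σ hσ
  have h1 := h σ hσ
  unfold kumVal at h1
  rwa [div_eq_one_iff_eq (root_ne_zero p hd)] at h1

/-! ### The discrete logarithm of `μ_p` -/

section Log

include hζ in
theorem exists_log {η : Qbar} (hη : η ^ p = 1) : ∃ a : ZMod p, ζ ^ a.val = η := by
  obtain ⟨i, hi, rfl⟩ := hζ.eq_pow_of_pow_eq_one hη
  exact ⟨(i : ZMod p), by rw [ZMod.val_natCast_of_lt hi]⟩

open Classical in
/-- The discrete logarithm to the base `ζ` (zero outside `μ_p`). -/
noncomputable def logZ (η : Qbar) : ZMod p :=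
  if h : η ^ p = 1 then Classical.choose (exists_log hζ h) else 0

theorem pow_logZ {η : Qbar} (hη : η ^ p = 1) : ζ ^ (logZ hζ η).val = η := by
  unfold logZ
  rw [dif_pos hη]
  exact Classical.choose_spec (exists_log hζ hη)

theorem logZ_unique {η : Qbar} {a : ZMod p} (h : ζ ^ a.val = η) : logZ hζ η = a := by
  have hη : η ^ p = 1 := by rw [← h, ← pow_mul, mul_comm, pow_mul, hζ.pow_eq_one, one_pow]
  have h1 := (pow_logZ hζ hη).trans h.symm
  exact ZMod.val_injective p (hζ.pow_inj (ZMod.val_lt _) (ZMod.val_lt _) h1)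

include hζ in
theorem pow_val_add (a b : ZMod p) : ζ ^ (a + b).val = ζ ^ a.val * ζ ^ b.val := by
  rw [← pow_add, ZMod.val_add, ← pow_eq_pow_mod _ hζ.pow_eq_one]

include hζ in
theorem pow_val_mul (a b : ZMod p) : ζ ^ (a * b).val = (ζ ^ b.val) ^ a.val := by
  rw [← pow_mul, ZMod.val_mul, ← pow_eq_pow_mod _ hζ.pow_eq_one, mul_comm]

theorem logZ_mul {η η' : Qbar} (hη : η ^ p = 1) (hη' : η' ^ p = 1) :
    logZ hζ (η * η') = logZ hζ η + logZ hζ η' := by
  apply logZ_unique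
  rw [pow_val_add hζ, pow_logZ hζ hη, pow_logZ hζ hη']

theorem logZ_one : logZ hζ 1 = 0 := by
  apply logZ_unique
  rw [ZMod.val_zero, pow_zero]

theorem logZ_pow_val {η : Qbar} (hη : η ^ p = 1) (c : ZMod p) :
    logZ hζ (η ^ c.val) = c * logZ hζ η := by
  apply logZ_unique
  rw [pow_val_mul hζ, pow_logZ hζ hη]

theorem logZ_eq_zero_iff {η : Qbar} (hη : η ^ p = 1) : logZ hζ η = 0 ↔ η = 1 := by
  constructor
  · intro h
    have h1 := pow_logZ hζ hη
    rwa [h, ZMod.val_zero, pow_zero, eq_comm] at h1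
  · rintro rfl
    exact logZ_one hζ

/-- `σ` raises every `p`-th root of unity of `ℚ̄` to the power `cycloChar p σ`. -/
theorem apply_eq_pow_cycloChar (σ : GQ) {t : Qbar} (ht : t ^ p = 1) :
    σ t = t ^ ((cycloChar p σ : (ZMod p)ˣ) : ZMod p).val := by
  have htu : IsUnit t := IsUnit.of_pow_eq_one ht (NeZero.ne p)
  obtain ⟨u, rfl⟩ := htu
  have hu : u ∈ rootsOfUnity p Qbar := by
    rw [mem_rootsOfUnity]
    exact Units.ext (by simpa using ht)
  exact modularCyclotomicCharacter.spec Qbar (card_rootsOfUnity_eq_self p)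
    (σ : Qbar ≃+* Qbar) hu

theorem logZ_apply (g : GQ) {η : Qbar} (hη : η ^ p = 1) :
    logZ hζ (g η) = ((cycloChar p g : (ZMod p)ˣ) : ZMod p) * logZ hζ η := by
  rw [apply_eq_pow_cycloChar g hη, logZ_pow_val hζ hη]

end Log

/-! ### The additive Kummer symbol -/

section KumLog

/-- The additive Kummer symbol `log_ζ (σ(d^{1/p}) / d^{1/p}) ∈ ZMod p`. -/
noncomputable def kumLog (σ : GQ) (d : Qbar) : ZMod p := logZ hζ (kumVal p σ d)

include hζL in
theorem kumLog_mul {σ : GQ} (hσ : σ ∈ L.fixingSubgroup) {d d' : Qbar} (hd : d ≠ 0)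
    (hd' : d' ≠ 0) (hdL : d ∈ L) (hdL' : d' ∈ L) :
    kumLog hζ σ (d * d') = kumLog hζ σ d + kumLog hζ σ d' := by
  unfold kumLog
  rw [kumVal_mul hζ hζL hσ hd hd', logZ_mul hζ (kumVal_pow hσ hd hdL) (kumVal_pow hσ hd' hdL')]

include hζL in
theorem kumLog_mul_left {σ τ : GQ} (hσ : σ ∈ L.fixingSubgroup) (hτ : τ ∈ L.fixingSubgroup)
    {d : Qbar} (hd : d ≠ 0) (hdL : d ∈ L) :
    kumLog hζ (σ * τ) d = kumLog hζ σ d + kumLog hζ τ d := by
  unfold kumLog
  rw [kumVal_mul_left hζ hζL hσ hτ hd hdL,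
    logZ_mul hζ (kumVal_pow hσ hd hdL) (kumVal_pow hτ hd hdL)]

include hζL in
theorem kumLog_pow_arg {σ : GQ} (hσ : σ ∈ L.fixingSubgroup) {y : Qbar} (hy : y ≠ 0)
    (hyL : y ∈ L) : kumLog hζ σ (y ^ p) = 0 := by
  unfold kumLog
  rw [kumVal_pow_arg hζ hζL hσ hy hyL, logZ_one]

theorem kumLog_eq_zero_of_fixed {σ : GQ} {d : Qbar} (hd : d ≠ 0)
    (h : σ (root p d) = root p d) : kumLog hζ σ d = 0 := by
  unfold kumLog
  rw [kumVal_eq_one_of_fixed p hd h, logZ_one]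

include hζL in
/-- Conjugation: `λ_{g σ g⁻¹}(d) = ω(g) · λ_σ(g⁻¹ d)`. -/
theorem kumLog_conj (g : GQ) {σ : GQ} (hσ : σ ∈ L.fixingSubgroup) {d : Qbar} (hd : d ≠ 0)
    (hgd : g⁻¹ d ∈ L) :
    kumLog hζ (g * σ * g⁻¹) d =
      ((cycloChar p g : (ZMod p)ˣ) : ZMod p) * kumLog hζ σ (g⁻¹ d) := by
  unfold kumLog
  rw [kumVal_conj hζ hζL g hσ hd,
    logZ_apply hζ g (kumVal_pow hσ ((map_ne_zero g⁻¹).2 hd) hgd)]

/-- **Nondegeneracy**, additive form. -/
theorem root_mem_of_kumLog_eq_zero {d : Qbar} (hd : d ≠ 0) (hdL : d ∈ L)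
    (h : ∀ σ ∈ L.fixingSubgroup, kumLog hζ σ d = 0) : root p d ∈ L := by
  apply root_mem_of_kumVal_eq_one hd
  intro σ hσ
  exact (logZ_eq_zero_iff hζ (kumVal_pow hσ hd hdL)).1 (h σ hσ)

end KumLog

end Fermat.Agent.ES.T56.KumRoot19
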