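/-
Programme T (S56), chapter GW-D, brick (K1b) of `T56_BASE28.md` (helper19), file 2 of 3:
**the Selmer space `Sel/p` of a number field `L ≤ ℚ̄` as an `𝔽_p`-representation, and the Kummer
pairing `G_L → (Sel/p)^*`.**

`L : IntermediateField ℚ ℚ̄` a number field containing a primitive `p`-th root of unity `ζ`,
`Sg` a finite set of primes.

* `stabL L ≤ G_ℚ` : the automorphisms `g` with `g(L) = L`; `resL L : stabL L →* (L ≃ₐ[ℚ] L)`;
* `SelQ Sg L p = selS Sg L p ⧸ (Lˣ)^p` (main's `RecKummer15.selS`), `SelV Sg L p = Additive (SelQ Sg L p)`,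
  a finite `ZMod p`-module (`instModuleSelV`, `finite_SelQ`);
* `selRep Sg L p : Representation (ZMod p) (stabL L) (SelV Sg L p)`, `selRep g [d] = [g d]`;
* `kumLin hζ hζL σ : Module.Dual (ZMod p) (SelV Sg L p)` for `σ : G_L` : `[d] ↦ log_ζ (σ(d^{1/p})/d^{1/p})`;
  `kumLin_mul` (additive in `σ`), `kumLin_conj` : `kumLin (g σ g⁻¹) = ω(g) • kumLin σ ∘ selRep g⁻¹`,
  `kumLin_eq_zero_of_fixes` (`σ` fixing all the roots), `eq_zero_of_forall_kumLin` (nondegeneracy),
  **`span_kumLin`** : the `kumLin σ` span the dual space.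
-/
import Mathlib
import Fermat.Agent.PT.GLOB.RecKummer15
import Fermat.Agent.ES.T56.KumRoot19

set_option autoImplicit false
set_option linter.unusedSectionVars false

open ExtCitation

namespace Fermat.Agent.ES.T56.KumSel19

open Fermat.Agent.PT.GLOB.RecKummer15 Fermat.Agent.PT.GLOB.KummerPairing19
  Fermat.Agent.PT.GLOB.RecCount15 Fermat.Agent.ES.T56.KumRoot19

local notation "Qbar" => AlgebraicClosure ℚ

/-! ### The stabiliser of `L` and its restriction to `L` -/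

section Stab

variable (L : IntermediateField ℚ Qbar)

/-- The automorphisms of `ℚ̄` which map `L` onto itself. -/
def stabL : Subgroup GQ where
  carrier := {g | ∀ x : Qbar, x ∈ L ↔ g x ∈ L}
  one_mem' := fun _ => Iff.rfl
  mul_mem' := by
    intro a b ha hb x
    rw [AlgEquiv.mul_apply, ← ha, ← hb]
  inv_mem' := by
    intro a ha x
    have h := ha (a⁻¹ x)
    rw [← AlgEquiv.mul_apply, mul_inv_cancel, AlgEquiv.one_apply] at h
    exact h.symm

theorem mem_stabL_iff (g : GQ) : g ∈ stabL L ↔ ∀ x : Qbar, x ∈ L ↔ g x ∈ L := Iff.rfl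

theorem apply_mem (g : ↥(stabL L)) {x : Qbar} (hx : x ∈ L) : (g : GQ) x ∈ L := (g.2 x).1 hx

/-- `G_L` stabilises `L`. -/
theorem fixingSubgroup_le_stabL : L.fixingSubgroup ≤ stabL L := by
  intro σ hσ x
  constructor
  · intro hx
    rw [apply_of_mem hσ hx]
    exact hx
  · intro hx
    have h1 : σ⁻¹ (σ x) = σ x := apply_of_mem (L.fixingSubgroup.inv_mem hσ) hx
    have h2 : σ⁻¹ (σ x) = x := by
      rw [← AlgEquiv.mul_apply, inv_mul_cancel, AlgEquiv.one_apply]
    rw [h2] at h1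
    rw [h1]
    exact hx

/-- The restriction of `g ∈ stabL L` to `L`, as an algebra homomorphism. -/
noncomputable def resHom (g : ↥(stabL L)) : ↥L →ₐ[ℚ] ↥L :=
  (((g : GQ) : Qbar →ₐ[ℚ] Qbar).comp L.val).codRestrict L.toSubalgebra
    (fun x => apply_mem L g x.2)

theorem coe_resHom (g : ↥(stabL L)) (x : ↥L) : ((resHom L g x : ↥L) : Qbar) = (g : GQ) x := rfl

/-- The restriction `stabL L →* (L ≃ₐ[ℚ] L)`. -/
noncomputable def resL : ↥(stabL L) →* (↥L ≃ₐ[ℚ] ↥L) where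
  toFun g := AlgEquiv.ofAlgHom (resHom L g) (resHom L g⁻¹)
    (by
      ext x
      show (g : GQ) (((g⁻¹ : ↥(stabL L)) : GQ) x) = x
      rw [Subgroup.coe_inv, ← AlgEquiv.mul_apply, mul_inv_cancel, AlgEquiv.one_apply])
    (by
      ext x
      show ((g⁻¹ : ↥(stabL L)) : GQ) ((g : GQ) x) = x
      rw [Subgroup.coe_inv, ← AlgEquiv.mul_apply, inv_mul_cancel, AlgEquiv.one_apply])
  map_one' := by
    ext x
    rfl
  map_mul' a b := by
    ext x
    rfl

theorem coe_resL (g : ↥(stabL L)) (x : ↥L) : ((resL L g x : ↥L) : Qbar) = (g : GQ) x := rfl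

end Stab

/-! ### The Selmer space -/

section Sel

variable (Sg : Finset Nat.Primes) (L : IntermediateField ℚ Qbar) [NumberField L]
  (p : ℕ) [hp : Fact p.Prime]

local instance neZeroSel19 : NeZero p := ⟨hp.out.ne_zero⟩

/-- `p`-th powers are Selmer elements. -/
theorem pthPowers_le_selS : pthPowers (↥L) p ≤ selS Sg (↥L) p := by
  rintro _ ⟨g, rfl⟩
  exact ⟨Fermat.Agent.PT.GLOB.Interface23.divT Sg (↥L) g, (map_pow _ g p).symm⟩

/-- The `p`-th powers inside the Selmer elements. -/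
noncomputable abbrev selPow : Subgroup ↥(selS Sg (↥L) p) := (pthPowers (↥L) p).subgroupOf (selS Sg (↥L) p)

/-- `Sel / p = selS / (Lˣ)^p`. -/
abbrev SelQ : Type := ↥(selS Sg (↥L) p) ⧸ selPow Sg L p

/-- `Sel / p`, written additively. -/
abbrev SelV : Type := Additive (SelQ Sg L p)

theorem selQ_pow (x : SelQ Sg L p) : x ^ p = 1 := by
  induction x using QuotientGroup.induction_on with
  | H d =>
    rw [← QuotientGroup.mk_pow, QuotientGroup.eq_one_iff, Subgroup.mem_subgroupOf]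
    exact ⟨(d : (↥L)ˣ), rfl⟩

theorem selV_nsmul (x : SelV Sg L p) : p • x = 0 := by
  have h := selQ_pow Sg L p (Additive.toMul x)
  exact congrArg Additive.ofMul h

noncomputable instance instModuleSelV : Module (ZMod p) (SelV Sg L p) :=
  AddCommGroup.zmodModule (selV_nsmul Sg L p)

/-- The class of a Selmer element in `SelV`. -/
noncomputable def selMk (d : ↥(selS Sg (↥L) p)) : SelV Sg L p :=
  Additive.ofMul (QuotientGroup.mk d : SelQ Sg L p)

theorem selMk_surjective : Function.Surjective (selMk Sg L p) := by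
  intro x
  obtain ⟨d, hd⟩ := QuotientGroup.mk_surjective (Additive.toMul x)
  exact ⟨d, congrArg Additive.ofMul hd⟩

theorem selMk_mul (d d' : ↥(selS Sg (↥L) p)) :
    selMk Sg L p (d * d') = selMk Sg L p d + selMk Sg L p d' := rfl

theorem selMk_eq_zero_iff (d : ↥(selS Sg (↥L) p)) :
    selMk Sg L p d = 0 ↔ (d : (↥L)ˣ) ∈ pthPowers (↥L) p := by
  have h1 : selMk Sg L p d = 0 ↔ (QuotientGroup.mk d : SelQ Sg L p) = 1 :=
    ⟨fun h => congrArg Additive.toMul h, fun h => congrArg Additive.ofMul h⟩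
  rw [h1, QuotientGroup.eq_one_iff, Subgroup.mem_subgroupOf]

/-- **`Sel / p` is finite.** -/
theorem finite_SelQ : Finite (SelQ Sg L p) := by
  classical
  obtain ⟨Y, hY⟩ := Fermat.Agent.PT.GLOB.SelmerFinite15.exists_finset_cover (↥L)
    ((Fermat.Agent.PT.GLOB.UnitsBridge24.primesOverT Sg (↥L) : Finset _) : Set _)
    (Finset.finite_toSet _) p hp.out.pos
  let T : Type := {y : (↥L)ˣ // y ∈ Y ∧ y ∈ selS Sg (↥L) p}
  have hT : Finite T := by
    apply Finite.of_injective (fun y : T => (⟨y.1, y.2.1⟩ : ↥Y))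
    intro a b h
    exact Subtype.ext (congrArg (fun z : ↥Y => (z : (↥L)ˣ)) h)
  let f : T → SelQ Sg L p := fun y => QuotientGroup.mk ⟨y.1, y.2.2⟩
  apply Finite.of_surjective f
  intro x
  induction x using QuotientGroup.induction_on with
  | H d =>
    obtain ⟨y, hyY, g, hg⟩ := hY d.1 (selS_le_selSub Sg (↥L) p d.2)
    have hgp : g ^ p ∈ selS Sg (↥L) p := pthPowers_le_selS Sg L p ⟨g, rfl⟩
    have hy : y ∈ selS Sg (↥L) p := by
      have : y = (d : (↥L)ˣ) * (g ^ p)⁻¹ := by rw [hg, mul_inv_cancel_right]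
      rw [this]
      exact (selS Sg (↥L) p).mul_mem d.2 ((selS Sg (↥L) p).inv_mem hgp)
    refine ⟨⟨y, hyY, hy⟩, ?_⟩
    show (QuotientGroup.mk ⟨y, hy⟩ : SelQ Sg L p) = QuotientGroup.mk d
    rw [QuotientGroup.eq, Subgroup.mem_subgroupOf]
    refine ⟨g, ?_⟩
    show g ^ p = ((⟨y, hy⟩ : ↥(selS Sg (↥L) p))⁻¹ * d : ↥(selS Sg (↥L) p)).1
    rw [Subgroup.coe_mul, Subgroup.coe_inv, hg, inv_mul_cancel_left]

instance instFiniteSelV : Finite (SelV Sg L p) := finite_SelQ Sg L p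

instance instModuleFiniteSelV : Module.Finite (ZMod p) (SelV Sg L p) := Module.Finite.of_finite

end Sel

/-! ### The action of `stabL L` on the Selmer space -/

section Rep

variable (Sg : Finset Nat.Primes) (L : IntermediateField ℚ Qbar) [NumberField L]
  (p : ℕ) [hp : Fact p.Prime]

local instance neZeroRep19 : NeZero p := ⟨hp.out.ne_zero⟩

/-- The action of `g ∈ stabL L` on `Lˣ`. -/
noncomputable def unitSmul (g : ↥(stabL L)) : (↥L)ˣ →* (↥L)ˣ :=
  Units.map ((resL L g : ↥L ≃ₐ[ℚ] ↥L) : ↥L →* ↥L)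

theorem coe_unitSmul (g : ↥(stabL L)) (d : (↥L)ˣ) :
    ((((unitSmul L g d : (↥L)ˣ) : ↥L)) : Qbar) = (g : GQ) ((d : ↥L) : Qbar) := rfl

theorem unitSmul_one (d : (↥L)ˣ) : unitSmul L 1 d = d := by
  apply Units.ext
  apply Subtype.ext
  rw [coe_unitSmul]
  rfl

theorem unitSmul_mul (a b : ↥(stabL L)) (d : (↥L)ˣ) :
    unitSmul L (a * b) d = unitSmul L a (unitSmul L b d) := by
  apply Units.ext
  apply Subtype.ext
  rw [coe_unitSmul, coe_unitSmul, coe_unitSmul]
  rfl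

theorem unitSmul_mem_selS (g : ↥(stabL L)) {d : (↥L)ˣ} (hd : d ∈ selS Sg (↥L) p) :
    unitSmul L g d ∈ selS Sg (↥L) p :=
  smul_mem_selS Sg ℚ (↥L) p (resL L g) hd

/-- The action of `g ∈ stabL L` on the Selmer elements. -/
noncomputable def selSmul (g : ↥(stabL L)) : ↥(selS Sg (↥L) p) →* ↥(selS Sg (↥L) p) where
  toFun d := ⟨unitSmul L g (d : (↥L)ˣ), unitSmul_mem_selS Sg L p g d.2⟩
  map_one' := Subtype.ext (map_one _)
  map_mul' _ _ := Subtype.ext (map_mul _ _ _)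

theorem coe_selSmul (g : ↥(stabL L)) (d : ↥(selS Sg (↥L) p)) :
    ((selSmul Sg L p g d : ↥(selS Sg (↥L) p)) : (↥L)ˣ) = unitSmul L g (d : (↥L)ˣ) := rfl

theorem selSmul_one (d : ↥(selS Sg (↥L) p)) : selSmul Sg L p 1 d = d := by
  apply Subtype.ext
  rw [coe_selSmul, unitSmul_one]

theorem selSmul_mul (a b : ↥(stabL L)) (d : ↥(selS Sg (↥L) p)) :
    selSmul Sg L p (a * b) d = selSmul Sg L p a (selSmul Sg L p b d) := by
  apply Subtype.ext
  rw [coe_selSmul, coe_selSmul, coe_selSmul, unitSmul_mul]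

theorem selPow_le_comap (g : ↥(stabL L)) :
    selPow Sg L p ≤ (selPow Sg L p).comap (selSmul Sg L p g) := by
  intro d hd
  rw [Subgroup.mem_subgroupOf] at hd
  obtain ⟨y, hy⟩ := hd
  rw [Subgroup.mem_comap, Subgroup.mem_subgroupOf, coe_selSmul]
  refine ⟨unitSmul L g y, ?_⟩
  show (unitSmul L g y) ^ p = unitSmul L g (d : (↥L)ˣ)
  rw [← map_pow]
  congr 1

/-- The action on `Sel / p`. -/
noncomputable def selActQ (g : ↥(stabL L)) : SelQ Sg L p →* SelQ Sg L p :=
  QuotientGroup.map _ _ (selSmul Sg L p g) (selPow_le_comap Sg L p g)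

/-- The action on `SelV`, as a linear map. -/
noncomputable def selAct (g : ↥(stabL L)) : SelV Sg L p →ₗ[ZMod p] SelV Sg L p :=
  (MonoidHom.toAdditive (selActQ Sg L p g)).toZModLinearMap p

theorem selAct_selMk (g : ↥(stabL L)) (d : ↥(selS Sg (↥L) p)) :
    selAct Sg L p g (selMk Sg L p d) = selMk Sg L p (selSmul Sg L p g d) := rfl

/-- **The representation of `stabL L` on `Sel / p`.** -/
noncomputable def selRep : Representation (ZMod p) ↥(stabL L) (SelV Sg L p) where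
  toFun := selAct Sg L p
  map_one' := by
    apply LinearMap.ext
    intro x
    obtain ⟨d, rfl⟩ := selMk_surjective Sg L p x
    rw [selAct_selMk, selSmul_one]
    rfl
  map_mul' a b := by
    apply LinearMap.ext
    intro x
    obtain ⟨d, rfl⟩ := selMk_surjective Sg L p x
    rw [Module.End.mul_apply, selAct_selMk, selAct_selMk, selAct_selMk, selSmul_mul]

theorem selRep_selMk (g : ↥(stabL L)) (d : ↥(selS Sg (↥L) p)) :
    selRep Sg L p g (selMk Sg L p d) = selMk Sg L p (selSmul Sg L p g d) := rfl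

/-- `G_L` acts trivially on `Sel / p`. -/
theorem selRep_of_mem_fixingSubgroup (g : ↥(stabL L)) (hg : (g : GQ) ∈ L.fixingSubgroup) :
    selRep Sg L p g = 1 := by
  apply LinearMap.ext
  intro x
  obtain ⟨d, rfl⟩ := selMk_surjective Sg L p x
  rw [selRep_selMk, Module.End.one_apply]
  congr 1
  apply Subtype.ext
  apply Units.ext
  apply Subtype.ext
  rw [coe_selSmul, coe_unitSmul]
  exact apply_of_mem hg ((d : (↥L)ˣ) : ↥L).2

end Rep

/-! ### The Kummer pairing -/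

section Kum

variable (Sg : Finset Nat.Primes) (L : IntermediateField ℚ Qbar) [NumberField L]
  (p : ℕ) [hp : Fact p.Prime] {ζ : Qbar} (hζ : IsPrimitiveRoot ζ p) (hζL : ζ ∈ L)

local instance neZeroKum19 : NeZero p := ⟨hp.out.ne_zero⟩

/-- A Selmer element as an element of `ℚ̄`. -/
noncomputable def selCoe (d : ↥(selS Sg (↥L) p)) : Qbar := (((d : (↥L)ˣ) : ↥L) : Qbar)

theorem selCoe_mem (d : ↥(selS Sg (↥L) p)) : selCoe Sg L p d ∈ L := ((d : (↥L)ˣ) : ↥L).2

theorem selCoe_ne_zero (d : ↥(selS Sg (↥L) p)) : selCoe Sg L p d ≠ 0 := by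
  intro h
  exact (d : (↥L)ˣ).ne_zero (Subtype.ext h)

theorem selCoe_mul (d d' : ↥(selS Sg (↥L) p)) :
    selCoe Sg L p (d * d') = selCoe Sg L p d * selCoe Sg L p d' := rfl

theorem selCoe_one : selCoe Sg L p 1 = 1 := rfl

theorem selCoe_selSmul (g : ↥(stabL L)) (d : ↥(selS Sg (↥L) p)) :
    selCoe Sg L p (selSmul Sg L p g d) = (g : GQ) (selCoe Sg L p d) := rfl

/-- The Kummer homomorphism of `σ ∈ G_L` on the Selmer elements. -/
noncomputable def kumS (σ : ↥L.fixingSubgroup) :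
    ↥(selS Sg (↥L) p) →* Multiplicative (ZMod p) where
  toFun d := Multiplicative.ofAdd (kumLog hζ (σ : GQ) (selCoe Sg L p d))
  map_one' := by
    have h := kumLog_pow_arg hζ hζL σ.2 (one_ne_zero) L.one_mem
    rw [one_pow] at h
    rw [selCoe_one, h]
    rfl
  map_mul' d d' := by
    rw [selCoe_mul, kumLog_mul hζ hζL σ.2 (selCoe_ne_zero Sg L p d) (selCoe_ne_zero Sg L p d')
      (selCoe_mem Sg L p d) (selCoe_mem Sg L p d')]
    rfl

theorem selPow_le_ker (σ : ↥L.fixingSubgroup) :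
    selPow Sg L p ≤ (kumS Sg L p hζ hζL σ).ker := by
  intro d hd
  rw [Subgroup.mem_subgroupOf] at hd
  obtain ⟨y, hy⟩ := hd
  rw [MonoidHom.mem_ker]
  have h1 : selCoe Sg L p d = (((y : ↥L)) : Qbar) ^ p := by
    unfold selCoe
    rw [← hy]
    rfl
  have h2 : (((y : ↥L)) : Qbar) ≠ 0 := fun h => y.ne_zero (Subtype.ext h)
  show Multiplicative.ofAdd (kumLog hζ (σ : GQ) (selCoe Sg L p d)) = 1
  rw [h1, kumLog_pow_arg hζ hζL σ.2 h2 (y : ↥L).2]
  rfl

/-- The Kummer homomorphism on `Sel / p`. -/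
noncomputable def kumQ (σ : ↥L.fixingSubgroup) : SelQ Sg L p →* Multiplicative (ZMod p) :=
  QuotientGroup.lift _ (kumS Sg L p hζ hζL σ) (selPow_le_ker Sg L p hζ hζL σ)

/-- **The Kummer pairing**: `σ ∈ G_L ↦ ([d] ↦ log_ζ (σ(d^{1/p}) / d^{1/p})) ∈ (Sel/p)^*`. -/
noncomputable def kumLin (σ : ↥L.fixingSubgroup) : Module.Dual (ZMod p) (SelV Sg L p) :=
  (MonoidHom.toAdditiveLeft (kumQ Sg L p hζ hζL σ)).toZModLinearMap p

theorem kumLin_selMk (σ : ↥L.fixingSubgroup) (d : ↥(selS Sg (↥L) p)) :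
    kumLin Sg L p hζ hζL σ (selMk Sg L p d) = kumLog hζ (σ : GQ) (selCoe Sg L p d) := rfl

/-- Additivity in `σ`. -/
theorem kumLin_mul (σ τ : ↥L.fixingSubgroup) :
    kumLin Sg L p hζ hζL (σ * τ) = kumLin Sg L p hζ hζL σ + kumLin Sg L p hζ hζL τ := by
  apply LinearMap.ext
  intro x
  obtain ⟨d, rfl⟩ := selMk_surjective Sg L p x
  rw [LinearMap.add_apply, kumLin_selMk, kumLin_selMk, kumLin_selMk, Subgroup.coe_mul,
    kumLog_mul_left hζ hζL σ.2 τ.2 (selCoe_ne_zero Sg L p d) (selCoe_mem Sg L p d)]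

/-- `G_L` is normalised by `stabL L`. -/
theorem conj_mem_fixingSubgroup (g : ↥(stabL L)) (σ : ↥L.fixingSubgroup) :
    (g : GQ) * (σ : GQ) * (g : GQ)⁻¹ ∈ L.fixingSubgroup := by
  rw [IntermediateField.mem_fixingSubgroup_iff]
  intro x hx
  have h1 : ((g⁻¹ : ↥(stabL L)) : GQ) x ∈ L := apply_mem L g⁻¹ hx
  rw [Subgroup.coe_inv] at h1
  rw [AlgEquiv.mul_apply, AlgEquiv.mul_apply, apply_of_mem σ.2 h1, ← AlgEquiv.mul_apply,
    mul_inv_cancel, AlgEquiv.one_apply]

/-- **Equivariance**: `kumLin (g σ g⁻¹) = ω(g) • kumLin σ ∘ selRep g⁻¹`. -/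
theorem kumLin_conj (g : ↥(stabL L)) (σ : ↥L.fixingSubgroup) :
    kumLin Sg L p hζ hζL ⟨_, conj_mem_fixingSubgroup L g σ⟩ =
      ((cycloChar p (g : GQ) : (ZMod p)ˣ) : ZMod p) •
        (kumLin Sg L p hζ hζL σ ∘ₗ selRep Sg L p g⁻¹) := by
  apply LinearMap.ext
  intro x
  obtain ⟨d, rfl⟩ := selMk_surjective Sg L p x
  rw [LinearMap.smul_apply, LinearMap.comp_apply, selRep_selMk, kumLin_selMk, kumLin_selMk,
    selCoe_selSmul, Subgroup.coe_inv, smul_eq_mul]
  have h1 : (g : GQ)⁻¹ (selCoe Sg L p d) ∈ L := by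
    have := apply_mem L g⁻¹ (selCoe_mem Sg L p d)
    rwa [Subgroup.coe_inv] at this
  exact kumLog_conj hζ hζL (g : GQ) σ.2 (selCoe_ne_zero Sg L p d) h1

/-- If `σ` fixes the chosen roots of all Selmer elements, `kumLin σ = 0`. -/
theorem kumLin_eq_zero_of_fixes (σ : ↥L.fixingSubgroup)
    (h : ∀ d : ↥(selS Sg (↥L) p), (σ : GQ) (root p (selCoe Sg L p d)) = root p (selCoe Sg L p d)) :
    kumLin Sg L p hζ hζL σ = 0 := by
  apply LinearMap.ext
  intro x
  obtain ⟨d, rfl⟩ := selMk_surjective Sg L p x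
  rw [kumLin_selMk, LinearMap.zero_apply]
  exact kumLog_eq_zero_of_fixed hζ (selCoe_ne_zero Sg L p d) (h d)

/-- **Nondegeneracy**: an element of `Sel / p` killed by all `kumLin σ` is zero. -/
theorem eq_zero_of_forall_kumLin (x : SelV Sg L p)
    (h : ∀ σ : ↥L.fixingSubgroup, kumLin Sg L p hζ hζL σ x = 0) : x = 0 := by
  obtain ⟨d, rfl⟩ := selMk_surjective Sg L p x
  have h1 : root p (selCoe Sg L p d) ∈ L :=
    root_mem_of_kumLog_eq_zero hζ (selCoe_ne_zero Sg L p d) (selCoe_mem Sg L p d)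
      (fun σ hσ => h ⟨σ, hσ⟩)
  rw [selMk_eq_zero_iff]
  have h2 : (⟨root p (selCoe Sg L p d), h1⟩ : ↥L) ≠ 0 := by
    intro h0
    exact root_ne_zero p (selCoe_ne_zero Sg L p d) (congrArg Subtype.val h0)
  refine ⟨Units.mk0 _ h2, ?_⟩
  apply Units.ext
  apply Subtype.ext
  show (root p (selCoe Sg L p d)) ^ p = selCoe Sg L p d
  exact root_pow p _

/-- **The Kummer functionals span the dual of `Sel / p`.** -/
theorem span_kumLin :
    Submodule.span (ZMod p) (Set.range (kumLin Sg L p hζ hζL)) = ⊤ := by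
  set W : Submodule (ZMod p) (Module.Dual (ZMod p) (SelV Sg L p)) :=
    Submodule.span (ZMod p) (Set.range (kumLin Sg L p hζ hζL)) with hW
  have h1 : W.dualCoannihilator = ⊥ := by
    rw [eq_bot_iff]
    intro x hx
    rw [Submodule.mem_dualCoannihilator] at hx
    rw [Submodule.mem_bot]
    apply eq_zero_of_forall_kumLin Sg L p hζ hζL x
    intro σ
    exact hx _ (Submodule.subset_span ⟨σ, rfl⟩)
  have h2 := Subspace.dualCoannihilator_dualAnnihilator_eq (W := W)
  rw [h1, Submodule.dualAnnihilator_bot] at h2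
  exact h2.symm

end Kum

end Fermat.Agent.ES.T56.KumSel19
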