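/-
Programme T (S56), chapter GW-D, brick (K1b) of `T56_BASE28.md` (helper19), file 3 of 3:
**the Kummer lower bound `h¹(G_S, Coind Y) ≥ ⟨Sel⟩`** for a base datum `D : GWIface21.BaseDatum Sg`.

`GK = ↥D.K.fixingSubgroup`, `N = G_L ∩ G_K ⊴ GK` (`D.normal`), `Sel/p = KumSel19.SelV Sg D.L p`
with the action `selRepK D` of `GK` (through `KumSel19.stabL D.L`).

* `KumHom D` : the `ZMod p`-space of the linear maps `Φ : (Sel/p)^* → D.Y` with
  `Φ (ω(g) • λ ∘ selRepK D g⁻¹) = D.Y.ρ g (Φ λ)` for all `g : GK`, `λ`  (`ω = cycloChar p`):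
  this is `Hom_Δ((Sel/p)^∨(1), Y)` of `T56_BASE28.md` §0, its dimension is the twist number `⟨Sel⟩`;
* **`finrank_kumHom_le`** : `finrank (KumHom D) ≤ h1S p Sg D.rep`  (`pPrime p ∈ Sg`, finite-dimensionality
  of the level `H¹` of `GK` as a hypothesis).

Route: `Φ ↦ Φ ∘ kumLin` is an injective linear map into helper3's `TransferLevel3.EqHomV N V D.Y`
(`V = G_M ∩ G_K`, `M = KumFieldUnram3.kumField D.L p (selS)` the Kummer field, unramified outside `Sg`),
then `TransferLevel3.finrank_eqHomV_le` and `BaseShapiro22.h1S_rep`.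
-/
import Mathlib
import Fermat.Agent.ES.T56.GWIface21
import Fermat.Agent.ES.T56.BaseShapiro22
import Fermat.Agent.ES.T56.TransferLevel3
import Fermat.Agent.ES.T56.KumFieldUnram3
import Fermat.Agent.ES.T56.KumSel19

set_option autoImplicit false
set_option linter.unusedSectionVars false
set_option linter.style.haveILetI false

open ExtCitation Module

namespace Fermat.Agent.ES.T56.KumLower19

open Fermat.Agent.PT.GLOB.RecKummer15 Fermat.Agent.PT.GLOB.KummerPairing19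
  Fermat.Agent.ES.T56.KumSel19 Fermat.Agent.ES.T56.GWIface21
  Fermat.Agent.ES.T56.BaseShapiro22 Fermat.Agent.ES.T56.TransferExtRep3
  Fermat.Agent.ES.T56.TransferLevel3 Fermat.Agent.ES.T56.KumFieldUnram3

open Fermat.Agent.ES.T56.KumRoot19 hiding GQ

local notation "Qbar" => AlgebraicClosure ℚ

local instance isAlgebraicQbarL19 : Algebra.IsAlgebraic ℚ Qbar := AlgebraicClosure.isAlgebraic ℚ

local instance isAlgClosureQbarL19 : IsAlgClosure ℚ Qbar := ⟨inferInstance, inferInstance⟩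

local instance isGaloisQbarL19 : IsGalois ℚ Qbar := IsAlgClosure.isGalois ℚ Qbar

variable {p : ℕ} [hp : Fact p.Prime] {Sg : Finset Nat.Primes} (D : BaseDatum (p := p) Sg)

/-- `D.L` is a number field. -/
instance instNumberFieldL : NumberField ↥D.L where
  to_charZero := inferInstance
  to_finiteDimensional := D.unram.1

/-- `G_L ≤ G_K`. -/
theorem fixingSubgroup_L_le : D.L.fixingSubgroup ≤ D.K.fixingSubgroup :=
  IntermediateField.fixingSubgroup_antitone D.le

/-- Conjugation by `G_K` preserves `G_L`. -/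
theorem conj_mem_L {g σ : GQ} (hg : g ∈ D.K.fixingSubgroup) (hσ : σ ∈ D.L.fixingSubgroup) :
    g * σ * g⁻¹ ∈ D.L.fixingSubgroup := by
  have hn := D.normal
  have h1 := hn.conj_mem ⟨σ, fixingSubgroup_L_le D hσ⟩ (Subgroup.mem_subgroupOf.2 hσ) ⟨g, hg⟩
  exact Subgroup.mem_subgroupOf.1 h1

/-- `G_K` maps `L` into itself. -/
theorem apply_mem_L {g : GQ} (hg : g ∈ D.K.fixingSubgroup) {x : Qbar} (hx : x ∈ D.L) :
    g x ∈ D.L := by
  rw [← InfiniteGalois.fixedField_fixingSubgroup D.L, IntermediateField.mem_fixedField_iff]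
  intro σ hσ
  have h1 := conj_mem_L D (D.K.fixingSubgroup.inv_mem hg) hσ
  rw [inv_inv] at h1
  have h2 := apply_of_mem h1 hx
  rw [AlgEquiv.mul_apply, AlgEquiv.mul_apply] at h2
  have h3 := congrArg g h2
  rwa [← AlgEquiv.mul_apply g g⁻¹, mul_inv_cancel, AlgEquiv.one_apply] at h3

/-- `G_K` stabilises `L`. -/
theorem fixingSubgroup_K_le_stabL : D.K.fixingSubgroup ≤ stabL D.L := by
  intro g hg x
  constructor
  · exact apply_mem_L D hg
  · intro hx
    have h1 := apply_mem_L D (D.K.fixingSubgroup.inv_mem hg) hx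
    rwa [← AlgEquiv.mul_apply, inv_mul_cancel, AlgEquiv.one_apply] at h1

/-- `G_K → stabL L`. -/
noncomputable def toStab : ↥D.K.fixingSubgroup →* ↥(stabL D.L) :=
  Subgroup.inclusion (fixingSubgroup_K_le_stabL D)

theorem coe_toStab (g : ↥D.K.fixingSubgroup) : ((toStab D g : ↥(stabL D.L)) : GQ) = (g : GQ) := rfl

/-- **The representation of `G_K` on `Sel / p`.** -/
noncomputable def selRepK : Representation (ZMod p) ↥D.K.fixingSubgroup (SelV Sg D.L p) :=
  (selRep Sg D.L p).comp (toStab D)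

theorem selRepK_apply (g : ↥D.K.fixingSubgroup) :
    selRepK D g = selRep Sg D.L p (toStab D g) := rfl

/-- `G_L` acts trivially on `Sel / p`. -/
theorem selRepK_of_mem (g : ↥D.K.fixingSubgroup) (hg : (g : GQ) ∈ D.L.fixingSubgroup) :
    selRepK D g = 1 :=
  selRep_of_mem_fixingSubgroup Sg D.L p (toStab D g) hg

/-- **`Hom_Δ((Sel/p)^∨(1), Y)`**: the linear maps `Φ : (Sel/p)^* → Y` with
`Φ (ω(g) • λ ∘ selRepK g⁻¹) = ρ_Y(g) (Φ λ)`. -/
def KumHom : Submodule (ZMod p) (Module.Dual (ZMod p) (SelV Sg D.L p) →ₗ[ZMod p] D.Y) where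
  carrier := {Φ | ∀ (g : ↥D.K.fixingSubgroup) (l : Module.Dual (ZMod p) (SelV Sg D.L p)),
    Φ (((cycloChar p (g : GQ) : (ZMod p)ˣ) : ZMod p) • (l ∘ₗ selRepK D g⁻¹)) = D.Y.ρ g (Φ l)}
  add_mem' := by
    intro Φ Ψ hΦ hΨ g l
    rw [LinearMap.add_apply, LinearMap.add_apply, hΦ g l, hΨ g l, map_add]
  zero_mem' := by
    intro g l
    rw [LinearMap.zero_apply, LinearMap.zero_apply, map_zero]
  smul_mem' := by
    intro c Φ hΦ g l
    rw [LinearMap.smul_apply, LinearMap.smul_apply, hΦ g l, map_smul]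

theorem mem_KumHom (Φ : Module.Dual (ZMod p) (SelV Sg D.L p) →ₗ[ZMod p] D.Y) :
    Φ ∈ KumHom D ↔ ∀ (g : ↥D.K.fixingSubgroup) (l : Module.Dual (ZMod p) (SelV Sg D.L p)),
      Φ (((cycloChar p (g : GQ) : (ZMod p)ˣ) : ZMod p) • (l ∘ₗ selRepK D g⁻¹)) = D.Y.ρ g (Φ l) :=
  Iff.rfl

/-! ### The normal subgroup `N = G_L ∩ G_K` and the level `V = G_M ∩ G_K` -/

/-- `N = G_L` as a subgroup of `G_K`. -/
noncomputable abbrev subN : Subgroup ↥D.K.fixingSubgroup := D.L.fixingSubgroup.subgroupOf D.K.fixingSubgroup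

instance instNormalSubN : (subN D).Normal := D.normal

theorem coe_mem_L (σ : ↥(subN D)) : ((σ : ↥D.K.fixingSubgroup) : GQ) ∈ D.L.fixingSubgroup :=
  Subgroup.mem_subgroupOf.1 σ.2

/-- An element of `N` as an element of `G_L`. -/
noncomputable def toL (σ : ↥(subN D)) : ↥D.L.fixingSubgroup := ⟨((σ : ↥D.K.fixingSubgroup) : GQ), coe_mem_L D σ⟩

theorem toL_mul (a b : ↥(subN D)) : toL D (a * b) = toL D a * toL D b := rfl

/-- The Kummer field of all Selmer elements of `L`. -/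
noncomputable abbrev kumLevel : IntermediateField ℚ Qbar := kumField D.L p (selS Sg (↥D.L) p)

/-- The level `V = G_M ∩ G_K`. -/
noncomputable abbrev subV : Subgroup ↥D.K.fixingSubgroup :=
  (kumLevel D).fixingSubgroup.comap D.K.fixingSubgroup.subtype

theorem subV_le_subN : subV D ≤ subN D := by
  intro g hg
  rw [Subgroup.mem_subgroupOf]
  exact IntermediateField.fixingSubgroup_antitone (le_kumField D.L p _) hg

/-- `V` is a level of `basisK Sg D.K`. -/
theorem subV_mem_basisK (hpS : pPrime p ∈ Sg) : subV D ∈ (basisK Sg D.K).sets := by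
  obtain ⟨ζ, hζL, hζ⟩ := D.zeta
  have hζ' : IsPrimitiveRoot (⟨ζ, hζL⟩ : ↥D.L) p := by
    have h1 : IsPrimitiveRoot ((algebraMap (↥D.L) Qbar) ⟨ζ, hζL⟩) p := hζ
    exact IsPrimitiveRoot.of_map_of_injective (f := algebraMap (↥D.L) Qbar) h1
      (algebraMap (↥D.L) Qbar).injective
  exact ⟨kumLevel D, kumField_isUnramifiedOutside Sg D.L p _ D.unram ⟨pPrime p, hpS, rfl⟩ hζ'
    le_rfl, rfl⟩

/-- An element of `V` fixes the chosen `p`-th roots of the Selmer elements. -/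
theorem apply_root_of_mem_subV (v : ↥(subN D)) (hv : (v : ↥D.K.fixingSubgroup) ∈ subV D)
    (d : ↥(selS Sg (↥D.L) p)) :
    ((toL D v : ↥D.L.fixingSubgroup) : GQ) (root p (selCoe Sg D.L p d)) =
      root p (selCoe Sg D.L p d) := by
  have h1 : root p (selCoe Sg D.L p d) ∈ kumLevel D :=
    mem_kumField_of_pow_eq D.L p _ d.2 (root_pow p _)
  exact (IntermediateField.mem_fixingSubgroup_iff _ _).1 hv _ h1

/-! ### The map `Φ ↦ Φ ∘ kumLin` -/

section Map

variable {ζ : Qbar} (hζ : IsPrimitiveRoot ζ p) (hζL : ζ ∈ D.L)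

/-- `χ_Φ = Φ ∘ kumLin : N → Y`. -/
noncomputable def chi (Φ : Module.Dual (ZMod p) (SelV Sg D.L p) →ₗ[ZMod p] D.Y) :
    ↥(subN D) → D.Y :=
  fun σ => Φ (kumLin Sg D.L p hζ hζL (toL D σ))

theorem chi_mem_EqHom {Φ : Module.Dual (ZMod p) (SelV Sg D.L p) →ₗ[ZMod p] D.Y}
    (hΦ : Φ ∈ KumHom D) : chi D hζ hζL Φ ∈ EqHom (subN D) D.Y := by
  refine ⟨fun a b => ?_, fun g a => ?_⟩
  · show Φ (kumLin Sg D.L p hζ hζL (toL D (a * b))) = _
    rw [toL_mul, kumLin_mul, map_add]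
    rfl
  · have h1 := kumLin_conj Sg D.L p hζ hζL (toStab D g) (toL D a)
    have h2 : (toL D ⟨g * a * g⁻¹, (instNormalSubN D).conj_mem a a.2 g⟩ : ↥D.L.fixingSubgroup) =
        ⟨_, conj_mem_fixingSubgroup D.L (toStab D g) (toL D a)⟩ := rfl
    show Φ (kumLin Sg D.L p hζ hζL (toL D ⟨g * a * g⁻¹, _⟩)) = _
    rw [h2, h1]
    have h3 := hΦ g (kumLin Sg D.L p hζ hζL (toL D a))
    rw [selRepK_apply, map_inv] at h3
    exact h3

theorem chi_mem_EqHomV {Φ : Module.Dual (ZMod p) (SelV Sg D.L p) →ₗ[ZMod p] D.Y}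
    (hΦ : Φ ∈ KumHom D) :
    (⟨chi D hζ hζL Φ, chi_mem_EqHom D hζ hζL hΦ⟩ : ↥(EqHom (subN D) D.Y)) ∈
      EqHomV (subN D) (subV D) D.Y := by
  intro v hv
  show Φ (kumLin Sg D.L p hζ hζL (toL D v)) = 0
  rw [kumLin_eq_zero_of_fixes Sg D.L p hζ hζL (toL D v) (apply_root_of_mem_subV D v hv), map_zero]

/-- **`Φ ↦ Φ ∘ kumLin`**, as a linear map `KumHom D → EqHomV N V Y`. -/
noncomputable def toEqHomV : ↥(KumHom D) →ₗ[ZMod p] ↥(EqHomV (subN D) (subV D) D.Y) where
  toFun Φ := ⟨⟨chi D hζ hζL Φ.1, chi_mem_EqHom D hζ hζL Φ.2⟩, chi_mem_EqHomV D hζ hζL Φ.2⟩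
  map_add' Φ Ψ := by
    apply Subtype.ext
    apply Subtype.ext
    funext σ
    exact LinearMap.add_apply _ _ _
  map_smul' c Φ := by
    apply Subtype.ext
    apply Subtype.ext
    funext σ
    exact LinearMap.smul_apply _ _ _

theorem toEqHomV_injective : Function.Injective (toEqHomV D hζ hζL) := by
  rw [injective_iff_map_eq_zero]
  intro Φ h
  apply Subtype.ext
  show Φ.1 = 0
  have h1 : ∀ σ : ↥D.L.fixingSubgroup, Φ.1 (kumLin Sg D.L p hζ hζL σ) = 0 := by
    intro σ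
    have hσK : (σ : GQ) ∈ D.K.fixingSubgroup := fixingSubgroup_L_le D σ.2
    have h2 := congrFun (congrArg (fun x : ↥(EqHomV (subN D) (subV D) D.Y) =>
      ((x : ↥(EqHom (subN D) D.Y)) : ↥(subN D) → D.Y)) h)
      ⟨⟨(σ : GQ), hσK⟩, Subgroup.mem_subgroupOf.2 σ.2⟩
    exact h2
  apply LinearMap.ext
  intro l
  have hl : l ∈ Submodule.span (ZMod p) (Set.range (kumLin Sg D.L p hζ hζL)) := by
    rw [span_kumLin]
    exact Submodule.mem_top
  rw [LinearMap.zero_apply]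
  induction hl using Submodule.span_induction with
  | mem x hx =>
    obtain ⟨σ, rfl⟩ := hx
    exact h1 σ
  | zero => exact map_zero _
  | add x y _ _ hx hy => rw [map_add, hx, hy, add_zero]
  | smul c x _ hx => rw [map_smul, hx, smul_zero]

end Map

/-! ### The lower bound -/

/-- **(K1) The Kummer lower bound**: `⟨Sel⟩ = dim Hom_Δ((Sel/p)^∨(1), Y) ≤ h¹(G_S, Coind Y)`. -/
theorem finrank_kumHom_le (hpS : pPrime p ∈ Sg)
    [FiniteDimensional (ZMod p) (Fermat.Agent.PT.PRO.LevelCoh28.H1 (basisK Sg D.K) D.Y)] :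
    FiniteDimensional (ZMod p) ↥(KumHom D) ∧
      finrank (ZMod p) ↥(KumHom D) ≤ h1S p Sg D.rep := by
  obtain ⟨ζ, hζL, hζ⟩ := D.zeta
  -- the index of `N` is finite and invertible in `ZMod p`
  have hidx : (subN D).index ≠ 0 := by
    intro h0
    apply D.prime_to_p
    show p ∣ (subN D).index
    rw [h0]
    exact dvd_zero p
  haveI : (subN D).FiniteIndex := ⟨hidx⟩
  haveI : Finite (↥D.K.fixingSubgroup ⧸ subN D) := Subgroup.finite_quotient_of_finiteIndex
  letI : Fintype (↥D.K.fixingSubgroup ⧸ subN D) := Fintype.ofFinite _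
  have hcard : Fintype.card (↥D.K.fixingSubgroup ⧸ subN D) = (subN D).index := by
    rw [Subgroup.index_eq_card, Nat.card_eq_fintype_card]
  have hne : ((Fintype.card (↥D.K.fixingSubgroup ⧸ subN D) : ℕ) : ZMod p) ≠ 0 := by
    rw [hcard, Ne, ZMod.natCast_eq_zero_iff]
    exact D.prime_to_p
  obtain ⟨u, hu⟩ := exists_inv_card (subN D) hne
  have htriv : ∀ a ∈ subN D, D.Y.ρ a = 1 := fun a ha => D.triv a (Subgroup.mem_subgroupOf.1 ha)
  obtain ⟨hfd, hle⟩ := finrank_eqHomV_le (subN D) (subV D) D.Y (basisK Sg D.K) u hu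
    (subV_mem_basisK D hpS) (subV_le_subN D) htriv
  have hinj := toEqHomV_injective D hζ hζL
  refine ⟨FiniteDimensional.of_injective _ hinj, ?_⟩
  rw [h1S_rep]
  exact (LinearMap.finrank_le_finrank_of_injective hinj).trans hle

end Fermat.Agent.ES.T56.KumLower19
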