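/-
Programme T (S56), chapter GW-D, (T4) of `T56_BASE28.md` (helper19):
**FORM 1 = FORM 2 of the twist numbers** of `TwistNum28`, for a finite group `Δ` of order prime to `p`.

Abstract part (`k` a field, `Δ` a finite group with `#Δ` invertible in `k`, `M`, `Y` finite-dimensional
representations `σ`, `ρ` of `Δ`, `ω : Δ →* kˣ`):

* `eqHom σ ω ρ ≤ (M →ₗ[k] Y)` : the `Φ` with `ρ δ (Φ m) = ω δ • Φ (σ δ m)`  (`= Hom_Δ(M(ω), Y)`);
* `avg σ ω ρ u Φ = u • ∑ δ, ω δ • ρ δ⁻¹ ∘ Φ ∘ σ δ ∈ eqHom σ ω ρ`;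
* `trace_comp_avg` : `tr (Φ ∘ avg b) = tr (Φ ∘ b)` for `Φ ∈ eqHom σ ω ρ`, `b : Y →ₗ M` (averaged on the
  `eqHom ρ ω⁻¹ σ` side);
* **`finrank_eqHom_eq`** : `dim eqHom σ ω ρ = dim eqHom ρ ω⁻¹ σ`  (the trace pairing
  `(Φ, b) ↦ tr (Φ ∘ b)` is perfect on the invariants: `Hom_Δ(M(ω), Y)` and `Hom_Δ(Y, M(ω))` have the same
  dimension — semisimplicity in disguise).

Concrete part (`TwistNum28`'s `τ : Representation R Δ A`, `ω : Δ →* (ZMod p)ˣ`,
`ρ : Representation (ZMod p) Δ Y`):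

* `dualRep τ : Representation (ZMod p) Δ (A →+ ZMod p)`, `dualRep τ δ l = l ∘ τ δ⁻¹`;
* `twHom τ ω ρ = eqHom (dualRep τ) ω ρ` (`twHom_eq`), `twAddEquiv : twAdd τ ω ρ ≃ₗ eqHom ρ ω⁻¹ (dualRep τ)`;
* **`twNum₁_eq_twNum`** (T4) : `twNum₁ τ ω ρ = twNum τ ω ρ`
  (`[Finite Δ]`, `¬ p ∣ Nat.card Δ`, `[Module.Finite (ZMod p) (A →+ ZMod p)]` — e.g. `[Finite A]`,
  `finite_addHom_of_finite` — and `[FiniteDimensional (ZMod p) Y]`);
* `twHomCongr`, **`twNum₁_congr`** : invariance of FORM 1 under an equivariant additive isomorphism.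

Fully proved; imports Mathlib and `TwistNum28` only.
-/
import Mathlib
import Fermat.Agent.ES.T56.TwistNum28

set_option autoImplicit false
set_option linter.unusedSectionVars false

open Module

namespace Fermat.Agent.ES.T56.TwistDual19

/-! ### Abstract part -/

section Abstract

variable {k : Type*} [Field k] {Δ : Type*} [Group Δ]
variable {M Y : Type*} [AddCommGroup M] [Module k M] [AddCommGroup Y] [Module k Y]

/-- `Hom_Δ(M(ω), Y)`: the linear maps `Φ : M → Y` with `ρ δ (Φ m) = ω δ • Φ (σ δ m)`. -/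
def eqHom (σ : Representation k Δ M) (ω : Δ →* kˣ) (ρ : Representation k Δ Y) :
    Submodule k (M →ₗ[k] Y) where
  carrier := {Φ | ∀ (δ : Δ) (m : M), ρ δ (Φ m) = ((ω δ : kˣ) : k) • Φ (σ δ m)}
  add_mem' := by
    intro Φ Ψ hΦ hΨ δ m
    rw [LinearMap.add_apply, LinearMap.add_apply, map_add, hΦ δ m, hΨ δ m, smul_add]
  zero_mem' := by
    intro δ m
    rw [LinearMap.zero_apply, LinearMap.zero_apply, map_zero, smul_zero]
  smul_mem' := by
    intro c Φ hΦ δ m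
    rw [LinearMap.smul_apply, LinearMap.smul_apply, map_smul, hΦ δ m, smul_comm]

theorem mem_eqHom {σ : Representation k Δ M} {ω : Δ →* kˣ} {ρ : Representation k Δ Y}
    {Φ : M →ₗ[k] Y} :
    Φ ∈ eqHom σ ω ρ ↔ ∀ (δ : Δ) (m : M), ρ δ (Φ m) = ((ω δ : kˣ) : k) • Φ (σ δ m) := Iff.rfl

variable (σ : Representation k Δ M) (ω : Δ →* kˣ) (ρ : Representation k Δ Y)

/-- The twisted conjugate `ω δ • ρ δ⁻¹ ∘ Φ ∘ σ δ`. -/
def conj (δ : Δ) (Φ : M →ₗ[k] Y) : M →ₗ[k] Y :=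
  ((ω δ : kˣ) : k) • (ρ δ⁻¹ ∘ₗ Φ ∘ₗ σ δ)

theorem conj_apply (δ : Δ) (Φ : M →ₗ[k] Y) (m : M) :
    conj σ ω ρ δ Φ m = ((ω δ : kˣ) : k) • ρ δ⁻¹ (Φ (σ δ m)) := rfl

/-- The averaging operator. -/
def avg [Fintype Δ] (u : k) (Φ : M →ₗ[k] Y) : M →ₗ[k] Y :=
  u • ∑ δ : Δ, conj σ ω ρ δ Φ

theorem avg_apply [Fintype Δ] (u : k) (Φ : M →ₗ[k] Y) (m : M) :
    avg σ ω ρ u Φ m = u • ∑ δ : Δ, ((ω δ : kˣ) : k) • ρ δ⁻¹ (Φ (σ δ m)) := by
  unfold avg
  rw [LinearMap.smul_apply, LinearMap.sum_apply]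
  rfl

theorem avg_mem [Fintype Δ] (u : k) (Φ : M →ₗ[k] Y) : avg σ ω ρ u Φ ∈ eqHom σ ω ρ := by
  intro δ₀ m
  have key : ∑ δ : Δ, ρ δ₀ (((ω δ : kˣ) : k) • ρ δ⁻¹ (Φ (σ δ m))) =
      ((ω δ₀ : kˣ) : k) • ∑ δ : Δ, ((ω δ : kˣ) : k) • ρ δ⁻¹ (Φ (σ δ (σ δ₀ m))) := by
    rw [Finset.smul_sum]
    refine Fintype.sum_equiv (Equiv.mulRight δ₀⁻¹)
      (fun δ => ρ δ₀ (((ω δ : kˣ) : k) • ρ δ⁻¹ (Φ (σ δ m))))
      (fun δ => ((ω δ₀ : kˣ) : k) • ((ω δ : kˣ) : k) • ρ δ⁻¹ (Φ (σ δ (σ δ₀ m)))) (fun δ => ?_)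
    show ρ δ₀ (((ω δ : kˣ) : k) • ρ δ⁻¹ (Φ (σ δ m))) =
      ((ω δ₀ : kˣ) : k) • ((ω (δ * δ₀⁻¹) : kˣ) : k) • ρ (δ * δ₀⁻¹)⁻¹ (Φ (σ (δ * δ₀⁻¹) (σ δ₀ m)))
    have h1 : ρ δ₀ (ρ δ⁻¹ (Φ (σ δ m))) = ρ (δ₀ * δ⁻¹) (Φ (σ δ m)) := by
      rw [map_mul]
      rfl
    have h2 : σ (δ * δ₀⁻¹) (σ δ₀ m) = σ δ m := by
      rw [← Module.End.mul_apply, ← map_mul, inv_mul_cancel_right]
    rw [map_smul, smul_smul, ← Units.val_mul, mul_comm (ω δ₀), ← map_mul, inv_mul_cancel_right,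
      h1, h2, mul_inv_rev, inv_inv]
  rw [avg_apply, avg_apply, map_smul, map_sum, key, smul_comm]

/-- For `Φ ∈ eqHom σ ω ρ`: `Φ ∘ (ω δ)⁻¹ • σ δ⁻¹ ∘ b ∘ ρ δ = ρ δ⁻¹ ∘ (Φ ∘ b) ∘ ρ δ`. -/
theorem comp_conj {Φ : M →ₗ[k] Y} (hΦ : Φ ∈ eqHom σ ω ρ) (δ : Δ) (b : Y →ₗ[k] M) :
    Φ ∘ₗ conj ρ ω⁻¹ σ δ b = ρ δ⁻¹ * ((Φ ∘ₗ b) * ρ δ) := by
  apply LinearMap.ext
  intro y
  rw [LinearMap.comp_apply, conj_apply, map_smul]
  have h1 := hΦ δ⁻¹ (b (ρ δ y))
  show _ = ρ δ⁻¹ (Φ (b (ρ δ y)))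
  rw [h1, MonoidHom.inv_apply, map_inv ω δ]

theorem trace_comp_conj {Φ : M →ₗ[k] Y} (hΦ : Φ ∈ eqHom σ ω ρ) (δ : Δ) (b : Y →ₗ[k] M) :
    LinearMap.trace k Y (Φ ∘ₗ conj ρ ω⁻¹ σ δ b) = LinearMap.trace k Y (Φ ∘ₗ b) := by
  rw [comp_conj σ ω ρ hΦ, LinearMap.trace_mul_comm, mul_assoc, ← map_mul, mul_inv_cancel,
    map_one, mul_one]

/-- Averaging on the other side does not change the trace pairing with an invariant element. -/
theorem trace_comp_avg [Fintype Δ] {u : k} (hu : u * (Fintype.card Δ : k) = 1) {Φ : M →ₗ[k] Y}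
    (hΦ : Φ ∈ eqHom σ ω ρ) (b : Y →ₗ[k] M) :
    LinearMap.trace k Y (Φ ∘ₗ avg ρ ω⁻¹ σ u b) = LinearMap.trace k Y (Φ ∘ₗ b) := by
  have h1 : Φ ∘ₗ (∑ δ : Δ, conj ρ ω⁻¹ σ δ b) = ∑ δ : Δ, Φ ∘ₗ conj ρ ω⁻¹ σ δ b :=
    map_sum (LinearMap.llcomp k Y M Y Φ) _ _
  unfold avg
  rw [LinearMap.comp_smul, map_smul, h1, map_sum,
    Finset.sum_congr rfl (fun δ _ => trace_comp_conj σ ω ρ hΦ δ b), Finset.sum_const,
    Finset.card_univ, nsmul_eq_mul, smul_eq_mul, ← mul_assoc, hu, one_mul]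

/-- The trace pairing is nondegenerate on the left. -/
theorem eq_zero_of_trace_comp [FiniteDimensional k Y] {Φ : M →ₗ[k] Y}
    (h : ∀ b : Y →ₗ[k] M, LinearMap.trace k Y (Φ ∘ₗ b) = 0) : Φ = 0 := by
  apply LinearMap.ext
  intro m
  rw [LinearMap.zero_apply, ← forall_dual_apply_eq_zero_iff k]
  intro l
  have h1 := h (l.smulRight m)
  have h2 : Φ ∘ₗ l.smulRight m = l.smulRight (Φ m) := by
    apply LinearMap.ext
    intro y
    rw [LinearMap.comp_apply, LinearMap.smulRight_apply, LinearMap.smulRight_apply, map_smul]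
  rwa [h2, LinearMap.trace_smulRight] at h1

/-- The trace pairing `eqHom σ ω ρ × eqHom ρ ω⁻¹ σ → k`. -/
noncomputable def tracePair :
    ↥(eqHom σ ω ρ) →ₗ[k] Module.Dual k ↥(eqHom ρ ω⁻¹ σ) :=
  ((LinearMap.llcomp k Y M Y).compr₂ (LinearMap.trace k Y)).domRestrict₁₂
    (eqHom σ ω ρ) (eqHom ρ ω⁻¹ σ)

theorem tracePair_apply (Φ : ↥(eqHom σ ω ρ)) (b : ↥(eqHom ρ ω⁻¹ σ)) :
    tracePair σ ω ρ Φ b = LinearMap.trace k Y (Φ.1 ∘ₗ b.1) := rfl

theorem tracePair_injective [Finite Δ] [FiniteDimensional k Y] {u : k}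
    (hu : u * (Nat.card Δ : k) = 1) : Function.Injective (tracePair σ ω ρ) := by
  let _ : Fintype Δ := Fintype.ofFinite Δ
  rw [Nat.card_eq_fintype_card] at hu
  rw [injective_iff_map_eq_zero]
  intro Φ h
  apply Subtype.ext
  show Φ.1 = 0
  apply eq_zero_of_trace_comp
  intro b
  rw [← trace_comp_avg σ ω ρ hu Φ.2 b]
  exact LinearMap.congr_fun h ⟨avg ρ ω⁻¹ σ u b, avg_mem ρ ω⁻¹ σ u b⟩

theorem finrank_eqHom_le [Finite Δ] [FiniteDimensional k M] [FiniteDimensional k Y] {u : k}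
    (hu : u * (Nat.card Δ : k) = 1) :
    finrank k ↥(eqHom σ ω ρ) ≤ finrank k ↥(eqHom ρ ω⁻¹ σ) := by
  rw [← Subspace.dual_finrank_eq (K := k) (V := ↥(eqHom ρ ω⁻¹ σ))]
  exact LinearMap.finrank_le_finrank_of_injective (tracePair_injective σ ω ρ hu)

/-- **`dim Hom_Δ(M(ω), Y) = dim Hom_Δ(Y, M(ω))`** for `#Δ` invertible in `k`. -/
theorem finrank_eqHom_eq [Finite Δ] [FiniteDimensional k M] [FiniteDimensional k Y] {u : k}
    (hu : u * (Nat.card Δ : k) = 1) :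
    finrank k ↥(eqHom σ ω ρ) = finrank k ↥(eqHom ρ ω⁻¹ σ) := by
  refine le_antisymm (finrank_eqHom_le σ ω ρ hu) ?_
  have h := finrank_eqHom_le ρ ω⁻¹ σ hu
  have h1 : ω⁻¹⁻¹ = ω :=
    MonoidHom.ext fun δ => by rw [MonoidHom.inv_apply, MonoidHom.inv_apply, inv_inv]
  rwa [h1] at h

end Abstract

/-! ### Concrete part: `TwistNum28`'s FORM 1 and FORM 2 -/

section Concrete

open Fermat.Agent.ES.T56.TwistNum28

variable {p : ℕ} [Fact p.Prime]
variable {Δ : Type*} [Group Δ] {Y : Type*} [AddCommGroup Y] [Module (ZMod p) Y]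

section Defs

variable {R : Type*} [CommRing R] {A : Type*} [AddCommGroup A] [Module R A]

/-- The dual representation on `A →+ ZMod p`: `δ • l = l ∘ τ δ⁻¹`. -/
def dualRep (τ : Representation R Δ A) : Representation (ZMod p) Δ (A →+ ZMod p) where
  toFun δ :=
    { toFun := fun l => l.comp (τ δ⁻¹).toAddMonoidHom
      map_add' := fun _ _ => rfl
      map_smul' := fun _ _ => rfl }
  map_one' := by
    apply LinearMap.ext
    intro l
    apply AddMonoidHom.ext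
    intro x
    show l (τ 1⁻¹ x) = l x
    rw [inv_one, map_one]
    rfl
  map_mul' δ δ' := by
    apply LinearMap.ext
    intro l
    apply AddMonoidHom.ext
    intro x
    show l (τ (δ * δ')⁻¹ x) = l (τ δ'⁻¹ (τ δ⁻¹ x))
    rw [mul_inv_rev, map_mul]
    rfl

theorem dualRep_apply (τ : Representation R Δ A) (δ : Δ) (l : A →+ ZMod p) :
    dualRep (p := p) τ δ l = l.comp (τ δ⁻¹).toAddMonoidHom := rfl

theorem dualRep_apply_apply (τ : Representation R Δ A) (δ : Δ) (l : A →+ ZMod p) (x : A) :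
    dualRep (p := p) τ δ l x = l (τ δ⁻¹ x) := rfl

/-- FORM 1 is the abstract `eqHom` for the dual representation. -/
theorem twHom_eq (τ : Representation R Δ A) (ω : Δ →* (ZMod p)ˣ)
    (ρ : Representation (ZMod p) Δ Y) : twHom τ ω ρ = eqHom (dualRep (p := p) τ) ω ρ :=
  Submodule.ext fun _ => Iff.rfl

/-- Currying: `(A →+ Y^*) ≃ (Y →ₗ (A →+ 𝔽_p))`. -/
def curryEquiv : (A →+ Module.Dual (ZMod p) Y) ≃ₗ[ZMod p] (Y →ₗ[ZMod p] (A →+ ZMod p)) where
  toFun a :=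
    { toFun := fun y =>
        { toFun := fun x => a x y
          map_zero' := by rw [map_zero, LinearMap.zero_apply]
          map_add' := fun x x' => by rw [map_add, LinearMap.add_apply] }
      map_add' := fun y y' => by
        apply AddMonoidHom.ext
        intro x
        exact map_add (a x) y y'
      map_smul' := fun c y => by
        apply AddMonoidHom.ext
        intro x
        exact map_smul (a x) c y }
  invFun b :=
    { toFun := fun x =>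
        { toFun := fun y => b y x
          map_add' := fun y y' => by rw [map_add, AddMonoidHom.add_apply]
          map_smul' := fun c y => by rw [map_smul, AddMonoidHom.smul_apply, RingHom.id_apply] }
      map_zero' := by
        apply LinearMap.ext
        intro y
        exact map_zero (b y)
      map_add' := fun x x' => by
        apply LinearMap.ext
        intro y
        exact map_add (b y) x x' }
  map_add' _ _ := rfl
  map_smul' _ _ := rfl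
  left_inv _ := rfl
  right_inv _ := rfl

theorem curryEquiv_apply (a : A →+ Module.Dual (ZMod p) Y) (y : Y) (x : A) :
    curryEquiv (p := p) a y x = a x y := rfl

/-- FORM 2 is the abstract `eqHom` in the other direction, through currying. -/
theorem twAdd_eq_comap (τ : Representation R Δ A) (ω : Δ →* (ZMod p)ˣ)
    (ρ : Representation (ZMod p) Δ Y) :
    twAdd τ ω ρ =
      (eqHom ρ ω⁻¹ (dualRep (p := p) τ)).comap (curryEquiv (p := p) (Y := Y) (A := A)).toLinearMap := by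
  ext a
  rw [Submodule.mem_comap, mem_twAdd, mem_eqHom]
  constructor
  · intro h δ y
    apply AddMonoidHom.ext
    intro x
    have h1 := h δ (τ δ⁻¹ x) y
    have h2 : τ δ (τ δ⁻¹ x) = x := by
      rw [← Module.End.mul_apply, ← map_mul, mul_inv_cancel, map_one]
      rfl
    rw [h2] at h1
    show a (τ δ⁻¹ x) y = ((ω⁻¹ δ : (ZMod p)ˣ) : ZMod p) * a x (ρ δ y)
    rw [h1, MonoidHom.inv_apply, Units.inv_mul_cancel_left]
  · intro h δ x y
    have h1 := DFunLike.congr_fun (h δ y) (τ δ x)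
    have h2 : τ δ⁻¹ (τ δ x) = x := by
      rw [← Module.End.mul_apply, ← map_mul, inv_mul_cancel, map_one]
      rfl
    have h3 : a (τ δ⁻¹ (τ δ x)) y = ((ω⁻¹ δ : (ZMod p)ˣ) : ZMod p) * a (τ δ x) (ρ δ y) := h1
    rw [h2, MonoidHom.inv_apply] at h3
    rw [h3, Units.mul_inv_cancel_left]

/-- FORM 2 `≃` `eqHom ρ ω⁻¹ (dualRep τ)`. -/
noncomputable def twAddEquiv (τ : Representation R Δ A) (ω : Δ →* (ZMod p)ˣ)
    (ρ : Representation (ZMod p) Δ Y) :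
    ↥(twAdd τ ω ρ) ≃ₗ[ZMod p] ↥(eqHom ρ ω⁻¹ (dualRep (p := p) τ)) :=
  (LinearEquiv.ofEq _ _ (twAdd_eq_comap τ ω ρ)).trans
    (LinearEquiv.ofSubmodule' (curryEquiv (p := p) (Y := Y) (A := A))
      (eqHom ρ ω⁻¹ (dualRep (p := p) τ)))

theorem exists_inv_card [Finite Δ] (hΔ : ¬ p ∣ Nat.card Δ) :
    ∃ u : ZMod p, u * (Nat.card Δ : ZMod p) = 1 := by
  have hne : ((Nat.card Δ : ℕ) : ZMod p) ≠ 0 := by
    rw [Ne, ZMod.natCast_eq_zero_iff]
    exact hΔ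
  exact ⟨((Nat.card Δ : ℕ) : ZMod p)⁻¹, inv_mul_cancel₀ hne⟩

/-- **(T4) FORM 1 = FORM 2**: `dim Hom_Δ(Hom(A, 𝔽_p)(1), Y) = dim Hom_Δ(A, Y^∨(1))` for `p ∤ #Δ`. -/
theorem twNum₁_eq_twNum [Finite Δ] (hΔ : ¬ p ∣ Nat.card Δ)
    [Module.Finite (ZMod p) (A →+ ZMod p)] [FiniteDimensional (ZMod p) Y]
    (τ : Representation R Δ A) (ω : Δ →* (ZMod p)ˣ) (ρ : Representation (ZMod p) Δ Y) :
    twNum₁ τ ω ρ = twNum τ ω ρ := by
  obtain ⟨u, hu⟩ := exists_inv_card (p := p) (Δ := Δ) hΔ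
  unfold twNum₁ twNum
  rw [LinearEquiv.finrank_eq (twAddEquiv τ ω ρ), ← finrank_eqHom_eq (dualRep (p := p) τ) ω ρ hu,
    twHom_eq]

end Defs

/-! ### Finiteness of `A →+ ZMod p` -/

/-- `Hom(A, 𝔽_p)` is finite for a finitely generated abelian group `A`. -/
theorem finite_addHom_of_fg (A : Type*) [AddCommGroup A] [Module.Finite ℤ A] :
    Module.Finite (ZMod p) (A →+ ZMod p) := by
  obtain ⟨s, hs⟩ := (Module.finite_def (R := ℤ) (M := A)).1 inferInstance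
  have : NeZero p := ⟨(Fact.out : p.Prime).ne_zero⟩
  have hinj : Function.Injective (fun (l : A →+ ZMod p) (x : ↥s) => l x.1) := by
    intro l l' h
    have h1 : l.toIntLinearMap = l'.toIntLinearMap := by
      apply LinearMap.ext_on hs
      intro x hx
      exact congrFun h ⟨x, hx⟩
    apply AddMonoidHom.ext
    intro x
    exact LinearMap.congr_fun h1 x
  have : Finite (A →+ ZMod p) := Finite.of_injective _ hinj
  exact Module.Finite.of_finite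

/-- `Hom(A, 𝔽_p)` is finite for a finite abelian group `A`. -/
theorem finite_addHom_of_finite (A : Type*) [AddCommGroup A] [Finite A] :
    Module.Finite (ZMod p) (A →+ ZMod p) :=
  haveI : Module.Finite ℤ A := Module.Finite.of_finite
  finite_addHom_of_fg A

/-- (T4) for a finite `A`. -/
theorem twNum₁_eq_twNum_of_finite {R : Type*} [CommRing R] {A : Type*} [AddCommGroup A]
    [Module R A] [Finite A] [Finite Δ] (hΔ : ¬ p ∣ Nat.card Δ) [FiniteDimensional (ZMod p) Y]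
    (τ : Representation R Δ A) (ω : Δ →* (ZMod p)ˣ) (ρ : Representation (ZMod p) Δ Y) :
    twNum₁ τ ω ρ = twNum τ ω ρ :=
  haveI := finite_addHom_of_finite (p := p) A
  twNum₁_eq_twNum hΔ τ ω ρ

/-! ### Invariance of FORM 1 under equivariant isomorphisms -/

section Congr

variable {R R' : Type*} [CommRing R] [CommRing R'] {A B : Type*} [AddCommGroup A] [Module R A]
  [AddCommGroup B] [Module R' B]

/-- `Hom(A, 𝔽_p) ≃ Hom(B, 𝔽_p)` for `e : A ≃+ B`. -/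
def dualCongr (e : A ≃+ B) : (A →+ ZMod p) ≃ₗ[ZMod p] (B →+ ZMod p) where
  toFun l := l.comp e.symm.toAddMonoidHom
  invFun l := l.comp e.toAddMonoidHom
  map_add' _ _ := rfl
  map_smul' _ _ := rfl
  left_inv l := by
    apply AddMonoidHom.ext
    intro x
    show l (e.symm (e x)) = l x
    rw [AddEquiv.symm_apply_apply]
  right_inv l := by
    apply AddMonoidHom.ext
    intro x
    show l (e (e.symm x)) = l x
    rw [AddEquiv.apply_symm_apply]

/-- Transport of the source of FORM 1 along `e : A ≃+ B`. -/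
noncomputable def arrowCongr₁ (e : A ≃+ B) :
    ((B →+ ZMod p) →ₗ[ZMod p] Y) ≃ₗ[ZMod p] ((A →+ ZMod p) →ₗ[ZMod p] Y) :=
  LinearEquiv.arrowCongr (dualCongr (p := p) e).symm (LinearEquiv.refl (ZMod p) Y)

theorem arrowCongr₁_apply (e : A ≃+ B) (Φ : (B →+ ZMod p) →ₗ[ZMod p] Y) (l : A →+ ZMod p) :
    arrowCongr₁ (p := p) e Φ l = Φ (l.comp e.symm.toAddMonoidHom) := rfl

theorem twHom_eq_comap (τ : Representation R Δ A) (σ : Representation R' Δ B)
    (ω : Δ →* (ZMod p)ˣ) (ρ : Representation (ZMod p) Δ Y) (e : A ≃+ B)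
    (he : ∀ δ x, e (τ δ x) = σ δ (e x)) :
    twHom σ ω ρ = (twHom τ ω ρ).comap (arrowCongr₁ (p := p) (Y := Y) e).toLinearMap := by
  have hcomp : ∀ (δ : Δ) (l : A →+ ZMod p),
      (l.comp (τ δ⁻¹).toAddMonoidHom).comp e.symm.toAddMonoidHom =
        (l.comp e.symm.toAddMonoidHom).comp (σ δ⁻¹).toAddMonoidHom := by
    intro δ l
    apply AddMonoidHom.ext
    intro x
    show l (τ δ⁻¹ (e.symm x)) = l (e.symm (σ δ⁻¹ x))
    congr 1
    rw [AddEquiv.eq_symm_apply, he, AddEquiv.apply_symm_apply]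
  ext Φ
  rw [Submodule.mem_comap, mem_twHom, mem_twHom]
  constructor
  · intro h δ l
    show ρ δ (arrowCongr₁ (p := p) e Φ l) = _ • arrowCongr₁ (p := p) e Φ _
    rw [arrowCongr₁_apply, arrowCongr₁_apply, hcomp]
    exact h δ _
  · intro h δ l
    have h1 := h δ (l.comp e.toAddMonoidHom)
    have h2 : arrowCongr₁ (p := p) e Φ (l.comp e.toAddMonoidHom) = Φ l := by
      rw [arrowCongr₁_apply]
      congr 1
      apply AddMonoidHom.ext
      intro x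
      show l (e (e.symm x)) = l x
      rw [AddEquiv.apply_symm_apply]
    have h3 : arrowCongr₁ (p := p) e Φ ((l.comp e.toAddMonoidHom).comp (τ δ⁻¹).toAddMonoidHom) =
        Φ (l.comp (σ δ⁻¹).toAddMonoidHom) := by
      rw [arrowCongr₁_apply, hcomp]
      congr 2
      apply AddMonoidHom.ext
      intro x
      show l (e (e.symm x)) = l x
      rw [AddEquiv.apply_symm_apply]
    erw [h2, h3] at h1
    exact h1

/-- (T0 for FORM 1) `twHom σ ω ρ ≃ twHom τ ω ρ` for an equivariant isomorphism `A ≃+ B`. -/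
noncomputable def twHomCongr (τ : Representation R Δ A) (σ : Representation R' Δ B)
    (ω : Δ →* (ZMod p)ˣ) (ρ : Representation (ZMod p) Δ Y) (e : A ≃+ B)
    (he : ∀ δ x, e (τ δ x) = σ δ (e x)) :
    ↥(twHom σ ω ρ) ≃ₗ[ZMod p] ↥(twHom τ ω ρ) :=
  (LinearEquiv.ofEq _ _ (twHom_eq_comap τ σ ω ρ e he)).trans
    (LinearEquiv.ofSubmodule' (arrowCongr₁ (p := p) (Y := Y) e) (twHom τ ω ρ))

/-- (T0 for FORM 1) `twNum₁` is invariant under equivariant isomorphisms. -/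
theorem twNum₁_congr (τ : Representation R Δ A) (σ : Representation R' Δ B)
    (ω : Δ →* (ZMod p)ˣ) (ρ : Representation (ZMod p) Δ Y) (e : A ≃+ B)
    (he : ∀ δ x, e (τ δ x) = σ δ (e x)) :
    twNum₁ τ ω ρ = twNum₁ σ ω ρ :=
  (LinearEquiv.finrank_eq (twHomCongr τ σ ω ρ e he)).symm

end Congr

end Concrete

end Fermat.Agent.ES.T56.TwistDual19
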