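/-
Programme T (S56), chapter GW-D, brick (K1b) of `T56_BASE28.md` (helper19), file 4 of 4:
**the Kummer lower bound in helper28's twist-number literal**

  `twNum₁ (selRepΔ D) (ω D) (ρΔ D) ≤ h1S p Sg D.rep`.

`Δ D = Gal(L/K)`, `π D : G_K →* Δ D`, `ω D`, `ρΔ D` are `BaseDict28`'s; `twHom`, `twNum₁` are
`TwistNum28`'s FORM 1.

* `selRepΔ D : Representation (ZMod p) (Δ D) (SelV Sg D.L p)` : the action of `Δ` on `Sel/p`, the descent of
  `KumLower19.selRepK D` along `π D`  (`selRepΔ_π`);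
* `addDualEquiv` : `(A →+ ZMod p) ≃ₗ[ZMod p] Module.Dual (ZMod p) A`;
* `twHomEquiv D : twHom (selRepΔ D) (ω D) (ρΔ D) ≃ₗ[ZMod p] KumLower19.KumHom D`;
* **`twNum₁_sel_le`** : the lower bound, FORM 1;
* `twNum₁_sel_eq_twNum` : FORM 1 = FORM 2 for `Sel/p` (`TwistDual19`, (T4));
* **`twNum_sel_le`** : the lower bound `⟨Sel⟩ = twNum (selRepΔ D) (ω D) (ρΔ D) ≤ h1S p Sg D.rep`, FORM 2, with the
  finiteness hypothesis in the form `FiniteDimensional (ZMod p) ↥(continuousH1S Sg D.rep)`.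
-/
import Mathlib
import Fermat.Agent.ES.T56.KumLower19
import Fermat.Agent.ES.T56.TwistNum28
import Fermat.Agent.ES.T56.BaseDict28
import Fermat.Agent.ES.T56.TwistDual19

set_option autoImplicit false
set_option linter.unusedSectionVars false
set_option linter.style.haveILetI false

open ExtCitation Module groupCohomology

namespace Fermat.Agent.ES.T56.KumTw19

open Fermat.Agent.ES.T56.KumSel19 Fermat.Agent.ES.T56.GWIface21 Fermat.Agent.ES.T56.BaseShapiro22
  Fermat.Agent.ES.T56.KumLower19 Fermat.Agent.ES.T56.TwistNum28 Fermat.Agent.ES.T56.BaseDict28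
  Fermat.Agent.ES.T56.TwistDual19

local notation "Qbar" => AlgebraicClosure ℚ

variable {p : ℕ} [hp : Fact p.Prime] {Sg : Finset Nat.Primes} (D : BaseDatum (p := p) Sg)

/-- **The action of `Δ = Gal(L/K)` on `Sel / p`.** -/
noncomputable def selRepΔ : Representation (ZMod p) (Δ D) (SelV Sg D.L p) :=
  descend D (selRepK D) (selRepK_of_mem D)

theorem selRepΔ_π (s : ↥D.K.fixingSubgroup) : selRepΔ D (π D s) = selRepK D s :=
  descend_π D _ _ s

/-- Additive maps into `ZMod p` are the linear forms. -/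
noncomputable def addDualEquiv (A : Type*) [AddCommGroup A] [Module (ZMod p) A] :
    (A →+ ZMod p) ≃ₗ[ZMod p] Module.Dual (ZMod p) A where
  toFun f := f.toZModLinearMap p
  invFun l := l.toAddMonoidHom
  map_add' _ _ := rfl
  map_smul' _ _ := rfl
  left_inv _ := rfl
  right_inv _ := rfl

theorem addDualEquiv_apply {A : Type*} [AddCommGroup A] [Module (ZMod p) A] (f : A →+ ZMod p)
    (x : A) : addDualEquiv (p := p) A f x = f x := rfl

theorem addDualEquiv_symm_apply {A : Type*} [AddCommGroup A] [Module (ZMod p) A]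
    (l : Module.Dual (ZMod p) A) (x : A) : (addDualEquiv (p := p) A).symm l x = l x := rfl

/-- Transport of the source along `addDualEquiv`. -/
noncomputable def arrowEquiv :
    ((SelV Sg D.L p →+ ZMod p) →ₗ[ZMod p] D.Y) ≃ₗ[ZMod p]
      (Module.Dual (ZMod p) (SelV Sg D.L p) →ₗ[ZMod p] D.Y) :=
  LinearEquiv.arrowCongr (addDualEquiv (p := p) (SelV Sg D.L p)) (LinearEquiv.refl (ZMod p) D.Y)

theorem arrowEquiv_apply (Φ : (SelV Sg D.L p →+ ZMod p) →ₗ[ZMod p] D.Y)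
    (l : Module.Dual (ZMod p) (SelV Sg D.L p)) :
    arrowEquiv D Φ l = Φ ((addDualEquiv (p := p) (SelV Sg D.L p)).symm l) := rfl

/-- FORM 1 of `TwistNum28` for `Sel/p` is `KumLower19.KumHom`. -/
theorem twHom_eq_comap :
    twHom (selRepΔ D) (ω D) (ρΔ D) = (KumHom D).comap (arrowEquiv D).toLinearMap := by
  ext Φ
  rw [Submodule.mem_comap, mem_twHom, mem_KumHom]
  constructor
  · intro h g l
    have h1 := h (π D g) ((addDualEquiv (p := p) (SelV Sg D.L p)).symm l)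
    rw [ρΔ_π, ω_π, ← map_inv, selRepΔ_π] at h1
    show arrowEquiv D Φ _ = D.Y.ρ g (arrowEquiv D Φ l)
    rw [arrowEquiv_apply, arrowEquiv_apply, h1, map_smul, map_smul]
    rfl
  · intro h δ l
    obtain ⟨g, rfl⟩ := π_surjective D δ
    have h1 := h g (addDualEquiv (p := p) (SelV Sg D.L p) l)
    rw [ρΔ_π, ω_π, ← map_inv, selRepΔ_π]
    have h2 : arrowEquiv D Φ (addDualEquiv (p := p) (SelV Sg D.L p) l) = Φ l := rfl
    erw [h2] at h1
    rw [← h1]
    show arrowEquiv D Φ _ = _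
    rw [arrowEquiv_apply, map_smul, map_smul]
    rfl

/-- **`twHom (selRepΔ D) (ω D) (ρΔ D) ≃ KumHom D`.** -/
noncomputable def twHomEquiv :
    ↥(twHom (selRepΔ D) (ω D) (ρΔ D)) ≃ₗ[ZMod p] ↥(KumHom D) :=
  (LinearEquiv.ofEq _ _ (twHom_eq_comap D)).trans
    (LinearEquiv.ofSubmodule' (arrowEquiv D) (KumHom D))

theorem twNum₁_sel_eq : twNum₁ (selRepΔ D) (ω D) (ρΔ D) = finrank (ZMod p) ↥(KumHom D) :=
  LinearEquiv.finrank_eq (twHomEquiv D)

/-- **(K1b) The Kummer lower bound, in the twist-number literal**: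
`⟨Sel⟩₁ = dim Hom_Δ(Hom(Sel, 𝔽_p)(1), Y) ≤ h¹(G_S, Coind Y)`. -/
theorem twNum₁_sel_le (hpS : pPrime p ∈ Sg)
    [FiniteDimensional (ZMod p) (Fermat.Agent.PT.PRO.LevelCoh28.H1 (basisK Sg D.K) D.Y)] :
    twNum₁ (selRepΔ D) (ω D) (ρΔ D) ≤ h1S p Sg D.rep := by
  rw [twNum₁_sel_eq]
  exact (finrank_kumHom_le D hpS).2

/-- Finite-dimensionality of FORM 1 for `Sel/p`. -/
theorem finiteDimensional_twHom_sel (hpS : pPrime p ∈ Sg)
    [FiniteDimensional (ZMod p) (Fermat.Agent.PT.PRO.LevelCoh28.H1 (basisK Sg D.K) D.Y)] :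
    FiniteDimensional (ZMod p) ↥(twHom (selRepΔ D) (ω D) (ρΔ D)) :=
  haveI := (finrank_kumHom_le D hpS).1
  Module.Finite.equiv (twHomEquiv D).symm

/-- The finiteness hypothesis of `KumLower19.finrank_kumHom_le`, from that of `H¹(G_S, Coind Y)`. -/
theorem finiteDimensional_levelH1
    (hfin : FiniteDimensional (ZMod p) ↥(continuousH1S Sg D.rep)) :
    FiniteDimensional (ZMod p) (Fermat.Agent.PT.PRO.LevelCoh28.H1 (basisK Sg D.K) D.Y) :=
  haveI : FiniteDimensional (ZMod p)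
      ↥(continuousH1S Sg (Rep.coind D.K.fixingSubgroup.subtype D.Y)) := hfin
  Module.Finite.equiv (shapiroH1S (trivOn_baseDatum D))

/-- (T4) for `Sel/p`: FORM 1 = FORM 2. -/
theorem twNum₁_sel_eq_twNum :
    twNum₁ (selRepΔ D) (ω D) (ρΔ D) = twNum (selRepΔ D) (ω D) (ρΔ D) :=
  haveI := finite_Δ D
  haveI := D.fd
  twNum₁_eq_twNum_of_finite (not_dvd_card_Δ D) (selRepΔ D) (ω D) (ρΔ D)

/-- **(K1b) The Kummer lower bound `⟨Sel⟩ ≤ h¹(G_S, Coind Y)`**, FORM 2 of the twist number. -/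
theorem twNum_sel_le (hpS : pPrime p ∈ Sg)
    (hfin : FiniteDimensional (ZMod p) ↥(continuousH1S Sg D.rep)) :
    twNum (selRepΔ D) (ω D) (ρΔ D) ≤ h1S p Sg D.rep := by
  haveI := finiteDimensional_levelH1 D hfin
  rw [← twNum₁_sel_eq_twNum]
  exact twNum₁_sel_le D hpS

end Fermat.Agent.ES.T56.KumTw19
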