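/-
Programme T (S56), chapter GW, brick 2, helper2: the exports of `LocTwoZeroExport2` in the EXACT
literal shapes of the consumers' hypotheses:

* `hLD`      : leaf 3 of `GWChain21.gw_rest_of`  (`LocDual20`, all `q`, all `Y`);
* `hRE`      : leaf 4 of `GWChain21.gw_rest_of`  (`LocH2RightExact`, all `q`);
* `locH2Fin` : `FinAll6.LocH2Fin p`, unfolded (finiteness of the local `H²`);
* `hlocK3`   : the hypothesis `hloc` of `BaseK3_21.h2S_add_le` / `GWProps21.hardP2_of`.
-/
import Mathlib
import Fermat.Agent.ES.T56.LocTwoZeroExport2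

set_option autoImplicit false

open CategoryTheory Module groupCohomology ExtCitation

namespace Fermat.Agent.ES.T56.LocTwoZeroLeaves2

open Fermat.Agent.ES.T56.GWIface21 Fermat.Agent.ES.T56.GWProps21
open Fermat.Agent.ES.T56.LocTwoZeroExport2

variable {p : ℕ} [Fact p.Prime]

/-- Leaf 3: `h²(G_q, Y*) = h⁰(G_q, Y)` for all `q`, all finite-dimensional smooth `Y`. -/
theorem hLD : ∀ (q : Nat.Primes) (Y : Rep.{0} (ZMod p) GQ), FiniteDimensional (ZMod p) Y →
    IsSmooth p Y → LocDual20 q Y :=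
  fun q Y hfd hsm => haveI := hfd; locDual20 q Y hsm

/-- Leaf 4: local `H²` is right exact at every prime. -/
theorem hRE : ∀ q : Nat.Primes, LocH2RightExact (p := p) q :=
  fun q => locH2RightExact q

/-- The local continuous `H²` of a finite-dimensional smooth representation is finite-dimensional. -/
theorem locH2Fin : ∀ (q : Nat.Primes) (Y : Rep.{0} (ZMod p) GQ), FiniteDimensional (ZMod p) Y →
    IsSmooth p Y → FiniteDimensional (ZMod p)
      (continuousH2 (primeLocalToGlobal q) (Rep.res (primeLocalToGlobal q) Y)) :=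
  fun q Y hfd hsm => haveI := hfd; finiteDimensional_h2loc q Y hsm

/-- `h²(G_q, X) ≤ h⁰(G_q, X*)` (an equality), in the shape used by K3 and `hardP2_of`. -/
theorem hlocK3 (Sg : Finset Nat.Primes) (X : Rep.{0} (ZMod p) GQ) [FiniteDimensional (ZMod p) X]
    (hsm : IsSmooth p X) : ∀ q : ↥Sg, h2loc p q.1 X ≤ h0loc p q.1 (dualT p X) :=
  fun q => (h2loc_eq_h0loc_dualT q.1 X hsm).le

theorem hlocGe (Sg : Finset Nat.Primes) (X : Rep.{0} (ZMod p) GQ) [FiniteDimensional (ZMod p) X]
    (hsm : IsSmooth p X) : ∀ q : ↥Sg, LocDual20Ge q.1 X :=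
  fun q => locDual20Ge q.1 X hsm

end Fermat.Agent.ES.T56.LocTwoZeroLeaves2
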