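/-
Programme T (S56), chapter GW, brick 2 (the LOCAL `(2,0)` leg), helper2.

`FreeResHom2`: functoriality of the canonical resolution `0 → Rel → k[A] → A → 0`
(`FreeRes29` / `HpAt29.freeRes`): an equivariant `θ : A'' → A` induces a morphism of resolved modules
`freeResHom θ : freeRes ρA'' → freeRes ρA` with `φM = θ`.
-/
import Mathlib
import Fermat.Agent.PT.PRO.HpAt29
import Fermat.Agent.PT.PRO.Setup20

set_option autoImplicit false

namespace Fermat.Agent.ES.T56.FreeResHom2

open Function Fermat.Agent.PT.PRO Fermat.Agent.PT.PRO.HyperLevel25 Fermat.Agent.PT.PRO.Resolved4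
  Fermat.Agent.PT.PRO.FreeRes29 Fermat.Agent.PT.PRO.Setup20

variable {k : Type*} [CommRing k] {G : Type*} [Group G] {𝒰 : Set (Subgroup G)}
variable {A'' A : Type*} [AddCommGroup A''] [Module k A''] [AddCommGroup A] [Module k A]

theorem aug_lmapDomain (θ : A'' →ₗ[k] A) (x : A'' →₀ k) :
    aug k A (Finsupp.lmapDomain k k θ x) = θ (aug k A'' x) := by
  induction x using Finsupp.induction_linear with
  | zero => simp
  | add x y hx hy => rw [map_add, map_add, hx, hy, map_add, map_add]
  | single a c =>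
    rw [Finsupp.lmapDomain_apply, Finsupp.mapDomain_single, aug_single, aug_single, map_smul]

/-- The map induced on the modules of relations. -/
noncomputable def relMap (θ : A'' →ₗ[k] A) : FreeRes29.Rel k A'' →ₗ[k] FreeRes29.Rel k A :=
  (Finsupp.lmapDomain k k θ).restrict (p := relSub k A'') (q := relSub k A) fun x hx => by
    rw [mem_relSub_iff] at hx ⊢
    rw [aug_lmapDomain, hx, map_zero]

theorem relIncl_relMap (θ : A'' →ₗ[k] A) (x : FreeRes29.Rel k A'') :
    relIncl k A (relMap θ x) = Finsupp.lmapDomain k k θ (relIncl k A'' x) := rfl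

theorem lmapDomain_freeRep {ρA'' : Representation k G A''} {ρA : Representation k G A}
    (θ : A'' →ₗ[k] A) (hθ : ∀ g a, θ (ρA'' g a) = ρA g (θ a)) (g : G) (x : A'' →₀ k) :
    Finsupp.lmapDomain k k θ (freeRep ρA'' g x) = freeRep ρA g (Finsupp.lmapDomain k k θ x) := by
  induction x using Finsupp.induction_linear with
  | zero => simp
  | add x y hx hy => rw [map_add, map_add, hx, hy, map_add, map_add]
  | single a c =>
    rw [freeRep_single, Finsupp.lmapDomain_apply, Finsupp.mapDomain_single,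
      Finsupp.lmapDomain_apply, Finsupp.mapDomain_single, freeRep_single, hθ]

/-- **Functoriality of the canonical resolution.** -/
noncomputable def freeResHom {ρA'' : Representation k G A''} {ρA : Representation k G A}
    (θ : A'' →ₗ[k] A) (hθ : ∀ g a, θ (ρA'' g a) = ρA g (θ a))
    (h0'' : IsDiscrete 𝒰 (Fermat.Agent.PT.PRO.HpAt29.freeRes ρA'').ρ0)
    (h0 : IsDiscrete 𝒰 (Fermat.Agent.PT.PRO.HpAt29.freeRes ρA).ρ0) :
    Resolved.Hom (toResolved (Fermat.Agent.PT.PRO.HpAt29.freeRes ρA'') h0'')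
      (toResolved (Fermat.Agent.PT.PRO.HpAt29.freeRes ρA) h0) where
  φ1 := relMap θ
  φ0 := Finsupp.lmapDomain k k θ
  φM := θ
  comm1 g x := by
    apply relIncl_injective
    show Finsupp.lmapDomain k k θ (freeRep ρA'' g (relIncl k A'' x)) =
      freeRep ρA g (Finsupp.lmapDomain k k θ (relIncl k A'' x))
    exact lmapDomain_freeRep θ hθ g _
  comm0 g x := lmapDomain_freeRep θ hθ g x
  commι _ := rfl
  commπ x := (aug_lmapDomain θ x).symm

@[simp] theorem freeResHom_φM {ρA'' : Representation k G A''} {ρA : Representation k G A}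
    (θ : A'' →ₗ[k] A) (hθ : ∀ g a, θ (ρA'' g a) = ρA g (θ a))
    (h0'' : IsDiscrete 𝒰 (Fermat.Agent.PT.PRO.HpAt29.freeRes ρA'').ρ0)
    (h0 : IsDiscrete 𝒰 (Fermat.Agent.PT.PRO.HpAt29.freeRes ρA).ρ0) :
    (freeResHom θ hθ h0'' h0).φM = θ := rfl

end Fermat.Agent.ES.T56.FreeResHom2
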