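/-
Programme T (S56), chapter GW, brick 2 (the LOCAL `(2,0)` leg, PLAIN model), helper2.

`PlainTwoZero2` (generic `k` with `ℤ → k` onto, any `(G, 𝒰)`, coefficients `X ⊇ μ_p` `p`-divisible):
consequences, for PLAIN level cohomology `H²(G; M)` of a finite-dimensional `𝔽_p[G]`-module `M`, of
the `(2,0)` duality for the hyper-cohomology `ℍ²(K(P; X))`, `P` a resolution of
`A = M^∨(χ) = Module.Dual (ZMod p) M`, through `KerIso7.compare2 : H²(G; M) ≅ ℍ²(K(P; X))`: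

* `compare2_natural_coeff` : naturality of `compare2` in `M` (a map `ψ : M → M''` covered by a
  morphism of resolutions `b : P'' → P` over `ψ^T`);
* `mapℍ2_surjective_of`    : `b^* : ℍ²(K(P; X)) → ℍ²(K(P''; X))` is ONTO when `b` is injective on
  `A'' → A`, the right kernel of `pair20` for `P` and the left kernel for `P''` are trivial;
* `plainMapH2_surjective`  : **`H²(G; M) → H²(G; M'')` is onto for `ψ` onto** ("`H²` is right
  exact"), from the two `GlobAlphaTwo18.AlphaTwoPackage`s;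
* `card_Hp2_eq`            : `#H²(G; M) = #A^G` from `#ℍ²(K(P; X)) = #A^G`.
-/
import Mathlib
import Fermat.Agent.PT.PRO.KerIsoMain7
import Fermat.Agent.ES.T56.GlobAlphaTwo18

set_option autoImplicit false
set_option linter.unusedSectionVars false

namespace Fermat.Agent.ES.T56.PlainTwoZero2

open Function Fermat.Agent.PT.PRO.HyperLevel25 Fermat.Agent.PT.PRO.HyperCompare25
  Fermat.Agent.PT.PRO.Resolved4 Fermat.Agent.PT.PRO.ExtPairing4 Fermat.Agent.PT.PRO.ExtPairingB4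
  Fermat.Agent.PT.PRO.IndRes20 Fermat.Agent.PT.PRO.Setup20 Fermat.Agent.PT.PRO.Objects20
  Fermat.Agent.PT.PRO.KerIso7 Fermat.Agent.PT.PRO.InvP4
  Fermat.Agent.ES.T56.PairTwoZero18 Fermat.Agent.ES.T56.GlobAlphaTwo18

/-! ### Extension of additive functionals on groups killed by `p` -/

theorem exists_extend_lin {K : Type*} [Field K] {V'' V : Type*} [AddCommGroup V''] [Module K V'']
    [AddCommGroup V] [Module K V] (i : V'' →ₗ[K] V) (hi : Injective i) (f'' : V'' →ₗ[K] K) :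
    ∃ f : V →ₗ[K] K, ∀ x, f (i x) = f'' x := by
  obtain ⟨g, hg⟩ := LinearMap.exists_leftInverse_of_injective i (LinearMap.ker_eq_bot.2 hi)
  refine ⟨f''.comp g, fun x => ?_⟩
  have h1 : g (i x) = x := LinearMap.congr_fun hg x
  rw [LinearMap.comp_apply, h1]

theorem exists_extend_zmod {p : ℕ} [Fact p.Prime] {H'' H : Type*} [AddCommGroup H'']
    [AddCommGroup H] (hp'' : ∀ x : H'', p • x = 0) (hp : ∀ x : H, p • x = 0) (i : H'' →+ H)
    (hi : Injective i) (f'' : H'' →+ ZMod p) : ∃ f : H →+ ZMod p, ∀ x, f (i x) = f'' x := by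
  let _ : Module (ZMod p) H'' := AddCommGroup.zmodModule hp''
  let _ : Module (ZMod p) H := AddCommGroup.zmodModule hp
  obtain ⟨f, hf⟩ := exists_extend_lin (i.toZModLinearMap p) hi (f''.toZModLinearMap p)
  exact ⟨f.toAddMonoidHom, hf⟩

/-! ### Morphisms of resolved modules and the evaluation pairings -/

section ResHom

variable {k G : Type*} [CommRing k] [Group G] {𝒰 : Set (Subgroup G)}
variable {P1 P0 A P1'' P0'' A'' C : Type*}
  [AddCommGroup P1] [Module k P1] [AddCommGroup P0] [Module k P0] [AddCommGroup A] [Module k A]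
  [AddCommGroup P1''] [Module k P1''] [AddCommGroup P0''] [Module k P0'']
  [AddCommGroup A''] [Module k A''] [AddCommGroup C] [Module k C]
  [Module.Finite k P0] [Module.Finite k P1] [Module.Finite k P0''] [Module.Finite k P1'']
variable {P : Resolved k 𝒰 P1 P0 A} {P'' : Resolved k 𝒰 P1'' P0'' A''}
variable (h𝒰 : IsLevelBasis 𝒰) {ρC : Representation k G C} (hC : IsDiscrete 𝒰 ρC)

/-- A morphism of resolved modules `b : P'' → P` as a morphism of the evaluation pairings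
`(K(P; C), P) → (K(P''; C), P'')`. -/
def pairHomRes (b : Resolved.Hom P'' P) :
    PairingHom (evalPairing P h𝒰 ρC hC) (evalPairing P'' h𝒰 ρC hC) where
  a := b.K h𝒰 ρC hC
  b := b
  γ := LinearMap.id
  hγ _ _ := rfl
  h0 _ _ := rfl
  h1 _ _ := rfl

theorem lvlHom_id_mapH2 (y : Hlev2 h𝒰 ρC hC) :
    (lvlHom h𝒰 hC hC LinearMap.id (fun _ _ => rfl)).mapH2 y = y := by
  obtain ⟨z, rfl⟩ := (lvl h𝒰 ρC hC).π2_surjective y
  rfl

/-- **Naturality of `pair20` in the resolved module.** -/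
theorem pair20_resHom (b : Resolved.Hom P'' P) (ξ : (P.K h𝒰 ρC hC).ℍ2 h𝒰)
    (x'' : Hlev0 h𝒰 P''.ρM P''.discM) :
    pair20 (evalPairing P'' h𝒰 ρC hC) h𝒰 hC ((b.K h𝒰 ρC hC).mapℍ2 h𝒰 ξ) x'' =
      pair20 (evalPairing P h𝒰 ρC hC) h𝒰 hC ξ
        ((lvl0Hom h𝒰 P''.discM P.discM b.φM b.commM).mapH1 x'') := by
  exact (pair20_natural h𝒰 hC hC (pairHomRes h𝒰 hC b) ξ x'').trans (lvlHom_id_mapH2 h𝒰 hC _)

theorem mapH1_cl0 (b : Resolved.Hom P'' P) (m : A'') (hm : ∀ g, P''.ρM g m = m) :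
    (lvl0Hom h𝒰 P''.discM P.discM b.φM b.commM).mapH1 (cl0 (P := P'') h𝒰 m hm) =
      cl0 (P := P) h𝒰 (b.φM m) (fun g => by rw [← b.commM, hm]) := rfl

theorem mapH1_lvl0_injective (b : Resolved.Hom P'' P) (hb : Injective b.φM) :
    Injective (lvl0Hom h𝒰 P''.discM P.discM b.φM b.commM).mapH1 := by
  rw [injective_iff_map_eq_zero]
  intro x hx
  obtain ⟨m, hm, rfl⟩ := cl0_surjective (P := P'') h𝒰 x
  rw [mapH1_cl0, cl0_eq_zero_iff] at hx
  rw [cl0_eq_zero_iff]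
  exact hb (by rw [hx, map_zero])

variable {p : ℕ} [Fact p.Prime]

/-- **`b^* : ℍ²(K(P; C)) → ℍ²(K(P''; C))` is onto** when `A'' → A` is injective, the right kernel of
`pair20` for `P` is trivial and the left kernel for `P''` is trivial. -/
theorem mapℍ2_surjective_of (b : Resolved.Hom P'' P) (hb : Injective b.φM)
    (hpA : ∀ a : A, p • a = 0) (hpA'' : ∀ a : A'', p • a = 0)
    [Finite (Hlev0 h𝒰 P.ρM P.discM)]
    (τ : pTor p (Hlev2 h𝒰 ρC hC) →+ ZMod p) (hτ : Injective τ)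
    (hr : ∀ x : Hlev0 h𝒰 P.ρM P.discM,
      (∀ ξ, pair20 (evalPairing P h𝒰 ρC hC) h𝒰 hC ξ x = 0) → x = 0)
    (hl : ∀ ξ : (P''.K h𝒰 ρC hC).ℍ2 h𝒰,
      (∀ x, pair20 (evalPairing P'' h𝒰 ρC hC) h𝒰 hC ξ x = 0) → ξ = 0) :
    Surjective ((b.K h𝒰 ρC hC).mapℍ2 h𝒰) := by
  intro ξ''
  obtain ⟨f, hf⟩ := exists_extend_zmod (nsmul_Hlev0_eq_zero h𝒰 P''.ρM P''.discM p hpA'')
    (nsmul_Hlev0_eq_zero h𝒰 P.ρM P.discM p hpA)
    (lvl0Hom h𝒰 P''.discM P.discM b.φM b.commM).mapH1.toAddMonoidHom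
    (mapH1_lvl0_injective h𝒰 b hb)
    (alphaTwo (evalPairing P'' h𝒰 ρC hC) h𝒰 hC hpA'' τ ξ'')
  obtain ⟨ξ, hξ⟩ := alphaTwo_surjective (evalPairing P h𝒰 ρC hC) h𝒰 hC hpA τ hτ hr f
  refine ⟨ξ, ?_⟩
  apply alphaTwo_injective (evalPairing P'' h𝒰 ρC hC) h𝒰 hC hpA'' τ hτ hl
  ext x''
  rw [← hf x'', ← hξ, alphaTwo_apply, alphaTwo_apply]
  congr 1
  apply Subtype.ext
  rw [coe_pair20P, coe_pair20P]
  exact pair20_resHom h𝒰 hC b ξ x''

end ResHom

/-! ### Plain cohomology -/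

section Plain

variable {k : Type} [CommRing k] (hk : IntSurj k) {p : ℕ} [Fact p.Prime] {G : Type} [Group G]
  {𝒰 : Set (Subgroup G)}
variable {M M'' : Type} [AddCommGroup M] [Module (ZMod p) M] [Module k M]
  [FiniteDimensional (ZMod p) M] [Module k (Module.Dual (ZMod p) M)]
  [AddCommGroup M''] [Module (ZMod p) M''] [Module k M'']
  [FiniteDimensional (ZMod p) M''] [Module k (Module.Dual (ZMod p) M'')]
variable {P0 P1 P0'' P1'' : Type} [AddCommGroup P0] [Module k P0] [AddCommGroup P1] [Module k P1]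
  [AddCommGroup P0''] [Module k P0''] [AddCommGroup P1''] [Module k P1'']
  [Module.Finite k P0] [Module.Finite k P1] [Module.Finite k P0''] [Module.Finite k P1'']
variable {X : Type} [AddCommGroup X] [Module k X]
variable (h𝒰 : IsLevelBasis 𝒰)

section Natural

variable (P : Resolved k 𝒰 P1 P0 (Module.Dual (ZMod p) M))
  (P'' : Resolved k 𝒰 P1'' P0'' (Module.Dual (ZMod p) M''))
  (ρM : Representation (ZMod p) G M) (hM : IsDiscrete 𝒰 ρM)
  (ρM'' : Representation (ZMod p) G M'') (hM'' : IsDiscrete 𝒰 ρM'')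
  (χ : G →* (ZMod p)ˣ)
  (hA : ∀ g a, P.ρM g a = (χ g : ZMod p) • (a ∘ₗ ρM g⁻¹))
  (hA'' : ∀ g a, P''.ρM g a = (χ g : ZMod p) • (a ∘ₗ ρM'' g⁻¹))
  {ρX : Representation k G X} (hX : IsDiscrete 𝒰 ρX) (D : MuData χ ρX)
  (ψ : M →ₗ[k] M'') (hψ : ∀ g m, ψ (intRep hk ρM g m) = intRep hk ρM'' g (ψ m))
  (b : Resolved.Hom P'' P)
  (hb : ∀ (a'' : Module.Dual (ZMod p) M'') (m : M), b.φM a'' m = a'' (ψ m))

include hb in
theorem kapRes_resHom (m : M) :
    kapRes hk D.j P''.π (ψ m) = kapRes hk D.j P.π m ∘ₗ b.φ0 := by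
  apply LinearMap.ext
  intro x
  rw [LinearMap.comp_apply, kapRes_apply, kapRes_apply, ← b.commπ, hb]

include hb in
/-- **Naturality of `compare2` in `M`.** -/
theorem compare2_natural_coeff (x : Hp2 h𝒰 (intRep hk ρM) (isDiscrete_intRep hk hM)) :
    compare2 hk h𝒰 P'' ρM'' hM'' χ hA'' hX D
        ((plainHom h𝒰 (isDiscrete_intRep hk hM) (isDiscrete_intRep hk hM'') ψ hψ).mapH2 x) =
      (b.K h𝒰 ρX hX).mapℍ2 h𝒰 (compare2 hk h𝒰 P ρM hM χ hA hX D x) := by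
  obtain ⟨z, rfl⟩ := (plainCpx h𝒰 (intRep hk ρM) (isDiscrete_intRep hk hM)).π2_surjective x
  show ((P''.K h𝒰 ρX hX).tot h𝒰).π2 _ = ((P''.K h𝒰 ρX hX).tot h𝒰).π2 _
  congr 1
  apply Subtype.ext; apply Subtype.ext
  show ((⇑(kapRes hk D.j P''.π) ∘ (⇑ψ ∘ z.1.1), (0 : G → (P1'' →ₗ[k] X))) :
      (G × G → (P0'' →ₗ[k] X)) × (G → (P1'' →ₗ[k] X))) =
    (b.K h𝒰 ρX hX).map2 (⇑(kapRes hk D.j P.π) ∘ z.1.1, 0)
  rw [Cx.Hom.map2_apply]
  refine Prod.ext ?_ ?_
  · funext g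
    exact kapRes_resHom hk P P'' χ D ψ b hb (z.1.1 g)
  · funext g
    exact (map_zero _).symm

end Natural

section Package

variable (R : Res k G P1 P0 (Module.Dual (ZMod p) M)) (h0 : IsDiscrete 𝒰 R.ρ0)
  (R'' : Res k G P1'' P0'' (Module.Dual (ZMod p) M'')) (h0'' : IsDiscrete 𝒰 R''.ρ0)
  (ρM : Representation (ZMod p) G M) (hM : IsDiscrete 𝒰 ρM)
  (ρM'' : Representation (ZMod p) G M'') (hM'' : IsDiscrete 𝒰 ρM'')
  (χ : G →* (ZMod p)ˣ)
  (hA : ∀ g a, R.ρM g a = (χ g : ZMod p) • (a ∘ₗ ρM g⁻¹))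
  (hA'' : ∀ g a, R''.ρM g a = (χ g : ZMod p) • (a ∘ₗ ρM'' g⁻¹))
  {ρX : Representation k G X} (hX : IsDiscrete 𝒰 ρX) (D : MuData χ ρX)
  (hdiv : ∀ x : X, ∃ y : X, (p : k) • y = x)

include χ hA D hdiv in
/-- **`#H²(G; M) = #A^G`** from `#ℍ²(K(P; X)) = #A^G`. -/
theorem card_Hp2_eq [Module.Projective k P1]
    (hcard : Finite ((KX R h0 h𝒰 ρX hX).ℍ2 h𝒰) ∧
      Nat.card ((KX R h0 h𝒰 ρX hX).ℍ2 h𝒰) = Nat.card ↥R.ρM.invariants) :
    Finite (Hp2 h𝒰 (intRep hk ρM) (isDiscrete_intRep hk hM)) ∧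
      Nat.card (Hp2 h𝒰 (intRep hk ρM) (isDiscrete_intRep hk hM)) =
        Nat.card ↥R.ρM.invariants := by
  have hbij := compare2_bijective hk h𝒰 (toResolved R h0) ρM hM χ hA hX D hdiv
  have := hcard.1
  exact ⟨Finite.of_injective _ hbij.1,
    (Nat.card_congr (Equiv.ofBijective _ hbij)).trans hcard.2⟩

variable (ψ : M →ₗ[k] M'') (hψ : ∀ g m, ψ (intRep hk ρM g m) = intRep hk ρM'' g (ψ m))
  (b : Resolved.Hom (toResolved R'' h0'') (toResolved R h0))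
  (hb : ∀ (a'' : Module.Dual (ZMod p) M'') (m : M), b.φM a'' m = a'' (ψ m))

include χ hA hA'' D hdiv hb in
/-- **`H²` is right exact**: `H²(G; M) → H²(G; M'')` is onto for `ψ : M → M''` onto, given the
`(2,0)` duality packages for the resolutions of `M^∨(χ)` and `M''^∨(χ)`. -/
theorem plainMapH2_surjective [Module.Projective k P1] [Module.Projective k P1'']
    (hψs : Surjective ψ)
    (hpA : ∀ a : Module.Dual (ZMod p) M, p • a = 0)
    (hpA'' : ∀ a : Module.Dual (ZMod p) M'', p • a = 0)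
    (hP : AlphaTwoPackage R h0 h𝒰 ρX hX p hpA)
    (hP'' : AlphaTwoPackage R'' h0'' h𝒰 ρX hX p hpA'') :
    Surjective
      (plainHom h𝒰 (isDiscrete_intRep hk hM) (isDiscrete_intRep hk hM'') ψ hψ).mapH2 := by
  obtain ⟨τ, hτ, _, hrk, hiff⟩ := hP
  obtain ⟨τ'', _, hinj'', _, hiff''⟩ := hP''
  have hfinA : Finite (Module.Dual (ZMod p) M) := Module.finite_of_finite (ZMod p)
  have : Finite (Hlev0 h𝒰 (toResolved R h0).ρM (toResolved R h0).discM) :=
    finite_Hlev0 h𝒰 _ _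
  have hbinj : Injective b.φM := by
    rw [injective_iff_map_eq_zero]
    intro a'' ha
    apply LinearMap.ext
    intro m''
    obtain ⟨m, rfl⟩ := hψs m''
    rw [← hb, ha]
    rfl
  have hsurj := mapℍ2_surjective_of h𝒰 hX b hbinj hpA hpA'' τ hτ
    (fun x h => hrk x fun ξ => (hiff ξ x).2 (h ξ))
    (fun ξ h => by
      apply hinj''
      rw [map_zero]
      ext x
      exact (hiff'' ξ x).2 (h x))
  have hbij := compare2_bijective hk h𝒰 (toResolved R h0) ρM hM χ hA hX D hdiv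
  have hbij'' := compare2_bijective hk h𝒰 (toResolved R'' h0'') ρM'' hM'' χ hA'' hX D hdiv
  intro y''
  obtain ⟨ξ, hξ⟩ := hsurj (compare2 hk h𝒰 (toResolved R'' h0'') ρM'' hM'' χ hA'' hX D y'')
  obtain ⟨y, rfl⟩ := hbij.2 ξ
  refine ⟨y, hbij''.1 ?_⟩
  rw [compare2_natural_coeff hk h𝒰 (toResolved R h0) (toResolved R'' h0'') ρM hM ρM'' hM'' χ hA
    hA'' hX D ψ hψ b hb y, hξ]

end Package

end Plain

end Fermat.Agent.ES.T56.PlainTwoZero2
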