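/-
Programme T (S56), chapter GW, brick 2 (the LOCAL `(2,0)` leg, PLAIN model), helper2.

`LocTwoZeroPlain2`: for the local datum `(Γ_q = Gal(ℚ̄_q/ℚ_q), levelLoc q, ℚ̄_qˣ)`, `χ_q` the mod `p`
cyclotomic character of `Γ_q`, and `Y` a finite-dimensional smooth `𝔽_p[Γ_q]`-module:

* `card_H2_loc`        : `H²_lev(Γ_q; Y)` is finite and `#H²_lev(Γ_q; Y) = #(Y^∨(1))^{Γ_q}`
  (local Tate duality in degree `(2,0)`, numerically);
* `mapH2_surjective_loc` : `H²_lev(Γ_q; Y) → H²_lev(Γ_q; Y'')` is ONTO for `Y → Y''` onto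
  (local `H²` is right exact; no degree 3 used).

Both are stated in the model `LevelCoh28.H2 (levelLoc q)`.  Inputs: `LocAlphaTwoR2.alphaTwoPackage_loc`
(the full local `(2,0)` package for the canonical resolution of `Y^∨(1)`), `KerIso7.compare2_bijective`
(`H²(Γ_q; Y) ≅ ℍ²(K(P; ℚ̄_qˣ))`), and the generic `PlainTwoZero2`.
-/
import Mathlib
import Fermat.Agent.ES.T56.PlainTwoZero2
import Fermat.Agent.ES.T56.FreeResHom2
import Fermat.Agent.ES.T56.LocAlphaTwoR2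
import Fermat.Agent.PT.PRO.MainFinal4
import Fermat.Agent.PT.GLUE.LocalFund11
import Fermat.Agent.PT.BR.DualTwist7

set_option autoImplicit false
set_option linter.unusedSectionVars false

open CategoryTheory Module groupCohomology ExtCitation
open Fermat.Agent.PT Fermat.Agent.PT.PRO Fermat.Agent.PT.GLUE Fermat.Agent.PT.GLUE.Objects21
open Fermat.Agent.PT.PRO.HyperLevel25 Fermat.Agent.PT.PRO.Resolved4
open Fermat.Agent.PT.PRO.IntRep20 Fermat.Agent.PT.PRO.LevelEquiv29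
open Fermat.Agent.PT.PRO.IndRes20 Fermat.Agent.PT.PRO.Setup20 Fermat.Agent.PT.PRO.Objects20
open Fermat.Agent.PT.PRO.KerIso7 Fermat.Agent.PT.PRO.KerIsoGal7
open Fermat.Agent.ES.T56.GlobAlphaTwo18 Fermat.Agent.ES.T56.LocAlphaTwoR2
open Fermat.Agent.ES.T56.PlainTwoZero2 Fermat.Agent.ES.T56.FreeResHom2

namespace Fermat.Agent.ES.T56.LocTwoZeroPlain2

variable (p : ℕ) [Fact p.Prime] (q : ℕ) [Fact q.Prime]

local notation "Γq" => (PadicAlgCl q ≃ₐ[ℚ_[q]] PadicAlgCl q)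

/-- The mod `p` cyclotomic character of `Γ_q`. -/
noncomputable abbrev chiLoc : Γq →* (ZMod p)ˣ := (cycloChar p).comp (localGaloisToGlobal q)

/-- Smoothness of a representation of `Γ_q` (the Prelude-style formulation). -/
def IsSmoothQ (Y : Rep.{0} (ZMod p) Γq) : Prop :=
  ∀ y : Y, ∃ F : IntermediateField ℚ (AlgebraicClosure ℚ), FiniteDimensional ℚ F ∧
    ∀ s : Γq, localGaloisToGlobal q s ∈ F.fixingSubgroup → Y.ρ s y = y

section Smooth

variable (Y : Rep.{0} (ZMod p) (PadicAlgCl q ≃ₐ[ℚ_[q]] PadicAlgCl q))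

theorem isDiscrete_of_smooth (hsm : IsSmoothQ p q Y) :
    LevelCoh28.IsDiscrete (levelLoc q).sets Y := by
  intro y
  obtain ⟨F, hF, h⟩ := hsm y
  exact ⟨F.fixingSubgroup.comap (localGaloisToGlobal q), ⟨_, ⟨F, hF, rfl⟩, rfl⟩,
    fun s hs => h s hs⟩

/-- Uniform smoothness. -/
theorem exists_level_loc [FiniteDimensional (ZMod p) Y] (hsm : IsSmoothQ p q Y) :
    ∃ F : IntermediateField ℚ (AlgebraicClosure ℚ), FiniteDimensional ℚ F ∧
      ∀ s : Γq, localGaloisToGlobal q s ∈ F.fixingSubgroup → Y.ρ s = 1 := by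
  have : Finite Y := Module.finite_of_finite (ZMod p)
  choose F hF hFm using hsm
  have : ∀ m, FiniteDimensional ℚ (F m) := hF
  refine ⟨⨆ m, F m, inferInstance, fun s hs => ?_⟩
  ext m
  exact hFm m s (IntermediateField.fixingSubgroup_antitone (le_iSup F m) hs)

theorem dualTwist_ρ_eq_one_loc {s : Γq} (h1 : Y.ρ s = 1) (h2 : chiLoc p q s = 1) :
    (Y.dualTwist (chiLoc p q)).ρ s = 1 := by
  have h3 : Y.ρ s⁻¹ = 1 := by
    have h := map_mul Y.ρ s⁻¹ s
    rw [inv_mul_cancel, map_one, h1, mul_one] at h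
    exact h.symm
  ext f m
  rw [Rep.dualTwist_ρ_apply, h2, h3]
  simp

theorem isSmoothQ_dualTwist [FiniteDimensional (ZMod p) Y] (hsm : IsSmoothQ p q Y) :
    IsSmoothQ p q (Y.dualTwist (chiLoc p q)) := by
  obtain ⟨F₀, hF₀, h₀⟩ := exists_level_loc p q Y hsm
  intro f
  refine ⟨F₀ ⊔ Fermat.Agent.S14.Fields.Kz p,
    IntermediateField.finiteDimensional_sup F₀ (Fermat.Agent.S14.Fields.Kz p), fun s hs => ?_⟩
  rw [dualTwist_ρ_eq_one_loc p q Y (h₀ s (IntermediateField.fixingSubgroup_antitone le_sup_left hs))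
    (BR.DualTwist7.cycloChar_eq_one_of_mem_fixingSubgroup_Kz p
      (IntermediateField.fixingSubgroup_antitone le_sup_right hs))]
  rfl

theorem finite_dualTwist_loc [FiniteDimensional (ZMod p) Y] :
    Finite (Y.dualTwist (chiLoc p q)) := by
  have : FiniteDimensional (ZMod p) (Y.dualTwist (chiLoc p q)) :=
    inferInstanceAs (FiniteDimensional (ZMod p) (Module.Dual (ZMod p) Y))
  exact Module.finite_of_finite (ZMod p)

theorem nsmul_dualTwist_loc (m : Y.dualTwist (chiLoc p q)) : p • m = 0 := by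
  rw [← Nat.cast_smul_eq_nsmul (ZMod p), ZMod.natCast_self, zero_smul]

end Smooth

/-! ### The count -/

section Count

variable (Y : Rep.{0} (ZMod p) (PadicAlgCl q ≃ₐ[ℚ_[q]] PadicAlgCl q))
  [FiniteDimensional (ZMod p) Y] (hsm : IsSmoothQ p q Y)

/-- The canonical resolution of `A = Y^∨(1)`. -/
noncomputable abbrev RY := HpAt29.freeRes (IntRep20.intRep (Y.dualTwist (chiLoc p q)))

include hsm in
theorem isDiscrete_RY0 : HyperLevel25.IsDiscrete (levelLoc q).sets (RY p q Y).ρ0 :=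
  FreeRes29.isDiscrete_freeRep (basis (levelLoc q))
    (isDiscrete_of_smooth p q _ (isSmoothQ_dualTwist p q Y hsm))

include hsm in
/-- **`#H²_lev(Γ_q; Y) = #(Y^∨(1))^{Γ_q}`**, `ℤ`-linear level model. -/
theorem card_Hlev2_loc :
    Finite (Hlev2 (basis (levelLoc q)) (IntRep20.intRep Y) (isDiscrete_of_smooth p q Y hsm)) ∧
      Nat.card (Hlev2 (basis (levelLoc q)) (IntRep20.intRep Y) (isDiscrete_of_smooth p q Y hsm)) =
        Nat.card ↥(IntRep20.intRep (Y.dualTwist (chiLoc p q))).invariants := by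
  have hfin := finite_dualTwist_loc p q Y
  exact card_Hp2_eq intSurj_int (basis (levelLoc q)) (RY p q Y) (isDiscrete_RY0 p q Y hsm) Y.ρ
    (isDiscrete_of_smooth p q Y hsm) (chiLoc p q) (KerIsoMain7.hA_freeRes Y (chiLoc p q))
    (isDiscrete_unitsLoc q) (muLoc p q) (exists_zsmul_eq_unitsLoc p q)
    (cardTwoEq_loc q (IntRep20.intRep (Y.dualTwist (chiLoc p q)))
      (isDiscrete_of_smooth p q _ (isSmoothQ_dualTwist p q Y hsm)) (nsmul_dualTwist_loc p q Y))

include hsm in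
/-- **`#H²_lev(Γ_q; Y) = #(Y^∨(1))^{Γ_q}`**, in the model `LevelCoh28.H2 (levelLoc q)`. -/
theorem card_H2_loc :
    Finite (LevelCoh28.H2 (levelLoc q) Y) ∧
      Nat.card (LevelCoh28.H2 (levelLoc q) Y) =
        Nat.card ↥(Y.dualTwist (chiLoc p q)).ρ.invariants := by
  obtain ⟨hfin, hcard⟩ := card_Hlev2_loc p q Y hsm
  have e := (h2IntEquiv (levelLoc q) Y (isDiscrete_of_smooth p q Y hsm)).toEquiv
  refine ⟨Finite.of_equiv _ e.symm, (Nat.card_congr e).trans (hcard.trans ?_)⟩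
  exact Nat.card_congr (Equiv.subtypeEquivRight fun a => Iff.rfl)

include hsm in
/-- **Local Tate duality in degree `(2,0)`, numerically**:
`dim H²_lev(Γ_q; Y) = dim (Y^∨(1))^{Γ_q}`. -/
theorem finrank_H2_loc :
    FiniteDimensional (ZMod p) (LevelCoh28.H2 (levelLoc q) Y) ∧
      finrank (ZMod p) (LevelCoh28.H2 (levelLoc q) Y) =
        finrank (ZMod p) ↥(Y.dualTwist (chiLoc p q)).ρ.invariants := by
  obtain ⟨hfin, hcard⟩ := card_H2_loc p q Y hsm
  have hfd : FiniteDimensional (ZMod p) (LevelCoh28.H2 (levelLoc q) Y) := Module.Finite.of_finite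
  have : FiniteDimensional (ZMod p) (Y.dualTwist (chiLoc p q)) :=
    inferInstanceAs (FiniteDimensional (ZMod p) (Module.Dual (ZMod p) Y))
  refine ⟨hfd, ?_⟩
  have h1 := Module.natCard_eq_pow_finrank (K := ZMod p) (V := LevelCoh28.H2 (levelLoc q) Y)
  have h2 := Module.natCard_eq_pow_finrank (K := ZMod p)
    (V := ↥(Y.dualTwist (chiLoc p q)).ρ.invariants)
  rw [h1, h2] at hcard
  have hp1 : 1 < Nat.card (ZMod p) := by
    rw [Nat.card_zmod]
    exact (Fact.out : p.Prime).one_lt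
  exact Nat.pow_right_injective hp1 hcard

end Count

/-! ### Right exactness -/

section RightExact

variable (Y Y'' : Rep.{0} (ZMod p) (PadicAlgCl q ≃ₐ[ℚ_[q]] PadicAlgCl q))
  [FiniteDimensional (ZMod p) Y] (hsm : IsSmoothQ p q Y)
  (ψ : Y →ₗ[ZMod p] Y'') (hψ : ∀ g y, ψ (Y.ρ g y) = Y''.ρ g (ψ y)) (hψs : Function.Surjective ψ)

include hsm hψ hψs in
theorem isSmoothQ_quot : IsSmoothQ p q Y'' := by
  intro m
  obtain ⟨x, rfl⟩ := hψs m
  obtain ⟨F, hF, hFm⟩ := hsm x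
  exact ⟨F, hF, fun s hs => by rw [← hψ, hFm s hs]⟩

/-- The transpose of `ψ` on the twisted duals, `ℤ`-linear. -/
noncomputable def dualMapZ :
    (Y''.dualTwist (chiLoc p q)) →ₗ[ℤ] (Y.dualTwist (chiLoc p q)) :=
  (ψ.dualMap : Module.Dual (ZMod p) Y'' →ₗ[ZMod p] Module.Dual (ZMod p) Y).toAddMonoidHom.toIntLinearMap

theorem dualMapZ_apply (a'' : Module.Dual (ZMod p) Y'') (m : Y) :
    (dualMapZ p q Y Y'' ψ a'' : Module.Dual (ZMod p) Y) m = a'' (ψ m) := rfl

include hψ in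
theorem dualMapZ_comm (g : PadicAlgCl q ≃ₐ[ℚ_[q]] PadicAlgCl q)
    (a'' : Y''.dualTwist (chiLoc p q)) :
    dualMapZ p q Y Y'' ψ (IntRep20.intRep (Y''.dualTwist (chiLoc p q)) g a'') =
      IntRep20.intRep (Y.dualTwist (chiLoc p q)) g (dualMapZ p q Y Y'' ψ a'') := by
  apply LinearMap.ext
  intro x
  rw [IntRep20.intRep_apply, IntRep20.intRep_apply, Rep.dualTwist_ρ_apply, Rep.dualTwist_ρ_apply]
  change (chiLoc p q g : ZMod p) • (a'' : Module.Dual (ZMod p) Y'') (Y''.ρ g⁻¹ (ψ x)) =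
    (chiLoc p q g : ZMod p) • (a'' : Module.Dual (ZMod p) Y'') (ψ (Y.ρ g⁻¹ x))
  rw [hψ]

include hsm hψ hψs in
/-- **Local `H²` is right exact** (model `LevelCoh28.H2 (levelLoc q)`): for `ψ : Y → Y''` onto,
`H²_lev(Γ_q; Y) → H²_lev(Γ_q; Y'')` is onto. -/
theorem mapH2_surjective_loc :
    Function.Surjective (LevelCoh28.mapH2 (𝓑 := levelLoc q) ψ hψ) := by
  have hfd'' : FiniteDimensional (ZMod p) Y'' := FiniteDimensional.of_surjective ψ hψs
  have hsm'' := isSmoothQ_quot p q Y Y'' hsm ψ hψ hψs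
  have hY := isDiscrete_of_smooth p q Y hsm
  have hY'' := isDiscrete_of_smooth p q Y'' hsm''
  have hfin := finite_dualTwist_loc p q Y
  have hfin'' := finite_dualTwist_loc p q Y''
  have hAd := isDiscrete_of_smooth p q _ (isSmoothQ_dualTwist p q Y hsm)
  have hAd'' := isDiscrete_of_smooth p q _ (isSmoothQ_dualTwist p q Y'' hsm'')
  -- the `ℤ`-linear version of `ψ`
  let ψk : Y →ₗ[ℤ] Y'' := ψ.toAddMonoidHom.toIntLinearMap
  have hψk : ∀ g m, ψk (KerIso7.intRep intSurj_int Y.ρ g m) =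
      KerIso7.intRep intSurj_int Y''.ρ g (ψk m) := fun g m => hψ g m
  have key := plainMapH2_surjective intSurj_int (basis (levelLoc q)) (RY p q Y)
    (isDiscrete_RY0 p q Y hsm) (RY p q Y'') (isDiscrete_RY0 p q Y'' hsm'') Y.ρ hY Y''.ρ hY''
    (chiLoc p q) (KerIsoMain7.hA_freeRes Y (chiLoc p q)) (KerIsoMain7.hA_freeRes Y'' (chiLoc p q))
    (isDiscrete_unitsLoc q) (muLoc p q) (exists_zsmul_eq_unitsLoc p q) ψk hψk
    (freeResHom (dualMapZ p q Y Y'' ψ) (dualMapZ_comm p q Y Y'' ψ hψ)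
      (isDiscrete_RY0 p q Y'' hsm'') (isDiscrete_RY0 p q Y hsm))
    (fun _ _ => rfl) hψs (nsmul_dualTwist_loc p q Y) (nsmul_dualTwist_loc p q Y'')
    (alphaTwoPackage_loc q (IntRep20.intRep (Y.dualTwist (chiLoc p q))) hAd
      (nsmul_dualTwist_loc p q Y))
    (alphaTwoPackage_loc q (IntRep20.intRep (Y''.dualTwist (chiLoc p q))) hAd''
      (nsmul_dualTwist_loc p q Y''))
  intro y''
  obtain ⟨x, hx⟩ := key (h2IntEquiv (levelLoc q) Y'' hY'' y'')
  refine ⟨(h2IntEquiv (levelLoc q) Y hY).symm x, ?_⟩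
  apply (h2IntEquiv (levelLoc q) Y'' hY'').injective
  rw [h2IntEquiv_mapH2 (levelLoc q) hY hY'' ψ hψ ψk hψk (fun _ => rfl), AddEquiv.apply_symm_apply]
  exact hx

end RightExact

end Fermat.Agent.ES.T56.LocTwoZeroPlain2
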