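/-
Programme T (S56), chapter GW, brick 2 (the LOCAL `(2,0)` leg), helper2: EXPORTS in the vocabulary of
the contract `GWIface21` / `GWProps21` (Prelude objects `continuousH2`, `continuousH2Map`).

For every prime `q`, `r_q = primeLocalToGlobal q : G_q → G_ℚ`, `χ_q = cycloChar p ∘ r_q`:

* `h2_local`            : for `Y` a finite-dimensional smooth `𝔽_p[G_q]`-module,
  `H²_cont(G_q, Y)` is finite-dimensional and `dim H²_cont(G_q, Y) = dim (Y^∨(1))^{G_q}`;
* `finiteDimensional_h2loc`, `h2loc_eq_h0loc_dualT` : `h²(G_q, X) = h⁰(G_q, X*)` for `X` global,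
  finite-dimensional and smooth;
* **`locDual20`**       : `GWProps21.LocDual20 q X`   (`h²(G_q, X*) = h⁰(G_q, X)`);
* `locDual20Ge`         : `GWProps21.LocDual20Ge q X`;
* **`locH2RightExact`** : `GWIface21.LocH2RightExact q` (local `H²` is right exact).

Unconditional (any primes `p`, `q`, including `q = p` and `p = 2`).
-/
import Mathlib
import Fermat.Agent.ES.T56.GWIface21
import Fermat.Agent.ES.T56.GWProps21
import Fermat.Agent.ES.T56.LocTwoZeroPlain2
import Fermat.Agent.PT.BR.Interface29
import Fermat.Agent.PT.GLUE.BasisCompare13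

set_option autoImplicit false

open CategoryTheory Module groupCohomology ExtCitation

namespace Fermat.Agent.ES.T56.LocTwoZeroExport2

open Fermat.Agent.ES.T56.GWIface21 Fermat.Agent.ES.T56.GWProps21
open Fermat.Agent.ES.T56.LocTwoZeroPlain2
open Fermat.Agent.PT.PRO Fermat.Agent.PT.BR Fermat.Agent.PT.BR.Interface29
open Fermat.Agent.PT.GLUE Fermat.Agent.PT.GLUE.Objects21

variable {p : ℕ} [Fact p.Prime]

/-! ### Generic: invariants of isomorphic representations -/

theorem finrank_invariants_congr {k G V W : Type*} [Field k] [Group G] [AddCommGroup V]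
    [Module k V] [AddCommGroup W] [Module k W] (ρ₁ : Representation k G V)
    (ρ₂ : Representation k G W) (e : V ≃ₗ[k] W) (he : ∀ g v, e (ρ₁ g v) = ρ₂ g (e v)) :
    finrank k ↥ρ₁.invariants = finrank k ↥ρ₂.invariants := by
  have hmap : ρ₁.invariants.map (e : V →ₗ[k] W) = ρ₂.invariants := by
    ext y
    rw [Submodule.mem_map]
    constructor
    · rintro ⟨x, hx, rfl⟩ g
      rw [LinearEquiv.coe_coe, ← he, hx g]
    · intro hy
      refine ⟨e.symm y, fun g => ?_, by simp⟩
      apply e.injective
      rw [he, LinearEquiv.apply_symm_apply, hy g]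
  rw [← hmap]
  exact (LinearEquiv.finrank_map_eq e ρ₁.invariants).symm

/-! ### The level bases -/

/-- The basis of `Interface29` for `r_q` is `levelLoc q`. -/
theorem levelBasisOf_prime_eq (q : Nat.Primes) :
    levelBasisOf (primeLocalToGlobal q) =
      (levelLoc (q : ℕ) : LevelCoh28.LevelBasis (primeLocalGaloisGroup q)) :=
  (BasisCompare13.levelBasis_ext rfl).trans (BasisCompare13.pullBasis_prime_eq q)

/-! ### The general local statement -/

section Local

variable (q : Nat.Primes) (Y : Rep.{0} (ZMod p) (primeLocalGaloisGroup q))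

/-- The mod `p` cyclotomic character of `G_q`. -/
noncomputable abbrev chiQ : primeLocalGaloisGroup q →* (ZMod p)ˣ :=
  (cycloChar p).comp (primeLocalToGlobal q)

theorem isSmoothQ_of (hsm : IsSmoothLoc q Y) : IsSmoothQ p (q : ℕ) Y := hsm

/-- **Local Tate duality in degree `(2,0)`, numerically**, for the Prelude's continuous `H²`. -/
theorem h2_local [FiniteDimensional (ZMod p) Y] (hsm : IsSmoothLoc q Y) :
    FiniteDimensional (ZMod p) (continuousH2 (primeLocalToGlobal q) Y) ∧
      finrank (ZMod p) (continuousH2 (primeLocalToGlobal q) Y) =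
        finrank (ZMod p) ↥(Y.dualTwist (chiQ (p := p) q)).ρ.invariants := by
  obtain ⟨hfd, hrk⟩ := finrank_H2_loc p (q : ℕ) Y (isSmoothQ_of q Y hsm)
  have e := h2Equiv (primeLocalToGlobal q) Y
  rw [levelBasisOf_prime_eq q] at e
  exact ⟨@LinearEquiv.finiteDimensional _ _ _ _ _ _ _ _ e.symm hfd, e.finrank_eq.trans hrk⟩

end Local

/-! ### Global representations restricted to `G_q` -/

section Global

variable (q : Nat.Primes) (X : Rep.{0} (ZMod p) GQ)

theorem isSmoothLoc_res (hsm : IsSmooth p X) :
    IsSmoothLoc q (Rep.res (primeLocalToGlobal q) X) := by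
  intro x
  obtain ⟨F, hF, hFx⟩ := hsm x
  exact ⟨F, hF, fun s hs => hFx (primeLocalToGlobal q s) hs⟩

/-- `((X|_{G_q})^∨(1))^{G_q} = ((X^∨(1))|_{G_q})^{G_q}`. -/
theorem invariants_dualTwist_res :
    ((Rep.res (primeLocalToGlobal q) X).dualTwist (chiQ (p := p) q)).ρ.invariants =
      (Rep.res (primeLocalToGlobal q) (dualT p X)).ρ.invariants := by
  ext a
  constructor
  · intro h g
    have := h g
    rw [Rep.dualTwist_ρ_apply] at this
    show (dualT p X).ρ (primeLocalToGlobal q g) a = a
    rw [Rep.dualTwist_ρ_apply, ← map_inv]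
    exact this
  · intro h g
    have : (dualT p X).ρ (primeLocalToGlobal q g) a = a := h g
    rw [Rep.dualTwist_ρ_apply, ← map_inv] at this
    rw [Rep.dualTwist_ρ_apply]
    exact this

theorem finrank_invariants_dualTwist_res :
    finrank (ZMod p)
        ↥((Rep.res (primeLocalToGlobal q) X).dualTwist (chiQ (p := p) q)).ρ.invariants =
      h0loc p q (dualT p X) := by
  rw [invariants_dualTwist_res]
  rfl

theorem h0loc_ddual [FiniteDimensional (ZMod p) X] :
    h0loc p q (dualT p (dualT p X)) = h0loc p q X :=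
  (finrank_invariants_congr (Rep.res (primeLocalToGlobal q) X).ρ
    (Rep.res (primeLocalToGlobal q) (dualT p (dualT p X))).ρ
    (DualTwist7.ddualEquiv (cycloChar p) X)
    (fun g v => DualTwist7.ddualEquiv_ρ (cycloChar p) X (primeLocalToGlobal q g) v)).symm

variable [FiniteDimensional (ZMod p) X] (hsm : IsSmooth p X)

include hsm in
/-- `H²_cont(G_q, X)` is finite-dimensional. -/
theorem finiteDimensional_h2loc :
    FiniteDimensional (ZMod p)
      (continuousH2 (primeLocalToGlobal q) (Rep.res (primeLocalToGlobal q) X)) :=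
  haveI : FiniteDimensional (ZMod p) (Rep.res (primeLocalToGlobal q) X) :=
    inferInstanceAs (FiniteDimensional (ZMod p) X)
  (h2_local q (Rep.res (primeLocalToGlobal q) X) (isSmoothLoc_res q X hsm)).1

include hsm in
/-- **`h²(G_q, X) = h⁰(G_q, X*)`.** -/
theorem h2loc_eq_h0loc_dualT : h2loc p q X = h0loc p q (dualT p X) := by
  have : FiniteDimensional (ZMod p) (Rep.res (primeLocalToGlobal q) X) :=
    inferInstanceAs (FiniteDimensional (ZMod p) X)
  exact (h2_local q (Rep.res (primeLocalToGlobal q) X) (isSmoothLoc_res q X hsm)).2.trans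
    (finrank_invariants_dualTwist_res q X)

include hsm in
/-- **`GWProps21.LocDual20`**: `h²(G_q, X*) = h⁰(G_q, X)`. -/
theorem locDual20 : LocDual20 q X := by
  have hfd : FiniteDimensional (ZMod p) (dualT p X) :=
    inferInstanceAs (FiniteDimensional (ZMod p) (Module.Dual (ZMod p) X))
  unfold LocDual20
  rw [h2loc_eq_h0loc_dualT q (dualT p X) (DualTwist7.smooth_dualTwist X hsm), h0loc_ddual]

include hsm in
/-- **`GWProps21.LocDual20Ge`**: `h⁰(G_q, X*) ≤ h²(G_q, X)` (an equality). -/
theorem locDual20Ge : LocDual20Ge q X :=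
  (h2loc_eq_h0loc_dualT q X hsm).ge

end Global

/-! ### Right exactness -/

section RightExact

variable {H : Type} [Group H] (r : H →* GalQ) {Y Y'' : Rep.{0} (ZMod p) H}
  (ψ : Y →ₗ[ZMod p] Y'') (hψ : ∀ g y, ψ (Y.ρ g y) = Y''.ρ g (ψ y))

/-- The Prelude's `continuousH2Map` along `id` is `LevelCoh28.mapH2`. -/
theorem h2Equiv_map (x : continuousH2 r Y) :
    h2Equiv r Y'' (continuousH2Map (rH := r) (rG := r) (MonoidHom.id H) (fun _ => rfl) ψ hψ x) =
      LevelCoh28.mapH2 (𝓑 := levelBasisOf r) ψ hψ (h2Equiv r Y x) := by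
  induction x using Submodule.Quotient.induction_on with
  | _ f => rfl

end RightExact

/-- **`GWIface21.LocH2RightExact`**: local `H²` is right exact. -/
theorem locH2RightExact (q : Nat.Primes) : LocH2RightExact (p := p) q := by
  intro Y Y'' ψ hψ hfd hsm hψs
  have key : Function.Surjective
      (LevelCoh28.mapH2 (𝓑 := levelBasisOf (primeLocalToGlobal q)) ψ hψ) := by
    rw [levelBasisOf_prime_eq q]
    exact mapH2_surjective_loc p (q : ℕ) Y Y'' (isSmoothQ_of q Y hsm) ψ hψ hψs
  intro y''
  obtain ⟨x, hx⟩ := key (h2Equiv (primeLocalToGlobal q) Y'' y'')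
  refine ⟨(h2Equiv (primeLocalToGlobal q) Y).symm x, ?_⟩
  apply (h2Equiv (primeLocalToGlobal q) Y'').injective
  rw [h2Equiv_map, LinearEquiv.apply_symm_apply, hx]

end Fermat.Agent.ES.T56.LocTwoZeroExport2
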