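/-
Programme T (S56), chapter GW-A, helper21: the LINEAR ALGEBRA of the Greenberg–Wiles inequality
("claim C1" of `T56_GW.md`).

Abstract setting: global spaces `H`, `H'` (`= H¹(G_S, M)`, `H¹(G_S, N)`), local spaces `V v`, `V' v`
with localisation maps `res v`, `res' v`, local pairings `B v : V v × V' v → k` satisfying the
reciprocity law `∑ v, B v (res v x) (res' v y) = 0`, and local conditions `L v ⊆ V v`.
With `sel res L = {x | ∀ v, res v x ∈ L v}` and `perp B L v` the exact annihilator of `L v`:

  `dim sel res L + dim H' ≤ dim (⨅ v, ker (res v)) + ∑ v, dim L v + dim sel res' (perp B L)`.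

No nondegeneracy of the local pairings is used.
-/
import Mathlib

set_option autoImplicit false

namespace Fermat.Agent.ES.T56.SelLinAlg21

open Module

variable {k : Type*} [Field k] {ι : Type*}
variable {H H' : Type*} [AddCommGroup H] [Module k H] [AddCommGroup H'] [Module k H']
variable {V V' : ι → Type*} [∀ v, AddCommGroup (V v)] [∀ v, Module k (V v)]
  [∀ v, AddCommGroup (V' v)] [∀ v, Module k (V' v)]

/-- The Selmer subspace cut out by the local conditions `L`. -/
def sel (res : ∀ v, H →ₗ[k] V v) (L : ∀ v, Submodule k (V v)) : Submodule k H :=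
  ⨅ v, (L v).comap (res v)

theorem mem_sel_iff (res : ∀ v, H →ₗ[k] V v) (L : ∀ v, Submodule k (V v)) (x : H) :
    x ∈ sel res L ↔ ∀ v, res v x ∈ L v := by
  simp [sel, Submodule.mem_iInf]

/-- The exact annihilator of `L v` under the local pairing `B v`. -/
def perp (B : ∀ v, V v →ₗ[k] V' v →ₗ[k] k) (L : ∀ v, Submodule k (V v)) (v : ι) :
    Submodule k (V' v) :=
  (L v).dualAnnihilator.comap (B v).flip

theorem mem_perp_iff (B : ∀ v, V v →ₗ[k] V' v →ₗ[k] k) (L : ∀ v, Submodule k (V v)) (v : ι)
    (y : V' v) : y ∈ perp B L v ↔ ∀ x ∈ L v, B v x y = 0 := by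
  simp only [perp, Submodule.mem_comap, Submodule.mem_dualAnnihilator]
  exact forall₂_congr fun x _ => by rw [LinearMap.flip_apply]

/-- The locally trivial classes. -/
def sha (res : ∀ v, H →ₗ[k] V v) : Submodule k H := ⨅ v, LinearMap.ker (res v)

theorem mem_sha_iff (res : ∀ v, H →ₗ[k] V v) (x : H) : x ∈ sha res ↔ ∀ v, res v x = 0 := by
  simp [sha, Submodule.mem_iInf]

section Main

variable (res : ∀ v, H →ₗ[k] V v) (res' : ∀ v, H' →ₗ[k] V' v)
  (B : ∀ v, V v →ₗ[k] V' v →ₗ[k] k) (L : ∀ v, Submodule k (V v))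

/-- Localisation `sel res L → ∏ v, L v`. -/
def locSel : ↥(sel res L) →ₗ[k] (∀ v, ↥(L v)) :=
  LinearMap.pi fun v =>
    ((res v).comp (sel res L).subtype).codRestrict (L v)
      (fun x => (mem_sel_iff res L x.1).1 x.2 v)

@[simp] theorem locSel_apply (x : ↥(sel res L)) (v : ι) :
    ((locSel res L x) v : V v) = res v x.1 := rfl

theorem ker_locSel_le (x : ↥(sel res L)) (hx : x ∈ LinearMap.ker (locSel res L)) :
    (x : H) ∈ sha res := by
  rw [mem_sha_iff]
  intro v
  have h : locSel res L x = 0 := LinearMap.mem_ker.1 hx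
  have h' : ((locSel res L x) v : V v) = ((0 : ∀ v, ↥(L v)) v : V v) := by rw [h]
  exact h'

theorem finrank_ker_locSel_le [FiniteDimensional k H] :
    finrank k ↥(LinearMap.ker (locSel res L)) ≤ finrank k ↥(sha res) := by
  let j : ↥(LinearMap.ker (locSel res L)) →ₗ[k] ↥(sha res) :=
    ((sel res L).subtype.comp (LinearMap.ker (locSel res L)).subtype).codRestrict (sha res)
      (fun x => ker_locSel_le res L x.1 x.2)
  refine LinearMap.finrank_le_finrank_of_injective (f := j) ?_
  intro a b hab
  have h : ((j a : ↥(sha res)) : H) = ((j b : ↥(sha res)) : H) := congrArg Subtype.val hab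
  exact Subtype.ext (Subtype.ext h)

variable [Fintype ι]

/-- The pairing `(∏ v, L v) × H' → k`, `(ℓ, y) ↦ ∑ v, B v (ℓ v) (res' v y)`. -/
def pairL : (∀ v, ↥(L v)) →ₗ[k] H' →ₗ[k] k :=
  ∑ v, (B v).compl₁₂ ((L v).subtype.comp (LinearMap.proj v)) (res' v)

@[simp] theorem pairL_apply (ℓ : ∀ v, ↥(L v)) (y : H') :
    pairL res' B L ℓ y = ∑ v, B v (ℓ v : V v) (res' v y) := by
  simp [pairL, LinearMap.sum_apply, LinearMap.compl₁₂_apply]

theorem ker_flip_pairL_le [DecidableEq ι] :
    LinearMap.ker (pairL res' B L).flip ≤ sel res' (perp B L) := by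
  intro y hy
  rw [mem_sel_iff]
  intro v
  rw [mem_perp_iff]
  intro x hx
  have h := LinearMap.congr_fun (LinearMap.mem_ker.1 hy) (Pi.single v ⟨x, hx⟩)
  rw [LinearMap.flip_apply, pairL_apply, LinearMap.zero_apply] at h
  rw [Finset.sum_eq_single v] at h
  · simpa using h
  · intro w _ hw
    rw [Pi.single_eq_of_ne hw]
    simp
  · intro hv
    exact absurd (Finset.mem_univ v) hv

theorem range_locSel_le (hrec : ∀ (x : H) (y : H'), ∑ v, B v (res v x) (res' v y) = 0) :
    LinearMap.range (locSel res L) ≤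
      (LinearMap.range (pairL res' B L).flip).dualCoannihilator := by
  rintro _ ⟨x, rfl⟩
  rw [Submodule.mem_dualCoannihilator]
  rintro _ ⟨y, rfl⟩
  rw [LinearMap.flip_apply, pairL_apply]
  exact hrec x.1 y

/-- **C1.**  The Greenberg–Wiles inequality, linear-algebra part. -/
theorem finrank_sel_add_le [FiniteDimensional k H] [FiniteDimensional k H']
    [∀ v, FiniteDimensional k ↥(L v)]
    (hrec : ∀ (x : H) (y : H'), ∑ v, B v (res v x) (res' v y) = 0) :
    finrank k ↥(sel res L) + finrank k H' ≤
      finrank k ↥(sha res) + ∑ v, finrank k ↥(L v) + finrank k ↥(sel res' (perp B L)) := by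
  classical
  have h1 := finrank_ker_locSel_le res L
  have h6 : finrank k ↥(LinearMap.ker (pairL res' B L).flip) ≤
      finrank k ↥(sel res' (perp B L)) :=
    Submodule.finrank_mono (ker_flip_pairL_le res' B L)
  have h8 : finrank k ↥(LinearMap.range (locSel res L)) ≤
      finrank k ↥(LinearMap.range (pairL res' B L).flip).dualCoannihilator :=
    Submodule.finrank_mono (range_locSel_le res res' B L hrec)
  have h7 := LinearMap.finrank_range_add_finrank_ker (locSel res L)
  have h4 : finrank k (∀ v, ↥(L v)) = ∑ v, finrank k ↥(L v) := Module.finrank_pi_fintype k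
  generalize (pairL res' B L).flip = ψ at h6 h8
  have h3 : finrank k ↥(LinearMap.range ψ) + finrank k ↥(LinearMap.range ψ).dualCoannihilator =
      finrank k (∀ v, ↥(L v)) :=
    Subspace.finrank_add_finrank_dualCoannihilator_eq (LinearMap.range ψ)
  have h5 : finrank k ↥(LinearMap.range ψ) + finrank k ↥(LinearMap.ker ψ) = finrank k H' :=
    LinearMap.finrank_range_add_finrank_ker ψ
  omega

end Main

end Fermat.Agent.ES.T56.SelLinAlg21
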