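/-
Programme T (S56), chapter GW-A, helper25: ASSEMBLY of the Greenberg–Wiles inequality from the
frozen claims of `GWIface21` (route ALT-1 = C1–C4):

  `gwLe_of_claims : (∀ Sg, ShaCount Sg M) → (∀ Sg, HardP2 Sg (dualT p M)) → (∀ Sg, GlobChi p Sg) → GWLe M P`

on top of helper21's `SelLinAlg21.finrank_sel_add_le` (C1, pure linear algebra).

Contents:
* `cycloChar_complexConjugation`     : `χ_cyc(c) = -1`;
* `h0c_dualT_add`                   : `h⁰(⟨c⟩, M^∨(1)) + h⁰(⟨c⟩, M) = dim M` (`p` odd);
* `h0_congr`, `h0loc_congr`, `h0_ddual`, `h0loc_ddual` : invariants along equivariant isomorphisms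
  and along `M ≅ (M')'` (`DualTwist7.ddualEquiv`);
* `resLoc_mem_contLoc`              : localisation maps `continuousH1S` into the continuous local `H¹`;
* `selS_eq`, `shaS_eq`, `dualSelS_eq` : the abstract Selmer spaces of `SelLinAlg21` (inside
  `↥(continuousH1S Sg ·)`) are the pull-backs of `sel`, `sha₁`, `dualSel` of `GWIface21`;
* `perp_smul_unit`                  : exact annihilators do not see unit weights (contract v3:
  `LocPairing.recip` holds up to `Sg`-dependent unit weights `c q`);
* `gwLe_of_claims`.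
-/
import Mathlib
import Fermat.Agent.ES.T56.GWIface21
import Fermat.Agent.ES.T56.SelLinAlg21
import Fermat.Agent.PT.BR.Interface29
import Fermat.Agent.PT.BR.Arch7
import Fermat.Agent.PT.BR.DualTwist7

set_option autoImplicit false

namespace Fermat.Agent.ES.T56.GwLeAsm25

open CategoryTheory Module groupCohomology ExtCitation
open Fermat.Agent.ES.T56.GWIface21
open Fermat.Agent.PT.BR

/-! ### The cyclotomic character of complex conjugation -/

section Cyclo

variable (p : ℕ) [Fact p.Prime]

/-- Complex conjugation inverts roots of unity. -/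
theorem complexConjugation_apply_of_pow_eq_one (t : AlgebraicClosure ℚ) {n : ℕ} (hn : n ≠ 0)
    (ht : t ^ n = 1) : complexConjugation t = t⁻¹ := by
  apply complexEmbedding.toRingHom.injective
  change complexEmbedding (complexConjugation t) = complexEmbedding t⁻¹
  rw [complexEmbedding_complexConjugation, map_inv₀]
  have h1 : (complexEmbedding t) ^ n = 1 := by rw [← map_pow, ht, map_one]
  have h2 : ‖complexEmbedding t‖ = 1 := Complex.norm_eq_one_of_pow_eq_one h1 hn
  exact (Complex.inv_eq_conj h2).symm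

theorem val_neg_one_units : ((-1 : (ZMod p)ˣ) : ZMod p).val + 1 = p := by
  have hp : p.Prime := Fact.out
  obtain ⟨m, rfl⟩ : ∃ m, p = m + 1 := ⟨p - 1, (Nat.sub_add_cancel hp.pos).symm⟩
  rw [Units.val_neg, Units.val_one, ZMod.val_neg_one]

/-- `χ_cyc(c) = -1`. -/
theorem cycloChar_complexConjugation : cycloChar p complexConjugation = -1 := by
  have : NeZero p := ⟨(Fact.out : p.Prime).ne_zero⟩
  have hp : p.Prime := Fact.out
  have key : ((-1 : (ZMod p)ˣ) : ZMod p) =
      modularCyclotomicCharacter (AlgebraicClosure ℚ) (card_rootsOfUnity_eq_self p)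
        (complexConjugation : AlgebraicClosure ℚ ≃+* AlgebraicClosure ℚ) := by
    apply modularCyclotomicCharacter.unique
    intro t ht
    have htp : (t : AlgebraicClosure ℚ) ^ p = 1 := by
      have := (mem_rootsOfUnity _ _).1 ht
      rw [← Units.val_pow_eq_pow_val, this, Units.val_one]
    have h1 : (complexConjugation : AlgebraicClosure ℚ ≃+* AlgebraicClosure ℚ)
        (t : AlgebraicClosure ℚ) = (t : AlgebraicClosure ℚ)⁻¹ :=
      complexConjugation_apply_of_pow_eq_one (t : AlgebraicClosure ℚ) hp.ne_zero htp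
    rw [h1]
    have ht0 : (t : AlgebraicClosure ℚ) ≠ 0 := t.ne_zero
    rw [eq_comm, ← mul_right_inj' ht0, ← pow_succ', val_neg_one_units, htp,
      mul_inv_cancel₀ ht0]
  symm
  apply Units.ext
  rw [key]
  rfl

end Cyclo

/-! ### `h⁰(⟨c⟩, ·)` of the Tate dual -/

/-- Linear algebra: for an involution `T` of a finite-dimensional space over a field with `2 ≠ 0`,
`dim ker (-(T.dualMap) - 1) + dim ker (T - 1) = dim V`. -/
theorem finrank_ker_neg_dualMap {K V : Type*} [Field K] [AddCommGroup V] [Module K V]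
    [FiniteDimensional K V] (h2 : (2 : K) ≠ 0) (T : V →ₗ[K] V) (hT : T ∘ₗ T = LinearMap.id) :
    finrank K ↥(LinearMap.ker (-(T.dualMap) - 1 : Module.Dual K V →ₗ[K] Module.Dual K V)) +
      finrank K ↥(LinearMap.ker (T - 1)) = finrank K V := by
  have hrange : LinearMap.range (T + 1) = LinearMap.ker (T - 1) := by
    ext x
    constructor
    · rintro ⟨y, rfl⟩
      rw [LinearMap.mem_ker]
      have h := LinearMap.congr_fun hT y
      simp only [LinearMap.comp_apply, LinearMap.id_apply] at h
      simp only [LinearMap.sub_apply, LinearMap.add_apply, Module.End.one_apply, map_add, h]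
      abel
    · intro hx
      rw [LinearMap.mem_ker, LinearMap.sub_apply, Module.End.one_apply, sub_eq_zero] at hx
      refine ⟨(2 : K)⁻¹ • x, ?_⟩
      rw [LinearMap.add_apply, Module.End.one_apply, map_smul, hx, ← add_smul, ← two_mul,
        mul_inv_cancel₀ h2, one_smul]
  have hker : LinearMap.ker (-(T.dualMap) - 1 : Module.Dual K V →ₗ[K] Module.Dual K V) =
      (LinearMap.range (T + 1)).dualAnnihilator := by
    rw [← LinearMap.ker_dualMap_eq_dualAnnihilator_range]
    ext f
    simp only [LinearMap.mem_ker]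
    have e : (-(T.dualMap) - 1 : Module.Dual K V →ₗ[K] Module.Dual K V) f =
        -((T + 1).dualMap f) := by
      ext v
      simp only [LinearMap.sub_apply, LinearMap.neg_apply, Module.End.one_apply,
        LinearMap.dualMap_apply, LinearMap.add_apply, map_add]
      abel
    rw [e, neg_eq_zero]
  rw [hker, hrange, add_comm]
  exact Subspace.finrank_add_finrank_dualAnnihilator_eq _

variable {p : ℕ} [Fact p.Prime]

theorem two_ne_zero_zmod (hp2 : p ≠ 2) : (2 : ZMod p) ≠ 0 := by
  intro h
  have h' : ((2 : ℕ) : ZMod p) = 0 := by exact_mod_cast h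
  rw [ZMod.natCast_eq_zero_iff] at h'
  exact hp2 ((Nat.prime_dvd_prime_iff_eq Fact.out Nat.prime_two).1 h')

/-- `h⁰(⟨c⟩, M^∨(1)) + h⁰(⟨c⟩, M) = dim M` for `p` odd. -/
theorem h0c_dualT_add (hp2 : p ≠ 2) (M : Rep (ZMod p) GQ) [FiniteDimensional (ZMod p) M] :
    h0c p (dualT p M) + h0c p M = finrank (ZMod p) M := by
  have h2 : (2 : ZMod p) ≠ 0 := two_ne_zero_zmod hp2
  have hT : M.ρ complexConjugation ∘ₗ M.ρ complexConjugation = LinearMap.id := by
    have := M.ρ.map_mul complexConjugation complexConjugation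
    rw [complexConjugation_mul_self, map_one] at this
    exact this.symm
  have key := finrank_ker_neg_dualMap h2 (M.ρ complexConjugation) hT
  have e : ((dualT p M).ρ complexConjugation - 1 : _ →ₗ[ZMod p] _) =
      (-((M.ρ complexConjugation).dualMap) - 1 : Module.Dual (ZMod p) M →ₗ[ZMod p] _) := by
    ext f v
    simp only [LinearMap.sub_apply, LinearMap.neg_apply, Module.End.one_apply,
      LinearMap.dualMap_apply]
    rw [Rep.dualTwist_ρ_apply, cycloChar_complexConjugation, complexConjugation_inv]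
    simp
  unfold h0c
  rw [e]
  exact key

/-! ### Invariants along equivariant isomorphisms -/

/-- `h⁰` is invariant under equivariant linear isomorphisms. -/
theorem h0_congr {G : Type} [Group G] (X Y : Rep (ZMod p) G) (e : X ≃ₗ[ZMod p] Y)
    (he : ∀ g x, e (X.ρ g x) = Y.ρ g (e x)) : h0 p X = h0 p Y := by
  have hmap : (X.ρ.invariants).map (e : X →ₗ[ZMod p] Y) = Y.ρ.invariants := by
    ext y
    constructor
    · rintro ⟨x, hx, rfl⟩
      intro g
      have hx' : X.ρ g x = x := hx g
      change Y.ρ g (e x) = e x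
      rw [← he, hx']
    · intro hy
      refine ⟨e.symm y, ?_, by simp⟩
      intro g
      apply e.injective
      have hy' : Y.ρ g y = y := hy g
      change e (X.ρ g (e.symm y)) = e (e.symm y)
      rw [he, e.apply_symm_apply, hy']
  exact LinearEquiv.finrank_eq (LinearEquiv.ofSubmodules e _ _ hmap)

/-- `h⁰(G_q, ·)` is invariant under equivariant linear isomorphisms. -/
theorem h0loc_congr (q : Nat.Primes) (X Y : Rep (ZMod p) GQ) (e : X ≃ₗ[ZMod p] Y)
    (he : ∀ g x, e (X.ρ g x) = Y.ρ g (e x)) : h0loc p q X = h0loc p q Y :=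
  h0_congr (Rep.res (primeLocalToGlobal q) X) (Rep.res (primeLocalToGlobal q) Y) e
    (fun g x => he (primeLocalToGlobal q g) x)

theorem h0_ddual (M : Rep (ZMod p) GQ) [FiniteDimensional (ZMod p) M] :
    h0 p (dualT p (dualT p M)) = h0 p M :=
  (h0_congr M (dualT p (dualT p M)) (DualTwist7.ddualEquiv (cycloChar p) M)
    (DualTwist7.ddualEquiv_ρ (cycloChar p) M)).symm

theorem h0loc_ddual (q : Nat.Primes) (M : Rep (ZMod p) GQ) [FiniteDimensional (ZMod p) M] :
    h0loc p q (dualT p (dualT p M)) = h0loc p q M :=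
  (h0loc_congr q M (dualT p (dualT p M)) (DualTwist7.ddualEquiv (cycloChar p) M)
    (DualTwist7.ddualEquiv_ρ (cycloChar p) M)).symm

/-! ### Localisation preserves continuity -/

/-- The localisation of a class in `continuousH1S Sg X` is a continuous local class. -/
theorem resLoc_mem_contLoc (Sg : Finset Nat.Primes) (q : Nat.Primes) (X : Rep (ZMod p) GQ)
    {x : H1 X} (hx : x ∈ continuousH1S Sg X) : resLoc p q X x ∈ contLoc p q X := by
  rw [← Interface29.range_toH1_levelBasisS] at hx
  obtain ⟨y, rfl⟩ := hx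
  rw [contLoc, ← Interface29.range_toH1_levelBasisOf]
  exact ⟨_, Interface29.toH1_ppH1_res (Interface29.levelBasisOf (primeLocalToGlobal q))
    (Interface29.levelBasisS Sg) (primeLocalToGlobal q) X
    (Interface29.isLevelHom_levelsOf_levelsS (primeLocalToGlobal q) Sg) y⟩

/-! ### The abstract Selmer spaces of `SelLinAlg21` inside `↥(continuousH1S Sg ·)` -/

/-- Localisation at `q ∈ Sg` on `↥(continuousH1S Sg X)`. -/
noncomputable def resS (Sg : Finset Nat.Primes) (X : Rep (ZMod p) GQ) (q : ↥Sg) :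
    ↥(continuousH1S Sg X) →ₗ[ZMod p] H1loc p q.1 X :=
  (resLoc p q.1 X).comp (continuousH1S Sg X).subtype

theorem resS_apply (Sg : Finset Nat.Primes) (X : Rep (ZMod p) GQ) (q : ↥Sg)
    (x : ↥(continuousH1S Sg X)) : resS Sg X q x = resLoc p q.1 X x.1 := rfl

/-- `sel` of `SelLinAlg21` for the local conditions `L.fin` is the pull-back of `GWIface21.sel`. -/
theorem selS_eq (hp2 : p ≠ 2) (Sg : Finset Nat.Primes) (M : Rep (ZMod p) GQ) (L : LocCond Sg M) :
    SelLinAlg21.sel (resS Sg M) (fun q => L.fin q) =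
      (sel Sg M L).comap (continuousH1S Sg M).subtype := by
  ext x
  rw [SelLinAlg21.mem_sel_iff, Submodule.mem_comap, sel, Submodule.mem_inf, mem_selmer_iff]
  constructor
  · intro h
    refine ⟨x.2, ?_⟩
    intro w
    rcases w with v | q
    · have := Arch7.subsingleton_H1_arch hp2 M
      have h0 : (locRes (extArithLoc Sg) M (Sum.inl v)).hom ((continuousH1S Sg M).subtype x) = 0 :=
        Subsingleton.elim (α := H1 (Rep.res archimedeanLoc M)) _ _
      exact h0.symm ▸ Submodule.zero_mem (L (Sum.inl v))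
    · exact (h q).1
  · rintro ⟨-, h⟩ q
    exact ⟨h (Sum.inr q), resLoc_mem_contLoc Sg q.1 M x.2⟩

/-- `sha` of `SelLinAlg21` is the pull-back of the Prelude's `sha₁`. -/
theorem shaS_eq (hp2 : p ≠ 2) (Sg : Finset Nat.Primes) (M : Rep (ZMod p) GQ) :
    SelLinAlg21.sha (resS Sg M) = (sha₁ Sg M).comap (continuousH1S Sg M).subtype := by
  ext x
  rw [SelLinAlg21.mem_sha_iff, Submodule.mem_comap, Arch7.mem_sha₁_iff hp2]
  constructor
  · intro h
    exact ⟨x.2, fun q => h q⟩
  · rintro ⟨-, h⟩ q
    exact h q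

/-- Exact annihilators do not see unit weights. -/
theorem perp_smul_unit {ι : Type*} {V V' : ι → Type*} [∀ v, AddCommGroup (V v)]
    [∀ v, Module (ZMod p) (V v)] [∀ v, AddCommGroup (V' v)] [∀ v, Module (ZMod p) (V' v)]
    (c : ι → (ZMod p)ˣ) (B : ∀ v, V v →ₗ[ZMod p] V' v →ₗ[ZMod p] ZMod p)
    (L : ∀ v, Submodule (ZMod p) (V v)) (v : ι) :
    SelLinAlg21.perp (fun v => (c v : ZMod p) • B v) L v = SelLinAlg21.perp B L v := by
  ext y
  rw [SelLinAlg21.mem_perp_iff, SelLinAlg21.mem_perp_iff]
  refine forall₂_congr fun x _ => ?_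
  rw [LinearMap.smul_apply, LinearMap.smul_apply, smul_eq_mul]
  exact (c v).isUnit.mul_right_eq_zero

/-- `sel` of `SelLinAlg21` for the exact annihilators (of the pairings weighted by units `c`) is the
pull-back of `GWIface21.dualSel`. -/
theorem dualSelS_eq (Sg : Finset Nat.Primes) (M : Rep (ZMod p) GQ) (P : LocPairing p M)
    (L : LocCond Sg M) (c : Nat.Primes → (ZMod p)ˣ) :
    SelLinAlg21.sel (resS Sg (dualT p M))
        (SelLinAlg21.perp (fun q : ↥Sg => (c q.1 : ZMod p) • P.pair q.1) (fun q => L.fin q)) =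
      (dualSel P Sg L).comap (continuousH1S Sg (dualT p M)).subtype := by
  ext x
  rw [SelLinAlg21.mem_sel_iff, Submodule.mem_comap, dualSel, sel, Submodule.mem_inf,
    mem_selmer_iff]
  constructor
  · intro h
    refine ⟨x.2, ?_⟩
    intro w
    rcases w with v | q
    · exact Submodule.mem_top
    · have hq := h q
      rw [perp_smul_unit (fun q : ↥Sg => c q.1) (fun q : ↥Sg => P.pair q.1)] at hq
      exact hq
  · rintro ⟨-, h⟩ q
    rw [perp_smul_unit (fun q : ↥Sg => c q.1) (fun q : ↥Sg => P.pair q.1)]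
    exact h (Sum.inr q)

/-- A submodule below `T` and its pull-back to `↥T` have the same dimension. -/
theorem finrank_comap_subtype {V : Type*} [AddCommGroup V] [Module (ZMod p) V]
    (T S : Submodule (ZMod p) V) (h : S ≤ T) :
    finrank (ZMod p) ↥(S.comap T.subtype) = finrank (ZMod p) ↥S :=
  LinearEquiv.finrank_eq (Submodule.comapSubtypeEquivOfLe h)

/-! ### The assembly -/

/-- **(GW≤) from the claims C2, C3, C4** (C1 = `SelLinAlg21.finrank_sel_add_le`). -/
theorem gwLe_of_claims (hp2 : p ≠ 2) (M : Rep (ZMod p) GQ) [FiniteDimensional (ZMod p) M]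
    (hsm : IsSmooth p M) (P : LocPairing p M)
    (hC2 : ∀ Sg : Finset Nat.Primes, pPrime p ∈ Sg → IsUnramOutside p Sg M → ShaCount Sg M)
    (hC3 : ∀ Sg : Finset Nat.Primes, pPrime p ∈ Sg → IsUnramOutside p Sg M →
      HardP2 Sg (dualT p M))
    (hC4 : ∀ Sg : Finset Nat.Primes, pPrime p ∈ Sg → GlobChi p Sg) : GWLe M P := by
  intro Sg hpS hur L hLfin
  have hsmN : IsSmooth p (dualT p M) := DualTwist7.smooth_dualTwist M hsm
  have hurN : IsUnramOutside p Sg (dualT p M) := DualTwist7.unram_dualTwist M hpS hur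
  obtain ⟨hfM1, -, -⟩ := hC4 Sg hpS M inferInstance hsm hur
  obtain ⟨hfN1, -, hchiN⟩ := hC4 Sg hpS (dualT p M) inferInstance hsmN hurN
  obtain ⟨-, -, hsha⟩ := hC2 Sg hpS hur
  obtain ⟨-, hP2⟩ := hC3 Sg hpS hur
  have hselle : sel Sg M L ≤ continuousH1S Sg M := inf_le_left
  have hshale : sha₁ Sg M ≤ continuousH1S Sg M := inf_le_left
  have hdualle : dualSel P Sg L ≤ continuousH1S Sg (dualT p M) := inf_le_left
  have hfsel : FiniteDimensional (ZMod p) ↥(sel Sg M L) :=
    Submodule.finiteDimensional_of_le hselle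
  have hfdual : FiniteDimensional (ZMod p) ↥(dualSel P Sg L) :=
    Submodule.finiteDimensional_of_le hdualle
  refine ⟨hfsel, hfdual, ?_⟩
  -- C1
  obtain ⟨c, hc⟩ := P.recip Sg hpS hur
  have hrec : ∀ (x : ↥(continuousH1S Sg M)) (y : ↥(continuousH1S Sg (dualT p M))),
      ∑ q : ↥Sg, ((c q.1 : ZMod p) • P.pair q.1) (resS Sg M q x) (resS Sg (dualT p M) q y) = 0 := by
    intro x y
    have h := hc x.1 x.2 y.1 y.2
    rw [← Finset.sum_coe_sort] at h
    exact h
  have main := SelLinAlg21.finrank_sel_add_le (resS Sg M) (resS Sg (dualT p M))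
    (fun q : ↥Sg => (c q.1 : ZMod p) • P.pair q.1) (fun q => L.fin q) hrec
  rw [selS_eq hp2, shaS_eq hp2, dualSelS_eq, finrank_comap_subtype _ _ hselle,
    finrank_comap_subtype _ _ hshale, finrank_comap_subtype _ _ hdualle] at main
  -- C3 transported along `M ≅ (M')'`
  have hsum : ∑ q : ↥Sg, h0loc p q.1 (dualT p (dualT p M)) = ∑ q : ↥Sg, h0loc p q.1 M :=
    Finset.sum_congr rfl fun q _ => h0loc_ddual q.1 M
  rw [hsum, h0_ddual] at hP2
  -- C4 for `N` and the archimedean term
  have hdim : finrank (ZMod p) (dualT p M) = finrank (ZMod p) M :=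
    Rep.finrank_dualTwist (ZMod p) M (cycloChar p)
  have hc := h0c_dualT_add hp2 M
  have h1N : finrank (ZMod p) ↥(continuousH1S Sg (dualT p M)) = h1S p Sg (dualT p M) := rfl
  rw [h1N] at main
  omega

end Fermat.Agent.ES.T56.GwLeAsm25
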