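/-
Programme T (S56), chapter GW-B (helper25): the MIDDLE block of the Poitou–Tate nine-term sequence
as a count, part 1 — abstract layers (the degree-one analogue of `PT/PRO/StarBlock25` +
`PT/PRO/AssemblyAnn20`).

Layer 0 (abstract groups).
* `card_range_mul_card_annihilator` : `α : E¹ × H¹ → 𝔽_p` with trivial kernels, `K ⊆ H¹` the
  annihilator of `a(P¹)`: `#a(P¹) · #K = #H¹`;
* `card_middle` : `H¹(N) -s→ P¹ -t→ E¹` exact at `P¹`: `#P¹ · #ker s · #K = #H¹(N) · #H¹`.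

Layer A/B (abstract two-term complexes `0 → K_E → K_I → K_C → 0`, `N = ker f_E`, divisible case):
`sMap := φ_* ∘ Φ¹ : H¹(G; N) → ℍ¹(K_I)`;
* `mapℍ1_eq_zero_iff_exists_sMap` : `ψ_* x = 0 ↔ x ∈ range s`;
* `sMap_eq_zero_iff`              : `s h = 0 ↔ ∀ q, res_q h = 0`.

Layer C (`K(P; X)` of a resolved module, vocabulary of `HK20`): `sK`,
`mapℍ1_eq_zero_iff_exists_sK`, `sK_eq_zero_iff`, `bijective_prod_ℍ1`, `card_ℍ1_KI`
(`#ℍ¹(K(P; I)) = ∏_q #H¹(G_q; N_q)`), and the packaged `exists_s`.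
-/
import Mathlib
import Fermat.Agent.PT.PRO.StarBlock25
import Fermat.Agent.PT.PRO.AssemblyAnn20

set_option autoImplicit false

namespace Fermat.Agent.ES.T56.MidBlock25

open Function Module Fermat.Agent.PT.PRO.HyperLevel25 Fermat.Agent.PT.PRO.HyperCompare25
  Fermat.Agent.PT.PRO.HyperRes25 Fermat.Agent.PT.PRO.StarBlock25

/-! ## Layer 0: abstract counting -/

section Abstract

variable (p : ℕ) [Fact p.Prime]

/-- Auxiliary form with a `ZMod p`-module structure. -/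
theorem card_addMonoidHom_zmod_aux {H : Type*} [AddCommGroup H] [Finite H] [Module (ZMod p) H] :
    Nat.card (H →+ ZMod p) = Nat.card H := by
  have : Module.Finite (ZMod p) H := Module.Finite.of_finite
  have h1 : Bijective (fun φ : H →+ ZMod p => φ.toZModLinearMap p) :=
    ⟨AddMonoidHom.toZModLinearMap_injective p, fun g => ⟨g.toAddMonoidHom, rfl⟩⟩
  have h2 : Nat.card (Dual (ZMod p) H) = Nat.card H := by
    rw [Module.natCard_eq_pow_finrank (K := ZMod p) (V := Dual (ZMod p) H),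
      Subspace.dual_finrank_eq, ← Module.natCard_eq_pow_finrank (K := ZMod p) (V := H)]
  rw [Nat.card_eq_of_bijective _ h1, h2]

/-- The character group of a finite elementary abelian `p`-group has the same cardinality. -/
theorem card_addMonoidHom_zmod {H : Type*} [AddCommGroup H] [Finite H] (hH : ∀ x : H, p • x = 0) :
    Nat.card (H →+ ZMod p) = Nat.card H := by
  let _ : Module (ZMod p) H := AddCommGroup.zmodModule hH
  exact card_addMonoidHom_zmod_aux p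

variable {P1 E1 H1 : Type*} [AddCommGroup P1] [AddCommGroup E1] [AddCommGroup H1]

/-- **Annihilator count.**  `α : E¹ × H¹ → 𝔽_p` with trivial left and right kernels, `H¹` finite and
killed by `p`, `K ⊆ H¹` the annihilator of `a(P¹)`: then `#a(P¹) · #K = #H¹`. -/
theorem card_range_mul_card_annihilator [Finite H1] (hH1 : ∀ x : H1, p • x = 0)
    (a : P1 →+ E1) (K : AddSubgroup H1) (α : E1 →+ (H1 →+ ZMod p)) (hαl : Injective α)
    (hαr : ∀ x : H1, (∀ e, α e x = 0) → x = 0)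
    (hK : ∀ h : H1, h ∈ K ↔ ∀ y : P1, α (a y) h = 0) :
    Finite E1 ∧ Nat.card a.range * Nat.card K = Nat.card H1 := by
  have hbij : Bijective α :=
    ⟨hαl, Fermat.Agent.PT.PRO.AssemblyAdd25.surjective_of_nondegenerate p hH1 α hαr⟩
  have : Finite (H1 →+ ZMod p) := by
    apply Nat.finite_of_card_ne_zero
    rw [card_addMonoidHom_zmod p hH1]
    exact Nat.card_pos.ne'
  have hfinE : Finite E1 := Finite.of_injective α hαl
  have hcardE : Nat.card E1 = Nat.card H1 := by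
    rw [Nat.card_eq_of_bijective α hbij, card_addMonoidHom_zmod p hH1]
  obtain ⟨-, hcard⟩ := Fermat.Agent.PT.PRO.AssemblyAnn20.card_ker_eq_of_annihilator p hH1 a
    (QuotientAddGroup.mk' a.range) (0 : E1 ⧸ a.range →+ E1 ⧸ a.range)
    (fun e => by
      rw [QuotientAddGroup.mk'_apply, QuotientAddGroup.eq_zero_iff]
      exact AddMonoidHom.mem_range)
    (fun h => by
      refine ⟨fun _ => QuotientAddGroup.mk'_surjective _ h, fun _ => rfl⟩)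
    K α hαl hαr hK
  have hker : Nat.card (0 : E1 ⧸ a.range →+ E1 ⧸ a.range).ker = Nat.card (E1 ⧸ a.range) := by
    rw [AddMonoidHom.ker_zero]
    exact Nat.card_congr AddSubgroup.topEquiv.toEquiv
  refine ⟨hfinE, ?_⟩
  rw [← hcard, hker, ← hcardE, mul_comm]
  exact (AddSubgroup.card_eq_card_quotient_mul_card_addSubgroup a.range).symm

variable {H1N PI EC : Type*} [AddCommGroup H1N] [AddCommGroup PI] [AddCommGroup EC]

/-- **The middle count, abstract form.**  `H¹(N) -s→ P¹ -t→ E¹` exact at `P¹`; `α : E¹ × H¹ → 𝔽_p`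
with trivial kernels, `K ⊆ H¹` the annihilator of `t(P¹)`.  Then
`#P¹ · #ker s · #K = #H¹(N) · #H¹`. -/
theorem card_middle [Finite H1] [Finite H1N] (hH1 : ∀ x : H1, p • x = 0)
    (s : H1N →+ PI) (t : PI →+ EC) (hst : ∀ x : PI, t x = 0 ↔ ∃ h, s h = x)
    (K : AddSubgroup H1) (α : EC →+ (H1 →+ ZMod p)) (hαl : Injective α)
    (hαr : ∀ x : H1, (∀ e, α e x = 0) → x = 0)
    (hK : ∀ h : H1, h ∈ K ↔ ∀ y : PI, α (t y) h = 0) :
    Finite PI ∧ Nat.card PI * Nat.card s.ker * Nat.card K = Nat.card H1N * Nat.card H1 := by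
  obtain ⟨hfinE, hcard⟩ := card_range_mul_card_annihilator p hH1 t K α hαl hαr hK
  have hkt : t.ker = s.range := by
    ext x
    rw [AddMonoidHom.mem_ker, hst x, AddMonoidHom.mem_range]
  have hPI : Nat.card PI = Nat.card t.range * Nat.card s.range := by
    rw [AddSubgroup.card_eq_card_quotient_mul_card_addSubgroup t.ker, hkt]
    congr 1
    rw [← hkt]
    exact Nat.card_congr (QuotientAddGroup.quotientKerEquivRange t).toEquiv
  have hN : Nat.card H1N = Nat.card s.range * Nat.card s.ker := by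
    rw [AddSubgroup.card_eq_card_quotient_mul_card_addSubgroup s.ker]
    congr 1
    exact Nat.card_congr (QuotientAddGroup.quotientKerEquivRange s).toEquiv
  have hfin : Finite PI := by
    apply Nat.finite_of_card_ne_zero
    rw [hPI]
    have : Finite t.range := Finite.of_injective (fun x : t.range => (x : EC)) Subtype.val_injective
    have : Finite s.range :=
      Finite.of_surjective (fun h : H1N => (⟨s h, ⟨h, rfl⟩⟩ : s.range))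
        (by rintro ⟨_, h, rfl⟩; exact ⟨h, rfl⟩)
    exact (Nat.mul_pos Nat.card_pos Nat.card_pos).ne'
  refine ⟨hfin, ?_⟩
  rw [hPI, hN, ← hcard]
  ring

end Abstract

/-! ## Layer A/B in degree one, on abstract two-term complexes -/

section AbstractCx

variable {k G : Type*} [CommRing k] [Group G] {𝒰 : Set (Subgroup G)}
variable {E0 E1 I0 I1 C0 C1 N : Type*}
  [AddCommGroup E0] [Module k E0] [AddCommGroup E1] [Module k E1]
  [AddCommGroup I0] [Module k I0] [AddCommGroup I1] [Module k I1]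
  [AddCommGroup C0] [Module k C0] [AddCommGroup C1] [Module k C1]
  [AddCommGroup N] [Module k N]
variable {KE : Cx k 𝒰 E0 E1} {KI : Cx k 𝒰 I0 I1} {KC : Cx k 𝒰 C0 C1}
variable {φ : Cx.Hom KE KI} {ψ : Cx.Hom KI KC} (hse : Cx.Hom.ShortExact φ ψ)
  (h𝒰 : IsLevelBasis 𝒰)
variable {ρN : Representation k G N} (hN : IsDiscrete 𝒰 ρN) (ι0 : N →ₗ[k] E0)
  (hι : ∀ g n, ι0 (ρN g n) = KE.ρ0 g (ι0 n)) (hfι : ∀ n, KE.f (ι0 n) = 0)
  (hinj : Injective ι0) (hker : ∀ b, KE.f b = 0 → ∃ n, ι0 n = b) (hsurj : Surjective KE.f)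

/-- `s := φ_* ∘ Φ¹ : H¹(G; N) → ℍ¹(G; K_I)`. -/
noncomputable def sMap (φ : Cx.Hom KE KI) : Hp1 h𝒰 ρN hN →ₗ[k] KI.ℍ1 h𝒰 :=
  φ.mapℍ1 h𝒰 ∘ₗ incl1 KE h𝒰 hN ι0 hι hfι

lemma sMap_apply (h : Hp1 h𝒰 ρN hN) :
    sMap h𝒰 hN ι0 hι hfι φ h = φ.mapℍ1 h𝒰 (incl1 KE h𝒰 hN ι0 hι hfι h) := rfl

include hse hinj hker hsurj in
/-- Exactness of `H¹(G; N) → ℍ¹(K_I) → ℍ¹(K_C)` at the middle term. -/
theorem mapℍ1_eq_zero_iff_exists_sMap (x : KI.ℍ1 h𝒰) :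
    ψ.mapℍ1 h𝒰 x = 0 ↔ ∃ h, sMap h𝒰 hN ι0 hι hfι φ h = x := by
  rw [Cx.Hom.exact_mapℍ1_mapℍ1 hse h𝒰 x]
  constructor
  · rintro ⟨e, rfl⟩
    obtain ⟨h, rfl⟩ := (bijective_incl1 KE h𝒰 hN ι0 hι hfι hinj hker hsurj).2 e
    exact ⟨h, rfl⟩
  · rintro ⟨h, rfl⟩
    exact ⟨_, rfl⟩

section Local

variable {Q : Type*} {Gq : Q → Type*} [∀ q, Group (Gq q)] {𝒰q : ∀ q, Set (Subgroup (Gq q))}
variable {r : ∀ q, Gq q →* G} (hr : ∀ q, IsLevelHom (r q) (𝒰q q) 𝒰)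
  (h𝒰q : ∀ q, IsLevelBasis (𝒰q q))
variable {J0 J1 L0 L1 Nq : Q → Type*}
  [∀ q, AddCommGroup (J0 q)] [∀ q, Module k (J0 q)]
  [∀ q, AddCommGroup (J1 q)] [∀ q, Module k (J1 q)]
  [∀ q, AddCommGroup (L0 q)] [∀ q, Module k (L0 q)]
  [∀ q, AddCommGroup (L1 q)] [∀ q, Module k (L1 q)]
  [∀ q, AddCommGroup (Nq q)] [∀ q, Module k (Nq q)]
variable {KIq : ∀ q, Cx k 𝒰 (J0 q) (J1 q)} {KEq : ∀ q, Cx k (𝒰q q) (L0 q) (L1 q)}
variable (φ) (prj : ∀ q, Cx.Hom KI (KIq q)) (sh : ∀ q, PHom (r q) (KIq q) (KEq q))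
variable {ρNq : ∀ q, Representation k (Gq q) (Nq q)} (hNq : ∀ q, IsDiscrete (𝒰q q) (ρNq q))
  (ι0q : ∀ q, Nq q →ₗ[k] L0 q) (hιq : ∀ q g n, ι0q q (ρNq q g n) = (KEq q).ρ0 g (ι0q q n))
  (hfιq : ∀ q n, (KEq q).f (ι0q q n) = 0)
variable (ν : ∀ q, N →ₗ[k] Nq q) (hν : ∀ q g n, ν q (ρN (r q g) n) = ρNq q g (ν q n))

include hfιq hιq in
/-- The square `Φ¹_q ∘ res_q = Λ¹_q ∘ (proj_q)_* ∘ φ_* ∘ Φ¹`. -/
theorem incl1_resN1 (hνι : ∀ q n, ι0q q (ν q n) = (sh q).φ0 ((prj q).φ0 (φ.φ0 (ι0 n))))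
    (q : Q) (h : Hp1 h𝒰 ρN hN) :
    incl1 (KEq q) (h𝒰q q) (hNq q) (ι0q q) (hιq q) (hfιq q)
        (resN1 h𝒰 hN hr h𝒰q hNq ν hν q h) =
      (sh q).ppℍ1 (hr q) h𝒰 (h𝒰q q)
        ((prj q).mapℍ1 h𝒰 (sMap h𝒰 hN ι0 hι hfι φ h)) := by
  rw [sMap_apply, ← locPHom_ppℍ1]
  exact incl1_natural (locPHom φ prj sh q) (hr q) h𝒰 (h𝒰q q) hN ι0 hι hfι (hNq q) (ι0q q)
    (hιq q) (hfιq q) (ν q) (hν q) (hνι q) h

/-- **The kernel of `s`**: `s h = 0` iff all localisations of `h ∈ H¹(G; N)` vanish. -/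
theorem sMap_eq_zero_iff
    (hprj : ∀ w : KI.ℍ1 h𝒰, (∀ q, (prj q).mapℍ1 h𝒰 w = 0) → w = 0)
    (hsh : ∀ q, Injective ((sh q).ppℍ1 (hr q) h𝒰 (h𝒰q q)))
    (hincl : ∀ q, Injective (incl1 (KEq q) (h𝒰q q) (hNq q) (ι0q q) (hιq q) (hfιq q)))
    (hνι : ∀ q n, ι0q q (ν q n) = (sh q).φ0 ((prj q).φ0 (φ.φ0 (ι0 n))))
    (h : Hp1 h𝒰 ρN hN) :
    sMap h𝒰 hN ι0 hι hfι φ h = 0 ↔ ∀ q, resN1 h𝒰 hN hr h𝒰q hNq ν hν q h = 0 := by
  constructor
  · intro h0 q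
    apply hincl q
    rw [incl1_resN1 φ h𝒰 hN ι0 hι hfι hr h𝒰q prj sh hNq ι0q hιq hfιq ν hν hνι q h, h0, map_zero,
      map_zero, map_zero]
  · intro h0
    apply hprj
    intro q
    apply hsh q
    rw [← incl1_resN1 φ h𝒰 hN ι0 hι hfι hr h𝒰q prj sh hNq ι0q hιq hfιq ν hν hνι q h, h0 q,
      map_zero, map_zero]

end Local

end AbstractCx

/-! ## Layer C: the block for `K(P; X)` of a resolved module -/

section ResolvedForm

open Fermat.Agent.PT.PRO.Resolved4 Fermat.Agent.PT.PRO.HK20 Fermat.Agent.PT.PRO.PairingRes1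

variable {k G : Type*} [CommRing k] [Group G] {𝒰 : Set (Subgroup G)}
variable {P1 P0 A E I C N : Type*} [AddCommGroup P1] [Module k P1] [AddCommGroup P0] [Module k P0]
  [AddCommGroup A] [Module k A] [AddCommGroup E] [Module k E] [AddCommGroup I] [Module k I]
  [AddCommGroup C] [Module k C] [AddCommGroup N] [Module k N]
variable (P : Resolved k 𝒰 P1 P0 A) [Module.Finite k P0] [Module.Finite k P1]
  (h𝒰 : IsLevelBasis 𝒰)
  {ρE : Representation k G E} (hE : IsDiscrete 𝒰 ρE)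
  {ρI : Representation k G I} (hI : IsDiscrete 𝒰 ρI)
  {ρC : Representation k G C} (hC : IsDiscrete 𝒰 ρC)
  (d : E →ₗ[k] I) (hd : ∀ g x, d (ρE g x) = ρI g (d x))
  (t : I →ₗ[k] C) (ht : ∀ g x, t (ρI g x) = ρC g (t x))
variable {ρN : Representation k G N} (hN : IsDiscrete 𝒰 ρN) (ι0 : N →ₗ[k] (P0 →ₗ[k] E))
  (hι : ∀ g n, ι0 (ρN g n) = (P.K h𝒰 ρE hE).ρ0 g (ι0 n))
  (hfι : ∀ n, (P.K h𝒰 ρE hE).f (ι0 n) = 0)

/-- `s : H¹(G; N) → ℍ¹(K(P; I))`, `[c] ↦ [(d ∘ κ ∘ c, 0)]`. -/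
noncomputable def sK : Hp1 h𝒰 ρN hN →ₗ[k] (P.K h𝒰 ρI hI).ℍ1 h𝒰 :=
  sMap h𝒰 hN ι0 hι hfι (coefHom P h𝒰 hE hI d hd)

variable [Module.Projective k P0] [Module.Projective k P1]
  (hdinj : Injective d) (htsurj : Surjective t) (hex : Function.Exact d t)
  (hinj : Injective ι0) (hker : ∀ b, (P.K h𝒰 ρE hE).f b = 0 → ∃ n, ι0 n = b)
  (hsurj : Surjective (P.K h𝒰 ρE hE).f)

include hdinj htsurj hex hinj hker hsurj in
/-- **Exactness at `ℍ¹(K(P; I))`**: `t_* x = 0` iff `x` comes from `H¹(G; N)`. -/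
theorem mapℍ1_eq_zero_iff_exists_sK (x : (P.K h𝒰 ρI hI).ℍ1 h𝒰) :
    (coefHom P h𝒰 hI hC t ht).mapℍ1 h𝒰 x = 0 ↔
      ∃ h, sK P h𝒰 hE hI d hd hN ι0 hι hfι h = x :=
  mapℍ1_eq_zero_iff_exists_sMap (coefHom_shortExact P h𝒰 hE hI hC d hd t ht hdinj htsurj hex)
    h𝒰 hN ι0 hι hfι hinj hker hsurj x

section LocalK

variable {Q : Type*} {Gq : Q → Type*} [∀ q, Group (Gq q)] {𝒰q : ∀ q, Set (Subgroup (Gq q))}
  (h𝒰q : ∀ q, IsLevelBasis (𝒰q q)) {r : ∀ q, Gq q →* G} (hr : ∀ q, IsLevelHom (r q) (𝒰q q) 𝒰)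
variable {Iq W Nq : Q → Type*} [∀ q, AddCommGroup (Iq q)] [∀ q, Module k (Iq q)]
  [∀ q, AddCommGroup (W q)] [∀ q, Module k (W q)]
  [∀ q, AddCommGroup (Nq q)] [∀ q, Module k (Nq q)]
  {ρIq : ∀ q, Representation k G (Iq q)} (hIq : ∀ q, IsDiscrete 𝒰 (ρIq q))
  {ρW : ∀ q, Representation k (Gq q) (W q)} (hW : ∀ q, IsDiscrete (𝒰q q) (ρW q))
  (prj : ∀ q, I →ₗ[k] Iq q) (hprj : ∀ q g x, prj q (ρI g x) = ρIq q g (prj q x))
  (ev : ∀ q, Iq q →ₗ[k] W q) (hev : ∀ q g x, ev q (ρIq q (r q g) x) = ρW q g (ev q x))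
variable {ρNq : ∀ q, Representation k (Gq q) (Nq q)} (hNq : ∀ q, IsDiscrete (𝒰q q) (ρNq q))
  (ι0q : ∀ q, Nq q →ₗ[k] (P0 →ₗ[k] W q))
  (hιq : ∀ q g n, ι0q q (ρNq q g n) =
    ((comapResolved (r q) (hr q) P).K (h𝒰q q) (ρW q) (hW q)).ρ0 g (ι0q q n))
  (hfιq : ∀ q n, ((comapResolved (r q) (hr q) P).K (h𝒰q q) (ρW q) (hW q)).f (ι0q q n) = 0)
  (ν : ∀ q, N →ₗ[k] Nq q) (hν : ∀ q g n, ν q (ρN (r q g) n) = ρNq q g (ν q n))

omit [Module.Projective k P0] [Module.Projective k P1] in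
/-- **The kernel of `s`** for `K(P; ·)`: `s h = 0` iff all localisations `res_q h ∈ H¹(G_q; N_q)`
vanish.  Inputs: (P1h) `ℍ¹(K(P; I)) → ∏ ℍ¹(K(P; I_q))` injective, (S1h) `Λ¹_q` injective, the local
divisible case (`H¹(G_q; N_q) → ℍ¹(G_q; K(P; W_q))` injective), `κ_q ∘ ν_q = (ev_q ∘ prj_q ∘ d) ∘ κ`. -/
theorem sK_eq_zero_iff
    (hP1h : ∀ w : (P.K h𝒰 ρI hI).ℍ1 h𝒰,
      (∀ q, (coefHom P h𝒰 hI (hIq q) (prj q) (hprj q)).mapℍ1 h𝒰 w = 0) → w = 0)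
    (hS1h : ∀ q, Injective ((KPHom (hr q) h𝒰 (h𝒰q q) (hIq q) (hW q) P (ev q) (hev q)).ppℍ1
      (hr q) h𝒰 (h𝒰q q)))
    (hincl : ∀ q, Injective (incl1 ((comapResolved (r q) (hr q) P).K (h𝒰q q) (ρW q) (hW q))
      (h𝒰q q) (hNq q) (ι0q q) (hιq q) (hfιq q)))
    (hνι : ∀ q n x, ι0q q (ν q n) x = ev q (prj q (d (ι0 n x))))
    (h : Hp1 h𝒰 ρN hN) :
    sK P h𝒰 hE hI d hd hN ι0 hι hfι h = 0 ↔
      ∀ q, (plainPHom (hr q) h𝒰 (h𝒰q q) hN (hNq q) (ν q) (hν q)).mapH1 h = 0 :=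
  sMap_eq_zero_iff (coefHom P h𝒰 hE hI d hd) h𝒰 hN ι0 hι hfι hr h𝒰q
    (fun q => coefHom P h𝒰 hI (hIq q) (prj q) (hprj q))
    (fun q => KPHom (hr q) h𝒰 (h𝒰q q) (hIq q) (hW q) P (ev q) (hev q))
    hNq ι0q hιq hfιq ν hν hP1h hS1h hincl
    (fun q n => LinearMap.ext fun x => hνι q n x) h

omit [Module.Projective k P0] [Module.Projective k P1] in
/-- (P1h) from `I ≅ ∏_q I_q` (finite product), in bijective form. -/
theorem bijective_prod_ℍ1 [Finite Q] (hprod : Bijective (fun (x : I) (q : Q) => prj q x)) :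
    Bijective (fun (x : (P.K h𝒰 ρI hI).ℍ1 h𝒰) (q : Q) =>
      (coefHom P h𝒰 hI (hIq q) (prj q) (hprj q)).mapℍ1 h𝒰 x) :=
  Fermat.Agent.PT.PRO.ProdInst10.prod_ℍ1_of_compRight
    (fun q => coefHom P h𝒰 hI (hIq q) (prj q) (hprj q)) h𝒰 prj hprod
    (fun _ _ => rfl) (fun _ _ => rfl)

omit [Module.Projective k P0] [Module.Projective k P1] in
/-- (P1h) from `I ≅ ∏_q I_q` (finite product). -/
theorem hP1h_of_prod [Finite Q] (hprod : Bijective (fun (x : I) (q : Q) => prj q x))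
    (w : (P.K h𝒰 ρI hI).ℍ1 h𝒰)
    (hw : ∀ q, (coefHom P h𝒰 hI (hIq q) (prj q) (hprj q)).mapℍ1 h𝒰 w = 0) : w = 0 := by
  apply (bijective_prod_ℍ1 P h𝒰 hI hIq prj hprj hprod).1
  funext q
  exact (hw q).trans (map_zero _).symm

omit [Module.Projective k P0] [Module.Projective k P1] in
include hprj in
/-- **`#ℍ¹(K(P; I)) = ∏_q #H¹(G_q; N_q)`** from the product decomposition, (S1) bijective and the
local divisible case. -/
theorem card_ℍ1_KI [Fintype Q] (hprod : Bijective (fun (x : I) (q : Q) => prj q x))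
    (hS1 : ∀ q, Bijective ((KPHom (hr q) h𝒰 (h𝒰q q) (hIq q) (hW q) P (ev q) (hev q)).ppℍ1
      (hr q) h𝒰 (h𝒰q q)))
    (hincl : ∀ q, Bijective (incl1 ((comapResolved (r q) (hr q) P).K (h𝒰q q) (ρW q) (hW q))
      (h𝒰q q) (hNq q) (ι0q q) (hιq q) (hfιq q))) :
    Nat.card ((P.K h𝒰 ρI hI).ℍ1 h𝒰) = ∏ q, Nat.card (Hp1 (h𝒰q q) (ρNq q) (hNq q)) := by
  rw [Nat.card_eq_of_bijective _ (bijective_prod_ℍ1 P h𝒰 hI hIq prj hprj hprod), Nat.card_pi]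
  refine Finset.prod_congr rfl fun q _ => ?_
  rw [Nat.card_eq_of_bijective _ (hS1 q), ← Nat.card_eq_of_bijective _ (hincl q)]

include hE hd hdinj htsurj hex hι hfι hinj hker hsurj hprj in
/-- **The middle block, packaged**: there is `s : H¹(G; N) → ℍ¹(K(P; I))` whose range is the kernel
of `t_*` and whose kernel is cut out by the localisations. -/
theorem exists_s [Finite Q] (hprod : Bijective (fun (x : I) (q : Q) => prj q x))
    (hS1h : ∀ q, Injective ((KPHom (hr q) h𝒰 (h𝒰q q) (hIq q) (hW q) P (ev q) (hev q)).ppℍ1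
      (hr q) h𝒰 (h𝒰q q)))
    (hincl : ∀ q, Injective (incl1 ((comapResolved (r q) (hr q) P).K (h𝒰q q) (ρW q) (hW q))
      (h𝒰q q) (hNq q) (ι0q q) (hιq q) (hfιq q)))
    (hνι : ∀ q n x, ι0q q (ν q n) x = ev q (prj q (d (ι0 n x)))) :
    ∃ s : Hp1 h𝒰 ρN hN →ₗ[k] (P.K h𝒰 ρI hI).ℍ1 h𝒰,
      (∀ x, (coefHom P h𝒰 hI hC t ht).mapℍ1 h𝒰 x = 0 ↔ ∃ h, s h = x) ∧
      (∀ h, s h = 0 ↔
        ∀ q, (plainPHom (hr q) h𝒰 (h𝒰q q) hN (hNq q) (ν q) (hν q)).mapH1 h = 0) :=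
  ⟨sK P h𝒰 hE hI d hd hN ι0 hι hfι,
    mapℍ1_eq_zero_iff_exists_sK P h𝒰 hE hI hC d hd t ht hN ι0 hι hfι hdinj htsurj hex hinj hker
      hsurj,
    sK_eq_zero_iff P h𝒰 hE hI d hd hN ι0 hι hfι h𝒰q hr hIq hW prj hprj ev hev hNq ι0q hιq hfιq
      ν hν (hP1h_of_prod P h𝒰 hI hIq prj hprj hprod) hS1h hincl hνι⟩

end LocalK

end ResolvedForm

end Fermat.Agent.ES.T56.MidBlock25
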