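/-
Programme T (S56), chapter GW-B (helper25): the MIDDLE block of the Poitou–Tate nine-term sequence
as a count, part 2 — the generic count and its instantiation at `μ_p`-data
(the degree-one analogue of `PT/PRO/MainGeneric20`, `MainWrap20`, `StarS55_7`).

`0 → Ш¹(N) → H¹(G; N) → P¹ = ℍ¹(K(P; I)) → ℍ¹(K(P; C)) ≅ H¹(G; A)^∨ → Ш¹(A)^∨ → 0`, counted:

* `card_middle_generic` (resolved module `P → A`, vocabulary of `MainGeneric20`):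
  `#ℍ¹(K(P; I)) · #Ш¹(N) · #Ш¹(A) = #H¹_lev(N) · #H¹_lev(A)`;
* `MidAt`, `card_middle_wrap` : the same for a RAW resolution `R` with wrapped hypotheses
  (instantiable at `k = ℤ`);
* `midAt_of_muData`, `card_ℍ1_of_muData` : the block `s : H¹_lev(G; M) → ℍ¹(K(P; I))` and
  `#ℍ¹(K(P; I)) = ∏_q #H¹_lev(G_q; M)` from `μ_p`-data (`KerIso7.compare1`), the short exact sequence
  `0 → E → I → C → 0`, `I = ∏ I_q`, and (S1) BIJECTIVE.
-/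
import Mathlib
import Fermat.Agent.ES.T56.MidBlock25
import Fermat.Agent.PT.PRO.MainWrap20
import Fermat.Agent.PT.PRO.KerIsoMain7

set_option autoImplicit false
set_option linter.unusedSectionVars false

namespace Fermat.Agent.ES.T56.MidCount25

open Function
open Fermat.Agent.PT.PRO
open Fermat.Agent.PT.PRO.HyperLevel25 Fermat.Agent.PT.PRO.Resolved4
open Fermat.Agent.PT.PRO.ExtPairing4 Fermat.Agent.PT.PRO.ExtPairingB4
open Fermat.Agent.PT.PRO.HyperRes25 Fermat.Agent.PT.PRO.PairingRes1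
open Fermat.Agent.PT.PRO.InvP4 Fermat.Agent.PT.PRO.PairP4

/-! ## The generic count -/

section Generic

variable {k G : Type*} [CommRing k] [Group G] {𝒰 : Set (Subgroup G)}
variable {P1 P0 A : Type*} [AddCommGroup P1] [Module k P1] [AddCommGroup P0] [Module k P0]
  [AddCommGroup A] [Module k A]
variable {ι : Type*} {Gq : ι → Type*} [∀ q, Group (Gq q)] {𝒰q : ∀ q, Set (Subgroup (Gq q))}
variable {I C N : Type*} [AddCommGroup I] [Module k I] [AddCommGroup C] [Module k C]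
  [AddCommGroup N] [Module k N]
variable {Iq W Nq : ι → Type*} [∀ q, AddCommGroup (Iq q)] [∀ q, Module k (Iq q)]
  [∀ q, AddCommGroup (W q)] [∀ q, Module k (W q)]
  [∀ q, AddCommGroup (Nq q)] [∀ q, Module k (Nq q)]

variable (P : Resolved k 𝒰 P1 P0 A) [Module.Finite k P0] [Module.Finite k P1]
  (h𝒰 : IsLevelBasis 𝒰) (h𝒰q : ∀ q, IsLevelBasis (𝒰q q))
  (r : ∀ q, Gq q →* G) (hr : ∀ q, IsLevelHom (r q) (𝒰q q) 𝒰)
  {ρI : Representation k G I} (hI : IsDiscrete 𝒰 ρI)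
  {ρC : Representation k G C} (hC : IsDiscrete 𝒰 ρC)
  {ρN : Representation k G N} (hN : IsDiscrete 𝒰 ρN)
  {ρIq : ∀ q, Representation k G (Iq q)} (hIq : ∀ q, IsDiscrete 𝒰 (ρIq q))
  {ρW : ∀ q, Representation k (Gq q) (W q)} (hW : ∀ q, IsDiscrete (𝒰q q) (ρW q))
  {ρNq : ∀ q, Representation k (Gq q) (Nq q)} (hNq : ∀ q, IsDiscrete (𝒰q q) (ρNq q))
  (t : I →ₗ[k] C) (ht : ∀ g x, t (ρI g x) = ρC g (t x))
  (inc : ∀ q, Iq q →ₗ[k] I) (hinc : ∀ q g x, inc q (ρIq q g x) = ρI g (inc q x))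
  (prj : ∀ q, I →ₗ[k] Iq q) (hprj : ∀ q g x, prj q (ρI g x) = ρIq q g (prj q x))
  (ev : ∀ q, Iq q →ₗ[k] W q) (hev : ∀ q g x, ev q (ρIq q (r q g) x) = ρW q g (ev q x))
  (ν : ∀ q, N →ₗ[k] Nq q) (hν : ∀ q g x, ν q (ρN (r q g) x) = ρNq q g (ν q x))

/-- The locally trivial classes of `H¹_lev(G; N)`. -/
def Sha1N (h : Hlev1 h𝒰 ρN hN) : Prop :=
  ∀ q, resH1 (hr q) h𝒰 (h𝒰q q) hN (hNq q) (ν q) (hν q) h = 0

/-- **The middle count, generic form.** -/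
theorem card_middle_generic (p : ℕ) [Fact p.Prime] (hpA : ∀ m : A, p • m = 0)
    [Finite (Hlev1 h𝒰 P.ρM P.discM)] [Finite (Hlev1 h𝒰 ρN hN)]
    -- the invariant on `H²_lev(C)[p]`
    (τ : pTor p (Hlev2 h𝒰 ρC hC) →+ ZMod p) (hτ : Injective τ)
    -- global duality: left and right kernels of `pair11` for `K(P; C)`
    (hL : ∀ ξ : (P.K h𝒰 ρC hC).ℍ1 h𝒰,
      (∀ x, pair11 (evalPairing P h𝒰 ρC hC) h𝒰 hC ξ x = 0) → ξ = 0)
    (hR : ∀ x : Hlev1 h𝒰 P.ρM P.discM,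
      (∀ ξ, pair11 (evalPairing P h𝒰 ρC hC) h𝒰 hC ξ x = 0) → x = 0)
    -- (P2), (S1), (S2), (LG), (RK): see `HK20`
    (hP2 : ∀ x : Hlev2 h𝒰 ρI hI,
      (∀ q, (lvlHom h𝒰 hI (hIq q) (prj q) (hprj q)).mapH2 x = 0) → x = 0)
    (hS1 : ∀ q, Surjective ((KPHom (hr q) h𝒰 (h𝒰q q) (hIq q) (hW q) P (ev q) (hev q)).ppℍ1
      (hr q) h𝒰 (h𝒰q q)))
    (hS2 : ∀ q, Injective (resH2 (hr q) h𝒰 (h𝒰q q) (hIq q) (hW q) (ev q) (hev q)))
    (hLG : ∀ q (w : Hlev2 h𝒰 (ρIq q) (hIq q)), p • w = 0 →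
      (lvlHom h𝒰 hI hC t ht).mapH2 ((lvlHom h𝒰 (hIq q) hI (inc q) (hinc q)).mapH2 w) = 0 → w = 0)
    (hRK : ∀ q (x : Hlev1 (h𝒰q q) (comapResolved (r q) (hr q) P).ρM
        (comapResolved (r q) (hr q) P).discM),
      (∀ z, pair11 (evalPairing (comapResolved (r q) (hr q) P) (h𝒰q q) (ρW q) (hW q)) (h𝒰q q)
        (hW q) z x = 0) → x = 0)
    -- the middle block
    (s : Hlev1 h𝒰 ρN hN →+ (P.K h𝒰 ρI hI).ℍ1 h𝒰)
    (hst : ∀ x : (P.K h𝒰 ρI hI).ℍ1 h𝒰,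
      (HK20.coefHom P h𝒰 hI hC t ht).mapℍ1 h𝒰 x = 0 ↔ ∃ h, s h = x)
    (hs : ∀ h : Hlev1 h𝒰 ρN hN, s h = 0 ↔ Sha1N h𝒰 h𝒰q r hr hN hNq ν hν h) :
    Finite ((P.K h𝒰 ρI hI).ℍ1 h𝒰) ∧
      Nat.card ((P.K h𝒰 ρI hI).ℍ1 h𝒰) *
          Nat.card {h : Hlev1 h𝒰 ρN hN // Sha1N h𝒰 h𝒰q r hr hN hNq ν hν h} *
          Nat.card {h : Hlev1 h𝒰 P.ρM P.discM // MainGeneric20.Sha1 P h𝒰 h𝒰q r hr h} =
        Nat.card (Hlev1 h𝒰 ρN hN) * Nat.card (Hlev1 h𝒰 P.ρM P.discM) := by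
  classical
  let a : (P.K h𝒰 ρI hI).ℍ1 h𝒰 →+ (P.K h𝒰 ρC hC).ℍ1 h𝒰 :=
    ((HK20.coefHom P h𝒰 hI hC t ht).mapℍ1 h𝒰).toAddMonoidHom
  let l : Hlev1 h𝒰 P.ρM P.discM →+ (∀ q, Hlev1 (h𝒰q q) (comapResolved (r q) (hr q) P).ρM
      (comapResolved (r q) (hr q) P).discM) :=
    AddMonoidHom.pi fun q => (resH1 (hr q) h𝒰 (h𝒰q q) P.discM
      (comapResolved (r q) (hr q) P).discM LinearMap.id (fun _ _ => rfl)).toAddMonoidHom
  have hl : ∀ h, h ∈ l.ker ↔ MainGeneric20.Sha1 P h𝒰 h𝒰q r hr h := fun h =>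
    ⟨fun e q => congrFun (AddMonoidHom.mem_ker.1 e) q, fun e => AddMonoidHom.mem_ker.2 (funext e)⟩
  obtain ⟨hfin, hcard⟩ := MidBlock25.card_middle p
    (DualityAdapter29.nsmul_Hlev1_eq_zero h𝒰 P.ρM P.discM p hpA) s a hst l.ker
    (alphaP (evalPairing P h𝒰 ρC hC) h𝒰 hC hpA τ)
    (alphaP_injective (evalPairing P h𝒰 ρC hC) h𝒰 hC hpA τ hτ hL)
    (alphaP_right_kernel (evalPairing P h𝒰 ρC hC) h𝒰 hC hpA τ hτ hR)
    (fun h => by
      rw [hl h]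
      refine (HK20.forall_resH1_eq_zero_iff P h𝒰 h𝒰q r hr hI hC hIq hW t ht inc hinc prj hprj
        ev hev p hpA hP2 hS1 hS2 hLG hRK h).trans ?_
      refine forall_congr' fun y => ?_
      exact (alphaP_eq_zero_iff (evalPairing P h𝒰 ρC hC) h𝒰 hC hpA τ hτ _ h).symm)
  have e2 : {h : Hlev1 h𝒰 ρN hN // Sha1N h𝒰 h𝒰q r hr hN hNq ν hν h} ≃ ↥s.ker :=
    Equiv.subtypeEquivRight fun h => ((hs h).symm.trans AddMonoidHom.mem_ker.symm)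
  have e1 : {h : Hlev1 h𝒰 P.ρM P.discM // MainGeneric20.Sha1 P h𝒰 h𝒰q r hr h} ≃ ↥l.ker :=
    Equiv.subtypeEquivRight fun h => (hl h).symm
  refine ⟨hfin, ?_⟩
  rw [Nat.card_congr e2, Nat.card_congr e1, hcard]

end Generic

/-! ## The wrapped form (raw resolution, instantiable at `k = ℤ`) -/

open Fermat.Agent.PT.PRO.IndRes20 Fermat.Agent.PT.PRO.Setup20 Fermat.Agent.PT.PRO.Objects20

section Wrappers

variable {k G G' : Type} [CommRing k] [Group G] [Group G']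
  {𝒰 : Set (Subgroup G)} {𝒰' : Set (Subgroup G')}
variable {P1 P0 A X X' W N : Type} [AddCommGroup P1] [Module k P1] [AddCommGroup P0]
  [Module k P0] [AddCommGroup A] [Module k A] [AddCommGroup X] [Module k X]
  [AddCommGroup X'] [Module k X'] [AddCommGroup W] [Module k W] [AddCommGroup N] [Module k N]

variable (R : Res k G P1 P0 A) (h0 : IsDiscrete 𝒰 R.ρ0) [Module.Finite k P0] [Module.Finite k P1]
  (h𝒰 : IsLevelBasis 𝒰) (h𝒰' : IsLevelBasis 𝒰')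
  (f : G' →* G) (hf : IsLevelHom f 𝒰' 𝒰)
  {ρX : Representation k G X} (hX : IsDiscrete 𝒰 ρX)
  {ρX' : Representation k G X'} (hX' : IsDiscrete 𝒰 ρX')
  {ρW : Representation k G' W} (hW : IsDiscrete 𝒰' ρW)
  {ρN : Representation k G N} (hN : IsDiscrete 𝒰 ρN)

/-- **(S1) bijective**: `Λ¹ : ℍ¹(G; K(P; X)) → ℍ¹(G'; K(P|_{G'}; W))` is bijective. -/
def S1BijAt (ε : X →ₗ[k] W) (hε : ∀ g x, ε (ρX (f g) x) = ρW g (ε x)) : Prop :=
  Bijective ((KXPHom R h0 h𝒰 h𝒰' f hf hX hW ε hε).ppℍ1 hf h𝒰 h𝒰')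

/-- **The middle block**: a homomorphism `s : H¹_lev(N) →+ ℍ¹(K(P; X))` whose range is the kernel
of `t_* : ℍ¹(K(P; X)) → ℍ¹(K(P; X'))` and whose kernel is cut out by the predicate `sha1`. -/
def MidAt (t : X →ₗ[k] X') (ht : ∀ g x, t (ρX g x) = ρX' g (t x))
    (sha1 : Hlev1 h𝒰 ρN hN → Prop) : Prop :=
  ∃ s : Hlev1 h𝒰 ρN hN →+ (KX R h0 h𝒰 ρX hX).ℍ1 h𝒰,
    (∀ x, (KXmap R h0 h𝒰 hX hX' t ht).mapℍ1 h𝒰 x = 0 ↔ ∃ h, s h = x) ∧
      ∀ h, s h = 0 ↔ sha1 h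

end Wrappers

section Main

variable {k G : Type} [CommRing k] [Group G] {𝒰 : Set (Subgroup G)}
variable {P1 P0 A : Type} [AddCommGroup P1] [Module k P1] [AddCommGroup P0] [Module k P0]
  [AddCommGroup A] [Module k A]
variable {ι : Type} {Gq : ι → Type} [∀ q, Group (Gq q)] {𝒰q : ∀ q, Set (Subgroup (Gq q))}
variable {I C N : Type} [AddCommGroup I] [Module k I] [AddCommGroup C] [Module k C]
  [AddCommGroup N] [Module k N]
variable {Iq W Nq : ι → Type} [∀ q, AddCommGroup (Iq q)] [∀ q, Module k (Iq q)]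
  [∀ q, AddCommGroup (W q)] [∀ q, Module k (W q)]
  [∀ q, AddCommGroup (Nq q)] [∀ q, Module k (Nq q)]

variable (R : Res k G P1 P0 A) (h0 : IsDiscrete 𝒰 R.ρ0) [Module.Finite k P0] [Module.Finite k P1]
  (h𝒰 : IsLevelBasis 𝒰) (h𝒰q : ∀ q, IsLevelBasis (𝒰q q))
  (r : ∀ q, Gq q →* G) (hr : ∀ q, IsLevelHom (r q) (𝒰q q) 𝒰)
  (hA : IsDiscrete 𝒰 R.ρM) (hAq : ∀ q, IsDiscrete (𝒰q q) (R.ρM.comp (r q)))
  {ρI : Representation k G I} (hI : IsDiscrete 𝒰 ρI)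
  {ρC : Representation k G C} (hC : IsDiscrete 𝒰 ρC)
  {ρN : Representation k G N} (hN : IsDiscrete 𝒰 ρN)
  {ρIq : ∀ q, Representation k G (Iq q)} (hIq : ∀ q, IsDiscrete 𝒰 (ρIq q))
  {ρW : ∀ q, Representation k (Gq q) (W q)} (hW : ∀ q, IsDiscrete (𝒰q q) (ρW q))
  {ρNq : ∀ q, Representation k (Gq q) (Nq q)} (hNq : ∀ q, IsDiscrete (𝒰q q) (ρNq q))
  (t : I →ₗ[k] C) (ht : ∀ g x, t (ρI g x) = ρC g (t x))
  (inc : ∀ q, Iq q →ₗ[k] I) (hinc : ∀ q g x, inc q (ρIq q g x) = ρI g (inc q x))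
  (prj : ∀ q, I →ₗ[k] Iq q) (hprj : ∀ q g x, prj q (ρI g x) = ρIq q g (prj q x))
  (ev : ∀ q, Iq q →ₗ[k] W q) (hev : ∀ q g x, ev q (ρIq q (r q g) x) = ρW q g (ev q x))
  (ν : ∀ q, N →ₗ[k] Nq q) (hν : ∀ q g x, ν q (ρN (r q g) x) = ρNq q g (ν q x))

/-- **The middle count, wrapped form** (instantiable at `k = ℤ`). -/
theorem card_middle_wrap (p : ℕ) [Fact p.Prime] (hpA : ∀ m : A, p • m = 0)
    [Finite (Hlev1 h𝒰 R.ρM hA)] [Finite (Hlev1 h𝒰 ρN hN)]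
    (hdual : InvFund18.AlphaPackage R h0 h𝒰 ρC hC p hpA)
    (hP2 : ∀ x : Hlev2 h𝒰 ρI hI,
      (∀ q, (lvlHom h𝒰 hI (hIq q) (prj q) (hprj q)).mapH2 x = 0) → x = 0)
    (hS1 : ∀ q, MainWrap20.S1At R h0 h𝒰 (h𝒰q q) (r q) (hr q) (hIq q) (hW q) (ev q) (hev q))
    (hS2 : ∀ q, Injective (resH2 (hr q) h𝒰 (h𝒰q q) (hIq q) (hW q) (ev q) (hev q)))
    (hLG : ∀ q (w : Hlev2 h𝒰 (ρIq q) (hIq q)), p • w = 0 →
      (lvlHom h𝒰 hI hC t ht).mapH2 ((lvlHom h𝒰 (hIq q) hI (inc q) (hinc q)).mapH2 w) = 0 → w = 0)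
    (hRK : ∀ q, MainWrap20.RKAt (R.comap (r q)) (comap_disc0 R h0 (r q) (hr q)) (h𝒰q q) (ρW q)
      (hW q))
    (hmid : MidAt R h0 h𝒰 hI hC hN t ht
      (fun h => ∀ q, resH1 (hr q) h𝒰 (h𝒰q q) hN (hNq q) (ν q) (hν q) h = 0)) :
    Finite ((KX R h0 h𝒰 ρI hI).ℍ1 h𝒰) ∧
      Nat.card ((KX R h0 h𝒰 ρI hI).ℍ1 h𝒰) *
          Nat.card {h : Hlev1 h𝒰 ρN hN //
            ∀ q, resH1 (hr q) h𝒰 (h𝒰q q) hN (hNq q) (ν q) (hν q) h = 0} *
          Nat.card {h : Hlev1 h𝒰 R.ρM hA //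
            ∀ q, resH1 (hr q) h𝒰 (h𝒰q q) hA (hAq q) LinearMap.id (fun _ _ => rfl) h = 0} =
        Nat.card (Hlev1 h𝒰 ρN hN) * Nat.card (Hlev1 h𝒰 R.ρM hA) := by
  obtain ⟨τ, hτ, -, -, -⟩ := id hdual
  obtain ⟨s, hst, hs⟩ := hmid
  have : Finite (Hlev1 h𝒰 (toResolved R h0).ρM (toResolved R h0).discM) :=
    ‹Finite (Hlev1 h𝒰 R.ρM hA)›
  exact card_middle_generic (toResolved R h0) h𝒰 h𝒰q r hr hI hC hN hIq hW hNq
    t ht inc hinc prj hprj ev hev ν hν p hpA τ hτ (MainWrap20.lkAt_of_alphaPackage hdual)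
    (MainWrap20.rkAt_of_alphaPackage hdual) hP2 hS1 hS2 hLG hRK s hst hs

end Main

/-! ## The middle block from `μ_p`-data -/

section MuData

open Fermat.Agent.PT.PRO.HyperCompare25 Fermat.Agent.PT.PRO.KerIso7

variable {k : Type} [CommRing k] (hk : IntSurj k)
variable {p : ℕ} [Fact p.Prime] {G : Type} [Group G] {𝒰 : Set (Subgroup G)}
variable {M : Type} [AddCommGroup M] [Module (ZMod p) M] [Module k M]
  [FiniteDimensional (ZMod p) M] [Module k (Module.Dual (ZMod p) M)]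
variable {P0 P1 : Type} [AddCommGroup P0] [Module k P0] [AddCommGroup P1] [Module k P1]
  [Module.Finite k P0] [Module.Finite k P1] [Module.Projective k P0] [Module.Projective k P1]
variable {E I C : Type} [AddCommGroup E] [Module k E] [AddCommGroup I] [Module k I]
  [AddCommGroup C] [Module k C]
variable {Q : Type} {Gq : Q → Type} [∀ q, Group (Gq q)] {𝒰q : ∀ q, Set (Subgroup (Gq q))}
variable {Iq W : Q → Type} [∀ q, AddCommGroup (Iq q)] [∀ q, Module k (Iq q)]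
  [∀ q, AddCommGroup (W q)] [∀ q, Module k (W q)]

variable (R : Res k G P1 P0 (Module.Dual (ZMod p) M)) (h0 : IsDiscrete 𝒰 R.ρ0)
  (h𝒰 : IsLevelBasis 𝒰) (h𝒰q : ∀ q, IsLevelBasis (𝒰q q))
  (r : ∀ q, Gq q →* G) (hr : ∀ q, IsLevelHom (r q) (𝒰q q) 𝒰)
  (ρM : Representation (ZMod p) G M) (hM : IsDiscrete 𝒰 ρM) (χ : G →* (ZMod p)ˣ)
  (hA : ∀ g a, R.ρM g a = (χ g : ZMod p) • (a ∘ₗ ρM g⁻¹))
  {ρE : Representation k G E} (hE : IsDiscrete 𝒰 ρE)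
  {ρI : Representation k G I} (hI : IsDiscrete 𝒰 ρI)
  {ρC : Representation k G C} (hC : IsDiscrete 𝒰 ρC)
  {ρIq : ∀ q, Representation k G (Iq q)} (hIq : ∀ q, IsDiscrete 𝒰 (ρIq q))
  {ρW : ∀ q, Representation k (Gq q) (W q)} (hW : ∀ q, IsDiscrete (𝒰q q) (ρW q))
  (d : E →ₗ[k] I) (hd : ∀ g x, d (ρE g x) = ρI g (d x))
  (t : I →ₗ[k] C) (ht : ∀ g x, t (ρI g x) = ρC g (t x))
  (hdinj : Injective d) (htsurj : Surjective t) (hex : Function.Exact d t)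
  (prj : ∀ q, I →ₗ[k] Iq q) (hprj : ∀ q g x, prj q (ρI g x) = ρIq q g (prj q x))
  (hprod : Bijective (fun (x : I) (q : Q) => prj q x))
  (ev : ∀ q, Iq q →ₗ[k] W q) (hev : ∀ q g x, ev q (ρIq q (r q g) x) = ρW q g (ev q x))
  (D : MuData χ ρE) (D' : ∀ q, MuData (χ.comp (r q)) (ρW q))
  (hDD' : ∀ q a, ev q (prj q (d (D.j a))) = (D' q).j a)
  (hdivE : ∀ x : E, ∃ y : E, (p : k) • y = x)
  (hdivW : ∀ q (x : W q), ∃ y : W q, (p : k) • y = x)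

include hA hE hd hprj hdinj htsurj hex hprod hDD' hdivE hdivW in
/-- **The middle block from `μ_p`-data** (`k`-generic). -/
theorem midAt_of_muData [Finite Q]
    (hS1 : ∀ q, S1BijAt R h0 h𝒰 (h𝒰q q) (r q) (hr q) (hIq q) (hW q) (ev q) (hev q)) :
    MidAt R h0 h𝒰 hI hC (isDiscrete_intRep hk hM) t ht
      (fun h => ∀ q, resH1 (hr q) h𝒰 (h𝒰q q) (isDiscrete_intRep hk hM)
        (isDiscrete_intRep hk (IsLevelHom.isDiscrete (hr q) hM)) LinearMap.id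
        (fun _ _ => rfl) h = 0) := by
  obtain ⟨s, hst, hs⟩ := MidBlock25.exists_s (toResolved R h0) h𝒰 hE hI hC d hd t ht
    (isDiscrete_intRep hk hM) (kapRes hk D.j R.π)
    (kapRes_equivariant hk ρM χ R.ρM hA ρE D.j D.equiv R.ρ0 R.π R.π_comm)
    (lcomp_kapRes hk D.j R.π R.ι (toResolved R h0).π_ι)
    hdinj htsurj hex
    (kapRes_injective hk D.j D.inj R.π R.π_surj)
    (fun b hb => exists_kapRes_eq hk D.j D.inj D.surj R.π R.π_surj R.ι (toResolved R h0).exact b hb)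
    (lcomp_surjective_of_div R.ι R.ι_inj R.π (toResolved R h0).exact hdivE)
    h𝒰q hr hIq hW prj hprj ev hev
    (fun q => isDiscrete_intRep hk (IsLevelHom.isDiscrete (hr q) hM))
    (fun q => kapRes hk (D' q).j R.π)
    (fun q => kapRes_equivariant hk (ρM.comp (r q)) (χ.comp (r q)) (R.comap (r q)).ρM
      (KerIsoMain7.hA_comap R ρM χ hA (r q)) (ρW q) (D' q).j (D' q).equiv (R.comap (r q)).ρ0 R.π
      (R.comap (r q)).π_comm)
    (fun q => lcomp_kapRes hk (D' q).j R.π R.ι (toResolved R h0).π_ι)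
    (fun q => LinearMap.id) (fun q g n => rfl) hprod (fun q => (hS1 q).1)
    (fun q => (compare1_bijective hk (h𝒰q q)
      (toResolved (R.comap (r q)) (comap_disc0 R h0 (r q) (hr q))) (ρM.comp (r q))
      (IsLevelHom.isDiscrete (hr q) hM) (χ.comp (r q)) (KerIsoMain7.hA_comap R ρM χ hA (r q))
      (hW q) (D' q) (hdivW q)).1)
    (fun q n x => by
      rw [LinearMap.id_apply, kapRes_apply, kapRes_apply, hDD'])
  exact ⟨s.toAddMonoidHom, hst, hs⟩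

include hA hprj hprod hdivW D' in
/-- **`#ℍ¹(K(P; I)) = ∏_q #H¹_lev(G_q; M)`** from `μ_p`-data. -/
theorem card_ℍ1_of_muData [Fintype Q]
    (hS1 : ∀ q, S1BijAt R h0 h𝒰 (h𝒰q q) (r q) (hr q) (hIq q) (hW q) (ev q) (hev q)) :
    Nat.card ((KX R h0 h𝒰 ρI hI).ℍ1 h𝒰) =
      ∏ q, Nat.card (Hlev1 (h𝒰q q) (intRep hk (ρM.comp (r q)))
        (isDiscrete_intRep hk (IsLevelHom.isDiscrete (hr q) hM))) :=
  MidBlock25.card_ℍ1_KI (toResolved R h0) h𝒰 hI h𝒰q hr hIq hW prj hprj ev hev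
    (fun q => isDiscrete_intRep hk (IsLevelHom.isDiscrete (hr q) hM))
    (fun q => kapRes hk (D' q).j R.π)
    (fun q => kapRes_equivariant hk (ρM.comp (r q)) (χ.comp (r q)) (R.comap (r q)).ρM
      (KerIsoMain7.hA_comap R ρM χ hA (r q)) (ρW q) (D' q).j (D' q).equiv (R.comap (r q)).ρ0 R.π
      (R.comap (r q)).π_comm)
    (fun q => lcomp_kapRes hk (D' q).j R.π R.ι (toResolved R h0).π_ι)
    hprod (fun q => hS1 q)
    (fun q => compare1_bijective hk (h𝒰q q)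
      (toResolved (R.comap (r q)) (comap_disc0 R h0 (r q) (hr q))) (ρM.comp (r q))
      (IsLevelHom.isDiscrete (hr q) hM) (χ.comp (r q)) (KerIsoMain7.hA_comap R ρM χ hA (r q))
      (hW q) (D' q) (hdivW q))

end MuData

end Fermat.Agent.ES.T56.MidCount25
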