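/-
Programme T (S56), chapter GW-B (helper25): the MIDDLE block of the Poitou–Tate nine-term sequence
as a count, part 3 — the instantiation at the S55 objects of `PT/GLUE/Objects21`
(`k = ℤ`, `G = Γ = Gal(ℚ̄/ℚ)`, `𝒰 = levelS S`, `Q = ↥S`, `G_q = Γ_q`, `E/I/C = ES/IS/CS S`,
`I_q = ISq S q`, `W_q = unitsLoc q`, `R = HpAt29.freeRes (intRep (M.dualTwist χ))`, `N = intRep M`).

* `midAt_S55`    : the middle block `s : H¹_lev(Γ; M) → ℍ¹(K(P; I_S))` (`MidCount25.MidAt`);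
* `card_ℍ1_S55`  : `#ℍ¹(K(P; I_S)) = ∏_{q ∈ S} #H¹_lev(Γ_q; M)`;
* `middle_S55`   : under the hypotheses of S55 and `(L1)`,
  `(∏_{q ∈ S} #H¹_lev(Γ_q; M)) · #Ш¹_lev(M) · #Ш¹_lev(A) = #H¹_lev(Γ; M) · #H¹_lev(Γ; A)`, `A = M^∨(1)`
  (+ finiteness of all factors).
-/
import Mathlib
import Fermat.Agent.ES.T56.MidCount25
import Fermat.Agent.PT.PRO.StarS55_7
import Fermat.Agent.PT.PRO.FinH1S55_9
import Fermat.Agent.PT.PRO.ProdDict10
import Fermat.Agent.PT.PRO.GlobalHypP8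
import Fermat.Agent.PT.PRO.InvFund18
import Fermat.Agent.PT.GLUE.LocS2_29
import Fermat.Agent.PT.GLUE.LocalHypR11
import Fermat.Agent.PT.GLUE.LocalGlobalInst27
import Fermat.Agent.PT.GLUE.FundLevel2
import Fermat.Agent.PT.GLUE.GexNormFinal15
import Fermat.Agent.PT.GLUE.LocHyperFinal13
import Fermat.Agent.PT.GLOB.FundClassExists6
import Fermat.Agent.PT.GLOB.LocalInjMain14

set_option autoImplicit false
set_option linter.unusedSectionVars false

namespace Fermat.Agent.ES.T56.MidS55_25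

open Function CategoryTheory ExtCitation
open Fermat.Agent.PT Fermat.Agent.PT.PRO Fermat.Agent.PT.GLUE Fermat.Agent.PT.GLUE.Objects21
open Fermat.Agent.PT.PRO.HyperLevel25 Fermat.Agent.PT.PRO.Resolved4
open Fermat.Agent.PT.PRO.HyperRes25 Fermat.Agent.PT.PRO.PairingRes1
open Fermat.Agent.PT.PRO.IntRep20 Fermat.Agent.PT.PRO.LevelEquiv29
open Fermat.Agent.PT.PRO.ProdDict10 Fermat.Agent.PT.GLUE.LocS2_29
open Fermat.Agent.PT.GLUE.LevelTheta21
open Fermat.Agent.PT.PRO.IndRes20 Fermat.Agent.PT.PRO.Setup20 Fermat.Agent.PT.PRO.Objects20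
open Fermat.Agent.PT.PRO.KerIso7 Fermat.Agent.PT.PRO.KerIsoGal7
open Fermat.Agent.ES.T56.MidCount25

variable (p : ℕ) [Fact p.Prime] (S : Finset Nat.Primes) (hpS : pPrime p ∈ S)
  (M : Rep.{0} (ZMod p) (AlgebraicClosure ℚ ≃ₐ[ℚ] AlgebraicClosure ℚ))
  [FiniteDimensional (ZMod p) M]

/-- **(S1) bijective at the S55 objects** (`LocHyperFinal13.S1_bijective`), wrapped. -/
theorem s1BijAt_S55 {P1 P0 A : Type} [AddCommGroup P1] [Module ℤ P1] [AddCommGroup P0]
    [Module ℤ P0] [AddCommGroup A] [Module ℤ A] [Module.Finite ℤ P0] [Module.Finite ℤ P1]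
    [Module.Free ℤ P0] (R : Res ℤ (AlgebraicClosure ℚ ≃ₐ[ℚ] AlgebraicClosure ℚ) P1 P0 A)
    (h0 : IsDiscrete (levelS S).sets R.ρ0) (q : ↥S) :
    S1BijAt R h0 (basis (levelS S)) (basis (levelLoc ((q : Nat.Primes) : ℕ)))
      (localGaloisToGlobal ((q : Nat.Primes) : ℕ)) (isLevelHom_loc S ((q : Nat.Primes) : ℕ))
      (isDiscrete_ISq' S q) (isDiscrete_unitsLoc ((q : Nat.Primes) : ℕ))
      (evq S ((q : Nat.Primes) : ℕ)) (evq_ρ S ((q : Nat.Primes) : ℕ)) :=
  LocHyperFinal13.S1_bijective S ((q : Nat.Primes) : ℕ) (basis (levelS S))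
    (basis (levelLoc ((q : Nat.Primes) : ℕ))) (isLevelHom_loc S ((q : Nat.Primes) : ℕ))
    (isDiscrete_ISq' S q) (isDiscrete_unitsLoc ((q : Nat.Primes) : ℕ)) (toResolved R h0)

section Block

variable [Finite (M.dualTwist (cycloChar p))]

include hpS in
/-- **The middle block at the S55 objects.** -/
theorem midAt_S55
    (h0 : IsDiscrete (levelS S).sets
      (HpAt29.freeRes (IntRep20.intRep (M.dualTwist (cycloChar p)))).ρ0)
    (hM : IsDiscrete (levelS S).sets (IntRep20.intRep M)) :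
    MidAt (HpAt29.freeRes (IntRep20.intRep (M.dualTwist (cycloChar p)))) h0
      (basis (levelS S)) (isDiscrete_IS' S) (isDiscrete_CS S) hM (toCS S) (toCS_ρ S)
      (fun h => ∀ q : ↥S, resH1 (isLevelHom_loc S ((q : Nat.Primes) : ℕ)) (basis (levelS S))
        (basis (levelLoc ((q : Nat.Primes) : ℕ))) hM
        (IsLevelHom.isDiscrete (isLevelHom_loc S ((q : Nat.Primes) : ℕ)) hM) LinearMap.id
        (fun _ _ => rfl) h = 0) :=
  midAt_of_muData intSurj_int
    (HpAt29.freeRes (IntRep20.intRep (M.dualTwist (cycloChar p)))) h0 (basis (levelS S))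
    (fun q : ↥S => basis (levelLoc ((q : Nat.Primes) : ℕ)))
    (fun q : ↥S => localGaloisToGlobal ((q : Nat.Primes) : ℕ))
    (fun q : ↥S => isLevelHom_loc S ((q : Nat.Primes) : ℕ))
    M.ρ hM (cycloChar p) (KerIsoMain7.hA_freeRes M (cycloChar p))
    (isDiscrete_ES S) (isDiscrete_IS' S) (isDiscrete_CS S) (isDiscrete_ISq' S)
    (fun q : ↥S => isDiscrete_unitsLoc ((q : Nat.Primes) : ℕ))
    (diag S) (diag_ρ S) (toCS S) (toCS_ρ S)
    (Fermat.Agent.PT.GLUE.Objects21.diag_injective S ⟨pPrime p, hpS⟩) (toCS_surjective S)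
    (StarS55_7.exact_diag_toCS S)
    (ISproj S) (ISproj_ρ S) (ISproj_bijective S)
    (fun q : ↥S => evq S ((q : Nat.Primes) : ℕ)) (fun q : ↥S => evq_ρ S ((q : Nat.Primes) : ℕ))
    (muES p S hpS) (fun q : ↥S => muLoc p ((q : Nat.Primes) : ℕ))
    (StarS55_7.evq_ISproj_diag_muES p S hpS)
    (Fermat.Agent.PT.GLUE.ESDivisible27.exists_zsmul_eq (Fact.out) hpS)
    (fun q : ↥S => exists_zsmul_eq_unitsLoc p ((q : Nat.Primes) : ℕ))
    (fun q : ↥S => s1BijAt_S55 S _ h0 q)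

/-- **`#ℍ¹(K(P; I_S)) = ∏_{q ∈ S} #H¹_lev(Γ_q; M)`** at the S55 objects. -/
theorem card_ℍ1_S55
    (h0 : IsDiscrete (levelS S).sets
      (HpAt29.freeRes (IntRep20.intRep (M.dualTwist (cycloChar p)))).ρ0)
    (hM : IsDiscrete (levelS S).sets (IntRep20.intRep M)) :
    Nat.card ((KX (HpAt29.freeRes (IntRep20.intRep (M.dualTwist (cycloChar p)))) h0
        (basis (levelS S)) (IS S).ρ (isDiscrete_IS' S)).ℍ1 (basis (levelS S))) =
      ∏ q : ↥S, Nat.card (Hlev1 (basis (levelLoc ((q : Nat.Primes) : ℕ)))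
        ((IntRep20.intRep M).comp (localGaloisToGlobal ((q : Nat.Primes) : ℕ)))
        (IsLevelHom.isDiscrete (isLevelHom_loc S ((q : Nat.Primes) : ℕ)) hM)) :=
  card_ℍ1_of_muData intSurj_int
    (HpAt29.freeRes (IntRep20.intRep (M.dualTwist (cycloChar p)))) h0 (basis (levelS S))
    (fun q : ↥S => basis (levelLoc ((q : Nat.Primes) : ℕ)))
    (fun q : ↥S => localGaloisToGlobal ((q : Nat.Primes) : ℕ))
    (fun q : ↥S => isLevelHom_loc S ((q : Nat.Primes) : ℕ))
    M.ρ hM (cycloChar p) (KerIsoMain7.hA_freeRes M (cycloChar p))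
    (isDiscrete_IS' S) (isDiscrete_ISq' S)
    (fun q : ↥S => isDiscrete_unitsLoc ((q : Nat.Primes) : ℕ))
    (ISproj S) (ISproj_ρ S) (ISproj_bijective S)
    (fun q : ↥S => evq S ((q : Nat.Primes) : ℕ)) (fun q : ↥S => evq_ρ S ((q : Nat.Primes) : ℕ))
    (fun q : ↥S => muLoc p ((q : Nat.Primes) : ℕ))
    (fun q : ↥S => exists_zsmul_eq_unitsLoc p ((q : Nat.Primes) : ℕ))
    (fun q : ↥S => s1BijAt_S55 S _ h0 q)

end Block

/-! ### The count under the hypotheses of S55 -/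

section Count

variable {p}

/-- `p` kills an `𝔽_p`-module. -/
theorem nsmul_eq_zero_of_zmod {A : Type} [AddCommGroup A] [Module (ZMod p) A] (m : A) :
    p • m = 0 := by
  rw [← Nat.cast_smul_eq_nsmul (ZMod p), ZMod.natCast_self, zero_smul]

/-- **The middle count at the S55 objects**, under the verbatim hypotheses of S55:
`(∏_{q ∈ S} #H¹_lev(Γ_q; M)) · #Ш¹_lev(M) · #Ш¹_lev(A) = #H¹_lev(Γ; M) · #H¹_lev(Γ; A)` for
`A = M^∨(1)`, with all the groups finite. -/
theorem middle_S55 (hp2 : p ≠ 2) (hpS : pPrime p ∈ S)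
    (hsm : ∀ m : M, ∃ F : IntermediateField ℚ (AlgebraicClosure ℚ), FiniteDimensional ℚ F ∧
      ∀ s ∈ F.fixingSubgroup, M.ρ s m = m)
    (hMur : ∀ q : Nat.Primes, q ∉ S → ∀ A : ValuationSubring (AlgebraicClosure ℚ),
      A.LiesOverPrime (q : ℕ) → ∀ g ∈ A.inertiaSubgroupIn ℚ, M.ρ g = 1)
    (hA : IsDiscrete (levelS S).sets (intRep (M.dualTwist (cycloChar p))))
    (hM : IsDiscrete (levelS S).sets (intRep M)) :
    Finite (Hlev1 (basis (levelS S)) (intRep M) hM) ∧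
    Finite (Hlev1 (basis (levelS S)) (intRep (M.dualTwist (cycloChar p))) hA) ∧
    (∀ q : ↥S, Finite (Hlev1 (basis (levelLoc ((q : Nat.Primes) : ℕ)))
        ((intRep M).comp (localGaloisToGlobal ((q : Nat.Primes) : ℕ)))
        (IsLevelHom.isDiscrete (isLevelHom_loc S ((q : Nat.Primes) : ℕ)) hM))) ∧
    (∏ q : ↥S, Nat.card (Hlev1 (basis (levelLoc ((q : Nat.Primes) : ℕ)))
        ((intRep M).comp (localGaloisToGlobal ((q : Nat.Primes) : ℕ)))
        (IsLevelHom.isDiscrete (isLevelHom_loc S ((q : Nat.Primes) : ℕ)) hM))) *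
      Nat.card {h : Hlev1 (basis (levelS S)) (intRep M) hM //
        ∀ q : ↥S, resH1 (isLevelHom_loc S ((q : Nat.Primes) : ℕ)) (basis (levelS S))
          (basis (levelLoc ((q : Nat.Primes) : ℕ))) hM
          (IsLevelHom.isDiscrete (isLevelHom_loc S ((q : Nat.Primes) : ℕ)) hM) LinearMap.id
          (fun _ _ => rfl) h = 0} *
      Nat.card {h : Hlev1 (basis (levelS S)) (intRep (M.dualTwist (cycloChar p))) hA //
        ∀ q : ↥S, resH1 (isLevelHom_loc S ((q : Nat.Primes) : ℕ)) (basis (levelS S))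
          (basis (levelLoc ((q : Nat.Primes) : ℕ))) hA
          (IsLevelHom.isDiscrete (isLevelHom_loc S ((q : Nat.Primes) : ℕ)) hA) LinearMap.id
          (fun _ _ => rfl) h = 0} =
      Nat.card (Hlev1 (basis (levelS S)) (intRep M) hM) *
        Nat.card (Hlev1 (basis (levelS S)) (intRep (M.dualTwist (cycloChar p))) hA) := by
  classical
  have hp : p.Prime := Fact.out
  have hpS' : ∃ q ∈ S, (q : ℕ) = p := ⟨pPrime p, hpS, rfl⟩
  have : FiniteDimensional (ZMod p) (M.dualTwist (cycloChar p)) :=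
    inferInstanceAs (FiniteDimensional (ZMod p) (Module.Dual (ZMod p) M))
  have : Finite (M.dualTwist (cycloChar p)) := Module.finite_of_finite (ZMod p)
  -- global inputs
  have hL1 := GLOB.LocalInjMain14.localInjectivity p S
  have hGCF := GLOB.FundClassExists6.fundClassExists p S
  have hfund := GLUE.FundLevel2.fundFixed_CS p hp2 hpS hGCF
  have hgex := GLUE.GexNormFinal15.gexNormLevel (S := S) hp hp2 hpS
  have h0 : IsDiscrete (levelS S).sets
      (HpAt29.freeRes (IntRep20.intRep (M.dualTwist (cycloChar p)))).ρ0 :=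
    FreeRes29.isDiscrete_freeRep (basis (levelS S)) hA
  have hpA : ∀ m : (M.dualTwist (cycloChar p)), p • m = 0 := fun m => nsmul_eq_zero_of_zmod m
  have hFinA : Finite (Hlev1 (basis (levelS S)) (intRep (M.dualTwist (cycloChar p))) hA) :=
    FinH1S55_9.finite_Hlev1_dualTwist S hpS M hsm hMur (basis (levelS S)) hA
  have hFinM : Finite (Hlev1 (basis (levelS S)) (intRep M) hM) :=
    FinH1S55_9.finite_Hlev1_self S hpS M hsm hMur (basis (levelS S)) hM
  have : Finite (Hlev1 (basis (levelS S))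
      (HpAt29.freeRes (IntRep20.intRep (M.dualTwist (cycloChar p)))).ρM hA) := hFinA
  -- duality package
  have hdual : InvFund18.AlphaPackage
      (HpAt29.freeRes (IntRep20.intRep (M.dualTwist (cycloChar p)))) h0 (basis (levelS S))
      (CS S).ρ (isDiscrete_CS S) p hpA :=
    InvFund18.alphaPackage_of_isFundClass _ (CS S).ρ (basis (levelS S)) h0 hpA (isDiscrete_CS S)
      (GlobalHypP8.trivFam_sub _ _) (GlobalHypP8.trivFam_normal _ _)
      (GlobalHypP8.trivFam_cofinal _ (basis (levelS S)) h0) (GlobalHypP8.trivFam_triv0 _ _)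
      hfund (GlobalHypP8.gexNorm_trivFam _ hgex)
  -- the count
  obtain ⟨hfin, hcard⟩ := card_middle_wrap
    (HpAt29.freeRes (IntRep20.intRep (M.dualTwist (cycloChar p)))) h0 (basis (levelS S))
    (fun q : ↥S => basis (levelLoc ((q : Nat.Primes) : ℕ)))
    (fun q : ↥S => localGaloisToGlobal ((q : Nat.Primes) : ℕ))
    (fun q : ↥S => isLevelHom_loc S ((q : Nat.Primes) : ℕ))
    hA (fun q : ↥S => IsLevelHom.isDiscrete (isLevelHom_loc S ((q : Nat.Primes) : ℕ)) hA)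
    (isDiscrete_IS' S) (isDiscrete_CS S) hM (isDiscrete_ISq' S)
    (fun q : ↥S => isDiscrete_unitsLoc ((q : Nat.Primes) : ℕ))
    (fun q : ↥S => IsLevelHom.isDiscrete (isLevelHom_loc S ((q : Nat.Primes) : ℕ)) hM)
    (toCS S) (toCS_ρ S) (inclq S) (inclq_ρ S) (ISproj S) (ISproj_ρ S)
    (fun q : ↥S => evq S ((q : Nat.Primes) : ℕ)) (fun q : ↥S => evq_ρ S ((q : Nat.Primes) : ℕ))
    (fun _ : ↥S => LinearMap.id) (fun _ _ _ => rfl) p hpA hdual
    (Hlev2_IS_eq_zero_of_forall S)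
    (fun q : ↥S => (s1BijAt_S55 S _ h0 q).2)
    (fun q : ↥S => LocS2_29.resH2_injective S ((q : Nat.Primes) : ℕ))
    (GLUE.LocalGlobalInst27.hLG_inclq S p hp hp2 hpS' hL1 (basis (levelS S)) (isDiscrete_ISq' S)
      (isDiscrete_IS' S) (isDiscrete_CS S))
    (fun q : ↥S => fun x hx =>
      GLUE.LocalHypR11.pair11_right_kernel_local ((q : Nat.Primes) : ℕ) _ p hpA x hx)
    (midAt_S55 p S hpS M h0 hM)
  rw [card_ℍ1_S55 p S M h0 hM] at hcard
  refine ⟨hFinM, hFinA, ?_, hcard⟩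
  -- finiteness of the local factors: the product of their cardinalities is `#ℍ¹(K(P; I_S)) ≠ 0`
  have hne : (∏ q : ↥S, Nat.card (Hlev1 (basis (levelLoc ((q : Nat.Primes) : ℕ)))
      ((intRep M).comp (localGaloisToGlobal ((q : Nat.Primes) : ℕ)))
      (IsLevelHom.isDiscrete (isLevelHom_loc S ((q : Nat.Primes) : ℕ)) hM))) ≠ 0 := by
    rw [← card_ℍ1_S55 p S M h0 hM]
    exact Nat.card_pos.ne'
  intro q
  exact Nat.finite_of_card_ne_zero (Finset.prod_ne_zero_iff.1 hne q (Finset.mem_univ q))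

end Count

end Fermat.Agent.ES.T56.MidS55_25
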