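/-
Programme T (S56), chapter GW-B (helper25), brick 1: **`GWProps21.MiddleCount`**.

`middleCount : GWProps21.MiddleCount Sg X` for every finite-dimensional smooth `X` unramified outside
`Sg ∋ p`, `p` odd:

  `h¹(G_S, X) + h¹(G_S, X*) = ш¹(X) + ш¹(X*) + Σ_{q ∈ S} h¹(G_q, X)`,

i.e. the exactness of `0 → Ш¹(X) → H¹(G_S,X) → ⊕_q H¹(G_q,X) → H¹(G_S,X*)^∨ → Ш¹(X*)^∨ → 0` as a
count.  This file is the TRANSPORT of `MidS55_25.middle_S55` (a statement about `Resolved4.Hlev1` of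
the `ℤ`-representations `intRep ·` for the bases `levelS S`, `levelLoc q`) to the Prelude's
`continuousH1S`, `sha₁`, `continuousH1` (`GWIface21.h1S`, `h1loc`), through
`LevelEquiv29.h1IntEquiv`, `LevelEquiv29.ppH1_eq_zero_iff`, `BasisCompare13`,
`LevelBridge13.H1Equiv`, `ShaBridge13.sha₁Equiv`, `Interface29.h1Equiv`.
Also exported: `finAll_h1` (finite-dimensionality of `H¹(G_S, X)`, `H¹(G_S, X*)`, `H¹(G_q, X)`).
-/
import Mathlib
import Fermat.Agent.ES.T56.GWProps21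
import Fermat.Agent.ES.T56.MidS55_25
import Fermat.Agent.PT.PRO.Transport29
import Fermat.Agent.PT.BR.Interface29

set_option autoImplicit false
set_option linter.unusedSectionVars false

namespace Fermat.Agent.ES.T56.MiddleCount25

open Function Module CategoryTheory groupCohomology ExtCitation
open Fermat.Agent.PT Fermat.Agent.PT.PRO Fermat.Agent.PT.PRO.HyperLevel25
open Fermat.Agent.PT.PRO.Resolved4 Fermat.Agent.PT.PRO.IntRep20 Fermat.Agent.PT.PRO.LevelEquiv29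
open Fermat.Agent.ES.T56.GWIface21

/-! ### Generic bases -/

section Generic

variable {p : ℕ} [Fact p.Prime] {G : Type} [Group G] {ι : Type} [Fintype ι] {Gq : ι → Type}
  [∀ q, Group (Gq q)]
variable (r : ∀ q, Gq q →* G) (𝓑 : LevelCoh28.LevelBasis G)
  (𝓑q : ∀ q, LevelCoh28.LevelBasis (Gq q))
variable (hf : ∀ q, LevelCohRes28.IsLevelHom (r q) (𝓑q q).sets 𝓑.sets)

/-- The conclusion, for arbitrary level bases: finiteness and the count in `LevelCoh28` form. -/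
def Concl (X X' : Rep.{0} (ZMod p) G) : Prop :=
  Finite (LevelCoh28.H1 𝓑 X) ∧ Finite (LevelCoh28.H1 𝓑 X') ∧
    (∀ q, Finite (LevelCoh28.H1 (𝓑q q) (Rep.res (r q) X))) ∧
    finrank (ZMod p) (LevelCoh28.H1 𝓑 X) + finrank (ZMod p) (LevelCoh28.H1 𝓑 X') =
      finrank (ZMod p) ↥(LinearMap.ker (Transport29.loc1 r 𝓑 𝓑q hf X)) +
        finrank (ZMod p) ↥(LinearMap.ker (Transport29.loc1 r 𝓑 𝓑q hf X')) +
        ∑ q, finrank (ZMod p) (LevelCoh28.H1 (𝓑q q) (Rep.res (r q) X))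

/-- The conclusion only depends on the bases up to equality. -/
theorem Concl.congr {𝓑 𝓑' : LevelCoh28.LevelBasis G} (e : 𝓑 = 𝓑')
    {𝓑q 𝓑q' : ∀ q, LevelCoh28.LevelBasis (Gq q)} (eq : 𝓑q = 𝓑q')
    (hf : ∀ q, LevelCohRes28.IsLevelHom (r q) (𝓑q q).sets 𝓑.sets)
    (hf' : ∀ q, LevelCohRes28.IsLevelHom (r q) (𝓑q' q).sets 𝓑'.sets)
    (X X' : Rep.{0} (ZMod p) G) (h : Concl r 𝓑 𝓑q hf X X') : Concl r 𝓑' 𝓑q' hf' X X' := by
  subst e
  subst eq
  exact h

/-- The cardinality of a finite `𝔽_p`-vector space. -/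
theorem card_eq_pow_finrank (V : Type*) [AddCommGroup V] [Module (ZMod p) V] [Finite V] :
    Nat.card V = p ^ finrank (ZMod p) V := by
  rw [Module.natCard_eq_pow_finrank (K := ZMod p) (V := V), Nat.card_zmod]

/-- **Transport, generic bases**: from the count in `Hlev1` (`ℤ`) form to `Concl`. -/
theorem concl_of_card (X X' : Rep.{0} (ZMod p) G)
    (h𝒰 : IsLevelBasis 𝓑.sets) (h𝒰q : ∀ q, IsLevelBasis (𝓑q q).sets)
    (hr : ∀ q, HyperRes25.IsLevelHom (r q) (𝓑q q).sets 𝓑.sets)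
    (hX : IsDiscrete 𝓑.sets (intRep X))
    (hXq : ∀ q, IsDiscrete (𝓑q q).sets ((intRep X).comp (r q)))
    (hX' : IsDiscrete 𝓑.sets (intRep X'))
    (hXq' : ∀ q, IsDiscrete (𝓑q q).sets ((intRep X').comp (r q)))
    (hfin : Finite (Hlev1 h𝒰 (intRep X) hX)) (hfin' : Finite (Hlev1 h𝒰 (intRep X') hX'))
    (hfinq : ∀ q, Finite (Hlev1 (h𝒰q q) ((intRep X).comp (r q)) (hXq q)))
    (hcard : (∏ q, Nat.card (Hlev1 (h𝒰q q) ((intRep X).comp (r q)) (hXq q))) *
        Nat.card {h : Hlev1 h𝒰 (intRep X) hX // ∀ q, PairingRes1.resH1 (hr q) h𝒰 (h𝒰q q) hX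
          (hXq q) LinearMap.id (fun _ _ => rfl) h = 0} *
        Nat.card {h : Hlev1 h𝒰 (intRep X') hX' // ∀ q, PairingRes1.resH1 (hr q) h𝒰 (h𝒰q q) hX'
          (hXq' q) LinearMap.id (fun _ _ => rfl) h = 0} =
      Nat.card (Hlev1 h𝒰 (intRep X) hX) * Nat.card (Hlev1 h𝒰 (intRep X') hX')) :
    Concl r 𝓑 𝓑q hf X X' := by
  classical
  -- the dictionary for the kernels of the localisation maps
  have h1 : ∀ (Y : Rep.{0} (ZMod p) G) (hY : IsDiscrete 𝓑.sets (intRep Y))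
      (hYq : ∀ q, IsDiscrete (𝓑q q).sets ((intRep Y).comp (r q))) (x : LevelCoh28.H1 𝓑 Y),
      x ∈ LinearMap.ker (Transport29.loc1 r 𝓑 𝓑q hf Y) ↔
      ∀ q, PairingRes1.resH1 (hr q) h𝒰 (h𝒰q q) hY (hYq q) LinearMap.id (fun _ _ => rfl)
        ((h1IntEquiv 𝓑 Y hY).toEquiv x) = 0 := by
    intro Y hY hYq x
    rw [LinearMap.mem_ker, Transport29.loc1_eq_zero_iff]
    refine forall_congr' fun q => ?_
    exact ppH1_eq_zero_iff (r q) (B := Rep.res (r q) Y) hY (hYq q) LinearMap.id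
      (fun _ _ => rfl) (hf q) LinearMap.id (fun _ _ => rfl) (fun _ => rfl) x
  have eK : ∀ (Y : Rep.{0} (ZMod p) G) (hY : IsDiscrete 𝓑.sets (intRep Y))
      (hYq : ∀ q, IsDiscrete (𝓑q q).sets ((intRep Y).comp (r q))),
      Nat.card {h : Hlev1 h𝒰 (intRep Y) hY // ∀ q, PairingRes1.resH1 (hr q) h𝒰 (h𝒰q q) hY
          (hYq q) LinearMap.id (fun _ _ => rfl) h = 0} =
        Nat.card ↥(LinearMap.ker (Transport29.loc1 r 𝓑 𝓑q hf Y)) := fun Y hY hYq =>
    (Nat.card_congr ((h1IntEquiv 𝓑 Y hY).toEquiv.subtypeEquiv (h1 Y hY hYq))).symm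
  have eH : ∀ (Y : Rep.{0} (ZMod p) G) (hY : IsDiscrete 𝓑.sets (intRep Y)),
      Nat.card (Hlev1 h𝒰 (intRep Y) hY) = Nat.card (LevelCoh28.H1 𝓑 Y) := fun Y hY =>
    (Nat.card_congr (h1IntEquiv 𝓑 Y hY).toEquiv).symm
  have eq : ∀ q, Nat.card (Hlev1 (h𝒰q q) ((intRep X).comp (r q)) (hXq q)) =
      Nat.card (LevelCoh28.H1 (𝓑q q) (Rep.res (r q) X)) := fun q =>
    (Nat.card_congr (h1IntEquiv (𝓑q q) (Rep.res (r q) X) (hXq q)).toEquiv).symm
  -- finiteness
  have fX : Finite (LevelCoh28.H1 𝓑 X) := Finite.of_equiv _ (h1IntEquiv 𝓑 X hX).toEquiv.symm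
  have fX' : Finite (LevelCoh28.H1 𝓑 X') := Finite.of_equiv _ (h1IntEquiv 𝓑 X' hX').toEquiv.symm
  have fq : ∀ q, Finite (LevelCoh28.H1 (𝓑q q) (Rep.res (r q) X)) := fun q =>
    @Finite.of_equiv _ _ (hfinq q) (h1IntEquiv (𝓑q q) (Rep.res (r q) X) (hXq q)).toEquiv.symm
  refine ⟨fX, fX', fq, ?_⟩
  have cX := card_eq_pow_finrank (p := p) (LevelCoh28.H1 𝓑 X)
  have cX' := card_eq_pow_finrank (p := p) (LevelCoh28.H1 𝓑 X')
  have cK := card_eq_pow_finrank (p := p) ↥(LinearMap.ker (Transport29.loc1 r 𝓑 𝓑q hf X))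
  have cK' := card_eq_pow_finrank (p := p) ↥(LinearMap.ker (Transport29.loc1 r 𝓑 𝓑q hf X'))
  have cq : ∏ q, Nat.card (Hlev1 (h𝒰q q) ((intRep X).comp (r q)) (hXq q)) =
      p ^ ∑ q, finrank (ZMod p) (LevelCoh28.H1 (𝓑q q) (Rep.res (r q) X)) := by
    rw [← Finset.prod_pow_eq_pow_sum]
    refine Finset.prod_congr rfl fun q _ => ?_
    rw [eq q]
    exact card_eq_pow_finrank (p := p) (LevelCoh28.H1 (𝓑q q) (Rep.res (r q) X))
  rw [eK X hX hXq, eK X' hX' hXq', eH X hX, eH X' hX', cq, cX, cX', cK, cK', ← pow_add, ← pow_add,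
    ← pow_add] at hcard
  have := Nat.pow_right_injective (Fact.out : p.Prime).two_le hcard
  omega

end Generic

/-! ### The arithmetic case -/

section Arith

open Fermat.Agent.PT.BR Fermat.Agent.PT.BR.LevelBridge13 Fermat.Agent.PT.GLUE
open Fermat.Agent.PT.GLUE.Objects21 Fermat.Agent.PT.GLUE.LocS2_29

variable {p : ℕ} [Fact p.Prime]

/-- `Interface29.levelBasisOf r` is `LevelBridge13.pullBasis r`. -/
theorem levelBasisOf_eq {H : Type} [Group H] (r : H →* GQ) :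
    Interface29.levelBasisOf r = pullBasis r := rfl

/-- **The middle count in level cohomology for the bases of `LevelBridge13`.** -/
theorem concl_arith (hp2 : p ≠ 2) (Sg : Finset Nat.Primes) (hpS : pPrime p ∈ Sg)
    (X : Rep.{0} (ZMod p) GQ) [FiniteDimensional (ZMod p) X] (hsm : IsSmooth p X)
    (hur : IsUnramOutside p Sg X) :
    Concl (p := p) (fun q : ↥Sg => primeLocalToGlobal q.1) (globalBasis Sg)
      (fun q : ↥Sg => pullBasis (primeLocalToGlobal q.1))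
      (fun q : ↥Sg => ShaBridge13.isLevelHom_pull Sg (primeLocalToGlobal q.1)) X (dualT p X) := by
  have hX : IsDiscrete (levelS Sg).sets (intRep X) :=
    FinH1S55_9.isDiscrete_intRep_self Sg hpS X hsm hur
  have hA : IsDiscrete (levelS Sg).sets (intRep (dualT p X)) :=
    FinH1S55_9.isDiscrete_intRep_dualTwist Sg hpS X hsm hur
  obtain ⟨hfX, hfA, hfq, hcard⟩ := MidS55_25.middle_S55 Sg X hp2 hpS hsm hur hA hX
  have key : Concl (p := p) (fun q : ↥Sg => primeLocalToGlobal q.1) (levelS Sg)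
      (fun q : ↥Sg => (levelLoc ((q : Nat.Primes) : ℕ) :
        LevelCoh28.LevelBasis (primeLocalGaloisGroup q.1)))
      (fun q => isLevelHom_iff.2 (isLevelHom_loc Sg ((q : Nat.Primes) : ℕ))) X (dualT p X) :=
    concl_of_card (fun q : ↥Sg => primeLocalToGlobal q.1) (levelS Sg)
      (fun q : ↥Sg => (levelLoc ((q : Nat.Primes) : ℕ) :
        LevelCoh28.LevelBasis (primeLocalGaloisGroup q.1)))
      (fun q => isLevelHom_iff.2 (isLevelHom_loc Sg ((q : Nat.Primes) : ℕ))) X (dualT p X)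
      (basis (levelS Sg)) (fun q : ↥Sg => basis (levelLoc ((q : Nat.Primes) : ℕ)))
      (fun q : ↥Sg => isLevelHom_loc Sg ((q : Nat.Primes) : ℕ))
      hX (fun q : ↥Sg => HyperRes25.IsLevelHom.isDiscrete
        (isLevelHom_loc Sg ((q : Nat.Primes) : ℕ)) hX)
      hA (fun q : ↥Sg => HyperRes25.IsLevelHom.isDiscrete
        (isLevelHom_loc Sg ((q : Nat.Primes) : ℕ)) hA)
      hfX hfA hfq hcard
  have e1 : levelS Sg = globalBasis Sg := (BasisCompare13.globalBasis_eq Sg).symm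
  have e2 : (fun q : ↥Sg => (levelLoc ((q : Nat.Primes) : ℕ) :
      LevelCoh28.LevelBasis (primeLocalGaloisGroup q.1))) =
      fun q : ↥Sg => pullBasis (primeLocalToGlobal q.1) :=
    funext fun q => (BasisCompare13.pullBasis_prime_eq q.1).symm
  exact Concl.congr (fun q : ↥Sg => primeLocalToGlobal q.1) e1 e2 _
    (fun q : ↥Sg => ShaBridge13.isLevelHom_pull Sg (primeLocalToGlobal q.1)) X (dualT p X) key

/-- Finite-dimensionality of the three kinds of `H¹` entering the middle count. -/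
theorem finAll_h1 (hp2 : p ≠ 2) (Sg : Finset Nat.Primes) (hpS : pPrime p ∈ Sg)
    (X : Rep.{0} (ZMod p) GQ) [FiniteDimensional (ZMod p) X] (hsm : IsSmooth p X)
    (hur : IsUnramOutside p Sg X) :
    FiniteDimensional (ZMod p) ↥(continuousH1S Sg X) ∧
      FiniteDimensional (ZMod p) ↥(continuousH1S Sg (dualT p X)) ∧
      ∀ q : ↥Sg, FiniteDimensional (ZMod p) ↥(contLoc p q.1 X) := by
  obtain ⟨fX, fX', fq, -⟩ := concl_arith hp2 Sg hpS X hsm hur
  refine ⟨?_, ?_, fun q => ?_⟩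
  · have : Finite ↥(continuousH1S Sg X) := Finite.of_equiv _ (H1Equiv Sg X).toEquiv
    exact Module.Finite.of_finite
  · have : Finite ↥(continuousH1S Sg (dualT p X)) :=
      Finite.of_equiv _ (H1Equiv Sg (dualT p X)).toEquiv
    exact Module.Finite.of_finite
  · have : Finite ↥(contLoc p q.1 X) :=
      @Finite.of_equiv _ _ (fq q) (Interface29.h1Equiv (primeLocalToGlobal q.1)
        (Rep.res (primeLocalToGlobal q.1) X)).toEquiv
    exact Module.Finite.of_finite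

/-- `h¹(G_S, Y)` is the dimension of the level `H¹` for `globalBasis`. -/
theorem finrank_H1_globalBasis (Sg : Finset Nat.Primes) (Y : Rep.{0} (ZMod p) GQ) :
    finrank (ZMod p) (LevelCoh28.H1 (globalBasis Sg) Y) = h1S p Sg Y :=
  (H1Equiv Sg Y).finrank_eq

/-- `ш¹(Y)` is the dimension of the kernel of the total localisation in level cohomology. -/
theorem finrank_ker_loc1 (hp2 : p ≠ 2) (Sg : Finset Nat.Primes) (Y : Rep.{0} (ZMod p) GQ) :
    finrank (ZMod p) ↥(LinearMap.ker (Transport29.loc1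
      (fun q : ↥Sg => primeLocalToGlobal q.1) (globalBasis Sg)
      (fun q : ↥Sg => pullBasis (primeLocalToGlobal q.1))
      (fun q : ↥Sg => ShaBridge13.isLevelHom_pull Sg (primeLocalToGlobal q.1)) Y)) =
      finrank (ZMod p) ↥(sha₁ Sg Y) := by
  rw [← Transport29.locH1_eq]
  exact (ShaBridge13.finrank_sha₁ Sg Y (ArchVanish13.two_ne_zero_zmod hp2)).symm

/-- `h¹(G_q, Y)` is the dimension of the level `H¹` for `pullBasis`. -/
theorem finrank_H1_pullBasis (q : Nat.Primes) (Y : Rep.{0} (ZMod p) GQ) :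
    finrank (ZMod p) (LevelCoh28.H1 (pullBasis (primeLocalToGlobal q))
      (Rep.res (primeLocalToGlobal q) Y)) = h1loc p q Y :=
  (Interface29.h1Equiv (primeLocalToGlobal q) (Rep.res (primeLocalToGlobal q) Y)).finrank_eq

/-- **Brick 1: `GWProps21.MiddleCount`.** -/
theorem middleCount (hp2 : p ≠ 2) (Sg : Finset Nat.Primes) (hpS : pPrime p ∈ Sg)
    (X : Rep.{0} (ZMod p) GQ) [FiniteDimensional (ZMod p) X] (hsm : IsSmooth p X)
    (hur : IsUnramOutside p Sg X) : GWProps21.MiddleCount Sg X := by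
  obtain ⟨-, -, -, h⟩ := concl_arith hp2 Sg hpS X hsm hur
  rw [finrank_H1_globalBasis Sg X, finrank_H1_globalBasis Sg (dualT p X),
    finrank_ker_loc1 hp2 Sg X, finrank_ker_loc1 hp2 Sg (dualT p X),
    Finset.sum_congr rfl fun q _ => finrank_H1_pullBasis q.1 X] at h
  exact h

end Arith

end Fermat.Agent.ES.T56.MiddleCount25
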