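/-
Programme T (S56), chapter GW-B (helper25), brick 1b: **`GWIface21.NineTermCount`** from the three
blocks of the Poitou–Tate nine-term sequence.

`nineTermCount_of : P2Eq Sg X → P2Eq Sg X* → (∀ q ∈ Sg, LocDual20 q X) → NineTermCount Sg X`
for every finite-dimensional smooth `X` unramified outside `Sg ∋ p`, `p` odd.  The other inputs are
PROVED and plugged in here:
* `ShaCount21.shaCount`  (C2, S55 for `X*` + biduality) : `ш¹(X) = ш²(X*)`;
* `sha₁_dualT_eq_sha₂`   (S55 for `X` itself)          : `ш¹(X*) = ш²(X)`;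
* `MiddleCount25.middleCount`                           : `h¹(X) + h¹(X*) = ш¹(X) + ш¹(X*) + Σ_q h¹(G_q,X)`;
* `GwLeAsm25.h0_ddual`                                  : `h⁰((X*)*) = h⁰(X)`.
-/
import Mathlib
import Fermat.Agent.S55
import Fermat.Agent.ES.T56.GWProps21
import Fermat.Agent.ES.T56.ShaCount21
import Fermat.Agent.ES.T56.MiddleCount25
import Fermat.Agent.ES.T56.GwLeAsm25
import Fermat.Agent.PT.BR.DualTwist7
import Fermat.Agent.PT.BR.Reduce29

set_option autoImplicit false

namespace Fermat.Agent.ES.T56.NineTermAsm25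

open CategoryTheory Module groupCohomology ExtCitation
open Fermat.Agent.ES.T56.GWIface21 Fermat.Agent.ES.T56.GWProps21
open Fermat.Agent.PT.BR

variable {p : ℕ} [Fact p.Prime]

/-- **S55 for `X` itself**: `dim Ш¹_S(X*) = dim Ш²_S(X)` (with finite-dimensionality). -/
theorem sha₁_dualT_eq_sha₂ (hp2 : p ≠ 2) (Sg : Finset Nat.Primes) (hpS : pPrime p ∈ Sg)
    (X : Rep.{0} (ZMod p) GQ) [FiniteDimensional (ZMod p) X] (hsm : IsSmooth p X)
    (hur : IsUnramOutside p Sg X) :
    FiniteDimensional (ZMod p) ↥(sha₁ Sg (dualT p X)) ∧ FiniteDimensional (ZMod p) ↥(sha₂ Sg X) ∧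
      finrank (ZMod p) ↥(sha₁ Sg (dualT p X)) = finrank (ZMod p) ↥(sha₂ Sg X) := by
  have hsmN := DualTwist7.smooth_dualTwist X hsm
  have hurN := DualTwist7.unram_dualTwist X hpS hur
  obtain ⟨B, hl, hr⟩ := Fermat.Agent.S55.result hp2 Sg hpS X hsm hur
  have : FiniteDimensional (ZMod p) (dualT p X) :=
    inferInstanceAs (FiniteDimensional (ZMod p) (Module.Dual (ZMod p) X))
  have := ShaCount21.finiteDimensional_continuousH1S Sg hpS (dualT p X) hsmN hurN
  have h1 : FiniteDimensional (ZMod p) ↥(sha₁ Sg (dualT p X)) :=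
    Submodule.finiteDimensional_of_le
      (inf_le_left : sha₁ Sg (dualT p X) ≤ continuousH1S Sg (dualT p X))
  have h2 : FiniteDimensional (ZMod p) ↥(sha₂ Sg X) := by
    have hinj : Function.Injective B.flip := by
      rw [← LinearMap.ker_eq_bot, LinearMap.ker_eq_bot']
      intro x hx
      exact hr x fun y => by
        have := congrArg (fun f => f y) hx
        simpa using this
    exact FiniteDimensional.of_injective B.flip hinj
  exact ⟨h1, h2, Reduce29.finrank_eq_of_pairing B hl hr⟩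

/-- **`NineTermCount` from the `P²` counts and the local `(2,0)` duality.** -/
theorem nineTermCount_of (hp2 : p ≠ 2) (Sg : Finset Nat.Primes) (hpS : pPrime p ∈ Sg)
    (X : Rep.{0} (ZMod p) GQ) [FiniteDimensional (ZMod p) X] (hsm : IsSmooth p X)
    (hur : IsUnramOutside p Sg X)
    (hP2 : P2Eq Sg X) (hP2' : P2Eq Sg (dualT p X))
    (hLD : ∀ q : ↥Sg, LocDual20 q.1 X) : NineTermCount Sg X := by
  obtain ⟨-, -, hsha⟩ := ShaCount21.shaCount hp2 Sg hpS X hsm hur
  obtain ⟨-, -, hsha'⟩ := sha₁_dualT_eq_sha₂ hp2 Sg hpS X hsm hur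
  have hmid := MiddleCount25.middleCount hp2 Sg hpS X hsm hur
  have hdd : h0 p (dualT p (dualT p X)) = h0 p X := GwLeAsm25.h0_ddual X
  have hloc : ∑ q : ↥Sg, h2loc p q.1 (dualT p X) = ∑ q : ↥Sg, h0loc p q.1 X :=
    Finset.sum_congr rfl fun q _ => hLD q
  unfold NineTermCount
  unfold MiddleCount at hmid
  unfold P2Eq at hP2 hP2'
  rw [hdd] at hP2'
  rw [Finset.sum_add_distrib]
  omega

end Fermat.Agent.ES.T56.NineTermAsm25
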