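/-
Programme T (S56), chapter GW, brick 3 (global `(2,0)` duality), helper18.

`GlobAlphaTwoCS18`: **the LEFT half of the global `(2,0)` duality for the S55 datum**
`(Γ = Gal(ℚ̄/ℚ), levelS S, C_S)`, UNCONDITIONALLY (`p` odd, `p ∈ S`): for a finite discrete
`𝔽_p[Γ]`-module `A` with canonical resolution `P = HpAt29.freeRes (intRep A)`
(`0 → Rel ℤ A → ℤ[A] → A → 0`) there is an injective `τ : H²_lev(Γ; C_S)[p] → ℤ/p` such that

  `α² = τ ∘ pair20 : ℍ²(K(P; C_S)) = "Ext²_Γ(A, C_S)" ⟶ Hom(H⁰_lev(Γ; A), ℤ/p)`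

is INJECTIVE; numerically `#ℍ²(K(P; C_S)) ≤ #A^Γ`.  Twin of `MainCount20.alphaPackage` /
`AlphaS55_10.alphaPackage_CS` (degree `(1,1)`); the input is (G1) only
(`FundLevelFinal2.fundFixed_CS`), no norm condition.
-/
import Mathlib
import Fermat.Agent.ES.T56.FinTN20Fund18
import Fermat.Agent.PT.PRO.IntRep20
import Fermat.Agent.PT.PRO.LevelEquiv29
import Fermat.Agent.PT.GLUE.Objects21
import Fermat.Agent.PT.GLUE.FundLevelFinal2

set_option autoImplicit false

namespace Fermat.Agent.ES.T56.GlobAlphaTwoCS18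

open ExtCitation
open Fermat.Agent.PT.PRO Fermat.Agent.PT.GLUE Fermat.Agent.PT.GLUE.Objects21
open Fermat.Agent.PT.PRO.HyperLevel25 Fermat.Agent.PT.PRO.IntRep20
  Fermat.Agent.PT.PRO.LevelEquiv29
open Fermat.Agent.ES.T56.GlobAlphaTwo18 Fermat.Agent.ES.T56.FinTN20Fund18

local notation "Γ" => (AlgebraicClosure ℚ ≃ₐ[ℚ] AlgebraicClosure ℚ)

variable {p : ℕ} [Fact p.Prime] (S : Finset Nat.Primes) (A : Rep.{0} (ZMod p) Γ)

/-- `p` kills a `𝔽_p`-module. -/
theorem hpA (m : A) : p • m = 0 := by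
  rw [← Nat.cast_smul_eq_nsmul (ZMod p) p m, ZMod.natCast_self, zero_smul]

variable [Finite A]

/-- **The LEFT half of the global `(2,0)` duality package for `K(P; C_S)`**, `P` the canonical
resolution of `A`: `α² = τ ∘ pair20` is injective.  Unconditional for `p` odd, `p ∈ S`. -/
theorem alphaTwoLeft_CS (hp2 : p ≠ 2) (hpS : pPrime p ∈ S)
    (hA : IsDiscrete (levelS S).sets (intRep A)) :
    AlphaTwoLeft (HpAt29.freeRes (intRep A))
      (FreeRes29.isDiscrete_freeRep (basis (levelS S)) hA) (basis (levelS S)) (CS S).ρ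
      (isDiscrete_CS S) p (hpA A) :=
  alphaTwoLeft_freeRes (intRep A) (CS S).ρ (basis (levelS S)) hA (hpA A) (isDiscrete_CS S)
    (FundLevelFinal2.fundFixed_CS p hp2 hpS)

/-- **Numerically**: `ℍ²(K(P; C_S))` is finite and `#ℍ²(K(P; C_S)) ≤ #A^Γ`. -/
theorem cardTwoLe_CS (hp2 : p ≠ 2) (hpS : pPrime p ∈ S)
    (hA : IsDiscrete (levelS S).sets (intRep A)) :
    CardTwoLe (HpAt29.freeRes (intRep A))
      (FreeRes29.isDiscrete_freeRep (basis (levelS S)) hA) (basis (levelS S)) (CS S).ρ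
      (isDiscrete_CS S) :=
  cardTwoLe_of_left (alphaTwoLeft_CS S A hp2 hpS hA)

end Fermat.Agent.ES.T56.GlobAlphaTwoCS18
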