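/-
Programme T (S56), chapter GW, helper18 (for brick 2, the LOCAL `(2,0)` leg).

`LocAlphaTwo18`: **the LEFT half of the local `(2,0)` duality for the local datum**
`(Γ_q = Gal(ℚ̄_q/ℚ_q), levelLoc q, ℚ̄_qˣ)`, UNCONDITIONALLY: for a finite discrete `Γ_q`-module `A`
with `p A = 0` and canonical resolution `P = HpAt29.freeRes ρA` there is an injective
`τ : H²_lev(Γ_q; ℚ̄_qˣ)[p] → ℤ/p` such that

  `α² = τ ∘ pair20 : ℍ²(K(P; ℚ̄_qˣ)) = "Ext²_{Γ_q}(A, ℚ̄_qˣ)" ⟶ Hom(H⁰_lev(Γ_q; A), ℤ/p)`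

is INJECTIVE; numerically `#ℍ²(K(P; ℚ̄_qˣ)) ≤ #A^{Γ_q}`.  (Instance of
`FinTN20Fund18.alphaTwoLeft_freeRes` with the local fundamental classes of `LocalSide11`.)
-/
import Mathlib
import Fermat.Agent.ES.T56.FinTN20Fund18
import Fermat.Agent.PT.GLUE.LocalHypR11

set_option autoImplicit false

namespace Fermat.Agent.ES.T56.LocAlphaTwo18

open Fermat.Agent.PT.PRO Fermat.Agent.PT.PRO.HyperLevel25
open Fermat.Agent.PT.GLUE.Objects21 Fermat.Agent.PT.GLUE.LocalSide11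
  Fermat.Agent.PT.GLUE.LocalHypR11
open Fermat.Agent.ES.T56.GlobAlphaTwo18 Fermat.Agent.ES.T56.FinTN20Fund18

variable (q : ℕ) [Fact q.Prime]

local notation "Γq" => (PadicAlgCl q ≃ₐ[ℚ_[q]] PadicAlgCl q)

variable {p : ℕ} [Fact p.Prime] {A : Type} [AddCommGroup A] [Finite A]

/-- **The LEFT half of the local `(2,0)` duality package for `K(P; ℚ̄_qˣ)`**, `P` the canonical
resolution of `A`: `α² = τ ∘ pair20` is injective.  Unconditional. -/
theorem alphaTwoLeft_loc (ρA : Representation ℤ Γq A) (hA : IsDiscrete (levelLoc q).sets ρA)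
    (hpA : ∀ a : A, p • a = 0) :
    AlphaTwoLeft (HpAt29.freeRes ρA)
      (FreeRes29.isDiscrete_freeRep (isLevelBasis_levelLoc q) hA) (isLevelBasis_levelLoc q)
      (unitsLoc q).ρ (isDiscrete_unitsLoc' q) p hpA :=
  alphaTwoLeft_freeRes ρA (unitsLoc q).ρ (isLevelBasis_levelLoc q) hA hpA
    (isDiscrete_unitsLoc' q)
    (fun _ hV hn => haveI := hn; exists_isFundClass_of_mem_levelLoc q hV p)

/-- **Numerically**: `ℍ²(K(P; ℚ̄_qˣ))` is finite and `#ℍ²(K(P; ℚ̄_qˣ)) ≤ #A^{Γ_q}`. -/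
theorem cardTwoLe_loc (ρA : Representation ℤ Γq A) (hA : IsDiscrete (levelLoc q).sets ρA)
    (hpA : ∀ a : A, p • a = 0) :
    CardTwoLe (HpAt29.freeRes ρA)
      (FreeRes29.isDiscrete_freeRep (isLevelBasis_levelLoc q) hA) (isLevelBasis_levelLoc q)
      (unitsLoc q).ρ (isDiscrete_unitsLoc' q) :=
  cardTwoLe_of_left (alphaTwoLeft_loc q ρA hA hpA)

end Fermat.Agent.ES.T56.LocAlphaTwo18
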