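/-
Programme T (S56), chapter GW, part C (degree `(2,0)` duality), helper2.

`LocTower2`: **`p^∞` divides the order of `Γ_q = Gal(ℚ̄_q/ℚ_q)`**, in the form needed by the
RIGHT-kernel limit argument (`AlphaTwoRight2`, hypothesis `hdvd`):

* `exists_level_pow_dvd q p m : ∃ W ∈ (levelLoc q).sets, p ^ m ∣ W.index`
  (the unramified extension of degree `p ^ m` of `ℚ_q`: `Unram11.unramSplittingStatement`,
  embedded into `ℚ̄_q`; `levelLoc q` is cofinal among the open subgroups by Krasner);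
* `exists_dvd_relIndex` (generic): if a level basis `𝒰` has members of index divisible by arbitrary
  powers of `p`, then every member `V` of a cofinal family `ℱ ⊆ 𝒰` contains a `V' ∈ ℱ` with
  `p ∣ [V : V']`;
* `hdvd_levelLoc` : the instance for `(levelLoc q).sets`.
-/
import Mathlib
import Fermat.Agent.PT.LOC.Unram11
import Fermat.Agent.PT.BR.LevelBridge13
import Fermat.Agent.PT.GLUE.LocalHypR11

set_option autoImplicit false

namespace Fermat.Agent.ES.T56.LocTower2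

open Fermat.Agent.PT.PRO Fermat.Agent.PT.PRO.HyperLevel25
open Fermat.Agent.PT.GLUE.Objects21 Fermat.Agent.PT.GLUE.LocalSide11

/-! ### Generic: from big indices to `p ∣ [V : V']` -/

section Generic

variable {G : Type*} [Group G] {𝒰 ℱ : Set (Subgroup G)} {p : ℕ}

theorem exists_dvd_relIndex (h𝒰 : IsLevelBasis 𝒰) (hp : p.Prime) (hsub : ℱ ⊆ 𝒰)
    (hcof : ∀ U ∈ 𝒰, ∃ V ∈ ℱ, V ≤ U) (hpinf : ∀ m : ℕ, ∃ W ∈ 𝒰, p ^ m ∣ W.index) :
    ∀ V ∈ ℱ, ∃ V' ∈ ℱ, V' ≤ V ∧ p ∣ V'.relIndex V := by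
  intro V hV
  have hVfin : V.FiniteIndex := h𝒰.finiteIndex V (hsub hV)
  have hn : V.index ≠ 0 := hVfin.index_ne_zero
  obtain ⟨W, hW, hWdvd⟩ := hpinf (V.index.factorization p + 1)
  obtain ⟨W', hW', hle⟩ := h𝒰.inf V (hsub hV) W hW
  obtain ⟨V', hV', hV'le⟩ := hcof W' hW'
  have hV'V : V' ≤ V := hV'le.trans (hle.trans inf_le_left)
  have hV'W : V' ≤ W := hV'le.trans (hle.trans inf_le_right)
  refine ⟨V', hV', hV'V, ?_⟩
  by_contra hndvd
  have h1 : p ^ (V.index.factorization p + 1) ∣ V'.relIndex V * V.index := by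
    rw [Subgroup.relIndex_mul_index hV'V]
    exact hWdvd.trans (Subgroup.index_dvd_of_le hV'W)
  have hcop : Nat.Coprime (p ^ (V.index.factorization p + 1)) (V'.relIndex V) :=
    Nat.Coprime.pow_left _ ((Nat.Prime.coprime_iff_not_dvd hp).2 hndvd)
  exact Nat.pow_succ_factorization_not_dvd hn hp (hcop.dvd_of_dvd_mul_left h1)

end Generic

/-! ### The local Galois group -/

section Local

variable (q : ℕ) [Fact q.Prime]

local notation "Ω" => PadicAlgCl q
local notation "Γq" => (PadicAlgCl q ≃ₐ[ℚ_[q]] PadicAlgCl q)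

local instance isGaloisPadicT2 : IsGalois ℚ_[q] Ω := IsAlgClosure.isGalois ℚ_[q] Ω

/-- Members of `pullSets (localGaloisToGlobal q)` are members of `levelLoc q`. -/
theorem mem_levelLoc_of_mem_pullSets {V : Subgroup Γq}
    (hV : V ∈ Fermat.Agent.PT.BR.LevelBridge13.pullSets (localGaloisToGlobal q)) : V ∈ (levelLoc q).sets := by
  obtain ⟨F, hF, rfl⟩ := hV
  exact ⟨_, ⟨F, hF, rfl⟩, rfl⟩

/-- Every finite extension of `ℚ_q` inside `ℚ̄_q` is fixed by a member of `levelLoc q`. -/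
theorem exists_mem_levelLoc_le (E : IntermediateField ℚ_[q] Ω) [FiniteDimensional ℚ_[q] E] :
    ∃ W ∈ (levelLoc q).sets, W ≤ E.fixingSubgroup := by
  obtain ⟨V, hV, hle⟩ := Fermat.Agent.PT.BR.LevelBridge13.exists_le_of_mem_localSets q
    (U := E.fixingSubgroup) ⟨E, inferInstance, rfl⟩
  exact ⟨V, mem_levelLoc_of_mem_pullSets q hV, hle⟩

/-- **Open subgroups of `Γ_q` of index divisible by `n`**, for every `n > 0` (unramified
extensions). -/
theorem exists_level_dvd (n : ℕ) (hn : 0 < n) : ∃ W ∈ (levelLoc q).sets, n ∣ W.index := by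
  have h1 := (Fermat.Agent.PT.LOC.Unram11.unramSplittingStatement q ℚ_[q] (Fermat.Agent.PT.LOC.UnramDef12.Eun q ℚ_[q] n) n hn
    inferInstance).1
  let φ : Fermat.Agent.PT.LOC.UnramDef12.Eun q ℚ_[q] n →ₐ[ℚ_[q]] Ω := IsAlgClosed.lift
  let E : IntermediateField ℚ_[q] Ω := φ.fieldRange
  have hfin : FiniteDimensional ℚ_[q] E :=
    (AlgEquiv.ofInjectiveField φ).toLinearEquiv.finiteDimensional
  have hE : Module.finrank ℚ_[q] E = n :=
    (AlgEquiv.ofInjectiveField φ).toLinearEquiv.finrank_eq.symm.trans h1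
  obtain ⟨W, hW, hle⟩ := exists_mem_levelLoc_le q E
  refine ⟨W, hW, ?_⟩
  rw [← hE, IntermediateField.finrank_eq_fixingSubgroup_index]
  exact Subgroup.index_dvd_of_le hle

theorem exists_level_pow_dvd (p : ℕ) (hp : p.Prime) (m : ℕ) :
    ∃ W ∈ (levelLoc q).sets, p ^ m ∣ W.index :=
  exists_level_dvd q (p ^ m) (pow_pos hp.pos m)

/-- **The tower condition `hdvd` for any cofinal family of levels of `Γ_q`.** -/
theorem hdvd_levelLoc {ℱ : Set (Subgroup Γq)} {p : ℕ} (hp : p.Prime)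
    (hsub : ℱ ⊆ (levelLoc q).sets) (hcof : ∀ U ∈ (levelLoc q).sets, ∃ V ∈ ℱ, V ≤ U) :
    ∀ V ∈ ℱ, ∃ V' ∈ ℱ, V' ≤ V ∧ p ∣ V'.relIndex V :=
  exists_dvd_relIndex (Fermat.Agent.PT.GLUE.LocalHypR11.isLevelBasis_levelLoc q) hp hsub hcof
    (exists_level_pow_dvd q p hp)

end Local

end Fermat.Agent.ES.T56.LocTower2
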