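/-
Programme T (S56), chapter GW, brick 2 (the LOCAL `(2,0)` leg), helper2.

`LocAlphaTwoR2`: **the RIGHT half, hence the FULL local `(2,0)` duality package, for the local
datum** `(Γ_q = Gal(ℚ̄_q/ℚ_q), levelLoc q, ℚ̄_qˣ)`, UNCONDITIONALLY: for a finite discrete
`Γ_q`-module `A` with `p A = 0` and canonical resolution `P = HpAt29.freeRes ρA`,

* `rightKernelTrivial_loc` : the pairing
  `pair20 : ℍ²(K(P; ℚ̄_qˣ)) × H⁰_lev(Γ_q; A) → H²_lev(Γ_q; ℚ̄_qˣ)` has trivial RIGHT kernel;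
* `alphaTwoPackage_loc`    : `GlobAlphaTwo18.AlphaTwoPackage` (with helper18's
  `LocAlphaTwo18.alphaTwoLeft_loc`): `α² = τ ∘ pair20` is injective with trivial right kernel;
* `cardTwoEq_loc`          : `#ℍ²(K(P; ℚ̄_qˣ)) = #A^{Γ_q}`.

Inputs: the local fundamental classes (`LocalSide11`), Tate–Nakayama `(1,1)` (right half) for the
induced resolutions at finite levels, and `p^∞ ∣ #Γ_q` (`LocTower2`: unramified extensions).
-/
import Mathlib
import Fermat.Agent.ES.T56.AlphaTwoRight2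
import Fermat.Agent.ES.T56.LocTower2
import Fermat.Agent.ES.T56.LocAlphaTwo18

set_option autoImplicit false

namespace Fermat.Agent.ES.T56.LocAlphaTwoR2

open Fermat.Agent.PT.PRO Fermat.Agent.PT.PRO.HyperLevel25
open Fermat.Agent.PT.GLUE.Objects21 Fermat.Agent.PT.GLUE.LocalSide11
  Fermat.Agent.PT.GLUE.LocalHypR11
open Fermat.Agent.ES.T56.GlobAlphaTwo18 Fermat.Agent.ES.T56.FinTN20Fund18
  Fermat.Agent.ES.T56.AlphaTwoRight2 Fermat.Agent.ES.T56.LocAlphaTwo18
  Fermat.Agent.ES.T56.LocTower2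

/-! ### A generic-`k` wrapper for the exact count -/

section Wrapper

open Fermat.Agent.PT.PRO.Setup20 Fermat.Agent.PT.PRO.Objects20 Fermat.Agent.PT.PRO.IndRes20

variable {k : Type} [CommRing k] {G : Type} [Group G] {P1 P0 M C : Type}
  [AddCommGroup P1] [Module k P1] [AddCommGroup P0] [Module k P0] [AddCommGroup M] [Module k M]
  [AddCommGroup C] [Module k C] [Module.Finite k P0] [Module.Finite k P1]

/-- `ℍ²(K(P; C))` is finite with `#ℍ²(K(P; C)) = #M^G`, as a statement about `R`, `ρC` (base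
modules only: usable at `k = ℤ`). -/
def CardTwoEq (R : Res k G P1 P0 M) {𝒰 : Set (Subgroup G)} (h0 : IsDiscrete 𝒰 R.ρ0)
    (h𝒰 : IsLevelBasis 𝒰) (ρC : Representation k G C) (hC : IsDiscrete 𝒰 ρC) : Prop :=
  Finite ((KX R h0 h𝒰 ρC hC).ℍ2 h𝒰) ∧
    Nat.card ((KX R h0 h𝒰 ρC hC).ℍ2 h𝒰) = Nat.card ↥R.ρM.invariants

theorem cardTwoEq_of_package [Finite M] {R : Res k G P1 P0 M} {𝒰 : Set (Subgroup G)}
    {h0 : IsDiscrete 𝒰 R.ρ0} {h𝒰 : IsLevelBasis 𝒰} {ρC : Representation k G C}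
    {hC : IsDiscrete 𝒰 ρC} {p : ℕ} [Fact p.Prime] {hpM : ∀ m : M, p • m = 0}
    (hP : AlphaTwoPackage R h0 h𝒰 ρC hC p hpM) : CardTwoEq R h0 h𝒰 ρC hC :=
  card_ℍ2_eq_of_package hP

end Wrapper

variable (q : ℕ) [Fact q.Prime]

local notation "Γq" => (PadicAlgCl q ≃ₐ[ℚ_[q]] PadicAlgCl q)

variable {p : ℕ} [Fact p.Prime] {A : Type} [AddCommGroup A] [Finite A]

/-- **The RIGHT kernel of the local `(2,0)` pairing for `K(P; ℚ̄_qˣ)` is trivial**, `P` the
canonical resolution of `A`.  Unconditional. -/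
theorem rightKernelTrivial_loc (ρA : Representation ℤ Γq A)
    (hA : IsDiscrete (levelLoc q).sets ρA) (hpA : ∀ a : A, p • a = 0) :
    RightKernelTrivial (HpAt29.freeRes ρA)
      (FreeRes29.isDiscrete_freeRep (isLevelBasis_levelLoc q) hA) (isLevelBasis_levelLoc q)
      (unitsLoc q).ρ (isDiscrete_unitsLoc' q) :=
  rightKernelTrivial_of_isFundClass (HpAt29.freeRes ρA) (unitsLoc q).ρ (isLevelBasis_levelLoc q)
    (FreeRes29.isDiscrete_freeRep (isLevelBasis_levelLoc q) hA) hpA (isDiscrete_unitsLoc' q)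
    (GlobalHypP8.trivFam_sub (HpAt29.freeRes ρA) (levelLoc q).sets)
    (GlobalHypP8.trivFam_normal (HpAt29.freeRes ρA) (levelLoc q).sets)
    (GlobalHypP8.trivFam_cofinal (HpAt29.freeRes ρA) (isLevelBasis_levelLoc q)
      (FreeRes29.isDiscrete_freeRep (isLevelBasis_levelLoc q) hA))
    (GlobalHypP8.trivFam_triv0 (HpAt29.freeRes ρA) (levelLoc q).sets)
    (fun _ hV hn => haveI := hn; exists_isFundClass_of_mem_levelLoc q hV p)
    (hdvd_levelLoc q Fact.out
      (GlobalHypP8.trivFam_sub (HpAt29.freeRes ρA) (levelLoc q).sets)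
      (GlobalHypP8.trivFam_cofinal (HpAt29.freeRes ρA) (isLevelBasis_levelLoc q)
        (FreeRes29.isDiscrete_freeRep (isLevelBasis_levelLoc q) hA)))

/-- **The FULL local `(2,0)` duality package for `K(P; ℚ̄_qˣ)`**: `α² = τ ∘ pair20` is injective
with trivial right kernel.  Unconditional. -/
theorem alphaTwoPackage_loc (ρA : Representation ℤ Γq A) (hA : IsDiscrete (levelLoc q).sets ρA)
    (hpA : ∀ a : A, p • a = 0) :
    AlphaTwoPackage (HpAt29.freeRes ρA)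
      (FreeRes29.isDiscrete_freeRep (isLevelBasis_levelLoc q) hA) (isLevelBasis_levelLoc q)
      (unitsLoc q).ρ (isDiscrete_unitsLoc' q) p hpA :=
  alphaTwoPackage_of_rightKernelTrivial (alphaTwoLeft_loc q ρA hA hpA)
    (rightKernelTrivial_loc q ρA hA hpA)

/-- **Numerically**: `#ℍ²(K(P; ℚ̄_qˣ)) = #A^{Γ_q}` ("`#Ext²_{Γ_q}(A, ℚ̄_qˣ) = #H⁰(Γ_q, A)`"). -/
theorem cardTwoEq_loc (ρA : Representation ℤ Γq A) (hA : IsDiscrete (levelLoc q).sets ρA)
    (hpA : ∀ a : A, p • a = 0) :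
    CardTwoEq (HpAt29.freeRes ρA)
      (FreeRes29.isDiscrete_freeRep (isLevelBasis_levelLoc q) hA) (isLevelBasis_levelLoc q)
      (unitsLoc q).ρ (isDiscrete_unitsLoc' q) :=
  cardTwoEq_of_package (alphaTwoPackage_loc q ρA hA hpA)

end Fermat.Agent.ES.T56.LocAlphaTwoR2
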