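/-
Programme T (S56), chapter GW, helper25: brick 4, arithmetic leaf `NKS`.

**`p^∞` divides the order of `Gal((ℚ_S)_q/ℚ_q)`** (`p ∈ S`), and of `Γ_q = Gal(ℚ̄_q/ℚ_q)`, in the form
needed by the right-kernel half of the degree-`(2,0)` dualities (`HypR20.NK` of helper2):

* `nk_levelLoc q p`      : `∀ V ∈ (levelLoc q).sets, ∃ V' ∈ (levelLoc q).sets,
                             V' ≤ V ∧ (V.Normal → V'.Normal) ∧ p ∣ V'.relIndex V`;
* `nk_levelLocS q p S hpS` : the same for `levelLocS q S` (`hpS : ⟨p, _⟩ ∈ S`, i.e. `pPrime p ∈ S`);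
* `exists_level_dvd_relIndex`, `exists_dvd_relIndex` : the underlying statement
  `∃ n, p ∣ [locStab q F : locStab q (F(ζ_{p^n}))]` for every finite `F/ℚ`
  (`locStab q F = (localGaloisToGlobal q)⁻¹ (F.fixingSubgroup)`).

Proof (uniform in `q = p` and `q ≠ p`; no Frobenius, no Eisenstein): in the tower
`W_n = locStab F ∩ Stab(ζ_{p^n})` each step `W_{n+1} ≤ W_n` (`n ≥ 1`) is the kernel of a homomorphism
`W_n → μ_p`, `g ↦ g(ζ_{p^{n+1}})/ζ_{p^{n+1}}`, so it is an equality or has index divisible by `p`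
(`step`); if all steps were equalities, all `ζ_{p^n}` would lie in the fixed field of `W_1`, a finite
extension `E` of `ℚ_q` (infinite Galois correspondence), which is impossible: distinct roots of unity
of `p`-power order in `ℚ̄_q` are at distance `≥ ‖p‖` (`norm_prime_le_dist`, from
`p = ∑_{i<p} (1 - ω^i)`), and the unit ball of `E` is compact (`ProperSpace ℚ_[q]`,
`finite_of_separated`).  `ℚ(ζ_{p^n}) ⊆ ℚ_S` is `ESDivisible27.mem_ESgroup_of_pow_mem`.
-/
import Mathlib
import Fermat.Agent.PT.GLUE.Objects21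
import Fermat.Agent.PT.GLUE.ESDivisible27

set_option autoImplicit false

namespace Fermat.Agent.ES.T56.NKS25

open Fermat.Agent.PT.GLUE.Objects21

/-! ### Pure group theory -/

section Group

variable {G : Type*} [Group G] {M : Type*} [CommGroup M] [MulDistribMulAction G M]

/-- `g ↦ g • z / z` is a homomorphism on a subgroup all of whose elements fix all these ratios. -/
def ratioHom (W : Subgroup G) (z : M)
    (h : ∀ g ∈ W, ∀ g' ∈ W, g • (g' • z / z) = g' • z / z) : ↥W →* M where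
  toFun g := (g : G) • z / z
  map_one' := by simp
  map_mul' g g' := by
    have h1 := h g g.2 g' g'.2
    have h2 : (g' : G) • z = ((g' : G) • z / z) * z := by simp
    show ((g : G) * (g' : G)) • z / z = ((g : G) • z / z) * ((g' : G) • z / z)
    rw [mul_smul]
    conv_lhs => rw [h2, smul_mul', h1]
    rw [mul_div_assoc, mul_comm]

theorem ratioHom_apply (W : Subgroup G) (z : M)
    (h : ∀ g ∈ W, ∀ g' ∈ W, g • (g' • z / z) = g' • z / z) (g : ↥W) :
    ratioHom W z h g = (g : G) • z / z := rfl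

theorem ker_ratioHom (W : Subgroup G) (z : M)
    (h : ∀ g ∈ W, ∀ g' ∈ W, g • (g' • z / z) = g' • z / z) :
    (ratioHom W z h).ker = (W ⊓ MulAction.stabilizer G z).subgroupOf W := by
  ext g
  rw [MonoidHom.mem_ker, ratioHom_apply, Subgroup.mem_subgroupOf, Subgroup.mem_inf,
    MulAction.mem_stabilizer_iff, div_eq_one]
  exact ⟨fun h' => ⟨g.2, h'⟩, fun h' => h'.2⟩

/-- A homomorphism all of whose values are killed by the prime `p` is trivial or has kernel of index
divisible by `p`. -/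
theorem ker_eq_top_or_dvd_index {W : Type*} [Group W] (φ : W →* M) (p : ℕ) [Fact p.Prime]
    (h : ∀ g, φ g ^ p = 1) : φ.ker = ⊤ ∨ p ∣ φ.ker.index := by
  have hP : IsPGroup p ↥φ.range := by
    rintro ⟨x, g, rfl⟩
    exact ⟨1, Subtype.ext (by simpa using h g)⟩
  rw [Subgroup.index_ker]
  rcases hP.card_eq_or_dvd with h1 | h1
  · left
    rw [Nat.card_eq_one_iff_unique] at h1
    obtain ⟨hs, -⟩ := h1
    rw [MonoidHom.ker_eq_top_iff] 
    ext g
    have := congrArg Subtype.val (Subsingleton.elim (⟨φ g, g, rfl⟩ : ↥φ.range) 1)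
    simpa using this
  · exact Or.inr h1

/-- **One step**: if every `g ∈ W` fixes the `p`-torsion-valued ratios, then passing to the
stabiliser of `z` either changes nothing or has relative index divisible by `p`. -/
theorem step_eq_or_dvd (W : Subgroup G) (z : M) (p : ℕ) [Fact p.Prime]
    (hp : ∀ g ∈ W, (g • z / z) ^ p = 1)
    (h : ∀ g ∈ W, ∀ g' ∈ W, g • (g' • z / z) = g' • z / z) :
    W ≤ MulAction.stabilizer G z ∨ p ∣ (W ⊓ MulAction.stabilizer G z).relIndex W := by
  rcases ker_eq_top_or_dvd_index (ratioHom W z h) p (fun g => hp g g.2) with h1 | h1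
  · left
    intro g hg
    have : (⟨g, hg⟩ : ↥W) ∈ (ratioHom W z h).ker := by rw [h1]; trivial
    rw [ker_ratioHom, Subgroup.mem_subgroupOf] at this
    exact this.2
  · right
    rw [ker_ratioHom] at h1
    exact h1

end Group

/-! ### Roots of unity of `p`-power order are uniformly separated in an ultrametric field -/

section Ultra

variable {K : Type*} [NormedField K] [IsUltrametricDist K]

omit [IsUltrametricDist K] in
theorem norm_le_one_of_pow_eq_one {η : K} {n : ℕ} (hn : n ≠ 0) (h : η ^ n = 1) : ‖η‖ ≤ 1 := by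
  have h1 : ‖η‖ ^ n = 1 := by rw [← norm_pow, h, norm_one]
  exact ((pow_eq_one_iff_of_nonneg (norm_nonneg η) hn).1 h1).le

theorem norm_geom_sum_le_one {η : K} (hη : ‖η‖ ≤ 1) (m : ℕ) :
    ‖∑ i ∈ Finset.range m, η ^ i‖ ≤ 1 := by
  refine IsUltrametricDist.norm_sum_le_of_forall_le_of_nonneg zero_le_one fun i _ => ?_
  rw [norm_pow]
  exact pow_le_one₀ (norm_nonneg η) hη

theorem norm_pow_sub_one_le {η : K} (hη : ‖η‖ ≤ 1) (m : ℕ) : ‖η ^ m - 1‖ ≤ ‖η - 1‖ := by
  rw [← geom_sum_mul, norm_mul]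
  calc ‖∑ i ∈ Finset.range m, η ^ i‖ * ‖η - 1‖ ≤ 1 * ‖η - 1‖ :=
        mul_le_mul_of_nonneg_right (norm_geom_sum_le_one hη m) (norm_nonneg _)
    _ = ‖η - 1‖ := one_mul _

/-- A root of unity `ω ≠ 1` of order `p` satisfies `‖p‖ ≤ ‖ω - 1‖`. -/
theorem norm_prime_le_of_pow_prime_eq_one {p : ℕ} (hp : p.Prime) {ω : K} (h1 : ω ≠ 1)
    (hω : ω ^ p = 1) : ‖(p : K)‖ ≤ ‖ω - 1‖ := by
  have hω1 : ‖ω‖ ≤ 1 := norm_le_one_of_pow_eq_one hp.ne_zero hω
  have hsum : ∑ i ∈ Finset.range p, ω ^ i = 0 := by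
    have h := geom_sum_mul ω p
    rw [hω, sub_self] at h
    exact (mul_eq_zero.1 h).resolve_right (sub_ne_zero.2 h1)
  have hp' : (p : K) = ∑ i ∈ Finset.range p, (1 - ω ^ i) := by
    rw [Finset.sum_sub_distrib, hsum, sub_zero, Finset.sum_const, Finset.card_range,
      nsmul_eq_mul, mul_one]
  rw [hp']
  refine IsUltrametricDist.norm_sum_le_of_forall_le_of_nonneg (norm_nonneg _) fun i _ => ?_
  rw [norm_sub_rev]
  exact norm_pow_sub_one_le hω1 i

/-- A root of unity `η ≠ 1` of `p`-power order satisfies `‖p‖ ≤ ‖η - 1‖`. -/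
theorem norm_prime_le_of_pow_prime_pow_eq_one {p : ℕ} (hp : p.Prime) (N : ℕ) :
    ∀ {η : K}, η ≠ 1 → η ^ (p ^ N) = 1 → ‖(p : K)‖ ≤ ‖η - 1‖ := by
  induction N with
  | zero =>
    intro η h1 h
    rw [pow_zero, pow_one] at h
    exact absurd h h1
  | succ N ih =>
    intro η h1 h
    have hη : ‖η‖ ≤ 1 := norm_le_one_of_pow_eq_one (pow_ne_zero _ hp.ne_zero) h
    by_cases hp1 : η ^ p = 1
    · exact norm_prime_le_of_pow_prime_eq_one hp h1 hp1
    · have h' : (η ^ p) ^ (p ^ N) = 1 := by rw [← pow_mul, ← pow_succ']; exact h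
      exact (ih hp1 h').trans (norm_pow_sub_one_le hη p)

/-- Two distinct roots of unity of `p`-power order are at distance `≥ ‖p‖`. -/
theorem norm_prime_le_dist {p : ℕ} (hp : p.Prime) {ζ ζ' : K} {n m : ℕ} (hζ : ζ ^ (p ^ n) = 1)
    (hζ' : ζ' ^ (p ^ m) = 1) (hne : ζ ≠ ζ') : ‖(p : K)‖ ≤ dist ζ ζ' := by
  have hζ'0 : ζ' ≠ 0 := by
    rintro rfl
    rw [zero_pow (pow_ne_zero _ hp.ne_zero)] at hζ'
    exact zero_ne_one hζ'
  have hn1 : ‖ζ'‖ = 1 := by
    have h1 : ‖ζ'‖ ^ (p ^ m) = 1 := by rw [← norm_pow, hζ', norm_one]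
    exact (pow_eq_one_iff_of_nonneg (norm_nonneg ζ') (pow_ne_zero _ hp.ne_zero)).1 h1
  have hη1 : ζ / ζ' ≠ 1 := fun h => hne ((div_eq_one_iff_eq hζ'0).1 h)
  have hη : (ζ / ζ') ^ (p ^ (n + m)) = 1 := by
    rw [div_pow, pow_add, pow_mul, hζ, one_pow, mul_comm, pow_mul, hζ', one_pow, div_one]
  have h := norm_prime_le_of_pow_prime_pow_eq_one hp (n + m) hη1 hη
  have h2 : ζ - ζ' = (ζ / ζ' - 1) * ζ' := by field_simp
  rw [dist_eq_norm, h2, norm_mul, hn1, mul_one]
  exact h

end Ultra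

section Compact

/-- A uniformly separated subset of the unit ball of a finite-dimensional subspace of a normed
space over a locally compact field is finite. -/
theorem finite_of_separated {𝕜 K : Type*} [NontriviallyNormedField 𝕜] [LocallyCompactSpace 𝕜]
    [NormedAddCommGroup K] [NormedSpace 𝕜 K] (E : Submodule 𝕜 K) [FiniteDimensional 𝕜 E]
    (T : Set K) (hTE : T ⊆ E) (hT1 : ∀ x ∈ T, ‖x‖ ≤ 1) {ε : ℝ} (hε : 0 < ε)
    (hsep : T.Pairwise fun x y => ε ≤ dist x y) : T.Finite := by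
  have : ProperSpace E := FiniteDimensional.proper 𝕜 E
  have hc : IsCompact ((Subtype.val : E → K) '' Metric.closedBall (0 : E) 1) :=
    (isCompact_closedBall _ _).image continuous_subtype_val
  have hsub : T ⊆ (Subtype.val : E → K) '' Metric.closedBall (0 : E) 1 := by
    intro x hx
    refine ⟨⟨x, hTE hx⟩, ?_, rfl⟩
    rw [mem_closedBall_zero_iff]
    exact hT1 x hx
  have hcl : IsClosed T := Metric.isClosed_of_pairwise_le_dist hε hsep
  have hTc : IsCompact T := hc.of_isClosed_subset hcl hsub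
  have hd : DiscreteTopology T :=
    DiscreteTopology.of_forall_le_dist hε fun x y hxy =>
      hsep x.2 y.2 (fun h => hxy (Subtype.ext h))
  exact hTc.finite ⟨hd⟩

end Compact

section Local

variable (q : ℕ) [Fact q.Prime]

/-- The pull-back to `Γ_q` of the fixing subgroup of a subfield of `ℚ̄`. -/
noncomputable def locStab (F : IntermediateField ℚ (AlgebraicClosure ℚ)) : Subgroup (PadicAlgCl q ≃ₐ[ℚ_[q]] PadicAlgCl q) :=
  F.fixingSubgroup.comap (localGaloisToGlobal q)

theorem mem_locStab {F : IntermediateField ℚ (AlgebraicClosure ℚ)} {g : (PadicAlgCl q ≃ₐ[ℚ_[q]] PadicAlgCl q)} :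
    g ∈ locStab q F ↔ ∀ x ∈ F, g (padicEmbedding q x) = padicEmbedding q x := by
  rw [locStab, Subgroup.mem_comap, IntermediateField.mem_fixingSubgroup_iff]
  refine forall₂_congr fun x _ => ?_
  rw [← padicEmbedding_localGaloisToGlobal]
  exact ⟨fun h => by rw [h], fun h => (padicEmbedding q).toRingHom.injective h⟩

theorem locStab_sup (F F' : IntermediateField ℚ (AlgebraicClosure ℚ)) :
    locStab q (F ⊔ F') = locStab q F ⊓ locStab q F' := by
  rw [locStab, IntermediateField.fixingSubgroup_sup, Subgroup.comap_inf]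
  rfl

theorem locStab_anti {F F' : IntermediateField ℚ (AlgebraicClosure ℚ)} (h : F ≤ F') :
    locStab q F' ≤ locStab q F :=
  Subgroup.comap_mono (IntermediateField.fixingSubgroup_antitone h)

theorem mem_locStab_adjoin_simple {ζ : (AlgebraicClosure ℚ)} {g : (PadicAlgCl q ≃ₐ[ℚ_[q]] PadicAlgCl q)} :
    g ∈ locStab q (IntermediateField.adjoin ℚ {ζ}) ↔
      g (padicEmbedding q ζ) = padicEmbedding q ζ := by
  constructor
  · intro h
    exact (mem_locStab q).1 h ζ (IntermediateField.mem_adjoin_simple_self ℚ ζ)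
  · intro h
    rw [locStab, Subgroup.mem_comap]
    refine Fermat.Agent.PT.GLOB.KummerUnramA15.mem_fixingSubgroup_adjoin _ _ ?_
    rintro x rfl
    apply (padicEmbedding q).toRingHom.injective
    show padicEmbedding q (localGaloisToGlobal q g x) = padicEmbedding q x
    rw [padicEmbedding_localGaloisToGlobal, h]

/-- For a finite extension `F` of `ℚ` the group `locStab q F` contains the fixing subgroup of a
finite extension of `ℚ_q`. -/
theorem exists_finiteDimensional_fixingSubgroup_le (F : IntermediateField ℚ (AlgebraicClosure ℚ))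
    [FiniteDimensional ℚ F] :
    ∃ E : IntermediateField ℚ_[q] (PadicAlgCl q), FiniteDimensional ℚ_[q] E ∧
      E.fixingSubgroup ≤ locStab q F := by
  obtain ⟨t, ht⟩ : (F.toSubalgebra.toSubmodule).FG :=
    (Submodule.fg_iff_finiteDimensional _).2 ‹_›
  refine ⟨IntermediateField.adjoin ℚ_[q] (padicEmbedding q '' (t : Set (AlgebraicClosure ℚ))), ?_, ?_⟩
  · have : Finite (padicEmbedding q '' (t : Set (AlgebraicClosure ℚ))) := (t.finite_toSet.image _).to_subtype
    exact IntermediateField.finiteDimensional_adjoin fun x _ =>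
      Algebra.IsIntegral.isIntegral x
  · intro g hg
    rw [mem_locStab]
    intro x hx
    have hx' : x ∈ Submodule.span ℚ (t : Set (AlgebraicClosure ℚ)) := by rw [ht]; exact hx
    clear hx
    induction hx' using Submodule.span_induction with
    | mem y hy =>
      exact (IntermediateField.mem_fixingSubgroup_iff _ g).1 hg _
        (IntermediateField.subset_adjoin _ _ ⟨y, hy, rfl⟩)
    | zero => simp
    | add y z _ _ hy hz => rw [map_add, map_add, hy, hz]
    | smul c y _ hy => rw [map_rat_smul, map_rat_smul, hy]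

end Local

/-! ### The cyclotomic tower -/

section Tower

variable (q : ℕ) [Fact q.Prime] (p : ℕ) [Fact p.Prime]

theorem exists_zeta (n : ℕ) : ∃ ζ : (AlgebraicClosure ℚ), IsPrimitiveRoot ζ (p ^ n) := by
  have : NeZero ((p : ℕ) : ℚ) := ⟨by exact_mod_cast (Fact.out : p.Prime).ne_zero⟩
  exact HasEnoughRootsOfUnity.exists_primitiveRoot (AlgebraicClosure ℚ) (p ^ n)

/-- A primitive `p ^ n`-th root of unity of `ℚ̄`. -/
noncomputable def zeta (n : ℕ) : (AlgebraicClosure ℚ) := Classical.choose (exists_zeta p n)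

theorem zeta_spec (n : ℕ) : IsPrimitiveRoot (zeta p n) (p ^ n) :=
  Classical.choose_spec (exists_zeta p n)

theorem zK_prim (n : ℕ) : IsPrimitiveRoot (padicEmbedding q (zeta p n)) (p ^ n) :=
  (zeta_spec p n).map_of_injective (padicEmbedding q).toRingHom.injective

/-- Its image in `ℚ̄_q`, as a unit. -/
noncomputable def zU (n : ℕ) : (PadicAlgCl q)ˣ :=
  Units.mk0 (padicEmbedding q (zeta p n))
    ((zK_prim q p n).ne_zero (pow_ne_zero _ (Fact.out : p.Prime).ne_zero))

theorem coe_zU (n : ℕ) : (zU q p n : (PadicAlgCl q)) = padicEmbedding q (zeta p n) := rfl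

theorem zU_prim (n : ℕ) : IsPrimitiveRoot (zU q p n : (PadicAlgCl q)) (p ^ n) := zK_prim q p n

theorem mem_stabilizer_zU {n : ℕ} {g : (PadicAlgCl q ≃ₐ[ℚ_[q]] PadicAlgCl q)} :
    g ∈ MulAction.stabilizer (PadicAlgCl q ≃ₐ[ℚ_[q]] PadicAlgCl q) (zU q p n) ↔ g (zU q p n : (PadicAlgCl q)) = zU q p n := by
  rw [MulAction.mem_stabilizer_iff, Units.ext_iff]
  rfl

/-- The stabiliser of `ζ_{p^n}` fixes every `p^n`-th root of unity. -/
theorem apply_eq_of_mem_stabilizer {n : ℕ} {g : (PadicAlgCl q ≃ₐ[ℚ_[q]] PadicAlgCl q)}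
    (hg : g ∈ MulAction.stabilizer (PadicAlgCl q ≃ₐ[ℚ_[q]] PadicAlgCl q) (zU q p n)) {ω : (PadicAlgCl q)} (hω : ω ^ (p ^ n) = 1) : g ω = ω := by
  have : NeZero (p ^ n) := ⟨pow_ne_zero _ (Fact.out : p.Prime).ne_zero⟩
  obtain ⟨i, -, rfl⟩ := (zU_prim q p n).eq_pow_of_pow_eq_one hω
  rw [map_pow, (mem_stabilizer_zU q p).1 hg]

theorem stabilizer_succ_le (n : ℕ) :
    MulAction.stabilizer (PadicAlgCl q ≃ₐ[ℚ_[q]] PadicAlgCl q) (zU q p (n + 1)) ≤ MulAction.stabilizer (PadicAlgCl q ≃ₐ[ℚ_[q]] PadicAlgCl q) (zU q p n) := by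
  intro g hg
  rw [mem_stabilizer_zU]
  apply apply_eq_of_mem_stabilizer q p hg
  rw [pow_succ, pow_mul, (zU_prim q p n).pow_eq_one, one_pow]

theorem stabilizer_normal (n : ℕ) : (MulAction.stabilizer (PadicAlgCl q ≃ₐ[ℚ_[q]] PadicAlgCl q) (zU q p n)).Normal := by
  refine ⟨fun g hg h => ?_⟩
  rw [mem_stabilizer_zU]
  show h (g (h⁻¹ (zU q p n : (PadicAlgCl q)))) = zU q p n
  have h1 : (h⁻¹ (zU q p n : (PadicAlgCl q))) ^ (p ^ n) = 1 := by
    rw [← map_pow, (zU_prim q p n).pow_eq_one, map_one]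
  rw [apply_eq_of_mem_stabilizer q p hg h1]
  exact h.apply_symm_apply _

theorem locStab_adjoin_zeta (n : ℕ) :
    locStab q (IntermediateField.adjoin ℚ {zeta p n}) = MulAction.stabilizer (PadicAlgCl q ≃ₐ[ℚ_[q]] PadicAlgCl q) (zU q p n) := by
  ext g
  rw [mem_locStab_adjoin_simple, mem_stabilizer_zU]
  rfl

variable (F : IntermediateField ℚ (AlgebraicClosure ℚ))

/-- The tower of subgroups `W_n = locStab F ∩ Stab(ζ_{p^n})`. -/
noncomputable def W (n : ℕ) : Subgroup (PadicAlgCl q ≃ₐ[ℚ_[q]] PadicAlgCl q) := locStab q F ⊓ MulAction.stabilizer (PadicAlgCl q ≃ₐ[ℚ_[q]] PadicAlgCl q) (zU q p n)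

theorem W_eq (n : ℕ) : W q p F n = locStab q (F ⊔ IntermediateField.adjoin ℚ {zeta p n}) := by
  rw [locStab_sup, locStab_adjoin_zeta, W]

theorem W_succ_le (n : ℕ) : W q p F (n + 1) ≤ W q p F n :=
  inf_le_inf_left _ (stabilizer_succ_le q p n)

theorem W_le (n : ℕ) : W q p F n ≤ locStab q F := inf_le_left

theorem W_inf_stabilizer (n : ℕ) :
    W q p F n ⊓ MulAction.stabilizer (PadicAlgCl q ≃ₐ[ℚ_[q]] PadicAlgCl q) (zU q p (n + 1)) = W q p F (n + 1) := by
  rw [W, W, inf_assoc, inf_eq_right.2 (stabilizer_succ_le q p n)]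

/-- **One step of the tower** (`n ≥ 1`). -/
theorem step (n : ℕ) (hn : 1 ≤ n) :
    W q p F n ≤ MulAction.stabilizer (PadicAlgCl q ≃ₐ[ℚ_[q]] PadicAlgCl q) (zU q p (n + 1)) ∨
      p ∣ (W q p F (n + 1)).relIndex (W q p F n) := by
  have hp : ∀ g ∈ W q p F n, (g • zU q p (n + 1) / zU q p (n + 1)) ^ p = 1 := by
    intro g hg
    rw [div_pow, div_eq_one, ← smul_pow']
    apply Units.ext
    show g ((zU q p (n + 1) : (PadicAlgCl q)) ^ p) = (zU q p (n + 1) : (PadicAlgCl q)) ^ p
    apply apply_eq_of_mem_stabilizer q p hg.2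
    rw [← pow_mul, ← pow_succ']
    exact (zU_prim q p (n + 1)).pow_eq_one
  have h : ∀ g ∈ W q p F n, ∀ g' ∈ W q p F n,
      g • (g' • zU q p (n + 1) / zU q p (n + 1)) = g' • zU q p (n + 1) / zU q p (n + 1) := by
    intro g hg g' hg'
    apply Units.ext
    show g ((g' • zU q p (n + 1) / zU q p (n + 1) : (PadicAlgCl q)ˣ) : (PadicAlgCl q)) = _
    apply apply_eq_of_mem_stabilizer q p hg.2
    obtain ⟨m, rfl⟩ : ∃ m, n = m + 1 := ⟨n - 1, by omega⟩
    rw [pow_succ', pow_mul, ← Units.val_pow_eq_pow_val, hp g' hg', Units.val_one, one_pow]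
  have := step_eq_or_dvd (W q p F n) (zU q p (n + 1)) p hp h
  rwa [W_inf_stabilizer] at this

theorem le_stabilizer_of_forall
    (hall : ∀ n, 1 ≤ n → W q p F n ≤ MulAction.stabilizer (PadicAlgCl q ≃ₐ[ℚ_[q]] PadicAlgCl q) (zU q p (n + 1))) :
    ∀ n, W q p F 1 ≤ MulAction.stabilizer (PadicAlgCl q ≃ₐ[ℚ_[q]] PadicAlgCl q) (zU q p n) := by
  have h1 : ∀ n, 1 ≤ n → W q p F 1 ≤ MulAction.stabilizer (PadicAlgCl q ≃ₐ[ℚ_[q]] PadicAlgCl q) (zU q p n) := by
    intro n hn
    induction n, hn using Nat.le_induction with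
    | base => exact inf_le_right
    | succ n hn ih => exact (le_inf inf_le_left ih).trans (hall n hn)
  intro n
  rcases Nat.eq_zero_or_pos n with rfl | hn
  · exact (h1 1 le_rfl).trans (stabilizer_succ_le q p 0)
  · exact h1 n hn

/-- Not every `ζ_{p^n}` is fixed by `W_1`: a finite extension of `ℚ_q` contains only finitely many
roots of unity of `p`-power order. -/
theorem not_forall_le_stabilizer [FiniteDimensional ℚ F] :
    ¬ ∀ n, W q p F 1 ≤ MulAction.stabilizer (PadicAlgCl q ≃ₐ[ℚ_[q]] PadicAlgCl q) (zU q p n) := by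
  intro hfix
  have hp : p.Prime := Fact.out
  have : FiniteDimensional ℚ ↥(IntermediateField.adjoin ℚ {zeta p 1}) :=
    IntermediateField.adjoin.finiteDimensional (Algebra.IsIntegral.isIntegral _)
  have : FiniteDimensional ℚ ↥(F ⊔ IntermediateField.adjoin ℚ {zeta p 1}) :=
    IntermediateField.finiteDimensional_sup _ _
  obtain ⟨E, hE, hle⟩ := exists_finiteDimensional_fixingSubgroup_le q
    (F ⊔ IntermediateField.adjoin ℚ {zeta p 1})
  rw [← W_eq] at hle
  have : IsGalois ℚ_[q] (PadicAlgCl q) := IsAlgClosure.isGalois ℚ_[q] (PadicAlgCl q)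
  have hmem : ∀ n, (zU q p n : (PadicAlgCl q)) ∈ E := by
    intro n
    rw [← InfiniteGalois.fixedField_fixingSubgroup E, IntermediateField.mem_fixedField_iff]
    intro g hg
    exact (mem_stabilizer_zU q p).1 (hfix n (hle hg))
  have hfin : (Set.range fun n : ℕ => (zU q p n : (PadicAlgCl q))).Finite := by
    have : FiniteDimensional ℚ_[q] ↥E.toSubalgebra.toSubmodule := hE
    refine finite_of_separated (𝕜 := ℚ_[q]) E.toSubalgebra.toSubmodule _ ?_ ?_
      (ε := ‖(p : (PadicAlgCl q))‖) (norm_pos_iff.2 (Nat.cast_ne_zero.2 hp.ne_zero)) ?_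
    · rintro _ ⟨n, rfl⟩
      exact hmem n
    · rintro _ ⟨n, rfl⟩
      exact norm_le_one_of_pow_eq_one (pow_ne_zero _ hp.ne_zero) (zU_prim q p n).pow_eq_one
    · rintro _ ⟨n, rfl⟩ _ ⟨m, rfl⟩ hne
      exact norm_prime_le_dist hp (zU_prim q p n).pow_eq_one (zU_prim q p m).pow_eq_one hne
  refine Set.infinite_range_of_injective ?_ hfin
  intro n m hnm
  have h1 : IsPrimitiveRoot (zU q p n : (PadicAlgCl q)) (p ^ m) := by
    have h2 : (zU q p n : (PadicAlgCl q)) = zU q p m := hnm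
    rw [h2]
    exact zU_prim q p m
  exact Nat.pow_right_injective hp.two_le ((zU_prim q p n).unique h1)

/-- **The cyclotomic tower has `p`-divisible relative index at every finite level.** -/
theorem exists_dvd_relIndex [FiniteDimensional ℚ F] :
    ∃ n, p ∣ (locStab q (F ⊔ IntermediateField.adjoin ℚ {zeta p n})).relIndex (locStab q F) := by
  by_contra hno
  rw [not_exists] at hno
  refine not_forall_le_stabilizer q p F (le_stabilizer_of_forall q p F fun n hn => ?_)
  refine (step q p F n hn).resolve_right fun hd => hno (n + 1) ?_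
  have h := Subgroup.relIndex_mul_relIndex _ _ _ (W_succ_le q p F n) (W_le q p F n)
  rw [← W_eq, ← h]
  exact Dvd.dvd.mul_right hd _

end Tower

/-! ### The exports: `NK` for `levelLoc q` and for `levelLocS q S` -/

section Levels

variable (q : ℕ) [Fact q.Prime] (p : ℕ) [Fact p.Prime]

/-- `ℚ(ζ_{p^n})` is unramified outside `S ∋ p`. -/
theorem isUnramifiedOutside_adjoin_zeta (S : Finset Nat.Primes)
    (hpS : (⟨p, Fact.out⟩ : Nat.Primes) ∈ S) (n : ℕ) :
    (IntermediateField.adjoin ℚ {zeta p n}).IsUnramifiedOutside S := by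
  have hp : p.Prime := Fact.out
  have key : ∀ (m : ℕ) (u : (AlgebraicClosure ℚ)ˣ), u ^ (p ^ m) = 1 → u ∈ ESgroup S := by
    intro m
    induction m with
    | zero =>
      intro u hu
      rw [pow_zero, pow_one] at hu
      rw [hu]
      exact (ESgroup S).one_mem
    | succ m ih =>
      intro u hu
      refine Fermat.Agent.PT.GLUE.ESDivisible27.mem_ESgroup_of_pow_mem hp hpS u (ih _ ?_)
      rw [← pow_mul, ← pow_succ']
      exact hu
  have h0 : zeta p n ≠ 0 := (zeta_spec p n).ne_zero (pow_ne_zero _ hp.ne_zero)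
  have hmem : Units.mk0 (zeta p n) h0 ∈ ESgroup S := by
    refine key n _ (Units.ext ?_)
    rw [Units.val_pow_eq_pow_val, Units.val_mk0, Units.val_one]
    exact (zeta_spec p n).pow_eq_one
  obtain ⟨F, hF, hζF⟩ := hmem.1
  refine hF.of_le ?_
  rw [IntermediateField.adjoin_simple_le_iff]
  exact hζF

theorem locStab_normal (F : IntermediateField ℚ (AlgebraicClosure ℚ)) (h : F.fixingSubgroup.Normal) :
    (locStab q F).Normal :=
  h.comap _

/-- **`NK` for all levels**: every level `V` of `Γ_q` contains a level `V'` with `p ∣ [V : V']`;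
`V'` is the intersection of `V` with a normal level, which lies in `levelLocS q S` for every
`S ∋ p`. -/
theorem exists_level_dvd_relIndex (F : IntermediateField ℚ (AlgebraicClosure ℚ)) [FiniteDimensional ℚ F] :
    ∃ C : IntermediateField ℚ (AlgebraicClosure ℚ), (∀ S : Finset Nat.Primes,
        (⟨p, Fact.out⟩ : Nat.Primes) ∈ S → C.IsUnramifiedOutside S) ∧
      (locStab q C).Normal ∧
      p ∣ (locStab q (F ⊔ C)).relIndex (locStab q F) := by
  obtain ⟨n, hn⟩ := exists_dvd_relIndex q p F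
  refine ⟨IntermediateField.adjoin ℚ {zeta p n},
    fun S hpS => isUnramifiedOutside_adjoin_zeta p S hpS n, ?_, hn⟩
  rw [locStab_adjoin_zeta]
  exact stabilizer_normal q p n

/-- **`NK` for `levelLoc q`.** -/
theorem nk_levelLoc : ∀ V ∈ (levelLoc q).sets, ∃ V' ∈ (levelLoc q).sets,
    V' ≤ V ∧ (V.Normal → V'.Normal) ∧ p ∣ V'.relIndex V := by
  rintro _ ⟨_, ⟨F, hF, rfl⟩, rfl⟩
  have := hF
  obtain ⟨C, hC, hCn, hdvd⟩ := exists_level_dvd_relIndex q p F
  have hCfd : FiniteDimensional ℚ C := (hC {⟨p, Fact.out⟩} (Finset.mem_singleton_self _)).1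
  refine ⟨locStab q (F ⊔ C), ⟨_, ⟨F ⊔ C, IntermediateField.finiteDimensional_sup F C, rfl⟩, rfl⟩,
    locStab_anti q le_sup_left, fun hV => ?_, hdvd⟩
  rw [locStab_sup]
  exact Subgroup.normal_inf_normal _ _ (hH := hV) (hK := hCn)

/-- **`NK` for `levelLocS q S`**, `S ∋ p`: `p^∞` divides the order of `Gal((ℚ_S)_q/ℚ_q)`. -/
theorem nk_levelLocS (S : Finset Nat.Primes) (hpS : (⟨p, Fact.out⟩ : Nat.Primes) ∈ S) :
    ∀ V ∈ (levelLocS q S).sets, ∃ V' ∈ (levelLocS q S).sets,
      V' ≤ V ∧ (V.Normal → V'.Normal) ∧ p ∣ V'.relIndex V := by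
  rintro _ ⟨_, ⟨F, hF, rfl⟩, rfl⟩
  have := hF.1
  obtain ⟨C, hC, hCn, hdvd⟩ := exists_level_dvd_relIndex q p F
  refine ⟨locStab q (F ⊔ C), ⟨_, ⟨F ⊔ C, hF.sup (hC S hpS), rfl⟩, rfl⟩,
    locStab_anti q le_sup_left, fun hV => ?_, hdvd⟩
  rw [locStab_sup]
  exact Subgroup.normal_inf_normal _ _ (hH := hV) (hK := hCn)

end Levels

end Fermat.Agent.ES.T56.NKS25
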