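/-
Programme T (S56), chapter GW, helper25: brick 4 (C3 `HardP2` / `P2Eq`), the `S`-LOCAL `(2,0)` leg.

For `q` a prime, `p ∈ S`, `A` a finite `p`-torsion module and `P = HpAt29.freeRes ρA` its canonical
resolution:

* `hfund_locS`              : the finite levels of the `S`-local datum
  `(Γ_q, levelLocS q S, ((ℚ_S)_q)ˣ = unitsLocS S q)` carry fundamental classes (they are the finite
  levels `(Γ_q ⧸ V, (ℚ̄_qˣ)^V)` of the full local datum: `fixedObjIso`,
  `exists_isFundClass_of_isInvIncl`);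
* `rightKernelTrivial_locS`, `alphaTwoLeft_locS`, `alphaTwoPackage_locS`, `cardTwoEq_locS` :
  the full `(2,0)` duality package for the `S`-local datum, i.e.
  `#ℍ²((Γ_q, levelLocS q S); K(P; ((ℚ_S)_q)ˣ)) = #A^{Γ_q}` — instances of helper2's
  `AlphaTwoRight2.rightKernelTrivial_of_isFundClass` and helper18's
  `FinTN20Fund18.alphaTwoLeft_freeRes`, the tower condition being `NKS25.nk_levelLocS`
  (`p^∞ ∣ #Gal((ℚ_S)_q/ℚ_q)`);
* **`cardTwo_ISq`** : for a `Γ`-module `A` discrete for `levelS S`: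
  `ℍ²(Γ; K(P; I_{S,q}))` is finite of cardinality `#A^{Γ_q}` (through the Shapiro half
  `LocHyperFinal13.shPHom_ppℍ2_bijective`).  This replaces the surjectivity of the level-Shapiro map
  in degree 2 ((O1) of the brick table).
-/
import Mathlib
import Fermat.Agent.ES.T56.AlphaTwoRight2
import Fermat.Agent.ES.T56.LocAlphaTwoR2
import Fermat.Agent.ES.T56.NKS25
import Fermat.Agent.PT.GLUE.LocHyperFinal13
import Fermat.Agent.PT.FG.FundClassTransferB2

set_option autoImplicit false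

namespace Fermat.Agent.ES.T56.SLocTwo25

open Function
open Fermat.Agent.PT.PRO Fermat.Agent.PT.PRO.HyperLevel25
open Fermat.Agent.PT.PRO.HyperColim18 Fermat.Agent.PT.PRO.FundRaw18 Fermat.Agent.PT.PRO.InfLevel13
open Fermat.Agent.PT.FG.Interface8

/-! ### Invariants of an inclusion of `N`-invariants, at a level `V ⊇ N` -/

section Fixed

variable {k : Type} [CommRing k] {G : Type} [Group G] {W' W : Type} [AddCommGroup W']
  [Module k W'] [AddCommGroup W] [Module k W] {N : Subgroup G} {ρ' : Representation k G W'}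
  {ρ : Representation k G W} {ι : W' →ₗ[k] W}

theorem fixedMap_bijective (hι : IsInvIncl N ρ' ρ ι) (V : Subgroup G) (hNV : N ≤ V) :
    Bijective (fixedMap V ρ' ρ ι hι.comm) := by
  constructor
  · intro a b hab
    apply Subtype.ext
    apply hι.inj
    exact congrArg Subtype.val hab
  · intro w
    obtain ⟨a, ha⟩ := hι.surj (w : W) (fun n hn => w.2 n (hNV hn))
    refine ⟨⟨a, fun s hs => ?_⟩, Subtype.ext ha⟩
    apply hι.inj
    rw [hι.comm, ha]
    exact w.2 s hs

/-- `(W')^V ≃ W^V` as representations of `G ⧸ V`, for `W' = W^N`, `N ≤ V`. -/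
noncomputable def fixedRepEquiv (hι : IsInvIncl N ρ' ρ ι) (V : Subgroup G) [V.Normal]
    (hNV : N ≤ V) : Representation.Equiv (fixedRep V ρ') (fixedRep V ρ) :=
  Representation.Equiv.mk (LinearEquiv.ofBijective (fixedMap V ρ' ρ ι hι.comm)
    (fixedMap_bijective hι V hNV)) (by
    intro g
    ext x
    exact congrArg Subtype.val (fixedMap_comm V ρ' ρ ι hι.comm g x))

/-- `(W')^V ≅ W^V` in `Rep k (G ⧸ V)` (generic `k`, so that it is usable at `k = ℤ`). -/
noncomputable def fixedObjIso (hι : IsInvIncl N ρ' ρ ι) (V : Subgroup G) [V.Normal]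
    (hNV : N ≤ V) : fixedObj V ρ' ≅ fixedObj V ρ :=
  Rep.mkIso (fixedRepEquiv hι V hNV)

theorem fixedObjIso_hom_inv (hι : IsInvIncl N ρ' ρ ι) (V : Subgroup G) [V.Normal]
    (hNV : N ≤ V) (x : (fixedObj V ρ).V) :
    (fixedObjIso hι V hNV).hom.hom ((fixedObjIso hι V hNV).inv.hom x) = x :=
  (fixedRepEquiv hι V hNV).toLinearEquiv.apply_symm_apply x

theorem fixedObjIso_inv_hom (hι : IsInvIncl N ρ' ρ ι) (V : Subgroup G) [V.Normal]
    (hNV : N ≤ V) (y : (fixedObj V ρ').V) :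
    (fixedObjIso hι V hNV).inv.hom ((fixedObjIso hι V hNV).hom.hom y) = y :=
  (fixedRepEquiv hι V hNV).toLinearEquiv.symm_apply_apply y

end Fixed

section Fund

variable {G : Type} [Group G] {W' W : Type} [AddCommGroup W'] [Module ℤ W'] [AddCommGroup W]
  [Module ℤ W] {N : Subgroup G} {ρ' : Representation ℤ G W'} {ρ : Representation ℤ G W}
  {ι : W' →ₗ[ℤ] W}

/-- Fundamental classes at the level `V ⊇ N` pass from `W` to `W' = W^N`. -/
theorem exists_isFundClass_of_isInvIncl (hι : IsInvIncl N ρ' ρ ι) (V : Subgroup G) [V.Normal]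
    [V.FiniteIndex] (hNV : N ≤ V) (p : ℕ) [Fact p.Prime]
    (h : ∃ u : groupCohomology.H2 (fixedObj V ρ), IsFundClass p (fixedObj V ρ) u) :
    ∃ u : groupCohomology.H2 (fixedObj V ρ'), IsFundClass p (fixedObj V ρ') u := by
  obtain ⟨u, hu⟩ := h
  have : Finite (G ⧸ V) := Subgroup.finite_quotient_of_finiteIndex
  refine ⟨_, Fermat.Agent.PT.FG.FundClassTransferB2.isFundClass_transfer' p (fixedObj V ρ)
    (fixedObj V ρ') (fixedObjIso hι V hNV).hom (fixedObjIso hι V hNV).inv 1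
    (Nat.coprime_one_right p) (fun x => ?_) (fun y => ?_) u hu⟩
  · rw [one_smul]
    exact fixedObjIso_hom_inv hι V hNV x
  · rw [one_smul]
    exact fixedObjIso_inv_hom hι V hNV y

end Fund

/-! ### The `S`-local datum `(Γ_q, levelLocS q S, ((ℚ_S)_q)ˣ)` -/

section SLocal

open Fermat.Agent.PT.GLUE.Objects21 Fermat.Agent.PT.GLUE.LocHyper13
  Fermat.Agent.PT.GLUE.LocalSide11 Fermat.Agent.PT.GLUE.LocalHypR11
open Fermat.Agent.ES.T56.GlobAlphaTwo18 Fermat.Agent.ES.T56.FinTN20Fund18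
  Fermat.Agent.ES.T56.AlphaTwoRight2 Fermat.Agent.ES.T56.LocAlphaTwoR2

variable (S : Finset Nat.Primes) (q : ℕ) [Fact q.Prime]

theorem isLevelBasis_levelLocS : IsLevelBasis (levelLocS q S).sets :=
  LevelCompare13.isLevelBasis_iff.1 (levelLocS q S).isBasis

theorem isDiscrete_unitsLocS' : IsDiscrete (levelLocS q S).sets (unitsLocS S q).ρ :=
  isDiscrete_unitsLocS S q

theorem levelLocS_subset_levelLoc : (levelLocS q S).sets ⊆ (levelLoc q).sets := by
  rintro _ ⟨U, hU, rfl⟩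
  exact ⟨U, levelSetS_subset_levelSetAll S hU, rfl⟩

/-- **Fundamental classes at the finite levels of the `S`-local datum** (the same finite-level
pairs `(Γ_q ⧸ V, (ℚ̄_qˣ)^V)` as for the full local datum). -/
theorem hfund_locS (p : ℕ) [Fact p.Prime] :
    ∀ V ∈ (levelLocS q S).sets, ∀ hn : V.Normal, haveI := hn;
      ∃ u : groupCohomology.H2 (fixedObj V (unitsLocS S q).ρ),
        IsFundClass p (fixedObj V (unitsLocS S q).ρ) u := by
  intro V hV hn
  have := hn
  have hfi : V.FiniteIndex := (isLevelBasis_levelLocS S q).finiteIndex V hV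
  have hNV : Fermat.Agent.PT.BR.InfLocal13.Nloc S q ≤ V := by
    obtain ⟨U, hU, rfl⟩ := hV
    exact Nloc_le_comap S q U hU
  exact exists_isFundClass_of_isInvIncl (isInvIncl_inclS S q) V hNV p
    (exists_isFundClass_of_mem_levelLoc q (levelLocS_subset_levelLoc S q hV) p)

variable {p : ℕ} [Fact p.Prime] {A : Type} [AddCommGroup A] [Finite A]

/-- **The RIGHT kernel of the `(2,0)` pairing for `K(P; ((ℚ_S)_q)ˣ)` is trivial** (`p ∈ S`). -/
theorem rightKernelTrivial_locS (hpS : (⟨p, Fact.out⟩ : Nat.Primes) ∈ S)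
    (ρA : Representation ℤ (PadicAlgCl q ≃ₐ[ℚ_[q]] PadicAlgCl q) A) (hA : IsDiscrete (levelLocS q S).sets ρA)
    (hpA : ∀ a : A, p • a = 0) :
    RightKernelTrivial (HpAt29.freeRes ρA)
      (FreeRes29.isDiscrete_freeRep (isLevelBasis_levelLocS S q) hA) (isLevelBasis_levelLocS S q)
      (unitsLocS S q).ρ (isDiscrete_unitsLocS' S q) :=
  rightKernelTrivial_of_isFundClass (HpAt29.freeRes ρA) (unitsLocS S q).ρ
    (isLevelBasis_levelLocS S q)
    (FreeRes29.isDiscrete_freeRep (isLevelBasis_levelLocS S q) hA) hpA (isDiscrete_unitsLocS' S q)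
    (GlobalHypP8.trivFam_sub (HpAt29.freeRes ρA) (levelLocS q S).sets)
    (GlobalHypP8.trivFam_normal (HpAt29.freeRes ρA) (levelLocS q S).sets)
    (GlobalHypP8.trivFam_cofinal (HpAt29.freeRes ρA) (isLevelBasis_levelLocS S q)
      (FreeRes29.isDiscrete_freeRep (isLevelBasis_levelLocS S q) hA))
    (GlobalHypP8.trivFam_triv0 (HpAt29.freeRes ρA) (levelLocS q S).sets)
    (hfund_locS S q p)
    (fun V hV => by
      obtain ⟨V', hV', hle, hn, hd⟩ := NKS25.nk_levelLocS q p S hpS V hV.1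
      exact ⟨V', GlobalHypP8.trivFam_of_le hV hV' (hn hV.2.1) hle, hle, hd⟩)

/-- **The LEFT half for the `S`-local datum.** -/
theorem alphaTwoLeft_locS (ρA : Representation ℤ (PadicAlgCl q ≃ₐ[ℚ_[q]] PadicAlgCl q) A) (hA : IsDiscrete (levelLocS q S).sets ρA)
    (hpA : ∀ a : A, p • a = 0) :
    AlphaTwoLeft (HpAt29.freeRes ρA)
      (FreeRes29.isDiscrete_freeRep (isLevelBasis_levelLocS S q) hA) (isLevelBasis_levelLocS S q)
      (unitsLocS S q).ρ (isDiscrete_unitsLocS' S q) p hpA :=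
  alphaTwoLeft_freeRes ρA (unitsLocS S q).ρ (isLevelBasis_levelLocS S q) hA hpA
    (isDiscrete_unitsLocS' S q) (hfund_locS S q p)

/-- **The full `(2,0)` duality package for the `S`-local datum** (`p ∈ S`). -/
theorem alphaTwoPackage_locS (hpS : (⟨p, Fact.out⟩ : Nat.Primes) ∈ S)
    (ρA : Representation ℤ (PadicAlgCl q ≃ₐ[ℚ_[q]] PadicAlgCl q) A) (hA : IsDiscrete (levelLocS q S).sets ρA)
    (hpA : ∀ a : A, p • a = 0) :
    AlphaTwoPackage (HpAt29.freeRes ρA)
      (FreeRes29.isDiscrete_freeRep (isLevelBasis_levelLocS S q) hA) (isLevelBasis_levelLocS S q)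
      (unitsLocS S q).ρ (isDiscrete_unitsLocS' S q) p hpA :=
  alphaTwoPackage_of_rightKernelTrivial (alphaTwoLeft_locS S q ρA hA hpA)
    (rightKernelTrivial_locS S q hpS ρA hA hpA)

/-- **Numerically**: `#ℍ²((Γ_q, levelLocS); K(P; ((ℚ_S)_q)ˣ)) = #A^{Γ_q}` (`p ∈ S`). -/
theorem cardTwoEq_locS (hpS : (⟨p, Fact.out⟩ : Nat.Primes) ∈ S)
    (ρA : Representation ℤ (PadicAlgCl q ≃ₐ[ℚ_[q]] PadicAlgCl q) A) (hA : IsDiscrete (levelLocS q S).sets ρA)
    (hpA : ∀ a : A, p • a = 0) :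
    CardTwoEq (HpAt29.freeRes ρA)
      (FreeRes29.isDiscrete_freeRep (isLevelBasis_levelLocS S q) hA) (isLevelBasis_levelLocS S q)
      (unitsLocS S q).ρ (isDiscrete_unitsLocS' S q) :=
  cardTwoEq_of_package (alphaTwoPackage_locS S q hpS ρA hA hpA)

end SLocal

/-! ### Transfer to `ℍ²(Γ; K(P; I_{S,q}))` through the Shapiro half -/

section ISq

open Fermat.Agent.PT.GLUE Fermat.Agent.PT.GLUE.Objects21 Fermat.Agent.PT.GLUE.LocHyper13
open Fermat.Agent.PT.PRO.Setup20 Fermat.Agent.PT.PRO.Objects20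
open Fermat.Agent.ES.T56.LocAlphaTwoR2

variable (S : Finset Nat.Primes) (q : ℕ) [Fact q.Prime]
variable {p : ℕ} [Fact p.Prime] {A : Type} [AddCommGroup A] [Finite A]

/-- **`#ℍ²(Γ; K(P; I_{S,q})) = #A^{Γ_q}`** (`p ∈ S`), `P` the canonical resolution of the finite
`Γ`-module `A`, `p A = 0`, discrete for `levelS S`: "`Ext²_{G_S}(A, I_{S,q})` is dual to
`H⁰(Γ_q, A)`". -/
theorem cardTwo_ISq (hpS : (⟨p, Fact.out⟩ : Nat.Primes) ∈ S)
    (ρA : Representation ℤ (AlgebraicClosure ℚ ≃ₐ[ℚ] AlgebraicClosure ℚ) A)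
    (h𝒰 : IsLevelBasis (levelS S).sets) (hA : IsDiscrete (levelS S).sets ρA)
    (hpA : ∀ a : A, p • a = 0) (hX : IsDiscrete (levelS S).sets (ISq S q).ρ) :
    Finite ((KX (HpAt29.freeRes ρA) (FreeRes29.isDiscrete_freeRep h𝒰 hA) h𝒰 (ISq S q).ρ hX).ℍ2
        h𝒰) ∧
      Nat.card ((KX (HpAt29.freeRes ρA) (FreeRes29.isDiscrete_freeRep h𝒰 hA) h𝒰 (ISq S q).ρ
        hX).ℍ2 h𝒰) = Nat.card ↥(Representation.invariants
          (ρA.comp (localGaloisToGlobal q) :
            Representation ℤ (PadicAlgCl q ≃ₐ[ℚ_[q]] PadicAlgCl q) A)) := by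
  have hrS := LocI13.isLevelHom_levelLocS S q
  have hb := LocHyperFinal13.shPHom_ppℍ2_bijective (localGaloisToGlobal q) (levelS S)
    (isInvIncl_inclS S q) (Nloc_le_comap S q)
    (toResolved (HpAt29.freeRes ρA) (FreeRes29.isDiscrete_freeRep h𝒰 hA)) h𝒰
    (isLevelBasis_levelLocS S q) hrS hX (isDiscrete_unitsLocS S q)
    (LocI13.induced_levelLocS S q)
  obtain ⟨hfin, hcard⟩ := cardTwoEq_locS S q hpS (ρA.comp (localGaloisToGlobal q))
    (HyperRes25.IsLevelHom.isDiscrete hrS hA) hpA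
  exact ⟨@Finite.of_injective _ _ hfin _ hb.1, (Nat.card_eq_of_bijective _ hb).trans hcard⟩

end ISq

end Fermat.Agent.ES.T56.SLocTwo25
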