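/-
Programme T (S56), chapter GW, helper25: brick 4 (C3 `HardP2` / `P2Eq`), part 2 — the `P²` count
from `μ_p`-data and its instantiation at the S55 objects (the degree-two analogue of `MidCount25` +
`MidS55_25`).

`0 → Ш²(N) → H²(G; N) → P² = ℍ²(K(P; I)) → ℍ²(K(P; C)) (≅ (A^G)^∨) → 0`, counted:

* `card_p2_of_muData` (`k`-generic, raw resolution `R`, vocabulary of `StarS55_7`):
  `H²_lev(G; M)` is finite and `#Ш²_lev(M) · ∏_q #ℍ²(K(P; I_q)) ≤ #H²_lev(G; M) · #ℍ²(K(P; C))`, with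
  equality if `t_* : ℍ²(K(P; I)) → ℍ²(K(P; C))` is onto;
* `p2_S55` : at the S55 objects (`R = freeRes (intRep A)`, `A = M^∨(1)`), with
  `#ℍ²(K(P; I_{S,q})) = #A^{Γ_q}` (`SLocTwo25.cardTwo_ISq`) and `#ℍ²(K(P; C_S)) ≤ #A^Γ`
  (`GlobAlphaTwoCS18.cardTwoLe_CS`):
  `#Ш²_lev(M) · ∏_{q ∈ S} #A^{Γ_q} ≤ #H²_lev(Γ; M) · #A^Γ`  (UNCONDITIONAL, `p` odd, `p ∈ S`),
  with equality as soon as `(toCS)_*` is onto on `ℍ²` and `#ℍ²(K(P; C_S)) = #A^Γ`.
-/
import Mathlib
import Fermat.Agent.ES.T56.P2Block25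
import Fermat.Agent.ES.T56.SLocTwo25
import Fermat.Agent.ES.T56.GlobAlphaTwoCS18
import Fermat.Agent.PT.PRO.StarS55_7
import Fermat.Agent.PT.GLUE.LocHyperFinal13
import Fermat.Agent.ES.T56.MidS55_25

set_option autoImplicit false
set_option linter.unusedSectionVars false

namespace Fermat.Agent.ES.T56.P2Count25

open Function
open Fermat.Agent.PT.PRO
open Fermat.Agent.PT.PRO.HyperLevel25 Fermat.Agent.PT.PRO.HyperCompare25
open Fermat.Agent.PT.PRO.HyperRes25 Fermat.Agent.PT.PRO.IndRes20 Fermat.Agent.PT.PRO.Resolved4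
open Fermat.Agent.PT.PRO.Setup20 Fermat.Agent.PT.PRO.Objects20 Fermat.Agent.PT.PRO.KerIso7
open Fermat.Agent.PT.PRO.PairingRes1

section Generic

variable {k : Type} [CommRing k] (hk : IntSurj k)
variable {p : ℕ} [Fact p.Prime] {G : Type} [Group G] {𝒰 : Set (Subgroup G)}
variable {M : Type} [AddCommGroup M] [Module (ZMod p) M] [Module k M]
  [FiniteDimensional (ZMod p) M] [Module k (Module.Dual (ZMod p) M)]
variable {P0 P1 : Type} [AddCommGroup P0] [Module k P0] [AddCommGroup P1] [Module k P1]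
  [Module.Finite k P0] [Module.Finite k P1] [Module.Projective k P0] [Module.Projective k P1]
variable {E I C : Type} [AddCommGroup E] [Module k E] [AddCommGroup I] [Module k I]
  [AddCommGroup C] [Module k C]
variable {Q : Type} [Fintype Q] {Gq : Q → Type} [∀ q, Group (Gq q)]
  {𝒰q : ∀ q, Set (Subgroup (Gq q))}
variable {Iq W : Q → Type} [∀ q, AddCommGroup (Iq q)] [∀ q, Module k (Iq q)]
  [∀ q, AddCommGroup (W q)] [∀ q, Module k (W q)]

variable (R : Res k G P1 P0 (Module.Dual (ZMod p) M)) (h0 : IsDiscrete 𝒰 R.ρ0)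
  (h𝒰 : IsLevelBasis 𝒰) (h𝒰q : ∀ q, IsLevelBasis (𝒰q q))
  (r : ∀ q, Gq q →* G) (hr : ∀ q, IsLevelHom (r q) (𝒰q q) 𝒰)
  (ρM : Representation (ZMod p) G M) (hM : IsDiscrete 𝒰 ρM) (χ : G →* (ZMod p)ˣ)
  (hA : ∀ g a, R.ρM g a = (χ g : ZMod p) • (a ∘ₗ ρM g⁻¹))
  {ρE : Representation k G E} (hE : IsDiscrete 𝒰 ρE)
  {ρI : Representation k G I} (hI : IsDiscrete 𝒰 ρI)
  {ρC : Representation k G C} (hC : IsDiscrete 𝒰 ρC)
  {ρIq : ∀ q, Representation k G (Iq q)} (hIq : ∀ q, IsDiscrete 𝒰 (ρIq q))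
  {ρW : ∀ q, Representation k (Gq q) (W q)} (hW : ∀ q, IsDiscrete (𝒰q q) (ρW q))
  (d : E →ₗ[k] I) (hd : ∀ g x, d (ρE g x) = ρI g (d x))
  (t : I →ₗ[k] C) (ht : ∀ g x, t (ρI g x) = ρC g (t x))
  (hdinj : Injective d) (htsurj : Surjective t) (hex : Function.Exact d t)
  (prj : ∀ q, I →ₗ[k] Iq q) (hprj : ∀ q g x, prj q (ρI g x) = ρIq q g (prj q x))
  (hprod : Bijective (fun (x : I) (q : Q) => prj q x))
  (ev : ∀ q, Iq q →ₗ[k] W q) (hev : ∀ q g x, ev q (ρIq q (r q g) x) = ρW q g (ev q x))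
  (D : MuData χ ρE) (D' : ∀ q, MuData (χ.comp (r q)) (ρW q))
  (hDD' : ∀ q a, ev q (prj q (d (D.j a))) = (D' q).j a)
  (hdivE : ∀ x : E, ∃ y : E, (p : k) • y = x)
  (hdivW : ∀ q (x : W q), ∃ y : W q, (p : k) • y = x)

/-- The locally trivial classes of `H²_lev(G; M)`. -/
def Sha2M (h : Hlev2 h𝒰 (intRep hk ρM) (isDiscrete_intRep hk hM)) : Prop :=
  ∀ q, resH2 (hr q) h𝒰 (h𝒰q q) (isDiscrete_intRep hk hM)
    (isDiscrete_intRep hk (IsLevelHom.isDiscrete (hr q) hM)) LinearMap.id (fun _ _ => rfl) h = 0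

include hA hE hd hprj hdinj htsurj hex hprod hDD' hdivE hdivW in
/-- **The `P²` count from `μ_p`-data** (`k`-generic). -/
theorem card_p2_of_muData
    (hS2h : ∀ q, MainWrap20.S2hAt R h0 h𝒰 (h𝒰q q) (r q) (hr q) (hIq q) (hW q) (ev q) (hev q))
    (hfinC : Finite ((KX R h0 h𝒰 ρC hC).ℍ2 h𝒰))
    (hfinIq : ∀ q, Finite ((KX R h0 h𝒰 (ρIq q) (hIq q)).ℍ2 h𝒰))
    (hfinSha : Finite {h // Sha2M hk h𝒰 h𝒰q r hr ρM hM h}) :
    Finite (Hlev2 h𝒰 (intRep hk ρM) (isDiscrete_intRep hk hM)) ∧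
      Nat.card {h // Sha2M hk h𝒰 h𝒰q r hr ρM hM h} *
          ∏ q, Nat.card ((KX R h0 h𝒰 (ρIq q) (hIq q)).ℍ2 h𝒰) ≤
        Nat.card (Hlev2 h𝒰 (intRep hk ρM) (isDiscrete_intRep hk hM)) *
          Nat.card ((KX R h0 h𝒰 ρC hC).ℍ2 h𝒰) ∧
      (Surjective ((KXmap R h0 h𝒰 hI hC t ht).mapℍ2 h𝒰) →
        Nat.card {h // Sha2M hk h𝒰 h𝒰q r hr ρM hM h} *
            ∏ q, Nat.card ((KX R h0 h𝒰 (ρIq q) (hIq q)).ℍ2 h𝒰) =
          Nat.card (Hlev2 h𝒰 (intRep hk ρM) (isDiscrete_intRep hk hM)) *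
            Nat.card ((KX R h0 h𝒰 ρC hC).ℍ2 h𝒰)) :=
  P2Block25.card_p2_block (toResolved R h0) h𝒰 hE hI hC d hd t ht hdinj htsurj hex
    (isDiscrete_intRep hk hM) (kapRes hk D.j R.π)
    (kapRes_equivariant hk ρM χ R.ρM hA ρE D.j D.equiv R.ρ0 R.π R.π_comm)
    (lcomp_kapRes hk D.j R.π R.ι (toResolved R h0).π_ι)
    (kapRes_injective hk D.j D.inj R.π R.π_surj)
    (fun b hb => exists_kapRes_eq hk D.j D.inj D.surj R.π R.π_surj R.ι (toResolved R h0).exact b hb)
    (lcomp_surjective_of_div R.ι R.ι_inj R.π (toResolved R h0).exact hdivE)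
    h𝒰q hr hIq hW prj hprj ev hev
    (fun q => isDiscrete_intRep hk (IsLevelHom.isDiscrete (hr q) hM))
    (fun q => kapRes hk (D' q).j R.π)
    (fun q => kapRes_equivariant hk (ρM.comp (r q)) (χ.comp (r q)) (R.comap (r q)).ρM
      (KerIsoMain7.hA_comap R ρM χ hA (r q)) (ρW q) (D' q).j (D' q).equiv (R.comap (r q)).ρ0 R.π
      (R.comap (r q)).π_comm)
    (fun q => lcomp_kapRes hk (D' q).j R.π R.ι (toResolved R h0).π_ι)
    (fun q => LinearMap.id) (fun q g n => rfl) hprod hS2h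
    (fun q => (compare2_bijective hk (h𝒰q q)
      (toResolved (R.comap (r q)) (comap_disc0 R h0 (r q) (hr q))) (ρM.comp (r q))
      (IsLevelHom.isDiscrete (hr q) hM) (χ.comp (r q)) (KerIsoMain7.hA_comap R ρM χ hA (r q))
      (hW q) (D' q) (hdivW q)).1)
    (fun q n x => by
      rw [LinearMap.id_apply, kapRes_apply, kapRes_apply, hDD'])
    hfinC hfinIq hfinSha

end Generic

/-! ### The instantiation at the S55 objects -/

section S55

open CategoryTheory ExtCitation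
open Fermat.Agent.PT Fermat.Agent.PT.GLUE Fermat.Agent.PT.GLUE.Objects21
open Fermat.Agent.PT.PRO.IntRep20 Fermat.Agent.PT.PRO.LevelEquiv29
open Fermat.Agent.PT.PRO.ProdDict10 Fermat.Agent.PT.GLUE.LocS2_29
open Fermat.Agent.PT.GLUE.LevelTheta21
open Fermat.Agent.PT.PRO.KerIsoGal7

variable {p : ℕ} [Fact p.Prime] (S : Finset Nat.Primes)
  (M : Rep.{0} (ZMod p) (AlgebraicClosure ℚ ≃ₐ[ℚ] AlgebraicClosure ℚ))
  [FiniteDimensional (ZMod p) M]

/-- The locally trivial classes of `H²_lev(Γ; M)` (for the places of `S`). -/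
def Sha2S (hM : IsDiscrete (levelS S).sets (intRep M))
    (h : Hlev2 (basis (levelS S)) (intRep M) hM) : Prop :=
  ∀ q : ↥S, resH2 (isLevelHom_loc S ((q : Nat.Primes) : ℕ)) (basis (levelS S))
    (basis (levelLoc ((q : Nat.Primes) : ℕ))) hM
    (IsLevelHom.isDiscrete (isLevelHom_loc S ((q : Nat.Primes) : ℕ)) hM) LinearMap.id
    (fun _ _ => rfl) h = 0

/-- **The `P²` count at the S55 objects**, under the verbatim hypotheses of S55: `H²_lev(Γ; M)` is
finite and `#Ш²_lev(M) · ∏_{q ∈ S} #A^{Γ_q} ≤ #H²_lev(Γ; M) · #A^Γ` for `A = M^∨(1)`; with equality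
as soon as `(toCS)_*` is onto on `ℍ²` and `#ℍ²(K(P; C_S)) = #A^Γ`. -/
theorem p2_S55 [Finite (M.dualTwist (cycloChar p))] (hp2 : p ≠ 2) (hpS : pPrime p ∈ S)
    (hsm : ∀ m : M, ∃ F : IntermediateField ℚ (AlgebraicClosure ℚ), FiniteDimensional ℚ F ∧
      ∀ s ∈ F.fixingSubgroup, M.ρ s m = m)
    (hMur : ∀ q : Nat.Primes, q ∉ S → ∀ A : ValuationSubring (AlgebraicClosure ℚ),
      A.LiesOverPrime (q : ℕ) → ∀ g ∈ A.inertiaSubgroupIn ℚ, M.ρ g = 1)
    (hA : IsDiscrete (levelS S).sets (intRep (M.dualTwist (cycloChar p))))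
    (hM : IsDiscrete (levelS S).sets (intRep M)) :
    Finite (Hlev2 (basis (levelS S)) (intRep M) hM) ∧
      Nat.card {h // Sha2S S M hM h} *
          ∏ q : ↥S, Nat.card ↥(Representation.invariants
            ((intRep (M.dualTwist (cycloChar p))).comp
              (localGaloisToGlobal ((q : Nat.Primes) : ℕ)))) ≤
        Nat.card (Hlev2 (basis (levelS S)) (intRep M) hM) *
          Nat.card ↥(Representation.invariants (intRep (M.dualTwist (cycloChar p)))) ∧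
      (Surjective ((KXmap (HpAt29.freeRes (intRep (M.dualTwist (cycloChar p))))
          (FreeRes29.isDiscrete_freeRep (basis (levelS S)) hA) (basis (levelS S))
          (isDiscrete_IS' S) (isDiscrete_CS S) (toCS S) (toCS_ρ S)).mapℍ2 (basis (levelS S))) →
        Nat.card ((KX (HpAt29.freeRes (intRep (M.dualTwist (cycloChar p))))
          (FreeRes29.isDiscrete_freeRep (basis (levelS S)) hA) (basis (levelS S)) (CS S).ρ
          (isDiscrete_CS S)).ℍ2 (basis (levelS S))) =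
          Nat.card ↥(Representation.invariants (intRep (M.dualTwist (cycloChar p)))) →
        Nat.card {h // Sha2S S M hM h} *
            ∏ q : ↥S, Nat.card ↥(Representation.invariants
              ((intRep (M.dualTwist (cycloChar p))).comp
                (localGaloisToGlobal ((q : Nat.Primes) : ℕ)))) =
          Nat.card (Hlev2 (basis (levelS S)) (intRep M) hM) *
            Nat.card ↥(Representation.invariants (intRep (M.dualTwist (cycloChar p))))) := by
  classical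
  have hp : p.Prime := Fact.out
  have hGCF := GLOB.FundClassExists6.fundClassExists p S
  have hfund := GLUE.FundLevel2.fundFixed_CS p hp2 hpS hGCF
  have hgex := GLUE.GexNormFinal15.gexNormLevel (S := S) hp hp2 hpS
  have h0 : IsDiscrete (levelS S).sets
      (HpAt29.freeRes (IntRep20.intRep (M.dualTwist (cycloChar p)))).ρ0 :=
    FreeRes29.isDiscrete_freeRep (basis (levelS S)) hA
  have hpA : ∀ m : (M.dualTwist (cycloChar p)), p • m = 0 := fun m =>
    MidS55_25.nsmul_eq_zero_of_zmod m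
  have hFinA : Finite (Hlev1 (basis (levelS S)) (intRep (M.dualTwist (cycloChar p))) hA) :=
    FinH1S55_9.finite_Hlev1_dualTwist S hpS M hsm hMur (basis (levelS S)) hA
  have : Finite (Hlev1 (basis (levelS S))
      (HpAt29.freeRes (IntRep20.intRep (M.dualTwist (cycloChar p)))).ρM hA) := hFinA
  -- `ℍ¹(K(P; C_S))` is finite (global duality package)
  have hdual : InvFund18.AlphaPackage
      (HpAt29.freeRes (IntRep20.intRep (M.dualTwist (cycloChar p)))) h0 (basis (levelS S))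
      (CS S).ρ (isDiscrete_CS S) p hpA :=
    InvFund18.alphaPackage_of_isFundClass _ (CS S).ρ (basis (levelS S)) h0 hpA (isDiscrete_CS S)
      (GlobalHypP8.trivFam_sub _ _) (GlobalHypP8.trivFam_normal _ _)
      (GlobalHypP8.trivFam_cofinal _ (basis (levelS S)) h0) (GlobalHypP8.trivFam_triv0 _ _)
      hfund (GlobalHypP8.gexNorm_trivFam _ hgex)
  obtain ⟨τ, -, hαinj, -, -⟩ := hdual
  have hF1 : Finite (Hlev1 (basis (levelS S))
      (toResolved (HpAt29.freeRes (IntRep20.intRep (M.dualTwist (cycloChar p)))) h0).ρM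
      (toResolved (HpAt29.freeRes (IntRep20.intRep (M.dualTwist (cycloChar p)))) h0).discM) :=
    hFinA
  have hfinHom : Finite (Hlev1 (basis (levelS S))
      (toResolved (HpAt29.freeRes (IntRep20.intRep (M.dualTwist (cycloChar p)))) h0).ρM
      (toResolved (HpAt29.freeRes (IntRep20.intRep (M.dualTwist (cycloChar p)))) h0).discM →+
        ZMod p) :=
    Finite.of_injective (fun f => (f : _ → ZMod p)) DFunLike.coe_injective
  have hfinC1 : Finite ((KX (HpAt29.freeRes (IntRep20.intRep (M.dualTwist (cycloChar p)))) h0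
      (basis (levelS S)) (CS S).ρ (isDiscrete_CS S)).ℍ1 (basis (levelS S))) :=
    Finite.of_injective _ hαinj
  -- (S2h) and the (★) block: `Ш²` is finite
  have hS2h : ∀ q : ↥S, MainWrap20.S2hAt
      (HpAt29.freeRes (IntRep20.intRep (M.dualTwist (cycloChar p)))) h0 (basis (levelS S))
      (basis (levelLoc ((q : Nat.Primes) : ℕ))) (localGaloisToGlobal ((q : Nat.Primes) : ℕ))
      (isLevelHom_loc S ((q : Nat.Primes) : ℕ)) (isDiscrete_ISq' S q)
      (isDiscrete_unitsLoc ((q : Nat.Primes) : ℕ)) (evq S ((q : Nat.Primes) : ℕ))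
      (evq_ρ S ((q : Nat.Primes) : ℕ)) := fun q =>
    LocHyperFinal13.s2hAt S ((q : Nat.Primes) : ℕ) (basis (levelS S))
      (basis (levelLoc ((q : Nat.Primes) : ℕ))) (isLevelHom_loc S ((q : Nat.Primes) : ℕ))
      (isDiscrete_ISq' S q) (isDiscrete_unitsLoc ((q : Nat.Primes) : ℕ)) _ h0
  obtain ⟨b, -, hbc⟩ := StarS55_7.starAt_S55 p S hpS M h0 hM hS2h
  have hfinSha : Finite {h // Sha2S S M hM h} :=
    Finite.of_surjective (fun e => (⟨b e, (hbc (b e)).2 ⟨e, rfl⟩⟩ : {h // Sha2S S M hM h}))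
      (fun ⟨h, hh⟩ => by
        obtain ⟨e, he⟩ := (hbc h).1 hh
        exact ⟨e, Subtype.ext he⟩)
  -- the local and global `(2,0)` counts
  have hISq : ∀ q : ↥S, _ := fun q : ↥S =>
    SLocTwo25.cardTwo_ISq S ((q : Nat.Primes) : ℕ) hpS (intRep (M.dualTwist (cycloChar p)))
      (basis (levelS S)) hA hpA (isDiscrete_ISq' S q)
  obtain ⟨hfinC, hcardC⟩ := GlobAlphaTwoCS18.cardTwoLe_CS S (M.dualTwist (cycloChar p)) hp2 hpS hA
  -- the count
  have key := card_p2_of_muData intSurj_int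
    (HpAt29.freeRes (IntRep20.intRep (M.dualTwist (cycloChar p)))) h0 (basis (levelS S))
    (fun q : ↥S => basis (levelLoc ((q : Nat.Primes) : ℕ)))
    (fun q : ↥S => localGaloisToGlobal ((q : Nat.Primes) : ℕ))
    (fun q : ↥S => isLevelHom_loc S ((q : Nat.Primes) : ℕ))
    M.ρ hM (cycloChar p) (KerIsoMain7.hA_freeRes M (cycloChar p))
    (isDiscrete_ES S) (isDiscrete_IS' S) (isDiscrete_CS S) (isDiscrete_ISq' S)
    (fun q : ↥S => isDiscrete_unitsLoc ((q : Nat.Primes) : ℕ))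
    (diag S) (diag_ρ S) (toCS S) (toCS_ρ S)
    (Fermat.Agent.PT.GLUE.Objects21.diag_injective S ⟨pPrime p, hpS⟩) (toCS_surjective S)
    (StarS55_7.exact_diag_toCS S)
    (ISproj S) (ISproj_ρ S) (ISproj_bijective S)
    (fun q : ↥S => evq S ((q : Nat.Primes) : ℕ)) (fun q : ↥S => evq_ρ S ((q : Nat.Primes) : ℕ))
    (muES p S hpS) (fun q : ↥S => muLoc p ((q : Nat.Primes) : ℕ))
    (StarS55_7.evq_ISproj_diag_muES p S hpS)
    (Fermat.Agent.PT.GLUE.ESDivisible27.exists_zsmul_eq (Fact.out) hpS)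
    (fun q : ↥S => exists_zsmul_eq_unitsLoc p ((q : Nat.Primes) : ℕ))
    hS2h hfinC (fun q => (hISq q).1) hfinSha
  have hprodeq : ∏ q : ↥S, Nat.card ((KX (HpAt29.freeRes (IntRep20.intRep
      (M.dualTwist (cycloChar p)))) h0 (basis (levelS S)) (ISq S ((q : Nat.Primes) : ℕ)).ρ
      (isDiscrete_ISq' S q)).ℍ2 (basis (levelS S))) =
      ∏ q : ↥S, Nat.card ↥(Representation.invariants
        ((intRep (M.dualTwist (cycloChar p))).comp
          (localGaloisToGlobal ((q : Nat.Primes) : ℕ)))) :=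
    Finset.prod_congr rfl fun q _ => (hISq q).2
  refine ⟨key.1, ?_, fun hs hc => ?_⟩
  · rw [← hprodeq]
    exact key.2.1.trans (Nat.mul_le_mul_left _ hcardC)
  · rw [← hprodeq, ← hc]
    exact key.2.2 hs

end S55

end Fermat.Agent.ES.T56.P2Count25
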