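/-
Programme T (S56), chapter GW, helper25: brick 4 (C3 `HardP2` / `P2Eq`), part 3 — the TRANSPORT of
`P2Count25.p2_S55` to the Prelude objects: leaf 2 (`hP2`) of `GWChain21.gw_rest_of`.

For every finite-dimensional smooth `X` unramified outside `Sg ∋ p`, `p` odd:

* `finiteDimensional_continuousH2S : FiniteDimensional (ZMod p) (continuousH2S Sg X)` (UNCONDITIONAL);
* `p2_h0 : ш²(X) + Σ_{q ∈ S} h⁰(G_q, X*) = h²(G_S, X) + h⁰(G_ℚ, X*)`
  (= exactness of `0 → Ш²(X) → H²(G_S,X) → ⊕_q H²(G_q,X) → H⁰(G_ℚ,X*)^∨ → 0` as a count, with the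
  local terms already dualised: `#ℍ²(K(P; I_{S,q})) = #(X*)^{G_q}`);
* **`p2Eq : GWProps21.P2Eq Sg X`** (with `h²(G_q, X) = h⁰(G_q, X*)`, `LocTwoZeroExport2`);
* **`hardP2 : GWIface21.HardP2 Sg X`**, `hardP2_dualT` (literally `c3` of `TopOrd27.GwClaims`);
* **`nineTermCount : GWIface21.NineTermCount Sg X`** (UNCONDITIONAL: `NineTermAsm25.nineTermCount_of`
  fed with `p2Eq` for `X`, `X*` and `LocTwoZeroExport2.locDual20`).

Inputs: `P2Count25.p2_S55` (the count in `Hlev2` form, with equality under `(toCS)_*` onto and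
`#ℍ²(K(P; C_S)) = #A^Γ`), `GlobAlphaTwoFull18.surjective_toCS`, `GlobAlphaTwoFull18.cardTwoEq_CS`
(helper18: the global `(2,0)` duality), `LocTwoZeroExport2.h2loc_eq_h0loc_dualT` (helper2: the local
`(2,0)` duality); dictionary `LevelEquiv29.h2IntEquiv`, `LevelEquiv29.ppH2_eq_zero_iff`,
`BasisCompare13`, `LevelBridge13.continuousH2SEquiv`, `ShaBridge13.finrank_sha₂`.
-/
import Mathlib
import Fermat.Agent.ES.T56.GWProps21
import Fermat.Agent.ES.T56.P2Count25
import Fermat.Agent.ES.T56.GlobAlphaTwoFull18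
import Fermat.Agent.ES.T56.LocTwoZeroExport2
import Fermat.Agent.ES.T56.NineTermAsm25
import Fermat.Agent.PT.PRO.Transport29
import Fermat.Agent.PT.BR.Interface29

set_option autoImplicit false
set_option linter.unusedSectionVars false

namespace Fermat.Agent.ES.T56.P2Eq25

open Function Module CategoryTheory groupCohomology ExtCitation
open Fermat.Agent.PT Fermat.Agent.PT.PRO Fermat.Agent.PT.PRO.HyperLevel25
open Fermat.Agent.PT.PRO.Resolved4 Fermat.Agent.PT.PRO.IntRep20 Fermat.Agent.PT.PRO.LevelEquiv29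
open Fermat.Agent.ES.T56.GWIface21

/-! ### Generic bases -/

section Generic

variable {p : ℕ} [Fact p.Prime] {G : Type} [Group G] {ι : Type} [Fintype ι] {Gq : ι → Type}
  [∀ q, Group (Gq q)]
variable (r : ∀ q, Gq q →* G) (𝓑 : LevelCoh28.LevelBasis G)
  (𝓑q : ∀ q, LevelCoh28.LevelBasis (Gq q))
variable (hf : ∀ q, LevelCohRes28.IsLevelHom (r q) (𝓑q q).sets 𝓑.sets)

/-- The conclusion, for arbitrary level bases: finiteness of `H²` and the count in `LevelCoh28`
form. -/
def Concl (X A : Rep.{0} (ZMod p) G) : Prop :=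
  Finite (LevelCoh28.H2 𝓑 X) ∧
    finrank (ZMod p) ↥(LinearMap.ker (Transport29.loc2 r 𝓑 𝓑q hf X)) +
        ∑ q, finrank (ZMod p) ↥((Rep.res (r q) A).ρ.invariants) =
      finrank (ZMod p) (LevelCoh28.H2 𝓑 X) + finrank (ZMod p) ↥(A.ρ.invariants)

/-- The conclusion only depends on the bases up to equality. -/
theorem Concl.congr {𝓑 𝓑' : LevelCoh28.LevelBasis G} (e : 𝓑 = 𝓑')
    {𝓑q 𝓑q' : ∀ q, LevelCoh28.LevelBasis (Gq q)} (eq : 𝓑q = 𝓑q')
    (hf : ∀ q, LevelCohRes28.IsLevelHom (r q) (𝓑q q).sets 𝓑.sets)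
    (hf' : ∀ q, LevelCohRes28.IsLevelHom (r q) (𝓑q' q).sets 𝓑'.sets)
    (X A : Rep.{0} (ZMod p) G) (h : Concl r 𝓑 𝓑q hf X A) : Concl r 𝓑' 𝓑q' hf' X A := by
  subst e
  subst eq
  exact h

/-- The cardinality of a finite `𝔽_p`-vector space. -/
theorem card_eq_pow_finrank (V : Type*) [AddCommGroup V] [Module (ZMod p) V] [Finite V] :
    Nat.card V = p ^ finrank (ZMod p) V := by
  rw [Module.natCard_eq_pow_finrank (K := ZMod p) (V := V), Nat.card_zmod]

/-- The invariants of the underlying `ℤ`-representation are the invariants. -/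
theorem card_invariants_intRep {H : Type} [Group H] (A : Rep.{0} (ZMod p) H) :
    Nat.card ↥(Representation.invariants (intRep A)) = Nat.card ↥(A.ρ.invariants) :=
  Nat.card_congr (Equiv.subtypeEquiv (Equiv.refl A) fun _ => Iff.rfl)

/-- The invariants of a restricted `ℤ`-representation are the invariants of the restriction. -/
theorem card_invariants_intRep_comp {H H' : Type} [Group H] [Group H'] (f : H' →* H)
    (A : Rep.{0} (ZMod p) H) :
    Nat.card ↥(Representation.invariants ((intRep A).comp f)) =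
      Nat.card ↥((Rep.res f A).ρ.invariants) :=
  Nat.card_congr (Equiv.subtypeEquiv (Equiv.refl A) fun _ => Iff.rfl)

/-- **Transport, generic bases**: from the count in `Hlev2` (`ℤ`) form to `Concl`. -/
theorem concl_of_card (X A : Rep.{0} (ZMod p) G) [Finite A]
    (h𝒰 : IsLevelBasis 𝓑.sets) (h𝒰q : ∀ q, IsLevelBasis (𝓑q q).sets)
    (hr : ∀ q, HyperRes25.IsLevelHom (r q) (𝓑q q).sets 𝓑.sets)
    (hX : IsDiscrete 𝓑.sets (intRep X))
    (hXq : ∀ q, IsDiscrete (𝓑q q).sets ((intRep X).comp (r q)))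
    (hfin : Finite (Hlev2 h𝒰 (intRep X) hX))
    (hcard : Nat.card {h : Hlev2 h𝒰 (intRep X) hX // ∀ q, PairingRes1.resH2 (hr q) h𝒰 (h𝒰q q) hX
          (hXq q) LinearMap.id (fun _ _ => rfl) h = 0} *
        ∏ q, Nat.card ↥(Representation.invariants ((intRep A).comp (r q))) =
      Nat.card (Hlev2 h𝒰 (intRep X) hX) * Nat.card ↥(Representation.invariants (intRep A))) :
    Concl r 𝓑 𝓑q hf X A := by
  classical
  have h2 : ∀ x : LevelCoh28.H2 𝓑 X, x ∈ LinearMap.ker (Transport29.loc2 r 𝓑 𝓑q hf X) ↔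
      ∀ q, PairingRes1.resH2 (hr q) h𝒰 (h𝒰q q) hX (hXq q) LinearMap.id (fun _ _ => rfl)
        ((h2IntEquiv 𝓑 X hX).toEquiv x) = 0 := by
    intro x
    rw [LinearMap.mem_ker, Transport29.loc2_eq_zero_iff]
    refine forall_congr' fun q => ?_
    exact ppH2_eq_zero_iff (r q) (B := Rep.res (r q) X) hX (hXq q) LinearMap.id
      (fun _ _ => rfl) (hf q) LinearMap.id (fun _ _ => rfl) (fun _ => rfl) x
  have eK : Nat.card {h : Hlev2 h𝒰 (intRep X) hX // ∀ q, PairingRes1.resH2 (hr q) h𝒰 (h𝒰q q) hX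
        (hXq q) LinearMap.id (fun _ _ => rfl) h = 0} =
      Nat.card ↥(LinearMap.ker (Transport29.loc2 r 𝓑 𝓑q hf X)) :=
    (Nat.card_congr ((h2IntEquiv 𝓑 X hX).toEquiv.subtypeEquiv h2)).symm
  have eH : Nat.card (Hlev2 h𝒰 (intRep X) hX) = Nat.card (LevelCoh28.H2 𝓑 X) :=
    (Nat.card_congr (h2IntEquiv 𝓑 X hX).toEquiv).symm
  have fX : Finite (LevelCoh28.H2 𝓑 X) := Finite.of_equiv _ (h2IntEquiv 𝓑 X hX).toEquiv.symm
  refine ⟨fX, ?_⟩
  have cX := card_eq_pow_finrank (p := p) (LevelCoh28.H2 𝓑 X)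
  have cK := card_eq_pow_finrank (p := p) ↥(LinearMap.ker (Transport29.loc2 r 𝓑 𝓑q hf X))
  have cA := card_eq_pow_finrank (p := p) ↥(A.ρ.invariants)
  have cq : ∏ q, Nat.card ↥(Representation.invariants ((intRep A).comp (r q))) =
      p ^ ∑ q, finrank (ZMod p) ↥((Rep.res (r q) A).ρ.invariants) := by
    rw [← Finset.prod_pow_eq_pow_sum]
    refine Finset.prod_congr rfl fun q _ => ?_
    rw [card_invariants_intRep_comp (r q) A]
    have : Finite ↥((Rep.res (r q) A).ρ.invariants) :=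
      Finite.of_injective (fun a : ↥((Rep.res (r q) A).ρ.invariants) => (a : A))
        Subtype.val_injective
    exact card_eq_pow_finrank (p := p) ↥((Rep.res (r q) A).ρ.invariants)
  rw [eK, eH, cq, card_invariants_intRep A, cX, cK, cA, ← pow_add, ← pow_add] at hcard
  exact Nat.pow_right_injective (Fact.out : p.Prime).two_le hcard

end Generic

/-! ### The arithmetic case -/

section Arith

open Fermat.Agent.PT.BR Fermat.Agent.PT.BR.LevelBridge13 Fermat.Agent.PT.GLUE
open Fermat.Agent.PT.GLUE.Objects21 Fermat.Agent.PT.GLUE.LocS2_29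

variable {p : ℕ} [Fact p.Prime]

/-- **The `P²` count in level cohomology for the bases of `LevelBridge13`.** -/
theorem concl_arith (hp2 : p ≠ 2) (Sg : Finset Nat.Primes) (hpS : pPrime p ∈ Sg)
    (X : Rep.{0} (ZMod p) GQ) [FiniteDimensional (ZMod p) X] (hsm : IsSmooth p X)
    (hur : IsUnramOutside p Sg X) :
    Concl (p := p) (fun q : ↥Sg => primeLocalToGlobal q.1) (globalBasis Sg)
      (fun q : ↥Sg => pullBasis (primeLocalToGlobal q.1))
      (fun q : ↥Sg => ShaBridge13.isLevelHom_pull Sg (primeLocalToGlobal q.1)) X (dualT p X) := by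
  have hX : IsDiscrete (levelS Sg).sets (intRep X) :=
    FinH1S55_9.isDiscrete_intRep_self Sg hpS X hsm hur
  have hA : IsDiscrete (levelS Sg).sets (intRep (dualT p X)) :=
    FinH1S55_9.isDiscrete_intRep_dualTwist Sg hpS X hsm hur
  have : Finite X := Module.finite_of_finite (ZMod p)
  have : FiniteDimensional (ZMod p) (dualT p X) :=
    inferInstanceAs (FiniteDimensional (ZMod p) (Module.Dual (ZMod p) X))
  have hFA : Finite (dualT p X) := Module.finite_of_finite (ZMod p)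
  have hp2S := P2Count25.p2_S55 Sg X hp2 hpS hsm hur hA hX
  have hsurj := GlobAlphaTwoFull18.surjective_toCS Sg (dualT p X) hp2 hpS hA
  have hCS := GlobAlphaTwoFull18.cardTwoEq_CS Sg (dualT p X) hp2 hpS hA
  have hcard := hp2S.2.2 hsurj hCS.2
  have key : Concl (p := p) (fun q : ↥Sg => primeLocalToGlobal q.1) (levelS Sg)
      (fun q : ↥Sg => (levelLoc ((q : Nat.Primes) : ℕ) :
        LevelCoh28.LevelBasis (primeLocalGaloisGroup q.1)))
      (fun q => isLevelHom_iff.2 (isLevelHom_loc Sg ((q : Nat.Primes) : ℕ))) X (dualT p X) :=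
    concl_of_card (fun q : ↥Sg => primeLocalToGlobal q.1) (levelS Sg)
      (fun q : ↥Sg => (levelLoc ((q : Nat.Primes) : ℕ) :
        LevelCoh28.LevelBasis (primeLocalGaloisGroup q.1)))
      (fun q => isLevelHom_iff.2 (isLevelHom_loc Sg ((q : Nat.Primes) : ℕ))) X (dualT p X)
      (basis (levelS Sg)) (fun q : ↥Sg => basis (levelLoc ((q : Nat.Primes) : ℕ)))
      (fun q : ↥Sg => isLevelHom_loc Sg ((q : Nat.Primes) : ℕ))
      hX (fun q : ↥Sg => HyperRes25.IsLevelHom.isDiscrete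
        (isLevelHom_loc Sg ((q : Nat.Primes) : ℕ)) hX)
      hp2S.1 hcard
  have e1 : levelS Sg = globalBasis Sg := (BasisCompare13.globalBasis_eq Sg).symm
  have e2 : (fun q : ↥Sg => (levelLoc ((q : Nat.Primes) : ℕ) :
      LevelCoh28.LevelBasis (primeLocalGaloisGroup q.1))) =
      fun q : ↥Sg => pullBasis (primeLocalToGlobal q.1) :=
    funext fun q => (BasisCompare13.pullBasis_prime_eq q.1).symm
  exact Concl.congr (fun q : ↥Sg => primeLocalToGlobal q.1) e1 e2 _
    (fun q : ↥Sg => ShaBridge13.isLevelHom_pull Sg (primeLocalToGlobal q.1)) X (dualT p X) key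

/-- **`H²(G_S, X)` is finite-dimensional** (unconditional: `p` odd, `X` finite-dimensional smooth
unramified outside `Sg ∋ p`). -/
theorem finiteDimensional_continuousH2S (hp2 : p ≠ 2) (Sg : Finset Nat.Primes)
    (hpS : pPrime p ∈ Sg) (X : Rep.{0} (ZMod p) GQ) [FiniteDimensional (ZMod p) X]
    (hsm : IsSmooth p X) (hur : IsUnramOutside p Sg X) :
    FiniteDimensional (ZMod p) (continuousH2S Sg X) := by
  have fX := (concl_arith hp2 Sg hpS X hsm hur).1
  have : Finite (continuousH2S Sg X) := Finite.of_equiv _ (continuousH2SEquiv Sg X).toEquiv.symm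
  exact Module.Finite.of_finite

/-- `h²(G_S, Y)` is the dimension of the level `H²` for `globalBasis`. -/
theorem finrank_H2_globalBasis (Sg : Finset Nat.Primes) (Y : Rep.{0} (ZMod p) GQ) :
    finrank (ZMod p) (LevelCoh28.H2 (globalBasis Sg) Y) = h2S p Sg Y :=
  (continuousH2SEquiv Sg Y).finrank_eq.symm

/-- `ш²(Y)` is the dimension of the kernel of the total localisation in level cohomology. -/
theorem finrank_ker_loc2 (hp2 : p ≠ 2) (Sg : Finset Nat.Primes) (Y : Rep.{0} (ZMod p) GQ) :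
    finrank (ZMod p) ↥(LinearMap.ker (Transport29.loc2
      (fun q : ↥Sg => primeLocalToGlobal q.1) (globalBasis Sg)
      (fun q : ↥Sg => pullBasis (primeLocalToGlobal q.1))
      (fun q : ↥Sg => ShaBridge13.isLevelHom_pull Sg (primeLocalToGlobal q.1)) Y)) =
      finrank (ZMod p) ↥(sha₂ Sg Y) := by
  rw [← Transport29.locH2_eq]
  exact (ShaBridge13.finrank_sha₂ Sg Y (ArchVanish13.two_ne_zero_zmod hp2)).symm

/-- **The `P²` count with dualised local terms**:
`ш²(X) + Σ_{q ∈ S} h⁰(G_q, X*) = h²(G_S, X) + h⁰(G_ℚ, X*)`. -/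
theorem p2_h0 (hp2 : p ≠ 2) (Sg : Finset Nat.Primes) (hpS : pPrime p ∈ Sg)
    (X : Rep.{0} (ZMod p) GQ) [FiniteDimensional (ZMod p) X] (hsm : IsSmooth p X)
    (hur : IsUnramOutside p Sg X) :
    finrank (ZMod p) ↥(sha₂ Sg X) + ∑ q : ↥Sg, h0loc p q.1 (dualT p X) =
      h2S p Sg X + h0 p (dualT p X) := by
  have h := (concl_arith hp2 Sg hpS X hsm hur).2
  rw [finrank_H2_globalBasis Sg X, finrank_ker_loc2 hp2 Sg X] at h
  exact h

/-- **Leaf 2 of `GWChain21.gw_rest_of`: `GWProps21.P2Eq`.** -/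
theorem p2Eq (hp2 : p ≠ 2) (Sg : Finset Nat.Primes) (hpS : pPrime p ∈ Sg)
    (X : Rep.{0} (ZMod p) GQ) [FiniteDimensional (ZMod p) X] (hsm : IsSmooth p X)
    (hur : IsUnramOutside p Sg X) : GWProps21.P2Eq Sg X := by
  unfold GWProps21.P2Eq
  rw [Finset.sum_congr rfl fun (q : ↥Sg) _ =>
    LocTwoZeroExport2.h2loc_eq_h0loc_dualT q.1 X hsm]
  exact p2_h0 hp2 Sg hpS X hsm hur

/-- **C3: `GWIface21.HardP2`** (an equality, in fact). -/
theorem hardP2 (hp2 : p ≠ 2) (Sg : Finset Nat.Primes) (hpS : pPrime p ∈ Sg)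
    (X : Rep.{0} (ZMod p) GQ) [FiniteDimensional (ZMod p) X] (hsm : IsSmooth p X)
    (hur : IsUnramOutside p Sg X) : HardP2 Sg X :=
  ⟨finiteDimensional_continuousH2S hp2 Sg hpS X hsm hur, (p2_h0 hp2 Sg hpS X hsm hur).le⟩

/-- Leaf 2 in the literal shape of the hypothesis `hP2` of `GWChain21.gw_rest_of`. -/
theorem p2Eq_forall (hp2 : p ≠ 2) : ∀ Sg : Finset Nat.Primes, pPrime p ∈ Sg →
    ∀ Y : Rep.{0} (ZMod p) GQ, FiniteDimensional (ZMod p) Y → IsSmooth p Y →
      IsUnramOutside p Sg Y → GWProps21.P2Eq Sg Y :=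
  fun Sg hpS Y _ hsm hur => p2Eq hp2 Sg hpS Y hsm hur

/-- C3 in the literal shape of `hC3` of `GWFinal21.gw_exports` (`c3` of `TopOrd27.GwClaims`). -/
theorem hardP2_dualT (hp2 : p ≠ 2) (M : Rep.{0} (ZMod p) GQ) [FiniteDimensional (ZMod p) M]
    (hsm : IsSmooth p M) (Sg : Finset Nat.Primes) (hpS : pPrime p ∈ Sg)
    (hur : IsUnramOutside p Sg M) : HardP2 Sg (dualT p M) := by
  have : FiniteDimensional (ZMod p) (dualT p M) :=
    inferInstanceAs (FiniteDimensional (ZMod p) (Module.Dual (ZMod p) M))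
  exact hardP2 hp2 Sg hpS (dualT p M) (DualTwist7.smooth_dualTwist M hsm)
    (DualTwist7.unram_dualTwist M hpS hur)

/-- **`GWIface21.NineTermCount`, unconditionally** (`p` odd, `X` finite-dimensional smooth
unramified outside `Sg ∋ p`). -/
theorem nineTermCount (hp2 : p ≠ 2) (Sg : Finset Nat.Primes) (hpS : pPrime p ∈ Sg)
    (X : Rep.{0} (ZMod p) GQ) [FiniteDimensional (ZMod p) X] (hsm : IsSmooth p X)
    (hur : IsUnramOutside p Sg X) : NineTermCount Sg X := by
  have : FiniteDimensional (ZMod p) (dualT p X) :=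
    inferInstanceAs (FiniteDimensional (ZMod p) (Module.Dual (ZMod p) X))
  exact NineTermAsm25.nineTermCount_of hp2 Sg hpS X hsm hur (p2Eq hp2 Sg hpS X hsm hur)
    (p2Eq hp2 Sg hpS (dualT p X) (DualTwist7.smooth_dualTwist X hsm)
      (DualTwist7.unram_dualTwist X hpS hur))
    (fun q => LocTwoZeroExport2.locDual20 q.1 X hsm)

end Arith

end Fermat.Agent.ES.T56.P2Eq25
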