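/-
Programme T (S56, Taylor–Wiles primes), chapter GW-D (base case), brick K5 (places), helper22,
part 1: **equivariant functions on a `Δ`-set** (pure algebra, Mathlib only).

For a group `Δ`, a `Δ`-set `Ω` and a representation `σ : Representation k Δ W`:

* `EqFun σ Ω ≤ (Ω → W)` : the functions `F` with `F (δ • x) = σ δ (F x)`  (`= Map_Δ(Ω, W)`);
* `eqFunCongr` : invariance under an equivariant bijection `Ω ≃ Ω'`;
* `eqFunSumEquiv`, `eqFunSigmaEquiv` : `Map_Δ(Ω₁ ⊔ Ω₂, W) = Map_Δ(Ω₁, W) × Map_Δ(Ω₂, W)` and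
  `Map_Δ(⊔ᵢ Ωᵢ, W) = Πᵢ Map_Δ(Ωᵢ, W)` (the pieces given by equivariant maps into `Ω`), with the
  dimension counts `finrank_eqFun_sum`, `finrank_eqFun_sigma`;
* `eqFun_congr_rep` : `EqFun` only depends on the operators `σ δ`.
-/
import Mathlib

set_option autoImplicit false

open Module

namespace Fermat.Agent.ES.T56.EqFun22

section Defs

variable {k : Type*} [CommRing k] {Δ : Type*} [Group Δ] {W : Type*} [AddCommGroup W] [Module k W]

/-- `Map_Δ(Ω, W)`: the `Δ`-equivariant functions on a `Δ`-set. -/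
def EqFun (σ : Representation k Δ W) (Ω : Type*) [MulAction Δ Ω] : Submodule k (Ω → W) where
  carrier := {F | ∀ (δ : Δ) (x : Ω), F (δ • x) = σ δ (F x)}
  add_mem' := by
    intro F F' hF hF' δ x
    simp only [Pi.add_apply, hF δ x, hF' δ x, map_add]
  zero_mem' := by
    intro δ x
    simp
  smul_mem' := by
    intro c F hF δ x
    simp only [Pi.smul_apply, hF δ x, map_smul]

theorem mem_eqFun {σ : Representation k Δ W} {Ω : Type*} [MulAction Δ Ω] {F : Ω → W} :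
    F ∈ EqFun σ Ω ↔ ∀ (δ : Δ) (x : Ω), F (δ • x) = σ δ (F x) := Iff.rfl

variable (σ : Representation k Δ W)

/-- Invariance of `Map_Δ(Ω, W)` under an equivariant bijection. -/
def eqFunCongr {Ω Ω' : Type*} [MulAction Δ Ω] [MulAction Δ Ω'] (e : Ω ≃ Ω')
    (he : ∀ (δ : Δ) (x : Ω), e (δ • x) = δ • e x) : ↥(EqFun σ Ω') ≃ₗ[k] ↥(EqFun σ Ω) where
  toFun F := ⟨fun x => F.1 (e x), fun δ x => by
    show F.1 (e (δ • x)) = σ δ (F.1 (e x))
    rw [he]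
    exact F.2 δ (e x)⟩
  invFun F := ⟨fun x => F.1 (e.symm x), fun δ x => by
    show F.1 (e.symm (δ • x)) = σ δ (F.1 (e.symm x))
    have h : e.symm (δ • x) = δ • e.symm x := by
      rw [Equiv.symm_apply_eq, he, Equiv.apply_symm_apply]
    rw [h]
    exact F.2 δ (e.symm x)⟩
  map_add' _ _ := rfl
  map_smul' _ _ := rfl
  left_inv F := by
    apply Subtype.ext
    funext x
    show F.1 (e (e.symm x)) = F.1 x
    rw [Equiv.apply_symm_apply]
  right_inv F := by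
    apply Subtype.ext
    funext x
    show F.1 (e.symm (e x)) = F.1 x
    rw [Equiv.symm_apply_apply]

/-- `Map_Δ(Ω₁ ⊔ Ω₂, W) = Map_Δ(Ω₁, W) × Map_Δ(Ω₂, W)`. -/
def eqFunSumEquiv {Ω Ω₁ Ω₂ : Type*} [MulAction Δ Ω] [MulAction Δ Ω₁] [MulAction Δ Ω₂]
    (e : Ω₁ ⊕ Ω₂ ≃ Ω) (he₁ : ∀ (δ : Δ) (x : Ω₁), e (Sum.inl (δ • x)) = δ • e (Sum.inl x))
    (he₂ : ∀ (δ : Δ) (x : Ω₂), e (Sum.inr (δ • x)) = δ • e (Sum.inr x)) :
    ↥(EqFun σ Ω) ≃ₗ[k] (↥(EqFun σ Ω₁) × ↥(EqFun σ Ω₂)) where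
  toFun F := (⟨fun x => F.1 (e (Sum.inl x)), fun δ x => by
      show F.1 (e (Sum.inl (δ • x))) = σ δ (F.1 (e (Sum.inl x)))
      rw [he₁]
      exact F.2 δ _⟩,
    ⟨fun x => F.1 (e (Sum.inr x)), fun δ x => by
      show F.1 (e (Sum.inr (δ • x))) = σ δ (F.1 (e (Sum.inr x)))
      rw [he₂]
      exact F.2 δ _⟩)
  invFun P := ⟨fun x => Sum.elim P.1.1 P.2.1 (e.symm x), fun δ x => by
    show Sum.elim P.1.1 P.2.1 (e.symm (δ • x)) = σ δ (Sum.elim P.1.1 P.2.1 (e.symm x))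
    obtain ⟨y, rfl⟩ := e.surjective x
    rw [Equiv.symm_apply_apply]
    cases y with
    | inl y =>
      rw [← he₁, Equiv.symm_apply_apply]
      exact P.1.2 δ y
    | inr y =>
      rw [← he₂, Equiv.symm_apply_apply]
      exact P.2.2 δ y⟩
  map_add' _ _ := rfl
  map_smul' _ _ := rfl
  left_inv F := by
    apply Subtype.ext
    funext x
    obtain ⟨y, rfl⟩ := e.surjective x
    show Sum.elim _ _ (e.symm (e y)) = F.1 (e y)
    rw [Equiv.symm_apply_apply]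
    cases y <;> rfl
  right_inv P := by
    apply Prod.ext
    · apply Subtype.ext
      funext x
      show Sum.elim P.1.1 P.2.1 (e.symm (e (Sum.inl x))) = P.1.1 x
      rw [Equiv.symm_apply_apply]
      rfl
    · apply Subtype.ext
      funext x
      show Sum.elim P.1.1 P.2.1 (e.symm (e (Sum.inr x))) = P.2.1 x
      rw [Equiv.symm_apply_apply]
      rfl

/-- `Map_Δ(⊔ᵢ Ωᵢ, W) = Πᵢ Map_Δ(Ωᵢ, W)`. -/
def eqFunSigmaEquiv {Ω : Type*} [MulAction Δ Ω] {I : Type*} (Ωi : I → Type*)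
    [∀ i, MulAction Δ (Ωi i)] (e : (Σ i, Ωi i) ≃ Ω)
    (he : ∀ (i : I) (δ : Δ) (x : Ωi i), e ⟨i, δ • x⟩ = δ • e ⟨i, x⟩) :
    ↥(EqFun σ Ω) ≃ₗ[k] (∀ i, ↥(EqFun σ (Ωi i))) where
  toFun F i := ⟨fun x => F.1 (e ⟨i, x⟩), fun δ x => by
    show F.1 (e ⟨i, δ • x⟩) = σ δ (F.1 (e ⟨i, x⟩))
    rw [he]
    exact F.2 δ _⟩
  invFun P := ⟨fun x => (P (e.symm x).1).1 (e.symm x).2, fun δ x => by
    obtain ⟨⟨i, y⟩, rfl⟩ := e.surjective x
    have h : e.symm (δ • e ⟨i, y⟩) = ⟨i, δ • y⟩ := by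
      rw [Equiv.symm_apply_eq, he]
    show (P (e.symm (δ • e ⟨i, y⟩)).1).1 (e.symm (δ • e ⟨i, y⟩)).2 =
      σ δ ((P (e.symm (e ⟨i, y⟩)).1).1 (e.symm (e ⟨i, y⟩)).2)
    rw [h, Equiv.symm_apply_apply]
    exact (P i).2 δ y⟩
  map_add' _ _ := rfl
  map_smul' _ _ := rfl
  left_inv F := by
    apply Subtype.ext
    funext x
    show F.1 (e ⟨(e.symm x).1, (e.symm x).2⟩) = F.1 x
    rw [Sigma.eta, Equiv.apply_symm_apply]
  right_inv P := by
    funext i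
    apply Subtype.ext
    funext x
    show (P (e.symm (e ⟨i, x⟩)).1).1 (e.symm (e ⟨i, x⟩)).2 = (P i).1 x
    rw [Equiv.symm_apply_apply]

/-- `EqFun` only depends on the operators of the representation. -/
theorem eqFun_congr_rep {σ σ' : Representation k Δ W} (h : ∀ δ, σ δ = σ' δ) (Ω : Type*)
    [MulAction Δ Ω] : EqFun σ Ω = EqFun σ' Ω := by
  ext F
  rw [mem_eqFun, mem_eqFun]
  exact forall_congr' fun δ => forall_congr' fun x => by rw [h δ]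

end Defs

section Field

variable {k : Type*} [Field k] {Δ : Type*} [Group Δ] {W : Type*} [AddCommGroup W] [Module k W]
  [FiniteDimensional k W] (σ : Representation k Δ W)

theorem finiteDimensional_eqFun (Ω : Type*) [MulAction Δ Ω] [Finite Ω] :
    FiniteDimensional k ↥(EqFun σ Ω) :=
  FiniteDimensional.finiteDimensional_submodule _

theorem finrank_eqFun_sum {Ω Ω₁ Ω₂ : Type*} [MulAction Δ Ω] [MulAction Δ Ω₁] [MulAction Δ Ω₂]
    [Finite Ω₁] [Finite Ω₂]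
    (e : Ω₁ ⊕ Ω₂ ≃ Ω) (he₁ : ∀ (δ : Δ) (x : Ω₁), e (Sum.inl (δ • x)) = δ • e (Sum.inl x))
    (he₂ : ∀ (δ : Δ) (x : Ω₂), e (Sum.inr (δ • x)) = δ • e (Sum.inr x)) :
    finrank k ↥(EqFun σ Ω) = finrank k ↥(EqFun σ Ω₁) + finrank k ↥(EqFun σ Ω₂) := by
  have := finiteDimensional_eqFun σ Ω₁
  have := finiteDimensional_eqFun σ Ω₂
  rw [(eqFunSumEquiv σ e he₁ he₂).finrank_eq, Module.finrank_prod]

theorem finrank_eqFun_sigma {Ω : Type*} [MulAction Δ Ω] {I : Type*} [Fintype I] (Ωi : I → Type*)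
    [∀ i, MulAction Δ (Ωi i)] [∀ i, Finite (Ωi i)] (e : (Σ i, Ωi i) ≃ Ω)
    (he : ∀ (i : I) (δ : Δ) (x : Ωi i), e ⟨i, δ • x⟩ = δ • e ⟨i, x⟩) :
    finrank k ↥(EqFun σ Ω) = ∑ i, finrank k ↥(EqFun σ (Ωi i)) := by
  have := fun i => finiteDimensional_eqFun σ (Ωi i)
  rw [(eqFunSigmaEquiv σ Ωi e he).finrank_eq, Module.finrank_pi_fintype]

end Field

end Fermat.Agent.ES.T56.EqFun22
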