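/-
Programme T (S56, Taylor–Wiles primes), chapter GW-D (base case), brick K5 (places), helper22,
part 2: **the twist number of a permutation module is a space of equivariant functions**.

For a finite `Δ`-set `Ω`, `ρ : Representation (ZMod p) Δ Y`, `ω : Δ →* (ZMod p)ˣ`:

* `dualTw ω ρ = ρ.dual.twist ω` : the representation `Y^∨(1)` (`δ·λ = ω(δ) λ ∘ ρ(δ⁻¹)`);
* **`twAddPermEquiv : twAdd (permRep (ZMod p) Ω) ω ρ ≃ₗ EqFun (dualTw ω ρ) Ω`**
  (`a ↦ (x ↦ a (e_x))`), hence `twNum_permRep : twNum (permRep (ZMod p) Ω) ω ρ =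
  finrank (EqFun (dualTw ω ρ) Ω)`, i.e. `⟨𝔽_p[Ω]⟩ = dim Map_Δ(Ω, Y^∨(1))`.
-/
import Mathlib
import Fermat.Prelude.Def_GroupCohomology_Selmer
import Fermat.Agent.ES.T56.TwistNum28
import Fermat.Agent.ES.T56.PermChar28
import Fermat.Agent.ES.T56.EqFun22

set_option autoImplicit false

open Module

namespace Fermat.Agent.ES.T56.TwistPermFun22

open Fermat.Agent.ES.T56.TwistNum28 Fermat.Agent.ES.T56.PermChar28 Fermat.Agent.ES.T56.EqFun22

variable {p : ℕ} [Fact p.Prime] {Δ : Type*} [Group Δ] {Y : Type*} [AddCommGroup Y]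
  [Module (ZMod p) Y]

/-- `Y^∨(1)`: the dual representation twisted by `ω`. -/
noncomputable def dualTw (ω : Δ →* (ZMod p)ˣ) (ρ : Representation (ZMod p) Δ Y) :
    Representation (ZMod p) Δ (Module.Dual (ZMod p) Y) :=
  ρ.dual.twist ω

theorem dualTw_apply (ω : Δ →* (ZMod p)ˣ) (ρ : Representation (ZMod p) Δ Y) (δ : Δ)
    (l : Module.Dual (ZMod p) Y) (y : Y) :
    dualTw ω ρ δ l y = ((ω δ : (ZMod p)ˣ) : ZMod p) * l (ρ δ⁻¹ y) := rfl

variable (Ω : Type*) [MulAction Δ Ω]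

theorem permRep_single [DecidableEq Ω] (δ : Δ) (x : Ω) (c : ZMod p) :
    permRep (ZMod p) Ω δ (Pi.single x c) = Pi.single (δ • x) c := by
  funext u
  rw [permRep_apply, Pi.single_apply, Pi.single_apply]
  have : δ⁻¹ • u = x ↔ u = δ • x := inv_smul_eq_iff
  simp only [this]

variable [Fintype Ω] [DecidableEq Ω] (ω : Δ →* (ZMod p)ˣ) (ρ : Representation (ZMod p) Δ Y)

/-- The additive map `f ↦ Σ_x f x • Λ x`. -/
noncomputable def sumMap (Λ : Ω → Module.Dual (ZMod p) Y) :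
    (Ω → ZMod p) →+ Module.Dual (ZMod p) Y where
  toFun f := ∑ x, f x • Λ x
  map_zero' := by simp
  map_add' f g := by
    simp only [Pi.add_apply, add_smul, Finset.sum_add_distrib]

omit [DecidableEq Ω] in
theorem sumMap_apply (Λ : Ω → Module.Dual (ZMod p) Y) (f : Ω → ZMod p) :
    sumMap Ω Λ f = ∑ x, f x • Λ x := rfl

theorem sumMap_single (Λ : Ω → Module.Dual (ZMod p) Y) (x : Ω) :
    sumMap Ω Λ (Pi.single x 1) = Λ x := by
  rw [sumMap_apply, Finset.sum_eq_single x]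
  · rw [Pi.single_eq_same, one_smul]
  · intro b _ hb
    rw [Pi.single_eq_of_ne hb, zero_smul]
  · intro h
    exact absurd (Finset.mem_univ x) h

theorem eq_sumMap (a : (Ω → ZMod p) →+ Module.Dual (ZMod p) Y) :
    a = sumMap Ω (fun x => a (Pi.single x 1)) := by
  refine DFunLike.ext _ _ fun f => ?_
  rw [sumMap_apply]
  conv_lhs => rw [← Finset.univ_sum_single f]
  rw [map_sum]
  refine Finset.sum_congr rfl fun x _ => ?_
  have h : (Pi.single x (f x) : Ω → ZMod p) = f x • Pi.single x (1 : ZMod p) := by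
    rw [← Pi.single_smul, smul_eq_mul, mul_one]
  rw [h, ZMod.map_smul]

/-- **`Hom_Δ(𝔽_p[Ω], Y^∨(1)) = Map_Δ(Ω, Y^∨(1))`.** -/
noncomputable def twAddPermEquiv :
    ↥(twAdd (permRep (ZMod p) Ω) ω ρ) ≃ₗ[ZMod p] ↥(EqFun (dualTw ω ρ) Ω) where
  toFun a := ⟨fun x => a.1 (Pi.single x 1), fun δ x => by
    apply LinearMap.ext
    intro y
    rw [dualTw_apply]
    have h := a.2 δ (Pi.single x 1) (ρ δ⁻¹ y)
    rw [permRep_single] at h
    rw [← h]
    congr 1
    show y = (ρ δ * ρ δ⁻¹) y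
    rw [← map_mul, mul_inv_cancel, map_one]
    rfl⟩
  invFun Λ := ⟨sumMap Ω Λ.1, fun δ f y => by
    rw [sumMap_apply, sumMap_apply, LinearMap.sum_apply, LinearMap.sum_apply, Finset.mul_sum]
    rw [← Equiv.sum_comp (MulAction.toPerm δ)]
    refine Finset.sum_congr rfl fun x _ => ?_
    rw [MulAction.toPerm_apply, permRep_apply, inv_smul_smul, LinearMap.smul_apply,
      LinearMap.smul_apply, Λ.2 δ x, dualTw_apply, smul_eq_mul, smul_eq_mul]
    have : (ρ δ⁻¹) ((ρ δ) y) = y := by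
      show (ρ δ⁻¹ * ρ δ) y = y
      rw [← map_mul, inv_mul_cancel, map_one]
      rfl
    rw [this]
    ring⟩
  map_add' _ _ := rfl
  map_smul' _ _ := rfl
  left_inv a := by
    apply Subtype.ext
    exact (eq_sumMap Ω a.1).symm
  right_inv Λ := by
    apply Subtype.ext
    funext x
    exact sumMap_single Ω Λ.1 x

/-- `⟨𝔽_p[Ω]⟩ = dim Map_Δ(Ω, Y^∨(1))`. -/
theorem twNum_permRep :
    twNum (permRep (ZMod p) Ω) ω ρ = finrank (ZMod p) ↥(EqFun (dualTw ω ρ) Ω) :=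
  (twAddPermEquiv Ω ω ρ).finrank_eq

end Fermat.Agent.ES.T56.TwistPermFun22
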