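/-
Programme T (S56, Taylor–Wiles primes), chapter GW-D (base case), brick K5 (places), helper22,
part 9: **`h⁰` of the base representation and of its dual, in `Δ`-terms** (`T56_BASE28.md` (K5), first
and second formula, Galois side).

For `D : BaseDatum Sg`, `Δ = Gal(L/K)`, `ρΔ D`, `ω D` of `BaseDict28`, `dualTw ω ρ = Y^∨(1)`:

* `h0_rep_eq : h0 p D.rep = finrank (ρΔ D).invariants`   (`= dim Y^Δ`; with (T2) `= ⟨μ_p⟩`);
* `h0_dualT_rep_eq : h0 p (dualT p D.rep) = finrank (dualTw (ω D) (ρΔ D)).invariants`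
  (`= dim (Y^∨(1))^Δ = dim Hom_Δ(Y, μ_p)`; with (T2) `= ⟨𝔽_p⟩`);
* `mem_invariants_dualTw_iff : l ∈ (dualTw ω ρ).invariants ↔ ∀ δ y, l (ρ δ y) = ω δ * l y`.
-/
import Mathlib
import Fermat.Agent.ES.T56.GWIface21
import Fermat.Agent.ES.T56.BaseDict28
import Fermat.Agent.ES.T56.TwistPermFun22
import Fermat.Agent.ES.T56.BaseShapiro22
import Fermat.Agent.ES.T56.BaseDual22
import Fermat.Agent.ES.T56.GWNumIso22

set_option autoImplicit false

open Module ExtCitation

namespace Fermat.Agent.ES.T56.BaseH0Dict22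

open Fermat.Agent.ES.T56.GWIface21 Fermat.Agent.ES.T56.BaseDict28
  Fermat.Agent.ES.T56.TwistPermFun22

section Generic

variable {p : ℕ} [Fact p.Prime] {Δ : Type*} [Group Δ] {Y : Type*} [AddCommGroup Y]
  [Module (ZMod p) Y]

/-- `(Y^∨(1))^Δ = Hom_Δ(Y, μ_p)`. -/
theorem mem_invariants_dualTw_iff (ω : Δ →* (ZMod p)ˣ) (ρ : Representation (ZMod p) Δ Y)
    (l : Module.Dual (ZMod p) Y) :
    l ∈ (dualTw ω ρ).invariants ↔
      ∀ (δ : Δ) (y : Y), l (ρ δ y) = ((ω δ : (ZMod p)ˣ) : ZMod p) * l y := by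
  rw [Representation.mem_invariants]
  constructor
  · intro h δ y
    have h1 := LinearMap.congr_fun (h δ) (ρ δ y)
    rw [dualTw_apply] at h1
    have h2 : ρ δ⁻¹ (ρ δ y) = y := by
      show (ρ δ⁻¹ * ρ δ) y = y
      rw [← map_mul, inv_mul_cancel, map_one]
      rfl
    rw [h2] at h1
    exact h1.symm
  · intro h δ
    apply LinearMap.ext
    intro y
    rw [dualTw_apply, ← h δ (ρ δ⁻¹ y)]
    congr 1
    show (ρ δ * ρ δ⁻¹) y = y
    rw [← map_mul, mul_inv_cancel, map_one]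
    rfl

end Generic

variable {p : ℕ} [Fact p.Prime] {Sg : Finset Nat.Primes} (D : BaseDatum (p := p) Sg)

/-- `h⁰(G_ℚ, X) = dim Y^Δ`. -/
theorem h0_rep_eq : h0 p D.rep = finrank (ZMod p) ↥(ρΔ D).invariants := by
  rw [BaseShapiro22.h0_rep, invariants_ρΔ]
  rfl

/-- The dual twist `Y^∨(1)` of `D.Y` as a representation of `G_K`. -/
noncomputable abbrev Ydual : Rep.{0} (ZMod p) ↥D.K.fixingSubgroup :=
  D.Y.dualTwist ((cycloChar p).comp D.K.fixingSubgroup.subtype)

theorem dualTw_π (s : ↥D.K.fixingSubgroup) :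
    dualTw (ω D) (ρΔ D) (π D s) = (Ydual D).ρ s := by
  apply LinearMap.ext
  intro l
  apply LinearMap.ext
  intro y
  rw [dualTw_apply, Rep.dualTwist_ρ_apply, ω_π, ← map_inv, ρΔ_π]
  rfl

theorem invariants_dualTw :
    (dualTw (ω D) (ρΔ D)).invariants = (Ydual D).ρ.invariants := by
  ext l
  rw [Representation.mem_invariants, Representation.mem_invariants]
  constructor
  · intro h s
    rw [← dualTw_π]
    exact h _
  · intro h δ
    obtain ⟨s, rfl⟩ := π_surjective D δ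
    rw [dualTw_π]
    exact h s

/-- `h⁰(G_ℚ, X*) = dim (Y^∨(1))^Δ`. -/
theorem h0_dualT_rep_eq :
    h0 p (dualT p D.rep) = finrank (ZMod p) ↥(dualTw (ω D) (ρΔ D)).invariants := by
  rw [GWNumIso22.h0_congr (BaseDual22.dualRepEquiv D) (BaseDual22.dualRepEquiv_equivariant D),
    BaseShapiro22.h0_rep, invariants_dualTw]
  rfl

end Fermat.Agent.ES.T56.BaseH0Dict22
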