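/-
Programme T (S56, Taylor–Wiles primes), chapter GW-D (base case), brick K5 (places), helper22,
part 6: **`G_L` acts transitively on the places of `ℚ̄` above a given prime of `L`**.

`exists_fixing_smul_eq` : `L ≤ ℚ̄` an intermediate field, `A`, `A'` valuation subrings of `ℚ̄` over
`q` whose maximal ideals contain the same algebraic integers of `L` ⟹ `A' = s • A` for some
`s ∈ L.fixingSubgroup`.

Proof: main's `S13.UnramLift` (`OK L = OQ ∩ L` is the ring of invariants of `Gal(ℚ̄/L)` on the ring
`OQ` of all algebraic integers, continuous action) + Mathlib's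
`Algebra.IsInvariant.exists_smul_of_under_eq_of_profinite` + helper16's `PlacesConj16`
(`primeQ_smul`, `le_of_primeQ_eq`: a place over `q` is determined by its prime of `OQ`).
-/
import Mathlib
import Fermat.Agent.S13.UnramLift
import Fermat.Agent.PT.BR.UnramBridge13
import Fermat.Agent.ES.T56.PlacesConj16

set_option autoImplicit false
set_option linter.style.haveILetI false

open scoped Pointwise

namespace Fermat.Agent.ES.T56.GLTrans22

open Fermat.Agent.S54 Fermat.Agent.S13.UnramVal Fermat.Agent.S13.UnramLift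
  Fermat.Agent.PT.BR.UnramBridge13 Fermat.Agent.ES.T56.PlacesConj16

attribute [local instance] topOQ

local notation "Qbar" => AlgebraicClosure ℚ

/-- **`G_L` is transitive on the places of `ℚ̄` above a prime of `L`.** -/
theorem exists_fixing_smul_eq (L : IntermediateField ℚ Qbar) {q : ℕ} (hq : q.Prime)
    {A A' : ValuationSubring Qbar} (hA : A.LiesOverPrime q) (hA' : A'.LiesOverPrime q)
    (h : ∀ x : Qbar, x ∈ L → IsIntegral ℤ x → (x ∈ A.nonunits ↔ x ∈ A'.nonunits)) :
    ∃ s : Qbar ≃ₐ[ℚ] Qbar, s ∈ L.fixingSubgroup ∧ A' = s • A := by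
  have hunder : (primeQ A).under (OK L) = (primeQ A').under (OK L) := by
    ext a
    rw [Ideal.mem_comap, Ideal.mem_comap]
    show (a : OQ) ∈ primeQ A ↔ (a : OQ) ∈ primeQ A'
    rw [mem_primeQ, mem_primeQ]
    exact h _ a.2 (mem_OQ.1 (a : OQ).2)
  obtain ⟨σ, hσ⟩ := Algebra.IsInvariant.exists_smul_of_under_eq_of_profinite
    (A := OK L) (B := OQ) (G := Qbar ≃ₐ[L] Qbar) (primeQ A) (primeQ A') hunder
  refine ⟨σ.restrictScalars ℚ, ?_, ?_⟩
  · rw [IntermediateField.mem_fixingSubgroup_iff]
    intro x hx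
    exact σ.commutes ⟨x, hx⟩
  · have h1 : primeQ A' = primeQ ((σ.restrictScalars ℚ) • A) := by
      rw [primeQ_smul, hσ]
      ext b
      rw [Ideal.mem_pointwise_smul_iff_inv_smul_mem, Ideal.mem_pointwise_smul_iff_inv_smul_mem]
      rfl
    exact le_antisymm (le_of_primeQ_eq hq hA' h1)
      (le_of_primeQ_eq hq (liesOverPrime_smul _ hA) h1.symm)

end Fermat.Agent.ES.T56.GLTrans22
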