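/-
Programme T (S56, Taylor–Wiles primes), chapter GW-D (base case), brick K5 (places), helper22,
part 4: **the infinite places of `L` are `G_L \ G_ℚ / ⟨c⟩`**, `Δ`-equivariantly.

For `D : BaseDatum Sg` (`K ≤ L`, `Δ = Gal(L/K)`, `π : G_K ↠ Δ` of `BaseDict28`), `ι` the Prelude's
`complexEmbedding`, `c` the Prelude's `complexConjugation`:

* `exists_gal_of_embedding` : every embedding of a subfield of `ℚ̄` into `ℂ` is `ι ∘ g⁻¹|` for some
  `g ∈ G_ℚ`;
* `embOf D g = (ι ∘ g⁻¹)|_L`, `plInf D g : InfinitePlace L` its place;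
* the orbit-map properties (`OrbitMap22`): `plInf_smul` (`plInf (s g) = π s • plInf g`),
  `plInf_mul_mem` (`plInf (g h) = plInf g`, `h ∈ ⟨c⟩`), `plInf_surjective`, `plInf_fiber`
  (`plInf g = plInf g' → g' = s g h`, `π s = 1`, `h ∈ ⟨c⟩`).
-/
import Mathlib
import Fermat.Prelude.Def_GaloisRep_ComplexConjugation
import Fermat.Agent.ES.T56.GWIface21
import Fermat.Agent.ES.T56.BaseDict28

set_option autoImplicit false
set_option linter.style.haveILetI false

open NumberField

namespace Fermat.Agent.ES.T56.InfPlaceOrbit22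

open Fermat.Agent.ES.T56.GWIface21 Fermat.Agent.ES.T56.BaseDict28

local notation "Qbar" => AlgebraicClosure ℚ

/-- Every embedding of a subfield of `ℚ̄` into `ℂ` is `ι ∘ g⁻¹` for some `g ∈ G_ℚ`. -/
theorem exists_gal_of_embedding {L : Type*} [Field L] (j : L →+* Qbar) (φ : L →+* ℂ) :
    ∃ g : Qbar ≃ₐ[ℚ] Qbar, ∀ x : L, φ x = complexEmbedding (g⁻¹ (j x)) := by
  haveI : CharZero L := RingHom.charZero j
  letI : Algebra L Qbar := j.toAlgebra
  letI : Algebra L ℂ := φ.toAlgebra
  haveI : Algebra.IsAlgebraic ℚ Qbar := AlgebraicClosure.isAlgebraic ℚ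
  haveI : Algebra.IsAlgebraic L Qbar := Algebra.IsAlgebraic.tower_top (K := ℚ) L
  let ψ : Qbar →ₐ[L] ℂ := IsAlgClosed.lift
  let ψQ : Qbar →ₐ[ℚ] ℂ := ψ.toRingHom.toRatAlgHom
  letI : Algebra Qbar ℂ := complexEmbedding.toRingHom.toAlgebra
  haveI : IsScalarTower ℚ Qbar ℂ := IsScalarTower.of_algebraMap_eq' (Subsingleton.elim _ _)
  haveI : IsAlgClosure ℚ Qbar := ⟨inferInstance, inferInstance⟩
  haveI : Normal ℚ Qbar := IsAlgClosure.normal ℚ Qbar
  let τ : Qbar →ₐ[ℚ] Qbar := ψQ.restrictNormal Qbar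
  have hτ : ∀ x : Qbar, complexEmbedding (τ x) = ψ x := fun x =>
    AlgHom.restrictNormal_commutes ψQ Qbar x
  let e : Qbar ≃ₐ[ℚ] Qbar := AlgEquiv.ofBijective τ (Algebra.IsAlgebraic.algHom_bijective τ)
  refine ⟨e⁻¹, fun x => ?_⟩
  rw [inv_inv]
  show φ x = complexEmbedding (τ (j x))
  rw [hτ]
  exact (ψ.commutes x).symm

variable {p : ℕ} [Fact p.Prime] {Sg : Finset Nat.Primes} (D : BaseDatum (p := p) Sg)

/-- The embedding `(ι ∘ g⁻¹)|_L` of `L` into `ℂ`. -/
noncomputable def embOf (g : GQ) : ↥(LK D) →+* ℂ :=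
  (complexEmbedding : Qbar →+* ℂ).comp
    (((g⁻¹ : GQ) : Qbar →+* Qbar).comp (algebraMap ↥(LK D) Qbar))

theorem embOf_apply (g : GQ) (x : ↥(LK D)) :
    embOf D g x = complexEmbedding (g⁻¹ (x : Qbar)) := rfl

/-- The infinite place of `L` attached to `g ∈ G_ℚ`. -/
noncomputable def plInf (g : GQ) : InfinitePlace ↥(LK D) := InfinitePlace.mk (embOf D g)

theorem π_symm_apply (s : ↥D.K.fixingSubgroup) (x : ↥(LK D)) :
    (((π D s).symm x : ↥(LK D)) : Qbar) = (s : GQ)⁻¹ (x : Qbar) := by
  have h : (π D s).symm = π D s⁻¹ := by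
    rw [map_inv]
    rfl
  rw [h, π_apply]
  rfl

/-- Equivariance. -/
theorem plInf_smul (s : ↥D.K.fixingSubgroup) (g : GQ) :
    plInf D ((s : GQ) * g) = π D s • plInf D g := by
  unfold plInf
  rw [InfinitePlace.smul_mk]
  congr 1
  ext x
  rw [RingHom.comp_apply, embOf_apply, embOf_apply]
  have h : ((π D s).symm : ↥(LK D) →+* ↥(LK D)) x = (π D s).symm x := rfl
  rw [h, π_symm_apply, mul_inv_rev]
  rfl

/-- Right invariance under `c`. -/
theorem plInf_mul_conj (g : GQ) : plInf D (g * complexConjugation) = plInf D g := by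
  unfold plInf
  rw [← InfinitePlace.mk_conjugate_eq (embOf D g)]
  congr 1
  ext x
  rw [ComplexEmbedding.conjugate_coe_eq, embOf_apply, embOf_apply, mul_inv_rev,
    complexConjugation_inv, ← complexEmbedding_complexConjugation]
  rfl

/-- Right invariance under `⟨c⟩`. -/
theorem plInf_mul_mem (g h : GQ) (hh : h ∈ Subgroup.zpowers complexConjugation) :
    plInf D (g * h) = plInf D g := by
  let T : Subgroup GQ :=
    { carrier := {h | ∀ g, plInf D (g * h) = plInf D g}
      mul_mem' := by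
        intro a b ha hb g
        rw [← mul_assoc, hb, ha]
      one_mem' := by
        intro g
        rw [mul_one]
      inv_mem' := by
        intro a ha g
        have := ha (g * a⁻¹)
        rw [inv_mul_cancel_right] at this
        exact this.symm }
  exact (Subgroup.zpowers_le.2 (show complexConjugation ∈ T from plInf_mul_conj D)) hh g

/-- Surjectivity. -/
theorem plInf_surjective : Function.Surjective (plInf D) := by
  intro w
  obtain ⟨g, hg⟩ := exists_gal_of_embedding (algebraMap ↥(LK D) Qbar) w.embedding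
  refine ⟨g, ?_⟩
  unfold plInf
  rw [← InfinitePlace.mk_embedding w]
  congr 1
  ext x
  rw [embOf_apply, hg]
  rfl

theorem mem_fixingSubgroup_K_of_L {s : GQ} (hs : s ∈ D.L.fixingSubgroup) :
    s ∈ D.K.fixingSubgroup :=
  (IntermediateField.fixingSubgroup_antitone D.le) hs

/-- The fibres of `plInf`. -/
theorem plInf_fiber (g g' : GQ) (h : plInf D g = plInf D g') :
    ∃ s : ↥D.K.fixingSubgroup, π D s = 1 ∧
      ∃ h ∈ Subgroup.zpowers complexConjugation, g' = (s : GQ) * g * h := by
  unfold plInf at h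
  rw [InfinitePlace.mk_eq_iff] at h
  rcases h with h | h
  · have hs : g' * g⁻¹ ∈ D.L.fixingSubgroup := by
      rw [IntermediateField.mem_fixingSubgroup_iff]
      intro x hx
      have h1 := DFunLike.congr_fun h ⟨x, (mem_LK D).2 hx⟩
      rw [embOf_apply, embOf_apply] at h1
      have h2 : g⁻¹ x = g'⁻¹ x := complexEmbedding.toRingHom.injective h1
      show g' (g⁻¹ x) = x
      rw [h2]
      exact g'.apply_symm_apply x
    refine ⟨⟨g' * g⁻¹, mem_fixingSubgroup_K_of_L D hs⟩, (π_eq_one_iff D _).2 hs, 1,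
      Subgroup.one_mem _, ?_⟩
    show g' = g' * g⁻¹ * g * 1
    group
  · have hs : g' * complexConjugation * g⁻¹ ∈ D.L.fixingSubgroup := by
      rw [IntermediateField.mem_fixingSubgroup_iff]
      intro x hx
      have h1 := DFunLike.congr_fun h ⟨x, (mem_LK D).2 hx⟩
      rw [ComplexEmbedding.conjugate_coe_eq, embOf_apply, embOf_apply,
        ← complexEmbedding_complexConjugation] at h1
      have h2 : complexConjugation (g⁻¹ x) = g'⁻¹ x := complexEmbedding.toRingHom.injective h1
      show g' (complexConjugation (g⁻¹ x)) = x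
      rw [h2]
      exact g'.apply_symm_apply x
    refine ⟨⟨g' * complexConjugation * g⁻¹, mem_fixingSubgroup_K_of_L D hs⟩,
      (π_eq_one_iff D _).2 hs, complexConjugation, Subgroup.mem_zpowers _, ?_⟩
    show g' = g' * complexConjugation * g⁻¹ * g * complexConjugation
    rw [inv_mul_cancel_right, mul_assoc, complexConjugation_mul_self, mul_one]

end Fermat.Agent.ES.T56.InfPlaceOrbit22
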