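/-
Programme T (S56, Taylor–Wiles primes), chapter GW-D (base case), brick K5 (places), helper22,
part 5: **the prime of a number field below a place of `ℚ̄`** (for a field `F` with an embedding
`F → ℚ̄` given as `[Algebra F ℚ̄]`; main's `S13.UnramRam.primeBelow` is the case of an
`IntermediateField ℚ ℚ̄`).

* `toValG F A : 𝓞 F →+* A`, `primeBelowG F A : Ideal (𝓞 F)` (`= 𝔪_A ∩ 𝓞 F`), `mem_primeBelowG_iff`;
* `natCast_mem_primeBelowG` : `A` over `q` ⇒ `q ∈ primeBelowG F A`; `primeBelowG_ne_bot`;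
* `heightOneBelow F A hA : HeightOneSpectrum (𝓞 F)`;
* `exists_primeBelowG_eq` : every nonzero prime of `𝓞 F` is `primeBelowG F A` for some `A`;
* `liesOver_of_natCast_mem`, `eq_of_natCast_mem` (a prime contains only one rational prime).
-/
import Mathlib
import Fermat.Prelude.Def_FLTPrelim_Ramification
import Fermat.Agent.S13.UnramVal

set_option autoImplicit false
set_option linter.style.haveILetI false

open NumberField IsDedekindDomain

namespace Fermat.Agent.ES.T56.PrimeBelow22

open Fermat.Agent.S13.UnramVal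

local notation "Qbar" => AlgebraicClosure ℚ

variable (F : Type*) [Field F] [Algebra F Qbar]

/-- The ring homomorphism `𝓞 F → A` for a valuation subring `A` of `ℚ̄`. -/
noncomputable def toValG (A : ValuationSubring Qbar) : 𝓞 F →+* A where
  toFun x := ⟨algebraMap F Qbar (x : F), mem_of_isIntegral_int A
    (map_isIntegral_int (algebraMap F Qbar) x.2)⟩
  map_one' := by ext; simp
  map_mul' x y := by ext; simp
  map_zero' := by ext; simp
  map_add' x y := by ext; simp

/-- The prime of `𝓞 F` below the maximal ideal of `A`. -/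
noncomputable def primeBelowG (A : ValuationSubring Qbar) : Ideal (𝓞 F) :=
  (IsLocalRing.maximalIdeal A).comap (toValG F A)

theorem primeBelowG_isPrime (A : ValuationSubring Qbar) : (primeBelowG F A).IsPrime :=
  Ideal.comap_isPrime _ _

theorem mem_primeBelowG_iff (A : ValuationSubring Qbar) (x : 𝓞 F) :
    x ∈ primeBelowG F A ↔ algebraMap F Qbar (x : F) ∈ A.nonunits := by
  rw [primeBelowG, Ideal.mem_comap, ValuationSubring.mem_nonunits_iff_exists_mem_maximalIdeal]
  constructor
  · intro h; exact ⟨_, h⟩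
  · rintro ⟨_, h⟩; exact h

theorem natCast_mem_primeBelowG_iff (A : ValuationSubring Qbar) (q : ℕ) :
    (((q : ℕ) : ℤ) : 𝓞 F) ∈ primeBelowG F A ↔ A.LiesOverPrime q := by
  rw [mem_primeBelowG_iff]
  have : algebraMap F Qbar (((((q : ℕ) : ℤ) : 𝓞 F) : 𝓞 F) : F) = ((q : ℕ) : Qbar) := by
    simp
  rw [this]
  rfl

theorem primeBelowG_ne_bot [CharZero F] (A : ValuationSubring Qbar) {q : ℕ} (hq : q.Prime)
    (hA : A.LiesOverPrime q) : primeBelowG F A ≠ ⊥ := by
  intro h
  have h1 := (natCast_mem_primeBelowG_iff F A q).2 hA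
  rw [h, Ideal.mem_bot] at h1
  have h2 : ((q : ℤ) : 𝓞 F) = ((0 : ℤ) : 𝓞 F) := by rw [h1, Int.cast_zero]
  have h3 := (Int.cast_injective (α := 𝓞 F)) h2
  exact hq.ne_zero (by exact_mod_cast h3)

/-- The prime of `𝓞 F` below a place of `ℚ̄` over `q`, as a height one prime. -/
noncomputable def heightOneBelow [CharZero F] (A : ValuationSubring Qbar) {q : ℕ} (hq : q.Prime)
    (hA : A.LiesOverPrime q) : HeightOneSpectrum (𝓞 F) where
  asIdeal := primeBelowG F A
  isPrime := primeBelowG_isPrime F A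
  ne_bot := primeBelowG_ne_bot F A hq hA

theorem heightOneBelow_asIdeal [CharZero F] (A : ValuationSubring Qbar) {q : ℕ} (hq : q.Prime)
    (hA : A.LiesOverPrime q) : (heightOneBelow F A hq hA).asIdeal = primeBelowG F A := rfl

/-- Every nonzero prime of `𝓞 F` lies below a valuation subring of `ℚ̄`. -/
theorem exists_primeBelowG_eq [NumberField F] (P : Ideal (𝓞 F)) [P.IsPrime] (hP : P ≠ ⊥) :
    ∃ A : ValuationSubring Qbar, primeBelowG F A = P := by
  classical
  let f : 𝓞 F →+* Qbar := (algebraMap F Qbar).comp (algebraMap (𝓞 F) F)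
  have hfinj : Function.Injective f :=
    (algebraMap F Qbar).injective.comp RingOfIntegers.coe_injective
  let A₀ : Subring Qbar := f.range
  let e : 𝓞 F ≃+* A₀ := RingEquiv.ofBijective f.rangeRestrict
    ⟨fun x y h => hfinj (congrArg (Subtype.val : A₀ → Qbar) h), f.rangeRestrict_surjective⟩
  let I : Ideal A₀ := P.comap (e.symm : A₀ →+* 𝓞 F)
  have hI : I ≠ ⊤ := Ideal.comap_ne_top _ (Ideal.IsPrime.ne_top inferInstance)
  obtain ⟨B, -, hB⟩ := Ideal.image_subset_nonunits_valuationSubring I hI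
  refine ⟨B, ?_⟩
  have hle : P ≤ primeBelowG F B := by
    intro x hx
    rw [mem_primeBelowG_iff]
    apply hB
    refine ⟨e x, ?_, rfl⟩
    show e.symm (e x) ∈ P
    rw [RingEquiv.symm_apply_apply]; exact hx
  have hmax : P.IsMaximal := Ideal.IsPrime.isMaximal inferInstance hP
  have := primeBelowG_isPrime F B
  exact (hmax.eq_of_le (Ideal.IsPrime.ne_top inferInstance) hle).symm

omit [Algebra F Qbar] in
/-- A prime ideal of `𝓞 F` contains at most one rational prime. -/
theorem eq_of_natCast_mem {P : Ideal (𝓞 F)} (hP : P.IsPrime) {q q' : ℕ} (hq : q.Prime)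
    (hq' : q'.Prime) (h : (((q : ℕ) : ℤ) : 𝓞 F) ∈ P) (h' : (((q' : ℕ) : ℤ) : 𝓞 F) ∈ P) :
    q = q' := by
  by_contra hne
  have hcop : IsCoprime (q : ℤ) (q' : ℤ) :=
    Nat.isCoprime_iff_coprime.2 ((Nat.coprime_primes hq hq').2 hne)
  obtain ⟨a, b, hab⟩ := hcop
  apply hP.ne_top
  rw [Ideal.eq_top_iff_one]
  have h1 : ((a * (q : ℤ) + b * (q' : ℤ) : ℤ) : 𝓞 F) ∈ P := by
    rw [Int.cast_add, Int.cast_mul, Int.cast_mul]
    exact P.add_mem (P.mul_mem_left _ h) (P.mul_mem_left _ h')
  rw [hab, Int.cast_one] at h1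
  exact h1

end Fermat.Agent.ES.T56.PrimeBelow22
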