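/-
Programme T (S56, Taylor–Wiles primes), chapter GW-D (base case), brick K5 (places), helper22,
part 7: **the primes of `L` above `q` are `G_L \ G_ℚ / D_q`**, `Δ`-equivariantly.

For `D : BaseDatum Sg` (`K ≤ L`, `Δ = Gal(L/K)`, `π : G_K ↠ Δ` of `BaseDict28`), `q` a prime,
`A_q = primeLocalPlace q`, `D_q = (primeLocalToGlobal q).range` (`= ` the decomposition group of `A_q`,
helper16's `LocSurj16.range_eq_primes`):

* `plFin D q g : HeightOneSpectrum (𝓞 L)`, the prime `𝔪_{g • A_q} ∩ 𝓞 L` (`mem_plFin_iff`,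
  `natCast_mem_plFin`);
* the orbit-map properties (`OrbitMap22`): `plFin_smul` (`plFin (s g) = smulH (π s) (plFin g)`),
  `plFin_mul_mem` (`plFin (g h) = plFin g`, `h ∈ D_q`), `exists_plFin_eq` (every prime of `𝓞 L`
  containing `q` occurs), `plFin_fiber` (`plFin q g = plFin q' g' → q = q'` and `g' = s g h`,
  `π s = 1`, `h ∈ D_q`).
-/
import Mathlib
import Fermat.Agent.PT.GLOB.SUnitsGalois24
import Fermat.Agent.PT.BR.UnramBridge13
import Fermat.Agent.ES.T56.GWIface21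
import Fermat.Agent.ES.T56.BaseDict28
import Fermat.Agent.ES.T56.LocSurj16
import Fermat.Agent.ES.T56.PlacesConj16
import Fermat.Agent.ES.T56.PrimeBelow22
import Fermat.Agent.ES.T56.GLTrans22
import Fermat.Agent.ES.T56.InfPlaceOrbit22

set_option autoImplicit false
set_option linter.style.haveILetI false

open NumberField IsDedekindDomain ExtCitation
open scoped Pointwise

namespace Fermat.Agent.ES.T56.FinPlaceOrbit22

open Fermat.Agent.ES.T56.GWIface21 Fermat.Agent.ES.T56.BaseDict28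
  Fermat.Agent.ES.T56.PrimeBelow22 Fermat.Agent.ES.T56.GLTrans22
  Fermat.Agent.ES.T56.InfPlaceOrbit22
  Fermat.Agent.PT.BR.UnramBridge13 Fermat.Agent.PT.GLOB.SUnitsGalois24

local notation "Qbar" => AlgebraicClosure ℚ

variable {p : ℕ} [Fact p.Prime] {Sg : Finset Nat.Primes} (D : BaseDatum (p := p) Sg)

/-- The prime `𝔪_{g • A_q} ∩ 𝓞 L` of `L`. -/
noncomputable def plFin (q : Nat.Primes) (g : GQ) : HeightOneSpectrum (𝓞 ↥(LK D)) :=
  heightOneBelow ↥(LK D) (g • primeLocalPlace q) q.2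
    (liesOverPrime_smul g (PlacesConj16.primeLocalPlace_liesOver q))

theorem mem_plFin_iff (q : Nat.Primes) (g : GQ) (x : 𝓞 ↥(LK D)) :
    x ∈ (plFin D q g).asIdeal ↔ g⁻¹ (((x : ↥(LK D)) : Qbar)) ∈ (primeLocalPlace q).nonunits := by
  unfold plFin
  rw [heightOneBelow_asIdeal, mem_primeBelowG_iff, mem_smul_nonunits_iff]
  rfl

theorem natCast_mem_plFin (q : Nat.Primes) (g : GQ) :
    (((q : ℕ) : ℤ) : 𝓞 ↥(LK D)) ∈ (plFin D q g).asIdeal := by
  unfold plFin
  rw [heightOneBelow_asIdeal, natCast_mem_primeBelowG_iff]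
  exact liesOverPrime_smul g (PlacesConj16.primeLocalPlace_liesOver q)

/-- Right invariance under the decomposition group. -/
theorem plFin_mul_mem (q : Nat.Primes) (g h : GQ) (hh : h ∈ (primeLocalToGlobal q).range) :
    plFin D q (g * h) = plFin D q g := by
  rw [LocSurj16.range_eq_primes] at hh
  have h1 : h • primeLocalPlace q = primeLocalPlace q := hh
  apply HeightOneSpectrum.ext
  ext x
  rw [mem_plFin_iff, mem_plFin_iff, mul_inv_rev, AlgEquiv.mul_apply,
    ← mem_smul_nonunits_iff h, h1]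

section Galois

variable [NumberField ↥D.K] [NumberField ↥(LK D)] [IsGalois ↥D.K ↥(LK D)]

/-- Equivariance. -/
theorem plFin_smul (q : Nat.Primes) (s : ↥D.K.fixingSubgroup) (g : GQ) :
    plFin D q ((s : GQ) * g) = smulH ↥D.K ↥(LK D) (π D s) (plFin D q g) := by
  apply HeightOneSpectrum.ext
  ext x
  rw [smulH_asIdeal, Ideal.mem_pointwise_smul_iff_inv_smul_mem, mem_plFin_iff, mem_plFin_iff,
    mul_inv_rev, AlgEquiv.mul_apply]
  have h : ((((π D s)⁻¹ • x : 𝓞 ↥(LK D)) : ↥(LK D)) : Qbar) =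
      (s : GQ)⁻¹ (((x : ↥(LK D)) : Qbar)) := by
    have h1 : (((π D s)⁻¹ • x : 𝓞 ↥(LK D)) : ↥(LK D)) = (π D s)⁻¹ (x : ↥(LK D)) := rfl
    rw [h1]
    exact π_symm_apply D s (x : ↥(LK D))
  rw [h]

end Galois

/-- Every prime of `𝓞 L` containing `q` occurs. -/
theorem exists_plFin_eq [NumberField ↥(LK D)] (q : Nat.Primes) (w : HeightOneSpectrum (𝓞 ↥(LK D)))
    (hw : (((q : ℕ) : ℤ) : 𝓞 ↥(LK D)) ∈ w.asIdeal) : ∃ g : GQ, plFin D q g = w := by
  haveI := w.isPrime
  obtain ⟨A, hA⟩ := exists_primeBelowG_eq ↥(LK D) w.asIdeal w.ne_bot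
  have hAq : A.LiesOverPrime (q : ℕ) := by
    rw [← natCast_mem_primeBelowG_iff ↥(LK D), hA]
    exact hw
  obtain ⟨g, rfl⟩ := PlacesConj16.placesConj_primes q A hAq
  exact ⟨g, HeightOneSpectrum.ext hA⟩

/-- The fibres of the maps `plFin`. -/
theorem plFin_fiber (q q' : Nat.Primes) (g g' : GQ) (h : plFin D q g = plFin D q' g') :
    q = q' ∧ ∃ s : ↥D.K.fixingSubgroup, π D s = 1 ∧
      ∃ h ∈ (primeLocalToGlobal q).range, g' = (s : GQ) * g * h := by
  have hqq : q = q' := by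
    apply Subtype.ext
    refine eq_of_natCast_mem ↥(LK D) (plFin D q g).isPrime q.2 q'.2 (natCast_mem_plFin D q g) ?_
    rw [h]
    exact natCast_mem_plFin D q' g'
  subst hqq
  refine ⟨rfl, ?_⟩
  have hA := liesOverPrime_smul g (PlacesConj16.primeLocalPlace_liesOver q)
  have hA' := liesOverPrime_smul g' (PlacesConj16.primeLocalPlace_liesOver q)
  obtain ⟨s, hs, hs'⟩ := exists_fixing_smul_eq D.L q.2 hA hA' (fun x hx hxi => by
    have hxi' : IsIntegral ℤ (⟨x, (mem_LK D).2 hx⟩ : ↥(LK D)) :=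
      (isIntegral_algebraMap_iff (algebraMap ↥(LK D) Qbar).injective).mp hxi
    let x' : 𝓞 ↥(LK D) := ⟨⟨x, (mem_LK D).2 hx⟩, hxi'⟩
    have h1 : x' ∈ (plFin D q g).asIdeal ↔ x' ∈ (plFin D q g').asIdeal := by rw [h]
    rw [mem_plFin_iff, mem_plFin_iff, ← mem_smul_nonunits_iff, ← mem_smul_nonunits_iff] at h1
    exact h1)
  have hmem : (s * g)⁻¹ * g' ∈ (primeLocalToGlobal q).range := by
    rw [LocSurj16.range_eq_primes]
    show ((s * g)⁻¹ * g') • primeLocalPlace q = primeLocalPlace q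
    rw [mul_smul, hs', ← mul_smul, ← mul_smul, mul_assoc, inv_mul_cancel, one_smul]
  refine ⟨⟨s, mem_fixingSubgroup_K_of_L D hs⟩, (π_eq_one_iff D _).2 hs, _, hmem, ?_⟩
  show g' = s * g * ((s * g)⁻¹ * g')
  rw [mul_inv_cancel_left]

end Fermat.Agent.ES.T56.FinPlaceOrbit22
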