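/-
Programme T (S56, Taylor–Wiles primes), chapter GW (Greenberg–Wiles), brick 7 `BaseShapiro`
(helper22), part B3d: **complex conjugation, the dual and short exact sequences** (`p` odd).

* `cycloChar_complexConjugation : (cycloChar p c : ZMod p) = -1`;
* `dualT_rho_conj : (dualT p X).ρ c f = -(f ∘ₗ X.ρ c)`;
* **`h0c_dualT`** (`X` finite dimensional): `h0c p (dualT p X) = dim ker (X.ρ c + 1)`;
* **`h0c_add_h0c_dualT (hp2 : p ≠ 2)`**: `h0c p X + h0c p (dualT p X) = dim X`;
* **`h0c_add_of_shortExact (hp2 : p ≠ 2)`**: `h0c` is additive on short exact sequences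
  (`GWIface21.ShortExact`), and `finrank_add_of_shortExact`.
-/
import Mathlib
import Fermat.Agent.S14.Fields
import Fermat.Agent.ES.J.CycloChar8
import Fermat.Agent.ES.T56.GWIface21
import Fermat.Agent.ES.T56.InvolutionCount22

set_option autoImplicit false

open Module ExtCitation

namespace Fermat.Agent.ES.T56.H0cDual22

open Fermat.Agent.ES.T56.GWIface21 Fermat.Agent.ES.T56.InvolutionCount22
  Fermat.Agent.S14.Fields

variable {p : ℕ} [Fact p.Prime]

variable (p) in
/-- **`χ(c) = -1`** for the mod `p` cyclotomic character. -/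
theorem cycloChar_complexConjugation :
    ((cycloChar p complexConjugation : (ZMod p)ˣ) : ZMod p) = -1 := by
  have hp : p.Prime := Fact.out
  have hp0 : p ≠ 0 := hp.ne_zero
  have hζ := zeta_spec p
  have h1 : complexConjugation (zeta p) = zeta p ^ (p - 1) := by
    rw [Fermat.Agent.ES.J.CycloChar8.complexConjugation_rootOfUnity hp0 hζ.pow_eq_one]
    have hζ0 : zeta p ≠ 0 := hζ.ne_zero hp0
    rw [eq_comm, ← mul_right_inj' hζ0, mul_inv_cancel₀ hζ0, ← pow_succ',
      Nat.sub_add_cancel hp.one_le, hζ.pow_eq_one]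
  rw [apply_zeta] at h1
  have h2 : cycloExp p complexConjugation ≡ p - 1 [MOD p] :=
    Fermat.Agent.ES.J.CycloChar8.modEq_of_pow_eq_pow hζ hp0 h1
  rw [coe_cycloChar, (ZMod.natCast_eq_natCast_iff _ _ _).2 h2, Nat.cast_sub hp.one_le,
    Nat.cast_one, ZMod.natCast_self, zero_sub]

variable (X : Rep.{0} (ZMod p) GQ)

/-- Complex conjugation on the dual: `c • f = -(f ∘ c)`. -/
theorem dualT_rho_conj (f : Module.Dual (ZMod p) X) :
    (dualT p X).ρ complexConjugation f = -(f ∘ₗ X.ρ complexConjugation) := by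
  rw [Rep.dualTwist_ρ_apply, cycloChar_complexConjugation, complexConjugation_inv]
  apply LinearMap.ext
  intro x
  simp

/-- On the dual, `c - 1` is minus the transpose of `c + 1`. -/
theorem dualT_rho_conj_sub_one :
    (dualT p X).ρ complexConjugation - 1 =
      -(Module.Dual.transpose (R := ZMod p) (X.ρ complexConjugation + 1)) := by
  apply LinearMap.ext
  intro f
  rw [LinearMap.sub_apply, Module.End.one_apply, dualT_rho_conj, LinearMap.neg_apply,
    Module.Dual.transpose_apply]
  apply LinearMap.ext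
  intro x
  simp only [LinearMap.sub_apply, LinearMap.neg_apply, LinearMap.comp_apply, LinearMap.add_apply,
    Module.End.one_apply, map_add]
  ring

/-- **`h⁰(⟨c⟩, X*) = dim X^{c = -1}`.** -/
theorem h0c_dualT [FiniteDimensional (ZMod p) X] :
    h0c p (dualT p X) = finrank (ZMod p) ↥(LinearMap.ker (X.ρ complexConjugation + 1)) := by
  unfold h0c
  rw [dualT_rho_conj_sub_one, LinearMap.ker_neg]
  have h1 : LinearMap.ker (Module.Dual.transpose (R := ZMod p) (X.ρ complexConjugation + 1)) =
      (LinearMap.range (X.ρ complexConjugation + 1)).dualAnnihilator :=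
    LinearMap.ker_dualMap_eq_dualAnnihilator_range _
  rw [h1]
  have h2 := Subspace.finrank_add_finrank_dualAnnihilator_eq
    (LinearMap.range (X.ρ complexConjugation + 1))
  have h3 := LinearMap.finrank_range_add_finrank_ker (X.ρ complexConjugation + 1)
  exact Nat.add_left_cancel (h2.trans h3.symm)

theorem rho_conj_rho_conj (x : X) :
    X.ρ complexConjugation (X.ρ complexConjugation x) = x := by
  show (X.ρ complexConjugation * X.ρ complexConjugation) x = x
  rw [← map_mul, complexConjugation_mul_self, map_one]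
  rfl

theorem two_ne_zero_zmod (hp2 : p ≠ 2) : (2 : ZMod p) ≠ 0 := by
  intro h
  have h2 : ((2 : ℕ) : ZMod p) = 0 := by exact_mod_cast h
  rw [ZMod.natCast_eq_zero_iff] at h2
  exact hp2 ((Nat.prime_dvd_prime_iff_eq Fact.out Nat.prime_two).1 h2)

/-- **`h⁰(⟨c⟩, X) + h⁰(⟨c⟩, X*) = dim X`** for `p` odd. -/
theorem h0c_add_h0c_dualT (hp2 : p ≠ 2) [FiniteDimensional (ZMod p) X] :
    h0c p X + h0c p (dualT p X) = finrank (ZMod p) X := by
  rw [h0c_dualT]
  exact finrank_ker_sub_add_ker_add (X.ρ complexConjugation) (rho_conj_rho_conj X)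
    (two_ne_zero_zmod hp2)

/-! ### Short exact sequences -/

section Exact

variable {X' X'' : Rep.{0} (ZMod p) GQ} {X} {φ : X' →ₗ[ZMod p] X} {ψ : X →ₗ[ZMod p] X''}

/-- `dim X = dim X' + dim X''`. -/
theorem finrank_add_of_shortExact [FiniteDimensional (ZMod p) X] (h : ShortExact X' X X'' φ ψ) :
    finrank (ZMod p) X = finrank (ZMod p) X' + finrank (ZMod p) X'' := by
  have h1 := LinearMap.finrank_range_add_finrank_ker ψ
  have h2 : finrank (ZMod p) ↥(LinearMap.range ψ) = finrank (ZMod p) X'' := by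
    rw [LinearMap.range_eq_top.2 h.surj]
    exact finrank_top _ _
  have h3 : finrank (ZMod p) ↥(LinearMap.ker ψ) = finrank (ZMod p) X' := by
    rw [← h.exact]
    exact (LinearEquiv.ofInjective φ h.inj).finrank_eq.symm
  rw [← h1, h2, h3, add_comm]

theorem mem_ker_conj_iff (Z : Rep.{0} (ZMod p) GQ) (z : Z) :
    z ∈ LinearMap.ker (Z.ρ complexConjugation - 1) ↔ Z.ρ complexConjugation z = z := by
  rw [LinearMap.mem_ker, LinearMap.sub_apply, Module.End.one_apply, sub_eq_zero]

/-- **`h⁰(⟨c⟩, ·)` is additive on short exact sequences** (`p` odd). -/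
theorem h0c_add_of_shortExact (hp2 : p ≠ 2) [FiniteDimensional (ZMod p) X]
    (h : ShortExact X' X X'' φ ψ) : h0c p X = h0c p X' + h0c p X'' := by
  have h2 : (2 : ZMod p) ≠ 0 := two_ne_zero_zmod hp2
  -- the restricted maps
  let φ₀ : ↥(LinearMap.ker (X'.ρ complexConjugation - 1)) →ₗ[ZMod p]
      ↥(LinearMap.ker (X.ρ complexConjugation - 1)) :=
    φ.restrict fun x hx => by
      rw [mem_ker_conj_iff] at hx ⊢
      rw [← h.φ_comm, hx]
  let ψ₀ : ↥(LinearMap.ker (X.ρ complexConjugation - 1)) →ₗ[ZMod p]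
      ↥(LinearMap.ker (X''.ρ complexConjugation - 1)) :=
    ψ.restrict fun x hx => by
      rw [mem_ker_conj_iff] at hx ⊢
      rw [← h.ψ_comm, hx]
  have hφ₀ : Function.Injective φ₀ := fun a b hab =>
    Subtype.ext (h.inj (congrArg Subtype.val hab))
  have hψ₀ : Function.Surjective ψ₀ := by
    rintro ⟨x'', hx''⟩
    rw [mem_ker_conj_iff] at hx''
    obtain ⟨x, hx⟩ := h.surj x''
    refine ⟨⟨(2 : ZMod p)⁻¹ • (x + X.ρ complexConjugation x), ?_⟩, ?_⟩
    · rw [mem_ker_conj_iff, map_smul, map_add, rho_conj_rho_conj, add_comm]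
    · apply Subtype.ext
      show ψ ((2 : ZMod p)⁻¹ • (x + X.ρ complexConjugation x)) = x''
      rw [map_smul, map_add, h.ψ_comm, hx, hx'', ← two_smul (ZMod p) x'', smul_smul,
        inv_mul_cancel₀ h2, one_smul]
  have hex : LinearMap.range φ₀ = LinearMap.ker ψ₀ := by
    ext ⟨x, hx⟩
    rw [LinearMap.mem_range, LinearMap.mem_ker]
    constructor
    · rintro ⟨⟨x', hx'⟩, hxx⟩
      apply Subtype.ext
      have h1 : φ x' = x := congrArg Subtype.val hxx
      show ψ x = 0
      rw [← h1]
      have : φ x' ∈ LinearMap.range φ := ⟨x', rfl⟩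
      rw [h.exact] at this
      exact this
    · intro hx0
      have h1 : ψ x = 0 := congrArg Subtype.val hx0
      have h3 : x ∈ LinearMap.range φ := by rw [h.exact]; exact h1
      obtain ⟨x', hx'⟩ := h3
      have hx'c : x' ∈ LinearMap.ker (X'.ρ complexConjugation - 1) := by
        rw [mem_ker_conj_iff] at hx ⊢
        apply h.inj
        rw [h.φ_comm, hx', hx]
      exact ⟨⟨x', hx'c⟩, Subtype.ext hx'⟩
  have h1 := LinearMap.finrank_range_add_finrank_ker ψ₀
  have h3 : finrank (ZMod p) ↥(LinearMap.range ψ₀) =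
      finrank (ZMod p) ↥(LinearMap.ker (X''.ρ complexConjugation - 1)) := by
    rw [LinearMap.range_eq_top.2 hψ₀]
    exact finrank_top _ _
  have h4 : finrank (ZMod p) ↥(LinearMap.ker ψ₀) =
      finrank (ZMod p) ↥(LinearMap.ker (X'.ρ complexConjugation - 1)) := by
    rw [← hex]
    exact (LinearEquiv.ofInjective φ₀ hφ₀).finrank_eq.symm
  unfold h0c
  rw [← h1, h3, h4, add_comm]

end Exact

end Fermat.Agent.ES.T56.H0cDual22
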