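/-
Programme T (S56, Taylor–Wiles primes), chapter GW-D (base case), brick K5 (places), helper22,
part 3: **Mackey for the invariants of a coinduced module, in orbit-map form**.

`S ≤ G`, `Y : Rep k ↥S`, `X = Rep.coind S.subtype Y` (functions `f : G → Y`, `f (s g) = s • f g`, right
translation), `H i ≤ G` a family of subgroups.  Suppose the action of `S` on `Y` factors through a
quotient `π : S ↠ Δ` (`σ (π s) = Y.ρ s`) and `pl i : G → Ω` is a family of *orbit maps* to a `Δ`-set:
`pl i (s g) = π s • pl i g`, `pl i (g h) = pl i g` (`h ∈ H i`), jointly onto, and `pl i g = pl j g'` only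
if `i = j` and `g' = s g h` with `π s = 1`, `h ∈ H i` (`Ω = ⊔_i ker π \ G / H i`).  Then

  **`orbitEquiv : Map_Δ(Ω, Y) ≃ₗ Π_i X^{H i}`**,  `F ↦ (F ∘ pl i)_i`,   and `finrank_eqFun_eq_sum`.

* `fixedBySub X H` : the `H`-fixed vectors of a representation;
* `invResEquiv` : `(Rep.res φ X).ρ.invariants ≃ₗ fixedBySub X φ.range`;
* `fixedBySub_zpowers` : `fixedBySub X (zpowers c) = ker (X.ρ c − 1)`.
-/
import Mathlib
import Fermat.Agent.ES.T56.EqFun22

set_option autoImplicit false

universe u v w

open Module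

namespace Fermat.Agent.ES.T56.OrbitMap22

open Fermat.Agent.ES.T56.EqFun22

section Fixed

variable {k : Type u} {G : Type v} [CommRing k] [Group G]

/-- The vectors of a representation fixed by a subgroup. -/
def fixedBySub (X : Rep.{w} k G) (H : Subgroup G) : Submodule k X where
  carrier := {x | ∀ h ∈ H, X.ρ h x = x}
  add_mem' := by
    intro x y hx hy h hh
    rw [map_add, hx h hh, hy h hh]
  zero_mem' := by
    intro h _
    rw [map_zero]
  smul_mem' := by
    intro c x hx h hh
    rw [map_smul, hx h hh]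

theorem mem_fixedBySub {X : Rep.{w} k G} {H : Subgroup G} {x : X} :
    x ∈ fixedBySub X H ↔ ∀ h ∈ H, X.ρ h x = x := Iff.rfl

/-- The invariants of the restriction along `φ` are the vectors fixed by the range of `φ`. -/
theorem mem_invariants_res_iff {Γ : Type v} [Group Γ] (φ : Γ →* G) (X : Rep.{w} k G) (x : X) :
    (∀ γ : Γ, X.ρ (φ γ) x = x) ↔ x ∈ fixedBySub X φ.range := by
  rw [mem_fixedBySub]
  constructor
  · rintro h _ ⟨γ, rfl⟩
    exact h γ
  · intro h γ
    exact h _ ⟨γ, rfl⟩

/-- The invariants of the restriction along `φ`, as the vectors fixed by the range of `φ`. -/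
def invResEquiv {Γ : Type v} [Group Γ] (φ : Γ →* G) (X : Rep.{w} k G) :
    ↥((Rep.res φ X).ρ.invariants) ≃ₗ[k] ↥(fixedBySub X φ.range) where
  toFun x := ⟨x.1, (mem_invariants_res_iff φ X x.1).1 (fun γ => x.2 γ)⟩
  invFun x := ⟨x.1, fun γ => (mem_invariants_res_iff φ X x.1).2 x.2 γ⟩
  map_add' _ _ := rfl
  map_smul' _ _ := rfl
  left_inv _ := rfl
  right_inv _ := rfl

/-- The vectors fixed by the cyclic group generated by `c` are the kernel of `X.ρ c − 1`. -/
theorem fixedBySub_zpowers (X : Rep.{w} k G) (c : G) :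
    fixedBySub X (Subgroup.zpowers c) = LinearMap.ker (X.ρ c - 1) := by
  ext x
  rw [mem_fixedBySub, LinearMap.mem_ker, LinearMap.sub_apply, Module.End.one_apply, sub_eq_zero]
  constructor
  · intro h
    exact h c (Subgroup.mem_zpowers c)
  · intro h g hg
    let T : Subgroup G :=
      { carrier := {g | X.ρ g x = x}
        mul_mem' := by
          intro a b ha hb
          show X.ρ (a * b) x = x
          rw [map_mul, Module.End.mul_apply, hb, ha]
        one_mem' := by
          show X.ρ 1 x = x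
          rw [map_one, Module.End.one_apply]
        inv_mem' := by
          intro a ha
          show X.ρ a⁻¹ x = x
          have h1 : X.ρ a⁻¹ (X.ρ a x) = x := by
            rw [← Module.End.mul_apply, ← map_mul, inv_mul_cancel, map_one, Module.End.one_apply]
          rw [ha] at h1
          exact h1 }
    exact (Subgroup.zpowers_le.2 (show c ∈ T from h)) hg

end Fixed

section Orbit

variable {k : Type u} {G : Type v} [CommRing k] [Group G] (S : Subgroup G) (Y : Rep.{w} k ↥S)
  {Δ : Type*} [Group Δ] (π : ↥S →* Δ) (hπ : Function.Surjective π)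
  (σ : Representation k Δ Y) (hσ : ∀ s, σ (π s) = Y.ρ s)
  {Ω : Type*} [MulAction Δ Ω] {I : Type*} (H : I → Subgroup G) (pl : I → G → Ω)
  (h1 : ∀ (i : I) (s : ↥S) (g : G), pl i ((s : G) * g) = π s • pl i g)
  (h2 : ∀ (i : I) (g h : G), h ∈ H i → pl i (g * h) = pl i g)
  (h3 : ∀ x : Ω, ∃ (i : I) (g : G), pl i g = x)
  (h4 : ∀ (i j : I) (g g' : G), pl i g = pl j g' →
    i = j ∧ ∃ s : ↥S, π s = 1 ∧ ∃ h ∈ H i, g' = (s : G) * g * h)

omit [MulAction Δ Ω] in
include hσ h4 in
/-- A family of `H i`-fixed elements of the coinduced module is constant on the fibres of a family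
of orbit maps. -/
theorem fixed_const (P : ∀ i, ↥(fixedBySub (Rep.coind S.subtype Y) (H i)))
    {i j : I} {g g' : G} (hg : pl i g = pl j g') : (P j).1.1 g' = (P i).1.1 g := by
  obtain ⟨hij, s, hs, h, hh, rfl⟩ := h4 i j g g' hg
  subst hij
  have e1 : (P i).1.1 ((s : G) * g * h) =
      ((Rep.coind S.subtype Y).ρ h (P i).1).1 ((s : G) * g) := rfl
  rw [e1, (P i).2 h hh]
  have e2 : (P i).1.1 ((s : G) * g) = Y.ρ s ((P i).1.1 g) := (P i).1.2 s g
  rw [e2, ← hσ, hs, map_one]
  rfl

/-- `F ↦ F ∘ pl i`. -/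
def toFixed (F : ↥(EqFun σ Ω)) (i : I) : ↥(fixedBySub (Rep.coind S.subtype Y) (H i)) :=
  ⟨⟨fun g => F.1 (pl i g), fun s g => by
      show F.1 (pl i ((s : G) * g)) = Y.ρ s (F.1 (pl i g))
      rw [h1, F.2, hσ]⟩,
    fun h hh => by
      apply Subtype.ext
      funext g
      show F.1 (pl i (g * h)) = F.1 (pl i g)
      rw [h2 i g h hh]⟩

/-- **Mackey, orbit-map form**: `Map_Δ(Ω, Y) ≃ Π_i (Coind_S^G Y)^{H i}` for a family of orbit maps
`pl i : G → Ω` (`Ω = ⊔_i ker π \ G / H i`). -/
noncomputable def orbitEquiv :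
    ↥(EqFun σ Ω) ≃ₗ[k] (∀ i, ↥(fixedBySub (Rep.coind S.subtype Y) (H i))) where
  toFun F i := toFixed S Y π σ hσ H pl h1 h2 F i
  invFun P := ⟨fun x => (P (Classical.choose (h3 x))).1.1
      (Classical.choose (Classical.choose_spec (h3 x))), fun δ x => by
    obtain ⟨s, rfl⟩ := hπ δ
    have hx := Classical.choose_spec (Classical.choose_spec (h3 x))
    have hsx := Classical.choose_spec (Classical.choose_spec (h3 (π s • x)))
    have e : pl (Classical.choose (h3 x))
        ((s : G) * Classical.choose (Classical.choose_spec (h3 x))) =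
        pl (Classical.choose (h3 (π s • x)))
          (Classical.choose (Classical.choose_spec (h3 (π s • x)))) := by
      rw [h1, hx, hsx]
    show (P (Classical.choose (h3 (π s • x)))).1.1
        (Classical.choose (Classical.choose_spec (h3 (π s • x)))) =
      σ (π s) ((P (Classical.choose (h3 x))).1.1
        (Classical.choose (Classical.choose_spec (h3 x))))
    rw [fixed_const S Y π σ hσ H pl h4 P e, hσ]
    exact (P _).1.2 s _⟩
  map_add' _ _ := rfl
  map_smul' _ _ := rfl
  left_inv F := by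
    apply Subtype.ext
    funext x
    show F.1 (pl (Classical.choose (h3 x)) (Classical.choose (Classical.choose_spec (h3 x)))) =
      F.1 x
    rw [Classical.choose_spec (Classical.choose_spec (h3 x))]
  right_inv P := by
    funext i
    apply Subtype.ext
    apply Subtype.ext
    funext g
    show (P (Classical.choose (h3 (pl i g)))).1.1
      (Classical.choose (Classical.choose_spec (h3 (pl i g)))) = (P i).1.1 g
    exact fixed_const S Y π σ hσ H pl h4 P
      (Classical.choose_spec (Classical.choose_spec (h3 (pl i g)))).symm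

end Orbit

section Count

variable {k : Type u} {G : Type v} [Field k] [Group G] (S : Subgroup G) (Y : Rep.{w} k ↥S)
  [FiniteDimensional k (Rep.coind S.subtype Y)]
  {Δ : Type*} [Group Δ] (π : ↥S →* Δ) (hπ : Function.Surjective π)
  (σ : Representation k Δ Y) (hσ : ∀ s, σ (π s) = Y.ρ s)
  {Ω : Type*} [MulAction Δ Ω] {I : Type*} [Fintype I] (H : I → Subgroup G) (pl : I → G → Ω)
  (h1 : ∀ (i : I) (s : ↥S) (g : G), pl i ((s : G) * g) = π s • pl i g)
  (h2 : ∀ (i : I) (g h : G), h ∈ H i → pl i (g * h) = pl i g)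
  (h3 : ∀ x : Ω, ∃ (i : I) (g : G), pl i g = x)
  (h4 : ∀ (i j : I) (g g' : G), pl i g = pl j g' →
    i = j ∧ ∃ s : ↥S, π s = 1 ∧ ∃ h ∈ H i, g' = (s : G) * g * h)

include hπ hσ h1 h2 h3 h4 in
/-- `dim Map_Δ(Ω, Y) = Σ_i dim (Coind_S^G Y)^{H i}`. -/
theorem finrank_eqFun_eq_sum :
    finrank k ↥(EqFun σ Ω) =
      ∑ i, finrank k ↥(fixedBySub (Rep.coind S.subtype Y) (H i)) := by
  rw [(orbitEquiv S Y π hπ σ hσ H pl h1 h2 h3 h4).finrank_eq, Module.finrank_pi_fintype]

end Count

end Fermat.Agent.ES.T56.OrbitMap22
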