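/-
Programme T (S56, Taylor–Wiles primes), chapter GW-D (base case), brick K5 (places), helper22,
part 8: **the places count** (`T56_BASE28.md` (K5), third and fourth formula).

For `D : BaseDatum Sg`, `K = ↥D.K`, `L = ↥(LK D)`, `Δ = Gal(L/K)`, `T_K = primesOverT Sg K` (main's
`UnitsBridge24`), `PlaceSet K L T_K = S_L ⊔ S_∞(L)` (helper13's `SUnitRep13`):

* `plFam D`, `Hfam` : the family of orbit maps `G_ℚ → PlaceSet` (index `Sg ⊕ Unit`:
  `g ↦ 𝔪_{g A_q} ∩ 𝓞 L` with `H = D_q`, and `g ↦` the place of `ι ∘ g⁻¹|_L` with `H = ⟨c⟩`);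
* `finrank_eqFun_placeSet` : for ANY `Y : Rep (ZMod p) G_K` whose action factors through `Δ`
  (`σ (π s) = Y.ρ s`), `X = Coind_{G_K}^{G_ℚ} Y`:
  `dim Map_Δ(PlaceSet, Y) = Σ_{q ∈ Sg} h⁰(G_q, X) + h⁰(⟨c⟩, X)`;
* **`twNum_placeSet`** : `twNum (permRep (ZMod p) PlaceSet) (ω D) (ρΔ D) =
    Σ_{q ∈ Sg} h0loc p q (dualT p D.rep) + (finrank D.rep − h0c p D.rep)`   (`p` odd).
-/
import Mathlib
import Fermat.Agent.PT.GLOB.UnitsBridge24
import Fermat.Agent.ES.T56.GWIface21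
import Fermat.Agent.ES.T56.BaseDict28
import Fermat.Agent.ES.T56.SUnitRep13
import Fermat.Agent.ES.T56.TwistNum28
import Fermat.Agent.ES.T56.PermChar28
import Fermat.Agent.ES.T56.EqFun22
import Fermat.Agent.ES.T56.TwistPermFun22
import Fermat.Agent.ES.T56.OrbitMap22
import Fermat.Agent.ES.T56.InfPlaceOrbit22
import Fermat.Agent.ES.T56.FinPlaceOrbit22
import Fermat.Agent.ES.T56.CoindMackey22
import Fermat.Agent.ES.T56.BaseDual22
import Fermat.Agent.ES.T56.GWNumIso22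
import Fermat.Agent.ES.T56.H0cDual22
import Fermat.Agent.ES.T56.BaseH0Dict22

set_option autoImplicit false
set_option linter.style.haveILetI false
set_option linter.unusedSectionVars false

open NumberField IsDedekindDomain ExtCitation Module

namespace Fermat.Agent.ES.T56.PlacesCount22

open Fermat.Agent.ES.T56.GWIface21 Fermat.Agent.ES.T56.BaseDict28
  Fermat.Agent.ES.T56.SUnitRep13 Fermat.Agent.ES.T56.TwistNum28 Fermat.Agent.ES.T56.PermChar28
  Fermat.Agent.ES.T56.EqFun22 Fermat.Agent.ES.T56.TwistPermFun22 Fermat.Agent.ES.T56.OrbitMap22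
  Fermat.Agent.ES.T56.InfPlaceOrbit22 Fermat.Agent.ES.T56.FinPlaceOrbit22
  Fermat.Agent.PT.GLOB.UnitsBridge24 Fermat.Agent.PT.GLOB.PrimesAbove24
  Fermat.Agent.ES.T56.BaseH0Dict22

variable {p : ℕ} [Fact p.Prime] {Sg : Finset Nat.Primes} (D : BaseDatum (p := p) Sg)
  [NumberField ↥D.K] [NumberField ↥(LK D)] [IsGalois ↥D.K ↥(LK D)]

/-- The subgroups `D_q` (`q ∈ Sg`) and `⟨c⟩`. -/
noncomputable def Hfam : ↥Sg ⊕ Unit → Subgroup GQ
  | Sum.inl q => (primeLocalToGlobal q.1).range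
  | Sum.inr _ => Subgroup.zpowers complexConjugation

theorem plFin_mem_above (q : ↥Sg) (g : GQ) :
    plFin D q.1 g ∈ above (𝓞 ↥D.K) (𝓞 ↥(LK D)) (primesOverT Sg ↥D.K) := by
  rw [above_primesOverT, mem_primesOverT]
  exact ⟨q.1, q.2, natCast_mem_plFin D q.1 g⟩

/-- The orbit maps `G_ℚ → S_L ⊔ S_∞(L)`. -/
noncomputable def plFam : ↥Sg ⊕ Unit → GQ → PlaceSet ↥D.K ↥(LK D) (primesOverT Sg ↥D.K)
  | Sum.inl q => fun g => PlaceSet.fin ⟨plFin D q.1 g, plFin_mem_above D q g⟩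
  | Sum.inr _ => fun g => PlaceSet.inf (plInf D g)

theorem plFam_smul (i : ↥Sg ⊕ Unit) (s : ↥D.K.fixingSubgroup) (g : GQ) :
    plFam D i ((s : GQ) * g) = π D s • plFam D i g := by
  cases i with
  | inl q =>
    show PlaceSet.fin _ = π D s • PlaceSet.fin _
    rw [smul_fin]
    exact congrArg PlaceSet.fin (Subtype.ext (plFin_smul D q.1 s g))
  | inr u =>
    show PlaceSet.inf _ = π D s • PlaceSet.inf _
    rw [smul_inf]
    exact congrArg PlaceSet.inf (plInf_smul D s g)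

theorem plFam_mul_mem (i : ↥Sg ⊕ Unit) (g h : GQ) (hh : h ∈ Hfam (Sg := Sg) i) :
    plFam D i (g * h) = plFam D i g := by
  cases i with
  | inl q => exact congrArg PlaceSet.fin (Subtype.ext (plFin_mul_mem D q.1 g h hh))
  | inr u => exact congrArg PlaceSet.inf (plInf_mul_mem D g h hh)

theorem plFam_surjective (x : PlaceSet ↥D.K ↥(LK D) (primesOverT Sg ↥D.K)) :
    ∃ (i : ↥Sg ⊕ Unit) (g : GQ), plFam D i g = x := by
  cases x with
  | fin w =>
    have hw : w.1 ∈ primesOverT Sg ↥(LK D) := by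
      rw [← above_primesOverT Sg ↥(LK D) ↥D.K]
      exact w.2
    rw [mem_primesOverT] at hw
    obtain ⟨q, hq, hqw⟩ := hw
    obtain ⟨g, hg⟩ := exists_plFin_eq D q w.1 hqw
    exact ⟨Sum.inl ⟨q, hq⟩, g, congrArg PlaceSet.fin (Subtype.ext hg)⟩
  | inf w =>
    obtain ⟨g, hg⟩ := plInf_surjective D w
    exact ⟨Sum.inr (), g, congrArg PlaceSet.inf hg⟩

theorem plFam_fiber (i j : ↥Sg ⊕ Unit) (g g' : GQ) (h : plFam D i g = plFam D j g') :
    i = j ∧ ∃ s : ↥D.K.fixingSubgroup, π D s = 1 ∧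
      ∃ h ∈ Hfam (Sg := Sg) i, g' = (s : GQ) * g * h := by
  cases i with
  | inl q =>
    cases j with
    | inl q' =>
      have h1 : plFin D q.1 g = plFin D q'.1 g' :=
        congrArg Subtype.val (PlaceSet.fin.inj h)
      obtain ⟨hq, hs⟩ := plFin_fiber D q.1 q'.1 g g' h1
      exact ⟨congrArg Sum.inl (Subtype.ext hq), hs⟩
    | inr u =>
      have h' : (PlaceSet.fin ⟨plFin D q.1 g, plFin_mem_above D q g⟩ :
          PlaceSet ↥D.K ↥(LK D) (primesOverT Sg ↥D.K)) = PlaceSet.inf (plInf D g') := h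
      cases h'
  | inr u =>
    cases j with
    | inl q' =>
      have h' : (PlaceSet.inf (plInf D g) : PlaceSet ↥D.K ↥(LK D) (primesOverT Sg ↥D.K)) =
          PlaceSet.fin ⟨plFin D q'.1 g', plFin_mem_above D q' g'⟩ := h
      cases h'
    | inr u' =>
      have h1 : plInf D g = plInf D g' := PlaceSet.inf.inj h
      exact ⟨rfl, plInf_fiber D g g' h1⟩

section Count

variable (Y : Rep.{0} (ZMod p) ↥D.K.fixingSubgroup)
  [FiniteDimensional (ZMod p) (Rep.coind D.K.fixingSubgroup.subtype Y)]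
  (σ : Representation (ZMod p) (Δ D) Y) (hσ : ∀ s, σ (π D s) = Y.ρ s)

include hσ in
/-- **`dim Map_Δ(S_L ⊔ S_∞(L), Y) = Σ_{q ∈ Sg} h⁰(G_q, X) + h⁰(⟨c⟩, X)`**, `X = Coind Y`. -/
theorem finrank_eqFun_placeSet :
    finrank (ZMod p) ↥(EqFun σ (PlaceSet ↥D.K ↥(LK D) (primesOverT Sg ↥D.K))) =
      ∑ q : ↥Sg, h0loc p q.1 (Rep.coind D.K.fixingSubgroup.subtype Y) +
        h0c p (Rep.coind D.K.fixingSubgroup.subtype Y) := by
  rw [finrank_eqFun_eq_sum D.K.fixingSubgroup Y (π D) (π_surjective D) σ hσ (Hfam (Sg := Sg))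
    (plFam D) (plFam_smul D) (plFam_mul_mem D) (plFam_surjective D) (plFam_fiber D),
    Fintype.sum_sum_type]
  congr 1
  · refine Finset.sum_congr rfl fun q _ => ?_
    exact (invResEquiv (primeLocalToGlobal q.1)
      (Rep.coind D.K.fixingSubgroup.subtype Y)).finrank_eq.symm
  · rw [Finset.univ_unique, Finset.sum_singleton]
    show finrank (ZMod p) ↥(fixedBySub (Rep.coind D.K.fixingSubgroup.subtype Y)
      (Subgroup.zpowers complexConjugation)) = _
    rw [fixedBySub_zpowers]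
    rfl

end Count

/-- **(K5), places**: `⟨𝔽_p[S_L ⊔ S_∞(L)]⟩ = Σ_{q ∈ Sg} h⁰(G_q, X*) + (dim X − h⁰(⟨c⟩, X))`. -/
theorem twNum_placeSet (hp2 : p ≠ 2) :
    twNum (permRep (ZMod p) (PlaceSet ↥D.K ↥(LK D) (primesOverT Sg ↥D.K))) (ω D) (ρΔ D) =
      ∑ q : ↥Sg, h0loc p q.1 (dualT p D.rep) + (finrank (ZMod p) D.rep - h0c p D.rep) := by
  classical
  letI : Fintype (PlaceSet ↥D.K ↥(LK D) (primesOverT Sg ↥D.K)) := Fintype.ofFinite _
  haveI : FiniteDimensional (ZMod p) (Rep.coind D.K.fixingSubgroup.subtype (Ydual D)) :=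
    CoindMackey22.finiteDimensional_rep (BaseDual22.dualDatum D)
  rw [twNum_permRep, finrank_eqFun_placeSet D (Ydual D) (dualTw (ω D) (ρΔ D)) (dualTw_π D)]
  have h1 : ∀ q : ↥Sg, h0loc p q.1 (Rep.coind D.K.fixingSubgroup.subtype (Ydual D)) =
      h0loc p q.1 (dualT p D.rep) := fun q =>
    (GWNumIso22.h0loc_congr (BaseDual22.dualRepEquiv D)
      (BaseDual22.dualRepEquiv_equivariant D) q.1).symm
  have h2 : h0c p (Rep.coind D.K.fixingSubgroup.subtype (Ydual D)) = h0c p (dualT p D.rep) :=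
    (GWNumIso22.h0c_congr (BaseDual22.dualRepEquiv D)
      (BaseDual22.dualRepEquiv_equivariant D)).symm
  haveI := CoindMackey22.finiteDimensional_rep D
  have h3 := H0cDual22.h0c_add_h0c_dualT (X := D.rep) hp2
  rw [Finset.sum_congr rfl (fun q _ => h1 q), h2]
  omega

end Fermat.Agent.ES.T56.PlacesCount22
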