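/-
Programme T (S56, Taylor–Wiles primes), chapter GW-D (base case), brick K5 (places), helper22,
part 10: **(K5), first and second formula, in twist numbers** (with helper13's (T2), `TwPerm13`).

For `D : BaseDatum Sg`:

* **`twNum_omegaRep_base : twNum (omegaRep (ω D)) (ω D) (ρΔ D) = h0 p D.rep`**   (`⟨μ_p⟩ = h⁰(X)`);
* **`twNum_trivial_base : twNum (Representation.trivial (ZMod p) (Δ D) (ZMod p)) (ω D) (ρΔ D) =
    h0 p (dualT p D.rep)`**   (`⟨𝔽_p⟩ = h⁰(X*)`).
-/
import Mathlib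
import Fermat.Agent.ES.T56.GWIface21
import Fermat.Agent.ES.T56.BaseDict28
import Fermat.Agent.ES.T56.TwistNum28
import Fermat.Agent.ES.T56.TwPerm13
import Fermat.Agent.ES.T56.TwistPermFun22
import Fermat.Agent.ES.T56.BaseH0Dict22

set_option autoImplicit false

open Module ExtCitation

namespace Fermat.Agent.ES.T56.PlacesH0Tw22

open Fermat.Agent.ES.T56.GWIface21 Fermat.Agent.ES.T56.BaseDict28
  Fermat.Agent.ES.T56.TwistNum28 Fermat.Agent.ES.T56.TwExact13 Fermat.Agent.ES.T56.TwPerm13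
  Fermat.Agent.ES.T56.TwistPermFun22 Fermat.Agent.ES.T56.BaseH0Dict22

variable {p : ℕ} [Fact p.Prime] {Sg : Finset Nat.Primes} (D : BaseDatum (p := p) Sg)

/-- helper13's `twDual` and `dualTw` have the same invariants. -/
theorem invariants_twDual_eq {Δ : Type*} [Group Δ] {Y : Type*} [AddCommGroup Y]
    [Module (ZMod p) Y] (ω : Δ →* (ZMod p)ˣ) (ρ : Representation (ZMod p) Δ Y) :
    (twDual ω ρ).invariants = (dualTw ω ρ).invariants := by
  ext l
  rw [mem_invariants_twDual, mem_invariants_dualTw_iff]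

/-- **(K5)** `⟨μ_p⟩ = h⁰(G_ℚ, X)`. -/
theorem twNum_omegaRep_base : twNum (omegaRep (ω D)) (ω D) (ρΔ D) = h0 p D.rep := by
  have := finite_Δ D
  have := D.fd
  rw [twNum_omegaRep (not_dvd_card_Δ D), h0_rep_eq]

/-- **(K5)** `⟨𝔽_p⟩ = h⁰(G_ℚ, X*)`. -/
theorem twNum_trivial_base :
    twNum (Representation.trivial (ZMod p) (Δ D) (ZMod p)) (ω D) (ρΔ D) =
      h0 p (dualT p D.rep) := by
  rw [twNum_trivial, invariants_twDual_eq, h0_dualT_rep_eq]

end Fermat.Agent.ES.T56.PlacesH0Tw22
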