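/-
Programme T (S56), chapter GW-D, bricks (K2)/(K6) of `T56_BASE28.md` (helper23): **finiteness of the
cokernel model of `Cl_T(F)`.**

* `fracDiv T F : DivT T F →* (FractionalIdeal (𝓞 F)⁰ F)ˣ`, `gen P ↦ P` (`coe_fracDiv_gen`);
  `mk_fracDiv : ClassGroup.mk F (fracDiv T F D) = clsDiv T F D`; `dvF_fracDiv : dvF (fracDiv D) = D`;
* **`exists_divT_of_clsDiv_eq_one`** : a divisor prime to `T` whose ideal class is trivial is the
  divisor `divT T F x` of some `x ∈ Fˣ`;  `ker_clsDiv_le_princ`;
* **`finite_coker : Finite (Additive (DivT T F) ⧸ princ T F)`**;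
* **`finite_twAdd_coker`** : `Module.Finite (ZMod p) ↥(twAdd (cokerRep T k F) ω ρ)` for finite `Y`.
-/
import Mathlib
import Fermat.Agent.ES.T56.ElemArtinCoker23

set_option autoImplicit false
set_option linter.unusedSectionVars false
set_option linter.style.haveILetI false

open NumberField Module IsDedekindDomain
open scoped Pointwise nonZeroDivisors

namespace Fermat.Agent.ES.T56.ElemArtinFin23

open Fermat.Agent.ES.T56.ElemArtinDiv23 Fermat.Agent.ES.T56.ElemArtinTwist23
  Fermat.Agent.ES.T56.ElemArtinCoker23 Fermat.Agent.ES.T56.TwistNum28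
  Fermat.Agent.PT.GLOB.Interface23 Fermat.Agent.PT.GLOB.ClassAction23

section Generic

variable (T : Finset Nat.Primes) (F : Type) [Field F] [NumberField F]

/-- The prime of a `PrimeAway`, as an invertible fractional ideal. -/
noncomputable def primeUnit (P : PrimeAway T F) : (FractionalIdeal (𝓞 F)⁰ F)ˣ :=
  FractionalIdeal.mk0 F (primeIdeal0 T F P)

theorem coe_primeUnit (P : PrimeAway T F) :
    ((primeUnit T F P : (FractionalIdeal (𝓞 F)⁰ F)ˣ) : FractionalIdeal (𝓞 F)⁰ F) =
      (P.1.asIdeal : FractionalIdeal (𝓞 F)⁰ F) := rfl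

/-- The fractional ideal of a divisor prime to `T`. -/
noncomputable def fracDiv : DivT T F →* (FractionalIdeal (𝓞 F)⁰ F)ˣ :=
  AddMonoidHom.toMultiplicativeLeft (Finsupp.liftAddHom fun P : PrimeAway T F =>
    zmultiplesHom (Additive (FractionalIdeal (𝓞 F)⁰ F)ˣ) (Additive.ofMul (primeUnit T F P)))

theorem fracDiv_gen (P : PrimeAway T F) : fracDiv T F (gen T F P) = primeUnit T F P := by
  show Additive.toMul (Finsupp.liftAddHom _ (Finsupp.single P (1 : ℤ))) = _
  rw [Finsupp.liftAddHom_apply_single, zmultiplesHom_apply, one_smul]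
  rfl

/-- The class of `fracDiv D` is `clsDiv D`. -/
theorem mk_fracDiv (D : DivT T F) : ClassGroup.mk F (fracDiv T F D) = clsDiv T F D := by
  have key : (ClassGroup.mk F).comp (fracDiv T F) = clsDiv T F := by
    apply hom_ext
    intro P
    rw [MonoidHom.comp_apply, fracDiv_gen, clsDiv_gen]
    exact ClassGroup.mk_mk0 F (primeIdeal0 T F P)
  exact DFunLike.congr_fun key D

/-- `D ↦ dvF (fracDiv D)` as a monoid homomorphism. -/
noncomputable def dvFrac : DivT T F →* DivT T F where
  toFun D := dvF T F ((fracDiv T F D : (FractionalIdeal (𝓞 F)⁰ F)ˣ) : FractionalIdeal (𝓞 F)⁰ F)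
  map_one' := by
    rw [map_one, Units.val_one, dvF_one]
  map_mul' D E := by
    rw [map_mul, Units.val_mul, dvF_mul T F (Units.ne_zero _) (Units.ne_zero _)]

/-- The prime-to-`T` divisor of `fracDiv D` is `D`. -/
theorem dvF_fracDiv (D : DivT T F) :
    dvF T F ((fracDiv T F D : (FractionalIdeal (𝓞 F)⁰ F)ˣ) : FractionalIdeal (𝓞 F)⁰ F) = D := by
  have key : dvFrac T F = MonoidHom.id (DivT T F) := by
    apply hom_ext
    intro P
    show dvF T F ((fracDiv T F (gen T F P) : (FractionalIdeal (𝓞 F)⁰ F)ˣ) :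
      FractionalIdeal (𝓞 F)⁰ F) = gen T F P
    rw [fracDiv_gen, coe_primeUnit, dvF_prime_away]
  exact DFunLike.congr_fun key D

/-- **A divisor prime to `T` with trivial ideal class is principal.** -/
theorem exists_divT_of_clsDiv_eq_one (D : DivT T F) (h : clsDiv T F D = 1) :
    ∃ x : Fˣ, divT T F x = D := by
  rw [← mk_fracDiv, ClassGroup.mk_eq_one_iff, FractionalIdeal.isPrincipal_iff] at h
  obtain ⟨x, hx⟩ := h
  have hx0 : x ≠ 0 := by
    rintro rfl
    rw [FractionalIdeal.spanSingleton_zero] at hx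
    exact Units.ne_zero _ hx
  refine ⟨Units.mk0 x hx0, ?_⟩
  rw [divT_eq_dvF, Units.val_mk0, ← hx, dvF_fracDiv]

theorem ker_clsDiv_le_princ (D : DivT T F) (h : clsDiv T F D = 1) :
    Additive.ofMul D ∈ princ T F :=
  (mem_princ T F).mpr (exists_divT_of_clsDiv_eq_one T F D h)

/-- **`Cl_T(F) = DivT T F / principal divisors` is finite.** -/
theorem finite_coker : Finite (Additive (DivT T F) ⧸ princ T F) := by
  have hf : ∀ D D' : DivT T F, clsDiv T F D = clsDiv T F D' →
      (princ T F).mkQ (Additive.ofMul D) = (princ T F).mkQ (Additive.ofMul D') := by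
    intro D D' h
    rw [Submodule.mkQ_apply, Submodule.mkQ_apply, Submodule.Quotient.eq]
    have h1 : clsDiv T F (D / D') = 1 := by rw [map_div, h, div_self']
    exact ker_clsDiv_le_princ T F (D / D') h1
  let g : Set.range (clsDiv T F) → (Additive (DivT T F) ⧸ princ T F) := fun c =>
    (princ T F).mkQ (Additive.ofMul (Classical.choose c.2))
  have hg : Function.Surjective g := by
    intro y
    obtain ⟨D, rfl⟩ := Submodule.mkQ_surjective (princ T F) y
    refine ⟨⟨clsDiv T F (Additive.toMul D), ⟨Additive.toMul D, rfl⟩⟩, ?_⟩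
    exact hf _ _ (Classical.choose_spec (⟨Additive.toMul D, rfl⟩ :
      ∃ D', clsDiv T F D' = clsDiv T F (Additive.toMul D)))
  exact Finite.of_surjective g hg

end Generic

section Tw

variable (T : Finset Nat.Primes) (k F : Type) [Field k] [Field F] [NumberField k] [NumberField F]
  [Algebra k F] {p : ℕ} [Fact p.Prime] {Y : Type*} [AddCommGroup Y] [Module (ZMod p) Y]

/-- `Hom_Δ(Cl_T(F), Y^∨(1))` is a finite module for finite `Y`. -/
theorem finite_twAdd_coker [Finite Y] (ω : (F ≃ₐ[k] F) →* (ZMod p)ˣ)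
    (ρ : Representation (ZMod p) (F ≃ₐ[k] F) Y) :
    Module.Finite (ZMod p) ↥(twAdd (cokerRep T k F) ω ρ) :=
  haveI := finite_coker T F
  finite_twAdd (cokerRep T k F) ω ρ

end Tw

end Fermat.Agent.ES.T56.ElemArtinFin23
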