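/-
Programme T (S56), chapter GW, part D (`BaseCaseGE`), helper28: the SELMER MODEL over abstract number
fields (the `Sel` of `T56_BASE28.md`; target object of brick (K6)).

`K L` number fields, `[Algebra K L]`, `Sg : Finset Nat.Primes`, `p` prime, `Δ = L ≃ₐ[K] L` acting on
`Lˣ` by main's `Interface23.instActionUnitsField`:

* `SelQA Sg L p = selS Sg L p ⧸ (Lˣ)^p` (main's `RecKummer15.selS`, `KummerPairing19.pthPowers`),
  `SelVA Sg L p = Additive (SelQA Sg L p)`; `selMkA` (onto), `selMkA_mul`, `selMkA_eq_zero_iff`,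
  `selVA_nsmul : p • x = 0`;
* `selSmulA σ`, `selActQA σ`, **`selRepA Sg K L p : Representation ℤ (L ≃ₐ[K] L) (SelVA Sg L p)`**,
  `selRepA_mk : selRepA Sg K L p σ (selMkA Sg L p d) = selMkA Sg L p (selSmulA Sg K L p σ d)`,
  `coe_selSmulA : ((selSmulA Sg K L p σ d : selS Sg L p) : Lˣ) = σ • (d : Lˣ)`.

This is helper19's `KumSel19.SelV` with `↥L` (`L : IntermediateField ℚ ℚ̄`) replaced by an abstract
field: for `D : BaseDatum Sg` the types `↥D.L` and `↥(BaseDict28.LK D)` (and their field structures,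
`selS`, `DivT`) are DEFINITIONALLY equal, so `SelVA Sg ↥(LK D) p` is `KumSel19.SelV Sg D.L p`.
Fully proved; imports Mathlib and main's PT/GLOB/RecKummer15.
-/
import Mathlib
import Fermat.Agent.PT.GLOB.RecKummer15

set_option autoImplicit false

namespace Fermat.Agent.ES.T56.SelModel28

open Fermat.Agent.PT.GLOB.RecKummer15 Fermat.Agent.PT.GLOB.KummerPairing19
  Fermat.Agent.PT.GLOB.Interface23

section Model

variable (Sg : Finset Nat.Primes) (L : Type) [Field L] [NumberField L] (p : ℕ)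

/-- The `p`-th powers inside the Selmer elements. -/
noncomputable abbrev selPowA : Subgroup ↥(selS Sg L p) := (pthPowers L p).subgroupOf (selS Sg L p)

/-- `Sel = selS / (Lˣ)^p`. -/
abbrev SelQA : Type := ↥(selS Sg L p) ⧸ selPowA Sg L p

/-- `Sel`, written additively. -/
abbrev SelVA : Type := Additive (SelQA Sg L p)

/-- The class of a Selmer element. -/
noncomputable def selMkA (d : ↥(selS Sg L p)) : SelVA Sg L p :=
  Additive.ofMul (QuotientGroup.mk d : SelQA Sg L p)

theorem selMkA_surjective : Function.Surjective (selMkA Sg L p) := by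
  intro x
  obtain ⟨d, hd⟩ := QuotientGroup.mk_surjective (Additive.toMul x)
  exact ⟨d, congrArg Additive.ofMul hd⟩

theorem selMkA_mul (d d' : ↥(selS Sg L p)) :
    selMkA Sg L p (d * d') = selMkA Sg L p d + selMkA Sg L p d' := rfl

theorem selMkA_eq_zero_iff (d : ↥(selS Sg L p)) :
    selMkA Sg L p d = 0 ↔ (d : Lˣ) ∈ pthPowers L p := by
  have h1 : selMkA Sg L p d = 0 ↔ (QuotientGroup.mk d : SelQA Sg L p) = 1 :=
    ⟨fun h => congrArg Additive.toMul h, fun h => congrArg Additive.ofMul h⟩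
  rw [h1, QuotientGroup.eq_one_iff, Subgroup.mem_subgroupOf]

theorem selVA_nsmul (x : SelVA Sg L p) : p • x = 0 := by
  obtain ⟨d, rfl⟩ := selMkA_surjective Sg L p x
  have h : selMkA Sg L p (d ^ p) = 0 := by
    rw [selMkA_eq_zero_iff]
    exact ⟨(d : Lˣ), rfl⟩
  rw [← h]
  rfl

end Model

section Action

variable (Sg : Finset Nat.Primes) (K L : Type) [Field K] [Field L] [NumberField K] [NumberField L]
  [Algebra K L] (p : ℕ)

/-- The action of `σ ∈ Gal(L/K)` on the Selmer elements. -/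
noncomputable def selSmulA (σ : L ≃ₐ[K] L) : ↥(selS Sg L p) →* ↥(selS Sg L p) where
  toFun d := ⟨σ • (d : Lˣ), smul_mem_selS Sg K L p σ d.2⟩
  map_one' := Subtype.ext (smul_one σ)
  map_mul' d d' := Subtype.ext (smul_mul' σ (d : Lˣ) (d' : Lˣ))

theorem coe_selSmulA (σ : L ≃ₐ[K] L) (d : ↥(selS Sg L p)) :
    ((selSmulA Sg K L p σ d : ↥(selS Sg L p)) : Lˣ) = σ • (d : Lˣ) := rfl

theorem selSmulA_one (d : ↥(selS Sg L p)) : selSmulA Sg K L p 1 d = d :=
  Subtype.ext (one_smul _ _)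

theorem selSmulA_mul (σ τ : L ≃ₐ[K] L) (d : ↥(selS Sg L p)) :
    selSmulA Sg K L p (σ * τ) d = selSmulA Sg K L p σ (selSmulA Sg K L p τ d) :=
  Subtype.ext (mul_smul σ τ (d : Lˣ))

theorem selPowA_le_comap (σ : L ≃ₐ[K] L) :
    selPowA Sg L p ≤ (selPowA Sg L p).comap (selSmulA Sg K L p σ) := by
  intro d hd
  rw [Subgroup.mem_subgroupOf] at hd
  obtain ⟨y, hy⟩ := hd
  rw [Subgroup.mem_comap, Subgroup.mem_subgroupOf, coe_selSmulA]
  refine ⟨σ • y, ?_⟩
  change (σ • y) ^ p = σ • (d : Lˣ)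
  rw [← smul_pow', ← hy]
  rfl

/-- The action on `Sel`. -/
noncomputable def selActQA (σ : L ≃ₐ[K] L) : SelQA Sg L p →* SelQA Sg L p :=
  QuotientGroup.map _ _ (selSmulA Sg K L p σ) (selPowA_le_comap Sg K L p σ)

theorem selActQA_mk (σ : L ≃ₐ[K] L) (d : ↥(selS Sg L p)) :
    selActQA Sg K L p σ (QuotientGroup.mk d) = QuotientGroup.mk (selSmulA Sg K L p σ d) := rfl

/-- **The Galois representation on `Sel`** (over `ℤ`; `Sel` is killed by `p`). -/
noncomputable def selRepA : Representation ℤ (L ≃ₐ[K] L) (SelVA Sg L p) where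
  toFun σ := (MonoidHom.toAdditive (selActQA Sg K L p σ)).toIntLinearMap
  map_one' := by
    apply LinearMap.ext
    intro x
    obtain ⟨d, rfl⟩ := selMkA_surjective Sg L p x
    change selMkA Sg L p (selSmulA Sg K L p 1 d) = selMkA Sg L p d
    rw [selSmulA_one]
  map_mul' σ τ := by
    apply LinearMap.ext
    intro x
    obtain ⟨d, rfl⟩ := selMkA_surjective Sg L p x
    change selMkA Sg L p (selSmulA Sg K L p (σ * τ) d) =
      selMkA Sg L p (selSmulA Sg K L p σ (selSmulA Sg K L p τ d))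
    rw [selSmulA_mul]

theorem selRepA_mk (σ : L ≃ₐ[K] L) (d : ↥(selS Sg L p)) :
    selRepA Sg K L p σ (selMkA Sg L p d) = selMkA Sg L p (selSmulA Sg K L p σ d) := rfl

end Action

end Fermat.Agent.ES.T56.SelModel28
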