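/-
Programme T (S56), chapter GW, part D (`BaseCaseGE`), helper13: the T-algebra, part (T5)
(`T56_BASE28.md` §0), against helper28's `TwistNum28.twNum` (v1 5900f260).

* `exists_extension_of_kills` : an additive map `a' : A' → W` (`W` an `𝔽_p`-space) extends along
  `f : A' → A` as soon as it kills `{x | f x ∈ p A}`;
* `finrank_eqHom_exact4`, **`twNum_exact4`** : four-term version of (T1):
  `N → A' → A → A'' → 0` exact modulo `p` gives `⟨A⟩ + ⟨N⟩ = ⟨A'⟩ + ⟨A''⟩`;
* `twNum_eq_zero_of_divisible`; `intRep`, `twNum_intRep`;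
* **(T5)** `twNum_torsion_eq` : for a FINITE `ℤ[Δ]`-module `A`, `p ∤ #Δ`, and ANY model
  `ι : P ↪ A` of `A[p]` (`∀ a, p • a = 0 ↔ ∃ x, ι x = a`): `twNum τP ω ρ = twNum τ ω ρ`
  (recall `twNum τ = ⟨A/p⟩`).  Induction on `#A` through `P_B → P → A → pA → 0`;
* `pTorsRep τ`, `twNum_pTorsRep` : the concrete model `Submodule.torsionBy ℤ A p`.

Fully proved; Mathlib + TwistNum28 + TwExact13.
-/
import Mathlib
import Fermat.Agent.ES.T56.TwExact13

set_option autoImplicit false

open Module

namespace Fermat.Agent.ES.T56.TwTors13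

open Fermat.Agent.ES.T56.TwistNum28 Fermat.Agent.ES.T56.TwExact13

variable {p : ℕ} [Fact p.Prime]
variable {Δ : Type*} [Group Δ]

section Ext

/-- Extension of an additive map into an `𝔽_p`-space along `f : A' → A`, provided it kills
everything that `f` sends into `p A`. -/
theorem exists_extension_of_kills {A' A W : Type*} [AddCommGroup A'] [AddCommGroup A]
    [AddCommGroup W] [Module (ZMod p) W] (f : A' →+ A) (a' : A' →+ W)
    (hkill : ∀ x, (∃ y, f x = p • y) → a' x = 0) :
    ∃ a₀ : A →+ W, ∀ x, a₀ (f x) = a' x := by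
  let Fb : A' →+ ModN A p := (ModN.mkQ p).comp f
  let S : Submodule (ZMod p) (ModN A p) :=
    { carrier := Set.range Fb
      add_mem' := by
        rintro _ _ ⟨x, rfl⟩ ⟨y, rfl⟩
        exact ⟨x + y, map_add Fb x y⟩
      zero_mem' := ⟨0, map_zero Fb⟩
      smul_mem' := by
        rintro c _ ⟨x, rfl⟩
        refine ⟨c.val • x, ?_⟩
        rw [map_nsmul, ← Nat.cast_smul_eq_nsmul (ZMod p), ZMod.natCast_zmod_val] }
  let FS : A' →+ ↥S :=
    { toFun := fun x => ⟨Fb x, ⟨x, rfl⟩⟩
      map_zero' := by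
        apply Subtype.ext
        exact map_zero Fb
      map_add' := fun x y => by
        apply Subtype.ext
        exact map_add Fb x y }
  have hFS : Function.Surjective FS := by
    rintro ⟨_, ⟨x, rfl⟩⟩
    exact ⟨x, rfl⟩
  have hker : ∀ x, FS x = 0 → a' x = 0 := by
    intro x hx
    have h1 : Fb x = 0 := congrArg Subtype.val hx
    have h2 : f x ∈ LinearMap.range (LinearMap.lsmul ℤ A p) :=
      (Submodule.Quotient.mk_eq_zero _).1 h1
    obtain ⟨y, hy⟩ := h2
    exact hkill x ⟨y, by rw [← hy]; simp⟩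
  obtain ⟨b, hb⟩ := exists_factor_of_surjective FS hFS a' hker
  obtain ⟨c, hc⟩ := LinearMap.exists_extend (b.toZModLinearMap p)
  refine ⟨c.toAddMonoidHom.comp (ModN.mkQ p), fun x => ?_⟩
  have h3 := LinearMap.congr_fun hc (FS x)
  simp only [LinearMap.coe_comp, Function.comp_apply, Submodule.coe_subtype,
    AddMonoidHom.coe_toZModLinearMap] at h3
  rw [← hb x, ← h3]
  rfl

end Ext

section Exact4

variable {W : Type*} [AddCommGroup W] [Module (ZMod p) W]
variable {R₀ R₁ R₂ R₃ : Type*} [CommRing R₀] [CommRing R₁] [CommRing R₂] [CommRing R₃]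
variable {N A' A A'' : Type*} [AddCommGroup N] [AddCommGroup A'] [AddCommGroup A]
  [AddCommGroup A''] [Module R₀ N] [Module R₁ A'] [Module R₂ A] [Module R₃ A'']

/-- Four-term version of (T1): `N → A' → A → A'' → 0`, exact modulo `p`. -/
theorem finrank_eqHom_exact4 [Finite Δ] (hp : ¬ p ∣ Nat.card Δ)
    (τ₀ : Representation R₀ Δ N) (τ₁ : Representation R₁ Δ A') (τ₂ : Representation R₂ Δ A)
    (τ₃ : Representation R₃ Δ A'') (σ : Representation (ZMod p) Δ W)
    (j : N →+ A') (f : A' →+ A) (g : A →+ A'')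
    (hj : ∀ δ x, j (τ₀ δ x) = τ₁ δ (j x)) (hf : ∀ δ x, f (τ₁ δ x) = τ₂ δ (f x))
    (hg : ∀ δ x, g (τ₂ δ x) = τ₃ δ (g x))
    (hsurj : Function.Surjective g) (hgf : ∀ x, g (f x) = 0)
    (hex : ∀ x, g x = 0 → ∃ y z, x = f y + p • z)
    (hfj : ∀ n, ∃ z, f (j n) = p • z)
    (hex' : ∀ x, (∃ z, f x = p • z) → ∃ n w, x = j n + p • w)
    (hpure : ∀ n, (∃ y, j n = p • y) → ∃ m, n = p • m)
    [Module.Finite (ZMod p) ↥(eqHom τ₂ σ)] [Module.Finite (ZMod p) ↥(eqHom τ₁ σ)] :
    finrank (ZMod p) ↥(eqHom τ₂ σ) + finrank (ZMod p) ↥(eqHom τ₀ σ) =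
      finrank (ZMod p) ↥(eqHom τ₁ σ) + finrank (ZMod p) ↥(eqHom τ₃ σ) := by
  have hpW : ∀ w : W, p • w = 0 := fun w => nsmul_eq_zero_of_zmod w
  set J := eqHomComp τ₀ τ₁ σ j hj with hJdef
  set F := eqHomComp τ₁ τ₂ σ f hf with hFdef
  set G := eqHomComp τ₂ τ₃ σ g hg with hGdef
  have hGinj : Function.Injective G := by
    intro a b hab
    apply Subtype.ext
    ext y
    obtain ⟨x, rfl⟩ := hsurj y
    exact congrArg (fun c : ↥(eqHom τ₂ σ) => c.1 x) hab
  have hJsurj : Function.Surjective J := by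
    intro a'
    obtain ⟨a₀, h₀⟩ := exists_extension_of_pure j hpure a'.1
    obtain ⟨a, ha, hax⟩ := exists_equivariant_extension hp τ₀ τ₁ σ j hj a'.1 a'.2 a₀ h₀
    refine ⟨⟨a, ha⟩, ?_⟩
    apply Subtype.ext
    ext x
    exact hax x
  have hGF : LinearMap.range G = LinearMap.ker F := by
    apply le_antisymm
    · rintro _ ⟨a'', rfl⟩
      rw [LinearMap.mem_ker]
      apply Subtype.ext
      ext x
      change a''.1 (g (f x)) = 0
      rw [hgf, map_zero]
    · intro a ha
      rw [LinearMap.mem_ker] at ha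
      have hker : ∀ x, g x = 0 → a.1 x = 0 := by
        intro x hx
        obtain ⟨y, z, rfl⟩ := hex x hx
        have h1 : a.1 (f y) = 0 := congrArg (fun c : ↥(eqHom τ₁ σ) => c.1 y) ha
        rw [map_add, h1, map_nsmul, hpW, add_zero]
      obtain ⟨a'', ha''⟩ := exists_factor_of_surjective g hsurj a.1 hker
      refine ⟨⟨a'', fun δ y => ?_⟩, ?_⟩
      · obtain ⟨x, rfl⟩ := hsurj y
        rw [← hg, ha'', ha'', a.2 δ x]
      · apply Subtype.ext
        ext x
        exact ha'' x
  have hFJ : LinearMap.range F = LinearMap.ker J := by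
    apply le_antisymm
    · rintro _ ⟨a, rfl⟩
      rw [LinearMap.mem_ker]
      apply Subtype.ext
      ext n
      change a.1 (f (j n)) = 0
      obtain ⟨z, hz⟩ := hfj n
      rw [hz, map_nsmul, hpW]
    · intro a' ha'
      rw [LinearMap.mem_ker] at ha'
      have hkill : ∀ x, (∃ y, f x = p • y) → a'.1 x = 0 := by
        intro x hx
        obtain ⟨n, w, rfl⟩ := hex' x hx
        have h1 : a'.1 (j n) = 0 := congrArg (fun c : ↥(eqHom τ₀ σ) => c.1 n) ha'
        rw [map_add, h1, map_nsmul, hpW, add_zero]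
      obtain ⟨a₀, h₀⟩ := exists_extension_of_kills f a'.1 hkill
      obtain ⟨a, ha, hax⟩ := exists_equivariant_extension hp τ₁ τ₂ σ f hf a'.1 a'.2 a₀ h₀
      refine ⟨⟨a, ha⟩, ?_⟩
      apply Subtype.ext
      ext x
      exact hax x
  have h1 := LinearMap.finrank_range_add_finrank_ker F
  have h2 := LinearMap.finrank_range_add_finrank_ker J
  rw [LinearMap.range_eq_top.2 hJsurj, finrank_top, ← hFJ] at h2
  rw [← hGF, ← LinearEquiv.finrank_eq (LinearEquiv.ofInjective G hGinj)] at h1
  omega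

end Exact4

section TwNum4

variable {Y : Type*} [AddCommGroup Y] [Module (ZMod p) Y]
variable {R₀ R₁ R₂ R₃ : Type*} [CommRing R₀] [CommRing R₁] [CommRing R₂] [CommRing R₃]
variable {N A' A A'' : Type*} [AddCommGroup N] [AddCommGroup A'] [AddCommGroup A]
  [AddCommGroup A''] [Module R₀ N] [Module R₁ A'] [Module R₂ A] [Module R₃ A'']

/-- Four-term version of (T1) for twist numbers: `N → A' → A → A'' → 0` exact modulo `p`
gives `⟨A⟩ + ⟨N⟩ = ⟨A'⟩ + ⟨A''⟩`. -/
theorem twNum_exact4 [Finite Δ] (hp : ¬ p ∣ Nat.card Δ)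
    (τ₀ : Representation R₀ Δ N) (τ₁ : Representation R₁ Δ A') (τ₂ : Representation R₂ Δ A)
    (τ₃ : Representation R₃ Δ A'') (ω : Δ →* (ZMod p)ˣ) (ρ : Representation (ZMod p) Δ Y)
    (j : N →+ A') (f : A' →+ A) (g : A →+ A'')
    (hj : ∀ δ x, j (τ₀ δ x) = τ₁ δ (j x)) (hf : ∀ δ x, f (τ₁ δ x) = τ₂ δ (f x))
    (hg : ∀ δ x, g (τ₂ δ x) = τ₃ δ (g x))
    (hsurj : Function.Surjective g) (hgf : ∀ x, g (f x) = 0)
    (hex : ∀ x, g x = 0 → ∃ y z, x = f y + p • z)
    (hfj : ∀ n, ∃ z, f (j n) = p • z)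
    (hex' : ∀ x, (∃ z, f x = p • z) → ∃ n w, x = j n + p • w)
    (hpure : ∀ n, (∃ y, j n = p • y) → ∃ m, n = p • m)
    (hfin₂ : Module.Finite (ZMod p) ↥(twAdd τ₂ ω ρ))
    (hfin₁ : Module.Finite (ZMod p) ↥(twAdd τ₁ ω ρ)) :
    twNum τ₂ ω ρ + twNum τ₀ ω ρ = twNum τ₁ ω ρ + twNum τ₃ ω ρ := by
  rw [twNum_eq_finrank_eqHom, twNum_eq_finrank_eqHom, twNum_eq_finrank_eqHom,
    twNum_eq_finrank_eqHom]
  rw [twAdd_eq_eqHom] at hfin₂ hfin₁
  exact finrank_eqHom_exact4 hp τ₀ τ₁ τ₂ τ₃ (twDual ω ρ) j f g hj hf hg hsurj hgf hex hfj hex'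
    hpure

/-- If `A = p A` then `⟨A⟩ = 0`. -/
theorem twNum_eq_zero_of_divisible (τ : Representation R₂ Δ A) (ω : Δ →* (ZMod p)ˣ)
    (ρ : Representation (ZMod p) Δ Y) (hdiv : ∀ x : A, ∃ y : A, x = p • y) :
    twNum τ ω ρ = 0 := by
  have : Subsingleton ↥(twAdd τ ω ρ) := by
    refine ⟨fun a b => ?_⟩
    apply Subtype.ext
    ext x : 1
    obtain ⟨y, rfl⟩ := hdiv x
    rw [map_nsmul, map_nsmul, nsmul_eq_zero_of_zmod, nsmul_eq_zero_of_zmod]
  exact Module.finrank_zero_of_subsingleton

end TwNum4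

section T5

universe u v

variable {Y : Type*} [AddCommGroup Y] [Module (ZMod p) Y]

/-- Multiplication by `p`. -/
def pMul (A : Type*) [AddCommGroup A] : A →ₗ[ℤ] A := LinearMap.lsmul ℤ A (p : ℤ)

omit [Fact p.Prime] in
theorem pMul_apply {A : Type*} [AddCommGroup A] (x : A) : pMul (p := p) A x = p • x := by
  simp [pMul]

theorem twNum_torsion_aux [Finite Δ] (hp : ¬ p ∣ Nat.card Δ) [Finite Y] (ω : Δ →* (ZMod p)ˣ)
    (ρ : Representation (ZMod p) Δ Y) :
    ∀ (n : ℕ) (A : Type u) [AddCommGroup A] [Finite A] (τ : Representation ℤ Δ A)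
      (P : Type v) [AddCommGroup P] (τP : Representation ℤ Δ P) (ι : P →+ A),
      Function.Injective ι → (∀ δ x, ι (τP δ x) = τ δ (ι x)) →
      (∀ a : A, p • a = 0 ↔ ∃ x, ι x = a) → Nat.card A ≤ n →
      twNum τP ω ρ = twNum τ ω ρ := by
  intro n
  induction n with
  | zero =>
    intro A _ _ τ P _ τP ι _ _ _ hcard
    exact absurd hcard (by have := Nat.card_pos (α := A); omega)
  | succ n ih =>
    intro A _ _ τ P _ τP ι hι hιe hιr hcard
    have hpP : ∀ x : P, p • x = 0 := by
      intro x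
      apply hι
      rw [map_nsmul, map_zero]
      exact (hιr (ι x)).2 ⟨x, rfl⟩
    by_cases htriv : ∀ x : P, x = 0
    · -- `A[p] = 0`: both sides vanish
      have hinj : Function.Injective (pMul (p := p) A) := by
        rw [injective_iff_map_eq_zero]
        intro a ha
        rw [pMul_apply] at ha
        obtain ⟨x, rfl⟩ := (hιr a).1 ha
        rw [htriv x, map_zero]
      have hsurj : Function.Surjective (pMul (p := p) A) := Finite.injective_iff_surjective.1 hinj
      rw [twNum_eq_zero_of_divisible τP ω ρ (fun x => ⟨0, by rw [htriv x, smul_zero]⟩),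
        twNum_eq_zero_of_divisible τ ω ρ (fun x => by
          obtain ⟨y, hy⟩ := hsurj x
          exact ⟨y, by rw [← hy, pMul_apply]⟩)]
    · push Not at htriv
      obtain ⟨x₀, hx₀⟩ := htriv
      -- the submodule `B = p A`
      let B : Submodule ℤ A := LinearMap.range (pMul (p := p) A)
      have hBst : ∀ δ, B ≤ B.comap (τ δ) := by
        rintro δ _ ⟨x, rfl⟩
        exact ⟨τ δ x, by rw [pMul_apply, pMul_apply, map_nsmul]⟩
      let τB : Representation ℤ Δ ↥B := τ.subrepresentation B hBst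
      let PB : Submodule ℤ P := B.comap ι.toIntLinearMap
      have hPBst : ∀ δ, PB ≤ PB.comap (τP δ) := by
        intro δ x hx
        change ι (τP δ x) ∈ B
        rw [hιe]
        exact hBst δ hx
      let τPB : Representation ℤ Δ ↥PB := τP.subrepresentation PB hPBst
      let ιB : ↥PB →+ ↥B := (ι.toIntLinearMap.restrict (p := PB) (q := B) (fun x hx => hx)).toAddMonoidHom
      have hιB : ∀ x : ↥PB, ((ιB x : ↥B) : A) = ι x.1 := fun x => rfl
      let g : A →+ ↥B := (pMul (p := p) A).rangeRestrict.toAddMonoidHom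
      have hg : ∀ x, ((g x : ↥B) : A) = p • x := fun x => pMul_apply x
      -- `B` is smaller than `A`
      have hcardB : Nat.card ↥B ≤ n := by
        have hnotinj : ¬ Function.Injective (pMul (p := p) A) := by
          intro hinj
          apply hx₀
          apply hι
          rw [map_zero]
          apply hinj
          rw [map_zero, pMul_apply]
          exact (hιr (ι x₀)).2 ⟨x₀, rfl⟩
        have hnotsurj : ¬ Function.Surjective (pMul (p := p) A) := fun h =>
          hnotinj (Finite.injective_iff_surjective.2 h)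
        obtain ⟨a₀, ha₀⟩ : ∃ a₀ : A, a₀ ∉ B := by
          by_contra hall
          push Not at hall
          exact hnotsurj fun a => hall a
        have : Nat.card ↥B < Nat.card A := Finite.card_subtype_lt ha₀
        omega
      -- induction hypothesis for `B`
      have hIH : twNum τPB ω ρ = twNum τB ω ρ := by
        refine ih ↥B τB ↥PB τPB ιB ?_ ?_ ?_ hcardB
        · intro x y hxy
          apply Subtype.ext
          apply hι
          have := congrArg (fun b : ↥B => (b : A)) hxy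
          exact this
        · intro δ x
          apply Subtype.ext
          change ι (τP δ x.1) = τ δ (ι x.1)
          exact hιe δ x.1
        · intro b
          constructor
          · intro hb
            have hb' : p • (b : A) = 0 := by
              have := congrArg (fun b : ↥B => (b : A)) hb
              simpa using this
            obtain ⟨x, hx⟩ := (hιr (b : A)).1 hb'
            refine ⟨⟨x, ?_⟩, ?_⟩
            · change ι x ∈ B
              rw [hx]
              exact b.2
            · apply Subtype.ext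
              exact hx
          · rintro ⟨x, rfl⟩
            apply Subtype.ext
            change p • ι x.1 = 0
            exact (hιr (ι x.1)).2 ⟨x.1, rfl⟩
      -- finiteness
      have : Finite P := Finite.of_injective ι hι
      have hfinA : Module.Finite (ZMod p) ↥(twAdd τ ω ρ) := finite_twAdd_of_fg τ ω ρ
      have hfinP : Module.Finite (ZMod p) ↥(twAdd τP ω ρ) := finite_twAdd_of_fg τP ω ρ
      -- the four-term sequence `P_B → P → A → B → 0`
      have h4 := twNum_exact4 hp τPB τP τ τB ω ρ PB.subtype.toAddMonoidHom ι g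
        (fun δ x => rfl) hιe
        (fun δ x => by
          apply Subtype.ext
          have h1 : ((τB δ (g x) : ↥B) : A) = τ δ ((g x : ↥B) : A) := rfl
          rw [h1, hg, hg, map_nsmul])
        (fun b => by
          obtain ⟨x, hx⟩ := b.2
          exact ⟨x, Subtype.ext hx⟩)
        (fun x => by
          apply Subtype.ext
          rw [hg, Submodule.coe_zero]
          exact (hιr (ι x)).2 ⟨x, rfl⟩)
        (fun x hx => by
          have hx' : p • x = 0 := by
            have := congrArg (fun b : ↥B => (b : A)) hx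
            simpa [hg] using this
          obtain ⟨y, hy⟩ := (hιr x).1 hx'
          exact ⟨y, 0, by rw [hy, smul_zero, add_zero]⟩)
        (fun n' => by
          obtain ⟨z, hz⟩ := n'.2
          exact ⟨z, by rw [← pMul_apply]; exact hz.symm⟩)
        (fun x hx => by
          obtain ⟨z, hz⟩ := hx
          refine ⟨⟨x, ⟨z, ?_⟩⟩, 0, ?_⟩
          · rw [pMul_apply]
            exact hz.symm
          · simp)
        (fun n' hn' => by
          obtain ⟨y, hy⟩ := hn'
          refine ⟨0, ?_⟩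
          apply Subtype.ext
          have h1 : (n' : P) = p • y := hy
          rw [h1, hpP]
          simp)
        hfinA hfinP
      omega

/-- The underlying `ℤ`-representation. -/
def intRep {R : Type*} [CommRing R] {A : Type*} [AddCommGroup A] [Module R A]
    (τ : Representation R Δ A) : Representation ℤ Δ A where
  toFun δ := (τ δ).toAddMonoidHom.toIntLinearMap
  map_one' := by
    ext x
    simp
  map_mul' a b := by
    ext x
    simp

theorem intRep_apply {R : Type*} [CommRing R] {A : Type*} [AddCommGroup A] [Module R A]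
    (τ : Representation R Δ A) (δ : Δ) (x : A) : intRep τ δ x = τ δ x := rfl

theorem twNum_intRep {R : Type*} [CommRing R] {A : Type*} [AddCommGroup A] [Module R A]
    (τ : Representation R Δ A) (ω : Δ →* (ZMod p)ˣ) (ρ : Representation (ZMod p) Δ Y) :
    twNum (intRep τ) ω ρ = twNum τ ω ρ :=
  twNum_congr _ _ ω ρ (AddEquiv.refl A) (fun _ _ => rfl)

/-- **(T5)** For a finite `ℤ[Δ]`-module `A` (`p ∤ #Δ`): `⟨A[p]⟩ = ⟨A⟩` (`= ⟨A/p⟩`), for ANY model
`ι : P ↪ A` of the `p`-torsion `A[p]`. -/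
theorem twNum_torsion_eq [Finite Δ] (hp : ¬ p ∣ Nat.card Δ) [Finite Y]
    {R R' : Type*} [CommRing R] [CommRing R'] {A : Type u} [AddCommGroup A] [Module R A] [Finite A]
    (τ : Representation R Δ A) {P : Type v} [AddCommGroup P] [Module R' P]
    (τP : Representation R' Δ P) (ι : P →+ A) (hι : Function.Injective ι)
    (hιe : ∀ δ x, ι (τP δ x) = τ δ (ι x)) (hιr : ∀ a : A, p • a = 0 ↔ ∃ x, ι x = a)
    (ω : Δ →* (ZMod p)ˣ) (ρ : Representation (ZMod p) Δ Y) :
    twNum τP ω ρ = twNum τ ω ρ := by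
  rw [← twNum_intRep τP, ← twNum_intRep τ]
  exact twNum_torsion_aux hp ω ρ (Nat.card A) A (intRep τ) P (intRep τP) ι hι hιe hιr le_rfl

/-- The `p`-torsion subrepresentation. -/
def pTorsRep {A : Type*} [AddCommGroup A] (τ : Representation ℤ Δ A) :
    Representation ℤ Δ ↥(Submodule.torsionBy ℤ A (p : ℤ)) :=
  τ.subrepresentation (Submodule.torsionBy ℤ A (p : ℤ)) (fun δ x hx => by
    rw [Submodule.mem_comap, Submodule.mem_torsionBy_iff, ← map_zsmul,
      (Submodule.mem_torsionBy_iff _ _).1 hx, map_zero])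

omit [Fact p.Prime] in
theorem coe_pTorsRep {A : Type*} [AddCommGroup A] (τ : Representation ℤ Δ A) (δ : Δ)
    (x : ↥(Submodule.torsionBy ℤ A (p : ℤ))) :
    ((pTorsRep τ δ x : ↥(Submodule.torsionBy ℤ A (p : ℤ))) : A) = τ δ x := rfl

/-- **(T5)**, concrete model `A[p] = Submodule.torsionBy ℤ A p`. -/
theorem twNum_pTorsRep [Finite Δ] (hp : ¬ p ∣ Nat.card Δ) [Finite Y]
    {A : Type u} [AddCommGroup A] [Finite A] (τ : Representation ℤ Δ A)
    (ω : Δ →* (ZMod p)ˣ) (ρ : Representation (ZMod p) Δ Y) :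
    twNum (pTorsRep (p := p) τ) ω ρ = twNum τ ω ρ := by
  refine twNum_torsion_eq hp τ (pTorsRep (p := p) τ)
    (Submodule.torsionBy ℤ A (p : ℤ)).subtype.toAddMonoidHom Subtype.val_injective
    (fun δ x => rfl) (fun a => ?_) ω ρ
  constructor
  · intro ha
    exact ⟨⟨a, by rw [Submodule.mem_torsionBy_iff, natCast_zsmul]; exact ha⟩, rfl⟩
  · rintro ⟨x, rfl⟩
    have := (Submodule.mem_torsionBy_iff _ _).1 x.2
    rw [natCast_zsmul] at this
    exact this

end T5

end Fermat.Agent.ES.T56.TwTors13
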