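/-
Programme T (S56), chapter GW, part D (`BaseCaseGE`), brick (K6), abstract part (helper8).

**The Selmer sequence `0 → U/p → Sel → C[p] → 0` in twist numbers.**

`φ : G → F` an additive map of abelian groups with compatible actions of a finite group `Δ`
(`p ∤ #Δ`), `F` without `p`-torsion.  For ANY models
* `(U, τU, ιU : U ↪ G)` of `ker φ`,
* `(S, τS)` of `φ⁻¹(pF) / pG`, presented as `mk : Sd ↠ S` with `ιS : Sd ↪ G` of image `φ⁻¹(pF)` and
  `ker mk = ιS⁻¹(pG)`,
* `(C, τC, q : F ↠ C)` of `coker φ`, `C` finite,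

(the hypotheses are collected in the `Prop`-structure `SelSetup`) one has, in the notation of
`TwistNum28`,

  `twNum τS ω ρ = twNum τU ω ρ + twNum τC ω ρ`   (`twNum_sel`).

Proof: the sequence `0 → U/pU → S → C[p] → 0` is exact and equivariant (`selIn`, `selOut`), so (T1)
`TwExact13.twNum_exact` applies with `C[p] = Submodule.torsionBy ℤ C p`, and (T5)
`TwTors13.twNum_pTorsRep` gives `⟨C[p]⟩ = ⟨C⟩`.
In the application (K6): `G = Lˣ`, `F = Div_{∉S}(L)`, `φ = div`, `U` = the `S`-units, `S` = the Selmer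
group `selS / Lˣᵖ`, `C = Cl_S(L)`.
-/
import Mathlib
import Fermat.Agent.ES.T56.TwistNum28
import Fermat.Agent.ES.T56.TwExact13
import Fermat.Agent.ES.T56.TwTors13

set_option autoImplicit false

open Module

namespace Fermat.Agent.ES.T56.SelSeq8

open Fermat.Agent.ES.T56.TwistNum28 Fermat.Agent.ES.T56.TwExact13 Fermat.Agent.ES.T56.TwTors13

universe uC

variable {p : ℕ}
variable {Δ : Type*} [Group Δ]
variable {G F : Type*} [AddCommGroup G] [AddCommGroup F]
variable {RU RS RC : Type*} [CommRing RU] [CommRing RS] [CommRing RC]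
variable {U Sd S : Type*} {C : Type uC} [AddCommGroup U] [AddCommGroup Sd] [AddCommGroup S]
  [AddCommGroup C] [Module RU U] [Module RS S] [Module RC C]

/-- The hypotheses of the abstract Selmer sequence: `φ : G → F` equivariant for the actions `aG`, `aF`
of `Δ`, `F` without `p`-torsion; `(U, τU, ιU)` a model of `ker φ`; `(S, τS)` with `mk : Sd ↠ S`,
`ιS : Sd ↪ G` a model of `φ⁻¹(pF) / pG`; `(C, τC, q)` a model of `coker φ`. -/
structure SelSetup (p : ℕ) (φ : G →+ F) (aG : Δ → G → G) (aF : Δ → F → F)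
    (τU : Representation RU Δ U) (ιU : U →+ G)
    (τS : Representation RS Δ S) (ιS : Sd →+ G) (mk : Sd →+ S)
    (τC : Representation RC Δ C) (q : F →+ C) : Prop where
  φ_equiv : ∀ δ x, φ (aG δ x) = aF δ (φ x)
  aF_nsmul : ∀ δ y, aF δ (p • y) = p • aF δ y
  torsionFree : ∀ y : F, p • y = 0 → y = 0
  ιU_inj : Function.Injective ιU
  ιU_equiv : ∀ δ u, ιU (τU δ u) = aG δ (ιU u)
  ιU_range : ∀ x, φ x = 0 ↔ ∃ u, ιU u = x
  ιS_inj : Function.Injective ιS
  ιS_range : ∀ x, (∃ y, φ x = p • y) ↔ ∃ d, ιS d = x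
  mk_surj : Function.Surjective mk
  mk_ker : ∀ d, mk d = 0 ↔ ∃ x, ιS d = p • x
  mk_equiv : ∀ δ d d', ιS d' = aG δ (ιS d) → τS δ (mk d) = mk d'
  q_surj : Function.Surjective q
  q_equiv : ∀ δ y, q (aF δ y) = τC δ (q y)
  q_ker : ∀ y, q y = 0 ↔ ∃ x, φ x = y

namespace SelSetup

variable {φ : G →+ F} {aG : Δ → G → G} {aF : Δ → F → F}
  {τU : Representation RU Δ U} {ιU : U →+ G}
  {τS : Representation RS Δ S} {ιS : Sd →+ G} {mk : Sd →+ S}
  {τC : Representation RC Δ C} {q : F →+ C}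

section Maps

variable (h : SelSetup p φ aG aF τU ιU τS ιS mk τC q)

include h

/-- cancellation of `p` in `F`. -/
theorem smul_cancel {y y' : F} (hy : p • y = p • y') : y = y' := by
  have h1 : p • (y - y') = 0 := by rw [smul_sub, hy, sub_self]
  exact sub_eq_zero.mp (h.torsionFree _ h1)

theorem exists_div (d : Sd) : ∃ y, φ (ιS d) = p • y := (h.ιS_range (ιS d)).mpr ⟨d, rfl⟩

/-- the "divisor divided by `p`": `φ (ιS d) = p • divP d`. -/
noncomputable def divP : Sd →+ F :=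
  AddMonoidHom.mk' (fun d => Classical.choose (h.exists_div d)) (fun d d' => by
    apply h.smul_cancel
    rw [smul_add, ← Classical.choose_spec (h.exists_div d),
      ← Classical.choose_spec (h.exists_div d'), ← Classical.choose_spec (h.exists_div (d + d')),
      map_add, map_add])

theorem divP_spec (d : Sd) : φ (ιS d) = p • h.divP d := Classical.choose_spec (h.exists_div d)

theorem divP_eq {d : Sd} {y : F} (hy : φ (ιS d) = p • y) : h.divP d = y :=
  h.smul_cancel (by rw [← h.divP_spec, hy])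

theorem exists_dom (u : U) : ∃ d, ιS d = ιU u :=
  (h.ιS_range (ιU u)).mp ⟨0, by rw [(h.ιU_range (ιU u)).mpr ⟨u, rfl⟩, smul_zero]⟩

/-- the inclusion `ker φ ⊆ φ⁻¹(pF)` on the models. -/
noncomputable def domU : U →+ Sd :=
  AddMonoidHom.mk' (fun u => Classical.choose (h.exists_dom u)) (fun u u' => by
    apply h.ιS_inj
    have e1 := Classical.choose_spec (h.exists_dom u)
    have e2 := Classical.choose_spec (h.exists_dom u')
    have e3 := Classical.choose_spec (h.exists_dom (u + u'))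
    calc ιS (Classical.choose (h.exists_dom (u + u'))) = ιU (u + u') := e3
      _ = ιU u + ιU u' := map_add _ _ _
      _ = ιS (Classical.choose (h.exists_dom u)) + ιS (Classical.choose (h.exists_dom u')) := by
          rw [e1, e2]
      _ = ιS (Classical.choose (h.exists_dom u) + Classical.choose (h.exists_dom u')) :=
          (map_add _ _ _).symm)

theorem domU_spec (u : U) : ιS (h.domU u) = ιU u := Classical.choose_spec (h.exists_dom u)

/-- `U → S` (`U/pU ↪ S`). -/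
noncomputable def selIn : U →+ S := mk.comp h.domU

theorem selIn_apply (u : U) : h.selIn u = mk (h.domU u) := rfl

theorem selIn_eq {u : U} {d : Sd} (hd : ιS d = ιU u) : h.selIn u = mk d := by
  rw [selIn_apply, h.ιS_inj (hd.trans (h.domU_spec u).symm)]

theorem mk_divP_eq_zero (d : Sd) (hd : mk d = 0) : q (h.divP d) = 0 := by
  obtain ⟨x, hx⟩ := (h.mk_ker d).mp hd
  have h1 : h.divP d = φ x := h.divP_eq (by rw [hx, map_nsmul])
  rw [h1]
  exact (h.q_ker _).mpr ⟨x, rfl⟩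

/-- `S → C` (`[x] ↦ [div(x)/p]`). -/
noncomputable def selOutC : S →+ C :=
  mk.liftOfRightInverse (Function.surjInv h.mk_surj) (Function.rightInverse_surjInv h.mk_surj)
    ⟨q.comp h.divP, fun d hd => h.mk_divP_eq_zero d hd⟩

theorem selOutC_mk (d : Sd) : h.selOutC (mk d) = q (h.divP d) :=
  AddMonoidHom.liftOfRightInverse_comp_apply _ _ _ _ d

theorem nsmul_selOutC (s : S) : p • h.selOutC s = 0 := by
  obtain ⟨d, rfl⟩ := h.mk_surj s
  rw [selOutC_mk, ← map_nsmul, ← h.divP_spec]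
  exact (h.q_ker _).mpr ⟨ιS d, rfl⟩

theorem nsmul_eq_zero (s : S) : p • s = 0 := by
  obtain ⟨d, rfl⟩ := h.mk_surj s
  rw [← map_nsmul]
  exact (h.mk_ker _).mpr ⟨ιS d, map_nsmul _ _ _⟩

/-- `S → C[p]`. -/
noncomputable def selOut : S →+ ↥(Submodule.torsionBy ℤ C (p : ℤ)) :=
  (h.selOutC.toIntLinearMap.codRestrict (Submodule.torsionBy ℤ C (p : ℤ)) (fun s => by
    rw [Submodule.mem_torsionBy_iff, natCast_zsmul]
    exact h.nsmul_selOutC s)).toAddMonoidHom

theorem coe_selOut (s : S) : ((h.selOut s : ↥(Submodule.torsionBy ℤ C (p : ℤ))) : C) =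
    h.selOutC s := rfl

theorem selIn_equiv (δ : Δ) (u : U) : h.selIn (τU δ u) = τS δ (h.selIn u) := by
  rw [selIn_apply, selIn_apply]
  refine (h.mk_equiv δ (h.domU u) (h.domU (τU δ u)) ?_).symm
  rw [h.domU_spec, h.domU_spec, h.ιU_equiv]

theorem exists_smul_dom (δ : Δ) (d : Sd) : ∃ d', ιS d' = aG δ (ιS d) :=
  (h.ιS_range _).mp ⟨aF δ (h.divP d), by rw [h.φ_equiv, h.divP_spec, h.aF_nsmul]⟩

theorem selOutC_equiv (δ : Δ) (s : S) : h.selOutC (τS δ s) = τC δ (h.selOutC s) := by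
  obtain ⟨d, rfl⟩ := h.mk_surj s
  obtain ⟨d', hd'⟩ := h.exists_smul_dom δ d
  rw [h.mk_equiv δ d d' hd', selOutC_mk, selOutC_mk, ← h.q_equiv]
  congr 1
  apply h.divP_eq
  rw [hd', h.φ_equiv, h.divP_spec, h.aF_nsmul]

theorem selOut_surjective : Function.Surjective h.selOut := by
  rintro ⟨c, hc⟩
  rw [Submodule.mem_torsionBy_iff, natCast_zsmul] at hc
  obtain ⟨y, rfl⟩ := h.q_surj c
  rw [← map_nsmul] at hc
  obtain ⟨x, hx⟩ := (h.q_ker _).mp hc
  obtain ⟨d, hd⟩ := (h.ιS_range x).mp ⟨y, hx⟩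
  refine ⟨mk d, Subtype.ext ?_⟩
  rw [coe_selOut, selOutC_mk]
  congr 1
  apply h.divP_eq
  rw [hd, hx]

theorem selOut_eq_zero_iff (s : S) : h.selOut s = 0 ↔ ∃ u, h.selIn u = s := by
  have h0 : h.selOut s = 0 ↔ h.selOutC s = 0 := by
    rw [← coe_selOut, ← Submodule.coe_eq_zero]
  rw [h0]
  constructor
  · intro hs
    obtain ⟨d, rfl⟩ := h.mk_surj s
    rw [selOutC_mk] at hs
    obtain ⟨x₀, hx₀⟩ := (h.q_ker _).mp hs
    have h1 : φ (ιS d - p • x₀) = 0 := by
      rw [map_sub, map_nsmul, hx₀, h.divP_spec, sub_self]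
    obtain ⟨u, hu⟩ := (h.ιU_range _).mp h1
    refine ⟨u, ?_⟩
    rw [selIn_apply]
    have h2 : mk (d - h.domU u) = 0 := by
      refine (h.mk_ker _).mpr ⟨x₀, ?_⟩
      rw [map_sub, h.domU_spec, hu, sub_sub_cancel]
    rw [map_sub, sub_eq_zero] at h2
    exact h2.symm
  · rintro ⟨u, rfl⟩
    rw [selIn_apply, selOutC_mk]
    have h1 : h.divP (h.domU u) = 0 := by
      apply h.divP_eq
      rw [h.domU_spec, (h.ιU_range (ιU u)).mpr ⟨u, rfl⟩, smul_zero]
    rw [h1, map_zero]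

theorem selIn_pure (u : U) (hu : ∃ s, h.selIn u = p • s) : ∃ z, u = p • z := by
  obtain ⟨s, hs⟩ := hu
  rw [h.nsmul_eq_zero s, selIn_apply] at hs
  obtain ⟨x₁, hx₁⟩ := (h.mk_ker _).mp hs
  rw [h.domU_spec] at hx₁
  have h1 : φ x₁ = 0 := by
    apply h.torsionFree
    rw [← map_nsmul, ← hx₁]
    exact (h.ιU_range _).mpr ⟨u, rfl⟩
  obtain ⟨z, hz⟩ := (h.ιU_range _).mp h1
  refine ⟨z, h.ιU_inj ?_⟩
  rw [hx₁, map_nsmul, hz]

end Maps

variable {Y : Type*} [AddCommGroup Y] [Module (ZMod p) Y] [Fact p.Prime]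

/-- **(K6), abstract form**: `⟨Sel⟩ = ⟨U⟩ + ⟨C[p]⟩` with `C[p] = Submodule.torsionBy ℤ C p`. -/
theorem twNum_sel_pTors [Finite Δ] (hp : ¬ p ∣ Nat.card Δ)
    (h : SelSetup p φ aG aF τU ιU τS ιS mk τC q)
    (ω : Δ →* (ZMod p)ˣ) (ρ : Representation (ZMod p) Δ Y)
    (hfin : Module.Finite (ZMod p) ↥(twAdd τS ω ρ)) :
    twNum τS ω ρ = twNum τU ω ρ + twNum (pTorsRep (p := p) (intRep τC)) ω ρ := by
  refine twNum_exact hp τU τS (pTorsRep (p := p) (intRep τC)) ω ρ h.selIn h.selOut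
    (h.selIn_equiv) (fun δ s => Subtype.ext ?_) h.selOut_surjective h.selOut_eq_zero_iff
    h.selIn_pure hfin
  rw [coe_pTorsRep, intRep_apply, coe_selOut, coe_selOut, h.selOutC_equiv]

/-- **(K6), abstract form**: `⟨Sel⟩ = ⟨U⟩ + ⟨C⟩` for `C = coker φ` finite. -/
theorem twNum_sel [Finite Δ] (hp : ¬ p ∣ Nat.card Δ) [Finite Y] [Finite C]
    (h : SelSetup p φ aG aF τU ιU τS ιS mk τC q)
    (ω : Δ →* (ZMod p)ˣ) (ρ : Representation (ZMod p) Δ Y)
    (hfin : Module.Finite (ZMod p) ↥(twAdd τS ω ρ)) :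
    twNum τS ω ρ = twNum τU ω ρ + twNum τC ω ρ := by
  rw [h.twNum_sel_pTors hp ω ρ hfin, twNum_pTorsRep hp (intRep τC) ω ρ, twNum_intRep]

end SelSetup

end Fermat.Agent.ES.T56.SelSeq8
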