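/-
Programme T (S56), chapter GW, part D (`BaseCaseGE`), brick (K6), number-field instantiation (helper8).

`L/K` a Galois extension of number fields, `Δ = Gal(L/K)`, `p ∤ #Δ`, `Sg` a finite set of rational
primes.  The abstract Selmer sequence `SelSeq8.SelSetup.twNum_sel` at
`(G, F, φ) = (Lˣ, Div_{∉Sg}(L), div)` with the three models that the other bricks use:

* `U`   = `SUnitRep13.sUnitRep K L (primesOverT Sg K)`  (the `Sg`-units, brick K4);
* `Sel` = `SelModel28.selRepA Sg K L p`                  (`selS Sg L p ⧸ (Lˣ)^p`, brick K1);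
* `C`   = `ElemArtinCoker23.cokerRep Sg K L`             (`Cl_{Sg}(L) = Div / principal`, brick K2),

gives **`twNum_selRepA`** :
`twNum (selRepA Sg K L p) ω ρ = twNum (sUnitRep K L (primesOverT Sg K)) ω ρ + twNum (cokerRep Sg K L) ω ρ`.
-/
import Mathlib
import Fermat.Agent.PT.GLOB.UnitsBridge24
import Fermat.Agent.PT.GLOB.RecKummer15
import Fermat.Agent.ES.T56.SelSeq8
import Fermat.Agent.ES.T56.SelModel28
import Fermat.Agent.ES.T56.SUnitRep13
import Fermat.Agent.ES.T56.ElemArtinCoker23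
import Fermat.Agent.ES.T56.ElemArtinFin23

set_option autoImplicit false
set_option linter.unusedSectionVars false

open NumberField IsDedekindDomain HeightOneSpectrum Module

namespace Fermat.Agent.ES.T56.SelInst8

open Fermat.Agent.PT.GLOB.Interface23 Fermat.Agent.PT.GLOB.ClassAction23
  Fermat.Agent.PT.GLOB.RecKummer15 Fermat.Agent.PT.GLOB.RecCount15
  Fermat.Agent.PT.GLOB.KummerPairing19 Fermat.Agent.PT.GLOB.UnitsBridge24
  Fermat.Agent.PT.GLOB.SUnits24 Fermat.Agent.PT.GLOB.PrimesAbove24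
  Fermat.Agent.PT.GLOB.SUnitsGalois24
  Fermat.Agent.ES.T56.TwistNum28 Fermat.Agent.ES.T56.TwExact13 Fermat.Agent.ES.T56.SelSeq8
  Fermat.Agent.ES.T56.SelModel28 Fermat.Agent.ES.T56.SUnitRep13
  Fermat.Agent.ES.T56.ElemArtinCoker23 Fermat.Agent.ES.T56.ElemArtinFin23

/-! ### Finiteness of the Selmer model -/

section Fin

variable (Sg : Finset Nat.Primes) (L : Type) [Field L] [NumberField L] (p : ℕ)

/-- `p`-th powers are Selmer elements. -/
theorem pthPowers_le_selS : pthPowers L p ≤ selS Sg L p := by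
  rintro _ ⟨g, rfl⟩
  exact ⟨divT Sg L g, (map_pow _ g p).symm⟩

/-- **`selS Sg L p ⧸ (Lˣ)^p` is finite** (helper19's `KumSel19.finite_SelQ` for an abstract field). -/
theorem finite_SelQA (hp : 0 < p) : Finite (SelQA Sg L p) := by
  classical
  obtain ⟨Y, hY⟩ := Fermat.Agent.PT.GLOB.SelmerFinite15.exists_finset_cover L
    ((primesOverT Sg L : Finset _) : Set _) (Finset.finite_toSet _) p hp
  let T : Type := {y : Lˣ // y ∈ Y ∧ y ∈ selS Sg L p}
  have hT : Finite T := by
    apply Finite.of_injective (fun y : T => (⟨y.1, y.2.1⟩ : ↥Y))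
    intro a b h
    exact Subtype.ext (congrArg (fun z : ↥Y => (z : Lˣ)) h)
  let f : T → SelQA Sg L p := fun y => QuotientGroup.mk ⟨y.1, y.2.2⟩
  apply Finite.of_surjective f
  intro x
  induction x using QuotientGroup.induction_on with
  | H d =>
    obtain ⟨y, hyY, g, hg⟩ := hY d.1 (selS_le_selSub Sg L p d.2)
    have hgp : g ^ p ∈ selS Sg L p := pthPowers_le_selS Sg L p ⟨g, rfl⟩
    have hy : y ∈ selS Sg L p := by
      have : y = (d : Lˣ) * (g ^ p)⁻¹ := by rw [hg, mul_inv_cancel_right]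
      rw [this]
      exact (selS Sg L p).mul_mem d.2 ((selS Sg L p).inv_mem hgp)
    refine ⟨⟨y, hyY, hy⟩, ?_⟩
    show (QuotientGroup.mk ⟨y, hy⟩ : SelQA Sg L p) = QuotientGroup.mk d
    rw [QuotientGroup.eq, Subgroup.mem_subgroupOf]
    refine ⟨g, ?_⟩
    show g ^ p = ((⟨y, hy⟩ : ↥(selS Sg L p))⁻¹ * d : ↥(selS Sg L p)).1
    rw [Subgroup.coe_mul, Subgroup.coe_inv, hg, inv_mul_cancel_left]

theorem finite_SelVA (hp : 0 < p) : Finite (SelVA Sg L p) := finite_SelQA Sg L p hp

end Fin

/-! ### The data of the abstract Selmer sequence -/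

section Data

variable (Sg : Finset Nat.Primes) (K L : Type) [Field K] [Field L] [NumberField K] [NumberField L]
  [Algebra K L] (p : ℕ)

/-- `div : Lˣ → Div_{∉Sg}(L)`, additively. -/
noncomputable def phi : Additive Lˣ →+ Additive (DivT Sg L) := MonoidHom.toAdditive (divT Sg L)

theorem phi_apply (x : Additive Lˣ) :
    phi Sg L x = Additive.ofMul (divT Sg L (Additive.toMul x)) := rfl

/-- the Galois action on `Lˣ`, additively. -/
noncomputable def actG (σ : L ≃ₐ[K] L) (x : Additive Lˣ) : Additive Lˣ := Additive.ofMul (σ • Additive.toMul x)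

/-- the Galois action on the divisors, additively. -/
noncomputable def actF (σ : L ≃ₐ[K] L) (y : Additive (DivT Sg L)) : Additive (DivT Sg L) :=
  Additive.ofMul (σ • Additive.toMul y)

/-- `selS ⊆ Lˣ`, additively. -/
noncomputable def incS : Additive ↥(selS Sg L p) →+ Additive Lˣ :=
  MonoidHom.toAdditive (selS Sg L p).subtype

theorem incS_apply (d : Additive ↥(selS Sg L p)) :
    incS Sg L p d = Additive.ofMul ((Additive.toMul d : ↥(selS Sg L p)) : Lˣ) := rfl

/-- `selS → Sel`, additively. -/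
noncomputable def mkS : Additive ↥(selS Sg L p) →+ SelVA Sg L p :=
  MonoidHom.toAdditive (QuotientGroup.mk' (selPowA Sg L p))

theorem mkS_apply (d : Additive ↥(selS Sg L p)) :
    mkS Sg L p d = selMkA Sg L p (Additive.toMul d) := rfl

/-- `Div → Cl`. -/
noncomputable def quoC : Additive (DivT Sg L) →+ (Additive (DivT Sg L) ⧸ princ Sg L) :=
  (princ Sg L).mkQ.toAddMonoidHom

theorem quoC_apply (y : Additive (DivT Sg L)) : quoC Sg L y = (princ Sg L).mkQ y := rfl

/-- the divisor group has no `p`-torsion. -/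
theorem torsionFree_divT (hp : p ≠ 0) (y : Additive (DivT Sg L)) (hy : p • y = 0) : y = 0 := by
  have h1 : p • DivT.toFinsupp Sg L (Additive.toMul y) = 0 := congrArg Additive.toMul hy
  have h2 : DivT.toFinsupp Sg L (Additive.toMul y) = 0 := by
    ext P
    have h3 := DFunLike.congr_fun h1 P
    rw [Finsupp.smul_apply, Finsupp.zero_apply, smul_eq_zero] at h3
    exact h3.resolve_left hp
  exact congrArg (fun f => Additive.ofMul (DivT.ofFinsupp Sg L f)) h2

variable [IsGalois K L]

/-- the `Sg`-units in `Lˣ`, additively. -/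
noncomputable def incU :
    Additive ↥(sUnit L (above (𝓞 K) (𝓞 L) (primesOverT Sg K))) →+ Additive Lˣ :=
  MonoidHom.toAdditive (sUnit L (above (𝓞 K) (𝓞 L) (primesOverT Sg K))).subtype

theorem incU_apply (u : Additive ↥(sUnit L (above (𝓞 K) (𝓞 L) (primesOverT Sg K)))) :
    incU Sg K L u = Additive.ofMul
      ((Additive.toMul u : ↥(sUnit L (above (𝓞 K) (𝓞 L) (primesOverT Sg K)))) : Lˣ) := rfl

/-- **The hypotheses of the abstract Selmer sequence hold for `(Lˣ, Div, div)`.** -/
theorem selSetup (hp : p ≠ 0) :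
    SelSetup p (phi Sg L) (actG K L) (actF Sg K L)
      (sUnitRep K L (primesOverT Sg K)) (incU Sg K L)
      (selRepA Sg K L p) (incS Sg L p) (mkS Sg L p)
      (cokerRep Sg K L) (quoC Sg L) where
  φ_equiv σ x := congrArg Additive.ofMul (divT_smul Sg σ (Additive.toMul x))
  aF_nsmul σ y := congrArg Additive.ofMul (smul_pow' σ (Additive.toMul y) p)
  torsionFree y hy := torsionFree_divT Sg L p hp y hy
  ιU_inj u u' h := congrArg Additive.ofMul (Subtype.ext (congrArg Additive.toMul h))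
  ιU_equiv σ u := congrArg Additive.ofMul (Units.ext rfl)
  ιU_range x := by
    have h1 : phi Sg L x = 0 ↔ Additive.toMul x ∈ (divT Sg L).ker :=
      ⟨fun h => congrArg Additive.toMul h, fun h => congrArg Additive.ofMul h⟩
    rw [h1, ker_divT_eq_above Sg K L]
    constructor
    · intro hx
      exact ⟨Additive.ofMul ⟨Additive.toMul x, hx⟩, rfl⟩
    · rintro ⟨u, rfl⟩
      exact (Additive.toMul u).2
  ιS_inj d d' h := congrArg Additive.ofMul (Subtype.ext (congrArg Additive.toMul h))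
  ιS_range x := by
    constructor
    · rintro ⟨y, hy⟩
      have hx : Additive.toMul x ∈ selS Sg L p :=
        ⟨Additive.toMul y, (congrArg Additive.toMul hy).symm⟩
      exact ⟨Additive.ofMul ⟨Additive.toMul x, hx⟩, rfl⟩
    · rintro ⟨d, rfl⟩
      obtain ⟨E, hE⟩ := (Additive.toMul d).2
      exact ⟨Additive.ofMul E, congrArg Additive.ofMul hE.symm⟩
  mk_surj s := by
    obtain ⟨d, hd⟩ := selMkA_surjective Sg L p s
    exact ⟨Additive.ofMul d, hd⟩
  mk_ker d := by
    rw [mkS_apply, selMkA_eq_zero_iff]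
    constructor
    · rintro ⟨y, hy⟩
      exact ⟨Additive.ofMul y, congrArg Additive.ofMul hy.symm⟩
    · rintro ⟨x, hx⟩
      exact ⟨Additive.toMul x, (congrArg Additive.toMul hx).symm⟩
  mk_equiv σ d d' h := by
    rw [mkS_apply, mkS_apply, selRepA_mk]
    congr 1
    apply Subtype.ext
    rw [coe_selSmulA]
    exact (congrArg Additive.toMul h).symm
  q_surj := Submodule.mkQ_surjective _
  q_equiv σ y := (cokerRep_mk Sg K L σ (Additive.toMul y)).symm
  q_ker y := by
    rw [quoC_apply, Submodule.mkQ_apply, Submodule.Quotient.mk_eq_zero, mem_princ]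
    constructor
    · rintro ⟨x, hx⟩
      exact ⟨Additive.ofMul x, congrArg Additive.ofMul hx⟩
    · rintro ⟨x, hx⟩
      exact ⟨Additive.toMul x, congrArg Additive.toMul hx⟩

end Data

/-! ### (K6) -/

section Main

variable (Sg : Finset Nat.Primes) (K L : Type) [Field K] [Field L] [NumberField K] [NumberField L]
  [Algebra K L] [IsGalois K L] (p : ℕ) [hpF : Fact p.Prime]
  {Y : Type*} [AddCommGroup Y] [Module (ZMod p) Y] [Finite Y]

/-- `Hom_Δ(Sel, Y^∨(1))` is finite. -/
theorem finite_twAdd_selRepA (ω : (L ≃ₐ[K] L) →* (ZMod p)ˣ)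
    (ρ : Representation (ZMod p) (L ≃ₐ[K] L) Y) :
    Module.Finite (ZMod p) ↥(twAdd (selRepA Sg K L p) ω ρ) := by
  have h1 : Finite (SelVA Sg L p) := finite_SelVA Sg L p hpF.out.pos
  have h2 : Module.Finite ℤ (SelVA Sg L p) := Module.Finite.of_finite
  exact finite_twAdd_of_fg (selRepA Sg K L p) ω ρ

/-- **(K6)**: `⟨Sel⟩ = ⟨U_S⟩ + ⟨Cl_S⟩` for `L/K` Galois of degree prime to `p`. -/
theorem twNum_selRepA (hΔ : ¬ p ∣ Nat.card (L ≃ₐ[K] L)) (ω : (L ≃ₐ[K] L) →* (ZMod p)ˣ)
    (ρ : Representation (ZMod p) (L ≃ₐ[K] L) Y) :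
    twNum (selRepA Sg K L p) ω ρ =
      twNum (sUnitRep K L (primesOverT Sg K)) ω ρ + twNum (cokerRep Sg K L) ω ρ := by
  have hfinC : Finite (Additive (DivT Sg L) ⧸ princ Sg L) := finite_coker Sg L
  exact (selSetup Sg K L p hpF.out.ne_zero).twNum_sel hΔ ω ρ (finite_twAdd_selRepA Sg K L p ω ρ)

end Main

end Fermat.Agent.ES.T56.SelInst8
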