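/-
Programme T (S56), chapter GW, brick (K7) of `T56_BASE28.md` (helper21; written in parallel with helper28's
`BaseCaseAsm28` as a hedge): **the assembly of `GWIface21.BaseCaseGE`** from the seven bricks

* (K1) `KumTw19.twNum_sel_le`            : `⟨Sel⟩ ≤ h¹(G_S, X)`                         (helper19)
* (K2) `K2Final16.finrank_sha_dual_le_twNum` : `dim Ш¹(X*) ≤ ⟨Cl_S⟩`                    (helper16/helper23/helper3)
* (K3) `BaseK3_21.h2S_add_le`            : `h²(G_S, X) + h⁰(X*) ≤ dim Ш¹(X*) + Σ_q h⁰(G_q, X*)`  (helper21)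
* (K4) `K4Num13.twNum_sUnit`             : `⟨U_S⟩ + ⟨𝔽_p⟩ = ⟨𝔽_p[S_L ⊔ S_∞]⟩ + ⟨μ_p⟩`     (helper13)
* (K5) `PlacesCount22.twNum_placeSet`, `PlacesH0Tw22.twNum_omegaRep_base`, `twNum_trivial_base` (helper22)
* (K6) `SelInst8.twNum_selRepA`          : `⟨Sel⟩ = ⟨U_S⟩ + ⟨Cl_S⟩`                     (helper8)

for `X = D.rep = Coind_{G_K}^{G_ℚ} Y`, `D : BaseDatum Sg`.  The only new content is the identification of
helper19's `selRepΔ D` (the descent of the `G_K`-action on `Sel`) with helper28's abstract model `selRepA`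
(`twNum_selRepΔ`), and `omega`.

`globalChiGe_of` is the conditional form (finiteness, `P2Eq` and the local inequality as hypotheses);
`baseCaseGE` plugs `FinAll6`, `P2Eq25`, `LocTwoZeroLeaves2`.
-/
import Mathlib
import Fermat.Agent.ES.T56.KumTw19
import Fermat.Agent.ES.T56.K2Final16
import Fermat.Agent.ES.T56.BaseK3_21
import Fermat.Agent.ES.T56.K4Num13
import Fermat.Agent.ES.T56.PlacesCount22
import Fermat.Agent.ES.T56.PlacesH0Tw22
import Fermat.Agent.ES.T56.SelInst8
import Fermat.Agent.ES.T56.ElemArtinFin23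
import Fermat.Agent.ES.T56.BaseTrivTrick21
import Fermat.Agent.ES.T56.FinAll6
import Fermat.Agent.ES.T56.P2Eq25
import Fermat.Agent.ES.T56.LocTwoZeroLeaves2

set_option autoImplicit false

open ExtCitation Module groupCohomology

namespace Fermat.Agent.ES.T56.BaseCaseAsm21

open Fermat.Agent.ES.T56.GWIface21 Fermat.Agent.ES.T56.GWProps21 Fermat.Agent.ES.T56.BaseDict28
  Fermat.Agent.ES.T56.TwistNum28 Fermat.Agent.ES.T56.KumSel19 Fermat.Agent.ES.T56.KumLower19
  Fermat.Agent.ES.T56.KumTw19 Fermat.Agent.ES.T56.SelModel28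
open Fermat.Agent.PT.GLOB.UnitsBridge24

variable {p : ℕ} [Fact p.Prime] {Sg : Finset Nat.Primes} (D : BaseDatum (p := p) Sg)

/-- helper19's `Δ`-action on `Sel` is helper28's abstract model (same carrier, same action). -/
theorem twNum_selRepΔ :
    haveI := numberField_K D
    haveI := numberField_LK D
    twNum (selRepΔ D) (ω D) (ρΔ D) = twNum (selRepA Sg ↥D.K ↥(LK D) p) (ω D) (ρΔ D) := by
  have := numberField_K D
  have := numberField_LK D
  refine twNum_congr (selRepΔ D) (selRepA Sg ↥D.K ↥(LK D) p) (ω D) (ρΔ D)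
    (AddEquiv.refl (SelV Sg D.L p)) (fun δ x => ?_)
  obtain ⟨s, rfl⟩ := π_surjective D δ
  obtain ⟨d, rfl⟩ := selMk_surjective Sg D.L p x
  rw [selRepΔ_π, selRepK_apply, selRep_selMk]
  change selMk Sg D.L p (selSmul Sg D.L p (toStab D s) d) =
    selMkA Sg ↥(LK D) p (selSmulA Sg ↥D.K ↥(LK D) p (π D s) d)
  change selMk Sg D.L p (selSmul Sg D.L p (toStab D s) d) =
    selMk Sg D.L p (selSmulA Sg ↥D.K ↥(LK D) p (π D s) d)
  congr 1
  apply Subtype.ext
  apply Units.ext
  apply Subtype.ext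
  rw [coe_selSmul, coe_unitSmul, coe_toStab]
  exact (π_apply D s _).symm

/-- **(K7), conditional form**: the base-case inequality for `X = D.rep` from finiteness of `H¹_S`, `H²_S`,
the `P²` count and the local inequality `h²(G_q, X) ≤ h⁰(G_q, X*)`. -/
theorem globalChiGe_of (hp2 : p ≠ 2) (hpS : pPrime p ∈ Sg)
    (hfin1 : FiniteDimensional (ZMod p) ↥(continuousH1S Sg D.rep))
    (hfin2 : FiniteDimensional (ZMod p) (continuousH2S Sg D.rep))
    (hP2 : P2Eq Sg D.rep)
    (hloc : ∀ q : ↥Sg, h2loc p q.1 D.rep ≤ h0loc p q.1 (dualT p D.rep)) :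
    GlobalChiGe Sg D.rep := by
  refine ⟨hfin1, hfin2, ?_⟩
  have := numberField_K D
  have := numberField_LK D
  have := isGalois_LK D
  have := finite_Δ D
  have := isCyclic_Δ D
  have := D.fd
  have hYfin : Finite D.Y := Module.finite_of_finite (ZMod p)
  have := CoindMackey22.finiteDimensional_rep D
  have hsm := BaseTrivTrick21.isSmooth_rep D
  have hur := BaseTrivTrick21.isUnramOutside_rep D
  -- (K1)
  have k1 := twNum_sel_le D hpS hfin1
  rw [twNum_selRepΔ D] at k1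
  -- (K6)
  have k6 := SelInst8.twNum_selRepA Sg ↥D.K ↥(LK D) p (not_dvd_card_Δ D) (ω D) (ρΔ D)
  -- (K2)
  have hshafin := (BaseK3_21.sha₂_count hp2 Sg hpS D.rep hsm hur).1
  have hcokfin := ElemArtinFin23.finite_twAdd_coker Sg ↥D.K ↥(LK D) (ω D) (ρΔ D)
  have k2 := K2Final16.finrank_sha_dual_le_twNum D hp2
  -- (K3)
  have k3 := BaseK3_21.h2S_add_le hp2 Sg hpS D.rep hsm hur hP2 hloc
  -- (K4)
  obtain ⟨ζ, hζ⟩ := exists_zeta_LK D
  have k4 := K4Num13.twNum_sUnit ↥D.K ↥(LK D) (primesOverT Sg ↥D.K) p (not_dvd_card_Δ D) hζ (ω D)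
    (fun g => ω_spec D g hζ.pow_eq_one) (ω D) (ρΔ D)
  -- (K5)
  have k5a := PlacesCount22.twNum_placeSet D hp2
  have k5b := PlacesH0Tw22.twNum_omegaRep_base D
  have k5c : twNum (Representation.trivial (ZMod p) (↥(LK D) ≃ₐ[↥D.K] ↥(LK D)) (ZMod p)) (ω D) (ρΔ D) =
      h0 p (dualT p D.rep) := PlacesH0Tw22.twNum_trivial_base D
  have hc := H0cDual22.h0c_add_h0c_dualT (p := p) (X := D.rep) hp2
  omega

/-- **(K7) `BaseCaseGE`**, unconditional for odd `p` and `p ∈ Sg`. -/
theorem baseCaseGE (hp2 : p ≠ 2) (Sg : Finset Nat.Primes) (hpS : pPrime p ∈ Sg) :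
    BaseCaseGE (p := p) Sg := by
  intro D
  have := CoindMackey22.finiteDimensional_rep D
  have hsm := BaseTrivTrick21.isSmooth_rep D
  have hur := BaseTrivTrick21.isUnramOutside_rep D
  have hF := FinAll6.finAll_forall hp2 Sg hpS LocTwoZeroLeaves2.locH2Fin D.rep inferInstance hsm hur
  exact globalChiGe_of D hp2 hpS hF.h1S hF.h2S
    (P2Eq25.p2Eq_forall hp2 Sg hpS D.rep inferInstance hsm hur)
    (LocTwoZeroLeaves2.hlocK3 Sg D.rep hsm)

end Fermat.Agent.ES.T56.BaseCaseAsm21
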