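/-
Programme T (S56, Taylor–Wiles primes), chapter FLAT (Fontaine's ramification bound), Hopf side,
brick `ConvPiAdic` (helper20).

`R` a commutative ring, `B` a coalgebra which is free as an `R`-module, `S` a commutative
`R`-algebra.  The convolution algebra `𝔄 = WithConv (B →ₗ[R] S)` is an `S`-algebra
(`LinearMap.convAlgebra`), and

* `algebraMap_mul_apply` : `(algebraMap S 𝔄 s * f) b = s * f b`;
* `algebraMap_dvd_iff` : `algebraMap S 𝔄 s ∣ f ↔ ∀ b, s ∣ f b` (divisibility is pointwise);
* `convPiAdic` : if `S` is `π`-adically separated and complete with `π` a non-zero-divisor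
  (`PiAdic S π` of `PT.LOC.UnitFiltration10`) then so is `𝔄` for `algebraMap S 𝔄 π`.
-/
import Mathlib
import Fermat.Agent.PT.LOC.UnitFiltration10

set_option autoImplicit false
set_option linter.unusedSectionVars false

namespace Fermat.Agent.ES.T56.ConvPiAdic20

open Fermat.Agent.PT.LOC.UnitFiltration10 WithConv Coalgebra

section General

variable {R : Type*} [CommRing R] {B : Type*} [AddCommGroup B] [Module R B] [Coalgebra R B]
  {S : Type*} [CommRing S] [Algebra R S]

theorem algebraMap_mul_apply (s : S) (f : WithConv (B →ₗ[R] S)) (b : B) :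
    (algebraMap S (WithConv (B →ₗ[R] S)) s * f) b = s * f b := by
  rw [Algebra.algebraMap_eq_smul_one, smul_mul_assoc, one_mul]
  rfl

theorem algebraMap_pow_mul_apply (s : S) (k : ℕ) (f : WithConv (B →ₗ[R] S)) (b : B) :
    (algebraMap S (WithConv (B →ₗ[R] S)) s ^ k * f) b = s ^ k * f b := by
  rw [← map_pow, algebraMap_mul_apply]

theorem apply_of_algebraMap_dvd {s : S} {f : WithConv (B →ₗ[R] S)}
    (h : algebraMap S (WithConv (B →ₗ[R] S)) s ∣ f) (b : B) : s ∣ f b := by
  obtain ⟨g, rfl⟩ := h
  exact ⟨g b, algebraMap_mul_apply s g b⟩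

theorem sub_apply' (f g : WithConv (B →ₗ[R] S)) (b : B) : (f - g) b = f b - g b := rfl

theorem ext_apply {f g : WithConv (B →ₗ[R] S)} (h : ∀ b, f b = g b) : f = g :=
  WithConv.ext (LinearMap.ext h)

end General

section Free

variable {R : Type*} [CommRing R] {B : Type*} [AddCommGroup B] [Module R B] [Coalgebra R B]
  [Module.Free R B]
  {S : Type*} [CommRing S] [Algebra R S]

/-- A linear map with prescribed values on a chosen basis. -/
theorem exists_linearMap_basis (v : Module.Free.ChooseBasisIndex R B → S) :
    ∃ g : B →ₗ[R] S, ∀ i, g (Module.Free.chooseBasis R B i) = v i :=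
  ⟨(Module.Free.chooseBasis R B).constr R v, fun _ => Module.Basis.constr_basis _ _ _ _⟩

/-- Divisibility by a scalar in the convolution algebra is pointwise (on a finite free coalgebra). -/
theorem algebraMap_dvd_iff (s : S) (f : WithConv (B →ₗ[R] S)) :
    algebraMap S (WithConv (B →ₗ[R] S)) s ∣ f ↔ ∀ b, s ∣ f b := by
  refine ⟨fun h b => apply_of_algebraMap_dvd h b, fun h => ?_⟩
  choose c hc using fun i => h (Module.Free.chooseBasis R B i)
  obtain ⟨g, hg⟩ := exists_linearMap_basis (R := R) (B := B) c
  refine ⟨toConv g, WithConv.ext ?_⟩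
  refine (Module.Free.chooseBasis R B).ext fun i => ?_
  have h1 : (algebraMap S (WithConv (B →ₗ[R] S)) s * toConv g) (Module.Free.chooseBasis R B i)
      = s * g (Module.Free.chooseBasis R B i) := algebraMap_mul_apply s (toConv g) _
  change f (Module.Free.chooseBasis R B i) = _
  rw [hc i, ← hg i]
  exact h1.symm

theorem algebraMap_pow_dvd_iff (s : S) (k : ℕ) (f : WithConv (B →ₗ[R] S)) :
    algebraMap S (WithConv (B →ₗ[R] S)) s ^ k ∣ f ↔ ∀ b, s ^ k ∣ f b := by
  rw [← map_pow, algebraMap_dvd_iff]

/-- **The convolution algebra of a finite free coalgebra with coefficients in a `π`-adic ring is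
`π`-adic.** -/
theorem convPiAdic [Coalgebra.IsCocomm R B] {π : S} (h : PiAdic S π) :
    PiAdic (WithConv (B →ₗ[R] S)) (algebraMap S (WithConv (B →ₗ[R] S)) π) where
  nzd := fun f hf => by
    refine ext_apply fun b => ?_
    have h1 : (algebraMap S (WithConv (B →ₗ[R] S)) π * f) b = π * f b :=
      algebraMap_mul_apply π f b
    rw [hf] at h1
    exact h.nzd _ h1.symm
  sep := fun f hf => by
    refine ext_apply fun b => ?_
    exact h.sep _ fun k => (algebraMap_pow_dvd_iff π k f).1 (hf k) b
  complete := fun f hf => by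
    have hc : ∀ i : Module.Free.ChooseBasisIndex R B, ∃ L : S, ∀ k,
        π ^ k ∣ L - f k (Module.Free.chooseBasis R B i) := fun i =>
      h.complete (fun k => f k (Module.Free.chooseBasis R B i)) fun k =>
        (algebraMap_pow_dvd_iff π k _).1 (hf k) _
    choose L hL using hc
    obtain ⟨g, hg⟩ := exists_linearMap_basis (R := R) (B := B) L
    refine ⟨toConv g, fun k => ?_⟩
    -- divisibility of `g - f k` : check on the basis, with explicit quotients
    choose c hcq using fun i => hL i k
    obtain ⟨d, hd⟩ := exists_linearMap_basis (R := R) (B := B) c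
    refine ⟨toConv d, WithConv.ext ?_⟩
    refine (Module.Free.chooseBasis R B).ext fun i => ?_
    have h1 : (algebraMap S (WithConv (B →ₗ[R] S)) π ^ k * toConv d)
        (Module.Free.chooseBasis R B i) = π ^ k * d (Module.Free.chooseBasis R B i) :=
      algebraMap_pow_mul_apply π k (toConv d) _
    change g (Module.Free.chooseBasis R B i) - f k (Module.Free.chooseBasis R B i) = _
    rw [hg i, hcq i, ← hd i]
    exact h1.symm

end Free

end Fermat.Agent.ES.T56.ConvPiAdic20
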