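/-
Programme T (S56, Taylor–Wiles primes), chapter FLAT (Fontaine's ramification bound), Hopf side,
brick (F1)/(F2) (helper20): two binomial-theorem lemmas in a `π`-adically separated and complete
commutative ring `B` in which `p = π ^ e * unit` and `e < (p - 1) * τ` ("`t > e/(p-1)`").

* `eq_one_of_pow_prime_eq_one` (F1): `q ≡ 1 mod π ^ τ`, `q ^ p = 1`  ⟹  `q = 1`
  (no non-trivial `p`-torsion in `1 + π ^ τ B`).
* `exists_prime_root` (F2): every `1 + p * π ^ τ * x` has a `p`-th root `z ≡ 1 mod π ^ τ`.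
-/
import Mathlib
import Fermat.Agent.PT.LOC.UnitFiltration10

set_option autoImplicit false

namespace Fermat.Agent.ES.T56.PthRoot20

open Finset Fermat.Agent.PT.LOC.UnitFiltration10

section Binomial

variable {B : Type*} [CommRing B]

/-- `(1 + w) ^ p = 1 + p w + p w² s + w ^ p` for a prime `p`. -/
theorem exists_one_add_pow_prime {p : ℕ} (hp : p.Prime) (w : B) :
    ∃ s : B, (1 + w) ^ p = 1 + p * w + p * w ^ 2 * s + w ^ p := by
  have h := add_pow_prime_eq' hp w (1 : B)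
  have hsplit : Ioo 0 p = insert 1 (Ioo 1 p) := by
    ext k
    simp only [mem_Ioo, mem_insert]
    have := hp.two_le
    omega
  have h1 : (1 : ℕ) ∉ Ioo 1 p := by simp
  refine ⟨∑ k ∈ Ioo 1 p, w ^ (k - 2) * ((p.choose k / p : ℕ) : B), ?_⟩
  rw [add_comm 1 w, h, hsplit, sum_insert h1]
  have hc : p.choose 1 / p = 1 := by
    rw [Nat.choose_one_right]; exact Nat.div_self hp.pos
  have h2 : ∑ k ∈ Ioo 1 p, w ^ k * (1 : B) ^ (p - k) * ((p.choose k / p : ℕ) : B)
      = w ^ 2 * ∑ k ∈ Ioo 1 p, w ^ (k - 2) * ((p.choose k / p : ℕ) : B) := by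
    rw [mul_sum]
    refine sum_congr rfl fun k hk => ?_
    have hk2 : 2 ≤ k := (mem_Ioo.1 hk).1
    have : w ^ k = w ^ 2 * w ^ (k - 2) := by rw [← pow_add]; congr 1; omega
    rw [this, one_pow]; ring
  rw [h2, hc]
  simp only [pow_one, one_pow, Nat.cast_one, mul_one]
  ring

end Binomial

section Main

variable {B : Type*} [CommRing B] {π : B} (h : PiAdic B π)
variable {p : ℕ} (hp : p.Prime) {e : ℕ} {u : Bˣ} (hpe : (p : B) = π ^ e * u)
variable {τ : ℕ} (hτ : e < (p - 1) * τ)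

include h hp hpe hτ

/-- **(F1)**: no non-trivial `p`-torsion in `1 + π ^ τ B`. -/
theorem eq_one_of_pow_prime_eq_one (q : B) (hq : π ^ τ ∣ q - 1) (hqp : q ^ p = 1) : q = 1 := by
  by_contra hne
  have hw0 : q - 1 ≠ 0 := sub_ne_zero.mpr hne
  -- the exact order `r` of `w = q - 1`
  have hex : ∃ k, ¬ π ^ k ∣ q - 1 := by
    by_contra hall
    push Not at hall
    exact hw0 (h.sep _ hall)
  classical
  let k₀ := Nat.find hex
  have hk₀ : ¬ π ^ k₀ ∣ q - 1 := Nat.find_spec hex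
  have hk₀pos : k₀ ≠ 0 := by
    intro h0
    apply hk₀
    rw [h0, pow_zero]; exact one_dvd _
  obtain ⟨r, hr⟩ : ∃ r, k₀ = r + 1 := Nat.exists_eq_succ_of_ne_zero hk₀pos
  have hrdvd : π ^ r ∣ q - 1 := by
    by_contra hnot
    have := Nat.find_min' hex hnot
    omega
  have hτr : τ ≤ r := by
    by_contra hlt
    push Not at hlt
    apply hk₀
    rw [hr]
    exact (pow_dvd_pow π hlt).trans hq
  obtain ⟨w₀, hw₀⟩ := hrdvd
  have hw₀nd : ¬ π ∣ w₀ := by
    rintro ⟨c, hc⟩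
    apply hk₀
    rw [hr, hw₀, hc]
    exact ⟨c, by ring⟩
  -- expand `q ^ p = (1 + w) ^ p`
  obtain ⟨s, hs⟩ := exists_one_add_pow_prime hp (q - 1)
  have hq1 : (1 : B) + (q - 1) = q := by ring
  rw [hq1, hqp] at hs
  have hp2 : 2 ≤ p := hp.two_le
  have hτpos : 1 ≤ τ := by
    by_contra h0
    push Not at h0
    have : τ = 0 := by omega
    rw [this] at hτ; omega
  have hr1 : 1 ≤ r := le_trans hτpos hτr
  -- exponent bookkeeping
  have hexp : e + r + 1 ≤ p * r := by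
    have h1 : (p - 1) * τ ≤ (p - 1) * r := Nat.mul_le_mul_left _ hτr
    have h2 : p * r = (p - 1) * r + r := by
      have : p = (p - 1) + 1 := by omega
      conv_lhs => rw [this]
      ring
    omega
  obtain ⟨d, hd⟩ : ∃ d, p * r = e + r + 1 + d := ⟨p * r - (e + r + 1), by omega⟩
  obtain ⟨r', hr'⟩ : ∃ r', r = r' + 1 := ⟨r - 1, by omega⟩
  have key : π ^ (e + r) * ((u : B) * w₀ + π * ((u : B) * π ^ r' * w₀ ^ 2 * s
      + π ^ d * w₀ ^ p)) = 0 := by
    have e1 : (p : B) * (q - 1) = π ^ (e + r) * ((u : B) * w₀) := by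
      rw [hpe, hw₀]; ring
    have e2 : (p : B) * (q - 1) ^ 2 * s
        = π ^ (e + r) * (π * ((u : B) * π ^ r' * w₀ ^ 2 * s)) := by
      rw [hpe, hw₀, hr']
      ring
    have e3 : (q - 1) ^ p = π ^ (e + r) * (π * (π ^ d * w₀ ^ p)) := by
      rw [hw₀, mul_pow, ← pow_mul, mul_comm r p, hd]
      rw [show e + r + 1 + d = (e + r) + 1 + d by ring, pow_add, pow_add, pow_one]
      ring
    have : (1 : B) = 1 + (π ^ (e + r) * ((u : B) * w₀)
        + π ^ (e + r) * (π * ((u : B) * π ^ r' * w₀ ^ 2 * s))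
        + π ^ (e + r) * (π * (π ^ d * w₀ ^ p))) := by
      rw [← e1, ← e2, ← e3]
      linear_combination hs
    have h0 : π ^ (e + r) * ((u : B) * w₀)
        + π ^ (e + r) * (π * ((u : B) * π ^ r' * w₀ ^ 2 * s))
        + π ^ (e + r) * (π * (π ^ d * w₀ ^ p)) = 0 := by
      linear_combination -this
    rw [← h0]; ring
  have key2 := h.pow_nzd (e + r) _ key
  apply hw₀nd
  have : (u : B) * w₀ = π * (-((u : B) * π ^ r' * w₀ ^ 2 * s + π ^ d * w₀ ^ p)) := by
    linear_combination key2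
  have h3 : w₀ = π * ((↑u⁻¹ : B) * (-((u : B) * π ^ r' * w₀ ^ 2 * s + π ^ d * w₀ ^ p))) := by
    have hu : (↑u⁻¹ : B) * (u : B) = 1 := by simp
    calc w₀ = (↑u⁻¹ : B) * ((u : B) * w₀) := by rw [← mul_assoc, hu, one_mul]
      _ = _ := by rw [this]; ring
  exact ⟨_, h3⟩

/-- the approximation property at step `J`. -/
def Approx (π : B) (p τ : ℕ) (hh : B) (J : ℕ) (z : B) : Prop :=
  π ^ τ ∣ z - 1 ∧ ∃ y : B, hh - z ^ p = p * π ^ (τ + J) * y

omit hp hpe hτ in
/-- an element `≡ 1 mod π` is a unit (`τ ≥ 1`). -/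
theorem isUnit_of_dvd_sub_one {z : B} {k : ℕ} (hk : 1 ≤ k) (hz : π ^ k ∣ z - 1) : IsUnit z := by
  obtain ⟨c, hc⟩ := hz
  obtain ⟨k', rfl⟩ : ∃ k', k = k' + 1 := ⟨k - 1, by omega⟩
  have : z = 1 + π * (π ^ k' * c) := by
    rw [pow_succ] at hc
    linear_combination hc
  rw [this]
  exact h.isUnit_one_add _

/-- one Newton-type step: from an approximation mod `p π ^ (τ + J)` to one mod
`p π ^ (τ + J + 1)`. -/
theorem approx_step (hh : B) (J : ℕ) (z : B) (hz : Approx π p τ hh J z) :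
    ∃ z' : B, π ^ (τ + J) ∣ z' - z ∧ Approx π p τ hh (J + 1) z' := by
  obtain ⟨hz1, y, hy⟩ := hz
  have hp2 : 2 ≤ p := hp.two_le
  have hτpos : 1 ≤ τ := by
    by_contra h0
    push Not at h0
    have : τ = 0 := by omega
    rw [this] at hτ; omega
  obtain ⟨zu, hzu⟩ := isUnit_of_dvd_sub_one h hτpos hz1
  set zi : B := ((zu⁻¹ : Bˣ) : B) with hzi
  have hzzi : z * zi = 1 := by rw [← hzu, hzi]; simp
  set t : B := π ^ (τ + J) * (y * zi ^ p) with ht
  obtain ⟨s, hs⟩ := exists_one_add_pow_prime hp t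
  -- exponent bookkeeping
  have hexp : e + (τ + J) + 1 ≤ p * (τ + J) := by
    have h1 : (p - 1) * τ ≤ (p - 1) * (τ + J) := Nat.mul_le_mul_left _ (by omega)
    have h2 : p * (τ + J) = (p - 1) * (τ + J) + (τ + J) := by
      have : p = (p - 1) + 1 := by omega
      conv_lhs => rw [this]
      ring
    omega
  obtain ⟨d, hd⟩ : ∃ d, p * (τ + J) = e + (τ + J) + 1 + d :=
    ⟨p * (τ + J) - (e + (τ + J) + 1), by omega⟩
  obtain ⟨m, hm⟩ : ∃ m, τ + J = m + 1 := ⟨τ + J - 1, by omega⟩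
  have hui : (u : B) * (↑u⁻¹ : B) = 1 := by simp
  refine ⟨z * (1 + t), ?_, ?_, ?_⟩
  · refine ⟨z * (y * zi ^ p), ?_⟩
    rw [ht]; ring
  · have : z * (1 + t) - 1 = (z - 1) + π ^ (τ + J) * (z * (y * zi ^ p)) := by rw [ht]; ring
    rw [this]
    exact dvd_add hz1 ((pow_dvd_pow π (Nat.le_add_right τ J)).trans (dvd_mul_right _ _))
  · have hzt : z ^ p * t = π ^ (τ + J) * y := by
      rw [ht]
      have : z ^ p * zi ^ p = 1 := by rw [← mul_pow, hzzi, one_pow]
      calc z ^ p * (π ^ (τ + J) * (y * zi ^ p)) = π ^ (τ + J) * y * (z ^ p * zi ^ p) := by ring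
        _ = π ^ (τ + J) * y := by rw [this, mul_one]
    have ht2 : (p : B) * t ^ 2 * s
        = p * π ^ (τ + (J + 1)) * (π ^ m * (y * zi ^ p) ^ 2 * s) := by
      rw [ht, ← add_assoc, hm]
      ring
    have htp : t ^ p = p * π ^ (τ + (J + 1)) * ((↑u⁻¹ : B) * π ^ d * (y * zi ^ p) ^ p) := by
      have e1 : t ^ p = π ^ (p * (τ + J)) * (y * zi ^ p) ^ p := by
        rw [ht, mul_pow, ← pow_mul, mul_comm (τ + J) p]
      have e2 : π ^ (p * (τ + J)) = π ^ e * π ^ (τ + (J + 1)) * π ^ d := by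
        rw [hd]; ring
      rw [e1, e2, hpe]
      calc π ^ e * π ^ (τ + (J + 1)) * π ^ d * (y * zi ^ p) ^ p
          = ((u : B) * (↑u⁻¹ : B)) * (π ^ e * π ^ (τ + (J + 1)) * π ^ d * (y * zi ^ p) ^ p) := by
            rw [hui, one_mul]
        _ = _ := by ring
    refine ⟨-(z ^ p * (π ^ m * (y * zi ^ p) ^ 2 * s + (↑u⁻¹ : B) * π ^ d * (y * zi ^ p) ^ p)), ?_⟩
    have hexpand : (z * (1 + t)) ^ p
        = z ^ p + p * (z ^ p * t) + z ^ p * (p * t ^ 2 * s) + z ^ p * t ^ p := by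
      rw [mul_pow, hs]; ring
    rw [hexpand, hzt, ht2, htp]
    have hy' : hh = z ^ p + p * π ^ (τ + J) * y := by linear_combination hy
    rw [hy']
    ring

/-- **(F2)**: every `1 + p π ^ τ x` has a `p`-th root `≡ 1 mod π ^ τ`. -/
theorem exists_prime_root (x : B) :
    ∃ z : B, π ^ τ ∣ z - 1 ∧ z ^ p = 1 + p * π ^ τ * x := by
  classical
  set hh : B := 1 + p * π ^ τ * x with hhh
  have base : Approx π p τ hh 0 1 := by
    refine ⟨by simp, x, ?_⟩
    rw [hhh]; ring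
  -- the sequence of approximations
  let seq : (J : ℕ) → {z : B // Approx π p τ hh J z} := fun J =>
    Nat.rec (motive := fun J => {z : B // Approx π p τ hh J z}) ⟨1, base⟩
      (fun J zJ => ⟨Classical.choose (approx_step h hp hpe hτ hh J zJ.1 zJ.2),
        (Classical.choose_spec (approx_step h hp hpe hτ hh J zJ.1 zJ.2)).2⟩) J
  have hseq0 : (seq 0).1 = 1 := rfl
  have hseqS : ∀ J, π ^ (τ + J) ∣ (seq (J + 1)).1 - (seq J).1 := fun J =>
    (Classical.choose_spec (approx_step h hp hpe hτ hh J (seq J).1 (seq J).2)).1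
  let f : ℕ → B := fun k => (seq (k - τ)).1
  have hf : ∀ k, π ^ k ∣ f (k + 1) - f k := by
    intro k
    by_cases hk : τ ≤ k
    · have h1 : k + 1 - τ = (k - τ) + 1 := by omega
      have h2 : τ + (k - τ) = k := by omega
      have := hseqS (k - τ)
      rw [h2] at this
      show π ^ k ∣ (seq (k + 1 - τ)).1 - (seq (k - τ)).1
      rw [h1]; exact this
    · have h1 : k + 1 - τ = 0 := by omega
      have h2 : k - τ = 0 := by omega
      show π ^ k ∣ (seq (k + 1 - τ)).1 - (seq (k - τ)).1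
      rw [h1, h2, sub_self]; exact dvd_zero _
  obtain ⟨L, hL⟩ := h.complete f hf
  refine ⟨L, ?_, ?_⟩
  · have := hL τ
    have hfτ : f τ = 1 := by show (seq (τ - τ)).1 = 1; rw [Nat.sub_self]; exact hseq0
    rwa [hfτ] at this
  · rw [← sub_eq_zero]
    apply h.sep
    intro k
    -- work at level `k + τ`
    have hk1 : π ^ (k + τ) ∣ L - f (k + τ) := hL (k + τ)
    obtain ⟨y, hy⟩ := (seq (k + τ - τ)).2.2
    have hidx : k + τ - τ = k := by omega
    have hfk : f (k + τ) = (seq k).1 := by show (seq (k + τ - τ)).1 = _; rw [hidx]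
    have hy' : hh - f (k + τ) ^ p = p * π ^ (τ + (k + τ - τ)) * y := hy
    rw [hidx] at hy'
    have h1 : π ^ k ∣ hh - f (k + τ) ^ p := by
      rw [hy']
      exact ⟨p * π ^ τ * y, by rw [pow_add]; ring⟩
    have h2 : π ^ k ∣ L ^ p - f (k + τ) ^ p :=
      ((pow_dvd_pow π (Nat.le_add_right k τ)).trans hk1).trans (sub_dvd_pow_sub_pow _ _ _)
    have : L ^ p - hh = (L ^ p - f (k + τ) ^ p) - (hh - f (k + τ) ^ p) := by ring
    rw [this]
    exact dvd_sub h2 h1

end Main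

end Fermat.Agent.ES.T56.PthRoot20
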