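/-
Programme T (S56, Taylor–Wiles primes), chapter FLAT (Fontaine's ramification bound), Hopf side,
brick PROP F (i) (helper20): **points of a finite free cocommutative bialgebra that are killed by
`p` are determined by their reduction modulo `π ^ τ`** as soon as `e < (p - 1) τ`
(`p = π ^ e · unit` in the `π`-adic coefficient ring `S`).

* `lin x` : the point `x : WithConv (B →ₐ[R] S)` as an element of the commutative convolution
  algebra `𝔄 = WithConv (B →ₗ[R] S)`; `lin_mul`, `lin_pow`, `lin_one`, `lin_injective`.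
* `eq_of_pow_prime_eq_one` : in a `π`-adic ring, `X ^ p = 1 = Y ^ p`, `π ^ τ ∣ X - Y` ⟹ `X = Y`.
* `natCast_eq` : `(p : 𝔄) = π̂ ^ e * û`.
* `point_eq_of_dvd_sub` (PROP F (i)): `x ^ p = 1`, `x' ^ p = 1`, `∀ b, π ^ τ ∣ x b - x' b`
  ⟹ `x = x'`.  Only a bialgebra is needed (no antipode: `x'⁻¹ = x' ^ (p - 1)`).
-/
import Mathlib
import Fermat.Agent.ES.T56.PthRoot20
import Fermat.Agent.ES.T56.ConvPiAdic20

set_option autoImplicit false
set_option linter.unusedSectionVars false

namespace Fermat.Agent.ES.T56.PropFi20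

open Fermat.Agent.PT.LOC.UnitFiltration10 WithConv Coalgebra
open Fermat.Agent.ES.T56.PthRoot20 Fermat.Agent.ES.T56.ConvPiAdic20

section Ring

variable {A : Type*} [CommRing A] {π : A} (h : PiAdic A π)
variable {p : ℕ} (hp : p.Prime) {e : ℕ} {u : Aˣ} (hpe : (p : A) = π ^ e * u)
variable {τ : ℕ} (hτ : e < (p - 1) * τ)

include h hp hpe hτ

/-- In a `π`-adic ring with `p = π ^ e · unit`, `e < (p - 1) τ`: two `p`-torsion elements which
are congruent modulo `π ^ τ` are equal. -/
theorem eq_of_pow_prime_eq_one (X Y : A) (hX : X ^ p = 1) (hY : Y ^ p = 1)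
    (hd : π ^ τ ∣ X - Y) : X = Y := by
  have hp1 : p = (p - 1) + 1 := by have := hp.pos; omega
  have hY' : Y ^ (p - 1) * Y = 1 := by rw [← pow_succ, ← hp1]; exact hY
  have hq1 : π ^ τ ∣ X * Y ^ (p - 1) - 1 := by
    have : X * Y ^ (p - 1) - 1 = (X - Y) * Y ^ (p - 1) := by
      rw [sub_mul, mul_comm Y (Y ^ (p - 1)), hY']
    rw [this]
    exact Dvd.dvd.mul_right hd _
  have hqp : (X * Y ^ (p - 1)) ^ p = 1 := by
    rw [mul_pow, hX, one_mul, ← pow_mul, mul_comm, pow_mul, hY, one_pow]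
  have hq := eq_one_of_pow_prime_eq_one h hp hpe hτ _ hq1 hqp
  calc X = X * (Y ^ (p - 1) * Y) := by rw [hY', mul_one]
    _ = (X * Y ^ (p - 1)) * Y := by rw [mul_assoc]
    _ = Y := by rw [hq, one_mul]

end Ring

variable {R : Type*} [CommRing R] {B : Type*} [CommRing B] [Bialgebra R B]
  {S : Type*} [CommRing S] [Algebra R S]

/-- A point `x : B →ₐ[R] S`, as an element of the convolution algebra `WithConv (B →ₗ[R] S)`. -/
def lin (x : WithConv (B →ₐ[R] S)) : WithConv (B →ₗ[R] S) := toConv x.ofConv.toLinearMap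

@[simp] theorem lin_apply (x : WithConv (B →ₐ[R] S)) (b : B) : lin x b = x b := rfl

theorem lin_one : lin (1 : WithConv (B →ₐ[R] S)) = 1 := AlgHom.toLinearMap_convOne

theorem lin_mul (x y : WithConv (B →ₐ[R] S)) : lin (x * y) = lin x * lin y :=
  AlgHom.toLinearMap_convMul x y

theorem lin_pow (x : WithConv (B →ₐ[R] S)) (n : ℕ) : lin (x ^ n) = lin x ^ n :=
  AlgHom.toLinearMap_convPow x n

theorem lin_injective : Function.Injective (lin : WithConv (B →ₐ[R] S) → _) := fun x y h => by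
  apply WithConv.ext
  apply AlgHom.toLinearMap_injective
  exact congrArg WithConv.ofConv h

section Main

variable [Coalgebra.IsCocomm R B] [Module.Free R B]
variable {π : S} (h : PiAdic S π)
variable {p : ℕ} (hp : p.Prime) {e : ℕ} {u : Sˣ} (hpe : (p : S) = π ^ e * u)
variable {τ : ℕ} (hτ : e < (p - 1) * τ)

/-- `p = π̂ ^ e · û` in the convolution algebra. -/
theorem natCast_eq (hpe : (p : S) = π ^ e * u) :
    ((p : ℕ) : WithConv (B →ₗ[R] S)) = algebraMap S (WithConv (B →ₗ[R] S)) π ^ e *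
      ((Units.map (algebraMap S (WithConv (B →ₗ[R] S))).toMonoidHom u : (WithConv (B →ₗ[R] S))ˣ) :
        WithConv (B →ₗ[R] S)) := by
  have h1 : ((p : ℕ) : WithConv (B →ₗ[R] S)) = algebraMap S (WithConv (B →ₗ[R] S)) (p : S) :=
    (map_natCast _ p).symm
  rw [h1, hpe, map_mul, map_pow]
  rfl

include h hp hpe hτ

/-- **PROP F (i).** -/
theorem point_eq_of_dvd_sub (x x' : WithConv (B →ₐ[R] S)) (hx : x ^ p = 1) (hx' : x' ^ p = 1)
    (hxx : ∀ b, π ^ τ ∣ x b - x' b) : x = x' := by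
  have hA : PiAdic (WithConv (B →ₗ[R] S)) (algebraMap S (WithConv (B →ₗ[R] S)) π) :=
    convPiAdic h
  have hX : lin x ^ p = 1 := by rw [← lin_pow, hx, lin_one]
  have hX' : lin x' ^ p = 1 := by rw [← lin_pow, hx', lin_one]
  have hd : algebraMap S (WithConv (B →ₗ[R] S)) π ^ τ ∣ lin x - lin x' := by
    rw [algebraMap_pow_dvd_iff]
    intro b
    exact hxx b
  exact lin_injective
    (eq_of_pow_prime_eq_one hA hp (natCast_eq (R := R) (B := B) hpe) hτ _ _ hX hX' hd)

end Main

end Fermat.Agent.ES.T56.PropFi20
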