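/-
Programme T (S56, Taylor–Wiles primes), chapter FLAT-P (étale–connected patch, T56_FLAT.md §5),
brick 1 (helper26): **scheme-theoretic invariants of a set `E` of points and the ideal of
functionals vanishing on them**.

`R` a commutative ring, `B` a commutative, cocommutative `R`-bialgebra, free as an `R`-module,
`O` a commutative `R`-algebra; `𝔄 = WithConv (B →ₗ[R] O)` is the commutative convolution algebra
and a point `t : WithConv (B →ₐ[R] O)` is the element `lin t` of `𝔄` (`PropFi20`).

* `invSub E` : the `R`-submodule of the `b : B` with `(f * lin t) b = f b` for all `t ∈ E` and all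
  functionals `f` (the functions on the quotient by `E`; for group-like `f` this says that `b` is
  invariant under translation by `t`).
* `conv_apply_of_repr` : `(g * f) b = ∑ᵢ g (ℬ i) * f (cᵢ)` if `comul b = ∑ᵢ ℬ i ⊗ cᵢ`.
* `repr_mem_invSub` : for `b ∈ invSub E` and `comul b = ∑ᵢ ℬ i ⊗ cᵢ` (`ℬ` a basis of `B`) all
  `cᵢ ∈ invSub E` ("`Δ(invSub) ⊆ B ⊗ invSub`").
* `kerIdeal E` : the ideal of `𝔄` of the functionals vanishing on `invSub E`.
-/
import Mathlib
import Fermat.Agent.ES.T56.PropFi20

set_option autoImplicit false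
set_option linter.unusedSectionVars false

namespace Fermat.Agent.ES.T56.InvIdeal26

open WithConv Coalgebra TensorProduct
open Fermat.Agent.ES.T56.PropFi20

variable {R : Type*} [CommRing R] {B : Type*} [CommRing B] [Bialgebra R B]
  {O : Type*} [CommRing O] [Algebra R O]

theorem add_apply' (f g : WithConv (B →ₗ[R] O)) (b : B) : (f + g) b = f b + g b := rfl

theorem apply_add' (f : WithConv (B →ₗ[R] O)) (a b : B) : f (a + b) = f a + f b :=
  map_add f.ofConv a b

theorem apply_smul' (f : WithConv (B →ₗ[R] O)) (r : R) (b : B) : f (r • b) = r • f b :=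
  map_smul f.ofConv r b

theorem apply_zero' (f : WithConv (B →ₗ[R] O)) : f (0 : B) = 0 := map_zero f.ofConv

/-- The scheme-theoretic invariants of a set `E` of points. -/
def invSub (E : Set (WithConv (B →ₐ[R] O))) : Submodule R B where
  carrier := {b | ∀ t ∈ E, ∀ f : WithConv (B →ₗ[R] O), (f * lin t) b = f b}
  add_mem' := fun {a b} ha hb t ht f => by
    rw [apply_add', apply_add', ha t ht f, hb t ht f]
  zero_mem' := fun t _ f => by rw [apply_zero', apply_zero']
  smul_mem' := fun r b hb t ht f => by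
    rw [apply_smul', apply_smul', hb t ht f]

theorem mem_invSub_iff (E : Set (WithConv (B →ₐ[R] O))) (b : B) :
    b ∈ invSub E ↔ ∀ t ∈ E, ∀ f : WithConv (B →ₗ[R] O), (f * lin t) b = f b := Iff.rfl

section Repr

variable {ι : Type*} (ℬ : Module.Basis ι R B)

/-- `(g * f) b = ∑ᵢ g (ℬ i) * f (cᵢ)` if `comul b = ∑ᵢ ℬ i ⊗ cᵢ`. -/
theorem conv_apply_of_repr (g f : WithConv (B →ₗ[R] O)) (b : B) (c : ι →₀ B)
    (hc : (c.sum fun i n => ℬ i ⊗ₜ[R] n) = comul b) :
    (g * f) b = c.sum fun i n => g (ℬ i) * f n := by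
  rw [LinearMap.convMul_apply, ← hc, Finsupp.sum, map_sum, map_sum, Finsupp.sum]
  refine Finset.sum_congr rfl fun i _ => ?_
  rw [TensorProduct.map_tmul, LinearMap.mul'_apply]

/-- the functional `b ↦ (j-th coordinate of b)`, with values in `O`. -/
noncomputable def coordFun (j : ι) : WithConv (B →ₗ[R] O) :=
  toConv ((Algebra.linearMap R O).comp (ℬ.coord j))

theorem coordFun_basis [DecidableEq ι] (j i : ι) :
    (coordFun (O := O) ℬ j) (ℬ i) = if i = j then 1 else 0 := by
  show (Algebra.linearMap R O) (ℬ.coord j (ℬ i)) = _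
  rw [Module.Basis.coord_apply, Module.Basis.repr_self, Finsupp.single_apply]
  split_ifs with h
  · simp
  · simp

/-- `(coord_j * f) b = f (c_j)` if `comul b = ∑ᵢ ℬ i ⊗ cᵢ`. -/
theorem coordFun_conv_apply (f : WithConv (B →ₗ[R] O)) (b : B) (c : ι →₀ B)
    (hc : (c.sum fun i n => ℬ i ⊗ₜ[R] n) = comul b) (j : ι) :
    (coordFun (O := O) ℬ j * f : WithConv (B →ₗ[R] O)) b = f (c j) := by
  classical
  rw [conv_apply_of_repr ℬ _ f b c hc, Finsupp.sum]
  have h1 : ∀ i ∈ c.support, (coordFun (O := O) ℬ j) (ℬ i) * f (c i)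
      = if i = j then f (c i) else 0 := fun i _ => by
    rw [coordFun_basis]
    split_ifs <;> simp
  rw [Finset.sum_congr rfl h1, Finset.sum_ite_eq']
  split_ifs with hj
  · rfl
  · rw [Finsupp.notMem_support_iff.1 hj, apply_zero']

end Repr

section Cocomm

variable [Coalgebra.IsCocomm R B]

/-- **`Δ(invSub E) ⊆ B ⊗ invSub E`**: the right components of `comul b` with respect to a basis of
the left factor are again invariant. -/
theorem repr_mem_invSub {ι : Type*} (ℬ : Module.Basis ι R B)
    (E : Set (WithConv (B →ₐ[R] O))) {b : B} (hb : b ∈ invSub E)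
    (c : ι →₀ B) (hc : (c.sum fun i n => ℬ i ⊗ₜ[R] n) = comul b) (j : ι) :
    c j ∈ invSub E := by
  intro t ht h
  rw [← coordFun_conv_apply ℬ (h * lin t) b c hc j, ← coordFun_conv_apply ℬ h b c hc j,
    ← mul_assoc]
  exact hb t ht _

/-- The ideal of the convolution algebra of the functionals vanishing on `invSub E`. -/
def kerIdeal (E : Set (WithConv (B →ₐ[R] O))) [Module.Free R B] :
    Ideal (WithConv (B →ₗ[R] O)) where
  carrier := {f | ∀ b ∈ invSub E, f b = 0}
  add_mem' := fun {f g} hf hg b hb => by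
    rw [add_apply', hf b hb, hg b hb, add_zero]
  zero_mem' := fun _ _ => rfl
  smul_mem' := fun g f hf b hb => by
    obtain ⟨c, hc⟩ := TensorProduct.eq_repr_basis_left (Module.Free.chooseBasis R B) (comul b)
    show (g * f) b = 0
    rw [conv_apply_of_repr (Module.Free.chooseBasis R B) g f b c hc, Finsupp.sum]
    refine Finset.sum_eq_zero fun i _ => ?_
    rw [hf _ (repr_mem_invSub (Module.Free.chooseBasis R B) E hb c hc i), mul_zero]

theorem mem_kerIdeal_iff [Module.Free R B] (E : Set (WithConv (B →ₐ[R] O)))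
    (f : WithConv (B →ₗ[R] O)) : f ∈ kerIdeal E ↔ ∀ b ∈ invSub E, f b = 0 := Iff.rfl

end Cocomm

end Fermat.Agent.ES.T56.InvIdeal26
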