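/-
Programme T (S56, Taylor–Wiles primes), chapter FLAT-P (étale–connected patch, T56_FLAT.md §5),
brick 4 (helper26): **the universal translate and the norm element**.

`R` a commutative ring, `B` a commutative `R`-bialgebra, `O` a commutative `R`-algebra.  In the
convolution monoid of the `O ⊗[R] B`-valued points of `B` we have the constant points
`constPt t = (o ↦ o ⊗ 1) ∘ t` and the universal point `univPt = (b ↦ 1 ⊗ b)`; the translate by `t`
is `transl t = constPt t * univPt : b ↦ ∑ t b₁ ⊗ b₂`.  Three kinds of `R`-algebra endomorphisms act: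

* `evalHom y : O ⊗ B → O`, `o ⊗ b ↦ o * y b`:  `evalHom y ∘ transl t = t * y`;
* `galHom σ : O ⊗ B → O ⊗ B`, `o ⊗ b ↦ σ o ⊗ b`:  `galHom σ ∘ transl t = transl (σ ∘ t)`;
* `extHom s : O ⊗ B → O ⊗ B`, `o ⊗ b ↦ (o ⊗ 1) * transl s b`:  `extHom s ∘ transl t = transl (t * s)`.
-/
import Mathlib
import Fermat.Agent.ES.T56.InvIdeal26

set_option autoImplicit false
set_option linter.unusedSectionVars false

namespace Fermat.Agent.ES.T56.NormElt26

open WithConv Coalgebra TensorProduct
open Fermat.Agent.ES.T56.PropFi20 Fermat.Agent.ES.T56.InvIdeal26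

section Push

variable {R : Type*} [CommRing R] {B : Type*} [CommRing B] [Bialgebra R B]
  {A : Type*} [CommRing A] [Algebra R A] {A' : Type*} [CommRing A'] [Algebra R A']

/-- push-forward of a point along an algebra homomorphism of the coefficient rings. -/
def push (h : A →ₐ[R] A') (f : WithConv (B →ₐ[R] A)) : WithConv (B →ₐ[R] A') :=
  toConv (h.comp f.ofConv)

@[simp] theorem push_apply (h : A →ₐ[R] A') (f : WithConv (B →ₐ[R] A)) (b : B) :
    push h f b = h (f b) := rfl

theorem push_mul (h : A →ₐ[R] A') (f g : WithConv (B →ₐ[R] A)) :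
    push h (f * g) = push h f * push h g :=
  WithConv.ext (AlgHom.comp_convMul_distrib h f g)

theorem push_one (h : A →ₐ[R] A') : push h (1 : WithConv (B →ₐ[R] A)) = 1 := by
  apply WithConv.ext
  apply AlgHom.ext
  intro b
  show h (algebraMap R A (counit b)) = algebraMap R A' (counit b)
  exact h.commutes _

theorem push_injective {h : A →ₐ[R] A'} (hh : Function.Injective h) :
    Function.Injective (push (B := B) h) := fun f g hfg => by
  apply WithConv.ext
  apply AlgHom.ext
  intro b
  apply hh
  have := congrArg (fun z : WithConv (B →ₐ[R] A') => z b) hfg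
  exact this

theorem ext_point {f g : WithConv (B →ₐ[R] A)} (h : ∀ b, f b = g b) : f = g :=
  WithConv.ext (AlgHom.ext h)

end Push

section Transl

variable {R : Type*} [CommRing R] {B : Type*} [CommRing B] [Bialgebra R B]
  {O : Type*} [CommRing O] [Algebra R O]

/-- the constant point `b ↦ t b ⊗ 1`. -/
noncomputable def constPt (t : WithConv (B →ₐ[R] O)) : WithConv (B →ₐ[R] O ⊗[R] B) :=
  push (Algebra.TensorProduct.includeLeft : O →ₐ[R] O ⊗[R] B) t

/-- the universal point `b ↦ 1 ⊗ b`. -/
noncomputable def univPt : WithConv (B →ₐ[R] O ⊗[R] B) :=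
  toConv (Algebra.TensorProduct.includeRight : B →ₐ[R] O ⊗[R] B)

/-- the translate by `t`: `b ↦ ∑ t b₁ ⊗ b₂`. -/
noncomputable def transl (t : WithConv (B →ₐ[R] O)) : WithConv (B →ₐ[R] O ⊗[R] B) :=
  constPt t * univPt

theorem constPt_apply (t : WithConv (B →ₐ[R] O)) (b : B) : constPt t b = t b ⊗ₜ[R] (1 : B) := rfl

theorem univPt_apply (b : B) : (univPt : WithConv (B →ₐ[R] O ⊗[R] B)) b = (1 : O) ⊗ₜ[R] b := rfl

theorem constPt_mul (t s : WithConv (B →ₐ[R] O)) : constPt (t * s) = constPt t * constPt s :=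
  push_mul _ t s

/-- evaluation of the universal point at `y`: `o ⊗ b ↦ o * y b`. -/
noncomputable def evalHom (y : WithConv (B →ₐ[R] O)) : O ⊗[R] B →ₐ[R] O :=
  Algebra.TensorProduct.productMap (AlgHom.id R O) y.ofConv

theorem evalHom_tmul (y : WithConv (B →ₐ[R] O)) (o : O) (b : B) :
    evalHom y (o ⊗ₜ[R] b) = o * y b := by
  simp [evalHom]

theorem push_evalHom_constPt (y t : WithConv (B →ₐ[R] O)) : push (evalHom y) (constPt t) = t := by
  refine ext_point fun b => ?_
  rw [push_apply, constPt_apply, evalHom_tmul]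
  have : y (1 : B) = 1 := map_one y.ofConv
  rw [this, mul_one]

theorem push_evalHom_univPt (y : WithConv (B →ₐ[R] O)) : push (evalHom y) univPt = y := by
  refine ext_point fun b => ?_
  rw [push_apply, univPt_apply, evalHom_tmul, one_mul]

theorem push_evalHom_transl (y t : WithConv (B →ₐ[R] O)) :
    push (evalHom y) (transl t) = t * y := by
  rw [transl, push_mul, push_evalHom_constPt, push_evalHom_univPt]

/-- `evalHom y (transl t b) = (t * y) b`. -/
theorem evalHom_transl (y t : WithConv (B →ₐ[R] O)) (b : B) :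
    evalHom y (transl t b) = (t * y) b := by
  rw [← push_evalHom_transl y t]; rfl

/-- the action of an endomorphism of the coefficients: `o ⊗ b ↦ σ o ⊗ b`. -/
noncomputable def galHom (σ : O →ₐ[R] O) : O ⊗[R] B →ₐ[R] O ⊗[R] B :=
  Algebra.TensorProduct.map σ (AlgHom.id R B)

theorem galHom_tmul (σ : O →ₐ[R] O) (o : O) (b : B) :
    galHom σ (o ⊗ₜ[R] b) = σ o ⊗ₜ[R] b := by
  simp [galHom]

theorem push_galHom_constPt (σ : O →ₐ[R] O) (t : WithConv (B →ₐ[R] O)) :
    push (galHom (B := B) σ) (constPt t) = constPt (push σ t) := by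
  refine ext_point fun b => ?_
  rw [push_apply, constPt_apply, galHom_tmul, constPt_apply, push_apply]

theorem push_galHom_univPt (σ : O →ₐ[R] O) :
    push (galHom (B := B) σ) univPt = univPt := by
  refine ext_point fun b => ?_
  rw [push_apply, univPt_apply, galHom_tmul, map_one]

theorem push_galHom_transl (σ : O →ₐ[R] O) (t : WithConv (B →ₐ[R] O)) :
    push (galHom (B := B) σ) (transl t) = transl (push σ t) := by
  rw [transl, push_mul, push_galHom_constPt, push_galHom_univPt, transl]

theorem galHom_transl (σ : O →ₐ[R] O) (t : WithConv (B →ₐ[R] O)) (b : B) :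
    galHom σ (transl t b) = transl (push σ t) b := by
  rw [← push_galHom_transl σ t]; rfl

/-- the `O`-linear extension of `transl s`: `o ⊗ b ↦ (o ⊗ 1) * transl s b`. -/
noncomputable def extHom (s : WithConv (B →ₐ[R] O)) : O ⊗[R] B →ₐ[R] O ⊗[R] B :=
  Algebra.TensorProduct.productMap (Algebra.TensorProduct.includeLeft : O →ₐ[R] O ⊗[R] B)
    (transl s).ofConv

theorem extHom_tmul (s : WithConv (B →ₐ[R] O)) (o : O) (b : B) :
    extHom s (o ⊗ₜ[R] b) = (o ⊗ₜ[R] (1 : B)) * transl s b := by
  simp [extHom]

theorem push_extHom_constPt (s t : WithConv (B →ₐ[R] O)) :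
    push (extHom s) (constPt t) = constPt t := by
  refine ext_point fun b => ?_
  rw [push_apply, constPt_apply, extHom_tmul]
  have : transl s (1 : B) = 1 := map_one (transl s).ofConv
  rw [this, mul_one]

theorem push_extHom_univPt (s : WithConv (B →ₐ[R] O)) :
    push (extHom s) univPt = transl s := by
  refine ext_point fun b => ?_
  rw [push_apply, univPt_apply, extHom_tmul]
  have : ((1 : O) ⊗ₜ[R] (1 : B) : O ⊗[R] B) = 1 := rfl
  rw [this, one_mul]

theorem push_extHom_transl (s t : WithConv (B →ₐ[R] O)) :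
    push (extHom s) (transl t) = transl (t * s) := by
  rw [transl, push_mul, push_extHom_constPt, push_extHom_univPt, transl, ← mul_assoc,
    ← constPt_mul, transl]

theorem extHom_transl (s t : WithConv (B →ₐ[R] O)) (b : B) :
    extHom s (transl t b) = transl (t * s) b := by
  rw [← push_extHom_transl s t]; rfl

theorem extHom_one_tmul (s : WithConv (B →ₐ[R] O)) (b : B) :
    extHom s ((1 : O) ⊗ₜ[R] b) = transl s b := by
  rw [extHom_tmul]
  have : ((1 : O) ⊗ₜ[R] (1 : B) : O ⊗[R] B) = 1 := rfl
  rw [this, one_mul]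

end Transl

section FinsetAux

theorem prod_comp_self_map {α M : Type*} [CommMonoid M] (s : Finset α) (g : α → α)
    (hg : Set.InjOn g s) (hmap : ∀ a ∈ s, g a ∈ s) (f : α → M) :
    ∏ a ∈ s, f (g a) = ∏ a ∈ s, f a := by
  classical
  have him : s.image g = s :=
    Finset.eq_of_subset_of_card_le (Finset.image_subset_iff.2 hmap)
      (by rw [Finset.card_image_of_injOn hg])
  conv_rhs => rw [← him]
  rw [Finset.prod_image hg]

end FinsetAux

section Norm

variable {R : Type*} [CommRing R] {B : Type*} [CommRing B] [Bialgebra R B]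
  {O : Type*} [CommRing O] [Algebra R O]

/-- the norm element `∏_{t ∈ E} transl t b` of `O ⊗ B`. -/
noncomputable def normElt (E : Finset (WithConv (B →ₐ[R] O))) (b : B) : O ⊗[R] B :=
  ∏ t ∈ E, transl t b

theorem evalHom_normElt (E : Finset (WithConv (B →ₐ[R] O))) (y : WithConv (B →ₐ[R] O)) (b : B) :
    evalHom y (normElt E b) = ∏ t ∈ E, (t * y) b := by
  rw [normElt, map_prod]
  exact Finset.prod_congr rfl fun t _ => evalHom_transl y t b

theorem galHom_normElt (E : Finset (WithConv (B →ₐ[R] O))) (σ : O →ₐ[R] O)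
    (hσ : Function.Injective σ) (hE : ∀ t ∈ E, push σ t ∈ E) (b : B) :
    galHom σ (normElt E b) = normElt E b := by
  rw [normElt, map_prod]
  have h1 : ∀ t ∈ E, galHom σ (transl t b) = transl (push σ t) b := fun t _ =>
    galHom_transl σ t b
  rw [Finset.prod_congr rfl h1]
  exact prod_comp_self_map E (push σ) ((push_injective hσ).injOn) hE fun t => transl t b

theorem extHom_normElt (E : Finset (WithConv (B →ₐ[R] O))) (s : WithConv (B →ₐ[R] O))
    (hs : ∀ t ∈ E, t * s ∈ E) (hinj : Set.InjOn (fun t => t * s) (E : Set _)) (b : B) :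
    extHom s (normElt E b) = normElt E b := by
  rw [normElt, map_prod]
  have h1 : ∀ t ∈ E, extHom s (transl t b) = transl (t * s) b := fun t _ =>
    extHom_transl s t b
  rw [Finset.prod_congr rfl h1]
  exact prod_comp_self_map E (fun t => t * s) hinj hs fun t => transl t b

end Norm

section Descent

variable {R : Type*} [CommRing R] {B : Type*} [CommRing B] [Bialgebra R B]
  {O : Type*} [CommRing O] [Algebra R O]

theorem algebraMap_tmul (r : R) (b : B) :
    (algebraMap R O r) ⊗ₜ[R] b = (1 : O) ⊗ₜ[R] (r • b) := by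
  rw [Algebra.algebraMap_eq_smul_one, TensorProduct.smul_tmul]

/-- the coordinates of `galHom σ z` are the `σ`-images of the coordinates of `z`. -/
theorem equivFinsupp_galHom {ι : Type*} [DecidableEq ι] (ℬ : Module.Basis ι R B) (σ : O →ₐ[R] O)
    (z : O ⊗[R] B) (i : ι) :
    TensorProduct.equivFinsuppOfBasisRight ℬ (galHom σ z) i
      = σ (TensorProduct.equivFinsuppOfBasisRight ℬ z i) := by
  induction z using TensorProduct.induction_on with
  | zero => simp
  | tmul o b =>
    rw [galHom_tmul, TensorProduct.equivFinsuppOfBasisRight_apply,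
      TensorProduct.equivFinsuppOfBasisRight_apply]
    simp
  | add x y hx hy =>
    rw [map_add, map_add, Finsupp.add_apply, hx, hy, map_add, Finsupp.add_apply, map_add]

/-- **Descent.** An element of `O ⊗ B` (`B` free) fixed by a set `G` of endomorphisms of `O` whose
common fixed ring is `R` comes from `B`. -/
theorem exists_eq_one_tmul [Module.Free R B] (G : Set (O →ₐ[R] O))
    (hfix : ∀ o : O, (∀ σ ∈ G, σ o = o) → o ∈ Set.range (algebraMap R O))
    (z : O ⊗[R] B) (hz : ∀ σ ∈ G, galHom σ z = z) : ∃ n : B, z = (1 : O) ⊗ₜ[R] n := by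
  classical
  set ℬ := Module.Free.chooseBasis R B with hℬ
  set c := TensorProduct.equivFinsuppOfBasisRight ℬ z with hc
  have h1 : ∀ i, ∃ r : R, algebraMap R O r = c i := fun i => by
    apply hfix
    intro σ hσ
    rw [hc, ← equivFinsupp_galHom ℬ σ z i, hz σ hσ]
  choose r hr using h1
  refine ⟨∑ i ∈ c.support, r i • ℬ i, ?_⟩
  have h2 : z = (TensorProduct.equivFinsuppOfBasisRight ℬ).symm c := by
    rw [hc, LinearEquiv.symm_apply_apply]
  rw [h2, TensorProduct.equivFinsuppOfBasisRight_symm_apply, Finsupp.sum, TensorProduct.tmul_sum]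
  refine Finset.sum_congr rfl fun i _ => ?_
  rw [← hr i, algebraMap_tmul]

end Descent

section Functional

variable {R : Type*} [CommRing R] {B : Type*} [CommRing B] [Bialgebra R B]
  {O : Type*} [CommRing O] [Algebra R O]

/-- the `O`-linear extension `o ⊗ b ↦ o * f b` of a functional `f`. -/
noncomputable def extFun (f : WithConv (B →ₗ[R] O)) : O ⊗[R] B →ₗ[R] O :=
  (LinearMap.mul' R O).comp (TensorProduct.map LinearMap.id f.ofConv)

theorem extFun_tmul (f : WithConv (B →ₗ[R] O)) (o : O) (b : B) :
    extFun f (o ⊗ₜ[R] b) = o * f b := by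
  simp [extFun]

/-- `f̂ (transl s b) = (lin s * f) b`. -/
theorem extFun_transl (f : WithConv (B →ₗ[R] O)) (s : WithConv (B →ₐ[R] O)) (b : B) :
    extFun f (transl s b) = (lin s * f) b := by
  have key : ∀ z : B ⊗[R] B,
      extFun f (Algebra.TensorProduct.lift (constPt s).ofConv (univPt (O := O)).ofConv
        (fun _ _ => Commute.all _ _) z)
      = LinearMap.mul' R O (TensorProduct.map (lin s).ofConv f.ofConv z) := by
    intro z
    induction z using TensorProduct.induction_on with
    | zero => simp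
    | tmul a c =>
      rw [Algebra.TensorProduct.lift_tmul, TensorProduct.map_tmul, LinearMap.mul'_apply]
      have h1 : (constPt s).ofConv a * (univPt (O := O)).ofConv c = s a ⊗ₜ[R] c := by
        show (s a ⊗ₜ[R] (1 : B)) * ((1 : O) ⊗ₜ[R] c) = _
        rw [Algebra.TensorProduct.tmul_mul_tmul, mul_one, one_mul]
      rw [h1, extFun_tmul]
      rfl
    | add x y hx hy => rw [map_add, map_add, hx, hy, map_add, map_add]
  rw [transl, AlgHom.convMul_apply, LinearMap.convMul_apply]
  exact key (comul b)

end Functional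

section Export

variable {R : Type*} [CommRing R] {B : Type*} [CommRing B] [Bialgebra R B]
  {O : Type*} [CommRing O] [Algebra R O]

/-- **The norm element.**  `E` a finite set of points which is stable under a set `G` of injective
endomorphisms of `O` with common fixed ring `R` and under right multiplication by its elements
(injectively).  Then for every `b₀ : B` there is `n ∈ invSub E` with
`y n = ∏_{t ∈ E} (t * y) b₀` for every point `y`. -/
theorem exists_norm [Module.Free R B] [Coalgebra.IsCocomm R B]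
    (E : Finset (WithConv (B →ₐ[R] O))) (G : Set (O →ₐ[R] O))
    (hGinj : ∀ σ ∈ G, Function.Injective σ)
    (hGE : ∀ σ ∈ G, ∀ t ∈ E, push σ t ∈ E)
    (hfix : ∀ o : O, (∀ σ ∈ G, σ o = o) → o ∈ Set.range (algebraMap R O))
    (hmul : ∀ s ∈ E, ∀ t ∈ E, t * s ∈ E)
    (hcancel : ∀ s ∈ E, Set.InjOn (fun t => t * s) (E : Set (WithConv (B →ₐ[R] O))))
    (b₀ : B) :
    ∃ n ∈ invSub (E : Set (WithConv (B →ₐ[R] O))),
      ∀ y : WithConv (B →ₐ[R] O), y n = ∏ t ∈ E, (t * y) b₀ := by
  obtain ⟨n, hn⟩ := exists_eq_one_tmul G hfix (normElt E b₀) fun σ hσ =>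
    galHom_normElt E σ (hGinj σ hσ) (hGE σ hσ) b₀
  refine ⟨n, ?_, fun y => ?_⟩
  · intro s hs f
    have h1 : transl s n = (1 : O) ⊗ₜ[R] n := by
      rw [← extHom_one_tmul, ← hn]
      exact extHom_normElt E s (fun t ht => hmul s hs t ht) (hcancel s hs) b₀
    have h2 := extFun_transl f s n
    rw [h1, extFun_tmul, one_mul] at h2
    rw [mul_comm, ← h2]
  · rw [← evalHom_normElt, hn, evalHom_tmul, one_mul]

end Export

end Fermat.Agent.ES.T56.NormElt26
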