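/-
Programme T (S56, Taylor–Wiles primes), chapter FLAT-P (étale–connected patch, T56_FLAT.md §5),
brick 7 (helper26): **points of a base-changed bialgebra**.

`R₀ → R → O` commutative rings (a scalar tower), `H` a commutative `R₀`-bialgebra.  Mathlib makes
`R ⊗[R₀] H` an `R`-bialgebra.  The `O`-valued points of `H` over `R₀` and of `R ⊗[R₀] H` over `R` are
the same monoid:

* `bcPt x : R ⊗[R₀] H →ₐ[R] O`, `r ⊗ h ↦ r • x h`;
* `bcPt_mul`, `bcPt_one`, `bcPt_pow`, `bcPt_injective`, `bcPt_surjective`;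
* `push_bcPt` : compatibility with an `R`-algebra endomorphism of `O`.
-/
import Mathlib
import Fermat.Agent.ES.T56.NormElt26

set_option autoImplicit false
set_option linter.unusedSectionVars false

namespace Fermat.Agent.ES.T56.BaseChangePts26

open WithConv Coalgebra TensorProduct
open Fermat.Agent.ES.T56.NormElt26

variable {R₀ : Type*} [CommRing R₀] {R : Type*} [CommRing R] [Algebra R₀ R]
  {H : Type*} [CommRing H] [Bialgebra R₀ H]
  {O : Type*} [CommRing O] [Algebra R₀ O] [Algebra R O] [IsScalarTower R₀ R O]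

/-- base change of a point. -/
noncomputable def bcPt (x : WithConv (H →ₐ[R₀] O)) : WithConv (R ⊗[R₀] H →ₐ[R] O) :=
  toConv (Algebra.TensorProduct.lift (Algebra.ofId R O) x.ofConv (fun _ _ => Commute.all _ _))

theorem bcPt_tmul (x : WithConv (H →ₐ[R₀] O)) (r : R) (h : H) :
    bcPt x (r ⊗ₜ[R₀] h) = algebraMap R O r * x h := by
  show Algebra.TensorProduct.lift (Algebra.ofId R O) x.ofConv (fun _ _ => Commute.all _ _)
    (r ⊗ₜ[R₀] h) = _
  rw [Algebra.TensorProduct.lift_tmul]
  rfl

theorem bcPt_one_tmul (x : WithConv (H →ₐ[R₀] O)) (h : H) :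
    bcPt x ((1 : R) ⊗ₜ[R₀] h) = x h := by
  rw [bcPt_tmul, map_one, one_mul]

/-- two points of the base change which agree on `1 ⊗ h` are equal. -/
theorem ext_bc {y y' : WithConv (R ⊗[R₀] H →ₐ[R] O)}
    (h : ∀ a : H, y ((1 : R) ⊗ₜ[R₀] a) = y' ((1 : R) ⊗ₜ[R₀] a)) : y = y' := by
  apply WithConv.ext
  apply Algebra.TensorProduct.ext
  · apply AlgHom.ext
    intro r
    show y.ofConv (r ⊗ₜ[R₀] (1 : H)) = y'.ofConv (r ⊗ₜ[R₀] (1 : H))
    have e : (r ⊗ₜ[R₀] (1 : H) : R ⊗[R₀] H) = algebraMap R (R ⊗[R₀] H) r := rfl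
    rw [e, AlgHom.commutes, AlgHom.commutes]
  · apply AlgHom.ext
    intro a
    exact h a

theorem bcPt_injective :
    Function.Injective (bcPt (R₀ := R₀) (R := R) (H := H) (O := O)) := fun x x' hxx' => by
  refine ext_point fun a => ?_
  rw [← bcPt_one_tmul (R := R) x a, ← bcPt_one_tmul (R := R) x' a, hxx']

theorem bcPt_surjective :
    Function.Surjective (bcPt (R₀ := R₀) (R := R) (H := H) (O := O)) := fun y => by
  refine ⟨toConv ((y.ofConv.restrictScalars R₀).comp
    (Algebra.TensorProduct.includeRight : H →ₐ[R₀] R ⊗[R₀] H)), ?_⟩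
  refine ext_bc fun a => ?_
  rw [bcPt_one_tmul]
  rfl

/-- the key computation: convolution on the base change, evaluated on `1 ⊗ h`. -/
theorem lift_comul_one_tmul (X Y : WithConv (R ⊗[R₀] H →ₐ[R] O)) (z : H ⊗[R₀] H) :
    Algebra.TensorProduct.lift X.ofConv Y.ofConv (fun _ _ => Commute.all _ _)
      (TensorProduct.AlgebraTensorModule.tensorTensorTensorComm R₀ R R₀ R R R H H
        (((1 : R) ⊗ₜ[R] (1 : R)) ⊗ₜ[R₀] z))
    = Algebra.TensorProduct.lift
        ((X.ofConv.restrictScalars R₀).comp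
          (Algebra.TensorProduct.includeRight : H →ₐ[R₀] R ⊗[R₀] H))
        ((Y.ofConv.restrictScalars R₀).comp
          (Algebra.TensorProduct.includeRight : H →ₐ[R₀] R ⊗[R₀] H))
        (fun _ _ => Commute.all _ _) z := by
  induction z using TensorProduct.induction_on with
  | zero => simp
  | tmul a b =>
    rw [TensorProduct.AlgebraTensorModule.tensorTensorTensorComm_tmul,
      Algebra.TensorProduct.lift_tmul, Algebra.TensorProduct.lift_tmul]
    rfl
  | add z w hz hw =>
    rw [TensorProduct.tmul_add, map_add, map_add, hz, hw, map_add]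

theorem bcPt_mul (x y : WithConv (H →ₐ[R₀] O)) :
    bcPt (R := R) (x * y) = bcPt x * bcPt y := by
  refine ext_bc fun a => ?_
  have hX : ((bcPt (R := R) x).ofConv.restrictScalars R₀).comp
      (Algebra.TensorProduct.includeRight : H →ₐ[R₀] R ⊗[R₀] H) = x.ofConv :=
    AlgHom.ext fun b => bcPt_one_tmul (R := R) x b
  have hY : ((bcPt (R := R) y).ofConv.restrictScalars R₀).comp
      (Algebra.TensorProduct.includeRight : H →ₐ[R₀] R ⊗[R₀] H) = y.ofConv :=
    AlgHom.ext fun b => bcPt_one_tmul (R := R) y b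
  rw [bcPt_one_tmul, AlgHom.convMul_apply, AlgHom.convMul_apply, TensorProduct.comul_tmul,
    CommSemiring.comul_apply, lift_comul_one_tmul]
  simp only [hX, hY]

theorem bcPt_one : bcPt (R := R) (1 : WithConv (H →ₐ[R₀] O)) = 1 := by
  refine ext_bc fun a => ?_
  rw [bcPt_one_tmul, AlgHom.convOne_apply, AlgHom.convOne_apply, TensorProduct.counit_tmul,
    CommSemiring.counit_apply, Algebra.smul_def, mul_one, ← IsScalarTower.algebraMap_apply]

theorem bcPt_pow (x : WithConv (H →ₐ[R₀] O)) (n : ℕ) :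
    bcPt (R := R) (x ^ n) = (bcPt (R := R) x) ^ n := by
  induction n with
  | zero => rw [pow_zero, pow_zero, bcPt_one]
  | succ n ih => rw [pow_succ, pow_succ, bcPt_mul, ih]

/-- compatibility with an `R`-algebra endomorphism of the coefficients. -/
theorem push_bcPt (σ : O →ₐ[R] O) (x : WithConv (H →ₐ[R₀] O)) :
    push σ (bcPt (R := R) x) = bcPt (push (σ.restrictScalars R₀) x) := by
  refine ext_bc fun a => ?_
  rw [push_apply, bcPt_one_tmul, bcPt_one_tmul]
  rfl

end Fermat.Agent.ES.T56.BaseChangePts26
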