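/-
Programme T (S56), chapter GW, brick 10 (`BaseLocChi`, helper11): the INTERFACE of the brick (definitions and
`Prop`s only), route "REGULAR REPRESENTATION TRICK".

Goal of the brick (helper8's one-sided literal `BaseLocChiOfLe8.BaseLocChiLe`): for every base datum `D`
(`X = D.rep = Coind_{G_K}^{G_ℚ} Y`, `Y` a module of `Gal(L/K)`, `p ∤ [L:K]`, `ζ_p ∈ L`)

    `a(X) := Σ_{q ∈ Sg} h¹(G_q, X)  ≤  b(X) := Σ_{q ∈ Sg} (h⁰(G_q, X) + h²(G_q, X)) + dim X`.

METHOD.  No `Δ`-module structure of `L_w^×/p` is needed: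

* `b(X') ≤ a(X')` for EVERY base representation `X'` is free (the two one-sided global statements `GlobalChiGe` for
  `X'`, `X'*`, the 9-term count and `h⁰_c(X') + h⁰_c(X'*) = dim X'`; helper8's arithmetic);
* `a`, `b` are invariant under isomorphisms and additive on direct sums;
* (Maschke, `p ∤ [L:K]`)  `T := Coind_{G_L}^{G_ℚ} (Y with the TRIVIAL action) ≅ X ⊕ X'` with `X' = D'.rep` again a
  base representation (`D' = (K, L, Y')`, `Y' = ker (averaging : Coind_{G_L}^{G_K} Y_triv → Y)`), and `T` is the base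
  representation of the TRIVIAL datum `(L, L, Y_triv)`;
* `a(T) ≤ b(T)` by a PLAIN count (`CoindTrivLe` below): `T|_{Γ_q}` is the permutation module on `G_L \ G_ℚ`, so
  `H¹(Γ_q, T) ↪ ∏_{orbits d} Hom_cont(H_d, Y)`, `H_d = r_q⁻¹(g_d⁻¹ G_L g_d) = Gal(ℚ̄_q / (g_d⁻¹L)_w)`, and
  `dim Hom_cont(H_d, 𝔽_p) ≤ dim (L_w^×/p) = 2 + [q = p]·[L_w : ℚ_q]` (`LocTrivLe` below: Kummer theory over `L_w ∋ ζ_p`
  and the index of the `p`-th powers), `h⁰(Γ_q, T) = #orbits · dim Y`, `h²(Γ_q, T) ≥ h⁰(Γ_q, T*) = h⁰(Γ_q, T)`;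
* hence `a(X) + a(X') = a(T) ≤ b(T) ≤ b(X) + b(X') ≤ b(X) + a(X')`, i.e. `a(X) ≤ b(X)`.
-/
import Mathlib
import Fermat.Agent.PT.PRO.LevelCoh28
import Fermat.Agent.PT.BR.Interface29
import Fermat.Agent.ES.T56.GWIface21
import Fermat.Agent.ES.T56.BaseLocChiOfLe8

set_option autoImplicit false

open CategoryTheory Module groupCohomology ExtCitation

namespace Fermat.Agent.ES.T56.LocChiIface11

open Fermat.Agent.ES.T56.GWIface21 Fermat.Agent.PT.PRO.LevelCoh28 Fermat.Agent.PT.BR.Interface29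

variable (p : ℕ) [Fact p.Prime]

/-- `r_q⁻¹(G_K) ≤ Γ_q`: the open subgroup of the local Galois group at `q` cut out by the number field `K`
(`= Gal(ℚ̄_q / K_w)`, `K_w = ℚ_q · ι_q(K)`). -/
noncomputable def locSub (q : Nat.Primes) (K : IntermediateField ℚ (AlgebraicClosure ℚ)) :
    Subgroup (primeLocalGaloisGroup q) :=
  K.fixingSubgroup.comap (primeLocalToGlobal q)

theorem mem_locSub (q : Nat.Primes) (K : IntermediateField ℚ (AlgebraicClosure ℚ))
    (g : primeLocalGaloisGroup q) : g ∈ locSub q K ↔ primeLocalToGlobal q g ∈ K.fixingSubgroup :=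
  Iff.rfl

/-- `H = locSub q K → G_ℚ`. -/
noncomputable def locHom (q : Nat.Primes) (K : IntermediateField ℚ (AlgebraicClosure ℚ)) :
    ↥(locSub q K) →* GQ :=
  (primeLocalToGlobal q).comp (locSub q K).subtype

/-- `h¹_cont(H, Z)`, `H = locSub q K`: the dimension of PRO's level cohomology for the level basis
`{H ∩ r_q⁻¹(G_F) : F/ℚ finite}`. -/
noncomputable def h1Sub (q : Nat.Primes) (K : IntermediateField ℚ (AlgebraicClosure ℚ))
    (Z : Rep.{0} (ZMod p) ↥(locSub q K)) : ℕ :=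
  finrank (ZMod p) (H1 (levelBasisOf (locHom q K)) Z)

/-- **(P2) The plain local Kummer bound** at `q`: for a number field `L ∋ ζ_p` and a finite-dimensional `V` with
TRIVIAL action of `H = r_q⁻¹(G_L) = Gal(ℚ̄_q/L_w)`:
`dim Hom_cont(H, V) ≤ (2 + [q = p]·[Γ_q : H]) · dim V`  (`[Γ_q : H] = [L_w : ℚ_q]`). -/
def LocTrivLe (q : Nat.Primes) : Prop :=
  ∀ (L : IntermediateField ℚ (AlgebraicClosure ℚ)), FiniteDimensional ℚ L →
    (∃ ζ ∈ L, IsPrimitiveRoot ζ p) →
    ∀ (V : Type) [AddCommGroup V] [Module (ZMod p) V] [FiniteDimensional (ZMod p) V],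
      FiniteDimensional (ZMod p)
          (H1 (levelBasisOf (locHom q L)) (Rep.trivial (ZMod p) ↥(locSub q L) V)) ∧
        h1Sub p q L (Rep.trivial (ZMod p) ↥(locSub q L) V) ≤
          (2 + (if q = pPrime p then (locSub q L).index else 0)) * finrank (ZMod p) V

/-- **(P3) The local count for the permutation modules** `T = Coind_{G_L}^{G_ℚ} Y`, `Y` with trivial action:
`h¹(Γ_q, T)` is finite and `≤ 2 · h⁰(Γ_q, T) + [q = p] · dim T`. -/
def CoindTrivLe (q : Nat.Primes) : Prop :=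
  ∀ (L : IntermediateField ℚ (AlgebraicClosure ℚ)), FiniteDimensional ℚ L →
    (∃ ζ ∈ L, IsPrimitiveRoot ζ p) →
    ∀ (Y : Rep.{0} (ZMod p) ↥L.fixingSubgroup), FiniteDimensional (ZMod p) Y → (∀ s, Y.ρ s = 1) →
      FiniteDimensional (ZMod p) ↥(contLoc p q (Rep.coind L.fixingSubgroup.subtype Y)) ∧
        h1loc p q (Rep.coind L.fixingSubgroup.subtype Y) ≤
          2 * h0loc p q (Rep.coind L.fixingSubgroup.subtype Y) +
            (if q = pPrime p then finrank (ZMod p) (Rep.coind L.fixingSubgroup.subtype Y) else 0)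

/-- The "free" inequality `b(X) ≤ a(X)`. -/
def LocChiGe (Sg : Finset Nat.Primes) (X : Rep (ZMod p) GQ) : Prop :=
  ∑ q : ↥Sg, (h0loc p q.1 X + h2loc p q.1 X) + finrank (ZMod p) X ≤ ∑ q : ↥Sg, h1loc p q.1 X

variable {p}

/-- helper8's arithmetic, one-sided: the two one-sided global statements, the 9-term count and the `h⁰_c`
identity give `b(X) ≤ a(X)`. -/
theorem locChiGe_of {Sg : Finset Nat.Primes} {X : Rep.{0} (ZMod p) GQ} (hGE : GlobalChiGe Sg X)
    (hGE' : GlobalChiGe Sg (dualT p X)) (hN : NineTermCount Sg X)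
    (hc : h0c p X + h0c p (dualT p X) = finrank (ZMod p) X)
    (hd : finrank (ZMod p) (dualT p X) = finrank (ZMod p) X) : LocChiGe p Sg X := by
  have h1 := hGE.2.2
  have h2 := hGE'.2.2
  unfold NineTermCount at hN
  unfold LocChiGe
  rw [hd] at h2
  omega

end Fermat.Agent.ES.T56.LocChiIface11
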