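/-
Programme T (S56), chapter GW, brick 10 (`BaseLocChi`, helper11): **FINAL EXPORT — the one-sided local count on the
TRIVIAL base data** (leaf 6 of helper21's `GWChain21.gw_rest_of` v2, literal `BaseTrivTrick21.BaseLocChiLeTriv`):

    `∀ D : BaseDatum Sg, D.K = D.L → (∀ s, D.Y.ρ s = 1) → BaseLocChiOfLe8.LocChiLe Sg D.rep`,

i.e. `Σ_{q ∈ Sg} h¹(G_q, T) ≤ Σ_{q ∈ Sg} (h⁰(G_q, T) + h²(G_q, T)) + dim T` for `T = Coind_{G_L}^{G_ℚ} Y`, `Y` trivial.

Inputs: `LocChiIface11.CoindTrivLe p q` for `q ∈ Sg` (P3, helper1, from P2 = `LocTrivLe`, helper5: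
`h¹(G_q, T) ≤ 2 h⁰(G_q, T) + [q = p] dim T`), and `GWProps21.LocDual20Ge` (helper2: `h⁰(G_q, T*) ≤ h²(G_q, T)`), with
`h⁰(G_q, T*) = h⁰(G_q, T)` proved here (`h0loc_dualT_of_triv`: `T* ≅ Coind_{G_L}^{G_ℚ} Y*` by `BaseDual22.dualRepEquiv`,
and `Y* ≅ Y` since both are trivial of the same dimension, `χ_cyc = 1` on `G_L`).
-/
import Mathlib
import Fermat.Agent.ES.T56.LocChiIface11
import Fermat.Agent.ES.T56.BaseDual22
import Fermat.Agent.ES.T56.GWNumIso22
import Fermat.Agent.ES.T56.GWProps21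

set_option autoImplicit false
set_option linter.style.haveILetI false
set_option linter.unusedSectionVars false

open CategoryTheory Module ExtCitation

namespace Fermat.Agent.ES.T56.BaseLocChiLeTriv11

open Fermat.Agent.ES.T56.GWIface21 Fermat.Agent.ES.T56.GWProps21 Fermat.Agent.ES.T56.LocChiIface11
  Fermat.Agent.ES.T56.BaseLocChiOfLe8 Fermat.Agent.ES.T56.BaseDual22 Fermat.Agent.ES.T56.GWNumIso22

noncomputable section

/-! ### Coinduction of an equivariant isomorphism -/

section CoindEquiv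

variable {k : Type} [CommRing k] {G : Type} [Group G] (S : Subgroup G) {A B : Rep.{0} k ↥S}

/-- Postcomposition with an equivariant map. -/
def coindMap (φ : A →ₗ[k] B) (hφ : ∀ s a, φ (A.ρ s a) = B.ρ s (φ a)) :
    (Rep.coind S.subtype A) →ₗ[k] (Rep.coind S.subtype B) where
  toFun f := ⟨fun g => φ (f.1 g), fun s g => by
    show φ (f.1 ((s : G) * g)) = B.ρ s (φ (f.1 g))
    rw [← hφ]
    exact congrArg φ (f.2 s g)⟩
  map_add' f f' := Subtype.ext (funext fun g => map_add φ _ _)
  map_smul' r f := Subtype.ext (funext fun g => map_smul φ _ _)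

/-- Coinduction of an equivariant isomorphism. -/
def coindEquiv (e : A ≃ₗ[k] B) (he : ∀ s a, e (A.ρ s a) = B.ρ s (e a)) :
    (Rep.coind S.subtype A) ≃ₗ[k] (Rep.coind S.subtype B) :=
  LinearEquiv.ofLinearMap (coindMap S e.toLinearMap he)
    (coindMap S e.symm.toLinearMap (fun s b => by
      apply e.injective
      show e (e.symm (B.ρ s b)) = e (A.ρ s (e.symm b))
      rw [e.apply_symm_apply, he, e.apply_symm_apply]))
    (LinearMap.ext fun f => Subtype.ext (funext fun g => e.apply_symm_apply _))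
    (LinearMap.ext fun f => Subtype.ext (funext fun g => e.symm_apply_apply _))

theorem coindEquiv_equivariant (e : A ≃ₗ[k] B) (he : ∀ s a, e (A.ρ s a) = B.ρ s (e a)) (g : G)
    (f : Rep.coind S.subtype A) :
    coindEquiv S e he ((Rep.coind S.subtype A).ρ g f) =
      (Rep.coind S.subtype B).ρ g (coindEquiv S e he f) := rfl

end CoindEquiv

variable {p : ℕ} [Fact p.Prime] {Sg : Finset Nat.Primes}

/-! ### The twisted dual of a trivial datum -/

/-- `Coind_{G_L} Y* ≃ Coind_{G_L} Y` for a trivial datum: both coefficient modules are trivial of the same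
dimension. -/
def dualTrivEquiv (D : BaseDatum (p := p) Sg) (hKL : D.K = D.L) (htriv : ∀ s, D.Y.ρ s = 1) :
    (dualDatum D).rep ≃ₗ[ZMod p] D.rep :=
  haveI := D.fd
  coindEquiv D.K.fixingSubgroup (A := (dualDatum D).Y) (B := D.Y)
    (Module.finBasis (ZMod p) D.Y).toDualEquiv.symm
    (fun s a => by
      have hs : (s : GQ) ∈ D.L.fixingSubgroup := hKL ▸ s.2
      have h1 : (dualDatum D).Y.ρ s = 1 := (dualDatum D).triv s hs
      rw [htriv s, Module.End.one_apply]
      exact congrArg (fun z => (Module.finBasis (ZMod p) D.Y).toDualEquiv.symm z)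
        (LinearMap.congr_fun h1 a))

theorem dualTrivEquiv_equivariant (D : BaseDatum (p := p) Sg) (hKL : D.K = D.L)
    (htriv : ∀ s, D.Y.ρ s = 1) (g : GQ) (x : (dualDatum D).rep) :
    dualTrivEquiv D hKL htriv ((dualDatum D).rep.ρ g x) =
      D.rep.ρ g (dualTrivEquiv D hKL htriv x) := rfl

/-- `h⁰(G_q, T*) = h⁰(G_q, T)` for the representation `T` of a trivial datum. -/
theorem h0loc_dualT_of_triv (D : BaseDatum (p := p) Sg) (hKL : D.K = D.L)
    (htriv : ∀ s, D.Y.ρ s = 1) (q : Nat.Primes) :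
    h0loc p q (dualT p D.rep) = h0loc p q D.rep := by
  rw [h0loc_congr (dualRepEquiv D) (dualRepEquiv_equivariant D) q,
    h0loc_congr (dualTrivEquiv D hKL htriv) (dualTrivEquiv_equivariant D hKL htriv) q]

/-! ### The count -/

/-- At most one prime of `Sg` is `p`. -/
theorem sum_ite_le (c : ℕ) :
    ∑ q : ↥Sg, (if q.1 = pPrime p then c else 0) ≤ c := by
  by_cases hP : pPrime p ∈ Sg
  · rw [Finset.sum_eq_single (⟨pPrime p, hP⟩ : ↥Sg)]
    · rw [if_pos rfl]
    · intro q _ hq
      rw [if_neg]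
      intro h
      exact hq (Subtype.ext h)
    · intro h
      exact absurd (Finset.mem_univ _) h
  · rw [Finset.sum_eq_zero]
    · exact Nat.zero_le _
    · intro q _
      rw [if_neg]
      intro h
      exact hP (h ▸ q.2)

/-- **Brick 10, final export**: the one-sided local count on the trivial base data
(`= BaseTrivTrick21.BaseLocChiLeTriv Sg`, verbatim). -/
theorem baseLocChiLeTriv (hC : ∀ q : ↥Sg, CoindTrivLe p q.1)
    (hdual : ∀ (D : BaseDatum (p := p) Sg) (q : ↥Sg), LocDual20Ge q.1 D.rep) :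
    ∀ D : BaseDatum (p := p) Sg, D.K = D.L → (∀ s, D.Y.ρ s = 1) → LocChiLe Sg D.rep := by
  intro D hKL htriv
  unfold LocChiLe
  have hfin : FiniteDimensional ℚ D.K := (D.unram.of_le D.le).1
  have hζ : ∃ ζ ∈ D.K, IsPrimitiveRoot ζ p := hKL ▸ D.zeta
  have hfd := D.fd
  have key : ∀ q : ↥Sg, h1loc p q.1 D.rep ≤ (h0loc p q.1 D.rep + h2loc p q.1 D.rep) +
      (if q.1 = pPrime p then finrank (ZMod p) D.rep else 0) := by
    intro q
    have h1 : h1loc p q.1 D.rep ≤ 2 * h0loc p q.1 D.rep +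
        (if q.1 = pPrime p then finrank (ZMod p) D.rep else 0) :=
      (hC q D.K hfin hζ D.Y hfd htriv).2
    have h2 := hdual D q
    unfold LocDual20Ge at h2
    rw [h0loc_dualT_of_triv D hKL htriv] at h2
    omega
  refine (Finset.sum_le_sum fun q _ => key q).trans ?_
  rw [Finset.sum_add_distrib]
  exact Nat.add_le_add_left (sum_ite_le _) _

end

end Fermat.Agent.ES.T56.BaseLocChiLeTriv11
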