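/-
Programme T (S56), chapter GW-D, leaf KZero (helper28).

`IntMap28`: clearing denominators.  A `ℚ`-linear map `(W → ℚ) → (U → ℚ)` (`W`, `U` finite) has an
integral model `d · T` on `(W → ℤ) → (U → ℤ)`; an equivariant ISOMORPHISM of rational permutation
modules therefore yields an injective equivariant map of the permutation lattices with cokernel
killed by some `m > 0`.
-/
import Mathlib
import Fermat.Agent.ES.T56.PermChar28

set_option autoImplicit false

namespace Fermat.Agent.ES.T56.IntMap28

open Fermat.Agent.ES.T56.CharIso28 Fermat.Agent.ES.T56.PermChar28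

/-- Integral model `ι = d · T` of a rational linear map between function spaces. -/
theorem exists_int_model {W U : Type*} [Finite W] [Finite U] (T : (W → ℚ) →ₗ[ℚ] (U → ℚ)) :
    ∃ (d : ℕ) (ι : (W → ℤ) →ₗ[ℤ] (U → ℤ)), 0 < d ∧
      ∀ (f : W → ℤ) (u : U), ((ι f u : ℤ) : ℚ) = d * T (fun w => (f w : ℚ)) u := by
  classical
  have : Fintype W := Fintype.ofFinite W
  have : Fintype U := Fintype.ofFinite U
  set M : U → W → ℚ := fun u w => T (Pi.single w 1) u with hM
  set d : ℕ := ∏ u, ∏ w, (M u w).den with hd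
  have hdpos : 0 < d :=
    Finset.prod_pos (fun u _ => Finset.prod_pos (fun w _ => (M u w).den_pos))
  have hint : ∀ u w, ∃ n : ℤ, (n : ℚ) = d * M u w := by
    intro u w
    have hdvd : (M u w).den ∣ d :=
      (Finset.dvd_prod_of_mem (fun w => (M u w).den) (Finset.mem_univ w)).trans
        (Finset.dvd_prod_of_mem (fun u => ∏ w, (M u w).den) (Finset.mem_univ u))
    obtain ⟨c, hc⟩ := hdvd
    refine ⟨c * (M u w).num, ?_⟩
    rw [hc]
    push_cast
    rw [← Rat.mul_den_eq_num (M u w)]
    ring
  choose N hN using hint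
  let ι : (W → ℤ) →ₗ[ℤ] (U → ℤ) :=
    { toFun := fun f u => ∑ w, N u w * f w
      map_add' := fun f f' => by
        funext u
        simp [mul_add, Finset.sum_add_distrib]
      map_smul' := fun c f => by
        funext u
        simp only [Pi.smul_apply, smul_eq_mul, RingHom.id_apply, Finset.mul_sum]
        exact Finset.sum_congr rfl (fun w _ => by ring) }
  refine ⟨d, ι, hdpos, fun f u => ?_⟩
  have hf : (fun w => (f w : ℚ)) = ∑ w, (f w : ℚ) • Pi.single w (1 : ℚ) := by
    funext w'
    simp [Finset.sum_apply, Pi.single_apply]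
  show ((∑ w, N u w * f w : ℤ) : ℚ) = d * T (fun w => (f w : ℚ)) u
  rw [hf, map_sum]
  simp only [map_smul, Finset.sum_apply, Pi.smul_apply, smul_eq_mul]
  push_cast
  rw [Finset.mul_sum]
  apply Finset.sum_congr rfl
  intro w _
  rw [hN]
  ring

/-- **From a rational isomorphism of permutation modules to a lattice map with finite cokernel.** -/
theorem exists_lattice_map {G : Type*} [Group G] {W U : Type*} [MulAction G W] [MulAction G U]
    [Finite W] [Finite U] (h : RepIso (permRep ℚ (G := G) W) (permRep ℚ (G := G) U)) :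
    ∃ (ι : (W → ℤ) →ₗ[ℤ] (U → ℤ)) (m : ℕ), 0 < m ∧ Function.Injective ι ∧
      (∀ (g : G) (f : W → ℤ), ι (permRep ℤ W g f) = permRep ℤ U g (ι f)) ∧
      ∀ y : U → ℤ, ∃ x : W → ℤ, ι x = m • y := by
  obtain ⟨e, he⟩ := h
  obtain ⟨d, ι, hd, hι⟩ := exists_int_model e.toLinearMap
  obtain ⟨d', ι', hd', hι'⟩ := exists_int_model e.symm.toLinearMap
  refine ⟨ι, d * d', Nat.mul_pos hd hd', ?_, ?_, ?_⟩
  · -- injectivity
    rw [injective_iff_map_eq_zero]
    intro f hf
    have h1 : e (fun w => (f w : ℚ)) = 0 := by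
      funext u
      have := hι f u
      rw [hf] at this
      have hd0 : (d : ℚ) ≠ 0 := by exact_mod_cast hd.ne'
      simpa [hd0] using this.symm
    have h2 : (fun w => (f w : ℚ)) = 0 := e.map_eq_zero_iff.1 h1
    funext w
    have h3 : ((f w : ℤ) : ℚ) = 0 := congrFun h2 w
    exact Int.cast_eq_zero.1 h3
  · -- equivariance
    intro g f
    funext u
    apply Int.cast_injective (α := ℚ)
    rw [hι]
    have h1 : (fun w => ((permRep ℤ W g f) w : ℚ)) = permRep ℚ W g (fun w => (f w : ℚ)) := rfl
    rw [h1]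
    show (d : ℚ) * e (permRep ℚ W g (fun w => (f w : ℚ))) u = ((ι f (g⁻¹ • u) : ℤ) : ℚ)
    rw [he, hι]
    rfl
  · -- cokernel
    intro y
    refine ⟨ι' y, ?_⟩
    funext u
    apply Int.cast_injective (α := ℚ)
    rw [hι]
    have h1 : (fun w => ((ι' y) w : ℚ)) = (d' : ℚ) • e.symm (fun u => (y u : ℚ)) := by
      funext w
      rw [hι' y w]
      rfl
    rw [h1]
    simp only [LinearEquiv.coe_coe, map_smul, LinearEquiv.apply_symm_apply, Pi.smul_apply,
      smul_eq_mul, nsmul_eq_mul]
    push_cast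
    ring

end Fermat.Agent.ES.T56.IntMap28
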