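/-
Programme T (S56), chapter GW-D, leaf KZero (helper28).

`PermDual28`: for a finite `G`-set `U` and an `𝔽_p[G]`-module `X`, the module of functions
`U → X` with `(g • ψ) u = ρ g (ψ (g⁻¹ • u))` (`funRep`), and the invariant `Phi F ρ U := F (U → X)`:
* `dual_perm_iso`    : `(U → X) ≅ Hom_ℤ(ℤ^U, X)` equivariantly;
* `Phi_eq_of_repIso` : `ℚ[W] ≅ ℚ[U]` ⇒ `Phi W = Phi U` (Brauer–Nesbitt, `BNChain28`);
* `Phi_congr`, `Phi_sum`, `Phi_sigma`, `Phi_unique` : behaviour on isomorphisms, disjoint unions,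
  points.
-/
import Mathlib
import Fermat.Agent.ES.T56.KZeroIface28
import Fermat.Agent.ES.T56.PermChar28
import Fermat.Agent.ES.T56.IntMap28
import Fermat.Agent.ES.T56.BNChain28

set_option autoImplicit false

namespace Fermat.Agent.ES.T56.PermDual28

open Representation Fermat.Agent.ES.T56.KZeroIface28 Fermat.Agent.ES.T56.CharIso28
  Fermat.Agent.ES.T56.PermChar28 Fermat.Agent.ES.T56.DualRep28 Fermat.Agent.ES.T56.BNChain28
  Fermat.Agent.ES.T56.IntMap28

section Def

variable {k : Type*} [CommSemiring k] {G : Type*} [Group G] {X : Type*} [AddCommMonoid X]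
  [Module k X] (ρ : Representation k G X) (U : Type*) [MulAction G U]

/-- Functions `U → X` with the twisted action `(g • ψ) u = ρ g (ψ (g⁻¹ • u))`. -/
def funRep : Representation k G (U → X) where
  toFun g :=
    { toFun := fun ψ u => ρ g (ψ (g⁻¹ • u))
      map_add' := fun ψ ψ' => by funext u; simp
      map_smul' := fun c ψ => by funext u; simp }
  map_one' := LinearMap.ext fun ψ => funext fun u => by simp
  map_mul' g h := LinearMap.ext fun ψ => funext fun u => by simp [mul_smul]

@[simp] theorem funRep_apply (g : G) (ψ : U → X) (u : U) :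
    funRep ρ U g ψ u = ρ g (ψ (g⁻¹ • u)) := rfl

end Def

variable {p : ℕ} [Fact p.Prime] {G : Type} [Group G]
  {X : Type} [AddCommGroup X] [Module (ZMod p) X] [Finite X] (ρ : Representation (ZMod p) G X)
  (F : AddInv p G)

omit [Finite X] in
/-- `(U → X) ≅ Hom_ℤ(ℤ^U, X)`, equivariantly. -/
theorem dual_perm_iso (U : Type) [MulAction G U] [Finite U] :
    ∃ e : (U → X) ≃ₗ[ZMod p] ((U → ℤ) →ₗ[ℤ] X),
      ∀ g ψ, e (funRep ρ U g ψ) = dualRep (permRep ℤ U) ρ g (e ψ) := by
  classical
  refine ⟨(Pi.basisFun ℤ U).constr (ZMod p), fun g ψ => ?_⟩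
  apply (Pi.basisFun ℤ U).ext
  intro u
  rw [Module.Basis.constr_basis, dualRep_apply]
  have h1 : permRep ℤ U g⁻¹ (Pi.basisFun ℤ U u) = Pi.basisFun ℤ U (g⁻¹ • u) := by
    funext x
    simp only [permRep_apply, Pi.basisFun_apply, Pi.single_apply, inv_inv]
    congr 1
    rw [eq_iff_iff]
    exact ⟨fun h => by rw [← h, inv_smul_smul], fun h => by rw [h, smul_inv_smul]⟩
  rw [h1, Module.Basis.constr_basis, funRep_apply]

/-- The invariant `U ↦ F(U → X)` of finite `G`-sets. -/
noncomputable def Phi (U : Type) [MulAction G U] [Finite U] : ℤ :=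
  F.f (U → X) (funRep ρ U)

/-- **Brauer–Nesbitt for permutation modules.** -/
theorem Phi_eq_of_repIso (W U : Type) [MulAction G W] [MulAction G U] [Finite W] [Finite U]
    (h : RepIso (permRep ℚ (G := G) W) (permRep ℚ (G := G) U)) :
    Phi ρ F W = Phi ρ F U := by
  obtain ⟨ι, m, hm, hinj, heq, hcok⟩ := exists_lattice_map h
  have htf : ∀ x : U → ℤ, p • x = 0 → x = 0 := by
    intro x hx
    funext u
    have := congrFun hx u
    simp only [Pi.smul_apply, nsmul_eq_mul, Pi.zero_apply, mul_eq_zero] at this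
    rcases this with h0 | h0
    · exact absurd (by exact_mod_cast h0) (Fact.out : p.Prime).ne_zero
    · exact h0
  have hBN := dual_eq_of_injective ρ F (permRep ℤ W) (permRep ℤ U) htf ι hinj heq m hm hcok
  obtain ⟨eW, heW⟩ := dual_perm_iso ρ W
  obtain ⟨eU, heU⟩ := dual_perm_iso ρ U
  have h1 : Phi ρ F W = F.f ((W → ℤ) →ₗ[ℤ] X) (dualRep (permRep ℤ W) ρ) :=
    F.f_iso _ _ _ _ eW heW
  have h2 : Phi ρ F U = F.f ((U → ℤ) →ₗ[ℤ] X) (dualRep (permRep ℤ U) ρ) :=
    F.f_iso _ _ _ _ eU heU
  rw [h1, h2, hBN]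

/-- `Phi` is invariant under equivariant bijections. -/
theorem Phi_congr (U U' : Type) [MulAction G U] [MulAction G U'] [Finite U] [Finite U']
    (α : U ≃ U') (hα : ∀ (g : G) (u : U), α (g • u) = g • α u) : Phi ρ F U = Phi ρ F U' := by
  refine (F.f_iso _ _ _ _ (LinearEquiv.funCongrLeft (ZMod p) X α) (fun g ψ => ?_)).symm
  funext u
  simp only [LinearEquiv.funCongrLeft_apply, LinearMap.funLeft_apply, funRep_apply]
  rw [hα]

/-- `Phi` of an empty `G`-set is `0`. -/
theorem Phi_empty (U : Type) [MulAction G U] [Finite U] [IsEmpty U] : Phi ρ F U = 0 :=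
  F.f_of_subsingleton _ _

/-- `Phi` is additive on disjoint unions. -/
theorem Phi_sum (A B : Type) [MulAction G A] [MulAction G B] [Finite A] [Finite B] :
    Phi ρ F (A ⊕ B) = Phi ρ F A + Phi ρ F B := by
  let i : (B → X) →ₗ[ZMod p] (A ⊕ B → X) :=
    { toFun := fun ψ => Sum.elim 0 ψ
      map_add' := fun ψ ψ' => by funext x; cases x <;> simp
      map_smul' := fun c ψ => by funext x; cases x <;> simp }
  let q : (A ⊕ B → X) →ₗ[ZMod p] (A → X) := LinearMap.funLeft (ZMod p) X Sum.inl
  have h := F.add (B → X) (A ⊕ B → X) (A → X) (funRep ρ B) (funRep ρ (A ⊕ B)) (funRep ρ A) i q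
    (fun ψ ψ' hh => by
      funext b
      exact congrFun hh (Sum.inr b))
    (fun φ => ⟨Sum.elim φ 0, by funext a; rfl⟩)
    (fun φ => by
      constructor
      · intro hφ
        refine ⟨fun b => φ (Sum.inr b), ?_⟩
        funext x
        cases x with
        | inl a => exact (congrFun hφ a).symm
        | inr b => rfl
      · rintro ⟨ψ, rfl⟩
        funext a
        rfl)
    (fun g ψ => by
      funext x
      cases x with
      | inl a => simp [i]
      | inr b => rfl)
    (fun g φ => by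
      funext a
      rfl)
  unfold Phi
  rw [h, add_comm]

/-- `Phi` is additive on finite disjoint unions `Σ i, T i`. -/
theorem Phi_sigma (ι : Type) [Fintype ι] :
    ∀ (T : ι → Type) [∀ i, MulAction G (T i)] [∀ i, Finite (T i)],
      Phi ρ F (Σ i, T i) = ∑ i, Phi ρ F (T i) := by
  refine Fintype.induction_empty_option
    (P := fun ι _ => ∀ (T : ι → Type) [∀ i, MulAction G (T i)] [∀ i, Finite (T i)],
      Phi ρ F (Σ i, T i) = ∑ i, Phi ρ F (T i)) ?_ ?_ ?_ ι
  · -- transport along an equivalence of index types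
    intro α β _ e ih T _ _
    let _ : Fintype α := Fintype.ofEquiv β e.symm
    have h1 := ih (fun a => T (e a))
    have h2 : Phi ρ F (Σ a, T (e a)) = Phi ρ F (Σ b, T b) :=
      Phi_congr ρ F _ _ (Equiv.sigmaCongrLeft e) (fun g u => rfl)
    rw [← h2, h1]
    exact Fintype.sum_equiv e _ _ (fun a => rfl)
  · intro T _ _
    rw [Phi_empty, Finset.univ_eq_empty, Finset.sum_empty]
  · intro α _ ih T _ _
    let ε : (Σ o : Option α, T o) ≃ T none ⊕ Σ a : α, T (some a) :=
      { toFun := fun x => match x with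
          | ⟨none, t⟩ => Sum.inl t
          | ⟨some a, t⟩ => Sum.inr ⟨a, t⟩
        invFun := fun y => match y with
          | Sum.inl t => ⟨none, t⟩
          | Sum.inr ⟨a, t⟩ => ⟨some a, t⟩
        left_inv := by
          rintro ⟨o, t⟩
          cases o <;> rfl
        right_inv := by
          rintro (t | ⟨a, t⟩) <;> rfl }
    have h1 : Phi ρ F (Σ o : Option α, T o) = Phi ρ F (T none ⊕ Σ a : α, T (some a)) :=
      Phi_congr ρ F _ _ ε (by
        rintro g ⟨o, t⟩
        cases o <;> rfl)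
    rw [h1, Phi_sum, ih (fun a => T (some a)), Fintype.sum_option]

/-- `Phi` of a one-point `G`-set is `F(X)`. -/
theorem Phi_unique (U : Type) [MulAction G U] [Unique U] : Phi ρ F U = F.f X ρ := by
  refine F.f_iso _ _ _ _ (LinearEquiv.funUnique U (ZMod p) X) (fun g ψ => ?_)
  simp only [LinearEquiv.funUnique_apply, Function.eval, funRep_apply]
  rw [Subsingleton.elim (g⁻¹ • (default : U)) default]

end Fermat.Agent.ES.T56.PermDual28
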