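/-
Programme T (S56), chapter GW-D, leaf KZero (helper28).

`CoindFilt28`: coinduction from a subgroup `C ≤ G`.
* `Phi_quotient_eq_coind` : `F(G ⧸ C → X) = F(Coind_C^G Res X)`;
* `F_coind_add`           : `Coind_C^G` is exact, hence `F ∘ Coind` is additive;
* `pFixed`, `pFixed_ne_bot`: in a finite abelian group the elements of `p`-power order have a
  nonzero common fixed vector in every nonzero finite `𝔽_p`-module;
* `F_coind_eq_zero`       : if `F` vanishes on `Coind_C^G N` for all `N` on which the elements of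
  `p`-power order act trivially (`C` cyclic), then it vanishes on `Coind_C^G Y` for ALL finite `Y`.
-/
import Mathlib
import Fermat.Agent.ES.T56.KZeroIface28
import Fermat.Agent.ES.T56.PermDual28

set_option autoImplicit false

namespace Fermat.Agent.ES.T56.CoindFilt28

open Representation Fermat.Agent.ES.T56.KZeroIface28 Fermat.Agent.ES.T56.PermDual28

variable {p : ℕ} [Fact p.Prime] {G : Type} [Group G] [Finite G] (F : AddInv p G)

section Quot

variable {X : Type} [AddCommGroup X] [Module (ZMod p) X] [Finite X]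
  (ρ : Representation (ZMod p) G X)

/-- `ψ ↦ (h ↦ ρ h (ψ (h⁻¹ C)))`, from functions on `G ⧸ C` to the coinduced module. -/
def toCoind (C : Subgroup G) :
    (G ⧸ C → X) →ₗ[ZMod p] coindV C.subtype (ρ.comp C.subtype) where
  toFun ψ := ⟨fun h => ρ h (ψ ((h⁻¹ : G) : G ⧸ C)), by
    intro c h
    have h1 : (((C.subtype c * h)⁻¹ : G) : G ⧸ C) = ((h⁻¹ : G) : G ⧸ C) := by
      rw [QuotientGroup.eq]
      simp
    show ρ (C.subtype c * h) (ψ (((C.subtype c * h)⁻¹ : G) : G ⧸ C)) =
      ρ (C.subtype c) (ρ h (ψ ((h⁻¹ : G) : G ⧸ C)))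
    rw [h1, map_mul]
    rfl⟩
  map_add' ψ ψ' := Subtype.ext (funext fun h => by simp)
  map_smul' c ψ := Subtype.ext (funext fun h => by simp)

omit [Finite G] [Finite X] in
theorem toCoind_apply (C : Subgroup G) (ψ : G ⧸ C → X) (h : G) :
    (toCoind ρ C ψ).1 h = ρ h (ψ ((h⁻¹ : G) : G ⧸ C)) := rfl

omit [Finite G] [Finite X] in
theorem toCoind_bijective (C : Subgroup G) : Function.Bijective (toCoind ρ C) := by
  constructor
  · rw [injective_iff_map_eq_zero]
    intro ψ hψ
    funext x
    induction x using QuotientGroup.induction_on with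
    | H z =>
      have h1 : (toCoind ρ C ψ).1 z⁻¹ = 0 := by rw [hψ]; rfl
      rw [toCoind_apply, inv_inv] at h1
      have h2 := congrArg (ρ z) h1
      rw [← Module.End.mul_apply, ← map_mul, mul_inv_cancel, map_one, Module.End.one_apply,
        map_zero] at h2
      exact h2
  · intro f
    have hf := f.2
    refine ⟨fun x => Quotient.liftOn' x (fun z => ρ z (f.1 z⁻¹)) ?_, ?_⟩
    · intro a b hab
      rw [QuotientGroup.leftRel_apply] at hab
      -- `b = a * c` with `c = a⁻¹ * b ∈ C`
      have h1 : b⁻¹ = C.subtype (⟨a⁻¹ * b, hab⟩⁻¹) * a⁻¹ := by simp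
      show ρ a (f.1 a⁻¹) = ρ b (f.1 b⁻¹)
      rw [h1, hf]
      show ρ a (f.1 a⁻¹) = ρ b (ρ (C.subtype (⟨a⁻¹ * b, hab⟩⁻¹)) (f.1 a⁻¹))
      rw [← Module.End.mul_apply, ← map_mul]
      congr 2
      simp
    · apply Subtype.ext
      funext h
      rw [toCoind_apply]
      show ρ h (ρ h⁻¹ (f.1 h⁻¹⁻¹)) = f.1 h
      rw [← Module.End.mul_apply, ← map_mul, mul_inv_cancel, map_one, Module.End.one_apply,
        inv_inv]

omit [Finite G] [Finite X] in
theorem toCoind_equivariant (C : Subgroup G) (g : G) (ψ : G ⧸ C → X) :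
    toCoind ρ C (funRep ρ (G ⧸ C) g ψ) = coind C.subtype (ρ.comp C.subtype) g (toCoind ρ C ψ) := by
  apply Subtype.ext
  funext h
  show ρ h (ρ g (ψ (g⁻¹ • ((h⁻¹ : G) : G ⧸ C)))) = ρ (h * g) (ψ (((h * g)⁻¹ : G) : G ⧸ C))
  rw [map_mul, Module.End.mul_apply, mul_inv_rev]
  rfl

/-- `F(G ⧸ C → X) = F(Coind_C^G Res X)`. -/
theorem Phi_quotient_eq_coind (C : Subgroup G) :
    Phi ρ F (G ⧸ C) =
      F.f (coindV C.subtype (ρ.comp C.subtype)) (coind C.subtype (ρ.comp C.subtype)) :=
  F.f_iso _ _ _ _ (LinearEquiv.ofBijective (toCoind ρ C) (toCoind_bijective ρ C))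
    (toCoind_equivariant ρ C)

end Quot

section Exact

variable (C : Subgroup G)
  {Y' Y Y'' : Type} [AddCommGroup Y'] [Module (ZMod p) Y'] [Finite Y']
  [AddCommGroup Y] [Module (ZMod p) Y] [Finite Y] [AddCommGroup Y''] [Module (ZMod p) Y'']
  [Finite Y''] (σ' : Representation (ZMod p) C Y') (σ : Representation (ZMod p) C Y)
  (σ'' : Representation (ZMod p) C Y'')

/-- Post-composition with an equivariant map, on coinduced modules. -/
def coindLin {Y Y'' : Type} [AddCommGroup Y] [Module (ZMod p) Y] [AddCommGroup Y'']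
    [Module (ZMod p) Y''] (σ : Representation (ZMod p) C Y) (σ'' : Representation (ZMod p) C Y'')
    (q : Y →ₗ[ZMod p] Y'') (eq : ∀ c y, q (σ c y) = σ'' c (q y)) :
    coindV C.subtype σ →ₗ[ZMod p] coindV C.subtype σ'' :=
  (q.compLeft G).restrict (fun f hf c h => by
    show q (f (C.subtype c * h)) = σ'' c (q (f h))
    rw [hf c h, eq])

omit [Finite G] in
theorem coindLin_apply {Y Y'' : Type} [AddCommGroup Y] [Module (ZMod p) Y] [AddCommGroup Y'']
    [Module (ZMod p) Y''] (σ : Representation (ZMod p) C Y) (σ'' : Representation (ZMod p) C Y'')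
    (q : Y →ₗ[ZMod p] Y'') (eq : ∀ c y, q (σ c y) = σ'' c (q y)) (f : coindV C.subtype σ)
    (h : G) : (coindLin C σ σ'' q eq f).1 h = q (f.1 h) := rfl

omit [Finite G] in
theorem coindLin_surjective {Y Y'' : Type} [AddCommGroup Y] [Module (ZMod p) Y]
    [AddCommGroup Y''] [Module (ZMod p) Y''] (σ : Representation (ZMod p) C Y)
    (σ'' : Representation (ZMod p) C Y'') (q : Y →ₗ[ZMod p] Y'')
    (eq : ∀ c y, q (σ c y) = σ'' c (q y)) (hq : Function.Surjective q) :
    Function.Surjective (coindLin C σ σ'' q eq) := by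
  intro y
  have hy := y.2
  let _ := QuotientGroup.rightRel C
  choose s hs using hq
  choose r hr using Quotient.mk'_surjective (α := G)
  have hmem : ∀ g : G, g * (r (Quotient.mk' g))⁻¹ ∈ C := fun g =>
    QuotientGroup.rightRel_apply.1 (Quotient.eq'.1 (hr (Quotient.mk' g)))
  let γ : G → C := fun g => ⟨g * (r (Quotient.mk' g))⁻¹, hmem g⟩
  have hmk : ∀ (c : C) (g : G), (Quotient.mk' (C.subtype c * g) : Quotient (QuotientGroup.rightRel C)) =
      Quotient.mk' g := fun c g =>
    Quotient.eq'.2 (QuotientGroup.rightRel_apply.2 (by simp))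
  have hγ : ∀ (c : C) (g : G), γ (C.subtype c * g) = c * γ g := by
    intro c g
    apply Subtype.ext
    show C.subtype c * g * (r (Quotient.mk' (C.subtype c * g)))⁻¹ =
      C.subtype c * (g * (r (Quotient.mk' g))⁻¹)
    rw [hmk, mul_assoc]
  have hγr : ∀ g : G, C.subtype (γ g) * r (Quotient.mk' g) = g := by
    intro g
    show g * (r (Quotient.mk' g))⁻¹ * r (Quotient.mk' g) = g
    rw [inv_mul_cancel_right]
  refine ⟨⟨fun g => σ (γ g) (s (y.1 (r (Quotient.mk' g)))), ?_⟩, ?_⟩
  · intro c g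
    show σ (γ (C.subtype c * g)) (s (y.1 (r (Quotient.mk' (C.subtype c * g))))) =
      σ c (σ (γ g) (s (y.1 (r (Quotient.mk' g)))))
    rw [hγ, hmk, map_mul]
    rfl
  · apply Subtype.ext
    funext g
    rw [coindLin_apply]
    show q (σ (γ g) (s (y.1 (r (Quotient.mk' g))))) = y.1 g
    rw [eq, hs, ← hy (γ g) (r (Quotient.mk' g)), hγr]

/-- **`F ∘ Coind_C^G` is additive on short exact sequences of `𝔽_p[C]`-modules.** -/
theorem F_coind_add (i : Y' →ₗ[ZMod p] Y) (q : Y →ₗ[ZMod p] Y'')
    (hi : Function.Injective i) (hq : Function.Surjective q) (hex : Function.Exact i q)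
    (ei : ∀ c y, i (σ' c y) = σ c (i y)) (eq : ∀ c y, q (σ c y) = σ'' c (q y)) :
    F.f (coindV C.subtype σ) (coind C.subtype σ) =
      F.f (coindV C.subtype σ') (coind C.subtype σ') +
        F.f (coindV C.subtype σ'') (coind C.subtype σ'') := by
  refine F.add _ _ _ _ _ _ (coindLin C σ' σ i ei) (coindLin C σ σ'' q eq) ?_
    (coindLin_surjective C σ σ'' q eq hq) ?_ (fun g f => rfl) (fun g f => rfl)
  · intro f f' hff
    apply Subtype.ext
    funext h
    apply hi
    have := congrArg (fun z : coindV C.subtype σ => z.1 h) hff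
    exact this
  · intro y
    constructor
    · intro hy0
      have hy0' : ∀ h, q (y.1 h) = 0 := fun h => by
        have := congrArg (fun z : coindV C.subtype σ'' => z.1 h) hy0
        exact this
      have hex' : ∀ h, ∃ y', i y' = y.1 h := fun h => (hex (y.1 h)).1 (hy0' h)
      choose f' hf' using hex'
      refine ⟨⟨f', fun c h => ?_⟩, ?_⟩
      · apply hi
        rw [hf', y.2 c h, ei, hf']
      · apply Subtype.ext
        funext h
        exact hf' h
    · rintro ⟨y', rfl⟩
      apply Subtype.ext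
      funext h
      exact hex.apply_apply_eq_zero _

end Exact

section PFixed

variable {Δ : Type*} [Group Δ] {Y : Type*} [AddCommGroup Y] [Module (ZMod p) Y]
  (σ : Representation (ZMod p) Δ Y)

/-- The vectors fixed by all elements of `p`-power order. -/
def pFixed : Submodule (ZMod p) Y where
  carrier := {y | ∀ c : Δ, (∃ k : ℕ, orderOf c = p ^ k) → σ c y = y}
  add_mem' := fun ha hb c hc => by rw [map_add, ha c hc, hb c hc]
  zero_mem' := fun c _ => map_zero _
  smul_mem' := fun a y hy c hc => by rw [map_smul, hy c hc]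

theorem pFixed_stable (hcomm : ∀ a b : Δ, a * b = b * a) (g : Δ) :
    pFixed σ ≤ (pFixed σ).comap (σ g) := by
  intro y hy c hc
  show σ c (σ g y) = σ g y
  rw [← Module.End.mul_apply, ← map_mul, hcomm c g, map_mul, Module.End.mul_apply, hy c hc]

/-- The subgroup of elements of `p`-power order of a commutative group. -/
def pPart (p : ℕ) [Fact p.Prime] (hcomm : ∀ a b : Δ, a * b = b * a) : Subgroup Δ where
  carrier := {c | ∃ k : ℕ, orderOf c = p ^ k}
  one_mem' := ⟨0, by simp⟩
  mul_mem' := by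
    rintro a b ⟨k, hk⟩ ⟨l, hl⟩
    have hab : Commute a b := hcomm a b
    have h1 : orderOf (a * b) ∣ p ^ max k l := by
      refine hab.orderOf_mul_dvd_lcm.trans (Nat.lcm_dvd ?_ ?_)
      · rw [hk]; exact pow_dvd_pow p (le_max_left k l)
      · rw [hl]; exact pow_dvd_pow p (le_max_right k l)
    obtain ⟨m, _, hm⟩ := (Nat.dvd_prime_pow (Fact.out : p.Prime)).1 h1
    exact ⟨m, hm⟩
  inv_mem' := by
    rintro a ⟨k, hk⟩
    exact ⟨k, by rw [orderOf_inv, hk]⟩

theorem pPart_isPGroup (hcomm : ∀ a b : Δ, a * b = b * a) : IsPGroup p (pPart p hcomm) := by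
  rintro ⟨c, k, hk⟩
  refine ⟨k, Subtype.ext ?_⟩
  show c ^ p ^ k = 1
  rw [← hk]
  exact pow_orderOf_eq_one c

/-- In a nonzero finite `𝔽_p`-module the elements of `p`-power order of a commutative group have a
nonzero common fixed vector. -/
theorem pFixed_ne_bot [Finite Y] [Nontrivial Y] (hcomm : ∀ a b : Δ, a * b = b * a) :
    pFixed σ ≠ ⊥ := by
  have hp : p.Prime := Fact.out
  let P := pPart p hcomm
  have hP : IsPGroup p P := pPart_isPGroup hcomm
  let _ : MulAction P Y :=
    { smul := fun c y => σ c.1 y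
      one_smul := fun y => by
        show σ ((1 : P) : Δ) y = y
        simp
      mul_smul := fun a b y => by
        show σ ((a * b : P) : Δ) y = σ a.1 (σ b.1 y)
        simp }
  have hcard := hP.card_modEq_card_fixedPoints Y
  have hpY : p ∣ Nat.card Y := by
    obtain ⟨y, hy⟩ := exists_ne (0 : Y)
    have h1 : addOrderOf y = p :=
      addOrderOf_eq_prime (ZModModule.char_nsmul_eq_zero p y) hy
    rw [← h1]
    exact addOrderOf_dvd_natCard y
  have hpfix : p ∣ Nat.card (MulAction.fixedPoints P Y) :=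
    (Nat.modEq_zero_iff_dvd).1 (hcard.symm.trans ((Nat.modEq_zero_iff_dvd).2 hpY))
  have h0 : (0 : Y) ∈ MulAction.fixedPoints P Y := fun c => map_zero (σ c.1)
  have hne : Nonempty (MulAction.fixedPoints P Y) := ⟨⟨0, h0⟩⟩
  have h2 : 1 < Nat.card (MulAction.fixedPoints P Y) :=
    lt_of_lt_of_le hp.one_lt (Nat.le_of_dvd Nat.card_pos hpfix)
  have hnt : Nontrivial (MulAction.fixedPoints P Y) := Finite.one_lt_card_iff_nontrivial.1 h2
  obtain ⟨y, hy⟩ := exists_ne (⟨0, h0⟩ : MulAction.fixedPoints P Y)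
  intro hbot
  have hmem : y.1 ∈ pFixed σ := fun c hc => y.2 ⟨c, hc⟩
  rw [hbot, Submodule.mem_bot] at hmem
  exact hy (Subtype.ext hmem)

end PFixed

section Induction

/-- **Dévissage.**  If `F` vanishes on `Coind_C^G N` whenever the elements of `p`-power order of the
cyclic group `C` act trivially on `N`, it vanishes on `Coind_C^G Y` for every finite `Y`. -/
theorem F_coind_eq_zero (hF : VanishesOnCyclic F) (C : Subgroup G) (hC : IsCyclic C) :
    ∀ (n : ℕ) (Y : Type) [AddCommGroup Y] [Module (ZMod p) Y] [Finite Y]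
      (σ : Representation (ZMod p) C Y), Nat.card Y ≤ n →
      F.f (coindV C.subtype σ) (coind C.subtype σ) = 0 := by
  have hcomm : ∀ a b : C, a * b = b * a := by
    intro a b
    obtain ⟨g, hg⟩ := IsCyclic.exists_generator (α := C)
    obtain ⟨m, rfl⟩ := Subgroup.mem_zpowers_iff.1 (hg a)
    obtain ⟨n, rfl⟩ := Subgroup.mem_zpowers_iff.1 (hg b)
    exact zpow_mul_comm g m n
  intro n
  induction n with
  | zero =>
    intro Y _ _ _ σ hn
    have : 0 < Nat.card Y := Nat.card_pos
    omega
  | succ n ih =>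
    intro Y _ _ _ σ hn
    by_cases hsub : Subsingleton Y
    · exact F.f_of_subsingleton _ _
    · have hnt : Nontrivial Y := not_subsingleton_iff_nontrivial.1 hsub
      set Y₁ : Submodule (ZMod p) Y := pFixed σ with hY₁
      have hst : ∀ g, Y₁ ≤ Y₁.comap (σ g) := pFixed_stable σ hcomm
      have hne : Y₁ ≠ ⊥ := pFixed_ne_bot σ hcomm
      have h1 : F.f (coindV C.subtype (σ.subrepresentation Y₁ hst))
          (coind C.subtype (σ.subrepresentation Y₁ hst)) = 0 := by
        apply hF C hC
        intro c hc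
        ext y
        exact y.2 c hc
      have hfinq : Finite (Y ⧸ Y₁) := Finite.of_surjective Y₁.mkQ (Submodule.mkQ_surjective Y₁)
      have hcard : Nat.card (Y ⧸ Y₁) ≤ n := by
        have h2 := Submodule.card_eq_card_quotient_mul_card Y₁
        have h3 : 1 < Nat.card Y₁ := by
          rw [Finite.one_lt_card_iff_nontrivial]
          exact Submodule.nontrivial_iff_ne_bot.2 hne
        have h4 : 0 < Nat.card (Y ⧸ Y₁) := Nat.card_pos
        nlinarith
      have h2 := ih (Y ⧸ Y₁) (σ.quotient Y₁ hst) hcard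
      have h3 := F_coind_add F C (σ.subrepresentation Y₁ hst) σ (σ.quotient Y₁ hst)
        Y₁.subtype Y₁.mkQ Y₁.injective_subtype (Submodule.mkQ_surjective Y₁)
        (LinearMap.exact_subtype_mkQ Y₁) (fun c y => rfl) (fun c y => rfl)
      rw [h3, h1, h2, add_zero]

end Induction

end Fermat.Agent.ES.T56.CoindFilt28
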