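/-
Programme T (S56), chapter GW, brick 10 (`BaseLocChi`), sub-brick (P3), helper1: the ABSTRACT half of
the orbit decomposition of a permutation module (elementary half of Shapiro's lemma).

`S ≤ G`, `Y` a `k[S]`-module with TRIVIAL action, `T = Rep.coind S.subtype Y` (functions `G → Y`,
left `S`-invariant, `G` acting by right translation), `r : Γ →* G`, `(g d)_{d ∈ D}` a system of
representatives of the double cosets `S \ G / r(Γ)`, `H d = {γ | g d · r γ · (g d)⁻¹ ∈ S}` the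
stabilisers.  Then

* `evAt S Y g : T → Y`, `f ↦ f g`, is `H d`-equivariant for `g = g d` (`evAt_equivariant`);
* `eq_zero_of_forall_pp` : a level class of `H¹(Γ, T)` whose images in all `H¹(H d, Y_triv)`
  vanish is zero (the product of the restriction–evaluation maps is injective);
* `constFun`, `constFun_injective` : `(D → Y) ↪ T^Γ` (functions constant on the double cosets).
-/
import Mathlib
import Fermat.Agent.PT.PRO.LevelCoh28
import Fermat.Agent.PT.PRO.LevelCohRes28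

set_option autoImplicit false
set_option linter.unusedSectionVars false

open CategoryTheory groupCohomology

namespace Fermat.Agent.ES.T56.CoindOrbit1

open Fermat.Agent.PT.PRO.LevelCoh28 Fermat.Agent.PT.PRO.LevelCohRes28

variable {k G Γ : Type} [CommRing k] [Group G] [Group Γ]
variable (S : Subgroup G) (Y : Rep.{0} k ↥S) (r : Γ →* G)

/-- Evaluation at `g`. -/
def evAt (g : G) : (Rep.coind S.subtype Y) →ₗ[k] Y where
  toFun f := f.1 g
  map_add' _ _ := rfl
  map_smul' _ _ := rfl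

@[simp] theorem evAt_apply (g : G) (f : Rep.coind S.subtype Y) : evAt S Y g f = f.1 g := rfl

theorem coind_rho_apply (x g : G) (f : Rep.coind S.subtype Y) :
    ((Rep.coind S.subtype Y).ρ x f).1 g = f.1 (g * x) := rfl

variable {S Y}

/-- Left `S`-invariance of the coinduced functions when `Y` is trivial. -/
theorem coind_left_inv (hY : ∀ s, Y.ρ s = 1) (f : Rep.coind S.subtype Y) {s : G} (hs : s ∈ S)
    (g : G) : f.1 (s * g) = f.1 g := by
  have := f.2 ⟨s, hs⟩ g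
  rw [hY] at this
  exact this

variable (S Y)

/-- `evAt g` is equivariant for a subgroup `H ≤ Γ` with `g · r(H) · g⁻¹ ⊆ S`. -/
theorem evAt_equivariant (hY : ∀ s, Y.ρ s = 1) (g : G) (H : Subgroup Γ)
    (hH : ∀ h ∈ H, g * r h * g⁻¹ ∈ S) (h : ↥H) (f : Rep.res r (Rep.coind S.subtype Y)) :
    evAt S Y g ((Rep.res r (Rep.coind S.subtype Y)).ρ (H.subtype h) f) =
      (Rep.trivial k ↥H Y).ρ h (evAt S Y g f) := by
  show f.1 (g * r h) = f.1 g
  have h1 : g * r (h : Γ) = (g * r h * g⁻¹) * g := by group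
  rw [h1]
  exact coind_left_inv hY f (hH h h.2) g

/-! ### Injectivity of the product of the restriction–evaluation maps -/

section Injective

variable {D : Type} (g : D → G) (Hd : D → Subgroup Γ)
  (hY : ∀ s, Y.ρ s = 1)
  (hH : ∀ d γ, γ ∈ Hd d ↔ g d * r γ * (g d)⁻¹ ∈ S)
  (hcover : ∀ x : G, ∃ d, ∃ s ∈ S, ∃ γ, x = s * g d * r γ)
  (hdisj : ∀ d d', ∀ s ∈ S, ∀ γ, g d' = s * g d * r γ → d = d')

include hY hH hcover hdisj in
/-- A cocycle `c : Γ → T` with `c(h)(g d) = 0` for all `h ∈ H d` and all `d` is a coboundary. -/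
theorem mem_coboundaries_of_forall (c : Γ → Rep.res r (Rep.coind S.subtype Y))
    (hc : c ∈ cocycles₁ (Rep.res r (Rep.coind S.subtype Y)))
    (h0 : ∀ d, ∀ h ∈ Hd d, (c h).1 (g d) = 0) :
    c ∈ coboundaries₁ (Rep.res r (Rep.coind S.subtype Y)) := by
  classical
  rw [mem_cocycles₁_iff] at hc
  -- the cocycle identity, evaluated
  have hcoc : ∀ γ γ' x, (c (γ * γ')).1 x = (c γ').1 (x * r γ) + (c γ).1 x := by
    intro γ γ' x
    have := congrArg (fun f : Rep.res r (Rep.coind S.subtype Y) => f.1 x) (hc γ γ')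
    exact this
  choose dx sx hsx γx hx using hcover
  -- the key well-definedness statement
  have key : ∀ (x : G) (d : D) (s : G) (γ : Γ), s ∈ S → x = s * g d * r γ →
      (c (γx x)).1 (g (dx x)) = (c γ).1 (g d) := by
    intro x d s γ hs hxe
    have hx' := hx x
    have h1 : sx x * g (dx x) * r (γx x) = s * g d * r γ := by rw [← hxe, ← hx']
    have hdd : d = dx x := by
      apply hdisj d (dx x) ((sx x)⁻¹ * s) (S.mul_mem (S.inv_mem (hsx x)) hs) (γ * (γx x)⁻¹)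
      rw [map_mul, map_inv]
      calc g (dx x) = (sx x)⁻¹ * (sx x * g (dx x) * r (γx x)) * (r (γx x))⁻¹ := by group
        _ = (sx x)⁻¹ * (s * g d * r γ) * (r (γx x))⁻¹ := by rw [h1]
        _ = (sx x)⁻¹ * s * g d * (r γ * (r (γx x))⁻¹) := by group
    rw [← hdd] at h1 ⊢
    -- `h = γx x * γ⁻¹ ∈ H d`
    have h2 : g d * r (γx x * γ⁻¹) * (g d)⁻¹ = (sx x)⁻¹ * s := by
      rw [map_mul, map_inv]
      calc g d * (r (γx x) * (r γ)⁻¹) * (g d)⁻¹
          = (sx x)⁻¹ * (sx x * g d * r (γx x)) * (r γ)⁻¹ * (g d)⁻¹ := by group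
        _ = (sx x)⁻¹ * (s * g d * r γ) * (r γ)⁻¹ * (g d)⁻¹ := by rw [h1]
        _ = (sx x)⁻¹ * s := by group
    have h3 : (sx x)⁻¹ * s ∈ S := S.mul_mem (S.inv_mem (hsx x)) hs
    have hmem : γx x * γ⁻¹ ∈ Hd d := (hH d _).2 (by rw [h2]; exact h3)
    have h4 : γx x = (γx x * γ⁻¹) * γ := by group
    rw [h4, hcoc, h0 d _ hmem, add_zero]
    have h5 : g d * r (γx x * γ⁻¹) = ((sx x)⁻¹ * s) * g d := by
      rw [← h2]; group
    rw [h5]
    exact coind_left_inv hY _ h3 _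
  -- the function `t`
  let t : Rep.res r (Rep.coind S.subtype Y) :=
    ⟨fun x => (c (γx x)).1 (g (dx x)), fun s x => by
      show (c (γx ((s : G) * x))).1 (g (dx ((s : G) * x))) = Y.ρ s ((c (γx x)).1 (g (dx x)))
      rw [hY, key ((s : G) * x) (dx x) ((s : G) * sx x) (γx x) (S.mul_mem s.2 (hsx x))
        (by rw [mul_assoc, mul_assoc, ← mul_assoc (sx x), ← hx x])]
      rfl⟩
  have ht : ∀ x, t.1 x = (c (γx x)).1 (g (dx x)) := fun x => rfl
  refine ⟨t, ?_⟩
  funext γ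
  rw [d₀₁_hom_apply]
  apply Subtype.ext
  funext x
  show t.1 (x * r γ) - t.1 x = (c γ).1 x
  rw [ht (x * r γ), ht x, key (x * r γ) (dx x) (sx x) (γx x * γ) (hsx x)
    (by rw [map_mul, ← mul_assoc, ← hx x]), hcoc, add_sub_cancel_right]
  have h6 : g (dx x) * r (γx x) = (sx x)⁻¹ * x := by
    calc g (dx x) * r (γx x) = (sx x)⁻¹ * (sx x * g (dx x) * r (γx x)) := by group
      _ = (sx x)⁻¹ * x := by rw [← hx x]
  rw [h6]
  exact coind_left_inv hY _ (S.inv_mem (hsx x)) _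

/-- Coboundaries of a trivial module vanish. -/
theorem eq_zero_of_mem_coboundaries_trivial {H : Type} [Group H] {V : Type} [AddCommGroup V]
    [Module k V] {f : H → Rep.trivial k H V} (hf : f ∈ coboundaries₁ (Rep.trivial k H V)) (h : H) :
    f h = 0 := by
  obtain ⟨a, rfl⟩ := hf
  rw [d₀₁_hom_apply]
  exact sub_self a

include hcover hdisj in
/-- **Injectivity**: a level class of `H¹(Γ, T)` whose restriction–evaluations in all
`H¹(H d, Y_triv)` vanish is zero. -/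
theorem eq_zero_of_forall_pp (𝓑 : LevelBasis Γ) (𝓑d : ∀ d, LevelBasis ↥(Hd d))
    (hlev : ∀ d, IsLevelHom (Hd d).subtype (𝓑d d).sets 𝓑.sets)
    (x : H1 𝓑 (Rep.res r (Rep.coind S.subtype Y)))
    (hx : ∀ d, ppH1 (𝓑G := 𝓑d d) (𝓑H := 𝓑) (B := Rep.trivial k ↥(Hd d) Y) (Hd d).subtype
        (evAt S Y (g d))
        (evAt_equivariant S Y r hY (g d) (Hd d) (fun h hh => (hH d h).1 hh)) (hlev d) x = 0) :
    x = 0 := by
  obtain ⟨c, rfl⟩ := H1mk_surjective 𝓑 _ x
  rw [H1mk_eq_zero_iff]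
  refine mem_coboundaries_of_forall S Y r g Hd hY hH hcover hdisj c.1 c.2.1 fun d h hh => ?_
  have h1 := hx d
  rw [ppH1_mk, H1mk_eq_zero_iff] at h1
  exact eq_zero_of_mem_coboundaries_trivial h1 ⟨h, hh⟩

end Injective

/-! ### Functions constant on the double cosets are invariant -/

section Invariants

variable {D : Type} (cl : G → D)
  (hY : ∀ s, Y.ρ s = 1)
  (hl : ∀ s ∈ S, ∀ x, cl (s * x) = cl x) (hr : ∀ x γ, cl (x * r γ) = cl x)

/-- `φ ↦ φ ∘ cl`, as a map `(D → Y) → T^Γ`. -/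
def constFun : (D → Y) →ₗ[k] ↥(Rep.res r (Rep.coind S.subtype Y)).ρ.invariants where
  toFun φ := ⟨⟨fun x => φ (cl x), fun s x => by
      show φ (cl ((s : G) * x)) = Y.ρ s (φ (cl x))
      rw [hl s s.2 x, hY]
      rfl⟩, fun γ => by
      apply Subtype.ext
      funext x
      show φ (cl (x * r γ)) = φ (cl x)
      rw [hr x γ]⟩
  map_add' _ _ := rfl
  map_smul' _ _ := rfl

theorem constFun_apply (φ : D → Y) (x : G) :
    ((constFun S Y r cl hY hl hr φ : ↥(Rep.res r (Rep.coind S.subtype Y)).ρ.invariants) :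
      Rep.res r (Rep.coind S.subtype Y)).1 x = φ (cl x) := rfl

theorem constFun_injective (hsurj : Function.Surjective cl) :
    Function.Injective (constFun S Y r cl hY hl hr) := by
  intro φ ψ h
  funext d
  obtain ⟨x, rfl⟩ := hsurj d
  have := congrArg (fun f : ↥(Rep.res r (Rep.coind S.subtype Y)).ρ.invariants =>
    (f : Rep.res r (Rep.coind S.subtype Y)).1 x) h
  exact this

end Invariants

/-! ### Counting: `Σ_d [Γ : H d] = [G : S]` -/

section Count

variable {D : Type} (g : D → G) (Hd : D → Subgroup Γ)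
  (hH : ∀ d γ, γ ∈ Hd d ↔ g d * r γ * (g d)⁻¹ ∈ S)
  (hcover : ∀ x : G, ∃ d, ∃ s ∈ S, ∃ γ, x = s * g d * r γ)
  (hdisj : ∀ d d', ∀ s ∈ S, ∀ γ, g d' = s * g d * r γ → d = d')

/-- `(d, γ H_d) ↦ r(γ) g_d⁻¹ S`. -/
def orbitMap (x : Σ d, Γ ⧸ Hd d) : G ⧸ S :=
  Quotient.liftOn' x.2 (fun γ => ((r γ * (g x.1)⁻¹ : G) : G ⧸ S)) (by
    intro a b hab
    have hab' : a⁻¹ * b ∈ Hd x.1 := QuotientGroup.leftRel_apply.1 hab
    show ((r a * (g x.1)⁻¹ : G) : G ⧸ S) = ((r b * (g x.1)⁻¹ : G) : G ⧸ S)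
    rw [QuotientGroup.eq]
    have h1 := (hH x.1 _).1 hab'
    have h2 : (r a * (g x.1)⁻¹)⁻¹ * (r b * (g x.1)⁻¹) = g x.1 * r (a⁻¹ * b) * (g x.1)⁻¹ := by
      rw [map_mul, map_inv]; group
    rw [h2]
    exact h1)

theorem orbitMap_mk (d : D) (γ : Γ) :
    orbitMap S r g Hd hH ⟨d, (γ : Γ ⧸ Hd d)⟩ = ((r γ * (g d)⁻¹ : G) : G ⧸ S) := rfl

include hdisj in
theorem orbitMap_injective : Function.Injective (orbitMap S r g Hd hH) := by
  rintro ⟨d, a⟩ ⟨d', b⟩ hab
  induction a using QuotientGroup.induction_on with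
  | H γ =>
  induction b using QuotientGroup.induction_on with
  | H γ' =>
  rw [orbitMap_mk, orbitMap_mk, QuotientGroup.eq] at hab
  have h1 : (r γ * (g d)⁻¹)⁻¹ * (r γ' * (g d')⁻¹) = g d * r (γ⁻¹ * γ') * (g d')⁻¹ := by
    rw [map_mul, map_inv]; group
  rw [h1] at hab
  have hdd : d = d' := by
    apply hdisj d d' (g d * r (γ⁻¹ * γ') * (g d')⁻¹)⁻¹ (S.inv_mem hab) (γ⁻¹ * γ')
    group
  subst hdd
  have h2 : γ⁻¹ * γ' ∈ Hd d := (hH d _).2 hab
  have h3 : ((γ : Γ) : Γ ⧸ Hd d) = (γ' : Γ ⧸ Hd d) := QuotientGroup.eq.2 h2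
  rw [h3]

include hcover in
theorem orbitMap_surjective : Function.Surjective (orbitMap S r g Hd hH) := by
  intro y
  induction y using QuotientGroup.induction_on with
  | H x =>
  obtain ⟨d, s, hs, γ, hx⟩ := hcover x⁻¹
  refine ⟨⟨d, ((γ⁻¹ : Γ) : Γ ⧸ Hd d)⟩, ?_⟩
  rw [orbitMap_mk, QuotientGroup.eq]
  have h1 : (r γ⁻¹ * (g d)⁻¹)⁻¹ * x = s⁻¹ := by
    have h2 : x = (x⁻¹)⁻¹ := (inv_inv x).symm
    rw [h2, hx, map_inv]; group
  rw [h1]
  exact S.inv_mem hs

include hH hcover hdisj in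
/-- **`Σ_d [Γ : H d] = [G : S]`.** -/
theorem sum_index_eq [Fintype D] [S.FiniteIndex] : ∑ d, (Hd d).index = S.index := by
  have hbij : Function.Bijective (orbitMap S r g Hd hH) :=
    ⟨orbitMap_injective S r g Hd hH hdisj, orbitMap_surjective S r g Hd hH hcover⟩
  have hfin : Finite (G ⧸ S) := Subgroup.finite_quotient_of_finiteIndex
  have hfinSig : Finite (Σ d, Γ ⧸ Hd d) := Finite.of_injective _ hbij.1
  have hfind : ∀ d, Finite (Γ ⧸ Hd d) := fun d =>
    Finite.of_injective (fun a : Γ ⧸ Hd d => (⟨d, a⟩ : Σ d, Γ ⧸ Hd d))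
      (fun a b hab => by cases hab; rfl)
  rw [Subgroup.index_eq_card, ← Nat.card_eq_of_bijective _ hbij, Nat.card_sigma]
  exact Finset.sum_congr rfl fun d _ => Subgroup.index_eq_card _

end Count

/-! ### The two dimension bounds (coefficients in a field) -/

/-- A family of linear maps with trivial common kernel bounds the dimension. -/
theorem finrank_le_sum_of_forall_ker {F : Type} [Field F] {V : Type} [AddCommGroup V]
    [Module F V] {D : Type} [Fintype D] {W : D → Type} [∀ d, AddCommGroup (W d)]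
    [∀ d, Module F (W d)] (hfd : ∀ d, FiniteDimensional F (W d)) (φ : ∀ d, V →ₗ[F] W d)
    (h : ∀ x, (∀ d, φ d x = 0) → x = 0) :
    FiniteDimensional F V ∧ Module.finrank F V ≤ ∑ d, Module.finrank F (W d) := by
  have hinj : Function.Injective (LinearMap.pi φ) := (injective_iff_map_eq_zero _).2 fun x hx =>
    h x (fun d => congrFun hx d)
  refine ⟨Module.Finite.of_injective _ hinj, ?_⟩
  have := LinearMap.finrank_le_finrank_of_injective hinj
  rwa [Module.finrank_pi_fintype] at this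

section Finrank

variable {F : Type} [Field F] (S : Subgroup G) (Z : Rep.{0} F ↥S) (r : Γ →* G)
variable {D : Type} [Fintype D] (g : D → G) (Hd : D → Subgroup Γ)
  (hZ : ∀ s, Z.ρ s = 1)
  (hH : ∀ d γ, γ ∈ Hd d ↔ g d * r γ * (g d)⁻¹ ∈ S)
  (hcover : ∀ x : G, ∃ d, ∃ s ∈ S, ∃ γ, x = s * g d * r γ)
  (hdisj : ∀ d d', ∀ s ∈ S, ∀ γ, g d' = s * g d * r γ → d = d')

include hZ hH hcover hdisj in
/-- **`h¹(Γ, T) ≤ Σ_d h¹(H d, Y_triv)`**, with finite-dimensionality. -/
theorem finrank_H1_le (𝓑 : LevelBasis Γ) (𝓑d : ∀ d, LevelBasis ↥(Hd d))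
    (hlev : ∀ d, IsLevelHom (Hd d).subtype (𝓑d d).sets 𝓑.sets)
    (hfd : ∀ d, FiniteDimensional F (H1 (𝓑d d) (Rep.trivial F ↥(Hd d) Z))) :
    FiniteDimensional F (H1 𝓑 (Rep.res r (Rep.coind S.subtype Z))) ∧
      Module.finrank F (H1 𝓑 (Rep.res r (Rep.coind S.subtype Z))) ≤
        ∑ d, Module.finrank F (H1 (𝓑d d) (Rep.trivial F ↥(Hd d) Z)) := by
  let W : D → Type := fun d => H1 (𝓑d d) (Rep.trivial F ↥(Hd d) Z)
  let i1 : ∀ d, AddCommGroup (W d) := fun d =>
    inferInstanceAs (AddCommGroup (H1 (𝓑d d) (Rep.trivial F ↥(Hd d) Z)))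
  let i2 : ∀ d, Module F (W d) := fun d =>
    inferInstanceAs (Module F (H1 (𝓑d d) (Rep.trivial F ↥(Hd d) Z)))
  let φ : ∀ d, H1 𝓑 (Rep.res r (Rep.coind S.subtype Z)) →ₗ[F] W d := fun d =>
    ppH1 (𝓑G := 𝓑d d) (𝓑H := 𝓑) (B := Rep.trivial F ↥(Hd d) Z)
      (Hd d).subtype (evAt S Z (g d))
      (evAt_equivariant S Z r hZ (g d) (Hd d) (fun h hh => (hH d h).1 hh)) (hlev d)
  exact finrank_le_sum_of_forall_ker (W := W) hfd φ
    (fun x hx => eq_zero_of_forall_pp S Z r g Hd hZ hH hcover hdisj 𝓑 𝓑d hlev x hx)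

variable (cl : G → D)
  (hl : ∀ s ∈ S, ∀ x, cl (s * x) = cl x) (hr : ∀ x γ, cl (x * r γ) = cl x)

include hZ hl hr in
/-- **`#D · dim Y ≤ h⁰(Γ, T)`.** -/
theorem card_mul_finrank_le (hsurj : Function.Surjective cl) [FiniteDimensional F Z]
    [FiniteDimensional F ↥(Rep.res r (Rep.coind S.subtype Z)).ρ.invariants] :
    Fintype.card D * Module.finrank F Z ≤
      Module.finrank F ↥(Rep.res r (Rep.coind S.subtype Z)).ρ.invariants := by
  have := LinearMap.finrank_le_finrank_of_injective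
    (constFun_injective S Z r cl hZ hl hr hsurj)
  rwa [Module.finrank_pi_fintype, Finset.sum_const, Finset.card_univ, smul_eq_mul] at this

end Finrank

end Fermat.Agent.ES.T56.CoindOrbit1
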