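/-
Programme T (S56), chapter GW, brick 10 (`BaseLocChi`), sub-brick (P3), COUNTING half (helper11): **double coset
representatives for `G_L \ G_ℚ / r_q(Γ_q)`**.

`L` a number field in `ℚ̄`, `S = G_L = L.fixingSubgroup`, `Γ = Γ_q = primeLocalGaloisGroup q`, `r = primeLocalToGlobal q`.
`Γ` acts on the right cosets `RC S = S \ G_ℚ` by `γ • S g = S g r(γ)⁻¹` (`rcAction`, a `def`, not an instance).

* `conjField L g = g⁻¹(L)` (`= L.map g⁻¹`): `mem_fixingSubgroup_conjField : s ∈ G_{g⁻¹L} ↔ g s g⁻¹ ∈ G_L`,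
  `finiteDimensional_conjField`, `exists_zeta_conjField` (`ζ_p ∈ L → ζ_p ∈ g⁻¹L`);
* `stabilizer_mk : Stab_Γ(S g) = locSub q (conjField L g)`;
* **`exists_orbit_reps`** : there are `n` and `g : Fin n → G_ℚ` such that
    (cover)   every `x : G_ℚ` is `s · g i · r(γ)` with `s ∈ G_L`, `γ ∈ Γ_q`,
    (disjoint) `g j = s · g i · r(γ)` forces `i = j`,
    (count)   `Σ_i [Γ_q : locSub q (conjField L (g i))] = [G_ℚ : G_L]`.
-/
import Mathlib
import Fermat.Agent.ES.T56.LocChiIface11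
import Fermat.Agent.ES.T56.CoindFinrank22

set_option autoImplicit false
set_option linter.style.haveILetI false
set_option linter.unusedSectionVars false

open ExtCitation

namespace Fermat.Agent.ES.T56.CoindOrbit11

open Fermat.Agent.ES.T56.GWIface21 Fermat.Agent.ES.T56.LocChiIface11
  Fermat.Agent.ES.T56.CoindFinrank22

noncomputable section

/-! ### Conjugate fields -/

/-- `g⁻¹(L)`. -/
def conjField (L : IntermediateField ℚ (AlgebraicClosure ℚ)) (g : GQ) :
    IntermediateField ℚ (AlgebraicClosure ℚ) :=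
  L.map ((g⁻¹ : GQ) : AlgebraicClosure ℚ →ₐ[ℚ] AlgebraicClosure ℚ)

theorem mem_conjField {L : IntermediateField ℚ (AlgebraicClosure ℚ)} {g : GQ}
    {x : AlgebraicClosure ℚ} : x ∈ conjField L g ↔ g x ∈ L := by
  unfold conjField
  rw [IntermediateField.mem_map]
  constructor
  · rintro ⟨y, hy, rfl⟩
    show g ((g⁻¹ : GQ) y) ∈ L
    rw [← AlgEquiv.mul_apply, mul_inv_cancel, AlgEquiv.one_apply]
    exact hy
  · intro h
    refine ⟨g x, h, ?_⟩
    show (g⁻¹ : GQ) (g x) = x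
    rw [← AlgEquiv.mul_apply, inv_mul_cancel, AlgEquiv.one_apply]

theorem mem_fixingSubgroup_conjField (L : IntermediateField ℚ (AlgebraicClosure ℚ)) (g s : GQ) :
    s ∈ (conjField L g).fixingSubgroup ↔ g * s * g⁻¹ ∈ L.fixingSubgroup := by
  rw [IntermediateField.mem_fixingSubgroup_iff, IntermediateField.mem_fixingSubgroup_iff]
  constructor
  · intro h x hx
    have hx' : (g⁻¹ : GQ) x ∈ conjField L g := by
      rw [mem_conjField, ← AlgEquiv.mul_apply, mul_inv_cancel, AlgEquiv.one_apply]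
      exact hx
    have := h _ hx'
    rw [AlgEquiv.mul_apply, AlgEquiv.mul_apply, this, ← AlgEquiv.mul_apply, mul_inv_cancel,
      AlgEquiv.one_apply]
  · intro h x hx
    have hx' := mem_conjField.mp hx
    have := h _ hx'
    have e1 : (g * s * g⁻¹) (g x) = g (s x) := by
      rw [AlgEquiv.mul_apply, AlgEquiv.mul_apply]
      congr 2
      rw [← AlgEquiv.mul_apply, inv_mul_cancel, AlgEquiv.one_apply]
    rw [e1] at this
    exact g.injective this

theorem finiteDimensional_conjField (L : IntermediateField ℚ (AlgebraicClosure ℚ))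
    [FiniteDimensional ℚ L] (g : GQ) : FiniteDimensional ℚ (conjField L g) :=
  Module.Finite.equiv (IntermediateField.equivMap L
    ((g⁻¹ : GQ) : AlgebraicClosure ℚ →ₐ[ℚ] AlgebraicClosure ℚ)).toLinearEquiv

theorem exists_zeta_conjField {p : ℕ} (L : IntermediateField ℚ (AlgebraicClosure ℚ)) (g : GQ)
    (hζ : ∃ ζ ∈ L, IsPrimitiveRoot ζ p) : ∃ ζ ∈ conjField L g, IsPrimitiveRoot ζ p := by
  obtain ⟨ζ, hζL, hζ⟩ := hζ
  refine ⟨(g⁻¹ : GQ) ζ, ?_, hζ.map_of_injective (g⁻¹ : GQ).injective⟩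
  rw [mem_conjField, ← AlgEquiv.mul_apply, mul_inv_cancel, AlgEquiv.one_apply]
  exact hζL

/-! ### The action of `Γ_q` on `G_L \ G_ℚ` -/

variable (q : Nat.Primes) (L : IntermediateField ℚ (AlgebraicClosure ℚ))

/-- `γ • S g = S g r(γ)⁻¹`. -/
def rcSMul (γ : primeLocalGaloisGroup q) (x : RC L.fixingSubgroup) : RC L.fixingSubgroup :=
  Quotient.map' (fun g => g * (primeLocalToGlobal q γ)⁻¹) (fun a b hab => by
    rw [QuotientGroup.rightRel_apply] at hab ⊢
    have : b * (primeLocalToGlobal q γ)⁻¹ * (a * (primeLocalToGlobal q γ)⁻¹)⁻¹ = b * a⁻¹ := by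
      group
    rw [this]
    exact hab) x

theorem rcSMul_mk (γ : primeLocalGaloisGroup q) (g : GQ) :
    rcSMul q L γ (⟦g⟧ : RC L.fixingSubgroup) = ⟦g * (primeLocalToGlobal q γ)⁻¹⟧ := rfl

/-- The action of `Γ_q` on the right cosets of `G_L` (a definition, NOT an instance). -/
abbrev rcAction : MulAction (primeLocalGaloisGroup q) (RC L.fixingSubgroup) where
  smul := rcSMul q L
  one_smul x := by
    induction x using Quotient.inductionOn with
    | h g =>
      show rcSMul q L 1 ⟦g⟧ = ⟦g⟧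
      rw [rcSMul_mk, map_one, inv_one, mul_one]
  mul_smul γ γ' x := by
    induction x using Quotient.inductionOn with
    | h g =>
      show rcSMul q L (γ * γ') ⟦g⟧ = rcSMul q L γ (rcSMul q L γ' ⟦g⟧)
      rw [rcSMul_mk, rcSMul_mk, rcSMul_mk, map_mul, mul_inv_rev, mul_assoc]

theorem mk_eq_mk_iff (a b : GQ) :
    (⟦a⟧ : RC L.fixingSubgroup) = ⟦b⟧ ↔ b * a⁻¹ ∈ L.fixingSubgroup := by
  rw [Quotient.eq]
  exact QuotientGroup.rightRel_apply

/-- **The stabiliser of `S g` is `r_q⁻¹(G_{g⁻¹L})`.** -/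
theorem stabilizer_mk (g : GQ) :
    @MulAction.stabilizer _ _ _ (rcAction q L) (⟦g⟧ : RC L.fixingSubgroup) =
      locSub q (conjField L g) := by
  letI := rcAction q L
  ext γ
  rw [MulAction.mem_stabilizer_iff, mem_locSub, mem_fixingSubgroup_conjField]
  show rcSMul q L γ ⟦g⟧ = ⟦g⟧ ↔ _
  rw [rcSMul_mk, mk_eq_mk_iff]
  have : g * (g * (primeLocalToGlobal q γ)⁻¹)⁻¹ = g * primeLocalToGlobal q γ * g⁻¹ := by group
  rw [this]

/-- **Double coset representatives with the index count.** -/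
theorem exists_orbit_reps [FiniteDimensional ℚ L] :
    ∃ (n : ℕ) (g : Fin n → GQ),
      (∀ x : GQ, ∃ i, ∃ γ : primeLocalGaloisGroup q, ∃ s ∈ L.fixingSubgroup,
        x = s * g i * primeLocalToGlobal q γ) ∧
      (∀ i j, ∀ γ : primeLocalGaloisGroup q, ∀ s ∈ L.fixingSubgroup,
        g j = s * g i * primeLocalToGlobal q γ → i = j) ∧
      ∑ i, (locSub q (conjField L (g i))).index = L.fixingSubgroup.index := by
  letI := rcAction q L
  haveI : L.fixingSubgroup.FiniteIndex := Fermat.Agent.PT.BR.Interface29.finiteIndex_fixingSubgroup L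
  haveI : Finite (RC L.fixingSubgroup) := finite_RC L.fixingSubgroup
  let Ω := MulAction.orbitRel.Quotient (primeLocalGaloisGroup q) (RC L.fixingSubgroup)
  haveI : Finite Ω := Quotient.finite _
  let e : Ω ≃ Fin (Nat.card Ω) := Finite.equivFin Ω
  let g : Fin (Nat.card Ω) → GQ := fun i => Quotient.out (Quotient.out (e.symm i) : RC L.fixingSubgroup)
  have hg : ∀ i, (⟦(⟦g i⟧ : RC L.fixingSubgroup)⟧ : Ω) = e.symm i := fun i => by
    show (⟦(⟦Quotient.out (Quotient.out (e.symm i))⟧ : RC L.fixingSubgroup)⟧ : Ω) = e.symm i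
    rw [Quotient.out_eq, Quotient.out_eq]
  refine ⟨Nat.card Ω, g, ?_, ?_, ?_⟩
  · intro x
    refine ⟨e (⟦(⟦x⟧ : RC L.fixingSubgroup)⟧ : Ω), ?_⟩
    have h1 : (⟦(⟦g (e (⟦(⟦x⟧ : RC L.fixingSubgroup)⟧ : Ω))⟧ : RC L.fixingSubgroup)⟧ : Ω) =
        ⟦(⟦x⟧ : RC L.fixingSubgroup)⟧ := by
      rw [hg, e.symm_apply_apply]
    rw [Quotient.eq] at h1
    obtain ⟨γ, hγ⟩ := h1
    -- `γ • ⟦x⟧ = ⟦g i⟧`
    have h2 : rcSMul q L γ (⟦x⟧ : RC L.fixingSubgroup) =
        ⟦g (e (⟦(⟦x⟧ : RC L.fixingSubgroup)⟧ : Ω))⟧ := hγ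
    rw [rcSMul_mk, mk_eq_mk_iff] at h2
    refine ⟨γ, (g _ * (x * (primeLocalToGlobal q γ)⁻¹)⁻¹)⁻¹, inv_mem h2, ?_⟩
    group
  · intro i j γ s hs hij
    have h1 : (⟦g j⟧ : RC L.fixingSubgroup) = rcSMul q L γ⁻¹ ⟦g i⟧ := by
      rw [rcSMul_mk, mk_eq_mk_iff, hij, map_inv, inv_inv]
      have : g i * primeLocalToGlobal q γ * (s * g i * primeLocalToGlobal q γ)⁻¹ = s⁻¹ := by
        group
      rw [this]
      exact inv_mem hs
    have h2 : (⟦(⟦g j⟧ : RC L.fixingSubgroup)⟧ : Ω) = ⟦(⟦g i⟧ : RC L.fixingSubgroup)⟧ := by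
      rw [Quotient.eq]
      exact ⟨γ⁻¹, h1.symm⟩
    rw [hg, hg] at h2
    exact (e.symm.injective h2).symm
  · have hidx : ∀ i, (locSub q (conjField L (g i))).index =
        Nat.card ↥(MulAction.orbit (primeLocalGaloisGroup q) (Quotient.out (e.symm i) : RC L.fixingSubgroup)) := by
      intro i
      rw [← stabilizer_mk, MulAction.index_stabilizer, Nat.card_coe_set_eq]
      show (MulAction.orbit _ (⟦Quotient.out (Quotient.out (e.symm i))⟧ : RC L.fixingSubgroup)).ncard = _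
      rw [Quotient.out_eq]
    rw [Finset.sum_congr rfl (fun i _ => hidx i), ← card_RC,
      Nat.card_congr (MulAction.selfEquivSigmaOrbits (primeLocalGaloisGroup q) (RC L.fixingSubgroup))]
    letI : Fintype Ω := Fintype.ofFinite Ω
    rw [Nat.card_sigma]
    exact Fintype.sum_equiv e.symm _ _ (fun i => rfl)

end

end Fermat.Agent.ES.T56.CoindOrbit11
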