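/-
Programme T (S56), chapter GW, brick 10 (`BaseLocChi`), sub-brick (P3), helper1:

  **`coindTrivLe_of_locTrivLe : LocTrivLe p q → CoindTrivLe p q`**   (literals of `LocChiIface11`).

`L ∋ ζ_p` a number field, `Y` an `𝔽_p`-module with TRIVIAL action of `G_L`, `T = Coind_{G_L}^{G_ℚ} Y`.
`Γ_q` acts on `G_L \ G_ℚ` through `r_q`; `D` = the double cosets `G_L \ G_ℚ / r_q(Γ_q)`, `g_d` chosen
representatives, `L_d = g_d⁻¹ L` (again a number field containing a primitive `p`-th root of unity),
`H_d = locSub q L_d = {γ | g_d r_q(γ) g_d⁻¹ ∈ G_L}` the stabilisers.  By `CoindOrbit1`: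

* `h¹(Γ_q, T) ≤ Σ_d h¹(H_d, Y_triv) ≤ Σ_d (2 + [q = p]·[Γ_q : H_d])·dim Y`   (`LocTrivLe` at `L_d`);
* `#D · dim Y ≤ h⁰(Γ_q, T)`;   `Σ_d [Γ_q : H_d] = [G_ℚ : G_L]`;   `dim T = [G_ℚ : G_L] · dim Y`.
-/
import Mathlib
import Fermat.Agent.ES.T56.LocChiIface11
import Fermat.Agent.ES.T56.CoindOrbit1
import Fermat.Agent.ES.T56.CoindFinrank22

set_option autoImplicit false
set_option linter.unusedSectionVars false

open CategoryTheory Module groupCohomology ExtCitation

namespace Fermat.Agent.ES.T56.CoindTrivLe1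

open Fermat.Agent.ES.T56.GWIface21 Fermat.Agent.ES.T56.LocChiIface11
  Fermat.Agent.PT.PRO.LevelCoh28 Fermat.Agent.PT.PRO.LevelCohRes28
  Fermat.Agent.PT.BR.Interface29 Fermat.Agent.ES.T56.CoindOrbit1

local notation "Qbar" => AlgebraicClosure ℚ

variable {p : ℕ} [Fact p.Prime]

/-! ### The conjugate fields -/

/-- `g⁻¹ L`. -/
noncomputable def conjField (L : IntermediateField ℚ Qbar) (g : GQ) : IntermediateField ℚ Qbar :=
  L.map ((g⁻¹ : GQ) : Qbar →ₐ[ℚ] Qbar)

theorem mem_fixingSubgroup_conjField (L : IntermediateField ℚ Qbar) (g σ : GQ) :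
    σ ∈ (conjField L g).fixingSubgroup ↔ g * σ * g⁻¹ ∈ L.fixingSubgroup := by
  rw [IntermediateField.mem_fixingSubgroup_iff, IntermediateField.mem_fixingSubgroup_iff]
  constructor
  · intro h x hx
    have h1 := h (g⁻¹ x) ((IntermediateField.mem_map _).2 ⟨x, hx, rfl⟩)
    show g (σ (g⁻¹ x)) = x
    rw [h1]
    exact AlgEquiv.apply_symm_apply g x
  · intro h y hy
    obtain ⟨x, hx, rfl⟩ := (IntermediateField.mem_map _).1 hy
    have h1 : g (σ (g⁻¹ x)) = x := h x hx
    show σ (g⁻¹ x) = g⁻¹ x
    calc σ (g⁻¹ x) = g⁻¹ (g (σ (g⁻¹ x))) := (AlgEquiv.symm_apply_apply g _).symm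
      _ = g⁻¹ x := by rw [h1]

theorem finiteDimensional_conjField (L : IntermediateField ℚ Qbar) [FiniteDimensional ℚ L]
    (g : GQ) : FiniteDimensional ℚ (conjField L g) :=
  IntermediateField.finiteDimensional_map _

theorem exists_primitiveRoot_conjField (L : IntermediateField ℚ Qbar) (g : GQ)
    (h : ∃ ζ ∈ L, IsPrimitiveRoot ζ p) : ∃ ζ ∈ conjField L g, IsPrimitiveRoot ζ p := by
  obtain ⟨ζ, hζL, hζ⟩ := h
  exact ⟨g⁻¹ ζ, (IntermediateField.mem_map _).2 ⟨ζ, hζL, rfl⟩,
    hζ.map_of_injective (f := ((g⁻¹ : GQ) : Qbar →ₐ[ℚ] Qbar)) (AlgEquiv.injective _)⟩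

theorem mem_locSub_conjField (q : Nat.Primes) (L : IntermediateField ℚ Qbar) (g : GQ)
    (γ : primeLocalGaloisGroup q) :
    γ ∈ locSub q (conjField L g) ↔
      g * primeLocalToGlobal q γ * g⁻¹ ∈ L.fixingSubgroup := by
  rw [mem_locSub, mem_fixingSubgroup_conjField]

/-- The inclusion `locSub q K → Γ_q` is continuous for the level bases. -/
theorem isLevelHom_locSub (q : Nat.Primes) (K : IntermediateField ℚ Qbar) :
    IsLevelHom (locSub q K).subtype (levelBasisOf (locHom q K)).sets
      (levelBasisOf (primeLocalToGlobal q)).sets := by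
  rintro U ⟨F, hF, rfl⟩
  exact ⟨_, ⟨F, hF, rfl⟩, fun v hv => hv⟩

/-! ### The double cosets `G_L \ G_ℚ / r_q(Γ_q)` -/

section DoubleCosets

variable {G Γ : Type} [Group G] [Group Γ] (S : Subgroup G) (r : Γ →* G)

/-- The double cosets `S \ G / r(Γ)`. -/
abbrev DC : Type := DoubleCoset.Quotient (S : Set G) (r.range : Set G)

/-- The class of `x`. -/
abbrev cls (x : G) : DC S r := DoubleCoset.mk S r.range x

/-- A chosen representative. -/
noncomputable def rep (d : DC S r) : G := Quotient.out d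

theorem cls_rep (d : DC S r) : cls S r (rep S r d) = d := DoubleCoset.out_eq' S r.range d

theorem cls_left {s : G} (hs : s ∈ S) (x : G) : cls S r (s * x) = cls S r x := by
  rw [DoubleCoset.eq]
  exact ⟨s⁻¹, S.inv_mem hs, 1, r.range.one_mem, by group⟩

theorem cls_right (x : G) (γ : Γ) : cls S r (x * r γ) = cls S r x := by
  rw [DoubleCoset.eq]
  exact ⟨1, S.one_mem, (r γ)⁻¹, r.range.inv_mem ⟨γ, rfl⟩, by group⟩

theorem cls_surjective : Function.Surjective (cls S r) :=
  fun d => ⟨rep S r d, cls_rep S r d⟩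

theorem exists_cover (x : G) : ∃ d : DC S r, ∃ s ∈ S, ∃ γ, x = s * rep S r d * r γ := by
  obtain ⟨h, k, hh, hk, he⟩ := DoubleCoset.mk_out_eq_mul S r.range x
  obtain ⟨γ, hγ⟩ := r.range.inv_mem hk
  refine ⟨cls S r x, h⁻¹, S.inv_mem hh, γ, ?_⟩
  show x = h⁻¹ * Quotient.out (DoubleCoset.mk S r.range x) * r γ
  rw [he, hγ]
  group

theorem eq_of_rep_eq (d d' : DC S r) {s : G} (hs : s ∈ S) (γ : Γ)
    (h : rep S r d' = s * rep S r d * r γ) : d = d' := by
  rw [← cls_rep S r d, ← cls_rep S r d', DoubleCoset.eq]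
  exact ⟨s, hs, r γ, ⟨γ, rfl⟩, h⟩

theorem finite_DC [S.FiniteIndex] : Finite (DC S r) := by
  have hfin : Finite (G ⧸ S) := Subgroup.finite_quotient_of_finiteIndex
  let f : G ⧸ S → DC S r :=
    Quotient.lift (fun x : G => cls S r x⁻¹) (by
      intro a b hab
      have hab' : a⁻¹ * b ∈ S := QuotientGroup.leftRel_apply.1 hab
      show cls S r a⁻¹ = cls S r b⁻¹
      have h1 : a⁻¹ = (a⁻¹ * b) * b⁻¹ := by group
      rw [h1]
      exact cls_left S r hab' _)
  refine Finite.of_surjective f fun d => ?_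
  obtain ⟨x, rfl⟩ := cls_surjective S r d
  exact ⟨((x⁻¹ : G) : G ⧸ S), by show cls S r (x⁻¹)⁻¹ = _; rw [inv_inv]⟩

end DoubleCosets

/-! ### The theorem -/

open Fermat.Agent.ES.T56.CoindFinrank22 in
/-- **(P3)** `LocTrivLe p q → CoindTrivLe p q`. -/
theorem coindTrivLe_of_locTrivLe (q : Nat.Primes) (h : LocTrivLe p q) : CoindTrivLe p q := by
  intro L hL hζ Y hY htriv
  classical
  have hfi : L.fixingSubgroup.FiniteIndex := finiteIndex_fixingSubgroup L
  have hfinD : Finite (DC L.fixingSubgroup (primeLocalToGlobal q)) := finite_DC _ _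
  let _ : Fintype (DC L.fixingSubgroup (primeLocalToGlobal q)) := Fintype.ofFinite _
  -- the data
  have hH : ∀ (d : DC L.fixingSubgroup (primeLocalToGlobal q)) (γ : primeLocalGaloisGroup q),
      γ ∈ locSub q (conjField L (rep _ _ d)) ↔
        rep _ _ d * primeLocalToGlobal q γ * (rep _ _ d)⁻¹ ∈ L.fixingSubgroup :=
    fun d γ => mem_locSub_conjField q L _ γ
  have hcover := exists_cover L.fixingSubgroup (primeLocalToGlobal q)
  have hdisj := fun d d' s (hs : s ∈ L.fixingSubgroup) γ =>
    eq_of_rep_eq L.fixingSubgroup (primeLocalToGlobal q) d d' hs γ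
  -- the local Kummer bounds at the conjugate fields
  have hloc := fun d : DC L.fixingSubgroup (primeLocalToGlobal q) =>
    h (conjField L (rep _ _ d)) (finiteDimensional_conjField L _)
      (exists_primitiveRoot_conjField L _ hζ) Y
  -- `h¹`
  obtain ⟨hfdT, hle⟩ := finrank_H1_le L.fixingSubgroup Y (primeLocalToGlobal q)
    (rep _ _) (fun d => locSub q (conjField L (rep _ _ d))) htriv hH hcover
    hdisj (levelBasisOf (primeLocalToGlobal q))
    (fun d => levelBasisOf (locHom q (conjField L (rep _ _ d))))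
    (fun d => isLevelHom_locSub q _) (fun d => (hloc d).1)
  -- transport to the Prelude's `contLoc`
  let e := h1Equiv (primeLocalToGlobal q)
    (Rep.res (primeLocalToGlobal q) (Rep.coind L.fixingSubgroup.subtype Y))
  have hfdC : FiniteDimensional (ZMod p)
      ↥(contLoc p q (Rep.coind L.fixingSubgroup.subtype Y)) :=
    LinearEquiv.finiteDimensional e
  have h1eq : h1loc p q (Rep.coind L.fixingSubgroup.subtype Y) =
      finrank (ZMod p) (H1 (levelBasisOf (primeLocalToGlobal q))
        (Rep.res (primeLocalToGlobal q) (Rep.coind L.fixingSubgroup.subtype Y))) :=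
    e.finrank_eq.symm
  refine ⟨hfdC, ?_⟩
  -- `h⁰`
  have hfinRC : Finite (RC L.fixingSubgroup) := finite_RC _
  have hfdT' : FiniteDimensional (ZMod p) (Rep.coind L.fixingSubgroup.subtype Y) :=
    Module.Finite.equiv (coindEquivPi L.fixingSubgroup Y).symm
  have hfdRes : FiniteDimensional (ZMod p)
      (Rep.res (primeLocalToGlobal q) (Rep.coind L.fixingSubgroup.subtype Y)) := hfdT'
  have h0le := card_mul_finrank_le L.fixingSubgroup Y (primeLocalToGlobal q) htriv
    (cls L.fixingSubgroup (primeLocalToGlobal q)) (fun s hs x => cls_left _ _ hs x)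
    (fun x γ => cls_right _ _ x γ) (cls_surjective _ _)
  have hidx := sum_index_eq L.fixingSubgroup (primeLocalToGlobal q) (rep _ _)
    (fun d => locSub q (conjField L (rep _ _ d))) hH hcover hdisj
  have hdim := finrank_coind L.fixingSubgroup Y
  have h0eq : h0loc p q (Rep.coind L.fixingSubgroup.subtype Y) = finrank (ZMod p)
      ↥(Rep.res (primeLocalToGlobal q) (Rep.coind L.fixingSubgroup.subtype Y)).ρ.invariants := rfl
  -- the arithmetic
  rw [h1eq, h0eq]
  refine hle.trans ?_
  by_cases hq : q = pPrime p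
  · have hsum : ∑ d, finrank (ZMod p)
          (H1 (levelBasisOf (locHom q (conjField L
            (rep L.fixingSubgroup (primeLocalToGlobal q) d))))
            (Rep.trivial (ZMod p)
              ↥(locSub q (conjField L (rep L.fixingSubgroup (primeLocalToGlobal q) d))) Y)) ≤
        ∑ d, (2 + (locSub q (conjField L
          (rep L.fixingSubgroup (primeLocalToGlobal q) d))).index) * finrank (ZMod p) Y :=
      Finset.sum_le_sum fun d _ => by
        have h2 := (hloc d).2
        rw [if_pos hq] at h2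
        exact h2
    refine hsum.trans ?_
    rw [if_pos hq]
    have e1 : ∑ d, (2 + (locSub q (conjField L
        (rep L.fixingSubgroup (primeLocalToGlobal q) d))).index) * finrank (ZMod p) Y =
        2 * (Fintype.card (DC L.fixingSubgroup (primeLocalToGlobal q)) * finrank (ZMod p) Y) +
          (∑ d, (locSub q (conjField L
            (rep L.fixingSubgroup (primeLocalToGlobal q) d))).index) * finrank (ZMod p) Y := by
      rw [Finset.sum_mul]
      simp only [add_mul, Finset.sum_add_distrib, Finset.sum_const, Finset.card_univ,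
        smul_eq_mul]
      ring
    rw [e1, hidx, hdim]
    linarith
  · have hsum : ∑ d, finrank (ZMod p)
          (H1 (levelBasisOf (locHom q (conjField L
            (rep L.fixingSubgroup (primeLocalToGlobal q) d))))
            (Rep.trivial (ZMod p)
              ↥(locSub q (conjField L (rep L.fixingSubgroup (primeLocalToGlobal q) d))) Y)) ≤
        ∑ _d : DC L.fixingSubgroup (primeLocalToGlobal q), 2 * finrank (ZMod p) Y :=
      Finset.sum_le_sum fun d _ => by
        have h2 := (hloc d).2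
        rw [if_neg hq, add_zero] at h2
        exact h2
    refine hsum.trans ?_
    rw [if_neg hq, add_zero, Finset.sum_const, Finset.card_univ, smul_eq_mul]
    linarith

end Fermat.Agent.ES.T56.CoindTrivLe1
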