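/-
Programme T (S56, Taylor–Wiles primes), helper27 (programme lead): the CONTRACT file.

Top of the spine (see `T56_SPINE27.md`):

* `TWHalf 𝒟`        : one half of S56 for a family of deformation conditions `T ↦ 𝒟 T`
                      (`T` = the allowed ramification set);
* `s56_of_halves`   : S56 = `TWHalf ordCond ∧ TWHalf flatCond` (definitional);
* `tanCard DQ`      : `#Hom_𝒪-alg(R_Q, k[ε])`, the tangent count of a deformation ring;
* `TWCount 𝒟`       : the numerical core – same shape as `TWHalf`, last clause replaced by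
                      `tanCard DQ ≤ |k| ^ r`;
* `PowSurj 𝒪`       : the commutative-algebra leaf (`PowSurj23`): tangent count `≤ |k|^r`
                      gives a surjection from `𝒪⟦x₁,…,x_r⟧`;
* `twHalf_of_twCount`: `PowSurj 𝒪 → TWCount 𝒟 → TWHalf 𝒟`;
* `TWSelmer 𝒟`      : the shape in which chapters TAN / LOC / GW / TW meet (a finite set `X` of
                      size `≤ |k|^r` receiving every tangent space injectively);
* `twHalf_of_isEmpty`: a half is vacuous (`r = 0`) when no deformation ring of the type exists.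

`ad⁰ρ̄` and the tangent map live in helper10's `Ad0Rep10` / `TangentMap10` (matrix model of S53).

Nothing here is deep; every declaration is kernel-checked, no `sorry`.
-/
import Mathlib
import Fermat.Prelude.Def_GaloisRep_DeformationRingData
import Fermat.Prelude.Def_GaloisRep_LocalConditions
import Fermat.Prelude.Def_GaloisRep_StrictOrdinary
import Fermat.Prelude.Def_GaloisRep_Flat
import Fermat.Prelude.Def_GaloisRep_Residual

set_option autoImplicit false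
set_option linter.style.haveILetI false

open Polynomial IsLocalRing

namespace Fermat.Agent.ES.T56.T56Iface27

/-- `G_ℚ`. -/
abbrev GQ : Type := AlgebraicClosure ℚ ≃ₐ[ℚ] AlgebraicClosure ℚ

/-- The type of a deformation condition over `𝒪` (the shape used by `DeformationRingData`). -/
abbrev Cond (𝒪 : Type) [CommRing 𝒪] : Type 1 :=
  ∀ ⦃A : Type⦄ [CommRing A] [IsLocalRing A] [Algebra 𝒪 A], GaloisRepAdic A → Prop

/-- The strict-ordinary condition of S56 with allowed ramification set `T`. -/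
def ordCond (𝒪 : Type) [CommRing 𝒪] (p : ℕ) (Smin T : Finset ℕ) : Cond 𝒪 :=
  fun _A _ _ _ ρ => GaloisRep.strictOrdinaryCondition 𝒪 p T ρ ∧
    ∀ q ∈ Smin, q.Prime → q ≠ p → ρ.IsUnipotentOnInertiaAt q

/-- The flat condition of S56 with allowed ramification set `T`. -/
def flatCond (𝒪 : Type) [CommRing 𝒪] (p : ℕ) (Smin T : Finset ℕ) : Cond 𝒪 :=
  fun _A _ _ _ ρ => GaloisRep.flatCondition 𝒪 p T ρ ∧
    ∀ q ∈ Smin, q.Prime → q ≠ p → ρ.IsUnipotentOnInertiaAt q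

section

variable {𝒪 : Type} [CommRing 𝒪] [IsDomain 𝒪] [IsDiscreteValuationRing 𝒪]
  [IsAdicComplete (maximalIdeal 𝒪) 𝒪]

/-- Every Frobenius element at `q` has two DISTINCT eigenvalues in `k` on `ρ̄`. -/
def FrobSplit (ρbar : ResidualGaloisRep (ResidueField 𝒪)) (q : ℕ) : Prop :=
  ∀ P : ValuationSubring (AlgebraicClosure ℚ), P.LiesOverPrime q →
    ∀ φ : AlgebraicClosure ℚ ≃ₐ[ℚ] AlgebraicClosure ℚ, P.IsFrobeniusAt φ q →
      ∃ α β : ResidueField 𝒪, α ≠ β ∧ LinearMap.charpoly (ρbar.ρ φ) = (X - C α) * (X - C β)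

/-- One half of S56, for the family of conditions `T ↦ 𝒟 T`. -/
def TWHalf (p : ℕ) (ρbar : ResidualGaloisRep (ResidueField 𝒪)) (S Smin : Finset ℕ)
    (𝒟 : Finset ℕ → Cond 𝒪) : Prop :=
  ∃ r : ℕ, ∀ n : ℕ, ∃ qv : Fin r → ℕ, Function.Injective qv ∧
    (∀ i, (qv i).Prime ∧ qv i ∉ S ∧ p ^ (n + 1) ∣ qv i - 1) ∧
    (∀ i, FrobSplit ρbar (qv i)) ∧
    ∀ DQ : GaloisRep.DeformationRingData 𝒪 ρbar (𝒟 (Smin ∪ Finset.univ.image qv)),
      ∃ γ : MvPowerSeries (Fin r) 𝒪 →ₐ[𝒪] DQ.R, Function.Surjective γ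

/-- S56 is literally the conjunction of the two halves. -/
theorem s56_of_halves (p : ℕ) (ρbar : ResidualGaloisRep (ResidueField 𝒪)) (S Smin : Finset ℕ)
    (hord : TWHalf p ρbar S Smin (ordCond 𝒪 p Smin))
    (hflat : TWHalf p ρbar S Smin (flatCond 𝒪 p Smin)) :
    (∃ r : ℕ, ∀ n : ℕ, ∃ qv : Fin r → ℕ, Function.Injective qv ∧
      (∀ i, (qv i).Prime ∧ qv i ∉ S ∧ p ^ (n + 1) ∣ qv i - 1) ∧
      (∀ i, ∀ P : ValuationSubring (AlgebraicClosure ℚ), P.LiesOverPrime (qv i) →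
        ∀ φ : AlgebraicClosure ℚ ≃ₐ[ℚ] AlgebraicClosure ℚ, P.IsFrobeniusAt φ (qv i) →
          ∃ α β : ResidueField 𝒪, α ≠ β ∧ LinearMap.charpoly (ρbar.ρ φ) = (X - C α) * (X - C β)) ∧
      ∀ DQ : GaloisRep.DeformationRingData 𝒪 ρbar (fun _A _ _ _ ρ =>
          GaloisRep.strictOrdinaryCondition 𝒪 p (Smin ∪ Finset.univ.image qv) ρ ∧
            ∀ q ∈ Smin, q.Prime → q ≠ p → ρ.IsUnipotentOnInertiaAt q),
        ∃ γ : MvPowerSeries (Fin r) 𝒪 →ₐ[𝒪] DQ.R, Function.Surjective γ) ∧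
    (∃ r : ℕ, ∀ n : ℕ, ∃ qv : Fin r → ℕ, Function.Injective qv ∧
      (∀ i, (qv i).Prime ∧ qv i ∉ S ∧ p ^ (n + 1) ∣ qv i - 1) ∧
      (∀ i, ∀ P : ValuationSubring (AlgebraicClosure ℚ), P.LiesOverPrime (qv i) →
        ∀ φ : AlgebraicClosure ℚ ≃ₐ[ℚ] AlgebraicClosure ℚ, P.IsFrobeniusAt φ (qv i) →
          ∃ α β : ResidueField 𝒪, α ≠ β ∧ LinearMap.charpoly (ρbar.ρ φ) = (X - C α) * (X - C β)) ∧
      ∀ DQ : GaloisRep.DeformationRingData 𝒪 ρbar (fun _A _ _ _ ρ =>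
          GaloisRep.flatCondition 𝒪 p (Smin ∪ Finset.univ.image qv) ρ ∧
            ∀ q ∈ Smin, q.Prime → q ≠ p → ρ.IsUnipotentOnInertiaAt q),
        ∃ γ : MvPowerSeries (Fin r) 𝒪 →ₐ[𝒪] DQ.R, Function.Surjective γ) :=
  ⟨hord, hflat⟩

/-- The `𝒪`-algebra structure on `k[ε]` through the residue map, exactly as introduced (by `letI`)
in `GaloisRep.TangentFinite` (same term as `Fermat.Agent.S53.dualNumberAlgebra`). -/
@[reducible] noncomputable def dualAlg (𝒪 : Type) [CommRing 𝒪] [IsLocalRing 𝒪] :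
    Algebra 𝒪 (DualNumber (ResidueField 𝒪)) :=
  ((algebraMap (ResidueField 𝒪) (DualNumber (ResidueField 𝒪))).comp
    (algebraMap 𝒪 (ResidueField 𝒪))).toAlgebra

/-- The tangent count `#Hom_{𝒪-alg}(R, k[ε])` of a local `𝒪`-algebra. -/
noncomputable def tanCard (𝒪 : Type) [CommRing 𝒪] [IsLocalRing 𝒪] (R : Type) [CommRing R]
    [Algebra 𝒪 R] : ℕ :=
  letI := dualAlg 𝒪
  Nat.card (R →ₐ[𝒪] DualNumber (ResidueField 𝒪))

/-- The numerical core of one half of S56: tangent count `≤ |k|^r` (and finitely many tangent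
vectors: `Nat.card = 0` for infinite types, hence the `Finite` clause). -/
def TWCount (p : ℕ) (ρbar : ResidualGaloisRep (ResidueField 𝒪)) (S Smin : Finset ℕ)
    (𝒟 : Finset ℕ → Cond 𝒪) : Prop :=
  ∃ r : ℕ, ∀ n : ℕ, ∃ qv : Fin r → ℕ, Function.Injective qv ∧
    (∀ i, (qv i).Prime ∧ qv i ∉ S ∧ p ^ (n + 1) ∣ qv i - 1) ∧
    (∀ i, FrobSplit ρbar (qv i)) ∧
    ∀ DQ : GaloisRep.DeformationRingData 𝒪 ρbar (𝒟 (Smin ∪ Finset.univ.image qv)),
      (letI := dualAlg 𝒪; Finite (DQ.R →ₐ[𝒪] DualNumber (ResidueField 𝒪))) ∧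
        tanCard 𝒪 DQ.R ≤ Nat.card (ResidueField 𝒪) ^ r

/-- The commutative-algebra leaf (owner: helper23, `PowSurj23`). -/
def PowSurj (𝒪 : Type) [CommRing 𝒪] [IsDomain 𝒪] [IsDiscreteValuationRing 𝒪]
    [IsAdicComplete (maximalIdeal 𝒪) 𝒪] : Prop :=
  ∀ (R : Type) [CommRing R] [IsLocalRing R] [IsNoetherianRing R]
    [IsAdicComplete (maximalIdeal R) R] [Algebra 𝒪 R] [IsLocalHom (algebraMap 𝒪 R)],
    Function.Surjective (IsLocalRing.residue R ∘ algebraMap 𝒪 R) →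
    ∀ r : ℕ, (letI := dualAlg 𝒪; Finite (R →ₐ[𝒪] DualNumber (ResidueField 𝒪))) →
      tanCard 𝒪 R ≤ Nat.card (ResidueField 𝒪) ^ r →
      ∃ γ : MvPowerSeries (Fin r) 𝒪 →ₐ[𝒪] R, Function.Surjective γ

theorem twHalf_of_twCount (hpow : PowSurj 𝒪) (p : ℕ)
    (ρbar : ResidualGaloisRep (ResidueField 𝒪)) (S Smin : Finset ℕ) (𝒟 : Finset ℕ → Cond 𝒪)
    (h : TWCount p ρbar S Smin 𝒟) : TWHalf p ρbar S Smin 𝒟 := by
  obtain ⟨r, hr⟩ := h
  refine ⟨r, fun n => ?_⟩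
  obtain ⟨qv, hinj, hq, hfrob, hDQ⟩ := hr n
  exact ⟨qv, hinj, hq, hfrob, fun DQ =>
    hpow DQ.R DQ.residue_surjective r (hDQ DQ).1 (hDQ DQ).2⟩

/-- The meeting point of the arithmetic chapters (TAN / LOC / GW / TW) for one half: a number `r`
and, for every `n`, a Taylor–Wiles set `Q_n` of size `r` together with a FINITE SET `X` (in the
proof: the Selmer group `H¹_{L_Q}(G_{Smin ∪ Q}, ad⁰ρ̄)`) of size `≤ |k|^r` into which the tangent
space of every deformation ring of type `𝒟 (Smin ∪ Q_n)` injects (as a plain function). -/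
def TWSelmer (p : ℕ) (ρbar : ResidualGaloisRep (ResidueField 𝒪)) (S Smin : Finset ℕ)
    (𝒟 : Finset ℕ → Cond 𝒪) : Prop :=
  ∃ r : ℕ, ∀ n : ℕ, ∃ qv : Fin r → ℕ, Function.Injective qv ∧
    (∀ i, (qv i).Prime ∧ qv i ∉ S ∧ p ^ (n + 1) ∣ qv i - 1) ∧
    (∀ i, FrobSplit ρbar (qv i)) ∧
    ∃ (X : Type) (_ : Finite X), Nat.card X ≤ Nat.card (ResidueField 𝒪) ^ r ∧
      ∀ DQ : GaloisRep.DeformationRingData 𝒪 ρbar (𝒟 (Smin ∪ Finset.univ.image qv)),
        letI := dualAlg 𝒪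
        ∃ τ : (DQ.R →ₐ[𝒪] DualNumber (ResidueField 𝒪)) → X, Function.Injective τ

theorem twCount_of_twSelmer (p : ℕ) (ρbar : ResidualGaloisRep (ResidueField 𝒪))
    (S Smin : Finset ℕ) (𝒟 : Finset ℕ → Cond 𝒪) (h : TWSelmer p ρbar S Smin 𝒟) :
    TWCount p ρbar S Smin 𝒟 := by
  obtain ⟨r, hr⟩ := h
  refine ⟨r, fun n => ?_⟩
  obtain ⟨qv, hinj, hq, hfrob, X, hX, hcard, hDQ⟩ := hr n
  refine ⟨qv, hinj, hq, hfrob, fun DQ => ?_⟩
  letI := dualAlg 𝒪
  obtain ⟨τ, hτ⟩ := hDQ DQ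
  haveI : Finite (DQ.R →ₐ[𝒪] DualNumber (ResidueField 𝒪)) := Finite.of_injective τ hτ
  exact ⟨inferInstance, (Nat.card_le_card_of_injective τ hτ).trans hcard⟩

/-- The three reductions in one: `PowSurj` + `TWSelmer` for both conditions give S56. -/
theorem twHalf_of_twSelmer (hpow : PowSurj 𝒪) (p : ℕ)
    (ρbar : ResidualGaloisRep (ResidueField 𝒪)) (S Smin : Finset ℕ) (𝒟 : Finset ℕ → Cond 𝒪)
    (h : TWSelmer p ρbar S Smin 𝒟) : TWHalf p ρbar S Smin 𝒟 :=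
  twHalf_of_twCount hpow p ρbar S Smin 𝒟 (twCount_of_twSelmer p ρbar S Smin 𝒟 h)

/-- A half of S56 is vacuous (take `r = 0`) if no deformation ring of the given type exists at
all, for any ramification set: e.g. when `ρ̄` itself is not of the type. -/
theorem twHalf_of_isEmpty (p : ℕ) (ρbar : ResidualGaloisRep (ResidueField 𝒪)) (S Smin : Finset ℕ)
    (𝒟 : Finset ℕ → Cond 𝒪)
    (h : ∀ T : Finset ℕ, IsEmpty (GaloisRep.DeformationRingData 𝒪 ρbar (𝒟 T))) :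
    TWHalf p ρbar S Smin 𝒟 :=
  ⟨0, fun _ => ⟨Fin.elim0, fun i => i.elim0, fun i => i.elim0, fun i => i.elim0,
    fun DQ => ((h _).false DQ).elim⟩⟩

end


end Fermat.Agent.ES.T56.T56Iface27
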