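/-
Programme T (S56, Taylor–Wiles primes), chapter TAN (helper23): **the local conditions of S56 are
invariant under equivalence of representations** (`GaloisRepAdic.Equiv`).

For `e : GaloisRepAdic.Equiv ρ₁ ρ₂` (an `A`-linear Galois-equivariant isomorphism `ρ₁.V ≃ ρ₂.V`):
* `rho_eq_conj`, `det_eq`, `charpoly_eq`;
* `detIsCyclotomic_of_equiv`, `isUnramifiedAt_of_equiv`, `isUnipotentOnInertiaAt_of_equiv`,
  `isStrictOrdinaryAt_of_equiv` (transport the line `L` along `e`),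
  `isFlatAt_of_equiv` (same Hopf datum, `quotEquiv : V₁ ⧸ I V₁ ≃ V₂ ⧸ I V₂` equivariant for
  `levelAction`);
* **`ordCond_of_equiv`**, **`flatCond_of_equiv`** for `T56Iface27.ordCond / flatCond 𝒪 p Smin T`.
-/
import Mathlib
import Fermat.Agent.ES.T56.T56Iface27

set_option autoImplicit false
set_option linter.unusedSectionVars false
set_option linter.style.haveILetI false

noncomputable section

namespace Fermat.Agent.ES.T56.CondEquiv23

open IsLocalRing Polynomial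

variable {A : Type} [CommRing A] [IsLocalRing A] {ρ₁ ρ₂ : GaloisRepAdic A}
  (e : GaloisRepAdic.Equiv ρ₁ ρ₂)

include e

/-- `ρ₂ σ` is the conjugate of `ρ₁ σ`. -/
theorem rho_eq_conj (σ : AlgebraicClosure ℚ ≃ₐ[ℚ] AlgebraicClosure ℚ) :
    ρ₂.ρ σ = e.toLinearEquiv.conj (ρ₁.ρ σ) := by
  refine LinearMap.ext fun y => ?_
  rw [LinearEquiv.conj_apply, LinearMap.comp_apply, LinearMap.comp_apply, LinearEquiv.coe_coe,
    LinearEquiv.coe_coe, e.map_apply, LinearEquiv.apply_symm_apply]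

theorem det_eq (σ : AlgebraicClosure ℚ ≃ₐ[ℚ] AlgebraicClosure ℚ) :
    LinearMap.det (ρ₂.ρ σ) = LinearMap.det (ρ₁.ρ σ) := by
  rw [rho_eq_conj e, LinearEquiv.conj_apply, LinearMap.comp_assoc, LinearMap.det_conj]

theorem charpoly_eq (σ : AlgebraicClosure ℚ ≃ₐ[ℚ] AlgebraicClosure ℚ) :
    LinearMap.charpoly (ρ₂.ρ σ) = LinearMap.charpoly (ρ₁.ρ σ) := by
  rw [rho_eq_conj e, LinearEquiv.charpoly_conj]

theorem detIsCyclotomic_of_equiv {p : ℕ} (h : ρ₁.DetIsCyclotomic p) : ρ₂.DetIsCyclotomic p :=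
  ⟨h.1, fun n σ a ha => by rw [det_eq e]; exact h.2 n σ a ha⟩

theorem isUnramifiedAt_of_equiv {q : ℕ} (h : ρ₁.IsUnramifiedAt q) : ρ₂.IsUnramifiedAt q := by
  intro P hP σ hσ
  rw [rho_eq_conj e, h P hP σ hσ]
  refine LinearMap.ext fun y => ?_
  rw [LinearEquiv.conj_apply, LinearMap.comp_apply, LinearMap.comp_apply, LinearEquiv.coe_coe,
    LinearEquiv.coe_coe, Module.End.one_apply, Module.End.one_apply,
    LinearEquiv.apply_symm_apply]

theorem isUnipotentOnInertiaAt_of_equiv {q : ℕ} (h : ρ₁.IsUnipotentOnInertiaAt q) :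
    ρ₂.IsUnipotentOnInertiaAt q := by
  intro P hP σ hσ
  rw [charpoly_eq e]
  exact h P hP σ hσ

theorem isStrictOrdinaryAt_of_equiv {p : ℕ} (h : ρ₁.IsStrictOrdinaryAt p) :
    ρ₂.IsStrictOrdinaryAt p := by
  refine ⟨h.1, fun P hP => ?_⟩
  obtain ⟨L, ⟨b, hLb⟩, hD, hI, hxz⟩ := h.2 P hP
  have hmem : ∀ y : ρ₂.V, y ∈ L.map (e.toLinearEquiv : ρ₁.V →ₗ[A] ρ₂.V) ↔
      e.toLinearEquiv.symm y ∈ L := by
    intro y
    rw [Submodule.mem_map]
    constructor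
    · rintro ⟨x, hx, rfl⟩
      rw [LinearEquiv.coe_coe, LinearEquiv.symm_apply_apply]
      exact hx
    · intro hy
      exact ⟨_, hy, by rw [LinearEquiv.coe_coe, LinearEquiv.apply_symm_apply]⟩
  have hsymm : ∀ (σ : AlgebraicClosure ℚ ≃ₐ[ℚ] AlgebraicClosure ℚ) (y : ρ₂.V),
      e.toLinearEquiv.symm (ρ₂.ρ σ y) = ρ₁.ρ σ (e.toLinearEquiv.symm y) := by
    intro σ y
    apply e.toLinearEquiv.injective
    rw [LinearEquiv.apply_symm_apply, e.map_apply, LinearEquiv.apply_symm_apply]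
  refine ⟨L.map (e.toLinearEquiv : ρ₁.V →ₗ[A] ρ₂.V), ⟨b.map e.toLinearEquiv, ?_⟩, ?_, ?_, ?_⟩
  · rw [hLb, Submodule.map_span, Set.image_singleton, Module.Basis.map_apply, LinearEquiv.coe_coe]
  · intro σ hσ y hy
    rw [hmem] at hy ⊢
    rw [hsymm]
    exact hD σ hσ _ hy
  · intro σ hσ y
    rw [hmem, map_sub, hsymm]
    exact hI σ hσ _
  · intro σ hσ
    obtain ⟨x, z, hx, hz, hxz'⟩ := hxz σ hσ
    refine ⟨x, z, ?_, ?_, hxz'⟩
    · intro w hw
      rw [hmem] at hw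
      apply e.toLinearEquiv.symm.injective
      rw [hsymm, hx _ hw, map_smul]
    · intro y
      rw [hmem, map_sub, hsymm, map_smul]
      exact hz _

/-- the image of `I V₁` under `e` is `I V₂`. -/
theorem map_smul_top (I : Ideal A) :
    (I • (⊤ : Submodule A ρ₁.V)).map (e.toLinearEquiv : ρ₁.V →ₗ[A] ρ₂.V) =
      I • (⊤ : Submodule A ρ₂.V) := by
  rw [Submodule.map_smul'', Submodule.map_top, LinearEquiv.range]

/-- the induced equivalence `V₁ ⧸ I V₁ ≃ V₂ ⧸ I V₂`. -/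
def quotEquiv (I : Ideal A) :
    (ρ₁.V ⧸ (I • (⊤ : Submodule A ρ₁.V))) ≃ₗ[A] (ρ₂.V ⧸ (I • (⊤ : Submodule A ρ₂.V))) :=
  Submodule.Quotient.equiv _ _ e.toLinearEquiv (map_smul_top e I)

theorem quotEquiv_mk (I : Ideal A) (v : ρ₁.V) :
    quotEquiv e I (Submodule.Quotient.mk v) = Submodule.Quotient.mk (e.toLinearEquiv v) := rfl

theorem quotEquiv_levelAction (I : Ideal A) (σ : AlgebraicClosure ℚ ≃ₐ[ℚ] AlgebraicClosure ℚ)
    (x : ρ₁.V ⧸ (I • (⊤ : Submodule A ρ₁.V))) :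
    quotEquiv e I (ρ₁.levelAction I σ x) = ρ₂.levelAction I σ (quotEquiv e I x) := by
  obtain ⟨v, rfl⟩ := Submodule.Quotient.mk_surjective _ x
  have h1 : ρ₁.levelAction I σ (Submodule.Quotient.mk v) = Submodule.Quotient.mk (ρ₁.ρ σ v) := rfl
  have h2 : ∀ w : ρ₂.V, ρ₂.levelAction I σ (Submodule.Quotient.mk w) =
      Submodule.Quotient.mk (ρ₂.ρ σ w) := fun _ => rfl
  rw [h1, quotEquiv_mk, quotEquiv_mk, h2, e.map_apply]

theorem isFlatAt_of_equiv {p : ℕ} (h : ρ₁.IsFlatAt p) : ρ₂.IsFlatAt p := by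
  refine ⟨h.1, fun I hI => ?_⟩
  obtain ⟨H, iCR, iHopf, hfin, hflat, hcocomm, E, hadd, hgal⟩ := h.2 I hI
  refine ⟨H, iCR, iHopf, hfin, hflat, hcocomm, E.trans (quotEquiv e I).toEquiv, ?_, ?_⟩
  · intro f g
    show quotEquiv e I (E (f * g)) = quotEquiv e I (E f) + quotEquiv e I (E g)
    rw [hadd, map_add]
  · intro σ f g hfg
    show quotEquiv e I (E g) = ρ₂.levelAction I σ (quotEquiv e I (E f))
    rw [hgal σ f g hfg, quotEquiv_levelAction]

section Cond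

open Fermat.Agent.ES.T56.T56Iface27

variable {𝒪 : Type} [CommRing 𝒪] [Algebra 𝒪 A]

/-- **the strict-ordinary condition of S56 is invariant under equivalence.** -/
theorem ordCond_of_equiv {p : ℕ} {Smin T : Finset ℕ} (h : ordCond 𝒪 p Smin T ρ₁) :
    ordCond 𝒪 p Smin T ρ₂ :=
  ⟨⟨detIsCyclotomic_of_equiv e h.1.1, isStrictOrdinaryAt_of_equiv e h.1.2.1,
    fun q hq hqT => isUnramifiedAt_of_equiv e (h.1.2.2 q hq hqT)⟩,
    fun q hqS hq hqp => isUnipotentOnInertiaAt_of_equiv e (h.2 q hqS hq hqp)⟩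

/-- **the flat condition of S56 is invariant under equivalence.** -/
theorem flatCond_of_equiv {p : ℕ} {Smin T : Finset ℕ} (h : flatCond 𝒪 p Smin T ρ₁) :
    flatCond 𝒪 p Smin T ρ₂ :=
  ⟨⟨detIsCyclotomic_of_equiv e h.1.1, isFlatAt_of_equiv e h.1.2.1,
    fun q hq hqT => isUnramifiedAt_of_equiv e (h.1.2.2 q hq hqT)⟩,
    fun q hqS hq hqp => isUnipotentOnInertiaAt_of_equiv e (h.2 q hqS hq hqp)⟩

end Cond

end Fermat.Agent.ES.T56.CondEquiv23
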