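/-
Programme T (S56, Taylor–Wiles primes), chapter FLAT-P (étale–connected patch, T56_FLAT.md §5),
brick 2 (helper26): **a linear map on a saturated submodule of a finitely generated module over a
local Bézout domain (e.g. a discrete valuation ring such as `ℤ_[p]`, or any valuation ring) extends
to the whole module** (the quotient is finitely generated and torsion-free, hence flat, hence free,
hence projective, so the submodule is a direct summand).
-/
import Mathlib

set_option autoImplicit false
set_option linter.unusedSectionVars false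

namespace Fermat.Agent.ES.T56.ExtendPID26

variable {R : Type*} [CommRing R] [IsDomain R] [IsBezout R] [IsLocalRing R]
  {M : Type*} [AddCommGroup M] [Module R M] [Module.Finite R M]
  {P : Type*} [AddCommGroup P] [Module R P]

/-- A saturated submodule of a finitely generated module over a local Bézout domain has a
retraction. -/
theorem exists_retraction (N : Submodule R M)
    (hsat : ∀ r : R, r ≠ 0 → ∀ m : M, r • m ∈ N → m ∈ N) :
    ∃ ρ : M →ₗ[R] N, ∀ n : N, ρ n = n := by
  have htf : Module.IsTorsionFree R (M ⧸ N) := by
    refine ⟨fun r hr x y hxy => ?_⟩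
    induction x using Submodule.Quotient.induction_on with
    | _ x =>
    induction y using Submodule.Quotient.induction_on with
    | _ y =>
    have hr0 : r ≠ 0 := fun h => by
      rw [h] at hr
      exact not_isRegular_zero hr |>.elim
    have h1 : r • (x - y) ∈ N := by
      rw [smul_sub]
      have : (Submodule.Quotient.mk (r • x) : M ⧸ N) = Submodule.Quotient.mk (r • y) := hxy
      exact (Submodule.Quotient.eq N).1 this
    exact (Submodule.Quotient.eq N).2 (hsat r hr0 _ h1)
  have hflat : Module.Flat R (M ⧸ N) :=
    Module.Flat.flat_iff_torsion_eq_bot_of_isBezout.2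
      (Submodule.isTorsionFree_iff_torsion_eq_bot.1 htf)
  have hfree : Module.Free R (M ⧸ N) := Module.free_of_flat_of_isLocalRing
  obtain ⟨s, hs⟩ := Module.projective_lifting_property N.mkQ (LinearMap.id : (M ⧸ N) →ₗ[R] M ⧸ N)
    (Submodule.mkQ_surjective N)
  have hmem : ∀ m : M, m - s (N.mkQ m) ∈ N := fun m => by
    rw [← Submodule.Quotient.mk_eq_zero N, Submodule.Quotient.mk_sub]
    have : N.mkQ (s (N.mkQ m)) = N.mkQ m := by
      have := congrArg (fun f : (M ⧸ N) →ₗ[R] M ⧸ N => f (N.mkQ m)) hs
      simpa using this
    rw [← Submodule.mkQ_apply, ← Submodule.mkQ_apply, this, sub_self]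
  refine ⟨LinearMap.codRestrict N (LinearMap.id - s.comp N.mkQ) (fun m => by
    simpa using hmem m), fun n => ?_⟩
  apply Subtype.ext
  show (n : M) - s (N.mkQ (n : M)) = n
  have : N.mkQ (n : M) = 0 := by
    rw [Submodule.mkQ_apply, Submodule.Quotient.mk_eq_zero]
    exact n.2
  rw [this, map_zero, sub_zero]

/-- Extension of linear maps from a saturated submodule. -/
theorem exists_extension (N : Submodule R M)
    (hsat : ∀ r : R, r ≠ 0 → ∀ m : M, r • m ∈ N → m ∈ N) (f : N →ₗ[R] P) :
    ∃ g : M →ₗ[R] P, ∀ n : N, g n = f n := by
  obtain ⟨ρ, hρ⟩ := exists_retraction N hsat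
  exact ⟨f.comp ρ, fun n => by rw [LinearMap.comp_apply, hρ n]⟩

end Fermat.Agent.ES.T56.ExtendPID26
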