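/-
Programme T (S56, Taylor–Wiles primes), chapter FLAT-P (étale–connected patch, T56_FLAT.md §5),
brick 3′ (helper26): **(F1) needs no completeness.**

`PiSep A π` : `π` is a non-zero-divisor of the commutative ring `A` and `A` is `π`-adically
separated (the first two fields of `PT.LOC.UnitFiltration10.PiAdic`).  This holds for rings which are
not complete, such as a rank-one valuation ring of `ℚ̄`.

* `piSep_of_piAdic`;
* `eq_one_of_pow_prime_eq_one` : (F1) of `PthRoot20` (same proof) for `PiSep`;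
* `convPiSep` : the convolution algebra `WithConv (B →ₗ[R] S)` inherits `PiSep` (as `ConvPiAdic20`);
* `piSep_quotient` : `PiSep` passes to the quotient by a `π`-saturated, `π`-adically closed ideal.
-/
import Mathlib
import Fermat.Agent.PT.LOC.UnitFiltration10
import Fermat.Agent.ES.T56.PthRoot20
import Fermat.Agent.ES.T56.ConvPiAdic20

set_option autoImplicit false
set_option linter.unusedSectionVars false

namespace Fermat.Agent.ES.T56.PiSep26

open Fermat.Agent.PT.LOC.UnitFiltration10 Fermat.Agent.ES.T56.PthRoot20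
  Fermat.Agent.ES.T56.ConvPiAdic20 WithConv Coalgebra

/-- `π` is a non-zero-divisor and the ring is `π`-adically separated. -/
structure PiSep (A : Type*) [CommRing A] (π : A) : Prop where
  nzd : ∀ x : A, π * x = 0 → x = 0
  sep : ∀ x : A, (∀ k : ℕ, π ^ k ∣ x) → x = 0

theorem piSep_of_piAdic {A : Type*} [CommRing A] {π : A} (h : PiAdic A π) : PiSep A π :=
  ⟨h.nzd, h.sep⟩

section Basic

variable {A : Type*} [CommRing A] {π : A} (h : PiSep A π)

include h

theorem PiSep.pow_nzd (k : ℕ) (x : A) (hx : π ^ k * x = 0) : x = 0 := by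
  induction k with
  | zero => simpa using hx
  | succ k ih =>
    apply ih
    apply h.nzd
    rw [← mul_assoc, ← pow_succ']
    exact hx

variable {p : ℕ} (hp : p.Prime) {e : ℕ} {u : Aˣ} (hpe : (p : A) = π ^ e * u)
variable {τ : ℕ} (hτ : e < (p - 1) * τ)

include hp hpe hτ

/-- **(F1)** without completeness: no non-trivial `p`-torsion in `1 + π ^ τ A`. -/
theorem eq_one_of_pow_prime_eq_one (q : A) (hq : π ^ τ ∣ q - 1) (hqp : q ^ p = 1) : q = 1 := by
  by_contra hne
  have hw0 : q - 1 ≠ 0 := sub_ne_zero.mpr hne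
  have hex : ∃ k, ¬ π ^ k ∣ q - 1 := by
    by_contra hall
    push Not at hall
    exact hw0 (h.sep _ hall)
  classical
  let k₀ := Nat.find hex
  have hk₀ : ¬ π ^ k₀ ∣ q - 1 := Nat.find_spec hex
  have hk₀pos : k₀ ≠ 0 := by
    intro h0
    apply hk₀
    rw [h0, pow_zero]; exact one_dvd _
  obtain ⟨r, hr⟩ : ∃ r, k₀ = r + 1 := Nat.exists_eq_succ_of_ne_zero hk₀pos
  have hrdvd : π ^ r ∣ q - 1 := by
    by_contra hnot
    have := Nat.find_min' hex hnot
    omega
  have hτr : τ ≤ r := by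
    by_contra hlt
    push Not at hlt
    apply hk₀
    rw [hr]
    exact (pow_dvd_pow π hlt).trans hq
  obtain ⟨w₀, hw₀⟩ := hrdvd
  have hw₀nd : ¬ π ∣ w₀ := by
    rintro ⟨c, hc⟩
    apply hk₀
    rw [hr, hw₀, hc]
    exact ⟨c, by ring⟩
  obtain ⟨s, hs⟩ := exists_one_add_pow_prime hp (q - 1)
  have hq1 : (1 : A) + (q - 1) = q := by ring
  rw [hq1, hqp] at hs
  have hp2 : 2 ≤ p := hp.two_le
  have hτpos : 1 ≤ τ := by
    by_contra h0
    push Not at h0
    have : τ = 0 := by omega
    rw [this] at hτ; omega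
  have hr1 : 1 ≤ r := le_trans hτpos hτr
  have hexp : e + r + 1 ≤ p * r := by
    have h1 : (p - 1) * τ ≤ (p - 1) * r := Nat.mul_le_mul_left _ hτr
    have h2 : p * r = (p - 1) * r + r := by
      have : p = (p - 1) + 1 := by omega
      conv_lhs => rw [this]
      ring
    omega
  obtain ⟨d, hd⟩ : ∃ d, p * r = e + r + 1 + d := ⟨p * r - (e + r + 1), by omega⟩
  obtain ⟨r', hr'⟩ : ∃ r', r = r' + 1 := ⟨r - 1, by omega⟩
  have key : π ^ (e + r) * ((u : A) * w₀ + π * ((u : A) * π ^ r' * w₀ ^ 2 * s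
      + π ^ d * w₀ ^ p)) = 0 := by
    have e1 : (p : A) * (q - 1) = π ^ (e + r) * ((u : A) * w₀) := by
      rw [hpe, hw₀]; ring
    have e2 : (p : A) * (q - 1) ^ 2 * s
        = π ^ (e + r) * (π * ((u : A) * π ^ r' * w₀ ^ 2 * s)) := by
      rw [hpe, hw₀, hr']
      ring
    have e3 : (q - 1) ^ p = π ^ (e + r) * (π * (π ^ d * w₀ ^ p)) := by
      rw [hw₀, mul_pow, ← pow_mul, mul_comm r p, hd]
      rw [show e + r + 1 + d = (e + r) + 1 + d by ring, pow_add, pow_add, pow_one]
      ring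
    have : (1 : A) = 1 + (π ^ (e + r) * ((u : A) * w₀)
        + π ^ (e + r) * (π * ((u : A) * π ^ r' * w₀ ^ 2 * s))
        + π ^ (e + r) * (π * (π ^ d * w₀ ^ p))) := by
      rw [← e1, ← e2, ← e3]
      linear_combination hs
    have h0 : π ^ (e + r) * ((u : A) * w₀)
        + π ^ (e + r) * (π * ((u : A) * π ^ r' * w₀ ^ 2 * s))
        + π ^ (e + r) * (π * (π ^ d * w₀ ^ p)) = 0 := by
      linear_combination -this
    rw [← h0]; ring
  have key2 := h.pow_nzd (e + r) _ key
  apply hw₀nd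
  have : (u : A) * w₀ = π * (-((u : A) * π ^ r' * w₀ ^ 2 * s + π ^ d * w₀ ^ p)) := by
    linear_combination key2
  have h3 : w₀ = π * ((↑u⁻¹ : A) * (-((u : A) * π ^ r' * w₀ ^ 2 * s + π ^ d * w₀ ^ p))) := by
    have hu : (↑u⁻¹ : A) * (u : A) = 1 := by simp
    calc w₀ = (↑u⁻¹ : A) * ((u : A) * w₀) := by rw [← mul_assoc, hu, one_mul]
      _ = _ := by rw [this]; ring
  exact ⟨_, h3⟩

end Basic

section Conv

variable {R : Type*} [CommRing R] {B : Type*} [AddCommGroup B] [Module R B] [Coalgebra R B]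
  [Module.Free R B] {S : Type*} [CommRing S] [Algebra R S]

/-- The convolution algebra of a free coalgebra with coefficients in a `PiSep` ring is `PiSep`. -/
theorem convPiSep [Coalgebra.IsCocomm R B] {π : S} (h : PiSep S π) :
    PiSep (WithConv (B →ₗ[R] S)) (algebraMap S (WithConv (B →ₗ[R] S)) π) where
  nzd := fun f hf => by
    refine ext_apply fun b => ?_
    have h1 : (algebraMap S (WithConv (B →ₗ[R] S)) π * f) b = π * f b :=
      algebraMap_mul_apply π f b
    rw [hf] at h1
    exact h.nzd _ h1.symm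
  sep := fun f hf => by
    refine ext_apply fun b => ?_
    exact h.sep _ fun k => (algebraMap_pow_dvd_iff π k f).1 (hf k) b

end Conv

section Quotient

variable {A : Type*} [CommRing A] {π : A}

theorem piSep_quotient (K : Ideal A)
    (hsat : ∀ a : A, π * a ∈ K → a ∈ K)
    (hclosed : ∀ a : A, (∀ k : ℕ, ∃ g : A, a - π ^ k * g ∈ K) → a ∈ K) :
    PiSep (A ⧸ K) (Ideal.Quotient.mk K π) where
  nzd := fun x hx => by
    obtain ⟨a, rfl⟩ := Ideal.Quotient.mk_surjective x
    rw [← map_mul, Ideal.Quotient.eq_zero_iff_mem] at hx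
    exact Ideal.Quotient.eq_zero_iff_mem.2 (hsat a hx)
  sep := fun x hx => by
    obtain ⟨a, rfl⟩ := Ideal.Quotient.mk_surjective x
    refine Ideal.Quotient.eq_zero_iff_mem.2 (hclosed a fun k => ?_)
    obtain ⟨y, hy⟩ := hx k
    obtain ⟨g, rfl⟩ := Ideal.Quotient.mk_surjective y
    refine ⟨g, ?_⟩
    rw [← Ideal.Quotient.eq_zero_iff_mem, map_sub, map_mul, map_pow, hy, sub_self]

end Quotient

end Fermat.Agent.ES.T56.PiSep26
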