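/-
Programme T (S56, Taylor–Wiles primes), chapter FLAT-P (étale–connected patch, T56_FLAT.md §5),
brick 5 (helper26): **the invariants of a Galois-stable finite group of points separate its cosets**.

`R` an infinite commutative ring, `O` a domain containing `R`, `B` a commutative cocommutative
`R`-bialgebra, free as a module; `E` a finite set of `O`-valued points of `B`, containing `1`, closed
under multiplication (with cancellation), stable under a set `G` of injective `R`-endomorphisms of
`O` with common fixed ring `R`.  Then a point `x` which agrees with the unit point on `invSub E`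
belongs to `E` (`mem_of_eq_one_on_invSub`).

Proof: the norm element (`NormElt26.exists_norm`) gives `∏_t (t * x) b₀ = ∏_t t b₀` for all `b₀`;
with `b₀ = r - c`, `r ∈ R`, the polynomials `∏_t (X - (t * x) c)` and `∏_t (X - t c)` agree at
infinitely many places, so `x c ∈ {t c}`; hence `B` is covered by the finitely many submodules
`ker (x - t)`, one of them has finite index, and then it is everything because `R` is infinite and
`O` is a domain.
-/
import Mathlib
import Fermat.Agent.ES.T56.NormElt26

set_option autoImplicit false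
set_option linter.unusedSectionVars false

namespace Fermat.Agent.ES.T56.SepPoints26

open WithConv Coalgebra TensorProduct Polynomial
open Fermat.Agent.ES.T56.PropFi20 Fermat.Agent.ES.T56.InvIdeal26 Fermat.Agent.ES.T56.NormElt26

variable {R : Type*} [CommRing R] {B : Type*} [CommRing B] [Bialgebra R B]
  {O : Type*} [CommRing O] [Algebra R O]

theorem point_sub (y : WithConv (B →ₐ[R] O)) (a b : B) : y (a - b) = y a - y b :=
  map_sub y.ofConv a b

theorem point_algebraMap (y : WithConv (B →ₐ[R] O)) (r : R) :
    y (algebraMap R B r) = algebraMap R O r := y.ofConv.commutes r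

theorem point_smul (y : WithConv (B →ₐ[R] O)) (r : R) (b : B) :
    y (r • b) = algebraMap R O r * y b := by
  have : y (r • b) = r • y b := map_smul y.ofConv r b
  rw [this, Algebra.smul_def]

section Main

variable [Module.Free R B] [Coalgebra.IsCocomm R B] [IsDomain O] [Infinite R]

/-- step 1 + 2: the value `x c` is one of the values `t c`, `t ∈ E`. -/
theorem exists_apply_eq (hinj : Function.Injective (algebraMap R O))
    (E : Finset (WithConv (B →ₐ[R] O))) (G : Set (O →ₐ[R] O))
    (hGinj : ∀ σ ∈ G, Function.Injective σ)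
    (hGE : ∀ σ ∈ G, ∀ t ∈ E, push σ t ∈ E)
    (hfix : ∀ o : O, (∀ σ ∈ G, σ o = o) → o ∈ Set.range (algebraMap R O))
    (hmul : ∀ s ∈ E, ∀ t ∈ E, t * s ∈ E)
    (hcancel : ∀ s ∈ E, Set.InjOn (fun t => t * s) (E : Set (WithConv (B →ₐ[R] O))))
    (hone : (1 : WithConv (B →ₐ[R] O)) ∈ E)
    (x : WithConv (B →ₐ[R] O))
    (hx : ∀ b ∈ invSub (E : Set (WithConv (B →ₐ[R] O))), x b = (1 : WithConv (B →ₐ[R] O)) b)
    (c : B) : ∃ t ∈ E, x c = t c := by
  -- step 1
  have h1 : ∀ b₀ : B, ∏ t ∈ E, (t * x) b₀ = ∏ t ∈ E, t b₀ := by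
    intro b₀
    obtain ⟨n, hn, hy⟩ := exists_norm E G hGinj hGE hfix hmul hcancel b₀
    rw [← hy x, hx n hn, hy 1]
    exact Finset.prod_congr rfl fun t _ => by rw [mul_one]
  -- step 2
  set P : O[X] := ∏ t ∈ E, (X - C ((t * x) c)) with hP
  set Q : O[X] := ∏ t ∈ E, (X - C (t c)) with hQ
  have hPQ : P = Q := by
    apply Polynomial.eq_of_infinite_eval_eq
    apply Set.Infinite.mono (s := Set.range (algebraMap R O))
    · rintro _ ⟨r, rfl⟩
      show eval _ P = eval _ Q
      rw [hP, hQ, eval_prod, eval_prod]
      have e1 : ∀ t ∈ E, eval (algebraMap R O r) (X - C ((t * x) c))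
          = (t * x) (algebraMap R B r - c) := fun t _ => by
        rw [eval_sub, eval_X, eval_C, point_sub, point_algebraMap]
      have e2 : ∀ t ∈ E, eval (algebraMap R O r) (X - C (t c))
          = t (algebraMap R B r - c) := fun t _ => by
        rw [eval_sub, eval_X, eval_C, point_sub, point_algebraMap]
      rw [Finset.prod_congr rfl e1, Finset.prod_congr rfl e2]
      exact h1 _
    · exact Set.infinite_range_of_injective hinj
  have hroot : eval (x c) P = 0 := by
    rw [hP, eval_prod]
    apply Finset.prod_eq_zero hone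
    rw [one_mul, eval_sub, eval_X, eval_C, sub_self]
  rw [hPQ, hQ, eval_prod, Finset.prod_eq_zero_iff] at hroot
  obtain ⟨t, ht, h0⟩ := hroot
  refine ⟨t, ht, ?_⟩
  rw [eval_sub, eval_X, eval_C] at h0
  exact sub_eq_zero.mp h0

/-- **Separation.** A point that agrees with the unit point on `invSub E` lies in `E`. -/
theorem mem_of_eq_one_on_invSub (hinj : Function.Injective (algebraMap R O))
    (E : Finset (WithConv (B →ₐ[R] O))) (G : Set (O →ₐ[R] O))
    (hGinj : ∀ σ ∈ G, Function.Injective σ)
    (hGE : ∀ σ ∈ G, ∀ t ∈ E, push σ t ∈ E)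
    (hfix : ∀ o : O, (∀ σ ∈ G, σ o = o) → o ∈ Set.range (algebraMap R O))
    (hmul : ∀ s ∈ E, ∀ t ∈ E, t * s ∈ E)
    (hcancel : ∀ s ∈ E, Set.InjOn (fun t => t * s) (E : Set (WithConv (B →ₐ[R] O))))
    (hone : (1 : WithConv (B →ₐ[R] O)) ∈ E)
    (x : WithConv (B →ₐ[R] O))
    (hx : ∀ b ∈ invSub (E : Set (WithConv (B →ₐ[R] O))), x b = (1 : WithConv (B →ₐ[R] O)) b) :
    x ∈ E := by
  classical
  have hex := exists_apply_eq hinj E G hGinj hGE hfix hmul hcancel hone x hx
  -- the covering by kernels
  let p : WithConv (B →ₐ[R] O) → Submodule R B := fun t =>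
    LinearMap.ker (x.ofConv.toLinearMap - t.ofConv.toLinearMap)
  have hmem : ∀ t b, b ∈ p t ↔ x b = t b := fun t b => by
    show (x.ofConv.toLinearMap - t.ofConv.toLinearMap) b = 0 ↔ _
    rw [LinearMap.sub_apply, sub_eq_zero]
    rfl
  have hcover : ⋃ t ∈ E, (p t : Set B) = Set.univ := by
    apply Set.eq_univ_of_forall
    intro c
    obtain ⟨t, ht, hc⟩ := hex c
    exact Set.mem_biUnion ht ((hmem t c).2 hc)
  obtain ⟨t, ht, hfin⟩ := Submodule.exists_finiteIndex_of_cover hcover
  have hFin : Finite (B ⧸ (p t).toAddSubgroup) := AddSubgroup.finite_quotient_of_finiteIndex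
  have hall : ∀ b, x b = t b := by
    intro b
    by_contra hne
    have hd : x b - t b ≠ 0 := sub_ne_zero.mpr hne
    let φ : R → B ⧸ (p t).toAddSubgroup := fun r => QuotientAddGroup.mk (r • b)
    have hφ : Function.Injective φ := by
      intro r r' h
      have h' : -(r • b) + r' • b ∈ (p t).toAddSubgroup := QuotientAddGroup.eq.1 h
      have h2 : x (-(r • b) + r' • b) = t (-(r • b) + r' • b) := (hmem t _).1 h'
      have e : -(r • b) + r' • b = (r' - r) • b := by rw [sub_smul]; abel
      rw [e, point_smul, point_smul] at h2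
      have h3 : algebraMap R O (r' - r) * (x b - t b) = 0 := by rw [mul_sub, h2, sub_self]
      rcases mul_eq_zero.1 h3 with h4 | h4
      · have : r' - r = 0 := hinj (by rw [h4, map_zero])
        exact (sub_eq_zero.1 this).symm
      · exact absurd h4 hd
    have hR : Finite R := Finite.of_injective φ hφ
    exact _root_.not_finite R
  have : x = t := ext_point hall
  rw [this]; exact ht

end Main

end Fermat.Agent.ES.T56.SepPoints26
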