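/-
Programme T (S56, Taylor–Wiles primes), chapter FLAT-P (étale–connected patch, T56_FLAT.md §5),
brick 6 (helper26): **(P★) — a `p`-torsion point which is trivial modulo `p` on the invariants of a
Galois-stable finite group `E` of points lies in `E`** (`p ≥ 3`, absolute ramification index one).

`R` an infinite local Bézout domain (a discrete valuation ring, or any valuation ring), `B` a
commutative cocommutative `R`-bialgebra, finite free as a module, `O` a domain containing `R` which
is `p`-adically separated (`PiSep O p`, no completeness); `E` a finite set of `O`-points of `B` containing `1`, closed under multiplication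
(with cancellation) and stable under a set `G` of injective `R`-endomorphisms of `O` whose common
fixed ring is `R`.  If `x ^ p = 1` and `p ∣ x b - ε b` for all `b ∈ invSub E`, then `x ∈ E`.

Proof.  (I) In the quotient `𝔄 ⧸ kerIdeal E` of the convolution algebra (again `p`-adically
separated, `PiSep26`), the class `q` of `x` satisfies `q ^ p = 1` and `p ∣ q - 1` (extend
`((x - ε)/p)|_{invSub E}` to `B`, `ExtendPID26`), hence `q = 1` by (F1) (`PiSep26`)
(`e = 1 < p - 1`): `x = ε` on `invSub E`.  (II) `SepPoints26.mem_of_eq_one_on_invSub`.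
-/
import Mathlib
import Fermat.Agent.ES.T56.SepPoints26
import Fermat.Agent.ES.T56.ExtendPID26
import Fermat.Agent.ES.T56.PiSep26

set_option autoImplicit false
set_option linter.unusedSectionVars false

namespace Fermat.Agent.ES.T56.ConnUnram26

open WithConv Coalgebra TensorProduct
open Fermat.Agent.PT.LOC.UnitFiltration10
open Fermat.Agent.ES.T56.ConvPiAdic20 Fermat.Agent.ES.T56.PropFi20
  Fermat.Agent.ES.T56.InvIdeal26 Fermat.Agent.ES.T56.NormElt26 Fermat.Agent.ES.T56.SepPoints26
  Fermat.Agent.ES.T56.ExtendPID26 Fermat.Agent.ES.T56.PiSep26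

variable {R : Type*} [CommRing R] {B : Type*} [CommRing B] [Bialgebra R B]
  {O : Type*} [CommRing O] [Algebra R O]

/-- `invSub E` is saturated when `O` is a domain containing `R`. -/
theorem invSub_saturated [IsDomain O] (hinj : Function.Injective (algebraMap R O))
    (E : Set (WithConv (B →ₐ[R] O))) (r : R) (hr : r ≠ 0) (m : B) (hm : r • m ∈ invSub E) :
    m ∈ invSub E := by
  intro t ht f
  have h1 := hm t ht f
  rw [apply_smul', apply_smul', Algebra.smul_def, Algebra.smul_def] at h1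
  have hr' : algebraMap R O r ≠ 0 := fun h0 => hr (hinj (by rw [h0, map_zero]))
  exact mul_left_cancel₀ hr' h1

theorem one_apply' (b : B) :
    (1 : WithConv (B →ₗ[R] O)) b = (1 : WithConv (B →ₐ[R] O)) b := rfl

section Divide

variable [IsDomain O]

/-- a linear map all of whose values are divisible by `c ≠ 0` is `c` times a linear map. -/
theorem exists_div_linearMap {N : Type*} [AddCommGroup N] [Module R N] (d : N →ₗ[R] O) {c : O}
    (hc : c ≠ 0) (hd : ∀ n, c ∣ d n) : ∃ f : N →ₗ[R] O, ∀ n, d n = c * f n := by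
  have hinj : Function.Injective (LinearMap.mulLeft R c) := fun a b hab =>
    mul_left_cancel₀ hc hab
  have hmem : ∀ n, d n ∈ LinearMap.range (LinearMap.mulLeft R c) := fun n => by
    obtain ⟨y, hy⟩ := hd n
    exact ⟨y, hy.symm⟩
  refine ⟨((LinearEquiv.ofInjective (LinearMap.mulLeft R c) hinj).symm : _ →ₗ[R] O).comp
    (d.codRestrict _ hmem), fun n => ?_⟩
  have h1 := LinearEquiv.apply_symm_apply (LinearEquiv.ofInjective (LinearMap.mulLeft R c) hinj)
    (d.codRestrict _ hmem n)
  have h2 := congrArg Subtype.val h1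
  rw [LinearEquiv.ofInjective_apply] at h2
  exact h2.symm

end Divide

section Main

variable [IsDomain R] [IsBezout R] [IsLocalRing R] [Infinite R]
  [Module.Free R B] [Module.Finite R B] [Coalgebra.IsCocomm R B] [IsDomain O]

/-- (I): `x = ε` on `invSub E`. -/
theorem eq_one_on_invSub (hinj : Function.Injective (algebraMap R O))
    {p : ℕ} (hp : p.Prime) (hp3 : 3 ≤ p) (hO : PiSep O (p : O))
    (E : Set (WithConv (B →ₐ[R] O)))
    (x : WithConv (B →ₐ[R] O)) (hxp : x ^ p = 1)
    (hx : ∀ b ∈ invSub E, (p : O) ∣ x b - (1 : WithConv (B →ₐ[R] O)) b) :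
    ∀ b ∈ invSub E, x b = (1 : WithConv (B →ₐ[R] O)) b := by
  have hp0 : (p : O) ≠ 0 := by
    intro h0
    have := hO.nzd 1 (by rw [h0, zero_mul])
    exact one_ne_zero this
  set πh : WithConv (B →ₗ[R] O) := algebraMap O (WithConv (B →ₗ[R] O)) (p : O) with hπh
  set K : Ideal (WithConv (B →ₗ[R] O)) := kerIdeal E with hK
  -- the quotient is `p`-adic
  have hQ : PiSep (WithConv (B →ₗ[R] O) ⧸ K) (Ideal.Quotient.mk K πh) := by
    refine piSep_quotient K (fun a ha => ?_) (fun a ha => ?_)
    · intro b hb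
      have h1 : (πh * a) b = (p : O) * a b := algebraMap_mul_apply _ a b
      have h2 := ha b hb
      rw [h1] at h2
      exact (mul_eq_zero.1 h2).resolve_left hp0
    · intro b hb
      apply hO.sep
      intro k
      obtain ⟨g, hg⟩ := ha k
      have h1 : (a - πh ^ k * g) b = 0 := hg b hb
      have h2 : (a - πh ^ k * g) b = a b - (p : O) ^ k * g b := by
        rw [ConvPiAdic20.sub_apply', algebraMap_pow_mul_apply]
      rw [h2] at h1
      exact ⟨g b, sub_eq_zero.1 h1⟩
  -- the class of `x`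
  set q : WithConv (B →ₗ[R] O) ⧸ K := Ideal.Quotient.mk K (lin x) with hq
  have hqp : q ^ p = 1 := by
    rw [hq, ← map_pow, ← lin_pow, hxp, lin_one, map_one]
  -- divisibility of `q - 1`
  have hdiv : Ideal.Quotient.mk K πh ^ 1 ∣ q - 1 := by
    let d : invSub E →ₗ[R] O :=
      ((lin x - 1 : WithConv (B →ₗ[R] O)).ofConv).comp (invSub E).subtype
    have hd : ∀ n, (p : O) ∣ d n := fun n => hx n.1 n.2
    obtain ⟨f₀, hf₀⟩ := exists_div_linearMap d hp0 hd
    obtain ⟨g₀, hg₀⟩ := exists_extension (invSub E) (invSub_saturated hinj E) f₀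
    refine ⟨Ideal.Quotient.mk K (toConv g₀), ?_⟩
    rw [pow_one, hq, ← map_one (Ideal.Quotient.mk K), ← map_sub, ← map_mul, Ideal.Quotient.eq]
    intro b hb
    have h1 : (lin x - 1 - πh * toConv g₀ : WithConv (B →ₗ[R] O)) b
        = (lin x - 1 : WithConv (B →ₗ[R] O)) b - (p : O) * g₀ b := by
      rw [ConvPiAdic20.sub_apply', algebraMap_mul_apply]
    have h2 : g₀ b = f₀ ⟨b, hb⟩ := hg₀ ⟨b, hb⟩
    have h3 : (lin x - 1 : WithConv (B →ₗ[R] O)) b = (p : O) * f₀ ⟨b, hb⟩ := hf₀ ⟨b, hb⟩
    rw [h1, h2, h3, sub_self]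
  have hpe : ((p : ℕ) : WithConv (B →ₗ[R] O) ⧸ K)
      = Ideal.Quotient.mk K πh ^ 1 * ((1 : (WithConv (B →ₗ[R] O) ⧸ K)ˣ) :
        WithConv (B →ₗ[R] O) ⧸ K) := by
    rw [pow_one, Units.val_one, mul_one, hπh, map_natCast, map_natCast]
  have hτ : 1 < (p - 1) * 1 := by omega
  have hq1 : q = 1 := PiSep26.eq_one_of_pow_prime_eq_one hQ hp hpe hτ q hdiv hqp
  intro b hb
  have h2 : lin x - 1 ∈ K := by
    rw [← Ideal.Quotient.eq, map_one]
    exact hq1
  have h3 : (lin x - 1 : WithConv (B →ₗ[R] O)) b = 0 := h2 b hb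
  rw [ConvPiAdic20.sub_apply', sub_eq_zero] at h3
  exact h3

/-- **(P★).** -/
theorem mem_of_dvd_sub_on_invSub (hinj : Function.Injective (algebraMap R O))
    {p : ℕ} (hp : p.Prime) (hp3 : 3 ≤ p) (hO : PiSep O (p : O))
    (E : Finset (WithConv (B →ₐ[R] O))) (G : Set (O →ₐ[R] O))
    (hGinj : ∀ σ ∈ G, Function.Injective σ)
    (hGE : ∀ σ ∈ G, ∀ t ∈ E, push σ t ∈ E)
    (hfix : ∀ o : O, (∀ σ ∈ G, σ o = o) → o ∈ Set.range (algebraMap R O))
    (hmul : ∀ s ∈ E, ∀ t ∈ E, t * s ∈ E)
    (hcancel : ∀ s ∈ E, Set.InjOn (fun t => t * s) (E : Set (WithConv (B →ₐ[R] O))))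
    (hone : (1 : WithConv (B →ₐ[R] O)) ∈ E)
    (x : WithConv (B →ₐ[R] O)) (hxp : x ^ p = 1)
    (hx : ∀ b ∈ invSub (E : Set (WithConv (B →ₐ[R] O))),
      (p : O) ∣ x b - (1 : WithConv (B →ₐ[R] O)) b) : x ∈ E :=
  mem_of_eq_one_on_invSub hinj E G hGinj hGE hfix hmul hcancel hone x
    (eq_one_on_invSub hinj hp hp3 hO _ x hxp hx)

end Main

end Fermat.Agent.ES.T56.ConnUnram26
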