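/-
Programme T (S56, Taylor–Wiles primes), chapter FLAT, Hopf side, brick `ConvNested` (helper20).

`B` a bialgebra over `R`, `S` a commutative `R`-algebra, `𝔄 = WithConv (B →ₗ[R] S)` the
convolution algebra (an `R`-algebra), `𝔄' = WithConv (B →ₗ[R] 𝔄)` the convolution algebra with
coefficients in `𝔄` (it plays the role of `Hom_R(B ⊗ B, S)`; no tensor product coalgebra needed).

* `mulStar : 𝔄 →* 𝔄'`, `mulStar f b a = f (b * a)` (composition with the multiplication of `B`);
* `pr : 𝔄 →* 𝔄'`, `pr f b a = f b * f a`;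
  so `f` is multiplicative iff `mulStar f = pr f`;
* `evOne : 𝔄 →* S`, `evOne f = f 1`;
* `compHom h : WithConv (B →ₗ[R] S) →* WithConv (B →ₗ[R] S')` for `h : S →ₐ[R] S'`.
-/
import Mathlib

set_option autoImplicit false
set_option linter.unusedSectionVars false

namespace Fermat.Agent.ES.T56.ConvNested20

open WithConv Coalgebra

variable {R : Type*} [CommRing R] {B : Type*} [CommRing B] [Bialgebra R B]
  {S : Type*} [CommRing S] [Algebra R S]

theorem sum_apply' {ι : Type*} (s : Finset ι) (F : ι → WithConv (B →ₗ[R] S)) (a : B) :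
    (∑ i ∈ s, F i) a = ∑ i ∈ s, F i a := by
  change (∑ i ∈ s, F i).ofConv a = _
  rw [WithConv.ofConv_sum, LinearMap.sum_apply]

theorem one_apply' (b : B) :
    (1 : WithConv (B →ₗ[R] S)) b = algebraMap R S (counit (R := R) b) := rfl

/-! ### `μ*` -/

/-- `μ*(f) = (b ↦ (a ↦ f (b * a)))`. -/
def mulStarFun (f : WithConv (B →ₗ[R] S)) : WithConv (B →ₗ[R] WithConv (B →ₗ[R] S)) :=
  toConv ((WithConv.linearEquiv R (B →ₗ[R] S)).symm.toLinearMap ∘ₗ
    (LinearMap.mul R B).compr₂ f.ofConv)

@[simp] theorem mulStarFun_apply (f : WithConv (B →ₗ[R] S)) (b a : B) :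
    mulStarFun f b a = f (b * a) := rfl

theorem mulStarFun_mul (f g : WithConv (B →ₗ[R] S)) :
    mulStarFun (f * g) = mulStarFun f * mulStarFun g := by
  apply WithConv.ext
  apply LinearMap.ext
  intro b
  apply WithConv.ext
  apply LinearMap.ext
  intro a
  change (f * g) (b * a) = (mulStarFun f * mulStarFun g) b a
  rw [((ℛ R b).mul (ℛ R a)).convMul_apply, (ℛ R b).convMul_apply, sum_apply']
  simp only [Coalgebra.Repr.mul_index, Coalgebra.Repr.mul_left, Coalgebra.Repr.mul_right]
  rw [Finset.sum_product]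
  refine Finset.sum_congr rfl fun i _ => ?_
  rw [(ℛ R a).convMul_apply]
  rfl

theorem nested_one_apply (b a : B) :
    (1 : WithConv (B →ₗ[R] WithConv (B →ₗ[R] S))) b a =
      algebraMap R S (counit (R := R) b) * algebraMap R S (counit (R := R) a) := by
  change (algebraMap R (WithConv (B →ₗ[R] S)) (counit (R := R) b)) a = _
  rw [Algebra.algebraMap_eq_smul_one]
  change counit (R := R) b • ((1 : WithConv (B →ₗ[R] S)) a) = _
  rw [one_apply', Algebra.smul_def]

theorem mulStarFun_one : mulStarFun (1 : WithConv (B →ₗ[R] S)) = 1 := by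
  apply WithConv.ext
  apply LinearMap.ext
  intro b
  apply WithConv.ext
  apply LinearMap.ext
  intro a
  change (1 : WithConv (B →ₗ[R] S)) (b * a) =
    (1 : WithConv (B →ₗ[R] WithConv (B →ₗ[R] S))) b a
  rw [nested_one_apply, one_apply', Bialgebra.counit_mul, map_mul]

/-- `μ*` as a monoid homomorphism. -/
def mulStar : WithConv (B →ₗ[R] S) →* WithConv (B →ₗ[R] WithConv (B →ₗ[R] S)) where
  toFun := mulStarFun
  map_one' := mulStarFun_one
  map_mul' := mulStarFun_mul

@[simp] theorem mulStar_apply (f : WithConv (B →ₗ[R] S)) (b a : B) :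
    mulStar f b a = f (b * a) := rfl

/-! ### `f ↦ f ⊗ f` -/

/-- `pr f = (b ↦ (a ↦ f b * f a))`. -/
def prFun (f : WithConv (B →ₗ[R] S)) : WithConv (B →ₗ[R] WithConv (B →ₗ[R] S)) :=
  toConv ((WithConv.linearEquiv R (B →ₗ[R] S)).symm.toLinearMap ∘ₗ
    (LinearMap.mul R S).compl₁₂ f.ofConv f.ofConv)

@[simp] theorem prFun_apply (f : WithConv (B →ₗ[R] S)) (b a : B) :
    prFun f b a = f b * f a := rfl

theorem prFun_mul (f g : WithConv (B →ₗ[R] S)) : prFun (f * g) = prFun f * prFun g := by
  apply WithConv.ext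
  apply LinearMap.ext
  intro b
  apply WithConv.ext
  apply LinearMap.ext
  intro a
  change (f * g) b * (f * g) a = (prFun f * prFun g) b a
  rw [(ℛ R b).convMul_apply, (ℛ R a).convMul_apply, (ℛ R b).convMul_apply, sum_apply',
    Finset.sum_mul_sum]
  refine Finset.sum_congr rfl fun i _ => ?_
  rw [(ℛ R a).convMul_apply]
  refine Finset.sum_congr rfl fun j _ => ?_
  simp only [prFun_apply]
  ring

theorem prFun_one : prFun (1 : WithConv (B →ₗ[R] S)) = 1 := by
  apply WithConv.ext
  apply LinearMap.ext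
  intro b
  apply WithConv.ext
  apply LinearMap.ext
  intro a
  change (1 : WithConv (B →ₗ[R] S)) b * (1 : WithConv (B →ₗ[R] S)) a =
    (1 : WithConv (B →ₗ[R] WithConv (B →ₗ[R] S))) b a
  rw [nested_one_apply, one_apply', one_apply']

/-- `f ↦ f ⊗ f` as a monoid homomorphism. -/
def pr : WithConv (B →ₗ[R] S) →* WithConv (B →ₗ[R] WithConv (B →ₗ[R] S)) where
  toFun := prFun
  map_one' := prFun_one
  map_mul' := prFun_mul

@[simp] theorem pr_apply (f : WithConv (B →ₗ[R] S)) (b a : B) : pr f b a = f b * f a := rfl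

/-- `f` is multiplicative as soon as `μ*(f) = f ⊗ f`. -/
theorem map_mul_of_mulStar_eq_pr {f : WithConv (B →ₗ[R] S)} (h : mulStar f = pr f) (b a : B) :
    f (b * a) = f b * f a := by
  rw [← mulStar_apply, h, pr_apply]

/-! ### evaluation at `1` -/

/-- evaluation at the (group-like) element `1`. -/
def evOne : WithConv (B →ₗ[R] S) →* S where
  toFun f := f 1
  map_one' := by
    change (1 : WithConv (B →ₗ[R] S)) 1 = 1
    rw [one_apply', Bialgebra.counit_one, map_one]
  map_mul' f g := by
    change (f * g) 1 = f 1 * g 1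
    rw [LinearMap.convMul_apply, Bialgebra.comul_one]
    rfl

@[simp] theorem evOne_apply (f : WithConv (B →ₗ[R] S)) : evOne f = f 1 := rfl

/-! ### change of coefficients -/

variable {S' : Type*} [CommRing S'] [Algebra R S']

/-- composition with an algebra homomorphism of the coefficient rings. -/
def compHom (h : S →ₐ[R] S') : WithConv (B →ₗ[R] S) →* WithConv (B →ₗ[R] S') where
  toFun f := toConv (h.toLinearMap ∘ₗ f.ofConv)
  map_one' := by
    apply WithConv.ext
    apply LinearMap.ext
    intro b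
    change h ((1 : WithConv (B →ₗ[R] S)) b) = (1 : WithConv (B →ₗ[R] S')) b
    rw [one_apply', one_apply', AlgHom.commutes]
  map_mul' f g := by
    apply WithConv.ext
    exact LinearMap.algHom_comp_convMul_distrib h f g

@[simp] theorem compHom_apply (h : S →ₐ[R] S') (f : WithConv (B →ₗ[R] S)) (b : B) :
    compHom h f b = h (f b) := rfl

end Fermat.Agent.ES.T56.ConvNested20
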