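/-
Programme T (S56), chapter GW-A, helper21: UNRAMIFIED DESCENT for the Prelude's `continuousH1S`.

`Sg ⊆ Sg'`, `X` a representation of `G_ℚ` unramified outside `Sg`, `y ∈ H¹(G_{Sg'}, X)` whose
localisations at the primes `q ∈ Sg' ∖ Sg` vanish.  Then `y ∈ H¹(G_{Sg}, X)`.

Two facts of the local–global dictionary are taken as explicit hypotheses (chapter LOC, `LocBridge`):
* `InertiaInRange q` : the inertia group of the place `primeLocalPlace q` of `ℚ̄` lies in the image of
  `primeLocalToGlobal q : Γ_q → G_ℚ`;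
* `PlacesConj q`     : every valuation subring of `ℚ̄` over `q` is a conjugate of `primeLocalPlace q`.

Proof: a representing level cocycle `c` (level `F'`, unramified outside `Sg'`) vanishes on every
inertia group above `q ∈ Sg' ∖ Sg` (coboundary on `Γ_q` + trivial action; conjugation), hence on the
subgroup `N₀` they generate, which acts trivially on `X`; so `c` is right-invariant under
`Gal(ℚ̄/F') ⊔ N₀ ⊇ Gal(ℚ̄/E')`, `E' = F' ⊓ ℚ̄^{N₀}` (`InfGalois13.fixingSubgroup_le_sup`), and `E'` is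
unramified outside `Sg`.
-/
import Mathlib
import Fermat.Prelude.Def_GroupCohomology_ContinuousUnramified
import Fermat.Agent.PT.BR.InfGalois13
import Fermat.Agent.PT.BR.UnramBridge13

set_option autoImplicit false

open CategoryTheory groupCohomology ExtCitation
open scoped Pointwise

namespace Fermat.Agent.ES.T56.UnramDescent21

local notation "Qbar" => AlgebraicClosure ℚ
local notation "GQ" => (AlgebraicClosure ℚ ≃ₐ[ℚ] AlgebraicClosure ℚ)

/-- (LocBridge) the inertia group of the distinguished place over `q` comes from `Γ_q`. -/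
def InertiaInRange (q : Nat.Primes) : Prop :=
  (primeLocalPlace q).inertiaSubgroupIn ℚ ≤ (primeLocalToGlobal q).range

/-- (LocBridge) all places of `ℚ̄` over `q` are conjugate to the distinguished one. -/
def PlacesConj (q : Nat.Primes) : Prop :=
  ∀ A : ValuationSubring Qbar, A.LiesOverPrime (q : ℕ) → ∃ g : GQ, A = g • primeLocalPlace q

variable {K : Type} [Field K] (X : Rep K GQ)

/-- A cocycle which vanishes at `h`, where `g h g⁻¹` acts trivially, vanishes at `g h g⁻¹`. -/
theorem cocycle_conj_eq_zero (c : cocycles₁ X) (g h : GQ) (hc : c h = 0)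
    (hρ : X.ρ (g * h * g⁻¹) = 1) : c (g * h * g⁻¹) = 0 := by
  have hcoc := (mem_cocycles₁_iff (c : GQ → X)).1 c.2
  have h1 : c (g * h * g⁻¹) = X.ρ (g * h) (c g⁻¹) + c (g * h) := hcoc (g * h) g⁻¹
  have h2 : c (g * h) = X.ρ g (c h) + c g := hcoc g h
  have h3 : X.ρ g (c g⁻¹) = - c g := cocycles₁_map_inv c g
  have h4 : X.ρ (g * h) (c g⁻¹) = X.ρ (g * h * g⁻¹) (X.ρ g (c g⁻¹)) := by
    rw [← Module.End.mul_apply, ← map_mul, inv_mul_cancel_right]
  rw [h1, h2, hc, map_zero, zero_add, h4, h3, hρ, Module.End.one_apply, neg_add_cancel]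

/-- If the localisation of `[c]` at `q` vanishes, `c` vanishes on the elements of the image of `Γ_q`
which act trivially. -/
theorem cocycle_eq_zero_of_loc (c : cocycles₁ X) (q : Nat.Primes)
    (hloc : (map (primeLocalToGlobal q) (𝟙 (Rep.res (primeLocalToGlobal q) X)) 1).hom
      ((H1π X).hom c) = 0)
    (s : primeLocalGaloisGroup q) (hs : X.ρ (primeLocalToGlobal q s) = 1) :
    c (primeLocalToGlobal q s) = 0 := by
  rw [H1π_comp_map_apply, H1π_eq_zero_iff] at hloc
  obtain ⟨n, hn⟩ := hloc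
  have h := congrFun hn s
  rw [d₀₁_hom_apply] at h
  have h' : (Rep.res (primeLocalToGlobal q) X).ρ s n - n = c (primeLocalToGlobal q s) := h
  rw [← h']
  show X.ρ (primeLocalToGlobal q s) n - n = 0
  rw [hs, Module.End.one_apply, sub_self]

/-- The subgroup of the elements which act trivially and on which the cocycle vanishes. -/
def trivKer (c : cocycles₁ X) : Subgroup GQ where
  carrier := {σ | X.ρ σ = 1 ∧ c σ = 0}
  one_mem' := ⟨map_one _, cocycles₁_map_one c⟩
  mul_mem' := by
    rintro a b ⟨ha, hca⟩ ⟨hb, hcb⟩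
    refine ⟨by rw [map_mul, ha, hb, mul_one], ?_⟩
    rw [(mem_cocycles₁_iff (c : GQ → X)).1 c.2 a b, hcb, map_zero, hca, add_zero]
  inv_mem' := by
    rintro a ⟨ha, hca⟩
    have hinv : X.ρ a⁻¹ = 1 := by
      have h := map_mul X.ρ a⁻¹ a
      rw [inv_mul_cancel, map_one, ha, mul_one] at h
      exact h.symm
    refine ⟨hinv, ?_⟩
    have h := cocycles₁_map_inv c a
    rw [ha, Module.End.one_apply, hca, neg_zero] at h
    exact h

/-- The subgroup of the elements under which the cocycle is right-invariant. -/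
def rightInv (c : cocycles₁ X) : Subgroup GQ where
  carrier := {x | ∀ g, c (g * x) = c g}
  one_mem' := fun g => by rw [mul_one]
  mul_mem' := by
    intro a b ha hb g
    rw [← mul_assoc, hb, ha]
  inv_mem' := by
    intro a ha g
    have := ha (g * a⁻¹)
    rw [inv_mul_cancel_right] at this
    exact this.symm

theorem trivKer_le_rightInv (c : cocycles₁ X) : trivKer X c ≤ rightInv X c := by
  rintro x ⟨_, hcx⟩ g
  rw [(mem_cocycles₁_iff (c : GQ → X)).1 c.2 g x, hcx, map_zero, zero_add]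

local instance isAlgClosureQbar21 : IsAlgClosure ℚ Qbar := ⟨inferInstance, inferInstance⟩
local instance isGaloisQbar21 : IsGalois ℚ Qbar := IsAlgClosure.isGalois ℚ Qbar

/-- **Unramified descent.** -/
theorem mem_continuousH1S_of_loc_eq_zero (Sg Sg' : Finset Nat.Primes)
    (hur : ∀ q : Nat.Primes, q ∉ Sg → ∀ A : ValuationSubring Qbar,
      A.LiesOverPrime (q : ℕ) → ∀ g ∈ A.inertiaSubgroupIn ℚ, X.ρ g = 1)
    (hLB1 : ∀ q ∈ Sg', q ∉ Sg → InertiaInRange q) (hLB2 : ∀ q ∈ Sg', q ∉ Sg → PlacesConj q)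
    (y : H1 X) (hy : y ∈ continuousH1S Sg' X)
    (hloc : ∀ q ∈ Sg', q ∉ Sg →
      (map (primeLocalToGlobal q) (𝟙 (Rep.res (primeLocalToGlobal q) X)) 1).hom y = 0) :
    y ∈ continuousH1S Sg X := by
  obtain ⟨c, ⟨F', hF', hc⟩, rfl⟩ := (mem_continuousH1S_iff Sg' X y).1 hy
  have : FiniteDimensional ℚ F' := hF'.1
  -- the inertia elements at the primes of `Sg' ∖ Sg`
  let T : Set GQ := {σ | ∃ q : Nat.Primes, q ∈ Sg' ∧ q ∉ Sg ∧ ∃ A : ValuationSubring Qbar,
    A.LiesOverPrime (q : ℕ) ∧ σ ∈ A.inertiaSubgroupIn ℚ}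
  have hT : T ⊆ (trivKer X c : Set GQ) := by
    rintro σ ⟨q, hq', hq, A, hA, hσ⟩
    refine ⟨hur q hq A hA σ hσ, ?_⟩
    obtain ⟨g, rfl⟩ := hLB2 q hq' hq A hA
    -- `g⁻¹ σ g` is in the inertia group of the distinguished place
    have hA₀ : (primeLocalPlace q).LiesOverPrime (q : ℕ) := by
      have := Fermat.Agent.PT.BR.UnramBridge13.liesOverPrime_smul g⁻¹ hA
      rwa [inv_smul_smul] at this
    have hconj : g⁻¹ * σ * g⁻¹⁻¹ ∈ (g⁻¹ • (g • primeLocalPlace q)).inertiaSubgroupIn ℚ :=
      Fermat.Agent.PT.BR.UnramBridge13.conj_mem_inertiaSubgroupIn q.2 hA g⁻¹ hσ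
    rw [inv_smul_smul, inv_inv] at hconj
    obtain ⟨s, hs⟩ := hLB1 q hq' hq hconj
    have hρ : X.ρ (primeLocalToGlobal q s) = 1 := by
      rw [hs]; exact hur q hq _ hA₀ _ hconj
    have h0 := cocycle_eq_zero_of_loc X c q (hloc q hq' hq) s hρ
    rw [hs] at h0
    have hσeq : σ = g * (g⁻¹ * σ * g) * g⁻¹ := by group
    rw [hσeq]
    apply cocycle_conj_eq_zero X c g _ h0
    rw [← hσeq]
    exact hur q hq _ hA σ hσ
  have hN : Subgroup.closure T ≤ rightInv X c :=
    ((Subgroup.closure_le _).2 hT).trans (trivKer_le_rightInv X c)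
  have hF'R : F'.fixingSubgroup ≤ rightInv X c := fun s hs g => hc g s hs
  -- the field `E'`
  let E' : IntermediateField ℚ Qbar := F' ⊓ IntermediateField.fixedField (Subgroup.closure T)
  have hE'le : E'.fixingSubgroup ≤ F'.fixingSubgroup ⊔ Subgroup.closure T := by
    apply Fermat.Agent.PT.BR.InfGalois13.fixingSubgroup_le_sup F' (Subgroup.closure T) E'
    intro x hx hfix
    refine ⟨hx, ?_⟩
    show x ∈ IntermediateField.fixedField (Subgroup.closure T)
    rw [IntermediateField.mem_fixedField_iff]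
    exact fun n hn => hfix n hn
  have hE'F' : E' ≤ F' := inf_le_left
  have hE'ur : E'.IsUnramifiedOutside Sg := by
    refine ⟨FiniteDimensional.of_injective
      (IntermediateField.inclusion hE'F').toLinearMap
      (IntermediateField.inclusion_injective hE'F'), fun q hq A hA σ hσ => ?_⟩
    by_cases hq' : q ∈ Sg'
    · have hσT : σ ∈ Subgroup.closure T := Subgroup.subset_closure ⟨q, hq', hq, A, hA, hσ⟩
      rw [IntermediateField.mem_fixingSubgroup_iff]
      intro x hx
      exact (IntermediateField.mem_fixedField_iff _ x).1 hx.2 σ hσT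
    · exact IntermediateField.fixingSubgroup_antitone hE'F' (hF'.2 q hq' A hA hσ)
  rw [mem_continuousH1S_iff]
  refine ⟨c, ⟨E', hE'ur, fun g s hs => ?_⟩, rfl⟩
  exact (sup_le hF'R hN) (hE'le hs) g

end Fermat.Agent.ES.T56.UnramDescent21
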