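/-
Programme T (S56), chapter GW-A, helper21: **`DualSelMono`** (export of the GW contract `GWIface21`).

`Sg ⊆ Sg'`, `L'` extends `L` by the full local `H¹` at the new primes.  Every class `y` of the dual
Selmer group for `(Sg', L')` is locally trivial at the new primes (trivial right kernel of the local
pairing, `LocPairing.rnd`), hence unramified there, hence a class of `H¹(G_{Sg}, N)`
(`UnramDescent21`), and it lies in the dual Selmer group for `(Sg, L)`.

The two LocBridge facts `InertiaInRange`, `PlacesConj` (see `UnramDescent21`) are explicit hypotheses.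
-/
import Mathlib
import Fermat.Agent.ES.T56.GWIface21
import Fermat.Agent.ES.T56.UnramDescent21
import Fermat.Agent.PT.BR.DualTwist7

set_option autoImplicit false

open CategoryTheory Module groupCohomology ExtCitation

namespace Fermat.Agent.ES.T56.DualSelMono21

open Fermat.Agent.ES.T56.GWIface21 Fermat.Agent.ES.T56.UnramDescent21
open Fermat.Agent.PT.BR.DualTwist7

variable {p : ℕ} [Fact p.Prime]

/-- Localisation maps the continuous global classes into the continuous local classes. -/
theorem resLoc_mem_contLoc (Sg : Finset Nat.Primes) (q : Nat.Primes) (X : Rep (ZMod p) GQ)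
    {x : H1 X} (hx : x ∈ continuousH1S Sg X) : resLoc p q X x ∈ contLoc p q X := by
  obtain ⟨c, ⟨F, hF, hc⟩, rfl⟩ := (mem_continuousH1S_iff Sg X x).1 hx
  rw [mem_continuousH1_iff]
  refine ⟨(mapCocycles₁ (primeLocalToGlobal q) (𝟙 (Rep.res (primeLocalToGlobal q) X))).hom c,
    ⟨F, hF.1, fun g s hs => ?_⟩,
    (H1π_comp_map_apply (primeLocalToGlobal q) (𝟙 (Rep.res (primeLocalToGlobal q) X)) c).symm⟩
  show c (primeLocalToGlobal q (g * s)) = c (primeLocalToGlobal q g)
  rw [map_mul]
  exact hc _ _ hs

/-- **`dualSel_mono`**, modulo the two LocBridge facts at the new primes. -/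
theorem dualSelMono (M : Rep (ZMod p) GQ) (P : LocPairing p M)
    (hLB1 : ∀ q : Nat.Primes, InertiaInRange q) (hLB2 : ∀ q : Nat.Primes, PlacesConj q) :
    DualSelMono M P := by
  intro Sg Sg' h hpS hur L L' hext y hy
  have hyS : y ∈ continuousH1S Sg' (dualT p M) := hy.1
  have hysel := (mem_selmer_iff (extArithLoc Sg') (dualT p M) (dualCond P Sg' L') y).1 hy.2
  -- local triviality at the new primes
  have hnew : ∀ q : ↥Sg', q.1 ∉ Sg → resLoc p q.1 (dualT p M) y = 0 := by
    intro q hq
    have h1 : resLoc p q.1 (dualT p M) y ∈ orthogonal (P.pair q.1) (L'.fin q) := hysel (Sum.inr q)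
    rw [hext.2 q hq, mem_orthogonal_iff] at h1
    exact P.rnd q.1 _ (resLoc_mem_contLoc Sg' q.1 (dualT p M) hyS) h1
  refine ⟨⟨?_, ?_⟩, hnew⟩
  · -- descent
    apply mem_continuousH1S_of_loc_eq_zero (dualT p M) Sg Sg' (unram_dualTwist M hpS hur)
      (fun q _ _ => hLB1 q) (fun q _ _ => hLB2 q) y hyS
    intro q hq' hq
    exact hnew ⟨q, hq'⟩ hq
  · -- the local conditions at the old primes
    show y ∈ selmer (extArithLoc Sg) (dualT p M) (dualCond P Sg L)
    rw [mem_selmer_iff]
    rintro (v | q)
    · exact Submodule.mem_top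
    · have h1 : resLoc p q.1 (dualT p M) y ∈
          orthogonal (P.pair q.1) (L'.fin ⟨q.1, h q.2⟩) := hysel (Sum.inr ⟨q.1, h q.2⟩)
      rw [hext.1 q] at h1
      exact h1

end Fermat.Agent.ES.T56.DualSelMono21
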