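/-
Programme T (S56), chapter GW-A, helper21: **`DualSelMono`, unconditional** (final export).

`DualSelMono21.dualSelMono` reduced `DualSelMono M P` to the two LocBridge facts
`UnramDescent21.InertiaInRange q` and `UnramDescent21.PlacesConj q`.  helper16 proved both, in these
exact literals: `LocSurj16.inertia_le_range_primes` (the inertia group of the distinguished place over
`q` lies in the image of the local Galois group) and `PlacesConj16.placesConj_primes` (all places of
`ℚ̄` over `q` are conjugate).  This file only plugs them in.

Export for TOP (`TopAsm27.twSelmer_of_inputs`, input `hmono`):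
`dualSelMono_final M P : DualSelMono M P` for EVERY `M` and EVERY `P : LocPairing p M`.
-/
import Mathlib
import Fermat.Agent.ES.T56.DualSelMono21
import Fermat.Agent.ES.T56.LocSurj16
import Fermat.Agent.ES.T56.PlacesConj16

set_option autoImplicit false

namespace Fermat.Agent.ES.T56.DualSelMonoFinal21

open Fermat.Agent.ES.T56.GWIface21

variable {p : ℕ} [Fact p.Prime]

/-- The first LocBridge fact, for all primes (helper16's `LocSurj16`). -/
theorem inertiaInRange (q : Nat.Primes) : UnramDescent21.InertiaInRange q :=
  LocSurj16.inertia_le_range_primes q

/-- The second LocBridge fact, for all primes (helper16's `PlacesConj16`). -/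
theorem placesConj (q : Nat.Primes) : UnramDescent21.PlacesConj q :=
  PlacesConj16.placesConj_primes q

/-- **`DualSelMono`, unconditional**: enlarging `Sg` by primes where the local condition is the full
local `H¹` does not enlarge the dual Selmer group. -/
theorem dualSelMono_final (M : Rep (ZMod p) GQ) (P : LocPairing p M) : DualSelMono M P :=
  DualSelMono21.dualSelMono M P inertiaInRange placesConj

end Fermat.Agent.ES.T56.DualSelMonoFinal21
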