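/-
Programme T (S56), chapter FLAT, common brick (c1) `TameStructure`, abstract core (helper8).

**Totally ramified extensions of discrete valuation rings and Eisenstein polynomials**, in pure
commutative algebra: `A ⊆ B` discrete valuation rings, `ϖ` a uniformizer of `A`, `θ` a uniformizer
of `B`, `e = v_B(ϖ) ≠ 0` the ramification index.

* `addVal_algebraMap` : `v_B(a) = e · v_A(a)`;
* `addVal_sum_eq_of_lt` : a sum with a unique term of minimal valuation has that valuation;
* `addVal_sum_pow` : `v_B(∑_{i<e} a_i θ^i) = e · v_A(a_{i₀}) + i₀` for some index `i₀ < e` which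
  minimises `e · v_A(a_i) + i` (the minimum is `⊤` iff all `a_i = 0`);
* `linearIndependent_pow` : `1, θ, …, θ^{e-1}` are `A`-linearly independent;
* `span_pow_eq_top` : if the residue fields agree and `B` is a finite `A`-module, they span `B`;
* `exists_eisenstein` : then `θ` is a root of a monic Eisenstein polynomial of degree `e` over `A`;
* `natDegree_mul_addVal_root` : conversely a root `θ ∈ B` of a monic Eisenstein polynomial of
  degree `n` over `A` has `n · v_B(θ) = e`;
* `isEisensteinAt_X_pow_sub_C` : `X^n - c` is Eisenstein for a uniformizer `c` of `A`, `n ≠ 0`.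
-/
import Mathlib

set_option autoImplicit false
set_option linter.unusedSectionVars false

open IsDiscreteValuationRing Polynomial

namespace Fermat.Agent.ES.T56.DvrEis8

section Sum

variable {B : Type*} [CommRing B] [IsDomain B] [IsDiscreteValuationRing B]

/-- A sum with a unique term of minimal valuation has the valuation of that term. -/
theorem addVal_sum_eq_of_lt {ι : Type*} [DecidableEq ι] {s : Finset ι} {f : ι → B} {j : ι}
    (hj : j ∈ s) (hf : ∀ i ∈ s, i ≠ j → addVal B (f j) < addVal B (f i)) :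
    addVal B (∑ i ∈ s, f i) = addVal B (f j) := by
  rw [Finset.sum_eq_add_sum_sdiff_singleton_of_mem hj]
  by_cases htop : addVal B (f j) = ⊤
  · -- then there is no other index
    have hs : s \ {j} = ∅ := by
      rw [Finset.eq_empty_iff_forall_notMem]
      intro i hi
      rw [Finset.mem_sdiff, Finset.mem_singleton] at hi
      have := hf i hi.1 hi.2
      rw [htop] at this
      exact not_top_lt this
    rw [hs, Finset.sum_empty, add_zero]
  · refine AddValuation.map_add_eq_of_lt_left _ ?_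
    refine AddValuation.map_lt_sum _ htop ?_
    intro i hi
    rw [Finset.mem_sdiff, Finset.mem_singleton] at hi
    exact hf i hi.1 hi.2

/-- `e m + i = e m' + j < ⊤` with `i, j < e` forces `i = j`. -/
theorem eq_of_mul_add_eq {e i j : ℕ} (hi : i < e) (hj : j < e) {m m' : ℕ∞}
    (h : (e : ℕ∞) * m + i = (e : ℕ∞) * m' + j) (hne : (e : ℕ∞) * m + i ≠ ⊤) : i = j := by
  have he0 : e ≠ 0 := by omega
  have hm : m ≠ ⊤ := by
    rintro rfl
    apply hne
    rw [ENat.mul_top (by exact_mod_cast he0), top_add]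
  have hm' : m' ≠ ⊤ := by
    rintro rfl
    apply hne
    rw [h, ENat.mul_top (by exact_mod_cast he0), top_add]
  obtain ⟨a, rfl⟩ := ENat.ne_top_iff_exists.mp hm
  obtain ⟨b, rfl⟩ := ENat.ne_top_iff_exists.mp hm'
  have h' : e * a + i = e * b + j := by exact_mod_cast h
  have h1 : (e * a + i) % e = i := by
    rw [Nat.mul_add_mod, Nat.mod_eq_of_lt hi]
  have h2 : (e * b + j) % e = j := by
    rw [Nat.mul_add_mod, Nat.mod_eq_of_lt hj]
  rw [← h1, ← h2, h']

end Sum

variable {A B : Type*} [CommRing A] [IsDomain A] [IsDiscreteValuationRing A]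
  [CommRing B] [IsDomain B] [IsDiscreteValuationRing B] [Algebra A B]

section Val

variable {ϖ : A} (hϖ : Irreducible ϖ) {e : ℕ} (he : addVal B (algebraMap A B ϖ) = (e : ℕ∞))
  (he0 : e ≠ 0)

include hϖ he he0

/-- `v_B(a) = e · v_A(a)`. -/
theorem addVal_algebraMap (a : A) :
    addVal B (algebraMap A B a) = (e : ℕ∞) * addVal A a := by
  by_cases ha : a = 0
  · rw [ha, map_zero, addVal_zero, addVal_zero, ENat.mul_top (by exact_mod_cast he0)]
  obtain ⟨n, u, rfl⟩ := eq_unit_mul_pow_irreducible ha hϖ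
  have hu : IsUnit (algebraMap A B (u : A)) := u.isUnit.map _
  rw [map_mul, map_pow, addVal_mul, addVal_mul, addVal_pow, addVal_pow, he,
    addVal_eq_zero_iff.mpr hu, addVal_eq_zero_of_unit, addVal_uniformizer hϖ, zero_add, zero_add,
    nsmul_eq_mul, nsmul_eq_mul, mul_one, mul_comm]

/-- The valuation of a term `a θ^i`. -/
theorem addVal_term {θ : B} (hθ : Irreducible θ) (a : A) (i : ℕ) :
    addVal B (algebraMap A B a * θ ^ i) = (e : ℕ∞) * addVal A a + i := by
  rw [addVal_mul, addVal_algebraMap hϖ he he0, addVal_pow, addVal_uniformizer hθ, nsmul_eq_mul,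
    mul_one]

/-- **Valuation of `∑_{i<e} a_i θ^i`**: it equals `e · v_A(a_{i₀}) + i₀` for an index `i₀` at which
this quantity is minimal. -/
theorem addVal_sum_pow {θ : B} (hθ : Irreducible θ) (a : Fin e → A) :
    ∃ i₀ : Fin e, addVal B (∑ i : Fin e, algebraMap A B (a i) * θ ^ (i : ℕ)) =
        (e : ℕ∞) * addVal A (a i₀) + (i₀ : ℕ) ∧
      ∀ i : Fin e, (e : ℕ∞) * addVal A (a i₀) + (i₀ : ℕ) ≤ (e : ℕ∞) * addVal A (a i) + (i : ℕ) := by
  classical
  have : Nonempty (Fin e) := ⟨⟨0, Nat.pos_of_ne_zero he0⟩⟩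
  obtain ⟨i₀, -, hmin⟩ := Finset.exists_min_image (Finset.univ : Finset (Fin e))
    (fun i => (e : ℕ∞) * addVal A (a i) + (i : ℕ)) Finset.univ_nonempty
  refine ⟨i₀, ?_, fun i => hmin i (Finset.mem_univ i)⟩
  by_cases htop : (e : ℕ∞) * addVal A (a i₀) + (i₀ : ℕ) = ⊤
  · -- all terms vanish
    have hall : ∀ i : Fin e, algebraMap A B (a i) * θ ^ (i : ℕ) = 0 := by
      intro i
      rw [← addVal_eq_top_iff, addVal_term hϖ he he0 hθ, eq_top_iff, ← htop]
      exact hmin i (Finset.mem_univ i)
    rw [Finset.sum_eq_zero (fun i _ => hall i), addVal_zero, htop]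
  · rw [addVal_sum_eq_of_lt (Finset.mem_univ i₀), addVal_term hϖ he he0 hθ]
    intro i _ hi
    rw [addVal_term hϖ he he0 hθ, addVal_term hϖ he he0 hθ]
    refine lt_of_le_of_ne (hmin i (Finset.mem_univ i)) ?_
    intro heq
    apply hi
    exact Fin.ext (eq_of_mul_add_eq i₀.2 i.2 heq htop).symm

/-- `1, θ, …, θ^{e-1}` are linearly independent over `A`. -/
theorem sum_pow_eq_zero_iff {θ : B} (hθ : Irreducible θ) (a : Fin e → A) :
    ∑ i : Fin e, algebraMap A B (a i) * θ ^ (i : ℕ) = 0 ↔ ∀ i, a i = 0 := by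
  constructor
  · intro h0 i
    obtain ⟨i₀, hval, hmin⟩ := addVal_sum_pow hϖ he he0 hθ a
    rw [h0, addVal_zero] at hval
    have h1 : (e : ℕ∞) * addVal A (a i) + (i : ℕ) = ⊤ := by
      rw [eq_top_iff, hval]
      exact hmin i
    by_contra hne
    obtain ⟨n, hn⟩ := ENat.ne_top_iff_exists.mp (fun h => hne (addVal_eq_top_iff.mp h))
    rw [← hn] at h1
    exact ENat.natCast_ne_top (e * n + i) (by exact_mod_cast h1)
  · intro h
    exact Finset.sum_eq_zero (fun i _ => by rw [h i, map_zero, zero_mul])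

theorem linearIndependent_pow {θ : B} (hθ : Irreducible θ) :
    LinearIndependent A (fun i : Fin e => θ ^ (i : ℕ)) := by
  rw [Fintype.linearIndependent_iff]
  intro g hg
  refine (sum_pow_eq_zero_iff hϖ he he0 hθ g).mp ?_
  rw [← hg]
  exact Finset.sum_congr rfl (fun i _ => (Algebra.smul_def _ _).symm)

end Val

/-! ### Spanning: residue fields agree and `B` is finite over `A` -/

section Span

variable {ϖ : A} (hϖ : Irreducible ϖ) {e : ℕ} (he : addVal B (algebraMap A B ϖ) = (e : ℕ∞))
  (he0 : e ≠ 0)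

include hϖ he he0

/-- `ϖ` and `θ^e` are associated in `B`. -/
theorem associated_algebraMap_pow {θ : B} (hθ : Irreducible θ) :
    Associated (algebraMap A B ϖ) (θ ^ e) := by
  rw [← addVal_eq_iff_associated, he, addVal_pow, addVal_uniformizer hθ, nsmul_eq_mul, mul_one]

/-- If every residue class of `B` is represented in `A`, then
`B = A + θ A + … + θ^{e-1} A + ϖ B`. -/
theorem mem_span_sup {θ : B} (hθ : Irreducible θ)
    (hres : ∀ b : B, ∃ a : A, θ ∣ b - algebraMap A B a) (b : B) :
    b ∈ Submodule.span A (Set.range fun i : Fin e => θ ^ (i : ℕ)) ⊔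
      (IsLocalRing.maximalIdeal A) • (⊤ : Submodule A B) := by
  -- by induction: `b ∈ span {θ^i : i < j} + θ^j B` for `j ≤ e`
  have key : ∀ j : ℕ, j ≤ e → ∀ b : B, ∃ n ∈ Submodule.span A
      (Set.range fun i : Fin e => θ ^ (i : ℕ)), θ ^ j ∣ b - n := by
    intro j
    induction j with
    | zero => exact fun _ b => ⟨0, Submodule.zero_mem _, by simp⟩
    | succ j ih =>
      intro hj b
      obtain ⟨n, hn, c, hc⟩ := ih (by omega) b
      obtain ⟨a, d, hd⟩ := hres c
      refine ⟨n + a • θ ^ j, Submodule.add_mem _ hn (Submodule.smul_mem _ _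
        (Submodule.subset_span ⟨⟨j, by omega⟩, rfl⟩)), d, ?_⟩
      rw [Algebra.smul_def, pow_succ]
      linear_combination hc + θ ^ j * hd
  obtain ⟨n, hn, c, hc⟩ := key e le_rfl b
  obtain ⟨u, hu⟩ := (associated_algebraMap_pow hϖ he he0 hθ).symm
  have hb : b = n + ϖ • (↑u⁻¹ * c) := by
    rw [Algebra.smul_def, ← hu]
    have : θ ^ e * ↑u * (↑u⁻¹ * c) = θ ^ e * c := by
      rw [mul_assoc, ← mul_assoc (u : B), Units.mul_inv, one_mul]
    rw [this]
    linear_combination hc
  rw [hb]
  refine Submodule.add_mem_sup hn ?_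
  exact Submodule.smul_mem_smul ((irreducible_iff_uniformizer ϖ).mp hϖ ▸
    Ideal.mem_span_singleton_self ϖ) Submodule.mem_top

/-- **`B = A[θ]`, basis form**: if the residue fields agree and `B` is a finite `A`-module, the powers
`1, θ, …, θ^{e-1}` span `B` over `A`. -/
theorem span_pow_eq_top [Module.Finite A B] {θ : B} (hθ : Irreducible θ)
    (hres : ∀ b : B, ∃ a : A, θ ∣ b - algebraMap A B a) :
    Submodule.span A (Set.range fun i : Fin e => θ ^ (i : ℕ)) = ⊤ := by
  rw [eq_top_iff]
  refine Submodule.le_of_le_smul_of_le_jacobson_bot (Module.Finite.fg_top)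
    (I := IsLocalRing.maximalIdeal A) ?_ ?_
  · rw [IsLocalRing.jacobson_eq_maximalIdeal ⊥ bot_ne_top]
  · intro b _
    exact mem_span_sup hϖ he he0 hθ hres b

/-- Every element of `B` is a polynomial of degree `< e` in `θ` with coefficients in `A`. -/
theorem exists_sum_pow_eq [Module.Finite A B] {θ : B} (hθ : Irreducible θ)
    (hres : ∀ b : B, ∃ a : A, θ ∣ b - algebraMap A B a) (b : B) :
    ∃ a : Fin e → A, b = ∑ i : Fin e, algebraMap A B (a i) * θ ^ (i : ℕ) := by
  have hb : b ∈ Submodule.span A (Set.range fun i : Fin e => θ ^ (i : ℕ)) := by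
    rw [span_pow_eq_top hϖ he he0 hθ hres]
    exact Submodule.mem_top
  obtain ⟨a, ha⟩ := (Submodule.mem_span_range_iff_exists_fun A).mp hb
  refine ⟨a, ?_⟩
  rw [← ha]
  exact Finset.sum_congr rfl (fun i _ => Algebra.smul_def _ _)

end Span

/-! ### The Eisenstein polynomial of a uniformizer -/

section Eisenstein

variable {ϖ : A} (hϖ : Irreducible ϖ) {e : ℕ} (he : addVal B (algebraMap A B ϖ) = (e : ℕ∞))
  (he0 : e ≠ 0)

theorem mem_maximalIdeal_iff_one_le {a : A} :
    a ∈ IsLocalRing.maximalIdeal A ↔ 1 ≤ addVal A a := by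
  rw [IsLocalRing.mem_maximalIdeal, mem_nonunits_iff, ← addVal_eq_zero_iff, Order.one_le_iff_ne_zero]

theorem mem_maximalIdeal_sq_iff_two_le {a : A} :
    a ∈ IsLocalRing.maximalIdeal A ^ 2 ↔ 2 ≤ addVal A a := by
  obtain ⟨ϖ', hϖ'⟩ := exists_irreducible A
  rw [(irreducible_iff_uniformizer ϖ').mp hϖ', Ideal.span_singleton_pow,
    Ideal.mem_span_singleton, ← addVal_le_iff_dvd, addVal_pow, addVal_uniformizer hϖ']
  rfl

include hϖ he he0

/-- The coefficients of a relation `θ^e = ∑_{i<e} c_i θ^i` are those of an Eisenstein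
polynomial. -/
theorem coeff_of_pow_eq_sum {θ : B} (hθ : Irreducible θ) (c : Fin e → A)
    (hc : θ ^ e = ∑ i : Fin e, algebraMap A B (c i) * θ ^ (i : ℕ)) :
    (∀ i, c i ∈ IsLocalRing.maximalIdeal A) ∧
      c ⟨0, Nat.pos_of_ne_zero he0⟩ ∉ IsLocalRing.maximalIdeal A ^ 2 := by
  obtain ⟨i₀, hval, hmin⟩ := addVal_sum_pow hϖ he he0 hθ c
  rw [← hc, addVal_pow, addVal_uniformizer hθ, nsmul_eq_mul, mul_one] at hval
  -- `e = e · v(c i₀) + i₀`, `i₀ < e`
  have hne : addVal A (c i₀) ≠ ⊤ := by
    intro h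
    rw [h, ENat.mul_top (by exact_mod_cast he0), top_add] at hval
    exact ENat.natCast_ne_top e hval
  obtain ⟨m, hm⟩ := ENat.ne_top_iff_exists.mp hne
  rw [← hm] at hval
  have hval' : e = e * m + i₀ := by exact_mod_cast hval
  have hi₀ := i₀.2
  have hm1 : m = 1 := by
    rcases Nat.lt_or_ge m 1 with h | h
    · have : m = 0 := by omega
      subst this
      omega
    · rcases Nat.lt_or_ge 1 m with h2 | h2
      · have : e * 2 ≤ e * m := Nat.mul_le_mul_left e h2
        omega
      · omega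
  subst hm1
  have hi0 : (i₀ : ℕ) = 0 := by omega
  constructor
  · intro i
    rw [mem_maximalIdeal_iff_one_le]
    by_contra hlt
    have h0 : addVal A (c i) = 0 := by
      rw [Order.one_le_iff_ne_zero, not_not] at hlt
      exact hlt
    have := hmin i
    rw [← hm, h0, mul_zero, zero_add] at this
    have h3 : e * 1 + (i₀ : ℕ) ≤ (i : ℕ) := by exact_mod_cast this
    have := i.2
    omega
  · rw [mem_maximalIdeal_sq_iff_two_le]
    have h00 : (⟨0, Nat.pos_of_ne_zero he0⟩ : Fin e) = i₀ := Fin.ext hi0.symm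
    rw [h00, ← hm]
    norm_num

/-- **A uniformizer of a totally ramified extension is a root of an Eisenstein polynomial** of
degree `e` (and `B = A[θ]`, see `exists_sum_pow_eq`). -/
theorem exists_eisenstein [Module.Finite A B] {θ : B} (hθ : Irreducible θ)
    (hres : ∀ b : B, ∃ a : A, θ ∣ b - algebraMap A B a) :
    ∃ P : A[X], P.Monic ∧ P.natDegree = e ∧ P.IsEisensteinAt (IsLocalRing.maximalIdeal A) ∧
      aeval θ P = 0 := by
  obtain ⟨c, hc⟩ := exists_sum_pow_eq hϖ he he0 hθ hres (θ ^ e)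
  obtain ⟨hmem, hnot⟩ := coeff_of_pow_eq_sum hϖ he he0 hθ c hc
  set Q : A[X] := ∑ i : Fin e, C (c i) * X ^ (i : ℕ) with hQ
  have hQdeg : Q.degree < (e : ℕ) := degree_sum_fin_lt c
  have hmonic : (X ^ e - Q).Monic := monic_X_pow_sub hQdeg
  have hnat : (X ^ e - Q).natDegree = e := by
    have h1 : Q.degree < (X ^ e : A[X]).degree := by rwa [degree_X_pow]
    rw [natDegree_sub_eq_left_of_natDegree_lt, natDegree_X_pow]
    rw [natDegree_X_pow]
    exact (natDegree_lt_iff_degree_lt (by
      intro h0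
      -- `Q = 0` is fine too; handle through degrees
      exact absurd h0 (by
        intro hQ0
        have := hnot
        rw [mem_maximalIdeal_sq_iff_two_le] at this
        apply this
        have hc0 : c ⟨0, Nat.pos_of_ne_zero he0⟩ = Q.coeff 0 := by
          rw [hQ, finsetSum_coeff]
          simp only [coeff_C_mul, coeff_X_pow]
          rw [Finset.sum_eq_single ⟨0, Nat.pos_of_ne_zero he0⟩]
          · simp
          · intro b _ hb
            have : (0 : ℕ) ≠ (b : ℕ) := fun h => hb (Fin.ext h.symm)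
            simp [this]
          · intro h; exact absurd (Finset.mem_univ _) h
        rw [hc0, hQ0, coeff_zero, addVal_zero]
        exact le_top))).mpr hQdeg
  have hcoeff : ∀ i : Fin e, (X ^ e - Q).coeff (i : ℕ) = - c i := by
    intro i
    rw [coeff_sub, coeff_X_pow, if_neg (by have := i.2; omega), zero_sub, hQ, finsetSum_coeff]
    simp only [coeff_C_mul, coeff_X_pow]
    rw [Finset.sum_eq_single i]
    · simp
    · intro b _ hb
      have : (i : ℕ) ≠ (b : ℕ) := fun h => hb (Fin.ext h.symm)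
      simp [this]
    · intro h; exact absurd (Finset.mem_univ _) h
  refine ⟨X ^ e - Q, hmonic, hnat, ?_, ?_⟩
  · refine ⟨?_, ?_, ?_⟩
    · rw [hmonic.leadingCoeff]
      exact fun h => (IsLocalRing.maximalIdeal.isMaximal A).ne_top
        ((Ideal.eq_top_iff_one _).mpr h)
    · intro n hn
      rw [hnat] at hn
      have := hcoeff ⟨n, hn⟩
      simp only at this
      rw [this]
      exact neg_mem (hmem _)
    · have := hcoeff ⟨0, Nat.pos_of_ne_zero he0⟩
      simp only at this
      rw [this, neg_mem_iff]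
      exact hnot
  · rw [map_sub, map_pow, aeval_X, hQ, map_sum, hc, sub_eq_zero]
    refine Finset.sum_congr rfl (fun i _ => ?_)
    rw [map_mul, aeval_C, map_pow, aeval_X]

end Eisenstein

/-! ### Conversely: roots of Eisenstein polynomials -/

section Converse

variable {ϖ : A} (hϖ : Irreducible ϖ) {e : ℕ} (he : addVal B (algebraMap A B ϖ) = (e : ℕ∞))
  (he0 : e ≠ 0)

include hϖ he he0

/-- **A root `θ ∈ B` of a monic Eisenstein polynomial of degree `n` over `A` satisfies
`n · v_B(θ) = e`.** -/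
theorem natDegree_mul_addVal_root {P : A[X]} (hP : P.Monic)
    (hE : P.IsEisensteinAt (IsLocalRing.maximalIdeal A)) {θ : B} (hroot : aeval θ P = 0) :
    (P.natDegree : ℕ∞) * addVal B θ = (e : ℕ∞) := by
  classical
  set n := P.natDegree with hn
  have hn0 : n ≠ 0 := by
    intro h0
    have h1 : P = 1 := eq_one_of_monic_natDegree_zero hP (by rw [← hn, h0])
    rw [h1, map_one] at hroot
    exact one_ne_zero hroot
  -- valuations of the coefficients
  have hv0 : addVal A (P.coeff 0) = 1 := by
    have h1 : 1 ≤ addVal A (P.coeff 0) :=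
      mem_maximalIdeal_iff_one_le.mp (hE.mem (Nat.pos_of_ne_zero hn0))
    have h2 : ¬ 2 ≤ addVal A (P.coeff 0) := fun h =>
      hE.notMem (mem_maximalIdeal_sq_iff_two_le.mpr h)
    have hne : addVal A (P.coeff 0) ≠ ⊤ := fun h => h2 (by rw [h]; exact le_top)
    obtain ⟨m, hm⟩ := ENat.ne_top_iff_exists.mp hne
    rw [← hm] at h1 h2 ⊢
    have h1' : 1 ≤ m := by exact_mod_cast h1
    have h2' : ¬ 2 ≤ m := by exact_mod_cast h2
    have : m = 1 := by omega
    rw [this]; rfl
  have hvi : ∀ i, i < n → 1 ≤ addVal A (P.coeff i) := fun i hi =>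
    mem_maximalIdeal_iff_one_le.mp (hE.mem hi)
  -- the relation `θ^n = -∑_{i<n} p_i θ^i`
  have hrel : θ ^ n = -∑ i ∈ Finset.range n, algebraMap A B (P.coeff i) * θ ^ i := by
    have h := hroot
    rw [aeval_eq_sum_range, Finset.sum_range_succ, ← hn, hP.coeff_natDegree, one_smul] at h
    rw [eq_neg_iff_add_eq_zero, add_comm, ← h]
    congr 1
    exact Finset.sum_congr rfl (fun i _ => (Algebra.smul_def _ _).symm)
  -- `θ` is not a unit
  have hw1 : 1 ≤ addVal B θ := by
    rw [Order.one_le_iff_ne_zero]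
    intro h0
    have hunit : IsUnit (θ ^ n) := (addVal_eq_zero_iff.mp h0).pow n
    have h1 : (1 : ℕ∞) ≤ addVal B (θ ^ n) := by
      rw [hrel, (addVal B).map_neg]
      refine AddValuation.map_le_sum _ (fun i hi => ?_)
      rw [addVal_mul, addVal_algebraMap hϖ he he0]
      refine le_trans ?_ le_self_add
      have h3 := hvi i (Finset.mem_range.mp hi)
      calc (1 : ℕ∞) ≤ (e : ℕ∞) := by exact_mod_cast Nat.one_le_iff_ne_zero.mpr he0
        _ = (e : ℕ∞) * 1 := (mul_one _).symm
        _ ≤ (e : ℕ∞) * addVal A (P.coeff i) := by gcongr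
    rw [addVal_eq_zero_iff.mpr hunit] at h1
    exact absurd h1 (by norm_num)
  -- the sum has valuation exactly `e`
  have hsum : addVal B (∑ i ∈ Finset.range n, algebraMap A B (P.coeff i) * θ ^ i) = (e : ℕ∞) := by
    rw [addVal_sum_eq_of_lt (j := 0) (Finset.mem_range.mpr (Nat.pos_of_ne_zero hn0))]
    · rw [pow_zero, mul_one, addVal_algebraMap hϖ he he0, hv0, mul_one]
    · intro i hi hi0
      rw [pow_zero, mul_one, addVal_algebraMap hϖ he he0, hv0, mul_one, addVal_mul,
        addVal_algebraMap hϖ he he0, addVal_pow]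
      have h3 := hvi i (Finset.mem_range.mp hi)
      have h4 : (1 : ℕ∞) ≤ i • addVal B θ := by
        rw [nsmul_eq_mul]
        calc (1 : ℕ∞) = 1 * 1 := (mul_one _).symm
          _ ≤ (i : ℕ∞) * addVal B θ := by
            gcongr
            exact_mod_cast Nat.one_le_iff_ne_zero.mpr hi0
      calc (e : ℕ∞) < (e : ℕ∞) + 1 := by
            exact_mod_cast Nat.lt_succ_self e
        _ ≤ (e : ℕ∞) * addVal A (P.coeff i) + i • addVal B θ := by
            gcongr
            calc (e : ℕ∞) = (e : ℕ∞) * 1 := (mul_one _).symm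
              _ ≤ (e : ℕ∞) * addVal A (P.coeff i) := by gcongr
  have := congrArg (addVal B) hrel
  rw [(addVal B).map_neg, hsum, addVal_pow, nsmul_eq_mul] at this
  exact this

end Converse

/-! ### `X^n - c`, `c` a uniformizer, is Eisenstein -/

section XPow

variable {A : Type*} [CommRing A] [IsDomain A] [IsDiscreteValuationRing A]

/-- `X^n - c` is Eisenstein for a uniformizer `c` and `n ≠ 0`. -/
theorem isEisensteinAt_X_pow_sub_C {n : ℕ} (hn : n ≠ 0) {c : A} (hc : Irreducible c) :
    (X ^ n - C c : A[X]).IsEisensteinAt (IsLocalRing.maximalIdeal A) := by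
  have hmonic : (X ^ n - C c : A[X]).Monic := monic_X_pow_sub_C c hn
  have hdeg : (X ^ n - C c : A[X]).natDegree = n := natDegree_X_pow_sub_C
  have hcm : c ∈ IsLocalRing.maximalIdeal A := by
    rw [IsLocalRing.mem_maximalIdeal]
    exact hc.not_isUnit
  refine ⟨?_, ?_, ?_⟩
  · rw [hmonic.leadingCoeff]
    exact (Ideal.ne_top_iff_one _).mp (IsLocalRing.maximalIdeal.isMaximal A).ne_top
  · intro k hk
    rw [hdeg] at hk
    rw [coeff_sub, coeff_X_pow, if_neg hk.ne, zero_sub, coeff_C]
    split_ifs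
    · exact neg_mem hcm
    · rw [neg_zero]; exact zero_mem _
  · rw [coeff_sub, coeff_X_pow, if_neg (Ne.symm hn), zero_sub, coeff_C_zero, neg_mem_iff,
      (irreducible_iff_uniformizer c).mp hc, Ideal.span_singleton_pow, Ideal.mem_span_singleton]
    intro hdvd
    obtain ⟨d, hd⟩ := hdvd
    have h1 : c * 1 = c * (c * d) := by rw [mul_one, ← mul_assoc, ← sq, ← hd]
    have h2 := mul_left_cancel₀ hc.ne_zero h1
    exact hc.not_isUnit (IsUnit.of_mul_eq_one d h2.symm)

end XPow

end Fermat.Agent.ES.T56.DvrEis8
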