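/-
Programme T (S56), chapter FLAT, common brick (c1) `TameStructure`, model bridge (helper8).

**Totally ramified extensions and Eisenstein polynomials in the PT/LOC model of `p`-adic fields.**
`K ⊆ L` are `p`-adic fields in the sense of `PT.LOC.Interface12` (`[Algebra K L]`,
`[IsScalarTower ℚ_[p] K L]`), `𝒪_K = intRing p K`, `𝒪_L = intRing p L`, `e = ramIdx p K L`,
`f = resDeg p K L`.

* `addVal_eq_natCast_iff` : `addVal 𝒪_K x = n ↔ ord p K x = n`;
* `addVal_algebraMap_irreducible` : `v_L(ϖ_K) = e`;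
* `exists_dvd_sub_algebraMap` : if `f = 1`, every residue class of `𝒪_L` is represented in `𝒪_K`;
* `exists_eisenstein_of_resDeg_eq_one` / `adjoin_eq_top_of_resDeg_eq_one` /
  `exists_sum_pow_eq_of_resDeg_eq_one` : if `f = 1` and `θ` is a uniformizer of `L`, then `θ` is a
  root of a monic Eisenstein polynomial of degree `e = [L : K]` over `𝒪_K` and `𝒪_L = 𝒪_K[θ]`
  (basis `1, θ, …, θ^{e-1}`);
* `eisenstein_root` : conversely, if `θ ∈ 𝒪_L` is a root of a monic Eisenstein polynomial `P` over
  `𝒪_K` and `[L : K] ≤ deg P`, then `θ` is a uniformizer of `L`, `e = [L : K] = deg P`, `f = 1`.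
-/
import Mathlib
import Fermat.Agent.PT.LOC.Interface12
import Fermat.Agent.PT.LOC.Structure14
import Fermat.Agent.PT.LOC.StructureNorm14
import Fermat.Agent.PT.LOC.StructureTower27
import Fermat.Agent.PT.LOC.StructureTowerEF27
import Fermat.Agent.PT.LOC.Unram11
import Fermat.Agent.ES.T56.DvrEis8

set_option autoImplicit false
set_option linter.unusedSectionVars false

open IsDiscreteValuationRing Polynomial

open scoped Fermat.Agent.PT.LOC.Interface12 Fermat.Agent.PT.LOC.StructureTower27
open Fermat.Agent.PT.LOC.Interface12 Fermat.Agent.PT.LOC.Structure14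
  Fermat.Agent.PT.LOC.StructureNorm14 Fermat.Agent.PT.LOC.StructureTower27
  Fermat.Agent.PT.LOC.StructureTowerEF27 Fermat.Agent.PT.LOC.Unram11

namespace Fermat.Agent.ES.T56.EisModel8

noncomputable section

variable (p : ℕ) [Fact p.Prime]

section One

variable (K : Type) [Field K] [Algebra ℚ_[p] K] [FiniteDimensional ℚ_[p] K]

/-- `n ≤ v(x) ↔ x ∈ 𝔪^n`. -/
theorem natCast_le_addVal_iff (x : intRing p K) (n : ℕ) :
    (n : ℕ∞) ≤ addVal (intRing p K) x ↔ x ∈ IsLocalRing.maximalIdeal (intRing p K) ^ n := by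
  obtain ⟨ϖ, hϖ⟩ := exists_irreducible (intRing p K)
  rw [(irreducible_iff_uniformizer ϖ).mp hϖ, Ideal.span_singleton_pow, Ideal.mem_span_singleton,
    ← addVal_le_iff_dvd, addVal_pow, addVal_uniformizer hϖ, nsmul_eq_mul, mul_one]

/-- The additive valuation of `𝒪_K` is `ord`. -/
theorem addVal_eq_natCast_iff (x : intRing p K) (hx : (x : K) ≠ 0) (n : ℕ) :
    addVal (intRing p K) x = (n : ℕ∞) ↔ ord p K (Units.mk0 (x : K) hx) = (n : ℤ) := by
  have key : ∀ m : ℕ, (m : ℕ∞) ≤ addVal (intRing p K) x ↔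
      (m : ℤ) ≤ ord p K (Units.mk0 (x : K) hx) := by
    intro m
    rw [natCast_le_addVal_iff]
    exact mem_maximalIdeal_pow_iff p K (Units.mk0 (x : K) hx) x.2 m
  have hx0 : x ≠ 0 := fun h => hx (by rw [h]; rfl)
  obtain ⟨k, hk⟩ := ENat.ne_top_iff_exists.mp (fun h => hx0 (addVal_eq_top_iff.mp h))
  rw [← hk]
  have h1 := (key k).mp (by rw [hk])
  have h2 : ¬ ((k + 1 : ℕ) : ℤ) ≤ ord p K (Units.mk0 (x : K) hx) := by
    rw [← key, ← hk]
    exact_mod_cast Nat.not_succ_le_self k
  constructor
  · intro h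
    have : k = n := by exact_mod_cast h
    subst this
    push_cast at h2
    omega
  · intro h
    push_cast at h2
    have : k = n := by omega
    rw [this]

theorem ord_eq_of_addVal_eq (x : intRing p K) (hx : (x : K) ≠ 0) {n : ℕ}
    (h : addVal (intRing p K) x = (n : ℕ∞)) : ord p K (Units.mk0 (x : K) hx) = (n : ℤ) :=
  (addVal_eq_natCast_iff p K x hx n).mp h

/-- An irreducible element of `𝒪_K` has `ord = 1`. -/
theorem ord_irreducible {ϖ : intRing p K} (hϖ : Irreducible ϖ) (h0 : (ϖ : K) ≠ 0) :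
    ord p K (Units.mk0 (ϖ : K) h0) = 1 := by
  have := (addVal_eq_natCast_iff p K ϖ h0 1).mp (by rw [addVal_uniformizer hϖ]; rfl)
  exact_mod_cast this

theorem coe_ne_zero_of_irreducible {ϖ : intRing p K} (hϖ : Irreducible ϖ) : (ϖ : K) ≠ 0 := by
  intro h
  exact hϖ.ne_zero (Subtype.ext h)

end One

section Tower

variable (K L : Type) [Field K] [Field L] [Algebra ℚ_[p] K] [Algebra ℚ_[p] L] [Algebra K L]
  [IsScalarTower ℚ_[p] K L] [FiniteDimensional ℚ_[p] K] [FiniteDimensional ℚ_[p] L]

theorem coe_algebraMap_intRing (a : intRing p K) :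
    ((algebraMap (intRing p K) (intRing p L) a : intRing p L) : L) = algebraMap K L (a : K) :=
  rfl

/-- `v_L(ϖ_K) = e(L/K)`. -/
theorem addVal_algebraMap_irreducible {ϖ : intRing p K} (hϖ : Irreducible ϖ) :
    addVal (intRing p L) (algebraMap (intRing p K) (intRing p L) ϖ) = (ramIdx p K L : ℕ∞) := by
  have h0 : (ϖ : K) ≠ 0 := coe_ne_zero_of_irreducible p K hϖ
  have h0' : ((algebraMap (intRing p K) (intRing p L) ϖ : intRing p L) : L) ≠ 0 := by
    rw [coe_algebraMap_intRing]
    exact fun h => h0 ((map_eq_zero _).mp h)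
  rw [addVal_eq_natCast_iff p L _ h0']
  have h := ord_algebraMap p K L (Units.mk0 (ϖ : K) h0)
  rw [ord_irreducible p K hϖ h0, mul_one] at h
  rw [← h]
  exact congrArg (ord p L) (Units.ext rfl)

theorem ramIdx_ne_zero : ramIdx p K L ≠ 0 := (ramIdx_pos p K L).ne'

/-- If the residue degree is `1`, every residue class of `𝒪_L` has a representative in `𝒪_K`. -/
theorem exists_sub_mem_maximalIdeal (hf : resDeg p K L = 1) (b : intRing p L) :
    ∃ a : intRing p K, b - algebraMap (intRing p K) (intRing p L) a ∈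
      IsLocalRing.maximalIdeal (intRing p L) := by
  have h1 : Module.finrank (resF p K) (resF p L) = 1 := by
    rw [← resDeg_eq_finrank_resF, hf]
  have : Module.Free (resF p K) (resF p L) := Module.Free.of_divisionRing _ _
  have hsurj : Function.Surjective (algebraMap (resF p K) (resF p L)) := by
    rw [Algebra.surjective_algebraMap_iff]
    exact (Subalgebra.bot_eq_top_of_finrank_eq_one h1).symm
  obtain ⟨ā, hā⟩ := hsurj (Ideal.Quotient.mk _ b)
  obtain ⟨a, rfl⟩ := Ideal.Quotient.mk_surjective ā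
  refine ⟨a, ?_⟩
  rw [← Ideal.Quotient.eq]
  exact hā.symm

theorem exists_dvd_sub_algebraMap (hf : resDeg p K L = 1) {θ : intRing p L} (hθ : Irreducible θ)
    (b : intRing p L) :
    ∃ a : intRing p K, θ ∣ b - algebraMap (intRing p K) (intRing p L) a := by
  obtain ⟨a, ha⟩ := exists_sub_mem_maximalIdeal p K L hf b
  refine ⟨a, ?_⟩
  rwa [(irreducible_iff_uniformizer θ).mp hθ, Ideal.mem_span_singleton] at ha

theorem ramIdx_eq_finrank_of_resDeg_eq_one (hf : resDeg p K L = 1) :
    ramIdx p K L = Module.finrank K L := by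
  rw [← ramIdx_mul_resDeg p K L, hf, mul_one]

/-- **Totally ramified ⇒ Eisenstein**: if `f(L/K) = 1`, a uniformizer `θ` of `L` is a root of a
monic Eisenstein polynomial of degree `e = [L : K]` over `𝒪_K`. -/
theorem exists_eisenstein_of_resDeg_eq_one (hf : resDeg p K L = 1) {θ : intRing p L}
    (hθ : Irreducible θ) :
    ∃ P : (intRing p K)[X], P.Monic ∧ P.natDegree = Module.finrank K L ∧
      P.IsEisensteinAt (IsLocalRing.maximalIdeal (intRing p K)) ∧ aeval θ P = 0 := by
  obtain ⟨ϖ, hϖ⟩ := exists_irreducible (intRing p K)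
  have h := DvrEis8.exists_eisenstein hϖ (addVal_algebraMap_irreducible p K L hϖ)
    (ramIdx_ne_zero p K L) hθ (exists_dvd_sub_algebraMap p K L hf hθ)
  rwa [ramIdx_eq_finrank_of_resDeg_eq_one p K L hf] at h

/-- **Totally ramified ⇒ monogenic**, basis form: every element of `𝒪_L` is a polynomial of degree
`< e` in the uniformizer `θ` with coefficients in `𝒪_K`. -/
theorem exists_sum_pow_eq_of_resDeg_eq_one (hf : resDeg p K L = 1) {θ : intRing p L}
    (hθ : Irreducible θ) (b : intRing p L) :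
    ∃ a : Fin (ramIdx p K L) → intRing p K,
      b = ∑ i : Fin (ramIdx p K L), algebraMap (intRing p K) (intRing p L) (a i) * θ ^ (i : ℕ) := by
  obtain ⟨ϖ, hϖ⟩ := exists_irreducible (intRing p K)
  exact DvrEis8.exists_sum_pow_eq hϖ (addVal_algebraMap_irreducible p K L hϖ)
    (ramIdx_ne_zero p K L) hθ (exists_dvd_sub_algebraMap p K L hf hθ) b

/-- **Totally ramified ⇒ monogenic**: `𝒪_L = 𝒪_K[θ]`. -/
theorem adjoin_eq_top_of_resDeg_eq_one (hf : resDeg p K L = 1) {θ : intRing p L}
    (hθ : Irreducible θ) :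
    Algebra.adjoin (intRing p K) {θ} = (⊤ : Subalgebra (intRing p K) (intRing p L)) := by
  rw [eq_top_iff]
  intro b _
  obtain ⟨a, rfl⟩ := exists_sum_pow_eq_of_resDeg_eq_one p K L hf hθ b
  refine Subalgebra.sum_mem _ (fun i _ => ?_)
  exact Subalgebra.mul_mem _ (Subalgebra.algebraMap_mem _ _)
    (Subalgebra.pow_mem _ (Algebra.subset_adjoin (Set.mem_singleton θ)) _)

/-- The powers `1, θ, …, θ^{e-1}` of a uniformizer are `𝒪_K`-linearly independent. -/
theorem linearIndependent_pow_uniformizer {θ : intRing p L} (hθ : Irreducible θ) :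
    LinearIndependent (intRing p K) (fun i : Fin (ramIdx p K L) => θ ^ (i : ℕ)) := by
  obtain ⟨ϖ, hϖ⟩ := exists_irreducible (intRing p K)
  exact DvrEis8.linearIndependent_pow hϖ (addVal_algebraMap_irreducible p K L hϖ)
    (ramIdx_ne_zero p K L) hθ

/-- **Eisenstein ⇒ totally ramified**: a root `θ ∈ 𝒪_L` of a monic Eisenstein polynomial `P` over
`𝒪_K` with `[L : K] ≤ deg P` is a uniformizer of `L`, and `e = [L : K] = deg P`, `f = 1`. -/
theorem eisenstein_root {P : (intRing p K)[X]} (hP : P.Monic)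
    (hE : P.IsEisensteinAt (IsLocalRing.maximalIdeal (intRing p K))) {θ : intRing p L}
    (hroot : aeval θ P = 0) (hdeg : Module.finrank K L ≤ P.natDegree) :
    Irreducible θ ∧ ramIdx p K L = P.natDegree ∧ resDeg p K L = 1 ∧
      Module.finrank K L = P.natDegree := by
  obtain ⟨ϖ, hϖ⟩ := exists_irreducible (intRing p K)
  have h := DvrEis8.natDegree_mul_addVal_root hϖ (addVal_algebraMap_irreducible p K L hϖ)
    (ramIdx_ne_zero p K L) hP hE hroot
  have hef := ramIdx_mul_resDeg p K L
  have hfpos := resDeg_pos p K L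
  have hepos := ramIdx_pos p K L
  -- `v(θ)` is a natural number `k` with `deg P * k = e`
  have hne : addVal (intRing p L) θ ≠ ⊤ := by
    intro htop
    rw [htop] at h
    by_cases hn : P.natDegree = 0
    · rw [hn] at h
      simp at h
      exact (ramIdx_ne_zero p K L) (by exact_mod_cast h.symm)
    · rw [ENat.mul_top (by exact_mod_cast hn)] at h
      exact ENat.natCast_ne_top _ h.symm
  obtain ⟨k, hk⟩ := ENat.ne_top_iff_exists.mp hne
  rw [← hk] at h
  have h' : P.natDegree * k = ramIdx p K L := by exact_mod_cast h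
  have hk0 : k ≠ 0 := by
    rintro rfl
    rw [mul_zero] at h'
    exact ramIdx_ne_zero p K L h'.symm
  have hle1 : P.natDegree ≤ ramIdx p K L := by
    rw [← h']
    exact Nat.le_mul_of_pos_right _ (Nat.pos_of_ne_zero hk0)
  have hle2 : ramIdx p K L ≤ Module.finrank K L := by
    rw [← hef]
    exact Nat.le_mul_of_pos_right _ hfpos
  have he : ramIdx p K L = P.natDegree := le_antisymm (hle2.trans hdeg) hle1
  have hfin : Module.finrank K L = P.natDegree := le_antisymm hdeg (hle1.trans hle2)
  have hf : resDeg p K L = 1 := by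
    rw [he, hfin] at hef
    have hpos : 0 < P.natDegree := by rw [← he]; exact hepos
    exact Nat.eq_of_mul_eq_mul_left hpos (by rw [hef, mul_one])
  have hk1 : k = 1 := by
    rw [he] at h'
    have hpos : 0 < P.natDegree := by rw [← he]; exact hepos
    exact Nat.eq_of_mul_eq_mul_left hpos (by rw [h', mul_one])
  refine ⟨?_, he, hf, hfin⟩
  rw [hk1] at hk
  obtain ⟨θ', hθ'⟩ := exists_irreducible (intRing p L)
  have hass : Associated θ θ' := by
    rw [← addVal_eq_iff_associated, addVal_uniformizer hθ', ← hk]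
    rfl
  exact hass.symm.irreducible hθ'

end Tower

end

end Fermat.Agent.ES.T56.EisModel8
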