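/-
Programme T (S56), chapter FLAT, common brick (c1) `TameStructure`, presentation (helper8).

**`𝒪_L ≅ 𝒪_K[X]/(P)` for a totally ramified extension `L/K` of `p`-adic fields** (PT/LOC model):
`P ∈ 𝒪_K[X]` monic Eisenstein, `θ ∈ 𝒪_L` a root of `P`, `[L : K] ≤ deg P`.

* `eisEquiv : AdjoinRoot P ≃ₐ[𝒪_K] 𝒪_L`, `root P ↦ θ` (`eisEquiv_root`, `eisEquiv_mk`);
* `eisLift` : the ring homomorphism `𝒪_L → S` extending `i : 𝒪_K →+* S` and sending `θ` to a root
  `x` of `P` in `S` (`eisLift_algebraMap`, `eisLift_root`) — the tool to define the truncated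
  homomorphisms `ι`, `η` of Theorem R′.
-/
import Mathlib
import Fermat.Agent.ES.T56.EisModel8

set_option autoImplicit false
set_option linter.unusedSectionVars false

open IsDiscreteValuationRing Polynomial

open scoped Fermat.Agent.PT.LOC.Interface12 Fermat.Agent.PT.LOC.StructureTower27
open Fermat.Agent.PT.LOC.Interface12 Fermat.Agent.PT.LOC.Structure14
  Fermat.Agent.PT.LOC.StructureNorm14 Fermat.Agent.PT.LOC.StructureTower27
  Fermat.Agent.PT.LOC.StructureTowerEF27

namespace Fermat.Agent.ES.T56.EisEquiv8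

noncomputable section

variable (p : ℕ) [Fact p.Prime]
variable (K L : Type) [Field K] [Field L] [Algebra ℚ_[p] K] [Algebra ℚ_[p] L] [Algebra K L]
  [IsScalarTower ℚ_[p] K L] [FiniteDimensional ℚ_[p] K] [FiniteDimensional ℚ_[p] L]

variable {P : (intRing p K)[X]} {θ : intRing p L}

/-- The evaluation homomorphism `𝒪_K[X]/(P) → 𝒪_L`, `X ↦ θ`. -/
def eisHom (hroot : aeval θ P = 0) : AdjoinRoot P →ₐ[intRing p K] intRing p L :=
  AdjoinRoot.liftAlgHom P (Algebra.ofId (intRing p K) (intRing p L)) θ
    (by rw [aeval_def] at hroot; exact hroot)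

theorem eisHom_root (hroot : aeval θ P = 0) : eisHom p K L hroot (AdjoinRoot.root P) = θ :=
  AdjoinRoot.liftAlgHom_root _ _ _ _

theorem eisHom_mk (hroot : aeval θ P = 0) (f : (intRing p K)[X]) :
    eisHom p K L hroot (AdjoinRoot.mk P f) = aeval θ f := rfl

theorem eisHom_surjective (hP : P.Monic)
    (hE : P.IsEisensteinAt (IsLocalRing.maximalIdeal (intRing p K))) (hroot : aeval θ P = 0)
    (hdeg : Module.finrank K L ≤ P.natDegree) : Function.Surjective (eisHom p K L hroot) := by
  obtain ⟨h1, -, h3, -⟩ := EisModel8.eisenstein_root p K L hP hE hroot hdeg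
  have htop := EisModel8.adjoin_eq_top_of_resDeg_eq_one p K L h3 h1
  rw [← AlgHom.range_eq_top, eq_top_iff, ← htop]
  refine Algebra.adjoin_le ?_
  intro x hx
  rw [Set.mem_singleton_iff] at hx
  rw [hx]
  exact ⟨AdjoinRoot.root P, eisHom_root p K L hroot⟩

theorem eisHom_injective (hP : P.Monic)
    (hE : P.IsEisensteinAt (IsLocalRing.maximalIdeal (intRing p K))) (hroot : aeval θ P = 0)
    (hdeg : Module.finrank K L ≤ P.natDegree) : Function.Injective (eisHom p K L hroot) := by
  obtain ⟨h1, h2, -, -⟩ := EisModel8.eisenstein_root p K L hP hE hroot hdeg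
  have hli := EisModel8.linearIndependent_pow_uniformizer p K L h1
  rw [h2] at hli
  rw [Fintype.linearIndependent_iff] at hli
  rw [injective_iff_map_eq_zero]
  intro x hx
  set b := (AdjoinRoot.powerBasis' hP) with hb
  have hdim : b.dim = P.natDegree := AdjoinRoot.powerBasis'_dim hP
  have hx' := b.basis.sum_repr x
  have hgen : b.gen = AdjoinRoot.root P := AdjoinRoot.powerBasis'_gen hP
  rw [← hx', map_sum] at hx
  have hterm : ∀ i : Fin b.dim, eisHom p K L hroot (b.basis.repr x i • b.basis i) =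
      b.basis.repr x i • θ ^ (i : ℕ) := by
    intro i
    rw [map_smul, PowerBasis.coe_basis, map_pow, hgen, eisHom_root]
  rw [Finset.sum_congr rfl (fun i _ => hterm i)] at hx
  have hzero : ∀ i : Fin b.dim, b.basis.repr x i = 0 := by
    have key := hli (fun i : Fin P.natDegree => b.basis.repr x (Fin.cast hdim.symm i)) (by
      rw [← hx]
      exact Fintype.sum_equiv (finCongr hdim.symm) _ _ (fun i => rfl))
    intro i
    have := key (Fin.cast hdim i)
    simpa using this
  rw [← hx']
  exact Finset.sum_eq_zero (fun i _ => by rw [hzero i, zero_smul])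

/-- **`𝒪_K[X]/(P) ≅ 𝒪_L`**, `X ↦ θ`, for `P` monic Eisenstein with root `θ ∈ 𝒪_L`,
`[L : K] ≤ deg P`. -/
def eisEquiv (hP : P.Monic) (hE : P.IsEisensteinAt (IsLocalRing.maximalIdeal (intRing p K)))
    (hroot : aeval θ P = 0) (hdeg : Module.finrank K L ≤ P.natDegree) :
    AdjoinRoot P ≃ₐ[intRing p K] intRing p L :=
  AlgEquiv.ofBijective (eisHom p K L hroot)
    ⟨eisHom_injective p K L hP hE hroot hdeg, eisHom_surjective p K L hP hE hroot hdeg⟩

theorem eisEquiv_root (hP : P.Monic)
    (hE : P.IsEisensteinAt (IsLocalRing.maximalIdeal (intRing p K)))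
    (hroot : aeval θ P = 0) (hdeg : Module.finrank K L ≤ P.natDegree) :
    eisEquiv p K L hP hE hroot hdeg (AdjoinRoot.root P) = θ :=
  eisHom_root p K L hroot

theorem eisEquiv_mk (hP : P.Monic)
    (hE : P.IsEisensteinAt (IsLocalRing.maximalIdeal (intRing p K)))
    (hroot : aeval θ P = 0) (hdeg : Module.finrank K L ≤ P.natDegree) (f : (intRing p K)[X]) :
    eisEquiv p K L hP hE hroot hdeg (AdjoinRoot.mk P f) = aeval θ f := rfl

theorem eisEquiv_symm_root (hP : P.Monic)
    (hE : P.IsEisensteinAt (IsLocalRing.maximalIdeal (intRing p K)))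
    (hroot : aeval θ P = 0) (hdeg : Module.finrank K L ≤ P.natDegree) :
    (eisEquiv p K L hP hE hroot hdeg).symm θ = AdjoinRoot.root P := by
  rw [AlgEquiv.symm_apply_eq, eisEquiv_root]

theorem eisEquiv_symm_algebraMap (hP : P.Monic)
    (hE : P.IsEisensteinAt (IsLocalRing.maximalIdeal (intRing p K)))
    (hroot : aeval θ P = 0) (hdeg : Module.finrank K L ≤ P.natDegree) (a : intRing p K) :
    (eisEquiv p K L hP hE hroot hdeg).symm (algebraMap (intRing p K) (intRing p L) a) =
      AdjoinRoot.of P a := by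
  rw [AlgEquiv.symm_apply_eq, ← AdjoinRoot.algebraMap_eq, AlgEquiv.commutes]

section Lift

variable {S : Type*} [CommRing S]

/-- **Ring homomorphisms out of `𝒪_L = 𝒪_K[θ]`**: extend `i : 𝒪_K →+* S` by `θ ↦ x`, `x` a root of
`P` in `S`. -/
def eisLift (hP : P.Monic) (hE : P.IsEisensteinAt (IsLocalRing.maximalIdeal (intRing p K)))
    (hroot : aeval θ P = 0) (hdeg : Module.finrank K L ≤ P.natDegree)
    (i : intRing p K →+* S) (x : S) (hx : P.eval₂ i x = 0) : intRing p L →+* S :=
  (AdjoinRoot.lift i x hx).comp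
    ((eisEquiv p K L hP hE hroot hdeg).symm : intRing p L →+* AdjoinRoot P)

theorem eisLift_root (hP : P.Monic)
    (hE : P.IsEisensteinAt (IsLocalRing.maximalIdeal (intRing p K)))
    (hroot : aeval θ P = 0) (hdeg : Module.finrank K L ≤ P.natDegree)
    (i : intRing p K →+* S) (x : S) (hx : P.eval₂ i x = 0) :
    eisLift p K L hP hE hroot hdeg i x hx θ = x := by
  change AdjoinRoot.lift i x hx ((eisEquiv p K L hP hE hroot hdeg).symm θ) = x
  rw [eisEquiv_symm_root, AdjoinRoot.lift_root]

theorem eisLift_algebraMap (hP : P.Monic)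
    (hE : P.IsEisensteinAt (IsLocalRing.maximalIdeal (intRing p K)))
    (hroot : aeval θ P = 0) (hdeg : Module.finrank K L ≤ P.natDegree)
    (i : intRing p K →+* S) (x : S) (hx : P.eval₂ i x = 0) (a : intRing p K) :
    eisLift p K L hP hE hroot hdeg i x hx (algebraMap (intRing p K) (intRing p L) a) = i a := by
  change AdjoinRoot.lift i x hx ((eisEquiv p K L hP hE hroot hdeg).symm
    (algebraMap (intRing p K) (intRing p L) a)) = i a
  rw [eisEquiv_symm_algebraMap, AdjoinRoot.lift_of]

/-- `eisLift` on a polynomial expression in `θ`. -/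
theorem eisLift_aeval (hP : P.Monic)
    (hE : P.IsEisensteinAt (IsLocalRing.maximalIdeal (intRing p K)))
    (hroot : aeval θ P = 0) (hdeg : Module.finrank K L ≤ P.natDegree)
    (i : intRing p K →+* S) (x : S) (hx : P.eval₂ i x = 0) (f : (intRing p K)[X]) :
    eisLift p K L hP hE hroot hdeg i x hx (aeval θ f) = f.eval₂ i x := by
  rw [aeval_def, hom_eval₂, eisLift_root]
  congr 1
  ext a
  exact eisLift_algebraMap p K L hP hE hroot hdeg i x hx a

end Lift

end

end Fermat.Agent.ES.T56.EisEquiv8
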