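/-
Programme T (S56), chapter FLAT, common brick (c1) `TameStructure`, Eisenstein fields (helper8).

**The field `K[X]/(P)` for a monic Eisenstein polynomial `P` over `𝒪_K`, inside the PT/LOC model.**
`K` a `p`-adic field (`PT.LOC.Interface12`), `P ∈ 𝒪_K[X]` monic Eisenstein of degree `n ≠ 0`,
`P_K := P.map (algebraMap 𝒪_K K)`.

* `irreducible_map_of_eisenstein` : `P_K` is irreducible;
* for `L := AdjoinRoot P_K` (a `p`-adic field in the model, instances below) and
  `θ := AdjoinRoot.root P_K`: `root_mem_intRing`, and `eisensteinField_structure` :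
  `θ` is a uniformizer of `L`, `e(L/K) = [L : K] = n`, `f(L/K) = 1`, `𝒪_L = 𝒪_K[θ]`;
* `exists_eisenstein_field` : the same, bundled as an existence statement (no `AdjoinRoot`).
-/
import Mathlib
import Fermat.Agent.ES.T56.EisModel8

set_option autoImplicit false
set_option linter.unusedSectionVars false

open IsDiscreteValuationRing Polynomial

open scoped Fermat.Agent.PT.LOC.Interface12 Fermat.Agent.PT.LOC.StructureTower27
open Fermat.Agent.PT.LOC.Interface12 Fermat.Agent.PT.LOC.Structure14
  Fermat.Agent.PT.LOC.StructureNorm14 Fermat.Agent.PT.LOC.StructureTower27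
  Fermat.Agent.PT.LOC.StructureTowerEF27

namespace Fermat.Agent.ES.T56.EisField8

noncomputable section

variable (p : ℕ) [Fact p.Prime]
variable (K : Type) [Field K] [Algebra ℚ_[p] K] [FiniteDimensional ℚ_[p] K]

/-- A monic Eisenstein polynomial over `𝒪_K` stays irreducible over `K`. -/
theorem irreducible_map_of_eisenstein {P : (intRing p K)[X]} (hP : P.Monic)
    (hE : P.IsEisensteinAt (IsLocalRing.maximalIdeal (intRing p K))) (hdeg : P.natDegree ≠ 0) :
    Irreducible (P.map (algebraMap (intRing p K) K)) := by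
  have hirr : Irreducible P :=
    hE.irreducible (IsLocalRing.maximalIdeal.isMaximal _).isPrime hP.isPrimitive
      (Nat.pos_of_ne_zero hdeg)
  exact (hP.irreducible_iff_irreducible_map_fraction_map (K := K)).mp hirr

section Field

variable {P : (intRing p K)[X]} [hirr : Fact (Irreducible (P.map (algebraMap (intRing p K) K)))]

instance finiteDimensional_adjoinRoot :
    FiniteDimensional K (AdjoinRoot (P.map (algebraMap (intRing p K) K))) :=
  (AdjoinRoot.powerBasis hirr.out.ne_zero).finite

instance finiteDimensional_adjoinRoot' :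
    FiniteDimensional ℚ_[p] (AdjoinRoot (P.map (algebraMap (intRing p K) K))) :=
  FiniteDimensional.trans ℚ_[p] K _

theorem finrank_adjoinRoot :
    Module.finrank K (AdjoinRoot (P.map (algebraMap (intRing p K) K))) =
      (P.map (algebraMap (intRing p K) K)).natDegree := by
  rw [(AdjoinRoot.powerBasis hirr.out.ne_zero).finrank, AdjoinRoot.powerBasis_dim]

/-- The root of `P` in `K[X]/(P)` is integral. -/
theorem root_mem_intRing (hP : P.Monic) :
    AdjoinRoot.root (P.map (algebraMap (intRing p K) K)) ∈
      intRing p (AdjoinRoot (P.map (algebraMap (intRing p K) K))) := by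
  have hint : IsIntegral (intRing p K) (AdjoinRoot.root (P.map (algebraMap (intRing p K) K))) := by
    refine ⟨P, hP, ?_⟩
    have h := AdjoinRoot.eval₂_root (P.map (algebraMap (intRing p K) K))
    rw [eval₂_map] at h
    rw [← h]
    congr 1
  obtain ⟨y, hy⟩ := (IsIntegralClosure.isIntegral_iff
    (A := intRing p (AdjoinRoot (P.map (algebraMap (intRing p K) K))))).mp hint
  rw [← hy]
  exact y.2

theorem aeval_root (hP : P.Monic) :
    aeval (⟨AdjoinRoot.root (P.map (algebraMap (intRing p K) K)), root_mem_intRing p K hP⟩ :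
      intRing p (AdjoinRoot (P.map (algebraMap (intRing p K) K)))) P = 0 := by
  apply Subtype.ext
  have h := AdjoinRoot.eval₂_root (P.map (algebraMap (intRing p K) K))
  rw [eval₂_map] at h
  have h2 := Polynomial.hom_eval₂ P
    (algebraMap (intRing p K) (intRing p (AdjoinRoot (P.map (algebraMap (intRing p K) K)))))
    ((intRing p (AdjoinRoot (P.map (algebraMap (intRing p K) K)))).val.toRingHom)
    ⟨AdjoinRoot.root (P.map (algebraMap (intRing p K) K)), root_mem_intRing p K hP⟩
  rw [aeval_def]
  refine h2.trans ?_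
  rw [ZeroMemClass.coe_zero, ← h]
  rfl

/-- **Structure of `L = K[X]/(P)`, `P` monic Eisenstein of degree `n`**: the root `θ` is a
uniformizer, `e(L/K) = n = [L : K]`, `f(L/K) = 1`, and `𝒪_L = 𝒪_K[θ]`. -/
theorem eisensteinField_structure (hP : P.Monic)
    (hE : P.IsEisensteinAt (IsLocalRing.maximalIdeal (intRing p K))) :
    Irreducible (⟨AdjoinRoot.root (P.map (algebraMap (intRing p K) K)), root_mem_intRing p K hP⟩ :
      intRing p (AdjoinRoot (P.map (algebraMap (intRing p K) K)))) ∧
    ramIdx p K (AdjoinRoot (P.map (algebraMap (intRing p K) K))) = P.natDegree ∧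
    resDeg p K (AdjoinRoot (P.map (algebraMap (intRing p K) K))) = 1 ∧
    Module.finrank K (AdjoinRoot (P.map (algebraMap (intRing p K) K))) = P.natDegree ∧
    Algebra.adjoin (intRing p K)
      {(⟨AdjoinRoot.root (P.map (algebraMap (intRing p K) K)), root_mem_intRing p K hP⟩ :
        intRing p (AdjoinRoot (P.map (algebraMap (intRing p K) K))))} = ⊤ := by
  have hdeg : Module.finrank K (AdjoinRoot (P.map (algebraMap (intRing p K) K))) ≤ P.natDegree := by
    rw [finrank_adjoinRoot, hP.natDegree_map]
  obtain ⟨h1, h2, h3, h4⟩ := EisModel8.eisenstein_root p K _ hP hE (aeval_root p K hP) hdeg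
  exact ⟨h1, h2, h3, h4, EisModel8.adjoin_eq_top_of_resDeg_eq_one p K _ h3 h1⟩

end Field

/-- **Existence of the totally ramified extension defined by an Eisenstein polynomial**, in the
model: for `P ∈ 𝒪_K[X]` monic Eisenstein of degree `n ≠ 0` there are a `p`-adic field `L ⊇ K` and a
root `θ ∈ 𝒪_L` of `P` with: `L = K(θ)`, `[L : K] = n = e(L/K)`, `f(L/K) = 1`, `θ` a uniformizer of
`L` and `𝒪_L = 𝒪_K[θ]`. -/
theorem exists_eisenstein_field {P : (intRing p K)[X]} (hP : P.Monic)
    (hE : P.IsEisensteinAt (IsLocalRing.maximalIdeal (intRing p K))) (hdeg : P.natDegree ≠ 0) :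
    ∃ (L : Type) (_ : Field L) (_ : Algebra ℚ_[p] L) (_ : Algebra K L)
      (_ : IsScalarTower ℚ_[p] K L) (_ : FiniteDimensional ℚ_[p] L) (θ : intRing p L),
      aeval θ P = 0 ∧ Irreducible θ ∧ ramIdx p K L = P.natDegree ∧ resDeg p K L = 1 ∧
        Module.finrank K L = P.natDegree ∧
        Algebra.adjoin (intRing p K) {θ} = (⊤ : Subalgebra (intRing p K) (intRing p L)) ∧
        Algebra.adjoin K {(θ : L)} = (⊤ : Subalgebra K L) := by
  have : Fact (Irreducible (P.map (algebraMap (intRing p K) K))) :=
    ⟨irreducible_map_of_eisenstein p K hP hE hdeg⟩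
  obtain ⟨h1, h2, h3, h4, h5⟩ := eisensteinField_structure p K hP hE
  exact ⟨AdjoinRoot (P.map (algebraMap (intRing p K) K)), inferInstance, inferInstance,
    inferInstance, inferInstance, inferInstance, ⟨_, root_mem_intRing p K hP⟩,
    aeval_root p K hP, h1, h2, h3, h4, h5, AdjoinRoot.adjoinRoot_eq_top⟩

end

end Fermat.Agent.ES.T56.EisField8
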