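/-
Programme T (S56, Taylor–Wiles primes), chapter GW (Greenberg–Wiles), helper6: brick 5, part 1.

ABSTRACT dimension count of the long exact sequence of LEVEL cohomology (`PT/PRO/LevelCoh28`) in
degrees `0, 1, 2`.  For a short exact sequence `0 → A --φ--> B --ψ--> C → 0` of representations of a
group `G` with a level basis `𝓑`, `B` discrete and finite-dimensional over the field `k`, and all
`H¹`, `H²` in sight finite-dimensional:

  `h⁰(A) + h⁰(C) + h¹(B) + h²(A) + rank (H²(B) → H²(C)) = h⁰(B) + h¹(A) + h¹(C) + h²(B)`     (`euler_count`)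

i.e. `e(A) - e(B) + e(C) = dim coker (H²(B) → H²(C))` for `e = h⁰ - h¹ + h²` (super-additivity of the
Euler characteristic without any `H³`), with equality `e(B) = e(A) + e(C)` as soon as `H²(ψ)` is onto.

Method: `H⁰` and `H¹` are the kernel and the cokernel of `d⁰ : X → Z¹_lev(X)` (`head_count`), and
`0 → Z¹(A) → Z¹(B) → Z¹(C) --δ--> H²(A) → H²(B) → H²(C)` is exact (`LevelCoh28.ker_delta`,
`ker_mapH2`, `ker_mapH2'` + two cochain-level lemmas).  No `H⁰`-connecting map is needed.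
Imports `Mathlib` and main's `LevelCoh28` only.
-/
import Mathlib
import Fermat.Agent.PT.PRO.LevelCoh28

set_option autoImplicit false

universe u

open CategoryTheory groupCohomology Module

namespace Fermat.Agent.ES.T56.EulerLES6

open Fermat.Agent.PT.PRO.LevelCoh28

variable {k G : Type u} [Field k] [Group G] {𝓑 : LevelBasis G}

/-! ### The head: `H⁰` and `H¹` as kernel and cokernel of `d⁰ : X → Z¹_lev(X)` -/

section Head

variable {X : Rep.{u} k G} (hX : IsDiscrete 𝓑.sets X)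

/-- `d⁰ : X → Z¹_lev(X)`, `x ↦ (g ↦ g x - x)` (level because `X` is discrete). -/
noncomputable def d01Z : X →ₗ[k] ↥(Z1 𝓑 X) :=
  LinearMap.codRestrict (Z1 𝓑 X) (d₀₁ X).hom (fun x => coboundaries₁_le_Z1 hX ⟨x, rfl⟩)

theorem ker_d01Z : LinearMap.ker (d01Z hX) = X.ρ.invariants := by
  rw [d01Z, LinearMap.ker_codRestrict, d₀₁_ker_eq_invariants]

theorem range_d01Z :
    LinearMap.range (d01Z hX) = (coboundaries₁ X).comap (Z1 𝓑 X).subtype := by
  rw [d01Z, LinearMap.range_codRestrict]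
  rfl

include hX in
/-- `Z¹_lev(X)` is finite-dimensional as soon as `X` and `H¹_lev(X)` are. -/
theorem finiteDimensional_Z1 [FiniteDimensional k X] [FiniteDimensional k (H1 𝓑 X)] :
    FiniteDimensional k ↥(Z1 𝓑 X) := by
  have : Module.Finite k ↥((coboundaries₁ X).comap (Z1 𝓑 X).subtype) := by
    rw [← range_d01Z hX]
    infer_instance
  exact Module.Finite.of_submodule_quotient ((coboundaries₁ X).comap (Z1 𝓑 X).subtype)

include hX in
/-- `h⁰(X) + dim Z¹_lev(X) = dim X + h¹(X)`. -/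
theorem head_count [FiniteDimensional k X] [FiniteDimensional k (H1 𝓑 X)] :
    finrank k ↥(X.ρ.invariants) + finrank k ↥(Z1 𝓑 X) = finrank k X + finrank k (H1 𝓑 X) := by
  have := finiteDimensional_Z1 (𝓑 := 𝓑) hX
  have h1 := LinearMap.finrank_range_add_finrank_ker (d01Z (𝓑 := 𝓑) hX)
  rw [ker_d01Z, range_d01Z] at h1
  have h2 : finrank k (H1 𝓑 X) +
      finrank k ↥((coboundaries₁ X).comap (Z1 𝓑 X).subtype) = finrank k ↥(Z1 𝓑 X) :=
    Submodule.finrank_quotient_add_finrank ((coboundaries₁ X).comap (Z1 𝓑 X).subtype)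
  omega

end Head

/-! ### Discreteness passes to sub- and quotient representations -/

section Discrete

variable {A B : Rep.{u} k G} (φ : A →ₗ[k] B) (hφ : ∀ g a, φ (A.ρ g a) = B.ρ g (φ a))

include hφ in
theorem isDiscrete_of_injective (hinj : Function.Injective φ) (hB : IsDiscrete 𝓑.sets B) :
    IsDiscrete 𝓑.sets A := by
  intro a
  obtain ⟨U, hU, h⟩ := hB (φ a)
  exact ⟨U, hU, fun s hs => hinj (by rw [hφ, h s hs])⟩

include hφ in
theorem isDiscrete_of_surjective (hsurj : Function.Surjective φ) (hA : IsDiscrete 𝓑.sets A) :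
    IsDiscrete 𝓑.sets B := by
  intro b
  obtain ⟨a, rfl⟩ := hsurj b
  obtain ⟨U, hU, h⟩ := hA a
  exact ⟨U, hU, fun s hs => by rw [← hφ, h s hs]⟩

end Discrete

/-! ### Exactness of `0 → Z¹(A) → Z¹(B) → Z¹(C) → H²(A)` -/

section Exact

variable {A B C : Rep.{u} k G} (φ : A →ₗ[k] B) (hφ : ∀ g a, φ (A.ρ g a) = B.ρ g (φ a))
  (ψ : B →ₗ[k] C) (hψ : ∀ g b, ψ (B.ρ g b) = C.ρ g (ψ b))
  (hinj : Function.Injective φ) (hsurj : Function.Surjective ψ)
  (hex : ∀ b, ψ b = 0 ↔ ∃ a, φ a = b) (hB : IsDiscrete 𝓑.sets B)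

include hinj in
theorem mapZ1_injective : Function.Injective (mapZ1 (𝓑 := 𝓑) φ hφ) := by
  intro c c' h
  apply Subtype.ext
  funext g
  apply hinj
  have := congrFun (congrArg Subtype.val h) g
  simpa [mapZ1] using this

include hinj hex in
/-- Exactness at `Z¹(B)`. -/
theorem ker_mapZ1 :
    LinearMap.ker (mapZ1 (𝓑 := 𝓑) ψ hψ) = LinearMap.range (mapZ1 (𝓑 := 𝓑) φ hφ) := by
  ext b
  rw [LinearMap.mem_ker, LinearMap.mem_range]
  constructor
  · intro h
    have hψb : ∀ g, ψ ((b : G → B) g) = 0 := by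
      intro g
      have := congrFun (congrArg Subtype.val h) g
      simpa [mapZ1] using this
    set a : G → A := pre φ ∘ (b : G → B) with ha
    have hφa : φ ∘ a = (b : G → B) := by
      funext g
      exact φ_pre φ ψ hex (hψb g)
    have halev : IsLevel₁ 𝓑.sets a := b.2.2.comp _
    have hacoc : (d₁₂ A).hom a = 0 := by
      funext x
      apply hinj
      have := congrFun (d₁₂_comp φ hφ a) x
      rw [hφa, d₁₂_eq_zero_of_mem_Z1 𝓑 B b.2] at this
      simp only [Function.comp_apply] at this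
      rw [← this]
      exact (map_zero φ).symm
    exact ⟨⟨a, mem_Z1_of 𝓑 A hacoc halev⟩, Subtype.ext hφa⟩
  · rintro ⟨a, rfl⟩
    apply Subtype.ext
    funext g
    simp [mapZ1, ψ_φ φ ψ hex]

include hφ hψ hinj hex hB in
/-- Exactness at `Z¹(C)`: a level cocycle of `C` is killed by `δ` iff it lifts to a level cocycle
of `B`. -/
theorem ker_deltaZ :
    LinearMap.ker (deltaZ φ hφ ψ hψ hinj hsurj hex hB) =
      LinearMap.range (mapZ1 (𝓑 := 𝓑) ψ hψ) := by
  ext c
  rw [LinearMap.mem_ker, LinearMap.mem_range]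
  constructor
  · intro h
    have h1 : H1mk 𝓑 C c ∈ LinearMap.ker (delta φ hφ ψ hψ hinj hsurj hex hB) := by
      rw [LinearMap.mem_ker, delta_mk]
      exact h
    rw [ker_delta φ hφ ψ hψ hinj hsurj hex hB] at h1
    obtain ⟨y, hy⟩ := h1
    obtain ⟨b, rfl⟩ := H1mk_surjective 𝓑 B y
    rw [mapH1_mk, ← sub_eq_zero, ← map_sub, H1mk_eq_zero_iff] at hy
    obtain ⟨z, hz⟩ := hy
    -- `ψ ∘ b - c = d⁰ z`; lift `z` to `B` and correct `b`
    obtain ⟨y0, hy0⟩ := hsurj z
    have hd : (d₀₁ B).hom y0 ∈ Z1 𝓑 B := coboundaries₁_le_Z1 hB ⟨y0, rfl⟩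
    refine ⟨b - ⟨(d₀₁ B).hom y0, hd⟩, ?_⟩
    apply Subtype.ext
    funext g
    have h2 := congrFun hz g
    have h3 := congrFun (d₀₁_comp ψ hψ y0) g
    rw [hy0] at h3
    simp only [Function.comp_apply] at h3
    simp only [mapZ1, LinearMap.coe_mk, AddHom.coe_mk, AddSubgroupClass.coe_sub, Pi.sub_apply,
      Function.comp_apply] at h2 ⊢
    rw [map_sub, ← h3, h2]
    abel
  · rintro ⟨b, rfl⟩
    have hα : φ ∘ ((0 : ↥(Z2 𝓑 A)) : G × G → A) = (d₁₂ B).hom (b : G → B) := by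
      rw [d₁₂_eq_zero_of_mem_Z1 𝓑 B b.2]
      funext y
      exact map_zero φ
    rw [deltaZ_eq φ hφ ψ hψ hinj hsurj hex hB (mapZ1 ψ hψ b) b.2.2 rfl 0 hα, map_zero]

/-- `δ` on cocycles and on classes have the same range. -/
theorem range_deltaZ :
    LinearMap.range (deltaZ φ hφ ψ hψ hinj hsurj hex hB) =
      LinearMap.range (delta φ hφ ψ hψ hinj hsurj hex hB) := by
  ext x
  constructor
  · rintro ⟨c, rfl⟩
    exact ⟨H1mk 𝓑 C c, delta_mk φ hφ ψ hψ hinj hsurj hex hB c⟩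
  · rintro ⟨y, rfl⟩
    obtain ⟨c, rfl⟩ := H1mk_surjective 𝓑 C y
    exact ⟨c, (delta_mk φ hφ ψ hψ hinj hsurj hex hB c).symm⟩

end Exact

/-! ### The count -/

section Count

variable {A B C : Rep.{u} k G} (φ : A →ₗ[k] B) (hφ : ∀ g a, φ (A.ρ g a) = B.ρ g (φ a))
  (ψ : B →ₗ[k] C) (hψ : ∀ g b, ψ (B.ρ g b) = C.ρ g (ψ b))
  (hinj : Function.Injective φ) (hsurj : Function.Surjective ψ)
  (hex : ∀ b, ψ b = 0 ↔ ∃ a, φ a = b) (hB : IsDiscrete 𝓑.sets B)

include hinj hsurj hex in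
/-- `dim B = dim A + dim C`. -/
theorem finrank_middle [FiniteDimensional k B] : finrank k B = finrank k A + finrank k C := by
  have h1 := LinearMap.finrank_range_add_finrank_ker ψ
  have h2 : LinearMap.range ψ = ⊤ := LinearMap.range_eq_top.2 hsurj
  have h3 : LinearMap.ker ψ = LinearMap.range φ := by
    ext b
    rw [LinearMap.mem_ker, LinearMap.mem_range]
    exact hex b
  rw [h2, h3, finrank_top, LinearMap.finrank_range_of_inj hinj] at h1
  omega

include hφ hψ hinj hsurj hex hB in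
/-- **The Euler count of the long exact sequence in degrees `≤ 2`.** -/
theorem euler_count [FiniteDimensional k B]
    [FiniteDimensional k (H1 𝓑 A)] [FiniteDimensional k (H1 𝓑 B)] [FiniteDimensional k (H1 𝓑 C)]
    [FiniteDimensional k (H2 𝓑 A)] [FiniteDimensional k (H2 𝓑 B)] :
    finrank k ↥(A.ρ.invariants) + finrank k ↥(C.ρ.invariants) + finrank k (H1 𝓑 B) +
        finrank k (H2 𝓑 A) + finrank k ↥(LinearMap.range (mapH2 (𝓑 := 𝓑) ψ hψ)) =
      finrank k ↥(B.ρ.invariants) + finrank k (H1 𝓑 A) + finrank k (H1 𝓑 C) +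
        finrank k (H2 𝓑 B) := by
  have : FiniteDimensional k A := FiniteDimensional.of_injective φ hinj
  have : FiniteDimensional k C := FiniteDimensional.of_surjective ψ hsurj
  have hA : IsDiscrete 𝓑.sets A := isDiscrete_of_injective φ hφ hinj hB
  have hC : IsDiscrete 𝓑.sets C := isDiscrete_of_surjective ψ hψ hsurj hB
  have := finiteDimensional_Z1 (𝓑 := 𝓑) hA
  have := finiteDimensional_Z1 (𝓑 := 𝓑) hB
  have := finiteDimensional_Z1 (𝓑 := 𝓑) hC
  have eA := head_count (𝓑 := 𝓑) hA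
  have eB := head_count (𝓑 := 𝓑) hB
  have eC := head_count (𝓑 := 𝓑) hC
  have ed := finrank_middle φ ψ hinj hsurj hex
  -- the five rank–nullity identities
  have r0 := LinearMap.finrank_range_of_inj (mapZ1_injective (𝓑 := 𝓑) φ hφ hinj)
  have r1 := LinearMap.finrank_range_add_finrank_ker (mapZ1 (𝓑 := 𝓑) ψ hψ)
  rw [ker_mapZ1 φ hφ ψ hψ hinj hex] at r1
  have r2 := LinearMap.finrank_range_add_finrank_ker (deltaZ φ hφ ψ hψ hinj hsurj hex hB)
  rw [ker_deltaZ φ hφ ψ hψ hinj hsurj hex hB, range_deltaZ φ hφ ψ hψ hinj hsurj hex hB,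
    ← ker_mapH2 φ hφ ψ hψ hinj hsurj hex hB] at r2
  have r3 := LinearMap.finrank_range_add_finrank_ker (mapH2 (𝓑 := 𝓑) φ hφ)
  have r4 := LinearMap.finrank_range_add_finrank_ker (mapH2 (𝓑 := 𝓑) ψ hψ)
  rw [ker_mapH2' φ hφ ψ hψ hinj hsurj hex hB] at r4
  omega

/-- The rank of `H²(ψ)` is at most `h²(C)`. -/
theorem finrank_range_mapH2_le [FiniteDimensional k (H2 𝓑 C)] :
    finrank k ↥(LinearMap.range (mapH2 (𝓑 := 𝓑) ψ hψ)) ≤ finrank k (H2 𝓑 C) :=
  Submodule.finrank_le _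

/-- ... with equality when `H²(ψ)` is onto. -/
theorem finrank_range_mapH2_of_surjective
    (h : Function.Surjective (mapH2 (𝓑 := 𝓑) ψ hψ)) :
    finrank k ↥(LinearMap.range (mapH2 (𝓑 := 𝓑) ψ hψ)) = finrank k (H2 𝓑 C) := by
  rw [LinearMap.range_eq_top.2 h, finrank_top]

/-- Conversely, if the rank of `H²(ψ)` is `h²(C)` then `H²(ψ)` is onto. -/
theorem mapH2_surjective_of_finrank_range [FiniteDimensional k (H2 𝓑 C)]
    (h : finrank k ↥(LinearMap.range (mapH2 (𝓑 := 𝓑) ψ hψ)) = finrank k (H2 𝓑 C)) :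
    Function.Surjective (mapH2 (𝓑 := 𝓑) ψ hψ) :=
  LinearMap.range_eq_top.1 (Submodule.eq_top_of_finrank_eq h)

end Count

end Fermat.Agent.ES.T56.EulerLES6
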