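/-
Programme T (S56, Taylor–Wiles primes), chapter GW (Greenberg–Wiles), helper6: brick 5, part 2.

`eulerAdditive_of` : the global Euler characteristic `e = h⁰ - h¹ + h²` of `G_S` is ADDITIVE on short
exact sequences (`GWIface21.EulerAdditive Sg`), from
  * `NineTermCount Sg Y` for all finite-dimensional smooth `Y` unramified outside `Sg`
    (`e(Y) + e(Y*) = Σ_q e_q(Y)`),
  * `LocH2RightExact q` for `q ∈ Sg` (local `H²` is right exact), and
  * finiteness of all the cohomology groups in sight (`GWProps21.FinAll`).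
No `H³` is used: by `EulerLES6.euler_count` (long exact sequence of level cohomology in degrees `≤ 2`)
`e(X') + e(X'') - e(X) = d ≥ 0`, likewise `d* ≥ 0` for the dual sequence `0 → X''* → X* → X'* → 0`
(`shortExact_dual`), the local defects vanish by `LocH2RightExact`, and the three `NineTermCount`s
give `d + d* = 0`.

The numbers of `GWIface21` (finranks of the Prelude's `continuousH1S`, `continuousH2S`, `continuousH1`,
`continuousH2`) are the finranks of `LevelCoh28.H1/H2` for the bases `levelBasisS Sg` and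
`levelBasisOf (primeLocalToGlobal q)` (`PT/BR/Interface29`); the only naturality needed is
`h2Equiv_continuousH2Map` (the Prelude's `continuousH2Map` along `id` is `LevelCoh28.mapH2`).
-/
import Mathlib
import Fermat.Agent.ES.T56.GWIface21
import Fermat.Agent.ES.T56.GWProps21
import Fermat.Agent.ES.T56.EulerLES6
import Fermat.Agent.PT.BR.Interface29
import Fermat.Agent.PT.BR.DualTwist7

set_option autoImplicit false

open CategoryTheory Module groupCohomology ExtCitation

namespace Fermat.Agent.ES.T56.EulerSuperAdd6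

open Fermat.Agent.ES.T56.GWIface21 Fermat.Agent.ES.T56.GWProps21 Fermat.Agent.ES.T56.EulerLES6
open Fermat.Agent.PT.PRO Fermat.Agent.PT.BR.Interface29

variable {p : ℕ} [Fact p.Prime]

/-! ### Sub- and quotient representations inherit the hypotheses -/

section Inherit

variable {X' X X'' : Rep.{0} (ZMod p) GQ} {φ : X' →ₗ[ZMod p] X} {ψ : X →ₗ[ZMod p] X''}

theorem hex_of (h : ShortExact X' X X'' φ ψ) : ∀ b, ψ b = 0 ↔ ∃ a, φ a = b := by
  intro b
  rw [← LinearMap.mem_ker, ← h.exact, LinearMap.mem_range]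

theorem isSmooth_sub (h : ShortExact X' X X'' φ ψ) (hsm : IsSmooth p X) : IsSmooth p X' := by
  intro m
  obtain ⟨F, hF, hFm⟩ := hsm (φ m)
  exact ⟨F, hF, fun s hs => h.inj (by rw [h.φ_comm, hFm s hs])⟩

theorem isSmooth_quot (h : ShortExact X' X X'' φ ψ) (hsm : IsSmooth p X) : IsSmooth p X'' := by
  intro m
  obtain ⟨x, rfl⟩ := h.surj m
  obtain ⟨F, hF, hFm⟩ := hsm x
  exact ⟨F, hF, fun s hs => by rw [← h.ψ_comm, hFm s hs]⟩

theorem isUnramOutside_sub {Sg : Finset Nat.Primes} (h : ShortExact X' X X'' φ ψ)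
    (hur : IsUnramOutside p Sg X) : IsUnramOutside p Sg X' := by
  intro q hq A hA g hg
  apply LinearMap.ext
  intro m
  apply h.inj
  rw [h.φ_comm, hur q hq A hA g hg]
  rfl

theorem isUnramOutside_quot {Sg : Finset Nat.Primes} (h : ShortExact X' X X'' φ ψ)
    (hur : IsUnramOutside p Sg X) : IsUnramOutside p Sg X'' := by
  intro q hq A hA g hg
  apply LinearMap.ext
  intro m
  obtain ⟨x, rfl⟩ := h.surj m
  rw [← h.ψ_comm, hur q hq A hA g hg]
  rfl

end Inherit

/-! ### The dual sequence -/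

section Dual

variable {G : Type} [Group G] (χ : G →* (ZMod p)ˣ) {X' X X'' : Rep.{0} (ZMod p) G}
  {φ : X' →ₗ[ZMod p] X} {ψ : X →ₗ[ZMod p] X''}

/-- The transpose of an equivariant map, as a map between the twisted duals. -/
noncomputable def dualMapT (ψ : X →ₗ[ZMod p] X'') :
    (X''.dualTwist χ) →ₗ[ZMod p] (X.dualTwist χ) :=
  (ψ.dualMap : Module.Dual (ZMod p) X'' →ₗ[ZMod p] Module.Dual (ZMod p) X)

theorem dualMapT_apply (ψ : X →ₗ[ZMod p] X'') (f : Module.Dual (ZMod p) X'') (x : X) :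
    (dualMapT χ ψ f : Module.Dual (ZMod p) X) x = f (ψ x) := rfl

theorem dualMapT_comm (ψ : X →ₗ[ZMod p] X'') (hψ : ∀ g x, ψ (X.ρ g x) = X''.ρ g (ψ x)) (g : G)
    (f : X''.dualTwist χ) :
    dualMapT χ ψ ((X''.dualTwist χ).ρ g f) = (X.dualTwist χ).ρ g (dualMapT χ ψ f) := by
  apply LinearMap.ext
  intro x
  rw [Rep.dualTwist_ρ_apply, Rep.dualTwist_ρ_apply]
  change (χ g : ZMod p) • (f : Module.Dual (ZMod p) X'') (X''.ρ g⁻¹ (ψ x)) =
    (χ g : ZMod p) • (f : Module.Dual (ZMod p) X'') (ψ (X.ρ g⁻¹ x))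
  rw [hψ]

/-- **The dual of a short exact sequence is short exact.** -/
theorem shortExact_dual (h : ShortExact X' X X'' φ ψ) :
    ShortExact (X''.dualTwist χ) (X.dualTwist χ) (X'.dualTwist χ) (dualMapT χ ψ) (dualMapT χ φ) where
  φ_comm := dualMapT_comm χ ψ h.ψ_comm
  ψ_comm := dualMapT_comm χ φ h.φ_comm
  inj := LinearMap.dualMap_injective_of_surjective h.surj
  surj := LinearMap.dualMap_surjective_of_injective h.inj
  exact := by
    change LinearMap.range ψ.dualMap = LinearMap.ker φ.dualMap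
    rw [LinearMap.range_dualMap_eq_dualAnnihilator_ker, LinearMap.ker_dualMap_eq_dualAnnihilator_range,
      h.exact]

end Dual

/-! ### Discreteness -/

section Discrete

variable (X : Rep.{0} (ZMod p) GQ)

theorem isDiscrete_global [FiniteDimensional (ZMod p) X] (Sg : Finset Nat.Primes)
    (hsm : IsSmooth p X) (hur : IsUnramOutside p Sg X) :
    LevelCoh28.IsDiscrete (levelBasisS Sg).sets X := by
  obtain ⟨F, hF, hFX⟩ := Fermat.Agent.PT.BR.DualTwist7.exists_splitting_field X Sg hsm hur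
  intro x
  refine ⟨F.fixingSubgroup, ⟨F, hF, rfl⟩, fun s hs => ?_⟩
  rw [(hFX s).1 hs]
  rfl

theorem isDiscrete_local (q : Nat.Primes) (hsm : IsSmooth p X) :
    LevelCoh28.IsDiscrete (levelBasisOf (primeLocalToGlobal q)).sets
      (Rep.res (primeLocalToGlobal q) X) := by
  intro x
  obtain ⟨F, hF, hFx⟩ := hsm x
  exact ⟨F.fixingSubgroup.comap (primeLocalToGlobal q), ⟨F, hF, rfl⟩,
    fun s hs => hFx (primeLocalToGlobal q s) hs⟩

theorem isSmoothLoc_res (q : Nat.Primes) (hsm : IsSmooth p X) :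
    IsSmoothLoc q (Rep.res (primeLocalToGlobal q) X) := by
  intro x
  obtain ⟨F, hF, hFx⟩ := hsm x
  exact ⟨F, hF, fun s hs => hFx (primeLocalToGlobal q s) hs⟩

end Discrete

/-! ### The numbers of `GWIface21` as finranks of level cohomology -/

section Numbers

variable (Sg : Finset Nat.Primes) (X : Rep.{0} (ZMod p) GQ)

theorem h1S_eq : h1S p Sg X = finrank (ZMod p) (LevelCoh28.H1 (levelBasisS Sg) X) :=
  (h1SEquiv Sg X).finrank_eq.symm

theorem h2S_eq : h2S p Sg X = finrank (ZMod p) (LevelCoh28.H2 (levelBasisS Sg) X) :=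
  (h2SEquiv Sg X).finrank_eq

theorem h1loc_eq (q : Nat.Primes) :
    h1loc p q X = finrank (ZMod p)
      (LevelCoh28.H1 (levelBasisOf (primeLocalToGlobal q)) (Rep.res (primeLocalToGlobal q) X)) :=
  (h1Equiv (primeLocalToGlobal q) (Rep.res (primeLocalToGlobal q) X)).finrank_eq.symm

theorem h2loc_eq (q : Nat.Primes) :
    h2loc p q X = finrank (ZMod p)
      (LevelCoh28.H2 (levelBasisOf (primeLocalToGlobal q)) (Rep.res (primeLocalToGlobal q) X)) :=
  (h2Equiv (primeLocalToGlobal q) (Rep.res (primeLocalToGlobal q) X)).finrank_eq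

variable {Sg X}

theorem finH1S_of (hF : FinAll Sg X) :
    FiniteDimensional (ZMod p) (LevelCoh28.H1 (levelBasisS Sg) X) :=
  haveI := hF.h1S
  LinearEquiv.finiteDimensional (h1SEquiv Sg X).symm

theorem finH2S_of (hF : FinAll Sg X) :
    FiniteDimensional (ZMod p) (LevelCoh28.H2 (levelBasisS Sg) X) :=
  haveI := hF.h2S
  LinearEquiv.finiteDimensional (h2SEquiv Sg X)

theorem finH1loc_of (hF : FinAll Sg X) (q : ↥Sg) :
    FiniteDimensional (ZMod p)
      (LevelCoh28.H1 (levelBasisOf (primeLocalToGlobal q.1)) (Rep.res (primeLocalToGlobal q.1) X)) :=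
  haveI := hF.h1loc q
  LinearEquiv.finiteDimensional
    (h1Equiv (primeLocalToGlobal q.1) (Rep.res (primeLocalToGlobal q.1) X)).symm

theorem finH2loc_of (hF : FinAll Sg X) (q : ↥Sg) :
    FiniteDimensional (ZMod p)
      (LevelCoh28.H2 (levelBasisOf (primeLocalToGlobal q.1)) (Rep.res (primeLocalToGlobal q.1) X)) :=
  haveI := hF.h2loc q
  LinearEquiv.finiteDimensional
    (h2Equiv (primeLocalToGlobal q.1) (Rep.res (primeLocalToGlobal q.1) X))

end Numbers

/-! ### The Prelude's `continuousH2Map` along `id` is `LevelCoh28.mapH2` -/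

section H2Map

variable {H : Type} [Group H] (r : H →* GalQ) {Y Y'' : Rep.{0} (ZMod p) H}
  (ψ : Y →ₗ[ZMod p] Y'') (hψ : ∀ g y, ψ (Y.ρ g y) = Y''.ρ g (ψ y))

theorem h2Equiv_continuousH2Map (x : continuousH2 r Y) :
    h2Equiv r Y'' (continuousH2Map (rH := r) (rG := r) (MonoidHom.id H) (fun _ => rfl) ψ hψ x) =
      LevelCoh28.mapH2 (𝓑 := levelBasisOf r) ψ hψ (h2Equiv r Y x) := by
  induction x using Submodule.Quotient.induction_on with
  | _ f => rfl

theorem mapH2_surjective_of (h : Function.Surjective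
    (continuousH2Map (rH := r) (rG := r) (MonoidHom.id H) (fun _ => rfl) ψ hψ)) :
    Function.Surjective (LevelCoh28.mapH2 (𝓑 := levelBasisOf r) ψ hψ) := by
  intro y
  obtain ⟨x, hx⟩ := h ((h2Equiv r Y'').symm y)
  refine ⟨h2Equiv r Y x, ?_⟩
  rw [← h2Equiv_continuousH2Map, hx, LinearEquiv.apply_symm_apply]

end H2Map

/-! ### The three counts -/

section Counts

variable {Sg : Finset Nat.Primes} {X' X X'' : Rep.{0} (ZMod p) GQ} {φ : X' →ₗ[ZMod p] X}
  {ψ : X →ₗ[ZMod p] X''}

/-- Global super-additivity: `e(X') + e(X'') = e(X) + d` with `d = h²(X'') - r ≥ 0`. -/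
theorem global_count [FiniteDimensional (ZMod p) X] (hsm : IsSmooth p X)
    (hur : IsUnramOutside p Sg X) (h : ShortExact X' X X'' φ ψ)
    (hF' : FinAll Sg X') (hF : FinAll Sg X) (hF'' : FinAll Sg X'') :
    ∃ r : ℕ, r ≤ h2S p Sg X'' ∧
      h0 p X' + h0 p X'' + h1S p Sg X + h2S p Sg X' + r =
        h0 p X + h1S p Sg X' + h1S p Sg X'' + h2S p Sg X := by
  have := (finH1S_of hF')
  have := (finH1S_of hF)
  have := (finH1S_of hF'')
  have := (finH2S_of hF')
  have := (finH2S_of hF)
  have := (finH2S_of hF'')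
  have hB := isDiscrete_global X Sg hsm hur
  have key := euler_count (𝓑 := levelBasisS Sg) φ h.φ_comm ψ h.ψ_comm h.inj h.surj (hex_of h) hB
  refine ⟨finrank (ZMod p) ↥(LinearMap.range (LevelCoh28.mapH2 (𝓑 := levelBasisS Sg) ψ h.ψ_comm)),
    ?_, ?_⟩
  · rw [h2S_eq]
    exact finrank_range_mapH2_le (𝓑 := levelBasisS Sg) ψ h.ψ_comm
  · rw [h1S_eq, h1S_eq, h1S_eq, h2S_eq, h2S_eq]
    exact key

/-- Local additivity at `q` (using `LocH2RightExact q`). -/
theorem local_count [FiniteDimensional (ZMod p) X] (hsm : IsSmooth p X)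
    (h : ShortExact X' X X'' φ ψ) (q : ↥Sg) (hL : LocH2RightExact (p := p) q.1)
    (hF' : FinAll Sg X') (hF : FinAll Sg X) (hF'' : FinAll Sg X'') :
    h0loc p q.1 X' + h0loc p q.1 X'' + h1loc p q.1 X + h2loc p q.1 X' + h2loc p q.1 X'' =
      h0loc p q.1 X + h1loc p q.1 X' + h1loc p q.1 X'' + h2loc p q.1 X := by
  have := (finH1loc_of hF') q
  have := (finH1loc_of hF) q
  have := (finH1loc_of hF'') q
  have := (finH2loc_of hF') q
  have := (finH2loc_of hF) q
  have hB := isDiscrete_local X q.1 hsm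
  have hfd : FiniteDimensional (ZMod p) (Rep.res (primeLocalToGlobal q.1) X) :=
    inferInstanceAs (FiniteDimensional (ZMod p) X)
  have hψ' : ∀ (g : primeLocalGaloisGroup q.1) (y : Rep.res (primeLocalToGlobal q.1) X),
      ψ ((Rep.res (primeLocalToGlobal q.1) X).ρ g y) =
        (Rep.res (primeLocalToGlobal q.1) X'').ρ g (ψ y) :=
    fun g y => h.ψ_comm (primeLocalToGlobal q.1 g) y
  have hφ' : ∀ (g : primeLocalGaloisGroup q.1) (y : Rep.res (primeLocalToGlobal q.1) X'),
      φ ((Rep.res (primeLocalToGlobal q.1) X').ρ g y) =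
        (Rep.res (primeLocalToGlobal q.1) X).ρ g (φ y) :=
    fun g y => h.φ_comm (primeLocalToGlobal q.1 g) y
  have hs := hL (Rep.res (primeLocalToGlobal q.1) X) (Rep.res (primeLocalToGlobal q.1) X'') ψ hψ'
    hfd (isSmoothLoc_res X q.1 hsm) h.surj
  have hs' := mapH2_surjective_of (Y := Rep.res (primeLocalToGlobal q.1) X)
    (Y'' := Rep.res (primeLocalToGlobal q.1) X'') (primeLocalToGlobal q.1) ψ hψ' hs
  have key := euler_count (𝓑 := levelBasisOf (primeLocalToGlobal q.1))
    (A := Rep.res (primeLocalToGlobal q.1) X') (B := Rep.res (primeLocalToGlobal q.1) X)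
    (C := Rep.res (primeLocalToGlobal q.1) X'') φ hφ' ψ hψ' h.inj h.surj (hex_of h) hB
  rw [finrank_range_mapH2_of_surjective (𝓑 := levelBasisOf (primeLocalToGlobal q.1))
    (B := Rep.res (primeLocalToGlobal q.1) X) (C := Rep.res (primeLocalToGlobal q.1) X'')
    ψ hψ' hs'] at key
  rw [h1loc_eq, h1loc_eq, h1loc_eq, h2loc_eq, h2loc_eq, h2loc_eq]
  exact key

end Counts

/-! ### The theorem -/

/-- **Brick 5 (`eulerAdditive_of`)**: `NineTermCount` (all `Y`) + `LocH2RightExact` (on `Sg`) +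
finiteness ⇒ the global Euler characteristic is additive on short exact sequences. -/
theorem eulerAdditive_of (Sg : Finset Nat.Primes) (hpS : pPrime p ∈ Sg)
    (hF : ∀ Y : Rep.{0} (ZMod p) GQ, FiniteDimensional (ZMod p) Y → IsSmooth p Y →
      IsUnramOutside p Sg Y → FinAll Sg Y)
    (hN : ∀ Y : Rep.{0} (ZMod p) GQ, FiniteDimensional (ZMod p) Y → IsSmooth p Y →
      IsUnramOutside p Sg Y → NineTermCount Sg Y)
    (hL : ∀ q : ↥Sg, LocH2RightExact (p := p) q.1) : EulerAdditive (p := p) Sg := by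
  intro X' X X'' φ ψ hfd hsm hur h
  -- the three representations and their duals satisfy the standing hypotheses
  have hfd' : FiniteDimensional (ZMod p) X' := FiniteDimensional.of_injective φ h.inj
  have hfd'' : FiniteDimensional (ZMod p) X'' := FiniteDimensional.of_surjective ψ h.surj
  have hsm' := isSmooth_sub h hsm
  have hsm'' := isSmooth_quot h hsm
  have hur' := isUnramOutside_sub h hur
  have hur'' := isUnramOutside_quot h hur
  have hfdD : FiniteDimensional (ZMod p) (dualT p X) := inferInstance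
  have hfdD' : FiniteDimensional (ZMod p) (dualT p X') := inferInstance
  have hfdD'' : FiniteDimensional (ZMod p) (dualT p X'') := inferInstance
  have hsmD : IsSmooth p (dualT p X) := Fermat.Agent.PT.BR.DualTwist7.smooth_dualTwist X hsm
  have hsmD' : IsSmooth p (dualT p X') := Fermat.Agent.PT.BR.DualTwist7.smooth_dualTwist X' hsm'
  have hsmD'' : IsSmooth p (dualT p X'') :=
    Fermat.Agent.PT.BR.DualTwist7.smooth_dualTwist X'' hsm''
  have hurD : IsUnramOutside p Sg (dualT p X) :=
    Fermat.Agent.PT.BR.DualTwist7.unram_dualTwist X hpS hur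
  have hurD' : IsUnramOutside p Sg (dualT p X') :=
    Fermat.Agent.PT.BR.DualTwist7.unram_dualTwist X' hpS hur'
  have hurD'' : IsUnramOutside p Sg (dualT p X'') :=
    Fermat.Agent.PT.BR.DualTwist7.unram_dualTwist X'' hpS hur''
  -- global count, dual global count, local counts
  obtain ⟨r, hr, hG⟩ := global_count hsm hur h (hF X' hfd' hsm' hur') (hF X hfd hsm hur)
    (hF X'' hfd'' hsm'' hur'')
  obtain ⟨rD, hrD, hGD⟩ := global_count (X' := dualT p X'') (X := dualT p X) (X'' := dualT p X')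
    hsmD hurD (shortExact_dual (cycloChar p) h) (hF _ hfdD'' hsmD'' hurD'') (hF _ hfdD hsmD hurD)
    (hF _ hfdD' hsmD' hurD')
  have hloc : ∀ q : ↥Sg,
      h0loc p q.1 X' + h0loc p q.1 X'' + h1loc p q.1 X + h2loc p q.1 X' + h2loc p q.1 X'' =
        h0loc p q.1 X + h1loc p q.1 X' + h1loc p q.1 X'' + h2loc p q.1 X := fun q =>
    local_count hsm h q (hL q) (hF X' hfd' hsm' hur') (hF X hfd hsm hur) (hF X'' hfd'' hsm'' hur'')
  have hlocsum := Finset.sum_congr (s₁ := (Finset.univ : Finset ↥Sg)) rfl fun q _ => hloc q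
  simp only [Finset.sum_add_distrib] at hlocsum
  -- the three nine-term counts
  have n := hN X hfd hsm hur
  have n' := hN X' hfd' hsm' hur'
  have n'' := hN X'' hfd'' hsm'' hur''
  unfold NineTermCount at n n' n''
  simp only [Finset.sum_add_distrib] at n n' n''
  omega

end Fermat.Agent.ES.T56.EulerSuperAdd6
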