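/-
Programme T (S56), chapter FLAT, leg FLAT-C (helper20): two elementary counting lemmas
(Mathlib only).

* `finite_and_card_le` : `f : M → X` on an additive group with `f m ∈ S`, fibres contained in
  translates of `K` (`f m = f m' → m - m' ∈ K`), `S`, `K` finite ⇒ `M` finite, `#M ≤ #K · #S`;
* `set_finite_and_card_le` : the same for a subset `T ⊆ M`;
* `card_eq_card_ker_mul_card_range` : `#M = #ker φ · #range φ` for a linear map.
-/
import Mathlib

set_option autoImplicit false
set_option linter.style.haveILetI false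

namespace Fermat.Agent.ES.T56.FlatCard20

open Classical in
/-- **Dévissage count.** -/
theorem finite_and_card_le {M X : Type*} [AddGroup M] (f : M → X) (S : Set X) (K : Set M)
    (hS : S.Finite) (hK : K.Finite) (hf : ∀ m, f m ∈ S)
    (hker : ∀ m m', f m = f m' → m - m' ∈ K) :
    Finite M ∧ Nat.card M ≤ Nat.card ↥K * Nat.card ↥S := by
  haveI : Finite ↥S := hS
  haveI : Finite ↥K := hK
  -- a section of `f`
  let sec : X → M := fun x => if h : ∃ m, f m = x then h.choose else 0
  have hsec : ∀ m, f (sec (f m)) = f m := by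
    intro m
    have h : ∃ m', f m' = f m := ⟨m, rfl⟩
    simp only [sec, dif_pos h]
    exact h.choose_spec
  let g : M → ↥K × ↥S := fun m => (⟨m - sec (f m), hker _ _ (hsec m).symm⟩, ⟨f m, hf m⟩)
  have hg : Function.Injective g := by
    intro m m' h
    have h1 : f m = f m' := congrArg (fun z : ↥K × ↥S => (z.2 : X)) h
    have h2 : m - sec (f m) = m' - sec (f m') := congrArg (fun z : ↥K × ↥S => (z.1 : M)) h
    rw [h1] at h2
    exact sub_left_injective h2
  haveI : Finite M := Finite.of_injective g hg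
  refine ⟨inferInstance, ?_⟩
  calc Nat.card M ≤ Nat.card (↥K × ↥S) := Nat.card_le_card_of_injective g hg
    _ = Nat.card ↥K * Nat.card ↥S := Nat.card_prod _ _

open Classical in
/-- **Dévissage count**, for a subset `T` of an additive group. -/
theorem set_finite_and_card_le {M X : Type*} [AddGroup M] (T : Set M) (f : M → X) (S : Set X)
    (K : Set M) (hS : S.Finite) (hK : K.Finite) (hf : ∀ m ∈ T, f m ∈ S)
    (hker : ∀ m ∈ T, ∀ m' ∈ T, f m = f m' → m - m' ∈ K) :
    T.Finite ∧ Nat.card ↥T ≤ Nat.card ↥K * Nat.card ↥S := by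
  haveI : Finite ↥S := hS
  haveI : Finite ↥K := hK
  -- a section of `f` on `T`
  let sec : X → M := fun x => if h : ∃ m ∈ T, f m = x then h.choose else 0
  have hsec : ∀ m ∈ T, sec (f m) ∈ T ∧ f (sec (f m)) = f m := by
    intro m hm
    have h : ∃ m' ∈ T, f m' = f m := ⟨m, hm, rfl⟩
    simp only [sec, dif_pos h]
    exact h.choose_spec
  let g : ↥T → ↥K × ↥S := fun m =>
    (⟨(m : M) - sec (f m), hker _ m.2 _ (hsec m m.2).1 (hsec m m.2).2.symm⟩, ⟨f m, hf m m.2⟩)
  have hg : Function.Injective g := by
    intro m m' h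
    have h1 : f (m : M) = f (m' : M) := congrArg (fun z : ↥K × ↥S => (z.2 : X)) h
    have h2 : (m : M) - sec (f m) = (m' : M) - sec (f m') :=
      congrArg (fun z : ↥K × ↥S => (z.1 : M)) h
    rw [h1] at h2
    exact Subtype.ext (sub_left_injective h2)
  haveI : Finite ↥T := Finite.of_injective g hg
  refine ⟨Set.toFinite T, ?_⟩
  calc Nat.card ↥T ≤ Nat.card (↥K × ↥S) := Nat.card_le_card_of_injective g hg
    _ = Nat.card ↥K * Nat.card ↥S := Nat.card_prod _ _

/-- `#M = #ker φ · #range φ`. -/
theorem card_eq_card_ker_mul_card_range {R M N : Type*} [Ring R] [AddCommGroup M] [Module R M]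
    [AddCommGroup N] [Module R N] (φ : M →ₗ[R] N) :
    Nat.card M = Nat.card ↥(LinearMap.ker φ) * Nat.card ↥(LinearMap.range φ) := by
  rw [Submodule.card_eq_card_quotient_mul_card (LinearMap.ker φ)]
  congr 1
  exact Nat.card_congr φ.quotKerEquivRange.toEquiv

end Fermat.Agent.ES.T56.FlatCard20
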