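/-
Programme T (S56, Taylor–Wiles primes), FLAT leg, chapter R′ — helper14.

INTERFACE of the chapter "Theorem R′" (T56_FLAT.md §3′), on the model of `PT.LOC.Interface12`
(a `p`-adic field is a type `E` with `[Field E] [Algebra ℚ_[p] E] [FiniteDimensional ℚ_[p] E]`,
`𝒪_E = intRing p E`, valuations through the spectral norm `snorm p E`).

* `aIdeal p E m` : the ideal `𝔞_E^m = {x ∈ 𝒪_E : |x| ≤ p^{-m}}` (`m : ℝ`, `v(p) = 1`).
* `Pm p F m` : Fontaine's property `(P_m)` for `F/ℚ_p` — every `ℤ_p`-algebra homomorphism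
  `𝒪_F → 𝒪_E/𝔞_E^m` (`E` any `p`-adic field) forces a `ℚ_p`-embedding `F ↪ E`.
  (Produced by the Hopf side FLAT-H for `F = ℚ_p(T)`, `T` the points of a finite flat commutative
  group scheme over `ℤ_p` killed by `p`, for every `m > p/(p-1)`.)
* `IsOneModP p E u` : `u ∈ 1 + p·𝒪_E`.
* `RPrimeStatement p` : THEOREM R′ — if `(P_m)` holds for the Galois extension `F/ℚ_p` for all
  `m > p/(p-1)`, `L₀/ℚ_p` is tamely ramified and contains a primitive `p`-th root of unity,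
  `Ls = F·L₀` and `a ∈ L₀ˣ` has a `p`-th root in `Ls`, then `a ∈ (1 + p𝒪_{L₀})·L₀^{×p}`.
  (Consumed by FLAT-C / KUM: the Kummer generators of the classes trivial on `N_flat` lie in
  `X = (1 + p𝒪_{L₀})·L₀^{×p}/L₀^{×p}`.)
-/
import Mathlib
import Fermat.Agent.PT.LOC.Interface12
import Fermat.Agent.PT.LOC.Structure14
import Fermat.Agent.PT.LOC.RootsUnity14

set_option autoImplicit false
set_option linter.unusedSectionVars false

namespace Fermat.Agent.ES.T56.FlatRIface14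

open scoped Fermat.Agent.PT.LOC.Interface12
open Fermat.Agent.PT.LOC.Interface12 Fermat.Agent.PT.LOC.Structure14
  Fermat.Agent.PT.LOC.RootsUnity14

noncomputable section

variable (p : ℕ) [Fact p.Prime]

section Defs

variable (E : Type) [Field E] [Algebra ℚ_[p] E] [FiniteDimensional ℚ_[p] E]

/-- The ideal `𝔞_E^m = {x ∈ 𝒪_E : |x| ≤ p^{-m}}` of the ring of integers (`m` real, `v(p) = 1`). -/
def aIdeal (m : ℝ) : Ideal (intRing p E) where
  carrier := {x | snorm p E (x : E) ≤ (p : ℝ) ^ (-m)}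
  add_mem' := fun {a b} ha hb => by
    have ha' : snorm p E (a : E) ≤ (p : ℝ) ^ (-m) := ha
    have hb' : snorm p E (b : E) ≤ (p : ℝ) ^ (-m) := hb
    show snorm p E ((a + b : intRing p E) : E) ≤ (p : ℝ) ^ (-m)
    rw [Subalgebra.coe_add]
    exact (snorm_add_le_max p E _ _).trans (max_le ha' hb')
  zero_mem' := by
    show snorm p E ((0 : intRing p E) : E) ≤ (p : ℝ) ^ (-m)
    rw [Subalgebra.coe_zero, snorm_zero]
    positivity
  smul_mem' := fun c x hx => by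
    have hx' : snorm p E (x : E) ≤ (p : ℝ) ^ (-m) := hx
    show snorm p E ((c * x : intRing p E) : E) ≤ (p : ℝ) ^ (-m)
    rw [Subalgebra.coe_mul, snorm_mul]
    have hc : snorm p E (c : E) ≤ 1 := (mem_intRing_iff p E _).1 c.2
    calc snorm p E (c : E) * snorm p E (x : E)
        ≤ 1 * (p : ℝ) ^ (-m) := mul_le_mul hc hx' (snorm_nonneg p E _) zero_le_one
      _ = (p : ℝ) ^ (-m) := one_mul _

theorem mem_aIdeal_iff (m : ℝ) (x : intRing p E) :
    x ∈ aIdeal p E m ↔ snorm p E (x : E) ≤ (p : ℝ) ^ (-m) := Iff.rfl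

/-- `u ∈ 1 + p·𝒪_E`. -/
def IsOneModP (u : E) : Prop := ∃ w ∈ intRing p E, u = 1 + (p : E) * w

/-- The ramification index of `E/ℚ_p`, as `ord_E(p)` (normalised valuation of `p`). -/
def ramIdxZ : ℤ := ord p E (Units.mk0 (p : E) (by
  have hp : (p : ℚ_[p]) ≠ 0 := by exact_mod_cast (Fact.out : p.Prime).ne_zero
  have := (algebraMap ℚ_[p] E).injective
  intro h
  apply hp
  apply this
  rw [map_natCast, map_zero]
  exact h))

end Defs

/-- Fontaine's property `(P_m)` for the `p`-adic field `F` (base `ℚ_p`, `v(p) = 1`). -/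
def Pm (F : Type) [Field F] [Algebra ℚ_[p] F] [FiniteDimensional ℚ_[p] F] (m : ℝ) : Prop :=
  ∀ (E : Type) [Field E] [Algebra ℚ_[p] E] [FiniteDimensional ℚ_[p] E],
    Nonempty (intRing p F →ₐ[ℤ_[p]] (intRing p E ⧸ aIdeal p E m)) → Nonempty (F →ₐ[ℚ_[p]] E)

/-- THEOREM R′ (statement). -/
def RPrimeStatement : Prop :=
  ∀ (F : Type) [Field F] [Algebra ℚ_[p] F] [FiniteDimensional ℚ_[p] F] [IsGalois ℚ_[p] F],
    (∀ m : ℝ, (p : ℝ) / ((p : ℝ) - 1) < m → Pm p F m) →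
  ∀ (L₀ : Type) [Field L₀] [Algebra ℚ_[p] L₀] [FiniteDimensional ℚ_[p] L₀],
    ¬ (p : ℤ) ∣ ramIdxZ p L₀ → (∃ ζ : L₀, IsPrimitiveRoot ζ p) →
  ∀ (Ls : Type) [Field Ls] [Algebra ℚ_[p] Ls] [FiniteDimensional ℚ_[p] Ls]
    (iF : F →ₐ[ℚ_[p]] Ls) (i0 : L₀ →ₐ[ℚ_[p]] Ls),
    iF.fieldRange ⊔ i0.fieldRange = ⊤ →
  ∀ (a : L₀ˣ) (y : Ls), y ^ p = i0 (a : L₀) →
    ∃ (u b : L₀ˣ), a = u * b ^ p ∧ IsOneModP p L₀ (u : L₀)

end

end Fermat.Agent.ES.T56.FlatRIface14
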