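/-
Programme T (S56), chapter FLAT (helper20): **the directed class `𝓕` of finite Galois extensions of
`ℚ_p` satisfying Fontaine's `(P_m)` for all `m > p/(p-1)`.**

`Ω` an algebraic closure of `ℚ_[p]` (in practice `PadicAlgCl p`).

* `FlatClass p Ω : Set (IntermediateField ℚ_[p] Ω)` — `F` finite, Galois over `ℚ_[p]`, and
  `FlatRIface14.Pm p ↥F m` for every real `m > p / (p - 1)`.  These are exactly the fields to which
  Theorem R′ (`FlatRIface14.RPrimeStatement`) applies; the fields `ℚ_p(T)`, `T` the points of a finite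
  flat commutative group scheme killed by `p`, belong to it (`PmValues20`).
* `bot_mem`, `sup_mem` : `𝓕` contains `ℚ_p` and is closed under composita (so it is directed; no tensor
  products of Hopf algebras are needed).
* `intMap` : the map induced on rings of integers by an embedding of `p`-adic fields.
-/
import Mathlib
import Fermat.Agent.PT.LOC.Interface12
import Fermat.Agent.PT.LOC.Structure14
import Fermat.Agent.ES.T56.FlatRIface14

set_option autoImplicit false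
set_option linter.unusedSectionVars false

namespace Fermat.Agent.ES.T56.FlatClass20

open scoped Fermat.Agent.PT.LOC.Interface12
open Fermat.Agent.PT.LOC.Interface12 Fermat.Agent.PT.LOC.Structure14
  Fermat.Agent.ES.T56.FlatRIface14

noncomputable section

variable (p : ℕ) [Fact p.Prime]

/-- the map induced on rings of integers by an embedding of `p`-adic fields. -/
def intMap {F F' : Type} [Field F] [Field F'] [Algebra ℚ_[p] F] [Algebra ℚ_[p] F']
    (f : F →ₐ[ℚ_[p]] F') : intRing p F →ₐ[ℤ_[p]] intRing p F' :=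
  (f.restrictScalars ℤ_[p]).mapIntegralClosure

@[simp] theorem coe_intMap {F F' : Type} [Field F] [Field F'] [Algebra ℚ_[p] F] [Algebra ℚ_[p] F']
    (f : F →ₐ[ℚ_[p]] F') (x : intRing p F) : ((intMap p f x : intRing p F') : F') = f (x : F) := rfl

variable (Ω : Type) [Field Ω] [Algebra ℚ_[p] Ω]

/-- **The class `𝓕`.** -/
def FlatClass : Set (IntermediateField ℚ_[p] Ω) :=
  {F | ∃ hfd : FiniteDimensional ℚ_[p] ↥F, IsGalois ℚ_[p] ↥F ∧
    ∀ m : ℝ, (p : ℝ) / ((p : ℝ) - 1) < m → @Pm p _ ↥F _ _ hfd m}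

variable {p Ω}

theorem mem_flatClass_iff {F : IntermediateField ℚ_[p] Ω} [hfd : FiniteDimensional ℚ_[p] ↥F] :
    F ∈ FlatClass p Ω ↔ IsGalois ℚ_[p] ↥F ∧
      ∀ m : ℝ, (p : ℝ) / ((p : ℝ) - 1) < m → Pm p ↥F m :=
  ⟨fun ⟨_, h⟩ => h, fun h => ⟨hfd, h⟩⟩

theorem bot_mem : (⊥ : IntermediateField ℚ_[p] Ω) ∈ FlatClass p Ω := by
  refine ⟨inferInstance, inferInstance, fun m _ E _ _ _ _ => ?_⟩
  exact ⟨(Algebra.ofId ℚ_[p] E).comp (IntermediateField.botEquiv ℚ_[p] Ω).toAlgHom⟩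

variable [IsAlgClosed Ω]

/-- **`𝓕` is closed under composita.** -/
theorem sup_mem {F₁ F₂ : IntermediateField ℚ_[p] Ω} (h₁ : F₁ ∈ FlatClass p Ω)
    (h₂ : F₂ ∈ FlatClass p Ω) : F₁ ⊔ F₂ ∈ FlatClass p Ω := by
  obtain ⟨hfd₁, hgal₁, hpm₁⟩ := h₁
  obtain ⟨hfd₂, hgal₂, hpm₂⟩ := h₂
  have hn₁ : Normal ℚ_[p] ↥F₁ := hgal₁.to_normal
  have hn₂ : Normal ℚ_[p] ↥F₂ := hgal₂.to_normal
  have hfd : FiniteDimensional ℚ_[p] ↥(F₁ ⊔ F₂) := inferInstance
  have hnormal : Normal ℚ_[p] ↥(F₁ ⊔ F₂) := inferInstance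
  refine ⟨hfd, ⟨⟩, fun m hm E _ _ _ ⟨η⟩ => ?_⟩
  have : Algebra.IsAlgebraic ℚ_[p] E := Algebra.IsAlgebraic.of_finite ℚ_[p] E
  let jE : E →ₐ[ℚ_[p]] Ω := IsAlgClosed.lift
  -- each `F_i` embeds into `E`
  obtain ⟨g₁⟩ := hpm₁ m hm E
    ⟨η.comp (intMap p (IntermediateField.inclusion (le_sup_left : F₁ ≤ F₁ ⊔ F₂)))⟩
  obtain ⟨g₂⟩ := hpm₂ m hm E
    ⟨η.comp (intMap p (IntermediateField.inclusion (le_sup_right : F₂ ≤ F₁ ⊔ F₂)))⟩
  have hle₁ : F₁ ≤ jE.fieldRange := by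
    intro y hy
    have h := AlgHom.fieldRange_of_normal (jE.comp g₁)
    have hy' : y ∈ (jE.comp g₁).fieldRange := by rw [h]; exact hy
    obtain ⟨z, rfl⟩ := hy'
    exact ⟨g₁ z, rfl⟩
  have hle₂ : F₂ ≤ jE.fieldRange := by
    intro y hy
    have h := AlgHom.fieldRange_of_normal (jE.comp g₂)
    have hy' : y ∈ (jE.comp g₂).fieldRange := by rw [h]; exact hy
    obtain ⟨z, rfl⟩ := hy'
    exact ⟨g₂ z, rfl⟩
  exact ⟨(AlgEquiv.ofInjectiveField jE).symm.toAlgHom.comp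
    (IntermediateField.inclusion (sup_le hle₁ hle₂))⟩

end

end Fermat.Agent.ES.T56.FlatClass20
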