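/-
Programme T (S56, Taylor–Wiles primes), chapter FLAT, leg FLAT-C, brick `IrrShape` (helper14):
the ABSTRACT dichotomy for a two-dimensional representation in characteristic `p` of a group with a
"tame structure".

`k` a finite field of characteristic `p`, `ρ : Γ →* M₂(k)` with all characteristic polynomials split,
`P ≤ I ≤ Γ` normal subgroups such that `ρ(P)` is a `p`-group, `I/P` is abelian of exponent prime to
`p`, and `Γ = ⟨φ⟩ I`.  If `ρ` has no stable line then there are an index-2 subgroup `H ⊇ I` and a basis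
in which `ρ|_H` is diagonal with two characters `χ, χ'` which differ somewhere on `I`, and `Γ ∖ H` is
anti-diagonal (`exists_shape`).

Proof.  The `p`-group `ρ(P)` fixes a nonzero vector; the fixed space is `Γ`-stable, hence everything:
`ρ(P) = 1`.  So `ρ(I)` is abelian and killed by `m` prime to `p`: every `ρ(x)`, `x ∈ I`, is scalar or has
two distinct eigenvalues.  If all are scalar, an eigenvector of `ρ(φ)` spans a stable line.  Otherwise
take `x₀ ∈ I` with eigenvalues `α ≠ β` and eigenvectors `v₁, v₂`; in this basis `ρ(I)` is diagonal and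
every `ρ(g)` conjugates a diagonal matrix with distinct entries into a diagonal one, so it is diagonal
or anti-diagonal; `H` := the diagonal ones.

Only Mathlib is used.
-/
import Mathlib

set_option autoImplicit false
set_option linter.unusedSectionVars false

namespace Fermat.Agent.ES.T56.FlatDich14

open Polynomial Matrix

variable {k : Type} [Field k]

/-! ### Matrices with given columns -/

/-- The `2 × 2` matrix with columns `v`, `w`. -/
def colMat (v w : Fin 2 → k) : Matrix (Fin 2) (Fin 2) k := !![v 0, w 0; v 1, w 1]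

theorem mul_colMat (X : Matrix (Fin 2) (Fin 2) k) (v w : Fin 2 → k) :
    X * colMat v w = colMat (X.mulVec v) (X.mulVec w) := by
  ext i j
  fin_cases i <;> fin_cases j <;>
    simp [colMat, Matrix.mul_apply, Matrix.mulVec, dotProduct, Fin.sum_univ_two]

theorem colMat_mulVec (v w c : Fin 2 → k) : (colMat v w).mulVec c = c 0 • v + c 1 • w := by
  ext i
  fin_cases i
  · simp [colMat, Matrix.mulVec, dotProduct, Fin.sum_univ_two]; ring
  · simp [colMat, Matrix.mulVec, dotProduct, Fin.sum_univ_two]; ring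

theorem colMat_mul_diagonal (v w : Fin 2 → k) (a d : k) :
    colMat v w * Matrix.diagonal ![a, d] = colMat (a • v) (d • w) := by
  ext i j
  fin_cases i <;> fin_cases j <;>
    simp [colMat, Matrix.mul_apply, Matrix.diagonal, mul_comm]

theorem colMat_inj {v w v' w' : Fin 2 → k} (h : colMat v w = colMat v' w') : v = v' ∧ w = w' := by
  have h00 := congrFun (congrFun h 0) 0
  have h01 := congrFun (congrFun h 0) 1
  have h10 := congrFun (congrFun h 1) 0
  have h11 := congrFun (congrFun h 1) 1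
  simp [colMat] at h00 h01 h10 h11
  constructor
  · ext i; fin_cases i
    · exact h00
    · exact h10
  · ext i; fin_cases i
    · exact h01
    · exact h11

theorem det_colMat (v w : Fin 2 → k) : (colMat v w).det = v 0 * w 1 - w 0 * v 1 := by
  simp [colMat, Matrix.det_fin_two]

/-- Two independent vectors of `k²` have nonzero determinant. -/
theorem det_colMat_ne_zero {v w : Fin 2 → k} (hv : v ≠ 0) (hw : ∀ a : k, a • v ≠ w) :
    (colMat v w).det ≠ 0 := by
  rw [det_colMat]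
  intro h
  by_cases h0 : v 0 = 0
  · have h1 : v 1 ≠ 0 := by
      intro h1
      apply hv
      ext i; fin_cases i
      · exact h0
      · exact h1
    rw [h0, zero_mul, zero_sub, neg_eq_zero, mul_eq_zero] at h
    have hw0 : w 0 = 0 := h.resolve_right h1
    apply hw (w 1 / v 1)
    ext i; fin_cases i
    · simp [h0, hw0]
    · simp [h1]
  · apply hw (w 0 / v 0)
    ext i; fin_cases i
    · simp [h0]
    · have : w 0 * v 1 = v 0 * w 1 := (sub_eq_zero.1 h).symm
      simp only [Fin.mk_one, Pi.smul_apply, smul_eq_mul]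
      field_simp
      rw [this]

theorem isUnit_det_colMat {v w : Fin 2 → k} (hv : v ≠ 0) (hw : ∀ a : k, a • v ≠ w) :
    IsUnit (colMat v w).det :=
  (det_colMat_ne_zero hv hw).isUnit

/-- Coordinates in an independent pair. -/
theorem exists_coords {v w : Fin 2 → k} (hv : v ≠ 0) (hw : ∀ a : k, a • v ≠ w) (u : Fin 2 → k) :
    ∃ s t : k, u = s • v + t • w := by
  have hu := isUnit_det_colMat hv hw
  refine ⟨((colMat v w)⁻¹.mulVec u) 0, ((colMat v w)⁻¹.mulVec u) 1, ?_⟩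
  rw [← colMat_mulVec, Matrix.mulVec_mulVec, Matrix.mul_nonsing_inv _ hu, Matrix.one_mulVec]

theorem smul_ne_of_not_mem_span {v w : Fin 2 → k} (hw : w ∉ Submodule.span k {v}) (a : k) :
    a • v ≠ w := fun h => hw (Submodule.mem_span_singleton.2 ⟨a, h⟩)

/-! ### Cayley–Hamilton for a split characteristic polynomial -/

theorem mul_eq_zero_of_charpoly {M : Matrix (Fin 2) (Fin 2) k} {α β : k}
    (h : M.charpoly = (X - C α) * (X - C β)) :
    (M - algebraMap k (Matrix (Fin 2) (Fin 2) k) α) *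
      (M - algebraMap k (Matrix (Fin 2) (Fin 2) k) β) = 0 := by
  have h1 := Matrix.aeval_self_charpoly M
  rw [h, map_mul, map_sub, map_sub, aeval_X, aeval_C, aeval_C] at h1
  exact h1

theorem algebraMap_mulVec (c : k) (v : Fin 2 → k) :
    (algebraMap k (Matrix (Fin 2) (Fin 2) k) c).mulVec v = c • v := by
  rw [Algebra.algebraMap_eq_smul_one, Matrix.smul_mulVec, Matrix.one_mulVec]

/-- A matrix with split characteristic polynomial has an eigenvector. -/
theorem exists_eigenvector {M : Matrix (Fin 2) (Fin 2) k} {α β : k}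
    (h : M.charpoly = (X - C α) * (X - C β)) :
    ∃ v : Fin 2 → k, v ≠ 0 ∧ ∃ c : k, M.mulVec v = c • v := by
  have h1 := mul_eq_zero_of_charpoly h
  by_cases hβ : ∀ w : Fin 2 → k,
      (M - algebraMap k (Matrix (Fin 2) (Fin 2) k) β).mulVec w = 0
  · refine ⟨![1, 0], ?_, β, ?_⟩
    · intro h0
      have := congrFun h0 0
      simp at this
    · have := hβ ![1, 0]
      rw [Matrix.sub_mulVec, algebraMap_mulVec, sub_eq_zero] at this
      exact this
  · push Not at hβ
    obtain ⟨w, hw⟩ := hβ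
    refine ⟨_, hw, α, ?_⟩
    have h2 : ((M - algebraMap k (Matrix (Fin 2) (Fin 2) k) α) *
        (M - algebraMap k (Matrix (Fin 2) (Fin 2) k) β)).mulVec w = 0 := by
      rw [h1, Matrix.zero_mulVec]
    rw [← Matrix.mulVec_mulVec, Matrix.sub_mulVec, algebraMap_mulVec, sub_eq_zero] at h2
    exact h2

/-- If `M` is not the scalar `β`, there is an eigenvector for `α`. -/
theorem exists_eigenvector_of_ne {M : Matrix (Fin 2) (Fin 2) k} {α β : k}
    (h : M.charpoly = (X - C α) * (X - C β))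
    (hne : M ≠ algebraMap k (Matrix (Fin 2) (Fin 2) k) β) :
    ∃ v : Fin 2 → k, v ≠ 0 ∧ M.mulVec v = α • v := by
  have h1 := mul_eq_zero_of_charpoly h
  have hβ : ¬ ∀ w : Fin 2 → k,
      (M - algebraMap k (Matrix (Fin 2) (Fin 2) k) β).mulVec w = 0 := by
    intro hall
    apply hne
    rw [Matrix.ext_iff_mulVec]
    intro w
    have := hall w
    rw [Matrix.sub_mulVec, sub_eq_zero] at this
    exact this
  push Not at hβ
  obtain ⟨w, hw⟩ := hβ
  refine ⟨_, hw, ?_⟩
  have h2 : ((M - algebraMap k (Matrix (Fin 2) (Fin 2) k) α) *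
      (M - algebraMap k (Matrix (Fin 2) (Fin 2) k) β)).mulVec w = 0 := by
    rw [h1, Matrix.zero_mulVec]
  rw [← Matrix.mulVec_mulVec, Matrix.sub_mulVec, algebraMap_mulVec, sub_eq_zero] at h2
  exact h2

/-! ### Semisimplicity: a double eigenvalue and order prime to `p` force a scalar -/

theorem add_pow_of_sq_zero {R : Type*} [Ring R] [Algebra k R] {N : R} (hN : N * N = 0) (α : k)
    (n : ℕ) : (algebraMap k R α + N) ^ (n + 1) =
      algebraMap k R (α ^ (n + 1)) + (((n + 1 : ℕ) : k) * α ^ n) • N := by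
  induction n with
  | zero => simp
  | succ n ih =>
    rw [pow_succ, ih, add_mul, mul_add, mul_add, smul_mul_assoc, smul_mul_assoc, hN, smul_zero,
      add_zero, ← map_mul, ← pow_succ, ← Algebra.commutes, ← Algebra.smul_def, ← Algebra.smul_def,
      add_assoc, smul_smul, ← add_smul]
    congr 2
    push_cast
    ring

theorem eq_scalar_of_pow_eq_one {M : Matrix (Fin 2) (Fin 2) k} {α : k}
    (h : M.charpoly = (X - C α) * (X - C α)) {m : ℕ} (hm : (m : k) ≠ 0) (hM : M ^ m = 1) :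
    M = algebraMap k (Matrix (Fin 2) (Fin 2) k) α := by
  set N := M - algebraMap k (Matrix (Fin 2) (Fin 2) k) α with hNdef
  have hN : N * N = 0 := mul_eq_zero_of_charpoly h
  have hMN : M = algebraMap k (Matrix (Fin 2) (Fin 2) k) α + N := by rw [hNdef]; abel
  obtain ⟨n, rfl⟩ : ∃ n, m = n + 1 := by
    refine Nat.exists_eq_succ_of_ne_zero ?_
    rintro rfl
    simp at hm
  have hE := add_pow_of_sq_zero hN α n
  rw [← hMN, hM] at hE
  -- multiply by `N`
  have hE2 : N = α ^ (n + 1) • N := by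
    have := congrArg (fun Z => Z * N) hE
    simp only [one_mul, add_mul, smul_mul_assoc, hN, smul_zero, add_zero] at this
    rw [← Algebra.smul_def] at this
    exact this
  suffices hN0 : N = 0 by rw [hMN, hN0, add_zero]
  by_cases ha : α ^ (n + 1) = 1
  · rw [ha, map_one, left_eq_add] at hE
    have hα : α ≠ 0 := by
      rintro rfl
      simp at ha
    have hc : (((n + 1 : ℕ) : k) * α ^ n) ≠ 0 := mul_ne_zero hm (pow_ne_zero _ hα)
    exact (smul_eq_zero.1 hE).resolve_left hc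
  · have h3 : (1 - α ^ (n + 1)) • N = 0 := by
      rw [sub_smul, one_smul, ← hE2, sub_self]
    exact (smul_eq_zero.1 h3).resolve_left (sub_ne_zero.2 (Ne.symm ha))

/-! ### A `p`-group of matrices in characteristic `p` fixes a nonzero vector -/

theorem exists_fixed_vector [Finite k] (p : ℕ) [Fact p.Prime] [CharP k p]
    (Q : Subgroup (Matrix (Fin 2) (Fin 2) k)ˣ) (hQ : IsPGroup p ↥Q) :
    ∃ v : Fin 2 → k, v ≠ 0 ∧ ∀ q ∈ Q, ((q : (Matrix (Fin 2) (Fin 2) k)ˣ) :
      Matrix (Fin 2) (Fin 2) k).mulVec v = v := by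
  have hcard : p ∣ Nat.card (Fin 2 → k) := by
    have := Fintype.ofFinite k
    obtain ⟨n, -, hn⟩ := FiniteField.card k p
    rw [Nat.card_eq_fintype_card, Fintype.card_fun, Fintype.card_fin, hn, ← pow_mul]
    exact dvd_pow_self p (by positivity)
  have h0 : (0 : Fin 2 → k) ∈ MulAction.fixedPoints ↥Q (Fin 2 → k) := by
    intro q
    exact smul_zero q
  obtain ⟨b, hb, hb0⟩ := hQ.exists_fixed_point_of_prime_dvd_card_of_fixed_point (Fin 2 → k) hcard h0
  refine ⟨b, Ne.symm hb0, fun q hq => ?_⟩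
  exact hb ⟨q, hq⟩

/-! ### The setting -/

section Main

variable {Γ : Type*} [Group Γ] (ρ : Γ →* Matrix (Fin 2) (Fin 2) k)

theorem rho_mul_inv (g : Γ) : ρ g * ρ g⁻¹ = 1 := by rw [← map_mul, mul_inv_cancel, map_one]

theorem rho_inv_mul (g : Γ) : ρ g⁻¹ * ρ g = 1 := by rw [← map_mul, inv_mul_cancel, map_one]

theorem mul_apply_two (X Y : Matrix (Fin 2) (Fin 2) k) (i j : Fin 2) :
    (X * Y) i j = X i 0 * Y 0 j + X i 1 * Y 1 j := by
  rw [Matrix.mul_apply, Fin.sum_univ_two]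

/-- **`ρ(P) = 1`**: a normal subgroup whose image is a `p`-group acts trivially when there is no
stable line. -/
theorem rho_eq_one_of_pgroup [Finite k] (p : ℕ) [Fact p.Prime] [CharP k p] (P : Subgroup Γ)
    (hPn : ∀ g : Γ, ∀ x ∈ P, g * x * g⁻¹ ∈ P) (hP : ∀ x ∈ P, ∃ a : ℕ, ρ x ^ p ^ a = 1)
    (hirr : ∀ v : Fin 2 → k, v ≠ 0 → ∃ g : Γ, (ρ g).mulVec v ∉ Submodule.span k {v}) :
    ∀ x ∈ P, ρ x = 1 := by
  have hQ : IsPGroup p ↥(P.map ρ.toHomUnits) := by
    rintro ⟨q, x, hx, rfl⟩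
    obtain ⟨a, ha⟩ := hP x hx
    refine ⟨a, ?_⟩
    apply Subtype.ext
    apply Units.ext
    simpa using ha
  obtain ⟨v, hv, hfix⟩ := exists_fixed_vector p _ hQ
  have hfix' : ∀ x ∈ P, (ρ x).mulVec v = v := fun x hx =>
    hfix (ρ.toHomUnits x) ⟨x, hx, rfl⟩
  obtain ⟨g, hg⟩ := hirr v hv
  have hw : ∀ x ∈ P, (ρ x).mulVec ((ρ g).mulVec v) = (ρ g).mulVec v := by
    intro x hx
    have h1 : g⁻¹ * x * g ∈ P := by simpa using hPn g⁻¹ x hx
    have h2 : ρ x * ρ g = ρ g * ρ (g⁻¹ * x * g) := by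
      rw [← map_mul, ← map_mul]
      congr 1
      group
    rw [Matrix.mulVec_mulVec, h2, ← Matrix.mulVec_mulVec, hfix' _ h1]
  intro x hx
  rw [Matrix.ext_iff_mulVec]
  intro u
  obtain ⟨s, t, rfl⟩ := exists_coords hv (smul_ne_of_not_mem_span hg) u
  rw [Matrix.mulVec_add, Matrix.mulVec_smul, Matrix.mulVec_smul, hfix' x hx, hw x hx,
    Matrix.one_mulVec]

theorem pow_mulVec_eigen {M : Matrix (Fin 2) (Fin 2) k} {v : Fin 2 → k} {c : k}
    (h : M.mulVec v = c • v) (n : ℕ) : (M ^ n).mulVec v = c ^ n • v := by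
  induction n with
  | zero => simp
  | succ n ih =>
    rw [pow_succ, ← Matrix.mulVec_mulVec, h, Matrix.mulVec_smul, ih, smul_smul, pow_succ, mul_comm]

/-- If `ρ(I)` consists of scalars and `Γ = ⟨φ⟩ I`, an eigenvector of `ρ(φ)` spans a stable line. -/
theorem false_of_scalar (I : Subgroup Γ)
    (hsc : ∀ x ∈ I, ∃ c : k, ρ x = algebraMap k (Matrix (Fin 2) (Fin 2) k) c) (φ : Γ)
    (hφ : ∀ γ : Γ, ∃ n : ℕ, (φ ^ n)⁻¹ * γ ∈ I)
    (hsplit : ∃ α β : k, (ρ φ).charpoly = (X - C α) * (X - C β))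
    (hirr : ∀ v : Fin 2 → k, v ≠ 0 → ∃ g : Γ, (ρ g).mulVec v ∉ Submodule.span k {v}) : False := by
  obtain ⟨α, β, hαβ⟩ := hsplit
  obtain ⟨v, hv, c, hc⟩ := exists_eigenvector hαβ
  obtain ⟨g, hg⟩ := hirr v hv
  obtain ⟨n, hn⟩ := hφ g
  obtain ⟨c', hc'⟩ := hsc _ hn
  apply hg
  have h1 : g = φ ^ n * ((φ ^ n)⁻¹ * g) := by group
  rw [h1, map_mul, map_pow, hc', ← Matrix.mulVec_mulVec, algebraMap_mulVec, Matrix.mulVec_smul,
    pow_mulVec_eigen hc, smul_smul]
  exact Submodule.smul_mem _ _ (Submodule.mem_span_singleton_self v)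

/-- Conjugation of `ρ` by an invertible matrix. -/
def conjHom (B Binv : Matrix (Fin 2) (Fin 2) k) (hB : B * Binv = 1) :
    Γ →* Matrix (Fin 2) (Fin 2) k where
  toFun g := Binv * ρ g * B
  map_one' := by
    have h2 : Binv * B = 1 := mul_eq_one_comm.1 hB
    rw [map_one, mul_one, h2]
  map_mul' g h := by
    rw [map_mul]
    calc Binv * (ρ g * ρ h) * B = Binv * ρ g * 1 * ρ h * B := by
          rw [mul_one]; simp only [mul_assoc]
      _ = Binv * ρ g * B * (Binv * ρ h * B) := by rw [← hB]; simp only [mul_assoc]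

theorem conjHom_apply (B Binv : Matrix (Fin 2) (Fin 2) k) (hB : B * Binv = 1) (g : Γ) :
    conjHom ρ B Binv hB g = Binv * ρ g * B := rfl

/-- **The non-scalar case**: `x₀ ∈ I` with two distinct eigenvalues. -/
theorem exists_shape_of_nonscalar (I : Subgroup Γ) (hI : I.Normal)
    (hcomm : ∀ x ∈ I, ∀ y ∈ I, ρ x * ρ y = ρ y * ρ x)
    (hirr : ∀ v : Fin 2 → k, v ≠ 0 → ∃ g : Γ, (ρ g).mulVec v ∉ Submodule.span k {v})
    (x₀ : Γ) (hx₀ : x₀ ∈ I) {α β : k} (hαβ : α ≠ β) {v₁ v₂ : Fin 2 → k} (hv₁ : v₁ ≠ 0)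
    (hv₂ : v₂ ≠ 0) (h₁ : (ρ x₀).mulVec v₁ = α • v₁) (h₂ : (ρ x₀).mulVec v₂ = β • v₂) :
    ∃ (H : Subgroup Γ) (_ : H.Normal), H.index = 2 ∧ I ≤ H ∧ (∀ g : Γ, ρ g = 1 → g ∈ H) ∧
      ∃ (B Binv : Matrix (Fin 2) (Fin 2) k) (χ χ' : ↥H →* kˣ), B * Binv = 1 ∧ Binv * B = 1 ∧
        (∀ h : ↥H, Binv * ρ (h : Γ) * B =
          Matrix.diagonal ![((χ h : kˣ) : k), ((χ' h : kˣ) : k)]) ∧
        (∃ h : ↥H, (h : Γ) ∈ I ∧ χ h ≠ χ' h) ∧
        ∀ σ : Γ, σ ∉ H → (Binv * ρ σ * B) 0 0 = 0 ∧ (Binv * ρ σ * B) 1 1 = 0 := by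
  -- independence of the two eigenvectors
  have hindep : ∀ a : k, a • v₁ ≠ v₂ := by
    intro a ha
    have h3 : (ρ x₀).mulVec (a • v₁) = β • (a • v₁) := by rw [ha]; exact h₂
    rw [Matrix.mulVec_smul, h₁, smul_smul, smul_smul, ← sub_eq_zero, ← sub_smul] at h3
    rcases smul_eq_zero.1 h3 with h4 | h4
    · have h5 : a * (α - β) = 0 := by rw [← h4]; ring
      rcases mul_eq_zero.1 h5 with h6 | h6
      · apply hv₂
        rw [← ha, h6, zero_smul]
      · exact hαβ (sub_eq_zero.1 h6)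
    · exact hv₁ h4
  have hu := isUnit_det_colMat hv₁ hindep
  set B := colMat v₁ v₂ with hBdef
  have hB1 : B * B⁻¹ = 1 := Matrix.mul_nonsing_inv _ hu
  have hB2 : B⁻¹ * B = 1 := Matrix.nonsing_inv_mul _ hu
  set ρ' := conjHom ρ B B⁻¹ hB1 with hρ'
  have hρ'g : ∀ g, ρ' g = B⁻¹ * ρ g * B := fun g => rfl
  -- `B * ρ' g = ρ g * B`
  have hBρ' : ∀ g, B * ρ' g = ρ g * B := by
    intro g
    rw [hρ'g, ← mul_assoc, ← mul_assoc, hB1, one_mul]
  -- the matrix of `x₀`
  have hD : ρ' x₀ = Matrix.diagonal ![α, β] := by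
    rw [hρ'g, mul_assoc, hBdef, mul_colMat, h₁, h₂, ← colMat_mul_diagonal, ← hBdef, ← mul_assoc, hB2,
      one_mul]
  have hD00 : ρ' x₀ 0 0 = α := by rw [hD]; simp
  have hD01 : ρ' x₀ 0 1 = 0 := by rw [hD]; simp
  have hD10 : ρ' x₀ 1 0 = 0 := by rw [hD]; simp
  have hD11 : ρ' x₀ 1 1 = β := by rw [hD]; simp
  have hβα : β - α ≠ 0 := sub_ne_zero.2 (Ne.symm hαβ)
  -- `I` is diagonal
  have hcomm' : ∀ y ∈ I, ρ' y * ρ' x₀ = ρ' x₀ * ρ' y := by
    intro y hy
    rw [hρ'g, hρ'g]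
    calc B⁻¹ * ρ y * B * (B⁻¹ * ρ x₀ * B) = B⁻¹ * (ρ y * (B * B⁻¹) * ρ x₀) * B := by
          simp only [mul_assoc]
      _ = B⁻¹ * (ρ x₀ * (B * B⁻¹) * ρ y) * B := by
          rw [hB1, mul_one, mul_one, hcomm y hy x₀ hx₀]
      _ = B⁻¹ * ρ x₀ * B * (B⁻¹ * ρ y * B) := by simp only [mul_assoc]
  have hIdiag : ∀ y ∈ I, ρ' y 0 1 = 0 ∧ ρ' y 1 0 = 0 := by
    intro y hy
    have h := hcomm' y hy
    have e01 := congrFun (congrFun h 0) 1
    have e10 := congrFun (congrFun h 1) 0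
    rw [mul_apply_two, mul_apply_two, hD01, hD11, hD00] at e01
    rw [mul_apply_two, mul_apply_two, hD00, hD10, hD11] at e10
    constructor
    · have : ρ' y 0 1 * (β - α) = 0 := by linear_combination e01
      exact (mul_eq_zero.1 this).resolve_right hβα
    · have : ρ' y 1 0 * (β - α) = 0 := by linear_combination -e10
      exact (mul_eq_zero.1 this).resolve_right hβα
  -- invertibility
  have hinv1 : ∀ g, ρ' g * ρ' g⁻¹ = 1 := fun g => by rw [← map_mul, mul_inv_cancel, map_one]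
  have hinv2 : ∀ g, ρ' g⁻¹ * ρ' g = 1 := fun g => by rw [← map_mul, inv_mul_cancel, map_one]
  -- the dichotomy
  have hdich : ∀ g, (ρ' g 0 1 = 0 ∧ ρ' g 1 0 = 0) ∨ (ρ' g 0 0 = 0 ∧ ρ' g 1 1 = 0) := by
    intro g
    have hy : g⁻¹ * x₀ * g ∈ I := by simpa using hI.conj_mem x₀ hx₀ g⁻¹
    obtain ⟨hy01, hy10⟩ := hIdiag _ hy
    have hrel : ρ' x₀ * ρ' g = ρ' g * ρ' (g⁻¹ * x₀ * g) := by
      rw [← map_mul, ← map_mul]
      congr 1
      group
    have hYZ : ρ' g * ρ' g⁻¹ = 1 := hinv1 g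
    generalize ρ' g = Y at hrel hYZ ⊢
    generalize ρ' g⁻¹ = Z at hYZ
    generalize ρ' (g⁻¹ * x₀ * g) = D' at hrel hy01 hy10
    have e00 := congrFun (congrFun hrel 0) 0
    have e01 := congrFun (congrFun hrel 0) 1
    have e10 := congrFun (congrFun hrel 1) 0
    have e11 := congrFun (congrFun hrel 1) 1
    rw [mul_apply_two, mul_apply_two, hD00, hD01, hy10] at e00
    rw [mul_apply_two, mul_apply_two, hD00, hD01, hy01] at e01
    rw [mul_apply_two, mul_apply_two, hD10, hD11, hy10] at e10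
    rw [mul_apply_two, mul_apply_two, hD10, hD11, hy01] at e11
    have i00 := congrFun (congrFun hYZ 0) 0
    have i11 := congrFun (congrFun hYZ 1) 1
    rw [mul_apply_two] at i00 i11
    simp only [Matrix.one_apply_eq] at i00 i11
    by_cases h00 : Y 0 0 = 0
    · right
      refine ⟨h00, ?_⟩
      have hY01 : Y 0 1 ≠ 0 := by
        intro h
        rw [h00, h, zero_mul, zero_mul, add_zero] at i00
        exact zero_ne_one i00
      have hd : D' 1 1 = α := by
        have : Y 0 1 * (α - D' 1 1) = 0 := by linear_combination e01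
        exact (sub_eq_zero.1 ((mul_eq_zero.1 this).resolve_left hY01)).symm
      have : Y 1 1 * (β - α) = 0 := by rw [hd] at e11; linear_combination e11
      exact (mul_eq_zero.1 this).resolve_right hβα
    · left
      have ha : D' 0 0 = α := by
        have : Y 0 0 * (α - D' 0 0) = 0 := by linear_combination e00
        exact (sub_eq_zero.1 ((mul_eq_zero.1 this).resolve_left h00)).symm
      have hY10 : Y 1 0 = 0 := by
        have : Y 1 0 * (β - α) = 0 := by rw [ha] at e10; linear_combination e10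
        exact (mul_eq_zero.1 this).resolve_right hβα
      refine ⟨?_, hY10⟩
      have hY11 : Y 1 1 ≠ 0 := by
        intro h
        rw [hY10, h, zero_mul, zero_mul, add_zero] at i11
        exact zero_ne_one i11
      have hd : D' 1 1 = β := by
        have : Y 1 1 * (β - D' 1 1) = 0 := by linear_combination e11
        exact (sub_eq_zero.1 ((mul_eq_zero.1 this).resolve_left hY11)).symm
      have : Y 0 1 * (β - α) = 0 := by rw [hd] at e01; linear_combination -e01
      exact (mul_eq_zero.1 this).resolve_right hβα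
  -- the subgroup of diagonal elements
  let H : Subgroup Γ :=
    { carrier := {g | ρ' g 0 1 = 0 ∧ ρ' g 1 0 = 0}
      one_mem' := by
        refine ⟨?_, ?_⟩ <;> rw [map_one] <;> simp
      mul_mem' := by
        rintro a b ⟨ha1, ha2⟩ ⟨hb1, hb2⟩
        refine ⟨?_, ?_⟩
        · rw [map_mul, mul_apply_two, ha1, hb1, mul_zero, zero_mul, add_zero]
        · rw [map_mul, mul_apply_two, ha2, hb2, mul_zero, zero_mul, add_zero]
      inv_mem' := by
        rintro a ⟨ha1, ha2⟩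
        have i00 := congrFun (congrFun (hinv1 a) 0) 0
        have i11 := congrFun (congrFun (hinv1 a) 1) 1
        have i01 := congrFun (congrFun (hinv1 a) 0) 1
        have i10 := congrFun (congrFun (hinv1 a) 1) 0
        rw [mul_apply_two] at i00 i11 i01 i10
        simp only [Matrix.one_apply_eq] at i00 i11
        rw [ha1, zero_mul, add_zero] at i00 i01
        rw [ha2, zero_mul, zero_add] at i11 i10
        have h0 : ρ' a 0 0 ≠ 0 := fun h => by rw [h, zero_mul] at i00; exact zero_ne_one i00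
        have h1 : ρ' a 1 1 ≠ 0 := fun h => by rw [h, zero_mul] at i11; exact zero_ne_one i11
        have e01 : (1 : Matrix (Fin 2) (Fin 2) k) 0 1 = 0 := by simp
        have e10 : (1 : Matrix (Fin 2) (Fin 2) k) 1 0 = 0 := by simp
        rw [e01] at i01
        rw [e10] at i10
        exact ⟨(mul_eq_zero.1 i01).resolve_left h0, (mul_eq_zero.1 i10).resolve_left h1⟩ }
  have hmemH : ∀ g, g ∈ H ↔ (ρ' g 0 1 = 0 ∧ ρ' g 1 0 = 0) := fun g => Iff.rfl
  -- elements outside `H` are anti-diagonal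
  have hanti : ∀ g, g ∉ H → ρ' g 0 0 = 0 ∧ ρ' g 1 1 = 0 := by
    intro g hg
    rcases hdich g with h | h
    · exact absurd ((hmemH g).2 h) hg
    · exact h
  -- the first column of a diagonal element
  have hcol : ∀ g ∈ H, (ρ g).mulVec v₁ = ρ' g 0 0 • v₁ := by
    intro g hg
    obtain ⟨h01, h10⟩ := (hmemH g).1 hg
    have hdiag : ρ' g = Matrix.diagonal ![ρ' g 0 0, ρ' g 1 1] := by
      ext i j
      fin_cases i <;> fin_cases j <;> simp [h01, h10]
    have h3 := hBρ' g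
    rw [hdiag, hBdef, colMat_mul_diagonal, mul_colMat] at h3
    exact ((colMat_inj h3).1).symm
  -- `H ≠ ⊤`
  obtain ⟨g₀, hg₀⟩ : ∃ g₀, g₀ ∉ H := by
    by_contra hall
    push Not at hall
    obtain ⟨g, hg⟩ := hirr v₁ hv₁
    apply hg
    rw [hcol g (hall g)]
    exact Submodule.smul_mem _ _ (Submodule.mem_span_singleton_self v₁)
  have hindex : H.index = 2 := by
    rw [Subgroup.index_eq_two_iff]
    refine ⟨g₀, fun b => ?_⟩
    by_cases hb : b ∈ H
    · refine Or.inr ⟨hb, fun hbg => hg₀ ?_⟩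
      have : g₀ = b⁻¹ * (b * g₀) := by group
      rw [this]
      exact H.mul_mem (H.inv_mem hb) hbg
    · refine Or.inl ⟨?_, hb⟩
      obtain ⟨hb0, hb1⟩ := hanti b hb
      obtain ⟨hg0, hg1⟩ := hanti g₀ hg₀
      rw [hmemH, map_mul, mul_apply_two, mul_apply_two, hb0, hb1, hg0, hg1]
      simp
  have hnormal : H.Normal := Subgroup.normal_of_index_eq_two hindex
  refine ⟨H, hnormal, hindex, fun y hy => (hmemH y).2 (hIdiag y hy), ?_, ?_⟩
  · intro g hg
    rw [hmemH, hρ'g, hg, mul_one, hB2]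
    simp
  -- the characters
  have hdiagH : ∀ h : ↥H, ρ' (h : Γ) = Matrix.diagonal ![ρ' (h : Γ) 0 0, ρ' (h : Γ) 1 1] := by
    intro h
    obtain ⟨h01, h10⟩ := (hmemH _).1 h.2
    ext i j
    fin_cases i <;> fin_cases j <;> simp [h01, h10]
  let f₀ : ↥H →* k :=
    { toFun := fun h => ρ' (h : Γ) 0 0
      map_one' := by
        show ρ' ((1 : ↥H) : Γ) 0 0 = 1
        rw [Subgroup.coe_one, map_one]; simp
      map_mul' := fun a b => by
        show ρ' ((a * b : ↥H) : Γ) 0 0 = ρ' (a : Γ) 0 0 * ρ' (b : Γ) 0 0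
        rw [Subgroup.coe_mul, map_mul, mul_apply_two, ((hmemH _).1 a.2).1, zero_mul, add_zero] }
  let f₁ : ↥H →* k :=
    { toFun := fun h => ρ' (h : Γ) 1 1
      map_one' := by
        show ρ' ((1 : ↥H) : Γ) 1 1 = 1
        rw [Subgroup.coe_one, map_one]; simp
      map_mul' := fun a b => by
        show ρ' ((a * b : ↥H) : Γ) 1 1 = ρ' (a : Γ) 1 1 * ρ' (b : Γ) 1 1
        rw [Subgroup.coe_mul, map_mul, mul_apply_two, ((hmemH _).1 a.2).2, zero_mul, zero_add] }
  refine ⟨B, B⁻¹, f₀.toHomUnits, f₁.toHomUnits, hB1, hB2, ?_, ?_, ?_⟩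
  · intro h
    rw [MonoidHom.coe_toHomUnits, MonoidHom.coe_toHomUnits]
    exact hdiagH h
  · refine ⟨⟨x₀, (hmemH x₀).2 (hIdiag x₀ hx₀)⟩, hx₀, ?_⟩
    intro heq
    have h3 := congrArg (fun u : kˣ => (u : k)) heq
    simp only [MonoidHom.coe_toHomUnits] at h3
    apply hαβ
    rw [← hD00, ← hD11]
    exact h3
  · intro σ hσ
    exact hanti σ hσ

/-- **The dichotomy** (irreducible case): see the header. -/
theorem exists_shape [Finite k] (p : ℕ) [Fact p.Prime] [CharP k p]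
    (hsplit : ∀ g : Γ, ∃ α β : k, (ρ g).charpoly = (X - C α) * (X - C β))
    (I P : Subgroup Γ) (hI : I.Normal) (hPn : ∀ g : Γ, ∀ x ∈ P, g * x * g⁻¹ ∈ P)
    (hP : ∀ x ∈ P, ∃ a : ℕ, ρ x ^ p ^ a = 1)
    (hab : ∀ x ∈ I, ∀ y ∈ I, x * y * x⁻¹ * y⁻¹ ∈ P)
    (m : ℕ) (hm : m.Coprime p) (hIm : ∀ x ∈ I, x ^ m ∈ P)
    (φ : Γ) (hφ : ∀ γ : Γ, ∃ n : ℕ, (φ ^ n)⁻¹ * γ ∈ I)
    (hirr : ∀ v : Fin 2 → k, v ≠ 0 → ∃ g : Γ, (ρ g).mulVec v ∉ Submodule.span k {v}) :
    ∃ (H : Subgroup Γ) (_ : H.Normal), H.index = 2 ∧ I ≤ H ∧ (∀ g : Γ, ρ g = 1 → g ∈ H) ∧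
      ∃ (B Binv : Matrix (Fin 2) (Fin 2) k) (χ χ' : ↥H →* kˣ), B * Binv = 1 ∧ Binv * B = 1 ∧
        (∀ h : ↥H, Binv * ρ (h : Γ) * B =
          Matrix.diagonal ![((χ h : kˣ) : k), ((χ' h : kˣ) : k)]) ∧
        (∃ h : ↥H, (h : Γ) ∈ I ∧ χ h ≠ χ' h) ∧
        ∀ σ : Γ, σ ∉ H → (Binv * ρ σ * B) 0 0 = 0 ∧ (Binv * ρ σ * B) 1 1 = 0 := by
  have hP1 := rho_eq_one_of_pgroup ρ p P hPn hP hirr
  have hcomm : ∀ x ∈ I, ∀ y ∈ I, ρ x * ρ y = ρ y * ρ x := by
    intro x hx y hy
    have h1 := hP1 _ (hab x hx y hy)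
    have h2 : x * y = (x * y * x⁻¹ * y⁻¹) * (y * x) := by group
    rw [← map_mul, h2, map_mul, h1, one_mul, map_mul]
  have hmk : (m : k) ≠ 0 := by
    intro h0
    have hdvd : p ∣ m := (CharP.cast_eq_zero_iff k p m).1 h0
    have h1 : p ∣ 1 := by
      have := Nat.dvd_gcd hdvd (dvd_refl p)
      rwa [hm] at this
    exact (Fact.out : p.Prime).one_lt.ne' (Nat.dvd_one.1 h1)
  have hpow : ∀ x ∈ I, ρ x ^ m = 1 := fun x hx => by rw [← map_pow]; exact hP1 _ (hIm x hx)
  by_cases hsc : ∀ x ∈ I, ∃ c : k, ρ x = algebraMap k (Matrix (Fin 2) (Fin 2) k) c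
  · exact (false_of_scalar ρ I hsc φ hφ (hsplit φ) hirr).elim
  · push Not at hsc
    obtain ⟨x₀, hx₀, hns⟩ := hsc
    obtain ⟨α, β, hαβ⟩ := hsplit x₀
    have hne : α ≠ β := by
      rintro rfl
      exact hns α (eq_scalar_of_pow_eq_one hαβ hmk (hpow x₀ hx₀))
    obtain ⟨v₁, hv₁, h₁⟩ := exists_eigenvector_of_ne hαβ (hns β)
    obtain ⟨v₂, hv₂, h₂⟩ := exists_eigenvector_of_ne (by rw [hαβ, mul_comm]) (hns α)
    exact exists_shape_of_nonscalar ρ I hI hcomm hirr x₀ hx₀ hne hv₁ hv₂ h₁ h₂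

end Main

end Fermat.Agent.ES.T56.FlatDich14
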