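/-
Programme T (S56, Taylor–Wiles primes), chapter LOC, leg ORD-p (helper11): the CONTRACT file.

`k` a field of characteristic `p` (odd), `rbar : G_ℚ → GL₂(k)` in S53's matrix model, `ad⁰ = ad0 rbar` from
`Ad0Rep10`, `G_p = primeLocalGaloisGroup (pPrime p)`, `loc = primeLocalToGlobal (pPrime p)`,
`P = primeLocalPlace (pPrime p)` the Prelude's place of `ℚ̄` over `p`.

* `W0 v ⊆ W1 v ⊆ sl2 k`   : the filtration of `ad⁰` by the line `⟨v⟩`: `W0 v = Hom(k²/⟨v⟩, ⟨v⟩)` (kills `v`, image in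
                            `⟨v⟩`), `W1 v` = trace-zero matrices preserving `⟨v⟩`;
* `classesIn loc A W`      : classes in `H¹(G, A)` of LEVEL-CONSTANT cocycles with values in `W` (any ring, any group,
                            any map to `G_ℚ`); it lies in the Prelude's `continuousH1 loc A`;
* `Lord p rbar v`          : `L_p^{ord} = classesIn loc (Rep.res loc (ad0 rbar)) (W0 v)`;
* `IsStrictOrdLine p rbar v`: matrix form at `P` of the Prelude's `IsStrictOrdinaryAt p` for `rbar` itself (= (Hρ̄));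
* `KumZ p`, `KumBound p`   : the input from chapter KUM at the cocycle level, `#Z¹_cont(G_p, 𝔽_p(ω)) ≤ p³`
                            (equivalently `#H¹_cont(G_p, 𝔽_p(ω)) ≤ p²`);
* `OrdLine`                : (a) (Hρ̄) gives a vector `v` with `IsStrictOrdLine p Sl.rbar v`;
* `OrdMember`              : (c) membership of strict-ordinary `k[ε]`-lifts;
* `OrdCount`               : (b) `#L_p^{ord} ≤ |k| · #H⁰(G_p, ad⁰)`.

Only definitions and `Prop`-valued statements here; the proofs are `OrdLine11` / `OrdMember11` / `OrdCount11`.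
-/
import Mathlib
import Fermat.Prelude.Def_GaloisRep_StrictOrdinary
import Fermat.Prelude.Def_GaloisRep_Residual
import Fermat.Prelude.Def_GroupCohomology_ContinuousUnramified
import Fermat.Prelude.Def_ExtCitation_KummerBridge
import Fermat.Agent.S53.Defs
import Fermat.Agent.ES.T56.Ad0Rep10

set_option autoImplicit false

namespace Fermat.Agent.ES.T56.OrdIface11

open CategoryTheory groupCohomology ExtCitation Fermat.Agent.S53 Fermat.Agent.ES.T56.Ad0Rep10

/-! ### The filtration of `ad⁰` by a line -/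

section Filtration

variable {k : Type} [Field k]

/-- `W⁰(v) = Hom(k²/⟨v⟩, ⟨v⟩)`: the (automatically trace-zero) matrices that kill `v` and have image in `⟨v⟩`. -/
def W0 (v : Fin 2 → k) : Submodule k (sl2 k) where
  carrier := {X | (X : M2 k).mulVec v = 0 ∧ ∀ w : Fin 2 → k, (X : M2 k).mulVec w ∈ Submodule.span k {v}}
  add_mem' := by
    rintro X Y ⟨hX1, hX2⟩ ⟨hY1, hY2⟩
    refine ⟨?_, fun w => ?_⟩
    · rw [Submodule.coe_add, Matrix.add_mulVec, hX1, hY1, add_zero]
    · rw [Submodule.coe_add, Matrix.add_mulVec]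
      exact Submodule.add_mem _ (hX2 w) (hY2 w)
  zero_mem' := by
    refine ⟨?_, fun w => ?_⟩
    · rw [Submodule.coe_zero, Matrix.zero_mulVec]
    · rw [Submodule.coe_zero, Matrix.zero_mulVec]
      exact Submodule.zero_mem _
  smul_mem' := by
    rintro c X ⟨hX1, hX2⟩
    refine ⟨?_, fun w => ?_⟩
    · rw [Submodule.coe_smul, Matrix.smul_mulVec, hX1, smul_zero]
    · rw [Submodule.coe_smul, Matrix.smul_mulVec]
      exact Submodule.smul_mem _ c (hX2 w)

/-- `W¹(v)`: the trace-zero matrices preserving the line `⟨v⟩`. -/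
def W1 (v : Fin 2 → k) : Submodule k (sl2 k) where
  carrier := {X | (X : M2 k).mulVec v ∈ Submodule.span k {v}}
  add_mem' := by
    intro X Y hX hY
    rw [Set.mem_ofPred_eq] at hX hY ⊢
    rw [Submodule.coe_add, Matrix.add_mulVec]
    exact Submodule.add_mem _ hX hY
  zero_mem' := by
    rw [Set.mem_ofPred_eq, Submodule.coe_zero, Matrix.zero_mulVec]
    exact Submodule.zero_mem _
  smul_mem' := by
    intro c X hX
    rw [Set.mem_ofPred_eq] at hX ⊢
    rw [Submodule.coe_smul, Matrix.smul_mulVec]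
    exact Submodule.smul_mem _ c hX

theorem mem_W0_iff (v : Fin 2 → k) (X : sl2 k) :
    X ∈ W0 v ↔ (X : M2 k).mulVec v = 0 ∧
      ∀ w : Fin 2 → k, (X : M2 k).mulVec w ∈ Submodule.span k {v} := Iff.rfl

theorem mem_W1_iff (v : Fin 2 → k) (X : sl2 k) :
    X ∈ W1 v ↔ (X : M2 k).mulVec v ∈ Submodule.span k {v} := Iff.rfl

theorem W0_le_W1 (v : Fin 2 → k) : W0 v ≤ W1 v := fun X hX => by
  rw [mem_W1_iff, hX.1]
  exact Submodule.zero_mem _

end Filtration

/-! ### Classes of level-constant cocycles with values in a submodule -/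

section Classes

variable {R G : Type} [CommRing R] [Group G]

/-- The cocycles of `A` with values in the submodule `W`. -/
def cocyclesIn (A : Rep R G) (W : Submodule R A) : Submodule R (cocycles₁ A) where
  carrier := {c | ∀ g : G, (c : G → A) g ∈ W}
  add_mem' := fun hc hc' g => W.add_mem (hc g) (hc' g)
  zero_mem' := fun _ => W.zero_mem
  smul_mem' := fun a _ hc g => W.smul_mem a (hc g)

/-- The classes in `H¹(G, A)` of the level-constant cocycles (w.r.t. `loc : G → G_ℚ`, the Prelude's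
`IsLevelConstant₁`) with values in `W`. -/
noncomputable def classesIn (loc : G →* GQ) (A : Rep R G) (W : Submodule R A) : Submodule R (H1 A) :=
  (levelCocycles₁ loc A ⊓ cocyclesIn A W).map (H1π A).hom

theorem mem_classesIn_iff (loc : G →* GQ) (A : Rep R G) (W : Submodule R A) (x : H1 A) :
    x ∈ classesIn loc A W ↔ ∃ c : cocycles₁ A, IsLevelConstant₁ loc (c : G → A) ∧
      (∀ g : G, (c : G → A) g ∈ W) ∧ (H1π A).hom c = x := by
  constructor
  · rintro ⟨c, ⟨h1, h2⟩, rfl⟩
    exact ⟨c, h1, h2, rfl⟩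
  · rintro ⟨c, h1, h2, rfl⟩
    exact ⟨c, ⟨h1, h2⟩, rfl⟩

theorem classesIn_le_continuousH1 (loc : G →* GQ) (A : Rep R G) (W : Submodule R A) :
    classesIn loc A W ≤ continuousH1 loc A :=
  Submodule.map_mono inf_le_left

end Classes

/-! ### The ordinary local condition at `p` -/

section Ord

variable {k : Type} [Field k] (p : ℕ) [Fact p.Prime]

/-- `ad⁰ρ̄` restricted to `G_p`. -/
noncomputable abbrev ad0Loc (rbar : GQ →* M2 k) : Rep k (primeLocalGaloisGroup (pPrime p)) :=
  Rep.res (primeLocalToGlobal (pPrime p)) (ad0 rbar)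

/-- **`L_p^{ord}`**: the classes in `H¹(G_p, ad⁰ρ̄)` of level-constant cocycles with values in `W⁰(v)`. -/
noncomputable def Lord (rbar : GQ →* M2 k) (v : Fin 2 → k) : Submodule k (H1 (ad0Loc p rbar)) :=
  classesIn (primeLocalToGlobal (pPrime p)) (ad0Loc p rbar) (W0 v)

/-- Matrix form, at the Prelude's place `P = primeLocalPlace (pPrime p)` and over a field of characteristic `p`, of
`IsStrictOrdinaryAt p` for `rbar` itself ((Hρ̄) of the spine): `⟨v⟩` is stable under `D_P`, `D_P` acts on `⟨v⟩` by `x`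
and on `k²/⟨v⟩` by `z` with `x = ω z`, and `I_P` acts trivially on `k²/⟨v⟩`. -/
structure IsStrictOrdLine (rbar : GQ →* M2 k) (v : Fin 2 → k) : Prop where
  ne : v ≠ 0
  dec : ∀ σ ∈ (primeLocalPlace (pPrime p)).decompositionSubgroup ℚ, ∃ x z : k,
    (rbar σ).mulVec v = x • v ∧ (∀ w : Fin 2 → k, (rbar σ).mulVec w - z • w ∈ Submodule.span k {v}) ∧
      ∀ a : ℕ, (∀ μ : AlgebraicClosure ℚ, μ ^ p = 1 → σ μ = μ ^ a) → x = (a : k) * z
  inert : ∀ σ ∈ (primeLocalPlace (pPrime p)).inertiaSubgroupIn ℚ, ∀ w : Fin 2 → k,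
    (rbar σ).mulVec w - w ∈ Submodule.span k {v}

/-- The level-constant `ω`-cocycles `G_p → 𝔽_p` (`= Z¹_cont(G_p, 𝔽_p(ω))`, Mathlib's convention
`f (g h) = f g + g • f h`). -/
def KumZ : Type :=
  {f : primeLocalGaloisGroup (pPrime p) → ZMod p //
    IsLevelConstant₁ (primeLocalToGlobal (pPrime p)) f ∧
      ∀ g h, f (g * h) = f g + ((cycloChar p (primeLocalToGlobal (pPrime p) g) : (ZMod p)ˣ) : ZMod p) * f h}

/-- The input from chapter KUM: `#Z¹_cont(G_p, 𝔽_p(ω)) ≤ p³` (`⇔ #H¹_cont(G_p, 𝔽_p(ω)) ≤ p²`, as `#B¹ = p`). -/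
def KumBound : Prop := Finite (KumZ p) ∧ Nat.card (KumZ p) ≤ p ^ 3

/-- **(a) the line**: (Hρ̄) at `p` in matrix form, for the matrix model `Sl.rbar` of `ρ̄`. -/
def OrdLine (𝒪 : Type) [CommRing 𝒪] [IsLocalRing 𝒪] : Prop :=
  ∀ (ρbar : ResidualGaloisRep (IsLocalRing.ResidueField 𝒪)) (Sl : SliceData 𝒪 ρbar),
    (GaloisRepAdic.ofResidualGaloisRep ρbar).IsStrictOrdinaryAt p →
      ∃ v : Fin 2 → IsLocalRing.ResidueField 𝒪, IsStrictOrdLine p Sl.rbar v

/-- **(c) membership**: the local class at `p` of the `ε`-part cocycle of a strict-ordinary lift of `rbar` to `k[ε]`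
with cyclotomic determinant lies in `L_p^{ord}`. -/
def OrdMember (k : Type) [Field k] : Prop :=
  p ≠ 2 → ∀ (rbar : GQ →* M2 k) (v : Fin 2 → k), IsStrictOrdLine p rbar v →
    ∀ (r : GQ →* M2 (DualNumber k)) (hr : MatCont r), (∀ σ, fstM (r σ) = rbar σ) →
      (ofMatrix r hr).DetIsCyclotomic p → (ofMatrix r hr).IsStrictOrdinaryAt p →
      ∀ c : cocycles₁ (ad0 rbar), (∀ σ, ((c σ : sl2 k) : M2 k) = epsPart r σ) →
        (map (primeLocalToGlobal (pPrime p)) (𝟙 (ad0Loc p rbar)) 1).hom ((H1π (ad0 rbar)).hom c) ∈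
          Lord p rbar v

/-- **(b) the count**: `#L_p^{ord} ≤ |k| · #H⁰(G_p, ad⁰ρ̄)`. -/
def OrdCount (k : Type) [Field k] : Prop :=
  Finite k → ∀ (rbar : GQ →* M2 k), GaloisFactorsThroughFiniteLevel rbar →
    ∀ v : Fin 2 → k, IsStrictOrdLine p rbar v → KumBound p →
      Finite ↥(Lord p rbar v) ∧
        Nat.card ↥(Lord p rbar v) ≤ Nat.card k * Nat.card ↥((ad0Loc p rbar).ρ.invariants)

end Ord

end Fermat.Agent.ES.T56.OrdIface11
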