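/-
Programme T (S56, Taylor–Wiles primes), chapter FLAT, leg FLAT-C (helper20): the CONTRACT file of the
flat local condition at `p` (twin of `OrdIface11`).

`k` a finite field of characteristic `p` (odd), `rbar : G_ℚ → GL₂(k)` in S53's matrix model,
`ad⁰ = ad0 rbar` (`Ad0Rep10`), `G_p = Gp p = primeLocalGaloisGroup (pPrime p)`
(`= Gal(PadicAlgCl p / ℚ_[p])`, definitionally), `locp p = primeLocalToGlobal (pPrime p)`.

* `IsBounded p f`        : `f : G_p → X` vanishes on the pointwise fixer of some field `F ∈ 𝓕`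
                           (`𝓕 = FlatClass p (PadicAlgCl p)`, the directed class of `FlatClass20`:
                           finite Galois extensions of `ℚ_p` with Fontaine's `(P_m)`, `m > p/(p-1)`);
* `boundedCocycles p A`  : the bounded 1-cocycles of `A : Rep k G_p` (a submodule);
* `Lflat p rbar W`       : **`L_p^{fl}(W)`** = classes in `H¹(G_p, ad⁰ρ̄)` of the level-constant, bounded
                           cocycles with values in `W ≤ sl₂(k)` (used with `W = ⊤` and `W = W1 v`);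
* `inertiaGp p`, `ActsOnMuGp p g n`, `IsOmegaOnInertia p ψ` : inertia of `G_p`, `g ζ = ζ ^ n` on `μ_p`,
                           `ψ|_I = ω|_I`;
* `ZbPsi p ψ`, `ZbPsiOn p H ξ` : level-constant bounded `ψ`-cocycles `G_p → k` (resp. `H → k`);
* INPUT `Prop`s (other chapters): `KumF1`, `KumF2` (chapter KUM, count of bounded `ψ`-cocycles over
  `ℚ_p` and over the unramified quadratic extension), `OmegaSqNeOne` (`ω²|_I ≠ 1` for `p ≥ 5`),
  `FlatPSplit`, `FlatPLowerLeft` (FLAT-P: Lemma Q), `IrrShape`, `RedShape` (tame structure of `G_p`);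
* OUTPUT `Prop` : `FlatExportM p k` — what TOP consumes: a subspace `L ≤ continuousH1` with
  `#L ≤ |k| · #H⁰(G_p, ad⁰ρ̄)` containing the local class of every flat lift to `k[ε]`.

Only definitions, elementary closure lemmas and `Prop`-valued statements here.
-/
import Mathlib
import Fermat.Prelude.Def_GaloisRep_Flat
import Fermat.Prelude.Def_GaloisRep_Residual
import Fermat.Prelude.Def_GroupCohomology_ContinuousUnramified
import Fermat.Agent.S53.Defs
import Fermat.Agent.ES.T56.Ad0Rep10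
import Fermat.Agent.ES.T56.OrdIface11
import Fermat.Agent.ES.T56.FlatClass20

set_option autoImplicit false
set_option linter.unusedSectionVars false

namespace Fermat.Agent.ES.T56.FlatIface20

open CategoryTheory groupCohomology ExtCitation Polynomial Fermat.Agent.S53
  Fermat.Agent.ES.T56.Ad0Rep10 Fermat.Agent.ES.T56.OrdIface11 Fermat.Agent.ES.T56.FlatClass20

noncomputable section

variable (p : ℕ) [Fact p.Prime]

/-! ### `G_p` and its two descriptions -/

/-- `G_p = Gal(ℚ̄_p/ℚ_p)` (the Prelude's `primeLocalGaloisGroup (pPrime p)`). -/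
abbrev Gp : Type := primeLocalGaloisGroup (pPrime p)

/-- `G_p → G_ℚ` (the Prelude's `primeLocalToGlobal (pPrime p)`). -/
abbrev locp : Gp p →* GQ := primeLocalToGlobal (pPrime p)

/-- An automorphism of `PadicAlgCl p` over `ℚ_[p]`, as an element of `G_p` (definitional). -/
def toGp (τ : PadicAlgCl p ≃ₐ[ℚ_[p]] PadicAlgCl p) : Gp p := τ

/-- An element of `G_p`, as an automorphism of `PadicAlgCl p` over `ℚ_[p]` (definitional). -/
def ofGp (g : Gp p) : PadicAlgCl p ≃ₐ[ℚ_[p]] PadicAlgCl p := g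

@[simp] theorem toGp_ofGp (g : Gp p) : toGp p (ofGp p g) = g := rfl

@[simp] theorem ofGp_toGp (τ : PadicAlgCl p ≃ₐ[ℚ_[p]] PadicAlgCl p) : ofGp p (toGp p τ) = τ := rfl

theorem ofGp_mul (g h : Gp p) : ofGp p (g * h) = ofGp p g * ofGp p h := rfl

theorem ofGp_one : ofGp p (1 : Gp p) = 1 := rfl

theorem ofGp_inv (g : Gp p) : ofGp p g⁻¹ = (ofGp p g)⁻¹ := rfl

theorem locp_apply (g : Gp p) : locp p g = localGaloisToGlobal p (ofGp p g) := rfl

/-- `g` fixes the field `F` pointwise. -/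
def FixesField (F : IntermediateField ℚ_[p] (PadicAlgCl p)) (g : Gp p) : Prop :=
  ∀ y ∈ F, ofGp p g y = y

theorem FixesField.mul {F : IntermediateField ℚ_[p] (PadicAlgCl p)} {g h : Gp p}
    (hg : FixesField p F g) (hh : FixesField p F h) : FixesField p F (g * h) := fun y hy => by
  rw [ofGp_mul, AlgEquiv.mul_apply, hh y hy, hg y hy]

theorem FixesField.one (F : IntermediateField ℚ_[p] (PadicAlgCl p)) : FixesField p F 1 :=
  fun _ _ => rfl

theorem FixesField.inv {F : IntermediateField ℚ_[p] (PadicAlgCl p)} {g : Gp p}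
    (hg : FixesField p F g) : FixesField p F g⁻¹ := fun y hy => by
  rw [ofGp_inv]
  conv_lhs => rw [← hg y hy]
  exact (ofGp p g).symm_apply_apply y

theorem FixesField.mono {F F' : IntermediateField ℚ_[p] (PadicAlgCl p)} (h : F ≤ F') {g : Gp p}
    (hg : FixesField p F' g) : FixesField p F g := fun y hy => hg y (h hy)

/-- The fixer of a field which is normal over `ℚ_p` is stable under conjugation. -/
theorem FixesField.conj {F : IntermediateField ℚ_[p] (PadicAlgCl p)} [Normal ℚ_[p] ↥F] {g : Gp p}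
    (hg : FixesField p F g) (σ : Gp p) : FixesField p F (σ * g * σ⁻¹) := fun y hy => by
  rw [ofGp_mul, ofGp_mul, ofGp_inv, AlgEquiv.mul_apply, AlgEquiv.mul_apply]
  have h1 : (ofGp p σ)⁻¹ y ∈ F := by
    have := AlgHom.fieldRange_of_normal (E := F) (((ofGp p σ)⁻¹ : _ ≃ₐ[ℚ_[p]] _).toAlgHom.comp F.val)
    have h2 : (ofGp p σ)⁻¹ y ∈
        (((ofGp p σ)⁻¹ : _ ≃ₐ[ℚ_[p]] _).toAlgHom.comp F.val).fieldRange := ⟨⟨y, hy⟩, rfl⟩
    rwa [this] at h2
  rw [hg _ h1]
  exact (ofGp p σ).apply_symm_apply y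

/-! ### Bounded functions and cocycles -/

/-- `f : G_p → X` is **bounded**: it vanishes on the pointwise fixer of some `F ∈ 𝓕`. -/
def IsBounded {X : Type*} [Zero X] (f : Gp p → X) : Prop :=
  ∃ F ∈ FlatClass p (PadicAlgCl p), ∀ g : Gp p, FixesField p F g → f g = 0

variable {p}

theorem isBounded_zero {X : Type*} [Zero X] : IsBounded p (0 : Gp p → X) :=
  ⟨⊥, bot_mem, fun _ _ => rfl⟩

theorem IsBounded.add {X : Type*} [AddZeroClass X] {f f' : Gp p → X} (hf : IsBounded p f)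
    (hf' : IsBounded p f') : IsBounded p (f + f') := by
  obtain ⟨F, hF, h⟩ := hf
  obtain ⟨F', hF', h'⟩ := hf'
  refine ⟨F ⊔ F', sup_mem hF hF', fun g hg => ?_⟩
  rw [Pi.add_apply, h g (hg.mono p le_sup_left), h' g (hg.mono p le_sup_right), add_zero]

theorem IsBounded.comp {X Y : Type*} [Zero X] [Zero Y] {f : Gp p → X} (hf : IsBounded p f)
    (φ : X → Y) (hφ : φ 0 = 0) : IsBounded p (φ ∘ f) := by
  obtain ⟨F, hF, h⟩ := hf
  exact ⟨F, hF, fun g hg => by rw [Function.comp_apply, h g hg, hφ]⟩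

theorem IsBounded.smul {R X : Type*} [Zero X] [SMulZeroClass R X] {f : Gp p → X}
    (hf : IsBounded p f) (a : R) : IsBounded p (a • f) :=
  hf.comp (fun x => a • x) (smul_zero a)

theorem IsBounded.neg {X : Type*} [SubtractionMonoid X] {f : Gp p → X} (hf : IsBounded p f) :
    IsBounded p (-f) :=
  hf.comp (fun x => -x) neg_zero

/-- Two bounded functions vanish on a common fixer. -/
theorem IsBounded.exists_common {X Y : Type*} [Zero X] [Zero Y] {f : Gp p → X} {f' : Gp p → Y}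
    (hf : IsBounded p f) (hf' : IsBounded p f') :
    ∃ F ∈ FlatClass p (PadicAlgCl p), ∀ g : Gp p, FixesField p F g → f g = 0 ∧ f' g = 0 := by
  obtain ⟨F, hF, h⟩ := hf
  obtain ⟨F', hF', h'⟩ := hf'
  exact ⟨F ⊔ F', sup_mem hF hF', fun g hg =>
    ⟨h g (hg.mono p le_sup_left), h' g (hg.mono p le_sup_right)⟩⟩

variable (p)

/-- The bounded 1-cocycles of a representation of `G_p`. -/
def boundedCocycles {k : Type} [CommRing k] (A : Rep k (Gp p)) : Submodule k (cocycles₁ A) where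
  carrier := {c | IsBounded p (c : Gp p → A)}
  add_mem' := fun {c c'} hc hc' => by
    have : ((c + c' : cocycles₁ A) : Gp p → A) = (c : Gp p → A) + (c' : Gp p → A) := rfl
    rw [Set.mem_ofPred_eq, this]
    exact IsBounded.add hc hc'
  zero_mem' := isBounded_zero
  smul_mem' := fun a c hc => by
    have : ((a • c : cocycles₁ A) : Gp p → A) = a • (c : Gp p → A) := rfl
    rw [Set.mem_ofPred_eq, this]
    exact IsBounded.smul hc a

theorem mem_boundedCocycles_iff {k : Type} [CommRing k] (A : Rep k (Gp p)) (c : cocycles₁ A) :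
    c ∈ boundedCocycles p A ↔ IsBounded p (c : Gp p → A) := Iff.rfl

/-- The level-constant bounded cocycles with values in `W`. -/
def flatCocycles {k : Type} [CommRing k] (A : Rep k (Gp p)) (W : Submodule k A) :
    Submodule k (cocycles₁ A) :=
  levelCocycles₁ (locp p) A ⊓ boundedCocycles p A ⊓ cocyclesIn A W

theorem mem_flatCocycles_iff {k : Type} [CommRing k] (A : Rep k (Gp p)) (W : Submodule k A)
    (c : cocycles₁ A) : c ∈ flatCocycles p A W ↔
      IsLevelConstant₁ (locp p) (c : Gp p → A) ∧ IsBounded p (c : Gp p → A) ∧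
        ∀ g : Gp p, (c : Gp p → A) g ∈ W :=
  ⟨fun h => ⟨h.1.1, h.1.2, h.2⟩, fun h => ⟨⟨h.1, h.2.1⟩, h.2.2⟩⟩

/-- **`L_p^{fl}(W)`**: the classes in `H¹(G_p, ad⁰ρ̄)` of the level-constant bounded cocycles with values
in `W`. -/
def Lflat {k : Type} [Field k] (rbar : GQ →* M2 k) (W : Submodule k (sl2 k)) :
    Submodule k (H1 (ad0Loc p rbar)) :=
  (flatCocycles p (ad0Loc p rbar) W).map (H1π (ad0Loc p rbar)).hom

theorem mem_Lflat_iff {k : Type} [Field k] (rbar : GQ →* M2 k) (W : Submodule k (sl2 k))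
    (x : H1 (ad0Loc p rbar)) :
    x ∈ Lflat p rbar W ↔ ∃ c : cocycles₁ (ad0Loc p rbar),
      IsLevelConstant₁ (locp p) (c : Gp p → ad0Loc p rbar) ∧
      IsBounded p (c : Gp p → ad0Loc p rbar) ∧
      (∀ g : Gp p, (c : Gp p → ad0Loc p rbar) g ∈ W) ∧ (H1π (ad0Loc p rbar)).hom c = x := by
  constructor
  · rintro ⟨c, hc, rfl⟩
    obtain ⟨h1, h2, h3⟩ := (mem_flatCocycles_iff p _ W c).1 hc
    exact ⟨c, h1, h2, h3, rfl⟩
  · rintro ⟨c, h1, h2, h3, rfl⟩
    exact ⟨c, (mem_flatCocycles_iff p _ W c).2 ⟨h1, h2, h3⟩, rfl⟩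

theorem Lflat_le_continuousH1 {k : Type} [Field k] (rbar : GQ →* M2 k)
    (W : Submodule k (sl2 k)) :
    Lflat p rbar W ≤ continuousH1 (locp p) (ad0Loc p rbar) :=
  Submodule.map_mono fun _ h => h.1.1

theorem Lflat_mono {k : Type} [Field k] (rbar : GQ →* M2 k) {W W' : Submodule k (sl2 k)}
    (h : W ≤ W') : Lflat p rbar W ≤ Lflat p rbar W' :=
  Submodule.map_mono fun _ hc => ⟨hc.1, fun g => h (hc.2 g)⟩

/-! ### Inertia, the cyclotomic character, `ψ`-cocycles -/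

/-- The inertia subgroup of `G_p` (pulled back from the Prelude's place over `p`). -/
def inertiaGp : Subgroup (Gp p) :=
  ((primeLocalPlace (pPrime p)).inertiaSubgroupIn ℚ).comap (locp p)

/-- `g` acts on the `p`-th roots of unity of `ℚ̄` as `μ ↦ μ ^ n`. -/
def ActsOnMuGp (g : Gp p) (n : ℕ) : Prop :=
  ∀ μ : AlgebraicClosure ℚ, μ ^ p = 1 → locp p g μ = μ ^ n

variable {k : Type} [Field k]

/-- `ψ|_I = ω|_I`. -/
def IsOmegaOnInertia (ψ : Gp p →* kˣ) : Prop :=
  ∀ g ∈ inertiaGp p, ∀ n : ℕ, ActsOnMuGp p g n → ((ψ g : kˣ) : k) = (n : k)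

/-- The level-constant bounded `ψ`-cocycles `G_p → k` (`f (g h) = f g + ψ g · f h`). -/
def ZbPsi (ψ : Gp p →* kˣ) : Set (Gp p → k) :=
  {f | IsLevelConstant₁ (locp p) f ∧ IsBounded p f ∧
    ∀ g h : Gp p, f (g * h) = f g + ((ψ g : kˣ) : k) * f h}

/-- The level-constant bounded `ξ`-cocycles `H → k` on a subgroup `H ≤ G_p`. -/
def ZbPsiOn (H : Subgroup (Gp p)) (ξ : ↥H →* kˣ) : Set (↥H → k) :=
  {f | IsLevelConstant₁ ((locp p).comp H.subtype) f ∧
    (∃ F ∈ FlatClass p (PadicAlgCl p), ∀ h : ↥H, FixesField p F (h : Gp p) → f h = 0) ∧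
    ∀ g h : ↥H, f (g * h) = f g + ((ξ g : kˣ) : k) * f h}

/-! ### Inputs from chapter KUM -/

open Classical in
/-- **KUM, `f = 1`**: for a level-constant character `ψ : G_p → kˣ`,
`#Z¹_b(G_p, k(ψ)) ≤ |k| ^ (1 + [ψ|_I = ω|_I])`. -/
def KumF1 (k : Type) [Field k] : Prop :=
  p ≠ 2 → Finite k → CharP k p → ∀ ψ : Gp p →* kˣ, IsLevelConstant₁ (locp p) ψ →
    (ZbPsi p ψ).Finite ∧
      Nat.card ↥(ZbPsi p ψ) ≤ Nat.card k ^ (1 + if IsOmegaOnInertia p ψ then 1 else 0)

/-- **KUM, `f = 2`**: `H ≤ G_p` of index `2` containing the inertia group (and open), `χ : H → kˣ` a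
level-constant character with `χ · χ^σ = ω` on `H` (`σ ∉ H`) and `χ^σ ≠ χ` on inertia (so that
`𝔽_{p²} ⊆ k`), `ξ = χ / χ^σ`: `#Z¹_b(H, k(ξ)) ≤ |k|²`. -/
def KumF2 (k : Type) [Field k] : Prop :=
  p ≠ 2 → Finite k → CharP k p → ∀ (H : Subgroup (Gp p)) [H.Normal], H.index = 2 →
    inertiaGp p ≤ H →
    (∃ F₀ : IntermediateField ℚ (AlgebraicClosure ℚ), FiniteDimensional ℚ F₀ ∧
      ∀ g : Gp p, locp p g ∈ F₀.fixingSubgroup → g ∈ H) →
    ∀ (χ ξ : ↥H →* kˣ), IsLevelConstant₁ ((locp p).comp H.subtype) χ →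
    ∀ σ : Gp p, σ ∉ H →
      (∀ (h : ↥H) (n : ℕ), ActsOnMuGp p (h : Gp p) n →
        ((χ h : kˣ) : k) * ((χ (MulAut.conjNormal σ h) : kˣ) : k) = (n : k)) →
      (∃ h : ↥H, (h : Gp p) ∈ inertiaGp p ∧ χ (MulAut.conjNormal σ h) ≠ χ h) →
      (∀ h : ↥H, ξ h * χ (MulAut.conjNormal σ h) = χ h) →
      (ZbPsiOn p H ξ).Finite ∧ Nat.card ↥(ZbPsiOn p H ξ) ≤ Nat.card k ^ 2

/-- `ω²|_I ≠ 1` for `p ≥ 5` (`ℚ_p(ζ_p)/ℚ_p` is totally ramified of degree `p - 1 > 2`). -/
def OmegaSqNeOne : Prop :=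
  5 ≤ p → ∃ g ∈ inertiaGp p, ∃ n : ℕ, ActsOnMuGp p g n ∧ ¬ (n ^ 2 ≡ 1 [MOD p])

/-! ### The shape of `ρ̄|_{G_p}` (tame structure of `G_p`) -/

/-- `v` spans a `G_p`-stable line on which `G_p` acts by `ψ₁`, and acts by `ψ₂` on the quotient. -/
structure IsStableLine (rbar : GQ →* M2 k) (v : Fin 2 → k) (ψ₁ ψ₂ : Gp p →* kˣ) : Prop where
  ne : v ≠ 0
  sub : ∀ g : Gp p, (rbar (locp p g)).mulVec v = ((ψ₁ g : kˣ) : k) • v
  quot : ∀ (g : Gp p) (w : Fin 2 → k),
    (rbar (locp p g)).mulVec w - ((ψ₂ g : kˣ) : k) • w ∈ Submodule.span k {v}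

/-- `ρ̄|_{G_p}` has no stable line. -/
def IsLocIrreducible (rbar : GQ →* M2 k) : Prop :=
  ∀ v : Fin 2 → k, v ≠ 0 → ∃ g : Gp p, (rbar (locp p g)).mulVec v ∉ Submodule.span k {v}

/-- A character is unramified. -/
def IsUnramChar (ψ : Gp p →* kˣ) : Prop := ∀ g ∈ inertiaGp p, ψ g = 1

/-- **The irreducible shape**: if `ρ̄|_{G_p}` has no stable line (and all eigenvalues of `ρ̄` lie in `k`),
there are an index-2 subgroup `H ⊇ I` and a basis in which `ρ̄|_H` is diagonal, with two characters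
which differ on inertia, and `G_p ∖ H` is anti-diagonal. -/
def IrrShape (k : Type) [Field k] : Prop :=
  p ≠ 2 → Finite k → CharP k p → ∀ rbar : GQ →* M2 k, GaloisFactorsThroughFiniteLevel rbar →
    (∀ σ : GQ, ∃ α β : k, (rbar σ).charpoly = (X - C α) * (X - C β)) →
    IsLocIrreducible p rbar →
    ∃ (H : Subgroup (Gp p)) (_ : H.Normal), H.index = 2 ∧ inertiaGp p ≤ H ∧
      (∃ F₀ : IntermediateField ℚ (AlgebraicClosure ℚ), FiniteDimensional ℚ F₀ ∧
        ∀ g : Gp p, locp p g ∈ F₀.fixingSubgroup → g ∈ H) ∧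
      ∃ (B Binv : M2 k) (χ χ' : ↥H →* kˣ), B * Binv = 1 ∧ Binv * B = 1 ∧
        (∀ h : ↥H, Binv * rbar (locp p (h : Gp p)) * B =
          Matrix.diagonal ![((χ h : kˣ) : k), ((χ' h : kˣ) : k)]) ∧
        (∃ h : ↥H, (h : Gp p) ∈ inertiaGp p ∧ χ h ≠ χ' h) ∧
        ∀ σ : Gp p, σ ∉ H → (Binv * rbar (locp p σ) * B) 0 0 = 0 ∧
          (Binv * rbar (locp p σ) * B) 1 1 = 0

/-- **The reducible shape for `p = 3`**: of the two diagonal characters of a stable line, with product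
`ω`, exactly one is unramified. -/
def RedShape (k : Type) [Field k] : Prop :=
  p = 3 → Finite k → CharP k p → ∀ ψ₁ ψ₂ : Gp p →* kˣ, IsLevelConstant₁ (locp p) ψ₁ →
    IsLevelConstant₁ (locp p) ψ₂ →
    (∀ (g : Gp p) (n : ℕ), ActsOnMuGp p g n → ((ψ₁ g : kˣ) : k) * ((ψ₂ g : kˣ) : k) = (n : k)) →
    IsUnramChar p ψ₁ ∨ IsUnramChar p ψ₂

/-! ### Inputs from FLAT-P (Lemma Q) -/

/-- **FLAT-P (α/β)**: if some flat lift of `rbar` to `k[ε]` exists and `⟨v⟩` is a stable line with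
UNRAMIFIED sub-character `ψ₁`, then there is a complementary stable line (on which `G_p` acts by `ψ₂`,
with quotient character `ψ₁`). -/
def FlatPSplit (k : Type) [Field k] : Prop :=
  p ≠ 2 → Finite k → ∀ (rbar : GQ →* M2 k) (v : Fin 2 → k) (ψ₁ ψ₂ : Gp p →* kˣ),
    IsStableLine p rbar v ψ₁ ψ₂ → IsUnramChar p ψ₁ →
    ∀ (r : GQ →* M2 (DualNumber k)) (hr : MatCont r), (∀ σ, fstM (r σ) = rbar σ) →
      (ofMatrix r hr).DetIsCyclotomic p → (ofMatrix r hr).IsFlatAt p →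
      ∃ v' : Fin 2 → k, IsStableLine p rbar v' ψ₂ ψ₁

/-- **FLAT-P (lower-left)**: if `⟨v⟩` is a stable line with UNRAMIFIED quotient character `ψ₂`, the
`ε`-part cocycle of a flat lift with cyclotomic determinant is, after adding the coboundary of some
`m₀ ∈ sl₂(k)`, valued in `W¹(v)` on `G_p`. -/
def FlatPLowerLeft (k : Type) [Field k] : Prop :=
  p ≠ 2 → Finite k → ∀ (rbar : GQ →* M2 k) (v : Fin 2 → k) (ψ₁ ψ₂ : Gp p →* kˣ),
    IsStableLine p rbar v ψ₁ ψ₂ → IsUnramChar p ψ₂ →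
    ∀ (r : GQ →* M2 (DualNumber k)) (hr : MatCont r), (∀ σ, fstM (r σ) = rbar σ) →
      (ofMatrix r hr).DetIsCyclotomic p → (ofMatrix r hr).IsFlatAt p →
      ∃ m₀ : M2 k, m₀.trace = 0 ∧ ∀ g : Gp p,
        (epsPart r (locp p g) +
          (rbar (locp p g) * m₀ * rbar (locp p g)⁻¹ - m₀)).mulVec v ∈ Submodule.span k {v}

/-! ### The export -/

/-- **FLAT-EXPORT** (matrix model): a subspace `L` of the continuous local classes with
`#L ≤ |k| · #H⁰(G_p, ad⁰ρ̄)` which contains the local class at `p` of the `ε`-part cocycle of every flat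
lift of `rbar` to `k[ε]` with cyclotomic determinant. -/
def FlatExportM (k : Type) [Field k] : Prop :=
  p ≠ 2 → Finite k → CharP k p → ∀ rbar : GQ →* M2 k, GaloisFactorsThroughFiniteLevel rbar →
    (∀ (σ : GQ) (a : ℕ), (∀ μ : AlgebraicClosure ℚ, μ ^ p = 1 → σ μ = μ ^ a) →
      (rbar σ).det = (a : k)) →
    (∀ σ : GQ, ∃ α β : k, (rbar σ).charpoly = (X - C α) * (X - C β)) →
    ∃ L : Submodule k (H1 (ad0Loc p rbar)),
      L ≤ continuousH1 (locp p) (ad0Loc p rbar) ∧ Finite ↥L ∧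
      Nat.card ↥L ≤ Nat.card k * Nat.card ↥((ad0Loc p rbar).ρ.invariants) ∧
      ∀ (r : GQ →* M2 (DualNumber k)) (hr : MatCont r), (∀ σ, fstM (r σ) = rbar σ) →
        (ofMatrix r hr).DetIsCyclotomic p → (ofMatrix r hr).IsFlatAt p →
        ∀ c : cocycles₁ (ad0 rbar), (∀ σ, ((c σ : sl2 k) : M2 k) = epsPart r σ) →
          (map (locp p) (𝟙 (ad0Loc p rbar)) 1).hom ((H1π (ad0 rbar)).hom c) ∈ L

end

end Fermat.Agent.ES.T56.FlatIface20
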