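/-
Programme T (S56), chapter FLAT, Hopf side, brick `NormPi` (helper20): the bridge between the
spectral norm of a `p`-adic field `E` (PT/LOC model) and divisibility by powers of a uniformizer
in `𝒪 = intRing p E`.

* `piAdic_of_pow` : `PiAdic B a`, `a = u · ϖ ^ e`, `e ≥ 1` ⟹ `PiAdic B ϖ`.
* for an irreducible `ϖ` of `𝒪` (`Unif p E ϖ`): `exists_p_eq` (`p = ϖ ^ e · u`, `e ≥ 1`),
  `snorm_unif_pow` (`|ϖ| ^ e = p⁻¹`), `dvd_iff_snorm_le` (`ϖ ^ k ∣ z ↔ |z| ≤ |ϖ| ^ k`),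
  `piAdic_unif`, and the real-exponent bridge
  `exists_tau` : for real `t ≥ 0` there is `τ : ℕ` with `t e ≤ τ` and
  `∀ z : 𝒪, |z| ≤ p ^ (-t) ↔ ϖ ^ τ ∣ z`, `∀ z, |z| ≤ p ^ (-(1 + t)) ↔ p ϖ ^ τ ∣ z`.
-/
import Mathlib
import Fermat.Agent.PT.LOC.Interface12
import Fermat.Agent.PT.LOC.Structure14
import Fermat.Agent.PT.LOC.UnitFiltration10
import Fermat.Agent.PT.LOC.IntRingCyclic10

set_option autoImplicit false
set_option linter.unusedSectionVars false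

namespace Fermat.Agent.ES.T56.NormPi20

open scoped Fermat.Agent.PT.LOC.Interface12
open Fermat.Agent.PT.LOC.Interface12 Fermat.Agent.PT.LOC.Structure14
  Fermat.Agent.PT.LOC.UnitFiltration10

section Abstract

variable {B : Type*} [CommRing B]

/-- `a`-adic ⟹ `ϖ`-adic when `a = u ϖ ^ e`, `e ≥ 1`. -/
theorem piAdic_of_pow {a ϖ : B} (h : PiAdic B a) {e : ℕ} (he : 1 ≤ e) {u : Bˣ}
    (ha : a = ϖ ^ e * u) : PiAdic B ϖ := by
  have hdvd : ∀ k, a ^ k ∣ ϖ ^ (e * k) := fun k => by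
    refine ⟨((u⁻¹ : Bˣ) : B) ^ k, ?_⟩
    rw [ha, mul_pow, ← pow_mul, mul_assoc, ← mul_pow, Units.mul_inv, one_pow, mul_one]
  have hdvd' : ∀ k, ϖ ^ (e * k) ∣ a ^ k := fun k => by
    refine ⟨(u : B) ^ k, ?_⟩
    rw [ha, mul_pow, ← pow_mul]
  have hek : ∀ k, k ≤ e * k := fun k => Nat.le_mul_of_pos_left k he
  refine ⟨fun x hx => ?_, fun x hx => ?_, fun f hf => ?_⟩
  · apply h.nzd
    obtain ⟨e', rfl⟩ : ∃ e', e = e' + 1 := ⟨e - 1, by omega⟩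
    rw [ha, pow_succ]
    calc ϖ ^ e' * ϖ * ↑u * x = ϖ ^ e' * ↑u * (ϖ * x) := by ring
      _ = 0 := by rw [hx, mul_zero]
  · apply h.sep
    intro k
    exact (hdvd k).trans (hx (e * k))
  · have hcau : ∀ {k j : ℕ}, k ≤ j → ϖ ^ k ∣ f j - f k := fun {k j} hkj =>
      Fermat.Agent.PT.LOC.IntRingCyclic10.cauchy_dvd_sub hf hkj
    obtain ⟨L, hL⟩ := h.complete (fun k => f (e * k)) (fun k => by
      refine (hdvd k).trans ?_
      exact hcau (Nat.mul_le_mul_left e (Nat.le_succ k)))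
    refine ⟨L, fun k => ?_⟩
    have h1 : ϖ ^ k ∣ L - f (e * k) :=
      (pow_dvd_pow ϖ (hek k)).trans ((hdvd' k).trans (hL k))
    have h2 : ϖ ^ k ∣ f (e * k) - f k := hcau (hek k)
    have : L - f k = (L - f (e * k)) + (f (e * k) - f k) := by ring
    rw [this]
    exact dvd_add h1 h2

end Abstract

noncomputable section

variable (p : ℕ) [Fact p.Prime] (E : Type) [Field E] [Algebra ℚ_[p] E] [FiniteDimensional ℚ_[p] E]

/-- the spectral norm of an element of the ring of integers. -/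
abbrev nrm (z : intRing p E) : ℝ := snorm p E (z : E)

theorem nrm_le_one (z : intRing p E) : nrm p E z ≤ 1 := (mem_intRing_iff p E _).1 z.2

theorem nrm_mul (x y : intRing p E) : nrm p E (x * y) = nrm p E x * nrm p E y := by
  change snorm p E ((x * y : intRing p E) : E) = _
  rw [Subalgebra.coe_mul, snorm_mul]

theorem nrm_pow (x : intRing p E) (k : ℕ) : nrm p E (x ^ k) = nrm p E x ^ k := by
  induction k with
  | zero =>
    change snorm p E ((x ^ 0 : intRing p E) : E) = _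
    rw [pow_zero, pow_zero, Subalgebra.coe_one, snorm_one]
  | succ k ih => rw [pow_succ, nrm_mul, ih, pow_succ]

theorem nrm_one : nrm p E 1 = 1 := by
  change snorm p E ((1 : intRing p E) : E) = 1
  rw [Subalgebra.coe_one, snorm_one]

theorem nrm_unit (u : (intRing p E)ˣ) : nrm p E (u : intRing p E) = 1 := by
  have h1 := nrm_le_one p E (u : intRing p E)
  have h2 := nrm_le_one p E ((u⁻¹ : (intRing p E)ˣ) : intRing p E)
  have h3 : nrm p E (u : intRing p E) * nrm p E ((u⁻¹ : (intRing p E)ˣ) : intRing p E) = 1 := by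
    rw [← nrm_mul, Units.mul_inv, nrm_one]
  have h4 : 0 ≤ nrm p E (u : intRing p E) := snorm_nonneg p E _
  have h5 : 0 ≤ nrm p E ((u⁻¹ : (intRing p E)ˣ) : intRing p E) := snorm_nonneg p E _
  nlinarith

theorem nrm_natCast_p : nrm p E ((p : ℕ) : intRing p E) = (p : ℝ)⁻¹ := by
  change snorm p E (((p : ℕ) : intRing p E) : E) = _
  rw [SubringClass.coe_natCast, snorm_natCast_q]

theorem nrm_eq_zero_iff (z : intRing p E) : nrm p E z = 0 ↔ z = 0 := by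
  rw [nrm, snorm_eq_zero_iff]
  exact ⟨fun h => Subtype.ext h, fun h => by rw [h]; rfl⟩

/-- `ϖ` is a uniformizer (irreducible element) of `𝒪`. -/
abbrev Unif (ϖ : intRing p E) : Prop := Irreducible ϖ

theorem exists_unif : ∃ ϖ : intRing p E, Unif p E ϖ :=
  IsDiscreteValuationRing.exists_irreducible (intRing p E)

variable {p E}
variable {ϖ : intRing p E} (hϖ : Unif p E ϖ)

include hϖ

theorem nrm_unif_pos : 0 < nrm p E ϖ := by
  refine lt_of_le_of_ne (snorm_nonneg p E _) (fun h => ?_)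
  exact hϖ.ne_zero ((nrm_eq_zero_iff p E ϖ).1 h.symm)

theorem nrm_unif_lt_one : nrm p E ϖ < 1 := by
  refine lt_of_le_of_ne (nrm_le_one p E ϖ) (fun h => ?_)
  -- `|ϖ| = 1` would make `ϖ` a unit
  apply hϖ.not_isUnit
  have hne : (ϖ : E) ≠ 0 := fun h0 => hϖ.ne_zero (Subtype.ext h0)
  have hinv : (ϖ : E)⁻¹ ∈ intRing p E := by
    rw [mem_intRing_iff]
    change snorm p E (ϖ : E)⁻¹ ≤ 1
    rw [snorm_inv]
    change (nrm p E ϖ)⁻¹ ≤ 1
    rw [h, inv_one]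
  refine ⟨⟨ϖ, ⟨(ϖ : E)⁻¹, hinv⟩, ?_, ?_⟩, rfl⟩
  · exact Subtype.ext (mul_inv_cancel₀ hne)
  · exact Subtype.ext (inv_mul_cancel₀ hne)

/-- `p = ϖ ^ e · u` with `e ≥ 1`. -/
theorem exists_p_eq : ∃ (e : ℕ) (u : (intRing p E)ˣ), 1 ≤ e ∧
    ((p : ℕ) : intRing p E) = ϖ ^ e * u := by
  have hp0 : ((p : ℕ) : intRing p E) ≠ 0 :=
    Fermat.Agent.PT.LOC.IntRingCyclic10.natCast_q_ne_zero p E
  obtain ⟨e, u, hu⟩ := IsDiscreteValuationRing.eq_unit_mul_pow_irreducible hp0 hϖ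
  refine ⟨e, u, ?_, by rw [hu, mul_comm]⟩
  rcases Nat.eq_zero_or_pos e with h0 | h0
  · exfalso
    rw [h0, pow_zero, mul_one] at hu
    have h1 := nrm_natCast_p p E
    rw [hu, nrm_unit] at h1
    have hp1 : (1 : ℝ) < p := by exact_mod_cast (Fact.out : p.Prime).one_lt
    have : (p : ℝ)⁻¹ < 1 := inv_lt_one_of_one_lt₀ hp1
    linarith
  · exact h0

theorem nrm_unif_pow {e : ℕ} {u : (intRing p E)ˣ}
    (hpe : ((p : ℕ) : intRing p E) = ϖ ^ e * u) : nrm p E ϖ ^ e = (p : ℝ)⁻¹ := by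
  rw [← nrm_natCast_p p E, hpe, nrm_mul, nrm_pow, nrm_unit, mul_one]

/-- every non-zero element has norm `|ϖ| ^ k`, `z = ϖ ^ k · unit`. -/
theorem exists_eq_unif_pow {z : intRing p E} (hz : z ≠ 0) :
    ∃ (k : ℕ) (v : (intRing p E)ˣ), z = ϖ ^ k * v ∧ nrm p E z = nrm p E ϖ ^ k := by
  obtain ⟨k, v, hv⟩ := IsDiscreteValuationRing.eq_unit_mul_pow_irreducible hz hϖ
  refine ⟨k, v, by rw [hv, mul_comm], ?_⟩
  rw [hv, nrm_mul, nrm_unit, one_mul, nrm_pow]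

/-- divisibility by `ϖ ^ k` is `|z| ≤ |ϖ| ^ k`. -/
theorem dvd_iff_nrm_le (k : ℕ) (z : intRing p E) : ϖ ^ k ∣ z ↔ nrm p E z ≤ nrm p E ϖ ^ k := by
  constructor
  · rintro ⟨c, rfl⟩
    rw [nrm_mul, nrm_pow]
    have h0 : 0 ≤ nrm p E ϖ ^ k := pow_nonneg (snorm_nonneg p E _) k
    calc nrm p E ϖ ^ k * nrm p E c ≤ nrm p E ϖ ^ k * 1 :=
          mul_le_mul_of_nonneg_left (nrm_le_one p E c) h0
      _ = nrm p E ϖ ^ k := mul_one _
  · intro h
    by_cases hz : z = 0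
    · rw [hz]; exact dvd_zero _
    obtain ⟨j, v, hzv, hj⟩ := exists_eq_unif_pow hϖ hz
    rw [hj] at h
    have hkj : k ≤ j := by
      by_contra hlt
      push Not at hlt
      have := pow_lt_pow_right_of_lt_one₀ (nrm_unif_pos hϖ) (nrm_unif_lt_one hϖ) hlt
      linarith
    rw [hzv]
    exact Dvd.dvd.mul_right (pow_dvd_pow ϖ hkj) _

theorem piAdic_unif : PiAdic (intRing p E) ϖ := by
  obtain ⟨e, u, he, hpe⟩ := exists_p_eq hϖ
  exact piAdic_of_pow (Fermat.Agent.PT.LOC.IntRingCyclic10.piAdic p E) he hpe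

/-- `|ϖ| ^ k = p ^ (-(k / e))`. -/
theorem nrm_unif_pow_eq_rpow {e : ℕ} {u : (intRing p E)ˣ} (he : 1 ≤ e)
    (hpe : ((p : ℕ) : intRing p E) = ϖ ^ e * u) (k : ℕ) :
    nrm p E ϖ ^ k = (p : ℝ) ^ (-((k : ℝ) / (e : ℝ))) := by
  have hp0 : (0 : ℝ) < p := by exact_mod_cast (Fact.out : p.Prime).pos
  have he0 : (e : ℝ) ≠ 0 := by
    have : (1 : ℝ) ≤ e := by exact_mod_cast he
    linarith
  have h1 : nrm p E ϖ = (p : ℝ) ^ (-(1 / (e : ℝ))) := by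
    have h2 := nrm_unif_pow hϖ hpe
    have h3 : (nrm p E ϖ ^ e) ^ (1 / (e : ℝ)) = nrm p E ϖ := by
      rw [← Real.rpow_natCast, ← Real.rpow_mul (snorm_nonneg p E _), mul_one_div_cancel he0,
        Real.rpow_one]
    rw [← h3, h2, ← Real.rpow_neg_one, ← Real.rpow_mul hp0.le]
    congr 1
    ring
  rw [h1, ← Real.rpow_natCast, ← Real.rpow_mul hp0.le]
  congr 1
  ring

/-- `|z| ≤ p ^ (-t) ↔ ϖ ^ ⌈t e⌉ ∣ z`. -/
theorem nrm_le_rpow_iff {e : ℕ} {u : (intRing p E)ˣ} (he : 1 ≤ e)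
    (hpe : ((p : ℕ) : intRing p E) = ϖ ^ e * u) (t : ℝ) (z : intRing p E) :
    nrm p E z ≤ (p : ℝ) ^ (-t) ↔ ϖ ^ ⌈t * e⌉₊ ∣ z := by
  have hp1 : (1 : ℝ) < p := by exact_mod_cast (Fact.out : p.Prime).one_lt
  have he0 : (0 : ℝ) < e := by
    have : (1 : ℝ) ≤ e := by exact_mod_cast he
    linarith
  have hτ : t * e ≤ (⌈t * e⌉₊ : ℝ) := Nat.le_ceil _
  rw [dvd_iff_nrm_le hϖ]
  constructor
  · intro h
    by_cases hz : z = 0
    · rw [hz, (nrm_eq_zero_iff p E 0).2 rfl]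
      exact pow_nonneg (snorm_nonneg p E _) _
    obtain ⟨j, v, -, hj⟩ := exists_eq_unif_pow hϖ hz
    rw [hj, nrm_unif_pow_eq_rpow hϖ he hpe] at h
    rw [hj]
    have h1 : -((j : ℝ) / e) ≤ -t := (Real.rpow_le_rpow_left_iff hp1).1 h
    have h2 : t * e ≤ j := by
      have : t ≤ (j : ℝ) / e := by linarith
      rwa [le_div_iff₀ he0] at this
    have h3 : ⌈t * e⌉₊ ≤ j := Nat.ceil_le.2 h2
    exact pow_le_pow_of_le_one (snorm_nonneg p E _) (nrm_unif_lt_one hϖ).le h3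
  · intro h
    refine h.trans ?_
    rw [nrm_unif_pow_eq_rpow hϖ he hpe]
    apply (Real.rpow_le_rpow_left_iff hp1).2
    have : t ≤ (⌈t * e⌉₊ : ℝ) / e := by rwa [le_div_iff₀ he0]
    linarith

/-- **The real-exponent bridge.** -/
theorem exists_tau {e : ℕ} {u : (intRing p E)ˣ} (he : 1 ≤ e)
    (hpe : ((p : ℕ) : intRing p E) = ϖ ^ e * u) (t : ℝ) (ht : 0 ≤ t) :
    ∃ τ : ℕ, t * e ≤ τ ∧ (∀ z : intRing p E, nrm p E z ≤ (p : ℝ) ^ (-t) ↔ ϖ ^ τ ∣ z) ∧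
      (∀ z : intRing p E, nrm p E z ≤ (p : ℝ) ^ (-(1 + t)) ↔
        ((p : ℕ) : intRing p E) * ϖ ^ τ ∣ z) := by
  have he0 : (0 : ℝ) ≤ e := Nat.cast_nonneg e
  refine ⟨⌈t * e⌉₊, Nat.le_ceil _, nrm_le_rpow_iff hϖ he hpe t, fun z => ?_⟩
  have hτe : ((p : ℕ) : intRing p E) * ϖ ^ ⌈t * e⌉₊ = ϖ ^ (⌈t * e⌉₊ + e) * u := by
    rw [hpe, pow_add]; ring
  have hassoc : ((p : ℕ) : intRing p E) * ϖ ^ ⌈t * e⌉₊ ∣ z ↔ ϖ ^ (⌈t * e⌉₊ + e) ∣ z := by
    rw [hτe]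
    constructor
    · intro h; exact (Dvd.intro _ rfl).trans h
    · rintro ⟨c, rfl⟩
      exact ⟨((u⁻¹ : (intRing p E)ˣ) : intRing p E) * c, by
        rw [mul_assoc, ← mul_assoc (u : intRing p E), Units.mul_inv, one_mul]⟩
  have hceil : ⌈(1 + t) * e⌉₊ = ⌈t * e⌉₊ + e := by
    have : (1 + t) * e = t * e + (e : ℝ) := by ring
    rw [this, Nat.ceil_add_natCast (mul_nonneg ht he0)]
  rw [hassoc, nrm_le_rpow_iff hϖ he hpe (1 + t) z, hceil]

end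

end Fermat.Agent.ES.T56.NormPi20
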