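/-
Programme T (S56), chapter FLAT, Hopf side, brick (V) (helper20): **a ring homomorphism
`η : 𝒪_F → 𝒪_E ⧸ 𝔞_E^m`, `m > 1`, is an isometry below `m`.**

`F`, `E` `p`-adic fields (PT/LOC model), `aIdeal p E m = {x : |x| ≤ p ^ (-m)}` (FlatRIface14).

* `isometry` : for `z : 𝒪_F` and any lift `z' : 𝒪_E` of `η z`:
  `max |z'| (p ^ (-m)) = max |z| (p ^ (-m))`.
* `nrm_le_of_lift` : `t ≤ m`, `|z'| ≤ p ^ (-t)` ⟹ `|z| ≤ p ^ (-t)`.
-/
import Mathlib
import Fermat.Agent.PT.LOC.Interface12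
import Fermat.Agent.PT.LOC.Structure14
import Fermat.Agent.ES.T56.FlatRIface14
import Fermat.Agent.ES.T56.NormPi20

set_option autoImplicit false
set_option linter.unusedSectionVars false

namespace Fermat.Agent.ES.T56.Isometry20

open scoped Fermat.Agent.PT.LOC.Interface12
open Fermat.Agent.PT.LOC.Interface12 Fermat.Agent.PT.LOC.Structure14
  Fermat.Agent.ES.T56.FlatRIface14 Fermat.Agent.ES.T56.NormPi20

noncomputable section

variable {p : ℕ} [Fact p.Prime]

section Ultra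

variable {E : Type} [Field E] [Algebra ℚ_[p] E] [FiniteDimensional ℚ_[p] E]

theorem nrm_add_le_max (x y : intRing p E) : nrm p E (x + y) ≤ max (nrm p E x) (nrm p E y) := by
  change snorm p E ((x + y : intRing p E) : E) ≤ _
  rw [Subalgebra.coe_add]
  exact snorm_add_le_max p E _ _

theorem nrm_neg (x : intRing p E) : nrm p E (-x) = nrm p E x := by
  have h1 : nrm p E (-1 : intRing p E) = 1 := by
    have h2 : nrm p E (-1 : intRing p E) * nrm p E (-1 : intRing p E) = 1 := by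
      rw [← nrm_mul, neg_mul_neg, one_mul, nrm_one]
    have h3 : 0 ≤ nrm p E (-1 : intRing p E) := snorm_nonneg p E _
    nlinarith
  have : -x = (-1) * x := by ring
  rw [this, nrm_mul, h1, one_mul]

theorem nrm_sub_comm (x y : intRing p E) : nrm p E (x - y) = nrm p E (y - x) := by
  rw [← nrm_neg, neg_sub]

/-- ultrametric: `|a - b| ≤ c` ⟹ `max |a| c = max |b| c`. -/
theorem max_eq_max_of_sub_le {a b : intRing p E} {c : ℝ} (h : nrm p E (a - b) ≤ c) :
    max (nrm p E a) c = max (nrm p E b) c := by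
  have key : ∀ a b : intRing p E, nrm p E (a - b) ≤ c → nrm p E a ≤ max (nrm p E b) c := by
    intro a b h
    have : a = (a - b) + b := by ring
    rw [this]
    refine (nrm_add_le_max _ _).trans ?_
    rw [max_comm]
    exact max_le_max le_rfl h
  apply le_antisymm
  · exact max_le (key a b h) (le_max_right _ _)
  · exact max_le (key b a (by rw [nrm_sub_comm]; exact h)) (le_max_right _ _)

end Ultra

variable {F : Type} [Field F] [Algebra ℚ_[p] F] [FiniteDimensional ℚ_[p] F]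
variable {E : Type} [Field E] [Algebra ℚ_[p] E] [FiniteDimensional ℚ_[p] E]
variable {m : ℝ} (hm : 1 < m) (η : intRing p F →+* (intRing p E ⧸ aIdeal p E m))

theorem nrm_le_of_mk_eq_zero {x : intRing p E}
    (hx : Ideal.Quotient.mk (aIdeal p E m) x = 0) : nrm p E x ≤ (p : ℝ) ^ (-m) :=
  (mem_aIdeal_iff p E m x).1 (Ideal.Quotient.eq_zero_iff_mem.1 hx)

theorem nrm_sub_le_of_mk_eq {x y : intRing p E}
    (hxy : Ideal.Quotient.mk (aIdeal p E m) x = Ideal.Quotient.mk (aIdeal p E m) y) :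
    nrm p E (x - y) ≤ (p : ℝ) ^ (-m) :=
  nrm_le_of_mk_eq_zero (by rw [map_sub, hxy, sub_self])

include hm

theorem rpow_neg_m_lt_inv : (p : ℝ) ^ (-m) < (p : ℝ)⁻¹ := by
  have hp1 : (1 : ℝ) < p := by exact_mod_cast (Fact.out : p.Prime).one_lt
  rw [← Real.rpow_neg_one]
  exact (Real.rpow_lt_rpow_left_iff hp1).2 (by linarith)

theorem rpow_neg_m_lt_one : (p : ℝ) ^ (-m) < 1 := by
  have hp1 : (1 : ℝ) < p := by exact_mod_cast (Fact.out : p.Prime).one_lt
  exact (rpow_neg_m_lt_inv hm).trans (inv_lt_one_of_one_lt₀ hp1)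

/-- lifts of images of units have norm `1`. -/
theorem nrm_lift_unit (v : (intRing p F)ˣ) {v' : intRing p E}
    (hv : Ideal.Quotient.mk (aIdeal p E m) v' = η v) : nrm p E v' = 1 := by
  obtain ⟨w', hw'⟩ := Ideal.Quotient.mk_surjective (η ((v⁻¹ : (intRing p F)ˣ) : intRing p F))
  have h1 : Ideal.Quotient.mk (aIdeal p E m) (v' * w') = Ideal.Quotient.mk (aIdeal p E m) 1 := by
    rw [map_mul, hv, hw', ← map_mul, Units.mul_inv, map_one, map_one]
  have h2 := nrm_sub_le_of_mk_eq h1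
  have h3 := max_eq_max_of_sub_le h2
  rw [nrm_one, max_eq_left (rpow_neg_m_lt_one hm).le] at h3
  have h4 : nrm p E (v' * w') = 1 := by
    rcases le_total (nrm p E (v' * w')) ((p : ℝ) ^ (-m)) with h | h
    · rw [max_eq_right h] at h3
      exact absurd h3 (rpow_neg_m_lt_one hm).ne
    · rwa [max_eq_left h] at h3
  rw [nrm_mul] at h4
  have h5 := nrm_le_one p E v'
  have h6 := nrm_le_one p E w'
  have h7 : 0 ≤ nrm p E v' := snorm_nonneg p E _
  have h8 : 0 ≤ nrm p E w' := snorm_nonneg p E _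
  nlinarith

/-- **(V)**: `η` is an isometry below `m`. -/
theorem isometry (z : intRing p F) (z' : intRing p E)
    (hz : Ideal.Quotient.mk (aIdeal p E m) z' = η z) :
    max (nrm p E z') ((p : ℝ) ^ (-m)) = max (nrm p F z) ((p : ℝ) ^ (-m)) := by
  have hp0 : (0 : ℝ) < p := by exact_mod_cast (Fact.out : p.Prime).pos
  have hc0 : 0 ≤ (p : ℝ) ^ (-m) := (Real.rpow_pos_of_pos hp0 _).le
  by_cases hz0 : z = 0
  · rw [hz0, map_zero] at hz
    rw [hz0, (nrm_eq_zero_iff p F 0).2 rfl, max_eq_right (nrm_le_of_mk_eq_zero hz),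
      max_eq_right hc0]
  obtain ⟨ϖ, hϖ⟩ := exists_unif p F
  obtain ⟨e, u, he, hpe⟩ := exists_p_eq hϖ
  -- a lift of `η ϖ`
  obtain ⟨ϖ', hϖ'⟩ := Ideal.Quotient.mk_surjective (η ϖ)
  obtain ⟨u', hu'⟩ := Ideal.Quotient.mk_surjective (η (u : intRing p F))
  have hu'1 : nrm p E u' = 1 := nrm_lift_unit hm η u hu'
  have hϖ'n : nrm p E ϖ' = nrm p F ϖ := by
    have h1 : Ideal.Quotient.mk (aIdeal p E m) (ϖ' ^ e * u') =
        Ideal.Quotient.mk (aIdeal p E m) ((p : ℕ) : intRing p E) := by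
      rw [map_mul, map_pow, hϖ', hu', ← map_pow, ← map_mul, ← hpe, map_natCast, map_natCast]
    have h2 := max_eq_max_of_sub_le (nrm_sub_le_of_mk_eq h1)
    rw [nrm_natCast_p, max_eq_left (rpow_neg_m_lt_inv hm).le] at h2
    have h4 : nrm p E (ϖ' ^ e * u') = (p : ℝ)⁻¹ := by
      rcases le_total (nrm p E (ϖ' ^ e * u')) ((p : ℝ) ^ (-m)) with h | h
      · rw [max_eq_right h] at h2
        exact absurd h2 (rpow_neg_m_lt_inv hm).ne
      · rwa [max_eq_left h] at h2
    rw [nrm_mul, nrm_pow, hu'1, mul_one, ← nrm_unif_pow hϖ hpe] at h4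
    exact (pow_left_inj₀ (snorm_nonneg p E _) (snorm_nonneg p F _) (by omega)).1 h4
  obtain ⟨k, v, hzv, hk⟩ := exists_eq_unif_pow hϖ hz0
  obtain ⟨v', hv'⟩ := Ideal.Quotient.mk_surjective (η (v : intRing p F))
  have hv'1 : nrm p E v' = 1 := nrm_lift_unit hm η v hv'
  have h1 : Ideal.Quotient.mk (aIdeal p E m) z' =
      Ideal.Quotient.mk (aIdeal p E m) (ϖ' ^ k * v') := by
    rw [hz, map_mul, map_pow, hϖ', hv', ← map_pow, ← map_mul, ← hzv]
  rw [max_eq_max_of_sub_le (nrm_sub_le_of_mk_eq h1), nrm_mul, nrm_pow, hv'1, mul_one, hϖ'n, hk]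

/-- consequence used for the injectivity step of `(P_m)`. -/
theorem nrm_le_of_lift {t : ℝ} (ht : t ≤ m) (z : intRing p F) (z' : intRing p E)
    (hz : Ideal.Quotient.mk (aIdeal p E m) z' = η z) (h : nrm p E z' ≤ (p : ℝ) ^ (-t)) :
    nrm p F z ≤ (p : ℝ) ^ (-t) := by
  have hp1 : (1 : ℝ) < p := by exact_mod_cast (Fact.out : p.Prime).one_lt
  have hmt : (p : ℝ) ^ (-m) ≤ (p : ℝ) ^ (-t) :=
    (Real.rpow_le_rpow_left_iff hp1).2 (by linarith)
  calc nrm p F z ≤ max (nrm p F z) ((p : ℝ) ^ (-m)) := le_max_left _ _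
    _ = max (nrm p E z') ((p : ℝ) ^ (-m)) := (isometry hm η z z' hz).symm
    _ ≤ (p : ℝ) ^ (-t) := max_le h hmt

end

end Fermat.Agent.ES.T56.Isometry20
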