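/-
Programme T (S56, Taylor–Wiles primes), chapter FLAT (Fontaine's ramification bound), Hopf side,
brick PROP F (ii) (helper20): **Fontaine's lifting property, elementary form.**

`B` a commutative cocommutative bialgebra, free as a module over `R`; `S` a commutative
`R`-algebra, `π`-adically separated and complete, `p = π ^ e · unit`, `e < (p - 1) τ`.

* `exists_point_of_approx` : an `R`-linear map `g : B → S` which is an algebra homomorphism
  modulo `p π ^ τ` and whose convolution `p`-th power is trivial modulo `p π ^ τ` is congruent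
  modulo `π ^ τ` to a genuine point `w : B →ₐ[R] S` with `w ^ p = 1`.
* `exists_point_of_quotient` : every point `y` of `B` in `S ⧸ J`, `J ⊆ (p π ^ τ)`, with `y ^ p = 1` is
  congruent modulo `π ^ τ` to a point `w : B →ₐ[R] S` with `w ^ p = 1`.

Proof: `G ^ p = 1 + p π ^ τ X` in the commutative convolution algebra `𝔄 = WithConv (B →ₗ[R] S)`,
which is `π`-adic (`ConvPiAdic20`); `z := (G ^ p) ^ (1/p)` (F2), `W := G z⁻¹`, `W ^ p = 1`,
`W ≡ G mod π ^ τ`; `W` is multiplicative because `μ*(W)` and `W ⊗ W` are two `p`-torsion elements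
of the `π`-adic ring `𝔄' = WithConv (B →ₗ[R] 𝔄)` congruent modulo `π ^ τ` (F1); `W 1 = 1`
likewise in `S`.
-/
import Mathlib
import Fermat.Agent.ES.T56.PthRoot20
import Fermat.Agent.ES.T56.ConvPiAdic20
import Fermat.Agent.ES.T56.PropFi20
import Fermat.Agent.ES.T56.ConvNested20

set_option autoImplicit false
set_option linter.unusedSectionVars false

namespace Fermat.Agent.ES.T56.PropFii20

open Fermat.Agent.PT.LOC.UnitFiltration10 WithConv Coalgebra
open Fermat.Agent.ES.T56.PthRoot20 Fermat.Agent.ES.T56.ConvPiAdic20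
  Fermat.Agent.ES.T56.PropFi20 Fermat.Agent.ES.T56.ConvNested20

variable {R : Type*} [CommRing R] {B : Type*} [CommRing B] [Bialgebra R B]
  [Coalgebra.IsCocomm R B] [Module.Free R B]
  {S : Type*} [CommRing S] [Algebra R S]
variable {π : S} (h : PiAdic S π)
variable {p : ℕ} (hp : p.Prime) {e : ℕ} {u : Sˣ} (hpe : (p : S) = π ^ e * u)
variable {τ : ℕ} (hτ : e < (p - 1) * τ)

include h hp hpe hτ

/-- **PROP F (ii), core form.** -/
theorem exists_point_of_approx (g : B →ₗ[R] S)
    (hmul : ∀ a b, (p : S) * π ^ τ ∣ g (a * b) - g a * g b)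
    (hone : (p : S) * π ^ τ ∣ g 1 - 1)
    (hpow : ∀ b, (p : S) * π ^ τ ∣ ((toConv g : WithConv (B →ₗ[R] S)) ^ p) b -
      (1 : WithConv (B →ₗ[R] S)) b) :
    ∃ w : WithConv (B →ₐ[R] S), w ^ p = 1 ∧ ∀ b, π ^ τ ∣ w b - g b := by
  have hτ1 : 1 ≤ τ := by
    rcases Nat.eq_zero_or_pos τ with h0 | h0
    · rw [h0] at hτ; omega
    · exact h0
  have hA : PiAdic (WithConv (B →ₗ[R] S)) (algebraMap S (WithConv (B →ₗ[R] S)) π) :=
    convPiAdic h
  have hA' : PiAdic (WithConv (B →ₗ[R] WithConv (B →ₗ[R] S)))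
      (algebraMap (WithConv (B →ₗ[R] S)) (WithConv (B →ₗ[R] WithConv (B →ₗ[R] S)))
        (algebraMap S (WithConv (B →ₗ[R] S)) π)) := convPiAdic hA
  have hpA := natCast_eq (R := R) (B := B) hpe
  have hpA' := natCast_eq (R := R) (B := B) hpA
  set G : WithConv (B →ₗ[R] S) := toConv g with hG
  -- `G ^ p = 1 + p π̂ ^ τ X`
  have hd : algebraMap S (WithConv (B →ₗ[R] S)) ((p : S) * π ^ τ) ∣ G ^ p - 1 := by
    rw [algebraMap_dvd_iff]
    intro b
    exact hpow b
  obtain ⟨X, hX⟩ := hd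
  have hGp : G ^ p = 1 + (p : WithConv (B →ₗ[R] S)) *
      algebraMap S (WithConv (B →ₗ[R] S)) π ^ τ * X := by
    have h1 : algebraMap S (WithConv (B →ₗ[R] S)) ((p : S) * π ^ τ) =
        (p : WithConv (B →ₗ[R] S)) * algebraMap S (WithConv (B →ₗ[R] S)) π ^ τ := by
      rw [map_mul, map_natCast, map_pow]
    rw [← h1, ← hX]; ring
  -- the `p`-th root
  obtain ⟨z, hz1, hzp⟩ := exists_prime_root hA hp hpA hτ X
  obtain ⟨zu, rfl⟩ := isUnit_of_dvd_sub_one hA hτ1 hz1
  set W : WithConv (B →ₗ[R] S) := G * ((zu⁻¹ : (WithConv (B →ₗ[R] S))ˣ) :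
    WithConv (B →ₗ[R] S)) with hW
  have hWp : W ^ p = 1 := by
    rw [hW, mul_pow, hGp, ← hzp, ← Units.val_pow_eq_pow_val, ← Units.val_pow_eq_pow_val,
      ← Units.val_mul, inv_pow, mul_inv_cancel, Units.val_one]
  have hWG : algebraMap S (WithConv (B →ₗ[R] S)) π ^ τ ∣ W - G := by
    have : W - G = (-(G * ((zu⁻¹ : (WithConv (B →ₗ[R] S))ˣ) : WithConv (B →ₗ[R] S)))) *
        ((zu : WithConv (B →ₗ[R] S)) - 1) := by
      have hinv : ((zu⁻¹ : (WithConv (B →ₗ[R] S))ˣ) : WithConv (B →ₗ[R] S)) *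
          (zu : WithConv (B →ₗ[R] S)) = 1 := Units.inv_mul zu
      rw [hW]
      linear_combination G * hinv
    rw [this]
    exact Dvd.dvd.mul_left hz1 _
  have hWg : ∀ b, π ^ τ ∣ W b - g b := fun b =>
    (algebraMap_pow_dvd_iff π τ (W - G)).1 hWG b
  have hπp : π ^ τ ∣ (p : S) * π ^ τ := Dvd.intro_left _ rfl
  -- `W 1 = 1`
  have hW1 : W 1 = 1 := by
    have h1 : (W 1) ^ p = 1 := by
      rw [← evOne_apply, ← map_pow, hWp, map_one]
    have h2 : π ^ τ ∣ W 1 - 1 := by
      have : W 1 - 1 = (W 1 - g 1) + (g 1 - 1) := by ring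
      rw [this]
      exact dvd_add (hWg 1) (hπp.trans hone)
    exact eq_one_of_pow_prime_eq_one h hp hpe hτ _ h2 h1
  -- `W` is multiplicative
  have hWmul : mulStar W = pr W := by
    refine eq_of_pow_prime_eq_one hA' hp hpA' hτ _ _ ?_ ?_ ?_
    · rw [← map_pow, hWp, map_one]
    · rw [← map_pow, hWp, map_one]
    · rw [algebraMap_pow_dvd_iff]
      intro b
      rw [algebraMap_pow_dvd_iff]
      intro a
      change π ^ τ ∣ W (b * a) - W b * W a
      have : W (b * a) - W b * W a = (W (b * a) - g (b * a)) + (g (b * a) - g b * g a)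
          - ((W b - g b) * g a + W b * (W a - g a)) := by ring
      rw [this]
      exact dvd_sub (dvd_add (hWg _) (hπp.trans (hmul b a)))
        (dvd_add (Dvd.dvd.mul_right (hWg b) _) (Dvd.dvd.mul_left (hWg a) _))
  refine ⟨toConv (AlgHom.ofLinearMap W.ofConv hW1 (fun b a => map_mul_of_mulStar_eq_pr hWmul b a)),
    ?_, fun b => hWg b⟩
  apply lin_injective
  rw [lin_pow, lin_one]
  exact hWp

/-- **PROP F (ii).** Points in `S ⧸ J`, `J ⊆ (p π ^ τ)`, killed by `p` lift, modulo `π ^ τ`, to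
points in `S` killed by `p`. -/
theorem exists_point_of_quotient (J : Ideal S) (hJ : ∀ s ∈ J, (p : S) * π ^ τ ∣ s)
    (y : WithConv (B →ₐ[R] S ⧸ J)) (hy : y ^ p = 1) :
    ∃ w : WithConv (B →ₐ[R] S), w ^ p = 1 ∧
      ∀ (b : B) (s : S), Ideal.Quotient.mk J s = y b → π ^ τ ∣ w b - s := by
  have hmem : ∀ s : S, Ideal.Quotient.mk J s = 0 → (p : S) * π ^ τ ∣ s := fun s hs =>
    hJ s (Ideal.Quotient.eq_zero_iff_mem.1 hs)
  -- a linear lift of `y`
  choose c hc using fun i => Ideal.Quotient.mk_surjective (I := J)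
    (y (Module.Free.chooseBasis R B i))
  obtain ⟨g, hg⟩ := exists_linearMap_basis (R := R) (B := B) c
  have hgy : (Ideal.Quotient.mkₐ R J).toLinearMap ∘ₗ g = y.ofConv.toLinearMap := by
    refine (Module.Free.chooseBasis R B).ext fun i => ?_
    change Ideal.Quotient.mk J (g (Module.Free.chooseBasis R B i)) =
      y (Module.Free.chooseBasis R B i)
    rw [hg i, hc i]
  have hgy' : ∀ b, Ideal.Quotient.mk J (g b) = y b := fun b => LinearMap.congr_fun hgy b
  have hcomp : compHom (Ideal.Quotient.mkₐ R J) (toConv g : WithConv (B →ₗ[R] S)) = lin y :=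
    WithConv.ext hgy
  obtain ⟨w, hw, hwg⟩ := exists_point_of_approx h hp hpe hτ g
    (fun a b => hmem _ (by
      rw [map_sub, map_mul (Ideal.Quotient.mk J), hgy', hgy', hgy']
      exact sub_eq_zero.2 (map_mul y.ofConv a b)))
    (hmem _ (by
      rw [map_sub, hgy', map_one (Ideal.Quotient.mk J)]
      exact sub_eq_zero.2 (map_one y.ofConv)))
    (fun b => hmem _ (by
      have h1 : compHom (Ideal.Quotient.mkₐ R J) ((toConv g : WithConv (B →ₗ[R] S)) ^ p) = 1 := by
        rw [map_pow, hcomp, ← lin_pow, hy, lin_one]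
      have h2 := congrArg (fun f : WithConv (B →ₗ[R] S ⧸ J) => f b) h1
      simp only [compHom_apply] at h2
      rw [map_sub]
      refine sub_eq_zero.2 (h2.trans ?_)
      change algebraMap R (S ⧸ J) (counit (R := R) b) =
        Ideal.Quotient.mk J (algebraMap R S (counit (R := R) b))
      rfl))
  refine ⟨w, hw, fun b s hs => ?_⟩
  have h3 : (p : S) * π ^ τ ∣ g b - s := hmem _ (by rw [map_sub, hgy', hs, sub_self])
  have : w b - s = (w b - g b) + (g b - s) := by ring
  rw [this]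
  exact dvd_add (hwg b) ((Dvd.intro_left _ rfl).trans h3)

end Fermat.Agent.ES.T56.PropFii20
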