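/-
Programme T (S56), chapter FLAT, Hopf side, brick `(P_m)`, abstract counting form (helper20).

`B` a commutative cocommutative bialgebra, free over `R`; `𝒪_F`, `𝒪_E` two `π`-adic `R`-algebras
(`p = ϖ ^ e · unit`, `e < (p - 1) τ` in both) embedded in an `R`-algebra `Ω`; `J ⊆ (p ϖ_E ^ τ_E)`
an ideal of `𝒪_E`, `η : 𝒪_F → 𝒪_E ⧸ J` an `R`-algebra homomorphism which "reflects congruences"
(`hV`, consequence of the isometry (V)).  Assume the set `T` of points of `B` in `Ω` is finite,
killed by `p`, and all points of `T` have values in `𝒪_F`.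

* `exists_point_factor` : **then every point of `T` has values in `𝒪_E`.**

Proof: `x ↦ x_F ↦ η ∘ x_F ↦` (PROP F (ii)) `w_x : B → 𝒪_E ↦ j_E ∘ w_x` is an injective
(PROP F (i) + `hV`) self-map of the finite set `T`, hence surjective.
-/
import Mathlib
import Fermat.Agent.ES.T56.PropFi20
import Fermat.Agent.ES.T56.PropFii20
import Fermat.Agent.ES.T56.ConvNested20

set_option autoImplicit false
set_option linter.unusedSectionVars false

namespace Fermat.Agent.ES.T56.PmCount20

open Fermat.Agent.PT.LOC.UnitFiltration10 WithConv Coalgebra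
open Fermat.Agent.ES.T56.PropFi20 Fermat.Agent.ES.T56.PropFii20 Fermat.Agent.ES.T56.ConvNested20

section Transport

variable {R : Type*} [CommRing R] {B : Type*} [CommRing B] [Bialgebra R B]
  {S S' : Type*} [CommRing S] [CommRing S'] [Algebra R S] [Algebra R S']

theorem lin_comp (h : S →ₐ[R] S') (z : WithConv (B →ₐ[R] S)) :
    lin (toConv (h.comp z.ofConv)) = compHom h (lin z) := rfl

/-- push-forward of a torsion point. -/
theorem comp_pow_eq_one (h : S →ₐ[R] S') {z : WithConv (B →ₐ[R] S)} {n : ℕ} (hz : z ^ n = 1) :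
    (toConv (h.comp z.ofConv) : WithConv (B →ₐ[R] S')) ^ n = 1 := by
  apply lin_injective
  rw [lin_pow, lin_comp, ← map_pow, ← lin_pow, hz, lin_one, map_one, lin_one]

theorem compHom_injective (h : S →ₐ[R] S') (hh : Function.Injective h) :
    Function.Injective (compHom (B := B) h) := fun f g hfg => by
  apply WithConv.ext
  apply LinearMap.ext
  intro b
  apply hh
  exact congrArg (fun F : WithConv (B →ₗ[R] S') => F b) hfg

/-- pull-back of a torsion point along an injective map. -/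
theorem pow_eq_one_of_comp (h : S →ₐ[R] S') (hh : Function.Injective h)
    {z : WithConv (B →ₐ[R] S)} {n : ℕ}
    (hz : (toConv (h.comp z.ofConv) : WithConv (B →ₐ[R] S')) ^ n = 1) : z ^ n = 1 := by
  apply lin_injective
  apply compHom_injective h hh
  rw [lin_pow, map_pow, ← lin_comp, ← lin_pow, hz, lin_one, lin_one, map_one]

end Transport

section Main

variable {R : Type*} [CommRing R] {B : Type*} [CommRing B] [Bialgebra R B]
  [Coalgebra.IsCocomm R B] [Module.Free R B]
  {OF OE Ω : Type*} [CommRing OF] [CommRing OE] [CommRing Ω]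
  [Algebra R OF] [Algebra R OE] [Algebra R Ω]

/-- **`(P_m)`, abstract counting form.** -/
theorem exists_point_factor {p : ℕ} (hp : p.Prime)
    {ϖF : OF} (hF : PiAdic OF ϖF) {eF : ℕ} {uF : OFˣ} (hpF : (p : OF) = ϖF ^ eF * uF)
    {τF : ℕ} (hτF : eF < (p - 1) * τF)
    {ϖE : OE} (hE : PiAdic OE ϖE) {eE : ℕ} {uE : OEˣ} (hpE : (p : OE) = ϖE ^ eE * uE)
    {τE : ℕ} (hτE : eE < (p - 1) * τE)
    (jF : OF →ₐ[R] Ω) (hjF : Function.Injective jF) (jE : OE →ₐ[R] Ω)
    (hjE : Function.Injective jE)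
    (J : Ideal OE) (hJ : ∀ s ∈ J, (p : OE) * ϖE ^ τE ∣ s) (η : OF →ₐ[R] OE ⧸ J)
    (hV : ∀ (z : OF) (z' : OE), Ideal.Quotient.mk J z' = η z → ϖE ^ τE ∣ z' → ϖF ^ τF ∣ z)
    [Finite (WithConv (B →ₐ[R] Ω))]
    (hkill : ∀ x : WithConv (B →ₐ[R] Ω), x ^ p = 1)
    (hfac : ∀ x : WithConv (B →ₐ[R] Ω), ∃ xF : B →ₐ[R] OF, jF.comp xF = x.ofConv)
    (x : WithConv (B →ₐ[R] Ω)) : ∃ w : B →ₐ[R] OE, jE.comp w = x.ofConv := by
  classical
  choose xF hxF using hfac
  have hxFp : ∀ x, (toConv (xF x) : WithConv (B →ₐ[R] OF)) ^ p = 1 := fun x => by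
    apply pow_eq_one_of_comp jF hjF
    change (toConv (jF.comp (xF x)) : WithConv (B →ₐ[R] Ω)) ^ p = 1
    rw [hxF x]
    exact hkill x
  have hyp : ∀ x, (toConv (η.comp (xF x)) : WithConv (B →ₐ[R] OE ⧸ J)) ^ p = 1 := fun x =>
    comp_pow_eq_one η (hxFp x)
  choose w hwp hw using fun x =>
    exists_point_of_quotient hE hp hpE hτE J hJ (toConv (η.comp (xF x))) (hyp x)
  let Φ : WithConv (B →ₐ[R] Ω) → WithConv (B →ₐ[R] Ω) := fun x => toConv (jE.comp (w x).ofConv)
  have hΦ : Function.Injective Φ := by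
    intro x x' hxx
    have hww : ∀ b, (w x) b = (w x') b := fun b => by
      apply hjE
      have := congrArg (fun f : WithConv (B →ₐ[R] Ω) => f b) hxx
      exact this
    have hpt : (toConv (xF x) : WithConv (B →ₐ[R] OF)) = toConv (xF x') := by
      refine point_eq_of_dvd_sub hF hp hpF hτF _ _ (hxFp x) (hxFp x') (fun b => ?_)
      obtain ⟨s, hs⟩ := Ideal.Quotient.mk_surjective (η (xF x b))
      obtain ⟨s', hs'⟩ := Ideal.Quotient.mk_surjective (η (xF x' b))
      refine hV (xF x b - xF x' b) (s - s') (by rw [map_sub, map_sub, hs, hs']) ?_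
      have h1 : ϖE ^ τE ∣ (w x) b - s := hw x b s hs
      have h2 : ϖE ^ τE ∣ (w x') b - s' := hw x' b s' hs'
      have : s - s' = ((w x') b - s') - ((w x) b - s) := by rw [hww b]; ring
      rw [this]
      exact dvd_sub h2 h1
    apply WithConv.ext
    rw [← hxF x, ← hxF x']
    exact congrArg (fun f : WithConv (B →ₐ[R] OF) => jF.comp f.ofConv) hpt
  obtain ⟨x₀, hx₀⟩ := Finite.surjective_of_injective hΦ x
  exact ⟨(w x₀).ofConv, congrArg WithConv.ofConv hx₀⟩

end Main

end Fermat.Agent.ES.T56.PmCount20
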