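/-
Programme T (S56), chapter FLAT, Hopf side, brick `PointsBasic` (helper20): generalities on the
points `B →ₐ[R] Ω` of a finite free `R`-algebra `B` in a field `Ω`.

* `algHomOfRingHom` : when ring homomorphisms out of `R` are unique, every ring homomorphism
  between `R`-algebras is an `R`-algebra homomorphism.
* `finite_points` : `B →ₐ[R] Ω` is finite (Dedekind independence); `finite_points_conv`.
* `isIntegral_point` : the values of a point are integral over `R`.
* `point_apply_eq_sum` : `x b = ∑ i, algebraMap R Ω (coordinate i of b) * x (basis i)`.
-/
import Mathlib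

set_option autoImplicit false
set_option linter.unusedSectionVars false

namespace Fermat.Agent.ES.T56.PointsBasic20

section AlgHom

variable {R A A' : Type*} [CommRing R] [CommRing A] [CommRing A'] [Algebra R A] [Algebra R A']

/-- a ring homomorphism between `R`-algebras, as an `R`-algebra homomorphism, when ring
homomorphisms `R →+* A'` are unique. -/
def algHomOfRingHom [Subsingleton (R →+* A')] (f : A →+* A') : A →ₐ[R] A' :=
  { f with
    commutes' := fun r => congrArg (fun g : R →+* A' => g r)
      (Subsingleton.elim (f.comp (algebraMap R A)) (algebraMap R A')) }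

@[simp] theorem algHomOfRingHom_apply [Subsingleton (R →+* A')] (f : A →+* A') (a : A) :
    algHomOfRingHom (R := R) f a = f a := rfl

end AlgHom

section Points

variable {R B Ω : Type*} [CommRing R] [CommRing B] [Algebra R B] [Module.Free R B]
  [Module.Finite R B] [Field Ω] [Algebra R Ω]

/-- **Finitely many points** (Dedekind). -/
theorem finite_points : Finite (B →ₐ[R] Ω) := by
  have hli := linearIndependent_toLinearMap R B Ω
  have hfin : Module.Finite Ω (B →ₗ[R] Ω) :=
    Module.Finite.equiv ((Module.Free.chooseBasis R B).constr Ω)
  exact hli.finite_of_isNoetherian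

theorem finite_points_conv : Finite (WithConv (B →ₐ[R] Ω)) :=
  haveI := finite_points (R := R) (B := B) (Ω := Ω)
  Finite.of_equiv _ (WithConv.equiv (B →ₐ[R] Ω)).symm

omit [Module.Free R B] in
theorem isIntegral_point (x : B →ₐ[R] Ω) (b : B) : IsIntegral R (x b) :=
  (IsIntegral.of_finite R b).map x

omit [Module.Finite R B] in
theorem point_apply_eq_sum (x : B →ₐ[R] Ω) (b : B) :
    x b = ((Module.Free.chooseBasis R B).repr b).sum
      (fun i r => algebraMap R Ω r * x (Module.Free.chooseBasis R B i)) := by
  conv_lhs => rw [← (Module.Free.chooseBasis R B).linearCombination_repr b]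
  rw [Finsupp.linearCombination_apply, map_finsuppSum]
  refine Finsupp.sum_congr fun i _ => ?_
  rw [map_smul, Algebra.smul_def]

end Points

end Fermat.Agent.ES.T56.PointsBasic20
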