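/-
Programme T (S56), chapter FLAT, Hopf side — **FLAT-H, final brick (helper20): Fontaine's property
`(P_m)` for the field generated by the points of a finite flat group scheme killed by `p`.**

`ℤ_(p) = ↥(GaloisRep.ratLocalizedAt p)`; `H` a commutative cocommutative bialgebra (e.g. a Hopf
algebra), finite and free as a `ℤ_(p)`-module; `Ω` an algebraically closed field over `ℚ_[p]`
(e.g. `PadicAlgCl p`) with ANY `ℤ_(p)`-algebra structure; all points `H →ₐ[ℤ_(p)] Ω` killed by `p`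
in the convolution monoid.

* `toZp : ℤ_(p) →+* ℤ_[p]`.
* `pm_of_fieldRange` : if `F` is a `p`-adic field (PT/LOC model) with an embedding
  `ιF : F →ₐ[ℚ_[p]] Ω` whose range contains all values `x h` of all points and is generated by them,
  then `FlatRIface14.Pm p F m` for every real `m > p / (p - 1)`.
-/
import Mathlib
import Fermat.Prelude.Def_GaloisRep_Flat
import Fermat.Agent.IG.VAL.Zl13
import Fermat.Agent.PT.LOC.Interface12
import Fermat.Agent.PT.LOC.Structure14
import Fermat.Agent.ES.T56.FlatRIface14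
import Fermat.Agent.ES.T56.NormPi20
import Fermat.Agent.ES.T56.Isometry20
import Fermat.Agent.ES.T56.PmCount20
import Fermat.Agent.ES.T56.PointsBasic20

set_option autoImplicit false
set_option linter.unusedSectionVars false

namespace Fermat.Agent.ES.T56.PmFlat20

open scoped Fermat.Agent.PT.LOC.Interface12
open Fermat.Agent.PT.LOC.Interface12 Fermat.Agent.PT.LOC.Structure14
  Fermat.Agent.PT.LOC.UnitFiltration10
  Fermat.Agent.ES.T56.FlatRIface14 Fermat.Agent.ES.T56.NormPi20 Fermat.Agent.ES.T56.Isometry20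
  Fermat.Agent.ES.T56.PmCount20 Fermat.Agent.ES.T56.PointsBasic20 Fermat.Agent.IG.VAL.Zl13

noncomputable section

variable {p : ℕ} [hp : Fact p.Prime]

/-- `ℤ_(p) → ℤ_p`. -/
def toZp : ↥(GaloisRep.ratLocalizedAt p) →+* ℤ_[p] :=
  IsLocalization.lift (M := (pZ p).primeCompl) (S := ↥(GaloisRep.ratLocalizedAt p))
    (g := Int.castRingHom ℤ_[p]) (fun y => by
      have hy : ¬ (p : ℤ) ∣ (y : ℤ) := (mem_primeCompl_iff p).1 y.2
      rw [PadicInt.isUnit_iff]
      refine le_antisymm (PadicInt.norm_le_one _) (not_lt.1 fun h => hy ?_)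
      exact (PadicInt.norm_int_lt_one_iff_dvd _).1 h)

instance subsingleton_ringHom (T : Type*) [Semiring T] :
    Subsingleton (↥(GaloisRep.ratLocalizedAt p) →+* T) := ringHom_subsingleton p

section Main

variable {H : Type*} [CommRing H] [Bialgebra ↥(GaloisRep.ratLocalizedAt p) H]
  [Coalgebra.IsCocomm ↥(GaloisRep.ratLocalizedAt p) H]
  [Module.Free ↥(GaloisRep.ratLocalizedAt p) H] [Module.Finite ↥(GaloisRep.ratLocalizedAt p) H]
variable {Ω : Type} [Field Ω] [Algebra ℚ_[p] Ω] [IsAlgClosed Ω]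
  [Algebra ↥(GaloisRep.ratLocalizedAt p) Ω]

/-- values of points are integral over `ℤ_p`. -/
theorem isIntegral_value (x : H →ₐ[↥(GaloisRep.ratLocalizedAt p)] Ω) (h : H) :
    IsIntegral ℤ_[p] (x h) := by
  have h1 : IsIntegral ↥(GaloisRep.ratLocalizedAt p) (x h) := isIntegral_point x h
  have := IsIntegral.map_of_comp_eq (toZp (p := p)) (RingHom.id Ω)
    (Subsingleton.elim _ _) h1
  exact this

theorem pm_of_fieldRange
    (F : Type) [Field F] [Algebra ℚ_[p] F] [FiniteDimensional ℚ_[p] F] (ιF : F →ₐ[ℚ_[p]] Ω)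
    (hval : ∀ (x : H →ₐ[↥(GaloisRep.ratLocalizedAt p)] Ω) (h : H), x h ∈ ιF.fieldRange)
    (hgen : ιF.fieldRange ≤ IntermediateField.adjoin ℚ_[p]
      {y : Ω | ∃ (x : H →ₐ[↥(GaloisRep.ratLocalizedAt p)] Ω) (h : H), y = x h})
    (hkill : ∀ x : WithConv (H →ₐ[↥(GaloisRep.ratLocalizedAt p)] Ω), x ^ p = 1)
    (m : ℝ) (hm : (p : ℝ) / ((p : ℝ) - 1) < m) : Pm p F m := by
  intro E _ _ _ ⟨η⟩
  have hp1 : (1 : ℝ) < p := by exact_mod_cast hp.out.one_lt
  have hp1' : (0 : ℝ) < (p : ℝ) - 1 := by linarith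
  -- `t = m - 1 > 1 / (p - 1)`
  set t : ℝ := m - 1 with htdef
  have hmt : m = 1 + t := by rw [htdef]; ring
  have ht : 1 / ((p : ℝ) - 1) < t := by
    have : (p : ℝ) / ((p : ℝ) - 1) = 1 + 1 / ((p : ℝ) - 1) := by field_simp; ring
    rw [this] at hm
    linarith
  have ht0 : 0 ≤ t := le_trans (by positivity) ht.le
  have hm1 : 1 < m := by
    have : 0 < 1 / ((p : ℝ) - 1) := by positivity
    linarith
  have htm : t ≤ m := by linarith
  -- uniformizers
  obtain ⟨ϖF, hϖF⟩ := exists_unif p F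
  obtain ⟨eF, uF, heF, hpF⟩ := exists_p_eq hϖF
  obtain ⟨τF, hτF, hFt, -⟩ := exists_tau hϖF heF hpF t ht0
  obtain ⟨ϖE, hϖE⟩ := exists_unif p E
  obtain ⟨eE, uE, heE, hpE⟩ := exists_p_eq hϖE
  obtain ⟨τE, hτE, hEt, hEm⟩ := exists_tau hϖE heE hpE t ht0
  have key : ∀ (e τ : ℕ), 1 ≤ e → t * e ≤ τ → e < (p - 1) * τ := by
    intro e τ he hτ
    have he0 : (0 : ℝ) < e := by
      have : (1 : ℝ) ≤ e := by exact_mod_cast he
      linarith
    have h1 : (e : ℝ) < ((p : ℝ) - 1) * τ := by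
      have h2 : 1 < ((p : ℝ) - 1) * t := by
        have := (div_lt_iff₀ hp1').1 ht
        linarith
      calc (e : ℝ) = 1 * e := (one_mul _).symm
        _ < ((p : ℝ) - 1) * t * e := mul_lt_mul_of_pos_right h2 he0
        _ = ((p : ℝ) - 1) * (t * e) := by ring
        _ ≤ ((p : ℝ) - 1) * τ := mul_le_mul_of_nonneg_left hτ hp1'.le
    have h3 : ((p - 1 : ℕ) : ℝ) = (p : ℝ) - 1 := by
      rw [Nat.cast_sub hp.out.one_lt.le, Nat.cast_one]
    have h4 : (e : ℝ) < (((p - 1) * τ : ℕ) : ℝ) := by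
      rw [Nat.cast_mul, h3]; exact h1
    exact_mod_cast h4
  -- algebra structures over `ℤ_(p)`
  let algF : Algebra ↥(GaloisRep.ratLocalizedAt p) (intRing p F) :=
    ((algebraMap ℤ_[p] (intRing p F)).comp (toZp (p := p))).toAlgebra
  let algE : Algebra ↥(GaloisRep.ratLocalizedAt p) (intRing p E) :=
    ((algebraMap ℤ_[p] (intRing p E)).comp (toZp (p := p))).toAlgebra
  -- the embedding of `E`
  have : Algebra.IsAlgebraic ℚ_[p] E := Algebra.IsAlgebraic.of_finite ℚ_[p] E
  let jE : E →ₐ[ℚ_[p]] Ω := IsAlgClosed.lift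
  let jF' : intRing p F →ₐ[↥(GaloisRep.ratLocalizedAt p)] Ω :=
    algHomOfRingHom (ιF.toRingHom.comp (intRing p F).val.toRingHom)
  let jE' : intRing p E →ₐ[↥(GaloisRep.ratLocalizedAt p)] Ω :=
    algHomOfRingHom (jE.toRingHom.comp (intRing p E).val.toRingHom)
  have hjF : Function.Injective jF' := fun a b hab =>
    Subtype.ext (ιF.toRingHom.injective hab)
  have hjE : Function.Injective jE' := fun a b hab =>
    Subtype.ext (jE.toRingHom.injective hab)
  let η' : intRing p F →ₐ[↥(GaloisRep.ratLocalizedAt p)] (intRing p E ⧸ aIdeal p E m) :=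
    algHomOfRingHom η.toRingHom
  have hJ : ∀ s ∈ aIdeal p E m, ((p : ℕ) : intRing p E) * ϖE ^ τE ∣ s := fun s hs => by
    rw [← hEm s, ← hmt]
    exact hs
  have hV : ∀ (z : intRing p F) (z' : intRing p E),
      Ideal.Quotient.mk (aIdeal p E m) z' = η' z → ϖE ^ τE ∣ z' → ϖF ^ τF ∣ z := by
    intro z z' hz hd
    rw [← hFt z]
    exact nrm_le_of_lift hm1 η.toRingHom htm z z' hz ((hEt z').2 hd)
  have : Finite (WithConv (H →ₐ[↥(GaloisRep.ratLocalizedAt p)] Ω)) := finite_points_conv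
  -- points have values in `𝒪_F`
  have hfac : ∀ x : WithConv (H →ₐ[↥(GaloisRep.ratLocalizedAt p)] Ω),
      ∃ xF : H →ₐ[↥(GaloisRep.ratLocalizedAt p)] (intRing p F), jF'.comp xF = x.ofConv := by
    intro x
    let e := AlgEquiv.ofInjectiveField ιF
    let x₁ : H →+* ιF.fieldRange :=
      RingHom.codRestrict x.ofConv.toRingHom ιF.fieldRange (hval x.ofConv)
    let x₂ : H →+* F := e.symm.toRingHom.comp x₁
    have hx₂ : ∀ h, ιF (x₂ h) = x.ofConv h := fun h =>
      congrArg Subtype.val (e.apply_symm_apply (x₁ h))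
    have hint : ∀ h, x₂ h ∈ intRing p F := fun h => by
      have h1 : IsIntegral ℤ_[p] (x.ofConv h) := isIntegral_value x.ofConv h
      rw [← hx₂ h] at h1
      exact (isIntegral_algHom_iff (ιF.restrictScalars ℤ_[p]) ιF.toRingHom.injective).1 h1
    let x₃ : H →+* intRing p F := RingHom.codRestrict x₂ (intRing p F) hint
    refine ⟨algHomOfRingHom x₃, ?_⟩
    ext h
    exact hx₂ h
  have hpF' : ((p : ℕ) : intRing p F) = ϖF ^ eF * uF := hpF
  have main := exists_point_factor hp.out (piAdic_unif hϖF) hpF (key eF τF heF hτF)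
    (piAdic_unif hϖE) hpE (key eE τE heE hτE) jF' hjF jE' hjE (aIdeal p E m) hJ η' hV hkill hfac
  -- all values lie in `jE.fieldRange`
  have hle : ιF.fieldRange ≤ jE.fieldRange := by
    refine hgen.trans ?_
    rw [IntermediateField.adjoin_le_iff]
    rintro y ⟨x, h, rfl⟩
    obtain ⟨w, hw⟩ := main (WithConv.toConv x)
    have : x h = jE ((w h : intRing p E) : E) := by
      have := congrArg (fun f : H →ₐ[↥(GaloisRep.ratLocalizedAt p)] Ω => f h) hw
      exact this.symm
    rw [this]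
    exact ⟨_, rfl⟩
  exact ⟨((AlgEquiv.ofInjectiveField jE).symm.toAlgHom.comp
    (IntermediateField.inclusion hle)).comp (AlgEquiv.ofInjectiveField ιF).toAlgHom⟩

end Main

end

end Fermat.Agent.ES.T56.PmFlat20
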