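/-
Programme T (S56), chapter FLAT, Hopf side (helper20): **the field `F_T = ℚ_p(T)` generated by the
points of a finite flat commutative group scheme killed by `p`, and `(P_m)` for it.**

`ℤ_(p) = ↥(GaloisRep.ratLocalizedAt p)`; `H` a commutative cocommutative bialgebra over `ℤ_(p)`,
finite and flat (hence free) as a module; `Ω` an algebraic closure of `ℚ_[p]` (e.g. `PadicAlgCl p`)
with any `ℤ_(p)`-algebra structure.

* `valuesField p H Ω : IntermediateField ℚ_[p] Ω` — generated by all values `x h` of all points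
  `x : H →ₐ[ℤ_(p)] Ω`;
* `free_of_finite_flat` : `Module.Free ℤ_(p) H` from `Module.Finite` + `Module.Flat` (the literal
  hypotheses of the Prelude's `IsFlatAt`);
* `finiteDimensional_valuesField`, `normal_valuesField`, `isGalois_valuesField`;
* `mem_valuesField`, `algEquiv_comp_point` (Galois acts on the points);
* **`pm_valuesField`** : if all points are killed by `p` then
  `FlatRIface14.Pm p ↥(valuesField p H Ω) m` for every real `m > p / (p - 1)`.
-/
import Mathlib
import Fermat.Prelude.Def_GaloisRep_Flat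
import Fermat.Agent.IG.VAL.Zl13
import Fermat.Agent.PT.LOC.Interface12
import Fermat.Agent.PT.LOC.Structure14
import Fermat.Agent.ES.T56.FlatRIface14
import Fermat.Agent.ES.T56.PointsBasic20
import Fermat.Agent.ES.T56.PmFlat20

set_option autoImplicit false
set_option linter.unusedSectionVars false

namespace Fermat.Agent.ES.T56.PmValues20

open scoped Fermat.Agent.PT.LOC.Interface12
open Fermat.Agent.PT.LOC.Interface12 Fermat.Agent.PT.LOC.Structure14
  Fermat.Agent.ES.T56.FlatRIface14 Fermat.Agent.ES.T56.PointsBasic20 Fermat.Agent.ES.T56.PmFlat20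
  Fermat.Agent.IG.VAL.Zl13

noncomputable section

variable (p : ℕ) [hp : Fact p.Prime]

/-- finite + flat ⟹ free over the discrete valuation ring `ℤ_(p)`. -/
theorem free_of_finite_flat (H : Type*) [AddCommGroup H] [Module ↥(GaloisRep.ratLocalizedAt p) H]
    [Module.Finite ↥(GaloisRep.ratLocalizedAt p) H] [Module.Flat ↥(GaloisRep.ratLocalizedAt p) H] :
    Module.Free ↥(GaloisRep.ratLocalizedAt p) H :=
  Module.free_of_flat_of_isLocalRing

variable (H : Type*) [CommRing H] [Algebra ↥(GaloisRep.ratLocalizedAt p) H]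
variable (Ω : Type) [Field Ω] [Algebra ℚ_[p] Ω] [Algebra ↥(GaloisRep.ratLocalizedAt p) Ω]

/-- the set of all values of all points. -/
def valuesSet : Set Ω := {y | ∃ (x : H →ₐ[↥(GaloisRep.ratLocalizedAt p)] Ω) (h : H), y = x h}

/-- `F_T = ℚ_p(T)`. -/
def valuesField : IntermediateField ℚ_[p] Ω := IntermediateField.adjoin ℚ_[p] (valuesSet p H Ω)

variable {p H Ω}

theorem mem_valuesField (x : H →ₐ[↥(GaloisRep.ratLocalizedAt p)] Ω) (h : H) :
    x h ∈ valuesField p H Ω :=
  IntermediateField.subset_adjoin _ _ ⟨x, h, rfl⟩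

/-- the structure map `ℤ_(p) → Ω` factors through `ℚ_[p]`. -/
theorem algebraMap_eq (r : ↥(GaloisRep.ratLocalizedAt p)) :
    algebraMap ↥(GaloisRep.ratLocalizedAt p) Ω r =
      algebraMap ℚ_[p] Ω ((toZp (p := p) r : ℤ_[p]) : ℚ_[p]) := by
  have : algebraMap ↥(GaloisRep.ratLocalizedAt p) Ω =
      ((algebraMap ℚ_[p] Ω).comp (PadicInt.Coe.ringHom)).comp (toZp (p := p)) :=
    Subsingleton.elim _ _
  rw [this]
  rfl

/-- a `ℚ_[p]`-automorphism (or endomorphism) of `Ω` composed with a point is a point. -/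
def algHomCompPoint (σ : Ω →ₐ[ℚ_[p]] Ω) (x : H →ₐ[↥(GaloisRep.ratLocalizedAt p)] Ω) :
    H →ₐ[↥(GaloisRep.ratLocalizedAt p)] Ω :=
  (algHomOfRingHom (R := ↥(GaloisRep.ratLocalizedAt p)) σ.toRingHom).comp x

@[simp] theorem algHomCompPoint_apply (σ : Ω →ₐ[ℚ_[p]] Ω)
    (x : H →ₐ[↥(GaloisRep.ratLocalizedAt p)] Ω) (h : H) : algHomCompPoint σ x h = σ (x h) := rfl

theorem map_valuesField_le (σ : Ω →ₐ[ℚ_[p]] Ω) :
    (valuesField p H Ω).map σ ≤ valuesField p H Ω := by
  rw [valuesField, IntermediateField.adjoin_map, IntermediateField.adjoin_le_iff]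
  rintro _ ⟨_, ⟨x, h, rfl⟩, rfl⟩
  exact mem_valuesField (algHomCompPoint σ x) h

section Finite

variable [Module.Free ↥(GaloisRep.ratLocalizedAt p) H] [Module.Finite ↥(GaloisRep.ratLocalizedAt p) H]

/-- the finite generating set: values on a basis. -/
def basisValues : Set Ω :=
  Set.range (fun xi : (H →ₐ[↥(GaloisRep.ratLocalizedAt p)] Ω) ×
      Module.Free.ChooseBasisIndex ↥(GaloisRep.ratLocalizedAt p) H =>
    xi.1 (Module.Free.chooseBasis ↥(GaloisRep.ratLocalizedAt p) H xi.2))

theorem valuesField_eq_adjoin_basisValues :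
    valuesField p H Ω = IntermediateField.adjoin ℚ_[p] (basisValues (p := p) (H := H) (Ω := Ω)) := by
  apply le_antisymm
  · rw [valuesField, IntermediateField.adjoin_le_iff]
    rintro _ ⟨x, h, rfl⟩
    rw [point_apply_eq_sum x h]
    refine sum_mem fun i _ => mul_mem ?_ ?_
    · rw [algebraMap_eq]
      exact IntermediateField.algebraMap_mem _ _
    · exact IntermediateField.subset_adjoin _ _ ⟨(x, i), rfl⟩
  · apply IntermediateField.adjoin.mono
    rintro _ ⟨⟨x, i⟩, rfl⟩
    exact ⟨x, _, rfl⟩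

theorem finiteDimensional_valuesField : FiniteDimensional ℚ_[p] ↥(valuesField p H Ω) := by
  rw [valuesField_eq_adjoin_basisValues]
  have : Finite (H →ₐ[↥(GaloisRep.ratLocalizedAt p)] Ω) := finite_points
  have : Finite (basisValues (p := p) (H := H) (Ω := Ω)) := Set.finite_range _
  refine IntermediateField.finiteDimensional_adjoin ?_
  rintro _ ⟨⟨x, i⟩, rfl⟩
  have h1 : IsIntegral ↥(GaloisRep.ratLocalizedAt p)
      (x (Module.Free.chooseBasis ↥(GaloisRep.ratLocalizedAt p) H i)) := isIntegral_point x _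
  have h2 : IsIntegral ℤ_[p] (x (Module.Free.chooseBasis ↥(GaloisRep.ratLocalizedAt p) H i)) :=
    IsIntegral.map_of_comp_eq (toZp (p := p)) (RingHom.id Ω) (Subsingleton.elim _ _) h1
  exact h2.tower_top

instance instFiniteDimensionalValuesField : FiniteDimensional ℚ_[p] ↥(valuesField p H Ω) :=
  finiteDimensional_valuesField

variable [Algebra.IsAlgebraic ℚ_[p] Ω] [IsAlgClosed Ω]

theorem normal_valuesField : Normal ℚ_[p] ↥(valuesField p H Ω) := by
  have : IsAlgClosure ℚ_[p] Ω := ⟨inferInstance, inferInstance⟩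
  have : Normal ℚ_[p] Ω := IsAlgClosure.normal ℚ_[p] Ω
  exact IntermediateField.normal_iff_forall_map_le.2 map_valuesField_le

theorem isGalois_valuesField : IsGalois ℚ_[p] ↥(valuesField p H Ω) := by
  have := normal_valuesField (p := p) (H := H) (Ω := Ω)
  exact ⟨⟩

end Finite

/-- **FLAT-H.** `(P_m)` for `F_T`, every real `m > p / (p - 1)`. -/
theorem pm_valuesField {H : Type*} [CommRing H] [Bialgebra ↥(GaloisRep.ratLocalizedAt p) H]
    [Coalgebra.IsCocomm ↥(GaloisRep.ratLocalizedAt p) H]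
    [Module.Free ↥(GaloisRep.ratLocalizedAt p) H] [Module.Finite ↥(GaloisRep.ratLocalizedAt p) H]
    [IsAlgClosed Ω]
    (hkill : ∀ x : WithConv (H →ₐ[↥(GaloisRep.ratLocalizedAt p)] Ω), x ^ p = 1)
    (m : ℝ) (hm : (p : ℝ) / ((p : ℝ) - 1) < m) : Pm p ↥(valuesField p H Ω) m := by
  refine pm_of_fieldRange (H := H) ↥(valuesField p H Ω) (valuesField p H Ω).val ?_ ?_ hkill m hm
  · intro x h
    rw [IntermediateField.fieldRange_val]
    exact mem_valuesField x h
  · rw [IntermediateField.fieldRange_val]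
    exact le_rfl

end

end Fermat.Agent.ES.T56.PmValues20
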