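/-
Programme T (S56), chapter FLAT (helper20): **FLAT-EXPORT (a)** — from the Prelude's global
`GaloisRepAdic.IsFlatAt` to the local statement consumed by the count.

If `ρ.IsFlatAt p`, `I` is an ideal of finite index and `V ⧸ I V` is killed by `p`, then there is a
field `F ∈ FlatClass p (PadicAlgCl p)` (finite Galois over `ℚ_[p]`, `(P_m)` for all `m > p/(p-1)`,
so that Theorem R′ applies to it) such that every `τ ∈ Gal(PadicAlgCl p / ℚ_[p])` fixing `F`
pointwise acts trivially on `V ⧸ I V` through `localGaloisToGlobal p`.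

* `exists_padicEmbedding_eq` : elements of `PadicAlgCl p` integral over `ℚ` come from `ℚ̄`.
* `exists_factor_padicEmbedding` : every point `H →ₐ[ℤ_(p)] PadicAlgCl p` is
  `padicEmbedding ∘ (a point H →ₐ[ℤ_(p)] ℚ̄)`.
* `exists_flatClass_of_isFlatAt` : the export.
-/
import Mathlib
import Fermat.Prelude.Def_GaloisRep_Flat
import Fermat.Prelude.Def_GaloisRep_CompletionBridge
import Fermat.Agent.IG.VAL.Zl13
import Fermat.Agent.ES.T56.FlatRIface14
import Fermat.Agent.ES.T56.PointsBasic20
import Fermat.Agent.ES.T56.PmCount20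
import Fermat.Agent.ES.T56.PmFlat20
import Fermat.Agent.ES.T56.PmValues20
import Fermat.Agent.ES.T56.FlatClass20

set_option autoImplicit false
set_option linter.unusedSectionVars false

namespace Fermat.Agent.ES.T56.FlatExportA20

open Fermat.Agent.ES.T56.FlatRIface14 Fermat.Agent.ES.T56.PointsBasic20
  Fermat.Agent.ES.T56.PmCount20 Fermat.Agent.ES.T56.PmFlat20 Fermat.Agent.ES.T56.PmValues20
  Fermat.Agent.ES.T56.FlatClass20 Fermat.Agent.IG.VAL.Zl13 WithConv

noncomputable section

variable {p : ℕ} [hp : Fact p.Prime]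

/-- elements of `PadicAlgCl p` which are integral over `ℚ` lie in the image of `ℚ̄`. -/
theorem exists_padicEmbedding_eq (y : PadicAlgCl p) (hy : IsIntegral ℚ y) :
    ∃ a : AlgebraicClosure ℚ, padicEmbedding p a = y := by
  let K : IntermediateField ℚ (PadicAlgCl p) := (padicEmbedding p).fieldRange
  have hK : IsAlgClosed ↥K :=
    IsAlgClosed.of_ringEquiv (AlgebraicClosure ℚ) ↥K
      (AlgEquiv.ofInjectiveField (padicEmbedding p)).toRingEquiv
  have hyK : IsIntegral ↥K y := hy.tower_top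
  have hdeg : (minpoly ↥K y).degree = 1 :=
    IsAlgClosed.degree_eq_one_of_irreducible ↥K (minpoly.irreducible hyK)
  obtain ⟨⟨z, a, rfl⟩, hz⟩ := minpoly.mem_range_of_degree_eq_one ↥K y hdeg
  exact ⟨a, hz⟩

variable {H : Type} [CommRing H] [Algebra ↥(GaloisRep.ratLocalizedAt p) H]
  [Module.Finite ↥(GaloisRep.ratLocalizedAt p) H]

/-- `padicEmbedding p` as a `ℤ_(p)`-algebra homomorphism. -/
def padicEmbZ : AlgebraicClosure ℚ →ₐ[↥(GaloisRep.ratLocalizedAt p)] PadicAlgCl p :=
  algHomOfRingHom (padicEmbedding p).toRingHom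

@[simp] theorem padicEmbZ_apply (a : AlgebraicClosure ℚ) :
    padicEmbZ (p := p) a = padicEmbedding p a := rfl

theorem padicEmbZ_injective : Function.Injective (padicEmbZ (p := p)) :=
  (padicEmbedding p).toRingHom.injective

/-- every point over `PadicAlgCl p` comes from a point over `ℚ̄`. -/
theorem exists_factor_padicEmbedding (x : H →ₐ[↥(GaloisRep.ratLocalizedAt p)] PadicAlgCl p) :
    ∃ x₀ : H →ₐ[↥(GaloisRep.ratLocalizedAt p)] AlgebraicClosure ℚ,
      (padicEmbZ (p := p)).comp x₀ = x := by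
  have hmem : ∀ h, x h ∈ (padicEmbedding p).fieldRange := fun h => by
    have h1 : IsIntegral ↥(GaloisRep.ratLocalizedAt p) (x h) := isIntegral_point x h
    have h2 : IsIntegral ℚ (x h) :=
      IsIntegral.map_of_comp_eq (algebraMap ↥(GaloisRep.ratLocalizedAt p) ℚ)
        (RingHom.id (PadicAlgCl p)) (Subsingleton.elim _ _) h1
    obtain ⟨a, ha⟩ := exists_padicEmbedding_eq (x h) h2
    exact ⟨a, ha⟩
  let e := AlgEquiv.ofInjectiveField (padicEmbedding p)
  let x₁ : H →+* (padicEmbedding p).fieldRange :=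
    RingHom.codRestrict x.toRingHom (padicEmbedding p).fieldRange hmem
  let x₂ : H →+* AlgebraicClosure ℚ := e.symm.toRingHom.comp x₁
  have hx₂ : ∀ h, padicEmbedding p (x₂ h) = x h := fun h =>
    congrArg Subtype.val (e.apply_symm_apply (x₁ h))
  refine ⟨algHomOfRingHom x₂, ?_⟩
  ext h
  exact hx₂ h

/-- **FLAT-EXPORT (a).** -/
theorem exists_flatClass_of_isFlatAt {A : Type} [CommRing A] [IsLocalRing A]
    (ρ : GaloisRepAdic A) (hflat : ρ.IsFlatAt p) (I : Ideal A) (hI : Finite (A ⧸ I))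
    (hpI : ∀ v : ρ.V ⧸ (I • (⊤ : Submodule A ρ.V)), (p : ℕ) • v = 0) :
    ∃ F ∈ FlatClass p (PadicAlgCl p), ∀ τ : PadicAlgCl p ≃ₐ[ℚ_[p]] PadicAlgCl p,
      (∀ y ∈ F, τ y = y) → ∀ v : ρ.V ⧸ (I • (⊤ : Submodule A ρ.V)),
        ρ.levelAction I (localGaloisToGlobal p τ) v = v := by
  obtain ⟨H, instCR, instHopf, hfin, hfl, hcocomm, e, hadd, hequiv⟩ := hflat.2 I hI
  have hfree : Module.Free ↥(GaloisRep.ratLocalizedAt p) H := free_of_finite_flat p H
  -- points over `ℚ̄` are killed by `p`
  have he1 : e 1 = 0 := by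
    have := hadd 1 1
    rw [mul_one] at this
    exact left_eq_add.mp this
  have hepow : ∀ (f : WithConv (H →ₐ[↥(GaloisRep.ratLocalizedAt p)] AlgebraicClosure ℚ)) (n : ℕ),
      e (f ^ n) = n • e f := by
    intro f n
    induction n with
    | zero => rw [pow_zero, zero_smul, he1]
    | succ n ih => rw [pow_succ, hadd, ih, succ_nsmul]
  have hkill₀ : ∀ f : WithConv (H →ₐ[↥(GaloisRep.ratLocalizedAt p)] AlgebraicClosure ℚ),
      f ^ p = 1 := fun f => by
    apply e.injective
    rw [hepow, hpI, he1]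
  -- points over `PadicAlgCl p` are killed by `p`
  have hkill : ∀ x : WithConv (H →ₐ[↥(GaloisRep.ratLocalizedAt p)] PadicAlgCl p), x ^ p = 1 := by
    intro x
    obtain ⟨x₀, hx₀⟩ := exists_factor_padicEmbedding x.ofConv
    have h1 := comp_pow_eq_one (padicEmbZ (p := p)) (hkill₀ (toConv x₀))
    have h2 : (toConv ((padicEmbZ (p := p)).comp (toConv x₀).ofConv) :
        WithConv (H →ₐ[↥(GaloisRep.ratLocalizedAt p)] PadicAlgCl p)) = x :=
      WithConv.ext hx₀
    rw [h2] at h1
    exact h1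
  refine ⟨valuesField p H (PadicAlgCl p), ?_, ?_⟩
  · exact ⟨instFiniteDimensionalValuesField, isGalois_valuesField,
      fun m hm => pm_valuesField hkill m hm⟩
  · intro τ hτ v
    obtain ⟨f, rfl⟩ := e.surjective v
    symm
    apply hequiv (localGaloisToGlobal p τ) f f
    intro h
    apply (padicEmbedding p).toRingHom.injective
    change padicEmbedding p (f h) = padicEmbedding p (localGaloisToGlobal p τ (f h))
    rw [padicEmbedding_localGaloisToGlobal]
    symm
    apply hτ
    exact mem_valuesField ((padicEmbZ (p := p)).comp f.ofConv) h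

end

end Fermat.Agent.ES.T56.FlatExportA20
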