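/-
Programme T (S56), chapter FLAT, leg FLAT-C (helper20): **membership** in `L_p^{fl}(W)`.

`r : G_ℚ → GL₂(k[ε])` a lift of `rbar` with `(ofMatrix r hr).IsFlatAt p`, `k` finite of characteristic `p`.

* `exists_flatClass_of_lift` : `FlatExportA20` with `A = k[ε]`, `I = ⊥`: there is `F ∈ 𝓕` such that
  `r (locp p g) = 1` for every `g ∈ G_p` fixing `F` pointwise;
* `exists_level_of_lift`    : `MatCont r` modulo `𝔪² = 0`: a finite level `L/ℚ` with `r σ = 1` on `G_L`;
* `resC`, `cobC`            : restriction of a cocycle to `G_p`, coboundary of `m₀ ∈ sl₂(k)`;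
* `res_mem_Lflat`           : if `resC c + cobC m₀` is `W`-valued then `res_p [c] ∈ Lflat p rbar W`;
* `res_mem_Lflat_top`       : the case `W = ⊤`, `m₀ = 0` (every flat lift is bounded);
* `cobC_mem_flatCocycles`   : coboundaries of elements of a `G_p`-stable `W` are flat cocycles (as soon
  as `rbar` is trivial on the fixer of some `F ∈ 𝓕`).
-/
import Mathlib
import Fermat.Agent.ES.T56.FlatIface20
import Fermat.Agent.ES.T56.FlatExportA20

set_option autoImplicit false
set_option linter.unusedSectionVars false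
set_option linter.style.haveILetI false

namespace Fermat.Agent.ES.T56.FlatMember20

open CategoryTheory groupCohomology ExtCitation Fermat.Agent.S53 Fermat.Agent.ES.T56.Ad0Rep10
  Fermat.Agent.ES.T56.OrdIface11 Fermat.Agent.ES.T56.FlatClass20 Fermat.Agent.ES.T56.FlatIface20

noncomputable section

variable (p : ℕ) [Fact p.Prime] {k : Type} [Field k]

/-! ### Small facts on `k[ε]` -/

theorem eq_zero_of_mem_maximalIdeal_sq {a : DualNumber k}
    (ha : a ∈ IsLocalRing.maximalIdeal (DualNumber k) ^ 2) : a = 0 := by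
  rw [pow_two] at ha
  refine Submodule.mul_induction_on ha (fun x hx y hy => ?_) (fun x y hx hy => ?_)
  · rw [mem_maximalIdeal_dualNumber_iff] at hx hy
    apply TrivSqZeroExt.ext
    · rw [TrivSqZeroExt.fst_mul, hx, zero_mul, TrivSqZeroExt.fst_zero]
    · rw [DualNumber.snd_mul, hx, hy, zero_mul, mul_zero, add_zero, TrivSqZeroExt.snd_zero]
  · rw [hx, hy, add_zero]

theorem natCast_dualNumber_eq_zero [CharP k p] : (p : DualNumber k) = 0 := by
  apply TrivSqZeroExt.ext
  · rw [TrivSqZeroExt.fst_natCast, CharP.cast_eq_zero, TrivSqZeroExt.fst_zero]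
  · rw [TrivSqZeroExt.snd_natCast, TrivSqZeroExt.snd_zero]

instance finite_dualNumber [Finite k] : Finite (DualNumber k) :=
  inferInstanceAs (Finite (k × k))

/-! ### The two "levels" of a flat lift -/

/-- **`FlatExportA20` for `A = k[ε]`, `I = ⊥`.** -/
theorem exists_flatClass_of_lift [Finite k] [CharP k p] (r : GQ →* M2 (DualNumber k))
    (hr : MatCont r) (hflat : (ofMatrix r hr).IsFlatAt p) :
    ∃ F ∈ FlatClass p (PadicAlgCl p), ∀ g : Gp p, FixesField p F g → r (locp p g) = 1 := by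
  have hI : Finite (DualNumber k ⧸ (⊥ : Ideal (DualNumber k))) :=
    Finite.of_surjective _ (Ideal.Quotient.mk_surjective (I := (⊥ : Ideal (DualNumber k))))
  have hpI : ∀ v : (ofMatrix r hr).V ⧸
      ((⊥ : Ideal (DualNumber k)) • (⊤ : Submodule (DualNumber k) (ofMatrix r hr).V)),
      (p : ℕ) • v = 0 := by
    intro v
    obtain ⟨w, rfl⟩ := Submodule.Quotient.mk_surjective _ v
    rw [← Submodule.Quotient.mk_smul]
    have : (p : ℕ) • w = 0 := by
      rw [← Nat.cast_smul_eq_nsmul (DualNumber k), natCast_dualNumber_eq_zero, zero_smul]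
    rw [this, Submodule.Quotient.mk_zero]
  obtain ⟨F, hF, h⟩ := FlatExportA20.exists_flatClass_of_isFlatAt (ofMatrix r hr) hflat ⊥ hI hpI
  refine ⟨F, hF, fun g hg => ?_⟩
  have h1 := h (ofGp p g) hg
  apply Matrix.mulVec_injective
  funext w
  rw [Matrix.one_mulVec]
  have h2 := h1 (Submodule.Quotient.mk w)
  replace h2 : (Submodule.Quotient.mk
      ((ofMatrix r hr).ρ (localGaloisToGlobal p (ofGp p g)) (w : (ofMatrix r hr).V)) :
      (ofMatrix r hr).V ⧸ ((⊥ : Ideal (DualNumber k)) •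
        (⊤ : Submodule (DualNumber k) (ofMatrix r hr).V))) =
        Submodule.Quotient.mk (w : (ofMatrix r hr).V) := h2
  replace h2 := (Submodule.Quotient.eq _).mp h2
  rw [Submodule.bot_smul, Submodule.mem_bot, sub_eq_zero] at h2
  exact h2

/-- **Continuity modulo `𝔪² = 0`.** -/
theorem exists_level_of_lift (r : GQ →* M2 (DualNumber k)) (hr : MatCont r) :
    ∃ L : IntermediateField ℚ (AlgebraicClosure ℚ), FiniteDimensional ℚ L ∧
      ∀ σ : GQ, σ ∈ L.fixingSubgroup → r σ = 1 := by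
  obtain ⟨L, hL, hLr⟩ := hr 2
  refine ⟨L, hL, fun σ hσ => ?_⟩
  have h := hLr σ (fun x hx => (IntermediateField.mem_fixingSubgroup_iff L σ).mp hσ x hx)
  apply Matrix.ext
  intro i j
  have := eq_zero_of_mem_maximalIdeal_sq (h i j)
  rwa [Matrix.sub_apply, sub_eq_zero] at this

/-! ### Restriction to `G_p` and coboundaries -/

/-- restriction of a cocycle to `G_p`. -/
def resC (rbar : GQ →* M2 k) (c : cocycles₁ (ad0 rbar)) : cocycles₁ (ad0Loc p rbar) :=
  mapCocycles₁ (locp p) (𝟙 (ad0Loc p rbar)) c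

theorem resC_apply (rbar : GQ →* M2 k) (c : cocycles₁ (ad0 rbar)) (g : Gp p) :
    (resC p rbar c : Gp p → ad0Loc p rbar) g = (c : GQ → ad0 rbar) (locp p g) := by
  rw [resC, coe_mapCocycles₁]
  rfl

/-- the coboundary of `m₀`. -/
def cobC (rbar : GQ →* M2 k) (m₀ : sl2 k) : cocycles₁ (ad0Loc p rbar) :=
  ⟨(d₀₁ (ad0Loc p rbar)).hom m₀, d₀₁_apply_mem_cocycles₁ (A := ad0Loc p rbar) m₀⟩

theorem cobC_apply (rbar : GQ →* M2 k) (m₀ : sl2 k) (g : Gp p) :
    (cobC p rbar m₀ : Gp p → ad0Loc p rbar) g = (ad0Loc p rbar).ρ g m₀ - m₀ := rfl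

theorem cobC_apply_coe (rbar : GQ →* M2 k) (m₀ : sl2 k) (g : Gp p) :
    ((((cobC p rbar m₀ : Gp p → ad0Loc p rbar) g : ad0Loc p rbar) : sl2 k) : M2 k) =
      rbar (locp p g) * (m₀ : M2 k) * rbar (locp p g)⁻¹ - (m₀ : M2 k) := by
  rw [cobC_apply]
  show (((ad0 rbar).ρ (locp p g) m₀ - m₀ : sl2 k) : M2 k) = _
  rw [Submodule.coe_sub, ad0_ρ_apply_coe]

theorem add_apply (rbar : GQ →* M2 k) (c c' : cocycles₁ (ad0Loc p rbar)) (g : Gp p) :
    ((c + c' : cocycles₁ (ad0Loc p rbar)) : Gp p → ad0Loc p rbar) g =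
      (c : Gp p → ad0Loc p rbar) g + (c' : Gp p → ad0Loc p rbar) g := rfl

/-- the class of the restriction, modified by a coboundary. -/
theorem class_eq (rbar : GQ →* M2 k) (c : cocycles₁ (ad0 rbar)) (m₀ : sl2 k) :
    (map (locp p) (𝟙 (ad0Loc p rbar)) 1).hom ((H1π (ad0 rbar)).hom c) =
      (H1π (ad0Loc p rbar)).hom (resC p rbar c + cobC p rbar m₀) := by
  have h1 : (map (locp p) (𝟙 (ad0Loc p rbar)) 1).hom ((H1π (ad0 rbar)).hom c) =
      (H1π (ad0Loc p rbar)).hom (resC p rbar c) :=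
    H1π_comp_map_apply (locp p) (𝟙 (ad0Loc p rbar)) c
  rw [h1]
  symm
  apply (H1π_eq_iff (resC p rbar c + cobC p rbar m₀) (resC p rbar c)).mpr
  refine ⟨m₀, ?_⟩
  funext g
  show _ = ((resC p rbar c + cobC p rbar m₀ : cocycles₁ (ad0Loc p rbar)) : _ → ad0Loc p rbar) g -
    (resC p rbar c : _ → ad0Loc p rbar) g
  rw [add_apply, add_sub_cancel_left]
  rfl

/-! ### Triviality of the coefficients on a subgroup kills cocycle values -/

section Triv

variable (rbar : GQ →* M2 k)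

/-- A cocycle of `ad0Loc` which vanishes at `s` is right-invariant under `s`. -/
theorem apply_mul_of_apply_eq_zero (X : cocycles₁ (ad0Loc p rbar)) (g s : Gp p)
    (hs : (X : Gp p → ad0Loc p rbar) s = 0) :
    (X : Gp p → ad0Loc p rbar) (g * s) = (X : Gp p → ad0Loc p rbar) g := by
  have hcoc : (X : _ → ad0Loc p rbar) (g * s) =
      (ad0Loc p rbar).ρ g ((X : _ → ad0Loc p rbar) s) + (X : _ → ad0Loc p rbar) g :=
    (mem_cocycles₁_iff (X : _ → ad0Loc p rbar)).mp X.2 g s
  rw [hcoc, hs, map_zero, zero_add]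

/-- The coboundary of `m₀` vanishes where `rbar` is trivial. -/
theorem cobC_apply_eq_zero (m₀ : sl2 k) (g : Gp p) (hg : rbar (locp p g) = 1) :
    (cobC p rbar m₀ : Gp p → ad0Loc p rbar) g = 0 := by
  have h1 : (((cobC p rbar m₀ : Gp p → ad0Loc p rbar) g : sl2 k) : M2 k) = 0 := by
    have hinv : rbar (locp p g)⁻¹ = 1 := by
      have := map_mul rbar (locp p g)⁻¹ (locp p g)
      rw [inv_mul_cancel, map_one, hg, mul_one] at this
      exact this.symm
    rw [cobC_apply_coe, hg, hinv, one_mul, mul_one, sub_self]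
  exact Subtype.ext h1

/-- The restriction of the `ε`-part cocycle vanishes where `r` is trivial. -/
theorem resC_apply_eq_zero (r : GQ →* M2 (DualNumber k)) (c : cocycles₁ (ad0 rbar))
    (hc : ∀ σ, ((c σ : sl2 k) : M2 k) = epsPart r σ) (g : Gp p) (hg : r (locp p g) = 1) :
    (resC p rbar c : Gp p → ad0Loc p rbar) g = 0 := by
  rw [resC_apply]
  apply Subtype.ext
  show ((c (locp p g) : sl2 k) : M2 k) = 0
  rw [hc, epsPart_eq, hg, sndM_one, zero_mul]

end Triv

/-! ### Membership -/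

/-- **Membership, general form.** -/
theorem res_mem_Lflat [Finite k] [CharP k p] (rbar : GQ →* M2 k) (W : Submodule k (sl2 k))
    (r : GQ →* M2 (DualNumber k)) (hr : MatCont r) (hfst : ∀ σ, fstM (r σ) = rbar σ)
    (hflat : (ofMatrix r hr).IsFlatAt p) (c : cocycles₁ (ad0 rbar))
    (hc : ∀ σ, ((c σ : sl2 k) : M2 k) = epsPart r σ) (m₀ : sl2 k)
    (hW : ∀ g : Gp p,
      ((resC p rbar c + cobC p rbar m₀ : cocycles₁ (ad0Loc p rbar)) : Gp p → ad0Loc p rbar) g ∈ W) :
    (map (locp p) (𝟙 (ad0Loc p rbar)) 1).hom ((H1π (ad0 rbar)).hom c) ∈ Lflat p rbar W := by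
  rw [class_eq p rbar c m₀, mem_Lflat_iff]
  refine ⟨resC p rbar c + cobC p rbar m₀, ?_, ?_, hW, rfl⟩
  · -- level-constant
    obtain ⟨L, hL, hLr⟩ := exists_level_of_lift r hr
    refine ⟨L, hL, fun g s hs => ?_⟩
    have hr1 : r (locp p s) = 1 := hLr _ hs
    have hrb1 : rbar (locp p s) = 1 := by rw [← hfst, hr1, fstM_one]
    apply apply_mul_of_apply_eq_zero
    rw [add_apply, resC_apply_eq_zero p rbar r c hc s hr1, cobC_apply_eq_zero p rbar m₀ s hrb1,
      add_zero]
  · -- bounded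
    obtain ⟨F, hF, hFr⟩ := exists_flatClass_of_lift p r hr hflat
    refine ⟨F, hF, fun g hg => ?_⟩
    have hr1 : r (locp p g) = 1 := hFr g hg
    have hrb1 : rbar (locp p g) = 1 := by rw [← hfst, hr1, fstM_one]
    rw [add_apply, resC_apply_eq_zero p rbar r c hc g hr1, cobC_apply_eq_zero p rbar m₀ g hrb1,
      add_zero]

/-- **Membership, `W = ⊤`**: the local class of every flat lift is bounded. -/
theorem res_mem_Lflat_top [Finite k] [CharP k p] (rbar : GQ →* M2 k)
    (r : GQ →* M2 (DualNumber k)) (hr : MatCont r) (hfst : ∀ σ, fstM (r σ) = rbar σ)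
    (hflat : (ofMatrix r hr).IsFlatAt p) (c : cocycles₁ (ad0 rbar))
    (hc : ∀ σ, ((c σ : sl2 k) : M2 k) = epsPart r σ) :
    (map (locp p) (𝟙 (ad0Loc p rbar)) 1).hom ((H1π (ad0 rbar)).hom c) ∈ Lflat p rbar ⊤ :=
  res_mem_Lflat p rbar ⊤ r hr hfst hflat c hc 0 fun _ => Submodule.mem_top

/-- The matrix of `(resC c + cobC m₀) g`. -/
theorem val_eq (rbar : GQ →* M2 k) (r : GQ →* M2 (DualNumber k)) (c : cocycles₁ (ad0 rbar))
    (hc : ∀ σ, ((c σ : sl2 k) : M2 k) = epsPart r σ) (m₀ : sl2 k) (g : Gp p) :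
    ((((resC p rbar c + cobC p rbar m₀ : cocycles₁ (ad0Loc p rbar)) : Gp p → ad0Loc p rbar) g :
      sl2 k) : M2 k) =
      epsPart r (locp p g) + (rbar (locp p g) * (m₀ : M2 k) * rbar (locp p g)⁻¹ - (m₀ : M2 k)) := by
  rw [add_apply]
  show ((((resC p rbar c : Gp p → ad0Loc p rbar) g : sl2 k) +
    ((cobC p rbar m₀ : Gp p → ad0Loc p rbar) g : sl2 k) : sl2 k) : M2 k) = _
  rw [Submodule.coe_add, cobC_apply_coe, resC_apply]
  congr 1
  exact hc _

/-- `rbar` is trivial on the fixer of some `F ∈ 𝓕` and on some finite level: the data needed to see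
that coboundaries are flat cocycles. -/
structure IsFlatBounded (rbar : GQ →* M2 k) : Prop where
  bdd : ∃ F ∈ FlatClass p (PadicAlgCl p), ∀ g : Gp p, FixesField p F g → rbar (locp p g) = 1
  lev : ∃ L : IntermediateField ℚ (AlgebraicClosure ℚ), FiniteDimensional ℚ L ∧
    ∀ σ : GQ, σ ∈ L.fixingSubgroup → rbar σ = 1

theorem isFlatBounded_of_lift [Finite k] [CharP k p] (rbar : GQ →* M2 k)
    (r : GQ →* M2 (DualNumber k)) (hr : MatCont r) (hfst : ∀ σ, fstM (r σ) = rbar σ)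
    (hflat : (ofMatrix r hr).IsFlatAt p) : IsFlatBounded p rbar := by
  constructor
  · obtain ⟨F, hF, hFr⟩ := exists_flatClass_of_lift p r hr hflat
    exact ⟨F, hF, fun g hg => by rw [← hfst, hFr g hg, fstM_one]⟩
  · obtain ⟨L, hL, hLr⟩ := exists_level_of_lift r hr
    exact ⟨L, hL, fun σ hσ => by rw [← hfst, hLr σ hσ, fstM_one]⟩

/-- Coboundaries of elements of a `G_p`-stable `W` are flat cocycles with values in `W`. -/
theorem cobC_mem_flatCocycles (rbar : GQ →* M2 k) (hb : IsFlatBounded p rbar)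
    (W : Submodule k (sl2 k))
    (hW : ∀ (g : Gp p) (m : sl2 k), m ∈ W → (ad0Loc p rbar).ρ g m ∈ W) (m₀ : sl2 k) (hm₀ : m₀ ∈ W) :
    cobC p rbar m₀ ∈ flatCocycles p (ad0Loc p rbar) W := by
  rw [mem_flatCocycles_iff]
  refine ⟨?_, ?_, fun g => ?_⟩
  · obtain ⟨L, hL, hLr⟩ := hb.lev
    exact ⟨L, hL, fun g s hs => apply_mul_of_apply_eq_zero p rbar _ g s
      (cobC_apply_eq_zero p rbar m₀ s (hLr _ hs))⟩
  · obtain ⟨F, hF, hFr⟩ := hb.bdd
    exact ⟨F, hF, fun g hg => cobC_apply_eq_zero p rbar m₀ g (hFr g hg)⟩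
  · rw [cobC_apply]
    exact W.sub_mem (hW g m₀ hm₀) hm₀

end

end Fermat.Agent.ES.T56.FlatMember20
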