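/-
Programme T (S56), chapter FLAT, leg FLAT-C (helper20): **from cocycles to classes**.

`#L_p^{fl}(W) · #W ≤ #Z_b(W) · #H⁰(G_p, ad⁰ρ̄)` for a `G_p`-stable `W ≤ sl₂(k)`, as soon as `rbar` is
trivial on the fixer of a field of `𝓕` and on a finite level (so that all coboundaries of elements of
`W` are flat cocycles with values in `W`): `L = Z_b(W) / (Z_b(W) ∩ B¹)` and
`Z_b(W) ∩ B¹ ⊇ d(W) ≅ W / (W ∩ H⁰)`.

* `card_map_mul_le` : the general statement (any group, any representation, any submodule `M` of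
  cocycles containing the coboundaries of the elements of `W`);
* `card_Lflat_mul_le` : the instance for `L_p^{fl}(W)`.
-/
import Mathlib
import Fermat.Agent.ES.T56.FlatIface20
import Fermat.Agent.ES.T56.FlatMember20
import Fermat.Agent.ES.T56.FlatCard20

set_option autoImplicit false
set_option linter.unusedSectionVars false
set_option linter.style.haveILetI false

namespace Fermat.Agent.ES.T56.FlatH1Count20

open CategoryTheory groupCohomology ExtCitation Fermat.Agent.S53 Fermat.Agent.ES.T56.Ad0Rep10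
  Fermat.Agent.ES.T56.OrdIface11 Fermat.Agent.ES.T56.FlatClass20 Fermat.Agent.ES.T56.FlatIface20
  Fermat.Agent.ES.T56.FlatMember20 Fermat.Agent.ES.T56.FlatCard20

noncomputable section

/-! ### The general statement -/

section General

variable {k G : Type} [CommRing k] [Group G] (A : Rep k G)

/-- the coboundary of `m`, as a cocycle. -/
def cob (m : A) : cocycles₁ A := ⟨(d₀₁ A).hom m, d₀₁_apply_mem_cocycles₁ (A := A) m⟩

theorem cob_apply (m : A) (g : G) : (cob A m : G → A) g = A.ρ g m - m := rfl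

theorem cob_eq_zero_iff (m : A) : cob A m = 0 ↔ m ∈ A.ρ.invariants := by
  rw [Representation.mem_invariants]
  constructor
  · intro h g
    have := congrFun (congrArg (fun c : cocycles₁ A => (c : G → A)) h) g
    simp only [cob_apply] at this
    exact sub_eq_zero.mp this
  · intro h
    apply Subtype.ext
    funext g
    show (cob A m : G → A) g = 0
    rw [cob_apply, h g, sub_self]

theorem cob_sub (m m' : A) : cob A (m - m') = cob A m - cob A m' := by
  apply Subtype.ext
  funext g
  show (cob A (m - m') : G → A) g = (cob A m : G → A) g - (cob A m' : G → A) g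
  rw [cob_apply, cob_apply, cob_apply, map_sub]
  abel

theorem H1π_cob (m : A) : (H1π A).hom (cob A m) = 0 := by
  rw [H1π_eq_zero_iff]
  exact ⟨m, rfl⟩

/-- **`#(image of M in H¹) · #W ≤ #M · #H⁰`** if `M ⊇ d(W)`. -/
theorem card_map_mul_le (M : Submodule k (cocycles₁ A)) (W : Submodule k A) [Finite ↥M]
    [Finite ↥W] [Finite ↥(A.ρ.invariants)] (hcob : ∀ m ∈ W, cob A m ∈ M) :
    Finite ↥(M.map (H1π A).hom) ∧
      Nat.card ↥(M.map (H1π A).hom) * Nat.card ↥W ≤
        Nat.card ↥M * Nat.card ↥(A.ρ.invariants) := by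
  -- the class map on `M`
  let φ : ↥M →ₗ[k] H1 A := (H1π A).hom.domRestrict M
  have hrange : LinearMap.range φ = M.map (H1π A).hom := LinearMap.range_domRestrict _ _
  have hcard : Nat.card ↥M = Nat.card ↥(LinearMap.ker φ) * Nat.card ↥(M.map (H1π A).hom) := by
    rw [card_eq_card_ker_mul_card_range φ, hrange]
  haveI : Finite ↥(M.map (H1π A).hom) := by
    rw [← hrange]
    exact Finite.of_surjective φ.rangeRestrict φ.surjective_rangeRestrict
  refine ⟨inferInstance, ?_⟩
  -- `W → ker φ`, `m ↦ d m`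
  let f : ↥W → ↥(LinearMap.ker φ) := fun m =>
    ⟨⟨cob A (m : A), hcob m m.2⟩, by
      rw [LinearMap.mem_ker]
      exact H1π_cob A (m : A)⟩
  let K : Set ↥W := {m | (m : A) ∈ A.ρ.invariants}
  have hK : Nat.card ↥K ≤ Nat.card ↥(A.ρ.invariants) :=
    Nat.card_le_card_of_injective (fun m : ↥K => (⟨((m : ↥W) : A), m.2⟩ : ↥(A.ρ.invariants)))
      (fun m m' h => Subtype.ext (Subtype.ext (congrArg (fun z : ↥(A.ρ.invariants) => (z : A)) h)))
  have h1 := finite_and_card_le f Set.univ K Set.finite_univ (Set.toFinite K) (fun _ => trivial)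
    (fun m m' h => by
      have h2 : cob A (m : A) = cob A (m' : A) :=
        congrArg (fun z : ↥(LinearMap.ker φ) => ((z : ↥M) : cocycles₁ A)) h
      show ((m - m' : ↥W) : A) ∈ A.ρ.invariants
      rw [Submodule.coe_sub, ← cob_eq_zero_iff, cob_sub, h2, sub_self])
  have h3 : Nat.card ↥W ≤ Nat.card ↥(A.ρ.invariants) * Nat.card ↥(LinearMap.ker φ) := by
    calc Nat.card ↥W ≤ Nat.card ↥K * Nat.card ↥(Set.univ : Set ↥(LinearMap.ker φ)) := h1.2
      _ ≤ Nat.card ↥(A.ρ.invariants) * Nat.card ↥(LinearMap.ker φ) := by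
        rw [Nat.card_congr (Equiv.Set.univ _)]
        exact Nat.mul_le_mul_right _ hK
  calc Nat.card ↥(M.map (H1π A).hom) * Nat.card ↥W
      ≤ Nat.card ↥(M.map (H1π A).hom) *
          (Nat.card ↥(A.ρ.invariants) * Nat.card ↥(LinearMap.ker φ)) :=
        Nat.mul_le_mul_left _ h3
    _ = Nat.card ↥M * Nat.card ↥(A.ρ.invariants) := by rw [hcard]; ring

end General

/-! ### The instance -/

variable (p : ℕ) [Fact p.Prime] {k : Type} [Field k]

instance finite_sl2 [Finite k] : Finite ↥(sl2 k) :=
  Finite.of_injective (fun X : ↥(sl2 k) => (X : M2 k)) Subtype.val_injective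

/-- **`#L · #W ≤ #Z_b(W) · #H⁰`.** -/
theorem card_Lflat_mul_le [Finite k] (rbar : GQ →* M2 k) (hb : IsFlatBounded p rbar)
    (W : Submodule k (sl2 k))
    (hW : ∀ (g : Gp p) (m : sl2 k), m ∈ W → (ad0Loc p rbar).ρ g m ∈ W)
    (hfin : Finite ↥(flatCocycles p (ad0Loc p rbar) W)) :
    Finite ↥(Lflat p rbar W) ∧
      Nat.card ↥(Lflat p rbar W) * Nat.card ↥W ≤
        Nat.card ↥(flatCocycles p (ad0Loc p rbar) W) *
          Nat.card ↥((ad0Loc p rbar).ρ.invariants) := by
  haveI : Finite ↥((ad0Loc p rbar).ρ.invariants) :=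
    Finite.of_injective (fun X : ↥((ad0Loc p rbar).ρ.invariants) => ((X : ad0Loc p rbar) : sl2 k))
      Subtype.val_injective
  haveI : Finite ↥W := Finite.of_injective (fun X : ↥W => (X : sl2 k)) Subtype.val_injective
  exact card_map_mul_le (ad0Loc p rbar) (flatCocycles p (ad0Loc p rbar) W) W
    (fun m hm => cobC_mem_flatCocycles p rbar hb W hW m hm)

end

end Fermat.Agent.ES.T56.FlatH1Count20
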