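/-
Programme T (S56), chapter FLAT, leg FLAT-C (helper20): `2 × 2` matrix identities (Mathlib only).

Conjugation `Y ↦ T * Y * T'` (`T * T' = 1`) on the entries of `Y`, for `T` upper triangular, diagonal
or anti-diagonal.
-/
import Mathlib

set_option autoImplicit false

namespace Fermat.Agent.ES.T56.FlatMat20

open Matrix

variable {k : Type} [Field k]

/-! ### Upper triangular -/

theorem inv_upper {x u z : k} (hx : x ≠ 0) (hz : z ≠ 0) {T' : Matrix (Fin 2) (Fin 2) k}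
    (hT : !![x, u; 0, z] * T' = 1) : T' = !![x⁻¹, -(u * x⁻¹ * z⁻¹); 0, z⁻¹] := by
  have h1 : !![x⁻¹, -(u * x⁻¹ * z⁻¹); 0, z⁻¹] * !![x, u; 0, z] =
      (1 : Matrix (Fin 2) (Fin 2) k) := by
    rw [Matrix.mul_fin_two, Matrix.one_fin_two]
    have e1 : x⁻¹ * x + -(u * x⁻¹ * z⁻¹) * 0 = 1 := by
      rw [mul_zero, add_zero, inv_mul_cancel₀ hx]
    have e2 : x⁻¹ * u + -(u * x⁻¹ * z⁻¹) * z = 0 := by
      have : -(u * x⁻¹ * z⁻¹) * z = -(x⁻¹ * u) * (z⁻¹ * z) := by ring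
      rw [this, inv_mul_cancel₀ hz]
      ring
    have e3 : 0 * x + z⁻¹ * 0 = (0 : k) := by ring
    have e4 : 0 * u + z⁻¹ * z = 1 := by rw [zero_mul, zero_add, inv_mul_cancel₀ hz]
    rw [e1, e2, e3, e4]
  calc T' = (!![x⁻¹, -(u * x⁻¹ * z⁻¹); 0, z⁻¹] * !![x, u; 0, z]) * T' := by rw [h1, one_mul]
    _ = !![x⁻¹, -(u * x⁻¹ * z⁻¹); 0, z⁻¹] := by rw [mul_assoc, hT, mul_one]

/-- lower-left entry of a conjugate by an upper triangular matrix. -/
theorem upper_conj_10 {x u z : k} (hx : x ≠ 0) (hz : z ≠ 0) {T' : Matrix (Fin 2) (Fin 2) k}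
    (hT : !![x, u; 0, z] * T' = 1) (Y : Matrix (Fin 2) (Fin 2) k) :
    (!![x, u; 0, z] * Y * T') 1 0 = z * x⁻¹ * Y 1 0 := by
  rw [inv_upper hx hz hT, Matrix.eta_fin_two Y, Matrix.mul_fin_two, Matrix.mul_fin_two]
  simp
  ring

/-- diagonal entries of a conjugate of an upper triangular matrix by an upper triangular matrix. -/
theorem upper_conj_00 {x u z : k} (hx : x ≠ 0) (hz : z ≠ 0) {T' : Matrix (Fin 2) (Fin 2) k}
    (hT : !![x, u; 0, z] * T' = 1) (Y : Matrix (Fin 2) (Fin 2) k) (hY : Y 1 0 = 0) :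
    (!![x, u; 0, z] * Y * T') 0 0 = Y 0 0 := by
  rw [inv_upper hx hz hT, Matrix.eta_fin_two Y, Matrix.mul_fin_two, Matrix.mul_fin_two, hY]
  simp
  field_simp

/-- upper-right entry of a conjugate of a strictly upper triangular matrix. -/
theorem upper_conj_01 {x u z : k} (hx : x ≠ 0) (hz : z ≠ 0) {T' : Matrix (Fin 2) (Fin 2) k}
    (hT : !![x, u; 0, z] * T' = 1) (Y : Matrix (Fin 2) (Fin 2) k) (h10 : Y 1 0 = 0)
    (h00 : Y 0 0 = 0) (h11 : Y 1 1 = 0) :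
    (!![x, u; 0, z] * Y * T') 0 1 = x * z⁻¹ * Y 0 1 := by
  rw [inv_upper hx hz hT, Matrix.eta_fin_two Y, Matrix.mul_fin_two, Matrix.mul_fin_two, h10, h00,
    h11]
  simp
  ring

/-! ### Diagonal -/

theorem inv_diag {x z : k} (hx : x ≠ 0) (hz : z ≠ 0) {T' : Matrix (Fin 2) (Fin 2) k}
    (hT : Matrix.diagonal ![x, z] * T' = 1) : T' = !![x⁻¹, 0; 0, z⁻¹] := by
  have h0 : (Matrix.diagonal ![x, z] : Matrix (Fin 2) (Fin 2) k) = !![x, 0; 0, z] := by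
    ext i j
    fin_cases i <;> fin_cases j <;> simp
  rw [h0] at hT
  have := inv_upper hx hz hT
  rw [this]
  simp

theorem diag_eq (x z : k) :
    (Matrix.diagonal ![x, z] : Matrix (Fin 2) (Fin 2) k) = !![x, 0; 0, z] := by
  ext i j
  fin_cases i <;> fin_cases j <;> simp

theorem diag_conj {x z : k} (hx : x ≠ 0) (hz : z ≠ 0) {T' : Matrix (Fin 2) (Fin 2) k}
    (hT : Matrix.diagonal ![x, z] * T' = 1) (Y : Matrix (Fin 2) (Fin 2) k) :
    Matrix.diagonal ![x, z] * Y * T' =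
      !![Y 0 0, x * z⁻¹ * Y 0 1; z * x⁻¹ * Y 1 0, Y 1 1] := by
  rw [inv_diag hx hz hT, diag_eq]
  obtain ⟨a, b, c, d, rfl⟩ : ∃ a b c d : k, Y = !![a, b; c, d] :=
    ⟨_, _, _, _, Matrix.eta_fin_two Y⟩
  rw [Matrix.mul_fin_two, Matrix.mul_fin_two]
  have e1 : (x * a + 0 * c) * x⁻¹ + (x * b + 0 * d) * 0 = a := by
    have : a * x * x⁻¹ = a := mul_inv_cancel_right₀ hx a
    linear_combination this
  have e2 : (x * a + 0 * c) * 0 + (x * b + 0 * d) * z⁻¹ = x * z⁻¹ * b := by ring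
  have e3 : (0 * a + z * c) * x⁻¹ + (0 * b + z * d) * 0 = z * x⁻¹ * c := by ring
  have e4 : (0 * a + z * c) * 0 + (0 * b + z * d) * z⁻¹ = d := by
    have : d * z * z⁻¹ = d := mul_inv_cancel_right₀ hz d
    linear_combination this
  rw [e1, e2, e3, e4]
  simp

/-! ### Anti-diagonal -/

theorem inv_antidiag {d e : k} (hd : d ≠ 0) (he : e ≠ 0) {T' : Matrix (Fin 2) (Fin 2) k}
    (hT : !![0, d; e, 0] * T' = 1) : T' = !![0, e⁻¹; d⁻¹, 0] := by
  have h1 : !![0, e⁻¹; d⁻¹, 0] * !![0, d; e, 0] = (1 : Matrix (Fin 2) (Fin 2) k) := by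
    rw [Matrix.mul_fin_two, Matrix.one_fin_two]
    have e1 : 0 * 0 + e⁻¹ * e = (1 : k) := by rw [mul_zero, zero_add, inv_mul_cancel₀ he]
    have e2 : 0 * d + e⁻¹ * 0 = (0 : k) := by ring
    have e3 : d⁻¹ * 0 + 0 * e = (0 : k) := by ring
    have e4 : d⁻¹ * d + 0 * 0 = (1 : k) := by rw [mul_zero, add_zero, inv_mul_cancel₀ hd]
    rw [e1, e2, e3, e4]
  calc T' = (!![0, e⁻¹; d⁻¹, 0] * !![0, d; e, 0]) * T' := by rw [h1, one_mul]
    _ = !![0, e⁻¹; d⁻¹, 0] := by rw [mul_assoc, hT, mul_one]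

theorem antidiag_ne_zero {d e : k} {T' : Matrix (Fin 2) (Fin 2) k}
    (hT : !![0, d; e, 0] * T' = 1) : d ≠ 0 ∧ e ≠ 0 := by
  have hdet : (!![0, d; e, 0] : Matrix (Fin 2) (Fin 2) k).det * T'.det = 1 := by
    rw [← Matrix.det_mul, hT, Matrix.det_one]
  rw [Matrix.det_fin_two_of] at hdet
  constructor
  · rintro rfl
    simp at hdet
  · rintro rfl
    simp at hdet

/-- conjugation by an anti-diagonal matrix. -/
theorem antidiag_conj {T T' : Matrix (Fin 2) (Fin 2) k} {d e : k} (h00 : T 0 0 = 0)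
    (h11 : T 1 1 = 0) (h01 : T 0 1 = d) (h10 : T 1 0 = e) (hT : T * T' = 1)
    (Y : Matrix (Fin 2) (Fin 2) k) :
    T * Y * T' = !![Y 1 1, d * e⁻¹ * Y 1 0; e * d⁻¹ * Y 0 1, Y 0 0] := by
  have hTeq : T = !![0, d; e, 0] := by
    rw [Matrix.eta_fin_two T, h00, h11, h01, h10]
  subst hTeq
  obtain ⟨hd, he⟩ := antidiag_ne_zero hT
  rw [inv_antidiag hd he hT]
  obtain ⟨a, b, c, d', rfl⟩ : ∃ a b c d' : k, Y = !![a, b; c, d'] :=
    ⟨_, _, _, _, Matrix.eta_fin_two Y⟩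
  rw [Matrix.mul_fin_two, Matrix.mul_fin_two]
  have e1 : (0 * a + d * c) * 0 + (0 * b + d * d') * d⁻¹ = d' := by
    have : d' * d * d⁻¹ = d' := mul_inv_cancel_right₀ hd d'
    linear_combination this
  have e2 : (0 * a + d * c) * e⁻¹ + (0 * b + d * d') * 0 = d * e⁻¹ * c := by ring
  have e3 : (e * a + 0 * c) * 0 + (e * b + 0 * d') * d⁻¹ = e * d⁻¹ * b := by ring
  have e4 : (e * a + 0 * c) * e⁻¹ + (e * b + 0 * d') * 0 = a := by
    have : a * e * e⁻¹ = a := mul_inv_cancel_right₀ he a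
    linear_combination this
  rw [e1, e2, e3, e4]
  simp

end Fermat.Agent.ES.T56.FlatMat20
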