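/-
Programme T (S56), chapter FLAT, leg FLAT-C (helper20): **the matrix-function model of the flat
cocycles**.

`ρ g := rbar (locp p g)`.  A flat cocycle of `ad0Loc p rbar` is a function `Z : G_p → M₂(k)` with
trace zero, `Z (g h) = Z g + ρ g · Z h · ρ g⁻¹`, level-constant and bounded (`IsFlatZ`).

* `matOf c`            : the matrix function of a cocycle; injective; `isFlatZ_matOf`;
* `card_flatCocycles_le` : an upper bound for the set of matrix functions bounds `#flatCocycles`;
* `conj B Binv Z`      : the conjugated function `g ↦ Binv * Z g * B`, its cocycle identity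
                         `Y (g h) = Y g + T g · Y h · T' g` and trace;
* `IsFlatZ.comp_level`, `IsFlatZ.comp_bounded` : entries of `Z` are level-constant and bounded.
-/
import Mathlib
import Fermat.Agent.ES.T56.FlatIface20

set_option autoImplicit false
set_option linter.unusedSectionVars false
set_option linter.style.haveILetI false

namespace Fermat.Agent.ES.T56.FlatZ20

open CategoryTheory groupCohomology ExtCitation Fermat.Agent.S53 Fermat.Agent.ES.T56.Ad0Rep10
  Fermat.Agent.ES.T56.OrdIface11 Fermat.Agent.ES.T56.FlatClass20 Fermat.Agent.ES.T56.FlatIface20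

noncomputable section

variable (p : ℕ) [Fact p.Prime] {k : Type} [Field k]

/-! ### `ρ` on `G_p` -/

/-- `ρ g = rbar (locp p g)`. -/
def rho (rbar : GQ →* M2 k) (g : Gp p) : M2 k := rbar (locp p g)

/-- `ρ g⁻¹`. -/
def rhoInv (rbar : GQ →* M2 k) (g : Gp p) : M2 k := rbar (locp p g)⁻¹

variable (rbar : GQ →* M2 k)

theorem rho_mul_rhoInv (g : Gp p) : rho p rbar g * rhoInv p rbar g = 1 := rbar_mul_inv rbar _

theorem rhoInv_mul_rho (g : Gp p) : rhoInv p rbar g * rho p rbar g = 1 := rbar_inv_mul rbar _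

theorem rho_mul (g h : Gp p) : rho p rbar (g * h) = rho p rbar g * rho p rbar h := by
  rw [rho, map_mul, map_mul]
  rfl

theorem rho_one : rho p rbar 1 = 1 := by
  rw [rho, map_one, map_one]

theorem rhoInv_eq (g : Gp p) : rhoInv p rbar g = rho p rbar g⁻¹ := by
  rw [rho, rhoInv, map_inv (locp p) g]

/-! ### Flat matrix cocycles -/

/-- `Z : G_p → M₂(k)` is a flat cocycle of `ad⁰ρ̄|_{G_p}` in matrix form. -/
structure IsFlatZ (Z : Gp p → M2 k) : Prop where
  tr : ∀ g, (Z g).trace = 0
  coc : ∀ g h, Z (g * h) = Z g + rho p rbar g * Z h * rhoInv p rbar g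
  lev : IsLevelConstant₁ (locp p) Z
  bdd : IsBounded p Z

variable {p rbar}

theorem IsFlatZ.sub {Z Z' : Gp p → M2 k} (hZ : IsFlatZ p rbar Z) (hZ' : IsFlatZ p rbar Z') :
    IsFlatZ p rbar (Z - Z') := by
  refine ⟨fun g => ?_, fun g h => ?_, ?_, ?_⟩
  · rw [Pi.sub_apply, Matrix.trace_sub, hZ.tr, hZ'.tr, sub_zero]
  · rw [Pi.sub_apply, Pi.sub_apply, Pi.sub_apply, hZ.coc, hZ'.coc, mul_sub, sub_mul]
    abel
  · obtain ⟨F, hF, h⟩ := hZ.lev
    obtain ⟨F', hF', h'⟩ := hZ'.lev
    haveI := hF; haveI := hF'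
    refine ⟨F ⊔ F', inferInstance, fun g s hs => ?_⟩
    rw [Pi.sub_apply, Pi.sub_apply,
      h g s (IntermediateField.fixingSubgroup_antitone le_sup_left hs),
      h' g s (IntermediateField.fixingSubgroup_antitone le_sup_right hs)]
  · have := hZ.bdd.add hZ'.bdd.neg
    rwa [← sub_eq_add_neg] at this

theorem IsFlatZ.one {Z : Gp p → M2 k} (hZ : IsFlatZ p rbar Z) : Z 1 = 0 := by
  have h := hZ.coc 1 1
  rw [mul_one, rho_one, rhoInv_eq, inv_one, rho_one, one_mul, mul_one] at h
  exact left_eq_add.mp h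

/-- Entries (any function of the value) of a level-constant function are level-constant. -/
theorem comp_level {X Y : Type*} {Z : Gp p → X} (hZ : IsLevelConstant₁ (locp p) Z) (ℓ : X → Y) :
    IsLevelConstant₁ (locp p) (fun g => ℓ (Z g)) := by
  obtain ⟨F, hF, h⟩ := hZ
  exact ⟨F, hF, fun g s hs => by show ℓ (Z (g * s)) = ℓ (Z g); rw [h g s hs]⟩

theorem comp_bounded {X Y : Type*} [Zero X] [Zero Y] {Z : Gp p → X} (hZ : IsBounded p Z)
    (ℓ : X → Y) (hℓ : ℓ 0 = 0) : IsBounded p (fun g => ℓ (Z g)) :=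
  hZ.comp ℓ hℓ

variable (p rbar)

/-! ### From cocycles to matrix functions -/

/-- The matrix function of a cocycle of `ad0Loc p rbar`. -/
def matOf (c : cocycles₁ (ad0Loc p rbar)) : Gp p → M2 k :=
  fun g => (((c : Gp p → ad0Loc p rbar) g : sl2 k) : M2 k)

theorem matOf_injective : Function.Injective (matOf p rbar) := by
  intro c c' h
  apply Subtype.ext
  funext g
  exact Subtype.ext (congrFun h g)

theorem matOf_mul (c : cocycles₁ (ad0Loc p rbar)) (g h : Gp p) :
    matOf p rbar c (g * h) = matOf p rbar c g + rho p rbar g * matOf p rbar c h * rhoInv p rbar g := by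
  have hcoc : (c : _ → ad0Loc p rbar) (g * h) =
      (ad0Loc p rbar).ρ g ((c : _ → ad0Loc p rbar) h) + (c : _ → ad0Loc p rbar) g :=
    (mem_cocycles₁_iff (c : _ → ad0Loc p rbar)).mp c.2 g h
  have h2 : matOf p rbar c (g * h) =
      ((((ad0 rbar).ρ (locp p g) ((c : _ → ad0Loc p rbar) h) + (c : _ → ad0Loc p rbar) g : sl2 k)) :
        M2 k) := by
    rw [matOf, hcoc]
    rfl
  rw [h2, Submodule.coe_add, ad0_ρ_apply_coe, add_comm]
  rfl

theorem isFlatZ_matOf (c : cocycles₁ (ad0Loc p rbar)) (W : Submodule k (sl2 k))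
    (hc : c ∈ flatCocycles p (ad0Loc p rbar) W) : IsFlatZ p rbar (matOf p rbar c) := by
  obtain ⟨h1, h2, -⟩ := (mem_flatCocycles_iff p _ W c).1 hc
  refine ⟨fun g => trace_coe_sl2 _, matOf_mul p rbar c, ?_, ?_⟩
  · exact comp_level h1 (fun X : ad0Loc p rbar => ((X : sl2 k) : M2 k))
  · exact comp_bounded h2 (fun X : ad0Loc p rbar => ((X : sl2 k) : M2 k)) rfl

theorem matOf_mem (c : cocycles₁ (ad0Loc p rbar)) (W : Submodule k (sl2 k))
    (hc : c ∈ flatCocycles p (ad0Loc p rbar) W) (g : Gp p) :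
    ∃ X : sl2 k, X ∈ W ∧ (X : M2 k) = matOf p rbar c g :=
  ⟨(c : Gp p → ad0Loc p rbar) g, ((mem_flatCocycles_iff p _ W c).1 hc).2.2 g, rfl⟩

/-- An upper bound for a set of matrix functions containing all `matOf c` bounds `#flatCocycles`. -/
theorem card_flatCocycles_le (W : Submodule k (sl2 k)) (T : Set (Gp p → M2 k)) (hT : T.Finite)
    (h : ∀ c ∈ flatCocycles p (ad0Loc p rbar) W, matOf p rbar c ∈ T) :
    Finite ↥(flatCocycles p (ad0Loc p rbar) W) ∧
      Nat.card ↥(flatCocycles p (ad0Loc p rbar) W) ≤ Nat.card ↥T := by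
  haveI : Finite ↥T := hT
  let f : ↥(flatCocycles p (ad0Loc p rbar) W) → ↥T := fun c => ⟨matOf p rbar c, h c c.2⟩
  have hf : Function.Injective f := fun c c' hcc =>
    Subtype.ext (matOf_injective p rbar (congrArg (fun z : ↥T => (z : Gp p → M2 k)) hcc))
  exact ⟨Finite.of_injective f hf, Nat.card_le_card_of_injective f hf⟩

/-! ### Conjugation by a change of basis -/

/-- `g ↦ Binv * Z g * B`. -/
def conj (B Binv : M2 k) (Z : Gp p → M2 k) : Gp p → M2 k := fun g => Binv * Z g * B

variable {p rbar}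

theorem conj_sub (B Binv : M2 k) (Z Z' : Gp p → M2 k) :
    conj p B Binv (Z - Z') = conj p B Binv Z - conj p B Binv Z' := by
  funext g
  simp only [conj, Pi.sub_apply, mul_sub, sub_mul]

theorem conj_eq_zero {B Binv : M2 k} (h1 : B * Binv = 1) {Z : Gp p → M2 k}
    (h : ∀ g, conj p B Binv Z g = 0) : Z = 0 := by
  funext g
  have := h g
  have h2 : Z g = B * (Binv * Z g * B) * Binv := by
    have e : B * (Binv * Z g * B) * Binv = (B * Binv) * Z g * (B * Binv) := by
      simp only [mul_assoc]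
    rw [e, h1, one_mul, mul_one]
  rw [h2]
  simp only [conj] at this
  rw [this, mul_zero, zero_mul]
  rfl

theorem trace_conj {B Binv : M2 k} (h1 : B * Binv = 1) {Z : Gp p → M2 k}
    (hZ : IsFlatZ p rbar Z) (g : Gp p) : (conj p B Binv Z g).trace = 0 := by
  rw [conj, Matrix.trace_mul_comm, ← mul_assoc, h1, one_mul, hZ.tr]

/-- `Y₁₁ = - Y₀₀`. -/
theorem conj_11 {B Binv : M2 k} (h1 : B * Binv = 1) {Z : Gp p → M2 k}
    (hZ : IsFlatZ p rbar Z) (g : Gp p) : conj p B Binv Z g 1 1 = - conj p B Binv Z g 0 0 := by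
  have := trace_conj h1 hZ g
  rw [Matrix.trace_fin_two] at this
  exact eq_neg_of_add_eq_zero_right this

/-- The cocycle identity for the conjugated function. -/
theorem conj_mul {B Binv : M2 k} (h1 : B * Binv = 1) {Z : Gp p → M2 k}
    (hZ : IsFlatZ p rbar Z) (g h : Gp p) :
    conj p B Binv Z (g * h) = conj p B Binv Z g +
      (Binv * rho p rbar g * B) * conj p B Binv Z h * (Binv * rhoInv p rbar g * B) := by
  simp only [conj]
  rw [hZ.coc, mul_add, add_mul]
  congr 1
  have e1 : Binv * rho p rbar g * B * (Binv * Z h * B) * (Binv * rhoInv p rbar g * B) =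
      Binv * rho p rbar g * (B * Binv) * Z h * (B * Binv) * rhoInv p rbar g * B := by
    simp only [mul_assoc]
  rw [e1, h1, mul_one, mul_one]
  simp only [mul_assoc]

theorem conj_rho_mul_inv {B Binv : M2 k} (h1 : B * Binv = 1) (h2 : Binv * B = 1) (g : Gp p) :
    (Binv * rho p rbar g * B) * (Binv * rhoInv p rbar g * B) = 1 := by
  have e1 : Binv * rho p rbar g * B * (Binv * rhoInv p rbar g * B) =
      Binv * (rho p rbar g * (B * Binv) * rhoInv p rbar g) * B := by
    simp only [mul_assoc]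
  rw [e1, h1, mul_one, rho_mul_rhoInv, mul_one, h2]

theorem conj_level {B Binv : M2 k} {Z : Gp p → M2 k} (hZ : IsFlatZ p rbar Z) (i j : Fin 2) :
    IsLevelConstant₁ (locp p) (fun g => conj p B Binv Z g i j) :=
  comp_level hZ.lev (fun X : M2 k => (Binv * X * B) i j)

theorem conj_bounded {B Binv : M2 k} {Z : Gp p → M2 k} (hZ : IsFlatZ p rbar Z) (i j : Fin 2) :
    IsBounded p (fun g => conj p B Binv Z g i j) :=
  comp_bounded hZ.bdd (fun X : M2 k => (Binv * X * B) i j) (by
    show (Binv * 0 * B) i j = 0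
    rw [mul_zero, zero_mul]
    rfl)

end

end Fermat.Agent.ES.T56.FlatZ20
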