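/-
Programme T (S56), chapter FLAT, leg FLAT-C (helper20): **the irreducible count** (cocycle level).

`H ≤ G_p` normal of index `2`, a basis in which `ρ|_H = diag(χ, χ')` and `ρ(σ)` is anti-diagonal for
`σ ∉ H` (the conclusion of `FlatIface20.IrrShape`).  For a flat cocycle `Z`, conjugated to
`Y = (a b; c -a)`:

* `a ∈ ZbPsi δ`, `δ = quadChar H` the quadratic character of `G_p/H`;
* on `{a = 0}` the map `Z ↦ (b|_H, c(σ₀))` (`σ₀ ∉ H` fixed) is injective with values in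
  `ZbPsiOn H (χ/χ') × k`.

Hence `#Z_b(ad⁰) ≤ #ZbPsi δ · #ZbPsiOn H (χ/χ') · |k|`, and
`card_Lflat_top_le : #L_p^{fl}(⊤) ≤ |k| · #H⁰` as soon as `#ZbPsi δ ≤ |k|`, `#ZbPsiOn H ξ ≤ |k|²`.
-/
import Mathlib
import Fermat.Agent.ES.T56.FlatIface20
import Fermat.Agent.ES.T56.FlatMember20
import Fermat.Agent.ES.T56.FlatCard20
import Fermat.Agent.ES.T56.FlatH1Count20
import Fermat.Agent.ES.T56.FlatMat20
import Fermat.Agent.ES.T56.FlatZ20
import Fermat.Agent.ES.T56.FlatRed20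

set_option autoImplicit false
set_option linter.unusedSectionVars false
set_option linter.style.haveILetI false

namespace Fermat.Agent.ES.T56.FlatIrr20

open CategoryTheory groupCohomology ExtCitation Fermat.Agent.S53 Fermat.Agent.ES.T56.Ad0Rep10
  Fermat.Agent.ES.T56.OrdIface11 Fermat.Agent.ES.T56.FlatClass20 Fermat.Agent.ES.T56.FlatIface20
  Fermat.Agent.ES.T56.FlatMember20 Fermat.Agent.ES.T56.FlatCard20
  Fermat.Agent.ES.T56.FlatH1Count20 Fermat.Agent.ES.T56.FlatMat20 Fermat.Agent.ES.T56.FlatZ20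

noncomputable section

variable (p : ℕ) [Fact p.Prime] {k : Type} [Field k]

/-! ### The quadratic character of an index-2 subgroup -/

open Classical in
/-- `δ g = 1` on `H`, `-1` off `H`. -/
def quadChar (H : Subgroup (Gp p)) (hH : H.index = 2) : Gp p →* kˣ where
  toFun g := if g ∈ H then 1 else -1
  map_one' := by rw [if_pos H.one_mem]
  map_mul' g h := by
    have key := Subgroup.mul_mem_iff_of_index_two hH (a := g) (b := h)
    by_cases hg : g ∈ H <;> by_cases hh : h ∈ H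
    · rw [if_pos hg, if_pos hh, if_pos (key.mpr ⟨fun _ => hh, fun _ => hg⟩), one_mul]
    · rw [if_pos hg, if_neg hh, if_neg (fun hc => hh ((key.mp hc).mp hg)), one_mul]
    · rw [if_neg hg, if_pos hh, if_neg (fun hc => hg ((key.mp hc).mpr hh)), mul_one]
    · rw [if_neg hg, if_neg hh, if_pos (key.mpr ⟨fun h' => absurd h' hg, fun h' => absurd h' hh⟩),
        neg_mul_neg, one_mul]

theorem quadChar_of_mem {H : Subgroup (Gp p)} (hH : H.index = 2) {g : Gp p} (hg : g ∈ H) :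
    (quadChar p H hH : Gp p →* kˣ) g = 1 := by
  classical
  show (if g ∈ H then (1 : kˣ) else -1) = 1
  rw [if_pos hg]

theorem quadChar_of_not_mem {H : Subgroup (Gp p)} (hH : H.index = 2) {g : Gp p} (hg : g ∉ H) :
    (quadChar p H hH : Gp p →* kˣ) g = -1 := by
  classical
  show (if g ∈ H then (1 : kˣ) else -1) = -1
  rw [if_neg hg]

/-! ### The components -/

section Components

variable {p} {rbar : GQ →* M2 k} {H : Subgroup (Gp p)} (hH : H.index = 2)
  {B Binv : M2 k} (h1 : B * Binv = 1) (h2 : Binv * B = 1) {χ χ' : ↥H →* kˣ}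
  (hdiag : ∀ h : ↥H, Binv * rho p rbar (h : Gp p) * B =
    Matrix.diagonal ![((χ h : kˣ) : k), ((χ' h : kˣ) : k)])
  (hanti : ∀ σ : Gp p, σ ∉ H → (Binv * rho p rbar σ * B) 0 0 = 0 ∧
    (Binv * rho p rbar σ * B) 1 1 = 0)

include h1 h2 hdiag hanti

/-- the conjugated cocycle identity for `g ∈ H`. -/
theorem conj_mul_of_mem {Z : Gp p → M2 k} (hZ : IsFlatZ p rbar Z) (g : ↥H) (h : Gp p) :
    conj p B Binv Z ((g : Gp p) * h) = conj p B Binv Z (g : Gp p) +
      !![conj p B Binv Z h 0 0, ((χ g : kˣ) : k) * (((χ' g : kˣ) : k))⁻¹ * conj p B Binv Z h 0 1;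
        ((χ' g : kˣ) : k) * (((χ g : kˣ) : k))⁻¹ * conj p B Binv Z h 1 0,
        conj p B Binv Z h 1 1] := by
  have hTT := conj_rho_mul_inv (rbar := rbar) h1 h2 (g : Gp p)
  rw [hdiag g] at hTT
  rw [conj_mul h1 hZ, hdiag g, diag_conj (Units.ne_zero _) (Units.ne_zero _) hTT]

/-- the conjugated cocycle identity for `σ ∉ H`. -/
theorem conj_mul_of_not_mem {Z : Gp p → M2 k} (hZ : IsFlatZ p rbar Z) {σ : Gp p} (hσ : σ ∉ H)
    (h : Gp p) :
    ∃ d e : k, d ≠ 0 ∧ e ≠ 0 ∧ conj p B Binv Z (σ * h) = conj p B Binv Z σ +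
      !![conj p B Binv Z h 1 1, d * e⁻¹ * conj p B Binv Z h 1 0;
        e * d⁻¹ * conj p B Binv Z h 0 1, conj p B Binv Z h 0 0] := by
  have hTT := conj_rho_mul_inv (rbar := rbar) h1 h2 σ
  obtain ⟨h00, h11⟩ := hanti σ hσ
  refine ⟨(Binv * rho p rbar σ * B) 0 1, (Binv * rho p rbar σ * B) 1 0, ?_, ?_, ?_⟩
  · intro h0
    have hdet : (Binv * rho p rbar σ * B).det * (Binv * rhoInv p rbar σ * B).det = 1 := by
      rw [← Matrix.det_mul, hTT, Matrix.det_one]
    rw [Matrix.det_fin_two, h00, h11, h0] at hdet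
    simp at hdet
  · intro h0
    have hdet : (Binv * rho p rbar σ * B).det * (Binv * rhoInv p rbar σ * B).det = 1 := by
      rw [← Matrix.det_mul, hTT, Matrix.det_one]
    rw [Matrix.det_fin_two, h00, h11, h0] at hdet
    simp at hdet
  · rw [conj_mul h1 hZ, antidiag_conj h00 h11 rfl rfl hTT]

/-- the diagonal component is a `δ`-cocycle. -/
theorem comp00_mem {Z : Gp p → M2 k} (hZ : IsFlatZ p rbar Z) :
    (fun g => conj p B Binv Z g 0 0) ∈ ZbPsi p (quadChar p H hH : Gp p →* kˣ) := by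
  refine ⟨conj_level hZ 0 0, conj_bounded hZ 0 0, fun g h => ?_⟩
  show conj p B Binv Z (g * h) 0 0 = conj p B Binv Z g 0 0 + _ * conj p B Binv Z h 0 0
  by_cases hg : g ∈ H
  · have := conj_mul_of_mem h1 h2 hdiag hanti hZ ⟨g, hg⟩ h
    rw [Subgroup.coe_mk] at this
    rw [this, Matrix.add_apply, quadChar_of_mem p hH hg, Units.val_one, one_mul]
    simp
  · obtain ⟨d, e, -, -, hde⟩ := conj_mul_of_not_mem h1 h2 hdiag hanti hZ hg h
    rw [hde, Matrix.add_apply, quadChar_of_not_mem p hH hg, conj_11 h1 hZ]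
    simp

/-- the upper-right component, restricted to `H`, is a `χ/χ'`-cocycle. -/
theorem comp01_mem {Z : Gp p → M2 k} (hZ : IsFlatZ p rbar Z) :
    (fun h : ↥H => conj p B Binv Z (h : Gp p) 0 1) ∈ ZbPsiOn p H (χ / χ') := by
  refine ⟨?_, ?_, fun g h => ?_⟩
  · obtain ⟨F, hF, hlev⟩ := conj_level (B := B) (Binv := Binv) hZ 0 1
    exact ⟨F, hF, fun g s hs => hlev (g : Gp p) (s : Gp p) hs⟩
  · obtain ⟨F, hF, hb⟩ := conj_bounded (B := B) (Binv := Binv) hZ 0 1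
    exact ⟨F, hF, fun h hh => hb (h : Gp p) hh⟩
  · show conj p B Binv Z ((g * h : ↥H) : Gp p) 0 1 = _
    rw [Subgroup.coe_mul, conj_mul_of_mem h1 h2 hdiag hanti hZ g (h : Gp p), Matrix.add_apply,
      MonoidHom.div_apply, Units.val_div_eq_div_val, div_eq_mul_inv]
    simp

/-! ### The two sets and their counts -/

variable (p rbar B Binv)

/-- flat matrix cocycles with vanishing diagonal component. -/
def TN : Set (Gp p → M2 k) := {Z | IsFlatZ p rbar Z ∧ ∀ g, conj p B Binv Z g 0 0 = 0}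

variable {p rbar B Binv}

include hH in
/-- **Injectivity**: an off-diagonal flat cocycle with `b|_H = 0` and `c(σ₀) = 0` vanishes. -/
theorem eq_zero_of_TN {Z : Gp p → M2 k} (hZ : Z ∈ TN p rbar B Binv) {σ₀ : Gp p} (hσ₀ : σ₀ ∉ H)
    [hn : H.Normal] (hb : ∀ h : ↥H, conj p B Binv Z (h : Gp p) 0 1 = 0)
    (hc : conj p B Binv Z σ₀ 1 0 = 0) : Z = 0 := by
  obtain ⟨hF, h00⟩ := hZ
  have h11 : ∀ g, conj p B Binv Z g 1 1 = 0 := fun g => by rw [conj_11 h1 hF, h00, neg_zero]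
  -- Step 1/2: `c` vanishes on `H`
  have hcH : ∀ h : ↥H, conj p B Binv Z (h : Gp p) 1 0 = 0 := by
    intro h'
    -- `h' = σ₀ h σ₀⁻¹`
    have hmem : σ₀⁻¹ * (h' : Gp p) * σ₀ ∈ H := by
      have := hn.conj_mem (h' : Gp p) h'.2 σ₀⁻¹
      rwa [inv_inv] at this
    obtain ⟨d, e, -, -, hde⟩ :=
      conj_mul_of_not_mem h1 h2 hdiag hanti hF hσ₀ (σ₀⁻¹ * (h' : Gp p) * σ₀)
    have e1 : σ₀ * (σ₀⁻¹ * (h' : Gp p) * σ₀) = (h' : Gp p) * σ₀ := by group
    rw [e1] at hde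
    have e2 := conj_mul_of_mem h1 h2 hdiag hanti hF h' σ₀
    have e3 := congrFun (congrFun hde 1) 0
    have e4 := congrFun (congrFun e2 1) 0
    rw [Matrix.add_apply] at e3 e4
    simp only [Matrix.of_apply, Matrix.cons_val', Matrix.cons_val_zero, Matrix.cons_val_one,
      Matrix.cons_val_fin_one] at e3 e4
    rw [hc, hb ⟨_, hmem⟩, mul_zero, add_zero] at e3
    rw [hc, mul_zero, add_zero] at e4
    rw [← e4, e3]
  have hYH : ∀ h : ↥H, conj p B Binv Z (h : Gp p) = 0 := by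
    intro h
    ext i j
    fin_cases i <;> fin_cases j
    · exact h00 _
    · exact hb h
    · exact hcH h
    · exact h11 _
  -- Step 3: `Y σ₀ = 0`
  have hσ₀sq : σ₀ * σ₀ ∈ H := (Subgroup.mul_mem_iff_of_index_two hH).mpr Iff.rfl
  have hYσ₀ : conj p B Binv Z σ₀ = 0 := by
    obtain ⟨d, e, hd, he, hde⟩ := conj_mul_of_not_mem h1 h2 hdiag hanti hF hσ₀ σ₀
    rw [hYH ⟨_, hσ₀sq⟩] at hde
    have e3 := congrFun (congrFun hde 0) 1
    rw [Matrix.add_apply] at e3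
    simp only [Matrix.of_apply, Matrix.cons_val', Matrix.cons_val_zero, Matrix.cons_val_one,
      Matrix.cons_val_fin_one, Matrix.zero_apply] at e3
    rw [hc, mul_zero, add_zero] at e3
    ext i j
    fin_cases i <;> fin_cases j
    · exact h00 _
    · exact e3.symm
    · exact hc
    · exact h11 _
  -- Step 4: everything
  apply conj_eq_zero h1
  intro g
  by_cases hg : g ∈ H
  · exact hYH ⟨g, hg⟩
  · have hmem : g * σ₀⁻¹ ∈ H := by
      rw [Subgroup.mul_mem_iff_of_index_two hH]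
      exact ⟨fun h' => absurd h' hg, fun h' => absurd (H.inv_mem_iff.mp h') hσ₀⟩
    have e2 := conj_mul_of_mem h1 h2 hdiag hanti hF ⟨_, hmem⟩ σ₀
    rw [Subgroup.coe_mk, inv_mul_cancel_right] at e2
    rw [e2, hYH ⟨_, hmem⟩, hYσ₀]
    ext i j
    fin_cases i <;> fin_cases j <;> simp

include hH in
theorem card_TN_le [Finite k] [hn : H.Normal] {σ₀ : Gp p} (hσ₀ : σ₀ ∉ H)
    (hfin : (ZbPsiOn p H (χ / χ')).Finite) :
    (TN p rbar B Binv).Finite ∧
      Nat.card ↥(TN p rbar B Binv) ≤ Nat.card ↥(ZbPsiOn p H (χ / χ')) * Nat.card k := by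
  have h := set_finite_and_card_le (TN p rbar B Binv)
    (fun Z : Gp p → M2 k =>
      ((fun h : ↥H => conj p B Binv Z (h : Gp p) 0 1, conj p B Binv Z σ₀ 1 0) : (↥H → k) × k))
    ((ZbPsiOn p H (χ / χ')) ×ˢ (Set.univ : Set k))
    ({0} : Set (Gp p → M2 k)) (hfin.prod Set.finite_univ) (Set.finite_singleton 0)
    (fun Z hZ => ⟨comp01_mem h1 h2 hdiag hanti hZ.1, trivial⟩)
    (fun Z hZ Z' hZ' hZZ' => by
      rw [Set.mem_singleton_iff]
      have e : ∀ g, conj p B Binv (Z - Z') g = conj p B Binv Z g - conj p B Binv Z' g := by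
        intro g; rw [conj_sub]; rfl
      have hsub : Z - Z' ∈ TN p rbar B Binv :=
        ⟨hZ.1.sub hZ'.1, fun g => by rw [e, Matrix.sub_apply, hZ.2 g, hZ'.2 g, sub_zero]⟩
      refine eq_zero_of_TN hH h1 h2 hdiag hanti hsub hσ₀ (fun h => ?_) ?_
      · rw [e, Matrix.sub_apply, sub_eq_zero]
        exact congrFun (congrArg Prod.fst hZZ') h
      · rw [e, Matrix.sub_apply, sub_eq_zero]
        exact congrArg Prod.snd hZZ')
  refine ⟨h.1, h.2.trans ?_⟩
  rw [Nat.card_unique, one_mul, Nat.card_congr (Equiv.Set.prod _ _), Nat.card_prod,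
    Nat.card_congr (Equiv.Set.univ k)]

theorem card_Ttop_le [Finite k] [hn : H.Normal] {σ₀ : Gp p} (hσ₀ : σ₀ ∉ H)
    (hfin : (ZbPsiOn p H (χ / χ')).Finite)
    (hfinδ : (ZbPsi p (quadChar p H hH : Gp p →* kˣ)).Finite) :
    (FlatRed20.Ttop p rbar).Finite ∧
      Nat.card ↥(FlatRed20.Ttop p rbar) ≤
        Nat.card ↥(ZbPsiOn p H (χ / χ')) * Nat.card k *
          Nat.card ↥(ZbPsi p (quadChar p H hH : Gp p →* kˣ)) := by
  obtain ⟨hfN, hcN⟩ := card_TN_le hH h1 h2 hdiag hanti hσ₀ hfin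
  have h := set_finite_and_card_le (FlatRed20.Ttop p rbar)
    (fun Z : Gp p → M2 k => fun g => conj p B Binv Z g 0 0)
    (ZbPsi p (quadChar p H hH : Gp p →* kˣ)) (TN p rbar B Binv) hfinδ hfN
    (fun Z hZ => comp00_mem hH h1 h2 hdiag hanti hZ)
    (fun Z hZ Z' hZ' hZZ' => by
      have e : ∀ g, conj p B Binv (Z - Z') g = conj p B Binv Z g - conj p B Binv Z' g := by
        intro g; rw [conj_sub]; rfl
      refine ⟨IsFlatZ.sub hZ hZ', fun g => ?_⟩
      rw [e, Matrix.sub_apply, sub_eq_zero]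
      exact congrFun hZZ' g)
  exact ⟨h.1, h.2.trans (Nat.mul_le_mul_right _ hcN)⟩

end Components

/-! ### The count of classes -/

/-- **The count for `W = ⊤`** (irreducible shape). -/
theorem card_Lflat_top_le [Finite k] {rbar : GQ →* M2 k} (hb : IsFlatBounded p rbar)
    {H : Subgroup (Gp p)} [hn : H.Normal] (hH : H.index = 2) {B Binv : M2 k}
    (h1 : B * Binv = 1) (h2 : Binv * B = 1) {χ χ' : ↥H →* kˣ}
    (hdiag : ∀ h : ↥H, Binv * rho p rbar (h : Gp p) * B =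
      Matrix.diagonal ![((χ h : kˣ) : k), ((χ' h : kˣ) : k)])
    (hanti : ∀ σ : Gp p, σ ∉ H → (Binv * rho p rbar σ * B) 0 0 = 0 ∧
      (Binv * rho p rbar σ * B) 1 1 = 0)
    {σ₀ : Gp p} (hσ₀ : σ₀ ∉ H)
    (hfin : (ZbPsiOn p H (χ / χ')).Finite)
    (hfinδ : (ZbPsi p (quadChar p H hH : Gp p →* kˣ)).Finite)
    (hc : Nat.card ↥(ZbPsiOn p H (χ / χ')) ≤ Nat.card k ^ 2)
    (hcδ : Nat.card ↥(ZbPsi p (quadChar p H hH : Gp p →* kˣ)) ≤ Nat.card k) :
    Finite ↥(Lflat p rbar ⊤) ∧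
      Nat.card ↥(Lflat p rbar ⊤) ≤
        Nat.card k * Nat.card ↥((ad0Loc p rbar).ρ.invariants) := by
  obtain ⟨hfT, hcT⟩ := card_Ttop_le hH h1 h2 hdiag hanti hσ₀ hfin hfinδ
  obtain ⟨hfZ, hcZ⟩ := card_flatCocycles_le p rbar ⊤ (FlatRed20.Ttop p rbar) hfT
    (fun c hc' => isFlatZ_matOf p rbar c ⊤ hc')
  obtain ⟨hfL, hcL⟩ := card_Lflat_mul_le p rbar hb ⊤ (fun _ _ _ => Submodule.mem_top) hfZ
  refine ⟨hfL, ?_⟩
  have hk : 0 < Nat.card k := Nat.card_pos
  have htop : Nat.card ↥(⊤ : Submodule k (sl2 k)) = Nat.card ↥(sl2 k) :=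
    Nat.card_congr (Submodule.topEquiv (R := k) (M := sl2 k)).toEquiv
  have hT4 : Nat.card ↥(FlatRed20.Ttop p rbar) ≤ Nat.card k ^ 4 := by
    calc Nat.card ↥(FlatRed20.Ttop p rbar)
        ≤ Nat.card ↥(ZbPsiOn p H (χ / χ')) * Nat.card k *
            Nat.card ↥(ZbPsi p (quadChar p H hH : Gp p →* kˣ)) := hcT
      _ ≤ Nat.card k ^ 2 * Nat.card k * Nat.card k :=
          Nat.mul_le_mul (Nat.mul_le_mul_right _ hc) hcδ
      _ = Nat.card k ^ 4 := by ring
  have h3 : Nat.card ↥(Lflat p rbar ⊤) * Nat.card k ^ 3 ≤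
      Nat.card k * Nat.card ↥((ad0Loc p rbar).ρ.invariants) * Nat.card k ^ 3 := by
    calc Nat.card ↥(Lflat p rbar ⊤) * Nat.card k ^ 3
        ≤ Nat.card ↥(Lflat p rbar ⊤) * Nat.card ↥(⊤ : Submodule k (sl2 k)) := by
          rw [htop]
          exact Nat.mul_le_mul_left _ FlatRed20.pow_three_le_card_sl2
      _ ≤ Nat.card ↥(flatCocycles p (ad0Loc p rbar) ⊤) *
            Nat.card ↥((ad0Loc p rbar).ρ.invariants) := hcL
      _ ≤ Nat.card k ^ 4 * Nat.card ↥((ad0Loc p rbar).ρ.invariants) :=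
          Nat.mul_le_mul_right _ (hcZ.trans hT4)
      _ = Nat.card k * Nat.card ↥((ad0Loc p rbar).ρ.invariants) * Nat.card k ^ 3 := by ring
  exact Nat.le_of_mul_le_mul_right h3 (pow_pos hk 3)

end

end Fermat.Agent.ES.T56.FlatIrr20
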