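/-
Programme T (S56), chapter FLAT, leg FLAT-C (helper20): **the reducible count** (cocycle-level
dévissage along a stable line).

`⟨v⟩` a `G_p`-stable line with characters `ψ₁` (sub), `ψ₂` (quotient).  In a basis `(v, w)`,
`ρ = (ψ₁ *; 0 ψ₂)` and a flat cocycle `Z`, conjugated to `Y = (a b; c -a)`, has
`c ∈ ZbPsi (ψ₂/ψ₁)`; if `c = 0` then `a ∈ ZbPsi 1`; if `c = a = 0` then `b ∈ ZbPsi (ψ₁/ψ₂)`.  Hence
`#Z_b(W¹) ≤ #ZbPsi(ψ₁/ψ₂) · #ZbPsi(1)` and `#Z_b(ad⁰) ≤ #Z_b(W¹) · #ZbPsi(ψ₂/ψ₁)`.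

* `exists_triangular`     : the basis;
* `card_Lflat_W1_le`      : `#L_p^{fl}(W¹ v) ≤ |k| · #H⁰` from `#ZbPsi 1 ≤ |k|`, `#ZbPsi(ψ₁/ψ₂) ≤ |k|²`;
* `card_Lflat_top_le`     : `#L_p^{fl}(⊤) ≤ |k| · #H⁰` from `#ZbPsi 1 ≤ |k|`,
                            `#ZbPsi(ψ₁/ψ₂) · #ZbPsi(ψ₂/ψ₁) ≤ |k|³`.
-/
import Mathlib
import Fermat.Agent.ES.T56.FlatIface20
import Fermat.Agent.ES.T56.FlatMember20
import Fermat.Agent.ES.T56.FlatCard20
import Fermat.Agent.ES.T56.FlatH1Count20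
import Fermat.Agent.ES.T56.FlatMat20
import Fermat.Agent.ES.T56.FlatZ20

set_option autoImplicit false
set_option linter.unusedSectionVars false
set_option linter.style.haveILetI false

namespace Fermat.Agent.ES.T56.FlatRed20

open CategoryTheory groupCohomology ExtCitation Fermat.Agent.S53 Fermat.Agent.ES.T56.Ad0Rep10
  Fermat.Agent.ES.T56.OrdIface11 Fermat.Agent.ES.T56.FlatClass20 Fermat.Agent.ES.T56.FlatIface20
  Fermat.Agent.ES.T56.FlatMember20 Fermat.Agent.ES.T56.FlatCard20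
  Fermat.Agent.ES.T56.FlatH1Count20 Fermat.Agent.ES.T56.FlatMat20 Fermat.Agent.ES.T56.FlatZ20

noncomputable section

variable (p : ℕ) [Fact p.Prime] {k : Type} [Field k]

/-! ### The basis adapted to a stable line -/

/-- A basis `(v, w)`: the matrix `B` with first column `v` is invertible and conjugates `ρ` to upper
triangular form with diagonal `(ψ₁, ψ₂)`. -/
theorem exists_triangular {rbar : GQ →* M2 k} {v : Fin 2 → k} {ψ₁ ψ₂ : Gp p →* kˣ}
    (hv : IsStableLine p rbar v ψ₁ ψ₂) :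
    ∃ B Binv : M2 k, B * Binv = 1 ∧ Binv * B = 1 ∧ B.mulVec ![1, 0] = v ∧
      ∀ g : Gp p, ∃ u : k,
        Binv * rho p rbar g * B = !![((ψ₁ g : kˣ) : k), u; 0, ((ψ₂ g : kˣ) : k)] := by
  -- the second basis vector
  obtain ⟨w, hdet⟩ : ∃ w : Fin 2 → k, v 0 * w 1 - w 0 * v 1 ≠ 0 := by
    by_cases h0 : v 0 = 0
    · have h1 : v 1 ≠ 0 := by
        intro h1
        apply hv.ne
        funext i
        fin_cases i
        · exact h0
        · exact h1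
      refine ⟨![1, 0], ?_⟩
      simp [h0, h1]
    · refine ⟨![0, 1], ?_⟩
      simp [h0]
  set B : M2 k := !![v 0, w 0; v 1, w 1] with hB
  have hBdet : B.det = v 0 * w 1 - w 0 * v 1 := by
    rw [hB, Matrix.det_fin_two_of]
  have hunit : IsUnit B.det := by
    rw [hBdet]
    exact isUnit_iff_ne_zero.mpr hdet
  have h1 : B * B⁻¹ = 1 := Matrix.mul_nonsing_inv B hunit
  have h2 : B⁻¹ * B = 1 := Matrix.nonsing_inv_mul B hunit
  have hBv : B.mulVec ![1, 0] = v := by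
    funext i
    fin_cases i <;> simp [hB, Matrix.mulVec, dotProduct, Fin.sum_univ_two]
  have hBw : B.mulVec ![0, 1] = w := by
    funext i
    fin_cases i <;> simp [hB, Matrix.mulVec, dotProduct, Fin.sum_univ_two]
  refine ⟨B, B⁻¹, h1, h2, hBv, fun g => ?_⟩
  -- `ρ w = ψ₂ w + u v`
  obtain ⟨u, hu⟩ := Submodule.mem_span_singleton.mp (hv.quot g w)
  refine ⟨u, ?_⟩
  have key : rho p rbar g * B = B * !![((ψ₁ g : kˣ) : k), u; 0, ((ψ₂ g : kˣ) : k)] := by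
    have hρv : (rho p rbar g).mulVec v = ((ψ₁ g : kˣ) : k) • v := hv.sub g
    have hρw : (rho p rbar g).mulVec w = ((ψ₂ g : kˣ) : k) • w + u • v := by
      have : (rho p rbar g).mulVec w - ((ψ₂ g : kˣ) : k) • w = u • v := hu.symm
      rw [← this]
      abel
    have hv0 := congrFun hρv 0
    have hv1 := congrFun hρv 1
    have hw0 := congrFun hρw 0
    have hw1 := congrFun hρw 1
    simp only [Matrix.mulVec, dotProduct, Fin.sum_univ_two, Pi.smul_apply, Pi.add_apply,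
      smul_eq_mul] at hv0 hv1 hw0 hw1
    ext i j
    fin_cases i <;> fin_cases j
    · show (rho p rbar g * B) 0 0 = (B * !![((ψ₁ g : kˣ) : k), u; 0, ((ψ₂ g : kˣ) : k)]) 0 0
      simp only [hB, Matrix.mul_apply, Fin.sum_univ_two, Matrix.of_apply, Matrix.cons_val',
        Matrix.cons_val_zero, Matrix.cons_val_one, Matrix.cons_val_fin_one]
      linear_combination hv0
    · show (rho p rbar g * B) 0 1 = (B * !![((ψ₁ g : kˣ) : k), u; 0, ((ψ₂ g : kˣ) : k)]) 0 1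
      simp only [hB, Matrix.mul_apply, Fin.sum_univ_two, Matrix.of_apply, Matrix.cons_val',
        Matrix.cons_val_zero, Matrix.cons_val_one, Matrix.cons_val_fin_one]
      linear_combination hw0
    · show (rho p rbar g * B) 1 0 = (B * !![((ψ₁ g : kˣ) : k), u; 0, ((ψ₂ g : kˣ) : k)]) 1 0
      simp only [hB, Matrix.mul_apply, Fin.sum_univ_two, Matrix.of_apply, Matrix.cons_val',
        Matrix.cons_val_zero, Matrix.cons_val_one, Matrix.cons_val_fin_one]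
      linear_combination hv1
    · show (rho p rbar g * B) 1 1 = (B * !![((ψ₁ g : kˣ) : k), u; 0, ((ψ₂ g : kˣ) : k)]) 1 1
      simp only [hB, Matrix.mul_apply, Fin.sum_univ_two, Matrix.of_apply, Matrix.cons_val',
        Matrix.cons_val_zero, Matrix.cons_val_one, Matrix.cons_val_fin_one]
      linear_combination hw1
  rw [mul_assoc, key, ← mul_assoc, h2, one_mul]

/-! ### The three components -/

section Components

variable {p} {rbar : GQ →* M2 k} {ψ₁ ψ₂ : Gp p →* kˣ} {B Binv : M2 k}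
  (h1 : B * Binv = 1) (h2 : Binv * B = 1)
  (hT : ∀ g : Gp p, ∃ u : k,
    Binv * rho p rbar g * B = !![((ψ₁ g : kˣ) : k), u; 0, ((ψ₂ g : kˣ) : k)])

include h1 h2 hT

theorem comp10_mem {Z : Gp p → M2 k} (hZ : IsFlatZ p rbar Z) :
    (fun g => conj p B Binv Z g 1 0) ∈ ZbPsi p (ψ₂ / ψ₁) := by
  refine ⟨conj_level hZ 1 0, conj_bounded hZ 1 0, fun g h => ?_⟩
  obtain ⟨u, hu⟩ := hT g
  have hTT := conj_rho_mul_inv (rbar := rbar) h1 h2 g
  rw [hu] at hTT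
  show conj p B Binv Z (g * h) 1 0 = _
  rw [conj_mul h1 hZ g h, Matrix.add_apply, hu,
    upper_conj_10 (Units.ne_zero _) (Units.ne_zero _) hTT, MonoidHom.div_apply,
    Units.val_div_eq_div_val, div_eq_mul_inv]

theorem comp00_mem {Z : Gp p → M2 k} (hZ : IsFlatZ p rbar Z)
    (h10 : ∀ g, conj p B Binv Z g 1 0 = 0) :
    (fun g => conj p B Binv Z g 0 0) ∈ ZbPsi p (1 : Gp p →* kˣ) := by
  refine ⟨conj_level hZ 0 0, conj_bounded hZ 0 0, fun g h => ?_⟩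
  obtain ⟨u, hu⟩ := hT g
  have hTT := conj_rho_mul_inv (rbar := rbar) h1 h2 g
  rw [hu] at hTT
  show conj p B Binv Z (g * h) 0 0 = _
  rw [conj_mul h1 hZ g h, Matrix.add_apply, hu,
    upper_conj_00 (Units.ne_zero _) (Units.ne_zero _) hTT _ (h10 h), MonoidHom.one_apply,
    Units.val_one, one_mul]

theorem comp01_mem {Z : Gp p → M2 k} (hZ : IsFlatZ p rbar Z)
    (h10 : ∀ g, conj p B Binv Z g 1 0 = 0) (h00 : ∀ g, conj p B Binv Z g 0 0 = 0) :
    (fun g => conj p B Binv Z g 0 1) ∈ ZbPsi p (ψ₁ / ψ₂) := by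
  refine ⟨conj_level hZ 0 1, conj_bounded hZ 0 1, fun g h => ?_⟩
  obtain ⟨u, hu⟩ := hT g
  have hTT := conj_rho_mul_inv (rbar := rbar) h1 h2 g
  rw [hu] at hTT
  have h11 : conj p B Binv Z h 1 1 = 0 := by rw [conj_11 h1 hZ, h00, neg_zero]
  show conj p B Binv Z (g * h) 0 1 = _
  rw [conj_mul h1 hZ g h, Matrix.add_apply, hu,
    upper_conj_01 (Units.ne_zero _) (Units.ne_zero _) hTT _ (h10 h) (h00 h) h11,
    MonoidHom.div_apply, Units.val_div_eq_div_val, div_eq_mul_inv]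

/-! ### The three sets and their counts -/

variable (p rbar B Binv)

/-- all flat matrix cocycles. -/
def Ttop : Set (Gp p → M2 k) := {Z | IsFlatZ p rbar Z}

/-- those with values preserving the line (`c = 0`). -/
def T1 : Set (Gp p → M2 k) := {Z | IsFlatZ p rbar Z ∧ ∀ g, conj p B Binv Z g 1 0 = 0}

/-- those with values in `Hom(k²/⟨v⟩, ⟨v⟩)` (`c = a = 0`). -/
def T0 : Set (Gp p → M2 k) :=
  {Z | IsFlatZ p rbar Z ∧ (∀ g, conj p B Binv Z g 1 0 = 0) ∧ ∀ g, conj p B Binv Z g 0 0 = 0}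

variable {p rbar B Binv}

theorem card_T0_le (hfin : (ZbPsi p (ψ₁ / ψ₂)).Finite) :
    (T0 p rbar B Binv).Finite ∧
      Nat.card ↥(T0 p rbar B Binv) ≤ Nat.card ↥(ZbPsi p (ψ₁ / ψ₂)) := by
  have h := set_finite_and_card_le (T0 p rbar B Binv)
    (fun Z : Gp p → M2 k => fun g => conj p B Binv Z g 0 1) (ZbPsi p (ψ₁ / ψ₂))
    ({0} : Set (Gp p → M2 k)) hfin (Set.finite_singleton 0)
    (fun Z hZ => comp01_mem h1 h2 hT hZ.1 hZ.2.1 hZ.2.2)
    (fun Z hZ Z' hZ' hZZ' => by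
      rw [Set.mem_singleton_iff]
      apply conj_eq_zero h1
      intro g
      have hs := hZ.1.sub hZ'.1
      have e : conj p B Binv (Z - Z') g = conj p B Binv Z g - conj p B Binv Z' g := by
        rw [conj_sub]; rfl
      ext i j
      fin_cases i <;> fin_cases j
      · show conj p B Binv (Z - Z') g 0 0 = 0
        rw [e, Matrix.sub_apply, hZ.2.2 g, hZ'.2.2 g, sub_zero]
      · show conj p B Binv (Z - Z') g 0 1 = 0
        rw [e, Matrix.sub_apply, sub_eq_zero]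
        exact congrFun hZZ' g
      · show conj p B Binv (Z - Z') g 1 0 = 0
        rw [e, Matrix.sub_apply, hZ.2.1 g, hZ'.2.1 g, sub_zero]
      · show conj p B Binv (Z - Z') g 1 1 = 0
        rw [conj_11 h1 hs, e, Matrix.sub_apply, hZ.2.2 g, hZ'.2.2 g, sub_zero, neg_zero])
  refine ⟨h.1, h.2.trans ?_⟩
  rw [Nat.card_unique, one_mul]

theorem card_T1_le (hfin0 : (ZbPsi p (ψ₁ / ψ₂)).Finite)
    (hfin1 : (ZbPsi p (1 : Gp p →* kˣ)).Finite) :
    (T1 p rbar B Binv).Finite ∧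
      Nat.card ↥(T1 p rbar B Binv) ≤
        Nat.card ↥(ZbPsi p (ψ₁ / ψ₂)) * Nat.card ↥(ZbPsi p (1 : Gp p →* kˣ)) := by
  obtain ⟨hf0, hc0⟩ := card_T0_le h1 h2 hT hfin0
  have h := set_finite_and_card_le (T1 p rbar B Binv)
    (fun Z : Gp p → M2 k => fun g => conj p B Binv Z g 0 0) (ZbPsi p (1 : Gp p →* kˣ))
    (T0 p rbar B Binv) hfin1 hf0
    (fun Z hZ => comp00_mem h1 h2 hT hZ.1 hZ.2)
    (fun Z hZ Z' hZ' hZZ' => by
      have e : ∀ g, conj p B Binv (Z - Z') g = conj p B Binv Z g - conj p B Binv Z' g := by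
        intro g; rw [conj_sub]; rfl
      refine ⟨hZ.1.sub hZ'.1, fun g => ?_, fun g => ?_⟩
      · rw [e, Matrix.sub_apply, hZ.2 g, hZ'.2 g, sub_zero]
      · rw [e, Matrix.sub_apply, sub_eq_zero]
        exact congrFun hZZ' g)
  exact ⟨h.1, h.2.trans (Nat.mul_le_mul_right _ hc0)⟩

theorem card_Ttop_le (hfin0 : (ZbPsi p (ψ₁ / ψ₂)).Finite)
    (hfin1 : (ZbPsi p (1 : Gp p →* kˣ)).Finite) (hfin2 : (ZbPsi p (ψ₂ / ψ₁)).Finite) :
    (Ttop p rbar).Finite ∧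
      Nat.card ↥(Ttop p rbar) ≤
        Nat.card ↥(ZbPsi p (ψ₁ / ψ₂)) * Nat.card ↥(ZbPsi p (1 : Gp p →* kˣ)) *
          Nat.card ↥(ZbPsi p (ψ₂ / ψ₁)) := by
  obtain ⟨hf1, hc1⟩ := card_T1_le h1 h2 hT hfin0 hfin1
  have h := set_finite_and_card_le (Ttop p rbar)
    (fun Z : Gp p → M2 k => fun g => conj p B Binv Z g 1 0) (ZbPsi p (ψ₂ / ψ₁))
    (T1 p rbar B Binv) hfin2 hf1
    (fun Z hZ => comp10_mem h1 h2 hT hZ)
    (fun Z hZ Z' hZ' hZZ' => by
      have e : ∀ g, conj p B Binv (Z - Z') g = conj p B Binv Z g - conj p B Binv Z' g := by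
        intro g; rw [conj_sub]; rfl
      refine ⟨IsFlatZ.sub hZ hZ', fun g => ?_⟩
      rw [e, Matrix.sub_apply, sub_eq_zero]
      exact congrFun hZZ' g)
  exact ⟨h.1, h.2.trans (Nat.mul_le_mul_right _ hc1)⟩

end Components

/-! ### Sizes of `sl₂` and `W¹` -/

section Sizes

variable [Finite k]

theorem card_M2 : Nat.card (M2 k) = Nat.card k ^ 4 := by
  have : Nat.card (M2 k) = Nat.card (Fin 2 → Fin 2 → k) := rfl
  rw [this, Nat.card_fun, Nat.card_fun, Nat.card_fin, ← pow_mul]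

/-- `|k|⁴ ≤ #sl₂ · |k|`. -/
theorem pow_four_le_card_sl2 : Nat.card k ^ 4 ≤ Nat.card ↥(sl2 k) * Nat.card k := by
  have h := finite_and_card_le (fun X : M2 k => X.trace) (Set.univ : Set k)
    ({X | X.trace = 0} : Set (M2 k)) Set.finite_univ (Set.toFinite _) (fun _ => trivial)
    (fun X X' hXX' => by
      show (X - X').trace = 0
      rw [Matrix.trace_sub, sub_eq_zero]
      exact hXX')
  have e1 : Nat.card ↥({X | X.trace = 0} : Set (M2 k)) = Nat.card ↥(sl2 k) :=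
    Nat.card_congr (Equiv.subtypeEquivRight fun X => (mem_sl2_iff X).symm)
  have e2 : Nat.card ↥(Set.univ : Set k) = Nat.card k := Nat.card_congr (Equiv.Set.univ k)
  rw [← card_M2, ← e1, ← e2]
  exact h.2

variable {p} {rbar : GQ →* M2 k} {v : Fin 2 → k} {B Binv : M2 k}

theorem mulVec_e0 (Y : M2 k) : Y.mulVec ![1, 0] = ![Y 0 0, Y 1 0] := by
  funext i
  fin_cases i <;> simp [Matrix.mulVec, dotProduct, Fin.sum_univ_two]

/-- `X v ∈ ⟨v⟩ ↔ (B⁻¹ X B)₁₀ = 0`. -/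
theorem mulVec_mem_span_iff (h1 : B * Binv = 1) (h2 : Binv * B = 1) (hBv : B.mulVec ![1, 0] = v)
    (X : M2 k) : X.mulVec v ∈ Submodule.span k {v} ↔ (Binv * X * B) 1 0 = 0 := by
  have hBinv : Binv.mulVec v = ![1, 0] := by
    rw [← hBv, Matrix.mulVec_mulVec, h2, Matrix.one_mulVec]
  constructor
  · intro h
    obtain ⟨a, ha⟩ := Submodule.mem_span_singleton.mp h
    have e : (Binv * X * B).mulVec ![1, 0] = a • ![1, 0] := by
      rw [← Matrix.mulVec_mulVec, ← Matrix.mulVec_mulVec, hBv, ← ha, Matrix.mulVec_smul, hBinv]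
    have := congrFun e 1
    rw [mulVec_e0] at this
    simpa using this
  · intro h
    have e : X.mulVec v = (Binv * X * B) 0 0 • v := by
      have hX : X * B = B * (Binv * X * B) := by
        rw [← mul_assoc, ← mul_assoc, h1, one_mul]
      rw [← hBv, Matrix.mulVec_mulVec, hX, ← Matrix.mulVec_mulVec, mulVec_e0, h]
      have : (![(Binv * X * B) 0 0, 0] : Fin 2 → k) = (Binv * X * B) 0 0 • ![1, 0] := by
        funext i
        fin_cases i <;> simp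
      rw [this, Matrix.mulVec_smul]
    rw [e]
    exact Submodule.smul_mem _ _ (Submodule.mem_span_singleton_self v)

/-- `#sl₂ ≤ #W¹(v) · |k|`. -/
theorem card_sl2_le (h1 : B * Binv = 1) (h2 : Binv * B = 1) (hBv : B.mulVec ![1, 0] = v) :
    Nat.card ↥(sl2 k) ≤ Nat.card ↥(W1 v) * Nat.card k := by
  have h := finite_and_card_le (fun X : ↥(sl2 k) => (Binv * (X : M2 k) * B) 1 0)
    (Set.univ : Set k) ({X | X ∈ W1 v} : Set ↥(sl2 k)) Set.finite_univ (Set.toFinite _)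
    (fun _ => trivial)
    (fun X X' hXX' => by
      show X - X' ∈ W1 v
      rw [mem_W1_iff, mulVec_mem_span_iff h1 h2 hBv, Submodule.coe_sub, mul_sub, sub_mul,
        Matrix.sub_apply, sub_eq_zero]
      exact hXX')
  have e1 : Nat.card ↥({X | X ∈ W1 v} : Set ↥(sl2 k)) = Nat.card ↥(W1 v) := rfl
  have e2 : Nat.card ↥(Set.univ : Set k) = Nat.card k := Nat.card_congr (Equiv.Set.univ k)
  rw [← e1, ← e2]
  exact h.2

/-- `|k|² ≤ #W¹(v)`. -/
theorem pow_two_le_card_W1 (h1 : B * Binv = 1) (h2 : Binv * B = 1)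
    (hBv : B.mulVec ![1, 0] = v) : Nat.card k ^ 2 ≤ Nat.card ↥(W1 v) := by
  have ha := pow_four_le_card_sl2 (k := k)
  have hb := card_sl2_le h1 h2 hBv
  have hk : 0 < Nat.card k := Nat.card_pos
  have h3 : Nat.card k ^ 2 * Nat.card k ^ 2 ≤ Nat.card ↥(W1 v) * Nat.card k ^ 2 := by
    calc Nat.card k ^ 2 * Nat.card k ^ 2 = Nat.card k ^ 4 := by ring
      _ ≤ Nat.card ↥(sl2 k) * Nat.card k := ha
      _ ≤ Nat.card ↥(W1 v) * Nat.card k * Nat.card k := Nat.mul_le_mul_right _ hb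
      _ = Nat.card ↥(W1 v) * Nat.card k ^ 2 := by ring
  exact Nat.le_of_mul_le_mul_right h3 (pow_pos hk 2)

/-- `|k|³ ≤ #sl₂`. -/
theorem pow_three_le_card_sl2 : Nat.card k ^ 3 ≤ Nat.card ↥(sl2 k) := by
  have ha := pow_four_le_card_sl2 (k := k)
  have hk : 0 < Nat.card k := Nat.card_pos
  have h3 : Nat.card k ^ 3 * Nat.card k ≤ Nat.card ↥(sl2 k) * Nat.card k := by
    calc Nat.card k ^ 3 * Nat.card k = Nat.card k ^ 4 := by ring
      _ ≤ Nat.card ↥(sl2 k) * Nat.card k := ha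
  exact Nat.le_of_mul_le_mul_right h3 hk

end Sizes

/-! ### The two counts of classes -/

section Final

variable [Finite k] {rbar : GQ →* M2 k} {v : Fin 2 → k} {ψ₁ ψ₂ : Gp p →* kˣ}

/-- `W¹(v)` is stable under `G_p` when `⟨v⟩` is. -/
theorem W1_stable (hv : IsStableLine p rbar v ψ₁ ψ₂) (g : Gp p) (m : sl2 k) (hm : m ∈ W1 v) :
    (ad0Loc p rbar).ρ g m ∈ W1 v := by
  rw [mem_W1_iff] at hm ⊢
  have e : (((ad0Loc p rbar).ρ g m : sl2 k) : M2 k) =
      rho p rbar g * (m : M2 k) * rhoInv p rbar g := ad0_ρ_apply_coe rbar (locp p g) m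
  rw [e]
  obtain ⟨a, ha⟩ := Submodule.mem_span_singleton.mp hm
  have hρv : (rho p rbar g).mulVec v = ((ψ₁ g : kˣ) : k) • v := hv.sub g
  have hinv : (rhoInv p rbar g).mulVec v = (((ψ₁ g : kˣ) : k))⁻¹ • v := by
    have h3 : (rhoInv p rbar g).mulVec ((rho p rbar g).mulVec v) = v := by
      rw [Matrix.mulVec_mulVec, rhoInv_mul_rho, Matrix.one_mulVec]
    rw [hρv, Matrix.mulVec_smul] at h3
    calc (rhoInv p rbar g).mulVec v
        = (((ψ₁ g : kˣ) : k))⁻¹ • (((ψ₁ g : kˣ) : k) • (rhoInv p rbar g).mulVec v) := by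
          rw [smul_smul, inv_mul_cancel₀ (Units.ne_zero _), one_smul]
      _ = (((ψ₁ g : kˣ) : k))⁻¹ • v := by rw [h3]
  rw [← Matrix.mulVec_mulVec, ← Matrix.mulVec_mulVec, hinv, Matrix.mulVec_smul, ← ha,
    Matrix.mulVec_smul, Matrix.mulVec_smul, hρv, smul_smul, smul_smul]
  exact Submodule.smul_mem _ _ (Submodule.mem_span_singleton_self v)

/-- **The count for `W = W¹(v)`.** -/
theorem card_Lflat_W1_le (hv : IsStableLine p rbar v ψ₁ ψ₂) (hb : IsFlatBounded p rbar)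
    (hfin0 : (ZbPsi p (ψ₁ / ψ₂)).Finite) (hfin1 : (ZbPsi p (1 : Gp p →* kˣ)).Finite)
    (hc : Nat.card ↥(ZbPsi p (ψ₁ / ψ₂)) * Nat.card ↥(ZbPsi p (1 : Gp p →* kˣ)) ≤
      Nat.card k ^ 3) :
    Finite ↥(Lflat p rbar (W1 v)) ∧
      Nat.card ↥(Lflat p rbar (W1 v)) ≤
        Nat.card k * Nat.card ↥((ad0Loc p rbar).ρ.invariants) := by
  obtain ⟨B, Binv, h1, h2, hBv, hT⟩ := exists_triangular p hv
  obtain ⟨hfT, hcT⟩ := card_T1_le h1 h2 hT hfin0 hfin1
  obtain ⟨hfZ, hcZ⟩ := card_flatCocycles_le p rbar (W1 v) (T1 p rbar B Binv) hfT (fun c hc' => by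
    refine ⟨isFlatZ_matOf p rbar c (W1 v) hc', fun g => ?_⟩
    obtain ⟨X, hXW, hX⟩ := matOf_mem p rbar c (W1 v) hc' g
    rw [mem_W1_iff, mulVec_mem_span_iff h1 h2 hBv] at hXW
    show (Binv * matOf p rbar c g * B) 1 0 = 0
    rw [← hX]
    exact hXW)
  obtain ⟨hfL, hcL⟩ := card_Lflat_mul_le p rbar hb (W1 v) (W1_stable p hv) hfZ
  refine ⟨hfL, ?_⟩
  have hW := pow_two_le_card_W1 h1 h2 hBv
  have hk : 0 < Nat.card k := Nat.card_pos
  have h3 : Nat.card ↥(Lflat p rbar (W1 v)) * Nat.card k ^ 2 ≤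
      Nat.card k * Nat.card ↥((ad0Loc p rbar).ρ.invariants) * Nat.card k ^ 2 := by
    calc Nat.card ↥(Lflat p rbar (W1 v)) * Nat.card k ^ 2
        ≤ Nat.card ↥(Lflat p rbar (W1 v)) * Nat.card ↥(W1 v) := Nat.mul_le_mul_left _ hW
      _ ≤ Nat.card ↥(flatCocycles p (ad0Loc p rbar) (W1 v)) *
            Nat.card ↥((ad0Loc p rbar).ρ.invariants) := hcL
      _ ≤ Nat.card k ^ 3 * Nat.card ↥((ad0Loc p rbar).ρ.invariants) :=
          Nat.mul_le_mul_right _ (hcZ.trans (hcT.trans hc))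
      _ = Nat.card k * Nat.card ↥((ad0Loc p rbar).ρ.invariants) * Nat.card k ^ 2 := by ring
  exact Nat.le_of_mul_le_mul_right h3 (pow_pos hk 2)

/-- **The count for `W = ⊤`** (reducible case). -/
theorem card_Lflat_top_le (hv : IsStableLine p rbar v ψ₁ ψ₂) (hb : IsFlatBounded p rbar)
    (hfin0 : (ZbPsi p (ψ₁ / ψ₂)).Finite) (hfin1 : (ZbPsi p (1 : Gp p →* kˣ)).Finite)
    (hfin2 : (ZbPsi p (ψ₂ / ψ₁)).Finite)
    (hc : Nat.card ↥(ZbPsi p (ψ₁ / ψ₂)) * Nat.card ↥(ZbPsi p (1 : Gp p →* kˣ)) *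
      Nat.card ↥(ZbPsi p (ψ₂ / ψ₁)) ≤ Nat.card k ^ 4) :
    Finite ↥(Lflat p rbar ⊤) ∧
      Nat.card ↥(Lflat p rbar ⊤) ≤
        Nat.card k * Nat.card ↥((ad0Loc p rbar).ρ.invariants) := by
  obtain ⟨B, Binv, h1, h2, hBv, hT⟩ := exists_triangular p hv
  obtain ⟨hfT, hcT⟩ := card_Ttop_le h1 h2 hT hfin0 hfin1 hfin2
  obtain ⟨hfZ, hcZ⟩ := card_flatCocycles_le p rbar ⊤ (Ttop p rbar) hfT
    (fun c hc' => isFlatZ_matOf p rbar c ⊤ hc')
  obtain ⟨hfL, hcL⟩ := card_Lflat_mul_le p rbar hb ⊤ (fun _ _ _ => Submodule.mem_top) hfZ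
  refine ⟨hfL, ?_⟩
  have hk : 0 < Nat.card k := Nat.card_pos
  have htop : Nat.card ↥(⊤ : Submodule k (sl2 k)) = Nat.card ↥(sl2 k) :=
    Nat.card_congr (Submodule.topEquiv (R := k) (M := sl2 k)).toEquiv
  have h3 : Nat.card ↥(Lflat p rbar ⊤) * Nat.card k ^ 3 ≤
      Nat.card k * Nat.card ↥((ad0Loc p rbar).ρ.invariants) * Nat.card k ^ 3 := by
    calc Nat.card ↥(Lflat p rbar ⊤) * Nat.card k ^ 3
        ≤ Nat.card ↥(Lflat p rbar ⊤) * Nat.card ↥(⊤ : Submodule k (sl2 k)) := by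
          rw [htop]
          exact Nat.mul_le_mul_left _ pow_three_le_card_sl2
      _ ≤ Nat.card ↥(flatCocycles p (ad0Loc p rbar) ⊤) *
            Nat.card ↥((ad0Loc p rbar).ρ.invariants) := hcL
      _ ≤ Nat.card k ^ 4 * Nat.card ↥((ad0Loc p rbar).ρ.invariants) :=
          Nat.mul_le_mul_right _ (hcZ.trans (hcT.trans hc))
      _ = Nat.card k * Nat.card ↥((ad0Loc p rbar).ρ.invariants) * Nat.card k ^ 3 := by ring
  exact Nat.le_of_mul_le_mul_right h3 (pow_pos hk 3)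

end Final

end

end Fermat.Agent.ES.T56.FlatRed20
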