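/-
Programme T (S56), chapter FLAT, leg FLAT-C (helper20): **the assembly** `FlatExportM`.

`flatExportM_of` : from the chapter inputs of `FlatIface20` (`KumF1`, `KumF2`, `OmegaSqNeOne`, `IrrShape`,
`RedShape`, `FlatPSplit`, `FlatPLowerLeft`) and two small entry Props (`OmegaNeOne`: `ω|_I ≠ 1`;
`RedEntry`: a stable line with its two level-constant characters when `ρ̄|_{G_p}` is not irreducible)
to the contract `FlatIface20.FlatExportM p k`.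

Case split: no flat lift (`L = ⊥`); `ρ̄|_{G_p}` irreducible (`L = L^{fl}(⊤)`, count `FlatIrr20`);
reducible and `p ≥ 5` (`L = L^{fl}(⊤)`, count `FlatRed20.card_Lflat_top_le`); reducible and `p = 3`
(`L = L^{fl}(W¹(v))` for a stable line `v` with unramified quotient character, count
`FlatRed20.card_Lflat_W1_le`, membership from `FlatPLowerLeft`).
-/
import Mathlib
import Fermat.Agent.ES.T56.FlatIface20
import Fermat.Agent.ES.T56.FlatMember20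
import Fermat.Agent.ES.T56.FlatCard20
import Fermat.Agent.ES.T56.FlatH1Count20
import Fermat.Agent.ES.T56.FlatMat20
import Fermat.Agent.ES.T56.FlatZ20
import Fermat.Agent.ES.T56.FlatRed20
import Fermat.Agent.ES.T56.FlatIrr20

set_option autoImplicit false
set_option linter.unusedSectionVars false
set_option linter.style.haveILetI false

namespace Fermat.Agent.ES.T56.FlatExport20

open Polynomial CategoryTheory groupCohomology ExtCitation Fermat.Agent.S53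
  Fermat.Agent.ES.T56.Ad0Rep10
  Fermat.Agent.ES.T56.OrdIface11 Fermat.Agent.ES.T56.FlatClass20 Fermat.Agent.ES.T56.FlatIface20
  Fermat.Agent.ES.T56.FlatMember20 Fermat.Agent.ES.T56.FlatCard20
  Fermat.Agent.ES.T56.FlatH1Count20 Fermat.Agent.ES.T56.FlatMat20 Fermat.Agent.ES.T56.FlatZ20

noncomputable section

variable (p : ℕ) [Fact p.Prime] {k : Type} [Field k]

/-! ### Two small entry inputs -/

/-- `ω|_I ≠ 1` (`ℚ_p(ζ_p)/ℚ_p` is ramified for `p ≠ 2`). -/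
def OmegaNeOne : Prop :=
  p ≠ 2 → ∃ g ∈ inertiaGp p, ∃ n : ℕ, ActsOnMuGp p g n ∧ ¬ (n ≡ 1 [MOD p])

/-- **Reducible entry**: if `ρ̄|_{G_p}` has a stable line, it has one with level-constant sub- and
quotient characters, whose product is `ω`. -/
def RedEntry (k : Type) [Field k] : Prop :=
  ∀ rbar : GQ →* M2 k, GaloisFactorsThroughFiniteLevel rbar →
    (∀ (σ : GQ) (a : ℕ), (∀ μ : AlgebraicClosure ℚ, μ ^ p = 1 → σ μ = μ ^ a) →
      (rbar σ).det = (a : k)) →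
    ¬ IsLocIrreducible p rbar →
    ∃ (v : Fin 2 → k) (ψ₁ ψ₂ : Gp p →* kˣ), IsStableLine p rbar v ψ₁ ψ₂ ∧
      IsLevelConstant₁ (locp p) ψ₁ ∧ IsLevelConstant₁ (locp p) ψ₂ ∧
      ∀ (g : Gp p) (n : ℕ), ActsOnMuGp p g n →
        ((ψ₁ g : kˣ) : k) * ((ψ₂ g : kˣ) : k) = (n : k)

/-! ### Characters on inertia -/

variable {p}

theorem not_isOmegaOnInertia_of_unram [CharP k p]
    (hne : ∃ g ∈ inertiaGp p, ∃ n : ℕ, ActsOnMuGp p g n ∧ ¬ (n ≡ 1 [MOD p]))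
    (ψ : Gp p →* kˣ) (h : IsUnramChar p ψ) : ¬ IsOmegaOnInertia p ψ := by
  intro hω
  obtain ⟨g, hg, n, hn, hn1⟩ := hne
  have e := hω g hg n hn
  rw [h g hg, Units.val_one] at e
  apply hn1
  have e' : ((n : ℕ) : k) = ((1 : ℕ) : k) := by rw [← e, Nat.cast_one]
  exact (CharP.natCast_eq_natCast k p).mp e'

theorem not_both_isOmegaOnInertia [CharP k p]
    (hsq : ∃ g ∈ inertiaGp p, ∃ n : ℕ, ActsOnMuGp p g n ∧ ¬ (n ^ 2 ≡ 1 [MOD p]))
    (ψ ψ' : Gp p →* kˣ) (hψ : ∀ g, ψ g * ψ' g = 1) :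
    ¬ (IsOmegaOnInertia p ψ ∧ IsOmegaOnInertia p ψ') := by
  rintro ⟨h1, h2⟩
  obtain ⟨g, hg, n, hn, hn1⟩ := hsq
  have e1 := h1 g hg n hn
  have e2 := h2 g hg n hn
  have e3 : ((ψ g : kˣ) : k) * ((ψ' g : kˣ) : k) = 1 := by
    rw [← Units.val_mul, hψ g, Units.val_one]
  rw [e1, e2] at e3
  apply hn1
  have e' : ((n ^ 2 : ℕ) : k) = ((1 : ℕ) : k) := by
    rw [Nat.cast_pow, Nat.cast_one, pow_two, e3]
  exact (CharP.natCast_eq_natCast k p).mp e'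

/-! ### Level-constancy of characters -/

theorem isLevelConstant_div {ψ₁ ψ₂ : Gp p →* kˣ} (h1 : IsLevelConstant₁ (locp p) ψ₁)
    (h2 : IsLevelConstant₁ (locp p) ψ₂) : IsLevelConstant₁ (locp p) (ψ₁ / ψ₂ : Gp p →* kˣ) := by
  obtain ⟨F, hF, h⟩ := h1
  obtain ⟨F', hF', h'⟩ := h2
  haveI := hF; haveI := hF'
  refine ⟨F ⊔ F', inferInstance, fun g s hs => ?_⟩
  rw [MonoidHom.div_apply, MonoidHom.div_apply,
    h g s (IntermediateField.fixingSubgroup_antitone le_sup_left hs),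
    h' g s (IntermediateField.fixingSubgroup_antitone le_sup_right hs)]

theorem isLevelConstant_one : IsLevelConstant₁ (locp p) (1 : Gp p →* kˣ) :=
  ⟨⊥, inferInstance, fun _ _ _ => rfl⟩

theorem exists_not_mem_of_index_two {G : Type*} [Group G] {H : Subgroup G} (hH : H.index = 2) :
    ∃ σ : G, σ ∉ H := by
  by_contra hcon
  have : H = ⊤ := (Subgroup.eq_top_iff' H).mpr fun g => by_contra fun hg => hcon ⟨g, hg⟩
  rw [this, Subgroup.index_top] at hH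
  omega

/-! ### Using `KumF1` -/

section UseF1

variable [Finite k] [CharP k p]

theorem kumF1_sq (hp2 : p ≠ 2) (hK1 : KumF1 p k) (ψ : Gp p →* kˣ)
    (hψ : IsLevelConstant₁ (locp p) ψ) :
    (ZbPsi p ψ).Finite ∧ Nat.card ↥(ZbPsi p ψ) ≤ Nat.card k ^ 2 := by
  classical
  obtain ⟨hf, hc⟩ := hK1 hp2 ‹_› ‹_› ψ hψ
  refine ⟨hf, hc.trans ?_⟩
  have hk : 0 < Nat.card k := Nat.card_pos
  apply Nat.pow_le_pow_right hk
  split_ifs <;> omega

theorem kumF1_one (hp2 : p ≠ 2) (hK1 : KumF1 p k) (ψ : Gp p →* kˣ)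
    (hψ : IsLevelConstant₁ (locp p) ψ) (hω : ¬ IsOmegaOnInertia p ψ) :
    (ZbPsi p ψ).Finite ∧ Nat.card ↥(ZbPsi p ψ) ≤ Nat.card k := by
  classical
  obtain ⟨hf, hc⟩ := hK1 hp2 ‹_› ‹_› ψ hψ
  refine ⟨hf, ?_⟩
  rw [if_neg hω, add_zero, pow_one] at hc
  exact hc

end UseF1

/-! ### The irreducible case -/

section Irr

variable [Finite k] [CharP k p]

/-- `Binv ρ(σ h σ⁻¹) B = T_σ · (Binv ρ(h) B) · T_σ'`. -/
theorem conj_rho_conj {rbar : GQ →* M2 k} {B Binv : M2 k} (h1 : B * Binv = 1) (σ h : Gp p) :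
    Binv * rho p rbar (σ * h * σ⁻¹) * B =
      (Binv * rho p rbar σ * B) * (Binv * rho p rbar h * B) * (Binv * rhoInv p rbar σ * B) := by
  have e1 : Binv * rho p rbar σ * B * (Binv * rho p rbar h * B) * (Binv * rhoInv p rbar σ * B) =
      Binv * (rho p rbar σ * (B * Binv) * rho p rbar h * (B * Binv) * rhoInv p rbar σ) * B := by
    simp only [mul_assoc]
  rw [e1, h1, mul_one, mul_one, rho_mul, rho_mul, rhoInv_eq]

theorem irr_case (hp2 : p ≠ 2) (hK1 : KumF1 p k) (hK2 : KumF2 p k)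
    (hNe : ∃ g ∈ inertiaGp p, ∃ n : ℕ, ActsOnMuGp p g n ∧ ¬ (n ≡ 1 [MOD p]))
    (hIrr : IrrShape p k) (rbar : GQ →* M2 k)
    (hlev : GaloisFactorsThroughFiniteLevel rbar)
    (hdet : ∀ (σ : GQ) (a : ℕ), (∀ μ : AlgebraicClosure ℚ, μ ^ p = 1 → σ μ = μ ^ a) →
      (rbar σ).det = (a : k))
    (hsplit : ∀ σ : GQ, ∃ α β : k, (rbar σ).charpoly = (X - C α) * (X - C β))
    (hb : IsFlatBounded p rbar) (hirr : IsLocIrreducible p rbar) :
    Finite ↥(Lflat p rbar ⊤) ∧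
      Nat.card ↥(Lflat p rbar ⊤) ≤
        Nat.card k * Nat.card ↥((ad0Loc p rbar).ρ.invariants) := by
  obtain ⟨H, hn, hH, hIH, hopen, B, Binv, χ, χ', h1, h2, hdiag, hneq, hanti⟩ :=
    hIrr hp2 ‹_› ‹_› rbar hlev hsplit hirr
  haveI := hn
  obtain ⟨σ₀, hσ₀⟩ := exists_not_mem_of_index_two hH
  have hdiag' : ∀ h : ↥H, Binv * rho p rbar (h : Gp p) * B =
      Matrix.diagonal ![((χ h : kˣ) : k), ((χ' h : kˣ) : k)] := hdiag
  have hanti' : ∀ σ : Gp p, σ ∉ H → (Binv * rho p rbar σ * B) 0 0 = 0 ∧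
      (Binv * rho p rbar σ * B) 1 1 = 0 := hanti
  -- `χ (σ₀ h σ₀⁻¹) = χ' h`
  have hconj : ∀ h : ↥H, χ (MulAut.conjNormal σ₀ h) = χ' h := by
    intro h
    have e1 : ((MulAut.conjNormal σ₀ h : ↥H) : Gp p) = σ₀ * (h : Gp p) * σ₀⁻¹ :=
      MulAut.conjNormal_apply σ₀ h
    have hd := hdiag' (MulAut.conjNormal σ₀ h)
    obtain ⟨h00, h11⟩ := hanti' σ₀ hσ₀
    have hTT := conj_rho_mul_inv (rbar := rbar) h1 h2 σ₀
    rw [e1, conj_rho_conj h1, hdiag' h, antidiag_conj h00 h11 rfl rfl hTT] at hd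
    have e2 := congrFun (congrFun hd 0) 0
    simp only [Matrix.of_apply, Matrix.cons_val', Matrix.cons_val_zero, Matrix.cons_val_fin_one,
      Matrix.diagonal_apply_eq, Matrix.cons_val_one] at e2
    exact Units.ext e2.symm
  -- level-constancy of `χ`
  have hχlev : IsLevelConstant₁ ((locp p).comp H.subtype) χ := by
    obtain ⟨L, hL, hLr⟩ := hlev
    refine ⟨L, hL, fun g s hs => ?_⟩
    have hs1 : rbar (locp p (s : Gp p)) = 1 :=
      hLr _ (fun x hx => (IntermediateField.mem_fixingSubgroup_iff L _).mp hs x hx)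
    have e1 : rho p rbar ((g * s : ↥H) : Gp p) = rho p rbar (g : Gp p) := by
      rw [Subgroup.coe_mul, rho_mul]
      show _ * rbar (locp p (s : Gp p)) = _
      rw [hs1, mul_one]
    have e2 := hdiag' (g * s)
    rw [e1, hdiag' g] at e2
    have e3 := congrFun (congrFun e2 0) 0
    simp only [Matrix.diagonal_apply_eq, Matrix.cons_val_zero] at e3
    exact Units.ext e3.symm
  -- the determinant
  have hdetχ : ∀ (h : ↥H) (n : ℕ), ActsOnMuGp p (h : Gp p) n →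
      ((χ h : kˣ) : k) * ((χ (MulAut.conjNormal σ₀ h) : kˣ) : k) = (n : k) := by
    intro h n hn
    rw [hconj h]
    have e1 := hdet (locp p (h : Gp p)) n hn
    have e2 : (Binv * rho p rbar (h : Gp p) * B).det = (rbar (locp p (h : Gp p))).det := by
      rw [Matrix.det_mul, Matrix.det_mul, mul_comm, ← mul_assoc, ← Matrix.det_mul, h1,
        Matrix.det_one, one_mul]
      rfl
    rw [hdiag' h, Matrix.det_diagonal, Fin.prod_univ_two] at e2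
    simp only [Matrix.cons_val_zero, Matrix.cons_val_one, Matrix.cons_val_fin_one] at e2
    rw [e2, e1]
  have hneχ : ∃ h : ↥H, (h : Gp p) ∈ inertiaGp p ∧ χ (MulAut.conjNormal σ₀ h) ≠ χ h := by
    obtain ⟨h, hhI, hh⟩ := hneq
    exact ⟨h, hhI, by rw [hconj h]; exact fun e => hh e.symm⟩
  have hξ : ∀ h : ↥H, (χ / χ') h * χ (MulAut.conjNormal σ₀ h) = χ h := by
    intro h
    rw [hconj h, MonoidHom.div_apply, div_mul_cancel]
  obtain ⟨hfin, hc⟩ := hK2 hp2 ‹_› ‹_› H hH hIH hopen χ (χ / χ') hχlev σ₀ hσ₀ hdetχ hneχ hξ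
  -- the quadratic character
  have hδlev : IsLevelConstant₁ (locp p) (FlatIrr20.quadChar p H hH : Gp p →* kˣ) := by
    obtain ⟨F₀, hF₀, hF₀H⟩ := hopen
    refine ⟨F₀, hF₀, fun g s hs => ?_⟩
    rw [map_mul, FlatIrr20.quadChar_of_mem p hH (hF₀H s hs), mul_one]
  have hδur : IsUnramChar p (FlatIrr20.quadChar p H hH : Gp p →* kˣ) :=
    fun g hg => FlatIrr20.quadChar_of_mem p hH (hIH hg)
  obtain ⟨hfinδ, hcδ⟩ := kumF1_one hp2 hK1 _ hδlev (not_isOmegaOnInertia_of_unram hNe _ hδur)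
  exact FlatIrr20.card_Lflat_top_le p hb hH h1 h2 hdiag' hanti' hσ₀ hfin hfinδ hc hcδ

end Irr

/-! ### The reducible cases -/

section Red

variable [Finite k] [CharP k p]

/-- reducible, `W = ⊤` (used for `p ≥ 5`). -/
theorem red_case_top (hp2 : p ≠ 2) (hK1 : KumF1 p k)
    (hNe : ∃ g ∈ inertiaGp p, ∃ n : ℕ, ActsOnMuGp p g n ∧ ¬ (n ≡ 1 [MOD p]))
    (hSq : ∃ g ∈ inertiaGp p, ∃ n : ℕ, ActsOnMuGp p g n ∧ ¬ (n ^ 2 ≡ 1 [MOD p]))
    {rbar : GQ →* M2 k} {v : Fin 2 → k} {ψ₁ ψ₂ : Gp p →* kˣ}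
    (hv : IsStableLine p rbar v ψ₁ ψ₂) (hψ₁ : IsLevelConstant₁ (locp p) ψ₁)
    (hψ₂ : IsLevelConstant₁ (locp p) ψ₂) (hb : IsFlatBounded p rbar) :
    Finite ↥(Lflat p rbar ⊤) ∧
      Nat.card ↥(Lflat p rbar ⊤) ≤
        Nat.card k * Nat.card ↥((ad0Loc p rbar).ρ.invariants) := by
  obtain ⟨hf1, hc1⟩ := kumF1_one hp2 hK1 (1 : Gp p →* kˣ) isLevelConstant_one
    (not_isOmegaOnInertia_of_unram hNe 1 (fun g _ => rfl))
  have hinv : ∀ g : Gp p, (ψ₁ / ψ₂ : Gp p →* kˣ) g * (ψ₂ / ψ₁ : Gp p →* kˣ) g = 1 := by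
    intro g
    rw [MonoidHom.div_apply, MonoidHom.div_apply, div_mul_div_cancel, div_self']
  by_cases hω : IsOmegaOnInertia p (ψ₁ / ψ₂ : Gp p →* kˣ)
  · have hω' : ¬ IsOmegaOnInertia p (ψ₂ / ψ₁ : Gp p →* kˣ) := fun h' =>
      not_both_isOmegaOnInertia hSq _ _ hinv ⟨hω, h'⟩
    obtain ⟨hf0, hc0⟩ := kumF1_sq hp2 hK1 (ψ₁ / ψ₂) (isLevelConstant_div hψ₁ hψ₂)
    obtain ⟨hf2, hc2⟩ := kumF1_one hp2 hK1 (ψ₂ / ψ₁) (isLevelConstant_div hψ₂ hψ₁) hω'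
    refine FlatRed20.card_Lflat_top_le p hv hb hf0 hf1 hf2 ?_
    calc Nat.card ↥(ZbPsi p (ψ₁ / ψ₂)) * Nat.card ↥(ZbPsi p (1 : Gp p →* kˣ)) *
          Nat.card ↥(ZbPsi p (ψ₂ / ψ₁))
        ≤ Nat.card k ^ 2 * Nat.card k * Nat.card k :=
          Nat.mul_le_mul (Nat.mul_le_mul hc0 hc1) hc2
      _ = Nat.card k ^ 4 := by ring
  · obtain ⟨hf0, hc0⟩ := kumF1_one hp2 hK1 (ψ₁ / ψ₂) (isLevelConstant_div hψ₁ hψ₂) hω
    obtain ⟨hf2, hc2⟩ := kumF1_sq hp2 hK1 (ψ₂ / ψ₁) (isLevelConstant_div hψ₂ hψ₁)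
    refine FlatRed20.card_Lflat_top_le p hv hb hf0 hf1 hf2 ?_
    calc Nat.card ↥(ZbPsi p (ψ₁ / ψ₂)) * Nat.card ↥(ZbPsi p (1 : Gp p →* kˣ)) *
          Nat.card ↥(ZbPsi p (ψ₂ / ψ₁))
        ≤ Nat.card k * Nat.card k * Nat.card k ^ 2 :=
          Nat.mul_le_mul (Nat.mul_le_mul hc0 hc1) hc2
      _ = Nat.card k ^ 4 := by ring

/-- reducible, `W = W¹(v)` (used for `p = 3`). -/
theorem red_case_W1 (hp2 : p ≠ 2) (hK1 : KumF1 p k)
    (hNe : ∃ g ∈ inertiaGp p, ∃ n : ℕ, ActsOnMuGp p g n ∧ ¬ (n ≡ 1 [MOD p]))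
    {rbar : GQ →* M2 k} {v : Fin 2 → k} {ψ₁ ψ₂ : Gp p →* kˣ}
    (hv : IsStableLine p rbar v ψ₁ ψ₂) (hψ₁ : IsLevelConstant₁ (locp p) ψ₁)
    (hψ₂ : IsLevelConstant₁ (locp p) ψ₂) (hb : IsFlatBounded p rbar) :
    Finite ↥(Lflat p rbar (W1 v)) ∧
      Nat.card ↥(Lflat p rbar (W1 v)) ≤
        Nat.card k * Nat.card ↥((ad0Loc p rbar).ρ.invariants) := by
  obtain ⟨hf1, hc1⟩ := kumF1_one hp2 hK1 (1 : Gp p →* kˣ) isLevelConstant_one
    (not_isOmegaOnInertia_of_unram hNe 1 (fun g _ => rfl))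
  obtain ⟨hf0, hc0⟩ := kumF1_sq hp2 hK1 (ψ₁ / ψ₂) (isLevelConstant_div hψ₁ hψ₂)
  refine FlatRed20.card_Lflat_W1_le p hv hb hf0 hf1 ?_
  calc Nat.card ↥(ZbPsi p (ψ₁ / ψ₂)) * Nat.card ↥(ZbPsi p (1 : Gp p →* kˣ))
      ≤ Nat.card k ^ 2 * Nat.card k := Nat.mul_le_mul hc0 hc1
    _ = Nat.card k ^ 3 := by ring

/-- membership in `L^{fl}(W¹(v))` from FLAT-P (lower-left). -/
theorem mem_W1_case (hp2 : p ≠ 2) (hPL : FlatPLowerLeft p k)
    {rbar : GQ →* M2 k} {v : Fin 2 → k} {ψ₁ ψ₂ : Gp p →* kˣ}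
    (hv : IsStableLine p rbar v ψ₁ ψ₂) (hur : IsUnramChar p ψ₂)
    (r : GQ →* M2 (DualNumber k)) (hr : MatCont r) (hfst : ∀ σ, fstM (r σ) = rbar σ)
    (hdc : (ofMatrix r hr).DetIsCyclotomic p) (hfl : (ofMatrix r hr).IsFlatAt p)
    (c : cocycles₁ (ad0 rbar)) (hc : ∀ σ, ((c σ : sl2 k) : M2 k) = epsPart r σ) :
    (map (locp p) (𝟙 (ad0Loc p rbar)) 1).hom ((H1π (ad0 rbar)).hom c) ∈ Lflat p rbar (W1 v) := by
  obtain ⟨m₀, htr, hm⟩ := hPL hp2 ‹_› rbar v ψ₁ ψ₂ hv hur r hr hfst hdc hfl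
  have hm₀ : m₀ ∈ sl2 k := (mem_sl2_iff m₀).mpr htr
  refine res_mem_Lflat p rbar (W1 v) r hr hfst hfl c hc ⟨m₀, hm₀⟩ (fun g => ?_)
  rw [mem_W1_iff, val_eq p rbar r c hc ⟨m₀, hm₀⟩ g]
  exact hm g

end Red

/-! ### The assembly -/

/-- **FLAT-EXPORT** from the chapter inputs. -/
theorem flatExportM_of (hK1 : KumF1 p k) (hK2 : KumF2 p k) (hSq : OmegaSqNeOne p)
    (hIrr : IrrShape p k) (hRed : RedShape p k) (hPS : FlatPSplit p k)
    (hPL : FlatPLowerLeft p k) (hNe : OmegaNeOne p) (hRE : RedEntry p k) :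
    FlatExportM p k := by
  intro hp2 hfin hchar rbar hlev hdet hsplit
  haveI := hfin
  haveI := hchar
  haveI hfinInv : Finite ↥((ad0Loc p rbar).ρ.invariants) :=
    Finite.of_injective (fun X : ↥((ad0Loc p rbar).ρ.invariants) => ((X : ad0Loc p rbar) : sl2 k))
      Subtype.val_injective
  by_cases hex : ∃ (r : GQ →* M2 (DualNumber k)) (hr : MatCont r), (∀ σ, fstM (r σ) = rbar σ) ∧
      (ofMatrix r hr).DetIsCyclotomic p ∧ (ofMatrix r hr).IsFlatAt p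
  swap
  · refine ⟨⊥, bot_le, inferInstance, ?_, fun r hr hfst hdc hfl =>
      absurd ⟨r, hr, hfst, hdc, hfl⟩ hex⟩
    rw [Nat.card_unique]
    exact Nat.mul_pos Nat.card_pos Nat.card_pos
  obtain ⟨r₀, hr₀, hfst₀, hdc₀, hfl₀⟩ := hex
  have hb := isFlatBounded_of_lift p rbar r₀ hr₀ hfst₀ hfl₀
  have hNe' := hNe hp2
  by_cases hirr : IsLocIrreducible p rbar
  · obtain ⟨hf, hc⟩ := irr_case hp2 hK1 hK2 hNe' hIrr rbar hlev hdet hsplit hb hirr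
    exact ⟨Lflat p rbar ⊤, Lflat_le_continuousH1 p rbar ⊤, hf, hc,
      fun r hr hfst _ hfl c hc' => res_mem_Lflat_top p rbar r hr hfst hfl c hc'⟩
  obtain ⟨v, ψ₁, ψ₂, hv, hψ₁, hψ₂, hprod⟩ := hRE rbar hlev hdet hirr
  by_cases h5 : 5 ≤ p
  · obtain ⟨hf, hc⟩ := red_case_top hp2 hK1 hNe' (hSq h5) hv hψ₁ hψ₂ hb
    exact ⟨Lflat p rbar ⊤, Lflat_le_continuousH1 p rbar ⊤, hf, hc,
      fun r hr hfst _ hfl c hc' => res_mem_Lflat_top p rbar r hr hfst hfl c hc'⟩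
  have hp3 : p = 3 := by
    have hpr : p.Prime := Fact.out
    have h2 := hpr.two_le
    have h4 : p ≠ 4 := fun h => by
      rw [h] at hpr
      exact absurd hpr (by norm_num)
    omega
  rcases hRed hp3 ‹_› ‹_› ψ₁ ψ₂ hψ₁ hψ₂ hprod with hur | hur
  · obtain ⟨v', hv'⟩ := hPS hp2 ‹_› rbar v ψ₁ ψ₂ hv hur r₀ hr₀ hfst₀ hdc₀ hfl₀
    obtain ⟨hf, hc⟩ := red_case_W1 hp2 hK1 hNe' hv' hψ₂ hψ₁ hb
    exact ⟨Lflat p rbar (W1 v'), Lflat_le_continuousH1 p rbar (W1 v'), hf, hc,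
      fun r hr hfst hdc hfl c hc' => mem_W1_case hp2 hPL hv' hur r hr hfst hdc hfl c hc'⟩
  · obtain ⟨hf, hc⟩ := red_case_W1 hp2 hK1 hNe' hv hψ₁ hψ₂ hb
    exact ⟨Lflat p rbar (W1 v), Lflat_le_continuousH1 p rbar (W1 v), hf, hc,
      fun r hr hfst hdc hfl c hc' => mem_W1_case hp2 hPL hv hur r hr hfst hdc hfl c hc'⟩

end

end Fermat.Agent.ES.T56.FlatExport20
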