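/-
Programme T (S56), chapter LOC, helper1: LOCAL FROBENIUS LIFTS.

`Γ_q = Gal(ℚ̄_q/ℚ_q)`, `r = localGaloisToGlobal q : Γ_q → G_ℚ`, `A = padicPlace q`.  For a finite
Galois `L ⊂ ℚ̄` and `𝔓 = primeAt A L`:

* `mem_nonunits_padicPlace_iff`, `padicPlace_liesOverPrime`;
* `exists_natCast_sub_mem` : an element of `𝓞 L` fixed by (the image of) `Γ_q` is congruent to a
  natural number modulo `𝔓` (`ℚ̄_q^{Γ_q} = ℚ_q`, and `ℕ` is dense in `ℤ_q`);
* `exists_isArithFrobAt` : **there is `τ ∈ Γ_q` such that `r τ` restricts to an arithmetic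
  Frobenius at `𝔓`** (the classical proof of the surjectivity of `D → Gal(κ(𝔓)/𝔽_q)`, run with the
  image of `Γ_q` in place of the decomposition group);
* `exists_local_frobenius` : there are `τ ∈ Γ_q` and a Frobenius element `φ` at `A` (Prelude's
  `IsFrobeniusAt`) with `φ⁻¹ * r τ ∈ I_A ⊔ Gal(ℚ̄/L)`;
* `exists_pow_inv_mul_mem_inertiaLevel` : that `τ` generates `Γ_q` modulo the inertia group at
  level `L`.
-/
import Mathlib
import Fermat.Agent.ES.T56.InertiaBridge1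

set_option autoImplicit false

open NumberField Polynomial
open scoped Pointwise NNReal

namespace Fermat.Agent.ES.T56.LocFrob1

open Fermat.Agent.ES.GAL.ChebQbar23 Fermat.Agent.ES.T56.InertiaBridge1

local notation "Qbar" => AlgebraicClosure ℚ

variable (q : ℕ) [Fact q.Prime]

/-! ### The place `padicPlace q` -/

theorem mem_nonunits_padicPlace_iff (x : Qbar) :
    x ∈ (padicPlace q).nonunits ↔ ‖padicEmbedding q x‖₊ < 1 := by
  rw [mem_nonunits_iff']
  by_cases hx : x = 0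
  · simp [hx]
  · simp only [hx, false_or]
    rw [mem_padicPlace_iff, map_inv₀, nnnorm_inv, not_le,
      one_lt_inv₀ (by
        rw [pos_iff_ne_zero, ne_eq, nnnorm_eq_zero, map_eq_zero]; exact hx)]

theorem padicPlace_liesOverPrime : (padicPlace q).LiesOverPrime q := by
  unfold ValuationSubring.LiesOverPrime
  rw [mem_nonunits_padicPlace_iff, map_natCast]
  have h1 : ‖((q : ℚ_[q]) : PadicAlgCl q)‖ = ‖(q : ℚ_[q])‖ := PadicAlgCl.norm_extends q _
  have h2 : ‖(q : PadicAlgCl q)‖ < 1 := by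
    have : ((q : ℚ_[q]) : PadicAlgCl q) = (q : PadicAlgCl q) := map_natCast _ q
    rw [← this, h1]
    exact Padic.norm_p_lt_one
  exact_mod_cast h2

/-! ### Elements fixed by the local Galois group -/

variable (L : IntermediateField ℚ Qbar) [NumberField L] [IsGalois ℚ L]

/-- The action of `Γ_q` on `𝓞 L` through `Gal(L/ℚ)`. -/
noncomputable def resHom : (PadicAlgCl q ≃ₐ[ℚ_[q]] PadicAlgCl q) →* (L ≃ₐ[ℚ] L) :=
  (AlgEquiv.restrictNormalHom L).comp (localGaloisToGlobal q)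

omit [NumberField L] in
theorem padicEmbedding_incl_smul (τ : PadicAlgCl q ≃ₐ[ℚ_[q]] PadicAlgCl q) (x : 𝓞 L) :
    padicEmbedding q (incl L (resHom q L τ • x)) = τ (padicEmbedding q (incl L x)) := by
  unfold resHom
  rw [MonoidHom.comp_apply, incl_smul, padicEmbedding_localGaloisToGlobal]

theorem resHom_mem_stabilizer (τ : PadicAlgCl q ≃ₐ[ℚ_[q]] PadicAlgCl q) :
    resHom q L τ ∈ MulAction.stabilizer (L ≃ₐ[ℚ] L) (primeAt (padicPlace q) L) :=
  restrict_mem_stabilizer _ L (localGaloisToGlobal_mem_decompositionSubgroup q τ)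

/-- An element of `𝓞 L` fixed by `Γ_q` is congruent to a natural number modulo `𝔓`. -/
theorem exists_natCast_sub_mem (c : 𝓞 L)
    (hc : ∀ τ : PadicAlgCl q ≃ₐ[ℚ_[q]] PadicAlgCl q, resHom q L τ • c = c) :
    ∃ n : ℕ, c - n ∈ primeAt (padicPlace q) L := by
  have hfix : ∀ τ : PadicAlgCl q ≃ₐ[ℚ_[q]] PadicAlgCl q,
      τ (padicEmbedding q (incl L c)) = padicEmbedding q (incl L c) := by
    intro τ
    rw [← padicEmbedding_incl_smul, hc τ]
  have : IsGalois ℚ_[q] (PadicAlgCl q) := inferInstance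
  obtain ⟨z, hz⟩ := (InfiniteGalois.mem_range_algebraMap_iff_fixed
    (k := ℚ_[q]) (K := PadicAlgCl q) (padicEmbedding q (incl L c))).mpr hfix
  have hz1 : ‖z‖ ≤ 1 := by
    rw [← PadicAlgCl.norm_extends q z]
    rw [hz]
    have := (mem_padicPlace_iff q).mp (incl_mem L (padicPlace q) c)
    exact_mod_cast this
  obtain ⟨n, -, hn⟩ := PadicInt.exists_mem_range (p := q) (⟨z, hz1⟩ : ℤ_[q])
  refine ⟨n, ?_⟩
  rw [mem_primeAt, mem_nonunits_padicPlace_iff, map_sub, map_sub, map_natCast, map_natCast, ← hz]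
  have h1 : ‖(⟨z, hz1⟩ - (n : ℤ_[q]) : ℤ_[q])‖ < 1 := by
    rw [← PadicInt.mem_nonunits]
    exact hn
  have h2 : ‖algebraMap ℚ_[q] (PadicAlgCl q) z - (n : PadicAlgCl q)‖ < 1 := by
    have : algebraMap ℚ_[q] (PadicAlgCl q) z - (n : PadicAlgCl q)
        = algebraMap ℚ_[q] (PadicAlgCl q) (z - (n : ℚ_[q])) := by
      rw [map_sub, map_natCast]
    rw [this]
    change ‖((z - (n : ℚ_[q]) : ℚ_[q]) : PadicAlgCl q)‖ < 1
    rw [PadicAlgCl.norm_extends]
    have h3 : ((⟨z, hz1⟩ - (n : ℤ_[q]) : ℤ_[q]) : ℚ_[q]) = z - (n : ℚ_[q]) := by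
      push_cast; rfl
    rw [← h3]
    exact h1
  exact_mod_cast h2

/-! ### The local Frobenius lift -/

open MulAction in
/-- **There is `τ ∈ Γ_q` whose image in `Gal(L/ℚ)` is an arithmetic Frobenius at `𝔓`.** -/
theorem exists_isArithFrobAt :
    ∃ τ : PadicAlgCl q ≃ₐ[ℚ_[q]] PadicAlgCl q,
      IsArithFrobAt (𝓞 ℚ) (resHom q L τ) (primeAt (padicPlace q) L) := by
  classical
  set 𝔓 := primeAt (padicPlace q) L with h𝔓
  have hq : q.Prime := Fact.out
  have hA := padicPlace_liesOverPrime q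
  have hmax : 𝔓.IsMaximal := primeAt_isMaximal L hq hA
  have hfin : Finite (𝓞 L ⧸ 𝔓) := Ideal.finiteQuotientOfFreeOfNeBot _ (primeAt_ne_bot L hq hA)
  let _ : Field (𝓞 L ⧸ 𝔓) := Ideal.Quotient.field 𝔓
  have hq0 : ((q : ℕ) : 𝓞 L ⧸ 𝔓) = 0 := by
    rw [← map_natCast (Ideal.Quotient.mk 𝔓), Ideal.Quotient.eq_zero_iff_mem]
    exact natCast_mem_primeAt L hA
  have hchar : CharP (𝓞 L ⧸ 𝔓) q := by
    have h1 := CharP.exists (𝓞 L ⧸ 𝔓)
    obtain ⟨c, hc⟩ := h1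
    have h2 : c ∣ q := (CharP.cast_eq_zero_iff (𝓞 L ⧸ 𝔓) c q).mp hq0
    rcases (Nat.dvd_prime hq).mp h2 with h3 | h3
    · subst h3
      exact absurd (CharP.char_is_prime_or_zero (𝓞 L ⧸ 𝔓) 1) (by simp [Nat.not_prime_one])
    · rwa [h3] at hc
  -- a generator of the multiplicative group of the residue field
  obtain ⟨u, hu⟩ := IsCyclic.exists_monoid_generator (α := (𝓞 L ⧸ 𝔓)ˣ)
  obtain ⟨x₀, hx₀⟩ := Ideal.Quotient.mk_surjective (u : 𝓞 L ⧸ 𝔓)
  -- the image of `Γ_q` and the polynomial `∏ (X - d x₀)`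
  let D' : Subgroup (L ≃ₐ[ℚ] L) := (resHom q L).range
  let _ : Fintype D' := Fintype.ofFinite _
  set g : (𝓞 L)[X] := prodXSubSMul D' (𝓞 L) x₀ with hg
  set f : (𝓞 L ⧸ 𝔓)[X] := g.map (Ideal.Quotient.mk 𝔓) with hf
  have hcoef : ∀ n, frobenius (𝓞 L ⧸ 𝔓) q (f.coeff n) = f.coeff n := by
    intro n
    rw [hf, Polynomial.coeff_map]
    obtain ⟨m, hm⟩ := exists_natCast_sub_mem q L (g.coeff n)
      (fun τ => prodXSubSMul.coeff D' (𝓞 L) x₀ ⟨resHom q L τ, τ, rfl⟩ n)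
    have h1 : Ideal.Quotient.mk 𝔓 (g.coeff n) = (m : 𝓞 L ⧸ 𝔓) := by
      rw [← map_natCast (Ideal.Quotient.mk 𝔓), Ideal.Quotient.eq]
      exact hm
    rw [h1, map_natCast]
  have hfmap : f.map (frobenius (𝓞 L ⧸ 𝔓) q) = f := by
    ext n
    rw [Polynomial.coeff_map]
    exact hcoef n
  have hroot : f.eval (Ideal.Quotient.mk 𝔓 x₀) = 0 := by
    rw [hf, Polynomial.eval_map, Polynomial.eval₂_at_apply, hg, prodXSubSMul.eval, map_zero]
  have hroot2 : f.eval ((Ideal.Quotient.mk 𝔓 x₀) ^ q) = 0 := by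
    have h1 := congrArg (frobenius (𝓞 L ⧸ 𝔓) q) hroot
    rw [map_zero, ← Polynomial.eval₂_id, Polynomial.hom_eval₂, RingHom.comp_id,
      ← Polynomial.eval_map, hfmap, frobenius_def] at h1
    exact h1
  -- some `d x₀` is congruent to `x₀ ^ q`
  obtain ⟨d, hd⟩ : ∃ d : D', Ideal.Quotient.mk 𝔓 (d • x₀) = (Ideal.Quotient.mk 𝔓 x₀) ^ q := by
    rw [hf, hg, prodXSubSMul, Polynomial.map_prod, Polynomial.eval_prod,
      Finset.prod_eq_zero_iff] at hroot2
    obtain ⟨c, -, hc⟩ := hroot2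
    obtain ⟨d, rfl⟩ := QuotientGroup.mk_surjective c
    refine ⟨d, ?_⟩
    rw [Polynomial.map_sub, Polynomial.map_X, Polynomial.map_C, Polynomial.eval_sub,
      Polynomial.eval_X, Polynomial.eval_C, ofQuotientStabilizer_mk, sub_eq_zero] at hc
    exact hc.symm
  obtain ⟨d, hdmem⟩ := d
  obtain ⟨τ, rfl⟩ := hdmem
  refine ⟨τ, ?_⟩
  have hdx : Ideal.Quotient.mk 𝔓 (resHom q L τ • x₀) = (Ideal.Quotient.mk 𝔓 x₀) ^ q := hd
  have hstab := resHom_mem_stabilizer q L τ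
  have hsm : ∀ y ∈ 𝔓, resHom q L τ • y ∈ 𝔓 := by
    intro y hy
    have := Ideal.smul_mem_pointwise_smul (resHom q L τ) y 𝔓 hy
    rwa [MulAction.mem_stabilizer_iff.mp hstab] at this
  -- the Frobenius congruence for every `y`
  intro y
  change resHom q L τ • y - y ^ Nat.card (𝓞 ℚ ⧸ 𝔓.under (𝓞 ℚ)) ∈ 𝔓
  have hcard : Nat.card (𝓞 ℚ ⧸ 𝔓.under (𝓞 ℚ)) = q := by
    rw [← Fermat.Agent.CFT.NotAllSplit10.absNorm_eq_card]
    exact Fermat.Agent.PT.GLOB.DecompFrob17.absNorm_under_rat q hq 𝔓 (natCast_mem_primeAt L hA)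
  rw [hcard]
  by_cases hy : y ∈ 𝔓
  · exact sub_mem (hsm y hy) (Ideal.pow_mem_of_mem 𝔓 hy q hq.pos)
  · have hy0 : Ideal.Quotient.mk 𝔓 y ≠ 0 := by
      rwa [ne_eq, Ideal.Quotient.eq_zero_iff_mem]
    obtain ⟨m, hm⟩ := hu (Units.mk0 _ hy0)
    have hm' : (Ideal.Quotient.mk 𝔓 x₀) ^ m = Ideal.Quotient.mk 𝔓 y := by
      have := congrArg (Units.val) hm
      simpa [hx₀] using this
    have h1 : y - x₀ ^ m ∈ 𝔓 := by
      rw [← Ideal.Quotient.eq, map_pow, hm']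
    have h2 : resHom q L τ • y - (resHom q L τ • x₀) ^ m ∈ 𝔓 := by
      have := hsm _ h1
      rwa [smul_sub, smul_pow'] at this
    rw [← Ideal.Quotient.eq] at h2 ⊢
    rw [h2, map_pow, map_pow, hdx, ← hm', ← pow_mul, ← pow_mul, mul_comm]

/-- **Local Frobenius lift**: there are `τ ∈ Γ_q` and a Frobenius element `φ` at `padicPlace q`
with `r τ ∈ (I_A ⊔ Gal(ℚ̄/L)) φ`, and `τ` generates `Γ_q` modulo the inertia group at level `L`. -/
theorem exists_local_frobenius :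
    ∃ (τ : PadicAlgCl q ≃ₐ[ℚ_[q]] PadicAlgCl q) (φ : Qbar ≃ₐ[ℚ] Qbar),
      (padicPlace q).IsFrobeniusAt φ q ∧
      localGaloisToGlobal q τ * φ⁻¹ ∈
        (padicPlace q).inertiaSubgroupIn ℚ ⊔ L.fixingSubgroup ∧
      ∀ γ : PadicAlgCl q ≃ₐ[ℚ_[q]] PadicAlgCl q,
        ∃ n : ℕ, (τ ^ n)⁻¹ * γ ∈ inertiaLevel (padicPlace q) L (localGaloisToGlobal q) := by
  have hq : q.Prime := Fact.out
  have hA := padicPlace_liesOverPrime q
  obtain ⟨τ, hτ⟩ := exists_isArithFrobAt q L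
  obtain ⟨φ, hφ⟩ := Fermat.Agent.ES.FROB.FrobFacts12.exists_isFrobeniusAt_of q hq (padicPlace q) hA
  refine ⟨τ, φ, hφ, ?_, fun γ => ?_⟩
  · rw [mem_sup_iff (padicPlace q) L hq hA, map_mul, map_inv]
    exact IsArithFrobAt.mul_inv_mem_inertia hτ (isArithFrobAt_restrict (padicPlace q) L hq hA hφ)
  · exact exists_pow_inv_mul_mem (padicPlace q) L (localGaloisToGlobal q) hq hA
      (localGaloisToGlobal_mem_decompositionSubgroup q) hτ γ

/-- The same statement in the Prelude's `Nat.Primes` notation (`primeLocalGaloisGroup`,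
`primeLocalToGlobal`, `primeLocalPlace`). -/
theorem exists_local_frobenius_primes (q : Nat.Primes) (L : IntermediateField ℚ Qbar)
    [NumberField L] [IsGalois ℚ L] :
    ∃ (τ : ExtCitation.primeLocalGaloisGroup q) (φ : Qbar ≃ₐ[ℚ] Qbar),
      (ExtCitation.primeLocalPlace q).IsFrobeniusAt φ q ∧
      ExtCitation.primeLocalToGlobal q τ * φ⁻¹ ∈
        (ExtCitation.primeLocalPlace q).inertiaSubgroupIn ℚ ⊔ L.fixingSubgroup ∧
      ∀ γ : ExtCitation.primeLocalGaloisGroup q,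
        ∃ n : ℕ, (τ ^ n)⁻¹ * γ ∈
          inertiaLevel (ExtCitation.primeLocalPlace q) L (ExtCitation.primeLocalToGlobal q) :=
  haveI : Fact (q : ℕ).Prime := ⟨q.2⟩
  exists_local_frobenius (q : ℕ) L

theorem primeLocalPlace_liesOverPrime (q : Nat.Primes) :
    (ExtCitation.primeLocalPlace q).LiesOverPrime q :=
  haveI : Fact (q : ℕ).Prime := ⟨q.2⟩
  padicPlace_liesOverPrime (q : ℕ)

theorem primeLocalToGlobal_mem_decompositionSubgroup (q : Nat.Primes)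
    (τ : ExtCitation.primeLocalGaloisGroup q) :
    ExtCitation.primeLocalToGlobal q τ ∈ (ExtCitation.primeLocalPlace q).decompositionSubgroup ℚ :=
  haveI : Fact (q : ℕ).Prime := ⟨q.2⟩
  localGaloisToGlobal_mem_decompositionSubgroup (q : ℕ) τ

end Fermat.Agent.ES.T56.LocFrob1
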