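/-
Programme T (S56), chapter LOC, helper1: the TAME CHARACTER, abstractly.

Setting: `B` a commutative ring, `𝔓` an ideal, `π ∈ 𝔓` with `𝔓 = (π) ⊔ 𝔓²`, a group `G` acting on
`B` by ring automorphisms, `I = 𝔓.inertia G` (Mathlib) the inertia group.

* `tameKer 𝔓 π` : the subgroup `K ≤ I` of the `σ` with `σ π ≡ π mod 𝔓²` (the kernel of the tame
  character `θ`);
* `smul_sub_mem_pow_succ` : `σ ∈ K` acts trivially on every `𝔓^i / 𝔓^(i+1)`;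
* `eq_one_of_pow_eq_one` : (`B` a noetherian domain, faithful action, `q ∈ 𝔓`) an element of `K` of
  finite order prime to `q` is trivial -- so `K` is a `q`-group when `G` is finite
  (`exists_pow_prime_pow_eq_one`);
* `theta` : the tame character `I → B ⧸ 𝔓`, `σ π ≡ θ(σ) π mod 𝔓²` (`𝔓` maximal, `π ∉ 𝔓²`);
  multiplicative on `I` (`thetaHom`), kernel `K`, `θ(g τ g⁻¹) = g • θ(τ)` for `g` in the stabilizer
  (`theta_conj`);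
* `exists_generator` : `G` finite: there is `τ₀ ∈ I` with `I = ⟨τ₀⟩ K`;
* `cyclic_image` : **(T1)** a homomorphism `f` on `G` whose values on `I` have `p`-power order,
  `p ≠ q` primes, has cyclic image on `I`: `f σ = f τ₀ ^ n`.

This serves both the number field model (`B = 𝓞 L`, `𝔓 ∣ q`) and main's local model
(`B = intRing q E'`).  No ramification theory is used.
-/
import Mathlib

set_option autoImplicit false

namespace Fermat.Agent.ES.T56.TameChar1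

open Pointwise

variable {B : Type*} [CommRing B] {G : Type*} [Group G] [MulSemiringAction G B]
  (𝔓 : Ideal B) (π : B)

/-! ### Elements of the stabilizer preserve the powers of `𝔓` -/

theorem smul_mem_pow_of_stabilizer {g : G} (hg : g ∈ MulAction.stabilizer G 𝔓) (j : ℕ) {x : B}
    (hx : x ∈ 𝔓 ^ j) : g • x ∈ 𝔓 ^ j := by
  have h1 : g • (𝔓 ^ j) = 𝔓 ^ j := by
    rw [Ideal.pointwise_smul_def, Ideal.map_pow, ← Ideal.pointwise_smul_def,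
      MulAction.mem_stabilizer_iff.mp hg]
  rw [← h1]
  exact Ideal.smul_mem_pointwise_smul g x _ hx

theorem smul_mem_pow {σ : G} (hσ : σ ∈ 𝔓.inertia G) (j : ℕ) {x : B} (hx : x ∈ 𝔓 ^ j) :
    σ • x ∈ 𝔓 ^ j :=
  smul_mem_pow_of_stabilizer 𝔓 (Ideal.inertia_le_stabilizer 𝔓 hσ) j hx

/-! ### The kernel of the tame character -/

/-- The subgroup of the inertia group fixing `π` modulo `𝔓²`. -/
def tameKer : Subgroup G where
  carrier := {σ | σ ∈ 𝔓.inertia G ∧ σ • π - π ∈ 𝔓 ^ 2}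
  one_mem' := ⟨one_mem _, by simp⟩
  mul_mem' := by
    rintro a b ⟨ha, ha2⟩ ⟨hb, hb2⟩
    refine ⟨mul_mem ha hb, ?_⟩
    have h : (a * b) • π - π = a • (b • π - π) + (a • π - π) := by
      rw [mul_smul, smul_sub]; ring
    rw [h]
    exact add_mem (smul_mem_pow 𝔓 ha 2 hb2) ha2
  inv_mem' := by
    rintro a ⟨ha, ha2⟩
    refine ⟨inv_mem ha, ?_⟩
    have h : a⁻¹ • π - π = -(a⁻¹ • (a • π - π)) := by
      rw [smul_sub, inv_smul_smul]; ring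
    rw [h]
    exact neg_mem (smul_mem_pow 𝔓 (inv_mem ha) 2 ha2)

theorem mem_tameKer {σ : G} :
    σ ∈ tameKer 𝔓 π ↔ σ ∈ 𝔓.inertia G ∧ σ • π - π ∈ 𝔓 ^ 2 := Iff.rfl

theorem tameKer_le : tameKer (G := G) 𝔓 π ≤ 𝔓.inertia G := fun _ h => h.1

variable {𝔓 π}

theorem pi_mem (hπ : 𝔓 = Ideal.span {π} ⊔ 𝔓 ^ 2) : π ∈ 𝔓 := by
  rw [hπ]
  exact Ideal.mem_sup_left (Ideal.subset_span rfl)

/-- Elements of `𝔓` are `v π + w` with `w ∈ 𝔓²`. -/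
theorem exists_eq_mul_add (hπ : 𝔓 = Ideal.span {π} ⊔ 𝔓 ^ 2) {x : B} (hx : x ∈ 𝔓) :
    ∃ v w : B, w ∈ 𝔓 ^ 2 ∧ x = v * π + w := by
  rw [hπ, Submodule.mem_sup] at hx
  obtain ⟨a, ha, w, hw, rfl⟩ := hx
  obtain ⟨v, rfl⟩ := Ideal.mem_span_singleton'.mp ha
  exact ⟨v, w, hw, rfl⟩

/-- An element of the inertia group with `σ π ≡ u π mod 𝔓²` satisfies `σ x ≡ u x mod 𝔓²` for all
`x ∈ 𝔓`. -/
theorem smul_sub_mul_mem_sq (hπ : 𝔓 = Ideal.span {π} ⊔ 𝔓 ^ 2) {σ : G} (hσ : σ ∈ 𝔓.inertia G)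
    {u : B} (hu : σ • π - u * π ∈ 𝔓 ^ 2) {x : B} (hx : x ∈ 𝔓) : σ • x - u * x ∈ 𝔓 ^ 2 := by
  obtain ⟨v, w, hw, rfl⟩ := exists_eq_mul_add hπ hx
  have h : σ • (v * π + w) - u * (v * π + w)
      = σ • v * (σ • π - u * π) + u * ((σ • v - v) * π) + (σ • w - u * w) := by
    rw [smul_add, smul_mul']; ring
  rw [h]
  refine add_mem (add_mem (Ideal.mul_mem_left _ _ hu) (Ideal.mul_mem_left _ _ ?_))
    (sub_mem (smul_mem_pow 𝔓 hσ 2 hw) (Ideal.mul_mem_left _ _ hw))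
  rw [pow_two]
  exact Ideal.mul_mem_mul (hσ v) (pi_mem hπ)

/-- `σ ∈ K` acts trivially on `𝔓^i / 𝔓^(i+1)` for every `i`. -/
theorem smul_sub_mem_pow_succ (hπ : 𝔓 = Ideal.span {π} ⊔ 𝔓 ^ 2) {σ : G}
    (hσ : σ ∈ tameKer 𝔓 π) (i : ℕ) {x : B} (hx : x ∈ 𝔓 ^ i) : σ • x - x ∈ 𝔓 ^ (i + 1) := by
  have h1 : ∀ b ∈ 𝔓, σ • b - b ∈ 𝔓 ^ 2 := by
    intro b hb
    have := smul_sub_mul_mem_sq hπ hσ.1 (u := 1) (by simpa using hσ.2) hb
    simpa using this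
  induction i generalizing x with
  | zero => simpa using hσ.1 x
  | succ i ih =>
    rw [pow_succ] at hx
    refine Submodule.mul_induction_on hx ?_ ?_
    · intro a ha b hb
      have h : σ • (a * b) - a * b = σ • a * (σ • b - b) + (σ • a - a) * b := by
        rw [smul_mul']; ring
      rw [h]
      refine add_mem ?_ ?_
      · have : σ • a * (σ • b - b) ∈ 𝔓 ^ i * 𝔓 ^ 2 :=
          Ideal.mul_mem_mul (smul_mem_pow 𝔓 hσ.1 i ha) (h1 b hb)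
        rwa [← pow_add] at this
      · have : (σ • a - a) * b ∈ 𝔓 ^ (i + 1) * 𝔓 := Ideal.mul_mem_mul (ih ha) hb
        rwa [← pow_succ] at this
    · intro a b ha hb
      have h : σ • (a + b) - (a + b) = (σ • a - a) + (σ • b - b) := by
        rw [smul_add]; ring
      rw [h]
      exact add_mem ha hb

/-! ### Elements of `K` of order prime to `q` are trivial -/

/-- If `(σ - 1) B ⊆ 𝔓^i` then `σ^j x ≡ x + j (σ x - x) mod 𝔓^(i+1)`. -/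
theorem pow_smul_sub_mem (hπ : 𝔓 = Ideal.span {π} ⊔ 𝔓 ^ 2) {σ : G} (hσ : σ ∈ tameKer 𝔓 π)
    (i : ℕ) (hi : ∀ x : B, σ • x - x ∈ 𝔓 ^ i) (j : ℕ) (x : B) :
    (σ ^ j) • x - x - (j : B) * (σ • x - x) ∈ 𝔓 ^ (i + 1) := by
  induction j with
  | zero => simp
  | succ j ih =>
    have h : (σ ^ (j + 1)) • x - x - ((j + 1 : ℕ) : B) * (σ • x - x)
        = ((σ ^ j) • x - x - (j : B) * (σ • x - x))
          + ((σ ^ j) • (σ • x - x) - (σ • x - x)) := by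
      rw [pow_succ, mul_smul, smul_sub]; push_cast; ring
    rw [h]
    exact add_mem ih (smul_sub_mem_pow_succ hπ (pow_mem hσ j) i (hi x))

theorem eq_one_of_pow_eq_one [IsDomain B] [IsNoetherianRing B] [FaithfulSMul G B]
    (h𝔓 : 𝔓 ≠ ⊤) (hπ : 𝔓 = Ideal.span {π} ⊔ 𝔓 ^ 2) {q : ℕ} (hq : (q : B) ∈ 𝔓) {σ : G}
    (hσ : σ ∈ tameKer 𝔓 π) {m : ℕ} (hm : Nat.Coprime m q) (hσm : σ ^ m = 1) : σ = 1 := by
  have key : ∀ i : ℕ, ∀ x : B, σ • x - x ∈ 𝔓 ^ i := by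
    intro i
    induction i with
    | zero => intro x; simp
    | succ i ih =>
      intro x
      have h1 := pow_smul_sub_mem hπ hσ i ih m x
      rw [hσm, one_smul, sub_self, zero_sub, neg_mem_iff] at h1
      -- `m` is invertible modulo `𝔓`
      have hgcd : (m : ℤ) * Nat.gcdA m q + (q : ℤ) * Nat.gcdB m q = 1 := by
        have := Nat.gcd_eq_gcd_ab m q
        rw [hm] at this
        exact_mod_cast this.symm
      have hB : ((m : ℤ) : B) * ((Nat.gcdA m q : ℤ) : B) + ((q : ℤ) : B) * ((Nat.gcdB m q : ℤ) : B)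
          = 1 := by
        exact_mod_cast congrArg (Int.cast : ℤ → B) hgcd
      have h2 : σ • x - x = ((Nat.gcdA m q : ℤ) : B) * ((m : B) * (σ • x - x))
          + ((Nat.gcdB m q : ℤ) : B) * ((q : B) * (σ • x - x)) := by
        calc σ • x - x = (((m : ℤ) : B) * ((Nat.gcdA m q : ℤ) : B)
            + ((q : ℤ) : B) * ((Nat.gcdB m q : ℤ) : B)) * (σ • x - x) := by rw [hB, one_mul]
          _ = _ := by push_cast; ring
      rw [h2]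
      refine add_mem (Ideal.mul_mem_left _ _ h1) (Ideal.mul_mem_left _ _ ?_)
      rw [pow_succ']
      exact Ideal.mul_mem_mul hq (ih x)
  have hbot : ∀ x : B, σ • x - x = 0 := by
    intro x
    have hmem : σ • x - x ∈ ⨅ i : ℕ, 𝔓 ^ i := by
      rw [Ideal.mem_iInf]
      exact fun i => key i x
    rw [Ideal.iInf_pow_eq_bot_of_isDomain 𝔓 h𝔓] at hmem
    exact hmem
  apply FaithfulSMul.eq_of_smul_eq_smul (α := B)
  intro x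
  rw [one_smul]
  exact sub_eq_zero.mp (hbot x)

/-- For a finite group `G`: every element of `K` has `q`-power order. -/
theorem exists_pow_prime_pow_eq_one [IsDomain B] [IsNoetherianRing B] [FaithfulSMul G B] [Finite G]
    (h𝔓 : 𝔓 ≠ ⊤) (hπ : 𝔓 = Ideal.span {π} ⊔ 𝔓 ^ 2) {q : ℕ} (hqp : q.Prime) (hq : (q : B) ∈ 𝔓)
    {σ : G} (hσ : σ ∈ tameKer 𝔓 π) : ∃ a : ℕ, σ ^ q ^ a = 1 := by
  have hpos : 0 < orderOf σ := orderOf_pos σ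
  obtain ⟨a, m, hm, hord⟩ := Nat.exists_eq_pow_mul_and_not_dvd hpos.ne' q hqp.ne_one
  refine ⟨a, ?_⟩
  apply eq_one_of_pow_eq_one h𝔓 hπ hq (pow_mem hσ _) (m := m)
  · exact (Nat.Coprime.symm ((Nat.Prime.coprime_iff_not_dvd hqp).mpr hm))
  · rw [← pow_mul, ← hord, pow_orderOf_eq_one]

/-! ### The tame character -/

section Theta

variable (𝔓 π)

/-- A representative of `θ(σ)`. -/
noncomputable def thetaAux (σ : G) : B :=
  haveI := Classical.propDecidable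
  if h : ∃ u : B, σ • π - u * π ∈ 𝔓 ^ 2 then h.choose else 0

/-- The tame character (as a plain function into `B ⧸ 𝔓`). -/
noncomputable def theta (σ : G) : B ⧸ 𝔓 := Ideal.Quotient.mk 𝔓 (thetaAux 𝔓 π σ)

variable {𝔓 π}

theorem exists_isTheta (hπ : 𝔓 = Ideal.span {π} ⊔ 𝔓 ^ 2) {g : G}
    (hg : g ∈ MulAction.stabilizer G 𝔓) : ∃ u : B, g • π - u * π ∈ 𝔓 ^ 2 := by
  have h1 : g • π ∈ 𝔓 := by
    have := smul_mem_pow_of_stabilizer 𝔓 hg 1 (x := π) (by simpa using pi_mem hπ)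
    simpa using this
  obtain ⟨v, w, hw, h⟩ := exists_eq_mul_add hπ h1
  exact ⟨v, by rw [h]; simpa using hw⟩

theorem thetaAux_spec (hπ : 𝔓 = Ideal.span {π} ⊔ 𝔓 ^ 2) {g : G}
    (hg : g ∈ MulAction.stabilizer G 𝔓) : g • π - thetaAux 𝔓 π g * π ∈ 𝔓 ^ 2 := by
  have h := exists_isTheta hπ hg
  unfold thetaAux
  rw [dif_pos h]
  exact h.choose_spec

/-- Uniqueness of `θ`: `u π ∈ 𝔓²` forces `u ∈ 𝔓`. -/
theorem mem_of_mul_pi_mem [h𝔓 : 𝔓.IsMaximal] (hπm : π ∈ 𝔓) (hπ2 : π ∉ 𝔓 ^ 2) {u : B}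
    (hu : u * π ∈ 𝔓 ^ 2) : u ∈ 𝔓 := by
  by_contra hne
  obtain ⟨y, i, hi, hy⟩ := h𝔓.exists_inv hne
  apply hπ2
  have h : π = y * (u * π) + i * π := by
    have : π = (y * u + i) * π := by rw [hy, one_mul]
    calc π = (y * u + i) * π := this
      _ = y * (u * π) + i * π := by ring
  rw [h]
  refine add_mem (Ideal.mul_mem_left _ _ hu) ?_
  rw [pow_two]
  exact Ideal.mul_mem_mul hi hπm

variable [h𝔓 : 𝔓.IsMaximal]

/-- Characterisation of `θ(g)`, `g` in the stabilizer of `𝔓`. -/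
theorem theta_eq_iff (hπ : 𝔓 = Ideal.span {π} ⊔ 𝔓 ^ 2) (hπ2 : π ∉ 𝔓 ^ 2) {g : G}
    (hg : g ∈ MulAction.stabilizer G 𝔓) (u : B) :
    theta 𝔓 π g = Ideal.Quotient.mk 𝔓 u ↔ g • π - u * π ∈ 𝔓 ^ 2 := by
  have hs := thetaAux_spec hπ hg
  unfold theta
  rw [Ideal.Quotient.eq]
  constructor
  · intro h
    have h1 : g • π - u * π = (g • π - thetaAux 𝔓 π g * π) + (thetaAux 𝔓 π g - u) * π := by ring
    rw [h1]
    refine add_mem hs ?_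
    rw [pow_two]
    exact Ideal.mul_mem_mul h (pi_mem hπ)
  · intro h
    apply mem_of_mul_pi_mem (pi_mem hπ) hπ2
    have h1 : (thetaAux 𝔓 π g - u) * π = (g • π - u * π) - (g • π - thetaAux 𝔓 π g * π) := by ring
    rw [h1]
    exact sub_mem h hs

theorem theta_one (hπ : 𝔓 = Ideal.span {π} ⊔ 𝔓 ^ 2) (hπ2 : π ∉ 𝔓 ^ 2) :
    theta 𝔓 π (1 : G) = 1 := by
  rw [← map_one (Ideal.Quotient.mk 𝔓), theta_eq_iff hπ hπ2 (one_mem _)]
  simp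

/-- `θ` is multiplicative on the inertia group (the left factor in `I`, the right one in the
stabilizer). -/
theorem theta_mul (hπ : 𝔓 = Ideal.span {π} ⊔ 𝔓 ^ 2) (hπ2 : π ∉ 𝔓 ^ 2) {σ τ : G}
    (hσ : σ ∈ 𝔓.inertia G) (hτ : τ ∈ MulAction.stabilizer G 𝔓) :
    theta 𝔓 π (σ * τ) = theta 𝔓 π σ * theta 𝔓 π τ := by
  have hσs : σ ∈ MulAction.stabilizer G 𝔓 := Ideal.inertia_le_stabilizer 𝔓 hσ
  unfold theta
  rw [← map_mul]
  change theta 𝔓 π (σ * τ) = _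
  rw [theta_eq_iff hπ hπ2 (mul_mem hσs hτ)]
  have hu := thetaAux_spec hπ hσs
  have hv := thetaAux_spec hπ hτ
  have hτπ : τ • π ∈ 𝔓 := by
    have := smul_mem_pow_of_stabilizer 𝔓 hτ 1 (x := π) (by simpa using pi_mem hπ)
    simpa using this
  have h1 := smul_sub_mul_mem_sq hπ hσ hu hτπ
  have h2 : (σ * τ) • π - thetaAux 𝔓 π σ * thetaAux 𝔓 π τ * π
      = (σ • τ • π - thetaAux 𝔓 π σ * τ • π)
        + thetaAux 𝔓 π σ * (τ • π - thetaAux 𝔓 π τ * π) := by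
    rw [mul_smul]; ring
  rw [h2]
  exact add_mem h1 (Ideal.mul_mem_left _ _ hv)

/-- `θ(g τ g⁻¹) = g • θ(τ)` for `g` in the stabilizer of `𝔓` and `τ` in the inertia group. -/
theorem theta_conj (hπ : 𝔓 = Ideal.span {π} ⊔ 𝔓 ^ 2) (hπ2 : π ∉ 𝔓 ^ 2) {g τ : G}
    (hg : g ∈ MulAction.stabilizer G 𝔓) (hτ : τ ∈ 𝔓.inertia G) {u : B}
    (hu : theta 𝔓 π τ = Ideal.Quotient.mk 𝔓 u) :
    theta 𝔓 π (g * τ * g⁻¹) = Ideal.Quotient.mk 𝔓 (g • u) := by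
  have hτs : τ ∈ MulAction.stabilizer G 𝔓 := Ideal.inertia_le_stabilizer 𝔓 hτ
  rw [theta_eq_iff hπ hπ2 hτs] at hu
  rw [theta_eq_iff hπ hπ2 (mul_mem (mul_mem hg hτs) (inv_mem hg))]
  have hx : g⁻¹ • π ∈ 𝔓 := by
    have := smul_mem_pow_of_stabilizer 𝔓 (inv_mem hg) 1 (x := π) (by simpa using pi_mem hπ)
    simpa using this
  have h1 := smul_sub_mul_mem_sq hπ hτ hu hx
  have h2 := smul_mem_pow_of_stabilizer 𝔓 hg 2 h1
  have h3 : g • (τ • g⁻¹ • π - u * g⁻¹ • π) = (g * τ * g⁻¹) • π - g • u * π := by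
    rw [smul_sub, smul_mul', smul_inv_smul, mul_smul, mul_smul]
  rwa [h3] at h2

/-- The kernel of `θ` on the inertia group is `K`. -/
theorem theta_eq_one_iff (hπ : 𝔓 = Ideal.span {π} ⊔ 𝔓 ^ 2) (hπ2 : π ∉ 𝔓 ^ 2) {σ : G}
    (hσ : σ ∈ 𝔓.inertia G) : theta 𝔓 π σ = 1 ↔ σ ∈ tameKer 𝔓 π := by
  rw [← map_one (Ideal.Quotient.mk 𝔓),
    theta_eq_iff hπ hπ2 (Ideal.inertia_le_stabilizer 𝔓 hσ), one_mul, mem_tameKer]
  exact ⟨fun h => ⟨hσ, h⟩, fun h => h.2⟩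

/-- The tame character as a monoid homomorphism on the inertia group. -/
noncomputable def thetaHom (hπ : 𝔓 = Ideal.span {π} ⊔ 𝔓 ^ 2) (hπ2 : π ∉ 𝔓 ^ 2) :
    𝔓.inertia G →* (B ⧸ 𝔓) where
  toFun σ := theta 𝔓 π σ.1
  map_one' := theta_one hπ hπ2
  map_mul' σ τ := theta_mul hπ hπ2 σ.2 (Ideal.inertia_le_stabilizer 𝔓 τ.2)

theorem thetaHom_apply (hπ : 𝔓 = Ideal.span {π} ⊔ 𝔓 ^ 2) (hπ2 : π ∉ 𝔓 ^ 2)
    (σ : 𝔓.inertia G) : thetaHom hπ hπ2 σ = theta 𝔓 π σ.1 := rfl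

/-- The tame character with values in the units of the residue ring. -/
noncomputable def thetaU (hπ : 𝔓 = Ideal.span {π} ⊔ 𝔓 ^ 2) (hπ2 : π ∉ 𝔓 ^ 2) :
    𝔓.inertia G →* (B ⧸ 𝔓)ˣ := (thetaHom hπ hπ2).toHomUnits

theorem coe_thetaU (hπ : 𝔓 = Ideal.span {π} ⊔ 𝔓 ^ 2) (hπ2 : π ∉ 𝔓 ^ 2)
    (σ : 𝔓.inertia G) : ((thetaU hπ hπ2 σ : (B ⧸ 𝔓)ˣ) : B ⧸ 𝔓) = theta 𝔓 π σ.1 := rfl

theorem mem_ker_thetaU (hπ : 𝔓 = Ideal.span {π} ⊔ 𝔓 ^ 2) (hπ2 : π ∉ 𝔓 ^ 2)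
    (σ : 𝔓.inertia G) : σ ∈ (thetaU hπ hπ2).ker ↔ σ.1 ∈ tameKer 𝔓 π := by
  rw [MonoidHom.mem_ker, Units.ext_iff, coe_thetaU, Units.val_one,
    theta_eq_one_iff hπ hπ2 σ.2]

/-- `K` is normalised by the stabilizer of `𝔓`. -/
theorem conj_mem_tameKer (hπ : 𝔓 = Ideal.span {π} ⊔ 𝔓 ^ 2) (hπ2 : π ∉ 𝔓 ^ 2) {g κ : G}
    (hg : g ∈ MulAction.stabilizer G 𝔓) (hκ : κ ∈ tameKer 𝔓 π) :
    g * κ * g⁻¹ ∈ tameKer 𝔓 π := by
  have hI : g * κ * g⁻¹ ∈ 𝔓.inertia G := by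
    have hn : ((𝔓.inertia G).subgroupOf (MulAction.stabilizer G 𝔓)).Normal :=
      inferInstanceAs (𝔓.inertia (MulAction.stabilizer G 𝔓)).Normal
    have := hn.conj_mem ⟨κ, Ideal.inertia_le_stabilizer 𝔓 hκ.1⟩
      (by rw [Subgroup.mem_subgroupOf]; exact hκ.1) ⟨g, hg⟩
    rw [Subgroup.mem_subgroupOf] at this
    simpa using this
  rw [← theta_eq_one_iff hπ hπ2 hI,
    theta_conj hπ hπ2 hg hκ.1 (u := 1) (by
      rw [map_one]; exact (theta_eq_one_iff hπ hπ2 hκ.1).mpr hκ)]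
  rw [smul_one, map_one]

/-- `I / K` is cyclic. -/
theorem isCyclic_quotient [Finite G] (hπ : 𝔓 = Ideal.span {π} ⊔ 𝔓 ^ 2) (hπ2 : π ∉ 𝔓 ^ 2) :
    IsCyclic (𝔓.inertia G ⧸ (thetaU (G := G) hπ hπ2).ker) := by
  have hdom : IsDomain (B ⧸ 𝔓) := Ideal.Quotient.isDomain 𝔓
  have hfin : Finite (𝔓.inertia G ⧸ (thetaU (G := G) hπ hπ2).ker) := inferInstance
  have hinj : Function.Injective ((Units.coeHom (B ⧸ 𝔓)).comp
      (QuotientGroup.kerLift (thetaU (G := G) hπ hπ2))) :=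
    Units.val_injective.comp (QuotientGroup.kerLift_injective _)
  exact @isCyclic_of_injective_ringHom (B ⧸ 𝔓) (𝔓.inertia G ⧸ (thetaU (G := G) hπ hπ2).ker) _ hdom _ hfin
    ((Units.coeHom (B ⧸ 𝔓)).comp (QuotientGroup.kerLift (thetaU (G := G) hπ hπ2))) hinj

/-- There is `τ₀ ∈ I` with `I = ⟨τ₀⟩ K`. -/
theorem exists_generator [Finite G] (hπ : 𝔓 = Ideal.span {π} ⊔ 𝔓 ^ 2) (hπ2 : π ∉ 𝔓 ^ 2) :
    ∃ τ₀ ∈ 𝔓.inertia G, ∀ σ ∈ 𝔓.inertia G, ∃ n : ℕ, ∃ κ ∈ tameKer 𝔓 π, σ = τ₀ ^ n * κ := by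
  have := isCyclic_quotient (G := G) hπ hπ2
  obtain ⟨x, hx⟩ := IsCyclic.exists_monoid_generator
    (α := 𝔓.inertia G ⧸ (thetaU (G := G) hπ hπ2).ker)
  obtain ⟨τ₀, rfl⟩ := QuotientGroup.mk_surjective x
  refine ⟨τ₀.1, τ₀.2, fun σ hσ => ?_⟩
  obtain ⟨n, hn⟩ := hx (QuotientGroup.mk ⟨σ, hσ⟩)
  refine ⟨n, (τ₀.1 ^ n)⁻¹ * σ, ?_, by group⟩
  have h1 : ((τ₀ ^ n)⁻¹ * ⟨σ, hσ⟩ : 𝔓.inertia G) ∈ (thetaU (G := G) hπ hπ2).ker := by
    rw [← QuotientGroup.eq, QuotientGroup.mk_pow]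
    exact hn
  rw [mem_ker_thetaU] at h1
  simpa using h1

/-- If `g` (in the stabilizer) acts on `B ⧸ 𝔓` as the `Q`-th power map (a Frobenius), then
`g τ g⁻¹ ≡ τ ^ Q` modulo `K` for every `τ` in the inertia group. -/
theorem conj_mul_pow_inv_mem_tameKer (hπ : 𝔓 = Ideal.span {π} ⊔ 𝔓 ^ 2) (hπ2 : π ∉ 𝔓 ^ 2)
    {g τ : G} (hg : g ∈ MulAction.stabilizer G 𝔓) (hτ : τ ∈ 𝔓.inertia G) {Q : ℕ}
    (hQ : ∀ u : B, g • u - u ^ Q ∈ 𝔓) : g * τ * g⁻¹ * (τ ^ Q)⁻¹ ∈ tameKer 𝔓 π := by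
  have hI : g * τ * g⁻¹ ∈ 𝔓.inertia G := by
    have hn : ((𝔓.inertia G).subgroupOf (MulAction.stabilizer G 𝔓)).Normal :=
      inferInstanceAs (𝔓.inertia (MulAction.stabilizer G 𝔓)).Normal
    have := hn.conj_mem ⟨τ, Ideal.inertia_le_stabilizer 𝔓 hτ⟩
      (by rw [Subgroup.mem_subgroupOf]; exact hτ) ⟨g, hg⟩
    rw [Subgroup.mem_subgroupOf] at this
    simpa using this
  have h1 : thetaU hπ hπ2 ⟨g * τ * g⁻¹, hI⟩ = thetaU hπ hπ2 ⟨τ, hτ⟩ ^ Q := by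
    rw [Units.ext_iff, Units.val_pow_eq_pow_val, coe_thetaU, coe_thetaU]
    rw [theta_conj hπ hπ2 hg hτ (u := thetaAux 𝔓 π τ) rfl]
    change _ = (Ideal.Quotient.mk 𝔓 (thetaAux 𝔓 π τ)) ^ Q
    rw [← map_pow, Ideal.Quotient.eq]
    exact hQ _
  have h2 : (⟨g * τ * g⁻¹, hI⟩ * (⟨τ, hτ⟩ ^ Q)⁻¹ : 𝔓.inertia G) ∈ (thetaU hπ hπ2).ker := by
    rw [MonoidHom.mem_ker, map_mul, map_inv, map_pow, h1, mul_inv_cancel]
  rw [mem_ker_thetaU] at h2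
  simpa using h2

/-- **(T1)**: a homomorphism whose values on the inertia group have `p`-power order, `p ≠ q`
primes, `q ∈ 𝔓`, has cyclic image on the inertia group. -/
theorem cyclic_image [IsDomain B] [IsNoetherianRing B] [FaithfulSMul G B] [Finite G]
    (hπ : 𝔓 = Ideal.span {π} ⊔ 𝔓 ^ 2) (hπ2 : π ∉ 𝔓 ^ 2) {q : ℕ} (hqp : q.Prime)
    (hq : (q : B) ∈ 𝔓) {p : ℕ} (hp : p.Prime) (hpq : p ≠ q) {H : Type*} [Monoid H] (f : G →* H)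
    (hf : ∀ σ ∈ 𝔓.inertia G, ∃ j : ℕ, f σ ^ p ^ j = 1) :
    ∃ τ₀ ∈ 𝔓.inertia G, ∀ σ ∈ 𝔓.inertia G, ∃ n : ℕ, f σ = f τ₀ ^ n := by
  obtain ⟨τ₀, hτ₀, h⟩ := exists_generator (G := G) hπ hπ2
  refine ⟨τ₀, hτ₀, fun σ hσ => ?_⟩
  obtain ⟨n, κ, hκ, rfl⟩ := h σ hσ
  refine ⟨n, ?_⟩
  obtain ⟨a, ha⟩ := exists_pow_prime_pow_eq_one h𝔓.ne_top hπ hqp hq hκ
  obtain ⟨j, hj⟩ := hf κ hκ.1
  have h1 : f κ ^ q ^ a = 1 := by rw [← map_pow, ha, map_one]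
  have hcop : Nat.Coprime (q ^ a) (p ^ j) :=
    Nat.Coprime.pow _ _ ((Nat.coprime_primes hqp hp).mpr (Ne.symm hpq))
  have h2 : f κ = 1 := (pow_eq_one_iff_of_coprime hcop).mp ⟨h1, hj⟩
  rw [map_mul, map_pow, h2, mul_one]

end Theta

end Fermat.Agent.ES.T56.TameChar1
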