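/-
Programme T (S56, Taylor–Wiles primes), chapter FLAT, leg FLAT-C, bricks `IrrShape` / `RedShape`
(helper14): the TAME PACKAGE of `Γ_q = Gal(ℚ̄_q/ℚ_q)` at a finite Galois level `L ⊂ ℚ̄`, for ANY prime
`q` (used with `q = p`, the residue characteristic).

`A = primeLocalPlace q`, `r = primeLocalToGlobal q : Γ_q → G_ℚ`, `𝔓 = primeAt A L` (helper1's
`InertiaBridge1`), `I = inertiaLevel A L r = r⁻¹(I_A · Gal(ℚ̄/L))`.  From the abstract tame character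
`TameChar1` (helper1) on `B = 𝓞 L`, `G = Gal(L/ℚ)`, helper1's local Frobenius lift (`LocFrob1`) and
helper16's `LocSurj16` (`I_A ≤ r(Γ_q)`):

`exists_tame_package` : there are `P ≤ I` (the wild inertia at level `L`), `m` prime to `q`, `φ`, `τ₀`
with: `P` normal in `Γ_q`; every `x ∈ P` has `x ^ q ^ a ∈ r⁻¹ Gal(ℚ̄/L)`; `[I, I] ≤ P`; `I ^ m ≤ P`;
`Γ_q = ⟨φ⟩ I`; `φ x φ⁻¹ ≡ x ^ q mod P` on `I`; `r τ₀ ∈ I_A` and `I = ⟨τ₀⟩ P`; every `x ∈ I` is congruent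
modulo `r⁻¹ Gal(ℚ̄/L)` to some `h` with `r h ∈ I_A`.
-/
import Mathlib
import Fermat.Agent.ES.T56.TameChar1
import Fermat.Agent.ES.T56.LocFrob1
import Fermat.Agent.ES.T56.LocSurj16

set_option autoImplicit false
set_option linter.unusedSectionVars false

open NumberField ExtCitation
open scoped Pointwise

namespace Fermat.Agent.ES.T56.FlatTameP14

open Fermat.Agent.ES.T56.InertiaBridge1 Fermat.Agent.ES.T56.TameChar1

local notation "Qbar" => AlgebraicClosure ℚ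

/-! ### The Galois group acts faithfully on the ring of integers -/

theorem faithful_gal (L : Type*) [Field L] [NumberField L] :
    FaithfulSMul (L ≃ₐ[ℚ] L) (𝓞 L) := by
  refine ⟨fun {g h} hgh => ?_⟩
  ext y
  obtain ⟨a, b, -, rfl⟩ := IsFractionRing.div_surjective (A := 𝓞 L) y
  have ha : g (algebraMap (𝓞 L) L a) = h (algebraMap (𝓞 L) L a) :=
    congrArg (algebraMap (𝓞 L) L) (hgh a)
  have hb : g (algebraMap (𝓞 L) L b) = h (algebraMap (𝓞 L) L b) :=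
    congrArg (algebraMap (𝓞 L) L) (hgh b)
  rw [map_div₀, map_div₀, ha, hb]

/-! ### A uniformizer of a prime of a Dedekind domain -/

theorem exists_unif {B : Type*} [CommRing B] [IsDedekindDomain B] (𝔓 : Ideal B) [𝔓.IsPrime]
    (h0 : 𝔓 ≠ ⊥) : ∃ π : B, 𝔓 = Ideal.span {π} ⊔ 𝔓 ^ 2 ∧ π ∉ 𝔓 ^ 2 := by
  obtain ⟨π, hπ1, hπ2⟩ := Ideal.exists_mem_pow_notMem_pow_succ 𝔓 h0 (Ideal.IsPrime.ne_top ‹_›) 1
  rw [pow_one] at hπ1
  refine ⟨π, ?_, hπ2⟩
  have hlt : 𝔓 ^ (1 + 1) < Ideal.span {π} ⊔ 𝔓 ^ 2 := by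
    refine lt_of_le_of_ne le_sup_right ?_
    intro h
    apply hπ2
    rw [h]
    exact Ideal.mem_sup_left (Ideal.subset_span rfl)
  have hle : Ideal.span {π} ⊔ 𝔓 ^ 2 ≤ 𝔓 ^ 1 := by
    rw [pow_one]
    exact sup_le ((Ideal.span_singleton_le_iff_mem _).2 hπ1) (Ideal.pow_le_self two_ne_zero)
  have := Ideal.eq_prime_pow_of_succ_lt_of_le h0 hlt hle
  rw [this, pow_one]

/-! ### The package -/

section Package

variable (q : Nat.Primes) (L : IntermediateField ℚ Qbar) [NumberField L] [IsGalois ℚ L]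

/-- `Γ_q → Gal(L/ℚ)`. -/
noncomputable def resL : primeLocalGaloisGroup q →* (L ≃ₐ[ℚ] L) :=
  (AlgEquiv.restrictNormalHom L).comp (primeLocalToGlobal q)

theorem resL_apply (γ : primeLocalGaloisGroup q) :
    resL q L γ = AlgEquiv.restrictNormalHom L (primeLocalToGlobal q γ) := rfl

theorem resL_eq_one_iff (γ : primeLocalGaloisGroup q) :
    resL q L γ = 1 ↔ primeLocalToGlobal q γ ∈ L.fixingSubgroup :=
  (mem_fixingSubgroup_iff_restrict L _).symm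

theorem resL_mem_stabilizer (γ : primeLocalGaloisGroup q) :
    resL q L γ ∈ MulAction.stabilizer (L ≃ₐ[ℚ] L) (primeAt (primeLocalPlace q) L) :=
  restrict_mem_stabilizer _ L (LocFrob1.primeLocalToGlobal_mem_decompositionSubgroup q γ)

theorem mem_inertiaLevel_iff_resL (γ : primeLocalGaloisGroup q) :
    γ ∈ inertiaLevel (primeLocalPlace q) L (primeLocalToGlobal q) ↔
      resL q L γ ∈ (primeAt (primeLocalPlace q) L).inertia (L ≃ₐ[ℚ] L) :=
  mem_inertiaLevel_iff _ L _ q.2 (LocFrob1.primeLocalPlace_liesOverPrime q) γ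

/-- Every element of the inertia group at level `L` is congruent modulo `r⁻¹ Gal(ℚ̄/L)` to an element
mapping into the true inertia group `I_A`. -/
theorem exists_inertia_rep (x : primeLocalGaloisGroup q)
    (hx : x ∈ inertiaLevel (primeLocalPlace q) L (primeLocalToGlobal q)) :
    ∃ h : primeLocalGaloisGroup q,
      primeLocalToGlobal q h ∈ (primeLocalPlace q).inertiaSubgroupIn ℚ ∧ resL q L h = resL q L x := by
  rw [mem_inertiaLevel_iff_resL] at hx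
  obtain ⟨σ, hσ, hσd⟩ := exists_inertia_lift (primeLocalPlace q) L q.2
    (LocFrob1.primeLocalPlace_liesOverPrime q) hx
  obtain ⟨h, rfl⟩ := LocSurj16.inertia_le_range_primes q hσ
  exact ⟨h, hσ, hσd⟩

/-- **The tame package at level `L`.** -/
theorem exists_tame_package :
    ∃ (P : Subgroup (primeLocalGaloisGroup q)) (m : ℕ) (φ τ₀ : primeLocalGaloisGroup q),
      P ≤ inertiaLevel (primeLocalPlace q) L (primeLocalToGlobal q) ∧
      (∀ g x : primeLocalGaloisGroup q, x ∈ P → g * x * g⁻¹ ∈ P) ∧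
      (∀ x ∈ P, ∃ a : ℕ, primeLocalToGlobal q (x ^ (q : ℕ) ^ a) ∈ L.fixingSubgroup) ∧
      (∀ x ∈ inertiaLevel (primeLocalPlace q) L (primeLocalToGlobal q),
        ∀ y ∈ inertiaLevel (primeLocalPlace q) L (primeLocalToGlobal q), x * y * x⁻¹ * y⁻¹ ∈ P) ∧
      m.Coprime q ∧
      (∀ x ∈ inertiaLevel (primeLocalPlace q) L (primeLocalToGlobal q), x ^ m ∈ P) ∧
      (∀ γ : primeLocalGaloisGroup q,
        ∃ n : ℕ, (φ ^ n)⁻¹ * γ ∈ inertiaLevel (primeLocalPlace q) L (primeLocalToGlobal q)) ∧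
      (∀ x ∈ inertiaLevel (primeLocalPlace q) L (primeLocalToGlobal q),
        φ * x * φ⁻¹ * (x ^ (q : ℕ))⁻¹ ∈ P) ∧
      primeLocalToGlobal q τ₀ ∈ (primeLocalPlace q).inertiaSubgroupIn ℚ ∧
      (∀ x ∈ inertiaLevel (primeLocalPlace q) L (primeLocalToGlobal q),
        ∃ n : ℕ, (τ₀ ^ n)⁻¹ * x ∈ P) := by
  classical
  have hq : (q : ℕ).Prime := q.2
  have hA := LocFrob1.primeLocalPlace_liesOverPrime q
  set 𝔓 := primeAt (primeLocalPlace q) L with h𝔓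
  have hmax : 𝔓.IsMaximal := primeAt_isMaximal L hq hA
  have hne : 𝔓 ≠ ⊥ := primeAt_ne_bot L hq hA
  have hqmem : ((q : ℕ) : 𝓞 L) ∈ 𝔓 := natCast_mem_primeAt L hA
  have hfaith : FaithfulSMul (L ≃ₐ[ℚ] L) (𝓞 L) := faithful_gal L
  obtain ⟨π, hπ, hπ2⟩ := exists_unif 𝔓 hne
  set I := inertiaLevel (primeLocalPlace q) L (primeLocalToGlobal q) with hI
  have hImem : ∀ γ, γ ∈ I ↔ resL q L γ ∈ 𝔓.inertia (L ≃ₐ[ℚ] L) := mem_inertiaLevel_iff_resL q L
  -- the Frobenius lift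
  have hfact : Fact (q : ℕ).Prime := ⟨q.2⟩
  have hexφ : ∃ φ : primeLocalGaloisGroup q, IsArithFrobAt (𝓞 ℚ) (resL q L φ) 𝔓 :=
    LocFrob1.exists_isArithFrobAt (q : ℕ) L
  obtain ⟨φ, hφ'⟩ := hexφ
  have hcardq : Nat.card (𝓞 ℚ ⧸ 𝔓.under (𝓞 ℚ)) = (q : ℕ) :=
    Fermat.Agent.PT.GLOB.DecompFrob17.absNorm_under_rat q hq 𝔓 hqmem
  have hQ : ∀ u : 𝓞 L, resL q L φ • u - u ^ (q : ℕ) ∈ 𝔓 := by
    intro u
    have := hφ' u
    rw [hcardq] at this
    exact this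
  -- the generator of the tame quotient
  obtain ⟨τ₀bar, hτ₀bar, hgen⟩ := exists_generator (G := L ≃ₐ[ℚ] L) hπ hπ2
  obtain ⟨σ₀, hσ₀, hσ₀d⟩ := exists_inertia_lift (primeLocalPlace q) L hq hA hτ₀bar
  obtain ⟨τ₀, hτ₀⟩ := LocSurj16.inertia_le_range_primes q hσ₀
  have hτ₀res : resL q L τ₀ = τ₀bar := by rw [resL_apply, hτ₀, hσ₀d]
  -- the residue field
  have hfin : Finite (𝓞 L ⧸ 𝔓) := Ideal.finiteQuotientOfFreeOfNeBot _ hne
  let _ : Field (𝓞 L ⧸ 𝔓) := Ideal.Quotient.field 𝔓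
  have hq0 : ((q : ℕ) : 𝓞 L ⧸ 𝔓) = 0 := by
    rw [← map_natCast (Ideal.Quotient.mk 𝔓), Ideal.Quotient.eq_zero_iff_mem]
    exact hqmem
  have hcop : (Nat.card (𝓞 L ⧸ 𝔓)ˣ).Coprime q := by
    have hchar : CharP (𝓞 L ⧸ 𝔓) q := (CharP.charP_iff_prime_eq_zero hq).2 hq0
    have hfint := Fintype.ofFinite (𝓞 L ⧸ 𝔓)
    obtain ⟨n, -, hn⟩ := FiniteField.card (𝓞 L ⧸ 𝔓) q
    have h1 : Nat.card (𝓞 L ⧸ 𝔓) = Nat.card (𝓞 L ⧸ 𝔓)ˣ + 1 := Nat.card_eq_card_units_add_one _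
    rw [Nat.card_eq_fintype_card, hn] at h1
    rw [Nat.coprime_comm, Nat.Prime.coprime_iff_not_dvd hq]
    intro hdvd
    have h2 : (q : ℕ) ∣ (q : ℕ) ^ (n : ℕ) := dvd_pow_self _ n.ne_zero
    rw [h1, Nat.dvd_add_right hdvd] at h2
    exact hq.one_lt.ne' (Nat.dvd_one.1 h2)
  refine ⟨(tameKer 𝔓 π).comap (resL q L), Nat.card (𝓞 L ⧸ 𝔓)ˣ, φ, τ₀, ?_, ?_, ?_, ?_, hcop,
    ?_, ?_, ?_, ?_, ?_⟩
  · -- `P ≤ I`
    intro x hx
    rw [hImem]
    exact tameKer_le 𝔓 π hx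
  · -- normal
    intro g x hx
    rw [Subgroup.mem_comap, map_mul, map_mul, map_inv]
    exact conj_mem_tameKer hπ hπ2 (resL_mem_stabilizer q L g) hx
  · -- `q`-group
    intro x hx
    obtain ⟨a, ha⟩ := exists_pow_prime_pow_eq_one (Ideal.IsPrime.ne_top inferInstance) hπ hq hqmem
      (Subgroup.mem_comap.1 hx)
    refine ⟨a, ?_⟩
    rw [← resL_eq_one_iff, map_pow]
    exact ha
  · -- `I / P` is abelian
    intro x hx y hy
    rw [hImem] at hx hy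
    rw [Subgroup.mem_comap]
    have h1 : (⟨resL q L x, hx⟩ * ⟨resL q L y, hy⟩ * (⟨resL q L x, hx⟩)⁻¹ * (⟨resL q L y, hy⟩)⁻¹ :
        𝔓.inertia (L ≃ₐ[ℚ] L)) ∈ (thetaU hπ hπ2).ker := by
      rw [MonoidHom.mem_ker, map_mul, map_mul, map_mul, map_inv, map_inv]
      rw [mul_comm (thetaU hπ hπ2 ⟨resL q L x, hx⟩), mul_inv_cancel_right, mul_inv_cancel]
    rw [mem_ker_thetaU] at h1
    simpa using h1
  · -- exponent prime to `q`
    intro x hx
    rw [hImem] at hx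
    rw [Subgroup.mem_comap]
    have h1 : ((⟨resL q L x, hx⟩ : 𝔓.inertia (L ≃ₐ[ℚ] L)) ^ Nat.card (𝓞 L ⧸ 𝔓)ˣ) ∈
        (thetaU hπ hπ2).ker := by
      rw [MonoidHom.mem_ker, map_pow]
      exact pow_card_eq_one'
    rw [mem_ker_thetaU] at h1
    simpa using h1
  · -- Frobenius generates modulo inertia
    intro γ
    exact exists_pow_inv_mul_mem (primeLocalPlace q) L (primeLocalToGlobal q) hq hA
      (LocFrob1.primeLocalToGlobal_mem_decompositionSubgroup q) hφ' γ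
  · -- the relation
    intro x hx
    rw [hImem] at hx
    rw [Subgroup.mem_comap, map_mul, map_mul, map_mul, map_inv, map_inv, map_pow]
    exact conj_mul_pow_inv_mem_tameKer hπ hπ2 (resL_mem_stabilizer q L φ) hx hQ
  · rw [hτ₀]; exact hσ₀
  · intro x hx
    rw [hImem] at hx
    obtain ⟨n, κ, hκ, hxe⟩ := hgen _ hx
    refine ⟨n, ?_⟩
    rw [Subgroup.mem_comap, map_mul, map_inv, map_pow, hτ₀res, hxe, inv_mul_cancel_left]
    exact hκ

end Package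

end Fermat.Agent.ES.T56.FlatTameP14
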