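/-
Programme T (S56, Taylor–Wiles primes), chapter FLAT, leg FLAT-C (helper14): the input `Prop`
**`IrrShape p k`** of `FlatIface20` PROVED.

`ρ̄ : G_ℚ → GL₂(k)` of finite level with all characteristic polynomials split and `ρ̄|_{G_p}` without
stable line: the abstract dichotomy `FlatDich14.exists_shape` applied to `ρ̄ ∘ locp` on `G_p`, with the
tame package `FlatTameP14.exists_tame_package` of `G_p` at the level `L` := normal closure of a level
field of `ρ̄`: `I = inertiaLevel`, `P` = wild inertia at level `L`.  The element of `H ∩ I` on which the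
two characters differ is moved into the true inertia group by `FlatTameP14.exists_inertia_rep`.
-/
import Mathlib
import Fermat.Agent.ES.T56.FlatIface20
import Fermat.Agent.ES.T56.FlatDich14
import Fermat.Agent.ES.T56.FlatTameP14

set_option autoImplicit false
set_option linter.unusedSectionVars false

namespace Fermat.Agent.ES.T56.FlatIrrShape14

open ExtCitation Polynomial Fermat.Agent.S53 Fermat.Agent.ES.T56.FlatIface20
  Fermat.Agent.ES.T56.FlatTameP14
open Fermat.Agent.ES.T56.InertiaBridge1 (inertiaLevel inertiaLevel_normal)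

local notation "Qbar" => AlgebraicClosure ℚ

variable (p : ℕ) [Fact p.Prime]

/-- A level field of `ρ̄` can be taken finite Galois over `ℚ`. -/
theorem exists_galois_level {M : Type} [MulOneClass M] {rbar : GQ →* M}
    (h : GaloisFactorsThroughFiniteLevel rbar) :
    ∃ L : IntermediateField ℚ Qbar, FiniteDimensional ℚ L ∧ IsGalois ℚ L ∧
      ∀ σ : GQ, σ ∈ L.fixingSubgroup → rbar σ = 1 := by
  obtain ⟨L₀, hfd, hL₀⟩ := h
  refine ⟨IntermediateField.normalClosure ℚ L₀ Qbar, normalClosure.is_finiteDimensional ℚ L₀ Qbar,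
    IsGalois.normalClosure ℚ L₀ Qbar, fun σ hσ => hL₀ σ fun x hx => ?_⟩
  exact (IntermediateField.mem_fixingSubgroup_iff _ σ).1 hσ x (IntermediateField.le_normalClosure L₀ hx)

/-- **`IrrShape p k`.** -/
theorem irrShape (k : Type) [Field k] : IrrShape p k := by
  intro _ hfin hchar rbar hlevel hsplit hirr
  obtain ⟨L, hfd, hgal, hL⟩ := exists_galois_level hlevel
  have hNF : NumberField L := ⟨⟩
  set ρ : Gp p →* M2 k := rbar.comp (locp p) with hρ
  have hρker : ∀ g : Gp p, locp p g ∈ L.fixingSubgroup → ρ g = 1 := fun g hg => hL _ hg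
  have hρres : ∀ g g' : Gp p, resL (pPrime p) L g = resL (pPrime p) L g' → ρ g = ρ g' := by
    intro g g' hgg'
    have h1 : ρ (g'⁻¹ * g) = 1 := by
      apply hρker
      rw [← resL_eq_one_iff, map_mul, map_inv, hgg', inv_mul_cancel]
    have h2 : g = g' * (g'⁻¹ * g) := by group
    rw [h2, map_mul, h1, mul_one]
  obtain ⟨P, m, φ, τ₀, hPI, hPn, hPq, hab, hm, hIm, hφ, -, -, -⟩ :=
    exists_tame_package (pPrime p) L
  set I := inertiaLevel (primeLocalPlace (pPrime p)) L (primeLocalToGlobal (pPrime p)) with hIdef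
  have hInormal : I.Normal := inertiaLevel_normal _ L _ (pPrime p).2
    (LocFrob1.primeLocalPlace_liesOverPrime (pPrime p))
    (LocFrob1.primeLocalToGlobal_mem_decompositionSubgroup (pPrime p))
  have hP : ∀ x ∈ P, ∃ a : ℕ, ρ x ^ p ^ a = 1 := by
    intro x hx
    obtain ⟨a, ha⟩ := hPq x hx
    exact ⟨a, by rw [← map_pow]; exact hρker _ ha⟩
  obtain ⟨H, hHn, hidx, hIH, hkerH, B, Binv, χ, χ', hB1, hB2, hdiag, ⟨h₀, hh₀I, hh₀⟩, hanti⟩ :=
    FlatDich14.exists_shape ρ p (fun g => hsplit (locp p g)) I P hInormal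
      (fun g x hx => hPn g x hx) hP hab m hm hIm φ hφ hirr
  have hinH : inertiaGp p ≤ H := fun g hg => hIH (Subgroup.mem_comap.2 (Subgroup.mem_sup_left hg))
  refine ⟨H, hHn, hidx, hinH, ⟨L, hfd, fun g hg => hkerH g (hρker g hg)⟩, B, Binv, χ, χ', hB1, hB2,
    hdiag, ?_, hanti⟩
  -- move `h₀` into the true inertia group
  obtain ⟨h', hh'in, hh'res⟩ := exists_inertia_rep (pPrime p) L (h₀ : Gp p) hh₀I
  have hh'I : h' ∈ inertiaGp p := hh'in
  refine ⟨⟨h', hinH hh'I⟩, hh'I, ?_⟩
  have hmat : ρ h' = ρ (h₀ : Gp p) := hρres _ _ hh'res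
  have h1 := hdiag ⟨h', hinH hh'I⟩
  have h2 := hdiag h₀
  rw [show ρ ((⟨h', hinH hh'I⟩ : ↥H) : Gp p) = ρ (h₀ : Gp p) from hmat, h2] at h1
  have e0 := congrFun (congrFun h1 0) 0
  have e1 := congrFun (congrFun h1 1) 1
  simp only [Matrix.diagonal_apply_eq, Matrix.cons_val_zero, Matrix.cons_val_one] at e0 e1
  intro heq
  apply hh₀
  apply Units.ext
  rw [e0, e1, heq]

end Fermat.Agent.ES.T56.FlatIrrShape14
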