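/-
Programme T (S56, Taylor–Wiles primes), chapter FLAT-P (étale–connected patch, T56_FLAT.md §5),
CONTRACT file (helper26): **what FLAT-P proves about the points of ONE finite flat group scheme**,
in the literal language of the Prelude's `GaloisRepAdic.IsFlatAt` (points with values in `ℚ̄`, the
Galois action written relationally `∀ h, g h = σ (f h)`).

`ℤ_(p) = ↥(GaloisRep.ratLocalizedAt p)`, `P = padicPlace p` (the Prelude's place of `ℚ̄` over `p`),
`D = P.decompositionSubgroup ℚ`, `I = P.inertiaSubgroupIn ℚ`; `H` a commutative cocommutative Hopf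
algebra over `ℤ_(p)`, finite and flat; `T = WithConv (H →ₐ[ℤ_(p)] ℚ̄)` its group of points, killed by
`p` (odd).

`FlatPCore p` : there is a subgroup `T° ≤ T` ("kernel of reduction") such that
* (Q1) `σ y ∈ T° · y` for all `σ ∈ I`, `y ∈ T`   (`I` acts trivially on `T/T°`);
* (Q2) for every `D`-stable subgroup `E₂ ≤ T`: an `x ∈ T°` with `σ x ∈ E₂ · x` for all `σ ∈ I`
  lies in `E₂`   (`(T°E₂/E₂)^I = 0`: "the connected part of a subquotient has no inertia
  invariants"; this is where `e = 1 < p - 1` enters).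

Lemma Q (T56_FLAT.md 5.3) is pure group theory from (Q1) + (Q2): for `E₂ ≤ F₁ ≤ E₁` with `I`
trivial on `F₁/E₂`, `F₁ ∩ (⟨σ y · y⁻¹ : σ ∈ I, y ∈ E₁⟩ · E₂) ⊆ E₂`.
-/
import Mathlib
import Fermat.Prelude.Def_GaloisRep_Flat
import Fermat.Prelude.Def_GaloisRep_CompletionBridge

set_option autoImplicit false

namespace Fermat.Agent.ES.T56.FlatPIface26

/-- **FLAT-P, core export.**  (Mathlib's `Group` instance on points needs a bialgebra structure on
the target, so the statement is written with the `CommMonoid` structure only; all points are killed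
by `p`, so submonoids are subgroups and `x⁻¹ = x ^ (p - 1)`.) -/
def FlatPCore (p : ℕ) [Fact p.Prime] : Prop :=
  p ≠ 2 → ∀ (H : Type) [CommRing H] [HopfAlgebra ↥(GaloisRep.ratLocalizedAt p) H]
    [Module.Finite ↥(GaloisRep.ratLocalizedAt p) H] [Module.Flat ↥(GaloisRep.ratLocalizedAt p) H]
    [Coalgebra.IsCocomm ↥(GaloisRep.ratLocalizedAt p) H],
    (∀ x : WithConv (H →ₐ[↥(GaloisRep.ratLocalizedAt p)] AlgebraicClosure ℚ), x ^ p = 1) →
    ∃ T0 : Submonoid (WithConv (H →ₐ[↥(GaloisRep.ratLocalizedAt p)] AlgebraicClosure ℚ)),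
      (∀ σ ∈ (padicPlace p).inertiaSubgroupIn ℚ,
        ∀ y y' : WithConv (H →ₐ[↥(GaloisRep.ratLocalizedAt p)] AlgebraicClosure ℚ),
          (∀ h : H, y' h = σ (y h)) → ∃ z ∈ T0, y' = z * y) ∧
      ∀ E₂ : Submonoid (WithConv (H →ₐ[↥(GaloisRep.ratLocalizedAt p)] AlgebraicClosure ℚ)),
        (∀ σ ∈ (padicPlace p).decompositionSubgroup ℚ,
          ∀ t t' : WithConv (H →ₐ[↥(GaloisRep.ratLocalizedAt p)] AlgebraicClosure ℚ),
            t ∈ E₂ → (∀ h : H, t' h = σ (t h)) → t' ∈ E₂) →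
        ∀ x ∈ T0,
          (∀ σ ∈ (padicPlace p).inertiaSubgroupIn ℚ,
            ∀ x' : WithConv (H →ₐ[↥(GaloisRep.ratLocalizedAt p)] AlgebraicClosure ℚ),
              (∀ h : H, x' h = σ (x h)) → ∃ e ∈ E₂, x' = e * x) →
          x ∈ E₂

end Fermat.Agent.ES.T56.FlatPIface26
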