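/-
Programme T (S56, Taylor–Wiles primes), chapter FLAT-P (étale–connected patch, T56_FLAT.md §5),
brick 8 (helper26): **the arithmetic base of the concrete layer** — everything inside `ℚ̄`.

`P = padicPlace p` (the Prelude's valuation ring of `ℚ̄` over `p`), `D = P.decompositionSubgroup ℚ`,
`I = P.inertiaSubgroupIn ℚ`, `ℤ_(p) = ↥(GaloisRep.ratLocalizedAt p)`.

* `hensRing p : Subring ℚ̄` — the elements of `P` fixed by `D` (the henselization of `ℤ_(p)`);
  it is a valuation ring (`instValuationRingHens`), hence a local Bézout domain, and infinite;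
* algebra structures `ℤ_(p) → hensRing p → P` (a scalar tower) and `placeIncl : P →ₐ[ℤ_(p)] ℚ̄`;
* `resD σ hσ : P →ₐ[hensRing p] P` for `σ ∈ D`; `galSet p` the set of these; `fixed_galSet`;
* `piSep_place : PiSep P p` (`P` is `p`-adically separated; no completeness);
* `resD_sub_mem_maximalIdeal` (fact (a): inertia acts trivially on the residue field; main's
  `S05.Inertia.apply_sub_mem_nonunits`) and `natCast_dvd_of_fixed` (fact (b): an element of the
  maximal ideal fixed by inertia is divisible by `p`; main's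
  `P36.UnrFixed1.div_natCast_mem_of_fixed`).
-/
import Mathlib
import Fermat.Prelude.Def_GaloisRep_Flat
import Fermat.Prelude.Def_GaloisRep_CompletionBridge
import Fermat.Agent.S05.Inertia
import Fermat.Agent.ES.P36.UnrFixed1
import Fermat.Agent.ES.T56.PiSep26

set_option autoImplicit false
set_option linter.unusedSectionVars false

namespace Fermat.Agent.ES.T56.HensBase26

open Fermat.Agent.ES.T56.PiSep26

local notation "Qbar" => AlgebraicClosure ℚ

noncomputable section

variable (p : ℕ) [hp : Fact p.Prime]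

/-! ### The place lies over `p` -/

theorem norm_natCast_p : ‖padicEmbedding p ((p : ℕ) : Qbar)‖₊ = 1 / (p : NNReal) := by
  rw [map_natCast]
  exact PadicAlgCl.valuation_p p

theorem place_liesOver : (padicPlace p).LiesOverPrime p := by
  have hq : p.Prime := hp.out
  have hv := norm_natCast_p p
  have hlt : (1 : NNReal) / (p : NNReal) < 1 := by
    rw [div_lt_one (by exact_mod_cast hq.pos)]
    exact_mod_cast hq.one_lt
  show (p : Qbar) ∈ (padicPlace p).nonunits
  rw [ValuationSubring.mem_nonunits_iff, ← not_le]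
  intro hle
  have h1 : (padicPlace p).valuation ((p : Qbar)⁻¹) ≤ 1 := by
    rw [map_inv₀]
    exact inv_le_one_of_one_le₀ hle
  rw [ValuationSubring.valuation_le_one_iff, mem_padicPlace_iff, map_inv₀, nnnorm_inv, hv] at h1
  rw [one_div, inv_inv] at h1
  have : (1 : NNReal) < (p : NNReal) := by exact_mod_cast hq.one_lt
  exact absurd h1 (not_le.mpr this)

/-! ### The henselian base ring -/

/-- the elements of `P` fixed by the decomposition group. -/
def hensRing : Subring Qbar where
  carrier := {x | x ∈ padicPlace p ∧ ∀ σ ∈ (padicPlace p).decompositionSubgroup ℚ, σ x = x}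
  mul_mem' := fun {a b} ha hb => ⟨mul_mem ha.1 hb.1, fun σ hσ => by
    rw [map_mul, ha.2 σ hσ, hb.2 σ hσ]⟩
  one_mem' := ⟨one_mem _, fun σ _ => map_one σ⟩
  add_mem' := fun {a b} ha hb => ⟨add_mem ha.1 hb.1, fun σ hσ => by
    rw [map_add, ha.2 σ hσ, hb.2 σ hσ]⟩
  zero_mem' := ⟨zero_mem _, fun σ _ => map_zero σ⟩
  neg_mem' := fun {a} ha => ⟨neg_mem ha.1, fun σ hσ => by rw [map_neg, ha.2 σ hσ]⟩

theorem mem_hensRing_iff (x : Qbar) : x ∈ hensRing p ↔
    x ∈ padicPlace p ∧ ∀ σ ∈ (padicPlace p).decompositionSubgroup ℚ, σ x = x := Iff.rfl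

instance instValuationRingHens : ValuationRing ↥(hensRing p) where
  cond' := fun a b => by
    by_cases hb : (b : Qbar) = 0
    · refine ⟨0, Or.inl ?_⟩
      apply Subtype.ext
      show (a : Qbar) * 0 = b
      rw [mul_zero, hb]
    · have hfix : ∀ σ ∈ (padicPlace p).decompositionSubgroup ℚ,
          σ ((a : Qbar) / b) = (a : Qbar) / b := fun σ hσ => by
        rw [map_div₀, a.2.2 σ hσ, b.2.2 σ hσ]
      have hfix' : ∀ σ ∈ (padicPlace p).decompositionSubgroup ℚ,
          σ ((b : Qbar) / a) = (b : Qbar) / a := fun σ hσ => by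
        rw [map_div₀, a.2.2 σ hσ, b.2.2 σ hσ]
      rcases (padicPlace p).mem_or_inv_mem ((a : Qbar) / b) with h | h
      · refine ⟨⟨(a : Qbar) / b, h, hfix⟩, Or.inr ?_⟩
        apply Subtype.ext
        show (b : Qbar) * ((a : Qbar) / b) = a
        field_simp
      · rw [inv_div] at h
        by_cases ha : (a : Qbar) = 0
        · refine ⟨0, Or.inr ?_⟩
          apply Subtype.ext
          show (b : Qbar) * 0 = a
          rw [mul_zero, ha]
        · refine ⟨⟨(b : Qbar) / a, h, hfix'⟩, Or.inl ?_⟩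
          apply Subtype.ext
          show (a : Qbar) * ((b : Qbar) / a) = b
          field_simp

instance instInfiniteHens : Infinite ↥(hensRing p) := inferInstance

/-! ### Algebra structures -/

/-- `hensRing p → P`. -/
def hensToPlace : ↥(hensRing p) →+* ↥(padicPlace p) where
  toFun := fun x => ⟨x.1, x.2.1⟩
  map_one' := rfl
  map_mul' := fun _ _ => rfl
  map_zero' := rfl
  map_add' := fun _ _ => rfl

instance instAlgebraHensPlace : Algebra ↥(hensRing p) ↥(padicPlace p) :=
  (hensToPlace p).toAlgebra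

theorem algebraMap_hens_injective :
    Function.Injective (algebraMap ↥(hensRing p) ↥(padicPlace p)) := fun a b hab => by
  apply Subtype.ext
  exact congrArg (fun z : ↥(padicPlace p) => (z : Qbar)) hab

theorem coe_algebraMap_hens (r : ↥(hensRing p)) :
    ((algebraMap ↥(hensRing p) ↥(padicPlace p) r : ↥(padicPlace p)) : Qbar) = r := rfl

theorem ratLoc_mem_hensRing (z : ↥(GaloisRep.ratLocalizedAt p)) :
    algebraMap ↥(GaloisRep.ratLocalizedAt p) Qbar z ∈ hensRing p := by
  have e : algebraMap ↥(GaloisRep.ratLocalizedAt p) Qbar z = ((z : ℚ) : Qbar) := by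
    rw [IsScalarTower.algebraMap_apply ↥(GaloisRep.ratLocalizedAt p) ℚ Qbar]
    exact (eq_ratCast (algebraMap ℚ Qbar) (z : ℚ))
  refine ⟨?_, fun σ _ => ?_⟩
  · rw [e, ← ValuationSubring.valuation_le_one_iff]
    apply Fermat.Agent.S05.Inertia.valuation_ratCast_le_one hp.out (place_liesOver p)
    intro hdvd
    have hcop : (z : ℚ).den.Coprime p := z.2
    have := Nat.Coprime.eq_one_of_dvd hcop.symm hdvd
    exact hp.out.one_lt.ne' this
  · rw [e]
    exact map_ratCast σ _

/-- `ℤ_(p) → hensRing p`. -/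
def ratLocToHens : ↥(GaloisRep.ratLocalizedAt p) →+* ↥(hensRing p) :=
  (algebraMap ↥(GaloisRep.ratLocalizedAt p) Qbar).codRestrict (hensRing p) (ratLoc_mem_hensRing p)

instance instAlgebraRatLocHens : Algebra ↥(GaloisRep.ratLocalizedAt p) ↥(hensRing p) :=
  (ratLocToHens p).toAlgebra

instance instAlgebraRatLocPlace : Algebra ↥(GaloisRep.ratLocalizedAt p) ↥(padicPlace p) :=
  ((hensToPlace p).comp (ratLocToHens p)).toAlgebra

instance instTowerRatLocHensPlace :
    IsScalarTower ↥(GaloisRep.ratLocalizedAt p) ↥(hensRing p) ↥(padicPlace p) :=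
  IsScalarTower.of_algebraMap_eq fun _ => rfl

theorem coe_algebraMap_ratLoc_place (z : ↥(GaloisRep.ratLocalizedAt p)) :
    ((algebraMap ↥(GaloisRep.ratLocalizedAt p) ↥(padicPlace p) z : ↥(padicPlace p)) : Qbar)
      = algebraMap ↥(GaloisRep.ratLocalizedAt p) Qbar z := rfl

/-- the inclusion `P → ℚ̄` as a `ℤ_(p)`-algebra homomorphism. -/
def placeIncl : ↥(padicPlace p) →ₐ[↥(GaloisRep.ratLocalizedAt p)] Qbar :=
  { (padicPlace p).subtype with commutes' := fun _ => rfl }

@[simp] theorem placeIncl_apply (x : ↥(padicPlace p)) : placeIncl p x = (x : Qbar) := rfl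

theorem placeIncl_injective : Function.Injective (placeIncl p) := Subtype.val_injective

/-! ### The Galois action of the decomposition group -/

/-- the restriction of `σ ∈ D` to `P`, as a `hensRing p`-algebra endomorphism. -/
def resD (σ : Qbar ≃ₐ[ℚ] Qbar) (hσ : σ ∈ (padicPlace p).decompositionSubgroup ℚ) :
    ↥(padicPlace p) →ₐ[↥(hensRing p)] ↥(padicPlace p) where
  toFun := fun x => ⟨σ x,
    (Fermat.Agent.S05.Inertia.apply_mem_iff_of_mem_decomposition hσ (x : Qbar)).2 x.2⟩
  map_one' := Subtype.ext (map_one σ)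
  map_mul' := fun _ _ => Subtype.ext (map_mul σ _ _)
  map_zero' := Subtype.ext (map_zero σ)
  map_add' := fun _ _ => Subtype.ext (map_add σ _ _)
  commutes' := fun r => Subtype.ext (r.2.2 σ hσ)

@[simp] theorem coe_resD (σ : Qbar ≃ₐ[ℚ] Qbar)
    (hσ : σ ∈ (padicPlace p).decompositionSubgroup ℚ) (x : ↥(padicPlace p)) :
    ((resD p σ hσ x : ↥(padicPlace p)) : Qbar) = σ x := rfl

theorem resD_injective (σ : Qbar ≃ₐ[ℚ] Qbar)
    (hσ : σ ∈ (padicPlace p).decompositionSubgroup ℚ) : Function.Injective (resD p σ hσ) :=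
  fun a b hab => by
    apply Subtype.ext
    apply σ.injective
    exact congrArg (fun z : ↥(padicPlace p) => (z : Qbar)) hab

/-- the set of all `resD σ`, `σ ∈ D`. -/
def galSet : Set (↥(padicPlace p) →ₐ[↥(hensRing p)] ↥(padicPlace p)) :=
  {τ | ∃ (σ : Qbar ≃ₐ[ℚ] Qbar) (hσ : σ ∈ (padicPlace p).decompositionSubgroup ℚ), τ = resD p σ hσ}

theorem galSet_injective : ∀ τ ∈ galSet p, Function.Injective τ := by
  rintro _ ⟨σ, hσ, rfl⟩
  exact resD_injective p σ hσ

/-- the common fixed ring of `galSet p` is `hensRing p`. -/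
theorem fixed_galSet (o : ↥(padicPlace p)) (ho : ∀ τ ∈ galSet p, τ o = o) :
    o ∈ Set.range (algebraMap ↥(hensRing p) ↥(padicPlace p)) := by
  refine ⟨⟨(o : Qbar), o.2, fun σ hσ => ?_⟩, Subtype.ext rfl⟩
  exact congrArg (fun z : ↥(padicPlace p) => (z : Qbar)) (ho _ ⟨σ, hσ, rfl⟩)

/-! ### `P` is `p`-adically separated -/

theorem natCast_place_ne_zero : ((p : ℕ) : ↥(padicPlace p)) ≠ 0 := by
  intro h
  have h1 : (((p : ℕ) : ↥(padicPlace p)) : Qbar) = 0 := by rw [h]; rfl
  rw [show (((p : ℕ) : ↥(padicPlace p)) : Qbar) = (p : Qbar) from rfl] at h1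
  exact (Nat.cast_ne_zero.mpr hp.out.ne_zero) h1

theorem piSep_place : PiSep ↥(padicPlace p) ((p : ℕ) : ↥(padicPlace p)) where
  nzd := fun x hx => (mul_eq_zero.1 hx).resolve_left (natCast_place_ne_zero p)
  sep := fun x hx => by
    by_contra hne
    have hx0 : (x : Qbar) ≠ 0 := fun h => hne (Subtype.ext h)
    have hpos : 0 < ‖padicEmbedding p (x : Qbar)‖₊ := by
      rw [pos_iff_ne_zero, Ne, nnnorm_eq_zero, map_eq_zero]
      exact hx0
    have hlt : (1 : NNReal) / (p : NNReal) < 1 := by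
      rw [div_lt_one (by exact_mod_cast hp.out.pos)]
      exact_mod_cast hp.out.one_lt
    obtain ⟨k, hk⟩ := exists_pow_lt_of_lt_one hpos hlt
    obtain ⟨y, hy⟩ := hx k
    have h1 : (x : Qbar) = (p : Qbar) ^ k * (y : Qbar) := by
      rw [hy]; rfl
    have h2 : ‖padicEmbedding p (x : Qbar)‖₊ ≤ (1 / (p : NNReal)) ^ k := by
      rw [h1, map_mul, map_pow, nnnorm_mul, nnnorm_pow, norm_natCast_p]
      have hy1 : ‖padicEmbedding p (y : Qbar)‖₊ ≤ 1 := (mem_padicPlace_iff p).1 y.2
      calc (1 / (p : NNReal)) ^ k * ‖padicEmbedding p (y : Qbar)‖₊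
          ≤ (1 / (p : NNReal)) ^ k * 1 := by gcongr
        _ = _ := mul_one _
    exact absurd (lt_of_le_of_lt h2 hk) (lt_irrefl _)

/-! ### The two inertia facts -/

/-- **fact (a)**: inertia acts trivially on the residue field of `P`. -/
theorem resD_sub_mem_maximalIdeal (σ : Qbar ≃ₐ[ℚ] Qbar)
    (hσ : σ ∈ (padicPlace p).inertiaSubgroupIn ℚ) (x : ↥(padicPlace p)) :
    resD p σ (Fermat.Agent.S05.Inertia.mem_decompositionSubgroup hσ) x - x
      ∈ IsLocalRing.maximalIdeal ↥(padicPlace p) := by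
  rw [← ValuationSubring.coe_mem_nonunits_iff]
  exact Fermat.Agent.S05.Inertia.apply_sub_mem_nonunits hσ x.2

/-- **fact (b)**: an element of the maximal ideal of `P` fixed by inertia is divisible by `p`. -/
theorem natCast_dvd_of_fixed (z : ↥(padicPlace p))
    (hz : z ∈ IsLocalRing.maximalIdeal ↥(padicPlace p))
    (hfix : ∀ σ ∈ (padicPlace p).inertiaSubgroupIn ℚ, σ (z : Qbar) = z) :
    ((p : ℕ) : ↥(padicPlace p)) ∣ z := by
  have h1 : (z : Qbar) ∈ (padicPlace p).nonunits := (ValuationSubring.coe_mem_nonunits_iff).2 hz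
  have h2 := Fermat.Agent.ES.P36.UnrFixed1.div_natCast_mem_of_fixed (padicPlace p) hp.out
    (place_liesOver p) (z : Qbar) hfix h1
  refine ⟨⟨(z : Qbar) / (p : Qbar), h2⟩, Subtype.ext ?_⟩
  show (z : Qbar) = (p : Qbar) * ((z : Qbar) / (p : Qbar))
  have hp0 : (p : Qbar) ≠ 0 := Nat.cast_ne_zero.mpr hp.out.ne_zero
  field_simp

end

end Fermat.Agent.ES.T56.HensBase26
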