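/-
Programme T (S56, Taylor–Wiles primes), chapter FLAT-P (étale–connected patch, T56_FLAT.md §5),
brick 9 (helper26): **`ℚ̄`-points are `P`-points; the kernel of reduction; (Q1)**.

`P = padicPlace p`, `ℤ_(p) = ↥(GaloisRep.ratLocalizedAt p)`, `H` a commutative `ℤ_(p)`-bialgebra,
finite as a module.

* `coresPt x : H →ₐ[ℤ_(p)] P` for a point `x : H →ₐ[ℤ_(p)] ℚ̄` (values are integral, `P` is
  integrally closed); `push_placeIncl_coresPt`, `coresPt_push_placeIncl`;
* `galPt σ x = σ ∘ x`; `resDz σ hσ` = `resD` as a `ℤ_(p)`-algebra map; `push_placeIncl_resDz`;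
* `mIdeal` : the ideal of the convolution algebra `WithConv (H →ₗ[ℤ_(p)] P)` of the functionals with
  values in the maximal ideal of `P`;
* `redKer` : the submonoid of the `P`-points `y` with `lin y - 1 ∈ mIdeal` (kernel of reduction);
* `inertia_quot_mem_redKer` (**Q1**): for `σ ∈ I` and a point `u` with `u ^ p = 1`,
  `σ u * u ^ (p - 1) ∈ redKer`.
-/
import Mathlib
import Fermat.Agent.ES.T56.HensBase26
import Fermat.Agent.ES.T56.NormElt26
import Fermat.Agent.ES.T56.PointsBasic20

set_option autoImplicit false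
set_option linter.unusedSectionVars false

namespace Fermat.Agent.ES.T56.PlacePts26

open WithConv Coalgebra TensorProduct
open Fermat.Agent.ES.T56.HensBase26 Fermat.Agent.ES.T56.NormElt26 Fermat.Agent.ES.T56.PropFi20
  Fermat.Agent.ES.T56.InvIdeal26 Fermat.Agent.ES.T56.PointsBasic20

local notation "Qbar" => AlgebraicClosure ℚ

noncomputable section

variable {p : ℕ} [hp : Fact p.Prime]
variable {H : Type*} [CommRing H] [Bialgebra ↥(GaloisRep.ratLocalizedAt p) H]

instance instTowerRatLocPlaceQbar :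
    IsScalarTower ↥(GaloisRep.ratLocalizedAt p) ↥(padicPlace p) Qbar :=
  IsScalarTower.of_algebraMap_eq fun _ => rfl

/-! ### Corestriction of points to `P` -/

section Cores

variable [Module.Finite ↥(GaloisRep.ratLocalizedAt p) H]

theorem point_mem_place (x : WithConv (H →ₐ[↥(GaloisRep.ratLocalizedAt p)] Qbar)) (h : H) :
    x h ∈ padicPlace p := by
  have h1 : IsIntegral ↥(GaloisRep.ratLocalizedAt p) (x h) := isIntegral_point x.ofConv h
  have h2 : IsIntegral ↥(padicPlace p) (x h) := h1.tower_top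
  obtain ⟨y, hy⟩ := IsIntegrallyClosed.algebraMap_eq_of_integral h2
  rw [← hy]
  exact y.2

/-- corestriction of a `ℚ̄`-point to `P`. -/
def coresPt (x : WithConv (H →ₐ[↥(GaloisRep.ratLocalizedAt p)] Qbar)) :
    WithConv (H →ₐ[↥(GaloisRep.ratLocalizedAt p)] ↥(padicPlace p)) :=
  toConv
    { toFun := fun h => ⟨x h, point_mem_place x h⟩
      map_one' := Subtype.ext (map_one x.ofConv)
      map_mul' := fun a b => Subtype.ext (map_mul x.ofConv a b)
      map_zero' := Subtype.ext (map_zero x.ofConv)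
      map_add' := fun a b => Subtype.ext (map_add x.ofConv a b)
      commutes' := fun z => Subtype.ext (x.ofConv.commutes z) }

@[simp] theorem coe_coresPt (x : WithConv (H →ₐ[↥(GaloisRep.ratLocalizedAt p)] Qbar)) (h : H) :
    ((coresPt x h : ↥(padicPlace p)) : Qbar) = x h := rfl

theorem push_placeIncl_coresPt (x : WithConv (H →ₐ[↥(GaloisRep.ratLocalizedAt p)] Qbar)) :
    push (placeIncl p) (coresPt x) = x :=
  ext_point fun _ => rfl

theorem coresPt_push_placeIncl
    (y : WithConv (H →ₐ[↥(GaloisRep.ratLocalizedAt p)] ↥(padicPlace p))) :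
    coresPt (push (placeIncl p) y) = y :=
  ext_point fun _ => Subtype.ext rfl

end Cores

theorem push_placeIncl_injective :
    Function.Injective (push (B := H) (placeIncl p)) :=
  push_injective (placeIncl_injective p)

/-! ### The Galois action -/

/-- `σ ∘ x`. -/
def galPt (σ : Qbar ≃ₐ[ℚ] Qbar) (x : WithConv (H →ₐ[↥(GaloisRep.ratLocalizedAt p)] Qbar)) :
    WithConv (H →ₐ[↥(GaloisRep.ratLocalizedAt p)] Qbar) :=
  push ((σ : Qbar →ₐ[ℚ] Qbar).restrictScalars ↥(GaloisRep.ratLocalizedAt p)) x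

@[simp] theorem galPt_apply (σ : Qbar ≃ₐ[ℚ] Qbar)
    (x : WithConv (H →ₐ[↥(GaloisRep.ratLocalizedAt p)] Qbar)) (h : H) :
    galPt σ x h = σ (x h) := rfl

/-- `resD σ` as a `ℤ_(p)`-algebra endomorphism of `P`. -/
def resDz (σ : Qbar ≃ₐ[ℚ] Qbar) (hσ : σ ∈ (padicPlace p).decompositionSubgroup ℚ) :
    ↥(padicPlace p) →ₐ[↥(GaloisRep.ratLocalizedAt p)] ↥(padicPlace p) :=
  (resD p σ hσ).restrictScalars ↥(GaloisRep.ratLocalizedAt p)

@[simp] theorem coe_resDz (σ : Qbar ≃ₐ[ℚ] Qbar)
    (hσ : σ ∈ (padicPlace p).decompositionSubgroup ℚ) (x : ↥(padicPlace p)) :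
    ((resDz σ hσ x : ↥(padicPlace p)) : Qbar) = σ x := rfl

theorem push_placeIncl_resDz (σ : Qbar ≃ₐ[ℚ] Qbar)
    (hσ : σ ∈ (padicPlace p).decompositionSubgroup ℚ)
    (y : WithConv (H →ₐ[↥(GaloisRep.ratLocalizedAt p)] ↥(padicPlace p))) :
    push (placeIncl p) (push (resDz σ hσ) y) = galPt σ (push (placeIncl p) y) :=
  ext_point fun _ => rfl

/-! ### Functionals with values in the maximal ideal -/

/-- the functionals with values in the maximal ideal of `P`: an ideal of the convolution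
algebra. -/
def mIdeal [Coalgebra.IsCocomm ↥(GaloisRep.ratLocalizedAt p) H] :
    Ideal (WithConv (H →ₗ[↥(GaloisRep.ratLocalizedAt p)] ↥(padicPlace p))) where
  carrier := {f | ∀ h, f h ∈ IsLocalRing.maximalIdeal ↥(padicPlace p)}
  add_mem' := fun {f g} hf hg h => by
    rw [add_apply']
    exact add_mem (hf h) (hg h)
  zero_mem' := fun _ => zero_mem _
  smul_mem' := fun g f hf h => by
    show (g * f) h ∈ _
    rw [LinearMap.convMul_apply]
    generalize (comul h : H ⊗[↥(GaloisRep.ratLocalizedAt p)] H) = z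
    induction z using TensorProduct.induction_on with
    | zero => simp
    | tmul a b =>
      rw [TensorProduct.map_tmul, LinearMap.mul'_apply]
      exact Ideal.mul_mem_left _ _ (hf b)
    | add z w hz hw =>
      rw [map_add, map_add]
      exact add_mem hz hw

theorem mem_mIdeal_iff [Coalgebra.IsCocomm ↥(GaloisRep.ratLocalizedAt p) H]
    (f : WithConv (H →ₗ[↥(GaloisRep.ratLocalizedAt p)] ↥(padicPlace p))) :
    f ∈ mIdeal ↔ ∀ h, f h ∈ IsLocalRing.maximalIdeal ↥(padicPlace p) := Iff.rfl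

section RedKer

variable [Coalgebra.IsCocomm ↥(GaloisRep.ratLocalizedAt p) H]

/-- the kernel of reduction: the `P`-points which are trivial modulo the maximal ideal. -/
def redKer : Submonoid (WithConv (H →ₐ[↥(GaloisRep.ratLocalizedAt p)] ↥(padicPlace p))) where
  carrier := {y | lin y - 1 ∈ mIdeal}
  one_mem' := by
    show lin 1 - 1 ∈ mIdeal
    rw [lin_one, sub_self]
    exact zero_mem _
  mul_mem' := fun {a b} ha hb => by
    show lin (a * b) - 1 ∈ mIdeal
    have e : lin (a * b) - 1 = (lin a - 1) * lin b + (lin b - 1) := by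
      rw [lin_mul]; ring
    rw [e]
    exact add_mem (Ideal.mul_mem_right _ _ ha) hb

theorem mem_redKer_iff (y : WithConv (H →ₐ[↥(GaloisRep.ratLocalizedAt p)] ↥(padicPlace p))) :
    y ∈ redKer ↔ ∀ h, y h - (1 : WithConv (H →ₐ[↥(GaloisRep.ratLocalizedAt p)] ↥(padicPlace p))) h
      ∈ IsLocalRing.maximalIdeal ↥(padicPlace p) := Iff.rfl

/-- **(Q1)**: inertia acts trivially modulo the kernel of reduction. -/
theorem inertia_quot_mem_redKer (σ : Qbar ≃ₐ[ℚ] Qbar)
    (hσ : σ ∈ (padicPlace p).inertiaSubgroupIn ℚ)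
    (u : WithConv (H →ₐ[↥(GaloisRep.ratLocalizedAt p)] ↥(padicPlace p))) (hu : u ^ p = 1) :
    push (resDz σ (Fermat.Agent.S05.Inertia.mem_decompositionSubgroup hσ)) u * u ^ (p - 1)
      ∈ redKer := by
  set u' := push (resDz σ (Fermat.Agent.S05.Inertia.mem_decompositionSubgroup hσ)) u with hu'
  show lin (u' * u ^ (p - 1)) - 1 ∈ mIdeal
  have hp1 : p = (p - 1) + 1 := by have := hp.out.pos; omega
  have h1 : lin u * lin (u ^ (p - 1)) = 1 := by
    rw [← lin_mul, mul_comm, ← pow_succ, ← hp1, hu, lin_one]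
  have e : lin (u' * u ^ (p - 1)) - 1 = (lin u' - lin u) * lin (u ^ (p - 1)) := by
    rw [lin_mul, sub_mul, h1]
  rw [e]
  apply Ideal.mul_mem_right
  intro h
  exact resD_sub_mem_maximalIdeal p σ hσ (u h)

end RedKer

end

end Fermat.Agent.ES.T56.PlacePts26
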