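/-
Programme T (S56, Taylor–Wiles primes), chapter FLAT-P (étale–connected patch, T56_FLAT.md §5),
brick 10 (helper26): **(Q2) and the proof of the contract `FlatPIface26.FlatPCore p`**.

`P = padicPlace p`, `D`, `I` its decomposition and inertia groups, `R = hensRing p = P^D`,
`B = R ⊗[ℤ_(p)] H`.

* `mem_of_redKer_of_inertia` (**Q2**, for `P`-valued points): `E` a finite `D`-stable submonoid of
  points, `x` in the kernel of reduction with `σ x ∈ E · x` for all `σ ∈ I`; then `x ∈ E`.
  Proof: (P★) (`ConnUnram26.mem_of_dvd_sub_on_invSub`) for the base-changed points over `R`: for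
  `b ∈ invSub E` the element `x b - ε b` lies in the maximal ideal (kernel of reduction) and is fixed
  by `I` (`σ (x b) = (e * x) b = x b`), hence is divisible by `p` (`HensBase26.natCast_dvd_of_fixed`).
* `flatPCore : FlatPCore p`.
-/
import Mathlib
import Fermat.Agent.IG.VAL.Zl13
import Fermat.Agent.ES.T56.ConnUnram26
import Fermat.Agent.ES.T56.BaseChangePts26
import Fermat.Agent.ES.T56.PlacePts26
import Fermat.Agent.ES.T56.FlatPIface26

set_option autoImplicit false
set_option linter.unusedSectionVars false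

namespace Fermat.Agent.ES.T56.FlatPCore26

open WithConv Coalgebra TensorProduct
open Fermat.Agent.ES.T56.HensBase26 Fermat.Agent.ES.T56.NormElt26 Fermat.Agent.ES.T56.PropFi20
  Fermat.Agent.ES.T56.InvIdeal26 Fermat.Agent.ES.T56.PointsBasic20
  Fermat.Agent.ES.T56.BaseChangePts26 Fermat.Agent.ES.T56.PlacePts26
  Fermat.Agent.ES.T56.ConnUnram26 Fermat.Agent.ES.T56.FlatPIface26

local notation "Qbar" => AlgebraicClosure ℚ

noncomputable section

variable {p : ℕ} [hp : Fact p.Prime]

section General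

variable {R : Type*} [CommRing R] {B : Type*} [CommRing B] [Bialgebra R B]
  {A : Type*} [CommRing A] [Algebra R A] {A' : Type*} [CommRing A'] [Algebra R A']

theorem push_pow (h : A →ₐ[R] A') (f : WithConv (B →ₐ[R] A)) (n : ℕ) :
    push h (f ^ n) = push h f ^ n := by
  induction n with
  | zero => rw [pow_zero, pow_zero, push_one]
  | succ n ih => rw [pow_succ, pow_succ, push_mul, ih]

end General

variable {H : Type*} [CommRing H] [Bialgebra ↥(GaloisRep.ratLocalizedAt p) H]
  [Module.Finite ↥(GaloisRep.ratLocalizedAt p) H] [Module.Free ↥(GaloisRep.ratLocalizedAt p) H]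
  [Coalgebra.IsCocomm ↥(GaloisRep.ratLocalizedAt p) H]

/-- `(lin (bcPt y) - 1) b` lies in the maximal ideal for `y` in the kernel of reduction. -/
theorem bcPt_sub_one_mem (y : WithConv (H →ₐ[↥(GaloisRep.ratLocalizedAt p)] ↥(padicPlace p)))
    (hy : y ∈ redKer) (b : ↥(hensRing p) ⊗[↥(GaloisRep.ratLocalizedAt p)] H) :
    bcPt (R := ↥(hensRing p)) y b
      - (1 : WithConv (↥(hensRing p) ⊗[↥(GaloisRep.ratLocalizedAt p)] H
          →ₐ[↥(hensRing p)] ↥(padicPlace p))) b
      ∈ IsLocalRing.maximalIdeal ↥(padicPlace p) := by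
  rw [← bcPt_one (R := ↥(hensRing p)) (H := H) (O := ↥(padicPlace p))]
  induction b using TensorProduct.induction_on with
  | zero =>
    rw [map_zero (bcPt (R := ↥(hensRing p)) y).ofConv,
      map_zero (bcPt (R := ↥(hensRing p))
        (1 : WithConv (H →ₐ[↥(GaloisRep.ratLocalizedAt p)] ↥(padicPlace p)))).ofConv, sub_self]
    exact zero_mem _
  | tmul r h =>
    rw [bcPt_tmul, bcPt_tmul, ← mul_sub]
    exact Ideal.mul_mem_left _ _ ((mem_redKer_iff y).1 hy h)
  | add z w hz hw =>
    rw [map_add (bcPt (R := ↥(hensRing p)) y).ofConv,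
      map_add (bcPt (R := ↥(hensRing p))
        (1 : WithConv (H →ₐ[↥(GaloisRep.ratLocalizedAt p)] ↥(padicPlace p)))).ofConv,
      add_sub_add_comm]
    exact add_mem hz hw

/-- **(Q2)** for `P`-valued points. -/
theorem mem_of_redKer_of_inertia (hp2 : p ≠ 2)
    (hkill : ∀ y : WithConv (H →ₐ[↥(GaloisRep.ratLocalizedAt p)] ↥(padicPlace p)), y ^ p = 1)
    (E : Set (WithConv (H →ₐ[↥(GaloisRep.ratLocalizedAt p)] ↥(padicPlace p))))
    (hfin : E.Finite) (hone : 1 ∈ E) (hmul : ∀ s ∈ E, ∀ t ∈ E, t * s ∈ E)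
    (hD : ∀ (σ : Qbar ≃ₐ[ℚ] Qbar) (hσ : σ ∈ (padicPlace p).decompositionSubgroup ℚ),
      ∀ t ∈ E, push (resDz σ hσ) t ∈ E)
    (x : WithConv (H →ₐ[↥(GaloisRep.ratLocalizedAt p)] ↥(padicPlace p))) (hx0 : x ∈ redKer)
    (hI : ∀ (σ : Qbar ≃ₐ[ℚ] Qbar) (hσ : σ ∈ (padicPlace p).inertiaSubgroupIn ℚ),
      ∃ e ∈ E, push (resDz σ (Fermat.Agent.S05.Inertia.mem_decompositionSubgroup hσ)) x = e * x) :
    x ∈ E := by
  classical
  have hp3 : 3 ≤ p := by
    have h2 := hp.out.two_le
    omega
  -- the base-changed finite set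
  set E' : Finset (WithConv (↥(hensRing p) ⊗[↥(GaloisRep.ratLocalizedAt p)] H
      →ₐ[↥(hensRing p)] ↥(padicPlace p))) :=
    (hfin.image (bcPt (R := ↥(hensRing p)))).toFinset with hE'
  have hmemE' : ∀ t, t ∈ E' ↔ ∃ t₀ ∈ E, bcPt (R := ↥(hensRing p)) t₀ = t := fun t => by
    rw [hE', Set.Finite.mem_toFinset]
    rfl
  have hkill' : ∀ t ∈ E', t ^ p = 1 := fun t ht => by
    obtain ⟨t₀, _, rfl⟩ := (hmemE' t).1 ht
    rw [← bcPt_pow, hkill, bcPt_one]
  have hxE' : bcPt (R := ↥(hensRing p)) x ∈ E' := by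
    apply mem_of_dvd_sub_on_invSub (algebraMap_hens_injective p) hp.out hp3 (piSep_place p) E'
      (galSet p) (galSet_injective p) ?_ (fixed_galSet p) ?_ ?_ ?_
      (bcPt (R := ↥(hensRing p)) x) (by rw [← bcPt_pow, hkill, bcPt_one]) ?_
    · -- Galois stability
      rintro _ ⟨σ, hσ, rfl⟩ t ht
      obtain ⟨t₀, ht₀, rfl⟩ := (hmemE' t).1 ht
      rw [push_bcPt]
      exact (hmemE' _).2 ⟨_, hD σ hσ t₀ ht₀, rfl⟩
    · -- closed under multiplication
      intro s hs t ht
      obtain ⟨s₀, hs₀, rfl⟩ := (hmemE' s).1 hs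
      obtain ⟨t₀, ht₀, rfl⟩ := (hmemE' t).1 ht
      rw [← bcPt_mul]
      exact (hmemE' _).2 ⟨_, hmul s₀ hs₀ t₀ ht₀, rfl⟩
    · -- cancellation
      intro s hs t _ t' _ htt'
      have hp1 : p = (p - 1) + 1 := by have := hp.out.pos; omega
      have hs1 : s * s ^ (p - 1) = 1 := by rw [← pow_succ', ← hp1]; exact hkill' s hs
      have h1 : (t * s) * s ^ (p - 1) = (t' * s) * s ^ (p - 1) := by
        have : t * s = t' * s := htt'
        rw [this]
      rwa [mul_assoc, mul_assoc, hs1, mul_one, mul_one] at h1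
    · -- contains one
      exact (hmemE' _).2 ⟨1, hone, bcPt_one⟩
    · -- the divisibility
      intro b hb
      apply natCast_dvd_of_fixed p _ (bcPt_sub_one_mem x hx0 b)
      intro σ hσ
      have hσD := Fermat.Agent.S05.Inertia.mem_decompositionSubgroup hσ
      obtain ⟨e, he, hex⟩ := hI σ hσ
      have heE' : bcPt (R := ↥(hensRing p)) e ∈ E' := (hmemE' _).2 ⟨e, he, rfl⟩
      -- `σ (x̃ b) = x̃ b`
      have h1 : resD p σ hσD (bcPt (R := ↥(hensRing p)) x b) = bcPt (R := ↥(hensRing p)) x b := by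
        have e1 : resD p σ hσD (bcPt (R := ↥(hensRing p)) x b)
            = push (resD p σ hσD) (bcPt (R := ↥(hensRing p)) x) b := rfl
        have e2 : push (resD p σ hσD) (bcPt (R := ↥(hensRing p)) x)
            = bcPt (R := ↥(hensRing p)) x * bcPt (R := ↥(hensRing p)) e := by
          rw [push_bcPt]
          have : push ((resD p σ hσD).restrictScalars ↥(GaloisRep.ratLocalizedAt p)) x = e * x :=
            hex
          rw [this, bcPt_mul, mul_comm]
        rw [e1, e2]
        have h3 := hb (bcPt (R := ↥(hensRing p)) e) heE' (lin (bcPt (R := ↥(hensRing p)) x))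
        rw [← lin_mul] at h3
        exact h3
      have h2 : resD p σ hσD ((1 : WithConv (↥(hensRing p) ⊗[↥(GaloisRep.ratLocalizedAt p)] H
          →ₐ[↥(hensRing p)] ↥(padicPlace p))) b)
          = (1 : WithConv (↥(hensRing p) ⊗[↥(GaloisRep.ratLocalizedAt p)] H
          →ₐ[↥(hensRing p)] ↥(padicPlace p))) b := by
        rw [AlgHom.convOne_apply, AlgHom.commutes]
      have h4 : resD p σ hσD (bcPt (R := ↥(hensRing p)) x b
          - (1 : WithConv (↥(hensRing p) ⊗[↥(GaloisRep.ratLocalizedAt p)] H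
          →ₐ[↥(hensRing p)] ↥(padicPlace p))) b)
          = bcPt (R := ↥(hensRing p)) x b
          - (1 : WithConv (↥(hensRing p) ⊗[↥(GaloisRep.ratLocalizedAt p)] H
          →ₐ[↥(hensRing p)] ↥(padicPlace p))) b := by
        rw [map_sub, h1, h2]
      exact congrArg (fun z : ↥(padicPlace p) => (z : Qbar)) h4
  obtain ⟨t₀, ht₀, hbc⟩ := (hmemE' _).1 hxE'
  rw [← bcPt_injective hbc]
  exact ht₀

/-! ### The contract -/

/-- `push (placeIncl p)` as a monoid homomorphism. -/
def inclHom : WithConv (H →ₐ[↥(GaloisRep.ratLocalizedAt p)] ↥(padicPlace p)) →*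
    WithConv (H →ₐ[↥(GaloisRep.ratLocalizedAt p)] Qbar) where
  toFun := push (placeIncl p)
  map_one' := push_one _
  map_mul' := push_mul _

@[simp] theorem inclHom_apply
    (y : WithConv (H →ₐ[↥(GaloisRep.ratLocalizedAt p)] ↥(padicPlace p))) :
    inclHom y = push (placeIncl p) y := rfl

theorem kill_place
    (hkill : ∀ x : WithConv (H →ₐ[↥(GaloisRep.ratLocalizedAt p)] Qbar), x ^ p = 1)
    (y : WithConv (H →ₐ[↥(GaloisRep.ratLocalizedAt p)] ↥(padicPlace p))) : y ^ p = 1 := by
  apply push_placeIncl_injective (p := p) (H := H)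
  rw [push_pow, hkill, push_one]

theorem finite_place_points :
    Finite (WithConv (H →ₐ[↥(GaloisRep.ratLocalizedAt p)] ↥(padicPlace p))) :=
  haveI : Finite (WithConv (H →ₐ[↥(GaloisRep.ratLocalizedAt p)] Qbar)) := finite_points_conv
  Finite.of_injective _ (push_placeIncl_injective (p := p) (H := H))

/-- the contract, for a free bialgebra. -/
theorem flatPCore_of_free (hp2 : p ≠ 2)
    (hkill : ∀ x : WithConv (H →ₐ[↥(GaloisRep.ratLocalizedAt p)] Qbar), x ^ p = 1) :
    ∃ T0 : Submonoid (WithConv (H →ₐ[↥(GaloisRep.ratLocalizedAt p)] Qbar)),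
      (∀ σ ∈ (padicPlace p).inertiaSubgroupIn ℚ,
        ∀ y y' : WithConv (H →ₐ[↥(GaloisRep.ratLocalizedAt p)] Qbar),
          (∀ h : H, y' h = σ (y h)) → ∃ z ∈ T0, y' = z * y) ∧
      ∀ E₂ : Submonoid (WithConv (H →ₐ[↥(GaloisRep.ratLocalizedAt p)] Qbar)),
        (∀ σ ∈ (padicPlace p).decompositionSubgroup ℚ,
          ∀ t t' : WithConv (H →ₐ[↥(GaloisRep.ratLocalizedAt p)] Qbar),
            t ∈ E₂ → (∀ h : H, t' h = σ (t h)) → t' ∈ E₂) →
        ∀ x ∈ T0,
          (∀ σ ∈ (padicPlace p).inertiaSubgroupIn ℚ,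
            ∀ x' : WithConv (H →ₐ[↥(GaloisRep.ratLocalizedAt p)] Qbar),
              (∀ h : H, x' h = σ (x h)) → ∃ e ∈ E₂, x' = e * x) →
          x ∈ E₂ := by
  have hkillP := kill_place (p := p) (H := H) hkill
  have hp1 : p = (p - 1) + 1 := by have := hp.out.pos; omega
  refine ⟨Submonoid.map (inclHom (p := p) (H := H)) redKer, ?_, ?_⟩
  · -- (Q1)
    intro σ hσ y y' hyy'
    have hσD := Fermat.Agent.S05.Inertia.mem_decompositionSubgroup hσ
    set u := coresPt y with hu
    have hq1 := inertia_quot_mem_redKer σ hσ u (hkillP u)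
    refine ⟨inclHom (push (resDz σ hσD) u * u ^ (p - 1)), Submonoid.mem_map_of_mem _ hq1, ?_⟩
    have hy : y = inclHom u := (push_placeIncl_coresPt y).symm
    have hy' : y' = inclHom (push (resDz σ hσD) u) := by
      rw [inclHom_apply, push_placeIncl_resDz, push_placeIncl_coresPt]
      exact ext_point hyy'
    rw [hy', map_mul, mul_assoc]
    have h1 : inclHom (u ^ (p - 1)) * y = 1 := by
      rw [hy, ← map_mul, ← pow_succ, ← hp1, hkillP, map_one]
    rw [h1, mul_one]
  · -- (Q2)
    intro E₂ hE₂ x hx hI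
    obtain ⟨x₀, hx₀, rfl⟩ := hx
    have := finite_place_points (p := p) (H := H)
    have hmem := mem_of_redKer_of_inertia hp2 hkillP
      {t | inclHom (p := p) (H := H) t ∈ E₂} (Set.toFinite _)
      (by show inclHom 1 ∈ E₂; rw [map_one]; exact one_mem _)
      (fun s hs t ht => by
        show inclHom (t * s) ∈ E₂
        rw [map_mul]; exact mul_mem ht hs)
      (fun σ hσ t ht => by
        show inclHom (push (resDz σ hσ) t) ∈ E₂
        rw [inclHom_apply, push_placeIncl_resDz]
        exact hE₂ σ hσ _ _ ht fun _ => rfl)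
      x₀ hx₀
      (fun σ hσ => by
        have hσD := Fermat.Agent.S05.Inertia.mem_decompositionSubgroup hσ
        obtain ⟨e, he, hex⟩ := hI σ hσ (galPt σ (inclHom x₀)) fun _ => rfl
        refine ⟨coresPt e, ?_, ?_⟩
        · show inclHom (coresPt e) ∈ E₂
          rw [inclHom_apply, push_placeIncl_coresPt]; exact he
        · apply push_placeIncl_injective (p := p) (H := H)
          rw [push_placeIncl_resDz, push_mul, push_placeIncl_coresPt]
          exact hex)
    exact hmem

/-- **FLAT-P, core export.** -/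
theorem flatPCore (p : ℕ) [Fact p.Prime] : FlatPCore p := by
  intro hp2 H _ _ _ _ _ hkill
  have : Module.Free ↥(GaloisRep.ratLocalizedAt p) H := Module.free_of_flat_of_isLocalRing
  exact flatPCore_of_free hp2 hkill

end

end Fermat.Agent.ES.T56.FlatPCore26
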