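/-
Programme T (S56), chapter FLAT, FLAT-P representation side (helper20): **contract file**.

`V = k[ε]² = k² ⊕ ε k²` is written in `k`-coordinates `VV k = k² × k²`; `r(g)` acts by
`act p r g (a, b) = (ρ̄(g) a, ρ̄(g) b + r₁(g) a)` with `ρ̄ = fstM ∘ r`, `r₁ = sndM ∘ r`.

`FlatPkg p k` : for every flat lift `r` of level `k[ε]` there is an additive subgroup `M° ≤ V` (the points
of the connected part) such that
* (Q1) `(r(g) - 1) x ∈ M°` for `g` in the inertia group;
* (Q2) for every `G_p`-stable additive subgroup `E₂ ≤ V`: an `x ∈ M°` with `(r(g) - 1) x ∈ E₂` for all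
  inertial `g` lies in `E₂`.

It is proved from helper26's `FlatPIface26.FlatPCore p` in `FlatPkg20`, and consumed by the two linear
algebra legs `FlatPSplit` (α/β) and `FlatPLowerLeft`.

Also here: `CharP k p` and `det ρ̄ = ω` from `DetIsCyclotomic` of a lift, `det ρ̄ = ψ₁ψ₂` for a stable
line, and the "other character is ramified" lemmas.
-/
import Mathlib
import Fermat.Agent.ES.T56.FlatIface20
import Fermat.Agent.ES.T56.FlatRed20
import Fermat.Agent.ES.T56.OmegaNe4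

set_option autoImplicit false
set_option linter.unusedSectionVars false
set_option linter.style.haveILetI false

namespace Fermat.Agent.ES.T56.FlatPkgIface20

open ExtCitation Fermat.Agent.S53 Fermat.Agent.ES.T56.Ad0Rep10 Fermat.Agent.ES.T56.FlatIface20
  Fermat.Agent.ES.T56.FlatZ20

noncomputable section

variable (p : ℕ) [Fact p.Prime] {k : Type} [Field k]

/-- `V = k² ⊕ ε k²` in `k`-coordinates. -/
abbrev VV (k : Type) [Field k] : Type := (Fin 2 → k) × (Fin 2 → k)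

/-- The action of `r(g)`, `g ∈ G_p`, on `V`: `(a, b) ↦ (ρ̄(g) a, ρ̄(g) b + r₁(g) a)`. -/
def act (r : GQ →* M2 (DualNumber k)) (g : Gp p) (x : VV k) : VV k :=
  ((fstM (r (locp p g))).mulVec x.1,
    (fstM (r (locp p g))).mulVec x.2 + (sndM (r (locp p g))).mulVec x.1)

variable {p}

theorem act_fst (r : GQ →* M2 (DualNumber k)) (g : Gp p) (x : VV k) :
    (act p r g x).1 = (fstM (r (locp p g))).mulVec x.1 := rfl

theorem act_snd (r : GQ →* M2 (DualNumber k)) (g : Gp p) (x : VV k) :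
    (act p r g x).2 =
      (fstM (r (locp p g))).mulVec x.2 + (sndM (r (locp p g))).mulVec x.1 := rfl

theorem act_one (r : GQ →* M2 (DualNumber k)) (x : VV k) : act p r 1 x = x := by
  apply Prod.ext
  · rw [act_fst, map_one, map_one, fstM_one, Matrix.one_mulVec]
  · rw [act_snd, map_one, map_one, fstM_one, sndM_one, Matrix.one_mulVec, Matrix.zero_mulVec,
      add_zero]

theorem act_mul (r : GQ →* M2 (DualNumber k)) (g h : Gp p) (x : VV k) :
    act p r (g * h) x = act p r g (act p r h x) := by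
  apply Prod.ext
  · rw [act_fst, act_fst, act_fst, map_mul, map_mul, fstM_mul, Matrix.mulVec_mulVec]
  · rw [act_snd, act_snd, act_snd, act_fst, map_mul, map_mul, fstM_mul, sndM_mul]
    simp only [Matrix.mulVec_add, Matrix.add_mulVec, Matrix.mulVec_mulVec]
    abel

theorem act_add (r : GQ →* M2 (DualNumber k)) (g : Gp p) (x y : VV k) :
    act p r g (x + y) = act p r g x + act p r g y := by
  apply Prod.ext
  · rw [act_fst, Prod.fst_add, Prod.fst_add, Matrix.mulVec_add, act_fst, act_fst]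
  · rw [act_snd, Prod.snd_add, Prod.fst_add, Prod.snd_add, Matrix.mulVec_add, Matrix.mulVec_add,
      act_snd, act_snd]
    abel

theorem act_smul (r : GQ →* M2 (DualNumber k)) (g : Gp p) (a : k) (x : VV k) :
    act p r g (a • x) = a • act p r g x := by
  apply Prod.ext
  · rw [act_fst, Prod.smul_fst, Prod.smul_fst, Matrix.mulVec_smul, act_fst]
  · rw [act_snd, Prod.smul_snd, Prod.smul_fst, Prod.smul_snd, Matrix.mulVec_smul,
      Matrix.mulVec_smul, act_snd, smul_add]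

variable (p)

/-- **The connected-part package of a flat lift.** -/
def FlatPkg (k : Type) [Field k] : Prop :=
  p ≠ 2 → Finite k → CharP k p → ∀ (r : GQ →* M2 (DualNumber k)) (hr : MatCont r),
    (ofMatrix r hr).IsFlatAt p →
    ∃ M0 : AddSubgroup (VV k),
      (∀ g ∈ inertiaGp p, ∀ x : VV k, act p r g x - x ∈ M0) ∧
      ∀ E₂ : AddSubgroup (VV k), (∀ (g : Gp p), ∀ x ∈ E₂, act p r g x ∈ E₂) →
        ∀ x ∈ M0, (∀ g ∈ inertiaGp p, act p r g x - x ∈ E₂) → x ∈ E₂

variable {p}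

/-! ### Consequences of `DetIsCyclotomic` for a lift to `k[ε]` -/

theorem det_ofMatrix (r : GQ →* M2 (DualNumber k)) (hr : MatCont r) (σ : GQ) :
    LinearMap.det ((ofMatrix r hr).ρ σ) = (r σ).det := by
  show LinearMap.det (Matrix.toLinAlgEquiv' (r σ) : Module.End _ _) = _
  exact LinearMap.det_toLin' (r σ)

theorem fst_det (X : M2 (DualNumber k)) : TrivSqZeroExt.fst X.det = (fstM X).det := by
  rw [Matrix.det_fin_two, Matrix.det_fin_two]
  simp [fstM_apply]

/-- `p = 0` in `k` when some lift to `k[ε]` has cyclotomic determinant. -/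
theorem natCast_eq_zero_of_detIsCyclotomic (r : GQ →* M2 (DualNumber k)) (hr : MatCont r)
    (hdc : (ofMatrix r hr).DetIsCyclotomic p) : (p : k) = 0 := by
  have h := hdc.1
  by_contra hne
  have hu : IsUnit ((p : ℕ) : DualNumber k) := by
    have e : ((p : ℕ) : DualNumber k) = TrivSqZeroExt.inl (p : k) := TrivSqZeroExt.ext rfl rfl
    rw [e]
    exact (IsUnit.mk0 _ hne).map (TrivSqZeroExt.inlHom k k)
  exact (IsLocalRing.mem_maximalIdeal _).mp h hu

theorem charP_of_detIsCyclotomic (r : GQ →* M2 (DualNumber k)) (hr : MatCont r)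
    (hdc : (ofMatrix r hr).DetIsCyclotomic p) : CharP k p :=
  (CharP.charP_iff_prime_eq_zero (Fact.out : p.Prime)).2
    (natCast_eq_zero_of_detIsCyclotomic r hr hdc)

/-- `det ρ̄ = ω`. -/
theorem det_rbar_of_detIsCyclotomic {rbar : GQ →* M2 k} (r : GQ →* M2 (DualNumber k))
    (hr : MatCont r) (hfst : ∀ σ, fstM (r σ) = rbar σ)
    (hdc : (ofMatrix r hr).DetIsCyclotomic p) (σ : GQ) (a : ℕ)
    (ha : ∀ μ : AlgebraicClosure ℚ, μ ^ p = 1 → σ μ = μ ^ a) : (rbar σ).det = (a : k) := by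
  have hp0 := natCast_eq_zero_of_detIsCyclotomic r hr hdc
  have h := hdc.2 1 σ a (fun μ hμ => ha μ (by rwa [pow_one] at hμ))
  rw [pow_one, det_ofMatrix] at h
  have e : ((p : ℕ) : DualNumber k) = 0 := by
    have e' : ((p : ℕ) : DualNumber k) = TrivSqZeroExt.inl (p : k) := TrivSqZeroExt.ext rfl rfl
    rw [e', hp0, TrivSqZeroExt.inl_zero]
  rw [e, Ideal.span_singleton_eq_bot.mpr rfl, Ideal.mem_bot, sub_eq_zero] at h
  have h2 := congrArg TrivSqZeroExt.fst h
  rw [fst_det, hfst] at h2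
  rw [h2]
  rfl

/-! ### Stable lines -/

/-- `det ρ̄(g) = ψ₁(g) ψ₂(g)`. -/
theorem det_eq_of_isStableLine {rbar : GQ →* M2 k} {v : Fin 2 → k} {ψ₁ ψ₂ : Gp p →* kˣ}
    (hv : IsStableLine p rbar v ψ₁ ψ₂) (g : Gp p) :
    (rbar (locp p g)).det = ((ψ₁ g : kˣ) : k) * ((ψ₂ g : kˣ) : k) := by
  obtain ⟨B, Binv, h1, h2, -, hT⟩ := FlatRed20.exists_triangular p hv
  obtain ⟨u, hu⟩ := hT g
  have e2 : (Binv * rho p rbar g * B).det = (rbar (locp p g)).det := by
    rw [Matrix.det_mul, Matrix.det_mul, mul_comm, ← mul_assoc, ← Matrix.det_mul, h1,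
      Matrix.det_one, one_mul]
    rfl
  rw [← e2, hu, Matrix.det_fin_two_of, mul_zero, sub_zero]

/-- `ψ₁ψ₂ = ω` on `G_p`. -/
theorem mul_eq_of_lift {rbar : GQ →* M2 k} {v : Fin 2 → k} {ψ₁ ψ₂ : Gp p →* kˣ}
    (hv : IsStableLine p rbar v ψ₁ ψ₂) (r : GQ →* M2 (DualNumber k))
    (hr : MatCont r) (hfst : ∀ σ, fstM (r σ) = rbar σ)
    (hdc : (ofMatrix r hr).DetIsCyclotomic p) (g : Gp p) (n : ℕ) (hn : ActsOnMuGp p g n) :
    ((ψ₁ g : kˣ) : k) * ((ψ₂ g : kˣ) : k) = (n : k) := by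
  rw [← det_eq_of_isStableLine hv g]
  exact det_rbar_of_detIsCyclotomic r hr hfst hdc (locp p g) n hn

/-- If `ψ₁` is unramified, `ψ₂` is ramified. -/
theorem exists_inertia_right_ne_one (hp2 : p ≠ 2) {rbar : GQ →* M2 k} {v : Fin 2 → k}
    {ψ₁ ψ₂ : Gp p →* kˣ} (hv : IsStableLine p rbar v ψ₁ ψ₂) (hur : IsUnramChar p ψ₁)
    (r : GQ →* M2 (DualNumber k)) (hr : MatCont r) (hfst : ∀ σ, fstM (r σ) = rbar σ)
    (hdc : (ofMatrix r hr).DetIsCyclotomic p) : ∃ g ∈ inertiaGp p, ψ₂ g ≠ 1 := by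
  haveI := charP_of_detIsCyclotomic r hr hdc
  obtain ⟨g, hg, n, hn, hn1⟩ := OmegaNe4.exists_inertia_ne_one p hp2
  refine ⟨g, hg, fun h1 => hn1 ?_⟩
  have e := mul_eq_of_lift hv r hr hfst hdc g n hn
  rw [hur g hg, h1, Units.val_one, one_mul] at e
  have e' : ((n : ℕ) : k) = ((1 : ℕ) : k) := by rw [← e, Nat.cast_one]
  exact (CharP.natCast_eq_natCast k p).mp e'

/-- If `ψ₂` is unramified, `ψ₁` is ramified. -/
theorem exists_inertia_left_ne_one (hp2 : p ≠ 2) {rbar : GQ →* M2 k} {v : Fin 2 → k}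
    {ψ₁ ψ₂ : Gp p →* kˣ} (hv : IsStableLine p rbar v ψ₁ ψ₂) (hur : IsUnramChar p ψ₂)
    (r : GQ →* M2 (DualNumber k)) (hr : MatCont r) (hfst : ∀ σ, fstM (r σ) = rbar σ)
    (hdc : (ofMatrix r hr).DetIsCyclotomic p) : ∃ g ∈ inertiaGp p, ψ₁ g ≠ 1 := by
  haveI := charP_of_detIsCyclotomic r hr hdc
  obtain ⟨g, hg, n, hn, hn1⟩ := OmegaNe4.exists_inertia_ne_one p hp2
  refine ⟨g, hg, fun h1 => hn1 ?_⟩
  have e := mul_eq_of_lift hv r hr hfst hdc g n hn
  rw [hur g hg, h1, Units.val_one, one_mul] at e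
  have e' : ((n : ℕ) : k) = ((1 : ℕ) : k) := by rw [← e, Nat.cast_one]
  exact (CharP.natCast_eq_natCast k p).mp e'

/-- The inertia group of `G_p` is normal. -/
theorem inertiaGp_conj_mem {g : Gp p} (hg : g ∈ inertiaGp p) (h : Gp p) :
    h * g * h⁻¹ ∈ inertiaGp p := by
  show locp p (h * g * h⁻¹) ∈ (primeLocalPlace (pPrime p)).inertiaSubgroupIn ℚ
  have hg' : locp p g ∈ (primeLocalPlace (pPrime p)).inertiaSubgroupIn ℚ := hg
  obtain ⟨σ', hσ', hσ⟩ := hg'
  have hD : locp p h ∈ (primeLocalPlace (pPrime p)).decompositionSubgroup ℚ := by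
    rw [← LocSurj16.range_eq_primes]
    exact ⟨h, rfl⟩
  have hn : ((primeLocalPlace (pPrime p)).inertiaSubgroup ℚ).Normal :=
    MonoidHom.normal_ker _
  have hc := hn.conj_mem σ' hσ' ⟨locp p h, hD⟩
  refine ⟨_, hc, ?_⟩
  rw [map_mul (locp p), map_mul (locp p), map_inv (locp p), ← hσ]
  rfl

end

end Fermat.Agent.ES.T56.FlatPkgIface20
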