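/-
Programme T (S56), FLAT leg, chapter FLAT-C — helper4.

THE REDUCIBLE CASE, entry point: if `ρ̄|_{G_p}` has a stable line then it is (in the language of
`FlatIface20`) an `IsStableLine` with two level-constant characters `ψ₁` (on the line) and `ψ₂` (on the
quotient) whose product is the determinant.

Everything is done with the bracket `cross x y = x₀ y₁ - x₁ y₀ = det [x | y]` on `k²`:
for `cross v w₀ = 1` one has `x = cross x w₀ • v + cross v x • w₀`, `ψ₁ g = cross (ρ̄ g v) w₀`,
`ψ₂ g = cross v (ρ̄ g w₀)`, `det ρ̄ g = ψ₁ g * ψ₂ g`.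

* `exists_stableLine_of_not_irr` : helper20's literal.
-/
import Mathlib
import Fermat.Agent.ES.T56.FlatIface20

set_option autoImplicit false
set_option linter.unusedSectionVars false

namespace Fermat.Agent.ES.T56.FlatStable4

open groupCohomology ExtCitation Fermat.Agent.S53 Fermat.Agent.ES.T56.FlatIface20

/-! ### The bracket on `k²` -/

section Cross

variable {k : Type} [Field k]

/-- `cross x y = det [x | y]`. -/
def cross (x y : Fin 2 → k) : k := x 0 * y 1 - x 1 * y 0

theorem cross_self (x : Fin 2 → k) : cross x x = 0 := by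
  unfold cross; ring

theorem cross_add_right (x y z : Fin 2 → k) : cross x (y + z) = cross x y + cross x z := by
  unfold cross; simp only [Pi.add_apply]; ring

theorem cross_sub_right (x y z : Fin 2 → k) : cross x (y - z) = cross x y - cross x z := by
  unfold cross; simp only [Pi.sub_apply]; ring

theorem cross_smul_right (c : k) (x y : Fin 2 → k) : cross x (c • y) = c * cross x y := by
  unfold cross; simp only [Pi.smul_apply, smul_eq_mul]; ring

theorem cross_add_left (x y z : Fin 2 → k) : cross (x + y) z = cross x z + cross y z := by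
  unfold cross; simp only [Pi.add_apply]; ring

theorem cross_smul_left (c : k) (x y : Fin 2 → k) : cross (c • x) y = c * cross x y := by
  unfold cross; simp only [Pi.smul_apply, smul_eq_mul]; ring

/-- `det [M x | M y] = det M * det [x | y]`. -/
theorem cross_mulVec (M : M2 k) (x y : Fin 2 → k) :
    cross (M.mulVec x) (M.mulVec y) = M.det * cross x y := by
  unfold cross
  simp only [Matrix.det_fin_two, Matrix.mulVec, dotProduct, Fin.sum_univ_two]
  ring

/-- The coordinates in the basis `(v, w₀)` with `det [v | w₀] = 1`. -/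
theorem eq_cross_smul_add {v w₀ : Fin 2 → k} (h : cross v w₀ = 1) (x : Fin 2 → k) :
    x = cross x w₀ • v + cross v x • w₀ := by
  unfold cross at h ⊢
  ext i
  fin_cases i
  · simp only [Fin.zero_eta, Pi.add_apply, Pi.smul_apply, smul_eq_mul]
    linear_combination (-(x 0)) * h
  · simp only [Fin.mk_one, Pi.add_apply, Pi.smul_apply, smul_eq_mul]
    linear_combination (-(x 1)) * h

/-- A non-zero vector has a partner of bracket `1`. -/
theorem exists_cross_eq_one {v : Fin 2 → k} (hv : v ≠ 0) : ∃ w₀ : Fin 2 → k, cross v w₀ = 1 := by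
  by_cases h0 : v 0 = 0
  · have h1 : v 1 ≠ 0 := by
      intro h1
      apply hv
      ext i
      fin_cases i
      · exact h0
      · exact h1
    refine ⟨![-(v 1)⁻¹, 0], ?_⟩
    unfold cross
    simp only [Matrix.cons_val_zero, Matrix.cons_val_one]
    field_simp
    ring
  · refine ⟨![0, (v 0)⁻¹], ?_⟩
    unfold cross
    simp only [Matrix.cons_val_zero, Matrix.cons_val_one]
    field_simp
    ring

/-- Membership in the line spanned by `v`, through the bracket. -/
theorem mem_span_of_cross_eq_zero {v w₀ : Fin 2 → k} (h : cross v w₀ = 1) {u : Fin 2 → k}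
    (hu : cross v u = 0) : u ∈ Submodule.span k {v} := by
  rw [Submodule.mem_span_singleton]
  refine ⟨cross u w₀, ?_⟩
  have h1 := eq_cross_smul_add h u
  rw [hu, zero_smul, add_zero] at h1
  exact h1.symm

theorem cross_eq_zero_of_mem_span {v u : Fin 2 → k} (hu : u ∈ Submodule.span k {v}) :
    cross v u = 0 := by
  obtain ⟨c, rfl⟩ := Submodule.mem_span_singleton.1 hu
  rw [cross_smul_right, cross_self, mul_zero]

end Cross

/-! ### The stable line -/

section Stable

variable (p : ℕ) [Fact p.Prime] {k : Type} [Field k] (rbar : GQ →* M2 k)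

/-- `ρ̄(g)` for `g ∈ G_p`, as a matrix. -/
noncomputable abbrev mat (g : Gp p) : M2 k := rbar (locp p g)

theorem mat_mul (g h : Gp p) : mat p rbar (g * h) = mat p rbar g * mat p rbar h := by
  show rbar (locp p (g * h)) = _
  rw [map_mul, map_mul]

theorem mat_one : mat p rbar (1 : Gp p) = 1 := by
  show rbar (locp p 1) = _
  rw [map_one, map_one]

variable {p rbar} {v w₀ : Fin 2 → k} (hvw : cross v w₀ = 1)
  (hst : ∀ g : Gp p, cross v ((mat p rbar g).mulVec v) = 0)

include hvw hst in
/-- `ρ̄(g) v = ψ₁(g) v`. -/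
theorem mulVec_eq (g : Gp p) :
    (mat p rbar g).mulVec v = cross ((mat p rbar g).mulVec v) w₀ • v := by
  have h1 := eq_cross_smul_add hvw ((mat p rbar g).mulVec v)
  rw [hst g, zero_smul, add_zero] at h1
  exact h1

include hvw hst in
theorem psi1_mul (g h : Gp p) :
    cross ((mat p rbar (g * h)).mulVec v) w₀ =
      cross ((mat p rbar g).mulVec v) w₀ * cross ((mat p rbar h).mulVec v) w₀ := by
  rw [mat_mul, ← Matrix.mulVec_mulVec]
  conv_lhs => rw [mulVec_eq hvw hst h]
  rw [Matrix.mulVec_smul, cross_smul_left, mul_comm]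

include hvw hst in
theorem psi2_mul (g h : Gp p) :
    cross v ((mat p rbar (g * h)).mulVec w₀) =
      cross v ((mat p rbar g).mulVec w₀) * cross v ((mat p rbar h).mulVec w₀) := by
  rw [mat_mul, ← Matrix.mulVec_mulVec]
  conv_lhs => rw [eq_cross_smul_add hvw ((mat p rbar h).mulVec w₀)]
  rw [Matrix.mulVec_add, Matrix.mulVec_smul, Matrix.mulVec_smul, cross_add_right, cross_smul_right,
    cross_smul_right, hst g, mul_zero, zero_add, mul_comm]

include hvw hst in
/-- `det ρ̄(g) = ψ₁(g) ψ₂(g)`. -/
theorem det_eq (g : Gp p) :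
    (mat p rbar g).det =
      cross ((mat p rbar g).mulVec v) w₀ * cross v ((mat p rbar g).mulVec w₀) := by
  have h1 := cross_mulVec (mat p rbar g) v w₀
  rw [hvw, mul_one] at h1
  rw [← h1]
  conv_lhs => rw [mulVec_eq hvw hst g]
  rw [cross_smul_left]

include hvw hst in
/-- The action on the quotient by the line. -/
theorem cross_mulVec_sub (g : Gp p) (w : Fin 2 → k) :
    cross v ((mat p rbar g).mulVec w - cross v ((mat p rbar g).mulVec w₀) • w) = 0 := by
  rw [cross_sub_right, cross_smul_right]
  conv_lhs => rw [eq_cross_smul_add hvw w]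
  rw [Matrix.mulVec_add, Matrix.mulVec_smul, Matrix.mulVec_smul, cross_add_right, cross_smul_right,
    cross_smul_right, hst g, mul_zero, zero_add, cross_add_right, cross_smul_right, cross_smul_right,
    cross_self, mul_zero, zero_add, hvw, mul_one]
  ring

end Stable

/-! ### The statement -/

/-- **The reducible case**: a stable line, with its two level-constant characters. -/
theorem exists_stableLine_of_not_irr (p : ℕ) [Fact p.Prime] {k : Type} [Field k]
    (rbar : GQ →* M2 k) (hlev : GaloisFactorsThroughFiniteLevel rbar)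
    (hdet : ∀ (σ : GQ) (a : ℕ), (∀ μ : AlgebraicClosure ℚ, μ ^ p = 1 → σ μ = μ ^ a) →
      (rbar σ).det = (a : k))
    (h : ¬ IsLocIrreducible p rbar) :
    ∃ (v : Fin 2 → k) (ψ₁ ψ₂ : Gp p →* kˣ), IsStableLine p rbar v ψ₁ ψ₂ ∧
      IsLevelConstant₁ (locp p) ψ₁ ∧ IsLevelConstant₁ (locp p) ψ₂ ∧
      ∀ (g : Gp p) (n : ℕ), ActsOnMuGp p g n →
        ((ψ₁ g : kˣ) : k) * ((ψ₂ g : kˣ) : k) = (n : k) := by
  unfold IsLocIrreducible at h
  push Not at h
  obtain ⟨v, hv, hline⟩ := h
  obtain ⟨w₀, hvw⟩ := exists_cross_eq_one hv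
  have hst : ∀ g : Gp p, cross v ((mat p rbar g).mulVec v) = 0 :=
    fun g => cross_eq_zero_of_mem_span (hline g)
  -- the two characters, with values in `k`
  let f₁ : Gp p →* k :=
    { toFun := fun g => cross ((mat p rbar g).mulVec v) w₀
      map_one' := by rw [mat_one, Matrix.one_mulVec, hvw]
      map_mul' := psi1_mul hvw hst }
  let f₂ : Gp p →* k :=
    { toFun := fun g => cross v ((mat p rbar g).mulVec w₀)
      map_one' := by rw [mat_one, Matrix.one_mulVec, hvw]
      map_mul' := psi2_mul hvw hst }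
  have hf₁ : ∀ g, ((f₁.toHomUnits g : kˣ) : k) = cross ((mat p rbar g).mulVec v) w₀ := fun g => rfl
  have hf₂ : ∀ g, ((f₂.toHomUnits g : kˣ) : k) = cross v ((mat p rbar g).mulVec w₀) := fun g => rfl
  -- level-constancy
  obtain ⟨L, hL, hLfix⟩ := hlev
  have hmat : ∀ g s : Gp p, locp p s ∈ L.fixingSubgroup → mat p rbar (g * s) = mat p rbar g := by
    intro g s hs
    rw [mat_mul]
    have h1 : mat p rbar s = 1 := hLfix (locp p s) (fun x hx =>
      (IntermediateField.mem_fixingSubgroup_iff L (locp p s)).1 hs x hx)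
    rw [h1, mul_one]
  refine ⟨v, f₁.toHomUnits, f₂.toHomUnits, ⟨hv, fun g => ?_, fun g w => ?_⟩,
    ⟨L, hL, fun g s hs => ?_⟩, ⟨L, hL, fun g s hs => ?_⟩, fun g n hn => ?_⟩
  · rw [hf₁]
    exact mulVec_eq hvw hst g
  · rw [hf₂]
    exact mem_span_of_cross_eq_zero hvw (cross_mulVec_sub hvw hst g w)
  · apply Units.ext
    rw [hf₁, hf₁, hmat g s hs]
  · apply Units.ext
    rw [hf₂, hf₂, hmat g s hs]
  · rw [hf₁, hf₂, ← det_eq hvw hst g]
    exact hdet (locp p g) n hn

end Fermat.Agent.ES.T56.FlatStable4
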