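/-
Programme T (S56), chapter FLAT, FLAT-P representation side, brick P3 (helper10):

  `flatPLowerLeft_of_pkg : FlatPkgIface20.FlatPkg p k → FlatIface20.FlatPLowerLeft p k`.

Pure `k`-linear algebra on `V = k² ⊕ ε k²` (`FlatPkgIface20.VV k`, `act p r g (a, b) = (ρ̄ a, ρ̄ b + r₁ a)`).
`⟨v⟩` is a stable line with characters `ψ₁` (sub), `ψ₂` (quotient), `ψ₂` unramified; then `ψ₁` is ramified:
pick `g₀ ∈ I` with `λ = ψ₁(g₀) - 1 ≠ 0`.  With `M°` from `FlatPkg`:
* `y = (r(g₀) - 1)(λ⁻¹ v, 0) = (v, u)`, `u = λ⁻¹ r₁(g₀) v`, lies in `M°` (Q1);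
* `z = r(g) y - ψ₁(g) y = (0, c g)`, `c g = ρ̄(g) u + r₁(g) v - ψ₁(g) u`, lies in `M°`
  (`r(g)(r(g₀) - 1) = (r(g g₀ g⁻¹) - 1) r(g)`, inertia is normal);
* `(r(h) - 1) z = (0, (ρ̄(h) - ψ₂(h)) c g) ∈ E₂ = 0 ⊕ k v` for `h ∈ I`, so (Q2) gives `c g ∈ k v`;
* `m₀ x = (cross v u · cross x w) w` (`cross v w = 1`) has trace `0` and `m₀ v ≡ u (mod k v)`, and
  `(epsPart r g + ρ̄(g) m₀ ρ̄(g)⁻¹ - m₀) v = ψ₁(g)⁻¹ c g ∈ k v`.
-/
import Mathlib
import Fermat.Agent.ES.T56.FlatIface20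
import Fermat.Agent.ES.T56.FlatPkgIface20
import Fermat.Agent.ES.T56.FlatStable4

set_option autoImplicit false
set_option linter.unusedSectionVars false

namespace Fermat.Agent.ES.T56.FlatPLower10

open ExtCitation Fermat.Agent.S53 Fermat.Agent.ES.T56.Ad0Rep10 Fermat.Agent.ES.T56.FlatIface20
  Fermat.Agent.ES.T56.FlatPkgIface20 Fermat.Agent.ES.T56.FlatStable4

/-! ### Pure linear algebra on `k²` -/

section Algebra

variable {k : Type} [Field k]

/-- The vector identity behind the last step. -/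
theorem key_identity (a b t : k) (hab : a * b = 1) (X Y u v : Fin 2 → k) :
    a • X + a • (Y + t • (b • v)) - (u + t • v) = a • (Y + X - b • u) := by
  funext i
  simp only [Pi.add_apply, Pi.sub_apply, Pi.smul_apply, smul_eq_mul]
  linear_combination (t * v i + u i) * hab

/-- `cross` unfolded (stated here so that no equation lemma of `FlatStable4.cross` is generated). -/
theorem cross_def (x y : Fin 2 → k) : cross x y = x 0 * y 1 - x 1 * y 0 := rfl

/-- The matrix `x ↦ (s · cross x w) w`. -/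
def rankOne (s : k) (w : Fin 2 → k) : M2 k :=
  Matrix.of fun i j => s * w i * (![w 1, -w 0] j)

theorem rankOne_mulVec (s : k) (w x : Fin 2 → k) :
    (rankOne s w).mulVec x = (s * cross x w) • w := by
  funext i
  simp only [rankOne, Matrix.mulVec, dotProduct, Fin.sum_univ_two, Matrix.of_apply,
    Matrix.cons_val_zero, Matrix.cons_val_one, Pi.smul_apply, smul_eq_mul, cross_def]
  ring

theorem rankOne_trace (s : k) (w : Fin 2 → k) : (rankOne s w).trace = 0 := by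
  simp only [rankOne, Matrix.trace, Matrix.diag, Fin.sum_univ_two, Matrix.of_apply,
    Matrix.cons_val_zero, Matrix.cons_val_one]
  ring

/-- `m₀ v = u + t v` for `m₀ = rankOne (cross v u) w`, `cross v w = 1`. -/
theorem rankOne_mulVec_self {v w : Fin 2 → k} (hvw : cross v w = 1) (u : Fin 2 → k) :
    (rankOne (cross v u) w).mulVec v = u + (-cross u w) • v := by
  rw [rankOne_mulVec, hvw, mul_one]
  have h := eq_cross_smul_add hvw u
  funext i
  have hi := congrFun h i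
  simp only [Pi.add_apply, Pi.smul_apply, smul_eq_mul] at hi ⊢
  linear_combination (-1 : k) * hi

end Algebra

/-! ### The action on `V = k² ⊕ ε k²` -/

section Act

variable {p : ℕ} [Fact p.Prime] {k : Type} [Field k]

/-- `E₂ = 0 ⊕ k v`. -/
def lineSub (v : Fin 2 → k) : AddSubgroup (VV k) where
  carrier := {x | x.1 = 0 ∧ x.2 ∈ Submodule.span k {v}}
  add_mem' := by
    rintro x y ⟨hx1, hx2⟩ ⟨hy1, hy2⟩
    refine ⟨?_, ?_⟩
    · rw [Prod.fst_add, hx1, hy1, add_zero]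
    · rw [Prod.snd_add]
      exact Submodule.add_mem _ hx2 hy2
  zero_mem' := ⟨rfl, Submodule.zero_mem _⟩
  neg_mem' := by
    rintro x ⟨hx1, hx2⟩
    refine ⟨?_, ?_⟩
    · rw [Prod.fst_neg, hx1, neg_zero]
    · rw [Prod.snd_neg]
      exact Submodule.neg_mem _ hx2

theorem mem_lineSub_iff (v : Fin 2 → k) (x : VV k) :
    x ∈ lineSub v ↔ x.1 = 0 ∧ x.2 ∈ Submodule.span k {v} := Iff.rfl

theorem act_sub (r : GQ →* M2 (DualNumber k)) (g : Gp p) (x y : VV k) :
    act p r g (x - y) = act p r g x - act p r g y := by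
  have h : x - y = x + (-1 : k) • y := by rw [neg_one_smul, sub_eq_add_neg]
  rw [h, act_add, act_smul, neg_one_smul, sub_eq_add_neg]

variable {rbar : GQ →* M2 k} {r : GQ →* M2 (DualNumber k)} (hfst : ∀ σ, fstM (r σ) = rbar σ)

include hfst in
theorem act_mk (g : Gp p) (a b : Fin 2 → k) :
    act p r g (a, b) = ((rbar (locp p g)).mulVec a,
      (rbar (locp p g)).mulVec b + (sndM (r (locp p g))).mulVec a) := by
  rw [← hfst]
  rfl

include hfst in
theorem act_zero_mk (g : Gp p) (b : Fin 2 → k) :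
    act p r g ((0 : Fin 2 → k), b) = ((0 : Fin 2 → k), (rbar (locp p g)).mulVec b) := by
  rw [act_mk hfst, Matrix.mulVec_zero, Matrix.mulVec_zero, add_zero]

variable {v : Fin 2 → k} {ψ₁ ψ₂ : Gp p →* kˣ} (hv : IsStableLine p rbar v ψ₁ ψ₂)

include hfst hv in
/-- `E₂` is stable under `G_p`. -/
theorem act_mem_lineSub (g : Gp p) (x : VV k) (hx : x ∈ lineSub v) :
    act p r g x ∈ lineSub v := by
  obtain ⟨a, b⟩ := x
  obtain ⟨h1, h2⟩ := hx
  have h1' : a = 0 := h1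
  subst h1'
  rw [act_zero_mk hfst]
  refine ⟨rfl, ?_⟩
  obtain ⟨c, rfl⟩ := Submodule.mem_span_singleton.1 h2
  show (rbar (locp p g)).mulVec (c • v) ∈ Submodule.span k {v}
  rw [Matrix.mulVec_smul, hv.sub g]
  exact Submodule.smul_mem _ _ (Submodule.smul_mem _ _ (Submodule.mem_span_singleton_self v))

end Act

/-! ### The main step: `ρ̄(g) u + r₁(g) v - ψ₁(g) u ∈ k v` -/

section Main

variable {p : ℕ} [Fact p.Prime] {k : Type} [Field k]
  {rbar : GQ →* M2 k} {r : GQ →* M2 (DualNumber k)} (hfst : ∀ σ, fstM (r σ) = rbar σ)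
  {v : Fin 2 → k} {ψ₁ ψ₂ : Gp p →* kˣ} (hv : IsStableLine p rbar v ψ₁ ψ₂)
  (hur : IsUnramChar p ψ₂)
  {M0 : AddSubgroup (VV k)}
  (hQ1 : ∀ g ∈ inertiaGp p, ∀ x : VV k, act p r g x - x ∈ M0)
  (hQ2 : ∀ E₂ : AddSubgroup (VV k), (∀ (g : Gp p), ∀ x ∈ E₂, act p r g x ∈ E₂) →
    ∀ x ∈ M0, (∀ g ∈ inertiaGp p, act p r g x - x ∈ E₂) → x ∈ E₂)
  {g₀ : Gp p} (hg₀ : g₀ ∈ inertiaGp p) (hne : ψ₁ g₀ ≠ 1)

include hfst hv hur hQ1 hQ2 hg₀ hne in
theorem exists_u :
    ∃ u : Fin 2 → k, ∀ g : Gp p,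
      (rbar (locp p g)).mulVec u + (sndM (r (locp p g))).mulVec v - ((ψ₁ g : kˣ) : k) • u ∈
        Submodule.span k {v} := by
  -- `λ = ψ₁(g₀) - 1 ≠ 0`
  set lam : k := ((ψ₁ g₀ : kˣ) : k) - 1 with hlam
  have hlam0 : lam ≠ 0 := by
    intro h0
    apply hne
    apply Units.ext
    rw [Units.val_one]
    exact sub_eq_zero.1 h0
  set u : Fin 2 → k := lam⁻¹ • (sndM (r (locp p g₀))).mulVec v with hu
  set x₀ : VV k := (lam⁻¹ • v, 0) with hx₀
  set y : VV k := (v, u) with hy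
  have hlv : ((ψ₁ g₀ : kˣ) : k) • v - v = lam • v := by rw [hlam, sub_smul, one_smul]
  -- `y = (r(g₀) - 1) x₀`
  have hyx : y = act p r g₀ x₀ - x₀ := by
    rw [hx₀, act_mk hfst]
    apply Prod.ext
    · show v = (rbar (locp p g₀)).mulVec (lam⁻¹ • v) - lam⁻¹ • v
      rw [Matrix.mulVec_smul, hv.sub g₀, ← smul_sub, hlv, smul_smul, inv_mul_cancel₀ hlam0,
        one_smul]
    · show u = (rbar (locp p g₀)).mulVec 0 + (sndM (r (locp p g₀))).mulVec (lam⁻¹ • v) - 0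
      rw [Matrix.mulVec_zero, zero_add, sub_zero, Matrix.mulVec_smul]
  refine ⟨u, fun g => ?_⟩
  set c : Fin 2 → k := (rbar (locp p g)).mulVec u + (sndM (r (locp p g))).mulVec v -
    ((ψ₁ g : kˣ) : k) • u with hc
  set z : VV k := ((0 : Fin 2 → k), c) with hz
  -- `z = r(g) y - ψ₁(g) y`
  have hzy : z = act p r g y - ((ψ₁ g : kˣ) : k) • y := by
    rw [hy, act_mk hfst]
    apply Prod.ext
    · show (0 : Fin 2 → k) = (rbar (locp p g)).mulVec v - ((ψ₁ g : kˣ) : k) • v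
      rw [hv.sub g, sub_self]
    · rfl
  -- `r(g) y ∈ M°`
  have h1 : act p r g y ∈ M0 := by
    have e : act p r g y = act p r (g * g₀ * g⁻¹) (act p r g x₀) - act p r g x₀ := by
      rw [hyx, act_sub, ← act_mul, ← act_mul, inv_mul_cancel_right]
    rw [e]
    exact hQ1 _ (inertiaGp_conj_mem hg₀ g) _
  -- `ψ₁(g) y ∈ M°`
  have h2 : ((ψ₁ g : kˣ) : k) • y ∈ M0 := by
    have e : ((ψ₁ g : kˣ) : k) • y =
        act p r g₀ (((ψ₁ g : kˣ) : k) • x₀) - ((ψ₁ g : kˣ) : k) • x₀ := by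
      rw [hyx, smul_sub, act_smul]
    rw [e]
    exact hQ1 g₀ hg₀ _
  have hzM : z ∈ M0 := by
    rw [hzy]
    exact M0.sub_mem h1 h2
  -- `(r(h) - 1) z ∈ E₂` for `h ∈ I`
  have hzI : ∀ h ∈ inertiaGp p, act p r h z - z ∈ lineSub v := by
    intro h hh
    rw [hz, act_zero_mk hfst]
    refine ⟨?_, ?_⟩
    · show (0 : Fin 2 → k) - 0 = 0
      rw [sub_zero]
    · show (rbar (locp p h)).mulVec c - c ∈ Submodule.span k {v}
      have hq := hv.quot h c
      rwa [hur h hh, Units.val_one, one_smul] at hq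
  exact (hQ2 (lineSub v) (fun g' x hx => act_mem_lineSub hfst hv g' x hx) z hzM hzI).2

end Main

/-! ### The statement -/

/-- **P3**: the connected-part package gives `FlatPLowerLeft`. -/
theorem flatPLowerLeft_of_pkg (p : ℕ) [Fact p.Prime] (k : Type) [Field k]
    (hpkg : FlatPkgIface20.FlatPkg p k) : FlatIface20.FlatPLowerLeft p k := by
  intro hp2 hfin rbar v ψ₁ ψ₂ hv hur r hr hfst hdc hflat
  have : CharP k p := charP_of_detIsCyclotomic r hr hdc
  obtain ⟨M0, hQ1, hQ2⟩ := hpkg hp2 hfin inferInstance r hr hflat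
  obtain ⟨g₀, hg₀, hne⟩ := exists_inertia_left_ne_one hp2 hv hur r hr hfst hdc
  obtain ⟨u, hu⟩ := exists_u hfst hv hur hQ1 hQ2 hg₀ hne
  obtain ⟨w, hvw⟩ := exists_cross_eq_one hv.ne
  refine ⟨rankOne (cross v u) w, rankOne_trace _ _, fun g => ?_⟩
  -- the two scalars
  have hab : ((ψ₁ g⁻¹ : kˣ) : k) * ((ψ₁ g : kˣ) : k) = 1 := by
    rw [map_inv, Units.inv_mul]
  have hinv : (rbar (locp p g)⁻¹).mulVec v = ((ψ₁ g⁻¹ : kˣ) : k) • v := by
    rw [← map_inv (locp p) g]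
    exact hv.sub g⁻¹
  have hm := rankOne_mulVec_self hvw u
  -- compute
  have e : (epsPart r (locp p g) +
      (rbar (locp p g) * rankOne (cross v u) w * rbar (locp p g)⁻¹ -
        rankOne (cross v u) w)).mulVec v =
      ((ψ₁ g⁻¹ : kˣ) : k) • ((rbar (locp p g)).mulVec u + (sndM (r (locp p g))).mulVec v -
        ((ψ₁ g : kˣ) : k) • u) := by
    rw [Matrix.add_mulVec, Matrix.sub_mulVec, epsPart_eq, hfst, ← Matrix.mulVec_mulVec,
      ← Matrix.mulVec_mulVec, ← Matrix.mulVec_mulVec, hinv, Matrix.mulVec_smul, Matrix.mulVec_smul,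
      Matrix.mulVec_smul, hm, Matrix.mulVec_add, Matrix.mulVec_smul, hv.sub g, ← add_sub_assoc]
    exact key_identity _ _ _ hab _ _ u v
  rw [e]
  exact Submodule.smul_mem _ _ (hu g)

end Fermat.Agent.ES.T56.FlatPLower10
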