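/-
Programme T (S56), chapter FLAT, FLAT-P representation side, brick P1 (helper20):
**`FlatPIface26.FlatPCore p → FlatPkgIface20.FlatPkg p k`**.

`IsFlatAt` at the ideal `I = ⊥` of `A = k[ε]` gives a Hopf algebra `H` and a bijection `e` from its
`ℚ̄`-points to `V ⧸ ⊥ = V = k[ε]²`.  We transport along
`θ : VV k → T`, `θ x = e⁻¹ (mk (uncoord x))` (additive-to-multiplicative, `G_p`-equivariant), the
subgroup `T0` of `FlatPCore` to `M0 = θ⁻¹ T0`, and translate (Q1), (Q2) (decomposition group = range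
of `G_p`, `LocSurj16`).
-/
import Mathlib
import Fermat.Agent.ES.T56.FlatExportA20
import Fermat.Agent.ES.T56.FlatPkgIface20
import Fermat.Agent.ES.T56.FlatPIface26
import Fermat.Agent.ES.T56.LocSurj16

set_option autoImplicit false
set_option linter.unusedSectionVars false
set_option linter.style.haveILetI false

namespace Fermat.Agent.ES.T56.FlatPkg20

open ExtCitation Fermat.Agent.S53 Fermat.Agent.ES.T56.Ad0Rep10 Fermat.Agent.ES.T56.FlatIface20
  Fermat.Agent.ES.T56.FlatPkgIface20 Fermat.Agent.ES.T56.FlatPIface26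
  Fermat.Agent.ES.T56.PointsBasic20 WithConv

noncomputable section

variable (p : ℕ) [Fact p.Prime] {k : Type} [Field k]

/-! ### Coordinates -/

/-- `a + ε b` from `(a, b)`. -/
def uncoord (x : VV k) : Fin 2 → DualNumber k := fun i => (x.1 i, x.2 i)

theorem uncoord_fst (x : VV k) (i : Fin 2) : (uncoord x i).fst = x.1 i := rfl

theorem uncoord_snd (x : VV k) (i : Fin 2) : (uncoord x i).snd = x.2 i := rfl

theorem uncoord_add (x y : VV k) : uncoord (x + y) = uncoord x + uncoord y := by
  funext i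
  exact TrivSqZeroExt.ext rfl rfl

theorem uncoord_injective : Function.Injective (uncoord (k := k)) := by
  intro x y h
  apply Prod.ext
  · funext i
    exact congrArg TrivSqZeroExt.fst (congrFun h i)
  · funext i
    exact congrArg TrivSqZeroExt.snd (congrFun h i)

theorem uncoord_surjective : Function.Surjective (uncoord (k := k)) := fun w =>
  ⟨(fun i => (w i).fst, fun i => (w i).snd), by funext i; exact TrivSqZeroExt.ext rfl rfl⟩

variable {p}

theorem mulVec_uncoord (r : GQ →* M2 (DualNumber k)) (g : Gp p) (x : VV k) :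
    (r (locp p g)).mulVec (uncoord x) = uncoord (act p r g x) := by
  funext i
  apply TrivSqZeroExt.ext
  · rw [uncoord_fst, act_fst]
    simp only [Matrix.mulVec, dotProduct, Fin.sum_univ_two, TrivSqZeroExt.fst_add,
      TrivSqZeroExt.fst_mul, uncoord_fst, fstM_apply]
  · rw [uncoord_snd, act_snd]
    simp only [Matrix.mulVec, dotProduct, Fin.sum_univ_two, TrivSqZeroExt.snd_add,
      TrivSqZeroExt.snd_mul, uncoord_fst, uncoord_snd, fstM_apply, sndM_apply, Pi.add_apply,
      smul_eq_mul, MulOpposite.smul_eq_mul_unop, MulOpposite.unop_op]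
    ring

/-! ### Galois translates of points -/

section Translate

variable {H : Type} [CommRing H] [Algebra ↥(GaloisRep.ratLocalizedAt p) H]

/-- `σ ∘ y`. -/
def translate (σ : GQ) (y : WithConv (H →ₐ[↥(GaloisRep.ratLocalizedAt p)] AlgebraicClosure ℚ)) :
    WithConv (H →ₐ[↥(GaloisRep.ratLocalizedAt p)] AlgebraicClosure ℚ) :=
  toConv (algHomOfRingHom ((σ : AlgebraicClosure ℚ →+* AlgebraicClosure ℚ).comp
    (y.ofConv : H →+* AlgebraicClosure ℚ)))

theorem translate_apply (σ : GQ)
    (y : WithConv (H →ₐ[↥(GaloisRep.ratLocalizedAt p)] AlgebraicClosure ℚ)) (h : H) :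
    translate σ y h = σ (y h) := rfl

theorem eq_translate (σ : GQ)
    (y y' : WithConv (H →ₐ[↥(GaloisRep.ratLocalizedAt p)] AlgebraicClosure ℚ))
    (h : ∀ a : H, y' a = σ (y a)) : y' = translate σ y :=
  WithConv.ext (AlgHom.ext h)

end Translate

/-! ### The package -/

/-- **P1**: the connected-part package from helper26's core statement. -/
theorem flatPkg (hcore : FlatPCore p) : FlatPkg p k := by
  intro hp2 hfin hchar r hr hflat
  haveI := hfin
  haveI := hchar
  have hI : Finite (DualNumber k ⧸ (⊥ : Ideal (DualNumber k))) :=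
    Finite.of_surjective _ (Ideal.Quotient.mk_surjective (I := (⊥ : Ideal (DualNumber k))))
  obtain ⟨H, instCR, instHopf, hfinH, hflH, hcocomm, e, hadd, hequiv⟩ := hflat.2 ⊥ hI
  haveI := hfinH
  haveI := hflH
  haveI := hcocomm
  -- the quotient map `V → V ⧸ ⊥ • ⊤` is bijective
  have hbot : ((⊥ : Ideal (DualNumber k)) • (⊤ : Submodule (DualNumber k) (ofMatrix r hr).V)) = ⊥ :=
    Submodule.bot_smul _
  have hmk_inj : ∀ w w' : (ofMatrix r hr).V,
      (Submodule.Quotient.mk w : (ofMatrix r hr).V ⧸ ((⊥ : Ideal (DualNumber k)) •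
        (⊤ : Submodule (DualNumber k) (ofMatrix r hr).V))) = Submodule.Quotient.mk w' → w = w' := by
    intro w w' h
    have h2 := (Submodule.Quotient.eq _).mp h
    rw [hbot, Submodule.mem_bot, sub_eq_zero] at h2
    exact h2
  -- `θ`
  let θ : VV k → WithConv (H →ₐ[↥(GaloisRep.ratLocalizedAt p)] AlgebraicClosure ℚ) :=
    fun x => e.symm (Submodule.Quotient.mk (uncoord x : (ofMatrix r hr).V))
  have heθ : ∀ x : VV k, e (θ x) = Submodule.Quotient.mk (uncoord x : (ofMatrix r hr).V) :=
    fun x => e.apply_symm_apply _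
  have hθinj : Function.Injective θ := by
    intro x y h
    have h2 := congrArg e h
    rw [heθ, heθ] at h2
    exact uncoord_injective (hmk_inj _ _ h2)
  have hθsurj : Function.Surjective θ := by
    intro t
    obtain ⟨w, hw⟩ := Submodule.Quotient.mk_surjective _ (e t)
    obtain ⟨x, hx⟩ := uncoord_surjective (k := k) w
    refine ⟨x, ?_⟩
    apply e.injective
    have h2 : (Submodule.Quotient.mk (uncoord x : (ofMatrix r hr).V) :
        (ofMatrix r hr).V ⧸ ((⊥ : Ideal (DualNumber k)) •
          (⊤ : Submodule (DualNumber k) (ofMatrix r hr).V))) = Submodule.Quotient.mk w :=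
      congrArg _ hx
    exact (heθ x).trans (h2.trans hw)
  have hθadd : ∀ x y : VV k, θ (x + y) = θ x * θ y := by
    intro x y
    apply e.injective
    rw [hadd, heθ, heθ, heθ, uncoord_add]
    rfl
  have he1 : e 1 = 0 := by
    have := hadd 1 1
    rw [mul_one] at this
    exact left_eq_add.mp this
  have hθzero : θ 0 = 1 := by
    apply e.injective
    rw [heθ, he1]
    have h0 : (uncoord (0 : VV k) : (ofMatrix r hr).V) = 0 := by
      funext i
      exact TrivSqZeroExt.ext rfl rfl
    rw [h0, Submodule.Quotient.mk_zero]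
    rfl
  -- powers and `p`-torsion
  have hθnsmul : ∀ (n : ℕ) (x : VV k), θ (n • x) = θ x ^ n := by
    intro n x
    induction n with
    | zero => rw [zero_smul, pow_zero, hθzero]
    | succ n ih => rw [succ_nsmul, hθadd, ih, pow_succ]
  have hpx : ∀ x : VV k, (p : ℕ) • x = 0 := by
    intro x
    rw [← Nat.cast_smul_eq_nsmul k, CharP.cast_eq_zero k p, zero_smul]
  have hkill : ∀ t : WithConv (H →ₐ[↥(GaloisRep.ratLocalizedAt p)] AlgebraicClosure ℚ),
      t ^ p = 1 := by
    intro t
    obtain ⟨x, rfl⟩ := hθsurj t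
    rw [← hθnsmul, hpx, hθzero]
  -- equivariance
  have hθact : ∀ (g : Gp p) (x : VV k), translate (locp p g) (θ x) = θ (act p r g x) := by
    intro g x
    apply e.injective
    have h1 := hequiv (locp p g) (θ x) (translate (locp p g) (θ x)) (fun h => rfl)
    rw [h1, heθ, heθ, ← mulVec_uncoord]
    rfl
  obtain ⟨T0, hQ1, hQ2⟩ := hcore hp2 H hkill
  -- `M0`
  have hneg : ∀ x : VV k, -x = (p - 1) • x := by
    intro x
    have hp1 : 1 ≤ p := (Fact.out : p.Prime).one_lt.le
    have h2 : (p - 1) • x + x = 0 := by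
      rw [← succ_nsmul, Nat.sub_add_cancel hp1, hpx]
    exact (eq_neg_of_add_eq_zero_left h2).symm
  let M0 : AddSubgroup (VV k) :=
    { carrier := {x | θ x ∈ T0}
      add_mem' := fun {x y} hx hy => by
        show θ (x + y) ∈ T0
        rw [hθadd]
        exact T0.mul_mem hx hy
      zero_mem' := by
        show θ 0 ∈ T0
        rw [hθzero]
        exact T0.one_mem
      neg_mem' := fun {x} hx => by
        show θ (-x) ∈ T0
        rw [hneg, hθnsmul]
        exact T0.pow_mem hx _ }
  have hmemM0 : ∀ x : VV k, x ∈ M0 ↔ θ x ∈ T0 := fun x => Iff.rfl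
  -- inertia
  have hIP : ∀ g : Gp p, g ∈ inertiaGp p ↔
      locp p g ∈ (padicPlace p).inertiaSubgroupIn ℚ := fun g => Iff.rfl
  refine ⟨M0, ?_, ?_⟩
  · -- (Q1)
    intro g hg x
    obtain ⟨z, hz, hzy⟩ := hQ1 (locp p g) ((hIP g).mp hg) (θ x) (translate (locp p g) (θ x))
      (fun h => rfl)
    obtain ⟨d, rfl⟩ := hθsurj z
    rw [hθact, ← hθadd] at hzy
    have hd : act p r g x - x = d := by rw [hθinj hzy, add_sub_cancel_right]
    rw [hmemM0, hd]
    exact hz
  · -- (Q2)
    intro E₂ hE₂ x hx hxE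
    let E₂' : Submonoid (WithConv (H →ₐ[↥(GaloisRep.ratLocalizedAt p)] AlgebraicClosure ℚ)) :=
      { carrier := θ '' (E₂ : Set (VV k))
        mul_mem' := by
          rintro _ _ ⟨a, ha, rfl⟩ ⟨b, hb, rfl⟩
          exact ⟨a + b, E₂.add_mem ha hb, hθadd a b⟩
        one_mem' := ⟨0, E₂.zero_mem, hθzero⟩ }
    have hstab : ∀ σ ∈ (padicPlace p).decompositionSubgroup ℚ,
        ∀ t t' : WithConv (H →ₐ[↥(GaloisRep.ratLocalizedAt p)] AlgebraicClosure ℚ),
          t ∈ E₂' → (∀ h : H, t' h = σ (t h)) → t' ∈ E₂' := by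
      intro σ hσ t t' ht htt'
      rw [← LocSurj16.range_eq p] at hσ
      obtain ⟨g, rfl⟩ := hσ
      obtain ⟨a, ha, rfl⟩ := ht
      have e1 : t' = translate (locp p g) (θ a) := eq_translate _ _ _ htt'
      rw [e1, hθact]
      exact ⟨_, hE₂ g a ha, rfl⟩
    have hx' := hQ2 E₂' hstab (θ x) ((hmemM0 x).mp hx) (by
      intro σ hσ x' hxx'
      obtain ⟨g, rfl⟩ := LocSurj16.inertia_le_range p hσ
      have e1 : x' = translate (locp p g) (θ x) := eq_translate _ _ _ hxx'
      refine ⟨θ (act p r g x - x), ⟨_, hxE g ((hIP g).mpr hσ), rfl⟩, ?_⟩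
      rw [e1, hθact, ← hθadd, sub_add_cancel])
    obtain ⟨a, ha, hax⟩ := hx'
    rw [← hθinj hax]
    exact ha

end

end Fermat.Agent.ES.T56.FlatPkg20
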