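/-
Programme T (S56), chapter LOC, leg ORD-p (helper11): **the mod-`p` cyclotomic character is ramified at `p`**
(`p` odd).

* `padicPlace_liesOverPrime`, `primeLocalPlace_liesOverPrime` : the Prelude's place of `ℚ̄` over `q` lies over `q`;
* `valuation_one_sub_lt_one` : `v(1 - ζ) < 1` for a `p`-th root of unity `ζ` at a place over `p`;
* `exists_inertia_apply_ne` : `P` over an odd prime `p`, `ζ` a primitive `p`-th root of unity: some `τ ∈ I_P` moves `ζ`
  (otherwise `p ∣ 1 - ζ` in `P` by `P36.UnrFixed1.div_natCast_mem_of_fixed`, against `∏_{k<p} (1 - ζ^k) = p`);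
* `exists_inertia_exponent_ne_one` : the same in the language of the Prelude's local conditions: there are `τ ∈ I_P` and
  `a : ℕ` with `τ μ = μ ^ a` on `μ_p` and `a ≢ 1 (mod p)`.
-/
import Mathlib
import Fermat.Prelude.Def_ExtEndgame_ProductionDatum
import Fermat.Agent.S05.Inertia
import Fermat.Agent.ES.P36.UnrFixed1

set_option autoImplicit false
set_option linter.style.haveILetI false

namespace Fermat.Agent.ES.T56.RamOmega11

open Fermat.Agent.S05.Inertia

/-! ### The Prelude's places -/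

theorem padicPlace_liesOverPrime (q : ℕ) [Fact q.Prime] : (padicPlace q).LiesOverPrime q := by
  have hq : q.Prime := Fact.out
  have hq0 : (q : (AlgebraicClosure ℚ)) ≠ 0 := Nat.cast_ne_zero.mpr hq.ne_zero
  have hv : ‖padicEmbedding q (q : (AlgebraicClosure ℚ))‖₊ = 1 / (q : NNReal) := by
    rw [map_natCast]
    exact PadicAlgCl.valuation_p q
  have hlt : (1 : NNReal) / (q : NNReal) < 1 := by
    rw [div_lt_one (by exact_mod_cast hq.pos)]
    exact_mod_cast hq.one_lt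
  show (q : (AlgebraicClosure ℚ)) ∈ (padicPlace q).nonunits
  rw [ValuationSubring.mem_nonunits_iff, ← not_le]
  intro hle
  have h1 : (padicPlace q).valuation ((q : (AlgebraicClosure ℚ))⁻¹) ≤ 1 := by
    rw [map_inv₀]
    exact inv_le_one_of_one_le₀ hle
  rw [ValuationSubring.valuation_le_one_iff, mem_padicPlace_iff, map_inv₀, nnnorm_inv, hv] at h1
  rw [one_div, inv_inv] at h1
  have : (1 : NNReal) < (q : NNReal) := by exact_mod_cast hq.one_lt
  exact absurd h1 (not_le.mpr this)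

theorem primeLocalPlace_liesOverPrime (q : Nat.Primes) :
    (ExtCitation.primeLocalPlace q).LiesOverPrime (q : ℕ) := by
  haveI : Fact (q : ℕ).Prime := ⟨q.2⟩
  exact padicPlace_liesOverPrime (q : ℕ)

/-! ### Inertia moves `ζ_p` -/

variable (P : ValuationSubring (AlgebraicClosure ℚ)) {p : ℕ}

/-- A `p`-th root of unity is integral at `P`. -/
theorem root_mem {ζ : (AlgebraicClosure ℚ)} (hp : p.Prime) (hζ : ζ ^ p = 1) : ζ ∈ P := by
  rw [← ValuationSubring.valuation_le_one_iff]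
  have h1 : P.valuation ζ ^ p = 1 := by rw [← map_pow, hζ, map_one]
  exact le_of_eq ((pow_eq_one_iff_of_nonneg zero_le hp.ne_zero).mp h1)

/-- `v (1 - ζ) < 1` for a `p`-th root of unity `ζ` at a place over `p`. -/
theorem valuation_one_sub_lt_one (hp : p.Prime) (hP : P.LiesOverPrime p) {ζ : (AlgebraicClosure ℚ)}
    (hζ : ζ ^ p = 1) : P.valuation (1 - ζ) < 1 := by
  haveI : Fact p.Prime := ⟨hp⟩
  -- work in the ring `P`
  set z : P := ⟨ζ, root_mem P hp hζ⟩ with hz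
  have hz1 : z ^ p = 1 := Subtype.ext (by simpa using hζ)
  -- `(1 - z)^p ∈ (p)` in `P`
  have hmem : (1 - z) ^ p ∈ Ideal.span {(p : P)} := by
    rw [← Ideal.Quotient.eq_zero_iff_mem, map_pow, map_sub, map_one]
    haveI : CharP (P ⧸ Ideal.span {(p : P)}) p := by
      apply CharP.quotient
      rw [mem_nonunits_iff]
      intro hu
      have h1 : P.valuation (((p : P) : (AlgebraicClosure ℚ))) = 1 :=
        (ValuationSubring.valuation_eq_one_iff P (p : P)).mp hu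
      have h2 := valuation_prime_lt_one hP
      rw [show (((p : P) : P) : (AlgebraicClosure ℚ)) = (p : (AlgebraicClosure ℚ)) by simp] at h1
      rw [h1] at h2
      exact lt_irrefl _ h2
    rw [sub_pow_char, one_pow, ← map_pow, hz1, map_one, sub_self]
  obtain ⟨t, ht⟩ := Ideal.mem_span_singleton.mp hmem
  have h3 : (1 - ζ) ^ p = (p : (AlgebraicClosure ℚ)) * (t : (AlgebraicClosure ℚ)) := by
    have := congrArg (Subtype.val : P → (AlgebraicClosure ℚ)) ht
    simpa [hz] using this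
  have h4 : P.valuation (1 - ζ) ^ p < 1 := by
    rw [← map_pow, h3, map_mul]
    calc P.valuation (p : (AlgebraicClosure ℚ)) * P.valuation (t : (AlgebraicClosure ℚ)) ≤ P.valuation (p : (AlgebraicClosure ℚ)) * 1 :=
          mul_le_mul_right ((ValuationSubring.valuation_le_one_iff P _).mpr t.2) _
      _ < 1 := by rw [mul_one]; exact valuation_prime_lt_one hP
  by_contra hge
  rw [not_lt] at hge
  exact absurd (one_le_pow₀ hge) (not_le.mpr h4)

/-- **Inertia at an odd prime `p` acts non-trivially on `μ_p`.** -/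
theorem exists_inertia_apply_ne (hp : p.Prime) (hp2 : p ≠ 2) (hP : P.LiesOverPrime p) {ζ : (AlgebraicClosure ℚ)}
    (hζ : IsPrimitiveRoot ζ p) : ∃ τ ∈ P.inertiaSubgroupIn ℚ, τ ζ ≠ ζ := by
  by_contra hcon
  replace hcon : ∀ τ ∈ P.inertiaSubgroupIn ℚ, τ ζ = ζ := fun τ hτ => by
    by_contra h
    exact hcon ⟨τ, hτ, h⟩
  have hfix : ∀ τ ∈ P.inertiaSubgroupIn ℚ, τ (1 - ζ) = 1 - ζ := fun τ hτ => by
    rw [map_sub, map_one, hcon τ hτ]
  have hx : (1 - ζ) ∈ P.nonunits :=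
    (ValuationSubring.mem_nonunits_iff (A := P)).mpr
      (valuation_one_sub_lt_one P hp hP hζ.pow_eq_one)
  have hdiv := Fermat.Agent.ES.P36.UnrFixed1.div_natCast_mem_of_fixed P hp hP (1 - ζ) hfix hx
  have hp0 : (p : (AlgebraicClosure ℚ)) ≠ 0 := Nat.cast_ne_zero.mpr hp.ne_zero
  have hvp : P.valuation (p : (AlgebraicClosure ℚ)) < 1 := valuation_prime_lt_one hP
  have hvp0 : P.valuation (p : (AlgebraicClosure ℚ)) ≠ 0 := (Valuation.ne_zero_iff _).mpr hp0
  -- `v (1 - ζ) ≤ v p`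
  have h1 : P.valuation (1 - ζ) ≤ P.valuation (p : (AlgebraicClosure ℚ)) := by
    have h := (ValuationSubring.valuation_le_one_iff P _).mpr hdiv
    rw [map_div₀] at h
    exact (div_le_one₀ (zero_lt_iff.mpr hvp0)).mp h
  -- `v (1 - ζ^k) ≤ v (1 - ζ)`
  have h2 : ∀ k : ℕ, P.valuation (1 - ζ ^ k) ≤ P.valuation (1 - ζ) := by
    intro k
    obtain ⟨c, hc⟩ : (1 : P) - (⟨ζ, root_mem P hp hζ.pow_eq_one⟩ : P) ∣
        1 ^ k - (⟨ζ, root_mem P hp hζ.pow_eq_one⟩ : P) ^ k := sub_dvd_pow_sub_pow _ _ k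
    have hc' : 1 - ζ ^ k = (1 - ζ) * (c : (AlgebraicClosure ℚ)) := by
      have := congrArg (Subtype.val : P → (AlgebraicClosure ℚ)) hc
      simpa using this
    rw [hc', map_mul]
    calc P.valuation (1 - ζ) * P.valuation (c : (AlgebraicClosure ℚ)) ≤ P.valuation (1 - ζ) * 1 :=
          mul_le_mul_right ((ValuationSubring.valuation_le_one_iff P _).mpr c.2) _
      _ = P.valuation (1 - ζ) := mul_one _
  -- `p = ∏_{k < p - 1} (1 - ζ^(k+1))`
  obtain ⟨n, rfl⟩ : ∃ n, p = n + 1 := ⟨p - 1, (Nat.succ_pred_eq_of_pos hp.pos).symm⟩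
  have hprod := hζ.prod_one_sub_pow_eq_order
  have h3 : P.valuation ((n + 1 : ℕ) : (AlgebraicClosure ℚ)) ≤ P.valuation ((n + 1 : ℕ) : (AlgebraicClosure ℚ)) ^ n := by
    have hcast : ((n + 1 : ℕ) : (AlgebraicClosure ℚ)) = (n : (AlgebraicClosure ℚ)) + 1 := by push_cast; ring
    calc P.valuation ((n + 1 : ℕ) : (AlgebraicClosure ℚ))
        = ∏ k ∈ Finset.range n, P.valuation (1 - ζ ^ (k + 1)) := by
          rw [hcast, ← hprod, map_prod]
      _ ≤ ∏ _k ∈ Finset.range n, P.valuation ((n + 1 : ℕ) : (AlgebraicClosure ℚ)) :=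
          Finset.prod_le_prod' fun k _ => (h2 (k + 1)).trans h1
      _ = P.valuation ((n + 1 : ℕ) : (AlgebraicClosure ℚ)) ^ n := by
          rw [Finset.prod_const, Finset.card_range]
  -- `n ≥ 2`, so `v p ^ n < v p`
  have hn : 2 ≤ n := by
    have := hp.two_le
    omega
  have h4 : P.valuation ((n + 1 : ℕ) : (AlgebraicClosure ℚ)) ^ n < P.valuation ((n + 1 : ℕ) : (AlgebraicClosure ℚ)) := by
    calc P.valuation ((n + 1 : ℕ) : (AlgebraicClosure ℚ)) ^ n
        ≤ P.valuation ((n + 1 : ℕ) : (AlgebraicClosure ℚ)) ^ 2 := pow_le_pow_of_le_one zero_le hvp.le hn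
      _ = P.valuation ((n + 1 : ℕ) : (AlgebraicClosure ℚ)) * P.valuation ((n + 1 : ℕ) : (AlgebraicClosure ℚ)) := sq _
      _ < P.valuation ((n + 1 : ℕ) : (AlgebraicClosure ℚ)) * 1 :=
          mul_lt_mul_of_pos_left hvp (zero_lt_iff.mpr hvp0)
      _ = P.valuation ((n + 1 : ℕ) : (AlgebraicClosure ℚ)) := mul_one _
  exact absurd h3 (not_le.mpr h4)

/-- The form used with the Prelude's local conditions: an inertia element whose exponent on `μ_p` is `≢ 1`. -/
theorem exists_inertia_exponent_ne_one (hp : p.Prime) (hp2 : p ≠ 2) (hP : P.LiesOverPrime p) :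
    ∃ τ ∈ P.inertiaSubgroupIn ℚ, ∃ a : ℕ, (∀ μ : (AlgebraicClosure ℚ), μ ^ p = 1 → τ μ = μ ^ a) ∧ ¬ (a ≡ 1 [MOD p]) := by
  haveI : NeZero p := ⟨hp.ne_zero⟩
  obtain ⟨ζ, hζ⟩ : ∃ ζ : (AlgebraicClosure ℚ), IsPrimitiveRoot ζ p :=
    HasEnoughRootsOfUnity.exists_primitiveRoot (AlgebraicClosure ℚ) p
  obtain ⟨τ, hτ, hne⟩ := exists_inertia_apply_ne P hp hp2 hP hζ
  -- `τ ζ` is a power of `ζ`
  have hτζ : (τ ζ) ^ p = 1 := by rw [← map_pow, hζ.pow_eq_one, map_one]
  obtain ⟨a, -, ha⟩ := hζ.eq_pow_of_pow_eq_one hτζ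
  refine ⟨τ, hτ, a, fun μ hμ => ?_, fun hmod => hne ?_⟩
  · obtain ⟨i, -, rfl⟩ := hζ.eq_pow_of_pow_eq_one hμ
    rw [map_pow, ← ha, ← pow_mul, ← pow_mul, mul_comm]
  · rw [← ha]
    have h1 : ζ ^ a = ζ ^ (a % p) := by rw [hζ.eq_orderOf, pow_mod_orderOf]
    have h2 : a % p = 1 := by
      have := hmod
      unfold Nat.ModEq at this
      rw [this]
      exact Nat.mod_eq_of_lt hp.one_lt
    rw [h1, h2, pow_one]


/-- Every `σ ∈ G_ℚ` acts on `μ_p` by `μ ↦ μ ^ a` for some `a` prime to `p`. -/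
theorem exists_exponent (hp : p.Prime) (σ : (AlgebraicClosure ℚ) ≃ₐ[ℚ] (AlgebraicClosure ℚ)) :
    ∃ a : ℕ, (∀ μ : (AlgebraicClosure ℚ), μ ^ p = 1 → σ μ = μ ^ a) ∧ ¬ p ∣ a := by
  haveI : NeZero p := ⟨hp.ne_zero⟩
  obtain ⟨ζ, hζ⟩ : ∃ ζ : (AlgebraicClosure ℚ), IsPrimitiveRoot ζ p :=
    HasEnoughRootsOfUnity.exists_primitiveRoot (AlgebraicClosure ℚ) p
  have hσζ : (σ ζ) ^ p = 1 := by rw [← map_pow, hζ.pow_eq_one, map_one]
  obtain ⟨a, -, ha⟩ := hζ.eq_pow_of_pow_eq_one hσζ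
  refine ⟨a, fun μ hμ => ?_, fun hdvd => ?_⟩
  · obtain ⟨i, -, rfl⟩ := hζ.eq_pow_of_pow_eq_one hμ
    rw [map_pow, ← ha, ← pow_mul, ← pow_mul, mul_comm]
  · obtain ⟨t, rfl⟩ := hdvd
    rw [pow_mul, hζ.pow_eq_one, one_pow] at ha
    have h1 : ζ = 1 := σ.injective (by rw [← ha, map_one])
    exact hζ.ne_one hp.one_lt h1

end Fermat.Agent.ES.T56.RamOmega11
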