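/-
Programme T (S56, Taylor–Wiles primes), chapter FLAT, leg FLAT-C (helper14): the input `Prop`
**`RedShape p k`** of `FlatIface20` PROVED.

`p = 3`, `ψ₁, ψ₂ : G_p → kˣ` level-constant characters with `ψ₁ ψ₂ = ω`.  At a common finite Galois
level `L`, with the tame package `FlatTameP14.exists_tame_package`: the wild inertia `P` (a `p`-group modulo
the level) is killed by `ψᵢ` (`kˣ` has order prime to `p`); `φ x φ⁻¹ ≡ x ^ p mod P` gives
`ψᵢ(x) ^ (p - 1) = 1`, i.e. `ψᵢ(x)² = 1`, on the inertia group `I`; `I = ⟨τ₀⟩ P` gives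
`ψᵢ(x) = εᵢ ^ n` with `εᵢ = ψᵢ(τ₀) = ± 1`.  If `ε₁ = ε₂ = -1` then `ω = ψ₁ ψ₂` is trivial on `I`,
against `RamOmega11.exists_inertia_exponent_ne_one` (helper11) and `LocSurj16` (helper16).
-/
import Mathlib
import Fermat.Agent.ES.T56.FlatIface20
import Fermat.Agent.ES.T56.FlatTameP14
import Fermat.Agent.ES.T56.RamOmega11

set_option autoImplicit false
set_option linter.unusedSectionVars false

namespace Fermat.Agent.ES.T56.FlatRedShape14

open ExtCitation groupCohomology Fermat.Agent.S53 Fermat.Agent.ES.T56.FlatIface20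
  Fermat.Agent.ES.T56.FlatTameP14
open Fermat.Agent.ES.T56.InertiaBridge1 (inertiaLevel)

local notation "Qbar" => AlgebraicClosure ℚ

variable (p : ℕ) [Fact p.Prime]

/-- A level-constant character is trivial on `r⁻¹ Gal(ℚ̄/F)` for some finite `F`. -/
theorem exists_level_of_char {X : Type*} [Monoid X] {ψ : Gp p →* X}
    (h : IsLevelConstant₁ (locp p) ψ) :
    ∃ F : IntermediateField ℚ Qbar, FiniteDimensional ℚ F ∧
      ∀ g : Gp p, locp p g ∈ F.fixingSubgroup → ψ g = 1 := by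
  obtain ⟨F, hF, hc⟩ := h
  refine ⟨F, hF, fun g hg => ?_⟩
  have := hc 1 g hg
  rwa [one_mul, map_one] at this

/-- The units of a finite field of characteristic `p` have order prime to `p`. -/
theorem coprime_card_units (k : Type) [Field k] [Finite k] [CharP k p] :
    (Nat.card kˣ).Coprime p := by
  have hp : p.Prime := Fact.out
  have hfint := Fintype.ofFinite k
  obtain ⟨n, -, hn⟩ := FiniteField.card k p
  have h1 : Nat.card k = Nat.card kˣ + 1 := Nat.card_eq_card_units_add_one _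
  rw [Nat.card_eq_fintype_card, hn] at h1
  rw [Nat.coprime_comm, Nat.Prime.coprime_iff_not_dvd hp]
  intro hdvd
  have h2 : p ∣ p ^ (n : ℕ) := dvd_pow_self _ n.ne_zero
  rw [h1, Nat.dvd_add_right hdvd] at h2
  exact hp.one_lt.ne' (Nat.dvd_one.1 h2)

/-- **`RedShape p k`.** -/
theorem redShape (k : Type) [Field k] : RedShape p k := by
  intro hp3 hfin hchar ψ₁ ψ₂ hl₁ hl₂ hprod
  have hp : p.Prime := Fact.out
  obtain ⟨F₁, hF₁, hk₁⟩ := exists_level_of_char p hl₁
  obtain ⟨F₂, hF₂, hk₂⟩ := exists_level_of_char p hl₂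
  set L := IntermediateField.normalClosure ℚ (↥(F₁ ⊔ F₂)) Qbar with hLdef
  have hfd : FiniteDimensional ℚ L := normalClosure.is_finiteDimensional ℚ (↥(F₁ ⊔ F₂)) Qbar
  have hgal : IsGalois ℚ L := IsGalois.normalClosure ℚ (↥(F₁ ⊔ F₂)) Qbar
  have hNF : NumberField L := ⟨⟩
  have hle : F₁ ⊔ F₂ ≤ L := IntermediateField.le_normalClosure (F₁ ⊔ F₂)
  have hker₁ : ∀ g : Gp p, locp p g ∈ L.fixingSubgroup → ψ₁ g = 1 := fun g hg =>
    hk₁ g (IntermediateField.fixingSubgroup_antitone (le_trans le_sup_left hle) hg)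
  have hker₂ : ∀ g : Gp p, locp p g ∈ L.fixingSubgroup → ψ₂ g = 1 := fun g hg =>
    hk₂ g (IntermediateField.fixingSubgroup_antitone (le_trans le_sup_right hle) hg)
  obtain ⟨P, m, φ, τ₀, hPI, -, hPq, -, -, -, -, hrel, hτ₀, hcyc⟩ :=
    exists_tame_package (pPrime p) L
  set I := inertiaLevel (primeLocalPlace (pPrime p)) L (primeLocalToGlobal (pPrime p)) with hIdef
  have hinI : inertiaGp p ≤ I := fun g hg => Subgroup.mem_comap.2 (Subgroup.mem_sup_left hg)
  have hcop := coprime_card_units p k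
  -- the general analysis of a character trivial on the level
  have key : ∀ ψ : Gp p →* kˣ, (∀ g : Gp p, locp p g ∈ L.fixingSubgroup → ψ g = 1) →
      (∀ x ∈ P, ψ x = 1) ∧ (∀ x ∈ I, ψ x ^ 2 = 1) := by
    intro ψ hψ
    have hP1 : ∀ x ∈ P, ψ x = 1 := by
      intro x hx
      obtain ⟨a, ha⟩ := hPq x hx
      have h1 : ψ x ^ (p ^ a) = 1 := by
        rw [← map_pow]
        exact hψ _ ha
      have h2 : ψ x ^ Nat.card kˣ = 1 := pow_card_eq_one'
      exact (pow_eq_one_iff_of_coprime (Nat.Coprime.pow_left a hcop.symm)).mp ⟨h1, h2⟩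
    refine ⟨hP1, fun x hx => ?_⟩
    have h1 := hP1 _ (hrel x hx)
    rw [map_mul, map_mul, map_mul, map_inv, map_inv, map_pow, mul_comm (ψ φ), mul_inv_cancel_right]
      at h1
    have h2 : ψ x = ψ x ^ 3 := by
      have : ((pPrime p : Nat.Primes) : ℕ) = 3 := hp3
      rw [this] at h1
      exact mul_inv_eq_one.1 h1
    have h3 : ψ x * 1 = ψ x * ψ x ^ 2 := by
      rw [mul_one, ← pow_succ']
      exact h2
    exact (mul_left_cancel h3).symm
  obtain ⟨hP₁, hsq₁⟩ := key ψ₁ hker₁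
  obtain ⟨hP₂, hsq₂⟩ := key ψ₂ hker₂
  have hτ₀I : τ₀ ∈ I := hinI hτ₀
  -- values on `I` are powers of the values at `τ₀`
  have hpow : ∀ ψ : Gp p →* kˣ, (∀ x ∈ P, ψ x = 1) → ∀ x ∈ I, ∀ n : ℕ, (τ₀ ^ n)⁻¹ * x ∈ P →
      ψ x = ψ τ₀ ^ n := by
    intro ψ hψP x _ n hn
    have h1 := hψP _ hn
    rw [map_mul, map_inv, map_pow, inv_mul_eq_one] at h1
    exact h1.symm
  by_cases h1 : ψ₁ τ₀ = 1
  · left
    intro g hg
    obtain ⟨n, hn⟩ := hcyc g (hinI hg)
    rw [hpow ψ₁ hP₁ g (hinI hg) n hn, h1, one_pow]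
  by_cases h2 : ψ₂ τ₀ = 1
  · right
    intro g hg
    obtain ⟨n, hn⟩ := hcyc g (hinI hg)
    rw [hpow ψ₂ hP₂ g (hinI hg) n hn, h2, one_pow]
  exfalso
  -- both values are `-1`
  have hneg : ∀ u : kˣ, u ^ 2 = 1 → u ≠ 1 → (u : k) = -1 := by
    intro u hu hne
    have h3 : ((u : k) - 1) * ((u : k) + 1) = 0 := by
      have : (u : k) ^ 2 = 1 := by rw [← Units.val_pow_eq_pow_val, hu, Units.val_one]
      linear_combination this
    rcases mul_eq_zero.1 h3 with h4 | h4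
    · exact absurd (Units.ext (by rw [Units.val_one]; exact sub_eq_zero.1 h4)) hne
    · exact eq_neg_of_add_eq_zero_left h4
  have hε₁ := hneg _ (hsq₁ τ₀ hτ₀I) h1
  have hε₂ := hneg _ (hsq₂ τ₀ hτ₀I) h2
  have hprod1 : ψ₁ τ₀ * ψ₂ τ₀ = 1 := by
    apply Units.ext
    rw [Units.val_mul, hε₁, hε₂, Units.val_one]
    ring
  -- `ω` is ramified
  obtain ⟨τ, hτ, a, hact, ha⟩ := RamOmega11.exists_inertia_exponent_ne_one
    (primeLocalPlace (pPrime p)) hp (by rw [hp3]; norm_num)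
    (RamOmega11.primeLocalPlace_liesOverPrime (pPrime p))
  obtain ⟨g, rfl⟩ := LocSurj16.inertia_le_range_primes (pPrime p) hτ
  have hgI : g ∈ inertiaGp p := hτ
  have h3 := hprod g a hact
  obtain ⟨n, hn⟩ := hcyc g (hinI hgI)
  rw [hpow ψ₁ hP₁ g (hinI hgI) n hn, hpow ψ₂ hP₂ g (hinI hgI) n hn, ← Units.val_mul, ← mul_pow,
    hprod1, one_pow, Units.val_one] at h3
  apply ha
  have h4 : ((a : ℕ) : k) = ((1 : ℕ) : k) := by rw [← h3, Nat.cast_one]
  exact (CharP.natCast_eq_natCast k p).1 h4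

end Fermat.Agent.ES.T56.FlatRedShape14
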