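/-
Programme T (S56, Taylor–Wiles primes), chapter LOC, leaf `LocTW16`, part 1 (helper16): the
ABSTRACT tame count.

`Γ` any group, `A : Rep k Γ` finite and killed by `p`, `U ≤ P ≤ I` subgroups of `Γ` with
* `I` acting trivially on `A`,
* `Γ = I · ⟨φ⟩`,
* every `x ∈ P` has `x ^ m ∈ U` for some `m` prime to `p`   (`P / U` "is a `p'`-group"),
* `I = P · ⟨τ₀⟩`                                             (`I / P` "is cyclic"),
* `φ τ₀ φ⁻¹ (τ₀ ^ Q)⁻¹ ∈ P` with `Q ≡ 1 mod p`                (the tame relation).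
Then the classes in `H¹(Γ, A)` of the cocycles which are right-`U`-invariant are at most
`(# A^Γ) ^ 2`: such a class is determined by `(c τ₀, c φ mod (φ - 1) A) ∈ A^φ × A / (φ - 1) A`.

Also: a directed union of sets with at most `B` elements has at most `B` elements.
-/
import Mathlib

set_option autoImplicit false

universe u

open groupCohomology

namespace Fermat.Agent.ES.T56.TameAbs16

variable {k Γ : Type u} [CommRing k] [Group Γ] (A : Rep k Γ)

/-- `f : Γ → A` is invariant under right translation by `U`. -/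
def IsRightInv (U : Subgroup Γ) (f : Γ → A) : Prop := ∀ g : Γ, ∀ u ∈ U, f (g * u) = f g

/-- The tame data attached to a level `U`. -/
structure TameData (p : ℕ) (U : Subgroup Γ) where
  I : Subgroup Γ
  P : Subgroup Γ
  φ : Γ
  τ₀ : Γ
  Q : ℕ
  hUP : U ≤ P
  hPI : P ≤ I
  hI : ∀ g ∈ I, ∀ a : A, A.ρ g a = a
  hgen : ∀ g : Γ, ∃ n : ℤ, g * φ ^ n ∈ I
  hP : ∀ x ∈ P, ∃ m : ℕ, m.Coprime p ∧ x ^ m ∈ U
  hτ₀ : τ₀ ∈ I
  hcyc : ∀ τ ∈ I, ∃ n : ℤ, τ * τ₀ ^ n ∈ P
  hQ : Q % p = 1 % p
  hrel : φ * τ₀ * φ⁻¹ * (τ₀ ^ Q)⁻¹ ∈ P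

variable {A}

section Cocycle

variable {f : Γ → A} (hf : f ∈ cocycles₁ A)

include hf

theorem coc_mul (g h : Γ) : f (g * h) = A.ρ g (f h) + f g := (mem_cocycles₁_iff f).1 hf g h

theorem coc_one : f 1 = 0 := by
  have h := coc_mul hf 1 1
  simp only [mul_one, map_one, Module.End.one_apply] at h
  have h2 : f 1 + f 1 = f 1 + 0 := by rw [add_zero]; exact h.symm
  exact add_left_cancel h2

/-- On a subgroup acting trivially a cocycle is additive. -/
theorem map_mul_of_triv {I : Subgroup Γ} (hI : ∀ g ∈ I, ∀ a : A, A.ρ g a = a) {g : Γ} (hg : g ∈ I)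
    (h : Γ) : f (g * h) = f g + f h := by
  rw [coc_mul hf, hI g hg, add_comm]

theorem map_inv_of_triv {I : Subgroup Γ} (hI : ∀ g ∈ I, ∀ a : A, A.ρ g a = a) {g : Γ} (hg : g ∈ I) :
    f g⁻¹ = - f g := by
  have h := map_mul_of_triv hf hI hg g⁻¹
  rw [mul_inv_cancel, coc_one hf] at h
  exact eq_neg_of_add_eq_zero_right h.symm

theorem map_pow_of_triv {I : Subgroup Γ} (hI : ∀ g ∈ I, ∀ a : A, A.ρ g a = a) {g : Γ} (hg : g ∈ I)
    (n : ℕ) : f (g ^ n) = n • f g := by
  induction n with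
  | zero => simp [coc_one hf]
  | succ n ih =>
    rw [pow_succ', map_mul_of_triv hf hI hg, ih, succ_nsmul, add_comm]

theorem map_zpow_of_triv {I : Subgroup Γ} (hI : ∀ g ∈ I, ∀ a : A, A.ρ g a = a) {g : Γ} (hg : g ∈ I)
    (n : ℤ) : f (g ^ n) = n • f g := by
  cases n with
  | ofNat n => simpa using map_pow_of_triv hf hI hg n
  | negSucc n =>
    rw [zpow_negSucc, map_inv_of_triv hf hI (I.pow_mem hg _), map_pow_of_triv hf hI hg,
      negSucc_zsmul]

/-- A cocycle vanishing at `φ` vanishes on `⟨φ⟩`. -/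
theorem map_zpow_eq_zero {φ : Γ} (h0 : f φ = 0) (n : ℤ) : f (φ ^ n) = 0 := by
  have hpos : ∀ n : ℕ, f (φ ^ n) = 0 := by
    intro n
    induction n with
    | zero => simp [coc_one hf]
    | succ n ih => rw [pow_succ', coc_mul hf, ih, h0, map_zero, add_zero]
  cases n with
  | ofNat n => simpa using hpos n
  | negSucc n =>
    rw [zpow_negSucc]
    have h := coc_mul hf (φ ^ (n + 1)) (φ ^ (n + 1))⁻¹
    rw [mul_inv_cancel, coc_one hf, hpos, add_zero] at h
    have h2 : A.ρ (φ ^ (n + 1))⁻¹ (A.ρ (φ ^ (n + 1)) (f (φ ^ (n + 1))⁻¹)) = 0 := by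
      rw [← h, map_zero]
    rwa [← Module.End.mul_apply, ← map_mul, inv_mul_cancel, map_one,
      Module.End.one_apply] at h2

end Cocycle

section Main

theorem map_eq_zero_of_mem_U {U : Subgroup Γ} {f : Γ → A} (hf : f ∈ cocycles₁ A)
    (hU : IsRightInv A U f) {u : Γ} (hu : u ∈ U) : f u = 0 := by
  have h := hU 1 u hu
  rwa [one_mul, coc_one hf] at h

variable {p : ℕ} {U : Subgroup Γ} (D : TameData A p U)
  (hpA : ∀ a : A, p • a = 0)

include hpA

omit D in
theorem eq_zero_of_coprime_nsmul {m : ℕ} (hm : m.Coprime p) {a : A} (h : m • a = 0) : a = 0 := by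
  have h1 : ((m.gcd p : ℕ) : ℤ) = m * m.gcdA p + p * m.gcdB p := Nat.gcd_eq_gcd_ab m p
  rw [hm] at h1
  have h2 : a = ((1 : ℕ) : ℤ) • a := by simp
  rw [h2, h1, add_smul, mul_comm (m : ℤ), mul_smul, mul_comm (p : ℤ), mul_smul, natCast_zsmul,
    natCast_zsmul, h, hpA, smul_zero, smul_zero, add_zero]

variable {f : Γ → A} (hf : f ∈ cocycles₁ A) (hU : IsRightInv A U f)

include D hf hU

theorem map_eq_zero_of_mem_P {x : Γ} (hx : x ∈ D.P) : f x = 0 := by
  obtain ⟨m, hm, hxm⟩ := D.hP x hx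
  have h1 : f (x ^ m) = m • f x := map_pow_of_triv hf D.hI (D.hPI hx) m
  rw [map_eq_zero_of_mem_U hf hU hxm] at h1
  exact eq_zero_of_coprime_nsmul hpA hm h1.symm

/-- On `I` the cocycle is determined by its value at `τ₀`. -/
theorem map_eq_of_mem_I {τ : Γ} (hτ : τ ∈ D.I) : ∃ n : ℤ, f τ = n • f D.τ₀ := by
  obtain ⟨n, hn⟩ := D.hcyc τ hτ
  have h1 : f (τ * D.τ₀ ^ n) = f τ + f (D.τ₀ ^ n) := map_mul_of_triv hf D.hI hτ _
  rw [map_eq_zero_of_mem_P D hpA hf hU hn, map_zpow_of_triv hf D.hI D.hτ₀] at h1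
  exact ⟨-n, by rw [neg_smul]; exact eq_neg_of_add_eq_zero_left h1.symm⟩

/-- The value at `τ₀` is fixed by `φ`. -/
theorem rho_phi_map_tau (hp' : p.Prime) : A.ρ D.φ (f D.τ₀) = f D.τ₀ := by
  -- `f (φ τ₀ φ⁻¹) = ρ φ (f τ₀)`
  have h1 : f (D.φ * D.τ₀ * D.φ⁻¹) = A.ρ D.φ (f D.τ₀) := by
    rw [mul_assoc, coc_mul hf, map_mul_of_triv hf D.hI D.hτ₀, map_add]
    have h2 := coc_mul hf D.φ D.φ⁻¹
    rw [mul_inv_cancel, coc_one hf] at h2
    rw [add_comm (A.ρ D.φ (f D.τ₀)), add_assoc, add_comm (A.ρ D.φ (f D.τ₀)), ← add_assoc, ← h2,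
      zero_add]
  -- `φ τ₀ φ⁻¹ = x τ₀^Q`, `x ∈ P`
  have h3 : D.φ * D.τ₀ * D.φ⁻¹ = (D.φ * D.τ₀ * D.φ⁻¹ * (D.τ₀ ^ D.Q)⁻¹) * D.τ₀ ^ D.Q := by
    rw [inv_mul_cancel_right]
  have h4 : f (D.φ * D.τ₀ * D.φ⁻¹) = D.Q • f D.τ₀ := by
    rw [h3, map_mul_of_triv hf D.hI (D.hPI D.hrel), map_eq_zero_of_mem_P D hpA hf hU D.hrel,
      zero_add, map_pow_of_triv hf D.hI D.hτ₀]
  -- `Q • a = a`
  have h5 : D.Q • f D.τ₀ = f D.τ₀ := by
    have h6 : D.Q = p * (D.Q / p) + D.Q % p := (Nat.div_add_mod D.Q p).symm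
    rw [h6, add_smul, mul_smul, hpA, zero_add, D.hQ, Nat.mod_eq_of_lt hp'.one_lt, one_smul]
  rw [← h1, h4, h5]

end Main

section Injective

variable {p : ℕ} {U : Subgroup Γ} (D : TameData A p U) (hpA : ∀ a : A, p • a = 0)

include D hpA

/-- A `U`-invariant cocycle vanishing at `τ₀` and at `φ` is zero. -/
theorem eq_zero_of_map_eq_zero {f : Γ → A} (hf : f ∈ cocycles₁ A) (hU : IsRightInv A U f)
    (h1 : f D.τ₀ = 0) (h2 : f D.φ = 0) : f = 0 := by
  funext g
  obtain ⟨n, hn⟩ := D.hgen g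
  have h3 : g = (g * D.φ ^ n) * D.φ ^ (-n) := by
    rw [mul_assoc, ← zpow_add, add_neg_cancel, zpow_zero, mul_one]
  obtain ⟨m, hm⟩ := map_eq_of_mem_I D hpA hf hU hn
  rw [h3, map_mul_of_triv hf D.hI hn, hm, h1, smul_zero, map_zpow_eq_zero hf h2, add_zero]
  rfl

/-- **Injectivity of the invariant**: two `U`-invariant cocycles with the same value at `τ₀` and
values at `φ` differing by an element of `(φ - 1) A` are cohomologous. -/
theorem sub_mem_coboundaries₁ {f f' : Γ → A} (hf : f ∈ cocycles₁ A) (hf' : f' ∈ cocycles₁ A)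
    (hU : IsRightInv A U f) (hU' : IsRightInv A U f') (h1 : f D.τ₀ = f' D.τ₀)
    (m : A) (h2 : f D.φ - f' D.φ = A.ρ D.φ m - m) : f - f' ∈ coboundaries₁ A := by
  refine ⟨m, ?_⟩
  set d : Γ → A := f - f' - (d₀₁ A).hom m with hd
  have hdc : d ∈ cocycles₁ A :=
    Submodule.sub_mem _ (Submodule.sub_mem _ hf hf') (d₀₁_apply_mem_cocycles₁ m)
  have hdU : IsRightInv A U d := by
    intro g u hu
    simp only [hd, Pi.sub_apply, d₀₁_hom_apply, hU g u hu, hU' g u hu, map_mul,
      Module.End.mul_apply, D.hI u (D.hPI (D.hUP hu))]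
  have hd1 : d D.τ₀ = 0 := by
    simp only [hd, Pi.sub_apply, d₀₁_hom_apply, h1, D.hI _ D.hτ₀, sub_self]
  have hd2 : d D.φ = 0 := by
    simp only [hd, Pi.sub_apply, d₀₁_hom_apply, h2, sub_self]
  have h0 := eq_zero_of_map_eq_zero D hpA hdc hdU hd1 hd2
  rw [hd, sub_eq_zero] at h0
  exact h0.symm

end Injective

section Count

variable {p : ℕ} {U : Subgroup Γ} (D : TameData A p U) (hpA : ∀ a : A, p • a = 0)

/-- `φ - 1` as an endomorphism of `A`. -/
def phiSubOne : A →ₗ[k] A := A.ρ D.φ - 1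

omit hpA in
theorem phiSubOne_apply (a : A) : phiSubOne D a = A.ρ D.φ a - a := rfl

omit hpA in
/-- The invariants of `Γ` are the kernel of `φ - 1`. -/
theorem ker_phiSubOne : LinearMap.ker (phiSubOne D) = Representation.invariants A.ρ := by
  ext a
  rw [LinearMap.mem_ker, phiSubOne_apply, sub_eq_zero, Representation.mem_invariants]
  constructor
  · intro h g
    obtain ⟨n, hn⟩ := D.hgen g
    have h3 : g = (g * D.φ ^ n) * D.φ ^ (-n) := by
      rw [mul_assoc, ← zpow_add, add_neg_cancel, zpow_zero, mul_one]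
    have h4 : ∀ j : ℤ, A.ρ (D.φ ^ j) a = a := by
      have hpos : ∀ j : ℕ, A.ρ (D.φ ^ j) a = a := by
        intro j
        induction j with
        | zero => simp
        | succ j ih => rw [pow_succ, map_mul, Module.End.mul_apply, h, ih]
      intro j
      cases j with
      | ofNat j => simpa using hpos j
      | negSucc j =>
        rw [zpow_negSucc]
        have h5 : A.ρ (D.φ ^ (j + 1))⁻¹ (A.ρ (D.φ ^ (j + 1)) a) = a := by
          rw [← Module.End.mul_apply, ← map_mul, inv_mul_cancel, map_one,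
            Module.End.one_apply]
        rwa [hpos] at h5
    rw [h3, map_mul, Module.End.mul_apply, h4, D.hI _ hn]
  · intro h
    exact h D.φ

omit hpA in
theorem card_quotient_range_phiSubOne [Finite A] :
    Nat.card (A ⧸ LinearMap.range (phiSubOne D)) = Nat.card (Representation.invariants A.ρ) := by
  have h1 := Submodule.card_eq_card_quotient_mul_card (LinearMap.range (phiSubOne D))
  have h2 := Submodule.card_eq_card_quotient_mul_card (LinearMap.ker (phiSubOne D))
  have h3 : Nat.card (A ⧸ LinearMap.ker (phiSubOne D)) = Nat.card (LinearMap.range (phiSubOne D)) :=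
    Nat.card_congr (phiSubOne D).quotKerEquivRange.toEquiv
  rw [h3, h1, ker_phiSubOne, mul_comm] at h2
  have hpos : 0 < Nat.card (LinearMap.range (phiSubOne D)) := Nat.card_pos
  exact Nat.eq_of_mul_eq_mul_right hpos h2

/-- The classes of the right-`U`-invariant cocycles. -/
def levelClasses (U : Subgroup Γ) : Set (H1 A) :=
  {x | ∃ c : cocycles₁ A, IsRightInv A U c ∧ H1π A c = x}

omit D hpA in
theorem levelClasses_mono {U V : Subgroup Γ} (h : V ≤ U) : levelClasses (A := A) U ⊆ levelClasses V := by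
  rintro x ⟨c, hc, rfl⟩
  exact ⟨c, fun g u hu => hc g u (h hu), rfl⟩

include D hpA

/-- **The abstract tame count.** -/
theorem levelClasses_finite_ncard_le [Finite A] (hp : p.Prime) :
    (levelClasses (A := A) U).Finite ∧
      (levelClasses (A := A) U).ncard ≤ Nat.card (Representation.invariants A.ρ) ^ 2 := by
  classical
  let Z : Type u := {c : cocycles₁ A // IsRightInv A U c}
  let T : Type u := (Representation.invariants A.ρ) × (A ⧸ LinearMap.range (phiSubOne D))
  have hinv : ∀ c : Z, (c.1 : Γ → A) D.τ₀ ∈ Representation.invariants A.ρ := by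
    intro c
    rw [← ker_phiSubOne D, LinearMap.mem_ker, phiSubOne_apply, sub_eq_zero]
    exact rho_phi_map_tau D hpA c.1.2 c.2 hp
  let Ψ : Z → T := fun c => (⟨(c.1 : Γ → A) D.τ₀, hinv c⟩, Submodule.Quotient.mk ((c.1 : Γ → A) D.φ))
  have hΨ : ∀ c c' : Z, Ψ c = Ψ c' → H1π A c.1 = H1π A c'.1 := by
    intro c c' h
    rw [H1π_eq_iff]
    have h1 : (c.1 : Γ → A) D.τ₀ = (c'.1 : Γ → A) D.τ₀ := congrArg Subtype.val (congrArg Prod.fst h)
    have h2 := congrArg Prod.snd h
    simp only [Ψ] at h2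
    rw [Submodule.Quotient.eq] at h2
    obtain ⟨m, hm⟩ := h2
    exact sub_mem_coboundaries₁ D hpA c.1.2 c'.1.2 c.2 c'.2 h1 m hm.symm
  have hT : Finite T := by
    show Finite ((Representation.invariants A.ρ) × (A ⧸ LinearMap.range (phiSubOne D)))
    have : Finite (A ⧸ LinearMap.range (phiSubOne D)) := Quotient.finite _
    infer_instance
  have hrange : levelClasses (A := A) U = Set.range (fun c : Z => H1π A c.1) := by
    ext x
    constructor
    · rintro ⟨c, hc, rfl⟩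
      exact ⟨⟨c, hc⟩, rfl⟩
    · rintro ⟨c, rfl⟩
      exact ⟨c.1, c.2, rfl⟩
  -- a surjection `range Ψ → levelClasses`
  let G : Set.range Ψ → H1 A := fun t => H1π A (t.2.choose).1
  have hG : Set.range G = levelClasses (A := A) U := by
    rw [hrange]
    ext x
    constructor
    · rintro ⟨t, rfl⟩
      exact ⟨t.2.choose, rfl⟩
    · rintro ⟨c, rfl⟩
      refine ⟨⟨Ψ c, c, rfl⟩, ?_⟩
      exact hΨ _ _ (Exists.choose_spec (⟨c, rfl⟩ : ∃ c', Ψ c' = Ψ c))
  have hfinR : Finite (Set.range Ψ) := inferInstance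
  have hfin : (levelClasses (A := A) U).Finite := by
    rw [← hG]
    exact Set.finite_range G
  refine ⟨hfin, ?_⟩
  have h1 : (levelClasses (A := A) U).ncard ≤ Nat.card (Set.range Ψ) := by
    rw [← hG, ← Nat.card_coe_set_eq]
    exact Nat.card_le_card_of_surjective (Set.rangeFactorization G) Set.rangeFactorization_surjective
  have h2 : Nat.card (Set.range Ψ) ≤ Nat.card T := Nat.card_le_card_of_injective _ Subtype.val_injective
  have h3 : Nat.card T = Nat.card (Representation.invariants A.ρ) ^ 2 := by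
    rw [Nat.card_prod, card_quotient_range_phiSubOne D, sq]
  omega

end Count

/-- A directed union of sets with at most `B` elements has at most `B` elements. -/
theorem finite_ncard_iUnion_le {α ι : Type*} (s : ι → Set α) (B : ℕ)
    (hdir : ∀ i j, ∃ l, s i ⊆ s l ∧ s j ⊆ s l) (hs : ∀ i, (s i).Finite ∧ (s i).ncard ≤ B) :
    (⋃ i, s i).Finite ∧ (⋃ i, s i).ncard ≤ B := by
  classical
  by_cases hι : IsEmpty ι
  · simp [Set.iUnion_of_empty]
  rw [not_isEmpty_iff] at hι
  -- every finite subset of the union lies in one `s l`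
  have key : ∀ t : Finset α, (↑t : Set α) ⊆ ⋃ i, s i → ∃ l, (↑t : Set α) ⊆ s l := by
    intro t
    induction t using Finset.induction_on with
    | empty => intro _; exact ⟨hι.some, by simp⟩
    | insert a t _ ih =>
      intro h
      rw [Finset.coe_insert, Set.insert_subset_iff] at h
      obtain ⟨l, hl⟩ := ih h.2
      obtain ⟨i, hi⟩ := Set.mem_iUnion.1 h.1
      obtain ⟨m, hm1, hm2⟩ := hdir i l
      refine ⟨m, ?_⟩
      rw [Finset.coe_insert, Set.insert_subset_iff]
      exact ⟨hm1 hi, hl.trans hm2⟩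
  have hcard : ∀ t : Finset α, (↑t : Set α) ⊆ ⋃ i, s i → t.card ≤ B := by
    intro t ht
    obtain ⟨l, hl⟩ := key t ht
    calc t.card = (↑t : Set α).ncard := (Set.ncard_coe_finset t).symm
      _ ≤ (s l).ncard := Set.ncard_le_ncard hl (hs l).1
      _ ≤ B := (hs l).2
  have hfin : (⋃ i, s i).Finite := by
    by_contra hinf
    obtain ⟨t, ht, htc⟩ := Set.Infinite.exists_subset_card_eq hinf (B + 1)
    have := hcard t ht
    omega
  refine ⟨hfin, ?_⟩
  have h := hcard hfin.toFinset (by simp)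
  rwa [← Set.ncard_eq_toFinset_card _ hfin] at h

end Fermat.Agent.ES.T56.TameAbs16
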