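/-
Programme T (S56, Taylor–Wiles primes), chapter LOC, leaf `LocTW16`, part 2 (helper16): the TAME
STRUCTURE of a finite Galois extension `E'/E` of `q`-adic fields, in the abstract model of
`PT/LOC/Interface12` (main).

`G = Gal(E'/E)`, `‖·‖ = snorm q E'`, `𝒪' = {‖x‖ ≤ 1}`, `𝔪' = {‖x‖ < 1}`, `κ' = 𝒪'/𝔪'`.
* `inertiaSub` : the inertia group `I = {τ | ∀ x ∈ 𝒪', τ x - x ∈ 𝔪'}` (`= 𝔪'.inertia G` of Mathlib),
  normal in `G`;
* `tameChar π : I →* κ'ˣ`, `τ ↦ τ π / π mod 𝔪'` (`π` a uniformizer of `E'`), the TAME CHARACTER;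
  `tameChar_conj_frob` : `θ (φ τ φ⁻¹) = θ τ ^ Q` for a Frobenius `φ` (`Q = resCard q E`);
* `wild π = ker θ` : `orderOf` of every element is a power of `q` (AVERAGING TRICK: no ramification
  filtration): `orderOf_wild`;
* `exists_tameData` : the group-theoretic package consumed by `TameAbs16`.
-/
import Mathlib
import Fermat.Agent.PT.LOC.Frob27
import Fermat.Agent.PT.LOC.StructureNorm14
import Fermat.Agent.PT.LOC.RootsUnity14
import Fermat.Agent.PT.LOC.UnitsNorm11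

set_option autoImplicit false
set_option linter.unusedSectionVars false

open scoped Fermat.Agent.PT.LOC.Interface12 Fermat.Agent.PT.LOC.StructureTower27 Pointwise
open Fermat.Agent.PT.LOC.Interface12 Fermat.Agent.PT.LOC.Structure14
  Fermat.Agent.PT.LOC.StructureTower27 Fermat.Agent.PT.LOC.StructureTowerEF27
  Fermat.Agent.PT.LOC.StructureNorm14 Fermat.Agent.PT.LOC.RootsUnity14

namespace Fermat.Agent.ES.T56.TameLoc16

noncomputable section

variable (q : ℕ) [Fact q.Prime] (E E' : Type) [Field E] [Field E'] [Algebra ℚ_[q] E]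
  [Algebra ℚ_[q] E'] [Algebra E E'] [IsScalarTower ℚ_[q] E E'] [FiniteDimensional ℚ_[q] E]
  [FiniteDimensional ℚ_[q] E']

/-! ### The inertia group in terms of the norm -/

/-- The inertia group of `E'/E`. -/
def inertiaSub : Subgroup (E' ≃ₐ[E] E') where
  carrier := {τ | ∀ x : E', snorm q E' x ≤ 1 → snorm q E' (τ x - x) < 1}
  one_mem' := by
    intro x _
    simp only [AlgEquiv.one_apply, sub_self, snorm_zero]
    exact one_pos
  mul_mem' := by
    intro a b ha hb x hx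
    have h1 := ha (b x) (by rw [snorm_galois]; exact hx)
    have h2 := hb x hx
    have h3 : (a * b) x - x = (a (b x) - b x) + (b x - x) := by
      rw [AlgEquiv.mul_apply]; ring
    rw [h3]
    exact lt_of_le_of_lt (snorm_add_le_max q E' _ _) (max_lt h1 h2)
  inv_mem' := by
    intro a ha x hx
    have h1 := ha (a⁻¹ x) (by rw [snorm_galois]; exact hx)
    have h2 : a (a⁻¹ x) = x := by
      rw [← AlgEquiv.mul_apply, mul_inv_cancel, AlgEquiv.one_apply]
    rw [h2] at h1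
    have h3 : a⁻¹ x - x = -(x - a⁻¹ x) := by ring
    rw [h3, snorm_neg]
    exact h1

theorem mem_inertiaSub_iff (τ : E' ≃ₐ[E] E') :
    τ ∈ inertiaSub q E E' ↔ ∀ x : E', snorm q E' x ≤ 1 → snorm q E' (τ x - x) < 1 := Iff.rfl

/-- `inertiaSub` is Mathlib's inertia group of the maximal ideal. -/
theorem inertiaSub_eq :
    inertiaSub q E E' = (IsLocalRing.maximalIdeal (intRing q E')).inertia (E' ≃ₐ[E] E') := by
  ext τ
  rw [mem_inertiaSub_iff]
  constructor
  · intro h x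
    show τ • x - x ∈ IsLocalRing.maximalIdeal (intRing q E')
    rw [mem_maximalIdeal_iff_snorm]
    exact h (x : E') ((mem_intRing_iff q E' _).1 x.2)
  · intro h x hx
    have := h ⟨x, (mem_intRing_iff q E' x).2 hx⟩
    change τ • (⟨x, _⟩ : intRing q E') - _ ∈ IsLocalRing.maximalIdeal (intRing q E') at this
    rw [mem_maximalIdeal_iff_snorm] at this
    exact this

/-- The inertia group is normal. -/
theorem inertiaSub_normal : (inertiaSub q E E').Normal := by
  refine ⟨fun τ hτ g x hx => ?_⟩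
  have h1 := hτ (g⁻¹ x) (by rw [snorm_galois]; exact hx)
  have h2 : (g * τ * g⁻¹) x - x = g (τ (g⁻¹ x) - g⁻¹ x) := by
    rw [map_sub, AlgEquiv.mul_apply, AlgEquiv.mul_apply, ← AlgEquiv.mul_apply g g⁻¹,
      mul_inv_cancel, AlgEquiv.one_apply]
  rw [h2, snorm_galois]
  exact h1

/-! ### The residue field and residue classes -/

/-- The residue field `κ' = 𝒪'/𝔪'`. -/
abbrev Kap : Type := intRing q E' ⧸ IsLocalRing.maximalIdeal (intRing q E')

instance : Field (Kap q E') := Ideal.Quotient.field _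

instance : Finite (Kap q E') := Fermat.Agent.PT.LOC.Frob27.finite_quot_maximalIdeal q E'

/-- The residue class of an integral element. -/
def rc (x : E') (hx : snorm q E' x ≤ 1) : Kap q E' :=
  Ideal.Quotient.mk _ ⟨x, (mem_intRing_iff q E' x).2 hx⟩

theorem rc_eq_iff {x y : E'} (hx : snorm q E' x ≤ 1) (hy : snorm q E' y ≤ 1) :
    rc q E' x hx = rc q E' y hy ↔ snorm q E' (x - y) < 1 := by
  rw [rc, rc, Ideal.Quotient.eq, mem_maximalIdeal_iff_snorm]
  rfl

theorem rc_mul {x y : E'} (hx : snorm q E' x ≤ 1) (hy : snorm q E' y ≤ 1)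
    (hxy : snorm q E' (x * y) ≤ 1) : rc q E' (x * y) hxy = rc q E' x hx * rc q E' y hy := by
  rw [rc, rc, rc, ← map_mul]
  rfl

theorem rc_one (h : snorm q E' 1 ≤ 1) : rc q E' 1 h = 1 := by
  rw [rc, ← map_one (Ideal.Quotient.mk _)]
  rfl

theorem rc_pow {x : E'} (hx : snorm q E' x ≤ 1) (n : ℕ) (hn : snorm q E' (x ^ n) ≤ 1) :
    rc q E' (x ^ n) hn = rc q E' x hx ^ n := by
  rw [rc, rc, ← map_pow]
  rfl

theorem rc_congr {x y : E'} (hx : snorm q E' x ≤ 1) (h : x = y) :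
    rc q E' x hx = rc q E' y (h ▸ hx) := by
  subst h; rfl

theorem snorm_pow_le_one {x : E'} (hx : snorm q E' x ≤ 1) (n : ℕ) : snorm q E' (x ^ n) ≤ 1 := by
  rw [snorm_pow]
  exact pow_le_one₀ (snorm_nonneg q E' x) hx

/-- Elements of the inertia group act trivially on residue classes. -/
theorem rc_inertia {τ : E' ≃ₐ[E] E'} (hτ : τ ∈ inertiaSub q E E') {x : E'}
    (hx : snorm q E' x ≤ 1) :
    rc q E' (τ x) (by rw [snorm_galois]; exact hx) = rc q E' x hx := by
  rw [rc_eq_iff]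
  exact hτ x hx

/-- A Frobenius acts on residue classes by `Q`-th powers. -/
theorem rc_frob {φ : E' ≃ₐ[E] E'} (hφ : IsFrob q E E' φ) {x : E'} (hx : snorm q E' x ≤ 1) :
    rc q E' (φ x) (by rw [snorm_galois]; exact hx) = rc q E' x hx ^ resCard q E := by
  rw [← rc_pow q E' hx _ (snorm_pow_le_one q E' hx _), rc_eq_iff]
  obtain ⟨π, hπ⟩ := exists_isUniformizer q E'
  have h1 := hφ (π : E') hπ x ((mem_intRing_iff q E' x).2 hx)
  rw [mem_intRing_iff] at h1
  change snorm q E' _ ≤ 1 at h1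
  rw [snorm_mul, snorm_inv] at h1
  have hπpos : 0 < snorm q E' (π : E') := snorm_pos q E' hπ.2.1
  have hπlt : snorm q E' (π : E') < 1 := snorm_uniformizer_lt_one q E' _ hπ
  rw [← div_eq_mul_inv, div_le_one hπpos] at h1
  exact lt_of_le_of_lt h1 hπlt

/-! ### The tame character -/

variable {q E E'} in
/-- `τ π / π` has norm one. -/
theorem snorm_ratio {π : E'} (hπ : IsUniformizer q E' π) (τ : E' ≃ₐ[E] E') :
    snorm q E' (τ π * π⁻¹) = 1 := by
  rw [snorm_mul, snorm_inv, snorm_galois]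
  exact mul_inv_cancel₀ (snorm_pos q E' hπ.2.1).ne'

variable {q E E'} in
theorem snorm_ratio' {π : E'} (hπ : IsUniformizer q E' π) (τ : E' ≃ₐ[E] E') :
    snorm q E' (π * (τ π)⁻¹) = 1 := by
  rw [snorm_mul, snorm_inv, snorm_galois]
  exact mul_inv_cancel₀ (snorm_pos q E' hπ.2.1).ne'

variable {q E E'} in
/-- The tame character as a function `G → κ'ˣ` (a homomorphism only on the inertia group). -/
def tameFun {π : E'} (hπ : IsUniformizer q E' π) (τ : E' ≃ₐ[E] E') : (Kap q E')ˣ :=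
  Units.mkOfMulEqOne (rc q E' (τ π * π⁻¹) (snorm_ratio hπ τ).le)
    (rc q E' (π * (τ π)⁻¹) (snorm_ratio' hπ τ).le) (by
      have h0 : τ π ≠ 0 := by
        intro h
        exact hπ.2.1 ((map_eq_zero_iff τ τ.injective).1 h)
      have h1 : τ π * π⁻¹ * (π * (τ π)⁻¹) = 1 := by
        field_simp [hπ.2.1, h0]
      rw [← rc_mul q E' _ _ (by rw [h1, snorm_one]), rc_congr q E' _ h1, rc_one])

variable {q E E'} in
theorem coe_tameFun {π : E'} (hπ : IsUniformizer q E' π) (τ : E' ≃ₐ[E] E') :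
    ((tameFun (E := E) hπ τ : (Kap q E')ˣ) : Kap q E') =
      rc q E' (τ π * π⁻¹) (snorm_ratio hπ τ).le := rfl

variable {q E E'}

theorem galois_ne_zero {π : E'} (hπ : IsUniformizer q E' π) (τ : E' ≃ₐ[E] E') : τ π ≠ 0 := by
  intro h
  exact hπ.2.1 ((map_eq_zero_iff τ τ.injective).1 h)

/-- For `τ` in the inertia group and `u` of norm one, `τ u / u ≡ 1`. -/
theorem rc_ratio_unit {τ : E' ≃ₐ[E] E'} (hτ : τ ∈ inertiaSub q E E') {u : E'}
    (hu : snorm q E' u = 1) (h : snorm q E' (τ u * u⁻¹) ≤ 1) : rc q E' (τ u * u⁻¹) h = 1 := by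
  have hu0 : u ≠ 0 := by
    intro h0
    rw [h0, snorm_zero] at hu
    exact zero_ne_one hu
  have h1 : snorm q E' u⁻¹ ≤ 1 := by rw [snorm_inv, hu, inv_one]
  have h2 : snorm q E' (τ u) ≤ 1 := by rw [snorm_galois, hu]
  rw [rc_mul q E' h2 h1, rc_inertia q E E' hτ hu.le, ← rc_mul q E' hu.le h1 (by
    rw [mul_inv_cancel₀ hu0, snorm_one]), rc_congr q E' _ (mul_inv_cancel₀ hu0), rc_one]

/-- The tame character does not depend on the uniformizer. -/
theorem tameFun_indep {π π₂ : E'} (hπ : IsUniformizer q E' π) (hπ₂ : IsUniformizer q E' π₂)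
    {τ : E' ≃ₐ[E] E'} (hτ : τ ∈ inertiaSub q E E') :
    tameFun (E := E) hπ₂ τ = tameFun (E := E) hπ τ := by
  apply Units.ext
  rw [coe_tameFun, coe_tameFun]
  have hπ0 := hπ.2.1
  have hπ₂0 := hπ₂.2.1
  set u : E' := π₂ * π⁻¹ with hu
  have hun : snorm q E' u = 1 := by
    have h1 := (isUniformizer_iff_ord q E' (Units.mk0 π hπ0)).1 hπ
    have h2 := (isUniformizer_iff_ord q E' (Units.mk0 π₂ hπ₂0)).1 hπ₂
    have h3 := (ord_eq_ord_iff q E' (Units.mk0 π hπ0) (Units.mk0 π₂ hπ₂0)).1 (by rw [h1, h2])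
    simp only [Units.val_mk0] at h3
    rw [hu, snorm_mul, snorm_inv, h3]
    exact mul_inv_cancel₀ (snorm_pos q E' hπ0).ne'
  have hu0 : u ≠ 0 := mul_ne_zero hπ₂0 (inv_ne_zero hπ0)
  have hτu0 : τ u ≠ 0 := fun h => hu0 ((map_eq_zero_iff τ τ.injective).1 h)
  have key : τ π₂ * π₂⁻¹ = (τ π * π⁻¹) * (τ u * u⁻¹) := by
    have h1 : π₂ = u * π := by rw [hu]; field_simp
    have h2 : τ π₂ = τ u * τ π := by rw [← map_mul, ← h1]
    have h3 := galois_ne_zero (E := E) hπ τ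
    rw [h2]
    have h4 : π₂⁻¹ = u⁻¹ * π⁻¹ := by rw [h1, mul_inv]
    rw [h4]
    ring
  have hr : snorm q E' (τ u * u⁻¹) ≤ 1 := by
    rw [snorm_mul, snorm_inv, snorm_galois, hun]; norm_num
  rw [rc_congr q E' _ key, rc_mul q E' (snorm_ratio hπ τ).le hr, rc_ratio_unit hτ hun hr, mul_one]

/-- Multiplicativity of the tame character on the inertia group. -/
theorem tameFun_mul {π : E'} (hπ : IsUniformizer q E' π) {σ τ : E' ≃ₐ[E] E'}
    (hσ : σ ∈ inertiaSub q E E') :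
    tameFun (E := E) hπ (σ * τ) = tameFun (E := E) hπ σ * tameFun (E := E) hπ τ := by
  apply Units.ext
  rw [Units.val_mul, coe_tameFun, coe_tameFun, coe_tameFun]
  have hπ0 := hπ.2.1
  have hσ0 := galois_ne_zero (E := E) hπ σ
  have key : (σ * τ) π * π⁻¹ = σ (τ π * π⁻¹) * (σ π * π⁻¹) := by
    rw [AlgEquiv.mul_apply, map_mul, map_inv₀]
    field_simp
  have h1 : snorm q E' (σ (τ π * π⁻¹)) ≤ 1 := by rw [snorm_galois]; exact (snorm_ratio hπ τ).le
  rw [rc_congr q E' _ key, rc_mul q E' h1 (snorm_ratio hπ σ).le,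
    rc_inertia q E E' hσ (snorm_ratio hπ τ).le, mul_comm]

/-- Conjugating by a Frobenius raises the tame character to the `Q`-th power. -/
theorem tameFun_conj_frob {π : E'} (hπ : IsUniformizer q E' π) {φ : E' ≃ₐ[E] E'}
    (hφ : IsFrob q E E' φ) {τ : E' ≃ₐ[E] E'} (hτ : τ ∈ inertiaSub q E E') :
    tameFun (E := E) hπ (φ * τ * φ⁻¹) = tameFun (E := E) hπ τ ^ resCard q E := by
  have hπ₂ : IsUniformizer q E' (φ⁻¹ π) := isUniformizer_galois q E E' φ⁻¹ π hπ
  rw [← tameFun_indep hπ hπ₂ hτ]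
  apply Units.ext
  rw [Units.val_pow_eq_pow_val, coe_tameFun, coe_tameFun]
  have key : (φ * τ * φ⁻¹) π * π⁻¹ = φ (τ (φ⁻¹ π) * (φ⁻¹ π)⁻¹) := by
    rw [map_mul, map_inv₀, AlgEquiv.mul_apply, AlgEquiv.mul_apply, ← AlgEquiv.mul_apply φ φ⁻¹,
      mul_inv_cancel, AlgEquiv.one_apply]
  rw [rc_congr q E' _ key, rc_frob q E E' hφ (snorm_ratio hπ₂ τ).le]

theorem tameFun_one {π : E'} (hπ : IsUniformizer q E' π) :
    tameFun (E := E) hπ (1 : E' ≃ₐ[E] E') = 1 := by
  apply Units.ext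
  rw [coe_tameFun, Units.val_one]
  have h : (1 : E' ≃ₐ[E] E') π * π⁻¹ = 1 := by
    rw [AlgEquiv.one_apply, mul_inv_cancel₀ hπ.2.1]
  rw [rc_congr q E' _ h, rc_one]

/-- **The tame character** `I → κ'ˣ`. -/
def tameChar {π : E'} (hπ : IsUniformizer q E' π) : ↥(inertiaSub q E E') →* (Kap q E')ˣ where
  toFun τ := tameFun (E := E) hπ τ.1
  map_one' := tameFun_one hπ
  map_mul' σ _ := tameFun_mul hπ σ.2

theorem tameChar_apply {π : E'} (hπ : IsUniformizer q E' π) (τ : ↥(inertiaSub q E E')) :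
    tameChar hπ τ = tameFun (E := E) hπ τ.1 := rfl

/-- The wild inertia group: the kernel of the tame character. -/
def wild {π : E'} (hπ : IsUniformizer q E' π) : Subgroup (E' ≃ₐ[E] E') :=
  (tameChar (E := E) hπ).ker.map (inertiaSub q E E').subtype

theorem mem_wild_iff {π : E'} (hπ : IsUniformizer q E' π) (τ : E' ≃ₐ[E] E') :
    τ ∈ wild (E := E) hπ ↔ τ ∈ inertiaSub q E E' ∧ tameFun (E := E) hπ τ = 1 := by
  constructor
  · rintro ⟨σ, hσ, rfl⟩
    exact ⟨σ.2, hσ⟩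
  · rintro ⟨h1, h2⟩
    exact ⟨⟨τ, h1⟩, h2, rfl⟩

theorem wild_le {π : E'} (hπ : IsUniformizer q E' π) : wild (E := E) hπ ≤ inertiaSub q E E' :=
  fun τ hτ => ((mem_wild_iff hπ τ).1 hτ).1

/-- `I / wild` is cyclic. -/
theorem exists_generator {π : E'} (hπ : IsUniformizer q E' π) :
    ∃ τ₀ ∈ inertiaSub q E E', ∀ τ ∈ inertiaSub q E E', ∃ n : ℤ, τ * τ₀ ^ n ∈ wild (E := E) hπ := by
  have hcyc : IsCyclic (tameChar (E := E) hπ).range := inferInstance
  obtain ⟨⟨g, ⟨τ₀, rfl⟩⟩, hg⟩ := hcyc.exists_generator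
  refine ⟨τ₀.1, τ₀.2, fun τ hτ => ?_⟩
  obtain ⟨m, hm⟩ := Subgroup.mem_zpowers_iff.1
    (hg ⟨tameChar (E := E) hπ ⟨τ, hτ⟩, ⟨τ, hτ⟩, rfl⟩)
  have hm' : tameChar (E := E) hπ τ₀ ^ m = tameChar (E := E) hπ ⟨τ, hτ⟩ := by
    have := congrArg Subtype.val hm
    simpa using this
  refine ⟨-m, (mem_wild_iff hπ _).2 ⟨?_, ?_⟩⟩
  · exact (inertiaSub q E E').mul_mem hτ ((inertiaSub q E E').zpow_mem τ₀.2 _)
  · have h1 : tameChar (E := E) hπ (⟨τ, hτ⟩ * τ₀ ^ (-m)) = 1 := by
      rw [map_mul, map_zpow, zpow_neg, hm', mul_inv_cancel]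
    exact h1

/-- The Frobenius relation modulo the wild inertia group. -/
theorem frob_rel_mem_wild {π : E'} (hπ : IsUniformizer q E' π) {φ : E' ≃ₐ[E] E'}
    (hφ : IsFrob q E E' φ) {τ : E' ≃ₐ[E] E'} (hτ : τ ∈ inertiaSub q E E') :
    φ * τ * φ⁻¹ * (τ ^ resCard q E)⁻¹ ∈ wild (E := E) hπ := by
  have hn := inertiaSub_normal q E E'
  have h1 : φ * τ * φ⁻¹ ∈ inertiaSub q E E' := hn.conj_mem τ hτ φ
  have h2 : (τ ^ resCard q E)⁻¹ ∈ inertiaSub q E E' :=
    (inertiaSub q E E').inv_mem ((inertiaSub q E E').pow_mem hτ _)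
  refine (mem_wild_iff hπ _).2 ⟨(inertiaSub q E E').mul_mem h1 h2, ?_⟩
  have h3 : tameChar (E := E) hπ (⟨φ * τ * φ⁻¹, h1⟩ * ⟨(τ ^ resCard q E)⁻¹, h2⟩) = 1 := by
    rw [map_mul]
    have h4 : tameChar (E := E) hπ ⟨φ * τ * φ⁻¹, h1⟩ = tameChar (E := E) hπ ⟨τ, hτ⟩ ^ resCard q E :=
      tameFun_conj_frob hπ hφ hτ
    have h5 : (⟨(τ ^ resCard q E)⁻¹, h2⟩ : ↥(inertiaSub q E E')) = (⟨τ, hτ⟩ ^ resCard q E)⁻¹ := rfl
    rw [h4, h5, map_inv, map_pow, mul_inv_cancel]
  exact h3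

/-! ### `G = ⟨φ⟩ · I` -/

section Gen

variable (q E E')

/-- If `φ ^ m` lies in the inertia group for a Frobenius `φ` and `0 < m` then `f ≤ m`. -/
theorem resDeg_le_of_frob_pow_mem {φ : E' ≃ₐ[E] E'} (hφ : IsFrob q E E' φ) {m : ℕ}
    (hm : 0 < m) (h : φ ^ m ∈ inertiaSub q E E') : resDeg q E E' ≤ m := by
  let _ := Ideal.Quotient.field (IsLocalRing.maximalIdeal (intRing q E'))
  have := Fintype.ofFinite (intRing q E' ⧸ IsLocalRing.maximalIdeal (intRing q E'))
  classical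
  rw [inertiaSub_eq] at h
  have hroot : ∀ y : intRing q E' ⧸ IsLocalRing.maximalIdeal (intRing q E'),
      y ^ (resCard q E ^ m) = y := by
    intro y
    obtain ⟨x, rfl⟩ := Ideal.Quotient.mk_surjective y
    rw [← Fermat.Agent.PT.LOC.Frob27.mk_pow_smul q E E' hφ, Ideal.Quotient.eq]
    exact h x
  have hQ : 1 < resCard q E := one_lt_resCard q E
  have hdeg := FiniteField.X_pow_card_pow_sub_X_natDegree_eq
    (intRing q E' ⧸ IsLocalRing.maximalIdeal (intRing q E')) hm.ne' hQ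
  have hne := FiniteField.X_pow_card_pow_sub_X_ne_zero
    (intRing q E' ⧸ IsLocalRing.maximalIdeal (intRing q E')) hm.ne' hQ
  have hsub : (Finset.univ : Finset (intRing q E' ⧸
      IsLocalRing.maximalIdeal (intRing q E'))).val ⊆
      (Polynomial.X ^ resCard q E ^ m - Polynomial.X :
        Polynomial (intRing q E' ⧸ IsLocalRing.maximalIdeal (intRing q E'))).roots := by
    intro y _
    rw [Polynomial.mem_roots hne]
    simp [hroot y]
  have hle := Polynomial.card_le_degree_of_subset_roots hsub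
  rw [hdeg, Finset.card_univ, ← Nat.card_eq_fintype_card,
    ← Fermat.Agent.PT.LOC.Frob27.resCard_eq_card, resCard_tower q E E'] at hle
  exact (Nat.pow_le_pow_iff_right hQ).mp hle

variable [IsGalois E E']

/-- **`G = ⟨φ⟩ · I`.** -/
theorem exists_zpow_mul_mem_inertia {φ : E' ≃ₐ[E] E'} (hφ : IsFrob q E E' φ)
    (g : E' ≃ₐ[E] E') : ∃ n : ℤ, g * φ ^ n ∈ inertiaSub q E E' := by
  have hfin := Fermat.Agent.PT.LOC.Frob27.finite_gal q E E'
  have hfd := Fermat.Agent.PT.LOC.Frob27.finiteDimensional_tower q E E'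
  have hn := inertiaSub_normal q E E'
  set I := inertiaSub q E E' with hI
  -- cardinalities
  have hcI : Nat.card I = ramIdx q E E' := by
    rw [hI, inertiaSub_eq]
    exact Fermat.Agent.PT.LOC.Frob27.card_inertia q E E'
  have hcG : Nat.card (E' ≃ₐ[E] E') = ramIdx q E E' * resDeg q E E' := by
    rw [IsGalois.card_aut_eq_finrank, ramIdx_mul_resDeg]
  have hcQ : Nat.card ((E' ≃ₐ[E] E') ⧸ I) = resDeg q E E' := by
    have h1 := Subgroup.card_eq_card_quotient_mul_card_subgroup I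
    rw [hcG, hcI, mul_comm] at h1
    exact (Nat.eq_of_mul_eq_mul_right (ramIdx_pos q E E') h1).symm
  -- the class of `φ` generates the quotient
  set x : (E' ≃ₐ[E] E') ⧸ I := QuotientGroup.mk φ with hx
  have hord : resDeg q E E' ≤ orderOf x := by
    apply resDeg_le_of_frob_pow_mem q E E' hφ (orderOf_pos x)
    have h2 : x ^ orderOf x = 1 := pow_orderOf_eq_one x
    rw [hx, ← QuotientGroup.mk_pow, QuotientGroup.eq_one_iff] at h2
    exact h2
  have htop : Subgroup.zpowers x = ⊤ := by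
    apply Subgroup.eq_top_of_le_card
    rw [Nat.card_zpowers, hcQ]
    exact hord
  have hg : (QuotientGroup.mk g : (E' ≃ₐ[E] E') ⧸ I) ∈ Subgroup.zpowers x := by
    rw [htop]; exact Subgroup.mem_top _
  obtain ⟨m, hm⟩ := Subgroup.mem_zpowers_iff.1 hg
  refine ⟨-m, ?_⟩
  have h3 : (QuotientGroup.mk (g * φ ^ (-m)) : (E' ≃ₐ[E] E') ⧸ I) = 1 := by
    rw [QuotientGroup.mk_mul, QuotientGroup.mk_zpow, ← hx, zpow_neg, hm, mul_inv_cancel]
  exact (QuotientGroup.eq_one_iff _).1 h3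

end Gen

/-! ### The wild inertia group is a `q`-group: the averaging trick -/

section Avg

/-- The average of `x` over the powers `τ ^ j`, `j < ℓ`. -/
def avg (τ : E' ≃ₐ[E] E') (ℓ : ℕ) (x : E') : E' :=
  (ℓ : E')⁻¹ * ∑ j ∈ Finset.range ℓ, (τ ^ j) x

theorem map_avg {τ : E' ≃ₐ[E] E'} {ℓ : ℕ} (hℓ : τ ^ ℓ = 1) (x : E') : τ (avg τ ℓ x) = avg τ ℓ x := by
  unfold avg
  rw [map_mul, map_inv₀, map_natCast, map_sum]
  congr 1
  have h1 : ∀ j, τ ((τ ^ j) x) = (τ ^ (j + 1)) x := fun j => by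
    rw [pow_succ', AlgEquiv.mul_apply]
  simp_rw [h1]
  have h2 := (Finset.sum_range_succ' (fun j => (τ ^ j) x) ℓ).symm.trans
    (Finset.sum_range_succ (fun j => (τ ^ j) x) ℓ)
  simp only [hℓ, pow_zero] at h2
  exact add_right_cancel h2

variable (q E') in
theorem snorm_natCast_inv {ℓ : ℕ} (hℓ : ¬ q ∣ ℓ) : snorm q E' ((ℓ : E')⁻¹) = 1 := by
  rw [snorm_inv, snorm_natCast_eq_one q E' hℓ, inv_one]

variable (q E') in
/-- The mean of a family congruent to `c` is congruent to `c`. -/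
theorem snorm_mean_sub_lt {ℓ : ℕ} (hℓ : ¬ q ∣ ℓ) (f : ℕ → E') (c : E')
    (h : ∀ j, snorm q E' (f j - c) < 1) :
    snorm q E' ((ℓ : E')⁻¹ * ∑ j ∈ Finset.range ℓ, f j - c) < 1 := by
  obtain ⟨π, hπ⟩ := exists_isUniformizer q E'
  have hℓE : (ℓ : E') ≠ 0 := by
    intro h0
    have := snorm_natCast_eq_one q E' hℓ
    rw [h0, snorm_zero] at this
    exact zero_ne_one this
  have h1 : (ℓ : E')⁻¹ * ∑ j ∈ Finset.range ℓ, f j - c =
      (ℓ : E')⁻¹ * ∑ j ∈ Finset.range ℓ, (f j - c) := by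
    rw [Finset.sum_sub_distrib, Finset.sum_const, Finset.card_range, nsmul_eq_mul, mul_sub,
      ← mul_assoc, inv_mul_cancel₀ hℓE, one_mul]
  rw [h1, snorm_mul, snorm_natCast_inv q E' hℓ, one_mul,
    snorm_lt_one_iff_le_uniformizer q E' (π : E') hπ]
  exact snorm_sum_le q E' _ _ _ (snorm_nonneg q E' _) fun j _ =>
    (snorm_lt_one_iff_le_uniformizer q E' (π : E') hπ _).1 (h j)

/-- If all `τ ^ j x - x` are small, so is `avg x - x`. -/
theorem snorm_avg_sub_lt {τ : E' ≃ₐ[E] E'} {ℓ : ℕ} (hℓ : ¬ q ∣ ℓ) (x : E')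
    (h : ∀ j, snorm q E' ((τ ^ j) x - x) < 1) : snorm q E' (avg τ ℓ x - x) < 1 :=
  snorm_mean_sub_lt q E' hℓ (fun j => (τ ^ j) x) x h

theorem pow_mem_wild {π : E'} (hπ : IsUniformizer q E' π) {τ : E' ≃ₐ[E] E'}
    (hτ : τ ∈ wild (E := E) hπ) (j : ℕ) : τ ^ j ∈ wild (E := E) hπ :=
  (wild (E := E) hπ).pow_mem hτ j

/-- For `τ` wild: `τ π / π ≡ 1`. -/
theorem snorm_ratio_sub_one_lt {π : E'} (hπ : IsUniformizer q E' π) {τ : E' ≃ₐ[E] E'}
    (hτ : τ ∈ wild (E := E) hπ) : snorm q E' (τ π * π⁻¹ - 1) < 1 := by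
  have h1 := ((mem_wild_iff hπ τ).1 hτ).2
  have h2 : ((tameFun (E := E) hπ τ : (Kap q E')ˣ) : Kap q E') = 1 := by rw [h1, Units.val_one]
  rw [coe_tameFun, ← rc_one q E' (by rw [snorm_one]), rc_eq_iff] at h2
  exact h2

/-- For `τ` wild: `τ π - π` is smaller than `π`. -/
theorem snorm_sub_lt_of_wild {π : E'} (hπ : IsUniformizer q E' π) {τ : E' ≃ₐ[E] E'}
    (hτ : τ ∈ wild (E := E) hπ) : snorm q E' ((τ π - π) * π⁻¹) < 1 := by
  have h : (τ π - π) * π⁻¹ = τ π * π⁻¹ - 1 := by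
    rw [sub_mul, mul_inv_cancel₀ hπ.2.1]
  rw [h]
  exact snorm_ratio_sub_one_lt hπ hτ

variable [IsGalois E E']

/-- **No wild element of prime order `ℓ ≠ q`.** -/
theorem not_wild_of_prime_order {π : E'} (hπ : IsUniformizer q E' π) {τ : E' ≃ₐ[E] E'}
    (hτ : τ ∈ wild (E := E) hπ) {ℓ : ℕ} (hℓp : ℓ.Prime) (hℓq : ℓ ≠ q) (hord : orderOf τ = ℓ) :
    False := by
  have hfin := Fermat.Agent.PT.LOC.Frob27.finite_gal q E E'
  have hfd := Fermat.Agent.PT.LOC.Frob27.finiteDimensional_tower q E E'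
  have hqℓ : ¬ q ∣ ℓ := by
    intro h
    rcases (Nat.dvd_prime hℓp).1 h with h1 | h1
    · exact (Fact.out : q.Prime).one_lt.ne' h1
    · exact hℓq h1.symm
  have hτℓ : τ ^ ℓ = 1 := by rw [← hord]; exact pow_orderOf_eq_one τ
  have hI : ∀ j : ℕ, τ ^ j ∈ inertiaSub q E E' := fun j => wild_le hπ (pow_mem_wild hπ hτ j)
  -- the fixed field
  set L : IntermediateField E E' := IntermediateField.fixedField (Subgroup.zpowers τ) with hL
  have towerL : IsScalarTower ℚ_[q] L E' := IsScalarTower.of_algebraMap_eq (fun x => rfl)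
  have fdL : FiniteDimensional ℚ_[q] L := FiniteDimensional.left ℚ_[q] L E'
  have hdeg : Module.finrank L E' = ℓ := by
    rw [hL, IntermediateField.finrank_fixedField_eq_card, Nat.card_zpowers, hord]
  have hmemL : ∀ x : E', avg τ ℓ x ∈ L := by
    intro x
    rw [hL, IntermediateField.mem_fixedField_iff]
    intro g hg
    obtain ⟨m, rfl⟩ := Subgroup.mem_zpowers_iff.1 hg
    have h1 : ∀ n : ℕ, (τ ^ n) (avg τ ℓ x) = avg τ ℓ x := by
      intro n
      induction n with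
      | zero => simp
      | succ n ih => rw [pow_succ, AlgEquiv.mul_apply, map_avg hτℓ, ih]
    cases m with
    | ofNat n => simpa using h1 n
    | negSucc n =>
      rw [zpow_negSucc]
      have h2 := h1 (n + 1)
      have h3 : (τ ^ (n + 1))⁻¹ ((τ ^ (n + 1)) (avg τ ℓ x)) = avg τ ℓ x := by
        rw [← AlgEquiv.mul_apply, inv_mul_cancel, AlgEquiv.one_apply]
      rwa [h2] at h3
  have hℓE : (ℓ : E') ≠ 0 := by
    intro h0
    have := snorm_natCast_eq_one q E' hqℓ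
    rw [h0, snorm_zero] at this
    exact zero_ne_one this
  have hπ0 : π ≠ 0 := hπ.2.1
  -- (1) `e(E'/L) = 1`
  have he : ramIdx q L E' = 1 := by
    set y : E' := avg τ ℓ π with hy
    set w : E' := (ℓ : E')⁻¹ * ∑ j ∈ Finset.range ℓ, (τ ^ j) π * π⁻¹ with hw
    have hyw : y = π * w := by
      rw [hy, hw]
      unfold avg
      rw [← Finset.sum_mul]
      field_simp
    have hw1 : snorm q E' (w - 1) < 1 :=
      snorm_mean_sub_lt q E' hqℓ (fun j => (τ ^ j) π * π⁻¹) 1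
        (fun j => snorm_ratio_sub_one_lt hπ (pow_mem_wild hπ hτ j))
    have hwn : snorm q E' w = 1 := by
      have h1 : snorm q E' ((1 : E') - w) < 1 := by
        rw [← snorm_neg, neg_sub]; exact hw1
      exact Fermat.Agent.PT.LOC.UnitsNorm11.snorm_eq_one_of_sub_lt_one q E' (snorm_one q E') h1
    have hyn : snorm q E' y = snorm q E' π := by rw [hyw, snorm_mul, hwn, mul_one]
    have hy0 : y ≠ 0 := by
      intro h0
      rw [h0, snorm_zero] at hyn
      exact (snorm_pos q E' hπ0).ne hyn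
    have hyL : y ∈ L := hmemL π
    have hyL0 : (⟨y, hyL⟩ : L) ≠ 0 := fun h => hy0 (congrArg Subtype.val h)
    have hordy : ord q E' (Units.mk0 y hy0) = 1 := by
      have h1 := (isUniformizer_iff_ord q E' (Units.mk0 π hπ0)).1 hπ
      rw [← h1]
      exact (ord_eq_ord_iff q E' _ _).2 hyn.symm
    have h2 := ord_algebraMap q L E' (Units.mk0 (⟨y, hyL⟩ : L) hyL0)
    have h3 : Units.map (algebraMap L E' : L →* E') (Units.mk0 (⟨y, hyL⟩ : L) hyL0) =
        Units.mk0 y hy0 := Units.ext rfl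
    rw [h3, hordy] at h2
    have h4 : (ramIdx q L E' : ℤ) = 1 :=
      Int.eq_one_of_mul_eq_one_right (Int.natCast_nonneg _) h2.symm
    exact_mod_cast h4
  -- (2) `f(E'/L) = 1`
  have hf : resDeg q L E' = 1 := by
    have hle : resCard q E' ≤ resCard q L := by
      rw [Fermat.Agent.PT.LOC.Frob27.resCard_eq_card q E', Fermat.Agent.PT.LOC.Frob27.resCard_eq_card q L]
      let g : (intRing q L ⧸ IsLocalRing.maximalIdeal (intRing q L)) →+* Kap q E' :=
        Ideal.Quotient.lift _ ((Ideal.Quotient.mk _).comp (algebraMap (intRing q L) (intRing q E')))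
          (by
            intro a ha
            rw [RingHom.comp_apply, Ideal.Quotient.eq_zero_iff_mem, mem_maximalIdeal_iff_snorm,
              coe_algebraMap_intRing, snorm_algebraMap_tower]
            exact (mem_maximalIdeal_iff_snorm q L a).1 ha)
      have hg : Function.Surjective g := by
        intro c
        obtain ⟨x', rfl⟩ := Ideal.Quotient.mk_surjective c
        have hx' : snorm q E' (x' : E') ≤ 1 := (mem_intRing_iff q E' _).1 x'.2
        have hz : snorm q E' (avg τ ℓ (x' : E') - (x' : E')) < 1 :=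
          snorm_avg_sub_lt hqℓ _ (fun j => hI j _ hx')
        have hz1 : snorm q E' (avg τ ℓ (x' : E')) ≤ 1 := by
          have h1 : avg τ ℓ (x' : E') = (avg τ ℓ (x' : E') - (x' : E')) + (x' : E') := by ring
          rw [h1]
          exact (snorm_add_le_max q E' _ _).trans (max_le hz.le hx')
        have hzL : (⟨avg τ ℓ (x' : E'), hmemL _⟩ : L) ∈ intRing q L := by
          rw [← algebraMap_mem_intRing_iff q L E', mem_intRing_iff]
          exact hz1
        refine ⟨Ideal.Quotient.mk _ ⟨⟨avg τ ℓ (x' : E'), hmemL _⟩, hzL⟩, ?_⟩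
        rw [Ideal.Quotient.lift_mk, RingHom.comp_apply, Ideal.Quotient.eq,
          mem_maximalIdeal_iff_snorm]
        exact hz
      exact Nat.card_le_card_of_surjective g hg
    have h1 := resCard_tower q L E'
    have hQ : 1 < resCard q L := one_lt_resCard q L
    rw [h1] at hle
    have h2 : resDeg q L E' ≤ 1 := by
      have h3 : resCard q L ^ resDeg q L E' ≤ resCard q L ^ 1 := by rwa [pow_one]
      exact (Nat.pow_le_pow_iff_right hQ).1 h3
    have h4 := resDeg_pos q L E'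
    omega
  have h5 := ramIdx_mul_resDeg q L E'
  rw [he, hf, hdeg] at h5
  exact hℓp.one_lt.ne h5

/-- **The wild inertia group is a `q`-group.** -/
theorem orderOf_wild {π : E'} (hπ : IsUniformizer q E' π) {τ : E' ≃ₐ[E] E'}
    (hτ : τ ∈ wild (E := E) hπ) : ∃ j : ℕ, orderOf τ = q ^ j := by
  have hfin := Fermat.Agent.PT.LOC.Frob27.finite_gal q E E'
  have hn0 : orderOf τ ≠ 0 := (orderOf_pos τ).ne'
  refine ⟨_, Nat.eq_prime_pow_of_unique_prime_dvd hn0 ?_⟩
  intro ℓ hℓ hdvd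
  by_contra hne
  obtain ⟨m, hm⟩ := hdvd
  have hm0 : m ≠ 0 := by
    rintro rfl
    rw [mul_zero] at hm
    exact hn0 hm
  have hord : orderOf (τ ^ m) = ℓ := by
    rw [orderOf_pow' τ hm0, hm, Nat.gcd_mul_left_left, Nat.mul_div_cancel _ (Nat.pos_of_ne_zero hm0)]
  exact not_wild_of_prime_order hπ (pow_mem_wild hπ hτ m) hℓ hne hord

end Avg

end

end Fermat.Agent.ES.T56.TameLoc16
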