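/-
Programme T (S56, Taylor–Wiles primes), chapter LOC, leaf `LocTW16` (helper16): the local count at a
Taylor–Wiles prime, BY HAND on the tame quotient (no Euler characteristic, no duality).

`Γ_q = Gal(ℚ̄_q/ℚ_q)`, `r = localGaloisToGlobal q : Γ_q → G_ℚ`, `A : Rep k Γ_q` finite, killed by `p`,
`p ∣ q - 1`.  Suppose that the action of `Γ_q` on `A` is trivial on `r⁻¹ Gal(ℚ̄/L₀)` (`L₀/ℚ` finite
Galois) and that, for every finite Galois `L ⊇ L₀`, the elements of `Γ_q` whose restriction to
`L_w = localField q L` lies in the inertia group of `Gal(L_w/ℚ_q)` act trivially on `A`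
("`A` is unramified"; this is what `InertiaBridge1` (helper1) derives from the Prelude's
`IsUnramifiedAt q`).  Then the CONTINUOUS part of `H¹(Γ_q, A)` is finite and

    `# H¹_cont(Γ_q, A) ≤ (# A^{Γ_q}) ^ 2`.
-/
import Mathlib
import Fermat.Prelude.Def_GroupCohomology_ContinuousUnramified
import Fermat.Agent.PT.BR.LocalLevel13
import Fermat.Agent.PT.BR.LevelBridge13
import Fermat.Agent.ES.T56.TameAbs16
import Fermat.Agent.ES.T56.TameLoc16

set_option autoImplicit false
set_option linter.unusedSectionVars false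

open groupCohomology
open scoped Fermat.Agent.PT.LOC.Interface12 Fermat.Agent.PT.LOC.StructureTower27
open Fermat.Agent.PT.LOC.Interface12 Fermat.Agent.PT.LOC.Structure14
  Fermat.Agent.PT.LOC.StructureTower27
open Fermat.Agent.PT.BR.LocInj13 Fermat.Agent.PT.BR.LocalLevel13
open Fermat.Agent.ES.T56.TameAbs16 Fermat.Agent.ES.T56.TameLoc16

namespace Fermat.Agent.ES.T56.LocTW16

noncomputable section

local notation "Qbar" => AlgebraicClosure ℚ

variable (q : ℕ) [Fact q.Prime]

/-- `Γ_q`. -/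
abbrev Gq : Type := PadicAlgCl q ≃ₐ[ℚ_[q]] PadicAlgCl q

variable {k : Type} [CommRing k] (A : Rep k (Gq q))

/-- "`A` is unramified", at the finite levels `L ⊇ L₀`. -/
def UnramAbove (L₀ : IntermediateField ℚ Qbar) : Prop :=
  ∀ (L : IntermediateField ℚ Qbar) [FiniteDimensional ℚ L] [IsGalois ℚ L], L₀ ≤ L →
    ∀ τ : Gq q, AlgEquiv.restrictNormalHom (F := ℚ_[q]) (K₁ := PadicAlgCl q) (localField q L) τ ∈
      inertiaSub q ℚ_[q] (localField q L) → ∀ a : A, A.ρ τ a = a

section Level

variable (L : IntermediateField ℚ Qbar) [FiniteDimensional ℚ L] [IsGalois ℚ L]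

/-- The level subgroup `Gal(ℚ̄_q / L_w)`. -/
abbrev lev : Subgroup (Gq q) := (localField q L).fixingSubgroup

/-- `Γ_q → Gal(L_w/ℚ_q)`. -/
abbrev resL : Gq q →* ((localField q L) ≃ₐ[ℚ_[q]] (localField q L)) :=
  AlgEquiv.restrictNormalHom (F := ℚ_[q]) (K₁ := PadicAlgCl q) (localField q L)

theorem resL_eq_one_iff (τ : Gq q) : resL q L τ = 1 ↔ τ ∈ lev q L := by
  rw [← MonoidHom.mem_ker, IntermediateField.restrictNormalHom_ker]

theorem resCard_mod {p : ℕ} (hpq : q % p = 1 % p) : resCard q ℚ_[q] % p = 1 % p := by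
  obtain ⟨j, -, hj⟩ := exists_resCard_eq_pow q ℚ_[q]
  rw [hj, Nat.pow_mod, hpq, ← Nat.pow_mod, one_pow]

variable {q A} in
/-- The tame data at the level `L`. -/
theorem exists_tameData {p : ℕ} (hp : p.Prime) (hpq : q % p = 1 % p) (hpq' : p ≠ q)
    {L₀ : IntermediateField ℚ Qbar} (hur : UnramAbove q A L₀) (hL : L₀ ≤ L) :
    Nonempty (TameData A p (lev q L)) := by
  have hfin := Fermat.Agent.PT.LOC.Frob27.finite_gal q ℚ_[q] (localField q L)
  obtain ⟨π, hπ⟩ := exists_isUniformizer q (localField q L)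
  obtain ⟨φG, hφG⟩ := Fermat.Agent.PT.LOC.Frob27.exists_isFrob q ℚ_[q] (localField q L)
  obtain ⟨τG, hτG, hcycG⟩ := exists_generator (E := ℚ_[q]) hπ
  have hsurj := restrictNormalHom_localField_surjective q L
  obtain ⟨φ, hφ⟩ := hsurj φG
  obtain ⟨τ₀, hτ₀⟩ := hsurj τG
  refine ⟨{
    I := (inertiaSub q ℚ_[q] (localField q L)).comap (resL q L)
    P := (wild (E := ℚ_[q]) hπ).comap (resL q L)
    φ := φ
    τ₀ := τ₀
    Q := resCard q ℚ_[q]
    hUP := ?_
    hPI := ?_
    hI := ?_
    hgen := ?_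
    hP := ?_
    hτ₀ := ?_
    hcyc := ?_
    hQ := resCard_mod q hpq
    hrel := ?_ }⟩
  · intro u hu
    rw [Subgroup.mem_comap, (resL_eq_one_iff q L u).2 hu]
    exact Subgroup.one_mem _
  · intro x hx
    exact wild_le hπ hx
  · intro g hg a
    exact hur L hL g hg a
  · intro g
    obtain ⟨n, hn⟩ := exists_zpow_mul_mem_inertia q ℚ_[q] (localField q L) hφG (resL q L g)
    refine ⟨n, ?_⟩
    rw [Subgroup.mem_comap, map_mul, map_zpow]
    rw [show resL q L φ = φG from hφ]
    exact hn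
  · intro x hx
    obtain ⟨j, hj⟩ := orderOf_wild hπ hx
    refine ⟨q ^ j, ?_, ?_⟩
    · apply Nat.Coprime.pow_left
      rw [Nat.coprime_primes (Fact.out : q.Prime) hp]
      exact fun h => hpq' h.symm
    · rw [← resL_eq_one_iff, map_pow, ← hj]
      exact pow_orderOf_eq_one _
  · rw [Subgroup.mem_comap, show resL q L τ₀ = τG from hτ₀]
    exact hτG
  · intro τ hτ
    obtain ⟨n, hn⟩ := hcycG (resL q L τ) hτ
    refine ⟨n, ?_⟩
    rw [Subgroup.mem_comap, map_mul, map_zpow, show resL q L τ₀ = τG from hτ₀]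
    exact hn
  · rw [Subgroup.mem_comap, map_mul, map_mul, map_mul, map_inv, map_inv, map_pow,
      show resL q L τ₀ = τG from hτ₀, show resL q L φ = φG from hφ]
    exact frob_rel_mem_wild hπ hφG hτG

end Level

/-! ### The count -/

section Count

variable {q A}

/-- The index set: finite Galois `L ⊇ L₀`. -/
def Levels (L₀ : IntermediateField ℚ Qbar) : Type :=
  {L : IntermediateField ℚ Qbar // FiniteDimensional ℚ L ∧ IsGalois ℚ L ∧ L₀ ≤ L}

/-- The continuous classes are the union of the level classes. -/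
theorem continuousH1_eq_iUnion (L₀ : IntermediateField ℚ Qbar) [FiniteDimensional ℚ L₀] :
    ((continuousH1 (localGaloisToGlobal q) A : Submodule k (H1 A)) : Set (H1 A)) =
      ⋃ L : Levels L₀, levelClasses (A := A) (lev q L.1) := by
  ext x
  rw [Set.mem_iUnion, SetLike.mem_coe, mem_continuousH1_iff]
  constructor
  · rintro ⟨c, ⟨F, hF, hc⟩, rfl⟩
    have : FiniteDimensional ℚ (F ⊔ L₀ : IntermediateField ℚ Qbar) :=
      IntermediateField.finiteDimensional_sup F L₀
    obtain ⟨L, hle, hLf, hLg⟩ := Fermat.Agent.PT.BR.LevelBridge13.exists_isGalois_ge (F ⊔ L₀)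
    refine ⟨⟨L, hLf, hLg, le_sup_right.trans hle⟩, c, ?_, rfl⟩
    intro g u hu
    apply hc g u
    have h1 := (mem_fixingSubgroup_localField_iff q L u).1 hu
    exact IntermediateField.fixingSubgroup_antitone (le_sup_left.trans hle) h1
  · rintro ⟨⟨L, hLf, hLg, hL⟩, c, hc, rfl⟩
    refine ⟨c, ⟨L, hLf, ?_⟩, rfl⟩
    intro g s hs
    exact hc g s ((mem_fixingSubgroup_localField_iff q L s).2 hs)

/-- **`LocTW16`, cardinality form.** -/
theorem finite_and_card_continuousH1_le {p : ℕ} (hp : p.Prime) (hpq : q % p = 1 % p)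
    [Finite A] (hpA : ∀ a : A, p • a = 0)
    (L₀ : IntermediateField ℚ Qbar) [FiniteDimensional ℚ L₀] (hur : UnramAbove q A L₀) :
    Finite ↥(continuousH1 (localGaloisToGlobal q) A) ∧
      Nat.card ↥(continuousH1 (localGaloisToGlobal q) A) ≤
        Nat.card (Representation.invariants A.ρ) ^ 2 := by
  have hpq' : p ≠ q := by
    rintro rfl
    rw [Nat.mod_self, Nat.mod_eq_of_lt hp.one_lt] at hpq
    exact zero_ne_one hpq
  have hlev : ∀ L : Levels L₀, (levelClasses (A := A) (lev q L.1)).Finite ∧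
      (levelClasses (A := A) (lev q L.1)).ncard ≤ Nat.card (Representation.invariants A.ρ) ^ 2 := by
    rintro ⟨L, hLf, hLg, hL⟩
    obtain ⟨D⟩ := exists_tameData L hp hpq hpq' hur hL
    exact levelClasses_finite_ncard_le D hpA hp
  have hdir : ∀ L L' : Levels L₀, ∃ L'' : Levels L₀,
      levelClasses (A := A) (lev q L.1) ⊆ levelClasses (lev q L''.1) ∧
      levelClasses (A := A) (lev q L'.1) ⊆ levelClasses (lev q L''.1) := by
    rintro ⟨L, hLf, hLg, hL⟩ ⟨L', hLf', hLg', hL'⟩
    have : FiniteDimensional ℚ (L ⊔ L' : IntermediateField ℚ Qbar) :=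
      IntermediateField.finiteDimensional_sup L L'
    obtain ⟨L'', hle, hf'', hg''⟩ := Fermat.Agent.PT.BR.LevelBridge13.exists_isGalois_ge (L ⊔ L')
    refine ⟨⟨L'', hf'', hg'', hL.trans (le_sup_left.trans hle)⟩, ?_, ?_⟩
    · apply levelClasses_mono
      exact IntermediateField.fixingSubgroup_antitone (localField_mono q (le_sup_left.trans hle))
    · apply levelClasses_mono
      exact IntermediateField.fixingSubgroup_antitone (localField_mono q (le_sup_right.trans hle))
  obtain ⟨hfin, hcard⟩ := finite_ncard_iUnion_le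
    (fun L : Levels L₀ => levelClasses (A := A) (lev q L.1)) _ hdir hlev
  rw [← continuousH1_eq_iUnion L₀] at hfin hcard
  refine ⟨hfin.to_subtype, ?_⟩
  rwa [← Nat.card_coe_set_eq] at hcard

end Count

end

end Fermat.Agent.ES.T56.LocTW16
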