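/-
Programme T (S56, Taylor–Wiles primes), chapter LOC, leaf `LocTW16`, part 4 (helper16): the bridge
from the LOC model (inertia group of `Gal(L_w/ℚ_q)`, `L_w = localField q L`) to the Prelude's GLOBAL
inertia group `I_P = (padicPlace q).inertiaSubgroupIn ℚ`, EASY direction only:

  `τ ∈ Γ_q`, `τ|_{L_w} ∈ I(L_w/ℚ_q)`  ⟹  `r τ ∈ I_P ⊔ Gal(ℚ̄/L)`     (`localToGlobal_mem_sup`)

(`(r τ)|_L` is congruent to the identity on `𝒪_L` modulo `𝔪_P`, and `S13.UnramBridge.exists_inertia_lift`
lifts such an element of `Gal(L/ℚ)` to `I_P`), and the final `Nat.Primes`/`Rep.res` form of the count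

  `# H¹_cont(Γ_q, M|_{Γ_q}) ≤ (# H⁰(Γ_q, M)) ^ 2`                        (`card_contLoc_le`)

for a finite `p`-torsion `M : Rep k G_ℚ` whose action factors through a finite level `L₀` and is
trivial on `I_P` (e.g. `M = ad⁰ρ̄` with `ρ̄` unramified at `q`), `q ≡ 1 (mod p)`.
-/
import Mathlib
import Fermat.Prelude.Def_GroupCohomology_ContinuousUnramified
import Fermat.Agent.S13.UnramBridge
import Fermat.Agent.Lib.FrobeniusExists
import Fermat.Agent.ES.T56.LocTW16

set_option autoImplicit false
set_option linter.unusedSectionVars false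

open groupCohomology ExtCitation
open scoped Fermat.Agent.PT.LOC.Interface12 Fermat.Agent.PT.LOC.StructureTower27
open Fermat.Agent.PT.LOC.Interface12 Fermat.Agent.PT.LOC.Structure14
  Fermat.Agent.PT.LOC.StructureTower27
open Fermat.Agent.PT.BR.LocInj13 Fermat.Agent.PT.BR.LocalLevel13
open Fermat.Agent.ES.T56.TameAbs16 Fermat.Agent.ES.T56.TameLoc16 Fermat.Agent.ES.T56.LocTW16

namespace Fermat.Agent.ES.T56.LocTWBridge16

noncomputable section

local notation "Qbar" => AlgebraicClosure ℚ

/-- `G_ℚ`. -/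
abbrev GQ : Type := Qbar ≃ₐ[ℚ] Qbar

section Bridge

variable (q : ℕ) [Fact q.Prime]

/-- The spectral norm of the local field is the norm of `ℚ̄_q`. -/
theorem snorm_localField (L : IntermediateField ℚ Qbar) [FiniteDimensional ℚ L]
    (y : localField q L) : snorm q (localField q L) y = ‖(y : PadicAlgCl q)‖ := by
  rw [← PadicAlgCl.spectralNorm_eq]
  exact spectralNorm.eq_of_tower (K := ℚ_[q]) (L := PadicAlgCl q) y

/-- The maximal ideal of `padicPlace q`. -/
theorem mem_nonunits_padicPlace_iff (x : Qbar) :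
    x ∈ (padicPlace q).nonunits ↔ ‖padicEmbedding q x‖ < 1 := by
  rw [ValuationSubring.mem_nonunits_iff_or]
  constructor
  · rintro (rfl | h)
    · rw [map_zero, norm_zero]; exact one_pos
    · rw [mem_padicPlace_iff, map_inv₀, nnnorm_inv] at h
      by_contra hcon
      apply h
      have h1 : (1 : NNReal) ≤ ‖padicEmbedding q x‖₊ := by
        rw [← NNReal.coe_le_coe]
        exact not_lt.1 hcon
      exact inv_le_one_of_one_le₀ h1
  · intro h
    by_cases hx : x = 0
    · exact Or.inl hx
    · right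
      rw [mem_padicPlace_iff, map_inv₀, nnnorm_inv]
      intro hcon
      have h0 : ‖padicEmbedding q x‖₊ ≠ 0 := by
        rw [nnnorm_ne_zero_iff]
        exact (map_ne_zero _).2 hx
      have h1 : (1 : NNReal) ≤ ‖padicEmbedding q x‖₊ := by
        have := (inv_le_one₀ (pos_iff_ne_zero.2 h0)).1 hcon
        exact this
      have h2 : (1 : ℝ) ≤ ‖padicEmbedding q x‖ := by
        exact_mod_cast h1
      exact absurd h (not_lt.2 h2)

/-- `padicPlace q` lies over `q`. -/
theorem padicPlace_liesOverPrime : (padicPlace q).LiesOverPrime q := by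
  show ((q : ℕ) : Qbar) ∈ (padicPlace q).nonunits
  rw [mem_nonunits_padicPlace_iff, map_natCast]
  have h1 : ((q : ℕ) : PadicAlgCl q) = algebraMap ℚ_[q] (PadicAlgCl q) (q : ℚ_[q]) := by
    rw [map_natCast]
  rw [h1, norm_algebraMap', Padic.norm_p]
  have hq : (1 : ℝ) < q := by exact_mod_cast (Fact.out : q.Prime).one_lt
  exact inv_lt_one_of_one_lt₀ hq

variable (L : IntermediateField ℚ Qbar) [FiniteDimensional ℚ L] [IsGalois ℚ L]

/-- **The bridge (easy direction).** -/
theorem localToGlobal_mem_sup (τ : Gq q)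
    (hτ : resL q L τ ∈ inertiaSub q ℚ_[q] (localField q L)) :
    localGaloisToGlobal q τ ∈ (padicPlace q).inertiaSubgroupIn ℚ ⊔ L.fixingSubgroup := by
  set g := localGaloisToGlobal q τ with hg
  have hcongr : ∀ x : L, IsIntegral ℤ x →
      (((AlgEquiv.restrictNormalHom L g x : L) : Qbar) - x) ∈ (padicPlace q).nonunits := by
    intro x hx
    have h2 : (((AlgEquiv.restrictNormalHom L g) x : L) : Qbar) = g (x : Qbar) :=
      AlgEquiv.restrictNormal_commutes g L x
    rw [h2, mem_nonunits_padicPlace_iff, map_sub, hg, padicEmbedding_localGaloisToGlobal]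
    -- the element of the local field
    have hmem : padicEmbedding q (x : Qbar) ∈ localField q L :=
      padicEmbedding_mem_localField q x.2
    set y : localField q L := ⟨padicEmbedding q (x : Qbar), hmem⟩ with hy
    have hxint : IsIntegral ℤ (x : Qbar) := by
      have := hx.map (IsScalarTower.toAlgHom ℤ L Qbar)
      exact this
    have hnorm : snorm q (localField q L) y ≤ 1 := by
      rw [snorm_localField]
      have hmemP : (x : Qbar) ∈ padicPlace q :=
        Fermat.Agent.Lib.FrobeniusExists.mem_valuationSubring_of_isIntegral _ hxint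
      have := (mem_padicPlace_iff q).1 hmemP
      exact_mod_cast this
    have h3 := hτ y hnorm
    rw [snorm_localField] at h3
    have h4 : (((resL q L τ) y : localField q L) : PadicAlgCl q) = τ (y : PadicAlgCl q) :=
      AlgEquiv.restrictNormal_commutes τ (localField q L) y
    have h5 : (((resL q L τ) y - y : localField q L) : PadicAlgCl q)
        = τ (padicEmbedding q (x : Qbar)) - padicEmbedding q (x : Qbar) := by
      rw [AddSubgroupClass.coe_sub, h4]
    rw [h5] at h3
    exact h3
  obtain ⟨σ, hσI, hσ⟩ := Fermat.Agent.S13.UnramBridge.exists_inertia_lift L (padicPlace q)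
    (Fact.out : q.Prime) (padicPlace_liesOverPrime q) (AlgEquiv.restrictNormalHom L g) hcongr
  have hfix : σ⁻¹ * g ∈ L.fixingSubgroup := by
    rw [IntermediateField.mem_fixingSubgroup_iff]
    intro x hx
    have h2 : (((AlgEquiv.restrictNormalHom L g) ⟨x, hx⟩ : L) : Qbar) = g x :=
      AlgEquiv.restrictNormal_commutes g L ⟨x, hx⟩
    have h3 := hσ ⟨x, hx⟩
    rw [h2] at h3
    rw [AlgEquiv.mul_apply, ← h3]
    show σ⁻¹ (σ x) = x
    rw [← AlgEquiv.mul_apply, inv_mul_cancel, AlgEquiv.one_apply]
  have : g = σ * (σ⁻¹ * g) := by rw [mul_inv_cancel_left]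
  rw [this]
  exact Subgroup.mul_mem_sup hσI hfix

end Bridge

/-! ### The final form -/

section Final

variable {k : Type} [CommRing k]

/-- **`LocTW16`, final form** (`Nat.Primes`, `Rep.res`, global-inertia hypothesis). -/
theorem card_contLoc_le (q : Nat.Primes) {p : ℕ} (hp : p.Prime) (hpq : (q : ℕ) % p = 1 % p)
    (M : Rep k GQ) [Finite M] (hpM : ∀ a : M, p • a = 0)
    (L₀ : IntermediateField ℚ Qbar) [FiniteDimensional ℚ L₀]
    (hL₀ : ∀ σ ∈ L₀.fixingSubgroup, ∀ a : M, M.ρ σ a = a)
    (hur : ∀ σ ∈ (primeLocalPlace q).inertiaSubgroupIn ℚ, ∀ a : M, M.ρ σ a = a) :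
    Finite ↥(continuousH1 (primeLocalToGlobal q) (Rep.res (primeLocalToGlobal q) M)) ∧
      Nat.card ↥(continuousH1 (primeLocalToGlobal q) (Rep.res (primeLocalToGlobal q) M)) ≤
        Nat.card ↥(Representation.invariants (Rep.res (primeLocalToGlobal q) M).ρ) ^ 2 := by
  have : Fact (q : ℕ).Prime := ⟨q.2⟩
  have hurA : UnramAbove (q : ℕ) (Rep.res (localGaloisToGlobal (q : ℕ)) M) L₀ := by
    intro L _ _ hL τ hτ a
    have h1 := localToGlobal_mem_sup (q : ℕ) L τ hτ
    have hle : (padicPlace (q : ℕ)).inertiaSubgroupIn ℚ ⊔ L.fixingSubgroup ≤ M.ρ.ker := by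
      refine sup_le ?_ ?_
      · intro x hx
        rw [MonoidHom.mem_ker]
        exact LinearMap.ext fun a => hur x hx a
      · intro x hx
        rw [MonoidHom.mem_ker]
        exact LinearMap.ext fun a => hL₀ x (IntermediateField.fixingSubgroup_antitone hL hx) a
    have htriv : ∀ σ ∈ (padicPlace (q : ℕ)).inertiaSubgroupIn ℚ ⊔ L.fixingSubgroup,
        ∀ a : M, M.ρ σ a = a := by
      intro σ hσ a
      have := MonoidHom.mem_ker.1 (hle hσ)
      rw [this]; rfl
    exact htriv _ h1 a
  exact finite_and_card_continuousH1_le (q := (q : ℕ))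
    (A := Rep.res (localGaloisToGlobal (q : ℕ)) M) hp hpq hpM L₀ hurA

end Final

end

end Fermat.Agent.ES.T56.LocTWBridge16
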