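/-
Programme T (S56), chapters LOC / KUM / FLAT, leaf `InertiaDict16` (helper16): THE DICTIONARY between the
Prelude's GLOBAL inertia group of `padicPlace q` and the action of `Γ_q` on the residue field of `ℚ̄_q`.

`ι = padicEmbedding q`, `r = localGaloisToGlobal q`, `A = padicPlace q`.

* `exists_padicEmbedding_near` : `ι(ℚ̄)` is dense in `ℚ̄_q` (`PadicAlgCl q`);
* **`mem_inertia_iff`** : for `τ ∈ Γ_q`:
      `r τ ∈ A.inertiaSubgroupIn ℚ  ↔  ∀ y, ‖y‖ ≤ 1 → ‖τ y - y‖ < 1`
  (so the restriction of such a `τ` to ANY finite subextension `E'/ℚ_q` of `ℚ̄_q` lies in the LOC-model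
  inertia group `TameLoc16.inertiaSub q ℚ_[q] E'`, and conversely);
* `mem_inertiaSub_of_mem_inertia`, `mem_inertiaSub_localField_iff` : the finite-level forms; the second is
  the CONVERSE of `LocTWBridge16.localToGlobal_mem_sup`:
      `τ|_{L_w} ∈ I(L_w/ℚ_q)  ↔  r τ ∈ I_A ⊔ Gal(ℚ̄/L)`.
-/
import Mathlib
import Fermat.Agent.S05.Inertia
import Fermat.Agent.S13.UnramVal
import Fermat.Agent.ES.T56.LocSurj16
import Fermat.Agent.ES.T56.LocTWBridge16

set_option autoImplicit false
set_option linter.unusedSectionVars false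

open scoped TensorProduct Pointwise
open scoped Fermat.Agent.PT.LOC.Interface12 Fermat.Agent.PT.LOC.StructureTower27
open Fermat.Agent.PT.LOC.Interface12 Fermat.Agent.PT.LOC.Structure14
open Fermat.Agent.PT.BR.LocInj13 Fermat.Agent.PT.BR.LocalLevel13
open Fermat.Agent.ES.T56.TameLoc16 Fermat.Agent.ES.T56.LocTW16

namespace Fermat.Agent.ES.T56.InertiaDict16

noncomputable section

local notation "Qbar" => AlgebraicClosure ℚ

variable (q : ℕ) [Fact q.Prime]

/-- `ℚ → ℚ_q → ℚ̄_q` is a tower. -/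
local instance towerQqPadic16 : IsScalarTower ℚ ℚ_[q] (PadicAlgCl q) :=
  IsScalarTower.of_algebraMap_eq' (Subsingleton.elim _ _)

theorem norm_sub_le_max' (a b : PadicAlgCl q) : ‖a - b‖ ≤ max ‖a‖ ‖b‖ := by
  rw [sub_eq_add_neg]
  refine (IsUltrametricDist.norm_add_le_max a (-b)).trans ?_
  rw [norm_neg]

/-- **Density of `ι(ℚ̄)` in `ℚ̄_q`.** -/
theorem exists_padicEmbedding_near (y : PadicAlgCl q) {ε : ℝ} (hε : 0 < ε) :
    ∃ x : Qbar, ‖y - padicEmbedding q x‖ < ε := by
  obtain ⟨t, rfl⟩ := LocSurj16.tmap_id_surjective q y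
  obtain ⟨S, rfl⟩ := TensorProduct.exists_finset t
  rw [LocSurj16.tmap_sum]
  set B : ℝ := ∑ i ∈ S, ‖padicEmbedding q i.2‖ with hB
  have hB0 : 0 ≤ B := Finset.sum_nonneg fun i _ => norm_nonneg _
  have hδ : 0 < ε / (B + 1) := div_pos hε (by linarith)
  choose b hb using fun a : ℚ_[q] => Padic.rat_dense q a hδ
  refine ⟨∑ i ∈ S, (b i.1) • i.2, ?_⟩
  have h1 : padicEmbedding q (∑ i ∈ S, (b i.1) • i.2)
      = ∑ i ∈ S, algebraMap ℚ_[q] (PadicAlgCl q) (b i.1 : ℚ_[q]) * padicEmbedding q i.2 := by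
    rw [map_sum]
    refine Finset.sum_congr rfl fun i _ => ?_
    rw [Algebra.smul_def, map_mul, AlgHom.commutes, LocSurj16.algebraMap_ratCast]
  have h2 : (∑ i ∈ S, algebraMap ℚ_[q] (PadicAlgCl q) i.1 * padicEmbedding q ((AlgHom.id ℚ Qbar) i.2))
      - padicEmbedding q (∑ i ∈ S, (b i.1) • i.2)
      = ∑ i ∈ S, algebraMap ℚ_[q] (PadicAlgCl q) (i.1 - (b i.1 : ℚ_[q])) * padicEmbedding q i.2 := by
    rw [h1, ← Finset.sum_sub_distrib]
    refine Finset.sum_congr rfl fun i _ => ?_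
    rw [map_sub, sub_mul]
    rfl
  rw [h2]
  have hle : ‖∑ i ∈ S, algebraMap ℚ_[q] (PadicAlgCl q) (i.1 - (b i.1 : ℚ_[q]))
      * padicEmbedding q i.2‖ ≤ ε / (B + 1) * B := by
    refine IsUltrametricDist.norm_sum_le_of_forall_le_of_nonneg (mul_nonneg hδ.le hB0) ?_
    intro i hi
    rw [norm_mul, norm_algebraMap']
    refine mul_le_mul (hb i.1).le ?_ (norm_nonneg _) hδ.le
    exact Finset.single_le_sum (f := fun i : ℚ_[q] × Qbar => ‖padicEmbedding q i.2‖)
      (fun j _ => norm_nonneg _) hi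
  refine lt_of_le_of_lt hle ?_
  rw [div_mul_eq_mul_div, div_lt_iff₀ (by linarith)]
  nlinarith

/-- Elements of `Γ_q` are isometries. -/
theorem norm_apply (τ : PadicAlgCl q ≃ₐ[ℚ_[q]] PadicAlgCl q) (y : PadicAlgCl q) : ‖τ y‖ = ‖y‖ := by
  have := nnnorm_padicAlgCl_algEquiv q τ y
  exact congrArg NNReal.toReal this

/-- **The dictionary.** -/
theorem mem_inertia_iff (τ : PadicAlgCl q ≃ₐ[ℚ_[q]] PadicAlgCl q) :
    localGaloisToGlobal q τ ∈ (padicPlace q).inertiaSubgroupIn ℚ ↔
      ∀ y : PadicAlgCl q, ‖y‖ ≤ 1 → ‖τ y - y‖ < 1 := by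
  constructor
  · intro hτ y hy
    obtain ⟨x, hx⟩ := exists_padicEmbedding_near q y one_pos
    -- `ι x` is integral
    have hx1 : ‖padicEmbedding q x‖ ≤ 1 := by
      have : padicEmbedding q x = y - (y - padicEmbedding q x) := by ring
      rw [this]
      exact le_trans (norm_sub_le_max' q _ _) (max_le hy hx.le)
    have hxA : x ∈ padicPlace q := (LocSurj16.mem_padicPlace_iff_norm q x).2 hx1
    have h1 := Fermat.Agent.S05.Inertia.apply_sub_mem_nonunits hτ hxA
    rw [LocTWBridge16.mem_nonunits_padicPlace_iff, map_sub, padicEmbedding_localGaloisToGlobal] at h1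
    have h2 : τ y - y = (τ (y - padicEmbedding q x) - (y - padicEmbedding q x))
        + (τ (padicEmbedding q x) - padicEmbedding q x) := by
      rw [map_sub]; ring
    rw [h2]
    refine lt_of_le_of_lt (IsUltrametricDist.norm_add_le_max _ _) (max_lt ?_ h1)
    refine lt_of_le_of_lt (norm_sub_le_max' q _ _) (max_lt ?_ hx)
    rw [norm_apply]
    exact hx
  · intro h
    apply Fermat.Agent.S13.UnramVal.mem_inertiaSubgroupIn_qbar (padicPlace q) (Fact.out : q.Prime)
      (LocTWBridge16.padicPlace_liesOverPrime q)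
    intro x hx
    rw [LocTWBridge16.mem_nonunits_padicPlace_iff, map_sub, padicEmbedding_localGaloisToGlobal]
    apply h
    have hxA : x ∈ padicPlace q :=
      Fermat.Agent.Lib.FrobeniusExists.mem_valuationSubring_of_isIntegral _ hx
    exact (LocSurj16.mem_padicPlace_iff_norm q x).1 hxA

/-! ### Finite levels -/

/-- The spectral norm of a finite subextension of `ℚ̄_q` is the norm of `ℚ̄_q`. -/
theorem snorm_intermediateField (E' : IntermediateField ℚ_[q] (PadicAlgCl q))
    [FiniteDimensional ℚ_[q] E'] (y : E') : snorm q E' y = ‖(y : PadicAlgCl q)‖ := by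
  rw [← PadicAlgCl.spectralNorm_eq]
  exact spectralNorm.eq_of_tower (K := ℚ_[q]) (L := PadicAlgCl q) y

/-- An element of `Γ_q` mapping into the global inertia group restricts into the LOC-model inertia
group of EVERY finite normal subextension. -/
theorem mem_inertiaSub_of_mem_inertia (E' : IntermediateField ℚ_[q] (PadicAlgCl q))
    [FiniteDimensional ℚ_[q] E'] [Normal ℚ_[q] E'] {τ : PadicAlgCl q ≃ₐ[ℚ_[q]] PadicAlgCl q}
    (hτ : localGaloisToGlobal q τ ∈ (padicPlace q).inertiaSubgroupIn ℚ) :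
    AlgEquiv.restrictNormalHom (F := ℚ_[q]) (K₁ := PadicAlgCl q) E' τ ∈ inertiaSub q ℚ_[q] E' := by
  intro y hy
  rw [snorm_intermediateField] at hy ⊢
  have h1 := (mem_inertia_iff q τ).1 hτ (y : PadicAlgCl q) hy
  have h4 : (((AlgEquiv.restrictNormalHom (F := ℚ_[q]) (K₁ := PadicAlgCl q) E' τ) y : E') :
      PadicAlgCl q) = τ (y : PadicAlgCl q) := AlgEquiv.restrictNormal_commutes τ E' y
  rw [AddSubgroupClass.coe_sub, h4]
  exact h1

variable (L : IntermediateField ℚ Qbar) [FiniteDimensional ℚ L] [IsGalois ℚ L]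

/-- **The LOC-model inertia at level `L` is the global one**: the converse of
`LocTWBridge16.localToGlobal_mem_sup` included. -/
theorem mem_inertiaSub_localField_iff (τ : Gq q) :
    resL q L τ ∈ inertiaSub q ℚ_[q] (localField q L) ↔
      localGaloisToGlobal q τ ∈ (padicPlace q).inertiaSubgroupIn ℚ ⊔ L.fixingSubgroup := by
  constructor
  · exact LocTWBridge16.localToGlobal_mem_sup q L τ
  · intro h
    have hnorm : (L.fixingSubgroup).Normal :=
      Fermat.Agent.PT.BR.LevelBridge13.normal_fixingSubgroup L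
    obtain ⟨σ, hσ, s, hs, hσs⟩ := Subgroup.mem_sup_of_normal_right.1 h
    obtain ⟨τ', rfl⟩ := LocSurj16.inertia_le_range q hσ
    have h1 : localGaloisToGlobal q (τ'⁻¹ * τ) ∈ L.fixingSubgroup := by
      rw [map_mul, map_inv, ← hσs, inv_mul_cancel_left]
      exact hs
    have h2 : τ'⁻¹ * τ ∈ lev q L := (mem_fixingSubgroup_localField_iff q L _).2 h1
    have h3 : resL q L (τ'⁻¹ * τ) = 1 := (resL_eq_one_iff q L _).2 h2
    have h4 : resL q L τ = resL q L τ' := by
      rw [map_mul, map_inv, inv_mul_eq_one] at h3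
      exact h3.symm
    rw [h4]
    exact mem_inertiaSub_of_mem_inertia q (localField q L) hσ

end

end Fermat.Agent.ES.T56.InertiaDict16
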