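/-
Programme T (S56), chapter KUM (helper17 lead, helper7), file `KumHomFilt7` — helper7.

ABSTRACT COUNTING LEMMA for equivariant homomorphisms into a filtered module.

`Δ` is any index type (in the applications a finite Galois group), acting on the abelian groups
`V`, `X`, `Q` through explicitly given families of maps (`aV : Δ → V → V`,
`aX : Δ → X →+ X`, `aQ : Δ → Q →+ Q`; no axioms are needed).  For a subgroup `Y ≤ X`,
`eqHomInto aV aX Y` is the group of additive maps `T : V → X` with `T (aV δ v) = aX δ (T v)` and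
`T v ∈ Y`.

* `card_eqHomInto_le` (left exactness of `Hom_Δ(V, -)`, in cardinalities): if `q : X → Q` is additive
  and equivariant ON `Y` and `{x ∈ Y | q x = 0} ⊆ Y'`, then
  `#Hom_Δ(V, Y) ≤ #Hom_Δ(V, Y') * #Hom_Δ(V, Q)`.
* `card_eqHomInto_le_of_le`, `card_eqHomInto_bot`, `card_eqHomInto_eq_of_forall_mem`: monotonicity,
  the bottom step, and the step where a level does not contribute.

Consumers: `KumGr7`/`KumCount7` (the filtration `1 + p π^t 𝒪` of `X = (1 + p𝒪)·L₀^{×p}/L₀^{×p}`).
-/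
import Mathlib

set_option autoImplicit false

namespace Fermat.Agent.ES.T56.KumHomFilt7

variable {Δ : Type*} {V X Q : Type*} [AddCommGroup V] [AddCommGroup X] [AddCommGroup Q]

/-- `Hom_Δ(V, Y)`: additive maps `T : V → X`, equivariant for the given actions, with values in the
subgroup `Y`. -/
def eqHomInto (aV : Δ → V → V) (aX : Δ → X →+ X) (Y : AddSubgroup X) : AddSubgroup (V →+ X) where
  carrier := {T | (∀ δ v, T (aV δ v) = aX δ (T v)) ∧ ∀ v, T v ∈ Y}
  add_mem' := by
    rintro T T' ⟨h1, h2⟩ ⟨h1', h2'⟩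
    refine ⟨fun δ v => ?_, fun v => ?_⟩
    · rw [AddMonoidHom.add_apply, AddMonoidHom.add_apply, h1, h1', map_add]
    · rw [AddMonoidHom.add_apply]
      exact Y.add_mem (h2 v) (h2' v)
  zero_mem' := by
    refine ⟨fun δ v => ?_, fun v => ?_⟩
    · rw [AddMonoidHom.zero_apply, AddMonoidHom.zero_apply, map_zero]
    · rw [AddMonoidHom.zero_apply]
      exact Y.zero_mem
  neg_mem' := by
    rintro T ⟨h1, h2⟩
    refine ⟨fun δ v => ?_, fun v => ?_⟩
    · rw [AddMonoidHom.neg_apply, AddMonoidHom.neg_apply, h1, map_neg]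
    · rw [AddMonoidHom.neg_apply]
      exact Y.neg_mem (h2 v)

theorem mem_eqHomInto_iff {aV : Δ → V → V} {aX : Δ → X →+ X} {Y : AddSubgroup X} {T : V →+ X} :
    T ∈ eqHomInto aV aX Y ↔ (∀ δ v, T (aV δ v) = aX δ (T v)) ∧ ∀ v, T v ∈ Y := Iff.rfl

theorem eqHomInto_mono (aV : Δ → V → V) (aX : Δ → X →+ X) {Y Y' : AddSubgroup X} (h : Y ≤ Y') :
    eqHomInto aV aX Y ≤ eqHomInto aV aX Y' :=
  fun _ hT => ⟨hT.1, fun v => h (hT.2 v)⟩

instance finite_eqHomInto [Finite V] (aV : Δ → V → V) (aX : Δ → X →+ X)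
    (Y : AddSubgroup X) [Finite Y] : Finite (eqHomInto aV aX Y) :=
  Finite.of_injective (fun T => fun v : V => (⟨((T : V →+ X) v), T.2.2 v⟩ : Y))
    (fun T T' h => by
      apply Subtype.ext
      ext v
      exact congrArg (fun f : V → Y => ((f v : Y) : X)) h)

/-- Monotonicity in cardinalities. -/
theorem card_eqHomInto_le_of_le [Finite V] (aV : Δ → V → V) (aX : Δ → X →+ X)
    {Y Y' : AddSubgroup X} [Finite Y'] (h : Y ≤ Y') :
    Nat.card (eqHomInto aV aX Y) ≤ Nat.card (eqHomInto aV aX Y') :=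
  Nat.card_le_card_of_injective (AddSubgroup.inclusion (eqHomInto_mono aV aX h))
    (AddSubgroup.inclusion_injective _)

/-- The bottom step of a filtration. -/
theorem card_eqHomInto_bot (aV : Δ → V → V) (aX : Δ → X →+ X) :
    Nat.card (eqHomInto aV aX (⊥ : AddSubgroup X)) = 1 := by
  rw [Nat.card_eq_one_iff_unique]
  refine ⟨⟨fun T T' => ?_⟩, ⟨0⟩⟩
  apply Subtype.ext
  ext v
  rw [AddSubgroup.mem_bot.1 (T.2.2 v), AddSubgroup.mem_bot.1 (T'.2.2 v)]

/-- **Left exactness of `Hom_Δ(V, -)` in cardinalities.**  `q` only needs to be additive and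
equivariant on `Y`. -/
theorem card_eqHomInto_le [Finite V] [Finite Q] (aV : Δ → V → V) (aX : Δ → X →+ X)
    (aQ : Δ → Q →+ Q) (Y Y' : AddSubgroup X) [Finite Y'] (q : X → Q)
    (hadd : ∀ x ∈ Y, ∀ y ∈ Y, q (x + y) = q x + q y)
    (heq : ∀ δ, ∀ x ∈ Y, q (aX δ x) = aQ δ (q x))
    (hker : ∀ x ∈ Y, q x = 0 → x ∈ Y') :
    Nat.card (eqHomInto aV aX Y) ≤
      Nat.card (eqHomInto aV aX Y') * Nat.card (eqHomInto aV aQ (⊤ : AddSubgroup Q)) := by
  classical
  have hq0 : q 0 = 0 := by
    have h := hadd 0 Y.zero_mem 0 Y.zero_mem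
    rw [add_zero] at h
    exact left_eq_add.1 h
  -- composition with `q`
  let Φ : eqHomInto aV aX Y →+ eqHomInto aV aQ (⊤ : AddSubgroup Q) :=
    { toFun := fun T => ⟨
        { toFun := fun v => q ((T : V →+ X) v)
          map_zero' := by rw [map_zero, hq0]
          map_add' := fun v w => by rw [map_add, hadd _ (T.2.2 v) _ (T.2.2 w)] },
        ⟨fun δ v => by
          show q ((T : V →+ X) (aV δ v)) = aQ δ (q ((T : V →+ X) v))
          rw [T.2.1 δ v, heq δ _ (T.2.2 v)], fun _ => AddSubgroup.mem_top _⟩⟩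
      map_zero' := by
        apply Subtype.ext
        ext v
        show q ((0 : V →+ X) v) = 0
        rw [AddMonoidHom.zero_apply, hq0]
      map_add' := fun T T' => by
        apply Subtype.ext
        ext v
        show q ((((T + T' : eqHomInto aV aX Y)) : V →+ X) v) =
          q ((T : V →+ X) v) + q ((T' : V →+ X) v)
        rw [AddSubgroup.coe_add, AddMonoidHom.add_apply, hadd _ (T.2.2 v) _ (T'.2.2 v)] }
  -- the kernel of `Φ` injects into `Hom_Δ(V, Y')`
  have hkerle : Nat.card Φ.ker ≤ Nat.card (eqHomInto aV aX Y') := by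
    refine Nat.card_le_card_of_injective
      (fun T => ⟨((T : eqHomInto aV aX Y) : V →+ X), ⟨(T : eqHomInto aV aX Y).2.1, fun v => ?_⟩⟩)
      (fun T T' h => ?_)
    · have hT : Φ (T : eqHomInto aV aX Y) = 0 := T.2
      have h0 : q (((T : eqHomInto aV aX Y) : V →+ X) v) = 0 := by
        have := congrArg (fun S : eqHomInto aV aQ (⊤ : AddSubgroup Q) => (S : V →+ Q) v) hT
        exact this
      exact hker _ ((T : eqHomInto aV aX Y).2.2 v) h0
    · apply Subtype.ext
      apply Subtype.ext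
      exact congrArg (fun S : eqHomInto aV aX Y' => (S : V →+ X)) h
  have hrange : Nat.card (eqHomInto aV aX Y ⧸ Φ.ker) ≤
      Nat.card (eqHomInto aV aQ (⊤ : AddSubgroup Q)) := by
    refine Nat.card_le_card_of_injective (QuotientAddGroup.kerLift Φ)
      (QuotientAddGroup.kerLift_injective Φ)
  calc Nat.card (eqHomInto aV aX Y)
      = Nat.card (eqHomInto aV aX Y ⧸ Φ.ker) * Nat.card Φ.ker :=
        AddSubgroup.card_eq_card_quotient_mul_card_addSubgroup Φ.ker
    _ ≤ Nat.card (eqHomInto aV aQ (⊤ : AddSubgroup Q)) * Nat.card (eqHomInto aV aX Y') :=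
        Nat.mul_le_mul hrange hkerle
    _ = _ := Nat.mul_comm _ _

/-- A level which is contained in the next one does not contribute. -/
theorem card_eqHomInto_eq_of_le [Finite V] (aV : Δ → V → V) (aX : Δ → X →+ X)
    {Y Y' : AddSubgroup X} [Finite Y] [Finite Y'] (h : Y ≤ Y') (h' : Y' ≤ Y) :
    Nat.card (eqHomInto aV aX Y) = Nat.card (eqHomInto aV aX Y') :=
  le_antisymm (card_eqHomInto_le_of_le aV aX h) (card_eqHomInto_le_of_le aV aX h')

/-- Finiteness propagates up a filtration step: if `q` is additive on `Y` with values in a finite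
group and `{x ∈ Y | q x = 0}` lies in the finite subgroup `Y'`, then `Y` is finite. -/
theorem finite_of_step [Finite Q] (Y Y' : AddSubgroup X) [Finite Y'] (q : X → Q)
    (hadd : ∀ x ∈ Y, ∀ y ∈ Y, q (x + y) = q x + q y)
    (hker : ∀ x ∈ Y, q x = 0 → x ∈ Y') : Finite Y := by
  have hq0 : q 0 = 0 := by
    have h := hadd 0 Y.zero_mem 0 Y.zero_mem
    rw [add_zero] at h
    exact left_eq_add.1 h
  let Φ : Y →+ Q :=
    { toFun := fun y => q (y : X)
      map_zero' := by rw [AddSubgroup.coe_zero, hq0]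
      map_add' := fun y z => by rw [AddSubgroup.coe_add, hadd _ y.2 _ z.2] }
  have hker' : Finite Φ.ker :=
    Finite.of_injective (fun y : Φ.ker => (⟨((y : Y) : X), hker _ (y : Y).2 y.2⟩ : Y'))
      (fun y z h => by
        apply Subtype.ext
        apply Subtype.ext
        exact congrArg (fun w : Y' => (w : X)) h)
  have hrange : Finite (Y ⧸ Φ.ker) :=
    Finite.of_injective (QuotientAddGroup.kerLift Φ) (QuotientAddGroup.kerLift_injective Φ)
  have hcard : Nat.card Y = Nat.card (Y ⧸ Φ.ker) * Nat.card Φ.ker :=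
    AddSubgroup.card_eq_card_quotient_mul_card_addSubgroup Φ.ker
  have hne : Nat.card Y ≠ 0 := by
    rw [hcard]
    exact Nat.mul_ne_zero Nat.card_pos.ne' Nat.card_pos.ne'
  exact Nat.finite_of_card_ne_zero hne

end Fermat.Agent.ES.T56.KumHomFilt7
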