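/-
Programme T (S56), chapter KUM (helper17 lead, helper7), file `KumLevels7` — helper7.

LEVEL SUBGROUPS OF THE UNITS OF A LOCAL DOMAIN, abstractly (no uniformizer, no valuation).

`B` a local domain (in the applications `B = intRing p L₀`, a complete DVR), `c ∈ B`.
* `lev c : Subgroup Bˣ` : the units `u ≡ 1 mod c`;
* `coef c u` : THE `x` with `u - 1 = c * x` (for `c ≠ 0`, `u ∈ lev c`), `qmap c u = residue x ∈ κ`;
* `qmap_mul` : `qmap c` is additive on `lev c` when `c ∈ 𝔪`;
* `qmap_eq_zero_iff` : `qmap c u = 0 ↔ u ∈ lev (c * ϖ)` when `𝔪 = (ϖ)`;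
* `qmap_map` : for a ring automorphism `σ` with `σ c = c * a`:
  `qmap c (σ u) = residue a * σ̄ (qmap c u)`  (the tame character `θ^t` when `c = p ϖ^t`);
* `lev_mul_le`, `lev_anti` : monotonicity.
-/
import Mathlib

set_option autoImplicit false
set_option linter.unusedSectionVars false

namespace Fermat.Agent.ES.T56.KumLevels7

open IsLocalRing

variable {B : Type*} [CommRing B]

/-- The units `u ≡ 1 mod c`. -/
def lev (c : B) : Subgroup Bˣ where
  carrier := {u | c ∣ (u : B) - 1}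
  one_mem' := by
    show c ∣ ((1 : Bˣ) : B) - 1
    rw [Units.val_one, sub_self]
    exact dvd_zero c
  mul_mem' := by
    intro u v hu hv
    show c ∣ ((u * v : Bˣ) : B) - 1
    have h : ((u * v : Bˣ) : B) - 1 = ((u : B) - 1) * (v : B) + ((v : B) - 1) := by
      rw [Units.val_mul]; ring
    rw [h]
    exact dvd_add (Dvd.dvd.mul_right hu _) hv
  inv_mem' := by
    intro u hu
    show c ∣ ((u⁻¹ : Bˣ) : B) - 1
    have h : ((u⁻¹ : Bˣ) : B) - 1 = -((u⁻¹ : Bˣ) : B) * ((u : B) - 1) := by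
      have h1 : ((u⁻¹ : Bˣ) : B) * (u : B) = 1 := by rw [← Units.val_mul, inv_mul_cancel, Units.val_one]
      linear_combination h1
    rw [h]
    exact Dvd.dvd.mul_left hu _

theorem mem_lev_iff {c : B} {u : Bˣ} : u ∈ lev c ↔ c ∣ (u : B) - 1 := Iff.rfl

theorem lev_anti {c c' : B} (h : c ∣ c') : lev c' ≤ lev c :=
  fun _ hu => dvd_trans h hu

/-- `1 + c x` as an element of `lev c`, when it is a unit. -/
theorem mem_lev_of_eq {c : B} {u : Bˣ} {x : B} (h : (u : B) = 1 + c * x) : u ∈ lev c := by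
  rw [mem_lev_iff, h, add_sub_cancel_left]
  exact dvd_mul_right c x

/-- The coefficient `x` of `u = 1 + c x`. -/
noncomputable def coef (c : B) (u : Bˣ) : B :=
  open Classical in if h : c ∣ (u : B) - 1 then h.choose else 0

theorem coef_spec {c : B} {u : Bˣ} (hu : u ∈ lev c) : (u : B) - 1 = c * coef c u := by
  have h : c ∣ (u : B) - 1 := hu
  rw [coef, dif_pos h]
  exact h.choose_spec

theorem val_eq_one_add {c : B} {u : Bˣ} (hu : u ∈ lev c) : (u : B) = 1 + c * coef c u := by
  rw [← coef_spec hu]; ring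

section Domain

variable [IsDomain B]

theorem coef_eq {c : B} (hc : c ≠ 0) {u : Bˣ} {x : B} (hx : (u : B) - 1 = c * x) :
    coef c u = x := by
  have hu : u ∈ lev c := ⟨x, hx⟩
  have h := coef_spec hu
  rw [hx] at h
  exact (mul_left_cancel₀ hc h).symm

variable [IsLocalRing B]

/-- The residue of the coefficient. -/
noncomputable def qmap (c : B) (u : Bˣ) : ResidueField B := residue B (coef c u)

theorem qmap_eq {c : B} (hc : c ≠ 0) {u : Bˣ} {x : B} (hx : (u : B) - 1 = c * x) :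
    qmap c u = residue B x := by
  rw [qmap, coef_eq hc hx]

theorem qmap_one {c : B} (hc : c ≠ 0) : qmap c (1 : Bˣ) = 0 := by
  rw [qmap_eq hc (x := 0) (by rw [Units.val_one, sub_self, mul_zero]), map_zero]

/-- `qmap c` is additive on `lev c` (for `c ∈ 𝔪`). -/
theorem qmap_mul {c : B} (hc : c ≠ 0) (hcm : c ∈ maximalIdeal B) {u v : Bˣ} (hu : u ∈ lev c)
    (hv : v ∈ lev c) : qmap c (u * v) = qmap c u + qmap c v := by
  have h1 := coef_spec hu
  have h2 := coef_spec hv
  have h : ((u * v : Bˣ) : B) - 1 = c * (coef c u + coef c v + c * (coef c u * coef c v)) := by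
    rw [Units.val_mul]
    linear_combination (v : B) * h1 + (1 + c * coef c u) * h2
  rw [qmap_eq hc h, map_add, map_add, map_mul]
  have hc0 : residue B c = 0 := (residue_eq_zero_iff c).2 hcm
  rw [hc0, zero_mul, add_zero]
  rfl

/-- The kernel of `qmap c` on `lev c` is the next level. -/
theorem qmap_eq_zero_iff {c ϖ : B} (hc : c ≠ 0) (hϖ : maximalIdeal B = Ideal.span {ϖ}) {u : Bˣ}
    (hu : u ∈ lev c) : qmap c u = 0 ↔ u ∈ lev (c * ϖ) := by
  rw [qmap, residue_eq_zero_iff, hϖ, Ideal.mem_span_singleton, mem_lev_iff, coef_spec hu]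
  constructor
  · rintro ⟨y, hy⟩
    exact ⟨y, by rw [hy]; ring⟩
  · rintro ⟨y, hy⟩
    refine ⟨y, ?_⟩
    have : c * coef c u = c * (ϖ * y) := by rw [hy]; ring
    exact mul_left_cancel₀ hc this

/-- Equivariance: if `σ c = c * a` then `qmap c (σ u) = ā · σ̄ (qmap c u)`. -/
theorem qmap_map {c a : B} (hc : c ≠ 0) (σ : B ≃+* B) (ha : σ c = c * a) {u : Bˣ}
    (hu : u ∈ lev c) :
    qmap c (Units.map (σ : B →* B) u) =
      residue B a * ResidueField.mapEquiv σ (qmap c u) := by
  have h1 := coef_spec hu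
  have h : ((Units.map (σ : B →* B) u : Bˣ) : B) - 1 = c * (a * σ (coef c u)) := by
    have : ((Units.map (σ : B →* B) u : Bˣ) : B) = σ (u : B) := rfl
    rw [this]
    have h2 : σ (u : B) - 1 = σ ((u : B) - 1) := by rw [map_sub, map_one]
    rw [h2, h1, map_mul, ha]
    ring
  rw [qmap_eq hc h, map_mul]
  rfl

theorem map_mem_lev {c a : B} (σ : B ≃+* B) (ha : σ c = c * a) {u : Bˣ} (hu : u ∈ lev c) :
    Units.map (σ : B →* B) u ∈ lev c := by
  obtain ⟨x, hx⟩ := hu
  refine ⟨a * σ x, ?_⟩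
  have : ((Units.map (σ : B →* B) u : Bˣ) : B) = σ (u : B) := rfl
  rw [this]
  have h2 : σ (u : B) - 1 = σ ((u : B) - 1) := by rw [map_sub, map_one]
  rw [h2, hx, map_mul, ha]
  ring

end Domain

end Fermat.Agent.ES.T56.KumLevels7
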