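/-
Programme T (S56), chapter KUM (helper17 lead, helper7), file `KumStep7` — helper7.

ONE STEP OF THE UNIT FILTRATION, for equivariant homomorphisms into `𝒢 = Bˣ/(p-th powers)`-like groups.

Setting: `B` a local domain with residue field `κ`; `j : Bˣ →* 𝒢` a homomorphism to a commutative group
(in the application `𝒢 = L₀ˣ ⧸ L₀^{×p}`, `B = 𝒪_{L₀}`); an index type `Δ` acting on `B` through ring
automorphisms `σ δ`, on `𝒢` through `a𝒢 δ` (compatibly with `j`), on an abelian group `V` through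
`aV δ`, on a finite abelian group `Q` through `aQ δ`; `Φ : κ →+ Q` a "coordinate".

* `levImage j c : AddSubgroup (Additive 𝒢)` : the image of the level `lev c` (units `≡ 1 mod c`);
* `card_step_le` : if `u ↦ Φ (qmap c u)` kills `lev c ∩ ker j`, is `Δ`-equivariant, and its kernel on
  `lev c` is mapped by `j` into `Y'`, then
      `#Hom_Δ(V, levImage j c) ≤ #Hom_Δ(V, Y') * #Hom_Δ(V, Q)`;
* `finite_step` : under the same hypotheses `levImage j c` is finite when `Y'` and `Q` are;
* `levImage_eq_of_exists_pow` : a level all of whose elements are `p`-th powers modulo the next one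
  has the same image as the next one.
-/
import Mathlib
import Fermat.Agent.ES.T56.KumHomFilt7
import Fermat.Agent.ES.T56.KumLevels7

set_option autoImplicit false
set_option linter.unusedSectionVars false

namespace Fermat.Agent.ES.T56.KumStep7

open IsLocalRing Fermat.Agent.ES.T56.KumHomFilt7 Fermat.Agent.ES.T56.KumLevels7

variable {B : Type*} [CommRing B] [IsDomain B] [IsLocalRing B]
  {𝒢 : Type*} [CommGroup 𝒢] (j : Bˣ →* 𝒢)

/-- The image of the level `lev c` in `𝒢`, additively. -/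
def levImage (c : B) : AddSubgroup (Additive 𝒢) := ((lev c).map j).toAddSubgroup

theorem mem_levImage_iff {c : B} {g : Additive 𝒢} :
    g ∈ levImage j c ↔ ∃ u ∈ lev c, Additive.ofMul (j u) = g := by
  constructor
  · rintro ⟨u, hu, rfl⟩
    exact ⟨u, hu, rfl⟩
  · rintro ⟨u, hu, rfl⟩
    exact ⟨u, hu, rfl⟩

theorem ofMul_mem_levImage {c : B} {u : Bˣ} (hu : u ∈ lev c) :
    Additive.ofMul (j u) ∈ levImage j c := (mem_levImage_iff j).2 ⟨u, hu, rfl⟩

theorem levImage_anti {c c' : B} (h : c ∣ c') : levImage j c' ≤ levImage j c := by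
  intro g hg
  obtain ⟨u, hu, rfl⟩ := (mem_levImage_iff j).1 hg
  exact ofMul_mem_levImage j (lev_anti h hu)

/-- A level all of whose elements are `p`-th powers (of elements killed by `j`) modulo a deeper
level has the same image as the deeper level. -/
theorem levImage_eq_of_exists {c c' : B} (h : c ∣ c')
    (hstep : ∀ u ∈ lev c, ∃ z : Bˣ, j z = 1 ∧ u * z ∈ lev c') :
    levImage j c = levImage j c' := by
  refine le_antisymm (fun g hg => ?_) (levImage_anti j h)
  obtain ⟨u, hu, rfl⟩ := (mem_levImage_iff j).1 hg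
  obtain ⟨z, hz, huz⟩ := hstep u hu
  have : j u = j (u * z) := by rw [map_mul, hz, mul_one]
  rw [this]
  exact ofMul_mem_levImage j huz

section Step

variable {Δ : Type*} {V Q : Type*} [AddCommGroup V] [AddCommGroup Q]
  (σ : Δ → B ≃+* B) (a𝒢 : Δ → 𝒢 →* 𝒢)
  (hj : ∀ δ u, j (Units.map ((σ δ : B ≃+* B) : B →* B) u) = a𝒢 δ (j u))
  (aV : Δ → V → V) (aQ : Δ → Q →+ Q)

/-- The action on `Additive 𝒢`. -/
def addAct (δ : Δ) : Additive 𝒢 →+ Additive 𝒢 := MonoidHom.toAdditive (a𝒢 δ)

variable {c : B} (hc : c ≠ 0) (hcm : c ∈ maximalIdeal B) (Φ : ResidueField B →+ Q)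
  (Y' : AddSubgroup (Additive 𝒢))
  (hwd : ∀ u ∈ lev c, j u = 1 → Φ (qmap c u) = 0)
  (hker : ∀ u ∈ lev c, Φ (qmap c u) = 0 → Additive.ofMul (j u) ∈ Y')
  (hstab : ∀ δ, ∀ u ∈ lev c, Units.map ((σ δ : B ≃+* B) : B →* B) u ∈ lev c)
  (heq : ∀ δ, ∀ u ∈ lev c,
    Φ (qmap c (Units.map ((σ δ : B ≃+* B) : B →* B) u)) = aQ δ (Φ (qmap c u)))

/-- The coordinate map on `Additive 𝒢` (junk outside the image of the level). -/
noncomputable def coord (c : B) (Φ : ResidueField B →+ Q) (g : Additive 𝒢) : Q :=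
  open Classical in
  if h : ∃ u ∈ lev c, Additive.ofMul (j u) = g then Φ (qmap c h.choose) else 0

include hc hcm hwd in
theorem coord_ofMul {u : Bˣ} (hu : u ∈ lev c) :
    coord j c Φ (Additive.ofMul (j u)) = Φ (qmap c u) := by
  have h : ∃ u' ∈ lev c, Additive.ofMul (j u') = Additive.ofMul (j u) := ⟨u, hu, rfl⟩
  rw [coord, dif_pos h]
  obtain ⟨hu', hju'⟩ := h.choose_spec
  set u' := h.choose
  have hju : j u' = j u := hju'
  -- `u = u' * (u'⁻¹ * u)` with `u'⁻¹ * u ∈ lev c ∩ ker j`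
  have hw : u'⁻¹ * u ∈ lev c := (lev c).mul_mem ((lev c).inv_mem hu') hu
  have hjw : j (u'⁻¹ * u) = 1 := by rw [map_mul, map_inv, hju, inv_mul_cancel]
  have h0 := hwd _ hw hjw
  have hsplit : u = u' * (u'⁻¹ * u) := by rw [mul_inv_cancel_left]
  have h1 : qmap c u = qmap c u' + qmap c (u'⁻¹ * u) := by
    conv_lhs => rw [hsplit]
    exact qmap_mul hc hcm hu' hw
  rw [h1, map_add, h0, add_zero]

include hc hcm hwd in
theorem coord_add {x y : Additive 𝒢} (hx : x ∈ levImage j c) (hy : y ∈ levImage j c) :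
    coord j c Φ (x + y) = coord j c Φ x + coord j c Φ y := by
  obtain ⟨u, hu, rfl⟩ := (mem_levImage_iff j).1 hx
  obtain ⟨v, hv, rfl⟩ := (mem_levImage_iff j).1 hy
  have hxy : Additive.ofMul (j u) + Additive.ofMul (j v) = Additive.ofMul (j (u * v)) := by
    rw [map_mul]; rfl
  rw [hxy, coord_ofMul j hc hcm Φ hwd ((lev c).mul_mem hu hv), coord_ofMul j hc hcm Φ hwd hu,
    coord_ofMul j hc hcm Φ hwd hv, qmap_mul hc hcm hu hv, map_add]

include hc hcm hwd hj hstab heq in
theorem coord_act (δ : Δ) {x : Additive 𝒢} (hx : x ∈ levImage j c) :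
    coord j c Φ (addAct a𝒢 δ x) = aQ δ (coord j c Φ x) := by
  obtain ⟨u, hu, rfl⟩ := (mem_levImage_iff j).1 hx
  have h1 : addAct a𝒢 δ (Additive.ofMul (j u)) =
      Additive.ofMul (j (Units.map ((σ δ : B ≃+* B) : B →* B) u)) := by
    rw [hj]; rfl
  rw [h1, coord_ofMul j hc hcm Φ hwd (hstab δ u hu), coord_ofMul j hc hcm Φ hwd hu, heq δ u hu]

include hc hcm hwd hker in
theorem coord_ker {x : Additive 𝒢} (hx : x ∈ levImage j c) (h0 : coord j c Φ x = 0) : x ∈ Y' := by
  obtain ⟨u, hu, rfl⟩ := (mem_levImage_iff j).1 hx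
  rw [coord_ofMul j hc hcm Φ hwd hu] at h0
  exact hker u hu h0

include hc hcm hwd hker hj hstab heq in
/-- **One step of the filtration.** -/
theorem card_step_le [Finite V] [Finite Q] [Finite Y'] :
    Nat.card (eqHomInto aV (addAct a𝒢) (levImage j c)) ≤
      Nat.card (eqHomInto aV (addAct a𝒢) Y') *
        Nat.card (eqHomInto aV aQ (⊤ : AddSubgroup Q)) :=
  card_eqHomInto_le aV (addAct a𝒢) aQ (levImage j c) Y' (coord j c Φ)
    (fun _ hx _ hy => coord_add j hc hcm Φ hwd hx hy)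
    (fun δ _ hx => coord_act j σ a𝒢 hj aQ hc hcm Φ hwd hstab heq δ hx)
    (fun _ hx h0 => coord_ker j hc hcm Φ Y' hwd hker hx h0)

include hc hcm hwd hker in
/-- Finiteness propagates. -/
theorem finite_step [Finite Q] [Finite Y'] : Finite (levImage j c) :=
  finite_of_step (levImage j c) Y' (coord j c Φ)
    (fun _ hx _ hy => coord_add j hc hcm Φ hwd hx hy)
    (fun _ hx h0 => coord_ker j hc hcm Φ Y' hwd hker hx h0)

end Step

end Fermat.Agent.ES.T56.KumStep7
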