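/-
Programme T (S56), chapter KUM (helper17 lead, helper7), file `KumAS7` — helper7.

ARTIN–SCHREIER FOR A FINITE FIELD (additive Hilbert 90 by counting) and a binomial expansion.

`κ` a finite field of characteristic `p`, `Tr = Algebra.trace (ZMod p) κ`.
* `trace_ringEquiv` : `Tr (f x) = Tr x` for every ring automorphism `f` of `κ`;
* `trace_pow_char` : `Tr (x ^ p) = Tr x`;
* `exists_sub_pow_of_trace_eq_zero` : `Tr x = 0 → ∃ y, x = y - y ^ p`;
* `exists_one_add_pow_expansion` : `(1 + t) ^ p = 1 + p t + t ^ p + p t² r` in any commutative ring.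
-/
import Mathlib

set_option autoImplicit false
set_option linter.unusedSectionVars false

namespace Fermat.Agent.ES.T56.KumAS7

open Polynomial

section Expansion

variable {R : Type*} [CommRing R]

/-- `(1 + t)^p = 1 + p t + t^p + p t² r`. -/
theorem exists_one_add_pow_expansion {p : ℕ} (hp : p.Prime) (t : R) :
    ∃ r : R, (1 + t) ^ p = 1 + (p : R) * t + t ^ p + (p : R) * t ^ 2 * r := by
  classical
  have h := add_pow_prime_eq' hp t (1 : R)
  have h1 : (1 : ℕ) ∈ Finset.Ioo 0 p := Finset.mem_Ioo.2 ⟨Nat.one_pos, hp.one_lt⟩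
  rw [← Finset.add_sum_erase _ _ h1] at h
  refine ⟨∑ k ∈ (Finset.Ioo 0 p).erase 1, t ^ (k - 2) * ((p.choose k / p : ℕ) : R), ?_⟩
  have h2 : ∀ k ∈ (Finset.Ioo 0 p).erase 1,
      t ^ k * (1 : R) ^ (p - k) * ((p.choose k / p : ℕ) : R) =
        t ^ 2 * (t ^ (k - 2) * ((p.choose k / p : ℕ) : R)) := by
    intro k hk
    obtain ⟨hk1, hk2⟩ := Finset.mem_erase.1 hk
    have hk0 : 0 < k := (Finset.mem_Ioo.1 hk2).1
    have hk2' : 2 ≤ k := by omega
    rw [one_pow, mul_one, ← mul_assoc, ← pow_add, Nat.add_sub_cancel' hk2']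
  rw [Finset.sum_congr rfl h2, ← Finset.mul_sum] at h
  have h3 : ((p.choose 1 / p : ℕ) : R) = 1 := by
    rw [Nat.choose_one_right, Nat.div_self hp.pos, Nat.cast_one]
  rw [h3] at h
  rw [add_comm 1 t, h]
  ring

end Expansion

section FiniteField

variable {κ : Type*} [Field κ] [Finite κ] (p : ℕ) [hp : Fact p.Prime] [CharP κ p]
  [Algebra (ZMod p) κ]

/-- The trace to the prime field is invariant under ring automorphisms. -/
theorem trace_ringEquiv (f : κ ≃+* κ) (x : κ) :
    Algebra.trace (ZMod p) κ (f x) = Algebra.trace (ZMod p) κ x := by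
  let e : κ ≃ₐ[ZMod p] κ := AlgEquiv.ofRingEquiv (f := f) (fun a => by
    have h : (f : κ →+* κ).comp (algebraMap (ZMod p) κ) = algebraMap (ZMod p) κ :=
      Subsingleton.elim _ _
    exact congrArg (fun g : ZMod p →+* κ => g a) h)
  exact Algebra.trace_eq_of_algEquiv e x

/-- `Tr (x ^ p) = Tr x`. -/
theorem trace_pow_char (x : κ) :
    Algebra.trace (ZMod p) κ (x ^ p) = Algebra.trace (ZMod p) κ x := by
  have : PerfectRing κ p := PerfectRing.ofFiniteOfIsReduced p κ
  have h := trace_ringEquiv p (frobeniusEquiv κ p) x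
  rwa [frobeniusEquiv_apply] at h

/-- The Artin–Schreier map `y ↦ y - y ^ p`, as an additive map. -/
def wp : κ →+ κ := AddMonoidHom.id κ - (frobenius κ p : κ →+* κ).toAddMonoidHom

@[simp] theorem wp_apply (y : κ) : wp p y = y - y ^ p := rfl

theorem card_ker_wp : Nat.card (wp (κ := κ) p).ker = p := by
  refine Eq.trans (Nat.card_congr (Equiv.subtypeEquivRight (fun y => ?_))) (Subfield.card_bot κ p)
  rw [AddMonoidHom.mem_ker, wp_apply, sub_eq_zero, Subfield.mem_bot_iff_pow_eq_self κ p, eq_comm]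

theorem trace_wp (y : κ) : Algebra.trace (ZMod p) κ (wp p y) = 0 := by
  rw [wp_apply, map_sub, trace_pow_char, sub_self]

/-- **Additive Hilbert 90** for `κ/𝔽_p`. -/
theorem exists_sub_pow_of_trace_eq_zero {x : κ} (hx : Algebra.trace (ZMod p) κ x = 0) :
    ∃ y : κ, x = y - y ^ p := by
  classical
  let T : κ →+ ZMod p := (Algebra.trace (ZMod p) κ).toAddMonoidHom
  have hTsurj : Function.Surjective T := by
    exact Algebra.trace_surjective (ZMod p) κ
  have hle : (wp (κ := κ) p).range ≤ T.ker := by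
    rintro _ ⟨y, rfl⟩
    exact trace_wp p y
  -- cardinalities
  have h1 : Nat.card κ = Nat.card (κ ⧸ (wp (κ := κ) p).ker) * Nat.card (wp (κ := κ) p).ker :=
    AddSubgroup.card_eq_card_quotient_mul_card_addSubgroup _
  have h2 : Nat.card κ = Nat.card (κ ⧸ T.ker) * Nat.card T.ker :=
    AddSubgroup.card_eq_card_quotient_mul_card_addSubgroup _
  have h3 : Nat.card (κ ⧸ (wp (κ := κ) p).ker) = Nat.card (wp (κ := κ) p).range :=
    Nat.card_congr (QuotientAddGroup.quotientKerEquivRange (wp (κ := κ) p)).toEquiv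
  have h4 : Nat.card (κ ⧸ T.ker) = p := by
    rw [Nat.card_congr (QuotientAddGroup.quotientKerEquivOfSurjective T hTsurj).toEquiv,
      Nat.card_zmod]
  rw [h3, card_ker_wp] at h1
  rw [h4] at h2
  have hpp : 0 < p := hp.out.pos
  have h5 : Nat.card T.ker = Nat.card (wp (κ := κ) p).range := by
    have : p * Nat.card T.ker = p * Nat.card (wp (κ := κ) p).range := by
      rw [← h2, h1, mul_comm]
    exact Nat.eq_of_mul_eq_mul_left hpp this
  have heq : (wp (κ := κ) p).range = T.ker :=
    AddSubgroup.eq_of_le_of_card_ge hle h5.le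
  have hxk : x ∈ T.ker := hx
  rw [← heq] at hxk
  obtain ⟨y, hy⟩ := hxk
  exact ⟨y, hy.symm⟩

end FiniteField

end Fermat.Agent.ES.T56.KumAS7
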