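/-
Programme T (S56), chapter KUM (helper17 lead, helper7), file `KumTop7` — helper7.

THE TOP LEVEL `1 + p(ζ-1)𝒪` OF THE UNIT FILTRATION (Artin–Schreier).

`B` a local domain with finite residue field `κ` of characteristic `p`, `ζ ∈ B`, `ζ^p = 1`,
`lam = ζ - 1`, `c = p * lam`.  With `Tr = Algebra.trace (ZMod p) κ`:

* `one_add_mul_pow` : `(1 + lam y)^p = 1 + c (y - y^p) + c lam s`;
* `trace_qmap_pow` : a `p`-th power `z^p ∈ lev c` with `z ≡ 1 mod lam` has `Tr (qmap c (z^p)) = 0`;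
* `exists_pow_of_trace_eq_zero` : `u ∈ lev c`, `Tr (qmap c u) = 0` ⟹ `u` is a `p`-th power, provided
  the next level `lev (c ϖ)` consists of `p`-th powers (`(N2)`);
* `qmap_map_zeta` : for a ring automorphism `σ` with `σ ζ = ζ^n`:
  `Tr (qmap c (σ u)) = n • Tr (qmap c u)` (the top graded piece is `𝔽_p(ω)`).
-/
import Mathlib
import Fermat.Agent.ES.T56.KumLevels7
import Fermat.Agent.ES.T56.KumAS7

set_option autoImplicit false
set_option linter.unusedSectionVars false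

namespace Fermat.Agent.ES.T56.KumTop7

open IsLocalRing Fermat.Agent.ES.T56.KumLevels7 Fermat.Agent.ES.T56.KumAS7

variable {B : Type*} [CommRing B] [IsDomain B] [IsLocalRing B]
  (p : ℕ) [hp : Fact p.Prime] {ζ : B} (hζ : ζ ^ p = 1)

include hζ in
/-- `(ζ-1)^p = -p(ζ-1)(1 + (ζ-1) r₀)`. -/
theorem exists_lam_pow :
    ∃ r₀ : B, (ζ - 1) ^ p = -((p : B) * (ζ - 1)) - (p : B) * (ζ - 1) ^ 2 * r₀ := by
  obtain ⟨r₀, h⟩ := exists_one_add_pow_expansion hp.out (ζ - 1)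
  refine ⟨r₀, ?_⟩
  have h1 : (1 + (ζ - 1)) ^ p = 1 := by rw [add_sub_cancel, hζ]
  rw [h1] at h
  linear_combination -h

include hζ in
/-- `(1 + (ζ-1) y)^p = 1 + c (y - y^p) + c (ζ-1) s`, `c = p(ζ-1)`. -/
theorem one_add_mul_pow (y : B) :
    ∃ s : B, (1 + (ζ - 1) * y) ^ p =
      1 + ((p : B) * (ζ - 1)) * (y - y ^ p) + ((p : B) * (ζ - 1)) * (ζ - 1) * s := by
  obtain ⟨r₀, h0⟩ := exists_lam_pow p hζ
  obtain ⟨r, h⟩ := exists_one_add_pow_expansion hp.out ((ζ - 1) * y)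
  refine ⟨y ^ 2 * r - r₀ * y ^ p, ?_⟩
  rw [h, mul_pow, h0]
  ring

variable [Finite (ResidueField B)] [CharP (ResidueField B) p] [Algebra (ZMod p) (ResidueField B)]

/-- The coordinate of the top level: the trace of the residue of the coefficient. -/
noncomputable def topCoord : ResidueField B →+ ZMod p :=
  (Algebra.trace (ZMod p) (ResidueField B)).toAddMonoidHom

@[simp] theorem topCoord_apply (x : ResidueField B) :
    topCoord (B := B) p x = Algebra.trace (ZMod p) (ResidueField B) x := rfl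

include hζ in
/-- A `p`-th power of a unit `≡ 1 mod (ζ-1)` has trace-zero coordinate at the top level. -/
theorem trace_qmap_pow (hc : (p : B) * (ζ - 1) ≠ 0) (hlm : ζ - 1 ∈ maximalIdeal B) {z : Bˣ}
    (hz : z ∈ lev (ζ - 1)) :
    topCoord (B := B) p (qmap ((p : B) * (ζ - 1)) (z ^ p)) = 0 := by
  obtain ⟨y, hy⟩ := hz
  obtain ⟨s, hs⟩ := one_add_mul_pow p hζ y
  have hzy : (z : B) = 1 + (ζ - 1) * y := by rw [← hy]; ring
  have h : ((z ^ p : Bˣ) : B) - 1 = ((p : B) * (ζ - 1)) * ((y - y ^ p) + (ζ - 1) * s) := by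
    rw [Units.val_pow_eq_pow_val, hzy, hs]
    ring
  rw [qmap_eq hc h, map_add, map_mul, (residue_eq_zero_iff (ζ - 1)).2 hlm, zero_mul, add_zero,
    map_sub, map_pow, topCoord_apply]
  exact trace_wp p (residue B y)

include hζ in
/-- Trace zero at the top level ⟹ `p`-th power (given `(N2)` for the next level). -/
theorem exists_pow_of_trace_eq_zero (hc : (p : B) * (ζ - 1) ≠ 0)
    (hlm : ζ - 1 ∈ maximalIdeal B) {ϖ : B} (hϖ : maximalIdeal B = Ideal.span {ϖ})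
    (hN2 : ∀ u ∈ lev ((p : B) * (ζ - 1) * ϖ), ∃ z : Bˣ, u = z ^ p)
    {u : Bˣ} (hu : u ∈ lev ((p : B) * (ζ - 1)))
    (h0 : topCoord (B := B) p (qmap ((p : B) * (ζ - 1)) u) = 0) : ∃ z : Bˣ, u = z ^ p := by
  have hcm : (p : B) * (ζ - 1) ∈ maximalIdeal B := Ideal.mul_mem_left _ _ hlm
  obtain ⟨ybar, hybar⟩ := exists_sub_pow_of_trace_eq_zero p h0
  obtain ⟨y, rfl⟩ := residue_surjective ybar
  -- the unit `w = 1 + (ζ-1) y`
  have hwunit : IsUnit (1 + (ζ - 1) * y) := by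
    by_contra hnu
    have hmem : 1 + (ζ - 1) * y ∈ maximalIdeal B := (mem_maximalIdeal _).2 hnu
    have h1 : (1 : B) ∈ maximalIdeal B := by
      have := (maximalIdeal B).sub_mem hmem (Ideal.mul_mem_right y _ hlm)
      rwa [add_sub_cancel_right] at this
    exact (maximalIdeal.isMaximal B).ne_top ((Ideal.eq_top_iff_one _).2 h1)
  obtain ⟨w, hw⟩ := hwunit
  have hwlev : w ∈ lev (ζ - 1) := mem_lev_of_eq hw
  have hwp : w ^ p ∈ lev ((p : B) * (ζ - 1)) := by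
    obtain ⟨s, hs⟩ := one_add_mul_pow p hζ y
    refine ⟨(y - y ^ p) + (ζ - 1) * s, ?_⟩
    rw [Units.val_pow_eq_pow_val, hw, hs]
    ring
  have hqw : qmap ((p : B) * (ζ - 1)) (w ^ p) = residue B y - residue B y ^ p := by
    obtain ⟨s, hs⟩ := one_add_mul_pow p hζ y
    have h : ((w ^ p : Bˣ) : B) - 1 = ((p : B) * (ζ - 1)) * ((y - y ^ p) + (ζ - 1) * s) := by
      rw [Units.val_pow_eq_pow_val, hw, hs]
      ring
    rw [qmap_eq hc h, map_add, map_mul, (residue_eq_zero_iff (ζ - 1)).2 hlm, zero_mul, add_zero,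
      map_sub, map_pow]
  -- `u / w^p` lies in the next level
  have hinv : (w ^ p)⁻¹ ∈ lev ((p : B) * (ζ - 1)) := (lev _).inv_mem hwp
  have hquot : u * (w ^ p)⁻¹ ∈ lev ((p : B) * (ζ - 1)) := (lev _).mul_mem hu hinv
  have hq0 : qmap ((p : B) * (ζ - 1)) (u * (w ^ p)⁻¹) = 0 := by
    have h1 : qmap ((p : B) * (ζ - 1)) (w ^ p) + qmap ((p : B) * (ζ - 1)) (w ^ p)⁻¹ = 0 := by
      rw [← qmap_mul hc hcm hwp hinv, mul_inv_cancel, qmap_one hc]
    rw [qmap_mul hc hcm hu hinv, eq_neg_of_add_eq_zero_right h1, hqw, hybar]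
    ring
  have hnext := (qmap_eq_zero_iff hc hϖ hquot).1 hq0
  obtain ⟨z', hz'⟩ := hN2 _ hnext
  refine ⟨z' * w, ?_⟩
  rw [mul_pow, ← hz', inv_mul_cancel_right]

/-- Equivariance at the top level: `σ ζ = ζ^n` ⟹ `Tr (qmap c (σ u)) = n • Tr (qmap c u)`. -/
theorem topCoord_qmap_map (hc : (p : B) * (ζ - 1) ≠ 0) (hlm : ζ - 1 ∈ maximalIdeal B)
    (σ : B ≃+* B) {n : ℕ} (hσ : σ ζ = ζ ^ n) {u : Bˣ} (hu : u ∈ lev ((p : B) * (ζ - 1))) :
    topCoord (B := B) p (qmap ((p : B) * (ζ - 1)) (Units.map (σ : B →* B) u)) =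
      (n : ZMod p) * topCoord (B := B) p (qmap ((p : B) * (ζ - 1)) u) := by
  have ha : σ ((p : B) * (ζ - 1)) = (p : B) * (ζ - 1) * ∑ i ∈ Finset.range n, ζ ^ i := by
    rw [map_mul, map_natCast, map_sub, map_one, hσ, mul_assoc, mul_comm (ζ - 1), geom_sum_mul]
  have hres : residue B (∑ i ∈ Finset.range n, ζ ^ i) = (n : ResidueField B) := by
    have hζ1 : residue B ζ = 1 := by
      have := (residue_eq_zero_iff (ζ - 1)).2 hlm
      rwa [map_sub, map_one, sub_eq_zero] at this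
    rw [map_sum]
    simp only [map_pow, hζ1, one_pow, Finset.sum_const, Finset.card_range, nsmul_eq_mul, mul_one]
  rw [qmap_map hc σ ha hu, hres, topCoord_apply, topCoord_apply]
  have h1 : (n : ResidueField B) * ResidueField.mapEquiv σ (qmap ((p : B) * (ζ - 1)) u) =
      (n : ZMod p) • ResidueField.mapEquiv σ (qmap ((p : B) * (ζ - 1)) u) := by
    rw [Algebra.smul_def, map_natCast]
  rw [h1, map_smul, smul_eq_mul, trace_ringEquiv p (ResidueField.mapEquiv σ)]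

theorem map_mem_lev_top (σ : B ≃+* B) {n : ℕ} (hσ : σ ζ = ζ ^ n) {u : Bˣ}
    (hu : u ∈ lev ((p : B) * (ζ - 1))) :
    Units.map (σ : B →* B) u ∈ lev ((p : B) * (ζ - 1)) := by
  have ha : σ ((p : B) * (ζ - 1)) = (p : B) * (ζ - 1) * ∑ i ∈ Finset.range n, ζ ^ i := by
    rw [map_mul, map_natCast, map_sub, map_one, hσ, mul_assoc, mul_comm (ζ - 1), geom_sum_mul]
  exact map_mem_lev σ ha hu

end Fermat.Agent.ES.T56.KumTop7
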