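/-
Programme T (S56), chapter FLAT, common brick (c2) "unit normal forms", part 1 (helper4):
**the level of a `p`-th power of a 1-unit in a DVR of residue characteristic `p`**.

`B` a discrete valuation ring, `v = addVal B`, `e = v(p)`.
* `exists_pow_expansion` : `(1 + t)^p = 1 + p t + t^p + p t² r`;
* `addVal_pow_sub_one_of_lt` : `v((1+t)^p − 1) = p·v(t)`   if `1 ≤ v(t)`, `(p−1)·v(t) < e`;
* `addVal_pow_sub_one_of_gt` : `v((1+t)^p − 1) = e + v(t)` if `e < (p−1)·v(t)`;
* `le_addVal_pow_sub_one`    : `min (p·v(t)) (e + v(t)) ≤ v((1+t)^p − 1)` if `1 ≤ v(t)`.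
-/
import Mathlib

set_option autoImplicit false
set_option linter.unusedSectionVars false

open IsDiscreteValuationRing

namespace Fermat.Agent.ES.T56.UnitPow4

/-- `(1 + t)^p = 1 + p t + t^p + p t² r` in any commutative ring, `p` prime. -/
theorem exists_pow_expansion {R : Type*} [CommRing R] (p : ℕ) [hp : Fact p.Prime] (t : R) :
    ∃ r : R, (1 + t) ^ p = 1 + p * t + t ^ p + p * t ^ 2 * r := by
  obtain ⟨n, hn⟩ : ∃ n, p = n + 2 := ⟨p - 2, by have := hp.out.two_le; omega⟩
  have hdvd : ∀ m ∈ Finset.range n, (p : R) * t ^ 2 ∣ t ^ (m + 2) * (p.choose (m + 2) : R) := by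
    intro m hm
    rw [Finset.mem_range] at hm
    have h1 : p ∣ p.choose (m + 2) :=
      hp.out.dvd_choose_self (by omega) (by omega)
    obtain ⟨c, hc⟩ := h1
    refine ⟨t ^ m * c, ?_⟩
    rw [hc]; push_cast; ring
  obtain ⟨r, hr⟩ := Finset.dvd_sum hdvd
  refine ⟨r, ?_⟩
  rw [add_comm 1 t, add_pow]
  simp only [one_pow, mul_one]
  rw [hn, Finset.sum_range_succ, Finset.sum_range_succ', Finset.sum_range_succ', ← hn, hr]
  simp only [Nat.choose_self, Nat.cast_one, mul_one, pow_zero, Nat.choose_zero_right, zero_add,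
    pow_one, Nat.choose_one_right]
  rw [hn]
  ring

section DVR

variable {B : Type*} [CommRing B] [IsDomain B] [IsDiscreteValuationRing B]

theorem addVal_neg (x : B) : addVal B (-x) = addVal B x := by
  apply le_antisymm <;> rw [addVal_le_iff_dvd]
  · exact (neg_dvd).2 dvd_rfl
  · exact (dvd_neg).2 dvd_rfl

theorem addVal_add_eq_of_lt {a b : B} (h : addVal B a < addVal B b) :
    addVal B (a + b) = addVal B a := by
  apply le_antisymm
  · by_contra hlt
    rw [not_le] at hlt
    have h1 : min (addVal B (a + b)) (addVal B (-b)) ≤ addVal B (a + b + -b) := addVal_add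
    rw [add_neg_cancel_right, addVal_neg] at h1
    exact absurd h1 (not_le.2 (lt_min hlt h))
  · have := addVal_add (a := a) (b := b)
    rwa [min_eq_left h.le] at this

variable (p : ℕ) [hp : Fact p.Prime] {e : ℕ} (he : addVal B (p : B) = e)

include he in
/-- the remainder `p t² r` is deeper than `p t`. -/
theorem lt_addVal_remainder {t r : B} {j : ℕ} (hj : addVal B t = j) (hj1 : 1 ≤ j) :
    ((e + j : ℕ) : ℕ∞) < addVal B ((p : B) * t ^ 2 * r) := by
  rw [addVal_mul, addVal_mul, addVal_pow, he, hj]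
  have h1 : ((e + j : ℕ) : ℕ∞) < ((e + 2 * j : ℕ) : ℕ∞) := by
    exact_mod_cast (by omega : e + j < e + 2 * j)
  refine lt_of_lt_of_le h1 ?_
  have h2 : ((e + 2 * j : ℕ) : ℕ∞) = (e : ℕ∞) + 2 • (j : ℕ∞) := by
    push_cast; ring
  rw [h2]
  exact le_self_add

include he in
/-- `v((1+t)^p − 1) = p·v(t)` if `1 ≤ v(t)` and `(p−1)·v(t) < e`. -/
theorem addVal_pow_sub_one_of_lt {t : B} {j : ℕ} (hj : addVal B t = j) (hj1 : 1 ≤ j)
    (hlt : (p - 1) * j < e) : addVal B ((1 + t) ^ p - 1) = ((p * j : ℕ) : ℕ∞) := by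
  obtain ⟨r, hr⟩ := exists_pow_expansion p t
  have hp2 := hp.out.two_le
  have hpj : p * j < e + j := by
    have : p * j = (p - 1) * j + j := by
      conv_lhs => rw [show p = (p - 1) + 1 by omega]
      ring
    omega
  have h1 : (1 + t) ^ p - 1 = t ^ p + ((p : B) * t + (p : B) * t ^ 2 * r) := by
    rw [hr]; ring
  have hA : addVal B (t ^ p) = ((p * j : ℕ) : ℕ∞) := by
    rw [addVal_pow, hj]; push_cast; rfl
  have hB : addVal B ((p : B) * t) = ((e + j : ℕ) : ℕ∞) := by
    rw [addVal_mul, he, hj]; push_cast; rfl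
  have hC := lt_addVal_remainder p he (r := r) hj hj1
  have hBC : ((p * j : ℕ) : ℕ∞) < addVal B ((p : B) * t + (p : B) * t ^ 2 * r) := by
    refine lt_of_lt_of_le ?_ (le_trans (le_min hB.ge hC.le) addVal_add)
    exact_mod_cast hpj
  rw [h1, addVal_add_eq_of_lt (by rw [hA]; exact hBC), hA]

include he in
/-- `v((1+t)^p − 1) = e + v(t)` if `e < (p−1)·v(t)`. -/
theorem addVal_pow_sub_one_of_gt {t : B} {j : ℕ} (hj : addVal B t = j)
    (hgt : e < (p - 1) * j) : addVal B ((1 + t) ^ p - 1) = ((e + j : ℕ) : ℕ∞) := by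
  obtain ⟨r, hr⟩ := exists_pow_expansion p t
  have hp2 := hp.out.two_le
  have hj1 : 1 ≤ j := by
    rcases Nat.eq_zero_or_pos j with h | h
    · subst h; simp at hgt
    · exact h
  have hpj : e + j < p * j := by
    have : p * j = (p - 1) * j + j := by
      conv_lhs => rw [show p = (p - 1) + 1 by omega]
      ring
    omega
  have h1 : (1 + t) ^ p - 1 = (p : B) * t + (t ^ p + (p : B) * t ^ 2 * r) := by
    rw [hr]; ring
  have hA : addVal B (t ^ p) = ((p * j : ℕ) : ℕ∞) := by
    rw [addVal_pow, hj]; push_cast; rfl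
  have hB : addVal B ((p : B) * t) = ((e + j : ℕ) : ℕ∞) := by
    rw [addVal_mul, he, hj]; push_cast; rfl
  have hC := lt_addVal_remainder p he (r := r) hj hj1
  have hAC : ((e + j : ℕ) : ℕ∞) < addVal B (t ^ p + (p : B) * t ^ 2 * r) := by
    refine lt_of_lt_of_le (lt_min ?_ hC) addVal_add
    rw [hA]; exact_mod_cast hpj
  rw [h1, addVal_add_eq_of_lt (by rw [hB]; exact hAC), hB]

include he in
/-- `min (p·v(t)) (e + v(t)) ≤ v((1+t)^p − 1)` if `1 ≤ v(t)`. -/
theorem le_addVal_pow_sub_one {t : B} {j : ℕ} (hj : addVal B t = j) (hj1 : 1 ≤ j) :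
    ((min (p * j) (e + j) : ℕ) : ℕ∞) ≤ addVal B ((1 + t) ^ p - 1) := by
  obtain ⟨r, hr⟩ := exists_pow_expansion p t
  have h1 : (1 + t) ^ p - 1 = t ^ p + ((p : B) * t + (p : B) * t ^ 2 * r) := by
    rw [hr]; ring
  have hA : addVal B (t ^ p) = ((p * j : ℕ) : ℕ∞) := by
    rw [addVal_pow, hj]; push_cast; rfl
  have hB : addVal B ((p : B) * t) = ((e + j : ℕ) : ℕ∞) := by
    rw [addVal_mul, he, hj]; push_cast; rfl
  have hC := lt_addVal_remainder p he (r := r) hj hj1
  rw [h1]
  refine le_trans ?_ addVal_add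
  refine le_min ?_ (le_trans ?_ addVal_add)
  · rw [hA]; exact_mod_cast min_le_left _ _
  · refine le_min ?_ ?_
    · rw [hB]; exact_mod_cast min_le_right _ _
    · refine le_trans ?_ hC.le
      exact_mod_cast min_le_right _ _

end DVR

end Fermat.Agent.ES.T56.UnitPow4
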