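/-
Programme T (S56), chapter FLAT, common brick (c2) "unit normal forms", part 2 (helper4).

`B` a discrete valuation ring, `v = addVal B`, `e = v(p) ≥ 1`, `k` the residue field (char. `p`).
The LEVEL of a unit `b` is `v(b − 1)`.

* (N1a) `ne_mul_pow_of_level` : a unit of exact level `i`, `p ∤ i`, `(p−1)·i < p·e`, is NOT of the form
  `w·z^p` with `w` of level `> i`.
* `exists_residue_kill` : if `k` is perfect, every unit is (unit of level `≥ 1`)·(`p`-th power).
* `exists_raise_level` : if `k` is perfect, a unit of exact level `p·j`, `1 ≤ j`, `(p−1)·j < e`, can be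
  multiplied by the `p`-th power of a unit of level `≥ j` such that the level becomes `≥ p·j + 1`.
* (N1c) `exists_normal_form` : if `k` is perfect and every `n < N` divisible by `p` has `(p−1)·n < p·e`,
  then every unit `b` has a `z` with `b z^p` of level `≥ N`, or of exact level `i < N`, `p ∤ i`.
* (N1d) top level `p·e′`, `e = (p−1)·e′`, `p = u ϖ^e`:
  `exists_top_expansion` : `(1 + x ϖ^{e′})^p = 1 + (x^p + u x) ϖ^{p e′} + ϖ^{p e′ + 1} y`;
  `exists_raise_top` : if `β̄ ∈ ℘_u(k)`, `℘_u(c) = c^p + ū c`, then `(1 + β ϖ^{p e′}) z^p` has level `≥ p e′ + 1`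
  for some unit `z`;
  `residue_mem_range_of_eq_mul_pow` : conversely, `1 + β ϖ^{p e′} = w z^p` with `w` of level `≥ p e′ + 1`
  forces `β̄ ∈ ℘_u(k)`.
-/
import Mathlib
import Fermat.Agent.ES.T56.UnitPow4

set_option autoImplicit false
set_option linter.unusedSectionVars false

open IsDiscreteValuationRing

namespace Fermat.Agent.ES.T56.UnitNormalForm4

open Fermat.Agent.ES.T56.UnitPow4

section DVR

variable {B : Type*} [CommRing B] [IsDomain B] [IsDiscreteValuationRing B]

theorem one_le_addVal_iff {a : B} : 1 ≤ addVal B a ↔ a ∈ IsLocalRing.maximalIdeal B := by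
  rw [IsLocalRing.mem_maximalIdeal, mem_nonunits_iff, ← not_iff_not, not_le, not_not,
    Order.lt_one_iff, addVal_eq_zero_iff]

/-- `n ≤ v(a)` iff `ϖ ^ n ∣ a`. -/
theorem le_addVal_iff_dvd {ϖ : B} (hϖ : Irreducible ϖ) (n : ℕ) (a : B) :
    (n : ℕ∞) ≤ addVal B a ↔ ϖ ^ n ∣ a := by
  rw [← addVal_le_iff_dvd, addVal_pow, addVal_uniformizer hϖ]
  simp

theorem dvd_of_mem_maximalIdeal {ϖ a : B} (hϖ : Irreducible ϖ)
    (ha : a ∈ IsLocalRing.maximalIdeal B) : ϖ ∣ a := by
  rw [hϖ.maximalIdeal_eq] at ha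
  exact Ideal.mem_span_singleton.1 ha

theorem residue_eq_one_iff {z : B} :
    IsLocalRing.residue B z = 1 ↔ z - 1 ∈ IsLocalRing.maximalIdeal B := by
  rw [← IsLocalRing.residue_eq_zero_iff, map_sub, map_one, sub_eq_zero]

theorem isUnit_of_residue_eq_one {z : B} (h : IsLocalRing.residue B z = 1) : IsUnit z := by
  by_contra hz
  have h0 : IsLocalRing.residue B z = 0 :=
    (IsLocalRing.residue_eq_zero_iff _).2 ((IsLocalRing.mem_maximalIdeal _).2 hz)
  rw [h0] at h
  exact zero_ne_one h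

variable (p : ℕ) [hp : Fact p.Prime] {e : ℕ} (he : addVal B (p : B) = e)

include he in
theorem residue_natCast_eq_zero (he1 : 1 ≤ e) : IsLocalRing.residue B (p : B) = 0 := by
  rw [IsLocalRing.residue_eq_zero_iff, ← one_le_addVal_iff, he]
  exact_mod_cast he1

include he in
/-- The residue field has characteristic `p`. -/
theorem charP_residueField (he1 : 1 ≤ e) : CharP (IsLocalRing.ResidueField B) p := by
  rw [CharP.charP_iff_prime_eq_zero hp.out]
  have := residue_natCast_eq_zero p he he1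
  rwa [map_natCast] at this

include he in
/-- In the residue field, `c ^ p = 1` forces `c = 1`. -/
theorem eq_one_of_pow_eq_one (he1 : 1 ≤ e) {c : IsLocalRing.ResidueField B} (hc : c ^ p = 1) :
    c = 1 := by
  have := charP_residueField p he he1
  have h1 : (c - 1) ^ p = 0 := by rw [sub_pow_char, hc, one_pow, sub_self]
  exact sub_eq_zero.1 (pow_eq_zero_iff hp.out.ne_zero |>.1 h1)

include he in
/-- A finite residue field is perfect. -/
theorem pow_surjective_of_finite [Finite (IsLocalRing.ResidueField B)] (he1 : 1 ≤ e) :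
    Function.Surjective (fun d : IsLocalRing.ResidueField B => d ^ p) := by
  have := charP_residueField p he he1
  exact Finite.surjective_of_injective (frobenius_inj (IsLocalRing.ResidueField B) p)

/-! ### (N1a) -/

include he in
/-- **(N1a)** A unit `b` of exact level `i`, `p ∤ i`, `(p − 1) i < p e`, is not `w z ^ p` with `w` of
level `> i`. -/
theorem ne_mul_pow_of_level (he1 : 1 ≤ e) {b w z : B} {i : ℕ} (hb : addVal B (b - 1) = i)
    (hpi : ¬ p ∣ i) (hi : (p - 1) * i < p * e)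
    (hw : ((i + 1 : ℕ) : ℕ∞) ≤ addVal B (w - 1)) : b ≠ w * z ^ p := by
  intro hbw
  have hp2 := hp.out.two_le
  obtain ⟨q, hq⟩ : ∃ q, p - 1 = q := ⟨_, rfl⟩
  have hpq : p = q + 1 := by omega
  rw [hq] at hi
  have hi1 : 1 ≤ i := by
    rcases Nat.eq_zero_or_pos i with h | h
    · exact absurd (h ▸ dvd_zero p) hpi
    · exact h
  -- the level of `z ^ p`
  have hzp : addVal B (z ^ p - 1) = i := by
    have h1 : z ^ p - 1 = (b - 1) + (-((w - 1) * z ^ p)) := by rw [hbw]; ring
    rw [h1, addVal_add_eq_of_lt, hb]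
    rw [hb, addVal_neg, addVal_mul]
    refine lt_of_lt_of_le ?_ (le_trans hw le_self_add)
    exact_mod_cast Nat.lt_succ_self i
  have hres : IsLocalRing.residue B z = 1 := by
    apply eq_one_of_pow_eq_one p he he1
    rw [← map_pow, residue_eq_one_iff, ← one_le_addVal_iff, hzp]
    exact_mod_cast hi1
  obtain ⟨t, ht⟩ : ∃ t, z - 1 = t := ⟨_, rfl⟩
  have hz : z = 1 + t := by rw [← ht]; ring
  have htm : 1 ≤ addVal B t := by
    rw [← ht, one_le_addVal_iff, ← residue_eq_one_iff]; exact hres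
  rw [hz] at hzp
  by_cases ht0 : t = 0
  · rw [ht0, add_zero, one_pow, sub_self, addVal_zero] at hzp
    exact ENat.top_ne_natCast _ hzp
  obtain ⟨j, hj⟩ := ENat.ne_top_iff_exists.1 (fun h => ht0 (addVal_eq_top_iff.1 h))
  have hj1 : 1 ≤ j := by rw [← hj] at htm; exact_mod_cast htm
  have hpj : p * j = q * j + j := by rw [hpq]; ring
  have hpe : p * e = q * e + e := by rw [hpq]; ring
  rcases lt_trichotomy (q * j) e with hlt | heq | hgt
  · have h1 := addVal_pow_sub_one_of_lt p he hj.symm hj1 (by rw [hq]; exact hlt)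
    rw [hzp] at h1
    have h2 : i = p * j := by exact_mod_cast h1
    exact hpi ⟨j, h2⟩
  · have h1 := le_addVal_pow_sub_one p he hj.symm hj1
    rw [hzp] at h1
    have h2 : min (p * j) (e + j) ≤ i := by exact_mod_cast h1
    rw [hpj, heq, min_self] at h2
    have h3 : q * (e + j) ≤ q * i := Nat.mul_le_mul_left q h2
    rw [Nat.mul_add, heq] at h3
    omega
  · have h1 := addVal_pow_sub_one_of_gt p he hj.symm (by rw [hq]; exact hgt)
    rw [hzp] at h1
    have h2 : i = e + j := by exact_mod_cast h1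
    have h3 : q * i = q * e + q * j := by rw [h2, Nat.mul_add]
    omega

/-! ### (N1c) -/

/-- If the residue field is perfect, every unit is a `p`-th power times a unit of level `≥ 1`. -/
theorem exists_residue_kill
    (hperf : Function.Surjective (fun d : IsLocalRing.ResidueField B => d ^ p))
    {b : B} (hb : IsUnit b) : ∃ z : Bˣ, 1 ≤ addVal B (b * (z : B) ^ p - 1) := by
  have hb0 : IsLocalRing.residue B b ≠ 0 := fun h0 =>
    ((IsLocalRing.mem_maximalIdeal _).1 ((IsLocalRing.residue_eq_zero_iff _).1 h0)) hb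
  obtain ⟨d, hd⟩ := hperf (IsLocalRing.residue B b)⁻¹
  simp only at hd
  obtain ⟨z₀, hz₀⟩ := IsLocalRing.residue_surjective (R := B) d
  have hd0 : d ≠ 0 := by
    intro h
    rw [h, zero_pow hp.out.ne_zero] at hd
    exact inv_ne_zero hb0 hd.symm
  have hzu : IsUnit z₀ := by
    by_contra hz
    have h0 : IsLocalRing.residue B z₀ = 0 :=
      (IsLocalRing.residue_eq_zero_iff _).2 ((IsLocalRing.mem_maximalIdeal _).2 hz)
    rw [hz₀] at h0
    exact hd0 h0
  refine ⟨hzu.unit, ?_⟩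
  rw [one_le_addVal_iff, ← residue_eq_one_iff, map_mul, map_pow, IsUnit.unit_spec, hz₀, hd,
    mul_inv_cancel₀ hb0]

include he in
/-- If the residue field is perfect, a unit of exact level `p j` (`1 ≤ j`, `(p − 1) j < e`) can be
moved to level `≥ p j + 1` by the `p`-th power of a unit of level `≥ j`. -/
theorem exists_raise_level
    (hperf : Function.Surjective (fun d : IsLocalRing.ResidueField B => d ^ p))
    {b : B} {j : ℕ} (hb : ((p * j : ℕ) : ℕ∞) ≤ addVal B (b - 1)) (hj1 : 1 ≤ j)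
    (hlt : (p - 1) * j < e) :
    ∃ z : Bˣ, (j : ℕ∞) ≤ addVal B ((z : B) - 1) ∧
      ((p * j + 1 : ℕ) : ℕ∞) ≤ addVal B (b * (z : B) ^ p - 1) := by
  have hp2 := hp.out.two_le
  obtain ⟨ϖ, hϖ⟩ := exists_irreducible B
  obtain ⟨β, hβ⟩ := (le_addVal_iff_dvd hϖ _ _).1 hb
  obtain ⟨d, hd⟩ := hperf (-(IsLocalRing.residue B β))
  simp only at hd
  obtain ⟨x, hx⟩ := IsLocalRing.residue_surjective (R := B) d
  obtain ⟨t, ht⟩ : ∃ t, x * ϖ ^ j = t := ⟨_, rfl⟩
  have hϖt : ϖ ∣ t := by
    rw [← ht]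
    exact Dvd.dvd.mul_left (dvd_pow_self ϖ (by omega)) x
  have htm : t ∈ IsLocalRing.maximalIdeal B := by
    rw [hϖ.maximalIdeal_eq]; exact Ideal.mem_span_singleton.2 hϖt
  have hzres : IsLocalRing.residue B (1 + t) = 1 := by
    rw [map_add, map_one, (IsLocalRing.residue_eq_zero_iff _).2 htm, add_zero]
  have hzu : IsUnit (1 + t) := isUnit_of_residue_eq_one hzres
  refine ⟨hzu.unit, ?_, ?_⟩
  · rw [IsUnit.unit_spec, add_sub_cancel_left, le_addVal_iff_dvd hϖ, ← ht]
    exact Dvd.intro_left x rfl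
  · rw [IsUnit.unit_spec, le_addVal_iff_dvd hϖ]
    obtain ⟨r, hr⟩ := exists_pow_expansion p t
    have hb' : b = 1 + ϖ ^ (p * j) * β := by rw [← hβ]; ring
    have hkey : b * (1 + t) ^ p - 1 =
        (β + x ^ p) * ϖ ^ (p * j) + (p : B) * t * (1 + t * r) +
          ϖ ^ (p * j) * β * ((1 + t) ^ p - 1) := by
      have htp : t ^ p = x ^ p * ϖ ^ (p * j) := by
        rw [← ht, mul_pow, ← pow_mul, mul_comm j p]
      rw [hb']
      conv_lhs => rw [show (1 + ϖ ^ (p * j) * β) * (1 + t) ^ p - 1 =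
        ((1 + t) ^ p - 1) + ϖ ^ (p * j) * β * (1 + t) ^ p by ring]
      conv_rhs => rw [show ϖ ^ (p * j) * β * ((1 + t) ^ p - 1) =
        ϖ ^ (p * j) * β * (1 + t) ^ p - ϖ ^ (p * j) * β by ring]
      rw [hr]
      linear_combination htp
    rw [hkey]
    refine dvd_add (dvd_add ?_ ?_) ?_
    · -- `β + x ^ p ∈ 𝔪`
      have h1 : β + x ^ p ∈ IsLocalRing.maximalIdeal B := by
        rw [← IsLocalRing.residue_eq_zero_iff, map_add, map_pow, hx, hd, add_neg_cancel]
      obtain ⟨c, hc⟩ := dvd_of_mem_maximalIdeal hϖ h1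
      exact ⟨c, by rw [hc, pow_succ]; ring⟩
    · -- `ϖ ^ (e + j) ∣ p t`
      have h1 : ϖ ^ e ∣ (p : B) := by rw [← le_addVal_iff_dvd hϖ, he]
      have h2 : ϖ ^ j ∣ t := by rw [← ht]; exact Dvd.intro_left x rfl
      have h3 : ϖ ^ (e + j) ∣ (p : B) * t := by rw [pow_add]; exact mul_dvd_mul h1 h2
      have h4 : p * j + 1 ≤ e + j := by
        have : p * j = (p - 1) * j + j := by
          conv_lhs => rw [show p = (p - 1) + 1 by omega]
          ring
        omega
      exact Dvd.dvd.mul_right ((pow_dvd_pow ϖ h4).trans h3) _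
    · have h1 : t ∣ (1 + t) ^ p - 1 := by
        have := sub_dvd_pow_sub_pow (1 + t) 1 p
        rwa [add_sub_cancel_left, one_pow] at this
      obtain ⟨c, hc⟩ := hϖt.trans h1
      exact ⟨β * c, by rw [hc, pow_succ]; ring⟩

include he in
/-- **(N1c)** Normal form of a unit modulo `p`-th powers: if the residue field is perfect and
`(p − 1) n < p e` for the multiples `n < N` of `p`, then every unit `b` can be moved by a `p`-th power
of a unit either to level `≥ N`, or to an exact level `i < N` prime to `p`. -/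
theorem exists_normal_form
    (hperf : Function.Surjective (fun d : IsLocalRing.ResidueField B => d ^ p))
    (N : ℕ) (hN : ∀ n, n < N → p ∣ n → (p - 1) * n < p * e) (b : Bˣ) :
    (∃ z : Bˣ, (N : ℕ∞) ≤ addVal B ((b : B) * (z : B) ^ p - 1)) ∨
      ∃ (z : Bˣ) (i : ℕ), ¬ p ∣ i ∧ i < N ∧ addVal B ((b : B) * (z : B) ^ p - 1) = i := by
  have hp2 := hp.out.two_le
  have key : ∀ m : ℕ, m ≤ N →
      (∃ z : Bˣ, (m : ℕ∞) ≤ addVal B ((b : B) * (z : B) ^ p - 1)) ∨
        ∃ (z : Bˣ) (i : ℕ), ¬ p ∣ i ∧ i < N ∧ addVal B ((b : B) * (z : B) ^ p - 1) = i := by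
    intro m
    induction m with
    | zero => intro _; exact Or.inl ⟨1, by simp⟩
    | succ m ih =>
      intro hm
      rcases ih (by omega) with ⟨z, hz⟩ | h
      swap
      · exact Or.inr h
      by_cases hlt : ((m + 1 : ℕ) : ℕ∞) ≤ addVal B ((b : B) * (z : B) ^ p - 1)
      · exact Or.inl ⟨z, hlt⟩
      -- the level is exactly `m`
      have hexact : addVal B ((b : B) * (z : B) ^ p - 1) = m := by
        apply le_antisymm _ hz
        rw [not_le] at hlt
        obtain ⟨n, hn⟩ := ENat.ne_top_iff_exists.1 (ne_top_of_lt hlt)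
        rw [← hn] at hlt ⊢
        have : n < m + 1 := by exact_mod_cast hlt
        exact_mod_cast (by omega : n ≤ m)
      by_cases hpm : p ∣ m
      swap
      · exact Or.inr ⟨z, m, hpm, by omega, hexact⟩
      rcases Nat.eq_zero_or_pos m with hm0 | hmpos
      · -- kill the residue
        subst hm0
        obtain ⟨z', hz'⟩ := exists_residue_kill p hperf b.isUnit
        exact Or.inl ⟨z', by simpa using hz'⟩
      · obtain ⟨j, hj⟩ := hpm
        have hj1 : 1 ≤ j := by
          rcases Nat.eq_zero_or_pos j with h | h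
          · subst h; omega
          · exact h
        have h1 : (p - 1) * m < p * e := hN m (by omega) ⟨j, hj⟩
        have h2 : (p - 1) * j < e := by
          rw [hj, ← mul_assoc, mul_comm (p - 1) p, mul_assoc] at h1
          exact Nat.lt_of_mul_lt_mul_left h1
        obtain ⟨z', -, hz'⟩ := exists_raise_level p he hperf
          (b := (b : B) * (z : B) ^ p) (j := j) (by rw [← hj]; exact hz) hj1 h2
        refine Or.inl ⟨z * z', ?_⟩
        rw [Units.val_mul, mul_pow, ← mul_assoc, hj]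
        exact hz'
  exact key N le_rfl

/-! ### (N1d) the top level `p e′`, `e = (p − 1) e′` -/

omit [IsDomain B] [IsDiscreteValuationRing B] in
/-- `(1 + x ϖ^{e′})^p = 1 + (x^p + u x) ϖ^{p e′} + ϖ^{p e′ + 1} y` if `p = u ϖ^{(p−1) e′}`, `1 ≤ e′`
(any commutative ring). -/
theorem exists_top_expansion {ϖ u : B} {e' : ℕ} (he' : 1 ≤ e')
    (hpu : (p : B) = u * ϖ ^ ((p - 1) * e')) (x : B) :
    ∃ y : B, (1 + x * ϖ ^ e') ^ p =
      1 + (x ^ p + u * x) * ϖ ^ (p * e') + ϖ ^ (p * e' + 1) * y := by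
  have hp2 := hp.out.two_le
  obtain ⟨r, hr⟩ := exists_pow_expansion p (x * ϖ ^ e')
  refine ⟨u * x ^ 2 * ϖ ^ (e' - 1) * r, ?_⟩
  have hA : ϖ ^ (p * e') = ϖ ^ ((p - 1) * e') * ϖ ^ e' := by
    rw [← pow_add]
    congr 1
    conv_lhs => rw [show p = (p - 1) + 1 by omega]
    ring
  have hB : ϖ ^ e' = ϖ ^ (e' - 1) * ϖ := by
    rw [← pow_succ]
    congr 1
    omega
  have hC : (x * ϖ ^ e') ^ p = x ^ p * ϖ ^ (p * e') := by
    rw [mul_pow, ← pow_mul, mul_comm e' p]
  rw [hr, hC, pow_succ ϖ (p * e'), hA, hpu]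
  linear_combination (u * ϖ ^ ((p - 1) * e') * x ^ 2 * ϖ ^ e' * r) * hB

/-- If `x̄^p + ū x̄ = −β̄` then `(1 + β ϖ^{p e′})·(1 + x ϖ^{e′})^p` has level `≥ p e′ + 1`. -/
theorem exists_raise_top {ϖ u β x : B} {e' : ℕ} (hϖ : Irreducible ϖ) (he' : 1 ≤ e')
    (hpu : (p : B) = u * ϖ ^ ((p - 1) * e'))
    (hx : IsLocalRing.residue B x ^ p + IsLocalRing.residue B u * IsLocalRing.residue B x =
      -(IsLocalRing.residue B β)) :
    ∃ z : Bˣ, (e' : ℕ∞) ≤ addVal B ((z : B) - 1) ∧
      ((p * e' + 1 : ℕ) : ℕ∞) ≤ addVal B ((1 + β * ϖ ^ (p * e')) * (z : B) ^ p - 1) := by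
  obtain ⟨t, ht⟩ : ∃ t, x * ϖ ^ e' = t := ⟨_, rfl⟩
  have hϖt : ϖ ∣ t := by
    rw [← ht]
    exact Dvd.dvd.mul_left (dvd_pow_self ϖ (by omega)) x
  have htm : t ∈ IsLocalRing.maximalIdeal B := by
    rw [hϖ.maximalIdeal_eq]; exact Ideal.mem_span_singleton.2 hϖt
  have hzres : IsLocalRing.residue B (1 + t) = 1 := by
    rw [map_add, map_one, (IsLocalRing.residue_eq_zero_iff _).2 htm, add_zero]
  have hzu : IsUnit (1 + t) := isUnit_of_residue_eq_one hzres
  refine ⟨hzu.unit, ?_, ?_⟩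
  · rw [IsUnit.unit_spec, add_sub_cancel_left, le_addVal_iff_dvd hϖ, ← ht]
    exact Dvd.intro_left x rfl
  · rw [IsUnit.unit_spec, le_addVal_iff_dvd hϖ]
    obtain ⟨y, hy⟩ := exists_top_expansion p he' hpu x
    rw [ht] at hy
    have hkey : (1 + β * ϖ ^ (p * e')) * (1 + t) ^ p - 1 =
        (x ^ p + u * x + β) * ϖ ^ (p * e') + ϖ ^ (p * e' + 1) * y +
          ϖ ^ (p * e') * β * ((1 + t) ^ p - 1) := by
      conv_lhs => rw [show (1 + β * ϖ ^ (p * e')) * (1 + t) ^ p - 1 =
        ((1 + t) ^ p - 1) + β * ϖ ^ (p * e') + ϖ ^ (p * e') * β * ((1 + t) ^ p - 1) by ring]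
      rw [hy]
      ring
    rw [hkey]
    refine dvd_add (dvd_add ?_ (Dvd.intro _ rfl)) ?_
    · have h1 : x ^ p + u * x + β ∈ IsLocalRing.maximalIdeal B := by
        rw [← IsLocalRing.residue_eq_zero_iff, map_add, map_add, map_mul, map_pow, hx,
          neg_add_cancel]
      obtain ⟨c, hc⟩ := dvd_of_mem_maximalIdeal hϖ h1
      exact ⟨c, by rw [hc, pow_succ]; ring⟩
    · have h1 : t ∣ (1 + t) ^ p - 1 := by
        have := sub_dvd_pow_sub_pow (1 + t) 1 p
        rwa [add_sub_cancel_left, one_pow] at this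
      obtain ⟨c, hc⟩ := hϖt.trans h1
      exact ⟨β * c, by rw [hc, pow_succ]; ring⟩

include he in
/-- Conversely: `1 + β ϖ^{p e′} = w z^p` with `w` of level `≥ p e′ + 1` forces
`β̄ = c^p + ū c` for some `c` in the residue field. -/
theorem residue_mem_range_of_eq_mul_pow {ϖ u β w z : B} {e' : ℕ} (hϖ : Irreducible ϖ)
    (he' : 1 ≤ e') (hpu : (p : B) = u * ϖ ^ ((p - 1) * e'))
    (hw : ((p * e' + 1 : ℕ) : ℕ∞) ≤ addVal B (w - 1))
    (h : 1 + β * ϖ ^ (p * e') = w * z ^ p) :
    ∃ c : IsLocalRing.ResidueField B,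
      c ^ p + IsLocalRing.residue B u * c = IsLocalRing.residue B β := by
  have hp2 := hp.out.two_le
  -- `(p − 1) e′ ≤ e`
  have hee' : (p - 1) * e' ≤ e := by
    have h1 : ϖ ^ ((p - 1) * e') ∣ (p : B) := ⟨u, by rw [hpu]; ring⟩
    rw [← le_addVal_iff_dvd hϖ, he] at h1
    exact_mod_cast h1
  have he1 : 1 ≤ e := by
    have : 1 * 1 ≤ (p - 1) * e' := Nat.mul_le_mul (by omega) he'
    omega
  -- `z ^ p ≡ 1 + β ϖ^{p e′}` modulo `ϖ^{p e′ + 1}`
  have hzp : ϖ ^ (p * e' + 1) ∣ z ^ p - (1 + β * ϖ ^ (p * e')) := by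
    have h1 : z ^ p - (1 + β * ϖ ^ (p * e')) = -((w - 1) * z ^ p) := by rw [h]; ring
    rw [h1, dvd_neg]
    exact Dvd.dvd.mul_right ((le_addVal_iff_dvd hϖ _ _).1 hw) _
  have hzp' : ϖ ^ (p * e') ∣ z ^ p - 1 := by
    have h1 : z ^ p - 1 = (z ^ p - (1 + β * ϖ ^ (p * e'))) + β * ϖ ^ (p * e') := by ring
    rw [h1]
    exact dvd_add ((pow_dvd_pow ϖ (Nat.le_succ _)).trans hzp) (Dvd.intro_left β rfl)
  have hpe'1 : 1 ≤ p * e' := by
    have : 1 * 1 ≤ p * e' := Nat.mul_le_mul (by omega) he'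
    omega
  have hres : IsLocalRing.residue B z = 1 := by
    apply eq_one_of_pow_eq_one p he he1
    rw [← map_pow, residue_eq_one_iff, hϖ.maximalIdeal_eq, Ideal.mem_span_singleton]
    exact (dvd_pow_self ϖ (by omega)).trans hzp'
  obtain ⟨t, ht⟩ : ∃ t, z - 1 = t := ⟨_, rfl⟩
  have hz : z = 1 + t := by rw [← ht]; ring
  have htm : 1 ≤ addVal B t := by
    rw [← ht, one_le_addVal_iff, ← residue_eq_one_iff]; exact hres
  -- `ϖ ^ e′ ∣ t`
  have hte' : ϖ ^ e' ∣ t := by
    by_cases ht0 : t = 0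
    · rw [ht0]; exact dvd_zero _
    obtain ⟨j, hj⟩ := ENat.ne_top_iff_exists.1 (fun h => ht0 (addVal_eq_top_iff.1 h))
    have hj1 : 1 ≤ j := by rw [← hj] at htm; exact_mod_cast htm
    rw [← le_addVal_iff_dvd hϖ, ← hj]
    by_contra hlt
    have hlt' : j < e' := by
      rw [not_le] at hlt
      exact_mod_cast hlt
    have h1 : (p - 1) * j < e :=
      lt_of_lt_of_le (Nat.mul_lt_mul_of_pos_left hlt' (by omega)) hee'
    have h2 := addVal_pow_sub_one_of_lt p he hj.symm hj1 h1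
    rw [← hz] at h2
    have h3 := (le_addVal_iff_dvd hϖ _ _).2 hzp'
    rw [h2] at h3
    have h4 : p * e' ≤ p * j := by exact_mod_cast h3
    have h5 : p * j < p * e' := Nat.mul_lt_mul_of_pos_left hlt' (by omega)
    omega
  obtain ⟨x, hx⟩ := hte'
  obtain ⟨y, hy⟩ := exists_top_expansion p he' hpu x
  rw [mul_comm x, ← hx, ← hz] at hy
  refine ⟨IsLocalRing.residue B x, ?_⟩
  -- `ϖ ∣ (x^p + u x) − β`
  have h1 : ϖ ^ (p * e') * ϖ ∣ ϖ ^ (p * e') * ((x ^ p + u * x - β) + ϖ * y) := by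
    have : ϖ ^ (p * e') * ((x ^ p + u * x - β) + ϖ * y) = z ^ p - (1 + β * ϖ ^ (p * e')) := by
      rw [hy, pow_succ]; ring
    rw [this, ← pow_succ]
    exact hzp
  have hne : ϖ ^ (p * e') ≠ 0 := pow_ne_zero _ hϖ.ne_zero
  have h2 : ϖ ∣ (x ^ p + u * x - β) + ϖ * y := (mul_dvd_mul_iff_left hne).1 h1
  have h3 : ϖ ∣ x ^ p + u * x - β := (dvd_add_left (Dvd.intro _ rfl)).1 h2
  have h4 : x ^ p + u * x - β ∈ IsLocalRing.maximalIdeal B := by
    rw [hϖ.maximalIdeal_eq]; exact Ideal.mem_span_singleton.2 h3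
  rw [← IsLocalRing.residue_eq_zero_iff, map_sub, map_add, map_mul, map_pow, sub_eq_zero] at h4
  exact h4

include he in
/-- If `B` contains a primitive `p`-th root of unity `ζ` then `e = (p − 1)·v(ζ − 1)`. -/
theorem addVal_primitiveRoot_sub_one (he1 : 1 ≤ e) {ζ : B} (hζ : IsPrimitiveRoot ζ p) :
    ∃ e' : ℕ, 1 ≤ e' ∧ addVal B (ζ - 1) = e' ∧ e = (p - 1) * e' := by
  have hp2 := hp.out.two_le
  have hres : IsLocalRing.residue B ζ = 1 := by
    apply eq_one_of_pow_eq_one p he he1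
    rw [← map_pow, hζ.pow_eq_one, map_one]
  obtain ⟨t, ht⟩ : ∃ t, ζ - 1 = t := ⟨_, rfl⟩
  have hz : ζ = 1 + t := by rw [← ht]; ring
  have htm : 1 ≤ addVal B t := by
    rw [← ht, one_le_addVal_iff, ← residue_eq_one_iff]; exact hres
  have ht0 : t ≠ 0 := by
    intro h0
    rw [h0, add_zero] at hz
    exact hζ.ne_one (by omega) hz
  obtain ⟨j, hj⟩ := ENat.ne_top_iff_exists.1 (fun h => ht0 (addVal_eq_top_iff.1 h))
  have hj1 : 1 ≤ j := by rw [← hj] at htm; exact_mod_cast htm
  have htop : addVal B ((1 + t) ^ p - 1) = ⊤ := by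
    rw [← hz, hζ.pow_eq_one, sub_self, addVal_zero]
  refine ⟨j, hj1, by rw [ht]; exact hj.symm, ?_⟩
  rcases lt_trichotomy ((p - 1) * j) e with hlt | heq | hgt
  · have h1 := addVal_pow_sub_one_of_lt p he hj.symm hj1 hlt
    rw [htop] at h1
    exact absurd h1 (ENat.top_ne_natCast _)
  · exact heq.symm
  · have h1 := addVal_pow_sub_one_of_gt p he hj.symm hgt
    rw [htop] at h1
    exact absurd h1 (ENat.top_ne_natCast _)

include he in
/-- If `B` contains a primitive `p`-th root of unity and `p = u ϖ^{(p−1) e′}` with `u` a unit, then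
`c ↦ c^p + ū c` has a nonzero root in the residue field. -/
theorem exists_root_of_primitiveRoot (he1 : 1 ≤ e) {ζ : B} (hζ : IsPrimitiveRoot ζ p)
    {ϖ u : B} {e' : ℕ} (hϖ : Irreducible ϖ) (hu : IsUnit u)
    (hpu : (p : B) = u * ϖ ^ ((p - 1) * e')) :
    ∃ c : IsLocalRing.ResidueField B, c ≠ 0 ∧ c ^ p + IsLocalRing.residue B u * c = 0 := by
  have hp2 := hp.out.two_le
  obtain ⟨j, hj1, hj, hej⟩ := addVal_primitiveRoot_sub_one p he he1 hζ
  -- `e = (p − 1) e′`
  have hee' : e = (p - 1) * e' := by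
    have h1 : addVal B (p : B) = (((p - 1) * e' : ℕ) : ℕ∞) := by
      rw [hpu, addVal_mul, addVal_eq_zero_iff.2 hu, zero_add, addVal_pow, addVal_uniformizer hϖ]
      simp
    rw [he] at h1
    exact_mod_cast h1
  have hje' : j = e' := by
    rw [hej] at hee'
    exact Nat.eq_of_mul_eq_mul_left (by omega) hee'
  subst hje'
  obtain ⟨x, hx⟩ := (le_addVal_iff_dvd hϖ j (ζ - 1)).1 hj.ge
  have hxu : IsUnit x := by
    by_contra hx0
    have h1 : ϖ ∣ x := dvd_of_mem_maximalIdeal hϖ ((IsLocalRing.mem_maximalIdeal _).2 hx0)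
    have h2 : ϖ ^ (j + 1) ∣ ζ - 1 := by rw [hx, pow_succ]; exact mul_dvd_mul_left _ h1
    rw [← le_addVal_iff_dvd hϖ, hj] at h2
    have : j + 1 ≤ j := by exact_mod_cast h2
    omega
  obtain ⟨y, hy⟩ := exists_top_expansion p hj1 hpu x
  have hζx : 1 + x * ϖ ^ j = ζ := by rw [mul_comm, ← hx]; ring
  rw [hζx, hζ.pow_eq_one] at hy
  have h1 : ϖ ^ (p * j) * ((x ^ p + u * x) + ϖ * y) = 0 := by
    rw [pow_succ] at hy
    linear_combination -hy
  have hne : ϖ ^ (p * j) ≠ 0 := pow_ne_zero _ hϖ.ne_zero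
  have h2 : (x ^ p + u * x) + ϖ * y = 0 := (mul_eq_zero.1 h1).resolve_left hne
  have h3 : x ^ p + u * x ∈ IsLocalRing.maximalIdeal B := by
    rw [hϖ.maximalIdeal_eq, Ideal.mem_span_singleton]
    exact ⟨-y, by linear_combination h2⟩
  refine ⟨IsLocalRing.residue B x, ?_, ?_⟩
  · intro h0
    exact (IsLocalRing.mem_maximalIdeal _).1 ((IsLocalRing.residue_eq_zero_iff _).1 h0) hxu
  · rw [← IsLocalRing.residue_eq_zero_iff, map_add, map_mul, map_pow] at h3
    exact h3

end DVR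

/-! ### the Artin–Schreier-like map `c ↦ c^p + a c` on a field of characteristic `p` -/

section AS

variable {k : Type*} [Field k] (p : ℕ) [hp : Fact p.Prime]

/-- `c ↦ c^p + a c` has at most `p` roots. -/
theorem card_roots_le (a : k) : Nat.card {c : k // c ^ p + a * c = 0} ≤ p := by
  classical
  have hp2 := hp.out.two_le
  obtain ⟨P, hP⟩ : ∃ P : Polynomial k, P = Polynomial.X ^ p + Polynomial.C a * Polynomial.X :=
    ⟨_, rfl⟩
  have hdeg : P.natDegree = p := by
    rw [hP]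
    have h1 : (Polynomial.C a * Polynomial.X : Polynomial k).natDegree < p := by
      refine lt_of_le_of_lt (Polynomial.natDegree_C_mul_le _ _) ?_
      rw [Polynomial.natDegree_X]; omega
    rw [Polynomial.natDegree_add_eq_left_of_natDegree_lt (by rwa [Polynomial.natDegree_X_pow]),
      Polynomial.natDegree_X_pow]
  have hP0 : P ≠ 0 := by
    intro h0
    rw [h0, Polynomial.natDegree_zero] at hdeg
    omega
  have hsub : {c : k | c ^ p + a * c = 0} ⊆ (P.roots.toFinset : Set k) := by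
    intro c hc
    have hc' : c ^ p + a * c = 0 := hc
    rw [Finset.mem_coe, Multiset.mem_toFinset, Polynomial.mem_roots hP0, Polynomial.IsRoot.def,
      hP, Polynomial.eval_add, Polynomial.eval_pow, Polynomial.eval_X, Polynomial.eval_mul,
      Polynomial.eval_C, Polynomial.eval_X]
    exact hc'
  calc Nat.card {c : k // c ^ p + a * c = 0}
      = Nat.card ({c : k | c ^ p + a * c = 0} : Set k) := rfl
    _ ≤ Nat.card (P.roots.toFinset : Set k) :=
        Nat.card_mono (Finset.finite_toSet _) hsub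
    _ = P.roots.toFinset.card := Nat.card_eq_card_toFinset _ |>.trans (by simp)
    _ ≤ Multiset.card P.roots := Multiset.toFinset_card_le _
    _ ≤ P.natDegree := Polynomial.card_roots' P
    _ = p := hdeg

/-- On a finite field, `c ↦ c^p + a c` is not surjective as soon as it has a nonzero root. -/
theorem range_ne_univ_of_root [Finite k] [CharP k p] {a c : k} (hc0 : c ≠ 0)
    (hc : c ^ p + a * c = 0) : Set.range (fun x : k => x ^ p + a * x) ≠ Set.univ := by
  intro h
  have hsurj : Function.Surjective (fun x : k => x ^ p + a * x) := Set.range_eq_univ.1 h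
  have hinj := Finite.injective_iff_surjective.2 hsurj
  have h0 : (fun x : k => x ^ p + a * x) c = (fun x : k => x ^ p + a * x) 0 := by
    simp only [hc, zero_pow hp.out.ne_zero, mul_zero, add_zero]
  exact hc0 (hinj h0)

end AS

end Fermat.Agent.ES.T56.UnitNormalForm4
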