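/-
Programme T (S56), chapter KUM (helper17 lead, helper7), file `KumChain7` — helper7.

THE WHOLE CHAIN of the unit filtration `1 + p ϖ^t 𝒪`, `t = 0, …, e′`, for equivariant homomorphisms
into `𝒢 = Bˣ/(p-th powers)`.

`B` a discrete valuation ring with finite residue field `κ` of characteristic `p`, `e = v(p)`,
`ζ ∈ B` a primitive `p`-th root of unity, `e′ = v(ζ - 1)` (so `e = (p-1) e′`), `ϖ` a uniformizer.
`j : Bˣ →* 𝒢` with kernel the `p`-th powers; an index type `Δ` acting on `B` (through `σ δ`), on `𝒢`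
(through `a𝒢 δ`, compatibly), on a finite abelian group `V` (through `aV δ`); `σ δ ζ = ζ^{n δ}`,
`σ δ ϖ = ϖ θ δ`.  `(N2)`: the units `≡ 1 mod p (ζ-1) ϖ` are `p`-th powers.

* `grAct σ θ t` : the action `x ↦ θ̄^t σ̄(x)` on the graded piece `κ(θ^t)` of level `e + t`;
* `omAct p n` : the action `x ↦ n x` on `𝔽_p(ω)`;
* `card_chain_le` :
    `#Hom_Δ(V, im (1 + p𝒪)) ≤ (∏_{t < e′, p ∤ e + t} #Hom_Δ(V, κ(θ^t))) * #Hom_Δ(V, 𝔽_p(ω))`,
  together with the finiteness of `im (1 + p𝒪)`.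

Inputs: helper4's `UnitNormalForm4` ((N1a) `ne_mul_pow_of_level` for the levels prime to `p`,
`exists_raise_level` for the levels divisible by `p`), `KumTop7` (top level), `KumStep7`.
-/
import Mathlib
import Fermat.Agent.ES.T56.KumStep7
import Fermat.Agent.ES.T56.KumTop7
import Fermat.Agent.ES.T56.UnitNormalForm4

set_option autoImplicit false
set_option linter.unusedSectionVars false

namespace Fermat.Agent.ES.T56.KumChain7

open IsLocalRing IsDiscreteValuationRing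
open Fermat.Agent.ES.T56.KumHomFilt7 Fermat.Agent.ES.T56.KumLevels7 Fermat.Agent.ES.T56.KumStep7
  Fermat.Agent.ES.T56.KumTop7 Fermat.Agent.ES.T56.UnitPow4 Fermat.Agent.ES.T56.UnitNormalForm4

/-- An element of `ℕ∞` which is `≥ m` but not `≥ m + 1` is `m`. -/
theorem enat_eq_of_le_of_not_le {a : ℕ∞} {m : ℕ} (h1 : (m : ℕ∞) ≤ a)
    (h2 : ¬ ((m + 1 : ℕ) : ℕ∞) ≤ a) : a = m := by
  apply le_antisymm _ h1
  rw [not_le] at h2
  obtain ⟨n, hn⟩ := ENat.ne_top_iff_exists.1 (ne_top_of_lt h2)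
  rw [← hn] at h2 ⊢
  have : n < m + 1 := by exact_mod_cast h2
  exact_mod_cast (by omega : n ≤ m)

variable {B : Type*} [CommRing B] [IsDomain B] [IsDiscreteValuationRing B]
  (p : ℕ) [hp : Fact p.Prime] {e : ℕ} (he : addVal B (p : B) = e)

include he in
theorem natCast_ne_zero : (p : B) ≠ 0 := by
  intro h
  rw [← addVal_eq_top_iff, he] at h
  exact ENat.natCast_ne_top _ h

include he in
/-- `u ≡ 1 mod p ϖ^t` iff the level of `u` is `≥ e + t`. -/
theorem mem_lev_iff_le {ϖ : B} (hϖ : Irreducible ϖ) (t : ℕ) (u : Bˣ) :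
    u ∈ lev ((p : B) * ϖ ^ t) ↔ ((e + t : ℕ) : ℕ∞) ≤ addVal B ((u : B) - 1) := by
  rw [mem_lev_iff, ← addVal_le_iff_dvd, addVal_mul, addVal_pow, he, addVal_uniformizer hϖ]
  push_cast
  simp

section Arith

/-- `(p-1)(e+t) < p e` for `t < e′`, `e = (p-1) e′`. -/
theorem level_lt {e e' t : ℕ} (hp2 : 2 ≤ p) (hee' : e = (p - 1) * e') (ht : t < e') :
    (p - 1) * (e + t) < p * e := by
  obtain ⟨q, hq⟩ : ∃ q, p = q + 1 := ⟨p - 1, by omega⟩
  subst hq
  rw [Nat.add_sub_cancel] at hee' ⊢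
  have hq1 : 1 ≤ q := by omega
  have h1 : q * t < q * e' := Nat.mul_lt_mul_of_pos_left ht (by omega)
  rw [← hee'] at h1
  calc q * (e + t) = q * e + q * t := Nat.mul_add _ _ _
    _ < q * e + e := by omega
    _ = (q + 1) * e := by ring

end Arith

section Chain

variable [Finite (ResidueField B)] [CharP (ResidueField B) p] [Algebra (ZMod p) (ResidueField B)]
  {ζ ϖ : B} (hζ : IsPrimitiveRoot ζ p) (hϖ : Irreducible ϖ)
  {e' : ℕ} (he' : addVal B (ζ - 1) = e') (hee' : e = (p - 1) * e') (he'1 : 1 ≤ e')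
  {𝒢 : Type*} [CommGroup 𝒢] (j : Bˣ →* 𝒢) (hjpow : ∀ u : Bˣ, j u = 1 ↔ ∃ z : Bˣ, u = z ^ p)
  {Δ : Type*} {V : Type*} [AddCommGroup V] [Finite V]
  (σ : Δ → B ≃+* B) (a𝒢 : Δ → 𝒢 →* 𝒢)
  (hj : ∀ δ u, j (Units.map ((σ δ : B ≃+* B) : B →* B) u) = a𝒢 δ (j u))
  (aV : Δ → V → V)
  (n : Δ → ℕ) (hn : ∀ δ, σ δ ζ = ζ ^ n δ)
  (θ : Δ → B) (hθ : ∀ δ, σ δ ϖ = ϖ * θ δ)
  (hN2 : ∀ u ∈ lev ((p : B) * (ζ - 1) * ϖ), ∃ z : Bˣ, u = z ^ p)

/-- The action on the graded piece of level `e + t`: `x ↦ θ̄^t · σ̄ x`. -/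
noncomputable def grAct (σ : Δ → B ≃+* B) (θ : Δ → B) (t : ℕ) (δ : Δ) :
    ResidueField B →+ ResidueField B :=
  (AddMonoidHom.mulLeft (residue B (θ δ) ^ t)).comp
    (ResidueField.mapEquiv (σ δ) : ResidueField B ≃+* ResidueField B).toAddMonoidHom

theorem grAct_apply (t : ℕ) (δ : Δ) (x : ResidueField B) :
    grAct σ θ t δ x = residue B (θ δ) ^ t * ResidueField.mapEquiv (σ δ) x := rfl

/-- The action on `𝔽_p(ω)`: `x ↦ n δ · x`. -/
def omAct (n : Δ → ℕ) (δ : Δ) : ZMod p →+ ZMod p := AddMonoidHom.mulLeft ((n δ : ℕ) : ZMod p)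

theorem omAct_apply (δ : Δ) (x : ZMod p) : omAct p n δ x = (n δ : ZMod p) * x := rfl

include he hee' he'1 in
theorem one_le_e : 1 ≤ e := by
  have hp2 := hp.out.two_le
  rw [hee']
  exact Nat.mul_pos (by omega) he'1

include he hϖ in
theorem c_ne_zero (t : ℕ) : (p : B) * ϖ ^ t ≠ 0 :=
  mul_ne_zero (natCast_ne_zero p he) (pow_ne_zero _ hϖ.ne_zero)

include he hee' he'1 in
theorem c_mem (t : ℕ) : (p : B) * ϖ ^ t ∈ IsLocalRing.maximalIdeal B := by
  refine Ideal.mul_mem_right _ _ ?_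
  rw [← one_le_addVal_iff, he]
  exact_mod_cast one_le_e p he hee' he'1

include hθ in
theorem map_c (t : ℕ) (δ : Δ) :
    σ δ ((p : B) * ϖ ^ t) = (p : B) * ϖ ^ t * θ δ ^ t := by
  rw [map_mul, map_natCast, map_pow, hθ, mul_pow, mul_assoc]

/-! ### The levels `e + t`, `t < e′`, prime to `p` -/

include he hϖ hee' he'1 hjpow hj hθ in
/-- A level prime to `p` below the top contributes `#Hom_Δ(V, κ(θ^t))`. -/
theorem card_good_step (t : ℕ) (ht : t < e') (hgood : ¬ p ∣ e + t)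
    [Finite (levImage j ((p : B) * ϖ ^ (t + 1)))] :
    Finite (levImage j ((p : B) * ϖ ^ t)) ∧
    Nat.card (eqHomInto aV (addAct a𝒢) (levImage j ((p : B) * ϖ ^ t))) ≤
      Nat.card (eqHomInto aV (addAct a𝒢) (levImage j ((p : B) * ϖ ^ (t + 1)))) *
        Nat.card (eqHomInto aV (grAct σ θ t) (⊤ : AddSubgroup (ResidueField B))) := by
  have hp2 := hp.out.two_le
  have he1 := one_le_e p he hee' he'1
  have hc := c_ne_zero p he hϖ t
  have hcm := c_mem p he hee' he'1 (ϖ := ϖ) t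
  have hϖ' : IsLocalRing.maximalIdeal B = Ideal.span {ϖ} := hϖ.maximalIdeal_eq
  have hcsucc : (p : B) * ϖ ^ t * ϖ = (p : B) * ϖ ^ (t + 1) := by rw [pow_succ, mul_assoc]
  -- well-definedness modulo `p`-th powers: (N1a)
  have hwd : ∀ u ∈ lev ((p : B) * ϖ ^ t), j u = 1 →
      (AddMonoidHom.id (ResidueField B)) (qmap ((p : B) * ϖ ^ t) u) = 0 := by
    intro u hu hju
    obtain ⟨z, hz⟩ := (hjpow u).1 hju
    rw [AddMonoidHom.id_apply, qmap_eq_zero_iff hc hϖ' hu, hcsucc]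
    by_contra hnot
    have h1 := (mem_lev_iff_le p he hϖ t u).1 hu
    have h2 : ¬ ((e + t + 1 : ℕ) : ℕ∞) ≤ addVal B ((u : B) - 1) := fun h =>
      hnot ((mem_lev_iff_le p he hϖ (t + 1) u).2 (by rwa [← add_assoc]))
    have hexact := enat_eq_of_le_of_not_le h1 h2
    have hne := ne_mul_pow_of_level p he he1 (b := (u : B)) (w := 1) (z := (z : B)) hexact hgood
      (level_lt p hp2 hee' ht) (by rw [sub_self, addVal_zero]; exact le_top)
    apply hne
    rw [one_mul, hz, Units.val_pow_eq_pow_val]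
  have hker : ∀ u ∈ lev ((p : B) * ϖ ^ t),
      (AddMonoidHom.id (ResidueField B)) (qmap ((p : B) * ϖ ^ t) u) = 0 →
        Additive.ofMul (j u) ∈ levImage j ((p : B) * ϖ ^ (t + 1)) := by
    intro u hu h0
    rw [AddMonoidHom.id_apply, qmap_eq_zero_iff hc hϖ' hu, hcsucc] at h0
    exact ofMul_mem_levImage j h0
  have hstab : ∀ δ, ∀ u ∈ lev ((p : B) * ϖ ^ t),
      Units.map ((σ δ : B ≃+* B) : B →* B) u ∈ lev ((p : B) * ϖ ^ t) :=
    fun δ u hu => map_mem_lev (σ δ) (map_c p σ θ hθ t δ) hu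
  have heq : ∀ δ, ∀ u ∈ lev ((p : B) * ϖ ^ t),
      (AddMonoidHom.id (ResidueField B))
        (qmap ((p : B) * ϖ ^ t) (Units.map ((σ δ : B ≃+* B) : B →* B) u)) =
      grAct σ θ t δ ((AddMonoidHom.id (ResidueField B)) (qmap ((p : B) * ϖ ^ t) u)) := by
    intro δ u hu
    rw [AddMonoidHom.id_apply, AddMonoidHom.id_apply, grAct_apply,
      qmap_map hc (σ δ) (map_c p σ θ hθ t δ) hu, map_pow]
  exact ⟨finite_step j hc hcm (AddMonoidHom.id (ResidueField B)) _ hwd hker,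
    card_step_le j σ a𝒢 hj aV (grAct σ θ t) hc hcm (AddMonoidHom.id (ResidueField B)) _ hwd hker
      hstab heq⟩

/-! ### The levels `e + t`, `t < e′`, divisible by `p` -/

include he hϖ hee' he'1 hjpow in
/-- A level divisible by `p` below the top does not contribute. -/
theorem levImage_bad_step (t : ℕ) (ht : t < e') (hbad : p ∣ e + t) :
    levImage j ((p : B) * ϖ ^ t) = levImage j ((p : B) * ϖ ^ (t + 1)) := by
  have hp2 := hp.out.two_le
  have he1 := one_le_e p he hee' he'1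
  have hperf := pow_surjective_of_finite p he he1
  obtain ⟨j', hj'⟩ := hbad
  have hj'1 : 1 ≤ j' := by
    rcases Nat.eq_zero_or_pos j' with h | h
    · subst h; omega
    · exact h
  have hlt : (p - 1) * j' < e := by
    have h1 := level_lt p hp2 hee' ht
    rw [hj', ← mul_assoc, mul_comm (p - 1) p, mul_assoc] at h1
    exact Nat.lt_of_mul_lt_mul_left h1
  refine levImage_eq_of_exists j ⟨ϖ, by rw [pow_succ, mul_assoc]⟩ (fun u hu => ?_)
  have h1 := (mem_lev_iff_le p he hϖ t u).1 hu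
  rw [hj'] at h1
  obtain ⟨z, -, hz⟩ := exists_raise_level p he hperf (b := (u : B)) h1 hj'1 hlt
  refine ⟨z ^ p, (hjpow _).2 ⟨z, rfl⟩, ?_⟩
  rw [mem_lev_iff_le p he hϖ (t + 1), ← add_assoc, hj', Units.val_mul, Units.val_pow_eq_pow_val]
  exact hz

/-! ### The top level `e + e′ = p e′` -/

include he he' hee' he'1 in
/-- A `p`-th power in the top level is the `p`-th power of a unit `≡ 1 mod (ζ - 1)`. -/
theorem mem_lev_of_pow_mem {z : Bˣ} (hz : z ^ p ∈ lev ((p : B) * (ζ - 1))) : z ∈ lev (ζ - 1) := by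
  have hp2 := hp.out.two_le
  have he1 := one_le_e p he hee' he'1
  have hval : ((e + e' : ℕ) : ℕ∞) ≤ addVal B ((z : B) ^ p - 1) := by
    have h1 : (p : B) * (ζ - 1) ∣ ((z ^ p : Bˣ) : B) - 1 := hz
    rw [← addVal_le_iff_dvd, addVal_mul, he, he', Units.val_pow_eq_pow_val] at h1
    exact_mod_cast h1
  have hres : residue B (z : B) = 1 := by
    apply eq_one_of_pow_eq_one p he he1
    rw [← map_pow, residue_eq_one_iff, ← one_le_addVal_iff]
    refine le_trans ?_ hval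
    exact_mod_cast (by omega : 1 ≤ e + e')
  obtain ⟨t, ht⟩ : ∃ t, (z : B) - 1 = t := ⟨_, rfl⟩
  have hzt : (z : B) = 1 + t := by rw [← ht]; ring
  have htm : 1 ≤ addVal B t := by
    rw [← ht, one_le_addVal_iff, ← residue_eq_one_iff]; exact hres
  rw [mem_lev_iff, ht]
  by_cases ht0 : t = 0
  · rw [ht0]; exact dvd_zero _
  obtain ⟨i, hi⟩ := ENat.ne_top_iff_exists.1 (fun h => ht0 (addVal_eq_top_iff.1 h))
  have hi1 : 1 ≤ i := by rw [← hi] at htm; exact_mod_cast htm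
  rw [← addVal_le_iff_dvd, he', ← hi]
  by_contra hlt
  have hlt' : i < e' := by
    rw [not_le] at hlt
    exact_mod_cast hlt
  have h1 : (p - 1) * i < e := by
    rw [hee']
    exact Nat.mul_lt_mul_of_pos_left hlt' (by omega)
  have h2 := addVal_pow_sub_one_of_lt p he hi.symm hi1 h1
  rw [← hzt] at h2
  rw [h2] at hval
  have h3 : e + e' ≤ p * i := by exact_mod_cast hval
  have h4 : p * i < p * e' := Nat.mul_lt_mul_of_pos_left hlt' (by omega)
  have h5 : p * e' = e + e' := by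
    rw [hee']
    conv_lhs => rw [show p = (p - 1) + 1 by omega]
    ring
  omega

include he hζ hϖ he' hee' he'1 hjpow hj hn hN2 in
/-- The top level contributes `#Hom_Δ(V, 𝔽_p(ω))`. -/
theorem card_top_step :
    Finite (levImage j ((p : B) * ϖ ^ e')) ∧
    Nat.card (eqHomInto aV (addAct a𝒢) (levImage j ((p : B) * ϖ ^ e'))) ≤
      Nat.card (eqHomInto aV (omAct p n) (⊤ : AddSubgroup (ZMod p))) := by
  have hp2 := hp.out.two_le
  have he1 := one_le_e p he hee' he'1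
  have hϖ' : IsLocalRing.maximalIdeal B = Ideal.span {ϖ} := hϖ.maximalIdeal_eq
  have hζp : ζ ^ p = 1 := hζ.pow_eq_one
  have hlam0 : ζ - 1 ≠ 0 := by
    intro h
    rw [← addVal_eq_top_iff, he'] at h
    exact ENat.natCast_ne_top _ h
  have hc : (p : B) * (ζ - 1) ≠ 0 := mul_ne_zero (natCast_ne_zero p he) hlam0
  have hlm : ζ - 1 ∈ IsLocalRing.maximalIdeal B := by
    rw [← one_le_addVal_iff, he']
    exact_mod_cast he'1
  have hcm : (p : B) * (ζ - 1) ∈ IsLocalRing.maximalIdeal B := Ideal.mul_mem_left _ _ hlm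
  -- the two descriptions of the top level
  have hlevEq : levImage j ((p : B) * ϖ ^ e') = levImage j ((p : B) * (ζ - 1)) := by
    have hv : addVal B (ϖ ^ e') = addVal B (ζ - 1) := by
      rw [addVal_pow, addVal_uniformizer hϖ, he']; simp
    have h1 : ϖ ^ e' ∣ ζ - 1 := addVal_le_iff_dvd.1 hv.le
    have h2 : ζ - 1 ∣ ϖ ^ e' := addVal_le_iff_dvd.1 hv.ge
    exact le_antisymm (levImage_anti j (mul_dvd_mul_left _ h2))
      (levImage_anti j (mul_dvd_mul_left _ h1))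
  rw [hlevEq]
  have hwd : ∀ u ∈ lev ((p : B) * (ζ - 1)), j u = 1 →
      topCoord (B := B) p (qmap ((p : B) * (ζ - 1)) u) = 0 := by
    intro u hu hju
    obtain ⟨z, rfl⟩ := (hjpow u).1 hju
    exact trace_qmap_pow p hζp hc hlm (mem_lev_of_pow_mem p he he' hee' he'1 hu)
  have hker : ∀ u ∈ lev ((p : B) * (ζ - 1)),
      topCoord (B := B) p (qmap ((p : B) * (ζ - 1)) u) = 0 →
        Additive.ofMul (j u) ∈ (⊥ : AddSubgroup (Additive 𝒢)) := by
    intro u hu h0
    obtain ⟨z, hz⟩ := exists_pow_of_trace_eq_zero p hζp hc hlm hϖ' hN2 hu h0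
    rw [AddSubgroup.mem_bot, (hjpow u).2 ⟨z, hz⟩]
    rfl
  have hstab : ∀ δ, ∀ u ∈ lev ((p : B) * (ζ - 1)),
      Units.map ((σ δ : B ≃+* B) : B →* B) u ∈ lev ((p : B) * (ζ - 1)) :=
    fun δ u hu => map_mem_lev_top p (σ δ) (hn δ) hu
  have heq : ∀ δ, ∀ u ∈ lev ((p : B) * (ζ - 1)),
      topCoord (B := B) p (qmap ((p : B) * (ζ - 1)) (Units.map ((σ δ : B ≃+* B) : B →* B) u)) =
      omAct p n δ (topCoord (B := B) p (qmap ((p : B) * (ζ - 1)) u)) := by
    intro δ u hu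
    rw [omAct_apply]
    exact topCoord_qmap_map p hc hlm (σ δ) (hn δ) hu
  refine ⟨finite_step j hc hcm (topCoord (B := B) p) _ hwd hker, ?_⟩
  have h := card_step_le j σ a𝒢 hj aV (omAct p n) hc hcm (topCoord (B := B) p) _ hwd hker hstab heq
  rwa [card_eqHomInto_bot, one_mul] at h

/-! ### The chain -/

include he hζ hϖ he' hee' he'1 hjpow hj hn hθ hN2 in
/-- Downward induction over the levels. -/
theorem card_chain_from (m : ℕ) : ∀ s : ℕ, s + m = e' →
    Finite (levImage j ((p : B) * ϖ ^ s)) ∧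
    Nat.card (eqHomInto aV (addAct a𝒢) (levImage j ((p : B) * ϖ ^ s))) ≤
      (∏ t ∈ Finset.Ico s e', if ¬ p ∣ e + t then
        Nat.card (eqHomInto aV (grAct σ θ t) (⊤ : AddSubgroup (ResidueField B))) else 1) *
        Nat.card (eqHomInto aV (omAct p n) (⊤ : AddSubgroup (ZMod p))) := by
  induction m with
  | zero =>
    intro s hs
    rw [add_zero] at hs
    subst hs
    rw [Finset.Ico_self, Finset.prod_empty, one_mul]
    exact card_top_step p he hζ hϖ he' hee' he'1 j hjpow σ a𝒢 hj aV n hn hN2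
  | succ m ih =>
    intro s hs
    have hslt : s < e' := by omega
    obtain ⟨hfin, hcard⟩ := ih (s + 1) (by omega)
    rw [Finset.prod_eq_prod_Ico_succ_bot hslt]
    by_cases hgood : ¬ p ∣ e + s
    · rw [if_pos hgood]
      obtain ⟨hfin', hcard'⟩ := card_good_step p he hϖ hee' he'1 j hjpow σ a𝒢 hj aV θ hθ s hslt hgood
      refine ⟨hfin', hcard'.trans ?_⟩
      rw [mul_comm, mul_assoc]
      exact Nat.mul_le_mul_left _ hcard
    · rw [if_neg hgood, one_mul]
      rw [not_not] at hgood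
      rw [levImage_bad_step p he hϖ hee' he'1 j hjpow s hslt hgood]
      exact ⟨hfin, hcard⟩

include he hζ hϖ he' hee' he'1 hjpow hj hn hθ hN2 in
/-- **The chain.**  `#Hom_Δ(V, im(1 + p𝒪)) ≤ ∏_{t < e′, p ∤ e+t} #Hom_Δ(V, κ(θ^t)) · #Hom_Δ(V, 𝔽_p(ω))`. -/
theorem card_chain_le :
    Finite (levImage j (p : B)) ∧
    Nat.card (eqHomInto aV (addAct a𝒢) (levImage j (p : B))) ≤
      (∏ t ∈ Finset.range e', if ¬ p ∣ e + t then
        Nat.card (eqHomInto aV (grAct σ θ t) (⊤ : AddSubgroup (ResidueField B))) else 1) *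
        Nat.card (eqHomInto aV (omAct p n) (⊤ : AddSubgroup (ZMod p))) := by
  have h := card_chain_from p he hζ hϖ he' hee' he'1 j hjpow σ a𝒢 hj aV n hn θ hθ hN2 e' 0
    (zero_add _)
  rwa [pow_zero, mul_one, ← Finset.range_eq_Ico] at h

end Chain

end Fermat.Agent.ES.T56.KumChain7
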