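/-
Programme T (S56), chapter KUM (helper17 lead, helper7), file `KumCountIface7` — helper7.

INTERFACE between the two halves of KUM (definitions and `Prop`s only):

* helper17's half **KD** produces, for a class of `H¹(Γ_E, k(ψ))` which is trivial on `𝒩 ⊓ Γ_E`
  (`𝒩` a normal subgroup with the export `R′(𝒩)` of Theorem R′), its family of KUMMER GENERATORS
      `A : (k →+ 𝔽_p) → L₀ˣ/L₀^{×p}`,   `ζ^{l (c h)} = h α/α`, `α^p ∈ A l`   (`h ∈ Γ_{L₀}`),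
  an element of the set `Hset` below, and proves that `c ↦ A` is injective on classes;
* helper7's half **COUNT** bounds `#Hset` (`CountF1`, `CountF2`).

Model: PT/LOC (`E L₀ : Type`, finite over `ℚ_[p]`, `[Algebra E L₀]`), `Δ = L₀ ≃ₐ[E] L₀`.

`Hset p E L₀ ψ` : the maps `A : kDual p k → L₀ˣ ⧸ (L₀ˣ)^p` which are additive-to-multiplicative, take
values in `X = image of 1 + p𝒪_{L₀}`, and are `Δ`-equivariant:
  `δ • A l = A (n • (l ∘ (ψ δ)⁻¹·))`  whenever `δ` acts on `μ_p(L₀)` as `ζ ↦ ζ^n`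
(`Δ` acts on `kDual` through the character `ω ψ⁻¹`).
-/
import Mathlib
import Fermat.Agent.PT.LOC.Interface12
import Fermat.Agent.PT.LOC.Structure14
import Fermat.Agent.PT.LOC.Teichmuller14
import Fermat.Agent.ES.T56.FlatRIface14

set_option autoImplicit false
set_option linter.unusedSectionVars false

namespace Fermat.Agent.ES.T56.KumCountIface7

open scoped Fermat.Agent.PT.LOC.Interface12
open Fermat.Agent.PT.LOC.Interface12 Fermat.Agent.PT.LOC.Structure14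
  Fermat.Agent.PT.LOC.Teichmuller14 Fermat.Agent.ES.T56.FlatRIface14

noncomputable section

variable (p : ℕ) [Fact p.Prime]

/-! ### The source: `k^∨ = Hom_{𝔽_p}(k, 𝔽_p)` with its `k`-structure -/

/-- `k^∨ := (k →+ ZMod p)`. -/
abbrev kDual (k : Type) [Field k] : Type := k →+ ZMod p

/-- The `k`-structure of `k^∨`: `(c ⋆ l) x = l (c * x)`. -/
def kDualSMul {k : Type} [Field k] (c : k) (l : kDual p k) : kDual p k :=
  l.comp (AddMonoidHom.mulLeft c)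

@[simp] theorem kDualSMul_apply {k : Type} [Field k] (c : k) (l : kDual p k) (x : k) :
    kDualSMul p c l x = l (c * x) := rfl

/-! ### The target: `L₀ˣ/L₀^{×p}` with the Galois action, and `X` -/

section Target

variable (L₀ : Type) [Field L₀]

/-- The subgroup of `p`-th powers of `L₀ˣ`. -/
abbrev powSub : Subgroup L₀ˣ := (powMonoidHom p : L₀ˣ →* L₀ˣ).range

/-- `L₀ˣ/L₀^{×p}`. -/
abbrev unitsModP : Type := L₀ˣ ⧸ powSub p L₀

variable {L₀}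

theorem map_mem_powSub {E : Type} [Field E] [Algebra E L₀] (δ : L₀ ≃ₐ[E] L₀) {x : L₀ˣ}
    (hx : x ∈ powSub p L₀) : Units.map (δ : L₀ →* L₀) x ∈ powSub p L₀ := by
  obtain ⟨y, rfl⟩ := hx
  exact ⟨Units.map (δ : L₀ →* L₀) y, by
    simp only [powMonoidHom_apply, map_pow]⟩

/-- The action of `δ ∈ Gal(L₀/E)` on `L₀ˣ/L₀^{×p}`. -/
def galAct {E : Type} [Field E] [Algebra E L₀] (δ : L₀ ≃ₐ[E] L₀) :
    unitsModP p L₀ →* unitsModP p L₀ :=
  QuotientGroup.map (powSub p L₀) (powSub p L₀) (Units.map (δ : L₀ →* L₀))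
    (fun _ hx => map_mem_powSub p δ hx)

theorem galAct_mk {E : Type} [Field E] [Algebra E L₀] (δ : L₀ ≃ₐ[E] L₀) (x : L₀ˣ) :
    galAct p δ (QuotientGroup.mk x : unitsModP p L₀) =
      (QuotientGroup.mk (Units.map (δ : L₀ →* L₀) x) : unitsModP p L₀) := rfl

variable (L₀)
variable [Algebra ℚ_[p] L₀] [FiniteDimensional ℚ_[p] L₀]

/-- `X`: the classes of the units `u ∈ 1 + p𝒪_{L₀}` (helper14's `IsOneModP`). -/
def X : Set (unitsModP p L₀) :=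
  {x | ∃ u : L₀ˣ, IsOneModP p L₀ (u : L₀) ∧ (QuotientGroup.mk u : unitsModP p L₀) = x}

/-- `δ` lies in the inertia subgroup: it acts trivially on the residue field. -/
def IsInertial {E : Type} [Field E] [Algebra E L₀] (δ : L₀ ≃ₐ[E] L₀) : Prop :=
  ∀ x ∈ intRing p L₀, snorm p L₀ (δ x - x) < 1

/-- `δ` acts on the `p`-th roots of unity of `L₀` as `ζ ↦ ζ ^ n`. -/
def ActsOnMuAs {E : Type} [Field E] [Algebra E L₀] (δ : L₀ ≃ₐ[E] L₀) (n : ℕ) : Prop :=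
  ∀ ζ : L₀, ζ ^ p = 1 → δ ζ = ζ ^ n

end Target

/-! ### The set `𝓗` of families of Kummer generators -/

section H

variable (E L₀ : Type) [Field E] [Field L₀] [Algebra ℚ_[p] L₀] [FiniteDimensional ℚ_[p] L₀]
  [Algebra E L₀] {k : Type} [Field k]

/-- The set `𝓗`. -/
def Hset (ψ : (L₀ ≃ₐ[E] L₀) →* kˣ) : Set (kDual p k → unitsModP p L₀) :=
  {A | (∀ l m, A (l + m) = A l * A m) ∧ (∀ l, A l ∈ X p L₀) ∧
    ∀ (δ : L₀ ≃ₐ[E] L₀) (n : ℕ), ActsOnMuAs p L₀ δ n → ∀ l,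
      galAct p δ (A l) = A (n • kDualSMul p (((ψ δ)⁻¹ : kˣ) : k) l)}

end H

/-! ### The statements of COUNT -/

section Statements

open Classical in
/-- **COUNT, `f = 1`** (`E = ℚ_p`, `L₀ ⊇ ℚ_p(ζ_p)` unramified over `ℚ_p(ζ_p)`, Galois over `ℚ_p`):
`#𝓗 ≤ |k| ^ ([ψ = 1] + [ψ|_I = ω|_I])`. -/
def CountF1 : Prop :=
  ∀ (L₀ : Type) [Field L₀] [Algebra ℚ_[p] L₀] [FiniteDimensional ℚ_[p] L₀] [IsGalois ℚ_[p] L₀],
    ramIdxZ p L₀ = (p : ℤ) - 1 → (∃ ζ : L₀, IsPrimitiveRoot ζ p) →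
  ∀ (k : Type) [Field k] [Finite k] [CharP k p] (ψ : (L₀ ≃ₐ[ℚ_[p]] L₀) →* kˣ),
    (Hset p ℚ_[p] L₀ ψ).Finite ∧
    Nat.card (Hset p ℚ_[p] L₀ ψ) ≤ Nat.card k ^
      ((if ψ = 1 then 1 else 0) +
        (if ∀ (δ : L₀ ≃ₐ[ℚ_[p]] L₀) (n : ℕ), IsInertial p L₀ δ → ActsOnMuAs p L₀ δ n →
            ((ψ δ : kˣ) : k) = (n : k) then 1 else 0))

/-- The condition attached to a pair `(t, a)` in the count for `f = 2`:
`ψ|_I = ω · ω₂^{-t p^a}`, where `ω₂ δ = ι (residue of δ π / π)`. -/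
def PairCond (E L₀ : Type) [Field E] [Field L₀] [Algebra ℚ_[p] E] [FiniteDimensional ℚ_[p] E]
    [Algebra ℚ_[p] L₀] [FiniteDimensional ℚ_[p] L₀] [Algebra E L₀] {k : Type} [Field k]
    (ψ : (L₀ ≃ₐ[E] L₀) →* kˣ) (π : L₀) (ι : resField p E →+* k) (t a : ℕ) : Prop :=
  ∀ (δ : L₀ ≃ₐ[E] L₀) (n : ℕ), IsInertial p L₀ δ → ActsOnMuAs p L₀ δ n →
    ∀ ε : intRing p E, algebraMap E L₀ (ε : E) * π = δ π →
      ((ψ δ : kˣ) : k) * ι (IsLocalRing.residue (intRing p E) ε) ^ (t * p ^ a) = (n : k)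

open Classical in
/-- **COUNT, `f = 2`** (`E/ℚ_p` unramified quadratic, `L₀ = E′(π)`, `π^{p²-1} = -p`, `E′/E`
unramified, `L₀/E` Galois, `k ⊇ 𝔽_{p²}` through `ι`):
`#𝓗 ≤ |k| ^ ([ψ = 1] + #{(t, a) : t ∈ {0, 2, …, p}, a ∈ {0, 1}, ψ|_I = ω ω₂^{-t p^a}})`. -/
def CountF2 : Prop :=
  ∀ (E L₀ : Type) [Field E] [Field L₀] [Algebra ℚ_[p] E] [FiniteDimensional ℚ_[p] E]
    [Algebra ℚ_[p] L₀] [FiniteDimensional ℚ_[p] L₀] [Algebra E L₀] [IsScalarTower ℚ_[p] E L₀]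
    [IsGalois E L₀],
    IsUnramified p ℚ_[p] E → Module.finrank ℚ_[p] E = 2 →
    ramIdxZ p L₀ = (p : ℤ) ^ 2 - 1 → (∃ ζ : L₀, IsPrimitiveRoot ζ p) →
  ∀ π : L₀, π ^ (p ^ 2 - 1) = -(p : L₀) →
  ∀ (k : Type) [Field k] [Finite k] [CharP k p] (ι : resField p E →+* k)
    (ψ : (L₀ ≃ₐ[E] L₀) →* kˣ),
    (Hset p E L₀ ψ).Finite ∧
    Nat.card (Hset p E L₀ ψ) ≤ Nat.card k ^
      ((if ψ = 1 then 1 else 0) +
        ((Finset.range (p + 1) ×ˢ Finset.range 2).filter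
          (fun ta : ℕ × ℕ => ta.1 ≠ 1 ∧ PairCond p E L₀ ψ π ι ta.1 ta.2)).card)

end Statements

end

end Fermat.Agent.ES.T56.KumCountIface7
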