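/-
Programme T (S56), chapter KUM (helper17 lead, helper7), file `KumEval7` — helper7.

EVALUATION of the factors of the chain (`KumChain7.card_chain_le`) for the source `V = k^∨`:
`k` a finite field of characteristic `p`, `k^∨ = kDual p k = (k →+ ZMod p)` with its `k`-structure
`kDualSMul` (`(c ⋆ l) x = l (c x)`), an index type `Δ` acting on `k^∨` through scalars `c δ ∈ k`.

* `kDualSMul` calculus, `kDualSMul_surjective`;
* `card_addHom_eq` : `#Hom(M, F) = p ^ (dim M · dim F)` for finite `𝔽_p`-vector spaces;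
  `card_kDual`, `card_kDual_hom`;
* `eq_zero_of_ne` : an equivariant `T : k^∨ → F(s)` (`δ` acting on the target through the NATURAL
  NUMBER `s δ`) vanishes as soon as `c δ ≠ s δ` in `k` for some `δ`;
* **`card_eqHomInto_natScalar_le`** : `#Hom_Δ(k^∨, F(s)) ≤ |k| ^ [∀ δ, c δ = s δ]` for `#F = p`.
-/
import Mathlib
import Fermat.Agent.ES.T56.KumHomFilt7

set_option autoImplicit false
set_option linter.unusedSectionVars false

namespace Fermat.Agent.ES.T56.KumEval7

open Fermat.Agent.ES.T56.KumHomFilt7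

variable (p : ℕ) [hp : Fact p.Prime]

/-! ### `k^∨` (the definitions are repeated verbatim in `KumCountIface7`, which imports the LOC
model; here everything is Mathlib-only, on the underlying terms) -/

section Dual

variable {k : Type*} [Field k]

/-- `(c ⋆ l) x = l (c x)` on `k →+ ZMod p`. -/
def dsmul (c : k) (l : k →+ ZMod p) : k →+ ZMod p := l.comp (AddMonoidHom.mulLeft c)

@[simp] theorem dsmul_apply (c : k) (l : k →+ ZMod p) (x : k) : dsmul p c l x = l (c * x) := rfl

theorem dsmul_one (l : k →+ ZMod p) : dsmul p 1 l = l := by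
  ext x; rw [dsmul_apply, one_mul]

theorem dsmul_dsmul (c d : k) (l : k →+ ZMod p) : dsmul p c (dsmul p d l) = dsmul p (d * c) l := by
  ext x; rw [dsmul_apply, dsmul_apply, dsmul_apply, mul_assoc]

theorem dsmul_add (c : k) (l m : k →+ ZMod p) : dsmul p c (l + m) = dsmul p c l + dsmul p c m := by
  ext x; simp only [dsmul_apply, AddMonoidHom.add_apply]

theorem dsmul_sub_left (c d : k) (l : k →+ ZMod p) :
    dsmul p (c - d) l = dsmul p c l - dsmul p d l := by
  ext x
  simp only [dsmul_apply, AddMonoidHom.sub_apply, sub_mul, map_sub]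

theorem dsmul_natCast (m : ℕ) (l : k →+ ZMod p) : dsmul p (m : k) l = m • l := by
  ext x
  rw [dsmul_apply, AddMonoidHom.nsmul_apply, ← nsmul_eq_mul, map_nsmul]

theorem nsmul_dsmul (m : ℕ) (c : k) (l : k →+ ZMod p) :
    m • dsmul p c l = dsmul p ((m : k) * c) l := by
  rw [← dsmul_natCast, dsmul_dsmul, mul_comm]

theorem dsmul_surjective {d : k} (hd : d ≠ 0) : Function.Surjective (dsmul p d) := fun l =>
  ⟨dsmul p d⁻¹ l, by rw [dsmul_dsmul, inv_mul_cancel₀ hd, dsmul_one]⟩

end Dual

/-! ### Cardinalities -/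

section Card

/-- `#Hom(M, F) = p ^ (dim M · dim F)` for finite `𝔽_p`-vector spaces. -/
theorem card_addHom_eq (M F : Type*) [AddCommGroup M] [Module (ZMod p) M] [Finite M]
    [AddCommGroup F] [Module (ZMod p) F] [Finite F] :
    Nat.card (M →+ F) = p ^ (Module.finrank (ZMod p) M * Module.finrank (ZMod p) F) := by
  have : Module.Finite (ZMod p) M := Module.Finite.of_finite
  have : Module.Finite (ZMod p) F := Module.Finite.of_finite
  rw [Nat.card_congr (AddMonoidHom.toZModLinearMapEquiv p (M := M) (M₁ := F)).toEquiv,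
    Module.natCard_eq_pow_finrank (K := ZMod p), Nat.card_zmod,
    Module.finrank_linearMap (ZMod p) (ZMod p) M F]

theorem card_eq_pow (M : Type*) [AddCommGroup M] [Module (ZMod p) M] [Finite M] :
    Nat.card M = p ^ Module.finrank (ZMod p) M := by
  have : Module.Finite (ZMod p) M := Module.Finite.of_finite
  rw [Module.natCard_eq_pow_finrank (K := ZMod p), Nat.card_zmod]

instance finite_addHom (M F : Type*) [AddCommGroup M] [Finite M] [AddCommGroup F] [Finite F] :
    Finite (M →+ F) :=
  Finite.of_injective (fun f => (f : M → F)) DFunLike.coe_injective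

variable (k : Type*) [Field k] [Finite k] [CharP k p]

/-- `dim k^∨ = dim k`. -/
theorem finrank_kDual [Module (ZMod p) k] :
    Module.finrank (ZMod p) (k →+ ZMod p) = Module.finrank (ZMod p) k := by
  have h1 := card_addHom_eq p k (ZMod p)
  rw [card_eq_pow p (k →+ ZMod p), Module.finrank_self, mul_one] at h1
  exact Nat.pow_right_injective hp.out.two_le h1

/-- `#k^∨ = #k`. -/
theorem card_kDual : Nat.card (k →+ ZMod p) = Nat.card k := by
  let _ : Algebra (ZMod p) k := ZMod.algebra k p
  rw [card_eq_pow p (k →+ ZMod p), finrank_kDual p k, ← card_eq_pow p k]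

/-- `#Hom(k^∨, F) = #k ^ dim F`. -/
theorem card_kDual_hom (F : Type*) [AddCommGroup F] [Module (ZMod p) F] [Finite F] :
    Nat.card ((k →+ ZMod p) →+ F) = Nat.card k ^ Module.finrank (ZMod p) F := by
  let _ : Algebra (ZMod p) k := ZMod.algebra k p
  rw [card_addHom_eq p (k →+ ZMod p) F, finrank_kDual p k, pow_mul, ← card_eq_pow p k]

/-- `#Hom(k^∨, F) = #k` when `#F = p`. -/
theorem card_kDual_hom_of_card (F : Type*) [AddCommGroup F] [Module (ZMod p) F] [Finite F]
    (hF : Nat.card F = p) : Nat.card ((k →+ ZMod p) →+ F) = Nat.card k := by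
  have h1 : Module.finrank (ZMod p) F = 1 := by
    have h2 := card_eq_pow p F
    rw [hF] at h2
    have h3 : p ^ 1 = p ^ Module.finrank (ZMod p) F := by rw [pow_one]; exact h2
    exact (Nat.pow_right_injective hp.out.two_le h3).symm
  rw [card_kDual_hom p k F, h1, pow_one]

end Card

/-! ### Equivariant maps `k^∨ → F(s)` -/

section Eval

variable {k : Type*} [Field k] [Finite k] [CharP k p] {Δ : Type*}
  {F : Type*} [AddCommGroup F]

/-- An equivariant `T : k^∨ → F`, `δ` acting on the source through `c δ ∈ k` and on the target through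
the natural number `s δ`, vanishes as soon as `c δ ≠ s δ` in `k` for some `δ`. -/
theorem eq_zero_of_ne (c : Δ → k) (s : Δ → ℕ) (T : (k →+ ZMod p) →+ F)
    (hT : ∀ δ l, T (dsmul p (c δ) l) = s δ • T l) {δ : Δ} (hδ : c δ ≠ (s δ : k)) : T = 0 := by
  have hd : c δ - (s δ : k) ≠ 0 := sub_ne_zero.2 hδ
  ext l'
  obtain ⟨l, rfl⟩ := dsmul_surjective p hd l'
  rw [dsmul_sub_left, map_sub, hT, dsmul_natCast, map_nsmul, sub_self, AddMonoidHom.zero_apply]

variable [Module (ZMod p) F] [Finite F]

/-- `#Hom_Δ(k^∨, F(s)) ≤ #k ^ [∀ δ, c δ = s δ]` when `#F = p`. -/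
theorem card_eqHomInto_natScalar_le (hF : Nat.card F = p) (c : Δ → k) (s : Δ → ℕ)
    (aQ : Δ → F →+ F) (haQ : ∀ δ x, aQ δ x = s δ • x) :
    Nat.card (eqHomInto (fun δ (l : k →+ ZMod p) => dsmul p (c δ) l) aQ (⊤ : AddSubgroup F)) ≤
      Nat.card k ^ (open Classical in if ∀ δ, c δ = ((s δ : ℕ) : k) then 1 else 0) := by
  classical
  by_cases h : ∀ δ, c δ = ((s δ : ℕ) : k)
  · rw [if_pos h, pow_one, ← card_kDual_hom_of_card p k F hF]
    exact Nat.card_le_card_of_injective (fun T => (T : (k →+ ZMod p) →+ F)) Subtype.val_injective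
  · rw [if_neg h, pow_zero]
    rw [not_forall] at h
    obtain ⟨δ, hδ⟩ := h
    have hsub : Subsingleton
        (eqHomInto (fun δ (l : k →+ ZMod p) => dsmul p (c δ) l) aQ (⊤ : AddSubgroup F)) := by
      refine ⟨fun T T' => ?_⟩
      apply Subtype.ext
      rw [eq_zero_of_ne p c s (T : (k →+ ZMod p) →+ F)
          (fun δ l => by rw [← haQ]; exact T.2.1 δ l) hδ,
        eq_zero_of_ne p c s (T' : (k →+ ZMod p) →+ F)
          (fun δ l => by rw [← haQ]; exact T'.2.1 δ l) hδ]
    exact Finite.card_le_one_iff_subsingleton.2 hsub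

end Eval

end Fermat.Agent.ES.T56.KumEval7
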