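/-
Programme T (S56), chapter KUM (helper17 lead, helper7), file `KumSemilin7` — helper7.

FROBENIUS RECIPROCITY FOR A SEMILINEAR TARGET, via Mathlib's normal basis theorem.

`L/K` a finite Galois extension of fields (in the application: residue fields `κ_{L₀}/κ_E`), `Δ` a
group with a surjective homomorphism `γ : Δ → Gal(L/K)` (kernel = inertia), `t : Δ → K` a family of
scalars (the twist `θ^t`, with values in the SMALL field), `Δ` acting on an abelian group `V` through
surjective maps `aV δ`.  `L(t)` denotes `L` with `δ` acting by `x ↦ t δ • γ δ x`.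

* `repr_algEquiv_apply` : the coordinates of `σ x` in the normal basis are those of `x`, shifted.
* `card_eqHomInto_twist_le` :
    `#Hom_Δ(V, L(t)) ≤ #Hom_{ker γ}(V, K(t))`
  (an equivariant `T : V → L(t)` is determined by its coordinate at `1` in the normal basis, which is
  an additive map `V → K`, equivariant for the inertia subgroup `ker γ` acting on `K` through `t`).

No Galois descent and no tensor products are used.
-/
import Mathlib
import Fermat.Agent.ES.T56.KumHomFilt7

set_option autoImplicit false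
set_option linter.unusedSectionVars false

namespace Fermat.Agent.ES.T56.KumSemilin7

open Fermat.Agent.ES.T56.KumHomFilt7

section NormalBasis

variable (K L : Type*) [Field K] [Field L] [Algebra K L] [FiniteDimensional K L] [IsGalois K L]

/-- `σ` permutes the normal basis: `σ (b g) = b (σ * g)`. -/
theorem algEquiv_normalBasis (σ g : L ≃ₐ[K] L) :
    σ (IsGalois.normalBasis K L g) = IsGalois.normalBasis K L (σ * g) := by
  rw [IsGalois.normalBasis_apply, IsGalois.normalBasis_apply (σ * g)]
  rfl

/-- The coordinates of `σ x` in the normal basis are the shifted coordinates of `x`. -/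
theorem repr_algEquiv_apply (σ g : L ≃ₐ[K] L) (x : L) :
    (IsGalois.normalBasis K L).repr (σ x) (σ * g) = (IsGalois.normalBasis K L).repr x g := by
  classical
  set b := IsGalois.normalBasis K L with hb
  have hx : x = ∑ h : L ≃ₐ[K] L, b.repr x h • b h := (b.sum_repr x).symm
  have hσx : σ x = ∑ h : L ≃ₐ[K] L, b.repr x (σ⁻¹ * h) • b h := by
    conv_lhs => rw [hx]
    rw [map_sum]
    rw [← Equiv.sum_comp (Equiv.mulLeft σ) (fun h => b.repr x (σ⁻¹ * h) • b h)]
    refine Finset.sum_congr rfl (fun h _ => ?_)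
    rw [map_smul, Equiv.coe_mulLeft, inv_mul_cancel_left, hb, algEquiv_normalBasis]
  have key : b.repr (σ x) = b.repr (∑ h : L ≃ₐ[K] L, b.repr x (σ⁻¹ * h) • b h) := by rw [← hσx]
  rw [key, b.repr_sum_self]
  rw [inv_mul_cancel_left]

end NormalBasis

section Count

variable {K L : Type*} [Field K] [Field L] [Algebra K L] [FiniteDimensional K L] [IsGalois K L]
variable {Δ : Type*} [Group Δ] {V : Type*} [AddCommGroup V]

/-- The twisted semilinear action on `L`: `δ · x = t δ • γ δ x`. -/
def twistAct (γ : Δ →* (L ≃ₐ[K] L)) (t : Δ → K) (δ : Δ) : L →+ L :=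
  ((t δ) • ((γ δ : L ≃ₐ[K] L).toLinearMap : L →ₗ[K] L)).toAddMonoidHom

@[simp] theorem twistAct_apply (γ : Δ →* (L ≃ₐ[K] L)) (t : Δ → K) (δ : Δ) (x : L) :
    twistAct γ t δ x = t δ • γ δ x := rfl

/-- The action of the inertia subgroup `ker γ` on the small field `K`: multiplication by `t δ`. -/
def scalarAct (γ : Δ →* (L ≃ₐ[K] L)) (t : Δ → K) (δ : γ.ker) : K →+ K :=
  AddMonoidHom.mulLeft (t (δ : Δ))

@[simp] theorem scalarAct_apply (γ : Δ →* (L ≃ₐ[K] L)) (t : Δ → K) (δ : γ.ker) (x : K) :
    scalarAct γ t δ x = t (δ : Δ) * x := rfl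

/-- The coordinate at `1` of an additive map into `L`, as an additive map into `K`. -/
noncomputable def coordOne (T : V →+ L) : V →+ K :=
  ((Finsupp.lapply (1 : L ≃ₐ[K] L) : ((L ≃ₐ[K] L) →₀ K) →ₗ[K] K).toAddMonoidHom.comp
    ((IsGalois.normalBasis K L).repr : L →ₗ[K] ((L ≃ₐ[K] L) →₀ K)).toAddMonoidHom).comp T

theorem coordOne_apply (T : V →+ L) (v : V) :
    coordOne (K := K) T v = (IsGalois.normalBasis K L).repr (T v) 1 := rfl

/-- The key identity: the coordinate of `T w` at `γ δ` is `t δ` times the coordinate at `1` of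
`T v`, `w = aV δ v`. -/
theorem repr_apply_of_equivariant (γ : Δ →* (L ≃ₐ[K] L)) (t : Δ → K) (aV : Δ → V → V)
    (T : V →+ L) (hT : ∀ δ v, T (aV δ v) = twistAct γ t δ (T v)) (δ : Δ) (v : V) :
    (IsGalois.normalBasis K L).repr (T (aV δ v)) (γ δ) =
      t δ * (IsGalois.normalBasis K L).repr (T v) 1 := by
  rw [hT, twistAct_apply, map_smul, Finsupp.smul_apply, smul_eq_mul]
  congr 1
  have := repr_algEquiv_apply K L (γ δ) 1 (T v)
  rwa [mul_one] at this

/-- **Frobenius reciprocity** (injectivity half, in cardinalities):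
`#Hom_Δ(V, L(t)) ≤ #Hom_{ker γ}(V, K(t))`. -/
theorem card_eqHomInto_twist_le [Finite V] [Finite K] (γ : Δ →* (L ≃ₐ[K] L))
    (hγ : Function.Surjective γ) (t : Δ → K) (aV : Δ → V → V)
    (haV : ∀ δ, Function.Surjective (aV δ)) :
    Nat.card (eqHomInto aV (twistAct γ t) (⊤ : AddSubgroup L)) ≤
      Nat.card (eqHomInto (fun (δ : γ.ker) => aV (δ : Δ)) (scalarAct γ t) (⊤ : AddSubgroup K)) := by
  refine Nat.card_le_card_of_injective
    (fun T => ⟨coordOne (K := K) (T : V →+ L), ⟨fun δ v => ?_, fun _ => AddSubgroup.mem_top _⟩⟩)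
    (fun T T' h => ?_)
  · -- equivariance for the inertia subgroup
    rw [coordOne_apply, coordOne_apply, scalarAct_apply]
    have h1 := repr_apply_of_equivariant γ t aV (T : V →+ L) T.2.1 (δ : Δ) v
    have h2 : γ (δ : Δ) = 1 := δ.2
    rwa [h2] at h1
  · -- injectivity
    apply Subtype.ext
    ext w
    have hc : ∀ v, (IsGalois.normalBasis K L).repr ((T : V →+ L) v) 1 =
        (IsGalois.normalBasis K L).repr ((T' : V →+ L) v) 1 := fun v => by
      have := congrArg (fun S : eqHomInto (fun (δ : γ.ker) => aV (δ : Δ)) (scalarAct γ t)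
        (⊤ : AddSubgroup K) => (S : V →+ K) v) h
      exact this
    apply (IsGalois.normalBasis K L).repr.injective
    ext g
    obtain ⟨δ, rfl⟩ := hγ g
    obtain ⟨v, rfl⟩ := haV δ w
    rw [repr_apply_of_equivariant γ t aV (T : V →+ L) T.2.1 δ v,
      repr_apply_of_equivariant γ t aV (T' : V →+ L) T'.2.1 δ v, hc v]

end Count

end Fermat.Agent.ES.T56.KumSemilin7
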