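/-
Programme T (S56), chapter FLAT, common brick (c2) "unit normal forms", part 3 (helper4):
**the statements of `UnitNormalForm4` for a `p`-adic field `E` of the LOC model**
(`[Field E] [Algebra ℚ_[p] E] [FiniteDimensional ℚ_[p] E]`, `𝒪 = intRing p E`), with the levels
measured by the spectral norm: `u` has exact level `i` iff `|u − 1| = |π|^i`, `π` a uniformizer.

* bridge `addVal 𝒪` ↔ `snorm`: `addVal_eq_iff_snorm`, `le_addVal_iff_snorm`, `succ_le_addVal_iff_snorm`;
* `ramE p E : ℕ` the absolute ramification index (`= ramIdxZ p E = ord_E p`), `addVal_natCast`,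
  `snorm_natCast_eq : |p| = |π|^e`;
* `isOneModP_iff_snorm : IsOneModP p E u ↔ |u − 1| ≤ |p|`, `isOneModP_iff_addVal`;
* `pow_surjective_residue` : the residue field is perfect;
* (N1a) `ne_mul_pow_of_snorm` : `|u − 1| = |π|^i`, `p ∤ i`, `(p−1) i < p e`, `|v − 1| < |π|^i` ⇒ `u ≠ v b^p`;
* (N1b) `ne_mul_pow_of_not_dvd_ord` : `p ∤ ord a` ⇒ `a ≠ u b^p` for `u` a unit of `𝒪`;
* (N1c) `exists_normal_form_loc` : `p ∣ ord a` ⇒ `a = u b^p` with `u ∈ 1 + p𝒪`, or with `|u − 1| = |π|^i`,
  `p ∤ i`, `i < e`.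
-/
import Mathlib
import Fermat.Agent.PT.LOC.Interface12
import Fermat.Agent.PT.LOC.Structure14
import Fermat.Agent.PT.LOC.StructureNorm14
import Fermat.Agent.PT.LOC.StructureTower27
import Fermat.Agent.ES.T56.FlatRIface14
import Fermat.Agent.ES.T56.UnitNormalForm4

set_option autoImplicit false
set_option linter.unusedSectionVars false

open scoped Fermat.Agent.PT.LOC.Interface12 Fermat.Agent.PT.LOC.StructureTower27
open Fermat.Agent.PT.LOC.Interface12 Fermat.Agent.PT.LOC.Structure14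
  Fermat.Agent.PT.LOC.StructureNorm14 Fermat.Agent.PT.LOC.StructureTower27
  Fermat.Agent.ES.T56.FlatRIface14 Fermat.Agent.ES.T56.UnitNormalForm4 IsDiscreteValuationRing

namespace Fermat.Agent.ES.T56.UnitLevelLoc4

noncomputable section

variable (p : ℕ) [hp : Fact p.Prime] (E : Type) [Field E] [Algebra ℚ_[p] E]
  [FiniteDimensional ℚ_[p] E]

/-! ### the spectral norm -/

theorem snorm_pow (x : E) (n : ℕ) : snorm p E (x ^ n) = snorm p E x ^ n := by
  induction n with
  | zero => rw [pow_zero, pow_zero, snorm_one]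
  | succ n ih => rw [pow_succ, snorm_mul, ih, pow_succ]

theorem snorm_neg (x : E) : snorm p E (-x) = snorm p E x := by
  have h : snorm p E (-1 : E) = 1 := by
    have h1 : snorm p E (-1 : E) ^ 2 = 1 := by
      rw [← snorm_pow]; norm_num [snorm_one]
    have h2 := snorm_nonneg p E (-1 : E)
    nlinarith
  rw [neg_eq_neg_one_mul, snorm_mul, h, one_mul]

/-- `|x − 1| < 1` forces `|x| = 1`. -/
theorem snorm_eq_one_of_sub_one_lt {x : E} (h : snorm p E (x - 1) < 1) : snorm p E x = 1 := by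
  apply le_antisymm
  · have h1 := snorm_add_le_max p E (x - 1) 1
    rw [sub_add_cancel, snorm_one] at h1
    exact h1.trans (max_le h.le le_rfl)
  · have h1 := snorm_add_le_max p E x (-(x - 1))
    rw [show x + -(x - 1) = 1 by ring, snorm_one, snorm_neg] at h1
    rcases le_max_iff.1 h1 with h2 | h2
    · exact h2
    · exact absurd h2 (not_le.2 h)

variable {p E}

theorem irreducible_of_isUniformizer {π : E} (hπ : IsUniformizer p E π) :
    Irreducible (⟨π, hπ.1⟩ : intRing p E) :=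
  (isUniformizer_iff_irreducible p E ⟨π, hπ.1⟩).1 hπ

theorem snorm_uniformizer_pos {π : E} (hπ : IsUniformizer p E π) : 0 < snorm p E π :=
  snorm_pos p E hπ.2.1

/-- The spectral norm of a unit of `𝒪` is `1`. -/
theorem snorm_unit (u : (intRing p E)ˣ) : snorm p E ((u : intRing p E) : E) = 1 := by
  have h1 : snorm p E ((u : intRing p E) : E) ≤ 1 := (mem_intRing_iff p E _).1 (u : intRing p E).2
  have h2 : snorm p E (((u⁻¹ : (intRing p E)ˣ) : intRing p E) : E) ≤ 1 :=
    (mem_intRing_iff p E _).1 ((u⁻¹ : (intRing p E)ˣ) : intRing p E).2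
  have h3 : ((u : intRing p E) : E) * (((u⁻¹ : (intRing p E)ˣ) : intRing p E) : E) = 1 := by
    rw [← Subalgebra.coe_mul, Units.mul_inv, Subalgebra.coe_one]
  have h4 := snorm_mul p E ((u : intRing p E) : E) (((u⁻¹ : (intRing p E)ˣ) : intRing p E) : E)
  rw [h3, snorm_one] at h4
  have h5 := snorm_nonneg p E ((u : intRing p E) : E)
  have h6 := snorm_nonneg p E (((u⁻¹ : (intRing p E)ˣ) : intRing p E) : E)
  nlinarith

/-- **Bridge.** A nonzero `x ∈ 𝒪` has `|x| = |π|^{v(x)}`. -/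
theorem exists_addVal_snorm {π : E} (hπ : IsUniformizer p E π) {x : intRing p E} (hx : x ≠ 0) :
    ∃ m : ℕ, addVal (intRing p E) x = m ∧ snorm p E (x : E) = snorm p E π ^ m := by
  have hirr := irreducible_of_isUniformizer hπ
  obtain ⟨m, u, hu⟩ := eq_unit_mul_pow_irreducible hx hirr
  refine ⟨m, ?_, ?_⟩
  · rw [hu]; exact addVal_def' u hirr m
  · rw [hu, Subalgebra.coe_mul, Subalgebra.coe_pow, snorm_mul, snorm_unit, one_mul, snorm_pow]

theorem addVal_eq_iff_snorm {π : E} (hπ : IsUniformizer p E π) (x : intRing p E) (n : ℕ) :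
    addVal (intRing p E) x = n ↔ snorm p E (x : E) = snorm p E π ^ n := by
  have hpos := snorm_uniformizer_pos hπ
  have hlt := snorm_uniformizer_lt_one p E π hπ
  by_cases hx : x = 0
  · subst hx
    rw [addVal_zero, Subalgebra.coe_zero, snorm_zero]
    constructor
    · intro h; exact absurd h (ENat.top_ne_natCast _)
    · intro h; exact absurd h.symm (pow_pos hpos n).ne'
  · obtain ⟨m, h1, h2⟩ := exists_addVal_snorm hπ hx
    rw [h1, h2]
    constructor
    · intro h
      have : m = n := by exact_mod_cast h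
      rw [this]
    · intro h
      have : m = n := pow_right_injective₀ hpos hlt.ne h
      rw [this]

theorem le_addVal_iff_snorm {π : E} (hπ : IsUniformizer p E π) (x : intRing p E) (n : ℕ) :
    (n : ℕ∞) ≤ addVal (intRing p E) x ↔ snorm p E (x : E) ≤ snorm p E π ^ n := by
  have hpos := snorm_uniformizer_pos hπ
  have hlt := snorm_uniformizer_lt_one p E π hπ
  by_cases hx : x = 0
  · subst hx
    rw [addVal_zero, Subalgebra.coe_zero, snorm_zero]
    exact ⟨fun _ => (pow_pos hpos n).le, fun _ => le_top⟩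
  · obtain ⟨m, h1, h2⟩ := exists_addVal_snorm hπ hx
    rw [h1, h2, pow_le_pow_iff_right_of_lt_one₀ hpos hlt]
    exact Nat.cast_le

theorem succ_le_addVal_iff_snorm {π : E} (hπ : IsUniformizer p E π) (x : intRing p E) (n : ℕ) :
    ((n + 1 : ℕ) : ℕ∞) ≤ addVal (intRing p E) x ↔ snorm p E (x : E) < snorm p E π ^ n := by
  have hpos := snorm_uniformizer_pos hπ
  have hlt := snorm_uniformizer_lt_one p E π hπ
  by_cases hx : x = 0
  · subst hx
    rw [addVal_zero, Subalgebra.coe_zero, snorm_zero]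
    exact ⟨fun _ => pow_pos hpos n, fun _ => le_top⟩
  · obtain ⟨m, h1, h2⟩ := exists_addVal_snorm hπ hx
    rw [h1, h2, pow_lt_pow_iff_right_of_lt_one₀ hpos hlt, Nat.cast_le]
    exact Nat.succ_le_iff

/-! ### the absolute ramification index -/

variable (p E)

/-- The absolute ramification index `e(E/ℚ_p) = ord_E(p)` as a natural number. -/
def ramE : ℕ := (ramIdxZ p E).toNat

theorem natCast_ne_zero : (p : E) ≠ 0 := by
  have h1 : (p : ℚ_[p]) ≠ 0 := by exact_mod_cast hp.out.ne_zero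
  intro h
  apply h1
  apply (algebraMap ℚ_[p] E).injective
  rw [map_natCast, map_zero]
  exact h

theorem ramIdxZ_pos : 0 < ramIdxZ p E := by
  have h1 := ord_lt_ord_iff p E 1 (Units.mk0 (p : E) (natCast_ne_zero p E))
  rw [ord_one, Units.val_one, snorm_one, Units.val_mk0, snorm_natCast_q] at h1
  apply h1.2
  have : (1 : ℝ) < p := by exact_mod_cast hp.out.one_lt
  exact inv_lt_one_of_one_lt₀ this

theorem ramE_cast : ((ramE p E : ℕ) : ℤ) = ramIdxZ p E :=
  Int.toNat_of_nonneg (ramIdxZ_pos p E).le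

theorem one_le_ramE : 1 ≤ ramE p E := by
  have h1 := ramIdxZ_pos p E
  have h2 := ramE_cast p E
  omega

variable {p E}

theorem snorm_natCast_eq {π : E} (hπ : IsUniformizer p E π) :
    snorm p E (p : E) = snorm p E π ^ ramE p E := by
  have h1 := snorm_eq_zpow p E (Units.mk0 π hπ.2.1) (by rw [Units.val_mk0]; exact hπ)
    (Units.mk0 (p : E) (natCast_ne_zero p E))
  rw [Units.val_mk0, Units.val_mk0] at h1
  rw [h1, ← zpow_natCast, ramE_cast]
  rfl

variable (p E)

theorem addVal_natCast : addVal (intRing p E) (p : intRing p E) = (ramE p E : ℕ∞) := by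
  obtain ⟨π, hπ⟩ := exists_isUniformizer p E
  rw [addVal_eq_iff_snorm hπ]
  exact snorm_natCast_eq hπ

/-- The residue field of `𝒪` is finite. -/
instance finite_residueField : Finite (IsLocalRing.ResidueField (intRing p E)) := by
  have h := finite_quot_maxId p E
  rw [maxId_eq_maximalIdeal] at h
  exact h

/-- The residue field of `𝒪` is perfect. -/
theorem pow_surjective_residue :
    Function.Surjective (fun d : IsLocalRing.ResidueField (intRing p E) => d ^ p) :=
  pow_surjective_of_finite p (addVal_natCast p E) (one_le_ramE p E)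

/-! ### `1 + p𝒪` -/

theorem isOneModP_iff_snorm (u : E) : IsOneModP p E u ↔ snorm p E (u - 1) ≤ snorm p E (p : E) := by
  have hp0 := natCast_ne_zero p E
  have hpos : 0 < snorm p E (p : E) := snorm_pos p E hp0
  constructor
  · rintro ⟨w, hw, rfl⟩
    rw [add_sub_cancel_left, snorm_mul]
    have := (mem_intRing_iff p E w).1 hw
    calc snorm p E (p : E) * snorm p E w ≤ snorm p E (p : E) * 1 :=
          mul_le_mul_of_nonneg_left this hpos.le
      _ = snorm p E (p : E) := mul_one _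
  · intro h
    refine ⟨(u - 1) * (p : E)⁻¹, ?_, ?_⟩
    · rw [mem_intRing_iff]
      change snorm p E ((u - 1) * (p : E)⁻¹) ≤ 1
      rw [snorm_mul, snorm_inv, ← div_eq_mul_inv, div_le_one hpos]
      exact h
    · field_simp
      ring

theorem isOneModP_iff_addVal {u : E} (hu : u ∈ intRing p E) :
    IsOneModP p E u ↔
      (ramE p E : ℕ∞) ≤ addVal (intRing p E) ((⟨u, hu⟩ : intRing p E) - 1) := by
  obtain ⟨π, hπ⟩ := exists_isUniformizer p E
  rw [isOneModP_iff_snorm, le_addVal_iff_snorm hπ, snorm_natCast_eq hπ]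
  rfl

/-! ### (N1a), (N1b), (N1c) -/

variable {p E}

/-- **(N1a)** `|u − 1| = |π|^i`, `p ∤ i`, `(p − 1) i < p e`, `|v − 1| < |π|^i` ⇒ `u ≠ v b^p`. -/
theorem ne_mul_pow_of_snorm {π : E} (hπ : IsUniformizer p E π) {u v b : E} {i : ℕ}
    (hu : snorm p E (u - 1) = snorm p E π ^ i) (hpi : ¬ p ∣ i)
    (hi : (p - 1) * i < p * ramE p E) (hv : snorm p E (v - 1) < snorm p E π ^ i) :
    u ≠ v * b ^ p := by
  intro huv
  have hpos := snorm_uniformizer_pos hπ
  have hlt := snorm_uniformizer_lt_one p E π hπ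
  have hi1 : 1 ≤ i := by
    rcases Nat.eq_zero_or_pos i with h | h
    · exact absurd (h ▸ dvd_zero p) hpi
    · exact h
  have hπi : snorm p E π ^ i < 1 := pow_lt_one₀ hpos.le hlt (by omega)
  have hu1 : snorm p E u = 1 := snorm_eq_one_of_sub_one_lt p E (by rw [hu]; exact hπi)
  have hv1 : snorm p E v = 1 := snorm_eq_one_of_sub_one_lt p E (hv.trans hπi)
  have hb1 : snorm p E b = 1 := by
    have h1 : snorm p E b ^ p = 1 := by
      have := congrArg (snorm p E) huv
      rw [snorm_mul, snorm_pow, hu1, hv1, one_mul] at this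
      exact this.symm
    exact (pow_eq_one_iff_of_nonneg (snorm_nonneg p E b) hp.out.ne_zero).1 h1
  have hum : u ∈ intRing p E := (mem_intRing_iff p E u).2 hu1.le
  have hvm : v ∈ intRing p E := (mem_intRing_iff p E v).2 hv1.le
  have hbm : b ∈ intRing p E := (mem_intRing_iff p E b).2 hb1.le
  refine ne_mul_pow_of_level p (addVal_natCast p E) (one_le_ramE p E)
    (b := (⟨u, hum⟩ : intRing p E)) (w := ⟨v, hvm⟩) (z := ⟨b, hbm⟩) (i := i)
    ((addVal_eq_iff_snorm hπ _ i).2 hu) hpi hi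
    ((succ_le_addVal_iff_snorm hπ _ i).2 hv) (Subtype.ext huv)

/-- **(N1b)** `p ∤ ord a` ⇒ `a ≠ u b^p` for `u` a unit of `𝒪`. -/
theorem ne_mul_pow_of_not_dvd_ord {a u b : Eˣ} (ha : ¬ (p : ℤ) ∣ ord p E a)
    (hu : u ∈ unitGroup p E) : a ≠ u * b ^ p := by
  intro h
  apply ha
  rw [h, ord_mul, ord_pow, (mem_unitGroup_iff_ord p E u).1 hu, zero_add]
  exact Dvd.intro _ rfl

/-- A unit of `𝒪` as an element of `Eˣ`. -/
def unitsToField : (intRing p E)ˣ →* Eˣ := Units.map ((intRing p E).val : intRing p E →* E)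

@[simp] theorem coe_unitsToField (z : (intRing p E)ˣ) :
    ((unitsToField z : Eˣ) : E) = ((z : intRing p E) : E) := rfl

/-- **(N1c)** If `p ∣ ord a` then `a = u b^p` with `u ∈ 1 + p𝒪`, or with `u` of exact level `i < e`
prime to `p`. -/
theorem exists_normal_form_loc {π : E} (hπ : IsUniformizer p E π) (a : Eˣ)
    (ha : (p : ℤ) ∣ ord p E a) :
    (∃ u b : Eˣ, a = u * b ^ p ∧ IsOneModP p E (u : E)) ∨
      ∃ (u b : Eˣ) (i : ℕ), a = u * b ^ p ∧ ¬ p ∣ i ∧ i < ramE p E ∧
        snorm p E ((u : E) - 1) = snorm p E π ^ i := by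
  obtain ⟨m, hm⟩ := ha
  set ϖ : Eˣ := Units.mk0 π hπ.2.1 with hϖ
  have hϖord : ord p E ϖ = 1 := (isUniformizer_iff_ord p E ϖ).1 (by rw [hϖ, Units.val_mk0]; exact hπ)
  -- `a₀ = a ϖ^{-pm}` is a unit of `𝒪`
  obtain ⟨a₀, ha₀⟩ : ∃ a₀ : Eˣ, a₀ = a * ((ϖ ^ m) ^ p)⁻¹ := ⟨_, rfl⟩
  have ha₀u : a₀ ∈ unitGroup p E := by
    rw [mem_unitGroup_iff_ord, ha₀, ord_mul, ord_inv, ord_pow, ord_zpow, hϖord, hm]
    ring
  -- as a unit of the ring `𝒪`
  let a₁ : (intRing p E)ˣ :=
    ⟨⟨(a₀ : E), ha₀u.1⟩, ⟨((a₀⁻¹ : Eˣ) : E), ha₀u.2⟩,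
      Subtype.ext (by simp), Subtype.ext (by simp)⟩
  have ha₁ : ((a₁ : intRing p E) : E) = (a₀ : E) := rfl
  have hN : ∀ n, n < ramE p E → p ∣ n → (p - 1) * n < p * ramE p E := by
    intro n hn _
    have hp2 := hp.out.two_le
    have h1 : (p - 1) * n ≤ (p - 1) * ramE p E := Nat.mul_le_mul_left _ hn.le
    have h2 : (p - 1) * ramE p E < p * ramE p E :=
      Nat.mul_lt_mul_of_pos_right (by omega) (by omega)
    omega
  have hab : ∀ z : (intRing p E)ˣ,
      a = (a₀ * unitsToField z ^ p) * (ϖ ^ m * (unitsToField z)⁻¹) ^ p := by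
    intro z
    rw [ha₀, mul_pow, inv_pow, mul_assoc a, mul_assoc a, mul_mul_mul_comm, inv_mul_cancel,
      mul_inv_cancel, one_mul, mul_one]
  have hval : ∀ z : (intRing p E)ˣ,
      (((a₁ : intRing p E) * (z : intRing p E) ^ p - 1 : intRing p E) : E) =
        ((a₀ * unitsToField z ^ p : Eˣ) : E) - 1 := by
    intro z
    rw [Subalgebra.coe_sub, Subalgebra.coe_mul, Subalgebra.coe_pow, Subalgebra.coe_one, ha₁,
      Units.val_mul, Units.val_pow_eq_pow_val, coe_unitsToField]
  rcases exists_normal_form p (addVal_natCast p E) (pow_surjective_residue p E) (ramE p E) hN a₁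
    with ⟨z, hz⟩ | ⟨z, i, hpi, hi, hz⟩
  · refine Or.inl ⟨a₀ * unitsToField z ^ p, ϖ ^ m * (unitsToField z)⁻¹, hab z, ?_⟩
    rw [isOneModP_iff_snorm, snorm_natCast_eq hπ, ← hval z, ← le_addVal_iff_snorm hπ]
    exact hz
  · refine Or.inr ⟨a₀ * unitsToField z ^ p, ϖ ^ m * (unitsToField z)⁻¹, i, hab z, hpi, hi, ?_⟩
    rw [← hval z, ← addVal_eq_iff_snorm hπ]
    exact hz

end

end Fermat.Agent.ES.T56.UnitLevelLoc4
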