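/-
Programme T (S56), chapter FLAT, common brick (c2) "unit normal forms", part 4 (helper4):
**(N2) units of level `> p e/(p − 1)` are `p`-th powers**, for a `p`-adic field `E` of the LOC model
(`𝒪 = intRing p E`, `e = ramE p E`), deduced from helper20's `PthRoot20.exists_prime_root`.

* `piAdic_irreducible` : `𝒪` is `ϖ`-adically separated and complete (`ϖ` a uniformizer);
* `exists_pow_eq_of_level` : `v(b − 1) ≥ e + τ`, `e < (p − 1) τ` ⇒ `b = z^p`, `v(z − 1) ≥ τ`;
* `exists_pow_eq_of_snorm_le` : `|w − 1| ≤ |π|^n`, `p e < (p − 1) n` ⇒ `w ∈ E^p`;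
* `exists_pow_eq_of_snorm_lt_rpow` : `|w − 1| < p^{−p/(p−1)}` ⇒ `w ∈ E^p`;
* `exists_pow_eq_of_approx` (the form consumed by Theorem R′): `x, y ∈ 𝒪`, `|x^p − y| ≤ p^{−m}`,
  `p^{−t} ≤ |y|`, `p/(p − 1) < m − t` ⇒ `y ∈ E^p`.
-/
import Mathlib
import Fermat.Agent.PT.LOC.Interface12
import Fermat.Agent.PT.LOC.Structure14
import Fermat.Agent.PT.LOC.StructureNorm14
import Fermat.Agent.PT.LOC.StructureTower27
import Fermat.Agent.PT.LOC.UnitFiltration10
import Fermat.Agent.ES.T56.PthRoot20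
import Fermat.Agent.ES.T56.UnitLevelLoc4

set_option autoImplicit false
set_option linter.unusedSectionVars false

open scoped Fermat.Agent.PT.LOC.Interface12 Fermat.Agent.PT.LOC.StructureTower27
open Fermat.Agent.PT.LOC.Interface12 Fermat.Agent.PT.LOC.Structure14
  Fermat.Agent.PT.LOC.StructureNorm14 Fermat.Agent.PT.LOC.StructureTower27
  Fermat.Agent.PT.LOC.UnitFiltration10
  Fermat.Agent.ES.T56.UnitNormalForm4 Fermat.Agent.ES.T56.UnitLevelLoc4 IsDiscreteValuationRing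

namespace Fermat.Agent.ES.T56.UnitRootLoc4

noncomputable section

variable (p : ℕ) [hp : Fact p.Prime] (E : Type) [Field E] [Algebra ℚ_[p] E]
  [FiniteDimensional ℚ_[p] E]

variable {p E}

theorem mem_maxId_pow_iff {ϖ : intRing p E} (hϖ : Irreducible ϖ) (k : ℕ) (x : intRing p E) :
    x ∈ (maxId p E) ^ k ↔ ϖ ^ k ∣ x := by
  rw [maxId_eq_maximalIdeal, hϖ.maximalIdeal_eq, Ideal.span_singleton_pow, Ideal.mem_span_singleton]

/-- `𝒪` is `ϖ`-adically separated and complete, `ϖ` a uniformizer. -/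
theorem piAdic_irreducible {ϖ : intRing p E} (hϖ : Irreducible ϖ) : PiAdic (intRing p E) ϖ where
  nzd := fun x hx => (mul_eq_zero.1 hx).resolve_left hϖ.ne_zero
  sep := fun x hx => by
    apply eq_zero_of_forall_mem_pow p E
    intro k
    rw [mem_maxId_pow_iff hϖ]
    exact hx k
  complete := fun f hf => by
    obtain ⟨s, hs⟩ := exists_sum_of_mem_pow p E (fun i => f (i + 1) - f i) (fun i => by
      rw [mem_maxId_pow_iff hϖ]
      exact hf i)
    refine ⟨s + f 0, fun k => ?_⟩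
    have h1 := hs k
    rw [Finset.sum_range_sub f k, mem_maxId_pow_iff hϖ] at h1
    have : s + f 0 - f k = s - (f k - f 0) := by ring
    rw [this]
    exact h1

variable (p E)

/-- `p = ϖ^e · unit`. -/
theorem exists_natCast_eq {ϖ : intRing p E} (hϖ : Irreducible ϖ) :
    ∃ u : (intRing p E)ˣ, (p : intRing p E) = ϖ ^ ramE p E * u := by
  have hp0 : (p : intRing p E) ≠ 0 := by
    intro h
    have := addVal_natCast p E
    rw [h, addVal_zero] at this
    exact ENat.top_ne_natCast _ this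
  obtain ⟨n, u, hu⟩ := eq_unit_mul_pow_irreducible hp0 hϖ
  have h1 : addVal (intRing p E) (p : intRing p E) = n := by
    rw [hu]; exact addVal_def' u hϖ n
  rw [addVal_natCast] at h1
  have h2 : ramE p E = n := by exact_mod_cast h1
  exact ⟨u, by rw [hu, h2, mul_comm]⟩

/-- **(N2)**, valuation form: `v(b − 1) ≥ e + τ` with `e < (p − 1) τ` ⇒ `b` is a `p`-th power. -/
theorem exists_pow_eq_of_level {b : intRing p E} {τ : ℕ} (hτ : ramE p E < (p - 1) * τ)
    (hb : ((ramE p E + τ : ℕ) : ℕ∞) ≤ addVal (intRing p E) (b - 1)) :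
    ∃ z : intRing p E, (τ : ℕ∞) ≤ addVal (intRing p E) (z - 1) ∧ z ^ p = b := by
  obtain ⟨ϖ, hϖ⟩ := exists_irreducible (intRing p E)
  obtain ⟨u, hu⟩ := exists_natCast_eq p E hϖ
  obtain ⟨c, hc⟩ := (le_addVal_iff_dvd hϖ _ _).1 hb
  obtain ⟨z, hz1, hz⟩ := Fermat.Agent.ES.T56.PthRoot20.exists_prime_root (piAdic_irreducible hϖ)
    hp.out hu hτ (((u⁻¹ : (intRing p E)ˣ) : intRing p E) * c)
  refine ⟨z, (le_addVal_iff_dvd hϖ _ _).2 hz1, ?_⟩
  rw [hz, hu]
  have huu : ((u : intRing p E)) * ((u⁻¹ : (intRing p E)ˣ) : intRing p E) = 1 := Units.mul_inv u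
  have : b = 1 + ϖ ^ (ramE p E + τ) * c := by rw [← hc]; ring
  rw [this, pow_add]
  linear_combination (ϖ ^ ramE p E * ϖ ^ τ * c) * huu

variable {p E}

/-- **(N2)**, norm form: `|w − 1| ≤ |π|^n` with `p e < (p − 1) n` ⇒ `w` is a `p`-th power. -/
theorem exists_pow_eq_of_snorm_le {π : E} (hπ : IsUniformizer p E π) {w : E} {n : ℕ}
    (hn : p * ramE p E < (p - 1) * n) (hw : snorm p E (w - 1) ≤ snorm p E π ^ n) :
    ∃ z : E, z ^ p = w := by
  have hp2 := hp.out.two_le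
  have he1 := one_le_ramE p E
  have hpos := snorm_uniformizer_pos hπ
  have hlt := snorm_uniformizer_lt_one p E π hπ
  -- `e < n`
  have hen : ramE p E < n := by
    by_contra h
    rw [not_lt] at h
    have h1 : (p - 1) * n ≤ (p - 1) * ramE p E := Nat.mul_le_mul_left _ h
    have h2 : (p - 1) * ramE p E ≤ p * ramE p E := Nat.mul_le_mul_right _ (by omega)
    omega
  have hw1 : snorm p E (w - 1) < 1 :=
    lt_of_le_of_lt hw (pow_lt_one₀ hpos.le hlt (by omega))
  have hwm : w ∈ intRing p E :=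
    (mem_intRing_iff p E w).2 (snorm_eq_one_of_sub_one_lt p E hw1).le
  obtain ⟨τ, hτ⟩ : ∃ τ, n = ramE p E + τ := ⟨n - ramE p E, by omega⟩
  have hτ' : ramE p E < (p - 1) * τ := by
    have h1 : (p - 1) * n = (p - 1) * ramE p E + (p - 1) * τ := by rw [hτ, Nat.mul_add]
    have h2 : p * ramE p E = (p - 1) * ramE p E + ramE p E := by
      generalize ramE p E = r
      have h : p - 1 + 1 = p := by omega
      calc p * r = (p - 1 + 1) * r := by rw [h]
        _ = (p - 1) * r + r := by ring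
    omega
  obtain ⟨z, -, hz⟩ := exists_pow_eq_of_level p E (b := ⟨w, hwm⟩) hτ' (by
    rw [← hτ, le_addVal_iff_snorm hπ]
    exact hw)
  refine ⟨(z : E), ?_⟩
  have := congrArg (fun t : intRing p E => (t : E)) hz
  simpa using this

/-- **(N2)**, real-exponent form: `|w − 1| < p^{−p/(p−1)}` ⇒ `w` is a `p`-th power. -/
theorem exists_pow_eq_of_snorm_lt_rpow {w : E}
    (hw : snorm p E (w - 1) < (p : ℝ) ^ (-((p : ℝ) / ((p : ℝ) - 1)))) : ∃ z : E, z ^ p = w := by
  have hp2 := hp.out.two_le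
  have he1 := one_le_ramE p E
  have hc1 : (1 : ℝ) < p := by exact_mod_cast hp.out.one_lt
  have hc0 : (0 : ℝ) < p := by linarith
  obtain ⟨π, hπ⟩ := exists_isUniformizer p E
  have hpos := snorm_uniformizer_pos hπ
  have hlt := snorm_uniformizer_lt_one p E π hπ
  by_cases hw0 : w - 1 = 0
  · exact ⟨1, by rw [one_pow]; exact (sub_eq_zero.1 hw0).symm⟩
  -- `w − 1 ∈ 𝒪`
  have hexp : (p : ℝ) ^ (-((p : ℝ) / ((p : ℝ) - 1))) < 1 := by
    apply Real.rpow_lt_one_of_one_lt_of_neg hc1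
    have : 0 < (p : ℝ) / ((p : ℝ) - 1) := div_pos hc0 (by linarith)
    linarith
  have hxm : w - 1 ∈ intRing p E := (mem_intRing_iff p E _).2 (hw.trans hexp).le
  have hx0 : (⟨w - 1, hxm⟩ : intRing p E) ≠ 0 := fun h => hw0 (congrArg Subtype.val h)
  obtain ⟨n, -, hn⟩ := exists_addVal_snorm hπ hx0
  change snorm p E (w - 1) = snorm p E π ^ n at hn
  refine exists_pow_eq_of_snorm_le hπ (n := n) ?_ hn.le
  -- the arithmetic: `p e < (p − 1) n`
  have hπe : snorm p E π ^ ramE p E = (p : ℝ)⁻¹ := by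
    rw [← snorm_natCast_eq hπ, snorm_natCast_q]
  set K : ℕ := ramE p E * (p - 1) with hK
  have hK0 : K ≠ 0 := Nat.mul_ne_zero (by omega) (by omega)
  have h1 : (snorm p E π ^ n) ^ K < ((p : ℝ) ^ (-((p : ℝ) / ((p : ℝ) - 1)))) ^ K := by
    rw [← hn]
    exact pow_lt_pow_left₀ hw (snorm_nonneg p E _) hK0
  have h2 : (snorm p E π ^ n) ^ K = ((p : ℝ) ^ (n * (p - 1)))⁻¹ := by
    rw [← pow_mul, hK, show n * (ramE p E * (p - 1)) = ramE p E * (n * (p - 1)) by ring, pow_mul,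
      hπe, inv_pow]
  have h3 : ((p : ℝ) ^ (-((p : ℝ) / ((p : ℝ) - 1)))) ^ K = ((p : ℝ) ^ (p * ramE p E))⁻¹ := by
    rw [← Real.rpow_natCast, ← Real.rpow_mul hc0.le, ← Real.rpow_natCast, ← Real.rpow_neg hc0.le]
    congr 1
    rw [hK]
    push_cast
    rw [Nat.cast_sub (by omega : 1 ≤ p), Nat.cast_one]
    have : (p : ℝ) - 1 ≠ 0 := by linarith
    field_simp
  rw [h2, h3, inv_lt_inv₀ (pow_pos hc0 _) (pow_pos hc0 _), pow_lt_pow_iff_right₀ hc1] at h1
  rw [mul_comm (p - 1) n]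
  exact h1

/-- **(N2)**, the form consumed by Theorem R′: `x, y ∈ 𝒪`, `|x^p − y| ≤ p^{−m}`, `p^{−t} ≤ |y|`,
`p/(p − 1) < m − t` ⇒ `y` is a `p`-th power. -/
theorem exists_pow_eq_of_approx {x y : E} {m t : ℝ}
    (h1 : snorm p E (x ^ p - y) ≤ (p : ℝ) ^ (-m)) (h2 : (p : ℝ) ^ (-t) ≤ snorm p E y)
    (h3 : (p : ℝ) / ((p : ℝ) - 1) < m - t) : ∃ z : E, z ^ p = y := by
  have hc1 : (1 : ℝ) < p := by exact_mod_cast hp.out.one_lt
  have hc0 : (0 : ℝ) < p := by linarith
  have hmt : t < m := by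
    have : 0 < (p : ℝ) / ((p : ℝ) - 1) := div_pos hc0 (by linarith)
    linarith
  have hy0 : 0 < snorm p E y := lt_of_lt_of_le (Real.rpow_pos_of_pos hc0 _) h2
  have hlt : snorm p E (x ^ p - y) < snorm p E y := by
    refine lt_of_le_of_lt h1 (lt_of_lt_of_le ?_ h2)
    exact Real.rpow_lt_rpow_of_exponent_lt hc1 (by linarith)
  -- `|x^p| = |y|`
  have hxy : snorm p E (x ^ p) = snorm p E y := by
    apply le_antisymm
    · have := snorm_add_le_max p E (x ^ p - y) y
      rw [sub_add_cancel] at this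
      exact this.trans (max_le hlt.le le_rfl)
    · have := snorm_add_le_max p E (x ^ p) (-(x ^ p - y))
      rw [show x ^ p + -(x ^ p - y) = y by ring, snorm_neg] at this
      rcases le_max_iff.1 this with h | h
      · exact h
      · exact absurd h (not_le.2 hlt)
  have hxp0 : x ^ p ≠ 0 := by
    intro h
    rw [h, snorm_zero] at hxy
    linarith
  -- `w = y / x^p` is close to `1`
  have hw : snorm p E (y / x ^ p - 1) < (p : ℝ) ^ (-((p : ℝ) / ((p : ℝ) - 1))) := by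
    have e1 : y / x ^ p - 1 = -(x ^ p - y) * (x ^ p)⁻¹ := by
      field_simp
      ring
    rw [e1, snorm_mul, snorm_neg, snorm_inv, hxy]
    have e2 : snorm p E (x ^ p - y) * (snorm p E y)⁻¹ ≤ (p : ℝ) ^ (-m) * ((p : ℝ) ^ (-t))⁻¹ := by
      apply mul_le_mul h1 _ (inv_nonneg.2 hy0.le) (Real.rpow_nonneg hc0.le _)
      exact inv_anti₀ (Real.rpow_pos_of_pos hc0 _) h2
    refine lt_of_le_of_lt e2 ?_
    rw [← Real.rpow_neg hc0.le, ← Real.rpow_add hc0]
    exact Real.rpow_lt_rpow_of_exponent_lt hc1 (by linarith)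
  obtain ⟨z, hz⟩ := exists_pow_eq_of_snorm_lt_rpow hw
  refine ⟨x * z, ?_⟩
  rw [mul_pow, hz]
  field_simp

end

end Fermat.Agent.ES.T56.UnitRootLoc4
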