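/-
Programme T (S56), chapter KUM (helper17 lead, helper7), file `KumInst7` — helper7.

INSTANTIATION of the abstract chain (`KumChain7.card_chain_le`) in the LOC model:
`B = intRing p L₀`, `Δ = Gal(L₀/E)`, `𝒢 = L₀ˣ/L₀^{×p}` (`unitsModP p L₀`), `V = k^∨` (`kDual p k`).

* `sig δ : 𝒪 ≃+* 𝒪` the action; `jmap : 𝒪ˣ →* L₀ˣ/L₀^{×p}`; `jmap_eq_one_iff` (kernel = `p`-th powers of
  UNITS OF `𝒪`), `jmap_sig` (compatibility with `galAct`);
* `mem_X_iff` : `X p L₀` is the image of the level `1 + p𝒪`;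
* `exists_actsOnMuAs`, `natCast_ne_zero_of_actsOnMuAs`, `natCast_eq_of_actsOnMuAs`;
* `exists_theta` : `δ ϖ = ϖ θ`;
* `hN2_model` : `(N2)` from helper4's `UnitRootLoc4.exists_pow_eq_of_level` (helper20's `PthRoot20`);
* `card_Hset_le_eqHomInto` : `Hset` injects into `Hom_Δ(k^∨, im(1 + p𝒪))`;
* **`card_Hset_le_chain`** : the chain bound for `#Hset`;
* `card_gr_le` : a graded factor is bounded by the count over the inertia subgroup
  `ker (redHom)` with values in the residue field of `E` (`KumSemilin7`).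
-/
import Mathlib
import Fermat.Agent.PT.LOC.Unram11
import Fermat.Agent.ES.T56.KumCountIface7
import Fermat.Agent.ES.T56.UnitRootLoc4
import Fermat.Agent.ES.T56.KumChain7
import Fermat.Agent.ES.T56.KumSemilin7
import Fermat.Agent.ES.T56.KumEval7

set_option autoImplicit false
set_option linter.unusedSectionVars false

open scoped Fermat.Agent.PT.LOC.Interface12 Fermat.Agent.PT.LOC.StructureTower27
open Fermat.Agent.PT.LOC.Interface12 Fermat.Agent.PT.LOC.Structure14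
  Fermat.Agent.PT.LOC.StructureNorm14 Fermat.Agent.PT.LOC.StructureTower27
  Fermat.Agent.PT.LOC.StructureTowerEF27 Fermat.Agent.PT.LOC.RootsUnity14
  Fermat.Agent.PT.LOC.Unram11
  Fermat.Agent.ES.T56.FlatRIface14 Fermat.Agent.ES.T56.KumCountIface7
  Fermat.Agent.ES.T56.UnitNormalForm4 Fermat.Agent.ES.T56.UnitLevelLoc4
  Fermat.Agent.ES.T56.UnitRootLoc4
  Fermat.Agent.ES.T56.KumHomFilt7 Fermat.Agent.ES.T56.KumLevels7 Fermat.Agent.ES.T56.KumStep7
  Fermat.Agent.ES.T56.KumChain7 Fermat.Agent.ES.T56.KumSemilin7 Fermat.Agent.ES.T56.KumEval7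
  IsDiscreteValuationRing

namespace Fermat.Agent.ES.T56.KumInst7

noncomputable section

variable (p : ℕ) [hp : Fact p.Prime]

/-- Instance-search shortcut (the nested search for `CommGroup (L₀ˣ ⧸ _)` through
`Units.instCommGroupUnits` fails inside larger instance problems); this is the instance Lean finds
at top level. -/
local instance instCommGroupUnitsModP (L₀ : Type) [Field L₀] : CommGroup (unitsModP p L₀) :=
  QuotientGroup.Quotient.commGroup (powSub p L₀)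

/-! ### `j : 𝒪ˣ → L₀ˣ/L₀^{×p}` -/

section J

variable (L₀ : Type) [Field L₀] [Algebra ℚ_[p] L₀] [FiniteDimensional ℚ_[p] L₀]

/-- `𝒪ˣ → L₀ˣ → L₀ˣ/L₀^{×p}`. -/
def jmap : (intRing p L₀)ˣ →* unitsModP p L₀ :=
  (QuotientGroup.mk' (powSub p L₀)).comp (unitsToField (p := p) (E := L₀))

theorem jmap_apply (u : (intRing p L₀)ˣ) :
    jmap p L₀ u = (QuotientGroup.mk (unitsToField u) : unitsModP p L₀) := rfl

/-- A unit of `L₀` of norm one, as a unit of `𝒪`. -/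
def unitOfNorm (y : L₀ˣ) (hy : y ∈ unitGroup p L₀) : (intRing p L₀)ˣ :=
  ⟨⟨(y : L₀), hy.1⟩, ⟨((y⁻¹ : L₀ˣ) : L₀), hy.2⟩, Subtype.ext (by simp), Subtype.ext (by simp)⟩

theorem unitsToField_unitOfNorm (y : L₀ˣ) (hy : y ∈ unitGroup p L₀) :
    unitsToField (unitOfNorm p L₀ y hy) = y := Units.ext rfl

theorem unitsToField_injective :
    Function.Injective (unitsToField (p := p) (E := L₀)) := fun u v h => by
  apply Units.ext
  apply Subtype.ext
  exact congrArg (fun w : L₀ˣ => (w : L₀)) h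

theorem unitsToField_mem_unitGroup (u : (intRing p L₀)ˣ) : unitsToField u ∈ unitGroup p L₀ :=
  ⟨(u : intRing p L₀).2, ((u⁻¹ : (intRing p L₀)ˣ) : intRing p L₀).2⟩

/-- The kernel of `j` consists of the `p`-th powers of units of `𝒪`. -/
theorem jmap_eq_one_iff (u : (intRing p L₀)ˣ) :
    jmap p L₀ u = 1 ↔ ∃ z : (intRing p L₀)ˣ, u = z ^ p := by
  rw [jmap_apply, QuotientGroup.eq_one_iff]
  constructor
  · rintro ⟨y, hy⟩
    rw [powMonoidHom_apply] at hy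
    have hsn : snorm p L₀ (y : L₀) = 1 := by
      have h1 : snorm p L₀ (y : L₀) ^ p = 1 := by
        rw [← UnitLevelLoc4.snorm_pow, ← Units.val_pow_eq_pow_val, hy, coe_unitsToField, snorm_unit]
      exact (pow_eq_one_iff_of_nonneg (snorm_nonneg p L₀ _) hp.out.ne_zero).1 h1
    have hyU : y ∈ unitGroup p L₀ := (mem_unitGroup_iff_snorm p L₀ y).2 hsn
    refine ⟨unitOfNorm p L₀ y hyU, ?_⟩
    apply unitsToField_injective p L₀
    rw [map_pow, unitsToField_unitOfNorm, hy]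
  · rintro ⟨z, rfl⟩
    exact ⟨unitsToField z, by rw [powMonoidHom_apply, map_pow]⟩

/-- `X p L₀` is the image of the level `1 + p𝒪`. -/
theorem mem_X_iff (x : unitsModP p L₀) :
    x ∈ X p L₀ ↔ Additive.ofMul x ∈ levImage (jmap p L₀) ((p : ℕ) : intRing p L₀) := by
  rw [mem_levImage_iff]
  constructor
  · rintro ⟨u, ⟨w, hw, hu⟩, rfl⟩
    have hpm : ((p : ℕ) : intRing p L₀) ∈ IsLocalRing.maximalIdeal (intRing p L₀) := by
      rw [← maxId_eq_maximalIdeal]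
      exact natCast_mem_maxId p L₀
    have hres : IsLocalRing.residue (intRing p L₀) (1 + ((p : ℕ) : intRing p L₀) * ⟨w, hw⟩) = 1 := by
      rw [map_add, map_one, map_mul, (IsLocalRing.residue_eq_zero_iff _).2 hpm, zero_mul, add_zero]
    obtain ⟨ub, hub⟩ := isUnit_of_residue_eq_one hres
    refine ⟨ub, mem_lev_of_eq hub, ?_⟩
    have : unitsToField ub = u := by
      apply Units.ext
      rw [coe_unitsToField, hub, hu]
      simp
    rw [jmap_apply, this]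
  · rintro ⟨ub, ⟨w, hw⟩, hx⟩
    refine ⟨unitsToField ub, ⟨(w : L₀), w.2, ?_⟩, ?_⟩
    · rw [coe_unitsToField]
      have h1 : ((ub : intRing p L₀) : L₀) - 1 = (p : L₀) * (w : L₀) := by
        have := congrArg (fun t : intRing p L₀ => (t : L₀)) hw
        simpa using this
      rw [← h1]; ring
    · rw [← jmap_apply]
      exact hx

end J

/-! ### The Galois action -/

section Gal

variable (E L₀ : Type) [Field E] [Field L₀] [Algebra ℚ_[p] E] [FiniteDimensional ℚ_[p] E]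
  [Algebra ℚ_[p] L₀] [FiniteDimensional ℚ_[p] L₀] [Algebra E L₀] [IsScalarTower ℚ_[p] E L₀]

/-- The action of `Gal(L₀/E)` on `𝒪_{L₀}` by ring automorphisms. -/
def sig (δ : L₀ ≃ₐ[E] L₀) : intRing p L₀ ≃+* intRing p L₀ :=
  MulSemiringAction.toRingEquiv (L₀ ≃ₐ[E] L₀) (intRing p L₀) δ

theorem coe_sig (δ : L₀ ≃ₐ[E] L₀) (x : intRing p L₀) :
    ((sig p E L₀ δ x : intRing p L₀) : L₀) = δ (x : L₀) := rfl

theorem sig_apply (δ : L₀ ≃ₐ[E] L₀) (x : intRing p L₀) : sig p E L₀ δ x = δ • x := rfl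

/-- The action of `Gal(L₀/E)` on `L₀ˣ/L₀^{×p}`, as a family. -/
def gact (δ : L₀ ≃ₐ[E] L₀) : unitsModP p L₀ →* unitsModP p L₀ := galAct p δ

/-- `j` is compatible with the Galois actions. -/
theorem jmap_sig (δ : L₀ ≃ₐ[E] L₀) (u : (intRing p L₀)ˣ) :
    jmap p L₀ (Units.map ((sig p E L₀ δ : intRing p L₀ ≃+* intRing p L₀) :
      intRing p L₀ →* intRing p L₀) u) = gact p E L₀ δ (jmap p L₀ u) := by
  rw [gact, jmap_apply, jmap_apply, galAct_mk]
  congr 1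

/-- Every `δ` acts on `μ_p` through some power. -/
theorem exists_actsOnMuAs {ζ : L₀} (hζ : IsPrimitiveRoot ζ p) (δ : L₀ ≃ₐ[E] L₀) :
    ∃ n : ℕ, ActsOnMuAs p L₀ δ n := by
  have : NeZero p := ⟨hp.out.ne_zero⟩
  have h1 : (δ ζ) ^ p = 1 := by rw [← map_pow, hζ.pow_eq_one, map_one]
  obtain ⟨n, -, hn⟩ := hζ.eq_pow_of_pow_eq_one h1
  refine ⟨n, fun ζ' hζ' => ?_⟩
  obtain ⟨i, -, hi⟩ := hζ.eq_pow_of_pow_eq_one hζ'
  rw [← hi, map_pow, ← hn, ← pow_mul, ← pow_mul, mul_comm]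

variable {L₀}

/-- The exponent is prime to `p`. -/
theorem not_dvd_of_actsOnMuAs {ζ : L₀} (hζ : IsPrimitiveRoot ζ p) {δ : L₀ ≃ₐ[E] L₀} {n : ℕ}
    (hn : ActsOnMuAs p L₀ δ n) : ¬ p ∣ n := by
  rintro ⟨m, rfl⟩
  have h1 := hn ζ hζ.pow_eq_one
  rw [pow_mul, hζ.pow_eq_one, one_pow] at h1
  have h2 : δ ζ = δ 1 := by rw [h1, map_one]
  exact hζ.ne_one hp.out.one_lt (δ.injective h2)

theorem natCast_ne_zero_of_actsOnMuAs {ζ : L₀} (hζ : IsPrimitiveRoot ζ p) {δ : L₀ ≃ₐ[E] L₀} {n : ℕ}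
    (hn : ActsOnMuAs p L₀ δ n) (k : Type*) [Field k] [CharP k p] : (n : k) ≠ 0 := by
  rw [Ne, CharP.cast_eq_zero_iff k p]
  exact not_dvd_of_actsOnMuAs p E hζ hn

/-- The exponent is unique modulo `p`. -/
theorem natCast_eq_of_actsOnMuAs {ζ : L₀} (hζ : IsPrimitiveRoot ζ p) {δ : L₀ ≃ₐ[E] L₀} {n n' : ℕ}
    (hn : ActsOnMuAs p L₀ δ n) (hn' : ActsOnMuAs p L₀ δ n') (k : Type*) [Field k] [CharP k p] :
    (n : k) = (n' : k) := by
  rw [CharP.natCast_eq_natCast k p]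
  have h1 : ζ ^ n = ζ ^ n' := by rw [← hn ζ hζ.pow_eq_one, ← hn' ζ hζ.pow_eq_one]
  have key : ∀ a b : ℕ, a ≤ b → ζ ^ a = ζ ^ b → a ≡ b [MOD p] := by
    intro a b hab h
    have hζ0 : ζ ≠ 0 := hζ.ne_zero hp.out.ne_zero
    have h2 : ζ ^ (b - a) = 1 := by
      have h3 : ζ ^ a * ζ ^ (b - a) = ζ ^ a * 1 := by
        rw [← pow_add, Nat.add_sub_cancel' hab, mul_one, h]
      exact mul_left_cancel₀ (pow_ne_zero _ hζ0) h3
    exact (Nat.modEq_iff_dvd' hab).2 ((hζ.pow_eq_one_iff_dvd _).1 h2)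
  rcases le_total n n' with h | h
  · exact key n n' h h1
  · exact (key n' n h h1.symm).symm

variable (L₀)

/-- `δ ϖ = ϖ θ`. -/
theorem exists_theta {ϖ : intRing p L₀} (hϖ : Irreducible ϖ) (δ : L₀ ≃ₐ[E] L₀) :
    ∃ θ : intRing p L₀, sig p E L₀ δ ϖ = ϖ * θ := by
  have h1 : ϖ ∈ IsLocalRing.maximalIdeal (intRing p L₀) := by
    rw [hϖ.maximalIdeal_eq]; exact Ideal.mem_span_singleton_self ϖ
  have h2 : δ • ϖ ∈ IsLocalRing.maximalIdeal (intRing p L₀) := (smul_mem_mI_iff p E L₀ δ ϖ).2 h1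
  rw [hϖ.maximalIdeal_eq, Ideal.mem_span_singleton] at h2
  exact h2

end Gal

/-! ### The chain in the model -/

section Chain

variable (E L₀ : Type) [Field E] [Field L₀] [Algebra ℚ_[p] E] [FiniteDimensional ℚ_[p] E]
  [Algebra ℚ_[p] L₀] [FiniteDimensional ℚ_[p] L₀] [Algebra E L₀] [IsScalarTower ℚ_[p] E L₀]

/-- `(N2)` in the model: the units `≡ 1 mod p (ζ - 1) ϖ` are `p`-th powers (helper4's
`UnitRootLoc4.exists_pow_eq_of_level`, on helper20's `PthRoot20`). -/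
theorem hN2_model {ζ ϖ : intRing p L₀} (hϖ : Irreducible ϖ) {e' : ℕ}
    (he' : addVal (intRing p L₀) (ζ - 1) = e') (hee' : ramE p L₀ = (p - 1) * e') :
    ∀ u ∈ lev (((p : ℕ) : intRing p L₀) * (ζ - 1) * ϖ), ∃ z : (intRing p L₀)ˣ, u = z ^ p := by
  intro u hu
  have hp2 := hp.out.two_le
  have hb : ((ramE p L₀ + (e' + 1) : ℕ) : ℕ∞) ≤
      addVal (intRing p L₀) ((u : intRing p L₀) - 1) := by
    have h1 : ((p : ℕ) : intRing p L₀) * (ζ - 1) * ϖ ∣ (u : intRing p L₀) - 1 := hu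
    rw [← addVal_le_iff_dvd, addVal_mul, addVal_mul, addVal_natCast, he',
      addVal_uniformizer hϖ] at h1
    have h2 : ((ramE p L₀ + (e' + 1) : ℕ) : ℕ∞) = (ramE p L₀ : ℕ∞) + (e' : ℕ∞) + 1 := by
      push_cast; ring
    rw [h2]
    exact h1
  have hτ : ramE p L₀ < (p - 1) * (e' + 1) := by
    rw [hee', Nat.mul_add]
    omega
  obtain ⟨z, -, hz⟩ := exists_pow_eq_of_level p L₀ hτ hb
  have hzu : IsUnit z := by
    have h1 : IsUnit (z ^ p) := by rw [hz]; exact u.isUnit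
    exact (isUnit_pow_iff hp.out.ne_zero).1 h1
  refine ⟨hzu.unit, ?_⟩
  apply Units.ext
  rw [Units.val_pow_eq_pow_val, IsUnit.unit_spec, hz]

variable {k : Type} [Field k] [Finite k] [CharP k p] (ψ : (L₀ ≃ₐ[E] L₀) →* kˣ)

/-- The action of `δ` on `k^∨`, given the exponents `n δ`: `l ↦ n δ • (ψ δ)⁻¹ ⋆ l`. -/
def aVk (n : (L₀ ≃ₐ[E] L₀) → ℕ) (δ : L₀ ≃ₐ[E] L₀) (l : kDual p k) : kDual p k :=
  n δ • kDualSMul p (((ψ δ)⁻¹ : kˣ) : k) l

theorem aVk_eq (n : (L₀ ≃ₐ[E] L₀) → ℕ) (δ : L₀ ≃ₐ[E] L₀) (l : kDual p k) :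
    aVk p E L₀ ψ n δ l = dsmul p ((n δ : k) * (((ψ δ)⁻¹ : kˣ) : k)) l :=
  nsmul_dsmul p (n δ) _ l

/-- The additive map attached to an element of `Hset`. -/
def homOfH (A : Hset p E L₀ ψ) : kDual p k →+ Additive (unitsModP p L₀) where
  toFun l := Additive.ofMul ((A : kDual p k → unitsModP p L₀) l)
  map_zero' := by
    have h := A.2.1 0 0
    rw [add_zero] at h
    have h1 : (A : kDual p k → unitsModP p L₀) 0 = 1 := by
      have h2 := congrArg (fun x => ((A : kDual p k → unitsModP p L₀) 0)⁻¹ * x) h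
      simp only [inv_mul_cancel, inv_mul_cancel_left] at h2
      exact h2.symm
    rw [h1]
    rfl
  map_add' l m := by
    rw [A.2.1 l m]
    rfl

theorem homOfH_apply (A : Hset p E L₀ ψ) (l : kDual p k) :
    homOfH p E L₀ ψ A l = Additive.ofMul ((A : kDual p k → unitsModP p L₀) l) := rfl

/-- `Hom_Δ(k^∨, im(1 + p𝒪))` in the model. -/
abbrev homInto (n : (L₀ ≃ₐ[E] L₀) → ℕ) : AddSubgroup (kDual p k →+ Additive (unitsModP p L₀)) :=
  eqHomInto (X := Additive (unitsModP p L₀)) (aVk p E L₀ ψ n)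
    (addAct (𝒢 := unitsModP p L₀) (gact p E L₀))
    (levImage (𝒢 := unitsModP p L₀) (jmap p L₀) ((p : ℕ) : intRing p L₀))

/-- `Hset` injects into `Hom_Δ(k^∨, im(1 + p𝒪))`. -/
theorem card_Hset_le_eqHomInto (n : (L₀ ≃ₐ[E] L₀) → ℕ) (hn : ∀ δ, ActsOnMuAs p L₀ δ (n δ))
    [Finite (levImage (𝒢 := unitsModP p L₀) (jmap p L₀) ((p : ℕ) : intRing p L₀))] :
    (Hset p E L₀ ψ).Finite ∧ Nat.card (Hset p E L₀ ψ) ≤ Nat.card (homInto p E L₀ ψ n) := by
  let f : Hset p E L₀ ψ → homInto p E L₀ ψ n := fun A =>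
    ⟨homOfH p E L₀ ψ A, ⟨fun δ l => by
        rw [homOfH_apply, homOfH_apply, aVk, ← A.2.2.2 δ (n δ) (hn δ) l]
        rfl,
      fun l => (mem_X_iff p L₀ _).1 (A.2.2.1 l)⟩⟩
  have hf : Function.Injective f := by
    intro A A' h
    apply Subtype.ext
    funext l
    have h1 := congrArg (fun T : homInto p E L₀ ψ n =>
        (T : kDual p k →+ Additive (unitsModP p L₀)) l) h
    exact Additive.ofMul.injective h1
  have hfin : Finite (Hset p E L₀ ψ) := Finite.of_injective f hf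
  exact ⟨Set.toFinite _, Nat.card_le_card_of_injective f hf⟩

/-- **The chain bound for `#Hset`.** -/
theorem card_Hset_le_chain {ζ : L₀} (hζ : IsPrimitiveRoot ζ p) {ϖ : intRing p L₀}
    (hϖ : Irreducible ϖ) (n : (L₀ ≃ₐ[E] L₀) → ℕ) (hn : ∀ δ, ActsOnMuAs p L₀ δ (n δ))
    (θ : (L₀ ≃ₐ[E] L₀) → intRing p L₀) (hθ : ∀ δ, sig p E L₀ δ ϖ = ϖ * θ δ)
    {e' : ℕ} (hee' : ramE p L₀ = (p - 1) * e') :
    (Hset p E L₀ ψ).Finite ∧ Nat.card (Hset p E L₀ ψ) ≤
      (∏ t ∈ Finset.range e', if ¬ p ∣ ramE p L₀ + t then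
        Nat.card (eqHomInto (aVk p E L₀ ψ n) (grAct (sig p E L₀) θ t)
          (⊤ : AddSubgroup (IsLocalRing.ResidueField (intRing p L₀)))) else 1) *
        Nat.card (eqHomInto (aVk p E L₀ ψ n) (omAct p n) (⊤ : AddSubgroup (ZMod p))) := by
  have hp2 := hp.out.two_le
  have he := addVal_natCast p L₀
  have he1 := one_le_ramE p L₀
  have : CharP (IsLocalRing.ResidueField (intRing p L₀)) p := charP_residueField p he he1
  let _ : Algebra (ZMod p) (IsLocalRing.ResidueField (intRing p L₀)) := ZMod.algebra _ p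
  -- `ζ` as an element of `𝒪`
  have hζm : ζ ∈ intRing p L₀ := mem_intRing_of_pow_eq_one p L₀ hp.out.ne_zero hζ.pow_eq_one
  have hζB : IsPrimitiveRoot (⟨ζ, hζm⟩ : intRing p L₀) p :=
    IsPrimitiveRoot.of_map_of_injective (f := (intRing p L₀).val) hζ Subtype.val_injective
  obtain ⟨e'', he''1, he'', hee''⟩ := addVal_primitiveRoot_sub_one p he he1 hζB
  have hEq : e'' = e' := by
    rw [hee'] at hee''
    exact (Nat.eq_of_mul_eq_mul_left (by omega) hee'').symm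
  subst hEq
  have hnB : ∀ δ, sig p E L₀ δ (⟨ζ, hζm⟩ : intRing p L₀) = (⟨ζ, hζm⟩ : intRing p L₀) ^ n δ := by
    intro δ
    apply Subtype.ext
    rw [coe_sig, Subalgebra.coe_pow]
    exact hn δ ζ hζ.pow_eq_one
  have hN2 := hN2_model p L₀ (ζ := ⟨ζ, hζm⟩) hϖ he'' hee'
  obtain ⟨hfin, hchain⟩ := card_chain_le (𝒢 := unitsModP p L₀) p he hζB hϖ he'' hee' he''1 (jmap p L₀)
    (jmap_eq_one_iff p L₀) (sig p E L₀) (gact p E L₀) (jmap_sig p E L₀)
    (aVk p E L₀ ψ n) n hnB θ hθ hN2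
  obtain ⟨hHfin, hHcard⟩ := card_Hset_le_eqHomInto p E L₀ ψ n hn
  exact ⟨hHfin, hHcard.trans hchain⟩

end Chain

/-! ### A graded factor: reduction to the inertia subgroup -/

section Gr

variable (E L₀ : Type) [Field E] [Field L₀] [Algebra ℚ_[p] E] [FiniteDimensional ℚ_[p] E]
  [Algebra ℚ_[p] L₀] [FiniteDimensional ℚ_[p] L₀] [Algebra E L₀] [IsScalarTower ℚ_[p] E L₀]
  [IsGalois E L₀]

/-- `#Hom_Δ(V, κ_{L₀}(θ^t)) ≤ #Hom_I(V, κ_E(s))`, `I = ker(redHom)`, when `θ̄^t = s` lies in the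
residue field of `E`. -/
theorem card_gr_le {V : Type*} [AddCommGroup V] [Finite V] (aV : (L₀ ≃ₐ[E] L₀) → V → V)
    (haV : ∀ δ, Function.Surjective (aV δ)) (θ : (L₀ ≃ₐ[E] L₀) → intRing p L₀) (t : ℕ)
    (s : (L₀ ≃ₐ[E] L₀) → resF p E)
    (hs : ∀ δ, algebraMap (resF p E) (resF p L₀) (s δ) =
      IsLocalRing.residue (intRing p L₀) (θ δ) ^ t) :
    Nat.card (eqHomInto aV (grAct (sig p E L₀) θ t)
        (⊤ : AddSubgroup (IsLocalRing.ResidueField (intRing p L₀)))) ≤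
      Nat.card (eqHomInto (fun δ : (redHom p E L₀).ker => aV (δ : L₀ ≃ₐ[E] L₀))
        (scalarAct (redHom p E L₀) s) (⊤ : AddSubgroup (resF p E))) := by
  have h0 : ∀ (δ : L₀ ≃ₐ[E] L₀) (b : intRing p L₀),
      grAct (sig p E L₀) θ t δ (IsLocalRing.residue (intRing p L₀) b) =
        twistAct (redHom p E L₀) s δ (Ideal.Quotient.mk (mI p L₀) b) := by
    intro δ b
    rw [grAct_apply, twistAct_apply, Algebra.smul_def, hs δ, redHom_mk]
    rfl
  have h : grAct (sig p E L₀) θ t = twistAct (redHom p E L₀) s := by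
    funext δ
    apply AddMonoidHom.ext
    intro x
    obtain ⟨b, rfl⟩ := IsLocalRing.residue_surjective x
    exact h0 δ b
  rw [h]
  exact card_eqHomInto_twist_le (redHom p E L₀) (redHom_surjective p E L₀) s aV haV

end Gr

end

end Fermat.Agent.ES.T56.KumInst7
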