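/-
Programme T (S56), chapter KUM (helper17 lead, helper7), file `KumCountF1_7` — helper7.

**COUNT, `f = 1`**: proof of `KumCountIface7.CountF1 p`.

`L₀/ℚ_p` finite Galois, `e(L₀/ℚ_p) = p - 1`, `ζ_p ∈ L₀`.  Then `e′ = v(ζ - 1) = 1`, the chain of
`KumInst7.card_Hset_le_chain` has the single graded level `t = 0` (level `e = p - 1`, prime to `p`)
and the top level:
   `#Hset ≤ #Hom_Δ(k^∨, κ_{L₀}) · #Hom_Δ(k^∨, 𝔽_p(ω))`,
`#Hom_Δ(k^∨, κ_{L₀}) ≤ #Hom_I(k^∨, 𝔽_p) ≤ |k|^{[ψ|_I = ω|_I]}` (`KumSemilin7` + `KumEval7`; `κ_{ℚ_p} = 𝔽_p`: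
`card_resF_padic`), `#Hom_Δ(k^∨, 𝔽_p(ω)) ≤ |k|^{[ψ = 1]}`.
-/
import Mathlib
import Fermat.Agent.ES.T56.KumInst7

set_option autoImplicit false
set_option linter.unusedSectionVars false

open scoped Fermat.Agent.PT.LOC.Interface12 Fermat.Agent.PT.LOC.StructureTower27
open Fermat.Agent.PT.LOC.Interface12 Fermat.Agent.PT.LOC.Structure14
  Fermat.Agent.PT.LOC.StructureNorm14 Fermat.Agent.PT.LOC.StructureTower27
  Fermat.Agent.PT.LOC.StructureTowerEF27 Fermat.Agent.PT.LOC.RootsUnity14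
  Fermat.Agent.PT.LOC.Unram11
  Fermat.Agent.ES.T56.FlatRIface14 Fermat.Agent.ES.T56.KumCountIface7
  Fermat.Agent.ES.T56.UnitNormalForm4 Fermat.Agent.ES.T56.UnitLevelLoc4
  Fermat.Agent.ES.T56.KumHomFilt7 Fermat.Agent.ES.T56.KumLevels7 Fermat.Agent.ES.T56.KumStep7
  Fermat.Agent.ES.T56.KumChain7 Fermat.Agent.ES.T56.KumSemilin7 Fermat.Agent.ES.T56.KumEval7
  Fermat.Agent.ES.T56.KumInst7
  IsDiscreteValuationRing

namespace Fermat.Agent.ES.T56.KumCountF1_7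

noncomputable section

variable (p : ℕ) [hp : Fact p.Prime]

/-- `(if P then 1 else 0) ≤ (if Q then 1 else 0)` when `P → Q`. -/
theorem ite_le_ite_of_imp {P Q : Prop} {dP : Decidable P} {dQ : Decidable Q} (h : P → Q) :
    (@ite ℕ P dP 1 0) ≤ (@ite ℕ Q dQ 1 0) := by
  by_cases hP : P
  · rw [if_pos hP, if_pos (h hP)]
  · rw [if_neg hP]; exact Nat.zero_le _

/-- The residue field of `ℚ_p` has `p` elements. -/
theorem card_resF_padic : Nat.card (resF p ℚ_[p]) = p := by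
  apply le_antisymm
  · have hsurj : Function.Surjective (fun n : Fin p => ((n : ℕ) : resF p ℚ_[p])) := by
      intro y
      obtain ⟨x, rfl⟩ := Ideal.Quotient.mk_surjective y
      have hx : ‖(x : ℚ_[p])‖ ≤ 1 := by
        have h1 := (mem_intRing_iff p ℚ_[p] _).1 x.2
        have h2 : snorm p ℚ_[p] (x : ℚ_[p]) = ‖(x : ℚ_[p])‖ := snorm_algebraMap p ℚ_[p] (x : ℚ_[p])
        rw [← h2]; exact h1
      obtain ⟨a, ha⟩ : ∃ a : ℤ_[p], (a : ℚ_[p]) = (x : ℚ_[p]) := ⟨⟨(x : ℚ_[p]), hx⟩, rfl⟩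
      obtain ⟨n, hn, hmem⟩ := PadicInt.exists_mem_range a
      refine ⟨⟨n, hn⟩, ?_⟩
      show ((n : ℕ) : resF p ℚ_[p]) = Ideal.Quotient.mk _ x
      rw [← map_natCast (Ideal.Quotient.mk (mI p ℚ_[p])), eq_comm, Ideal.Quotient.eq,
        mem_mI_iff_snorm]
      rw [IsLocalRing.mem_maximalIdeal, PadicInt.mem_nonunits] at hmem
      have h3 : snorm p ℚ_[p] (((x - (n : intRing p ℚ_[p]) : intRing p ℚ_[p])) : ℚ_[p]) =
          ‖(x : ℚ_[p]) - (n : ℚ_[p])‖ := by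
        rw [← snorm_algebraMap p ℚ_[p] ((x : ℚ_[p]) - (n : ℚ_[p]))]
        simp
      rw [h3]
      have h4 : ‖a - (n : ℤ_[p])‖ = ‖(x : ℚ_[p]) - (n : ℚ_[p])‖ := by
        rw [PadicInt.norm_def, ← ha]
        simp
      rw [← h4]
      exact hmem
    have h := Nat.card_le_card_of_surjective _ hsurj
    rwa [Nat.card_fin] at h
  · obtain ⟨m, hm, hm'⟩ := exists_resCard_eq_pow p ℚ_[p]
    rw [card_resF, hm']
    exact Nat.le_self_pow hm.ne' p

/-- **COUNT, `f = 1`.** -/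
theorem countF1 : CountF1 p := by
  classical
  intro L₀ _ _ _ _ hram hζ' k _ _ _ ψ
  obtain ⟨ζ, hζ⟩ := hζ'
  have hp2 := hp.out.two_le
  obtain ⟨ϖ, hϖ⟩ := exists_irreducible (intRing p L₀)
  -- the exponents and the tame cocycle
  choose n hn using exists_actsOnMuAs p ℚ_[p] L₀ hζ
  choose θ hθ using exists_theta p ℚ_[p] L₀ hϖ
  have hee' : ramE p L₀ = (p - 1) * 1 := by
    have h1 := ramE_cast p L₀
    rw [hram] at h1
    rw [mul_one]
    have h2 : ((ramE p L₀ : ℕ) : ℤ) = ((p - 1 : ℕ) : ℤ) := by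
      rw [h1, Nat.cast_sub (by omega : 1 ≤ p), Nat.cast_one]
    exact_mod_cast h2
  obtain ⟨hfin, hcard⟩ := card_Hset_le_chain p ℚ_[p] L₀ ψ hζ hϖ n hn θ hθ hee'
  refine ⟨hfin, hcard.trans ?_⟩
  -- the product has the single factor `t = 0`
  have hgood : ¬ p ∣ ramE p L₀ + 0 := by
    rw [add_zero, hee', mul_one]
    intro h
    have := Nat.le_of_dvd (by omega) h
    omega
  rw [Finset.prod_range_one, if_pos hgood]
  -- the scalars `c δ = n δ · (ψ δ)⁻¹`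
  set c : (L₀ ≃ₐ[ℚ_[p]] L₀) → k := fun δ => (n δ : k) * (((ψ δ)⁻¹ : kˣ) : k) with hc
  have haV : aVk p ℚ_[p] L₀ ψ n = fun δ (l : k →+ ZMod p) => dsmul p (c δ) l := by
    funext δ l
    exact aVk_eq p ℚ_[p] L₀ ψ n δ l
  have hn0 : ∀ δ, (n δ : k) ≠ 0 := fun δ => natCast_ne_zero_of_actsOnMuAs p ℚ_[p] hζ (hn δ) k
  have hc0 : ∀ δ, c δ ≠ 0 := fun δ => mul_ne_zero (hn0 δ) (Units.ne_zero _)
  -- the graded factor
  have hgr : Nat.card (eqHomInto (aVk p ℚ_[p] L₀ ψ n) (grAct (sig p ℚ_[p] L₀) θ 0)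
      (⊤ : AddSubgroup (IsLocalRing.ResidueField (intRing p L₀)))) ≤
      Nat.card k ^ (if ∀ (δ : L₀ ≃ₐ[ℚ_[p]] L₀) (n : ℕ), IsInertial p L₀ δ → ActsOnMuAs p L₀ δ n →
            ((ψ δ : kˣ) : k) = (n : k) then 1 else 0) := by
    have h1 := card_gr_le p ℚ_[p] L₀ (aVk p ℚ_[p] L₀ ψ n)
      (fun δ => by rw [haV]; exact dsmul_surjective p (hc0 δ)) θ 0 (fun _ => 1)
      (fun δ => by rw [map_one, pow_zero]; rfl)
    refine h1.trans ?_
    have : CharP (resF p ℚ_[p]) p :=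
      charP_residueField p (addVal_natCast p ℚ_[p]) (one_le_ramE p ℚ_[p])
    let _ : Algebra (ZMod p) (resF p ℚ_[p]) := ZMod.algebra _ p
    have h2 := card_eqHomInto_natScalar_le p (k := k) (F := resF p ℚ_[p]) (card_resF_padic p)
      (fun δ : (redHom p ℚ_[p] L₀).ker => c (δ : L₀ ≃ₐ[ℚ_[p]] L₀)) (fun _ => 1)
      (scalarAct (redHom p ℚ_[p] L₀) (fun _ => 1))
      (fun δ x => by rw [scalarAct_apply, one_mul, one_smul])
    rw [haV]
    refine h2.trans (Nat.pow_le_pow_right Nat.card_pos (ite_le_ite_of_imp ?_))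
    intro hall δ n' hin hact
    -- `δ` lies in the kernel of the reduction map
    have hker : δ ∈ (redHom p ℚ_[p] L₀).ker := by
      rw [MonoidHom.mem_ker]
      ext y
      obtain ⟨b, rfl⟩ := Ideal.Quotient.mk_surjective y
      rw [redHom_mk, AlgEquiv.one_apply, Ideal.Quotient.eq, mem_mI_iff_snorm]
      exact hin (b : L₀) b.2
    have h3 := hall ⟨δ, hker⟩
    simp only [hc, Nat.cast_one] at h3
    have h4 : (n δ : k) = ((ψ δ : kˣ) : k) := by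
      have h5 := congrArg (fun x => x * ((ψ δ : kˣ) : k)) h3
      simp only [one_mul, mul_assoc, Units.inv_mul, mul_one] at h5
      exact h5
    rw [← h4]
    exact natCast_eq_of_actsOnMuAs p ℚ_[p] hζ (hn δ) hact k
  -- the top factor
  have htop : Nat.card (eqHomInto (aVk p ℚ_[p] L₀ ψ n) (omAct p n) (⊤ : AddSubgroup (ZMod p))) ≤
      Nat.card k ^ (if ψ = 1 then 1 else 0) := by
    have h2 := card_eqHomInto_natScalar_le p (k := k) (F := ZMod p) (Nat.card_zmod p) c n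
      (omAct p n) (fun δ x => by rw [omAct_apply, nsmul_eq_mul])
    rw [haV]
    refine h2.trans (Nat.pow_le_pow_right Nat.card_pos (ite_le_ite_of_imp ?_))
    intro hall
    ext δ
    have h3 := hall δ
    simp only [hc] at h3
    have h4 : (((ψ δ)⁻¹ : kˣ) : k) = 1 := by
      have h5 : (n δ : k) * (((ψ δ)⁻¹ : kˣ) : k) = (n δ : k) * 1 := by rw [h3, mul_one]
      exact mul_left_cancel₀ (hn0 δ) h5
    have h6 : (ψ δ)⁻¹ = 1 := Units.ext h4
    rw [inv_eq_one] at h6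
    rw [h6]
    rfl
  calc _ ≤ Nat.card k ^ (if ∀ (δ : L₀ ≃ₐ[ℚ_[p]] L₀) (n : ℕ), IsInertial p L₀ δ →
            ActsOnMuAs p L₀ δ n → ((ψ δ : kˣ) : k) = (n : k) then 1 else 0) *
          Nat.card k ^ (if ψ = 1 then 1 else 0) := Nat.mul_le_mul hgr htop
    _ = _ := by rw [← pow_add, add_comm]

end

end Fermat.Agent.ES.T56.KumCountF1_7
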