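/-
Programme T (S56), chapter KUM, the LEVEL of a character (for `FlatIface20.KumF1`/`KumF2`), helper17.

`Ω/K` a Galois extension (possibly infinite), `G = Gal(Ω/K)`, `Φ : G →* A` a homomorphism to a finite
COMMUTATIVE group `A` with `p ∤ #A`, trivial on the fixing subgroup of a finite subextension `E₂`.
`level Φ := fixedField Φ.ker`.  Then

* `level_le`, `finiteDimensional_level`, `isGalois_level` : `level Φ ≤ E₂` is finite Galois over `K`;
* `fixingSubgroup_level` : `(level Φ).fixingSubgroup = Φ.ker`;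
* `descend Φ Ψ` : for `Ψ : G →* B` with `Φ.ker ≤ Ψ.ker`, the homomorphism `Gal(level Φ/K) →* B` with
  `descend (res g) = Ψ g`;
* `comm_level`, `not_dvd_finrank_level` : `Gal(level Φ/K)` is commutative of order prime to `p`.

Specialisation `cycloLevel`: `Φ = (ψ, ω_p)`, `ψ : G →* kˣ` (`k` a finite field of characteristic `p`),
`ω_p = hζ.autToPow K` the mod `p` cyclotomic character: `ζ ∈ level`.
-/
import Mathlib

set_option autoImplicit false
set_option linter.unusedSectionVars false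
set_option linter.style.haveILetI false

namespace Fermat.Agent.ES.T56.KumF1Level17

open IntermediateField

noncomputable section

variable {K Ω : Type} [Field K] [Field Ω] [Algebra K Ω] [IsGalois K Ω]
variable {A : Type} [CommGroup A] (Φ : (Ω ≃ₐ[K] Ω) →* A)

/-- The field cut out by `Φ`. -/
def level : IntermediateField K Ω := IntermediateField.fixedField Φ.ker

theorem level_le {E₂ : IntermediateField K Ω} (h : E₂.fixingSubgroup ≤ Φ.ker) : level Φ ≤ E₂ := by
  have h1 : IntermediateField.fixedField Φ.ker ≤ IntermediateField.fixedField E₂.fixingSubgroup :=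
    IntermediateField.fixedField_antitone h
  rwa [InfiniteGalois.fixedField_fixingSubgroup] at h1

theorem finiteDimensional_level {E₂ : IntermediateField K Ω} [FiniteDimensional K E₂]
    (h : E₂.fixingSubgroup ≤ Φ.ker) : FiniteDimensional K (level Φ) := by
  have hle := level_le Φ h
  exact FiniteDimensional.of_injective (IntermediateField.inclusion hle).toLinearMap
    (IntermediateField.inclusion hle).injective

instance isGalois_level : IsGalois K (level Φ) :=
  IsGalois.of_fixedField_normal_subgroup Φ.ker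

theorem isClosed_ker {E₂ : IntermediateField K Ω} [FiniteDimensional K E₂]
    (h : E₂.fixingSubgroup ≤ Φ.ker) : IsClosed (Φ.ker : Set (Ω ≃ₐ[K] Ω)) := by
  have hopen : IsOpen (Φ.ker : Set (Ω ≃ₐ[K] Ω)) :=
    Subgroup.isOpen_mono h (IntermediateField.fixingSubgroup_isOpen E₂)
  exact Subgroup.isClosed_of_isOpen _ hopen

theorem fixingSubgroup_level {E₂ : IntermediateField K Ω} [FiniteDimensional K E₂]
    (h : E₂.fixingSubgroup ≤ Φ.ker) : (level Φ).fixingSubgroup = Φ.ker :=
  InfiniteGalois.fixingSubgroup_fixedField ⟨Φ.ker, isClosed_ker Φ h⟩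

/-- Restriction `G → Gal(level Φ/K)`. -/
def resL : (Ω ≃ₐ[K] Ω) →* (level Φ ≃ₐ[K] level Φ) := AlgEquiv.restrictNormalHom (level Φ)

theorem resL_surjective : Function.Surjective (resL Φ) :=
  AlgEquiv.restrictNormalHom_surjective Ω

theorem ker_resL {E₂ : IntermediateField K Ω} [FiniteDimensional K E₂]
    (h : E₂.fixingSubgroup ≤ Φ.ker) : (resL Φ).ker = Φ.ker := by
  rw [← fixingSubgroup_level Φ h]
  exact IntermediateField.restrictNormalHom_ker (level Φ)

/-- Descent of a homomorphism which is trivial on `Φ.ker`. -/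
def descend {E₂ : IntermediateField K Ω} [FiniteDimensional K E₂]
    (h : E₂.fixingSubgroup ≤ Φ.ker) {B : Type} [Group B] (Ψ : (Ω ≃ₐ[K] Ω) →* B)
    (hΨ : Φ.ker ≤ Ψ.ker) : (level Φ ≃ₐ[K] level Φ) →* B :=
  (resL Φ).liftOfRightInverse (Function.surjInv (resL_surjective Φ))
    (Function.rightInverse_surjInv (resL_surjective Φ)) ⟨Ψ, by rw [ker_resL Φ h]; exact hΨ⟩

theorem descend_resL {E₂ : IntermediateField K Ω} [FiniteDimensional K E₂]
    (h : E₂.fixingSubgroup ≤ Φ.ker) {B : Type} [Group B] (Ψ : (Ω ≃ₐ[K] Ω) →* B)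
    (hΨ : Φ.ker ≤ Ψ.ker) (g : Ω ≃ₐ[K] Ω) : descend Φ h Ψ hΨ (resL Φ g) = Ψ g :=
  (resL Φ).liftOfRightInverse_comp_apply _ _ _ g

theorem descend_self_injective {E₂ : IntermediateField K Ω} [FiniteDimensional K E₂]
    (h : E₂.fixingSubgroup ≤ Φ.ker) : Function.Injective (descend Φ h Φ le_rfl) := by
  rw [injective_iff_map_eq_one]
  intro δ hδ
  obtain ⟨g, rfl⟩ := resL_surjective Φ δ
  rw [descend_resL] at hδ
  have : g ∈ (resL Φ).ker := by rw [ker_resL Φ h]; exact hδ
  exact this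

theorem comm_level {E₂ : IntermediateField K Ω} [FiniteDimensional K E₂]
    (h : E₂.fixingSubgroup ≤ Φ.ker) (σ τ : level Φ ≃ₐ[K] level Φ) : σ * τ = τ * σ := by
  apply descend_self_injective Φ h
  rw [map_mul, map_mul, mul_comm]

theorem not_dvd_finrank_level {E₂ : IntermediateField K Ω} [FiniteDimensional K E₂]
    (h : E₂.fixingSubgroup ≤ Φ.ker) [Finite A] {p : ℕ} (hp : ¬ p ∣ Nat.card A) :
    ¬ p ∣ Module.finrank K (level Φ) := by
  haveI := finiteDimensional_level Φ h
  rw [← IsGalois.card_aut_eq_finrank K (level Φ)]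
  intro hd
  exact hp (dvd_trans hd (Subgroup.card_dvd_of_injective _ (descend_self_injective Φ h)))

/-! ### The cyclotomic specialisation -/

section Cyclo

variable (p : ℕ) [hp : Fact p.Prime] {k : Type} [Field k] [Finite k] [CharP k p]
variable {ζ : Ω} (hζ : IsPrimitiveRoot ζ p) (ψ : (Ω ≃ₐ[K] Ω) →* kˣ)

local instance neZeroLevel17 : NeZero p := ⟨hp.out.ne_zero⟩

/-- `Φ = (ψ, ω_p)`. -/
def Phi : (Ω ≃ₐ[K] Ω) →* kˣ × (ZMod p)ˣ := ψ.prod (hζ.autToPow K)

theorem mem_ker_Phi {g : Ω ≃ₐ[K] Ω} :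
    g ∈ (Phi p hζ ψ).ker ↔ ψ g = 1 ∧ hζ.autToPow K g = 1 := by
  rw [MonoidHom.mem_ker, Phi, MonoidHom.prod_apply, Prod.mk_eq_one]

theorem ker_Phi_le : (Phi p hζ ψ).ker ≤ ψ.ker :=
  fun _ hg => ((mem_ker_Phi p hζ ψ).1 hg).1

theorem apply_zeta_of_mem_ker {g : Ω ≃ₐ[K] Ω} (hg : g ∈ (Phi p hζ ψ).ker) : g ζ = ζ := by
  have h1 := ((mem_ker_Phi p hζ ψ).1 hg).2
  have h2 := hζ.autToPow_spec K g
  rw [h1, Units.val_one, ZMod.val_one'' (hp.out.ne_one), pow_one] at h2
  exact h2.symm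

theorem zeta_mem_level : ζ ∈ level (Phi p hζ ψ) := by
  rw [level, IntermediateField.mem_fixedField_iff]
  intro g hg
  exact apply_zeta_of_mem_ker p hζ ψ hg

theorem autToPow_eq_one_of_fixes {g : Ω ≃ₐ[K] Ω} (hg : g ζ = ζ) : hζ.autToPow K g = 1 := by
  have h2 := hζ.autToPow_spec K g
  rw [hg] at h2
  have h3 : ζ ^ ((hζ.autToPow K g : (ZMod p)ˣ) : ZMod p).val = ζ ^ 1 := by rw [h2, pow_one]
  have h4 := hζ.pow_inj (ZMod.val_lt _) hp.out.one_lt h3
  apply Units.ext
  rw [Units.val_one, ← ZMod.natCast_zmod_val ((hζ.autToPow K g : (ZMod p)ˣ) : ZMod p), h4,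
    Nat.cast_one]

/-- If `ψ` is trivial on the fixer of `E₁`, then `Φ` is trivial on the fixer of `E₁(ζ)`. -/
theorem fixing_le_ker_Phi {E₁ : IntermediateField K Ω} (h : E₁.fixingSubgroup ≤ ψ.ker) :
    (E₁ ⊔ IntermediateField.adjoin K {ζ}).fixingSubgroup ≤ (Phi p hζ ψ).ker := by
  intro g hg
  rw [IntermediateField.mem_fixingSubgroup_iff] at hg
  rw [mem_ker_Phi]
  constructor
  · have : g ∈ E₁.fixingSubgroup := by
      rw [IntermediateField.mem_fixingSubgroup_iff]
      exact fun x hx => hg x ((le_sup_left : E₁ ≤ E₁ ⊔ IntermediateField.adjoin K {ζ}) hx)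
    exact h this
  · apply autToPow_eq_one_of_fixes p hζ
    exact hg ζ ((le_sup_right : IntermediateField.adjoin K {ζ} ≤ E₁ ⊔ IntermediateField.adjoin K {ζ})
      (IntermediateField.mem_adjoin_simple_self K ζ))

theorem not_dvd_card_target : ¬ p ∣ Nat.card (kˣ × (ZMod p)ˣ) := by
  haveI := Fintype.ofFinite k
  obtain ⟨n, -, hn⟩ := FiniteField.card k p
  rw [Nat.card_prod, Nat.card_units, Nat.card_units, Nat.card_zmod, Nat.card_eq_fintype_card, hn]
  intro hd
  rcases (Nat.Prime.dvd_mul hp.out).1 hd with h | h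
  · have h1 : p ∣ p ^ (n : ℕ) := dvd_pow_self p n.ne_zero
    have h2 : 1 ≤ p ^ (n : ℕ) := Nat.one_le_pow _ _ hp.out.pos
    have h3 : p ∣ 1 := by
      have := (Nat.dvd_sub h1 h)
      rwa [Nat.sub_sub_self h2] at this
    exact hp.out.one_lt.ne' (Nat.dvd_one.1 h3)
  · have h2 : p - 1 < p := Nat.sub_lt hp.out.pos Nat.one_pos
    have h3 : 0 < p - 1 := Nat.sub_pos_of_lt hp.out.one_lt
    exact absurd (Nat.le_of_dvd h3 h) (not_le.2 h2)

end Cyclo

end

end Fermat.Agent.ES.T56.KumF1Level17
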