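/-
Programme T (S56), chapter KUM, brick (KD-0) — helper17.

Two abstract facts used by the Kummer description KD:

* `exists_coboundary_of_vanish_on_ker` : `res : G →* Δ` surjective, `Δ` finite of order invertible in
  the field `k`, `ψ : Δ →* kˣ`, `d : G → k` with `d (g h) = d g + ψ (res g) * d h` vanishing on
  `ker res`.  Then `d g = ψ (res g) * m - m` for some `m : k`  (`H¹(Δ, k(ψ)) = 0`, by averaging).
* `eq_zero_of_forall_addMonoidHom` : the additive maps `k →+ ZMod p` separate the points of a field
  `k` of characteristic `p`.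
-/
import Mathlib

set_option autoImplicit false
set_option linter.unusedSectionVars false
set_option linter.style.haveILetI false

namespace Fermat.Agent.ES.T56.KumAvg17

section Averaging

variable {G Δ : Type*} [Group G] [Group Δ] [Finite Δ] {k : Type*} [Field k]

/-- `H¹(Δ, k(ψ)) = 0` for `#Δ` invertible in `k`, in inflated form. -/
theorem exists_coboundary_of_vanish_on_ker (res : G →* Δ) (hres : Function.Surjective res)
    (ψ : Δ →* kˣ) (hΔ : (Nat.card Δ : k) ≠ 0) (d : G → k)
    (hd : ∀ g h, d (g * h) = d g + ((ψ (res g) : kˣ) : k) * d h)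
    (hker : ∀ n, res n = 1 → d n = 0) :
    ∃ m : k, ∀ g, d g = ((ψ (res g) : kˣ) : k) * m - m := by
  classical
  haveI : Fintype Δ := Fintype.ofFinite Δ
  have hfac : ∀ g g', res g = res g' → d g = d g' := by
    intro g g' h
    have h1 : res (g⁻¹ * g') = 1 := by rw [map_mul, map_inv, h, inv_mul_cancel]
    have h2 := hd g (g⁻¹ * g')
    rw [mul_inv_cancel_left, hker _ h1, mul_zero, add_zero] at h2
    exact h2.symm
  set dbar : Δ → k := fun δ => d (Function.surjInv hres δ) with hdbar
  have hdbar_res : ∀ g, dbar (res g) = d g := fun g =>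
    hfac _ _ (Function.surjInv_eq hres (res g))
  set S : k := ∑ δ : Δ, dbar δ with hS
  have key : ∀ g, S = (Nat.card Δ : k) * d g + ((ψ (res g) : kˣ) : k) * S := by
    intro g
    have h1 : ∑ δ : Δ, dbar (res g * δ) = ∑ δ : Δ, dbar δ :=
      Equiv.sum_comp (Equiv.mulLeft (res g)) dbar
    have h2 : ∀ δ : Δ, dbar (res g * δ) = d g + ((ψ (res g) : kˣ) : k) * dbar δ := by
      intro δ
      have h3 : res (g * Function.surjInv hres δ) = res g * δ := by
        rw [map_mul, Function.surjInv_eq hres δ]
      rw [← h3, hdbar_res, hd]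
    rw [Finset.sum_congr rfl (fun δ _ => h2 δ), Finset.sum_add_distrib, Finset.sum_const,
      Finset.card_univ, ← Finset.mul_sum, nsmul_eq_mul, ← Nat.card_eq_fintype_card] at h1
    exact h1.symm
  refine ⟨-(S / (Nat.card Δ : k)), fun g => ?_⟩
  have h := key g
  have hc : d g = (S - ((ψ (res g) : kˣ) : k) * S) / (Nat.card Δ : k) := by
    rw [eq_div_iff hΔ]
    linear_combination (-1 : k) * h
  rw [hc]
  ring

end Averaging

section Separate

variable (p : ℕ) [Fact p.Prime] {k : Type*} [Field k] [CharP k p]

/-- The additive maps `k →+ ZMod p` separate the points of a field of characteristic `p`. -/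
theorem eq_zero_of_forall_addMonoidHom {x : k} (h : ∀ l : k →+ ZMod p, l x = 0) : x = 0 := by
  letI : Algebra (ZMod p) k := ZMod.algebra k p
  rw [← Module.forall_dual_apply_eq_zero_iff (ZMod p) x]
  intro φ
  exact h φ.toAddMonoidHom

end Separate

end Fermat.Agent.ES.T56.KumAvg17
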