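/-
Programme T (S56), chapter KUM (Kummer theory over `p`-adic fields), core (helper17).

**Kummer generators of level cocycles with values in `μ_p`**, for a Galois extension `Ω/K`, a subgroup
`N ≤ Gal(Ω/K)` and a primitive `p`-th root of unity `ζ ∈ Ω` on which `N` acts through
`χ : Gal(Ω/K) → ZMod p` (`n ζ = ζ ^ χ(n)`): on top of main's `BR/InfGalois13.hilbert90_level`.

* `zetaPow ζ a = ζ ^ a.val` (`a : ZMod p`): additive, injective, `n • zetaPow ζ a = zetaPow ζ (χ n * a)`;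
* `exists_kummer_gen` : a level function `f : Gal(Ω/K) → ZMod p` with
  `f (n n') = f n + χ n * f n'` on `N` is `ζ ^ f n = n β / β` (`n ∈ N`) for some `β ∈ Ωˣ`;
* `pow_fixed` : such a `β` has `β ^ p` fixed by `N`;
* `exists_coboundary_of_pow_eq` : if `β, β'` are generators for `f, f'` and `β ^ p = β' ^ p * b ^ p`
  with `b` fixed by `N`, then `f n = f' n + χ n * m - m` on `N` for some `m : ZMod p`.

One file serves (C1) (`K = ℚ_p`, `N = ⊤`, `χ` = the mod `p` cyclotomic character) and the Kummer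
description of (C2) (`N = Gal(Ω/L₀)`, `ζ ∈ L₀`, `χ = 1` on `N`).
-/
import Mathlib
import Fermat.Agent.PT.BR.InfGalois13

set_option autoImplicit false
set_option linter.unusedSectionVars false
set_option linter.style.haveILetI false

namespace Fermat.Agent.ES.T56.KumH90_17

open Fermat.Agent.PT.BR.InfGalois13

/-! ### Powers of a root of unity indexed by `ZMod p` -/

section ZetaPow

variable {M : Type*} [Monoid M] {p : ℕ} [NeZero p]

/-- `ζ ^ a` for `a : ZMod p`. -/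
def zetaPow (ζ : M) (a : ZMod p) : M := ζ ^ a.val

theorem zetaPow_zero (ζ : M) : zetaPow ζ (0 : ZMod p) = 1 := by
  rw [zetaPow, ZMod.val_zero, pow_zero]

theorem zetaPow_add {ζ : M} (hζ : ζ ^ p = 1) (a b : ZMod p) :
    zetaPow ζ (a + b) = zetaPow ζ a * zetaPow ζ b := by
  rw [zetaPow, zetaPow, zetaPow, ZMod.val_add, ← pow_add]
  exact (pow_eq_pow_mod _ hζ).symm

theorem zetaPow_natCast_mul {ζ : M} (hζ : ζ ^ p = 1) (n : ℕ) (a : ZMod p) :
    zetaPow ζ ((n : ZMod p) * a) = zetaPow ζ a ^ n := by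
  rw [zetaPow, zetaPow, ZMod.val_mul, ZMod.val_natCast, ← pow_mul, ← pow_eq_pow_mod _ hζ,
    pow_eq_pow_mod (a.val * n) hζ, pow_eq_pow_mod (n % p * a.val) hζ]
  congr 1
  rw [Nat.mul_mod, Nat.mod_mod, mul_comm a.val n, ← Nat.mul_mod]

theorem zetaPow_mul {ζ : M} (hζ : ζ ^ p = 1) (c a : ZMod p) :
    zetaPow ζ (c * a) = zetaPow ζ a ^ c.val := by
  rw [← zetaPow_natCast_mul hζ, ZMod.natCast_zmod_val]

theorem zetaPow_pow {ζ : M} (hζ : ζ ^ p = 1) (a : ZMod p) : zetaPow ζ a ^ p = 1 := by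
  rw [zetaPow, ← pow_mul, mul_comm, pow_mul, hζ, one_pow]

theorem zetaPow_injective {R : Type*} [CommRing R] [IsDomain R] {ζ : Rˣ}
    (hζ : IsPrimitiveRoot ζ p) : Function.Injective (zetaPow ζ : ZMod p → Rˣ) := by
  intro a b h
  have := hζ.pow_inj (ZMod.val_lt a) (ZMod.val_lt b) h
  exact ZMod.val_injective p this

theorem exists_zetaPow_eq {R : Type*} [CommRing R] [IsDomain R] {ζ : Rˣ}
    (hζ : IsPrimitiveRoot ζ p) {ξ : Rˣ} (hξ : ξ ^ p = 1) : ∃ m : ZMod p, zetaPow ζ m = ξ := by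
  have hξ' : (ξ : R) ^ p = 1 := by rw [← Units.val_pow_eq_pow_val, hξ, Units.val_one]
  obtain ⟨i, hi, h⟩ := (IsPrimitiveRoot.coe_units_iff.mpr hζ).eq_pow_of_pow_eq_one hξ'
  refine ⟨(i : ZMod p), ?_⟩
  apply Units.ext
  rw [zetaPow, ZMod.val_natCast, ← pow_eq_pow_mod _ hζ.pow_eq_one, Units.val_pow_eq_pow_val, h]

end ZetaPow

/-! ### Kummer generators -/

section Kummer

variable {K Ω : Type*} [Field K] [Field Ω] [Algebra K Ω] [IsGalois K Ω]
  {p : ℕ} [NeZero p] (N : Subgroup (Ω ≃ₐ[K] Ω)) {ζ : Ωˣ} (hζ : IsPrimitiveRoot ζ p)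
  (χ : (Ω ≃ₐ[K] Ω) → ZMod p) (hχ : ∀ n ∈ N, n • ζ = ζ ^ (χ n).val)

include hζ hχ

theorem smul_zetaPow {n : Ω ≃ₐ[K] Ω} (hn : n ∈ N) (a : ZMod p) :
    n • zetaPow ζ a = zetaPow ζ (χ n * a) := by
  rw [zetaPow_mul hζ.pow_eq_one]
  show n • ζ ^ a.val = (ζ ^ a.val) ^ (χ n).val
  rw [smul_pow', hχ n hn, ← pow_mul, ← pow_mul, mul_comm]

/-- **Kummer generator** of a level `χ`-cocycle on `N` with values in `ZMod p ≅ μ_p`. -/
theorem exists_kummer_gen (f : (Ω ≃ₐ[K] Ω) → ZMod p)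
    (hlev : ∃ E : IntermediateField K Ω, FiniteDimensional K E ∧
      ∀ g s, s ∈ E.fixingSubgroup → f (g * s) = f g)
    (hcoc : ∀ n ∈ N, ∀ n' ∈ N, f (n * n') = f n + χ n * f n') :
    ∃ β : Ωˣ, ∀ n ∈ N, zetaPow ζ (f n) = n • β / β := by
  obtain ⟨E₀, hE₀fin, hE₀⟩ := hlev
  haveI := hE₀fin
  have hint : IsIntegral K (ζ : Ω) := by
    refine ⟨Polynomial.X ^ p - 1, Polynomial.monic_X_pow_sub_C 1 (NeZero.ne p), ?_⟩
    have h1 : (ζ : Ω) ^ p = 1 := by
      rw [← Units.val_pow_eq_pow_val, hζ.pow_eq_one, Units.val_one]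
    simp [h1]
  haveI : FiniteDimensional K (IntermediateField.adjoin K {(ζ : Ω)}) :=
    IntermediateField.adjoin.finiteDimensional hint
  set E : IntermediateField K Ω := E₀ ⊔ IntermediateField.adjoin K {(ζ : Ω)} with hE
  haveI : FiniteDimensional K E := IntermediateField.finiteDimensional_sup _ _
  have hζE : (ζ : Ω) ∈ E :=
    (le_sup_right : IntermediateField.adjoin K {(ζ : Ω)} ≤ E)
      (IntermediateField.mem_adjoin_simple_self K (ζ : Ω))
  refine hilbert90_level N E (fun g => zetaPow ζ (f g)) (fun g s hs => ?_) (fun g => ?_)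
    (fun n hn n' hn' => ?_)
  · show zetaPow ζ (f (g * s)) = zetaPow ζ (f g)
    rw [hE₀ g s (IntermediateField.fixingSubgroup_antitone (le_sup_left : E₀ ≤ E) hs)]
  · show ((zetaPow ζ (f g) : Ωˣ) : Ω) ∈ E
    rw [zetaPow, Units.val_pow_eq_pow_val]
    exact pow_mem hζE _
  · show zetaPow ζ (f (n * n')) = n • zetaPow ζ (f n') * zetaPow ζ (f n)
    rw [hcoc n hn n' hn', zetaPow_add hζ.pow_eq_one, smul_zetaPow N hζ χ hχ hn, mul_comm]

omit hχ in
/-- The `p`-th power of a Kummer generator is fixed by `N`. -/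
theorem pow_fixed {f : (Ω ≃ₐ[K] Ω) → ZMod p} {β : Ωˣ}
    (hβ : ∀ n ∈ N, zetaPow ζ (f n) = n • β / β) {n : Ω ≃ₐ[K] Ω} (hn : n ∈ N) :
    n • (β ^ p) = β ^ p := by
  have h1 : n • β = zetaPow ζ (f n) * β := by rw [hβ n hn, div_mul_cancel]
  rw [smul_pow', h1, mul_pow, zetaPow_pow hζ.pow_eq_one, one_mul]

/-- Two cocycles whose Kummer generators have the same `p`-th power up to the `p`-th power of an
`N`-fixed element differ by a coboundary. -/
theorem exists_coboundary_of_pow_eq {f f' : (Ω ≃ₐ[K] Ω) → ZMod p} {β β' b : Ωˣ}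
    (hβ : ∀ n ∈ N, zetaPow ζ (f n) = n • β / β) (hβ' : ∀ n ∈ N, zetaPow ζ (f' n) = n • β' / β')
    (hb : ∀ n ∈ N, n • b = b) (hpow : β ^ p = β' ^ p * b ^ p) :
    ∃ m : ZMod p, ∀ n ∈ N, f n + m = f' n + χ n * m := by
  have hξ : (β / (β' * b)) ^ p = 1 := by
    rw [div_pow, mul_pow, hpow, div_self']
  obtain ⟨m, hm⟩ := exists_zetaPow_eq hζ hξ
  refine ⟨m, fun n hn => ?_⟩
  apply zetaPow_injective hζ
  rw [zetaPow_add hζ.pow_eq_one, zetaPow_add hζ.pow_eq_one, ← smul_zetaPow N hζ χ hχ hn, hm,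
    hβ n hn, hβ' n hn, smul_div', smul_mul', hb n hn]
  rw [div_mul_div_cancel, div_mul_div_comm, mul_left_comm β' (n • β') b, mul_div_mul_left_eq_div]

end Kummer

end Fermat.Agent.ES.T56.KumH90_17
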