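/-
Programme T (S56), chapter KUM, half KD (the Kummer description of `H¹(G_K, k(ψ))`) — helper17.

Setting: `K` a `p`-adic field (PT/LOC model), `Ω/K` Galois (in the application `Ω = PadicAlgCl p`),
`L₀ : IntermediateField K Ω` finite Galois over `K` containing a primitive `p`-th root of unity `ζ`,
`Δ = Gal(L₀/K)` of order prime to `p`, `ψ : Δ →* kˣ`, `k` a field of characteristic `p`;
`G = Gal(Ω/K)`, `res : G → Δ`, `N = Gal(Ω/L₀) = ker res`.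

For a level `ψ`-cocycle `c : G → k` (`c (g h) = c g + ψ(res g) c h`) and `l : k →+ ZMod p`, the
function `l ∘ c` is an additive level character of `N`, hence `ζ ^ l (c n) = n β / β` (`n ∈ N`) for a
Kummer generator `β ∈ Ωˣ` (`KumH90_17`), with `β ^ p ∈ L₀ˣ` well defined modulo `p`-th powers:

* `kumA c l : L₀ˣ ⧸ (L₀ˣ)ᵖ` the Kummer class; `kumA_eq_of_gen`, `kumA_add` (multiplicative in `l`);
* `kumA_mem_X` : if `c` vanishes on a subgroup `𝒩` for which Theorem R′ holds at `L₀` (hypothesis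
  `RPrimeAt`), then `kumA c l ∈ X p L₀`;
* `kumA_equivariant` : `galAct δ (kumA c l) = kumA c (n • kDualSMul (ψ δ)⁻¹ l)` when `δ` acts on
  `μ_p(L₀)` as `ζ ↦ ζ ^ n`;
* **`kumA_mem_Hset`** : `kumA c ∈ KumCountIface7.Hset p K L₀ ψ`;
* **`exists_coboundary_of_kumA_eq`** : `kumA c = kumA c'` implies `c - c'` is a coboundary
  (`c g = c' g + ψ(res g) m - m`), for `#Δ` invertible in `k`.
-/
import Mathlib
import Fermat.Agent.PT.BR.InfGalois13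
import Fermat.Agent.ES.T56.KumCountIface7
import Fermat.Agent.ES.T56.KumH90_17
import Fermat.Agent.ES.T56.KumAvg17

set_option autoImplicit false
set_option linter.unusedSectionVars false
set_option linter.style.haveILetI false

namespace Fermat.Agent.ES.T56.KumKD17

open Fermat.Agent.ES.T56.KumCountIface7 Fermat.Agent.ES.T56.FlatRIface14
  Fermat.Agent.ES.T56.KumH90_17 Fermat.Agent.ES.T56.KumAvg17 Fermat.Agent.PT.BR.InfGalois13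

noncomputable section

variable (p : ℕ) [hp : Fact p.Prime]
variable {K : Type} [Field K] [Algebra ℚ_[p] K]
variable {Ω : Type} [Field Ω] [Algebra ℚ_[p] Ω] [Algebra K Ω] [IsScalarTower ℚ_[p] K Ω]
  [IsGalois K Ω]
variable (L₀ : IntermediateField K Ω) [FiniteDimensional K L₀] [IsGalois K L₀]
  [FiniteDimensional ℚ_[p] L₀]
variable {k : Type} [Field k]
variable (ψ : (L₀ ≃ₐ[K] L₀) →* kˣ)

local instance neZeroKD17 : NeZero p := ⟨hp.out.ne_zero⟩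

/-- Restriction `Gal(Ω/K) → Gal(L₀/K)`. -/
def res : (Ω ≃ₐ[K] Ω) →* (L₀ ≃ₐ[K] L₀) := AlgEquiv.restrictNormalHom L₀

theorem res_surjective : Function.Surjective (res L₀) :=
  AlgEquiv.restrictNormalHom_surjective Ω

theorem res_apply (g : Ω ≃ₐ[K] Ω) (x : L₀) : ((res L₀ g x : L₀) : Ω) = g (x : Ω) :=
  AlgEquiv.restrictNormalHom_apply L₀ g x

theorem res_eq_one_iff {n : Ω ≃ₐ[K] Ω} : res L₀ n = 1 ↔ n ∈ L₀.fixingSubgroup := by
  rw [← IntermediateField.restrictNormalHom_ker L₀, MonoidHom.mem_ker]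
  rfl

/-- `ψ` pulled back to `Gal(Ω/K)`, with values in `k`. -/
def psiT (g : Ω ≃ₐ[K] Ω) : k := ((ψ (res L₀ g) : kˣ) : k)

theorem psiT_mul (g h : Ω ≃ₐ[K] Ω) : psiT L₀ ψ (g * h) = psiT L₀ ψ g * psiT L₀ ψ h := by
  unfold psiT
  rw [map_mul, map_mul, Units.val_mul]

theorem psiT_of_mem {n : Ω ≃ₐ[K] Ω} (hn : n ∈ L₀.fixingSubgroup) : psiT L₀ ψ n = 1 := by
  unfold psiT
  rw [(res_eq_one_iff L₀).mpr hn, map_one, Units.val_one]

theorem psiT_inv_mul (g : Ω ≃ₐ[K] Ω) : psiT L₀ ψ g⁻¹ * psiT L₀ ψ g = 1 := by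
  rw [← psiT_mul, inv_mul_cancel]
  unfold psiT
  rw [map_one, map_one, Units.val_one]

/-- Level `ψ`-cocycles `Gal(Ω/K) → k`. -/
structure IsPsiCocycle (c : (Ω ≃ₐ[K] Ω) → k) : Prop where
  level : ∃ E' : IntermediateField K Ω, FiniteDimensional K E' ∧
    ∀ g s, s ∈ E'.fixingSubgroup → c (g * s) = c g
  coc : ∀ g h, c (g * h) = c g + psiT L₀ ψ g * c h

variable {L₀ ψ}

theorem IsPsiCocycle.map_one {c : (Ω ≃ₐ[K] Ω) → k} (hc : IsPsiCocycle L₀ ψ c) : c 1 = 0 := by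
  have h := hc.coc 1 1
  rw [mul_one, psiT_of_mem L₀ ψ (Subgroup.one_mem _), one_mul] at h
  exact left_eq_add.mp h

theorem IsPsiCocycle.map_inv {c : (Ω ≃ₐ[K] Ω) → k} (hc : IsPsiCocycle L₀ ψ c) (g : Ω ≃ₐ[K] Ω) :
    c g⁻¹ = - (psiT L₀ ψ g⁻¹ * c g) := by
  have h := hc.coc g⁻¹ g
  rw [inv_mul_cancel, hc.map_one] at h
  exact eq_neg_of_add_eq_zero_left h.symm

/-- `c (g n g⁻¹) = ψ(g) c(n)` for `n ∈ N`. -/
theorem IsPsiCocycle.map_conj {c : (Ω ≃ₐ[K] Ω) → k} (hc : IsPsiCocycle L₀ ψ c)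
    (g : Ω ≃ₐ[K] Ω) {n : Ω ≃ₐ[K] Ω} (hn : n ∈ L₀.fixingSubgroup) :
    c (g * n * g⁻¹) = psiT L₀ ψ g * c n := by
  rw [hc.coc (g * n) g⁻¹, hc.coc g n, hc.map_inv g, psiT_mul, psiT_of_mem L₀ ψ hn, mul_one,
    mul_neg, ← mul_assoc, mul_comm (psiT L₀ ψ g) (psiT L₀ ψ g⁻¹), psiT_inv_mul, one_mul]
  ring

theorem IsPsiCocycle.map_mul_of_mem {c : (Ω ≃ₐ[K] Ω) → k} (hc : IsPsiCocycle L₀ ψ c)
    {n : Ω ≃ₐ[K] Ω} (hn : n ∈ L₀.fixingSubgroup) (n' : Ω ≃ₐ[K] Ω) : c (n * n') = c n + c n' := by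
  rw [hc.coc, psiT_of_mem L₀ ψ hn, one_mul]

/-! ### Kummer generators -/

variable {ζ : Ωˣ} (hζ : IsPrimitiveRoot ζ p) (hζL : (ζ : Ω) ∈ L₀)

variable (L₀) in
/-- `β` is a Kummer generator of the character `l ∘ c` of `N = Gal(Ω/L₀)`. -/
def IsGen (ζ : Ωˣ) (c : (Ω ≃ₐ[K] Ω) → k) (l : k →+ ZMod p) (β : Ωˣ) : Prop :=
  ∀ n ∈ L₀.fixingSubgroup, zetaPow ζ (l (c n)) = n • β / β

include hζL in
theorem smul_zeta_of_mem {n : Ω ≃ₐ[K] Ω} (hn : n ∈ L₀.fixingSubgroup) :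
    n • ζ = ζ ^ ((1 : ZMod p)).val := by
  rw [ZMod.val_one p, pow_one]
  apply Units.ext
  rw [AlgEquiv.smul_units_def, Units.coe_map, MonoidHom.coe_coe]
  exact hn ⟨(ζ : Ω), hζL⟩

include hζ hζL in
theorem exists_gen {c : (Ω ≃ₐ[K] Ω) → k} (hc : IsPsiCocycle L₀ ψ c) (l : k →+ ZMod p) :
    ∃ β : Ωˣ, IsGen p L₀ ζ c l β := by
  refine exists_kummer_gen L₀.fixingSubgroup hζ (fun _ => (1 : ZMod p))
    (fun n hn => smul_zeta_of_mem p hζL hn) (fun g => l (c g)) ?_ ?_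
  · obtain ⟨E', hE', h⟩ := hc.level
    exact ⟨E', hE', fun g s hs => by rw [h g s hs]⟩
  · intro n hn n' _
    rw [hc.map_mul_of_mem hn, map_add, one_mul]

/-- Elements of `Ωˣ` fixed by `Gal(Ω/L₀)` lie in `L₀`. -/
theorem mem_of_fixed {b : Ωˣ} (hb : ∀ n ∈ L₀.fixingSubgroup, n • b = b) : (b : Ω) ∈ L₀ := by
  rw [← InfiniteGalois.fixedField_fixingSubgroup L₀, IntermediateField.mem_fixedField_iff]
  intro n hn
  have := congrArg Units.val (hb n hn)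
  rwa [AlgEquiv.smul_units_def, Units.coe_map, MonoidHom.coe_coe] at this

include hζ in
theorem gen_pow_mem {c : (Ω ≃ₐ[K] Ω) → k} {l : k →+ ZMod p} {β : Ωˣ}
    (hβ : IsGen p L₀ ζ c l β) : ((β ^ p : Ωˣ) : Ω) ∈ L₀ :=
  mem_of_fixed (fun _ hn => pow_fixed L₀.fixingSubgroup hζ hβ hn)

/-- The unit of `L₀` underlying a unit of `Ω` lying in `L₀`, mapped back to `Ω`. -/
theorem map_val_unitOfMem (u : Ωˣ) (h : (u : Ω) ∈ L₀) :
    Units.map (L₀.val : L₀ →* Ω) (unitOfMem L₀ u h) = u :=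
  Units.ext rfl

theorem unitOfMem_mul (u v : Ωˣ) (hu : (u : Ω) ∈ L₀) (hv : (v : Ω) ∈ L₀)
    (huv : ((u * v : Ωˣ) : Ω) ∈ L₀) :
    unitOfMem L₀ (u * v) huv = unitOfMem L₀ u hu * unitOfMem L₀ v hv := by
  apply Units.ext
  apply Subtype.ext
  rfl

theorem unitOfMem_pow (u : Ωˣ) (hu : (u : Ω) ∈ L₀) (m : ℕ) (hum : ((u ^ m : Ωˣ) : Ω) ∈ L₀) :
    unitOfMem L₀ (u ^ m) hum = unitOfMem L₀ u hu ^ m := by
  apply Units.ext
  apply Subtype.ext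
  rw [Units.val_pow_eq_pow_val, SubmonoidClass.coe_pow]
  show ((u ^ m : Ωˣ) : Ω) = (u : Ω) ^ m
  rw [Units.val_pow_eq_pow_val]

include hζ in
/-- Two generators of the same character differ by an element of `L₀ˣ`. -/
theorem gen_pow_class_eq {c : (Ω ≃ₐ[K] Ω) → k} {l : k →+ ZMod p} {β β' : Ωˣ}
    (hβ : IsGen p L₀ ζ c l β) (hβ' : IsGen p L₀ ζ c l β') :
    (QuotientGroup.mk (unitOfMem L₀ (β ^ p) (gen_pow_mem p hζ hβ)) : unitsModP p L₀) =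
      QuotientGroup.mk (unitOfMem L₀ (β' ^ p) (gen_pow_mem p hζ hβ')) := by
  have hb : ∀ n ∈ L₀.fixingSubgroup, n • (β' / β) = β' / β := by
    intro n hn
    have h1 : n • β = zetaPow ζ (l (c n)) * β := by rw [hβ n hn, div_mul_cancel]
    have h2 : n • β' = zetaPow ζ (l (c n)) * β' := by rw [hβ' n hn, div_mul_cancel]
    rw [smul_div', h1, h2, mul_div_mul_left_eq_div]
  have hbL : ((β' / β : Ωˣ) : Ω) ∈ L₀ := mem_of_fixed hb
  rw [QuotientGroup.eq]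
  refine ⟨unitOfMem L₀ (β' / β) hbL, ?_⟩
  apply Units.ext
  apply Subtype.ext
  simp only [powMonoidHom_apply, Units.val_pow_eq_pow_val, SubmonoidClass.coe_pow,
    coe_unitOfMem, Units.val_mul, Units.val_inv_eq_inv_val, MulMemClass.coe_mul,
    Units.val_div_eq_div_val]
  rw [IntermediateField.coe_inv, coe_unitOfMem, Units.val_pow_eq_pow_val]
  field_simp
  rw [div_pow, div_mul_cancel₀ _ (pow_ne_zero p β.ne_zero)]

/-! ### The Kummer class -/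

include hζ hζL in
/-- The Kummer class `A_c(l) ∈ L₀ˣ/(L₀ˣ)ᵖ` of the character `l ∘ c|_N`. -/
def kumA {c : (Ω ≃ₐ[K] Ω) → k} (hc : IsPsiCocycle L₀ ψ c) (l : k →+ ZMod p) : unitsModP p L₀ :=
  QuotientGroup.mk (unitOfMem L₀ ((exists_gen p hζ hζL hc l).choose ^ p)
    (gen_pow_mem p hζ (exists_gen p hζ hζL hc l).choose_spec))

theorem kumA_eq_of_gen {c : (Ω ≃ₐ[K] Ω) → k} (hc : IsPsiCocycle L₀ ψ c) {l : k →+ ZMod p}
    {β : Ωˣ} (hβ : IsGen p L₀ ζ c l β) :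
    kumA p hζ hζL hc l = QuotientGroup.mk (unitOfMem L₀ (β ^ p) (gen_pow_mem p hζ hβ)) :=
  gen_pow_class_eq p hζ (exists_gen p hζ hζL hc l).choose_spec hβ

include hζ in
theorem isGen_add {c : (Ω ≃ₐ[K] Ω) → k} {l m : k →+ ZMod p} {β β' : Ωˣ}
    (hβ : IsGen p L₀ ζ c l β) (hβ' : IsGen p L₀ ζ c m β') : IsGen p L₀ ζ c (l + m) (β * β') := by
  intro n hn
  rw [AddMonoidHom.add_apply, zetaPow_add hζ.pow_eq_one, hβ n hn, hβ' n hn, smul_mul',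
    div_mul_div_comm]

/-- `A_c` is additive-to-multiplicative. -/
theorem kumA_add {c : (Ω ≃ₐ[K] Ω) → k} (hc : IsPsiCocycle L₀ ψ c) (l m : k →+ ZMod p) :
    kumA p hζ hζL hc (l + m) = kumA p hζ hζL hc l * kumA p hζ hζL hc m := by
  obtain ⟨β, hβ⟩ := exists_gen p hζ hζL hc l
  obtain ⟨β', hβ'⟩ := exists_gen p hζ hζL hc m
  rw [kumA_eq_of_gen p hζ hζL hc (isGen_add p hζ hβ hβ'), kumA_eq_of_gen p hζ hζL hc hβ,
    kumA_eq_of_gen p hζ hζL hc hβ', ← QuotientGroup.mk_mul]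
  congr 1
  apply Units.ext
  apply Subtype.ext
  show (((β * β') ^ p : Ωˣ) : Ω) = ((β ^ p : Ωˣ) : Ω) * ((β' ^ p : Ωˣ) : Ω)
  rw [mul_pow, Units.val_mul]

/-! ### Membership in `X` -/

variable (L₀) in
/-- Theorem R′ at `L₀` for the subgroup `𝒩`: an element of `L₀ˣ` with a `p`-th root in `Ω` fixed by
`𝒩 ⊓ Gal(Ω/L₀)` is a `1`-unit mod `p` times a `p`-th power. -/
def RPrimeAt (𝒩 : Subgroup (Ω ≃ₐ[K] Ω)) : Prop :=
  ∀ a : (↥L₀)ˣ, (∃ α : Ω, α ^ p = ((a : ↥L₀) : Ω) ∧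
      ∀ τ ∈ 𝒩 ⊓ L₀.fixingSubgroup, τ α = α) →
    ∃ u b : (↥L₀)ˣ, a = u * b ^ p ∧ IsOneModP p ↥L₀ ((u : ↥L₀))

theorem kumA_mem_X {c : (Ω ≃ₐ[K] Ω) → k} (hc : IsPsiCocycle L₀ ψ c)
    (𝒩 : Subgroup (Ω ≃ₐ[K] Ω)) (hvan : ∀ τ ∈ 𝒩, c τ = 0) (hR : RPrimeAt p L₀ 𝒩)
    (l : k →+ ZMod p) : kumA p hζ hζL hc l ∈ X p ↥L₀ := by
  obtain ⟨β, hβ⟩ := exists_gen p hζ hζL hc l
  rw [kumA_eq_of_gen p hζ hζL hc hβ]
  set a := unitOfMem L₀ (β ^ p) (gen_pow_mem p hζ hβ) with ha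
  obtain ⟨u, b, hab, hu⟩ := hR a ⟨(β : Ω), by
      show (β : Ω) ^ p = ((β ^ p : Ωˣ) : Ω)
      rw [Units.val_pow_eq_pow_val], fun τ hτ => by
      have h1 := hβ τ hτ.2
      rw [hvan τ hτ.1, map_zero, zetaPow_zero] at h1
      have h2 : τ • β = β := by
        have := congrArg (· * β) h1
        simpa using this.symm
      have := congrArg Units.val h2
      rwa [AlgEquiv.smul_units_def, Units.coe_map, MonoidHom.coe_coe] at this⟩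
  refine ⟨u, hu, ?_⟩
  rw [hab, QuotientGroup.eq]
  exact ⟨b, by rw [powMonoidHom_apply, inv_mul_cancel_left]⟩

/-! ### Equivariance -/

include hζ hζL in
theorem isGen_smul {c : (Ω ≃ₐ[K] Ω) → k} (hc : IsPsiCocycle L₀ ψ c) {l : k →+ ZMod p} {β : Ωˣ}
    (hβ : IsGen p L₀ ζ c l β) (g : Ω ≃ₐ[K] Ω) {n : ℕ} (hn : ActsOnMuAs p ↥L₀ (res L₀ g) n) :
    IsGen p L₀ ζ c (n • kDualSMul p (((ψ (res L₀ g))⁻¹ : kˣ) : k) l) (g • β) := by
  intro h' hh'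
  -- `h = g⁻¹ h' g ∈ N`
  have hnorm : (L₀.fixingSubgroup).Normal := by
    rw [← IntermediateField.restrictNormalHom_ker L₀]
    exact MonoidHom.normal_ker _
  have hh : g⁻¹ * h' * g ∈ L₀.fixingSubgroup := by
    have := hnorm.conj_mem h' hh' g⁻¹
    rwa [inv_inv] at this
  have h1 := hβ _ hh
  -- `c (g⁻¹ h' g) = ψ(g)⁻¹ c(h')`
  have hconj : c (g⁻¹ * h' * g) = (((ψ (res L₀ g))⁻¹ : kˣ) : k) * c h' := by
    have := hc.map_conj g⁻¹ hh'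
    rw [inv_inv] at this
    rw [this]
    unfold psiT
    rw [map_inv, map_inv]
  -- `g ζ = ζ ^ n`
  have hgζ : g • ζ = ζ ^ n := by
    apply Units.ext
    rw [AlgEquiv.smul_units_def, Units.coe_map, MonoidHom.coe_coe, Units.val_pow_eq_pow_val]
    have h2 := hn ⟨(ζ : Ω), hζL⟩ (by
      apply Subtype.ext
      rw [SubmonoidClass.coe_pow]
      show (ζ : Ω) ^ p = 1
      rw [← Units.val_pow_eq_pow_val, hζ.pow_eq_one, Units.val_one])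
    have h3 := congrArg (fun x : ↥L₀ => (x : Ω)) h2
    simp only [SubmonoidClass.coe_pow] at h3
    rw [res_apply] at h3
    exact h3
  -- apply `g`
  have h4 := congrArg (fun x : Ωˣ => g • x) h1
  simp only [smul_div', smul_smul] at h4
  have e1 : g * (g⁻¹ * h' * g) = h' * g := by group
  rw [e1] at h4
  have e2 : g • zetaPow ζ (l (c (g⁻¹ * h' * g))) =
      zetaPow ζ ((n : ZMod p) * l (c (g⁻¹ * h' * g))) := by
    rw [zetaPow_natCast_mul hζ.pow_eq_one]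
    unfold zetaPow
    rw [smul_pow', hgζ, ← pow_mul, ← pow_mul, mul_comm]
  rw [e2, hconj] at h4
  rw [AddMonoidHom.nsmul_apply, kDualSMul_apply, nsmul_eq_mul, h4, mul_smul]

theorem unitOfMem_smul (g : Ω ≃ₐ[K] Ω) (u : Ωˣ) (hu : (u : Ω) ∈ L₀)
    (hgu : ((g • u : Ωˣ) : Ω) ∈ L₀) :
    unitOfMem L₀ (g • u) hgu = Units.map ((res L₀ g : ↥L₀ ≃ₐ[K] ↥L₀) : ↥L₀ →* ↥L₀)
      (unitOfMem L₀ u hu) := by
  apply Units.ext
  apply Subtype.ext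
  rw [Units.coe_map, MonoidHom.coe_coe, res_apply]
  rfl

theorem kumA_equivariant {c : (Ω ≃ₐ[K] Ω) → k} (hc : IsPsiCocycle L₀ ψ c)
    (δ : ↥L₀ ≃ₐ[K] ↥L₀) (n : ℕ) (hn : ActsOnMuAs p ↥L₀ δ n) (l : k →+ ZMod p) :
    galAct p δ (kumA p hζ hζL hc l) =
      kumA p hζ hζL hc (n • kDualSMul p (((ψ δ)⁻¹ : kˣ) : k) l) := by
  obtain ⟨g, rfl⟩ := res_surjective L₀ δ
  obtain ⟨β, hβ⟩ := exists_gen p hζ hζL hc l
  have hgen := isGen_smul p hζ hζL hc hβ g hn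
  rw [kumA_eq_of_gen p hζ hζL hc hgen, kumA_eq_of_gen p hζ hζL hc hβ, galAct_mk]
  congr 1
  have e : (g • β) ^ p = g • (β ^ p) := (smul_pow' g β p).symm
  have hmem : ((g • (β ^ p) : Ωˣ) : Ω) ∈ L₀ := e ▸ gen_pow_mem p hζ hgen
  rw [← unitOfMem_smul g (β ^ p) (gen_pow_mem p hζ hβ) hmem]
  apply Units.ext
  apply Subtype.ext
  show ((g • β ^ p : Ωˣ) : Ω) = (((g • β) ^ p : Ωˣ) : Ω)
  rw [e]

/-- **KD, membership**: the family of Kummer classes of a bounded level `ψ`-cocycle lies in `𝓗`. -/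
theorem kumA_mem_Hset {c : (Ω ≃ₐ[K] Ω) → k} (hc : IsPsiCocycle L₀ ψ c)
    (𝒩 : Subgroup (Ω ≃ₐ[K] Ω)) (hvan : ∀ τ ∈ 𝒩, c τ = 0) (hR : RPrimeAt p L₀ 𝒩) :
    kumA p hζ hζL hc ∈ Hset p K ↥L₀ ψ :=
  ⟨kumA_add p hζ hζL hc, kumA_mem_X p hζ hζL hc 𝒩 hvan hR,
    fun δ n hn l => kumA_equivariant p hζ hζL hc δ n hn l⟩

/-! ### Injectivity -/

variable [CharP k p]

/-- Cocycles with the same Kummer classes agree on `N = Gal(Ω/L₀)`. -/
theorem eq_on_fixing_of_kumA_eq {c c' : (Ω ≃ₐ[K] Ω) → k} (hc : IsPsiCocycle L₀ ψ c)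
    (hc' : IsPsiCocycle L₀ ψ c') (h : kumA p hζ hζL hc = kumA p hζ hζL hc') :
    ∀ n ∈ L₀.fixingSubgroup, c n = c' n := by
  intro n hn
  rw [← sub_eq_zero]
  apply eq_zero_of_forall_addMonoidHom p
  intro l
  rw [map_sub, sub_eq_zero]
  obtain ⟨β, hβ⟩ := exists_gen p hζ hζL hc l
  obtain ⟨β', hβ'⟩ := exists_gen p hζ hζL hc' l
  have h1 := congrFun h l
  rw [kumA_eq_of_gen p hζ hζL hc hβ, kumA_eq_of_gen p hζ hζL hc' hβ', QuotientGroup.eq] at h1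
  obtain ⟨b₀, hb₀⟩ := h1
  rw [powMonoidHom_apply] at hb₀
  -- `β' ^ p = β ^ p * b₀ ^ p` in `Ω`
  have hpow : β' ^ p = β ^ p * (Units.map (L₀.val : ↥L₀ →* Ω) b₀) ^ p := by
    have h2 : unitOfMem L₀ (β' ^ p) (gen_pow_mem p hζ hβ') =
        unitOfMem L₀ (β ^ p) (gen_pow_mem p hζ hβ) * b₀ ^ p := by
      rw [hb₀, mul_inv_cancel_left]
    have h3 := congrArg (Units.map (L₀.val : ↥L₀ →* Ω)) h2
    rwa [map_val_unitOfMem, map_mul, map_val_unitOfMem, map_pow] at h3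
  have hb : ∀ n ∈ L₀.fixingSubgroup, n • Units.map (L₀.val : ↥L₀ →* Ω) b₀ =
      Units.map (L₀.val : ↥L₀ →* Ω) b₀ := by
    intro n hn
    apply Units.ext
    rw [AlgEquiv.smul_units_def, Units.coe_map, MonoidHom.coe_coe, Units.coe_map,
      MonoidHom.coe_coe]
    exact hn (b₀ : ↥L₀)
  obtain ⟨m, hm⟩ := exists_coboundary_of_pow_eq L₀.fixingSubgroup hζ (fun _ => (1 : ZMod p))
    (fun n hn => smul_zeta_of_mem p hζL hn) (f := fun g => l (c' g)) (f' := fun g => l (c g))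
    hβ' hβ hb hpow
  have := hm n hn
  rw [one_mul] at this
  exact (add_right_cancel this).symm

/-- **KD, injectivity**: cocycles with the same Kummer classes are cohomologous (`#Δ` invertible
in `k`). -/
theorem exists_coboundary_of_kumA_eq (hΔ : (Nat.card (↥L₀ ≃ₐ[K] ↥L₀) : k) ≠ 0)
    {c c' : (Ω ≃ₐ[K] Ω) → k} (hc : IsPsiCocycle L₀ ψ c) (hc' : IsPsiCocycle L₀ ψ c')
    (h : kumA p hζ hζL hc = kumA p hζ hζL hc') :
    ∃ m : k, ∀ g, c g = c' g + psiT L₀ ψ g * m - m := by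
  have hN := eq_on_fixing_of_kumA_eq p hζ hζL hc hc' h
  obtain ⟨m, hm⟩ := exists_coboundary_of_vanish_on_ker (res L₀) (res_surjective L₀) ψ hΔ
    (fun g => c g - c' g)
    (fun g h => by
      show c (g * h) - c' (g * h) = c g - c' g + psiT L₀ ψ g * (c h - c' h)
      rw [hc.coc, hc'.coc]
      ring)
    (fun n hn => by
      show c n - c' n = 0
      rw [hN n ((res_eq_one_iff L₀).mp hn), sub_self])
  refine ⟨m, fun g => ?_⟩
  have := hm g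
  have e : c g - c' g = psiT L₀ ψ g * m - m := this
  linear_combination e

include hζ hζL in
/-- **KD, count**: a set of bounded level `ψ`-cocycles, pairwise non-cohomologous, has at most
`#𝓗` elements. -/
theorem card_le_card_Hset (hΔ : (Nat.card (↥L₀ ≃ₐ[K] ↥L₀) : k) ≠ 0)
    (hfin : (Hset p K ↥L₀ ψ).Finite) (𝒵 : Set ((Ω ≃ₐ[K] Ω) → k))
    (h𝒵 : ∀ c ∈ 𝒵, IsPsiCocycle L₀ ψ c ∧
      ∃ 𝒩 : Subgroup (Ω ≃ₐ[K] Ω), (∀ τ ∈ 𝒩, c τ = 0) ∧ RPrimeAt p L₀ 𝒩)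
    (hsep : ∀ c ∈ 𝒵, ∀ c' ∈ 𝒵, (∃ m : k, ∀ g, c g = c' g + psiT L₀ ψ g * m - m) → c = c') :
    Nat.card 𝒵 ≤ Nat.card (Hset p K ↥L₀ ψ) := by
  haveI := hfin.to_subtype
  let Φ : 𝒵 → Hset p K ↥L₀ ψ := fun c =>
    ⟨kumA p hζ hζL (h𝒵 c.1 c.2).1, by
      obtain ⟨𝒩, hvan, hR⟩ := (h𝒵 c.1 c.2).2
      exact kumA_mem_Hset p hζ hζL (h𝒵 c.1 c.2).1 𝒩 hvan hR⟩
  refine Nat.card_le_card_of_injective Φ (fun c c' h => ?_)
  apply Subtype.ext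
  apply hsep c.1 c.2 c'.1 c'.2
  exact exists_coboundary_of_kumA_eq p hζ hζL hΔ (h𝒵 c.1 c.2).1 (h𝒵 c'.1 c'.2).1
    (congrArg Subtype.val h)

end

end Fermat.Agent.ES.T56.KumKD17
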