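/-
Programme T (S56), chapter KUM, glue with FLAT (helper17).

* `fixer F : Subgroup (Ω ≃ₐ[K] Ω)` — the elements of `Gal(Ω/K)` fixing `F : IntermediateField ℚ_[p] Ω`
  pointwise (the trace on `Gal(Ω/K)` of `F.fixingSubgroup`);
* **`rPrimeAt_of_flatClass`** : Theorem R′ (`FlatRIface14.RPrimeStatement p`, as a hypothesis) gives
  `KumKD17.RPrimeAt p L₀ (fixer F)` for every `F ∈ FlatClass p Ω` and every tame `L₀ ∋ ζ_p`
  (`Ls := F ⊔ L₀`; a `p`-th root fixed by `Gal(Ω/F·L₀)` lies in `F·L₀` by the Galois correspondence);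
* **`card_le_card_Hset_of_flatClass`** : a set of level `ψ`-cocycles `Gal(Ω/K) → k`, each vanishing
  on `fixer F` for some `F ∈ FlatClass p Ω` (which may vary with the cocycle), pairwise
  non-cohomologous, has at most `#𝓗` elements (`𝓗 = KumCountIface7.Hset p K L₀ ψ`, assumed finite —
  supplied, with its cardinality, by `CountF1`/`CountF2`).
-/
import Mathlib
import Fermat.Agent.ES.T56.FlatClass20
import Fermat.Agent.ES.T56.KumKD17

set_option autoImplicit false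
set_option linter.unusedSectionVars false
set_option linter.style.haveILetI false

namespace Fermat.Agent.ES.T56.KumFlat17

open Fermat.Agent.ES.T56.KumCountIface7 Fermat.Agent.ES.T56.FlatRIface14
  Fermat.Agent.ES.T56.FlatClass20 Fermat.Agent.ES.T56.KumKD17

noncomputable section

variable (p : ℕ) [hp : Fact p.Prime]
variable {K : Type} [Field K] [Algebra ℚ_[p] K]
variable {Ω : Type} [Field Ω] [Algebra ℚ_[p] Ω] [Algebra K Ω] [IsScalarTower ℚ_[p] K Ω]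

/-- The elements of `Gal(Ω/K)` fixing `F` pointwise. -/
def fixer (F : IntermediateField ℚ_[p] Ω) : Subgroup (Ω ≃ₐ[K] Ω) where
  carrier := {τ | ∀ y ∈ F, τ y = y}
  one_mem' := fun _ _ => rfl
  mul_mem' := by
    intro σ τ hσ hτ y hy
    show σ (τ y) = y
    rw [hτ y hy, hσ y hy]
  inv_mem' := by
    intro σ hσ y hy
    have := hσ y hy
    calc σ⁻¹ y = σ⁻¹ (σ y) := by rw [this]
      _ = y := σ.symm_apply_apply y

theorem mem_fixer {F : IntermediateField ℚ_[p] Ω} {τ : Ω ≃ₐ[K] Ω} :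
    τ ∈ fixer p (K := K) F ↔ ∀ y ∈ F, τ y = y := Iff.rfl

variable [IsGalois ℚ_[p] Ω] [IsGalois K Ω]
variable (L₀ : IntermediateField K Ω) [FiniteDimensional K L₀] [IsGalois K L₀]
  [FiniteDimensional ℚ_[p] L₀]

/-- **Theorem R′ in the form consumed by KD.** -/
theorem rPrimeAt_of_flatClass (hR : RPrimeStatement p) {F : IntermediateField ℚ_[p] Ω}
    (hF : F ∈ FlatClass p Ω) (htame : ¬ (p : ℤ) ∣ ramIdxZ p ↥L₀)
    (hζ : ∃ ζ : ↥L₀, IsPrimitiveRoot ζ p) :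
    RPrimeAt p L₀ (fixer p (K := K) F) := by
  obtain ⟨hfd, hgal, hpm⟩ := hF
  haveI := hfd
  haveI := hgal
  intro a ⟨α, hα, hfix⟩
  -- the compositum `Ls = F ⊔ L₀` inside `Ω`
  set L₀' : IntermediateField ℚ_[p] Ω := L₀.restrictScalars ℚ_[p] with hL₀'
  haveI hfdL : FiniteDimensional ℚ_[p] ↥L₀' := ‹FiniteDimensional ℚ_[p] ↥L₀›
  set Ls : IntermediateField ℚ_[p] Ω := F ⊔ L₀' with hLs
  haveI : FiniteDimensional ℚ_[p] ↥Ls := IntermediateField.finiteDimensional_sup F L₀'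
  have hFle : F ≤ Ls := le_sup_left
  have hLle : L₀' ≤ Ls := le_sup_right
  -- `α ∈ Ls`
  have hαLs : α ∈ Ls := by
    rw [← InfiniteGalois.fixedField_fixingSubgroup Ls, IntermediateField.mem_fixedField_iff]
    intro σ hσ
    have hσF : ∀ y ∈ F, σ y = y := fun y hy => hσ ⟨y, hFle hy⟩
    have hσL : ∀ y ∈ L₀, σ y = y := fun y hy => hσ ⟨y, hLle hy⟩
    let τ : Ω ≃ₐ[K] Ω := AlgEquiv.ofRingEquiv (f := σ.toRingEquiv)
      (fun x => hσL _ (L₀.algebraMap_mem x))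
    have hτ : τ ∈ fixer p (K := K) F ⊓ L₀.fixingSubgroup :=
      ⟨fun y hy => hσF y hy, fun y => hσL y.1 y.2⟩
    exact hfix τ hτ
  -- the two embeddings
  let iF : ↥F →ₐ[ℚ_[p]] ↥Ls := IntermediateField.inclusion hFle
  let i0 : ↥L₀ →ₐ[ℚ_[p]] ↥Ls :=
    ((L₀.val.restrictScalars ℚ_[p] : ↥L₀ →ₐ[ℚ_[p]] Ω).codRestrict Ls.toSubalgebra
      (fun x => hLle x.2))
  have hi0 : ∀ x : ↥L₀, ((i0 x : ↥Ls) : Ω) = (x : Ω) := fun _ => rfl
  have hsup : iF.fieldRange ⊔ i0.fieldRange = ⊤ := by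
    apply IntermediateField.map_injective Ls.val
    rw [IntermediateField.map_sup, ← AlgHom.fieldRange_eq_map, IntermediateField.fieldRange_val]
    have h1 : iF.fieldRange.map Ls.val = F := by
      ext y
      constructor
      · rintro ⟨_, ⟨x, rfl⟩, rfl⟩
        exact x.2
      · intro hy
        exact ⟨iF ⟨y, hy⟩, ⟨⟨y, hy⟩, rfl⟩, rfl⟩
    have h2 : i0.fieldRange.map Ls.val = L₀' := by
      ext y
      constructor
      · rintro ⟨_, ⟨x, rfl⟩, rfl⟩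
        exact x.2
      · intro hy
        exact ⟨i0 ⟨y, hy⟩, ⟨⟨y, hy⟩, rfl⟩, rfl⟩
    rw [h1, h2]
  have hy : (⟨α, hαLs⟩ : ↥Ls) ^ p = i0 (a : ↥L₀) := by
    apply Subtype.ext
    rw [SubmonoidClass.coe_pow, hi0]
    exact hα
  exact hR ↥F hpm ↥L₀ htame hζ ↥Ls iF i0 hsup a ⟨α, hαLs⟩ hy

variable {k : Type} [Field k] [CharP k p] (ψ : (↥L₀ ≃ₐ[K] ↥L₀) →* kˣ)
variable {ζ : Ωˣ} (hζ : IsPrimitiveRoot ζ p) (hζL : (ζ : Ω) ∈ L₀)

include hζ hζL in
/-- **(C2), cocycle level, modulo COUNT.**  A set of level `ψ`-cocycles `Gal(Ω/K) → k`, each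
vanishing on `fixer F` for some `F ∈ FlatClass p Ω`, pairwise non-cohomologous, has at most `#𝓗`
elements. -/
theorem card_le_card_Hset_of_flatClass (hR : RPrimeStatement p)
    (htame : ¬ (p : ℤ) ∣ ramIdxZ p ↥L₀)
    (hΔ : (Nat.card (↥L₀ ≃ₐ[K] ↥L₀) : k) ≠ 0) (hfin : (Hset p K ↥L₀ ψ).Finite)
    (𝒵 : Set ((Ω ≃ₐ[K] Ω) → k))
    (h𝒵 : ∀ c ∈ 𝒵, IsPsiCocycle L₀ ψ c ∧
      ∃ F ∈ FlatClass p Ω, ∀ τ ∈ fixer p (K := K) F, c τ = 0)
    (hsep : ∀ c ∈ 𝒵, ∀ c' ∈ 𝒵, (∃ m : k, ∀ g, c g = c' g + psiT L₀ ψ g * m - m) → c = c') :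
    Nat.card 𝒵 ≤ Nat.card (Hset p K ↥L₀ ψ) := by
  have hζ' : ∃ ζ' : ↥L₀, IsPrimitiveRoot ζ' p := by
    refine ⟨⟨(ζ : Ω), hζL⟩, ?_⟩
    have h1 : IsPrimitiveRoot (ζ : Ω) p := IsPrimitiveRoot.coe_units_iff.mpr hζ
    exact IsPrimitiveRoot.of_map_of_injective (f := L₀.val) (by exact h1) L₀.val.injective
  refine card_le_card_Hset p hζ hζL hΔ hfin 𝒵 (fun c hc => ?_) hsep
  obtain ⟨hcoc, F, hF, hvan⟩ := h𝒵 c hc
  exact ⟨hcoc, fixer p (K := K) F, hvan, rPrimeAt_of_flatClass p L₀ hR hF htame hζ'⟩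

end

end Fermat.Agent.ES.T56.KumFlat17
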