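/-
Programme T (S56), chapter KUM (helper17 lead, helper7), file `KumCountF2_7` — helper7.

**COUNT, `f = 2`**: `KumCountIface7.CountF2 p`, from the evaluation statement `EvalStatement p`
(`#Hom_Δ(k^∨(a), K(t)) ≤ |k|^{#{j < f : a = ι(t)^{p^j}}}`, `#K = p^f`; helper17's `KumEval17`).

`E/ℚ_p` unramified quadratic, `L₀/E` Galois, `e(L₀/ℚ_p) = p² - 1`, `π^{p²-1} = -p`, `ζ_p ∈ L₀`.  Then
`π` is a uniformizer, `e′ = v(ζ - 1) = p + 1`, `δ π = π ε_δ` with `ε_δ ∈ μ_{p²-1}(E)` (Teichmüller),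
the graded pieces are the levels `e + t`, `t ∈ {0, …, p}`, `t ≠ 1`, with the twist `θ^t`,
`θ δ = ε_δ mod 𝔪 ∈ κ_E = 𝔽_{p²}`:
   `#Hset ≤ ∏_{t ≤ p, t ≠ 1} #Hom_I(k^∨, κ_E(θ^t)) · #Hom_Δ(k^∨, 𝔽_p(ω))`.
-/
import Mathlib
import Fermat.Agent.PT.LOC.Teichmuller14
import Fermat.Agent.ES.T56.KumInst7
import Fermat.Agent.ES.T56.KumCountF1_7

set_option autoImplicit false
set_option linter.unusedSectionVars false

open scoped Fermat.Agent.PT.LOC.Interface12 Fermat.Agent.PT.LOC.StructureTower27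
open Fermat.Agent.PT.LOC.Interface12 Fermat.Agent.PT.LOC.Structure14
  Fermat.Agent.PT.LOC.StructureNorm14 Fermat.Agent.PT.LOC.StructureTower27
  Fermat.Agent.PT.LOC.StructureTowerEF27 Fermat.Agent.PT.LOC.RootsUnity14
  Fermat.Agent.PT.LOC.Unram11 Fermat.Agent.PT.LOC.Teichmuller14
  Fermat.Agent.ES.T56.FlatRIface14 Fermat.Agent.ES.T56.KumCountIface7
  Fermat.Agent.ES.T56.UnitNormalForm4 Fermat.Agent.ES.T56.UnitLevelLoc4
  Fermat.Agent.ES.T56.KumHomFilt7 Fermat.Agent.ES.T56.KumLevels7 Fermat.Agent.ES.T56.KumStep7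
  Fermat.Agent.ES.T56.KumChain7 Fermat.Agent.ES.T56.KumSemilin7 Fermat.Agent.ES.T56.KumEval7
  Fermat.Agent.ES.T56.KumInst7 Fermat.Agent.ES.T56.KumCountF1_7
  IsDiscreteValuationRing

namespace Fermat.Agent.ES.T56.KumCountF2_7

noncomputable section

variable (p : ℕ) [hp : Fact p.Prime]

open Classical in
/-- The evaluation statement (helper17's `KumEval17.card_eqHomInto_kDual_le`):
`#Hom_Δ(k^∨(a), K(t)) ≤ |k|^{#{j < f : ∀ δ, a δ = ι(t δ)^{p^j}}}` for `#K = p^f`. -/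
def EvalStatement : Prop :=
  ∀ (k K : Type) [Field k] [Finite k] [CharP k p] [Field K] [Finite K] [CharP K p] (ι : K →+* k)
    (f : ℕ), Nat.card K = p ^ f → ∀ (Δ : Type) (a : Δ → k) (t : Δ → K),
    Nat.card (eqHomInto (fun (δ : Δ) (l : k →+ ZMod p) => l.comp (AddMonoidHom.mulLeft (a δ)))
      (fun δ => AddMonoidHom.mulLeft (t δ)) (⊤ : AddSubgroup K)) ≤
      Nat.card k ^ ((Finset.range f).filter (fun j => ∀ δ, a δ = ι (t δ) ^ p ^ j)).card

/-! ### The residue field of the unramified quadratic extension -/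

section Res

variable (E : Type) [Field E] [Algebra ℚ_[p] E] [FiniteDimensional ℚ_[p] E]

theorem resCard_padic : resCard p ℚ_[p] = p := by
  rw [← card_resF, card_resF_padic]

theorem resCard_unram2 (hur : IsUnramified p ℚ_[p] E) (hdeg : Module.finrank ℚ_[p] E = 2) :
    resCard p E = p ^ 2 := by
  rw [resCard_tower p ℚ_[p] E, resDeg_eq_finrank_of_isUnramified p ℚ_[p] E hur, hdeg,
    resCard_padic]

end Res

/-! ### `π` is a uniformizer -/

section Pi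

variable (L₀ : Type) [Field L₀] [Algebra ℚ_[p] L₀] [FiniteDimensional ℚ_[p] L₀]

theorem pi_mem_intRing {π : L₀} {m : ℕ} (hm : m ≠ 0) (hπ : π ^ m = -(p : L₀)) :
    π ∈ intRing p L₀ := by
  rw [mem_intRing_iff]
  have h1 : snorm p L₀ π ^ m ≤ 1 := by
    rw [← UnitLevelLoc4.snorm_pow, hπ, UnitLevelLoc4.snorm_neg, snorm_natCast_q]
    have : (1 : ℝ) ≤ p := by exact_mod_cast hp.out.one_lt.le
    exact inv_le_one_of_one_le₀ this
  exact (pow_le_one_iff_of_nonneg (snorm_nonneg p L₀ π) hm).1 h1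

/-- An element of `𝒪` whose `m`-th power is `-p`, `m = e(L₀/ℚ_p)`, is a uniformizer. -/
theorem irreducible_of_pow_eq {ϖ : intRing p L₀} (hϖ : ϖ ^ ramE p L₀ = -((p : ℕ) : intRing p L₀)) :
    Irreducible ϖ := by
  have he1 := one_le_ramE p L₀
  have h1 : ramE p L₀ • addVal (intRing p L₀) ϖ = (ramE p L₀ : ℕ∞) := by
    rw [← addVal_pow, hϖ, UnitPow4.addVal_neg, addVal_natCast]
  have hne : addVal (intRing p L₀) ϖ ≠ ⊤ := by
    intro h
    rw [h] at h1
    have h2 : ramE p L₀ • (⊤ : ℕ∞) = ⊤ := by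
      rw [nsmul_eq_mul]
      exact ENat.mul_top (by exact_mod_cast (by omega : ramE p L₀ ≠ 0))
    rw [h2] at h1
    exact ENat.top_ne_natCast _ h1
  obtain ⟨j, hj⟩ := ENat.ne_top_iff_exists.1 hne
  rw [← hj, nsmul_eq_mul] at h1
  have h3 : ramE p L₀ * j = ramE p L₀ := by exact_mod_cast h1
  have hj1 : j = 1 := by
    have : ramE p L₀ * j = ramE p L₀ * 1 := by rw [h3, mul_one]
    exact Nat.eq_of_mul_eq_mul_left (by omega) this
  obtain ⟨ϖ₀, hϖ₀⟩ := exists_irreducible (intRing p L₀)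
  have hv : addVal (intRing p L₀) ϖ₀ = addVal (intRing p L₀) ϖ := by
    rw [addVal_uniformizer hϖ₀, ← hj, hj1]; rfl
  have hassoc : Associated ϖ₀ ϖ :=
    associated_of_dvd_dvd (addVal_le_iff_dvd.1 hv.le) (addVal_le_iff_dvd.1 hv.ge)
  exact hassoc.irreducible hϖ₀

end Pi

/-! ### The tame cocycle takes values in `μ_{p²-1}(E)` -/

section Eps

variable (E L₀ : Type) [Field E] [Field L₀] [Algebra ℚ_[p] E] [FiniteDimensional ℚ_[p] E]
  [Algebra ℚ_[p] L₀] [FiniteDimensional ℚ_[p] L₀] [Algebra E L₀] [IsScalarTower ℚ_[p] E L₀]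

/-- If `ϖ^m = -p` with `m = #κ_E - 1`, then `δ ϖ = ϖ ε` with `ε ∈ 𝒪_E` (a Teichmüller unit). -/
theorem exists_eps {ϖ : intRing p L₀} {m : ℕ} (hm : resCard p E - 1 = m) (hm0 : m ≠ 0)
    (hϖ : ϖ ^ m = -((p : ℕ) : intRing p L₀)) (δ : L₀ ≃ₐ[E] L₀) :
    ∃ ε : intRing p E, sig p E L₀ δ ϖ = ϖ * algebraMap (intRing p E) (intRing p L₀) ε := by
  have : NeZero m := ⟨hm0⟩
  obtain ⟨ω, hω⟩ := Fermat.Agent.PT.LOC.Teichmuller14.exists_isPrimitiveRoot p E
  rw [hm] at hω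
  have hωL : IsPrimitiveRoot (algebraMap E L₀ ω) m :=
    hω.map_of_injective (algebraMap E L₀).injective
  have hp0 : (p : L₀) ≠ 0 := UnitLevelLoc4.natCast_ne_zero p L₀
  have hϖL : (ϖ : L₀) ^ m = -(p : L₀) := by
    have := congrArg (fun t : intRing p L₀ => (t : L₀)) hϖ
    simpa using this
  have hϖ0 : (ϖ : L₀) ≠ 0 := by
    intro h
    rw [h, zero_pow hm0] at hϖL
    exact hp0 (neg_eq_zero.1 hϖL.symm)
  have hx : (δ (ϖ : L₀) / (ϖ : L₀)) ^ m = 1 := by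
    rw [div_pow, ← map_pow, hϖL, map_neg, map_natCast]
    exact div_self (neg_ne_zero.2 hp0)
  obtain ⟨i, -, hi⟩ := hωL.eq_pow_of_pow_eq_one hx
  have hεm : ω ^ i ∈ intRing p E :=
    mem_intRing_of_pow_eq_one p E hm0 (by rw [← pow_mul, mul_comm, pow_mul, hω.pow_eq_one, one_pow])
  refine ⟨⟨ω ^ i, hεm⟩, ?_⟩
  apply Subtype.ext
  rw [coe_sig, Subalgebra.coe_mul, coe_algebraMap_intRing]
  show δ (ϖ : L₀) = (ϖ : L₀) * algebraMap E L₀ (ω ^ i)
  rw [map_pow, hi, mul_div_cancel₀ _ hϖ0]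

variable [IsGalois E L₀]

/-- An inertial automorphism lies in the kernel of the reduction map. -/
theorem mem_ker_of_isInertial {δ : L₀ ≃ₐ[E] L₀} (hin : IsInertial p L₀ δ) :
    δ ∈ (redHom p E L₀).ker := by
  rw [MonoidHom.mem_ker]
  ext y
  obtain ⟨b, rfl⟩ := Ideal.Quotient.mk_surjective y
  rw [redHom_mk, AlgEquiv.one_apply, Ideal.Quotient.eq, mem_mI_iff_snorm]
  exact hin (b : L₀) b.2

end Eps

/-! ### The top factor (any base field `E`) -/

section Top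

variable (E L₀ : Type) [Field E] [Field L₀] [Algebra ℚ_[p] E] [FiniteDimensional ℚ_[p] E]
  [Algebra ℚ_[p] L₀] [FiniteDimensional ℚ_[p] L₀] [Algebra E L₀] [IsScalarTower ℚ_[p] E L₀]
  {k : Type} [Field k] [Finite k] [CharP k p] (ψ : (L₀ ≃ₐ[E] L₀) →* kˣ)

/-- `#Hom_Δ(k^∨, 𝔽_p(ω)) ≤ |k|^{[ψ = 1]}`. -/
theorem card_top_le {ζ : L₀} (hζ : IsPrimitiveRoot ζ p) (n : (L₀ ≃ₐ[E] L₀) → ℕ)
    (hn : ∀ δ, ActsOnMuAs p L₀ δ (n δ)) :
    Nat.card (eqHomInto (aVk p E L₀ ψ n) (omAct p n) (⊤ : AddSubgroup (ZMod p))) ≤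
      Nat.card k ^ (open Classical in if ψ = 1 then 1 else 0) := by
  classical
  have haV : aVk p E L₀ ψ n =
      fun δ (l : k →+ ZMod p) => dsmul p ((n δ : k) * (((ψ δ)⁻¹ : kˣ) : k)) l := by
    funext δ l
    exact aVk_eq p E L₀ ψ n δ l
  have hn0 : ∀ δ, (n δ : k) ≠ 0 := fun δ => natCast_ne_zero_of_actsOnMuAs p E hζ (hn δ) k
  have h2 := card_eqHomInto_natScalar_le p (k := k) (F := ZMod p) (Nat.card_zmod p)
    (fun δ => (n δ : k) * (((ψ δ)⁻¹ : kˣ) : k)) n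
    (omAct p n) (fun δ x => by rw [omAct_apply, nsmul_eq_mul])
  rw [haV]
  refine h2.trans (Nat.pow_le_pow_right Nat.card_pos (ite_le_ite_of_imp ?_))
  intro hall
  ext δ
  have h3 := hall δ
  have h4 : (((ψ δ)⁻¹ : kˣ) : k) = 1 := by
    have h5 : (n δ : k) * (((ψ δ)⁻¹ : kˣ) : k) = (n δ : k) * 1 := by rw [h3, mul_one]
    exact mul_left_cancel₀ (hn0 δ) h5
  have h6 : (ψ δ)⁻¹ = 1 := Units.ext h4
  rw [inv_eq_one] at h6
  rw [h6]
  rfl

end Top

/-! ### The count -/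

/-- `p² - 1 = (p - 1)(p + 1)`. -/
theorem sq_sub_one_eq (hp2 : 2 ≤ p) : p ^ 2 - 1 = (p - 1) * (p + 1) := by
  obtain ⟨q, rfl⟩ : ∃ q, p = q + 1 := ⟨p - 1, by omega⟩
  rw [Nat.add_sub_cancel]
  have : (q + 1) ^ 2 = q * (q + 1 + 1) + 1 := by ring
  rw [this, Nat.add_sub_cancel]

/-- **COUNT, `f = 2`**, from the evaluation statement. -/
theorem countF2_of_eval (hEval : EvalStatement p) : CountF2 p := by
  classical
  intro E L₀ _ _ _ _ _ _ _ _ _ hur hdeg hram hζ' π hπ k _ _ _ ι ψ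
  obtain ⟨ζ, hζ⟩ := hζ'
  have hp2 := hp.out.two_le
  have hm0 : p ^ 2 - 1 ≠ 0 := by
    have : 2 ^ 2 ≤ p ^ 2 := Nat.pow_le_pow_left hp2 2
    omega
  -- `e = p² - 1`
  have hram' : ramE p L₀ = p ^ 2 - 1 := by
    have h1 := ramE_cast p L₀
    rw [hram] at h1
    have h2 : ((ramE p L₀ : ℕ) : ℤ) = ((p ^ 2 - 1 : ℕ) : ℤ) := by
      rw [h1, Nat.cast_sub (Nat.one_le_pow _ _ (by omega)), Nat.cast_pow, Nat.cast_one]
    exact_mod_cast h2
  -- `π` as a uniformizer of `𝒪`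
  have hπm := pi_mem_intRing p L₀ hm0 hπ
  obtain ⟨ϖ, hϖdef⟩ : ∃ ϖ : intRing p L₀, (ϖ : L₀) = π := ⟨⟨π, hπm⟩, rfl⟩
  have hϖpow : ϖ ^ (p ^ 2 - 1) = -((p : ℕ) : intRing p L₀) := by
    apply Subtype.ext
    rw [Subalgebra.coe_pow, hϖdef, hπ]
    simp
  have hϖ : Irreducible ϖ := irreducible_of_pow_eq p L₀ (by rw [hram']; exact hϖpow)
  -- exponents and the tame cocycle
  choose n hn using exists_actsOnMuAs p E L₀ hζ
  have hres : resCard p E - 1 = p ^ 2 - 1 := by rw [resCard_unram2 p E hur hdeg]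
  choose ε hε using exists_eps p E L₀ hres hm0 hϖpow
  have hee' : ramE p L₀ = (p - 1) * (p + 1) := by rw [hram', sq_sub_one_eq p hp2]
  obtain ⟨hfin, hcard⟩ := card_Hset_le_chain p E L₀ ψ hζ hϖ n hn
    (fun δ => algebraMap (intRing p E) (intRing p L₀) (ε δ)) hε hee'
  refine ⟨hfin, hcard.trans ?_⟩
  -- the scalars `c δ = n δ · (ψ δ)⁻¹`
  set c : (L₀ ≃ₐ[E] L₀) → k := fun δ => (n δ : k) * (((ψ δ)⁻¹ : kˣ) : k) with hc
  have haV : aVk p E L₀ ψ n = fun δ (l : k →+ ZMod p) => dsmul p (c δ) l := by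
    funext δ l
    exact aVk_eq p E L₀ ψ n δ l
  have hn0 : ∀ δ, (n δ : k) ≠ 0 := fun δ => natCast_ne_zero_of_actsOnMuAs p E hζ (hn δ) k
  have hc0 : ∀ δ, c δ ≠ 0 := fun δ => mul_ne_zero (hn0 δ) (Units.ne_zero _)
  -- the residue field of `E`
  have hK : Nat.card (resF p E) = p ^ 2 := by rw [card_resF, resCard_unram2 p E hur hdeg]
  have hcharK : CharP (resF p E) p :=
    charP_residueField p (addVal_natCast p E) (one_le_ramE p E)
  -- the exponent attached to `t`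
  set x : ℕ → ℕ := fun t =>
    ((Finset.range 2).filter (fun a => t ≠ 1 ∧ PairCond p E L₀ ψ π ι t a)).card with hx
  -- each factor
  have hfac : ∀ t ∈ Finset.range (p + 1),
      (if ¬ p ∣ ramE p L₀ + t then
        Nat.card (eqHomInto (aVk p E L₀ ψ n)
          (grAct (sig p E L₀) (fun δ => algebraMap (intRing p E) (intRing p L₀) (ε δ)) t)
          (⊤ : AddSubgroup (IsLocalRing.ResidueField (intRing p L₀)))) else 1) ≤
        Nat.card k ^ x t := by
    intro t _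
    by_cases hgood : ¬ p ∣ ramE p L₀ + t
    swap
    · rw [if_neg hgood]
      exact Nat.one_le_pow _ _ Nat.card_pos
    rw [if_pos hgood]
    have ht1 : t ≠ 1 := by
      rintro rfl
      apply hgood
      rw [hram', Nat.sub_add_cancel (Nat.one_le_pow _ _ (by omega))]
      exact Dvd.intro_left (p ^ 1) (by rw [← pow_succ])
    -- reduction to the inertia subgroup
    have h1 := card_gr_le p E L₀ (aVk p E L₀ ψ n)
      (fun δ => by rw [haV]; exact dsmul_surjective p (hc0 δ))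
      (fun δ => algebraMap (intRing p E) (intRing p L₀) (ε δ)) t
      (fun δ => (Ideal.Quotient.mk (mI p E) (ε δ)) ^ t)
      (fun δ => by rw [map_pow]; rfl)
    refine h1.trans ?_
    -- the evaluation
    have h2 := hEval k (resF p E) ι 2 hK (redHom p E L₀).ker
      (fun δ => c (δ : L₀ ≃ₐ[E] L₀))
      (fun δ => (Ideal.Quotient.mk (mI p E) (ε (δ : L₀ ≃ₐ[E] L₀))) ^ t)
    rw [haV]
    refine le_trans h2 (Nat.pow_le_pow_right Nat.card_pos ?_)
    -- the conditions imply `PairCond`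
    refine Finset.card_le_card ?_
    intro a ha'
    rw [Finset.mem_filter] at ha' ⊢
    obtain ⟨harange, ha⟩ := ha'
    refine ⟨harange, ht1, ?_⟩
    intro δ n' hin hact ε' hε'
    have hker := mem_ker_of_isInertial p E L₀ hin
    -- `ε' = ε δ`
    have hπ0 : π ≠ 0 := by
      intro h
      rw [h, zero_pow hm0] at hπ
      exact UnitLevelLoc4.natCast_ne_zero p L₀ (neg_eq_zero.1 hπ.symm)
    have h3 : algebraMap E L₀ ((ε δ : intRing p E) : E) = algebraMap E L₀ (ε' : E) := by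
      have h4 := congrArg (fun t : intRing p L₀ => (t : L₀)) (hε δ)
      simp only [coe_sig, Subalgebra.coe_mul, coe_algebraMap_intRing, hϖdef] at h4
      rw [← hε', mul_comm] at h4
      exact (mul_left_cancel₀ hπ0 h4).symm
    have h5 : ε δ = ε' := Subtype.ext ((algebraMap E L₀).injective h3)
    have h6 := ha ⟨δ, hker⟩
    simp only [hc] at h6
    rw [← h5]
    have h7 : ι (IsLocalRing.residue (intRing p E) (ε δ)) ^ (t * p ^ a) =
        (n δ : k) * (((ψ δ)⁻¹ : kˣ) : k) := by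
      rw [h6, map_pow, ← pow_mul]
      rfl
    rw [h7, ← mul_assoc, mul_comm ((ψ δ : kˣ) : k), mul_assoc, Units.mul_inv, mul_one]
    exact natCast_eq_of_actsOnMuAs p E hζ (hn δ) hact k
  -- assemble
  have htop := card_top_le p E L₀ ψ hζ n hn
  have hprod := Finset.prod_le_prod' hfac
  rw [Finset.prod_pow_eq_pow_sum] at hprod
  have hsum : ∑ t ∈ Finset.range (p + 1), x t =
      ((Finset.range (p + 1) ×ˢ Finset.range 2).filter
        (fun ta : ℕ × ℕ => ta.1 ≠ 1 ∧ PairCond p E L₀ ψ π ι ta.1 ta.2)).card := by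
    rw [Finset.card_filter, Finset.sum_product]
    refine Finset.sum_congr rfl (fun t _ => ?_)
    simp only [hx, Finset.card_filter]
  rw [hsum] at hprod
  calc _ ≤ Nat.card k ^ ((Finset.range (p + 1) ×ˢ Finset.range 2).filter
            (fun ta : ℕ × ℕ => ta.1 ≠ 1 ∧ PairCond p E L₀ ψ π ι ta.1 ta.2)).card *
          Nat.card k ^ (if ψ = 1 then 1 else 0) := Nat.mul_le_mul hprod htop
    _ = _ := by rw [← pow_add, add_comm]

end

end Fermat.Agent.ES.T56.KumCountF2_7
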