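/-
Programme T (S56), FLAT leg, chapter R′ (T56_FLAT14_Q.md, step Q1) — helper14.

THE TWIST MAP, in pure commutative algebra (no `p`-adic model here).

* `IsPres A B θ P` : `B = A[θ] ≅ A[X]/(P)` (monogenic presentation: `P` monic, `P(θ) = 0`, every
  element of `B` is a polynomial in `θ`, every relation is a multiple of `P`).
* `IsPres.exists_ringHom` : ring homomorphisms out of a presented ring.
* `exists_twist` : for `B = A[λ]/(λ^e - w)`, an ideal `I` of a `B`-algebra `B'` and `c : B'` with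
  `w * c ∈ I`, there is a ring homomorphism `ι : B → B'/I` which is the canonical map on `A`,
  sends `λ ↦ λ(1+c)`, and satisfies `ι x ≡ x mod λc` for every `x`, together with the level formula
  `ι (1 + λ^i β) = 1 + λ^i β + λ^i c (i β + c ρ₁ + λ ρ₂)`.
* `exists_lift_monic` : a monic lift `P^ι` of `ι(P)`.
* `exists_eta` : the extension `η : C = B[θ]/(P) → C'/J` of `ι` with `θ ↦ ϑ`, `P^ι(ϑ) = 0`.
* `exists_pow_sub_mem` : if `y ^ n = a` in `C` then `ỹ ^ n - a^ι ∈ J` for lifts `ỹ`, `a^ι`.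
-/
import Mathlib

set_option autoImplicit false

namespace Fermat.Agent.ES.T56.TwistMap14

open Polynomial

/-- `B = A[θ] ≅ A[X]/(P)`: a monogenic presentation of the `A`-algebra `B`. -/
structure IsPres (A B : Type*) [CommRing A] [CommRing B] [Algebra A B] (θ : B) (P : A[X]) :
    Prop where
  monic : P.Monic
  root : aeval θ P = 0
  surj : ∀ x : B, ∃ f : A[X], aeval θ f = x
  ker : ∀ f : A[X], aeval θ f = 0 → P ∣ f

section Pres

variable {A B : Type*} [CommRing A] [CommRing B] [Algebra A B] {θ : B} {P : A[X]}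

/-- Ring homomorphisms out of a presented ring. -/
theorem IsPres.exists_ringHom (h : IsPres A B θ P) {D : Type*} [CommRing D] (g : A →+* D) (y : D)
    (hy : eval₂ g y P = 0) :
    ∃ φ : B →+* D, (∀ a : A, φ (algebraMap A B a) = g a) ∧ φ θ = y ∧
      ∀ f : A[X], φ (aeval θ f) = eval₂ g y f := by
  have hroot : eval₂ (algebraMap A B) θ P = 0 := by rw [← aeval_def]; exact h.root
  -- the canonical map `A[X]/(P) → B`
  set can : AdjoinRoot P →+* B := AdjoinRoot.lift (algebraMap A B) θ hroot with hcan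
  have hcan_mk : ∀ f : A[X], can (AdjoinRoot.mk P f) = aeval θ f := by
    intro f
    rw [hcan, AdjoinRoot.lift_mk, aeval_def]
  have hbij : Function.Bijective can := by
    constructor
    · rw [injective_iff_map_eq_zero]
      intro x hx
      obtain ⟨f, rfl⟩ := AdjoinRoot.mk_surjective x
      rw [hcan_mk] at hx
      exact AdjoinRoot.mk_eq_zero.2 (h.ker f hx)
    · intro x
      obtain ⟨f, hf⟩ := h.surj x
      exact ⟨AdjoinRoot.mk P f, by rw [hcan_mk, hf]⟩
  set e : AdjoinRoot P ≃+* B := RingEquiv.ofBijective can hbij with he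
  have he_symm : ∀ f : A[X], e.symm (aeval θ f) = AdjoinRoot.mk P f := by
    intro f
    rw [RingEquiv.symm_apply_eq, he, RingEquiv.ofBijective_apply, hcan_mk]
  set φ : B →+* D := (AdjoinRoot.lift g y hy).comp (e.symm : B →+* AdjoinRoot P) with hφ
  have key : ∀ f : A[X], φ (aeval θ f) = eval₂ g y f := by
    intro f
    rw [hφ, RingHom.comp_apply, RingEquiv.coe_toRingHom, he_symm, AdjoinRoot.lift_mk]
  refine ⟨φ, ?_, ?_, key⟩
  · intro a
    have := key (C a)
    rwa [aeval_C, eval₂_C] at this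
  · have := key X
    rwa [aeval_X, eval₂_X] at this

end Pres

section Binomial

variable {R : Type*} [CommRing R]

/-- `(1 + c)^i = 1 + i c + c² q`. -/
theorem one_add_pow_eq (c : R) (i : ℕ) : ∃ q : R, (1 + c) ^ i = 1 + (i : R) * c + c ^ 2 * q := by
  induction i with
  | zero => exact ⟨0, by simp⟩
  | succ i ih =>
    obtain ⟨q, hq⟩ := ih
    refine ⟨q * (1 + c) + (i : R), ?_⟩
    rw [pow_succ, hq]
    push_cast
    ring

end Binomial

section Twist

variable {A B B' : Type*} [CommRing A] [CommRing B] [CommRing B'] [Algebra A B] [Algebra A B']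
  [Algebra B B'] [IsScalarTower A B B']

/-- **The twist.** `B = A[λ]/(λ^e - w)`, `I` an ideal of the `B`-algebra `B'`, `c : B'` with
`w c ∈ I`.  Then `λ ↦ λ(1+c)` defines a ring homomorphism `ι : B → B'/I` over `A`, congruent to the
canonical map modulo `λ c`. -/
theorem exists_twist (lam : B) (e : ℕ) (w : A) (hpres : IsPres A B lam (X ^ e - C w))
    (I : Ideal B') (c : B') (hc : algebraMap A B' w * c ∈ I) :
    ∃ ι : B →+* B' ⧸ I,
      (∀ a : A, ι (algebraMap A B a) = Ideal.Quotient.mk I (algebraMap A B' a)) ∧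
      ι lam = Ideal.Quotient.mk I (algebraMap B B' lam * (1 + c)) ∧
      ∀ x : B, ∃ γ : B', ι x = Ideal.Quotient.mk I (algebraMap B B' x + algebraMap B B' lam * c * γ) := by
  set g : A →+* B' ⧸ I := (Ideal.Quotient.mk I).comp (algebraMap A B') with hg
  set l' : B' := algebraMap B B' lam with hl'
  have hle : lam ^ e = algebraMap A B w := by
    have := hpres.root
    rw [map_sub, map_pow, aeval_X, aeval_C, sub_eq_zero] at this
    exact this
  have hle' : l' ^ e = algebraMap A B' w := by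
    rw [hl', ← map_pow, hle, ← IsScalarTower.algebraMap_apply]
  have hy : eval₂ g (Ideal.Quotient.mk I (l' * (1 + c))) (X ^ e - C w) = 0 := by
    rw [eval₂_sub, eval₂_pow, eval₂_X, eval₂_C, hg, RingHom.comp_apply, ← map_pow, ← map_sub,
      Ideal.Quotient.eq_zero_iff_mem]
    obtain ⟨q, hq⟩ := sub_dvd_pow_sub_pow (1 + c) 1 e
    have h1 : (l' * (1 + c)) ^ e - algebraMap A B' w = algebraMap A B' w * c * q := by
      rw [mul_pow, hle']
      have : (1 + c) ^ e = 1 + c * q := by
        have h2 : (1 + c) ^ e - 1 ^ e = (1 + c - 1) * q := hq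
        rw [one_pow, add_sub_cancel_left] at h2
        rw [← h2]; ring
      rw [this]; ring
    rw [h1]
    exact I.mul_mem_right q hc
  obtain ⟨ι, hιA, hιl, hιf⟩ := hpres.exists_ringHom g _ hy
  refine ⟨ι, ?_, hιl, ?_⟩
  · intro a
    rw [hιA a, hg, RingHom.comp_apply]
  · intro x
    obtain ⟨f, rfl⟩ := hpres.surj x
    rw [hιf f]
    set f' : B'[X] := f.map (algebraMap A B') with hf'
    have h1 : eval₂ g (Ideal.Quotient.mk I (l' * (1 + c))) f =
        Ideal.Quotient.mk I (eval (l' * (1 + c)) f') := by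
      rw [hg, hf', eval_map, ← hom_eval₂]
    have h2 : algebraMap B B' (aeval lam f) = eval l' f' := by
      rw [hf', eval_map, hl', aeval_def, hom_eval₂, ← IsScalarTower.algebraMap_eq]
    obtain ⟨γ, hγ⟩ := sub_dvd_eval_sub (l' * (1 + c)) l' f'
    refine ⟨γ, ?_⟩
    rw [h1, h2]
    congr 1
    have : l' * (1 + c) - l' = l' * c := by ring
    rw [this] at hγ
    rw [← hγ]; ring

/-- **Level formula for the twist**: `ι (1 + λ^i β) = 1 + λ^i β + λ^i c (i β + c ρ₁ + λ ρ₂)`. -/
theorem twist_level (lam : B) (I : Ideal B') (c : B') (ι : B →+* B' ⧸ I)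
    (hιl : ι lam = Ideal.Quotient.mk I (algebraMap B B' lam * (1 + c)))
    (hιx : ∀ x : B, ∃ γ : B',
      ι x = Ideal.Quotient.mk I (algebraMap B B' x + algebraMap B B' lam * c * γ))
    (i : ℕ) (β : B) :
    ∃ ρ₁ ρ₂ : B', ι (1 + lam ^ i * β) = Ideal.Quotient.mk I
      (algebraMap B B' (1 + lam ^ i * β) + algebraMap B B' lam ^ i * c *
        ((i : B') * algebraMap B B' β + c * ρ₁ + algebraMap B B' lam * ρ₂)) := by
  obtain ⟨γ, hγ⟩ := hιx β
  obtain ⟨q, hq⟩ := one_add_pow_eq c i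
  refine ⟨q * algebraMap B B' β, (1 + c) ^ i * γ, ?_⟩
  rw [map_add, map_one, map_mul, map_pow, hιl, hγ, ← map_pow, ← map_mul, ← map_one
    (Ideal.Quotient.mk I), ← map_add]
  congr 1
  rw [map_add, map_one, map_mul, map_pow, mul_pow, hq]
  ring

end Twist

section Eta

variable {B B' C C' : Type*} [CommRing B] [CommRing B'] [CommRing C] [CommRing C']
  [Algebra B C] [Algebra B' C']

/-- A monic lift `P^ι ∈ B'[X]` of the image `ι(P) ∈ (B'/I)[X]` of a monic polynomial. -/
theorem exists_lift_monic (I : Ideal B') (hI : I ≠ ⊤) (ι : B →+* B' ⧸ I) (P : B[X])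
    (hP : P.Monic) :
    ∃ Q : B'[X], Q.map (Ideal.Quotient.mk I) = P.map ι ∧ Q.natDegree = P.natDegree ∧ Q.Monic := by
  have : Nontrivial (B' ⧸ I) := Ideal.Quotient.nontrivial_iff.2 hI
  have hmem : P.map ι ∈ lifts (Ideal.Quotient.mk I) := by
    rw [mem_lifts]
    exact map_surjective _ Ideal.Quotient.mk_surjective _
  obtain ⟨Q, hQ, hdeg, hQm⟩ := lifts_and_degree_eq_and_monic hmem (hP.map ι)
  refine ⟨Q, hQ, ?_, hQm⟩
  have h1 : (P.map ι).natDegree = P.natDegree := hP.natDegree_map ι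
  rw [← h1]
  exact natDegree_eq_of_degree_eq hdeg

/-- **The extension `η` of the twist** to `C = B[θ]/(P)`: `θ ↦ ϑ`, where `ϑ ∈ C'` is a root of a
lift `Q = P^ι` of `ι(P)`; `J ⊇ I C'`. -/
theorem exists_eta (θ : C) (P : B[X]) (hpres : IsPres B C θ P) (I : Ideal B') (J : Ideal C')
    (hIJ : ∀ x ∈ I, algebraMap B' C' x ∈ J) (ι : B →+* B' ⧸ I) (Q : B'[X])
    (hQ : Q.map (Ideal.Quotient.mk I) = P.map ι) (ϑ : C') (hϑ : aeval ϑ Q = 0) :
    ∃ η : C →+* C' ⧸ J,
      (∀ x : B, ∀ x' : B', ι x = Ideal.Quotient.mk I x' →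
        η (algebraMap B C x) = Ideal.Quotient.mk J (algebraMap B' C' x')) ∧
      η θ = Ideal.Quotient.mk J ϑ := by
  -- the induced map `B'/I → C'/J`
  set qm : B' ⧸ I →+* C' ⧸ J :=
    Ideal.Quotient.lift I ((Ideal.Quotient.mk J).comp (algebraMap B' C')) (by
      intro x hx
      rw [RingHom.comp_apply, Ideal.Quotient.eq_zero_iff_mem]
      exact hIJ x hx) with hqm
  have hqm_mk : ∀ x' : B', qm (Ideal.Quotient.mk I x') =
      Ideal.Quotient.mk J (algebraMap B' C' x') := by
    intro x'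
    rw [hqm, Ideal.Quotient.lift_mk, RingHom.comp_apply]
  have hcomp : qm.comp (Ideal.Quotient.mk I) = (Ideal.Quotient.mk J).comp (algebraMap B' C') := by
    ext x'
    exact hqm_mk x'
  have hy : eval₂ (qm.comp ι) (Ideal.Quotient.mk J ϑ) P = 0 := by
    rw [← eval_map, ← map_map, ← hQ, map_map, hcomp, eval_map, ← hom_eval₂, ← aeval_def, hϑ,
      map_zero]
  obtain ⟨η, hηB, hηθ, -⟩ := hpres.exists_ringHom (qm.comp ι) _ hy
  refine ⟨η, ?_, hηθ⟩
  intro x x' hx
  rw [hηB x, RingHom.comp_apply, hx, hqm_mk]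

/-- If `y ^ n = a` in `C` (`a ∈ B`), then any lifts `ỹ ∈ C'` of `η y` and `a' ∈ B'` of `ι a`
satisfy `ỹ ^ n - a' ∈ J`. -/
theorem pow_sub_mem (I : Ideal B') (J : Ideal C') (ι : B →+* B' ⧸ I) (η : C →+* C' ⧸ J)
    (hη : ∀ x : B, ∀ x' : B', ι x = Ideal.Quotient.mk I x' →
        η (algebraMap B C x) = Ideal.Quotient.mk J (algebraMap B' C' x'))
    (n : ℕ) (a : B) (y : C) (hy : y ^ n = algebraMap B C a) (a' : B')
    (ha' : ι a = Ideal.Quotient.mk I a') (y' : C') (hy' : η y = Ideal.Quotient.mk J y') :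
    y' ^ n - algebraMap B' C' a' ∈ J := by
  rw [← Ideal.Quotient.eq_zero_iff_mem, map_sub, map_pow, ← hy', ← map_pow, hy, hη a a' ha',
    sub_self]

end Eta

end Fermat.Agent.ES.T56.TwistMap14
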