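/-
Programme T (S56), FLAT leg, chapter R′ — helper14.

INTERFACE between `TameStructure8` (helper8: structure of a `p`-adic field `Ls` over its maximal
unramified subfield `K` and its maximal tamely ramified subfield `T`) and the twist bricks
`TwistMap14`/`TwistEmbed14`/`TwistLevel14`/`RPrime14` (helper14).

* `IsTameTower p K T Ls e d lam w θ P` (for abstract model fields `K → T → Ls`):
  `𝒪_T = 𝒪_K[λ]/(λ^e - w)`, `w = p·unit`, `p ∤ e`, `λ` a uniformizer of `T`;
  `𝒪_Ls = 𝒪_T[θ]/(P)`, `deg P = [Ls : T] = d = p^s`.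
* `inclAlg h`, `inclTower h` : the algebra `↥K → ↥T` of two intermediate fields `K ≤ T`.
* `TameStructureStatement p` : every `p`-adic field `Ls` with a tamely ramified subfield `L₀` has
  such a tower with `L₀ ≤ T`.
-/
import Mathlib
import Fermat.Agent.PT.LOC.Interface12
import Fermat.Agent.PT.LOC.Structure14
import Fermat.Agent.PT.LOC.StructureTower27
import Fermat.Agent.ES.T56.FlatRIface14
import Fermat.Agent.ES.T56.TwistMap14

set_option autoImplicit false

namespace Fermat.Agent.ES.T56.TameIface14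

open scoped Fermat.Agent.PT.LOC.Interface12 Fermat.Agent.PT.LOC.StructureTower27
open Fermat.Agent.PT.LOC.Interface12 Fermat.Agent.PT.LOC.Structure14
  Fermat.Agent.PT.LOC.StructureTower27 Fermat.Agent.ES.T56.FlatRIface14
  Fermat.Agent.ES.T56.TwistMap14 Polynomial

noncomputable section

variable (p : ℕ) [Fact p.Prime]

/-- The tame tower `K ⊆ T ⊆ Ls` with its two monogenic presentations. -/
structure IsTameTower (K T Ls : Type) [Field K] [Field T] [Field Ls]
    [Algebra ℚ_[p] K] [Algebra ℚ_[p] T] [Algebra ℚ_[p] Ls]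
    [FiniteDimensional ℚ_[p] K] [FiniteDimensional ℚ_[p] T] [FiniteDimensional ℚ_[p] Ls]
    [Algebra K T] [Algebra T Ls] [IsScalarTower ℚ_[p] K T] [IsScalarTower ℚ_[p] T Ls]
    (e d : ℕ) (lam : intRing p T) (w : intRing p K) (θ : intRing p Ls)
    (P : (intRing p T)[X]) : Prop where
  e_ndvd : ¬ p ∣ e
  d_pow : ∃ s : ℕ, d = p ^ s
  w_eq : ∃ u : (intRing p K)ˣ, w = (p : intRing p K) * u
  presT : IsPres (intRing p K) (intRing p T) lam (X ^ e - C w)
  lam_unif : IsUniformizer p T (lam : T)
  presLs : IsPres (intRing p T) (intRing p Ls) θ P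
  degP : P.natDegree = d
  finrank_Ls : Module.finrank T Ls = d

section Incl

variable {p} {Ls : Type} [Field Ls] [Algebra ℚ_[p] Ls]

/-- The algebra structure `↥K → ↥T` for intermediate fields `K ≤ T`. -/
@[reducible] def inclAlg {K T : IntermediateField ℚ_[p] Ls} (h : K ≤ T) : Algebra K T :=
  (IntermediateField.inclusion h).toRingHom.toAlgebra

theorem inclTower {K T : IntermediateField ℚ_[p] Ls} (h : K ≤ T) :
    @IsScalarTower ℚ_[p] K T _ (inclAlg h).toSMul _ := by
  let _ := inclAlg h
  refine IsScalarTower.of_algebraMap_eq fun x => ?_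
  exact ((IntermediateField.inclusion h).commutes x).symm

end Incl

/-- **Statement of `TameStructure8`.** -/
def TameStructureStatement : Prop :=
  ∀ (Ls : Type) [Field Ls] [Algebra ℚ_[p] Ls] [FiniteDimensional ℚ_[p] Ls]
    (L₀ : IntermediateField ℚ_[p] Ls), ¬ (p : ℤ) ∣ ramIdxZ p L₀ →
    ∃ (K T : IntermediateField ℚ_[p] Ls) (h : K ≤ T), L₀ ≤ T ∧
      ∃ (e d : ℕ) (lam : intRing p T) (w : intRing p K) (θ : intRing p Ls)
        (P : (intRing p T)[X]),
        @IsTameTower p _ K T Ls _ _ _ _ _ _ _ _ _ (inclAlg h) _ (inclTower h) _ e d lam w θ P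

end

end Fermat.Agent.ES.T56.TameIface14
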