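/-
Programme T (S56), chapter FLAT, common brick (c1) `TameStructure`, unramified part (helper8).

**The maximal unramified subfield `K = ℚ_p(ζ)` of a `p`-adic field `E`** (PT/LOC model),
`ζ` a primitive `(Q - 1)`-th root of unity, `Q = resCard p E`.

* `isUniformizer_p` / `irreducible_p` : `p` is a uniformizer of `ℚ_p`;
* `addVal_p` : `v_E(p) = e(E/ℚ_p)`;
* `pow_resCard_sub_one_eq_one` : a root of unity of order prime to `p` in `E` is a `(Q-1)`-th root
  of unity; `exists_pow_eq_of_pow_eq_one` : hence a power of `ζ`;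
* `exists_pow_sub_mem_maximalIdeal` : every unit of `𝒪_E` is `≡ ζ^j` modulo `𝔪_E`;
* `isGalois_adjoin`, `isUnramified_adjoin` : `ℚ_p(ζ_m)/ℚ_p` is Galois and unramified for `p ∤ m`;
* `resDeg_adjoin_eq_one` : `f(E/ℚ_p(ζ)) = 1`;
* `irreducible_p_adjoin` : `p` is a uniformizer of `ℚ_p(ζ_m)`, `p ∤ m`;
* `ramIdx_adjoin` : `e(E/ℚ_p(ζ_m)) = e(E/ℚ_p)`.
-/
import Mathlib
import Fermat.Agent.PT.LOC.RootsUnity14
import Fermat.Agent.PT.LOC.Teichmuller14
import Fermat.Agent.ES.T56.EisModel8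

set_option autoImplicit false
set_option linter.unusedSectionVars false

open IsDiscreteValuationRing Polynomial

open scoped Fermat.Agent.PT.LOC.Interface12 Fermat.Agent.PT.LOC.StructureTower27 IntermediateField
open Fermat.Agent.PT.LOC.Interface12 Fermat.Agent.PT.LOC.Structure14
  Fermat.Agent.PT.LOC.StructureNorm14 Fermat.Agent.PT.LOC.StructureTower27
  Fermat.Agent.PT.LOC.StructureTowerEF27 Fermat.Agent.PT.LOC.Unram11
  Fermat.Agent.PT.LOC.RootsUnity14 Fermat.Agent.PT.LOC.Teichmuller14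

namespace Fermat.Agent.ES.T56.MaxUnram8

noncomputable section

variable (p : ℕ) [Fact p.Prime]

theorem exponent_eq_one_of_le {a b f : ℕ} (ha : 1 < a) (hf : 0 < f) (h : b = a ^ f)
    (hle : b ≤ a) : f = 1 := by
  by_contra hne
  have h2 : 2 ≤ f := by omega
  have h3 : a ^ 2 ≤ b := by
    rw [h]
    exact Nat.pow_le_pow_right (by omega) h2
  nlinarith

/-! ### The base field `ℚ_p` -/

theorem mem_intRing_base_iff (x : ℚ_[p]) : x ∈ intRing p ℚ_[p] ↔ ‖x‖ ≤ 1 := by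
  rw [mem_intRing_iff]
  have h := snorm_algebraMap p ℚ_[p] x
  rw [Algebra.algebraMap_self_apply] at h
  change snorm p ℚ_[p] x ≤ 1 ↔ _
  rw [h]

/-- `p` is a uniformizer of `ℚ_p`. -/
theorem isUniformizer_p : IsUniformizer p ℚ_[p] (p : ℚ_[p]) := by
  have hp : (p : ℚ_[p]) ≠ 0 := by exact_mod_cast (Fact.out : p.Prime).ne_zero
  have hp1 : (1 : ℝ) < p := by exact_mod_cast (Fact.out : p.Prime).one_lt
  refine ⟨?_, hp, ?_, ?_⟩
  · rw [mem_intRing_base_iff, Padic.norm_p]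
    exact inv_le_one_of_one_le₀ hp1.le
  · rw [mem_intRing_base_iff, norm_inv, Padic.norm_p, inv_inv]
    exact not_le.mpr hp1
  · intro x hx hxi
    rw [mem_intRing_base_iff] at hx hxi ⊢
    have hx0 : x ≠ 0 := by
      rintro rfl
      rw [inv_zero, norm_zero] at hxi
      exact hxi zero_le_one
    have hlt : ‖x‖ < 1 := by
      rw [norm_inv, not_le] at hxi
      have hpos : 0 < ‖x‖ := norm_pos_iff.mpr hx0
      rw [one_lt_inv₀ hpos] at hxi
      exact hxi
    let z : ℤ_[p] := ⟨x, hx⟩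
    have hdvd : (p : ℤ_[p]) ∣ z := (PadicInt.norm_lt_one_iff_dvd z).mp hlt
    obtain ⟨y, hy⟩ := hdvd
    have hxy : x = (p : ℚ_[p]) * (y : ℚ_[p]) := by
      have := congrArg (Subtype.val) hy
      simpa using this
    rw [hxy, mul_comm, ← mul_assoc, inv_mul_cancel₀ hp, one_mul]
    exact y.2

theorem natCast_coe (E : Type) [Field E] [Algebra ℚ_[p] E] (n : ℕ) :
    (((n : ℕ) : intRing p E) : E) = (n : E) := by
  simp

/-- `p` is irreducible in `ℤ_p = intRing p ℚ_[p]`. -/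
theorem irreducible_p : Irreducible ((p : ℕ) : intRing p ℚ_[p]) := by
  rw [← isUniformizer_iff_irreducible, natCast_coe]
  exact isUniformizer_p p

section Field

variable (E : Type) [Field E] [Algebra ℚ_[p] E] [FiniteDimensional ℚ_[p] E]

/-- `v_E(p) = e(E/ℚ_p)`. -/
theorem addVal_p :
    addVal (intRing p E) ((p : ℕ) : intRing p E) = (ramIdx p ℚ_[p] E : ℕ∞) := by
  have h := EisModel8.addVal_algebraMap_irreducible p ℚ_[p] E (irreducible_p p)
  rwa [map_natCast] at h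

include p in
theorem prime_ne_zero_of_not_dvd {m : ℕ} (hm : ¬ p ∣ m) : m ≠ 0 := by
  rintro rfl
  exact hm (dvd_zero p)

/-- A root of unity of order prime to `p` is a `(Q - 1)`-th root of unity, `Q = resCard p E`. -/
theorem pow_resCard_sub_one_eq_one {m : ℕ} (hm : ¬ p ∣ m) {η : E} (hη : η ^ m = 1) :
    η ^ (resCard p E - 1) = 1 := by
  have hm0 : m ≠ 0 := prime_ne_zero_of_not_dvd p hm
  have hmem : η ∈ intRing p E := mem_intRing_of_pow_eq_one p E hm0 hη
  set x : intRing p E := ⟨η, hmem⟩ with hx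
  have hxm : x ^ m = 1 := Subtype.ext (by simpa using hη)
  have hunit : IsUnit x := IsUnit.of_pow_eq_one hxm hm0
  have hres0 : IsLocalRing.residue (intRing p E) x ≠ 0 := by
    intro h
    rw [IsLocalRing.residue_eq_zero_iff] at h
    exact (IsLocalRing.mem_maximalIdeal x).mp h hunit
  have hfin : Fintype (resField p E) := Fintype.ofFinite _
  have hpow := FiniteField.pow_card_sub_one_eq_one (IsLocalRing.residue (intRing p E) x) hres0
  rw [← Nat.card_eq_fintype_card, card_resField] at hpow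
  have hmem2 : x ^ (resCard p E - 1) - 1 ∈ IsLocalRing.maximalIdeal (intRing p E) := by
    rw [← IsLocalRing.residue_eq_zero_iff, map_sub, map_pow, hpow, map_one, sub_self]
  have heq := eq_of_sub_mem_maximalIdeal p E hm (ζ := x ^ (resCard p E - 1)) (ζ' := 1)
    (by rw [← pow_mul, mul_comm, pow_mul, hxm, one_pow]) (one_pow m) hmem2
  have := congrArg Subtype.val heq
  simpa using this

/-- Roots of unity of order prime to `p` in `E` are powers of a primitive `(Q - 1)`-th root of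
unity. -/
theorem exists_pow_eq_of_pow_eq_one {ζ : E} (hζ : IsPrimitiveRoot ζ (resCard p E - 1)) {m : ℕ}
    (hm : ¬ p ∣ m) {η : E} (hη : η ^ m = 1) : ∃ i < resCard p E - 1, ζ ^ i = η := by
  have hQ : resCard p E - 1 ≠ 0 := by
    have := one_lt_resCard p E
    omega
  have : NeZero (resCard p E - 1) := ⟨hQ⟩
  exact hζ.eq_pow_of_pow_eq_one (pow_resCard_sub_one_eq_one p E hm hη)

theorem not_dvd_resCard_sub_one : ¬ p ∣ resCard p E - 1 := by
  have := not_dvd_resCard_pow_sub_one p E 1 one_pos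
  rwa [pow_one] at this

/-- Every unit of `𝒪_E` is congruent to a power of `ζ` modulo the maximal ideal. -/
theorem exists_pow_sub_mem_maximalIdeal {ζ : intRing p E}
    (hζ : IsPrimitiveRoot ζ (resCard p E - 1)) {u : intRing p E} (hu : IsUnit u) :
    ∃ j : ℕ, u - ζ ^ j ∈ IsLocalRing.maximalIdeal (intRing p E) := by
  classical
  have hQ : 1 < resCard p E := one_lt_resCard p E
  have hfin : Fintype (resField p E) := Fintype.ofFinite _
  have hcard : Fintype.card (resField p E) = resCard p E := by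
    rw [← Nat.card_eq_fintype_card, card_resField]
  -- the residue of `ζ` is again primitive
  have hζ1 : ζ ^ (resCard p E - 1) = 1 := hζ.pow_eq_one
  have hζres : IsPrimitiveRoot (IsLocalRing.residue (intRing p E) ζ) (resCard p E - 1) := by
    rw [IsPrimitiveRoot.iff_def]
    refine ⟨by rw [← map_pow, hζ1, map_one], fun l hl => ?_⟩
    apply hζ.dvd_of_pow_eq_one
    have hmem : ζ ^ l - 1 ∈ IsLocalRing.maximalIdeal (intRing p E) := by
      rw [← IsLocalRing.residue_eq_zero_iff, map_sub, map_pow, hl, map_one, sub_self]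
    exact eq_of_sub_mem_maximalIdeal p E (not_dvd_resCard_sub_one p E) (ζ := ζ ^ l) (ζ' := 1)
      (by rw [← pow_mul, mul_comm, pow_mul, hζ1, one_pow]) (one_pow _) hmem
  have hures0 : IsLocalRing.residue (intRing p E) u ≠ 0 := by
    intro h
    rw [IsLocalRing.residue_eq_zero_iff] at h
    exact (IsLocalRing.mem_maximalIdeal u).mp h hu
  have hupow := FiniteField.pow_card_sub_one_eq_one (IsLocalRing.residue (intRing p E) u) hures0
  rw [hcard] at hupow
  have : NeZero (resCard p E - 1) := ⟨by omega⟩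
  obtain ⟨j, -, hj⟩ := hζres.eq_pow_of_pow_eq_one hupow
  refine ⟨j, ?_⟩
  rw [← IsLocalRing.residue_eq_zero_iff, map_sub, map_pow, hj, sub_self]

/-! ### `ℚ_p(ζ_m)`, `p ∤ m` -/

theorem isGalois_adjoin {m : ℕ} (hm0 : m ≠ 0) {ζ : E} (hζ : IsPrimitiveRoot ζ m) :
    IsGalois ℚ_[p] ℚ_[p]⟮ζ⟯ := by
  have : NeZero m := ⟨hm0⟩
  have := hζ.intermediateField_adjoin_isCyclotomicExtension ℚ_[p]
  exact IsCyclotomicExtension.isGalois {m} ℚ_[p] ℚ_[p]⟮ζ⟯

theorem adjoin_gen_eq_top (ζ : E) :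
    Algebra.adjoin ℚ_[p] {IntermediateField.AdjoinSimple.gen ℚ_[p] ζ} =
      (⊤ : Subalgebra ℚ_[p] ℚ_[p]⟮ζ⟯) := by
  have halg : IsIntegral ℚ_[p] ζ := IsIntegral.of_finite ℚ_[p] ζ
  have h := (IntermediateField.adjoin.powerBasis halg).adjoin_gen_eq_top
  rwa [IntermediateField.adjoin.powerBasis_gen] at h

/-- **Adjoining a root of unity of order prime to `p` gives an unramified extension.** -/
theorem isUnramified_adjoin {m : ℕ} (hm : ¬ p ∣ m) {ζ : E} (hζ : IsPrimitiveRoot ζ m) :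
    IsUnramified p ℚ_[p] ℚ_[p]⟮ζ⟯ := by
  have hm0 : m ≠ 0 := prime_ne_zero_of_not_dvd p hm
  have := isGalois_adjoin p E hm0 hζ
  refine isUnramified_of_redHom_injective p ℚ_[p] ℚ_[p]⟮ζ⟯ ?_
  refine redHom_injective_of_adjoin p ℚ_[p] ℚ_[p]⟮ζ⟯ hm
    {IntermediateField.AdjoinSimple.gen ℚ_[p] ζ} ?_ (adjoin_gen_eq_top p E ζ)
  intro η hη
  rw [Set.mem_singleton_iff] at hη
  rw [hη]
  apply Subtype.ext
  rw [SubmonoidClass.coe_pow, IntermediateField.AdjoinSimple.coe_gen, hζ.pow_eq_one]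
  rfl

/-- `p` is a uniformizer of `ℚ_p(ζ_m)`, `p ∤ m`. -/
theorem irreducible_p_adjoin {m : ℕ} (hm : ¬ p ∣ m) {ζ : E} (hζ : IsPrimitiveRoot ζ m) :
    Irreducible ((p : ℕ) : intRing p ℚ_[p]⟮ζ⟯) := by
  rw [← isUniformizer_iff_irreducible, natCast_coe]
  have h := isUnramified_adjoin p E hm hζ (p : ℚ_[p]) (isUniformizer_p p)
  rwa [map_natCast] at h

/-- `e(ℚ_p(ζ_m)/ℚ_p) = 1`, `p ∤ m`. -/
theorem ramIdx_base_adjoin {m : ℕ} (hm : ¬ p ∣ m) {ζ : E} (hζ : IsPrimitiveRoot ζ m) :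
    ramIdx p ℚ_[p] ℚ_[p]⟮ζ⟯ = 1 :=
  (isUnramified_iff p ℚ_[p] ℚ_[p]⟮ζ⟯).mp (isUnramified_adjoin p E hm hζ)

/-- `e(E/ℚ_p(ζ_m)) = e(E/ℚ_p)`, `p ∤ m`. -/
theorem ramIdx_adjoin {m : ℕ} (hm : ¬ p ∣ m) {ζ : E} (hζ : IsPrimitiveRoot ζ m) :
    ramIdx p ℚ_[p]⟮ζ⟯ E = ramIdx p ℚ_[p] E := by
  rw [ramIdx_tower p ℚ_[p] ℚ_[p]⟮ζ⟯ E, ramIdx_base_adjoin p E hm hζ, one_mul]

/-- **`f(E/ℚ_p(ζ)) = 1`** for a primitive `(Q - 1)`-th root of unity `ζ`, `Q = resCard p E`. -/
theorem resDeg_adjoin_eq_one {ζ : E} (hζ : IsPrimitiveRoot ζ (resCard p E - 1)) :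
    resDeg p ℚ_[p]⟮ζ⟯ E = 1 := by
  have hQ : 1 < resCard p E := one_lt_resCard p E
  have hQK : 1 < resCard p ℚ_[p]⟮ζ⟯ := one_lt_resCard p ℚ_[p]⟮ζ⟯
  have htower := resCard_tower p ℚ_[p]⟮ζ⟯ E
  -- the generator is a primitive `(Q - 1)`-th root of unity of `K`
  have hgen : IsPrimitiveRoot (IntermediateField.AdjoinSimple.gen ℚ_[p] ζ) (resCard p E - 1) := by
    rw [← IsPrimitiveRoot.coe_submonoidClass_iff, IntermediateField.AdjoinSimple.coe_gen]
    exact hζ
  have h1 := pow_resCard_sub_one_eq_one p ℚ_[p]⟮ζ⟯ (not_dvd_resCard_sub_one p E) hgen.pow_eq_one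
  have hdvd := hgen.dvd_of_pow_eq_one _ h1
  have hle : resCard p E ≤ resCard p ℚ_[p]⟮ζ⟯ := by
    have := Nat.le_of_dvd (by omega) hdvd
    omega
  exact exponent_eq_one_of_le hQK (resDeg_pos p ℚ_[p]⟮ζ⟯ E) htower hle

end Field

end

end Fermat.Agent.ES.T56.MaxUnram8
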