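/-
Programme T (S56), chapter FLAT, common brick (c1) `TameStructure`, tame part (helper8).

**The maximal tamely ramified subfield `T = K(λ)` of a `p`-adic field `E`** (PT/LOC model).
`ζ ∈ E` a primitive `(Q - 1)`-th root of unity (`Q = resCard p E`), `K = ℚ_p(ζ)` (`unrField`),
`e(E/ℚ_p) = e' · p^s` with `p ∤ e'`.

* `exists_tame_uniformizer` : there are `λ ∈ 𝒪_E` and `j` with `λ^{e'} = p · ζ^j` (Hensel in
  `1 + 𝔪_E`) and `v_E(λ) = p^s`;
* `tameField_structure` : for any such `λ`, `T := K(λ)` (`tameField`, an intermediate field of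
  `E/K`) satisfies: `λ` is a uniformizer of `T`, `e(T/K) = e' = [T : K]`, `f(T/K) = 1`,
  `𝒪_T = 𝒪_K[λ]`, and `e(E/T) = p^s = [E : T]`, `f(E/T) = 1`;
* `wild_top_structure` : consequently a uniformizer `θ` of `E` is a root of a monic Eisenstein
  polynomial of degree `p^s` over `𝒪_T` and `𝒪_E = 𝒪_T[θ]`;
* `exists_tame_data` : existence of `ζ, λ, e', s, j` for every `E`.

Two `Prop`-valued instances missing from Mathlib for `T : IntermediateField ↥K E`,
`K : IntermediateField ℚ_[p] E`, are declared as scoped instances.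
-/
import Mathlib
import Fermat.Agent.ES.T56.MaxUnram8

set_option autoImplicit false
set_option linter.unusedSectionVars false

open IsDiscreteValuationRing Polynomial

open scoped Fermat.Agent.PT.LOC.Interface12 Fermat.Agent.PT.LOC.StructureTower27 IntermediateField
open Fermat.Agent.PT.LOC.Interface12 Fermat.Agent.PT.LOC.Structure14
  Fermat.Agent.PT.LOC.StructureNorm14 Fermat.Agent.PT.LOC.StructureTower27
  Fermat.Agent.PT.LOC.StructureTowerEF27 Fermat.Agent.PT.LOC.RootsUnity14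

namespace Fermat.Agent.ES.T56.TameGen8

noncomputable section

variable (p : ℕ) [Fact p.Prime]
variable (E : Type) [Field E] [Algebra ℚ_[p] E] [FiniteDimensional ℚ_[p] E]

section Instances

variable (K : IntermediateField ℚ_[p] E) (T : IntermediateField K E)

scoped instance isScalarTower_mid : IsScalarTower ℚ_[p] T E :=
  IsScalarTower.of_algebraMap_eq (fun _ => rfl)

scoped instance finiteDimensional_mid : FiniteDimensional ℚ_[p] T :=
  Module.Finite.trans K T

end Instances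

/-- The field `K = ℚ_p(ζ)`. -/
abbrev unrField (ζ : E) : IntermediateField ℚ_[p] E := ℚ_[p]⟮ζ⟯

/-- The field `T = K(λ)`, `K = ℚ_p(ζ)`. -/
abbrev tameField (ζ lam : E) : IntermediateField (unrField p E ζ) E := (unrField p E ζ)⟮lam⟯

/-! ### The tame uniformizer -/

/-- A natural number prime to `p` is a unit of `𝒪_E`. -/
theorem isUnit_natCast {m : ℕ} (hm : ¬ p ∣ m) : IsUnit ((m : ℕ) : intRing p E) := by
  by_contra h
  have hmem : ((m : ℕ) : intRing p E) ∈ IsLocalRing.maximalIdeal (intRing p E) :=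
    (IsLocalRing.mem_maximalIdeal _).mpr h
  rw [mem_maximalIdeal_iff_snorm, MaxUnram8.natCast_coe, snorm_natCast_eq_one p E hm] at hmem
  exact lt_irrefl _ hmem

/-- **Hensel**: a unit `≡ 1 mod 𝔪_E` is an `m`-th power of a unit `≡ 1 mod 𝔪_E`, `p ∤ m`. -/
theorem exists_pow_eq_of_sub_one_mem {m : ℕ} (hm : ¬ p ∣ m) {u : intRing p E}
    (hu : u - 1 ∈ IsLocalRing.maximalIdeal (intRing p E)) :
    ∃ w : intRing p E, w ^ m = u ∧ w - 1 ∈ IsLocalRing.maximalIdeal (intRing p E) := by
  have hm0 : m ≠ 0 := MaxUnram8.prime_ne_zero_of_not_dvd p hm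
  have hmonic : (X ^ m - C u : (intRing p E)[X]).Monic := monic_X_pow_sub_C u hm0
  have h1 : (X ^ m - C u : (intRing p E)[X]).eval 1 ∈ IsLocalRing.maximalIdeal (intRing p E) := by
    rw [eval_sub, eval_pow, eval_X, eval_C, one_pow, ← neg_sub]
    exact neg_mem hu
  have h2 : IsUnit (Ideal.Quotient.mk (IsLocalRing.maximalIdeal (intRing p E))
      ((X ^ m - C u : (intRing p E)[X]).derivative.eval 1)) := by
    rw [derivative_sub, derivative_C, sub_zero, derivative_X_pow, eval_mul, eval_C, eval_pow,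
      eval_X, one_pow, mul_one]
    exact (isUnit_natCast p E hm).map _
  obtain ⟨w, hroot, hcong⟩ := HenselianRing.is_henselian
    (I := IsLocalRing.maximalIdeal (intRing p E)) _ hmonic 1 h1 h2
  refine ⟨w, ?_, hcong⟩
  rw [IsRoot.def, eval_sub, eval_pow, eval_X, eval_C, sub_eq_zero] at hroot
  exact hroot

theorem isUnit_of_sub_one_mem {w : intRing p E}
    (hw : w - 1 ∈ IsLocalRing.maximalIdeal (intRing p E)) : IsUnit w := by
  by_contra h
  have hmem : w ∈ IsLocalRing.maximalIdeal (intRing p E) := (IsLocalRing.mem_maximalIdeal _).mpr h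
  have h1 : (1 : intRing p E) ∈ IsLocalRing.maximalIdeal (intRing p E) := by
    have := sub_mem hmem hw
    rwa [sub_sub_cancel] at this
  exact (Ideal.ne_top_iff_one _).mp (IsLocalRing.maximalIdeal.isMaximal _).ne_top h1

/-- **The tame uniformizer**: if `e(E/ℚ_p) = e' p^s` with `p ∤ e'`, there are `λ ∈ 𝒪_E` and `j` with
`λ^{e'} = p ζ^j` and `v_E(λ) = p^s`. -/
theorem exists_tame_uniformizer {ζ : E} (hζ : IsPrimitiveRoot ζ (resCard p E - 1)) {e' s : ℕ}
    (he : ramIdx p ℚ_[p] E = e' * p ^ s) (hpe : ¬ p ∣ e') :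
    ∃ (lam : intRing p E) (j : ℕ), (lam : E) ^ e' = (p : E) * ζ ^ j ∧
      addVal (intRing p E) lam = ((p ^ s : ℕ) : ℕ∞) := by
  have hQ : resCard p E - 1 ≠ 0 := by
    have := one_lt_resCard p E
    omega
  have hζmem : ζ ∈ intRing p E := mem_intRing_of_pow_eq_one p E hQ hζ.pow_eq_one
  set ζB : intRing p E := ⟨ζ, hζmem⟩ with hζB
  have hζBprim : IsPrimitiveRoot ζB (resCard p E - 1) := by
    rw [← IsPrimitiveRoot.coe_submonoidClass_iff]
    exact hζ
  have hζBunit : IsUnit ζB := IsUnit.of_pow_eq_one hζBprim.pow_eq_one hQ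
  obtain ⟨π, hπ⟩ := exists_irreducible (intRing p E)
  -- `p = π^e · unit`
  have hass : Associated ((p : ℕ) : intRing p E) (π ^ (e' * p ^ s)) := by
    rw [← addVal_eq_iff_associated, MaxUnram8.addVal_p, he, addVal_pow, addVal_uniformizer hπ,
      nsmul_eq_mul, mul_one]
  obtain ⟨u, hu⟩ := hass
  obtain ⟨j, hj⟩ := MaxUnram8.exists_pow_sub_mem_maximalIdeal p E hζBprim u.isUnit
  -- `u₁ = ζ^j u⁻¹ ≡ 1`
  have hu1 : ζB ^ j * ((u⁻¹ : (intRing p E)ˣ) : intRing p E) - 1 ∈
      IsLocalRing.maximalIdeal (intRing p E) := by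
    have h : ζB ^ j * ((u⁻¹ : (intRing p E)ˣ) : intRing p E) - 1 =
        -((u : intRing p E) - ζB ^ j) * ((u⁻¹ : (intRing p E)ˣ) : intRing p E) := by
      have hinv : (u : intRing p E) * ((u⁻¹ : (intRing p E)ˣ) : intRing p E) = 1 := u.mul_inv
      linear_combination hinv
    rw [h]
    exact Ideal.mul_mem_right _ _ (neg_mem hj)
  obtain ⟨w, hw, hw1⟩ := exists_pow_eq_of_sub_one_mem p E hpe hu1
  have hwunit : IsUnit w := isUnit_of_sub_one_mem p E hw1
  refine ⟨π ^ (p ^ s) * w, j, ?_, ?_⟩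
  · have hB : (π ^ (p ^ s) * w) ^ e' = ((p : ℕ) : intRing p E) * ζB ^ j := by
      have hinv : (u : intRing p E) * ((u⁻¹ : (intRing p E)ˣ) : intRing p E) = 1 := u.mul_inv
      rw [mul_pow, ← pow_mul, mul_comm (p ^ s) e', ← hu, hw]
      linear_combination ((p : ℕ) : intRing p E) * ζB ^ j * hinv
    have := congrArg (Subtype.val) hB
    simpa [hζB] using this
  · rw [addVal_mul, addVal_pow, addVal_uniformizer hπ, addVal_eq_zero_iff.mpr hwunit, add_zero,
      nsmul_eq_mul, mul_one]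

/-! ### The tower `K ⊆ T ⊆ E` -/

section TameTower

variable {ζ : E} {e' s j : ℕ} {lam : E}

theorem zeta_mem_intRing (hζ : IsPrimitiveRoot ζ (resCard p E - 1)) :
    IntermediateField.AdjoinSimple.gen ℚ_[p] ζ ∈ intRing p (unrField p E ζ) := by
  have hQ : resCard p E - 1 ≠ 0 := by
    have := one_lt_resCard p E
    omega
  refine mem_intRing_of_pow_eq_one p (unrField p E ζ) hQ ?_
  apply Subtype.ext
  rw [SubmonoidClass.coe_pow, IntermediateField.AdjoinSimple.coe_gen, hζ.pow_eq_one]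
  rfl

theorem lam_mem_intRing (hζ : IsPrimitiveRoot ζ (resCard p E - 1)) (hpe : ¬ p ∣ e')
    (hlam : lam ^ e' = (p : E) * ζ ^ j) : lam ∈ intRing p E := by
  have hQ : resCard p E - 1 ≠ 0 := by
    have := one_lt_resCard p E
    omega
  have hζmem : ζ ∈ intRing p E := mem_intRing_of_pow_eq_one p E hQ hζ.pow_eq_one
  have hpow : lam ^ e' ∈ intRing p E := by
    rw [hlam]
    exact mul_mem (natCast_q_mem p E) (pow_mem hζmem j)
  exact IsIntegral.of_pow (Nat.pos_of_ne_zero (MaxUnram8.prime_ne_zero_of_not_dvd p hpe)) hpow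

theorem gen_mem_intRing (hζ : IsPrimitiveRoot ζ (resCard p E - 1)) (hpe : ¬ p ∣ e')
    (hlam : lam ^ e' = (p : E) * ζ ^ j) :
    IntermediateField.AdjoinSimple.gen (unrField p E ζ) lam ∈ intRing p (tameField p E ζ lam) := by
  rw [← mem_intRing_algebraMap_iff p (tameField p E ζ lam) E]
  exact lam_mem_intRing p E hζ hpe hlam

/-- **Structure of the tame tower** `K = ℚ_p(ζ) ⊆ T = K(λ) ⊆ E`, `λ^{e'} = p ζ^j`,
`e(E/ℚ_p) = e' p^s`, `p ∤ e'`. -/
theorem tameField_structure (hζ : IsPrimitiveRoot ζ (resCard p E - 1))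
    (he : ramIdx p ℚ_[p] E = e' * p ^ s) (hpe : ¬ p ∣ e') (hlam : lam ^ e' = (p : E) * ζ ^ j) :
    Irreducible (⟨IntermediateField.AdjoinSimple.gen (unrField p E ζ) lam,
      gen_mem_intRing p E hζ hpe hlam⟩ : intRing p (tameField p E ζ lam)) ∧
    ramIdx p (unrField p E ζ) (tameField p E ζ lam) = e' ∧
    resDeg p (unrField p E ζ) (tameField p E ζ lam) = 1 ∧
    Module.finrank (unrField p E ζ) (tameField p E ζ lam) = e' ∧
    Algebra.adjoin (intRing p (unrField p E ζ))
      {(⟨IntermediateField.AdjoinSimple.gen (unrField p E ζ) lam,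
        gen_mem_intRing p E hζ hpe hlam⟩ : intRing p (tameField p E ζ lam))} = ⊤ ∧
    ramIdx p (tameField p E ζ lam) E = p ^ s ∧
    resDeg p (tameField p E ζ lam) E = 1 ∧
    Module.finrank (tameField p E ζ lam) E = p ^ s := by
  have he'0 : e' ≠ 0 := MaxUnram8.prime_ne_zero_of_not_dvd p hpe
  have hnd : ¬ p ∣ resCard p E - 1 := MaxUnram8.not_dvd_resCard_sub_one p E
  -- the Eisenstein polynomial `X^{e'} - p ζ^j` over `𝒪_K`
  set ζK : intRing p (unrField p E ζ) :=
    ⟨IntermediateField.AdjoinSimple.gen ℚ_[p] ζ, zeta_mem_intRing p E hζ⟩ with hζK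
  have hQ : resCard p E - 1 ≠ 0 := by
    have := one_lt_resCard p E
    omega
  have hζKpow : ζK ^ (resCard p E - 1) = 1 := by
    apply Subtype.ext
    apply Subtype.ext
    simp [hζK, hζ.pow_eq_one]
  have hζKunit : IsUnit ζK := IsUnit.of_pow_eq_one hζKpow hQ
  have hc : Irreducible (((p : ℕ) : intRing p (unrField p E ζ)) * ζK ^ j) :=
    (irreducible_mul_isUnit (hζKunit.pow j)).mpr (MaxUnram8.irreducible_p_adjoin p E hnd hζ)
  have hE := DvrEis8.isEisensteinAt_X_pow_sub_C he'0 hc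
  have hmonic : (X ^ e' - C (((p : ℕ) : intRing p (unrField p E ζ)) * ζK ^ j)).Monic :=
    monic_X_pow_sub_C _ he'0
  have hdegP : (X ^ e' - C (((p : ℕ) : intRing p (unrField p E ζ)) * ζK ^ j)).natDegree = e' :=
    natDegree_X_pow_sub_C
  -- `λ` is a root
  have hroot : aeval (⟨IntermediateField.AdjoinSimple.gen (unrField p E ζ) lam,
      gen_mem_intRing p E hζ hpe hlam⟩ : intRing p (tameField p E ζ lam))
      (X ^ e' - C (((p : ℕ) : intRing p (unrField p E ζ)) * ζK ^ j)) = 0 := by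
    rw [map_sub, map_pow, aeval_X, aeval_C]
    apply Subtype.ext
    apply Subtype.ext
    simp [hζK, hlam]
  -- `[T : K] ≤ e'`
  have hint : IsIntegral (unrField p E ζ) lam := IsIntegral.of_finite _ lam
  have hfin : Module.finrank (unrField p E ζ) (tameField p E ζ lam) ≤ e' := by
    rw [IntermediateField.adjoin.finrank hint]
    have hPK : (X ^ e' - C (((p : ℕ) : unrField p E ζ) *
        (IntermediateField.AdjoinSimple.gen ℚ_[p] ζ) ^ j) : (unrField p E ζ)[X]) ≠ 0 :=
      (monic_X_pow_sub_C _ he'0).ne_zero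
    have hdvd := minpoly.dvd (unrField p E ζ) lam (p := X ^ e' - C (((p : ℕ) : unrField p E ζ) *
        (IntermediateField.AdjoinSimple.gen ℚ_[p] ζ) ^ j)) (by simp [hlam])
    have := natDegree_le_of_dvd hdvd hPK
    rwa [natDegree_X_pow_sub_C] at this
  obtain ⟨h1, h2, h3, h4⟩ := EisModel8.eisenstein_root p (unrField p E ζ) (tameField p E ζ lam)
    hmonic hE hroot (by rw [hdegP]; exact hfin)
  rw [hdegP] at h2 h4
  have h5 := EisModel8.adjoin_eq_top_of_resDeg_eq_one p (unrField p E ζ) (tameField p E ζ lam)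
    h3 h1
  -- the top part
  have hKE : ramIdx p (unrField p E ζ) E = e' * p ^ s := by
    rw [MaxUnram8.ramIdx_adjoin p E hnd hζ, he]
  have ht := ramIdx_tower p (unrField p E ζ) (tameField p E ζ lam) E
  rw [hKE, h2] at ht
  have h6 : ramIdx p (tameField p E ζ lam) E = p ^ s :=
    (Nat.eq_of_mul_eq_mul_left (Nat.pos_of_ne_zero he'0) ht).symm
  have hf := resDeg_tower p (unrField p E ζ) (tameField p E ζ lam) E
  rw [MaxUnram8.resDeg_adjoin_eq_one p E hζ, h3, one_mul] at hf
  have h7 : resDeg p (tameField p E ζ lam) E = 1 := hf.symm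
  have h8 : Module.finrank (tameField p E ζ lam) E = p ^ s := by
    rw [← ramIdx_mul_resDeg p (tameField p E ζ lam) E, h6, h7, mul_one]
  exact ⟨h1, h2, h3, h4, h5, h6, h7, h8⟩

/-- **The wild top `E/T`**: every uniformizer `θ` of `E` is a root of a monic Eisenstein polynomial
of degree `p^s = [E : T]` over `𝒪_T`, and `𝒪_E = 𝒪_T[θ]`. -/
theorem wild_top_structure (hζ : IsPrimitiveRoot ζ (resCard p E - 1))
    (he : ramIdx p ℚ_[p] E = e' * p ^ s) (hpe : ¬ p ∣ e') (hlam : lam ^ e' = (p : E) * ζ ^ j)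
    {θ : intRing p E} (hθ : Irreducible θ) :
    (∃ P : (intRing p (tameField p E ζ lam))[X], P.Monic ∧ P.natDegree = p ^ s ∧
      P.IsEisensteinAt (IsLocalRing.maximalIdeal (intRing p (tameField p E ζ lam))) ∧
      aeval θ P = 0) ∧
    Algebra.adjoin (intRing p (tameField p E ζ lam)) {θ} = ⊤ := by
  obtain ⟨-, -, -, -, -, -, h7, h8⟩ := tameField_structure p E hζ he hpe hlam
  refine ⟨?_, EisModel8.adjoin_eq_top_of_resDeg_eq_one p (tameField p E ζ lam) E h7 hθ⟩
  have := EisModel8.exists_eisenstein_of_resDeg_eq_one p (tameField p E ζ lam) E h7 hθ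
  rwa [h8] at this

end TameTower

/-- **Existence of the tame data** for every `p`-adic field `E`: a primitive `(Q - 1)`-th root of
unity `ζ`, the factorisation `e(E/ℚ_p) = e' p^s`, `p ∤ e'`, and `λ ∈ E` with `λ^{e'} = p ζ^j`.
(Feed them to `tameField_structure` / `wild_top_structure`.) -/
theorem exists_tame_data : ∃ (ζ lam : E) (e' s j : ℕ), IsPrimitiveRoot ζ (resCard p E - 1) ∧
    ramIdx p ℚ_[p] E = e' * p ^ s ∧ ¬ p ∣ e' ∧ lam ^ e' = (p : E) * ζ ^ j := by
  obtain ⟨ζ, hζ⟩ := Fermat.Agent.PT.LOC.Teichmuller14.exists_isPrimitiveRoot p E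
  obtain ⟨s, e', hpe, he⟩ := Nat.exists_eq_pow_mul_and_not_dvd
    (EisModel8.ramIdx_ne_zero p ℚ_[p] E) p (Fact.out : p.Prime).ne_one
  rw [mul_comm] at he
  obtain ⟨lam, j, hlam, -⟩ := exists_tame_uniformizer p E hζ he hpe
  exact ⟨ζ, lam, e', s, j, hζ, he, hpe, hlam⟩

end

end Fermat.Agent.ES.T56.TameGen8
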