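/-
Programme T (S56), chapter FLAT, common brick (c1) `TameStructure`, maximality (helper8).

**`T = ℚ_p(ζ, λ)` contains every tamely ramified subfield of `E`** (PT/LOC model): if `L₀` is a
`p`-adic field with `p ∤ e(L₀/ℚ_p)` and `i0 : L₀ →ₐ[ℚ_p] E`, then `i0 (L₀) ⊆ T`
(`tame_le_tameField`). Also `tame_generators` : a tame `L₀` is `ℚ_p(ζ₀, λ₀)` with
`λ₀^{e₀} = p ζ₀^{j₀}`.
-/
import Mathlib
import Fermat.Agent.ES.T56.TameGen8

set_option autoImplicit false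
set_option linter.unusedSectionVars false

open IsDiscreteValuationRing Polynomial

open scoped Fermat.Agent.PT.LOC.Interface12 Fermat.Agent.PT.LOC.StructureTower27 IntermediateField
  Fermat.Agent.ES.T56.TameGen8
open Fermat.Agent.PT.LOC.Interface12 Fermat.Agent.PT.LOC.Structure14
  Fermat.Agent.PT.LOC.StructureNorm14 Fermat.Agent.PT.LOC.StructureTower27
  Fermat.Agent.PT.LOC.StructureTowerEF27 Fermat.Agent.PT.LOC.RootsUnity14
  Fermat.Agent.ES.T56.TameGen8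

namespace Fermat.Agent.ES.T56.TameMax8

noncomputable section

variable (p : ℕ) [Fact p.Prime]

/-- **A tamely ramified `p`-adic field is `ℚ_p(ζ₀, λ₀)`** with `ζ₀` a primitive `(Q₀ - 1)`-th root
of unity and `λ₀^{e₀} = p ζ₀^{j₀}`, `e₀ = e(L₀/ℚ_p)`. -/
theorem tame_generators (L₀ : Type) [Field L₀] [Algebra ℚ_[p] L₀] [FiniteDimensional ℚ_[p] L₀]
    (htame : ¬ p ∣ ramIdx p ℚ_[p] L₀) :
    ∃ (ζ₀ lam₀ : L₀) (j₀ : ℕ), IsPrimitiveRoot ζ₀ (resCard p L₀ - 1) ∧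
      lam₀ ^ ramIdx p ℚ_[p] L₀ = (p : L₀) * ζ₀ ^ j₀ ∧
      IntermediateField.adjoin ℚ_[p] ({ζ₀} ∪ {lam₀} : Set L₀) = ⊤ := by
  obtain ⟨ζ₀, hζ₀⟩ := Fermat.Agent.PT.LOC.Teichmuller14.exists_isPrimitiveRoot p L₀
  have he₀ : ramIdx p ℚ_[p] L₀ = ramIdx p ℚ_[p] L₀ * p ^ 0 := by rw [pow_zero, mul_one]
  obtain ⟨lam₀, j₀, hlam₀, -⟩ := exists_tame_uniformizer p L₀ hζ₀ he₀ htame
  obtain ⟨-, -, -, -, -, -, -, h8⟩ := tameField_structure p L₀ hζ₀ he₀ htame hlam₀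
  rw [pow_zero, IntermediateField.finrank_eq_one_iff_eq_top] at h8
  refine ⟨ζ₀, lam₀, j₀, hζ₀, hlam₀, ?_⟩
  rw [← IntermediateField.adjoin_adjoin_left]
  have h8' : IntermediateField.adjoin (IntermediateField.adjoin ℚ_[p] {ζ₀}) {(lam₀ : L₀)} = ⊤ := h8
  rw [h8']
  exact IntermediateField.restrictScalars_top

variable (E : Type) [Field E] [Algebra ℚ_[p] E] [FiniteDimensional ℚ_[p] E]

theorem zeta_mem_tameField (ζ lam : E) : ζ ∈ tameField p E ζ lam := by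
  have h : ζ = algebraMap (unrField p E ζ) E (IntermediateField.AdjoinSimple.gen ℚ_[p] ζ) := rfl
  rw [h]
  exact (tameField p E ζ lam).algebraMap_mem _

theorem lam_mem_tameField (ζ lam : E) : lam ∈ tameField p E ζ lam :=
  IntermediateField.mem_adjoin_simple_self _ lam

/-- **Maximality of the tame subfield**: the image of a tamely ramified `L₀` in `E` lies in
`T = ℚ_p(ζ)(λ)`. -/
theorem tame_le_tameField {ζ : E} {e' s j : ℕ} {lam : E}
    (hζ : IsPrimitiveRoot ζ (resCard p E - 1))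
    (he : ramIdx p ℚ_[p] E = e' * p ^ s) (hpe : ¬ p ∣ e') (hlam : lam ^ e' = (p : E) * ζ ^ j)
    (L₀ : Type) [Field L₀] [Algebra ℚ_[p] L₀] [FiniteDimensional ℚ_[p] L₀]
    (i0 : L₀ →ₐ[ℚ_[p]] E) (htame : ¬ p ∣ ramIdx p ℚ_[p] L₀) (x : L₀) :
    i0 x ∈ tameField p E ζ lam := by
  have hp : p.Prime := Fact.out
  have hQ : resCard p E - 1 ≠ 0 := by
    have := one_lt_resCard p E
    omega
  have hnd : ¬ p ∣ resCard p E - 1 := MaxUnram8.not_dvd_resCard_sub_one p E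
  have hp0 : (p : E) ≠ 0 := by
    have : (p : ℚ_[p]) ≠ 0 := by exact_mod_cast hp.ne_zero
    intro h
    apply this
    apply (algebraMap ℚ_[p] E).injective
    rw [map_natCast, map_zero, h]
  have hζ0 : ζ ≠ 0 := hζ.ne_zero hQ
  obtain ⟨ζ₀, lam₀, j₀, hζ₀, hlam₀, htop⟩ := tame_generators p L₀ htame
  -- `e₀ ∣ e'`
  have hdvd : ramIdx p ℚ_[p] L₀ ∣ e' := by
    let _ : Algebra L₀ E := i0.toRingHom.toAlgebra
    have : IsScalarTower ℚ_[p] L₀ E := IsScalarTower.of_algebraMap_eq (fun a => (i0.commutes a).symm)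
    have ht := ramIdx_tower p ℚ_[p] L₀ E
    rw [he] at ht
    have hcop : Nat.Coprime (ramIdx p ℚ_[p] L₀) (p ^ s) :=
      (((Nat.Prime.coprime_iff_not_dvd hp).mpr htame).symm).pow_right s
    exact hcop.dvd_of_dvd_mul_right (Dvd.intro _ ht.symm)
  obtain ⟨d, hd⟩ := hdvd
  -- the image of `ζ₀` is a power of `ζ`
  have hnd₀ : ¬ p ∣ resCard p L₀ - 1 := MaxUnram8.not_dvd_resCard_sub_one p L₀
  obtain ⟨i₁, -, hi₁⟩ := MaxUnram8.exists_pow_eq_of_pow_eq_one p E hζ hnd₀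
    (η := i0 ζ₀) (by rw [← map_pow, hζ₀.pow_eq_one, map_one])
  -- the image of `λ₀` is `ζ^i λ^d`
  have hlam0 : lam ≠ 0 := by
    intro h
    rw [h, zero_pow (MaxUnram8.prime_ne_zero_of_not_dvd p hpe)] at hlam
    exact mul_ne_zero hp0 (pow_ne_zero j hζ0) hlam.symm
  have hμ : (lam ^ d) ^ ramIdx p ℚ_[p] L₀ = (p : E) * ζ ^ j := by
    rw [← pow_mul, mul_comm, ← hd, hlam]
  have hμ₀ : (i0 lam₀) ^ ramIdx p ℚ_[p] L₀ = (p : E) * ζ ^ (i₁ * j₀) := by
    rw [← map_pow, hlam₀, map_mul, map_natCast, map_pow, ← hi₁, ← pow_mul]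
  have hρ : (i0 lam₀ / lam ^ d) ^ (ramIdx p ℚ_[p] L₀ * (resCard p E - 1)) = 1 := by
    rw [pow_mul, div_pow, hμ, hμ₀, mul_div_mul_left _ _ hp0, div_pow, ← pow_mul, ← pow_mul,
      mul_comm (i₁ * j₀), mul_comm j, pow_mul, pow_mul ζ, hζ.pow_eq_one, one_pow, one_pow,
      div_one]
  have hndρ : ¬ p ∣ ramIdx p ℚ_[p] L₀ * (resCard p E - 1) := by
    intro h
    rcases (Nat.Prime.dvd_mul hp).mp h with h | h
    · exact htame h
    · exact hnd h
  obtain ⟨i₂, -, hi₂⟩ := MaxUnram8.exists_pow_eq_of_pow_eq_one p E hζ hndρ hρ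
  have hlam₀mem : i0 lam₀ ∈ tameField p E ζ lam := by
    have h : i0 lam₀ = ζ ^ i₂ * lam ^ d := by
      rw [hi₂, div_mul_cancel₀ _ (pow_ne_zero d hlam0)]
    rw [h]
    exact mul_mem (pow_mem (zeta_mem_tameField p E ζ lam) _)
      (pow_mem (lam_mem_tameField p E ζ lam) _)
  have hζ₀mem : i0 ζ₀ ∈ tameField p E ζ lam := by
    rw [← hi₁]
    exact pow_mem (zeta_mem_tameField p E ζ lam) _
  -- conclude by generation
  have hle : IntermediateField.adjoin ℚ_[p] ({ζ₀} ∪ {lam₀} : Set L₀) ≤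
      ((tameField p E ζ lam).restrictScalars ℚ_[p]).comap i0 := by
    rw [IntermediateField.adjoin_le_iff]
    rintro y (hy | hy)
    · rw [Set.mem_singleton_iff] at hy
      rw [hy]
      exact hζ₀mem
    · rw [Set.mem_singleton_iff] at hy
      rw [hy]
      exact hlam₀mem
  rw [htop] at hle
  exact hle (IntermediateField.mem_top (x := x))

end

end Fermat.Agent.ES.T56.TameMax8
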