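/-
Programme T (S56), chapter FLAT, common brick (c1) `TameStructure`, abstract tower (helper8).

**The tame tower for abstract model fields `K → T → E`** (PT/LOC model; no intermediate fields):
if `p` is a uniformizer of `K`, `f(E/K) = 1`, `e(E/K) = e' p^s`, `e' ≠ 0`, and `λ ∈ 𝒪_T` satisfies
`λ^{e'} = p u` (`u ∈ 𝒪_K^×`) with `[T : K] ≤ e'`, then `λ` is a uniformizer of `T`,
`e(T/K) = e' = [T : K]`, `f(T/K) = 1`, `𝒪_T = 𝒪_K[λ]`, `e(E/T) = p^s = [E : T]`, `f(E/T) = 1`
(`tower_structure`). Same proof as `TameGen8.tameField_structure`, but the algebra `K → T` is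
arbitrary (e.g. an inclusion of intermediate fields of `E/ℚ_p`).
-/
import Mathlib
import Fermat.Agent.ES.T56.EisModel8

set_option autoImplicit false
set_option linter.unusedSectionVars false

open IsDiscreteValuationRing Polynomial

open scoped Fermat.Agent.PT.LOC.Interface12 Fermat.Agent.PT.LOC.StructureTower27
open Fermat.Agent.PT.LOC.Interface12 Fermat.Agent.PT.LOC.Structure14
  Fermat.Agent.PT.LOC.StructureNorm14 Fermat.Agent.PT.LOC.StructureTower27
  Fermat.Agent.PT.LOC.StructureTowerEF27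

namespace Fermat.Agent.ES.T56.TameTower8

noncomputable section

variable (p : ℕ) [Fact p.Prime]
variable (K T E : Type) [Field K] [Field T] [Field E] [Algebra ℚ_[p] K] [Algebra ℚ_[p] T]
  [Algebra ℚ_[p] E] [FiniteDimensional ℚ_[p] K] [FiniteDimensional ℚ_[p] T]
  [FiniteDimensional ℚ_[p] E] [Algebra K T] [Algebra T E] [Algebra K E]
  [IsScalarTower ℚ_[p] K T] [IsScalarTower ℚ_[p] T E] [IsScalarTower ℚ_[p] K E]
  [IsScalarTower K T E]

/-- The polynomial `X^{e'} - p u` is Eisenstein over `𝒪_K` when `p` is a uniformizer of `K`. -/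
theorem isEisensteinAt_X_pow_sub {e' : ℕ} (he'0 : e' ≠ 0)
    (hpK : Irreducible ((p : ℕ) : intRing p K)) {u : intRing p K} (hu : IsUnit u) :
    (X ^ e' - C (((p : ℕ) : intRing p K) * u)).IsEisensteinAt
      (IsLocalRing.maximalIdeal (intRing p K)) :=
  DvrEis8.isEisensteinAt_X_pow_sub_C he'0 ((irreducible_mul_isUnit hu).mpr hpK)

/-- **Structure of the tame tower** `K → T → E`. -/
theorem tower_structure {e' s : ℕ} (he'0 : e' ≠ 0)
    (hpK : Irreducible ((p : ℕ) : intRing p K)) (hfKE : resDeg p K E = 1)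
    (heKE : ramIdx p K E = e' * p ^ s) {u : intRing p K} (hu : IsUnit u) {lamT : intRing p T}
    (hlam : lamT ^ e' = algebraMap (intRing p K) (intRing p T) (((p : ℕ) : intRing p K) * u))
    (hdeg : Module.finrank K T ≤ e') :
    Irreducible lamT ∧ ramIdx p K T = e' ∧ resDeg p K T = 1 ∧ Module.finrank K T = e' ∧
      Algebra.adjoin (intRing p K) {lamT} = ⊤ ∧ ramIdx p T E = p ^ s ∧ resDeg p T E = 1 ∧
      Module.finrank T E = p ^ s := by
  have hE := isEisensteinAt_X_pow_sub p K he'0 hpK hu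
  have hmonic : (X ^ e' - C (((p : ℕ) : intRing p K) * u)).Monic := monic_X_pow_sub_C _ he'0
  have hdegP : (X ^ e' - C (((p : ℕ) : intRing p K) * u)).natDegree = e' := natDegree_X_pow_sub_C
  have hroot : aeval lamT (X ^ e' - C (((p : ℕ) : intRing p K) * u)) = 0 := by
    rw [map_sub, map_pow, aeval_X, aeval_C, hlam, sub_self]
  obtain ⟨h1, h2, h3, h4⟩ := EisModel8.eisenstein_root p K T hmonic hE hroot
    (by rw [hdegP]; exact hdeg)
  rw [hdegP] at h2 h4
  have h5 := EisModel8.adjoin_eq_top_of_resDeg_eq_one p K T h3 h1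
  have ht := ramIdx_tower p K T E
  rw [heKE, h2] at ht
  have h6 : ramIdx p T E = p ^ s := (Nat.eq_of_mul_eq_mul_left (Nat.pos_of_ne_zero he'0) ht).symm
  have hf := resDeg_tower p K T E
  rw [hfKE, h3, one_mul] at hf
  have h7 : resDeg p T E = 1 := hf.symm
  have h8 : Module.finrank T E = p ^ s := by
    rw [← ramIdx_mul_resDeg p T E, h6, h7, mul_one]
  exact ⟨h1, h2, h3, h4, h5, h6, h7, h8⟩

end

end Fermat.Agent.ES.T56.TameTower8
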