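/-
Programme T (S56), chapter FLAT, common brick (c1): **`TameStructure8`** (helper8).

Proof of helper14's consumer contract `TameIface14.TameStructureStatement p`: every `p`-adic field
`Ls` (PT/LOC model) has intermediate fields `K ≤ T` (`K = ℚ_p(ζ)` maximal unramified,
`T = K(λ)` maximal tamely ramified, `λ^e = p ζ^j`, `p ∤ e`) with monogenic presentations
`𝒪_T = 𝒪_K[λ]/(λ^e - p ζ^j)`, `𝒪_Ls = 𝒪_T[θ]/(P)`, `deg P = [Ls : T] = p^s`, and every tamely
ramified intermediate field `L₀` lies in `T`.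

* `isPres_of_eisenstein` : a root `θ ∈ 𝒪_L` of a monic Eisenstein `P ∈ 𝒪_K[X]` with
  `[L : K] ≤ deg P` gives `TwistMap14.IsPres 𝒪_K 𝒪_L θ P`;
* `ramIdxZ_eq` : `FlatRIface14.ramIdxZ p E = e(E/ℚ_p)`;
* `isTameTower_of` : `IsTameTower` for abstract model fields `K → T → E`;
* `tameStructureStatement : TameIface14.TameStructureStatement p`.
-/
import Mathlib
import Fermat.Agent.ES.T56.TameIface14
import Fermat.Agent.ES.T56.TameTower8
import Fermat.Agent.ES.T56.EisEquiv8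
import Fermat.Agent.ES.T56.TameMax8

set_option autoImplicit false
set_option linter.unusedSectionVars false

open IsDiscreteValuationRing Polynomial

open scoped Fermat.Agent.PT.LOC.Interface12 Fermat.Agent.PT.LOC.StructureTower27 IntermediateField
open Fermat.Agent.PT.LOC.Interface12 Fermat.Agent.PT.LOC.Structure14
  Fermat.Agent.PT.LOC.StructureNorm14 Fermat.Agent.PT.LOC.StructureTower27
  Fermat.Agent.PT.LOC.StructureTowerEF27 Fermat.Agent.ES.T56.FlatRIface14
  Fermat.Agent.ES.T56.TwistMap14 Fermat.Agent.ES.T56.TameIface14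
  Fermat.Agent.ES.T56.TameGen8

namespace Fermat.Agent.ES.T56.TameStructure8

noncomputable section

variable (p : ℕ) [Fact p.Prime]

/-! ### `IsPres` from Eisenstein -/

section Pres

variable (K L : Type) [Field K] [Field L] [Algebra ℚ_[p] K] [Algebra ℚ_[p] L] [Algebra K L]
  [IsScalarTower ℚ_[p] K L] [FiniteDimensional ℚ_[p] K] [FiniteDimensional ℚ_[p] L]

/-- **Monogenic presentation of a totally ramified extension**: `𝒪_L = 𝒪_K[θ] ≅ 𝒪_K[X]/(P)`. -/
theorem isPres_of_eisenstein {P : (intRing p K)[X]} (hP : P.Monic)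
    (hE : P.IsEisensteinAt (IsLocalRing.maximalIdeal (intRing p K))) {θ : intRing p L}
    (hroot : aeval θ P = 0) (hdeg : Module.finrank K L ≤ P.natDegree) :
    IsPres (intRing p K) (intRing p L) θ P := by
  refine ⟨hP, hroot, ?_, ?_⟩
  · intro x
    obtain ⟨y, hy⟩ := EisEquiv8.eisHom_surjective p K L hP hE hroot hdeg x
    obtain ⟨f, rfl⟩ := AdjoinRoot.mk_surjective y
    exact ⟨f, by rw [← hy, EisEquiv8.eisHom_mk]⟩
  · intro f hf
    rw [← AdjoinRoot.mk_eq_zero]
    apply EisEquiv8.eisHom_injective p K L hP hE hroot hdeg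
    rw [EisEquiv8.eisHom_mk, hf, map_zero]

end Pres

/-! ### `ramIdxZ` -/

section RamIdxZ

variable (E : Type) [Field E] [Algebra ℚ_[p] E] [FiniteDimensional ℚ_[p] E]

theorem ramIdxZ_eq : ramIdxZ p E = (ramIdx p ℚ_[p] E : ℤ) := by
  have hp0 : (p : ℚ_[p]) ≠ 0 := by exact_mod_cast (Fact.out : p.Prime).ne_zero
  have h := ord_algebraMap p ℚ_[p] E (Units.mk0 (p : ℚ_[p]) hp0)
  have h1 : ord p ℚ_[p] (Units.mk0 (p : ℚ_[p]) hp0) = 1 :=
    (isUniformizer_iff_ord p ℚ_[p] (Units.mk0 (p : ℚ_[p]) hp0)).mp (MaxUnram8.isUniformizer_p p)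
  rw [h1, mul_one] at h
  rw [← h]
  unfold ramIdxZ
  congr 1
  ext
  simp

theorem not_dvd_ramIdx_of_ramIdxZ (h : ¬ (p : ℤ) ∣ ramIdxZ p E) : ¬ p ∣ ramIdx p ℚ_[p] E := by
  rw [ramIdxZ_eq] at h
  exact fun hd => h (by exact_mod_cast hd)

end RamIdxZ

/-! ### The tower for abstract model fields -/

section Abstract

variable (K T E : Type) [Field K] [Field T] [Field E] [Algebra ℚ_[p] K] [Algebra ℚ_[p] T]
  [Algebra ℚ_[p] E] [FiniteDimensional ℚ_[p] K] [FiniteDimensional ℚ_[p] T]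
  [FiniteDimensional ℚ_[p] E] [Algebra K T] [Algebra T E] [Algebra K E]
  [IsScalarTower ℚ_[p] K T] [IsScalarTower ℚ_[p] T E] [IsScalarTower ℚ_[p] K E]
  [IsScalarTower K T E]

theorem isTameTower_of {e' s : ℕ} (hpe : ¬ p ∣ e')
    (hpK : Irreducible ((p : ℕ) : intRing p K)) (hfKE : resDeg p K E = 1)
    (heKE : ramIdx p K E = e' * p ^ s) (u : (intRing p K)ˣ) {lamT : intRing p T}
    (hlam : lamT ^ e' = algebraMap (intRing p K) (intRing p T)
      (((p : ℕ) : intRing p K) * (u : intRing p K)))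
    (hdeg : Module.finrank K T ≤ e') :
    ∃ (θ : intRing p E) (P : (intRing p T)[X]),
      IsTameTower p K T E e' (p ^ s) lamT (((p : ℕ) : intRing p K) * (u : intRing p K)) θ P := by
  have he'0 : e' ≠ 0 := MaxUnram8.prime_ne_zero_of_not_dvd p hpe
  obtain ⟨h1, -, -, h4, -, -, h7, h8⟩ :=
    TameTower8.tower_structure p K T E he'0 hpK hfKE heKE u.isUnit hlam hdeg
  have hE := TameTower8.isEisensteinAt_X_pow_sub p K he'0 hpK u.isUnit
  have hmonic : (X ^ e' - C (((p : ℕ) : intRing p K) * (u : intRing p K))).Monic :=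
    monic_X_pow_sub_C _ he'0
  have hdegP : (X ^ e' - C (((p : ℕ) : intRing p K) * (u : intRing p K))).natDegree = e' :=
    natDegree_X_pow_sub_C
  have hroot : aeval lamT (X ^ e' - C (((p : ℕ) : intRing p K) * (u : intRing p K))) = 0 := by
    rw [map_sub, map_pow, aeval_X, aeval_C, hlam, sub_self]
  obtain ⟨θ, hθ⟩ := exists_irreducible (intRing p E)
  obtain ⟨P, hPm, hPd, hPE, hPr⟩ := EisModel8.exists_eisenstein_of_resDeg_eq_one p T E h7 hθ
  refine ⟨θ, P, ⟨hpe, ⟨s, rfl⟩, ⟨u, rfl⟩, ?_, ?_, ?_, ?_, h8⟩⟩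
  · exact isPres_of_eisenstein p K T hmonic hE hroot (by rw [hdegP]; exact hdeg)
  · exact (isUniformizer_iff_irreducible p T lamT).mpr h1
  · exact isPres_of_eisenstein p T E hPm hPE hPr (by rw [hPd])
  · rw [hPd, h8]

end Abstract

/-! ### The statement of `TameIface14` -/

section Main

variable (Ls : Type) [Field Ls] [Algebra ℚ_[p] Ls] [FiniteDimensional ℚ_[p] Ls]

/-- `T = K(λ)` as an intermediate field of `Ls/ℚ_p`. -/
abbrev tameFieldQ (ζ lam : Ls) : IntermediateField ℚ_[p] Ls :=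
  (tameField p Ls ζ lam).restrictScalars ℚ_[p]

theorem unrField_le_tameFieldQ (ζ lam : Ls) : unrField p Ls ζ ≤ tameFieldQ p Ls ζ lam := by
  intro x hx
  exact (tameField p Ls ζ lam).algebraMap_mem ⟨x, hx⟩

/-- The identity `↥T' → ↥T` as a `K`-linear equivalence (`T'` with the inclusion algebra). -/
def tameFieldQEquiv (ζ lam : Ls) :
    @LinearEquiv (unrField p Ls ζ) (unrField p Ls ζ) _ _ (RingHom.id _) (RingHom.id _) _ _
      (tameFieldQ p Ls ζ lam) (tameField p Ls ζ lam) _ _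
      (inclAlg (unrField_le_tameFieldQ p Ls ζ lam)).toModule _ :=
  letI := inclAlg (unrField_le_tameFieldQ p Ls ζ lam)
  { toFun := fun x => ⟨x.1, x.2⟩
    invFun := fun x => ⟨x.1, x.2⟩
    map_add' := fun _ _ => rfl
    map_smul' := fun _ _ => rfl
    left_inv := fun _ => rfl
    right_inv := fun _ => rfl }

/-- **`TameStructure8`**: the consumer contract of `TameIface14`. -/
theorem tameStructureStatement : TameStructureStatement p := by
  intro Ls _ _ _ L₀ htame
  have htame' : ¬ p ∣ ramIdx p ℚ_[p] L₀ := not_dvd_ramIdx_of_ramIdxZ p L₀ htame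
  obtain ⟨ζ, lam, e', s, j, hζ, he, hpe, hlam⟩ := exists_tame_data p Ls
  have hnd : ¬ p ∣ resCard p Ls - 1 := MaxUnram8.not_dvd_resCard_sub_one p Ls
  have hQ : resCard p Ls - 1 ≠ 0 := by
    have := one_lt_resCard p Ls
    omega
  have hle := unrField_le_tameFieldQ p Ls ζ lam
  refine ⟨unrField p Ls ζ, tameFieldQ p Ls ζ lam, hle, ?_, ?_⟩
  · intro x hx
    exact TameMax8.tame_le_tameField p Ls hζ he hpe hlam L₀ L₀.val htame' ⟨x, hx⟩
  let _ := inclAlg hle
  have := inclTower hle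
  have : IsScalarTower (unrField p Ls ζ) (tameFieldQ p Ls ζ lam) Ls :=
    IsScalarTower.of_algebraMap_eq (fun _ => rfl)
  -- the unit `ζ^j` of `𝒪_K`
  set ζK : intRing p (unrField p Ls ζ) :=
    ⟨IntermediateField.AdjoinSimple.gen ℚ_[p] ζ, zeta_mem_intRing p Ls hζ⟩ with hζK
  have hζKpow : ζK ^ (resCard p Ls - 1) = 1 := by
    apply Subtype.ext
    apply Subtype.ext
    simp [hζK, hζ.pow_eq_one]
  have hζKunit : IsUnit (ζK ^ j) := (IsUnit.of_pow_eq_one hζKpow hQ).pow j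
  -- `λ ∈ 𝒪_T`
  have hlamT : lam ∈ tameFieldQ p Ls ζ lam := TameMax8.lam_mem_tameField p Ls ζ lam
  have hlamInt : (⟨lam, hlamT⟩ : tameFieldQ p Ls ζ lam) ∈ intRing p (tameFieldQ p Ls ζ lam) := by
    rw [← mem_intRing_algebraMap_iff p (tameFieldQ p Ls ζ lam) Ls]
    exact lam_mem_intRing p Ls hζ hpe hlam
  have hlamEq : (⟨⟨lam, hlamT⟩, hlamInt⟩ : intRing p (tameFieldQ p Ls ζ lam)) ^ e' =
      algebraMap (intRing p (unrField p Ls ζ)) (intRing p (tameFieldQ p Ls ζ lam))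
        (((p : ℕ) : intRing p (unrField p Ls ζ)) * (hζKunit.unit : intRing p (unrField p Ls ζ))) := by
    apply Subtype.ext
    apply Subtype.ext
    rw [IsUnit.unit_spec]
    simp [hζK, hlam]
    exact Or.inl rfl
  have hdeg : Module.finrank (unrField p Ls ζ) (tameFieldQ p Ls ζ lam) ≤ e' := by
    obtain ⟨-, -, -, h4, -⟩ := tameField_structure p Ls hζ he hpe hlam
    rw [(tameFieldQEquiv p Ls ζ lam).finrank_eq, h4]
  obtain ⟨θ, P, hT⟩ := isTameTower_of p (unrField p Ls ζ) (tameFieldQ p Ls ζ lam) Ls hpe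
    (MaxUnram8.irreducible_p_adjoin p Ls hnd hζ) (MaxUnram8.resDeg_adjoin_eq_one p Ls hζ)
    (by rw [MaxUnram8.ramIdx_adjoin p Ls hnd hζ, he]) hζKunit.unit hlamEq hdeg
  exact ⟨e', p ^ s, _, _, θ, P, hT⟩

end Main

end

end Fermat.Agent.ES.T56.TameStructure8
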