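/-
Programme T (S56), chapter KUM / FLAT-C, the FIELD BRICKS `T1`, `T2` — helper4.

ABELIAN TAME EXTENSIONS in the LOC model (`E`, `E'`, `L₀` finite over `ℚ_[p]`):

* `ramIdx_dvd_resCard_sub_one` : `E'/E` Galois, `Gal(E'/E)` commutative, `p ∤ [E' : E]`
  ⟹ `e(E'/E) ∣ #κ_E - 1`.
  (The wild inertia group is a `p`-group (`TameLoc16.orderOf_wild`), hence trivial; so the tame
  character `θ : I → κ'ˣ` is injective; a Frobenius `φ` commutes with `τ ∈ I`, and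
  `θ(φ τ φ⁻¹) = θ(τ)^Q` (`TameLoc16.tameFun_conj_frob`) gives `θ(τ)^{Q-1} = 1`; `I ≅ θ(I)` is cyclic of
  order `e` (`Frob27.card_inertia`), so `e ∣ Q - 1`.)
* `ramIdxZ_eq_of_comm_padic` (= `T1`) : `L₀/ℚ_p` abelian of degree prime to `p`, `ζ_p ∈ L₀`
  ⟹ `ramIdxZ p L₀ = p - 1`  (the hypothesis of `KumCountIface7.CountF1`).
* `ramIdxZ_eq_of_unram` / `ramIdxZ_eq_of_unram2` (= `T2`) : `E/ℚ_p` unramified (quadratic), `L₀/E`
  abelian of degree prime to `p`, `π ∈ L₀` with `π^{#κ_E - 1} = -p`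
  ⟹ `ramIdxZ p L₀ = #κ_E - 1` (`= p² - 1`, the hypothesis of `KumCountIface7.CountF2`).
-/
import Mathlib
import Fermat.Agent.PT.LOC.Frob27
import Fermat.Agent.PT.LOC.StructureTowerEF27
import Fermat.Agent.ES.T56.TameLoc16
import Fermat.Agent.ES.T56.TameStructure8
import Fermat.Agent.ES.T56.KumCountF2_7

set_option autoImplicit false
set_option linter.unusedSectionVars false

open scoped Fermat.Agent.PT.LOC.Interface12 Fermat.Agent.PT.LOC.StructureTower27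
open Fermat.Agent.PT.LOC.Interface12 Fermat.Agent.PT.LOC.Structure14
  Fermat.Agent.PT.LOC.StructureNorm14 Fermat.Agent.PT.LOC.StructureTower27
  Fermat.Agent.PT.LOC.StructureTowerEF27 Fermat.Agent.PT.LOC.RootsUnity14
  Fermat.Agent.ES.T56.FlatRIface14 Fermat.Agent.ES.T56.TameLoc16
  Fermat.Agent.ES.T56.UnitNormalForm4 Fermat.Agent.ES.T56.UnitLevelLoc4
  IsDiscreteValuationRing

namespace Fermat.Agent.ES.T56.TameAbelian4

noncomputable section

variable (p : ℕ) [hp : Fact p.Prime]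

/-! ### The general statement -/

section General

variable (E E' : Type) [Field E] [Field E'] [Algebra ℚ_[p] E] [Algebra ℚ_[p] E'] [Algebra E E']
  [IsScalarTower ℚ_[p] E E'] [FiniteDimensional ℚ_[p] E] [FiniteDimensional ℚ_[p] E']
  [IsGalois E E']

variable {p E E'} in
/-- If `p ∤ [E' : E]` the wild inertia group is trivial. -/
theorem eq_one_of_mem_wild {π : E'} (hπ : IsUniformizer p E' π)
    (hdeg : ¬ p ∣ Module.finrank E E') {τ : E' ≃ₐ[E] E'} (hτ : τ ∈ wild (E := E) hπ) : τ = 1 := by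
  have hfin := Fermat.Agent.PT.LOC.Frob27.finite_gal p E E'
  have hfd := Fermat.Agent.PT.LOC.Frob27.finiteDimensional_tower p E E'
  obtain ⟨j, hj⟩ := orderOf_wild hπ hτ
  have h1 : orderOf τ ∣ Module.finrank E E' := by
    rw [← IsGalois.card_aut_eq_finrank E E']
    exact orderOf_dvd_natCard τ
  rcases Nat.eq_zero_or_pos j with h0 | h0
  · rw [h0, pow_zero] at hj
    exact orderOf_eq_one_iff.1 hj
  · exfalso
    apply hdeg
    rw [hj] at h1
    exact dvd_trans (dvd_pow_self p h0.ne') h1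

/-- **Abelian tame extensions**: `Gal(E'/E)` commutative and `p ∤ [E' : E]` ⟹ `e ∣ #κ_E - 1`. -/
theorem ramIdx_dvd_resCard_sub_one (hcomm : ∀ σ τ : E' ≃ₐ[E] E', σ * τ = τ * σ)
    (hdeg : ¬ p ∣ Module.finrank E E') : ramIdx p E E' ∣ resCard p E - 1 := by
  have hfin := Fermat.Agent.PT.LOC.Frob27.finite_gal p E E'
  obtain ⟨π, hπ⟩ := exists_isUniformizer p E'
  obtain ⟨φ, hφ⟩ := Fermat.Agent.PT.LOC.Frob27.exists_isFrob p E E'
  have hQ1 : 1 ≤ resCard p E := (one_lt_resCard p E).le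
  -- the tame character is injective
  have hinj : Function.Injective (tameChar (E := E) hπ) := by
    rw [injective_iff_map_eq_one]
    intro τ hτ
    have hw : (τ : E' ≃ₐ[E] E') ∈ wild (E := E) hπ := (mem_wild_iff hπ _).2 ⟨τ.2, hτ⟩
    exact Subtype.ext (eq_one_of_mem_wild hπ hdeg hw)
  -- every element of the inertia group is killed by `Q - 1`
  have hpow : ∀ τ : ↥(inertiaSub p E E'), τ ^ (resCard p E - 1) = 1 := by
    intro τ
    apply hinj
    rw [map_pow, map_one, tameChar_apply]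
    have h1 := tameFun_conj_frob hπ hφ τ.2
    have h2 : φ * (τ : E' ≃ₐ[E] E') * φ⁻¹ = (τ : E' ≃ₐ[E] E') := by
      rw [hcomm φ (τ : E' ≃ₐ[E] E'), mul_inv_cancel_right]
    rw [h2] at h1
    have h3 : tameFun (E := E) hπ (τ : E' ≃ₐ[E] E') ^ (resCard p E - 1) *
        tameFun (E := E) hπ (τ : E' ≃ₐ[E] E') = 1 * tameFun (E := E) hπ (τ : E' ≃ₐ[E] E') := by
      rw [← pow_succ, Nat.sub_add_cancel hQ1, one_mul]
      exact h1.symm
    exact mul_right_cancel h3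
  -- the inertia group is cyclic
  have hcyc : IsCyclic ↥(inertiaSub p E E') :=
    isCyclic_of_injective_ringHom ((Units.coeHom (Kap p E')).comp (tameChar (E := E) hπ))
      (Units.val_injective.comp hinj)
  have hcard : Nat.card ↥(inertiaSub p E E') = ramIdx p E E' := by
    rw [inertiaSub_eq]
    exact Fermat.Agent.PT.LOC.Frob27.card_inertia p E E'
  rw [← hcard, ← IsCyclic.exponent_eq_card]
  exact Monoid.exponent_dvd_of_forall_pow_eq_one hpow

end General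

/-! ### `T1` : abelian of degree prime to `p` over `ℚ_p`, containing `ζ_p` -/

section T1

variable (L₀ : Type) [Field L₀] [Algebra ℚ_[p] L₀] [FiniteDimensional ℚ_[p] L₀]

/-- `(ramE p L₀ : ℕ)` is the ramification index of `L₀/ℚ_p`. -/
theorem ramE_eq_ramIdx : ramE p L₀ = ramIdx p ℚ_[p] L₀ := by
  have h2 : ((ramE p L₀ : ℕ) : ℤ) = ((ramIdx p ℚ_[p] L₀ : ℕ) : ℤ) := by
    rw [ramE_cast, Fermat.Agent.ES.T56.TameStructure8.ramIdxZ_eq]
  exact_mod_cast h2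

/-- `ζ_p ∈ L₀` ⟹ `(p - 1) ∣ e(L₀/ℚ_p)`. -/
theorem sub_one_dvd_ramE (hζ : ∃ ζ : L₀, IsPrimitiveRoot ζ p) : p - 1 ∣ ramE p L₀ := by
  obtain ⟨ζ, hζ⟩ := hζ
  have he := addVal_natCast p L₀
  have he1 := one_le_ramE p L₀
  have hζm : ζ ∈ intRing p L₀ := mem_intRing_of_pow_eq_one p L₀ hp.out.ne_zero hζ.pow_eq_one
  have hζB : IsPrimitiveRoot (⟨ζ, hζm⟩ : intRing p L₀) p :=
    IsPrimitiveRoot.of_map_of_injective (f := (intRing p L₀).val) hζ Subtype.val_injective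
  obtain ⟨e', -, -, hee'⟩ := addVal_primitiveRoot_sub_one p he he1 hζB
  exact ⟨e', hee'⟩

variable [IsGalois ℚ_[p] L₀]

/-- **`T1`.** -/
theorem ramIdxZ_eq_of_comm_padic (hcomm : ∀ σ τ : L₀ ≃ₐ[ℚ_[p]] L₀, σ * τ = τ * σ)
    (hdeg : ¬ p ∣ Module.finrank ℚ_[p] L₀) (hζ : ∃ ζ : L₀, IsPrimitiveRoot ζ p) :
    ramIdxZ p L₀ = (p : ℤ) - 1 := by
  have hp2 := hp.out.two_le
  have h1 := ramIdx_dvd_resCard_sub_one p ℚ_[p] L₀ hcomm hdeg
  rw [Fermat.Agent.ES.T56.KumCountF2_7.resCard_padic, ← ramE_eq_ramIdx] at h1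
  have h2 := sub_one_dvd_ramE p L₀ hζ
  have h3 : ramE p L₀ = p - 1 := Nat.dvd_antisymm h1 h2
  rw [← ramE_cast, h3, Nat.cast_sub (by omega), Nat.cast_one]

end T1

/-! ### `T2` : abelian of degree prime to `p` over an unramified `E`, containing a root of `-p` -/

section T2

variable (E L₀ : Type) [Field E] [Field L₀] [Algebra ℚ_[p] E] [FiniteDimensional ℚ_[p] E]
  [Algebra ℚ_[p] L₀] [FiniteDimensional ℚ_[p] L₀] [Algebra E L₀] [IsScalarTower ℚ_[p] E L₀]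

/-- `π^m = -p` with `m ≠ 0` ⟹ `m ∣ e(L₀/ℚ_p)`. -/
theorem dvd_ramE_of_pow_eq {π : L₀} {m : ℕ} (hm : m ≠ 0) (hπ : π ^ m = -(p : L₀)) :
    m ∣ ramE p L₀ := by
  have hπm := Fermat.Agent.ES.T56.KumCountF2_7.pi_mem_intRing p L₀ hm hπ
  have hϖ : (⟨π, hπm⟩ : intRing p L₀) ^ m = -((p : ℕ) : intRing p L₀) := by
    apply Subtype.ext
    rw [Subalgebra.coe_pow]
    show π ^ m = _
    rw [hπ]
    simp
  have h1 : m • addVal (intRing p L₀) (⟨π, hπm⟩ : intRing p L₀) = (ramE p L₀ : ℕ∞) := by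
    rw [← addVal_pow, hϖ, UnitPow4.addVal_neg, addVal_natCast]
  have hne : addVal (intRing p L₀) (⟨π, hπm⟩ : intRing p L₀) ≠ ⊤ := by
    intro h
    rw [h, nsmul_eq_mul, ENat.mul_top (by exact_mod_cast hm)] at h1
    exact ENat.top_ne_natCast _ h1
  obtain ⟨j, hj⟩ := ENat.ne_top_iff_exists.1 hne
  rw [← hj, nsmul_eq_mul] at h1
  exact ⟨j, by exact_mod_cast h1.symm⟩

variable [IsGalois E L₀]

/-- **`T2`**, general unramified base. -/
theorem ramIdxZ_eq_of_unram (hur : IsUnramified p ℚ_[p] E)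
    (hcomm : ∀ σ τ : L₀ ≃ₐ[E] L₀, σ * τ = τ * σ) (hdeg : ¬ p ∣ Module.finrank E L₀)
    (π : L₀) (hπ : π ^ (resCard p E - 1) = -(p : L₀)) :
    ramIdxZ p L₀ = ((resCard p E - 1 : ℕ) : ℤ) := by
  have hm : resCard p E - 1 ≠ 0 := by
    have := one_lt_resCard p E
    omega
  have h1 := ramIdx_dvd_resCard_sub_one p E L₀ hcomm hdeg
  have h2 : ramIdx p ℚ_[p] L₀ = ramIdx p E L₀ := by
    rw [ramIdx_tower p ℚ_[p] E L₀, (isUnramified_iff p ℚ_[p] E).1 hur, one_mul]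
  rw [← h2, ← ramE_eq_ramIdx] at h1
  have h3 := dvd_ramE_of_pow_eq p L₀ hm hπ
  rw [← ramE_cast, Nat.dvd_antisymm h1 h3]

/-- **`T2`**, in the shape of `KumCountIface7.CountF2`. -/
theorem ramIdxZ_eq_of_unram2 (hur : IsUnramified p ℚ_[p] E) (hdeg2 : Module.finrank ℚ_[p] E = 2)
    (hcomm : ∀ σ τ : L₀ ≃ₐ[E] L₀, σ * τ = τ * σ) (hdeg : ¬ p ∣ Module.finrank E L₀)
    (π : L₀) (hπ : π ^ (p ^ 2 - 1) = -(p : L₀)) :
    ramIdxZ p L₀ = (p : ℤ) ^ 2 - 1 := by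
  have hres := Fermat.Agent.ES.T56.KumCountF2_7.resCard_unram2 p E hur hdeg2
  have h := ramIdxZ_eq_of_unram p E L₀ hur hcomm hdeg π (by rw [hres]; exact hπ)
  rw [h, hres, Nat.cast_sub (Nat.one_le_pow _ _ hp.out.pos), Nat.cast_pow, Nat.cast_one]

end T2

end

end Fermat.Agent.ES.T56.TameAbelian4
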