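/-
Programme T (S56), chapter KUM: **`FlatIface20.KumF1`** (helper17).

For a level-constant character `ψ : G_p → kˣ` (`k` a finite field of characteristic `p`, `p` odd), the set
`ZbPsi p ψ` of level-constant BOUNDED `ψ`-cocycles `G_p → k` is finite, of cardinality at most
`|k| ^ (1 + [ψ|_I = ω|_I])`.

* `finite_and_card_le` (general base `K`): a set of bounded level `ψ`-cocycles is finite, with at most
  `#𝓗 · (1 or |k|)` elements (`KumKD17`: the Kummer classes determine the cocycle up to a coboundary);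
* `kumF1 : FlatIface20.KumF1 p k`.

Ingredients: `KumF1Level17` (the field `L₀` cut out by `(ψ, ω_p)`: abelian of degree prime to `p`),
`TameAbelian4` (T1: `e(L₀/ℚ_p) = p - 1`), `KumCountF1_7.countF1`, `KumFlat17` + `RPrimeFinal14` (Theorem R′),
`InertiaDict16` (global inertia ↦ inertia of `L₀`).
-/
import Mathlib
import Fermat.Agent.ES.T56.FlatIface20
import Fermat.Agent.ES.T56.KumFlat17
import Fermat.Agent.ES.T56.KumCountF1_7
import Fermat.Agent.ES.T56.RPrimeFinal14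
import Fermat.Agent.ES.T56.TameAbelian4
import Fermat.Agent.ES.T56.InertiaDict16
import Fermat.Agent.ES.T56.KumF1Level17

set_option autoImplicit false
set_option linter.unusedSectionVars false
set_option linter.style.haveILetI false

namespace Fermat.Agent.ES.T56.KumF1_17

open Fermat.Agent.ES.T56.KumCountIface7 Fermat.Agent.ES.T56.FlatRIface14
  Fermat.Agent.ES.T56.FlatClass20 Fermat.Agent.ES.T56.KumKD17 Fermat.Agent.ES.T56.KumFlat17
  Fermat.Agent.ES.T56.KumF1Level17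

noncomputable section

variable (p : ℕ) [hp : Fact p.Prime]

/-! ### Cocycles from Kummer classes: the count without a separation hypothesis -/

section Core

variable {K : Type} [Field K] [Algebra ℚ_[p] K]
variable {Ω : Type} [Field Ω] [Algebra ℚ_[p] Ω] [Algebra K Ω] [IsScalarTower ℚ_[p] K Ω]
variable [IsGalois K Ω]
variable (L₀ : IntermediateField K Ω) [FiniteDimensional K L₀] [IsGalois K L₀]
  [FiniteDimensional ℚ_[p] L₀]
variable {k : Type} [Field k] [CharP k p] [Finite k] (ψ : (↥L₀ ≃ₐ[K] ↥L₀) →* kˣ)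
variable {ζ : Ωˣ} (hζ : IsPrimitiveRoot ζ p) (hζL : (ζ : Ω) ∈ L₀)

include hζ hζL in
/-- A set of bounded level `ψ`-cocycles is finite, with at most `#𝓗 · |k|` elements (`#𝓗` if
`ψ = 1`). -/
theorem finite_and_card_le (hΔ : (Nat.card (↥L₀ ≃ₐ[K] ↥L₀) : k) ≠ 0)
    (hfin : (Hset p K ↥L₀ ψ).Finite) (Z : Set ((Ω ≃ₐ[K] Ω) → k))
    (hZ : ∀ c ∈ Z, IsPsiCocycle L₀ ψ c ∧
      ∃ 𝒩 : Subgroup (Ω ≃ₐ[K] Ω), (∀ τ ∈ 𝒩, c τ = 0) ∧ RPrimeAt p L₀ 𝒩)
    [Decidable (ψ = 1)] :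
    Z.Finite ∧
      Nat.card Z ≤ Nat.card (Hset p K ↥L₀ ψ) * (if ψ = 1 then 1 else Nat.card k) := by
  haveI := hfin.to_subtype
  let A : Z → Hset p K ↥L₀ ψ := fun c =>
    ⟨kumA p hζ hζL (hZ c.1 c.2).1, by
      obtain ⟨𝒩, hvan, hR⟩ := (hZ c.1 c.2).2
      exact kumA_mem_Hset p hζ hζL (hZ c.1 c.2).1 𝒩 hvan hR⟩
  have hcob : ∀ c c' : Z, A c = A c' →
      ∃ m : k, ∀ g, c.1 g = c'.1 g + psiT L₀ ψ g * m - m := fun c c' h =>
    exists_coboundary_of_kumA_eq p hζ hζL hΔ (hZ c.1 c.2).1 (hZ c'.1 c'.2).1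
      (congrArg Subtype.val h)
  by_cases hψ : ψ = 1
  · have hinj : Function.Injective A := by
      intro c c' h
      obtain ⟨m, hm⟩ := hcob c c' h
      apply Subtype.ext
      funext g
      have h1 : psiT L₀ ψ g = 1 := by
        unfold psiT
        rw [hψ, MonoidHom.one_apply, Units.val_one]
      rw [hm g, h1]
      ring
    haveI : Finite Z := Finite.of_injective A hinj
    refine ⟨Set.toFinite Z, ?_⟩
    rw [if_pos hψ, mul_one]
    exact Nat.card_le_card_of_injective A hinj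
  · obtain ⟨δ, hδ⟩ : ∃ δ, ψ δ ≠ 1 := by
      by_contra h
      push Not at h
      exact hψ (MonoidHom.ext h)
    obtain ⟨g₀, rfl⟩ := res_surjective L₀ δ
    have hne : psiT L₀ ψ g₀ - 1 ≠ 0 := by
      intro h0
      apply hδ
      apply Units.ext
      rw [Units.val_one]
      exact sub_eq_zero.mp h0
    let Φ : Z → Hset p K ↥L₀ ψ × k := fun c => (A c, c.1 g₀)
    have hinj : Function.Injective Φ := by
      intro c c' h
      have h1 : A c = A c' := congrArg Prod.fst h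
      have h2 : c.1 g₀ = c'.1 g₀ := congrArg Prod.snd h
      obtain ⟨m, hm⟩ := hcob c c' h1
      have hm0 : m = 0 := by
        have h3 := hm g₀
        rw [h2] at h3
        have h4 : (psiT L₀ ψ g₀ - 1) * m = 0 := by linear_combination -h3
        exact (mul_eq_zero.mp h4).resolve_left hne
      apply Subtype.ext
      funext g
      rw [hm g, hm0]
      ring
    haveI : Finite Z := Finite.of_injective Φ hinj
    refine ⟨Set.toFinite Z, ?_⟩
    rw [if_neg hψ, ← Nat.card_prod]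
    exact Nat.card_le_card_of_injective Φ hinj

end Core

/-! ### The dictionary at the level `L₀` -/

section Dict

variable (L₀ : IntermediateField ℚ_[p] (PadicAlgCl p)) [FiniteDimensional ℚ_[p] L₀]
  [Normal ℚ_[p] L₀]

/-- Global inertia restricts to inertial elements of `Gal(L₀/ℚ_p)`. -/
theorem isInertial_res {g : PadicAlgCl p ≃ₐ[ℚ_[p]] PadicAlgCl p}
    (hg : localGaloisToGlobal p g ∈ (padicPlace p).inertiaSubgroupIn ℚ) :
    IsInertial p ↥L₀ (AlgEquiv.restrictNormalHom L₀ g) := by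
  intro x hx
  exact InertiaDict16.mem_inertiaSub_of_mem_inertia p L₀ hg x
    ((Fermat.Agent.PT.LOC.Structure14.mem_intRing_iff p ↥L₀ x).1 hx)

/-- The action on `μ_p`. -/
theorem actsOnMuAs_res {g : PadicAlgCl p ≃ₐ[ℚ_[p]] PadicAlgCl p} {n : ℕ}
    (hg : ∀ μ : AlgebraicClosure ℚ, μ ^ p = 1 → localGaloisToGlobal p g μ = μ ^ n) :
    ActsOnMuAs p ↥L₀ (AlgEquiv.restrictNormalHom L₀ g) n := by
  intro ζ hζ
  apply Subtype.ext
  rw [SubmonoidClass.coe_pow]
  have hres : ((AlgEquiv.restrictNormalHom L₀ g ζ : L₀) : PadicAlgCl p) = g (ζ : PadicAlgCl p) :=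
    AlgEquiv.restrictNormal_commutes g L₀ ζ
  rw [hres]
  have hζ' : ((ζ : L₀) : PadicAlgCl p) ^ p = 1 := by
    rw [← SubmonoidClass.coe_pow, hζ]
    rfl
  have hint : IsIntegral ℚ ((ζ : L₀) : PadicAlgCl p) :=
    ⟨Polynomial.X ^ p - 1, Polynomial.monic_X_pow_sub_C 1 hp.out.ne_zero, by
      simp [hζ']⟩
  obtain ⟨μ, hμ⟩ := Fermat.Agent.PT.BR.LocInj13.exists_padicEmbedding_eq_of_isIntegral p hint
  have hμp : μ ^ p = 1 := by
    have hinj : Function.Injective (padicEmbedding p) := (padicEmbedding p).injective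
    apply hinj
    rw [map_pow, hμ, hζ', map_one]
  rw [← hμ, ← padicEmbedding_localGaloisToGlobal, hg μ hμp, map_pow]

end Dict

/-! ### `KumF1`, local form -/

section F1

variable {k : Type} [Field k] [Finite k] [CharP k p]

theorem not_dvd_sub_one : ¬ (p : ℤ) ∣ (p : ℤ) - 1 := by
  intro h
  have h1 : (p : ℤ) ∣ 1 := by
    have := dvd_sub (dvd_refl (p : ℤ)) h
    rwa [sub_sub_cancel] at this
  have h2 : p ∣ 1 := by exact_mod_cast h1
  exact hp.out.one_lt.ne' (Nat.dvd_one.1 h2)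

/-- **`KumF1`, in terms of `Gal(ℚ̄_p/ℚ_p)`.** -/
theorem kumF1_local (hp2 : p ≠ 2) (ψ : (PadicAlgCl p ≃ₐ[ℚ_[p]] PadicAlgCl p) →* kˣ)
    (E₁ : IntermediateField ℚ_[p] (PadicAlgCl p)) [FiniteDimensional ℚ_[p] E₁]
    (hE₁ : E₁.fixingSubgroup ≤ ψ.ker)
    (Z : Set ((PadicAlgCl p ≃ₐ[ℚ_[p]] PadicAlgCl p) → k))
    (hZ : ∀ c ∈ Z,
      (∃ E' : IntermediateField ℚ_[p] (PadicAlgCl p), FiniteDimensional ℚ_[p] E' ∧
        ∀ g s, s ∈ E'.fixingSubgroup → c (g * s) = c g) ∧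
      (∃ F ∈ FlatClass p (PadicAlgCl p), ∀ τ : PadicAlgCl p ≃ₐ[ℚ_[p]] PadicAlgCl p,
        (∀ y ∈ F, τ y = y) → c τ = 0) ∧
      ∀ g h, c (g * h) = c g + ((ψ g : kˣ) : k) * c h)
    (P : Prop) [Decidable P]
    (hP : (∀ g : PadicAlgCl p ≃ₐ[ℚ_[p]] PadicAlgCl p,
      localGaloisToGlobal p g ∈ (padicPlace p).inertiaSubgroupIn ℚ → ∀ n : ℕ,
        (∀ μ : AlgebraicClosure ℚ, μ ^ p = 1 → localGaloisToGlobal p g μ = μ ^ n) →
          ((ψ g : kˣ) : k) = (n : k)) → P) :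
    Z.Finite ∧ Nat.card Z ≤ Nat.card k ^ (1 + if P then 1 else 0) := by
  classical
  obtain ⟨ζ, hζ⟩ := HasEnoughRootsOfUnity.exists_primitiveRoot (PadicAlgCl p) p
  have hker : (E₁ ⊔ IntermediateField.adjoin ℚ_[p] {ζ}).fixingSubgroup ≤ (Phi p hζ ψ).ker :=
    fixing_le_ker_Phi p hζ ψ hE₁
  haveI : FiniteDimensional ℚ_[p] (IntermediateField.adjoin ℚ_[p] {ζ}) :=
    IntermediateField.adjoin.finiteDimensional (Algebra.IsIntegral.isIntegral ζ)
  haveI : FiniteDimensional ℚ_[p] ↥(E₁ ⊔ IntermediateField.adjoin ℚ_[p] {ζ}) :=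
    IntermediateField.finiteDimensional_sup _ _
  haveI hfd : FiniteDimensional ℚ_[p] (level (Phi p hζ ψ)) :=
    finiteDimensional_level (Phi p hζ ψ) hker
  -- the descended character
  let ψ₀ : (level (Phi p hζ ψ) ≃ₐ[ℚ_[p]] level (Phi p hζ ψ)) →* kˣ :=
    descend (Phi p hζ ψ) hker ψ (ker_Phi_le p hζ ψ)
  have hψ₀ : ∀ g, ψ₀ (res (level (Phi p hζ ψ)) g) = ψ g :=
    fun g => descend_resL (Phi p hζ ψ) hker ψ (ker_Phi_le p hζ ψ) g
  have hcomm := comm_level (Phi p hζ ψ) hker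
  have hdeg : ¬ p ∣ Module.finrank ℚ_[p] (level (Phi p hζ ψ)) :=
    not_dvd_finrank_level (Phi p hζ ψ) hker (not_dvd_card_target p)
  have hζL : ζ ∈ level (Phi p hζ ψ) := zeta_mem_level p hζ ψ
  have hζ' : ∃ ζ' : ↥(level (Phi p hζ ψ)), IsPrimitiveRoot ζ' p :=
    ⟨⟨ζ, hζL⟩, IsPrimitiveRoot.of_map_of_injective (f := (level (Phi p hζ ψ)).val)
      (by exact hζ) (level (Phi p hζ ψ)).val.injective⟩
  have hram := TameAbelian4.ramIdxZ_eq_of_comm_padic p ↥(level (Phi p hζ ψ)) hcomm hdeg hζ'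
  have htame : ¬ (p : ℤ) ∣ ramIdxZ p ↥(level (Phi p hζ ψ)) := by
    rw [hram]
    exact not_dvd_sub_one p
  have hΔ : (Nat.card (↥(level (Phi p hζ ψ)) ≃ₐ[ℚ_[p]] ↥(level (Phi p hζ ψ))) : k) ≠ 0 := by
    rw [IsGalois.card_aut_eq_finrank]
    intro h
    exact hdeg ((CharP.cast_eq_zero_iff k p _).mp h)
  obtain ⟨hHfin, hHcard⟩ := KumCountF1_7.countF1 p ↥(level (Phi p hζ ψ)) hram hζ' k ψ₀
  have hR := RPrimeFinal14.rPrimeStatement p hp2
  -- `ζ` as a unit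
  have hζu : IsPrimitiveRoot (hζ.isUnit hp.out.ne_zero).unit p :=
    IsPrimitiveRoot.coe_units_iff.mp hζ
  obtain ⟨hZfin, hZcard⟩ := finite_and_card_le p (level (Phi p hζ ψ)) ψ₀ hζu hζL hΔ hHfin Z
    (fun c hc => by
      obtain ⟨hlev, ⟨F, hF, hvan⟩, hcoc⟩ := hZ c hc
      refine ⟨⟨hlev, fun g h => ?_⟩, fixer p (K := ℚ_[p]) F, fun τ hτ => hvan τ hτ,
        rPrimeAt_of_flatClass p (level (Phi p hζ ψ)) hR hF htame hζ'⟩
      rw [hcoc g h]
      unfold psiT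
      rw [hψ₀])
  refine ⟨hZfin, hZcard.trans ?_⟩
  -- the exponents
  have hq : 1 ≤ Nat.card k := Nat.card_pos
  have hle : (if (∀ (δ : ↥(level (Phi p hζ ψ)) ≃ₐ[ℚ_[p]] ↥(level (Phi p hζ ψ))) (n : ℕ),
      IsInertial p ↥(level (Phi p hζ ψ)) δ → ActsOnMuAs p ↥(level (Phi p hζ ψ)) δ n →
        ((ψ₀ δ : kˣ) : k) = (n : k)) then 1 else 0) ≤ (if P then 1 else 0) := by
    by_cases hc : (∀ (δ : ↥(level (Phi p hζ ψ)) ≃ₐ[ℚ_[p]] ↥(level (Phi p hζ ψ))) (n : ℕ),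
      IsInertial p ↥(level (Phi p hζ ψ)) δ → ActsOnMuAs p ↥(level (Phi p hζ ψ)) δ n →
        ((ψ₀ δ : kˣ) : k) = (n : k))
    · have hPP : P := hP (fun g hg n hn => by
        rw [← hψ₀ g]
        exact hc _ n (isInertial_res p _ hg) (actsOnMuAs_res p _ hn))
      rw [if_pos hc, if_pos hPP]
    · rw [if_neg hc]
      exact Nat.zero_le _
  by_cases hψ1 : ψ₀ = 1
  · rw [if_pos hψ1, mul_one]
    refine hHcard.trans (Nat.pow_le_pow_right hq ?_)
    rw [if_pos hψ1]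
    exact Nat.add_le_add_left hle 1
  · rw [if_neg hψ1]
    rw [if_neg hψ1, zero_add] at hHcard
    calc Nat.card ↑(Hset p ℚ_[p] ↥(level (Phi p hζ ψ)) ψ₀) * Nat.card k
        ≤ Nat.card k ^ _ * Nat.card k := Nat.mul_le_mul_right _ hHcard
      _ = Nat.card k ^ (_ + 1) := (pow_succ _ _).symm
      _ ≤ Nat.card k ^ (1 + if P then 1 else 0) := by
          refine Nat.pow_le_pow_right hq ?_
          rw [add_comm]
          exact Nat.add_le_add_left hle 1

end F1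

/-! ### `KumF1` -/

section Final

open Fermat.Agent.ES.T56.FlatIface20

/-- **`FlatIface20.KumF1`.** -/
theorem kumF1 (k : Type) [Field k] : KumF1 p k := by
  intro hp2 hfin hchar ψ hψ
  classical
  haveI := hfin
  haveI := hchar
  let ψ' : (PadicAlgCl p ≃ₐ[ℚ_[p]] PadicAlgCl p) →* kˣ := ψ
  obtain ⟨E₁, hE₁fd, hE₁⟩ :=
    (Fermat.Agent.PT.BR.LocInj13.isLevelConstant₁_iff p (fun g => ψ' g)).1 hψ
  haveI := hE₁fd
  have hE₁' : E₁.fixingSubgroup ≤ ψ'.ker := by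
    intro s hs
    have h1 := hE₁ 1 s hs
    rw [one_mul, map_one] at h1
    exact h1
  exact kumF1_local p hp2 ψ' E₁ hE₁' (ZbPsi p ψ)
    (fun c hc => by
      obtain ⟨h1, ⟨F, hF, h2⟩, h3⟩ := hc
      exact ⟨(Fermat.Agent.PT.BR.LocInj13.isLevelConstant₁_iff p c).1 h1,
        ⟨F, hF, fun τ hτ => h2 τ hτ⟩, h3⟩)
    (IsOmegaOnInertia p ψ)
    (fun h g hg n hn => h g hg n hn)

end Final

end

end Fermat.Agent.ES.T56.KumF1_17
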