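/-
Programme T (S56), chapter KUM (helper17 lead, helper7), file `KumF2Base7` — helper7.

The BASE FIELD of `FlatIface20.KumF2`: for `H ≤ Γ_p = Gal(ℚ̄_p/ℚ_p)` of index `2`, open, containing the
(global) inertia group, the fixed field `E` of `H` is an UNRAMIFIED QUADRATIC extension of `ℚ_p`.

`L` := normal closure of the level field `F₀`, `L_w = localField p L`; `H ⊇ Gal(ℚ̄_p/L_w)`;
`I(L_w/ℚ_p) = res(I_glob)` (`InertiaDict16`) fixes `E`, hence `I(L_w/E) = I(L_w/ℚ_p)`,
`e(L_w/E) = e(L_w/ℚ_p) = e(E/ℚ_p) e(L_w/E)` and `e(E/ℚ_p) = 1`.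
-/
import Mathlib
import Fermat.Agent.PT.LOC.Frob27
import Fermat.Agent.ES.T56.InertiaDict16

set_option autoImplicit false
set_option linter.unusedSectionVars false

open scoped Fermat.Agent.PT.LOC.Interface12 Fermat.Agent.PT.LOC.StructureTower27
open Fermat.Agent.PT.LOC.Interface12 Fermat.Agent.PT.LOC.Structure14
  Fermat.Agent.PT.LOC.StructureNorm14 Fermat.Agent.PT.LOC.StructureTower27
  Fermat.Agent.PT.LOC.StructureTowerEF27
open Fermat.Agent.PT.BR.LocInj13 Fermat.Agent.PT.BR.LocalLevel13
open Fermat.Agent.ES.T56.TameLoc16 Fermat.Agent.ES.T56.LocTW16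

namespace Fermat.Agent.ES.T56.KumF2Base7

noncomputable section

local notation "Qbar" => AlgebraicClosure ℚ

variable (p : ℕ) [Fact p.Prime]

/-! ### Open subgroups of `Γ_p` -/

section Open

variable (H : Subgroup (Gq p))

/-- A subgroup containing the fixing subgroup of a finite extension is the fixing subgroup of its
fixed field. -/
theorem fixingSubgroup_fixedField_of_le {E₁ : IntermediateField ℚ_[p] (PadicAlgCl p)}
    [FiniteDimensional ℚ_[p] E₁] (h : E₁.fixingSubgroup ≤ H) :
    (IntermediateField.fixedField H).fixingSubgroup = H := by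
  have hopen : IsOpen (H : Set (Gq p)) :=
    Subgroup.isOpen_mono h (IntermediateField.fixingSubgroup_isOpen E₁)
  exact InfiniteGalois.fixingSubgroup_fixedField ⟨H, Subgroup.isClosed_of_isOpen _ hopen⟩

theorem fixedField_le_of_le {E₁ : IntermediateField ℚ_[p] (PadicAlgCl p)}
    (h : E₁.fixingSubgroup ≤ H) : IntermediateField.fixedField H ≤ E₁ := by
  have h1 : IntermediateField.fixedField H ≤ IntermediateField.fixedField E₁.fixingSubgroup :=
    IntermediateField.fixedField_antitone h
  rwa [InfiniteGalois.fixedField_fixingSubgroup] at h1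

end Open

/-! ### The inertia group has order `e` -/

section CardInertia

variable (E E' : Type) [Field E] [Field E'] [Algebra ℚ_[p] E]
  [Algebra ℚ_[p] E'] [Algebra E E'] [IsScalarTower ℚ_[p] E E'] [FiniteDimensional ℚ_[p] E]
  [FiniteDimensional ℚ_[p] E'] [IsGalois E E']

theorem card_inertiaSub : Nat.card (inertiaSub p E E') = ramIdx p E E' := by
  rw [inertiaSub_eq, Fermat.Agent.PT.LOC.Frob27.card_inertia]

/-- If every inertial automorphism of `E'/ℚ_p` fixes the subfield `E`, then `E/ℚ_p` is unramified. -/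
theorem isUnramified_of_inertia_fixes [IsGalois ℚ_[p] E']
    (h : ∀ τ ∈ inertiaSub p ℚ_[p] E', ∀ x : E, τ (algebraMap E E' x) = algebraMap E E' x) :
    IsUnramified p ℚ_[p] E := by
  have hfin := Fermat.Agent.PT.LOC.Frob27.finite_gal p E E'
  let f : inertiaSub p ℚ_[p] E' → inertiaSub p E E' := fun τ =>
    ⟨AlgEquiv.ofRingEquiv (f := (τ.1 : E' ≃ₐ[ℚ_[p]] E').toRingEquiv) (h τ.1 τ.2),
      fun x hx => τ.2 x hx⟩
  have hf : Function.Injective f := by
    intro τ₁ τ₂ h12
    apply Subtype.ext
    ext x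
    have h1 := congrArg (fun σ : inertiaSub p E E' => (σ : E' ≃ₐ[E] E') x) h12
    exact h1
  have h1 := Nat.card_le_card_of_injective f hf
  rw [card_inertiaSub, card_inertiaSub, ramIdx_tower p ℚ_[p] E E'] at h1
  rw [isUnramified_iff]
  have hpos := ramIdx_pos p E E'
  have hpos' := ramIdx_pos p ℚ_[p] E
  have h2 : ramIdx p ℚ_[p] E * ramIdx p E E' ≤ 1 * ramIdx p E E' := by rwa [one_mul]
  have h3 := Nat.le_of_mul_le_mul_right h2 hpos
  omega

end CardInertia

/-! ### The fixed field of `H` -/

section Main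

variable (H : Subgroup (Gq p))

/-- **The fixed field of an open subgroup of index `2` containing the inertia group is an
unramified quadratic extension of `ℚ_p`.** -/
theorem unram_quadratic (hidx : H.index = 2)
    (hI : ∀ g : Gq p, localGaloisToGlobal p g ∈ (padicPlace p).inertiaSubgroupIn ℚ → g ∈ H)
    (hopen : ∃ F₀ : IntermediateField ℚ Qbar, FiniteDimensional ℚ F₀ ∧
      ∀ g : Gq p, localGaloisToGlobal p g ∈ F₀.fixingSubgroup → g ∈ H) :
    ∃ E : IntermediateField ℚ_[p] (PadicAlgCl p), FiniteDimensional ℚ_[p] E ∧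
      E.fixingSubgroup = H ∧ Module.finrank ℚ_[p] E = 2 ∧ IsUnramified p ℚ_[p] ↥E := by
  obtain ⟨F₀, hF₀, hF₀H⟩ := hopen
  -- the Galois level
  obtain ⟨L, hLdef⟩ : ∃ L : IntermediateField ℚ Qbar, L = IntermediateField.normalClosure ℚ F₀ Qbar :=
    ⟨_, rfl⟩
  have hLfd : FiniteDimensional ℚ L := by rw [hLdef]; infer_instance
  have hLgal : IsGalois ℚ L := by
    rw [hLdef]
    exact IsGalois.normalClosure ℚ F₀ Qbar
  have hF₀L : F₀ ≤ L := by rw [hLdef]; exact IntermediateField.le_normalClosure F₀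
  have hlev : (localField p L).fixingSubgroup ≤ H := fun τ hτ =>
    hF₀H τ (IntermediateField.fixingSubgroup_antitone hF₀L
      ((mem_fixingSubgroup_localField_iff p L τ).1 hτ))
  -- the fixed field
  obtain ⟨E, hEdef⟩ : ∃ E : IntermediateField ℚ_[p] (PadicAlgCl p),
    E = IntermediateField.fixedField H := ⟨_, rfl⟩
  have hEfix : E.fixingSubgroup = H := by
    rw [hEdef]; exact fixingSubgroup_fixedField_of_le p H hlev
  have hEle : E ≤ localField p L := by
    rw [hEdef]; exact fixedField_le_of_le p H hlev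
  have hfd : FiniteDimensional ℚ_[p] E :=
    FiniteDimensional.of_injective (IntermediateField.inclusion hEle).toLinearMap
      (IntermediateField.inclusion hEle).injective
  have hrank : Module.finrank ℚ_[p] E = 2 := by
    rw [IntermediateField.finrank_eq_fixingSubgroup_index, hEfix, hidx]
  refine ⟨E, hfd, hEfix, hrank, ?_⟩
  -- `L_w` as an extension of `E`
  let _ : Algebra ↥E ↥(localField p L) := (IntermediateField.inclusion hEle).toRingHom.toAlgebra
  have : IsScalarTower ℚ_[p] ↥E ↥(localField p L) :=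
    IsScalarTower.of_algebraMap_eq (fun x => rfl)
  have : IsGalois ↥E ↥(localField p L) := IsGalois.tower_top_of_isGalois ℚ_[p] ↥E ↥(localField p L)
  apply isUnramified_of_inertia_fixes p ↥E ↥(localField p L)
  intro τ hτ x
  obtain ⟨g, rfl⟩ := AlgEquiv.restrictNormalHom_surjective (F := ℚ_[p]) (PadicAlgCl p)
    (K₁ := ↥(localField p L)) τ
  -- `g ∈ H`
  have hgH : g ∈ H := by
    have h1 := (InertiaDict16.mem_inertiaSub_localField_iff p L g).1 hτ
    have hnorm : (L.fixingSubgroup).Normal :=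
      Fermat.Agent.PT.BR.LevelBridge13.normal_fixingSubgroup L
    obtain ⟨σ, hσ, s, hs, hσs⟩ := Subgroup.mem_sup_of_normal_right.1 h1
    obtain ⟨g₁, rfl⟩ := LocSurj16.inertia_le_range p hσ
    have h2 : localGaloisToGlobal p (g₁⁻¹ * g) ∈ L.fixingSubgroup := by
      rw [map_mul, map_inv, ← hσs, inv_mul_cancel_left]
      exact hs
    have h3 : g₁⁻¹ * g ∈ H := hlev ((mem_fixingSubgroup_localField_iff p L _).2 h2)
    have h4 : g = g₁ * (g₁⁻¹ * g) := by rw [mul_inv_cancel_left]
    rw [h4]
    exact H.mul_mem (hI g₁ hσ) h3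
  -- `g` fixes `E`
  apply Subtype.ext
  have h5 : (((AlgEquiv.restrictNormalHom (F := ℚ_[p]) (K₁ := PadicAlgCl p) ↥(localField p L) g)
      (algebraMap ↥E ↥(localField p L) x) : ↥(localField p L)) : PadicAlgCl p) =
      g ((algebraMap ↥E ↥(localField p L) x : ↥(localField p L)) : PadicAlgCl p) :=
    AlgEquiv.restrictNormal_commutes g ↥(localField p L) _
  rw [h5]
  have h6 : ((algebraMap ↥E ↥(localField p L) x : ↥(localField p L)) : PadicAlgCl p) =
      (x : PadicAlgCl p) := rfl
  rw [h6]
  have hx : (x : PadicAlgCl p) ∈ IntermediateField.fixedField H := by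
    rw [← hEdef]; exact x.2
  exact (IntermediateField.mem_fixedField_iff _ _).1 hx g hgH

end Main

end

end Fermat.Agent.ES.T56.KumF2Base7
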