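/-
Programme T (S56), chapter KUM, the LEVEL FIELD for `FlatIface20.KumF2` (helper17).  Mathlib +
`KumF1Level17` only.

`Ω/F` Galois (possibly infinite), `E ⊆ Ω` a subextension NORMAL over `F`, `Γ_E = Gal(Ω/E)`,
`Γ = Gal(Ω/F)`.

* `kappa` : the Kummer character `g ↦ g π / π` of `Gal(Ω/K)` (`π ^ n ∈ K`, `μ_n ⊆ K`);
* `conjE E σ g = σ g σ⁻¹ ∈ Γ_E` (`σ ∈ Γ`, `g ∈ Γ_E`);
* `normal_level` : if `ker Φ` is stable under all `conjE E σ`, the field cut out by `Φ` is normal over `F`;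
* `Phi2 = (χ₁, χ₂, ω_p, κ_π)` and its level `level (Phi2 …)`: finite abelian of degree prime to `p` over `E`,
  contains `ζ_p` and `π`, normal over `F` when `{ker χ₁ ∩ ker χ₂}` is stable under conjugation
  (and `π ^ n ∈ F`).
-/
import Mathlib
import Fermat.Agent.ES.T56.KumF1Level17

set_option autoImplicit false
set_option linter.unusedSectionVars false
set_option linter.style.haveILetI false

namespace Fermat.Agent.ES.T56.KumF2Level17

open IntermediateField Fermat.Agent.ES.T56.KumF1Level17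

noncomputable section

/-! ### The Kummer character -/

section Kummer

variable {K Ω : Type} [Field K] [Field Ω] [Algebra K Ω]
variable {n : ℕ} [NeZero n] {ζ₂ : K} (hζ₂ : IsPrimitiveRoot ζ₂ n)
variable {π : Ω} (hπ0 : π ≠ 0) {a : K} (hπ : π ^ n = algebraMap K Ω a)

include hζ₂ in
/-- The `n`-th roots of unity of `Ω` lie in `K`, hence are fixed by `Gal(Ω/K)`. -/
theorem apply_eq_of_pow_eq_one (g : Ω ≃ₐ[K] Ω) {η : Ω} (hη : η ^ n = 1) : g η = η := by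
  have h1 : IsPrimitiveRoot (algebraMap K Ω ζ₂) n :=
    hζ₂.map_of_injective (algebraMap K Ω).injective
  obtain ⟨i, -, rfl⟩ := h1.eq_pow_of_pow_eq_one hη
  rw [map_pow, g.commutes]

include hπ0 hπ in
theorem div_pow_eq_one (g : Ω ≃ₐ[K] Ω) : (g π / π) ^ n = 1 := by
  rw [div_pow, ← map_pow, hπ, g.commutes, ← hπ]
  exact div_self (pow_ne_zero n hπ0)

/-- `g π / π` as a root of unity. -/
def kappaFun (g : Ω ≃ₐ[K] Ω) : rootsOfUnity n Ω :=
  ⟨Units.mk0 (g π / π) (div_ne_zero ((map_ne_zero g).2 hπ0) hπ0), by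
    rw [mem_rootsOfUnity]
    apply Units.ext
    rw [Units.val_pow_eq_pow_val, Units.val_mk0, Units.val_one]
    exact div_pow_eq_one hπ0 hπ g⟩

theorem kappaFun_coe (g : Ω ≃ₐ[K] Ω) : (((kappaFun hπ0 hπ g : rootsOfUnity n Ω) : Ωˣ) : Ω) = g π / π :=
  rfl

/-- **The Kummer character** `κ_π : Gal(Ω/K) → μ_n(Ω)`. -/
def kappa : (Ω ≃ₐ[K] Ω) →* rootsOfUnity n Ω :=
  MonoidHom.mk' (kappaFun hπ0 hπ) (fun g h => by
    apply Subtype.ext
    apply Units.ext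
    rw [Subgroup.coe_mul, Units.val_mul, kappaFun_coe, kappaFun_coe, kappaFun_coe,
      AlgEquiv.mul_apply]
    have h1 : h π = (h π / π) * π := by field_simp
    have h2 : g (h π / π) = h π / π :=
      apply_eq_of_pow_eq_one hζ₂ g (div_pow_eq_one hπ0 hπ h)
    rw [h1, map_mul, h2]
    field_simp)

theorem kappa_coe (g : Ω ≃ₐ[K] Ω) :
    (((kappa hζ₂ hπ0 hπ g : rootsOfUnity n Ω) : Ωˣ) : Ω) = g π / π := rfl

theorem kappa_eq_one_iff (g : Ω ≃ₐ[K] Ω) : kappa hζ₂ hπ0 hπ g = 1 ↔ g π = π := by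
  constructor
  · intro h
    have h1 := kappa_coe hζ₂ hπ0 hπ g
    rw [h, OneMemClass.coe_one, Units.val_one] at h1
    field_simp at h1
    exact h1.symm
  · intro h
    apply Subtype.ext
    apply Units.ext
    rw [kappa_coe, h, OneMemClass.coe_one, Units.val_one]
    exact div_self hπ0

end Kummer

/-! ### Conjugation -/

section Conj

variable {F Ω : Type} [Field F] [Field Ω] [Algebra F Ω]
variable (E : IntermediateField F Ω) [Normal F E]

theorem apply_mem (σ : Ω ≃ₐ[F] Ω) {x : Ω} (hx : x ∈ E) : σ x ∈ E := by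
  have h := AlgEquiv.restrictNormal_commutes σ E ⟨x, hx⟩
  have h2 : σ x = ((σ.restrictNormal E ⟨x, hx⟩ : ↥E) : Ω) := h.symm
  rw [h2]
  exact (σ.restrictNormal E ⟨x, hx⟩).2

/-- `σ g σ⁻¹`. -/
def conjE (σ : Ω ≃ₐ[F] Ω) (g : Ω ≃ₐ[↥E] Ω) : Ω ≃ₐ[↥E] Ω :=
  AlgEquiv.ofRingEquiv (f := (σ.symm.toRingEquiv.trans g.toRingEquiv).trans σ.toRingEquiv)
    (fun x => by
      show σ (g (σ.symm (x : Ω))) = (x : Ω)
      have h1 : σ.symm (x : Ω) ∈ E := apply_mem E σ.symm x.2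
      have h2 : g (σ.symm (x : Ω)) = σ.symm (x : Ω) := g.commutes ⟨_, h1⟩
      rw [h2, σ.apply_symm_apply])

theorem conjE_apply (σ : Ω ≃ₐ[F] Ω) (g : Ω ≃ₐ[↥E] Ω) (x : Ω) :
    conjE E σ g x = σ (g (σ.symm x)) := rfl

theorem conjE_apply_apply (σ : Ω ≃ₐ[F] Ω) (g : Ω ≃ₐ[↥E] Ω) (x : Ω) :
    conjE E σ g (σ x) = σ (g x) := by
  rw [conjE_apply, σ.symm_apply_apply]

variable [IsGalois F Ω]

/-- If `ker Φ` is stable under conjugation by `Gal(Ω/F)`, the field cut out by `Φ` is normal over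
`F`. -/
theorem normal_level {A : Type} [CommGroup A] (Φ : (Ω ≃ₐ[↥E] Ω) →* A)
    (hstab : ∀ (σ : Ω ≃ₐ[F] Ω) (g : Ω ≃ₐ[↥E] Ω), Φ g = 1 → Φ (conjE E σ g) = 1) :
    Normal F ↥((level Φ).restrictScalars F) := by
  rw [IntermediateField.normal_iff_forall_map_le']
  rintro σ x ⟨y, hy, rfl⟩
  have hy' : y ∈ level Φ := hy
  show σ y ∈ level Φ
  rw [level, IntermediateField.mem_fixedField_iff] at hy' ⊢
  intro g hg
  have h1 : conjE E σ.symm g ∈ Φ.ker := hstab σ.symm g hg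
  have h2 := hy' _ h1
  rw [conjE_apply] at h2
  have h3 := congrArg σ h2
  rwa [AlgEquiv.symm_symm, σ.apply_symm_apply] at h3

end Conj

/-! ### Elements fixing a generating set fix the generated field -/

section Adjoin

variable {F Ω : Type} [Field F] [Field Ω] [Algebra F Ω] [Algebra.IsAlgebraic F Ω]

theorem apply_eq_of_mem_adjoin (g : Ω →ₐ[F] Ω) {t : Set Ω} (ht : ∀ x ∈ t, g x = x) {y : Ω}
    (hy : y ∈ IntermediateField.adjoin F t) : g y = y := by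
  have h1 : Algebra.adjoin F t ≤ AlgHom.equalizer g (AlgHom.id F Ω) :=
    Algebra.adjoin_le (fun x hx => ht x hx)
  rw [← IntermediateField.mem_toSubalgebra, IntermediateField.adjoin_toSubalgebra] at hy
  exact h1 hy

end Adjoin

/-! ### `Φ = (χ₁, χ₂, ω_p, κ_π)` -/

section Phi2

variable {F Ω : Type} [Field F] [Field Ω] [Algebra F Ω] [IsGalois F Ω]
variable (E : IntermediateField F Ω)
variable (p : ℕ) [hp : Fact p.Prime] {k : Type} [Field k] [Finite k] [CharP k p]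
variable (χ₁ χ₂ : (Ω ≃ₐ[↥E] Ω) →* kˣ)
variable {ζ : Ω} (hζ : IsPrimitiveRoot ζ p)
variable {n : ℕ} [NeZero n] {ζ₂ : ↥E} (hζ₂ : IsPrimitiveRoot ζ₂ n)
variable {π : Ω} (hπ0 : π ≠ 0) {a : F} (hπ : π ^ n = algebraMap F Ω a)

local instance neZeroLevel2_17 : NeZero p := ⟨hp.out.ne_zero⟩

include hπ in
theorem pow_eq_algebraMap : π ^ n = algebraMap ↥E Ω (algebraMap F ↥E a) := by
  rw [← IsScalarTower.algebraMap_apply]
  exact hπ

/-- `Φ = (χ₁, χ₂, ω_p, κ_π)`. -/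
def Phi2 : (Ω ≃ₐ[↥E] Ω) →* kˣ × kˣ × (ZMod p)ˣ × rootsOfUnity n Ω :=
  χ₁.prod (χ₂.prod ((hζ.autToPow ↥E).prod (kappa hζ₂ hπ0 (pow_eq_algebraMap E hπ))))

theorem autToPow_eq_one_iff (g : Ω ≃ₐ[↥E] Ω) : hζ.autToPow ↥E g = 1 ↔ g ζ = ζ := by
  constructor
  · intro h1
    have h2 := hζ.autToPow_spec ↥E g
    rw [h1, Units.val_one, ZMod.val_one'' (hp.out.ne_one), pow_one] at h2
    exact h2.symm
  · exact autToPow_eq_one_of_fixes p hζ

theorem mem_ker_Phi2 {g : Ω ≃ₐ[↥E] Ω} :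
    g ∈ (Phi2 E p χ₁ χ₂ hζ hζ₂ hπ0 hπ).ker ↔ χ₁ g = 1 ∧ χ₂ g = 1 ∧ g ζ = ζ ∧ g π = π := by
  rw [MonoidHom.mem_ker, Phi2, MonoidHom.prod_apply, Prod.mk_eq_one, MonoidHom.prod_apply,
    Prod.mk_eq_one, MonoidHom.prod_apply, Prod.mk_eq_one, autToPow_eq_one_iff, kappa_eq_one_iff]

theorem ker_Phi2_le_left : (Phi2 E p χ₁ χ₂ hζ hζ₂ hπ0 hπ).ker ≤ χ₁.ker :=
  fun _ hg => ((mem_ker_Phi2 E p χ₁ χ₂ hζ hζ₂ hπ0 hπ).1 hg).1

theorem ker_Phi2_le_right : (Phi2 E p χ₁ χ₂ hζ hζ₂ hπ0 hπ).ker ≤ χ₂.ker :=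
  fun _ hg => ((mem_ker_Phi2 E p χ₁ χ₂ hζ hζ₂ hπ0 hπ).1 hg).2.1

theorem zeta_mem_level2 : ζ ∈ level (Phi2 E p χ₁ χ₂ hζ hζ₂ hπ0 hπ) := by
  rw [level, IntermediateField.mem_fixedField_iff]
  intro g hg
  exact ((mem_ker_Phi2 E p χ₁ χ₂ hζ hζ₂ hπ0 hπ).1 hg).2.2.1

theorem pi_mem_level2 : π ∈ level (Phi2 E p χ₁ χ₂ hζ hζ₂ hπ0 hπ) := by
  rw [level, IntermediateField.mem_fixedField_iff]
  intro g hg
  exact ((mem_ker_Phi2 E p χ₁ χ₂ hζ hζ₂ hπ0 hπ).1 hg).2.2.2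

/-- A finite extension of `F` inside `Ω` is contained in a finite extension of `E`. -/
theorem exists_extend (E₁ : IntermediateField F Ω) [FiniteDimensional F E₁] :
    ∃ E₂ : IntermediateField ↥E Ω, FiniteDimensional ↥E E₂ ∧
      ∀ g : Ω ≃ₐ[↥E] Ω, g ∈ E₂.fixingSubgroup → ∀ y ∈ E₁, g y = y := by
  classical
  obtain ⟨t, ht⟩ : E₁.FG := by
    apply IntermediateField.fg_of_fg_toSubalgebra
    apply Subalgebra.fg_of_fg_toSubmodule
    exact (Module.Finite.iff_fg (N := E₁.toSubalgebra.toSubmodule)).1 ‹FiniteDimensional F E₁›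
  refine ⟨IntermediateField.adjoin ↥E (↑t : Set Ω), ?_, ?_⟩
  · haveI : Finite ((↑t : Set Ω) : Set Ω) := (Finset.finite_toSet t).to_subtype
    exact IntermediateField.finiteDimensional_adjoin fun x _ =>
      Algebra.IsIntegral.isIntegral x
  · intro g hg y hy
    rw [IntermediateField.mem_fixingSubgroup_iff] at hg
    rw [← ht] at hy
    exact apply_eq_of_mem_adjoin ((g.restrictScalars F : Ω ≃ₐ[F] Ω) : Ω →ₐ[F] Ω)
      (fun x hx => hg x (IntermediateField.subset_adjoin _ _ hx)) hy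

/-- `Φ` is trivial on the fixer of a finite extension of `E`. -/
theorem exists_fixing_le_ker_Phi2 (E₁ : IntermediateField F Ω) [FiniteDimensional F E₁]
    (h : ∀ g : Ω ≃ₐ[↥E] Ω, (∀ y ∈ E₁, g y = y) → χ₁ g = 1 ∧ χ₂ g = 1) :
    ∃ E₂ : IntermediateField ↥E Ω, FiniteDimensional ↥E E₂ ∧
      E₂.fixingSubgroup ≤ (Phi2 E p χ₁ χ₂ hζ hζ₂ hπ0 hπ).ker := by
  classical
  obtain ⟨t, ht⟩ : E₁.FG := by
    apply IntermediateField.fg_of_fg_toSubalgebra
    apply Subalgebra.fg_of_fg_toSubmodule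
    exact (Module.Finite.iff_fg (N := E₁.toSubalgebra.toSubmodule)).1 ‹FiniteDimensional F E₁›
  refine ⟨IntermediateField.adjoin ↥E ((↑t : Set Ω) ∪ {ζ, π}), ?_, ?_⟩
  · haveI : Finite ((↑t : Set Ω) ∪ {ζ, π} : Set Ω) :=
      ((Finset.finite_toSet t).union (Set.toFinite {ζ, π})).to_subtype
    exact IntermediateField.finiteDimensional_adjoin fun x _ =>
      Algebra.IsIntegral.isIntegral x
  · intro g hg
    rw [IntermediateField.mem_fixingSubgroup_iff] at hg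
    have hsub : ∀ x ∈ ((↑t : Set Ω) ∪ {ζ, π} : Set Ω), g x = x := fun x hx =>
      hg x (IntermediateField.subset_adjoin _ _ hx)
    rw [mem_ker_Phi2]
    have h1 : ∀ y ∈ E₁, g y = y := by
      intro y hy
      rw [← ht] at hy
      exact apply_eq_of_mem_adjoin ((g.restrictScalars F : Ω ≃ₐ[F] Ω) : Ω →ₐ[F] Ω)
        (fun x hx => hsub x (Or.inl hx)) hy
    exact ⟨(h g h1).1, (h g h1).2, hsub ζ (Or.inr (Or.inl rfl)), hsub π (Or.inr (Or.inr rfl))⟩

include hζ₂ in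
theorem not_dvd_card_target2 (hn : ¬ p ∣ n) :
    ¬ p ∣ Nat.card (kˣ × kˣ × (ZMod p)ˣ × rootsOfUnity n Ω) := by
  have h0 : ¬ p ∣ Nat.card (kˣ × (ZMod p)ˣ) := not_dvd_card_target p
  rw [Nat.card_prod] at h0
  have hk : ¬ p ∣ Nat.card kˣ := fun hd => h0 (dvd_mul_of_dvd_left hd _)
  have hz : ¬ p ∣ Nat.card (ZMod p)ˣ := fun hd => h0 (dvd_mul_of_dvd_right hd _)
  have hr : ¬ p ∣ Nat.card (rootsOfUnity n Ω) := by
    have h1 : IsPrimitiveRoot (algebraMap ↥E Ω ζ₂) n :=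
      hζ₂.map_of_injective (algebraMap ↥E Ω).injective
    rw [h1.card_rootsOfUnity]
    exact hn
  rw [Nat.card_prod, Nat.card_prod, Nat.card_prod]
  intro hd
  rcases (Nat.Prime.dvd_mul hp.out).1 hd with h | h
  · exact hk h
  · rcases (Nat.Prime.dvd_mul hp.out).1 h with h | h
    · exact hk h
    · rcases (Nat.Prime.dvd_mul hp.out).1 h with h | h
      · exact hz h
      · exact hr h

variable [Normal F E]

include hζ in
theorem conjE_apply_zeta (σ : Ω ≃ₐ[F] Ω) {g : Ω ≃ₐ[↥E] Ω} (hg : g ζ = ζ) :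
    conjE E σ g ζ = ζ := by
  rw [conjE_apply]
  have h1 : (σ.symm ζ) ^ p = 1 := by rw [← map_pow, hζ.pow_eq_one, map_one]
  obtain ⟨i, -, hi⟩ := hζ.eq_pow_of_pow_eq_one h1
  rw [← hi, map_pow, hg, hi, σ.apply_symm_apply]

include hζ₂ hπ0 hπ in
theorem conjE_apply_pi (σ : Ω ≃ₐ[F] Ω) {g : Ω ≃ₐ[↥E] Ω} (hg : g π = π) :
    conjE E σ g π = π := by
  rw [conjE_apply]
  have h1 : (σ.symm π / π) ^ n = 1 := by
    rw [div_pow, ← map_pow, hπ, σ.symm.commutes, ← hπ]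
    exact div_self (pow_ne_zero n hπ0)
  have h2 : g (σ.symm π / π) = σ.symm π / π := apply_eq_of_pow_eq_one hζ₂ g h1
  have h3 : σ.symm π = (σ.symm π / π) * π := by field_simp
  have h4 : g (σ.symm π) = σ.symm π := by
    conv_lhs => rw [h3, map_mul, h2, hg]
    exact h3.symm
  rw [h4, σ.apply_symm_apply]

/-- The level of `Φ` is normal over `F`, if `ker χ₁ ∩ ker χ₂` is stable under conjugation. -/
theorem normal_level2
    (hχ : ∀ (σ : Ω ≃ₐ[F] Ω) (g : Ω ≃ₐ[↥E] Ω), χ₁ g = 1 → χ₂ g = 1 →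
      χ₁ (conjE E σ g) = 1 ∧ χ₂ (conjE E σ g) = 1) :
    Normal F ↥((level (Phi2 E p χ₁ χ₂ hζ hζ₂ hπ0 hπ)).restrictScalars F) := by
  apply normal_level E
  intro σ g hg
  have hg' := (mem_ker_Phi2 E p χ₁ χ₂ hζ hζ₂ hπ0 hπ).1 hg
  exact (mem_ker_Phi2 E p χ₁ χ₂ hζ hζ₂ hπ0 hπ).2
    ⟨(hχ σ g hg'.1 hg'.2.1).1, (hχ σ g hg'.1 hg'.2.1).2,
      conjE_apply_zeta E p hζ σ hg'.2.2.1, conjE_apply_pi E hζ₂ hπ0 hπ σ hg'.2.2.2⟩

end Phi2

/-! ### Index-two group theory -/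

section IndexTwo

variable {G : Type} [Group G] (H : Subgroup G) [H.Normal] {A : Type} [CommGroup A]

theorem conjNormal_of_mem (χ : ↥H →* A) (t h : ↥H) :
    χ (MulAut.conjNormal (t : G) h) = χ h := by
  have h1 : MulAut.conjNormal (t : G) h = t * h * t⁻¹ := by
    apply Subtype.ext
    rw [MulAut.conjNormal_apply]
    rfl
  rw [h1, map_mul, map_mul, map_inv, mul_comm (χ t), mul_assoc, mul_inv_cancel, mul_one]

/-- `ker χ ∩ ker χ^σ` is stable under conjugation by the whole group (`H` of index two, `σ ∉ H`). -/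
theorem conj_ker_stable (hidx : H.index = 2) (χ : ↥H →* A) {σ : G} (hσ : σ ∉ H) (τ : G) (h : ↥H)
    (h1 : χ h = 1) (h2 : χ (MulAut.conjNormal σ h) = 1) :
    χ (MulAut.conjNormal τ h) = 1 ∧ χ (MulAut.conjNormal σ (MulAut.conjNormal τ h)) = 1 := by
  by_cases hτ : τ ∈ H
  · refine ⟨by rw [conjNormal_of_mem H χ ⟨τ, hτ⟩ h, h1], ?_⟩
    have h3 : MulAut.conjNormal σ (MulAut.conjNormal τ h) =
        MulAut.conjNormal ((MulAut.conjNormal σ (⟨τ, hτ⟩ : ↥H) : ↥H) : G)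
          (MulAut.conjNormal σ h) := by
      apply Subtype.ext
      simp only [MulAut.conjNormal_apply]
      group
    rw [h3, conjNormal_of_mem, h2]
  · have hσ' : σ⁻¹ ∉ H := fun hh => hσ (by simpa using H.inv_mem hh)
    have ht : σ⁻¹ * τ ∈ H := (Subgroup.mul_mem_iff_of_index_two hidx).2 (iff_of_false hσ' hτ)
    have hu : σ * τ ∈ H := (Subgroup.mul_mem_iff_of_index_two hidx).2 (iff_of_false hσ hτ)
    constructor
    · have h3 : MulAut.conjNormal τ h =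
          MulAut.conjNormal σ (MulAut.conjNormal ((⟨σ⁻¹ * τ, ht⟩ : ↥H) : G) h) := by
        apply Subtype.ext
        simp only [MulAut.conjNormal_apply]
        group
      have h4 : MulAut.conjNormal σ (MulAut.conjNormal ((⟨σ⁻¹ * τ, ht⟩ : ↥H) : G) h) =
          MulAut.conjNormal ((MulAut.conjNormal σ (⟨σ⁻¹ * τ, ht⟩ : ↥H) : ↥H) : G)
            (MulAut.conjNormal σ h) := by
        apply Subtype.ext
        simp only [MulAut.conjNormal_apply]
        group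
      rw [h3, h4, conjNormal_of_mem, h2]
    · have h3 : MulAut.conjNormal σ (MulAut.conjNormal τ h) =
          MulAut.conjNormal ((⟨σ * τ, hu⟩ : ↥H) : G) h := by
        apply Subtype.ext
        simp only [MulAut.conjNormal_apply]
        group
      rw [h3, conjNormal_of_mem, h1]

end IndexTwo

/-! ### `Gal(Ω/E)` and `H = Fix(E)` -/

section Down

variable {F Ω : Type} [Field F] [Field Ω] [Algebra F Ω]
variable (E : IntermediateField F Ω) {H : Subgroup (Ω ≃ₐ[F] Ω)} (hEH : E.fixingSubgroup = H)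

/-- `Gal(Ω/E) → H`. -/
def down : (Ω ≃ₐ[↥E] Ω) →* ↥H :=
  (AlgEquiv.restrictScalarsHom F).codRestrict H (fun g => by
    rw [← hEH, IntermediateField.mem_fixingSubgroup_iff]
    intro x hx
    exact g.commutes ⟨x, hx⟩)

theorem down_apply (g : Ω ≃ₐ[↥E] Ω) (x : Ω) : ((down E hEH g : ↥H) : Ω ≃ₐ[F] Ω) x = g x := rfl

/-- `H → Gal(Ω/E)`. -/
def up (h : ↥H) : Ω ≃ₐ[↥E] Ω :=
  AlgEquiv.ofRingEquiv (f := ((h : Ω ≃ₐ[F] Ω)).toRingEquiv) (fun x => by
    have h1 : (h : Ω ≃ₐ[F] Ω) ∈ E.fixingSubgroup := hEH ▸ h.2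
    rw [IntermediateField.mem_fixingSubgroup_iff] at h1
    exact h1 x x.2)

theorem up_apply (h : ↥H) (x : Ω) : up E hEH h x = (h : Ω ≃ₐ[F] Ω) x := rfl

theorem down_up (h : ↥H) : down E hEH (up E hEH h) = h := by
  apply Subtype.ext
  apply AlgEquiv.ext
  intro x
  rfl

theorem up_down (g : Ω ≃ₐ[↥E] Ω) : up E hEH (down E hEH g) = g := by
  apply AlgEquiv.ext
  intro x
  rfl

theorem down_surjective : Function.Surjective (down E hEH) := fun h => ⟨up E hEH h, down_up E hEH h⟩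

theorem down_injective : Function.Injective (down E hEH) := fun g g' h => by
  rw [← up_down E hEH g, ← up_down E hEH g', h]

theorem down_conjE [Normal F E] [H.Normal] (σ : Ω ≃ₐ[F] Ω) (g : Ω ≃ₐ[↥E] Ω) :
    down E hEH (conjE E σ g) = MulAut.conjNormal σ (down E hEH g) := by
  apply Subtype.ext
  apply AlgEquiv.ext
  intro x
  rw [MulAut.conjNormal_apply]
  rfl

end Down

end

end Fermat.Agent.ES.T56.KumF2Level17
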