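/-
Programme T (S56), chapter KUM, for `FlatIface20.KumF2` (helper17): `𝔽_{p²} ⊆ k`.

`k` a finite field of characteristic `p` containing an element `a` with `a ^ (p²) = a` and `a ^ p ≠ a`;
then every field `F` with `p²` elements embeds in `k` (the subfield `{x | x ^ (p²) = x}` of `k` has
exactly `p²` elements).
-/
import Mathlib

set_option autoImplicit false
set_option linter.style.haveILetI false

namespace Fermat.Agent.ES.T56.KumIota17

open Polynomial

/-- The subfield `{x | x ^ (p²) = x}` of a field of characteristic `p`. -/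
def sqFixed (p : ℕ) [Fact p.Prime] (k : Type) [Field k] [CharP k p] : Subfield k :=
  (iterateFrobenius k p 2).eqLocusField (RingHom.id k)

theorem mem_sqFixed (p : ℕ) [Fact p.Prime] {k : Type} [Field k] [CharP k p] {x : k} :
    x ∈ sqFixed p k ↔ x ^ (p ^ 2) = x := by
  unfold sqFixed
  change iterateFrobenius k p 2 x = RingHom.id k x ↔ _
  rw [iterateFrobenius_def, RingHom.id_apply]

theorem card_sqFixed_le (p : ℕ) [hp : Fact p.Prime] (k : Type) [Field k] [Finite k] [CharP k p] :
    Nat.card (sqFixed p k) ≤ p ^ 2 := by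
  classical
  haveI := Fintype.ofFinite k
  have hne : (X ^ p ^ 2 - X : k[X]) ≠ 0 :=
    FiniteField.X_pow_card_pow_sub_X_ne_zero k (two_ne_zero) hp.out.one_lt
  have hdeg : (X ^ p ^ 2 - X : k[X]).natDegree = p ^ 2 :=
    FiniteField.X_pow_card_pow_sub_X_natDegree_eq k (two_ne_zero) hp.out.one_lt
  have hsub : ∀ x : sqFixed p k, (x : k) ∈ (X ^ p ^ 2 - X : k[X]).roots.toFinset := by
    intro x
    rw [Multiset.mem_toFinset, mem_roots hne, IsRoot.def, eval_sub, eval_pow, eval_X,
      (mem_sqFixed p).1 x.2, sub_self]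
  calc Nat.card (sqFixed p k)
      ≤ Nat.card ((X ^ p ^ 2 - X : k[X]).roots.toFinset) :=
        Nat.card_le_card_of_injective (fun x => ⟨(x : k), hsub x⟩)
          (fun x y h => Subtype.ext (by
            have h1 := congrArg Subtype.val h
            exact h1))
    _ = (X ^ p ^ 2 - X : k[X]).roots.toFinset.card := by
        rw [Nat.card_eq_fintype_card, Fintype.card_coe]
    _ ≤ (X ^ p ^ 2 - X : k[X]).roots.card := Multiset.toFinset_card_le _
    _ ≤ (X ^ p ^ 2 - X : k[X]).natDegree := card_roots' _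
    _ = p ^ 2 := hdeg

/-- **`𝔽_{p²} ⊆ k`.** -/
theorem exists_ringHom (p : ℕ) [hp : Fact p.Prime] {F k : Type} [Field F] [Finite F] [Field k]
    [Finite k] [CharP k p] (hF : Nat.card F = p ^ 2) (a : k) (ha : a ^ (p ^ 2) = a)
    (hne : a ^ p ≠ a) : Nonempty (F →+* k) := by
  classical
  haveI := Fintype.ofFinite F
  haveI : Finite (sqFixed p k) := Finite.of_injective (fun x : sqFixed p k => (x : k))
    Subtype.val_injective
  haveI := Fintype.ofFinite (sqFixed p k)
  haveI : CharP (sqFixed p k) p := by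
    exact (RingHom.charP_iff (sqFixed p k).subtype (sqFixed p k).subtype.injective p).2 inferInstance
  obtain ⟨n, -, hn⟩ := FiniteField.card (sqFixed p k) p
  have hle := card_sqFixed_le p k
  rw [Nat.card_eq_fintype_card, hn] at hle
  have hn2 : (n : ℕ) ≤ 2 := (Nat.pow_le_pow_iff_right hp.out.one_lt).1 hle
  have hn1 : (n : ℕ) ≠ 1 := by
    intro h1
    apply hne
    have h2 := FiniteField.pow_card (⟨a, (mem_sqFixed p).2 ha⟩ : sqFixed p k)
    rw [hn, h1, pow_one] at h2
    exact congrArg Subtype.val h2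
  have hn' : (n : ℕ) = 2 := by
    have := n.pos
    omega
  have hcard : Fintype.card F = Fintype.card (sqFixed p k) := by
    rw [hn, hn', ← hF, Nat.card_eq_fintype_card]
  exact ⟨(sqFixed p k).subtype.comp (FiniteField.ringEquivOfCardEq hcard : F ≃+* sqFixed p k)⟩

end Fermat.Agent.ES.T56.KumIota17
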