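/-
Programme T (S56), chapter KUM, half COUNT — the EVALUATION of one graded piece (helper17).

`k`, `K` finite fields of characteristic `p`, `ι : K →+* k`, `#K = p ^ f`.  `V = k^∨ = (k →+ ZMod p)`
(`KumCountIface7.kDual p k`), an index type `Δ` acting on `V` by `l ↦ l ∘ (a δ * ·)`
(`= kDualSMul p (a δ) l`) and on `K` by multiplication by `t δ`.  Then

  `#Hom_Δ(V, K) ≤ #k ^ #{j < f | ∀ δ, a δ = ι (t δ) ^ p ^ j}`      (`card_eqHomInto_kDual_le`).

Proof: by trace duality for `k/𝔽_p` and `K/𝔽_p`, an equivariant `T : k^∨ →+ K` is the same as an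
additive `X : K →+ k` with `X (t δ * y) = a δ * X y`; every additive map `K → k` is uniquely
`y ↦ ∑_{j<f} c_j * ι y ^ p ^ j` (Artin's independence of characters and a count); the equivariance
forces `c_j = 0` unless `a δ = ι (t δ) ^ p ^ j` for all `δ`.
-/
import Mathlib
import Fermat.Agent.ES.T56.KumHomFilt7

set_option autoImplicit false
set_option linter.unusedSectionVars false
set_option linter.style.haveILetI false

namespace Fermat.Agent.ES.T56.KumEval17

open Fermat.Agent.ES.T56.KumHomFilt7

noncomputable section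

variable (p : ℕ) [hp : Fact p.Prime]

/-! ### Trace duality for a finite field over its prime field -/

section TraceDual

variable {F : Type} [Field F] [Finite F] [Algebra (ZMod p) F]

/-- `trMul x = (c ↦ Tr_{F/𝔽_p}(x c))`. -/
def trMul (x : F) : F →+ ZMod p :=
  (Algebra.trace (ZMod p) F).toAddMonoidHom.comp (AddMonoidHom.mulLeft x)

theorem trMul_apply (x c : F) : trMul p x c = Algebra.trace (ZMod p) F (x * c) := rfl

theorem trMul_add (x y : F) : trMul p (x + y) = trMul p x + trMul p y := by
  ext c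
  rw [AddMonoidHom.add_apply, trMul_apply, trMul_apply, trMul_apply, add_mul, map_add]

theorem trMul_comp_mulLeft (x a : F) :
    (trMul p x).comp (AddMonoidHom.mulLeft a) = trMul p (x * a) := by
  ext c
  show Algebra.trace (ZMod p) F (x * (a * c)) = Algebra.trace (ZMod p) F (x * a * c)
  rw [mul_assoc]

theorem eq_zero_of_trace_mul_eq_zero {x : F}
    (h : ∀ c, Algebra.trace (ZMod p) F (x * c) = 0) : x = 0 :=
  (traceForm_nondegenerate (ZMod p) F).1 x (fun c => by
    rw [Algebra.traceForm_apply]
    exact h c)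

theorem trMul_injective : Function.Injective (trMul p (F := F)) := by
  intro x y h
  have h0 : x - y = 0 := eq_zero_of_trace_mul_eq_zero p (fun c => by
    have h1 := DFunLike.congr_fun h c
    rw [trMul_apply, trMul_apply] at h1
    rw [sub_mul, map_sub, h1, sub_self])
  exact sub_eq_zero.mp h0

theorem exists_trMul_eq (l : F →+ ZMod p) : ∃ x : F, trMul p x = l := by
  have hB := traceForm_nondegenerate (ZMod p) F
  refine ⟨((Algebra.traceForm (ZMod p) F).toDual hB).symm (l.toZModLinearMap p), ?_⟩
  ext c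
  rw [trMul_apply, ← Algebra.traceForm_apply, LinearMap.BilinForm.apply_toDual_symm_apply]
  rfl

end TraceDual

/-! ### Additive maps `K → k` -/

section Additive

variable {k K : Type} [Field k] [Finite k] [CharP k p] [Field K] [Finite K] [CharP K p]
  (ι : K →+* k)

/-- `χ_j = ι ∘ Frob^j`, as a monoid homomorphism. -/
def chi (j : ℕ) : K →* k := ((ι.comp (iterateFrobenius K p j) : K →+* k) : K →* k)

theorem chi_apply (j : ℕ) (y : K) : chi p ι j y = ι y ^ p ^ j := by
  show ι (iterateFrobenius K p j y) = _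
  rw [iterateFrobenius_def, map_pow]

theorem chi_inj {f : ℕ} (hf : Nat.card K = p ^ f) {i j : ℕ} (hi : i < f) (hj : j < f)
    (h : chi p ι i = chi p ι j) : i = j := by
  wlog hij : i < j generalizing i j
  · rcases lt_trichotomy i j with h1 | h1 | h1
    · exact this hi hj h h1
    · exact h1
    · exact (this hj hi h.symm h1).symm
  exfalso
  have hy : ∀ y : K, y ^ p ^ (j - i) = y := by
    intro y
    have h1 := DFunLike.congr_fun h y
    rw [chi_apply, chi_apply, ← map_pow, ← map_pow] at h1
    have h2 : y ^ p ^ i = y ^ p ^ j := ι.injective h1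
    have h3 : (y ^ p ^ (j - i)) ^ p ^ i = y ^ p ^ i := by
      rw [← pow_mul, ← pow_add, Nat.sub_add_cancel hij.le]
      exact h2.symm
    exact iterateFrobenius_inj K p i h3
  have hq : 1 < p ^ (j - i) := Nat.one_lt_pow (by omega) hp.out.one_lt
  have hne : (Polynomial.X ^ p ^ (j - i) - Polynomial.X : Polynomial K) ≠ 0 :=
    FiniteField.X_pow_card_sub_X_ne_zero K hq
  have hdeg : (Polynomial.X ^ p ^ (j - i) - Polynomial.X : Polynomial K).natDegree = p ^ (j - i) :=
    FiniteField.X_pow_card_sub_X_natDegree_eq K hq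
  haveI := Fintype.ofFinite K
  have hsub : (Finset.univ : Finset K).val ⊆
      (Polynomial.X ^ p ^ (j - i) - Polynomial.X : Polynomial K).roots := by
    intro y _
    rw [Polynomial.mem_roots hne, Polynomial.IsRoot.def, Polynomial.eval_sub, Polynomial.eval_pow,
      Polynomial.eval_X, hy y, sub_self]
  have hle := Polynomial.card_le_degree_of_subset_roots hsub
  rw [hdeg, Finset.card_univ, ← Nat.card_eq_fintype_card, hf] at hle
  have hlt : p ^ (j - i) < p ^ f := Nat.pow_lt_pow_right hp.out.one_lt (by omega)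
  omega

/-- Artin: the `χ_j`, `j < f`, are `k`-linearly independent. -/
theorem eq_zero_of_sum_chi_eq_zero {f : ℕ} (hf : Nat.card K = p ^ f) (c : Fin f → k)
    (h : ∀ y : K, ∑ j : Fin f, c j * ι y ^ p ^ (j : ℕ) = 0) : c = 0 := by
  have hinj : Function.Injective (fun j : Fin f => chi p ι (j : ℕ)) :=
    fun i j hij => Fin.ext (chi_inj p ι hf i.2 j.2 hij)
  have hli := (linearIndependent_monoidHom K k).comp _ hinj
  rw [Fintype.linearIndependent_iff] at hli
  funext j
  refine hli c ?_ j
  funext y
  rw [Finset.sum_apply]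
  simp only [Function.comp_apply, Pi.smul_apply, smul_eq_mul, chi_apply, Pi.zero_apply]
  exact h y

theorem card_addMonoidHom {f : ℕ} (hf : Nat.card K = p ^ f) :
    Nat.card (K →+ k) = Nat.card k ^ f := by
  letI := ZMod.algebra K p
  letI := ZMod.algebra k p
  have hfin : Module.finrank (ZMod p) K = f := by
    have h1 := Module.natCard_eq_pow_finrank (K := ZMod p) (V := K)
    rw [Nat.card_zmod, hf] at h1
    exact (Nat.pow_right_injective hp.out.two_le h1).symm
  let b := Module.finBasis (ZMod p) K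
  have e : (K →+ k) ≃ (Fin (Module.finrank (ZMod p) K) → k) :=
    (AddMonoidHom.toZModLinearMapEquiv p).toEquiv.trans (b.constr ℕ).symm.toEquiv
  rw [Nat.card_congr e, Nat.card_fun, Nat.card_fin, hfin]

/-- The additive map `y ↦ ∑_j c_j * ι y ^ p ^ j`. -/
def sumChi {f : ℕ} (c : Fin f → k) : K →+ k where
  toFun y := ∑ j : Fin f, c j * ι y ^ p ^ (j : ℕ)
  map_zero' := by
    refine Finset.sum_eq_zero (fun j _ => ?_)
    rw [map_zero, zero_pow (pow_ne_zero _ hp.out.ne_zero), mul_zero]
  map_add' y z := by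
    rw [← Finset.sum_add_distrib]
    refine Finset.sum_congr rfl (fun j _ => ?_)
    rw [map_add, add_pow_char_pow, mul_add]

theorem sumChi_apply {f : ℕ} (c : Fin f → k) (y : K) :
    sumChi p ι c y = ∑ j : Fin f, c j * ι y ^ p ^ (j : ℕ) := rfl

theorem sumChi_injective {f : ℕ} (hf : Nat.card K = p ^ f) :
    Function.Injective (sumChi p ι (f := f)) := by
  intro c c' h
  have h0 : c - c' = 0 := eq_zero_of_sum_chi_eq_zero p ι hf (c - c') (fun y => by
    have h1 := DFunLike.congr_fun h y
    rw [sumChi_apply, sumChi_apply] at h1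
    simp only [Pi.sub_apply, sub_mul, Finset.sum_sub_distrib, h1, sub_self])
  exact sub_eq_zero.mp h0

/-- Every additive map `K → k` is `∑_{j<f} c_j χ_j`. -/
theorem exists_eq_sumChi {f : ℕ} (hf : Nat.card K = p ^ f) (X : K →+ k) :
    ∃ c : Fin f → k, sumChi p ι c = X := by
  have hcard : Nat.card (K →+ k) ≤ Nat.card (Fin f → k) := by
    rw [card_addMonoidHom p hf, Nat.card_fun, Nat.card_fin]
  haveI : Finite (K →+ k) := Finite.of_injective (fun g : K →+ k => (g : K → k))
    DFunLike.coe_injective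
  exact ((sumChi_injective p ι hf).bijective_of_nat_card_le hcard).2 X

end Additive

/-! ### Transposition `T ↦ X` -/

section Transpose

variable {k K : Type} [Field k] [Finite k] [Algebra (ZMod p) k] [Field K] [Finite K]
  [Algebra (ZMod p) K]

/-- `x ↦ trMul x`, as an additive map `k →+ k^∨`. -/
def trMulHom : k →+ (k →+ ZMod p) where
  toFun := trMul p
  map_zero' := by
    ext c
    rw [trMul_apply, zero_mul, map_zero, AddMonoidHom.zero_apply]
  map_add' := trMul_add p

theorem trMulHom_apply (x : k) : trMulHom p x = trMul p x := rfl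

/-- The functional `x ↦ Tr_K (y * T (trMul x))` on `k`. -/
def pairFun (T : (k →+ ZMod p) →+ K) (y : K) : k →+ ZMod p :=
  (trMul p y).comp (T.comp (trMulHom p))

theorem pairFun_apply (T : (k →+ ZMod p) →+ K) (y : K) (x : k) :
    pairFun p T y x = Algebra.trace (ZMod p) K (y * T (trMul p x)) := rfl

/-- The transpose `X(y)`: the element of `k` with `Tr_k (X(y) x) = Tr_K (y T(trMul x))`. -/
def transp (T : (k →+ ZMod p) →+ K) (y : K) : k := (exists_trMul_eq p (pairFun p T y)).choose

theorem trMul_transp (T : (k →+ ZMod p) →+ K) (y : K) :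
    trMul p (transp p T y) = pairFun p T y := (exists_trMul_eq p (pairFun p T y)).choose_spec

theorem trace_transp (T : (k →+ ZMod p) →+ K) (y : K) (x : k) :
    Algebra.trace (ZMod p) k (transp p T y * x) =
      Algebra.trace (ZMod p) K (y * T (trMul p x)) := by
  rw [← trMul_apply, trMul_transp, pairFun_apply]

theorem transp_add (T : (k →+ ZMod p) →+ K) (y z : K) :
    transp p T (y + z) = transp p T y + transp p T z := by
  apply trMul_injective p
  ext x
  rw [trMul_add, AddMonoidHom.add_apply, trMul_apply, trMul_apply, trMul_apply, trace_transp,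
    trace_transp, trace_transp, add_mul, map_add]

/-- The transpose as an additive map `K →+ k`. -/
def transpHom (T : (k →+ ZMod p) →+ K) : K →+ k :=
  AddMonoidHom.mk' (transp p T) (transp_add p T)

theorem transpHom_apply (T : (k →+ ZMod p) →+ K) (y : K) : transpHom p T y = transp p T y := rfl

theorem transpHom_injective :
    Function.Injective (transpHom p : ((k →+ ZMod p) →+ K) → (K →+ k)) := by
  intro T T' h
  ext l
  obtain ⟨x, rfl⟩ := exists_trMul_eq p l
  have h0 : T (trMul p x) - T' (trMul p x) = 0 := by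
    apply eq_zero_of_trace_mul_eq_zero p
    intro y
    have h1 : transp p T y = transp p T' y := DFunLike.congr_fun h y
    have h2 := trace_transp p T y x
    rw [h1, trace_transp] at h2
    rw [mul_comm, mul_sub, map_sub, h2, sub_self]
  exact sub_eq_zero.mp h0

/-- Equivariance is transposed. -/
theorem transp_mul {T : (k →+ ZMod p) →+ K} {a : k} {t : K}
    (h : ∀ l : k →+ ZMod p, T (l.comp (AddMonoidHom.mulLeft a)) = t * T l) (y : K) :
    transp p T (t * y) = a * transp p T y := by
  apply trMul_injective p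
  ext x
  rw [trMul_apply, trMul_apply, trace_transp]
  have h1 : a * transp p T y * x = transp p T y * (x * a) := by ring
  rw [h1, trace_transp, ← trMul_comp_mulLeft, h]
  congr 1
  ring

end Transpose

/-! ### The count -/

section Count

variable {k K : Type} [Field k] [Finite k] [CharP k p] [Field K] [Finite K] [CharP K p]
  (ι : K →+* k)

/-- The coefficients of an equivariant additive map `K → k` vanish off the compatible indices. -/
theorem coeff_eq_zero_of_equivariant {f : ℕ} (hf : Nat.card K = p ^ f) {a : k} {t : K}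
    (c : Fin f → k) (h : ∀ y : K, sumChi p ι c (t * y) = a * sumChi p ι c y) (j : Fin f)
    (hj : a ≠ ι t ^ p ^ (j : ℕ)) : c j = 0 := by
  have h0 := eq_zero_of_sum_chi_eq_zero p ι hf (fun j => c j * (ι t ^ p ^ (j : ℕ) - a)) (fun y => by
    have h1 := h y
    rw [sumChi_apply, sumChi_apply, Finset.mul_sum] at h1
    rw [← sub_eq_zero, ← Finset.sum_sub_distrib] at h1
    rw [← h1]
    refine Finset.sum_congr rfl (fun j _ => ?_)
    rw [map_mul, mul_pow]
    ring)
  have h2 : c j * (ι t ^ p ^ (j : ℕ) - a) = 0 := congrFun h0 j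
  rcases mul_eq_zero.mp h2 with h3 | h3
  · exact h3
  · exact absurd (sub_eq_zero.mp h3).symm hj

/-- **The evaluation of one graded piece.**  `#Hom_Δ(k^∨(a), K(t)) ≤ #k ^ #{j < f | a = ι(t)^{p^j}}`. -/
theorem card_eqHomInto_kDual_le {f : ℕ} (hf : Nat.card K = p ^ f) {Δ : Type*} (a : Δ → k)
    (t : Δ → K) [DecidablePred fun j : ℕ => ∀ δ, a δ = ι (t δ) ^ p ^ j] :
    Nat.card ↥(eqHomInto (fun (δ : Δ) (l : k →+ ZMod p) => l.comp (AddMonoidHom.mulLeft (a δ)))
        (fun δ => AddMonoidHom.mulLeft (t δ)) (⊤ : AddSubgroup K)) ≤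
      Nat.card k ^ ((Finset.range f).filter (fun j : ℕ => ∀ δ, a δ = ι (t δ) ^ p ^ j)).card := by
  classical
  letI := ZMod.algebra k p
  letI := ZMod.algebra K p
  set J : Finset ℕ := (Finset.range f).filter (fun j : ℕ => ∀ δ, a δ = ι (t δ) ^ p ^ j) with hJ
  -- the coefficient vector of the transpose
  have hex : ∀ T : (k →+ ZMod p) →+ K, ∃ c : Fin f → k, sumChi p ι c = transpHom p T :=
    fun T => exists_eq_sumChi p ι hf _
  let coef : ↥(eqHomInto (fun (δ : Δ) (l : k →+ ZMod p) => l.comp (AddMonoidHom.mulLeft (a δ)))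
      (fun δ => AddMonoidHom.mulLeft (t δ)) (⊤ : AddSubgroup K)) → (Fin f → k) :=
    fun T => (hex (T : (k →+ ZMod p) →+ K)).choose
  have hcoef : ∀ T, sumChi p ι (coef T) = transpHom p (T : (k →+ ZMod p) →+ K) :=
    fun T => (hex (T : (k →+ ZMod p) →+ K)).choose_spec
  -- coefficients vanish off `J`
  have hvan : ∀ T, ∀ j : Fin f, (j : ℕ) ∉ J → coef T j = 0 := by
    intro T j hj
    have hj' : ¬ ∀ δ, a δ = ι (t δ) ^ p ^ (j : ℕ) := by
      intro hall
      exact hj (Finset.mem_filter.mpr ⟨Finset.mem_range.mpr j.2, hall⟩)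
    push Not at hj'
    obtain ⟨δ, hδ⟩ := hj'
    refine coeff_eq_zero_of_equivariant p ι hf (a := a δ) (t := t δ) (coef T) (fun y => ?_) j hδ
    rw [hcoef, transpHom_apply, transpHom_apply]
    exact transp_mul p (fun l => T.2.1 δ l) y
  -- the injection into `J → k`
  let Φ : ↥(eqHomInto (fun (δ : Δ) (l : k →+ ZMod p) => l.comp (AddMonoidHom.mulLeft (a δ)))
      (fun δ => AddMonoidHom.mulLeft (t δ)) (⊤ : AddSubgroup K)) → (↥J → k) :=
    fun T j => if h : (j : ℕ) < f then coef T ⟨(j : ℕ), h⟩ else 0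
  have hΦ : Function.Injective Φ := by
    intro T T' h
    apply Subtype.ext
    apply transpHom_injective p
    rw [← hcoef, ← hcoef]
    congr 1
    funext j
    by_cases hj : (j : ℕ) ∈ J
    · have h1 := congrFun h ⟨(j : ℕ), hj⟩
      simp only [Φ, dif_pos j.2] at h1
      exact h1
    · rw [hvan T j hj, hvan T' j hj]
  calc Nat.card _ ≤ Nat.card (↥J → k) := Nat.card_le_card_of_injective Φ hΦ
    _ = Nat.card k ^ J.card := by
        rw [Nat.card_fun, Nat.card_eq_fintype_card (α := ↥J), Fintype.card_coe]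

/-- The shape of `KumCountIface7`'s action: `n • (c ⋆ l) = ((n : k) * c) ⋆ l`. -/
theorem nsmul_comp_mulLeft (n : ℕ) (c : k) (l : k →+ ZMod p) :
    n • l.comp (AddMonoidHom.mulLeft c) = l.comp (AddMonoidHom.mulLeft ((n : k) * c)) := by
  ext x
  show n • l (c * x) = l ((n : k) * c * x)
  rw [← map_nsmul, nsmul_eq_mul, mul_assoc]

/-- The same with the action in the shape `l ↦ n δ • (c δ ⋆ l)` of `KumCountIface7.Hset`. -/
theorem card_eqHomInto_kDual_nsmul_le {f : ℕ} (hf : Nat.card K = p ^ f) {Δ : Type*} (n : Δ → ℕ)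
    (c : Δ → k) (t : Δ → K)
    [DecidablePred fun j : ℕ => ∀ δ, (n δ : k) * c δ = ι (t δ) ^ p ^ j] :
    Nat.card ↥(eqHomInto
        (fun (δ : Δ) (l : k →+ ZMod p) => n δ • l.comp (AddMonoidHom.mulLeft (c δ)))
        (fun δ => AddMonoidHom.mulLeft (t δ)) (⊤ : AddSubgroup K)) ≤
      Nat.card k ^
        ((Finset.range f).filter (fun j : ℕ => ∀ δ, (n δ : k) * c δ = ι (t δ) ^ p ^ j)).card := by
  have h : (fun (δ : Δ) (l : k →+ ZMod p) => n δ • l.comp (AddMonoidHom.mulLeft (c δ))) =
      (fun (δ : Δ) (l : k →+ ZMod p) => l.comp (AddMonoidHom.mulLeft ((n δ : k) * c δ))) := by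
    funext δ l
    exact nsmul_comp_mulLeft p (n δ) (c δ) l
  rw [h]
  exact card_eqHomInto_kDual_le p ι hf (fun δ => (n δ : k) * c δ) t

/-- The case `K = ZMod p` (the Artin–Schreier top piece, or `f = 1` after identifying the residue
field with `ZMod p`). -/
theorem card_eqHomInto_kDual_zmod_le {Δ : Type*} (a : Δ → k) (s : Δ → ZMod p)
    [Decidable (∀ δ, a δ = ZMod.castHom (dvd_refl p) k (s δ))] :
    Nat.card ↥(eqHomInto (fun (δ : Δ) (l : k →+ ZMod p) => l.comp (AddMonoidHom.mulLeft (a δ)))
        (fun δ => AddMonoidHom.mulLeft (s δ)) (⊤ : AddSubgroup (ZMod p))) ≤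
      Nat.card k ^ (if ∀ δ, a δ = ZMod.castHom (dvd_refl p) k (s δ) then 1 else 0) := by
  classical
  have hf : Nat.card (ZMod p) = p ^ 1 := by rw [Nat.card_zmod, pow_one]
  refine (card_eqHomInto_kDual_le p (ZMod.castHom (dvd_refl p) k) hf a s).trans
    (Nat.pow_le_pow_right Nat.card_pos ?_)
  by_cases hc : ∀ δ, a δ = ZMod.castHom (dvd_refl p) k (s δ)
  · rw [if_pos hc]
    exact (Finset.card_filter_le _ _).trans (by rw [Finset.card_range])
  · rw [if_neg hc, Nat.le_zero, Finset.card_eq_zero, Finset.filter_eq_empty_iff]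
    intro j hj hall
    have hj0 : j = 0 := by
      have := Finset.mem_range.mp hj
      omega
    subst hj0
    apply hc
    intro δ
    rw [hall δ, pow_zero, pow_one]

end Count

end

end Fermat.Agent.ES.T56.KumEval17
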