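/-
Programme T (S56), chapter KUM (helper17 lead, helper7), file `KumCountF2Final7` — helper7.

**COUNT, `f = 2`**: `countF2 : KumCountIface7.CountF2 p`, closing `KumCountF2_7.countF2_of_eval` with
helper17's `KumEval17.card_eqHomInto_kDual_le`.
-/
import Mathlib
import Fermat.Agent.ES.T56.KumCountF2_7
import Fermat.Agent.ES.T56.KumEval17

set_option autoImplicit false

namespace Fermat.Agent.ES.T56.KumCountF2Final7

open Fermat.Agent.ES.T56.KumCountIface7 Fermat.Agent.ES.T56.KumCountF2_7

variable (p : ℕ) [hp : Fact p.Prime]

/-- The evaluation statement, from `KumEval17`. -/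
theorem evalStatement : EvalStatement p := by
  classical
  intro k K _ _ _ _ _ _ ι f hf Δ a t
  exact Fermat.Agent.ES.T56.KumEval17.card_eqHomInto_kDual_le p ι hf a t

/-- **COUNT, `f = 2`.** -/
theorem countF2 : CountF2 p := countF2_of_eval p (evalStatement p)

end Fermat.Agent.ES.T56.KumCountF2Final7
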