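/-
Programme T (S56), chapter KUM (helper17 lead, helper7), file `KumPair7` — helper7.

The ARITHMETIC of the pairs `(t, a)` of `KumCountIface7.CountF2`, for the character `ξ = χ / χ^σ` of
`FlatIface20.KumF2`, in the LOC model.

`E/ℚ_p` unramified quadratic, `L₀/E` Galois, `e(L₀/ℚ_p) = p² - 1`, `π^{p²-1} = -p`, `ζ_p ∈ L₀`.
`I = inertiaSub p E L₀`, `ω₂ δ = (δ π / π mod 𝔪)` (the fundamental character of level `2`).
-/
import Mathlib
import Fermat.Agent.PT.LOC.Frob27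
import Fermat.Agent.ES.T56.MaxUnram8
import Fermat.Agent.ES.T56.TameLoc16
import Fermat.Agent.ES.T56.KumCountF2Final7

set_option autoImplicit false
set_option linter.unusedSectionVars false

open scoped Fermat.Agent.PT.LOC.Interface12 Fermat.Agent.PT.LOC.StructureTower27
open Fermat.Agent.PT.LOC.Interface12 Fermat.Agent.PT.LOC.Structure14
  Fermat.Agent.PT.LOC.StructureNorm14 Fermat.Agent.PT.LOC.StructureTower27
  Fermat.Agent.PT.LOC.StructureTowerEF27 Fermat.Agent.PT.LOC.RootsUnity14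
  Fermat.Agent.PT.LOC.Unram11 Fermat.Agent.PT.LOC.Teichmuller14
  Fermat.Agent.ES.T56.FlatRIface14 Fermat.Agent.ES.T56.KumCountIface7
  Fermat.Agent.ES.T56.UnitNormalForm4 Fermat.Agent.ES.T56.UnitLevelLoc4
  Fermat.Agent.ES.T56.KumInst7 Fermat.Agent.ES.T56.KumCountF2_7
  Fermat.Agent.ES.T56.TameLoc16
  IsDiscreteValuationRing

namespace Fermat.Agent.ES.T56.KumPair7

noncomputable section

variable (p : ℕ) [hp : Fact p.Prime]

/-! ### Inertia: cardinality, triviality of the wild part -/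

section Inertia

variable (E L₀ : Type) [Field E] [Field L₀] [Algebra ℚ_[p] E] [FiniteDimensional ℚ_[p] E]
  [Algebra ℚ_[p] L₀] [FiniteDimensional ℚ_[p] L₀] [Algebra E L₀] [IsScalarTower ℚ_[p] E L₀]

/-- `IsInertial` is membership in helper16's `inertiaSub`. -/
theorem isInertial_iff (δ : L₀ ≃ₐ[E] L₀) : IsInertial p L₀ δ ↔ δ ∈ inertiaSub p E L₀ := by
  rw [mem_inertiaSub_iff]
  constructor
  · intro h x hx
    exact h x ((mem_intRing_iff p L₀ x).2 hx)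
  · intro h x hx
    exact h x ((mem_intRing_iff p L₀ x).1 hx)

/-- `e(L₀/ℚ_p)` as a natural number. -/
theorem ramE_eq_ramIdx : ramE p L₀ = ramIdx p ℚ_[p] L₀ := by
  have h1 := addVal_natCast p L₀
  have h2 := MaxUnram8.addVal_p p L₀
  rw [h1] at h2
  exact_mod_cast h2

/-- `e(L₀/E) = e(L₀/ℚ_p)` when `E/ℚ_p` is unramified. -/
theorem ramIdx_eq_ramE (hur : IsUnramified p ℚ_[p] E) : ramIdx p E L₀ = ramE p L₀ := by
  rw [ramE_eq_ramIdx, ramIdx_tower p ℚ_[p] E L₀, (isUnramified_iff p ℚ_[p] E).1 hur, one_mul]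

variable [IsGalois E L₀]

/-- `#I = e(L₀/ℚ_p)` when `E/ℚ_p` is unramified. -/
theorem card_inertiaSub (hur : IsUnramified p ℚ_[p] E) :
    Nat.card (inertiaSub p E L₀) = ramE p L₀ := by
  rw [inertiaSub_eq, Fermat.Agent.PT.LOC.Frob27.card_inertia, ramIdx_eq_ramE p E L₀ hur]

variable {E L₀}

/-- If `p ∤ e(L₀/ℚ_p)` the wild inertia group is trivial: the tame character is injective. -/
theorem eq_one_of_tameFun_eq_one (hur : IsUnramified p ℚ_[p] E) (hpe : ¬ p ∣ ramE p L₀)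
    {π : L₀} (hπ : IsUniformizer p L₀ π) {δ : L₀ ≃ₐ[E] L₀} (hδ : δ ∈ inertiaSub p E L₀)
    (h1 : tameFun (E := E) hπ δ = 1) : δ = 1 := by
  have hfin := Fermat.Agent.PT.LOC.Frob27.finite_gal p E L₀
  have hw : δ ∈ wild (E := E) hπ := (mem_wild_iff hπ δ).2 ⟨hδ, h1⟩
  obtain ⟨j, hj⟩ := orderOf_wild hπ hw
  have hdvd : orderOf δ ∣ ramE p L₀ := by
    rw [← card_inertiaSub p E L₀ hur]
    exact Subgroup.orderOf_dvd_natCard _ hδ
  rw [hj] at hdvd
  have hj0 : j = 0 := by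
    by_contra h0
    exact hpe ((dvd_pow_self p h0).trans hdvd)
  rw [hj0, pow_zero] at hj
  exact orderOf_eq_one_iff.1 hj

end Inertia

/-! ### `π` is a uniformizer -/

section Pi

variable (L₀ : Type) [Field L₀] [Algebra ℚ_[p] L₀] [FiniteDimensional ℚ_[p] L₀]

theorem sq_sub_one_ne_zero : p ^ 2 - 1 ≠ 0 := by
  have hp2 := hp.out.two_le
  have : 2 ^ 2 ≤ p ^ 2 := Nat.pow_le_pow_left hp2 2
  omega

/-- `e(L₀/ℚ_p) = p² - 1` as a natural number. -/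
theorem ramE_eq_of_ramIdxZ (hram : ramIdxZ p L₀ = (p : ℤ) ^ 2 - 1) : ramE p L₀ = p ^ 2 - 1 := by
  have hp2 := hp.out.two_le
  have h1 := ramE_cast p L₀
  rw [hram] at h1
  have h2 : ((ramE p L₀ : ℕ) : ℤ) = ((p ^ 2 - 1 : ℕ) : ℤ) := by
    rw [h1, Nat.cast_sub (Nat.one_le_pow _ _ (by omega)), Nat.cast_pow, Nat.cast_one]
  exact_mod_cast h2

theorem not_dvd_sq_sub_one : ¬ p ∣ p ^ 2 - 1 := by
  have hp2 := hp.out.two_le
  intro h
  have h1 : p ∣ p ^ 2 := Dvd.intro_left (p ^ 1) (by rw [← pow_succ])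
  have h2 : p ∣ p ^ 2 - (p ^ 2 - 1) := Nat.dvd_sub h1 h
  have h3 : p ^ 2 - (p ^ 2 - 1) = 1 := by
    have := Nat.one_le_pow 2 p (by omega)
    omega
  rw [h3] at h2
  have := Nat.le_of_dvd one_pos h2
  omega

variable {L₀}

/-- The element of `𝒪` attached to `π`. -/
theorem exists_irreducible_of_pow_eq (hram : ramE p L₀ = p ^ 2 - 1) {π : L₀}
    (hπ : π ^ (p ^ 2 - 1) = -(p : L₀)) :
    ∃ ϖ : intRing p L₀, (ϖ : L₀) = π ∧ Irreducible ϖ := by
  have hπm := pi_mem_intRing p L₀ (sq_sub_one_ne_zero p) hπ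
  refine ⟨⟨π, hπm⟩, rfl, ?_⟩
  apply irreducible_of_pow_eq p L₀
  rw [hram]
  apply Subtype.ext
  rw [Subalgebra.coe_pow]
  show π ^ (p ^ 2 - 1) = _
  rw [hπ]
  simp

/-- `π` is a uniformizer. -/
theorem isUniformizer_of_pow_eq (hram : ramE p L₀ = p ^ 2 - 1) {π : L₀}
    (hπ : π ^ (p ^ 2 - 1) = -(p : L₀)) : IsUniformizer p L₀ π := by
  obtain ⟨ϖ, hϖ, hirr⟩ := exists_irreducible_of_pow_eq p hram hπ
  rw [← hϖ]
  exact (isUniformizer_iff_irreducible p L₀ ϖ).2 hirr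

theorem ne_zero_of_pow_eq {π : L₀} (hπ : π ^ (p ^ 2 - 1) = -(p : L₀)) : π ≠ 0 := by
  intro h
  rw [h, zero_pow (sq_sub_one_ne_zero p)] at hπ
  exact UnitLevelLoc4.natCast_ne_zero p L₀ (neg_eq_zero.1 hπ.symm)

end Pi

/-! ### Teichmüller units -/

section Eps

variable (E L₀ : Type) [Field E] [Field L₀] [Algebra ℚ_[p] E] [FiniteDimensional ℚ_[p] E]
  [Algebra ℚ_[p] L₀] [FiniteDimensional ℚ_[p] L₀] [Algebra E L₀] [IsScalarTower ℚ_[p] E L₀]

variable {L₀} in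
/-- A `(Q - 1)`-th root of unity of `L₀` (`Q = #κ_E`) is a unit of `𝒪_E`. -/
theorem exists_eps_of_pow_eq_one {m : ℕ} (hm : resCard p E - 1 = m) (hm0 : m ≠ 0) {x : L₀}
    (hx : x ^ m = 1) : ∃ ε : intRing p E, algebraMap E L₀ (ε : E) = x := by
  have : NeZero m := ⟨hm0⟩
  obtain ⟨ω, hω⟩ := Fermat.Agent.PT.LOC.Teichmuller14.exists_isPrimitiveRoot p E
  rw [hm] at hω
  have hωL : IsPrimitiveRoot (algebraMap E L₀ ω) m :=
    hω.map_of_injective (algebraMap E L₀).injective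
  obtain ⟨i, -, hi⟩ := hωL.eq_pow_of_pow_eq_one hx
  have hεm : ω ^ i ∈ intRing p E :=
    mem_intRing_of_pow_eq_one p E hm0 (by rw [← pow_mul, mul_comm, pow_mul, hω.pow_eq_one, one_pow])
  exact ⟨⟨ω ^ i, hεm⟩, by rw [← hi, map_pow]⟩

variable {L₀} in
/-- Two elements with the same `(Q - 1)`-th power differ by a unit of `𝒪_E`. -/
theorem exists_eps_mul {m : ℕ} (hm : resCard p E - 1 = m) (hm0 : m ≠ 0) {π ρ : L₀} (hπ0 : π ≠ 0)
    (h : ρ ^ m = π ^ m) : ∃ ε : intRing p E, algebraMap E L₀ (ε : E) * π = ρ := by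
  have hx : (ρ / π) ^ m = 1 := by
    rw [div_pow, h]
    exact div_self (pow_ne_zero _ hπ0)
  obtain ⟨ε, hε⟩ := exists_eps_of_pow_eq_one p E hm hm0 hx
  exact ⟨ε, by rw [hε, div_mul_cancel₀ _ hπ0]⟩

variable {E L₀}

/-- The tame character of `δ` is the residue class of `ε`, `δ π = ε π`. -/
theorem coe_tameFun_eq {π : L₀} (hπ : IsUniformizer p L₀ π) {δ : L₀ ≃ₐ[E] L₀} {ε : intRing p E}
    (hε : algebraMap E L₀ (ε : E) * π = δ π) :
    ((tameFun (E := E) hπ δ : (Kap p L₀)ˣ) : Kap p L₀) =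
      algebraMap (resF p E) (resF p L₀) (Ideal.Quotient.mk (mI p E) ε) := by
  rw [coe_tameFun]
  have h1 : δ π * π⁻¹ = algebraMap E L₀ (ε : E) := by
    rw [← hε, mul_assoc, mul_inv_cancel₀ hπ.2.1, mul_one]
  rw [rc_congr p L₀ _ h1]
  rfl

theorem algebraMap_resF_injective :
    Function.Injective (algebraMap (resF p E) (resF p L₀)) :=
  (algebraMap (resF p E) (resF p L₀)).injective

end Eps

/-! ### A generator of the tame inertia -/

section Gen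

variable {E L₀ : Type} [Field E] [Field L₀] [Algebra ℚ_[p] E] [FiniteDimensional ℚ_[p] E]
  [Algebra ℚ_[p] L₀] [FiniteDimensional ℚ_[p] L₀] [Algebra E L₀] [IsScalarTower ℚ_[p] E L₀]
  [IsGalois E L₀]

theorem tameChar_injective (hur : IsUnramified p ℚ_[p] E) (hpe : ¬ p ∣ ramE p L₀)
    {π : L₀} (hπ : IsUniformizer p L₀ π) : Function.Injective (tameChar (E := E) hπ) := by
  rw [injective_iff_map_eq_one]
  intro δ h
  exact Subtype.ext (eq_one_of_tameFun_eq_one p hur hpe hπ δ.2 h)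

/-- There is an inertial `δ₀` whose tame character has order `e`. -/
theorem exists_orderOf_tameFun (hur : IsUnramified p ℚ_[p] E) (hpe : ¬ p ∣ ramE p L₀)
    {π : L₀} (hπ : IsUniformizer p L₀ π) :
    ∃ δ₀ ∈ inertiaSub p E L₀, orderOf (tameFun (E := E) hπ δ₀) = ramE p L₀ := by
  have hfin := Fermat.Agent.PT.LOC.Frob27.finite_gal p E L₀
  have hinj := tameChar_injective p hur hpe hπ
  have hcyc : IsCyclic (inertiaSub p E L₀) :=
    isCyclic_of_injective_ringHom ((Units.coeHom (Kap p L₀)).comp (tameChar (E := E) hπ))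
      (fun a b h => hinj (Units.ext h))
  obtain ⟨g, hg⟩ := hcyc.exists_generator
  refine ⟨g.1, g.2, ?_⟩
  have h1 : orderOf g = ramE p L₀ := by
    rw [orderOf_eq_card_of_forall_mem_zpowers hg, card_inertiaSub p E L₀ hur]
  have h2 : orderOf (tameChar (E := E) hπ g) = orderOf g := orderOf_injective _ hinj g
  rw [← h1, ← h2]
  rfl

end Gen

/-! ### `ω = ω₂ ^ e'` on inertia -/

section Omega

variable {E L₀ : Type} [Field E] [Field L₀] [Algebra ℚ_[p] E] [FiniteDimensional ℚ_[p] E]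
  [Algebra ℚ_[p] L₀] [FiniteDimensional ℚ_[p] L₀] [Algebra E L₀] [IsScalarTower ℚ_[p] E L₀]

/-- For `δ` inertial acting on `μ_p` by `ζ ↦ ζ^n`, with `δ ϖ = ϖ θ` and `e = (p - 1) e'`:
`θ^{e'} ≡ n` modulo the maximal ideal (`ζ - 1 = u ϖ^{e'}`). -/
theorem residue_theta_pow {ζ : L₀} (hζ : IsPrimitiveRoot ζ p) {ϖ θ : intRing p L₀}
    (hϖ : Irreducible ϖ) {e' : ℕ} (hee' : ramE p L₀ = (p - 1) * e') {δ : L₀ ≃ₐ[E] L₀}
    (hin : IsInertial p L₀ δ) {n : ℕ} (hn : ActsOnMuAs p L₀ δ n)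
    (hθ : sig p E L₀ δ ϖ = ϖ * θ) :
    IsLocalRing.residue (intRing p L₀) θ ^ e' =
      ((n : ℕ) : IsLocalRing.ResidueField (intRing p L₀)) := by
  have hp2 := hp.out.two_le
  have he := addVal_natCast p L₀
  have he1 := one_le_ramE p L₀
  -- `ζ` as an element of `𝒪`
  have hζm : ζ ∈ intRing p L₀ := mem_intRing_of_pow_eq_one p L₀ hp.out.ne_zero hζ.pow_eq_one
  obtain ⟨ζB, hζBdef⟩ : ∃ ζB : intRing p L₀, ζB = ⟨ζ, hζm⟩ := ⟨_, rfl⟩
  have hζB : IsPrimitiveRoot ζB p := by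
    rw [hζBdef]
    exact IsPrimitiveRoot.of_map_of_injective (f := (intRing p L₀).val) hζ Subtype.val_injective
  obtain ⟨e'', -, he'', hee''⟩ := addVal_primitiveRoot_sub_one p he he1 hζB
  have hEq : e'' = e' := by
    rw [hee'] at hee''
    exact (Nat.eq_of_mul_eq_mul_left (by omega) hee'').symm
  subst hEq
  have hnB : sig p E L₀ δ ζB = ζB ^ n := by
    rw [hζBdef]
    apply Subtype.ext
    rw [coe_sig, Subalgebra.coe_pow]
    exact hn ζ hζ.pow_eq_one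
  -- `ζ - 1 = u ϖ^{e'}`
  have hne : ζB - 1 ≠ 0 := by
    intro h0
    rw [h0, addVal_zero] at he''
    exact ENat.top_ne_natCast _ he''
  obtain ⟨m, u, hu⟩ := eq_unit_mul_pow_irreducible hne hϖ
  have hm : m = e'' := by
    have h1 : addVal (intRing p L₀) (ζB - 1) = (m : ℕ∞) := by
      rw [addVal_def (ζB - 1) u hϖ m hu]
    rw [he''] at h1
    exact_mod_cast h1.symm
  subst hm
  -- apply `δ`
  set σ := sig p E L₀ δ with hσ
  have h1 : σ (ζB - 1) = σ (u : intRing p L₀) * (ϖ * θ) ^ m := by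
    rw [hu, map_mul, map_pow, hθ]
  have h2 : σ (ζB - 1) = (u : intRing p L₀) * ϖ ^ m * ∑ i ∈ Finset.range n, ζB ^ i := by
    rw [map_sub, map_one, hnB, ← hu, mul_comm, geom_sum_mul]
  have h3 : σ (u : intRing p L₀) * θ ^ m = (u : intRing p L₀) * ∑ i ∈ Finset.range n, ζB ^ i := by
    have h4 : ϖ ^ m * (σ (u : intRing p L₀) * θ ^ m) =
        ϖ ^ m * ((u : intRing p L₀) * ∑ i ∈ Finset.range n, ζB ^ i) := by
      have := h1.symm.trans h2
      rw [mul_pow] at this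
      linear_combination this
    exact mul_left_cancel₀ (pow_ne_zero _ hϖ.ne_zero) h4
  -- residues
  have hresu : IsLocalRing.residue (intRing p L₀) (σ (u : intRing p L₀)) =
      IsLocalRing.residue (intRing p L₀) (u : intRing p L₀) := by
    rw [← sub_eq_zero, ← map_sub, IsLocalRing.residue_eq_zero_iff, mem_maximalIdeal_iff_snorm]
    exact hin ((u : intRing p L₀) : L₀) (u : intRing p L₀).2
  have hresζ : IsLocalRing.residue (intRing p L₀) ζB = 1 := by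
    apply eq_one_of_pow_eq_one p he he1
    rw [← map_pow, hζB.pow_eq_one, map_one]
  have hu0 : IsLocalRing.residue (intRing p L₀) (u : intRing p L₀) ≠ 0 := by
    rw [Ne, IsLocalRing.residue_eq_zero_iff]
    exact fun h => (IsLocalRing.mem_maximalIdeal _).1 h u.isUnit
  have h5 := congrArg (IsLocalRing.residue (intRing p L₀)) h3
  rw [map_mul, map_mul, hresu, map_pow, map_sum] at h5
  have h6 := mul_left_cancel₀ hu0 h5
  rw [h6]
  simp only [map_pow, hresζ, one_pow, Finset.sum_const, Finset.card_range, nsmul_eq_mul, mul_one]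

end Omega

/-! ### Conjugation by an element which is not trivial on `E` -/

section Conj

variable {E L₀ : Type} [Field E] [Field L₀] [Algebra ℚ_[p] E] [FiniteDimensional ℚ_[p] E]
  [Algebra ℚ_[p] L₀] [FiniteDimensional ℚ_[p] L₀] [Algebra E L₀] [IsScalarTower ℚ_[p] E L₀]

variable (E) in
theorem isGalois_of_finrank_two (hdeg : Module.finrank ℚ_[p] E = 2) : IsGalois ℚ_[p] E := by
  have : Algebra.IsQuadraticExtension ℚ_[p] E := { finrank_eq_two' := hdeg }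
  infer_instance

/-- The non-trivial automorphism of the unramified quadratic extension `E/ℚ_p` is the Frobenius. -/
theorem snorm_apply_sub_pow_lt (hur : IsUnramified p ℚ_[p] E) (hdeg : Module.finrank ℚ_[p] E = 2)
    {g : E ≃ₐ[ℚ_[p]] E} (hg : g ≠ 1) {x : E} (hx : x ∈ intRing p E) :
    snorm p E (g x - x ^ p) < 1 := by
  have := isGalois_of_finrank_two p E hdeg
  obtain ⟨φ, hφ⟩ := Fermat.Agent.PT.LOC.Frob27.exists_isFrob p ℚ_[p] E
  have hord := Fermat.Agent.PT.LOC.Frob27.orderOf_frob p ℚ_[p] E hur hφ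
  rw [hdeg] at hord
  obtain ⟨z, hz⟩ := Subgroup.mem_zpowers_iff.1
    (Fermat.Agent.PT.LOC.Frob27.mem_zpowers_frob p ℚ_[p] E hur hφ g)
  have hz' : φ ^ (z % 2) = g := by
    rw [← hz, ← zpow_mod_orderOf φ z, hord]
    rfl
  have hgφ : g = φ := by
    rcases Int.emod_two_eq_zero_or_one z with h | h
    · exfalso
      apply hg
      rw [← hz', h, zpow_zero]
    · rw [← hz', h, zpow_one]
  rw [hgφ]
  have h1 := (Fermat.Agent.PT.LOC.RootsUnity14.isFrob_iff p ℚ_[p] E φ).1 hφ x hx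
  rwa [resCard_padic] at h1

/-- The conjugate of an inertial element is inertial. -/
theorem isInertial_conj (s : L₀ ≃ₐ[ℚ_[p]] L₀) {δ δ' : L₀ ≃ₐ[E] L₀}
    (hc : ∀ x, δ' (s x) = s (δ x)) (hin : IsInertial p L₀ δ) : IsInertial p L₀ δ' := by
  intro x hx
  have hy : s.symm x ∈ intRing p L₀ := (mem_intRing_galois_iff p ℚ_[p] L₀ s.symm x).2 hx
  have h1 := hin (s.symm x) hy
  have e : δ' x - x = s (δ (s.symm x) - s.symm x) := by
    rw [map_sub, ← hc, s.apply_symm_apply]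
  rw [e, snorm_galois p ℚ_[p] L₀ s]
  exact h1

/-- **The conjugation relation**: if `δ' = s δ s⁻¹` with `s` non-trivial on `E`, then
`ε' ≡ ε ^ p`. -/
theorem residue_conj (hur : IsUnramified p ℚ_[p] E) (hdeg : Module.finrank ℚ_[p] E = 2)
    {π : L₀} (hπ : π ^ (p ^ 2 - 1) = -(p : L₀)) (s : L₀ ≃ₐ[ℚ_[p]] L₀)
    (hs : ∃ x : E, s (algebraMap E L₀ x) ≠ algebraMap E L₀ x) {δ δ' : L₀ ≃ₐ[E] L₀}
    (hc : ∀ x, δ' (s x) = s (δ x)) {ε ε' : intRing p E}
    (hε : algebraMap E L₀ (ε : E) * π = δ π) (hε' : algebraMap E L₀ (ε' : E) * π = δ' π) :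
    IsLocalRing.residue (intRing p E) ε' = IsLocalRing.residue (intRing p E) ε ^ p := by
  have hgal := isGalois_of_finrank_two p E hdeg
  have hπ0 := ne_zero_of_pow_eq p hπ
  have hres : resCard p E - 1 = p ^ 2 - 1 := by rw [resCard_unram2 p E hur hdeg]
  -- `ρ = s⁻¹ π`
  obtain ⟨ρ, hρdef⟩ : ∃ ρ : L₀, ρ = s.symm π := ⟨_, rfl⟩
  have hρ : ρ ^ (p ^ 2 - 1) = π ^ (p ^ 2 - 1) := by
    rw [hρdef, ← map_pow, hπ, map_neg, map_natCast]
  obtain ⟨η, hη⟩ := exists_eps_mul p E hres (sq_sub_one_ne_zero p) hπ0 hρ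
  have h1 : δ ρ = algebraMap E L₀ (ε : E) * ρ := by
    rw [← hη, map_mul, AlgEquiv.commutes, ← hε]
    ring
  have hsρ : s ρ = π := by rw [hρdef, s.apply_symm_apply]
  have h2 : δ' π = s (algebraMap E L₀ (ε : E)) * π := by
    rw [← hsρ, hc, h1, map_mul]
  -- the restriction of `s` to `E`
  obtain ⟨g, hgdef⟩ : ∃ g : E ≃ₐ[ℚ_[p]] E, g = s.restrictNormal E := ⟨_, rfl⟩
  have hg : ∀ x : E, s (algebraMap E L₀ x) = algebraMap E L₀ (g x) := fun x => by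
    rw [hgdef]
    exact (AlgEquiv.restrictNormal_commutes s E x).symm
  have hg1 : g ≠ 1 := by
    intro h
    obtain ⟨x, hx⟩ := hs
    apply hx
    rw [hg, h]
    rfl
  have h3 : (ε' : E) = g (ε : E) := by
    apply (algebraMap E L₀).injective
    have h4 := hε'.trans h2
    rw [hg] at h4
    exact mul_right_cancel₀ hπ0 h4
  have h4 := snorm_apply_sub_pow_lt p hur hdeg hg1 ε.2
  rw [← map_pow, ← sub_eq_zero, ← map_sub, IsLocalRing.residue_eq_zero_iff,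
    mem_maximalIdeal_iff_snorm]
  have h5 : ((ε' - ε ^ p : intRing p E) : E) = g (ε : E) - (ε : E) ^ p := by
    rw [Subalgebra.coe_sub, Subalgebra.coe_pow, h3]
  rw [h5]
  exact h4

end Conj

/-! ### The arithmetic of the exponents `t p^a` modulo `p² - 1` -/

section Arith

include hp in
theorem mixed_case (hp3 : 3 ≤ p) {t t' : ℕ} (ht : t ≤ p) (ht' : t' ≤ p) (ht1 : t ≠ 1)
    (ht1' : t' ≠ 1) (h : t ≡ t' * p [MOD p ^ 2 - 1]) : t = 0 ∧ t' = 0 := by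
  obtain ⟨M, hM⟩ : ∃ M, p ^ 2 - 1 = M := ⟨_, rfl⟩
  have hMp : M + 1 = p * p := by
    rw [← hM, ← sq]
    have := Nat.one_le_pow 2 p (by omega)
    omega
  rw [hM] at h
  have hpM : p < M := by nlinarith
  rcases Nat.eq_zero_or_pos t' with h0 | hpos
  · subst h0
    rw [zero_mul] at h
    have h1 : t = 0 := Nat.ModEq.eq_of_lt_of_lt h (by omega) (by omega)
    exact ⟨h1, rfl⟩
  · exfalso
    rcases Nat.lt_or_ge t' p with hlt | hge
    · have h1 : t' * p < M := by nlinarith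
      have h2 : t = t' * p := Nat.ModEq.eq_of_lt_of_lt h (by omega) h1
      have ht2 : 2 ≤ t' := by omega
      nlinarith
    · have hEq : t' = p := le_antisymm ht' hge
      subst hEq
      have h1 : t' * t' ≡ 1 [MOD M] := by
        rw [← hMp]
        show (M + 1) % M = 1 % M
        exact Nat.add_mod_left M 1
      have h2 : t = 1 := Nat.ModEq.eq_of_lt_of_lt (h.trans h1) (by omega) (by omega)
      exact ht1 h2

include hp in
theorem pair_unique (hp3 : 3 ≤ p) {t a t' a' : ℕ} (ht : t ≤ p) (ht' : t' ≤ p) (ht1 : t ≠ 1)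
    (ht1' : t' ≠ 1) (ha : a < 2) (ha' : a' < 2)
    (h : t * p ^ a ≡ t' * p ^ a' [MOD p ^ 2 - 1]) : (t = t' ∧ a = a') ∨ (t = 0 ∧ t' = 0) := by
  have hMp : p ^ 2 - 1 + 1 = p * p := by
    rw [← sq]
    have := Nat.one_le_pow 2 p (by omega)
    omega
  have hpM : p < p ^ 2 - 1 := by nlinarith
  have hcop : Nat.gcd (p ^ 2 - 1) p = 1 := by
    have h1 : Nat.Coprime p (p ^ 2 - 1) := by
      rw [Nat.Prime.coprime_iff_not_dvd hp.out]
      exact not_dvd_sq_sub_one p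
    exact h1.symm
  interval_cases a <;> interval_cases a'
  · left
    rw [pow_zero, mul_one, mul_one] at h
    exact ⟨Nat.ModEq.eq_of_lt_of_lt h (by omega) (by omega), rfl⟩
  · right
    rw [pow_zero, mul_one, pow_one] at h
    exact mixed_case p hp3 ht ht' ht1 ht1' h
  · right
    rw [pow_zero, mul_one, pow_one] at h
    exact (mixed_case p hp3 ht' ht ht1' ht1 h.symm).symm
  · left
    simp only [pow_one] at h
    have h1 := Nat.ModEq.cancel_right_of_coprime hcop h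
    exact ⟨Nat.ModEq.eq_of_lt_of_lt h1 (by omega) (by omega), rfl⟩

end Arith

/-! ### The pairs -/

section Pairs

variable {E L₀ : Type} [Field E] [Field L₀] [Algebra ℚ_[p] E] [FiniteDimensional ℚ_[p] E]
  [Algebra ℚ_[p] L₀] [FiniteDimensional ℚ_[p] L₀] [Algebra E L₀] [IsScalarTower ℚ_[p] E L₀]

/-- **`ω = ω₂ ^ (p + 1)` on inertia.** -/
theorem iota_residue_pow (hram : ramE p L₀ = p ^ 2 - 1) {ζ : L₀} (hζ : IsPrimitiveRoot ζ p)
    {π : L₀} (hπ : π ^ (p ^ 2 - 1) = -(p : L₀)) {δ : L₀ ≃ₐ[E] L₀} (hin : IsInertial p L₀ δ)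
    {n : ℕ} (hn : ActsOnMuAs p L₀ δ n) {ε : intRing p E}
    (hε : algebraMap E L₀ (ε : E) * π = δ π) {k : Type} [Field k] (ι : resField p E →+* k) :
    ι (IsLocalRing.residue (intRing p E) ε) ^ (p + 1) = (n : k) := by
  obtain ⟨ϖ, hϖdef, hϖ⟩ := exists_irreducible_of_pow_eq p hram hπ
  have hee' : ramE p L₀ = (p - 1) * (p + 1) := by rw [hram, sq_sub_one_eq p hp.out.two_le]
  have hθ : sig p E L₀ δ ϖ = ϖ * algebraMap (intRing p E) (intRing p L₀) ε := by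
    apply Subtype.ext
    rw [coe_sig, Subalgebra.coe_mul, coe_algebraMap_intRing, hϖdef, ← hε, mul_comm]
  have h1 := residue_theta_pow p hζ hϖ hee' hin hn hθ
  have h2 : algebraMap (resF p E) (resF p L₀) (Ideal.Quotient.mk (mI p E) ε ^ (p + 1)) =
      algebraMap (resF p E) (resF p L₀) ((n : ℕ) : resF p E) := by
    rw [map_pow, map_natCast]
    exact h1
  have h3 := algebraMap_resF_injective p h2
  have h4 : IsLocalRing.residue (intRing p E) ε ^ (p + 1) = ((n : ℕ) : resField p E) := h3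
  rw [← map_pow, h4, map_natCast]

/-- The conjugate `s δ s⁻¹` as an automorphism over `E` (`E/ℚ_p` normal). -/
theorem exists_conj [Normal ℚ_[p] E] (s : L₀ ≃ₐ[ℚ_[p]] L₀) (δ : L₀ ≃ₐ[E] L₀) :
    ∃ δ' : L₀ ≃ₐ[E] L₀, ∀ x, δ' (s x) = s (δ x) := by
  have hcomm : ∀ x : E, s (δ (s.symm (algebraMap E L₀ x))) = algebraMap E L₀ x := by
    intro x
    have h1 : s.symm (algebraMap E L₀ x) = algebraMap E L₀ (s.symm.restrictNormal E x) :=
      (AlgEquiv.restrictNormal_commutes s.symm E x).symm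
    rw [h1, δ.commutes, ← h1, s.apply_symm_apply]
  refine ⟨AlgEquiv.ofRingEquiv
    (f := (s.symm.toRingEquiv.trans δ.toRingEquiv).trans s.toRingEquiv) (fun x => hcomm x),
    fun x => ?_⟩
  show s (δ (s.symm (s x))) = s (δ x)
  rw [s.symm_apply_apply]

variable [IsGalois E L₀]

/-- `s δ s⁻¹ = δ ^ p` for inertial `δ`. -/
theorem conj_eq_pow (hur : IsUnramified p ℚ_[p] E) (hdeg : Module.finrank ℚ_[p] E = 2)
    (hram : ramE p L₀ = p ^ 2 - 1) {π : L₀} (hπ : π ^ (p ^ 2 - 1) = -(p : L₀))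
    (s : L₀ ≃ₐ[ℚ_[p]] L₀) (hs : ∃ x : E, s (algebraMap E L₀ x) ≠ algebraMap E L₀ x)
    {δ δ' : L₀ ≃ₐ[E] L₀} (hc : ∀ x, δ' (s x) = s (δ x)) (hin : IsInertial p L₀ δ) :
    δ' = δ ^ p := by
  have hπu := isUniformizer_of_pow_eq p hram hπ
  have hπ0 := ne_zero_of_pow_eq p hπ
  have hpe : ¬ p ∣ ramE p L₀ := by rw [hram]; exact not_dvd_sq_sub_one p
  have hres : resCard p E - 1 = p ^ 2 - 1 := by rw [resCard_unram2 p E hur hdeg]
  have hin' := isInertial_conj p s hc hin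
  have hδ := (isInertial_iff p E L₀ δ).1 hin
  have hδ' := (isInertial_iff p E L₀ δ').1 hin'
  have hpow : ∀ τ : L₀ ≃ₐ[E] L₀, (τ π) ^ (p ^ 2 - 1) = π ^ (p ^ 2 - 1) := fun τ => by
    rw [← map_pow, hπ, map_neg, map_natCast]
  obtain ⟨ε, hε⟩ := exists_eps_mul p E hres (sq_sub_one_ne_zero p) hπ0 (hpow δ)
  obtain ⟨ε', hε'⟩ := exists_eps_mul p E hres (sq_sub_one_ne_zero p) hπ0 (hpow δ')
  have hr := residue_conj p hur hdeg hπ s hs hc hε hε'
  have h1 : tameChar (E := E) hπu ⟨δ', hδ'⟩ = tameChar (E := E) hπu (⟨δ, hδ⟩ ^ p) := by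
    rw [map_pow]
    apply Units.ext
    rw [Units.val_pow_eq_pow_val, tameChar_apply, tameChar_apply, coe_tameFun_eq p hπu hε,
      coe_tameFun_eq p hπu hε', ← map_pow]
    exact congrArg _ hr
  have h2 := tameChar_injective p hur hpe hπu h1
  exact congrArg Subtype.val h2

/-- The level `t = 0` does not occur for `ξ = χ / χ^σ`. -/
theorem not_pairCond_zero (hp2 : p ≠ 2) (hur : IsUnramified p ℚ_[p] E)
    (hdeg : Module.finrank ℚ_[p] E = 2) (hram : ramE p L₀ = p ^ 2 - 1) {ζ : L₀}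
    (hζ : IsPrimitiveRoot ζ p) {π : L₀} (hπ : π ^ (p ^ 2 - 1) = -(p : L₀))
    {k : Type} [Field k] [CharP k p] (ι : resField p E →+* k)
    (s : L₀ ≃ₐ[ℚ_[p]] L₀) (hs : ∃ x : E, s (algebraMap E L₀ x) ≠ algebraMap E L₀ x)
    (χ ξ : (L₀ ≃ₐ[E] L₀) →* kˣ)
    (hdet : ∀ (δ δ' : L₀ ≃ₐ[E] L₀) (n : ℕ), IsInertial p L₀ δ → (∀ x, δ' (s x) = s (δ x)) →
      ActsOnMuAs p L₀ δ n → ((χ δ : kˣ) : k) * ((χ δ' : kˣ) : k) = (n : k))
    (hξ : ∀ (δ δ' : L₀ ≃ₐ[E] L₀), IsInertial p L₀ δ → (∀ x, δ' (s x) = s (δ x)) →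
      ξ δ * χ δ' = χ δ)
    {a : ℕ} (h : PairCond p E L₀ ξ π ι 0 a) : False := by
  have hp3 : 3 ≤ p := by
    have := hp.out.two_le
    omega
  have hgal := isGalois_of_finrank_two p E hdeg
  have hπu := isUniformizer_of_pow_eq p hram hπ
  have hπ0 := ne_zero_of_pow_eq p hπ
  have hpe : ¬ p ∣ ramE p L₀ := by rw [hram]; exact not_dvd_sq_sub_one p
  have hres : resCard p E - 1 = p ^ 2 - 1 := by rw [resCard_unram2 p E hur hdeg]
  obtain ⟨δ₀, hδ₀, hord⟩ := exists_orderOf_tameFun (E := E) p hur hpe hπu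
  have hin₀ := (isInertial_iff p E L₀ δ₀).2 hδ₀
  obtain ⟨n₀, hn₀⟩ := exists_actsOnMuAs p E L₀ hζ δ₀
  obtain ⟨ε₀, hε₀⟩ := exists_eps_mul p E hres (sq_sub_one_ne_zero p) hπ0
    (show (δ₀ π) ^ (p ^ 2 - 1) = π ^ (p ^ 2 - 1) by rw [← map_pow, hπ, map_neg, map_natCast])
  obtain ⟨δ₀', hc⟩ := exists_conj p s δ₀
  have hδ' : δ₀' = δ₀ ^ p := conj_eq_pow p hur hdeg hram hπ s hs hc hin₀
  -- the three relations at `δ₀`
  have e1 : ((ξ δ₀ : kˣ) : k) = (n₀ : k) := by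
    have := h δ₀ n₀ hin₀ hn₀ ε₀ hε₀
    rwa [zero_mul, pow_zero, mul_one] at this
  have e2 := hdet δ₀ δ₀' n₀ hin₀ hc hn₀
  have e3 : ((ξ δ₀ : kˣ) : k) * ((χ δ₀' : kˣ) : k) = ((χ δ₀ : kˣ) : k) := by
    rw [← Units.val_mul, hξ δ₀ δ₀' hin₀ hc]
  obtain ⟨c, hcdef⟩ : ∃ c : kˣ, c = χ δ₀ := ⟨_, rfl⟩
  have hχ' : χ δ₀' = c ^ p := by rw [hδ', map_pow, hcdef]
  rw [hχ', ← hcdef] at e2 e3
  rw [e1] at e3
  -- `c ^ (2 p) = 1`
  have hc0 : ((c : kˣ) : k) ≠ 0 := c.ne_zero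
  have h2p : c ^ (2 * p) = 1 := by
    apply Units.ext
    have h4 : ((c : kˣ) : k) * (((c ^ p : kˣ) : k) * ((c ^ p : kˣ) : k)) = ((c : kˣ) : k) * 1 := by
      rw [← mul_assoc, e2, e3, mul_one]
    have h5 := mul_left_cancel₀ hc0 h4
    rw [two_mul, pow_add, Units.val_mul, h5, Units.val_one]
  -- `c ^ (p² - 1) = 1`
  have hfin := Fermat.Agent.PT.LOC.Frob27.finite_gal p E L₀
  have hδpow : δ₀ ^ (p ^ 2 - 1) = 1 := by
    have h1 : (⟨δ₀, hδ₀⟩ : ↥(inertiaSub p E L₀)) ^ Nat.card ↥(inertiaSub p E L₀) = 1 :=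
      pow_card_eq_one'
    rw [card_inertiaSub p E L₀ hur, hram] at h1
    exact congrArg Subtype.val h1
  have hcM : c ^ (p ^ 2 - 1) = 1 := by rw [hcdef, ← map_pow, hδpow, map_one]
  -- `p = 2 r + 1`
  obtain ⟨r, hr⟩ : ∃ r, p = 2 * r + 1 := by
    rcases hp.out.eq_two_or_odd with h2 | hodd
    · exact absurd h2 hp2
    · exact ⟨p / 2, by omega⟩
  have hM : p ^ 2 - 1 = r * (2 * p) + 2 * r := by
    rw [hr]
    have : (2 * r + 1) ^ 2 = r * (2 * (2 * r + 1)) + 2 * r + 1 := by ring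
    rw [this, Nat.add_sub_cancel]
  have hc2r : c ^ (2 * r) = 1 := by
    have h1 := hcM
    rw [hM, pow_add, pow_mul', h2p, one_pow, one_mul] at h1
    exact h1
  have hcsq : c ^ 2 = 1 := by
    have h1 := h2p
    have h3 : 2 * p = 2 * r + 2 * r + 2 := by rw [hr]; ring
    rw [h3, pow_add, pow_add, hc2r, one_mul, one_mul] at h1
    exact h1
  have hcp : c ^ p = c := by
    rw [hr, pow_succ, mul_comm 2 r, pow_mul', hcsq, one_pow, one_mul]
  -- `n₀ = 1` in `k`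
  have hn1 : (n₀ : k) = 1 := by
    rw [← e2, hcp, ← Units.val_mul, ← sq, hcsq, Units.val_one]
  -- contradiction with `ω = ω₂^{p+1}`
  have h6 := iota_residue_pow p hram hζ hπ hin₀ hn₀ hε₀ ι
  rw [hn1] at h6
  have h7 : IsLocalRing.residue (intRing p E) ε₀ ^ (p + 1) = 1 :=
    ι.injective (by rw [map_pow, h6, map_one])
  have h8 : tameFun (E := E) hπu δ₀ ^ (p + 1) = 1 := by
    apply Units.ext
    rw [Units.val_pow_eq_pow_val, coe_tameFun_eq p hπu hε₀, ← map_pow, Units.val_one]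
    have h9 : (Ideal.Quotient.mk (mI p E) ε₀) ^ (p + 1) = 1 := h7
    rw [h9, map_one]
  have h10 := orderOf_dvd_of_pow_eq_one h8
  rw [hord, hram] at h10
  have h11 := Nat.le_of_dvd (by omega) h10
  have h12 : p * p = p ^ 2 := (sq p).symm
  nlinarith

/-- **At most one pair `(t, a)`** satisfies `PairCond` for `ξ = χ / χ^σ`. -/
theorem pairCond_unique (hp2 : p ≠ 2) (hur : IsUnramified p ℚ_[p] E)
    (hdeg : Module.finrank ℚ_[p] E = 2) (hram : ramE p L₀ = p ^ 2 - 1) {ζ : L₀}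
    (hζ : IsPrimitiveRoot ζ p) {π : L₀} (hπ : π ^ (p ^ 2 - 1) = -(p : L₀))
    {k : Type} [Field k] [CharP k p] (ι : resField p E →+* k)
    (s : L₀ ≃ₐ[ℚ_[p]] L₀) (hs : ∃ x : E, s (algebraMap E L₀ x) ≠ algebraMap E L₀ x)
    (χ ξ : (L₀ ≃ₐ[E] L₀) →* kˣ)
    (hdet : ∀ (δ δ' : L₀ ≃ₐ[E] L₀) (n : ℕ), IsInertial p L₀ δ → (∀ x, δ' (s x) = s (δ x)) →
      ActsOnMuAs p L₀ δ n → ((χ δ : kˣ) : k) * ((χ δ' : kˣ) : k) = (n : k))
    (hξ : ∀ (δ δ' : L₀ ≃ₐ[E] L₀), IsInertial p L₀ δ → (∀ x, δ' (s x) = s (δ x)) →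
      ξ δ * χ δ' = χ δ)
    {t a t' a' : ℕ} (ht : t ≤ p) (ht' : t' ≤ p) (ht1 : t ≠ 1) (ht1' : t' ≠ 1) (ha : a < 2)
    (ha' : a' < 2) (h : PairCond p E L₀ ξ π ι t a) (h' : PairCond p E L₀ ξ π ι t' a') :
    t = t' ∧ a = a' := by
  have hp3 : 3 ≤ p := by
    have := hp.out.two_le
    omega
  have hπu := isUniformizer_of_pow_eq p hram hπ
  have hπ0 := ne_zero_of_pow_eq p hπ
  have hpe : ¬ p ∣ ramE p L₀ := by rw [hram]; exact not_dvd_sq_sub_one p
  have hres : resCard p E - 1 = p ^ 2 - 1 := by rw [resCard_unram2 p E hur hdeg]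
  obtain ⟨δ₀, hδ₀, hord⟩ := exists_orderOf_tameFun (E := E) p hur hpe hπu
  have hin₀ := (isInertial_iff p E L₀ δ₀).2 hδ₀
  obtain ⟨n₀, hn₀⟩ := exists_actsOnMuAs p E L₀ hζ δ₀
  obtain ⟨ε₀, hε₀⟩ := exists_eps_mul p E hres (sq_sub_one_ne_zero p) hπ0
    (show (δ₀ π) ^ (p ^ 2 - 1) = π ^ (p ^ 2 - 1) by rw [← map_pow, hπ, map_neg, map_natCast])
  -- the two conditions at `δ₀`
  have e1 := h δ₀ n₀ hin₀ hn₀ ε₀ hε₀
  have e2 := h' δ₀ n₀ hin₀ hn₀ ε₀ hε₀
  have e3 : ι (IsLocalRing.residue (intRing p E) ε₀) ^ (t * p ^ a) =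
      ι (IsLocalRing.residue (intRing p E) ε₀) ^ (t' * p ^ a') :=
    mul_left_cancel₀ (Units.ne_zero (ξ δ₀)) (e1.trans e2.symm)
  have e4 : IsLocalRing.residue (intRing p E) ε₀ ^ (t * p ^ a) =
      IsLocalRing.residue (intRing p E) ε₀ ^ (t' * p ^ a') :=
    ι.injective (by rw [map_pow, map_pow, e3])
  have e5 : tameFun (E := E) hπu δ₀ ^ (t * p ^ a) = tameFun (E := E) hπu δ₀ ^ (t' * p ^ a') := by
    apply Units.ext
    rw [Units.val_pow_eq_pow_val, Units.val_pow_eq_pow_val, coe_tameFun_eq p hπu hε₀]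
    have e4' : (Ideal.Quotient.mk (mI p E) ε₀) ^ (t * p ^ a) =
        (Ideal.Quotient.mk (mI p E) ε₀) ^ (t' * p ^ a') := e4
    rw [← map_pow (algebraMap (resF p E) (resF p L₀)), e4', map_pow]
  have e6 := pow_eq_pow_iff_modEq.1 e5
  rw [hord, hram] at e6
  rcases pair_unique p hp3 ht ht' ht1 ht1' ha ha' e6 with h0 | ⟨h0, -⟩
  · exact h0
  · exfalso
    rw [h0] at h
    exact not_pairCond_zero p hp2 hur hdeg hram hζ hπ ι s hs χ ξ hdet hξ h

/-- **The count for `ξ = χ / χ^σ`** (the arithmetic core of `FlatIface20.KumF2`):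
`#𝓗(ξ) ≤ |k|`. -/
theorem card_Hset_le (hp2 : p ≠ 2) (hur : IsUnramified p ℚ_[p] E)
    (hdeg : Module.finrank ℚ_[p] E = 2) (hram : ramIdxZ p L₀ = (p : ℤ) ^ 2 - 1)
    (hζ : ∃ ζ : L₀, IsPrimitiveRoot ζ p) (π : L₀) (hπ : π ^ (p ^ 2 - 1) = -(p : L₀))
    {k : Type} [Field k] [Finite k] [CharP k p] (ι : resField p E →+* k)
    (s : L₀ ≃ₐ[ℚ_[p]] L₀) (hs : ∃ x : E, s (algebraMap E L₀ x) ≠ algebraMap E L₀ x)
    (χ ξ : (L₀ ≃ₐ[E] L₀) →* kˣ)
    (hdet : ∀ (δ δ' : L₀ ≃ₐ[E] L₀) (n : ℕ), IsInertial p L₀ δ → (∀ x, δ' (s x) = s (δ x)) →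
      ActsOnMuAs p L₀ δ n → ((χ δ : kˣ) : k) * ((χ δ' : kˣ) : k) = (n : k))
    (hξ : ∀ (δ δ' : L₀ ≃ₐ[E] L₀), IsInertial p L₀ δ → (∀ x, δ' (s x) = s (δ x)) →
      ξ δ * χ δ' = χ δ)
    (hne : ∃ δ δ' : L₀ ≃ₐ[E] L₀, IsInertial p L₀ δ ∧ (∀ x, δ' (s x) = s (δ x)) ∧ χ δ' ≠ χ δ) :
    (Hset p E L₀ ξ).Finite ∧ Nat.card (Hset p E L₀ ξ) ≤ Nat.card k := by
  classical
  obtain ⟨ζ, hζ1⟩ := hζ
  have hram' := ramE_eq_of_ramIdxZ p L₀ hram
  obtain ⟨hfin, hcard⟩ :=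
    Fermat.Agent.ES.T56.KumCountF2Final7.countF2 p E L₀ hur hdeg hram ⟨ζ, hζ1⟩ π hπ k ι ξ
  refine ⟨hfin, ?_⟩
  -- `ξ ≠ 1`
  have hξ1 : ξ ≠ 1 := by
    obtain ⟨δ, δ', hin, hc, hne'⟩ := hne
    intro h
    apply hne'
    have h1 := hξ δ δ' hin hc
    rw [h, MonoidHom.one_apply, one_mul] at h1
    exact h1
  rw [if_neg hξ1, zero_add] at hcard
  refine hcard.trans ?_
  have hle : ((Finset.range (p + 1) ×ˢ Finset.range 2).filter
      (fun ta : ℕ × ℕ => ta.1 ≠ 1 ∧ PairCond p E L₀ ξ π ι ta.1 ta.2)).card ≤ 1 := by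
    rw [Finset.card_le_one]
    intro x hx y hy
    rw [Finset.mem_filter, Finset.mem_product, Finset.mem_range, Finset.mem_range] at hx hy
    obtain ⟨h1, h2⟩ := pairCond_unique p hp2 hur hdeg hram' hζ1 hπ ι s hs χ ξ hdet hξ
      (by omega : x.1 ≤ p) (by omega : y.1 ≤ p) hx.2.1 hy.2.1 hx.1.2 hy.1.2 hx.2.2 hy.2.2
    exact Prod.ext h1 h2
  calc Nat.card k ^ _ ≤ Nat.card k ^ 1 := Nat.pow_le_pow_right Nat.card_pos hle
    _ = Nat.card k := pow_one _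

end Pairs

end

end Fermat.Agent.ES.T56.KumPair7
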