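/-
Programme T (S56), chapter KUM, for `FlatIface20.KumF2` (helper17 lead) — helper4.

`𝔽_{p²} ⊆ k` from the hypothesis "`χ^σ ≠ χ` on inertia", in the LOC model of `KumPair7`:
`E/ℚ_p` unramified quadratic, `L₀/E` Galois with `e(L₀/ℚ_p) = p² - 1`, `π^{p²-1} = -p`, `s` an
automorphism of `L₀/ℚ_p` non-trivial on `E`.  For an inertial `δ` with conjugate `δ' = s δ s⁻¹` one has
`δ' = δ ^ p` (`KumPair7.conj_eq_pow`) and `δ ^ (p² - 1) = 1` (`#I = p² - 1`), so `a = χ δ ∈ k` has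
`a ^ (p²) = a` and `a ^ p = χ δ' ≠ a`; then `KumIota17.exists_ringHom`.
-/
import Mathlib
import Fermat.Agent.ES.T56.KumPair7
import Fermat.Agent.ES.T56.KumIota17

set_option autoImplicit false
set_option linter.unusedSectionVars false

open scoped Fermat.Agent.PT.LOC.Interface12 Fermat.Agent.PT.LOC.StructureTower27
open Fermat.Agent.PT.LOC.Interface12 Fermat.Agent.PT.LOC.Structure14
  Fermat.Agent.PT.LOC.Teichmuller14
  Fermat.Agent.ES.T56.FlatRIface14 Fermat.Agent.ES.T56.KumCountIface7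
  Fermat.Agent.ES.T56.UnitLevelLoc4
  Fermat.Agent.ES.T56.KumCountF2_7
  Fermat.Agent.ES.T56.TameLoc16

namespace Fermat.Agent.ES.T56.KumIotaLoc4

variable (p : ℕ) [hp : Fact p.Prime]

variable {E L₀ : Type} [Field E] [Field L₀] [Algebra ℚ_[p] E] [FiniteDimensional ℚ_[p] E]
  [Algebra ℚ_[p] L₀] [FiniteDimensional ℚ_[p] L₀] [Algebra E L₀] [IsScalarTower ℚ_[p] E L₀]
  [IsGalois E L₀]

/-- An inertial automorphism has order dividing `p² - 1`. -/
theorem pow_sq_sub_one_eq_one (hur : IsUnramified p ℚ_[p] E)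
    (hram : ramE p L₀ = p ^ 2 - 1) {δ : L₀ ≃ₐ[E] L₀} (hin : IsInertial p L₀ δ) :
    δ ^ (p ^ 2 - 1) = 1 := by
  have hδ := (KumPair7.isInertial_iff p E L₀ δ).1 hin
  have hcard := KumPair7.card_inertiaSub p E L₀ hur
  have hfin : Finite (inertiaSub p E L₀) := by
    apply Nat.finite_of_card_ne_zero
    rw [hcard, hram]
    exact KumPair7.sq_sub_one_ne_zero p
  have h1 : (⟨δ, hδ⟩ : inertiaSub p E L₀) ^ Nat.card (inertiaSub p E L₀) = 1 := pow_card_eq_one'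
  rw [hcard, hram] at h1
  have h2 := congrArg Subtype.val h1
  exact h2

/-- **`𝔽_{p²} ⊆ k`** from `χ^σ ≠ χ` on inertia. -/
theorem exists_iota (hur : IsUnramified p ℚ_[p] E) (hdeg : Module.finrank ℚ_[p] E = 2)
    (hram : ramIdxZ p L₀ = (p : ℤ) ^ 2 - 1) (π : L₀) (hπ : π ^ (p ^ 2 - 1) = -(p : L₀))
    {k : Type} [Field k] [Finite k] [CharP k p] (s : L₀ ≃ₐ[ℚ_[p]] L₀)
    (hs : ∃ x : E, s (algebraMap E L₀ x) ≠ algebraMap E L₀ x) (χ : (L₀ ≃ₐ[E] L₀) →* kˣ)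
    (hne : ∃ δ δ' : L₀ ≃ₐ[E] L₀, IsInertial p L₀ δ ∧ (∀ x, δ' (s x) = s (δ x)) ∧ χ δ' ≠ χ δ) :
    Nonempty (resField p E →+* k) := by
  have hram' := KumPair7.ramE_eq_of_ramIdxZ p L₀ hram
  obtain ⟨δ, δ', hin, hc, hne'⟩ := hne
  have hpow := KumPair7.conj_eq_pow p hur hdeg hram' hπ s hs hc hin
  have hord := pow_sq_sub_one_eq_one p hur hram' hin
  have hp1 : 1 ≤ p ^ 2 := Nat.one_le_pow _ _ hp.out.pos
  have hF : Nat.card (resField p E) = p ^ 2 := by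
    rw [card_resField, resCard_unram2 p E hur hdeg]
  refine KumIota17.exists_ringHom p hF ((χ δ : kˣ) : k) ?_ ?_
  · have h1 : δ ^ (p ^ 2) = δ := by
      have e : p ^ 2 = (p ^ 2 - 1) + 1 := (Nat.sub_add_cancel hp1).symm
      rw [e, pow_succ, hord, one_mul]
    rw [← Units.val_pow_eq_pow_val, ← map_pow, h1]
  · intro h
    apply hne'
    apply Units.ext
    rw [hpow, map_pow, Units.val_pow_eq_pow_val]
    exact h

end Fermat.Agent.ES.T56.KumIotaLoc4
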