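/-
Programme T (S56), FLAT leg, chapter R′ (T56_FLAT14_Q.md, steps Q1/Q5) — helper14.

THE TAME QUADRATIC EXTENSION `M = T(λ')`, `λ'² = λ` (`λ` a uniformizer of the `p`-adic field `T`,
`p` odd), treated by norms only:

* `snorm_add_eq_left/right`, `snorm_add_eq_max_of_ne` : sharp ultrametric inequality;
* `IsQuad p T M lam lam'` : `lam` is a uniformizer of `T`, `lam' ^ 2 = lam`, `M = T + T·lam'`;
* `IsQuad.snorm_eq_max` : `‖x₀ + x₁ λ'‖ = max ‖x₀‖ (‖x₁‖ ν)`, `ν = ‖λ'‖`;
* `IsQuad.exists_zpow` : the value group of `M` is `ν^ℤ`; `IsQuad.isUniformizer` : `λ'` is a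
  uniformizer of `M`;
* `IsQuad.conj_level` : if `b = 1 + x₀ + x₁ λ'` with `‖b - 1‖ = ν^ℓ`, `ℓ` odd, then
  `b̄ = 1 + x₀ - x₁ λ'` has norm `1` and `‖b / b̄ - 1‖ = ν^ℓ` exactly.
-/
import Mathlib
import Fermat.Agent.PT.LOC.Interface12
import Fermat.Agent.PT.LOC.Structure14
import Fermat.Agent.PT.LOC.StructureNorm14
import Fermat.Agent.PT.LOC.RootsUnity14

set_option autoImplicit false
set_option linter.unusedSectionVars false

namespace Fermat.Agent.ES.T56.TwistQuad14

open scoped Fermat.Agent.PT.LOC.Interface12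
open Fermat.Agent.PT.LOC.Interface12 Fermat.Agent.PT.LOC.Structure14
  Fermat.Agent.PT.LOC.StructureNorm14 Fermat.Agent.PT.LOC.RootsUnity14

noncomputable section

variable (p : ℕ) [Fact p.Prime]

section Norm

variable (E : Type) [Field E] [Algebra ℚ_[p] E] [FiniteDimensional ℚ_[p] E]

theorem snorm_add_eq_left {x y : E} (h : snorm p E y < snorm p E x) :
    snorm p E (x + y) = snorm p E x := by
  apply le_antisymm
  · exact (snorm_add_le_max p E x y).trans (max_le le_rfl h.le)
  · have h1 : snorm p E x ≤ max (snorm p E (x + y)) (snorm p E y) := by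
      have := snorm_sub_le_max p E (x + y) y
      rwa [add_sub_cancel_right] at this
    rcases le_max_iff.1 h1 with h2 | h2
    · exact h2
    · exact absurd h2 (not_le.2 h)

theorem snorm_add_eq_right {x y : E} (h : snorm p E x < snorm p E y) :
    snorm p E (x + y) = snorm p E y := by
  rw [add_comm]; exact snorm_add_eq_left p E h

theorem snorm_add_eq_max_of_ne {x y : E} (h : snorm p E x ≠ snorm p E y) :
    snorm p E (x + y) = max (snorm p E x) (snorm p E y) := by
  rcases lt_or_gt_of_ne h with h1 | h1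
  · rw [snorm_add_eq_right p E h1, max_eq_right h1.le]
  · rw [snorm_add_eq_left p E h1, max_eq_left h1.le]

theorem snorm_sub_eq_left {x y : E} (h : snorm p E y < snorm p E x) :
    snorm p E (x - y) = snorm p E x := by
  rw [sub_eq_add_neg]
  exact snorm_add_eq_left p E (by rwa [snorm_neg])

/-- An element of norm `1` plus an element of norm `< 1` has norm `1`. -/
theorem snorm_one_add {y : E} (h : snorm p E y < 1) : snorm p E (1 + y) = 1 := by
  rw [snorm_add_eq_left p E (by rwa [snorm_one]), snorm_one]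

theorem snorm_div (x y : E) : snorm p E (x / y) = snorm p E x / snorm p E y := by
  rw [div_eq_mul_inv, snorm_mul, snorm_inv, div_eq_mul_inv]

end Norm

section Quad

variable (T M : Type) [Field T] [Field M] [Algebra ℚ_[p] T] [Algebra ℚ_[p] M]
  [FiniteDimensional ℚ_[p] T] [FiniteDimensional ℚ_[p] M] [Algebra T M] [IsScalarTower ℚ_[p] T M]

/-- `M = T(λ')`, `λ'² = λ`, `λ` a uniformizer of `T`. -/
structure IsQuad (lam : T) (lam' : M) : Prop where
  unif : IsUniformizer p T lam
  sq : lam' ^ 2 = algebraMap T M lam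
  span : ∀ x : M, ∃ x₀ x₁ : T, x = algebraMap T M x₀ + algebraMap T M x₁ * lam'

variable {p T M} {lam : T} {lam' : M}

namespace IsQuad

theorem nu_sq (h : IsQuad p T M lam lam') : snorm p M lam' ^ 2 = snorm p T lam := by
  rw [← snorm_pow, h.sq, snorm_algebraMap_tower]

theorem lam_ne_zero (h : IsQuad p T M lam lam') : lam ≠ 0 := h.unif.2.1

theorem lam'_ne_zero (h : IsQuad p T M lam lam') : lam' ≠ 0 := by
  intro h0
  have := h.sq
  rw [h0, zero_pow two_ne_zero] at this
  exact h.lam_ne_zero ((algebraMap T M).injective (by rw [← this, map_zero]))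

theorem nu_pos (h : IsQuad p T M lam lam') : 0 < snorm p M lam' := snorm_pos p M h.lam'_ne_zero

theorem nu_lt_one (h : IsQuad p T M lam lam') : snorm p M lam' < 1 := by
  have h1 := snorm_uniformizer_lt_one p T lam h.unif
  rw [← h.nu_sq] at h1
  by_contra h2
  push Not at h2
  have : (1 : ℝ) ≤ snorm p M lam' ^ 2 := one_le_pow₀ h2
  linarith

/-- The norm of a nonzero element of `T` is an even power of `ν`. -/
theorem snorm_base (h : IsQuad p T M lam lam') {x₀ : T} (hx : x₀ ≠ 0) :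
    ∃ n : ℤ, snorm p M (algebraMap T M x₀) = snorm p M lam' ^ (2 * n) := by
  refine ⟨ord p T (Units.mk0 x₀ hx), ?_⟩
  have := snorm_eq_zpow p T (Units.mk0 lam h.lam_ne_zero) h.unif (Units.mk0 x₀ hx)
  rw [Units.val_mk0, Units.val_mk0] at this
  rw [snorm_algebraMap_tower, this, ← h.nu_sq, zpow_mul, zpow_ofNat]

theorem zpow_ne (h : IsQuad p T M lam lam') (n k : ℤ) :
    snorm p M lam' ^ (2 * n) ≠ snorm p M lam' ^ (2 * k + 1) := by
  intro he
  have := zpow_right_injective₀ h.nu_pos h.nu_lt_one.ne he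
  omega

/-- The two components of `x₀ + x₁ λ'` have different norms (unless they vanish). -/
theorem snorm_ne (h : IsQuad p T M lam lam') {x₀ x₁ : T} (h0 : x₀ ≠ 0) (h1 : x₁ ≠ 0) :
    snorm p M (algebraMap T M x₀) ≠ snorm p M (algebraMap T M x₁ * lam') := by
  obtain ⟨n, hn⟩ := h.snorm_base h0
  obtain ⟨k, hk⟩ := h.snorm_base h1
  rw [snorm_mul, hn, hk]
  have : snorm p M lam' ^ (2 * k) * snorm p M lam' = snorm p M lam' ^ (2 * k + 1) := by
    rw [zpow_add₀ h.nu_pos.ne', zpow_one]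
  rw [this]
  exact h.zpow_ne n k

/-- `‖x₀ + x₁ λ'‖ = max ‖x₀‖ (‖x₁‖ ν)`. -/
theorem snorm_eq_max (h : IsQuad p T M lam lam') (x₀ x₁ : T) :
    snorm p M (algebraMap T M x₀ + algebraMap T M x₁ * lam') =
      max (snorm p M (algebraMap T M x₀)) (snorm p M (algebraMap T M x₁ * lam')) := by
  by_cases h0 : x₀ = 0
  · rw [h0, map_zero, zero_add, snorm_zero, max_eq_right (snorm_nonneg p M _)]
  by_cases h1 : x₁ = 0
  · rw [h1, map_zero, zero_mul, add_zero, snorm_zero, max_eq_left (snorm_nonneg p M _)]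
  exact snorm_add_eq_max_of_ne p M (h.snorm_ne h0 h1)

/-- The value group of `M` is `ν^ℤ`. -/
theorem exists_zpow (h : IsQuad p T M lam lam') {x : M} (hx : x ≠ 0) :
    ∃ n : ℤ, snorm p M x = snorm p M lam' ^ n := by
  obtain ⟨x₀, x₁, rfl⟩ := h.span x
  rw [h.snorm_eq_max]
  by_cases h0 : x₀ = 0
  · have h1 : x₁ ≠ 0 := by
      rintro rfl
      apply hx
      rw [h0, map_zero, zero_mul, add_zero]
    obtain ⟨k, hk⟩ := h.snorm_base h1
    refine ⟨2 * k + 1, ?_⟩
    rw [h0, map_zero, snorm_zero, max_eq_right (snorm_nonneg p M _), snorm_mul, hk,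
      zpow_add₀ h.nu_pos.ne', zpow_one]
  by_cases h1 : x₁ = 0
  · obtain ⟨n, hn⟩ := h.snorm_base h0
    refine ⟨2 * n, ?_⟩
    rw [h1, map_zero, zero_mul, snorm_zero, max_eq_left (snorm_nonneg p M _), hn]
  obtain ⟨n, hn⟩ := h.snorm_base h0
  obtain ⟨k, hk⟩ := h.snorm_base h1
  rcases le_total (snorm p M (algebraMap T M x₀)) (snorm p M (algebraMap T M x₁ * lam')) with hle | hle
  · refine ⟨2 * k + 1, ?_⟩
    rw [max_eq_right hle, snorm_mul, hk, zpow_add₀ h.nu_pos.ne', zpow_one]
  · exact ⟨2 * n, by rw [max_eq_left hle, hn]⟩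

/-- `λ'` is a uniformizer of `M`. -/
theorem isUniformizer (h : IsQuad p T M lam lam') : IsUniformizer p M lam' := by
  refine ⟨(mem_intRing_iff p M _).2 h.nu_lt_one.le, h.lam'_ne_zero, ?_, ?_⟩
  · intro hm
    have := (mem_intRing_iff p M _).1 hm
    change snorm p M lam'⁻¹ ≤ 1 at this
    rw [snorm_inv] at this
    have h1 : 1 < (snorm p M lam')⁻¹ := (one_lt_inv₀ h.nu_pos).2 h.nu_lt_one
    linarith
  · intro x hx hxi
    by_cases hx0 : x = 0
    · rw [hx0, zero_mul]; exact zero_mem _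
    obtain ⟨n, hn⟩ := h.exists_zpow hx0
    have h1 : snorm p M x ≤ 1 := (mem_intRing_iff p M _).1 hx
    have h2 : ¬ snorm p M x⁻¹ ≤ 1 := fun hh => hxi ((mem_intRing_iff p M _).2 hh)
    rw [snorm_inv] at h2
    have h3 : snorm p M x < 1 := by
      rcases h1.lt_or_eq with h3 | h3
      · exact h3
      · exact absurd (by rw [h3, inv_one]) h2
    rw [hn] at h3
    have hn1 : 0 < n := (zpow_lt_one_iff_right_of_lt_one₀ h.nu_pos h.nu_lt_one).1 h3
    rw [mem_intRing_iff]
    change snorm p M (x * lam'⁻¹) ≤ 1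
    rw [snorm_mul, snorm_inv, hn, ← zpow_sub_one₀ h.nu_pos.ne']
    exact (zpow_le_one_iff_right_of_lt_one₀ h.nu_pos h.nu_lt_one).2 (by omega)

/-- **Conjugate quotient.** If `‖x₀ + x₁ λ'‖ = ν^ℓ` with `ℓ` odd, then for `b = 1 + x₀ + x₁ λ'` and
`b̄ = 1 + x₀ - x₁ λ'`: `‖b̄‖ = 1` and `‖b / b̄ - 1‖ = ν^ℓ` (`p` odd). -/
theorem conj_level (h : IsQuad p T M lam lam') (hp2 : p ≠ 2) (x₀ x₁ : T) (l : ℕ) (hl : Odd l)
    (hx : snorm p M (algebraMap T M x₀ + algebraMap T M x₁ * lam') = snorm p M lam' ^ l) :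
    snorm p M (1 + algebraMap T M x₀ - algebraMap T M x₁ * lam') = 1 ∧
    snorm p M ((1 + algebraMap T M x₀ + algebraMap T M x₁ * lam') /
      (1 + algebraMap T M x₀ - algebraMap T M x₁ * lam') - 1) = snorm p M lam' ^ l := by
  obtain ⟨k, rfl⟩ := hl
  have hν := h.nu_pos
  have hν1 := h.nu_lt_one
  have hlt : snorm p M lam' ^ (2 * k + 1) < 1 := pow_lt_one₀ hν.le hν1 (by omega)
  rw [h.snorm_eq_max] at hx
  -- the `λ'`-component carries the norm
  have hx1 : snorm p M (algebraMap T M x₁ * lam') = snorm p M lam' ^ (2 * k + 1) ∧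
      snorm p M (algebraMap T M x₀) < snorm p M lam' ^ (2 * k + 1) := by
    by_cases h0 : x₀ = 0
    · rw [h0, map_zero, snorm_zero, max_eq_right (snorm_nonneg p M _)] at hx
      rw [h0, map_zero, snorm_zero]
      exact ⟨hx, pow_pos hν _⟩
    obtain ⟨n, hn⟩ := h.snorm_base h0
    have hne : snorm p M (algebraMap T M x₀) ≠ snorm p M lam' ^ (2 * k + 1) := by
      rw [hn]
      have := h.zpow_ne n k
      rwa [show (2 * (k : ℤ) + 1) = ((2 * k + 1 : ℕ) : ℤ) by push_cast; ring, zpow_natCast] at this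
    rcases le_total (snorm p M (algebraMap T M x₀)) (snorm p M (algebraMap T M x₁ * lam')) with hle | hle
    · rw [max_eq_right hle] at hx
      exact ⟨hx, lt_of_le_of_ne (hx ▸ hle) hne⟩
    · rw [max_eq_left hle] at hx
      exact absurd hx hne
  obtain ⟨hx1, hx0⟩ := hx1
  have hconj : snorm p M (1 + algebraMap T M x₀ - algebraMap T M x₁ * lam') = 1 := by
    have : 1 + algebraMap T M x₀ - algebraMap T M x₁ * lam' =
        1 + (algebraMap T M x₀ - algebraMap T M x₁ * lam') := by ring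
    rw [this]
    apply snorm_one_add
    refine lt_of_le_of_lt (snorm_sub_le_max p M _ _) (max_lt (hx0.trans hlt) ?_)
    rw [hx1]; exact hlt
  refine ⟨hconj, ?_⟩
  have hb0 : 1 + algebraMap T M x₀ - algebraMap T M x₁ * lam' ≠ 0 := by
    intro h0
    rw [h0, snorm_zero] at hconj
    exact zero_ne_one hconj
  have h2 : snorm p M (2 : M) = 1 := by
    have := snorm_natCast_eq_one p M (m := 2) (fun hd => hp2
      ((Nat.prime_dvd_prime_iff_eq Fact.out Nat.prime_two).1 hd))
    simpa using this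
  have hquot : (1 + algebraMap T M x₀ + algebraMap T M x₁ * lam') /
      (1 + algebraMap T M x₀ - algebraMap T M x₁ * lam') - 1 =
      2 * (algebraMap T M x₁ * lam') / (1 + algebraMap T M x₀ - algebraMap T M x₁ * lam') := by
    field_simp
    ring
  rw [hquot, snorm_div, snorm_mul, h2, hconj, hx1, one_mul, div_one]

end IsQuad

end Quad

end

end Fermat.Agent.ES.T56.TwistQuad14
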