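/-
Programme T (S56), FLAT leg, chapter R′ (T56_FLAT14_Q.md, steps Q1 (end), Q2, Q3, Q4) — helper14.

INTERFACE of the brick `TwistEmbed` (field-theoretic half of variant Q):

* `N2Statement p` : `(N2)` — in a `p`-adic field `E`, if `x ^ p ≡ y` modulo `𝔞_E^m`, `|y| ≥ p^{-t}` and
  `m - t > p/(p-1)`, then `y` is a `p`-th power in `E`.
* `TwistEmbedStatement p` : let `T ⊆ Ls = F·T`, `F/ℚ_p` Galois with `(P_m)`, `m > p/(p-1)`,
  `𝒪_Ls = 𝒪_T[θ]/(P)` with `deg P = [Ls : T] = d` ODD, `ζ_p ∈ T`, `M = T(λ')`, `λ'² = λ` a uniformizer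
  of `T`, and let `ι : 𝒪_T → 𝒪_M/𝔞_M^m` be ANY `ℤ_p`-algebra homomorphism.  If `a ∈ 𝒪_T` has a `p`-th
  root in `Ls` and `a' ∈ 𝒪_M` lifts `ι a` with `|a'| ≥ p^{-t}`, `m - t > p/(p-1)`, then, writing
  `a'/a = b₀ + b₁ λ'` (`b₀ b₁ ∈ T`), the quotient `(b₀ + b₁ λ')/(b₀ - b₁ λ')` is a `p`-th power in `M`.
  (Proof: `P^ι`, `E = M(ϑ)`, `η`, `(P_m)` gives `F ↪ E`, hence `Ls ↪ E` and `E = Ls·M` by degrees;
  `a' ∈ E^{×p}` by `(N2)`; `TwistGalois5`.)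
-/
import Mathlib
import Fermat.Agent.PT.LOC.Interface12
import Fermat.Agent.PT.LOC.Structure14
import Fermat.Agent.PT.LOC.StructureTower27
import Fermat.Agent.ES.T56.FlatRIface14
import Fermat.Agent.ES.T56.TwistMap14
import Fermat.Agent.ES.T56.TwistQuad14

set_option autoImplicit false

namespace Fermat.Agent.ES.T56.TwistEmbedIface14

open scoped Fermat.Agent.PT.LOC.Interface12 Fermat.Agent.PT.LOC.StructureTower27
open Fermat.Agent.PT.LOC.Interface12 Fermat.Agent.PT.LOC.Structure14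
  Fermat.Agent.PT.LOC.StructureTower27 Fermat.Agent.ES.T56.FlatRIface14
  Fermat.Agent.ES.T56.TwistMap14 Fermat.Agent.ES.T56.TwistQuad14 Polynomial

noncomputable section

variable (p : ℕ) [Fact p.Prime]

/-- `(N2)`: `y ≡ x^p` modulo `𝔞^m`, `|y| ≥ p^{-t}`, `m - t > p/(p-1)` ⟹ `y` is a `p`-th power. -/
def N2Statement : Prop :=
  ∀ (E : Type) [Field E] [Algebra ℚ_[p] E] [FiniteDimensional ℚ_[p] E]
    (x y : intRing p E) (m t : ℝ), x ^ p - y ∈ aIdeal p E m →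
    (p : ℝ) ^ (-t) ≤ snorm p E (y : E) → (p : ℝ) / ((p : ℝ) - 1) < m - t →
    ∃ z : E, z ^ p = (y : E)

/-- The field-theoretic half of variant Q of Theorem R′. -/
def TwistEmbedStatement : Prop :=
  ∀ (T Ls M F : Type) [Field T] [Field Ls] [Field M] [Field F]
    [Algebra ℚ_[p] T] [Algebra ℚ_[p] Ls] [Algebra ℚ_[p] M] [Algebra ℚ_[p] F]
    [FiniteDimensional ℚ_[p] T] [FiniteDimensional ℚ_[p] Ls] [FiniteDimensional ℚ_[p] M]
    [FiniteDimensional ℚ_[p] F]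
    [Algebra T Ls] [Algebra T M] [IsScalarTower ℚ_[p] T Ls] [IsScalarTower ℚ_[p] T M]
    [IsGalois ℚ_[p] F] (iF : F →ₐ[ℚ_[p]] Ls),
    iF.fieldRange ⊔ (IsScalarTower.toAlgHom ℚ_[p] T Ls).fieldRange = ⊤ →
    ∀ (θ : intRing p Ls) (P : (intRing p T)[X]) (d : ℕ),
      IsPres (intRing p T) (intRing p Ls) θ P → P.natDegree = d → Module.finrank T Ls = d →
      Odd d →
    ∀ (lam : T) (lam' : M), IsQuad p T M lam lam' → (∃ ζ : T, IsPrimitiveRoot ζ p) →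
    ∀ (m : ℝ), (p : ℝ) / ((p : ℝ) - 1) < m → Pm p F m →
    ∀ (ι : intRing p T →ₐ[ℤ_[p]] intRing p M ⧸ aIdeal p M m)
      (a : intRing p T) (y : intRing p Ls),
      y ^ p = algebraMap (intRing p T) (intRing p Ls) a →
    ∀ (a' : intRing p M), ι a = Ideal.Quotient.mk (aIdeal p M m) a' →
      (∃ t : ℝ, (p : ℝ) ^ (-t) ≤ snorm p M (a' : M) ∧ (p : ℝ) / ((p : ℝ) - 1) < m - t) →
    ∀ b₀ b₁ : T,
      (a' : M) = algebraMap T M (a : T) * (algebraMap T M b₀ + algebraMap T M b₁ * lam') →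
      ∃ w : M, w ^ p * (algebraMap T M b₀ - algebraMap T M b₁ * lam') =
        algebraMap T M b₀ + algebraMap T M b₁ * lam'

end

end Fermat.Agent.ES.T56.TwistEmbedIface14
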