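/-
Programme T (S56), chapter FLAT, Theorem R′ (variant Q) (helper4):
proof of the interface statement `TwistEmbedIface14.N2Statement p` (`(N2)`: `y ≡ x^p` modulo `𝔞^m`,
`|y| ≥ p^{-t}`, `m − t > p/(p − 1)` ⟹ `y` is a `p`-th power), a restatement of
`UnitRootLoc4.exists_pow_eq_of_approx`.
-/
import Mathlib
import Fermat.Agent.ES.T56.TwistEmbedIface14
import Fermat.Agent.ES.T56.UnitRootLoc4

set_option autoImplicit false

open scoped Fermat.Agent.PT.LOC.Interface12
open Fermat.Agent.PT.LOC.Interface12 Fermat.Agent.PT.LOC.Structure14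
  Fermat.Agent.ES.T56.FlatRIface14

namespace Fermat.Agent.ES.T56.N2Proof4

/-- `(N2)` in the literal of `TwistEmbedIface14`. -/
theorem n2Statement (p : ℕ) [Fact p.Prime] : TwistEmbedIface14.N2Statement p := by
  intro E _ _ _ x y m t h1 h2 h3
  rw [mem_aIdeal_iff, Subalgebra.coe_sub, Subalgebra.coe_pow] at h1
  exact UnitRootLoc4.exists_pow_eq_of_approx h1 h2 h3

end Fermat.Agent.ES.T56.N2Proof4
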