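/-
Programme T (S56), FLAT leg, chapter R′ (T56_FLAT14_Q.md, steps Q5/Q7) — helper14.

LEVEL COMPUTATIONS for the twist, as pure norm computations in a `p`-adic field `M`
(`ν = ‖λ'‖`, `‖λ‖ = ν²`, `‖c‖ = ν^r`, the ideal `𝔞^m` is `{‖x‖ ≤ ν^(2e+r)}`):

* `level_unit` : `A = 1 + λ^i β`, `a' = A + λ^i c (i β + c ρ₁ + λ ρ₂) + t` with `‖t‖ ≤ ν^(2e+r)`,
  `1 ≤ i < e`, `‖i‖ = ‖β‖ = 1` ⟹ `‖A‖ = ‖a'‖ = 1` and `‖a'/A - 1‖ = ν^(2i+r)`;
* `level_nonunit` : `A = λ a₁`, `a' = λ (1+c) (a₁ + λ c γ) + t`, `‖a₁‖ = 1`, `2 ≤ e`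
  ⟹ `‖a'‖ = ν²` and `‖a'/A - 1‖ = ν^r`;
* `choose_level` : the arithmetic of the choice of `r`: an odd `ℓ₁ ≤ 2pe' - 1` can be replaced by
  `ℓ₁ + δ`, `δ ∈ {0,2}`, prime to `p` and still `≤ 2pe' - 1`.
-/
import Mathlib
import Fermat.Agent.PT.LOC.Interface12
import Fermat.Agent.PT.LOC.Structure14
import Fermat.Agent.PT.LOC.StructureNorm14
import Fermat.Agent.PT.LOC.RootsUnity14
import Fermat.Agent.ES.T56.TwistQuad14

set_option autoImplicit false
set_option linter.unusedSectionVars false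

namespace Fermat.Agent.ES.T56.TwistLevel14

open scoped Fermat.Agent.PT.LOC.Interface12
open Fermat.Agent.PT.LOC.Interface12 Fermat.Agent.PT.LOC.Structure14
  Fermat.Agent.PT.LOC.StructureNorm14 Fermat.Agent.PT.LOC.RootsUnity14
  Fermat.Agent.ES.T56.TwistQuad14

noncomputable section

variable (p : ℕ) [Fact p.Prime]

section Level

variable (M : Type) [Field M] [Algebra ℚ_[p] M] [FiniteDimensional ℚ_[p] M]

/-- A sum of an element of norm `1` and two elements of norm `< 1` has norm `1`. -/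
theorem snorm_unit_add_add {x y z : M} (hx : snorm p M x = 1) (hy : snorm p M y < 1)
    (hz : snorm p M z < 1) : snorm p M (x + y + z) = 1 := by
  have h1 : snorm p M (x + y) = 1 := by
    rw [snorm_add_eq_left p M (by rwa [hx]), hx]
  rw [snorm_add_eq_left p M (by rwa [h1]), h1]

/-- **Level of the twisted unit.** -/
theorem level_unit {ν : ℝ} (hν0 : 0 < ν) (hν1 : ν < 1) {L c β ρ₁ ρ₂ t a' : M} {i e r : ℕ}
    (hL : snorm p M L = ν ^ 2) (hc : snorm p M c = ν ^ r) (hr : 1 ≤ r)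
    (hβ : snorm p M β = 1) (hρ₁ : snorm p M ρ₁ ≤ 1) (hρ₂ : snorm p M ρ₂ ≤ 1)
    (hi : snorm p M (i : M) = 1) (hi1 : 1 ≤ i) (hie : i < e)
    (ht : snorm p M t ≤ ν ^ (2 * e + r))
    (ha' : a' = 1 + L ^ i * β + L ^ i * c * ((i : M) * β + c * ρ₁ + L * ρ₂) + t) :
    snorm p M (1 + L ^ i * β) = 1 ∧ snorm p M a' = 1 ∧
      snorm p M (a' / (1 + L ^ i * β) - 1) = ν ^ (2 * i + r) := by
  have hLlt : snorm p M L < 1 := by rw [hL]; exact pow_lt_one₀ hν0.le hν1 two_ne_zero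
  have hclt : snorm p M c < 1 := by rw [hc]; exact pow_lt_one₀ hν0.le hν1 (by omega)
  have hLi : snorm p M (L ^ i) = ν ^ (2 * i) := by rw [snorm_pow, hL, ← pow_mul]
  have hLilt : snorm p M (L ^ i) < 1 := by rw [hLi]; exact pow_lt_one₀ hν0.le hν1 (by omega)
  -- the unit `A`
  have hA : snorm p M (1 + L ^ i * β) = 1 := by
    apply snorm_one_add
    rw [snorm_mul, hβ, mul_one]; exact hLilt
  -- the bracket is a unit
  have hbr : snorm p M ((i : M) * β + c * ρ₁ + L * ρ₂) = 1 := by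
    apply snorm_unit_add_add
    · rw [snorm_mul, hi, hβ, one_mul]
    · rw [snorm_mul]
      calc snorm p M c * snorm p M ρ₁ ≤ snorm p M c * 1 :=
            mul_le_mul_of_nonneg_left hρ₁ (snorm_nonneg p M c)
        _ < 1 := by rw [mul_one]; exact hclt
    · rw [snorm_mul]
      calc snorm p M L * snorm p M ρ₂ ≤ snorm p M L * 1 :=
            mul_le_mul_of_nonneg_left hρ₂ (snorm_nonneg p M L)
        _ < 1 := by rw [mul_one]; exact hLlt
  -- the main term
  have hmain : snorm p M (L ^ i * c * ((i : M) * β + c * ρ₁ + L * ρ₂)) = ν ^ (2 * i + r) := by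
    rw [snorm_mul, snorm_mul, hLi, hc, hbr, mul_one, ← pow_add]
  have htlt : snorm p M t < ν ^ (2 * i + r) :=
    lt_of_le_of_lt ht ((pow_lt_pow_iff_right_of_lt_one₀ hν0 hν1).2 (by omega))
  have hdiff : snorm p M (a' - (1 + L ^ i * β)) = ν ^ (2 * i + r) := by
    have : a' - (1 + L ^ i * β) = L ^ i * c * ((i : M) * β + c * ρ₁ + L * ρ₂) + t := by
      rw [ha']; ring
    rw [this, snorm_add_eq_left p M (by rwa [hmain]), hmain]
  have hpowlt : ν ^ (2 * i + r) < 1 := pow_lt_one₀ hν0.le hν1 (by omega)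
  have hA0 : (1 + L ^ i * β) ≠ 0 := by
    intro h0; rw [h0, snorm_zero] at hA; exact zero_ne_one hA
  refine ⟨hA, ?_, ?_⟩
  · have : a' = (1 + L ^ i * β) + (a' - (1 + L ^ i * β)) := by ring
    rw [this, snorm_add_eq_left p M (by rw [hA, hdiff]; exact hpowlt), hA]
  · have : a' / (1 + L ^ i * β) - 1 = (a' - (1 + L ^ i * β)) / (1 + L ^ i * β) := by
      field_simp
    rw [this, snorm_div, hdiff, hA, div_one]

/-- **Level of the twisted non-unit** (`ord a = 1`). -/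
theorem level_nonunit {ν : ℝ} (hν0 : 0 < ν) (hν1 : ν < 1) {L c a₁ γ t a' : M} {e r : ℕ}
    (hL : snorm p M L = ν ^ 2) (hc : snorm p M c = ν ^ r) (hr : 1 ≤ r)
    (ha₁ : snorm p M a₁ = 1) (hγ : snorm p M γ ≤ 1) (he : 2 ≤ e)
    (ht : snorm p M t ≤ ν ^ (2 * e + r))
    (ha' : a' = L * (1 + c) * (a₁ + L * c * γ) + t) :
    snorm p M a' = ν ^ 2 ∧ snorm p M (a' / (L * a₁) - 1) = ν ^ r := by
  have hLlt : snorm p M L < 1 := by rw [hL]; exact pow_lt_one₀ hν0.le hν1 two_ne_zero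
  have hclt : snorm p M c < 1 := by rw [hc]; exact pow_lt_one₀ hν0.le hν1 (by omega)
  have hL0 : L ≠ 0 := by
    intro h0; rw [h0, snorm_zero] at hL
    exact (pow_pos hν0 2).ne hL
  have ha₁0 : a₁ ≠ 0 := by
    intro h0; rw [h0, snorm_zero] at ha₁; exact zero_ne_one ha₁
  -- `a' - L a₁ = L c (a₁ + L γ (1 + c)) + t`
  have hLγ : snorm p M (L * γ * (1 + c)) < 1 := by
    rw [snorm_mul, snorm_mul, snorm_one_add p M hclt, mul_one]
    calc snorm p M L * snorm p M γ ≤ snorm p M L * 1 :=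
          mul_le_mul_of_nonneg_left hγ (snorm_nonneg p M L)
      _ < 1 := by rw [mul_one]; exact hLlt
  have hbr : snorm p M (a₁ + L * γ * (1 + c)) = 1 := by
    rw [snorm_add_eq_left p M (by rwa [ha₁]), ha₁]
  have hmain : snorm p M (L * c * (a₁ + L * γ * (1 + c))) = ν ^ (2 + r) := by
    rw [snorm_mul, snorm_mul, hL, hc, hbr, mul_one, ← pow_add]
  have htlt : snorm p M t < ν ^ (2 + r) :=
    lt_of_le_of_lt ht ((pow_lt_pow_iff_right_of_lt_one₀ hν0 hν1).2 (by omega))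
  have hdiff : snorm p M (a' - L * a₁) = ν ^ (2 + r) := by
    have : a' - L * a₁ = L * c * (a₁ + L * γ * (1 + c)) + t := by
      rw [ha']; ring
    rw [this, snorm_add_eq_left p M (by rwa [hmain]), hmain]
  have hLa : snorm p M (L * a₁) = ν ^ 2 := by rw [snorm_mul, hL, ha₁, mul_one]
  constructor
  · have : a' = L * a₁ + (a' - L * a₁) := by ring
    rw [this, snorm_add_eq_left p M, hLa]
    rw [hLa, hdiff]
    exact (pow_lt_pow_iff_right_of_lt_one₀ hν0 hν1).2 (by omega)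
  · have : a' / (L * a₁) - 1 = (a' - L * a₁) / (L * a₁) := by
      field_simp
    rw [this, snorm_div, hdiff, hLa, pow_add]
    field_simp

end Level

section Arith

/-- **Choice of the level.** -/
theorem choose_level {p : ℕ} (hp : p.Prime) (hp2 : p ≠ 2) {e' l₁ : ℕ} (hodd : Odd l₁)
    (hle : l₁ ≤ 2 * p * e' - 1) (he' : 1 ≤ e') :
    ∃ δ : ℕ, (δ = 0 ∨ δ = 2) ∧ ¬ p ∣ l₁ + δ ∧ l₁ + δ ≤ 2 * p * e' - 1 := by
  have hp3 : 3 ≤ p := by
    have := hp.two_le
    omega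
  by_cases hdvd : p ∣ l₁
  · refine ⟨2, Or.inr rfl, ?_, ?_⟩
    · intro h
      have h2 : p ∣ 2 := (Nat.dvd_add_right hdvd).1 h
      have := Nat.le_of_dvd (by norm_num) h2
      omega
    · obtain ⟨k, rfl⟩ := hdvd
      -- `p k ≤ 2 p e' - 1 < 2 p e'` ⟹ `k < 2 e'` ⟹ `p k + p ≤ 2 p e'`
      have hpos : 0 < 2 * p * e' := by positivity
      have hk : k < 2 * e' := by
        by_contra hk
        push Not at hk
        have : p * (2 * e') ≤ p * k := Nat.mul_le_mul_left p hk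
        have h3 : 2 * p * e' = p * (2 * e') := by ring
        omega
      have h4 : p * (k + 1) ≤ p * (2 * e') := Nat.mul_le_mul_left p hk
      have h3 : 2 * p * e' = p * (2 * e') := by ring
      have h5 : p * (k + 1) = p * k + p := by ring
      omega
  · exact ⟨0, Or.inl rfl, by simpa using hdvd, by simpa using hle⟩

/-- `ℓ ≤ 2pe' - 1` ⟹ `(p-1) ℓ < p (2 (p-1) e')` (the bound of `(N1a)` in `M`, `e_M = 2e`,
`e = (p-1) e'`). -/
theorem level_bound {p : ℕ} (hp : 2 ≤ p) {e' l : ℕ} (he' : 1 ≤ e') (hl : l ≤ 2 * p * e' - 1) :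
    (p - 1) * l < p * (2 * ((p - 1) * e')) := by
  have hpos : 0 < 2 * p * e' := by positivity
  have h1 : l < 2 * p * e' := by omega
  have hp1 : 0 < p - 1 := by omega
  calc (p - 1) * l < (p - 1) * (2 * p * e') := Nat.mul_lt_mul_of_pos_left h1 hp1
    _ = p * (2 * ((p - 1) * e')) := by ring

end Arith

end

end Fermat.Agent.ES.T56.TwistLevel14
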