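/-
Programme T (S56), FLAT leg, chapter R′ (variant Q) — helper14.

CORE OF THEOREM R′: the statement for the maximal tame subfield `T` of `Ls = F·T`.

* `twist_tail` : the common end of the twist argument (Q3–Q6): a lift `a'` of `ι a₂` of norm `ν^(2s)`
  with `‖a'/a₂ - 1‖ = ν^ℓ`, `ℓ` odd, `p ∤ ℓ ≤ 2pe' - 1`, `r ≥ 2e' + 2s + 1`, is impossible when `a₂` has
  a `p`-th root in `Ls` (`TwistEmbedStatement` + `conj_level` + `(N1a)` in `M = T(√λ)`).
* `tower_numerics`, `exists_e'`, `exists_iota` : numerics of a tame tower (`e = e(T) = (p-1)e'`) and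
  the twist `ι` for `c = λ'^r`, `m = (2e+r)/(2e)`.
* `twist_unit_contra` (Q5/Q6) : a unit of `T` of exact level `i < e(T)`, `p ∤ i`, has no `p`-th root
  in `Ls`;  `twist_nonunit_contra` (Q7) : neither has `λ·(unit)`.
* `rT` : **Theorem R′ for `T`**: `a ∈ Tˣ` with a `p`-th root in `Ls = F·T` lies in
  `(1 + p𝒪_T)·T^{×p}` (`p` odd; hypotheses: `TwistEmbedStatement p`, a tame tower `K ⊆ T ⊆ Ls`,
  `ζ_p ∈ T`, `F/ℚ_p` Galois with `(P_m)` for all `m > p/(p-1)`).
-/
import Mathlib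
import Fermat.Agent.PT.LOC.Interface12
import Fermat.Agent.PT.LOC.Structure14
import Fermat.Agent.PT.LOC.StructureNorm14
import Fermat.Agent.PT.LOC.StructureTower27
import Fermat.Agent.PT.LOC.RootsUnity14
import Fermat.Agent.ES.T56.FlatRIface14
import Fermat.Agent.ES.T56.TwistMap14
import Fermat.Agent.ES.T56.TwistQuad14
import Fermat.Agent.ES.T56.TwistLevel14
import Fermat.Agent.ES.T56.TwistEmbedIface14
import Fermat.Agent.ES.T56.TameIface14
import Fermat.Agent.ES.T56.RPrimeAux14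
import Fermat.Agent.ES.T56.UnitLevelLoc4

set_option autoImplicit false
set_option linter.unusedSectionVars false

namespace Fermat.Agent.ES.T56.RPrimeCore14

open scoped Fermat.Agent.PT.LOC.Interface12 Fermat.Agent.PT.LOC.StructureTower27
open Fermat.Agent.PT.LOC.Interface12 Fermat.Agent.PT.LOC.Structure14
  Fermat.Agent.PT.LOC.StructureNorm14 Fermat.Agent.PT.LOC.StructureTower27
  Fermat.Agent.PT.LOC.RootsUnity14 Fermat.Agent.ES.T56.FlatRIface14
  Fermat.Agent.ES.T56.TwistMap14 Fermat.Agent.ES.T56.TwistQuad14 Fermat.Agent.ES.T56.TwistLevel14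
  Fermat.Agent.ES.T56.TwistEmbedIface14 Fermat.Agent.ES.T56.TameIface14
  Fermat.Agent.ES.T56.RPrimeAux14 Polynomial

noncomputable section

variable (p : ℕ) [Fact p.Prime]

/-- The exponent `m = 1 + r/(2e)` of the ideal `𝔞^m`, written as `(2e + r)/(2e)`. -/
def mExp (e r : ℕ) : ℝ := ((2 * e + r : ℕ) : ℝ) / (2 * (e : ℝ))

section Quad

variable (T M : Type) [Field T] [Field M] [Algebra ℚ_[p] T] [Algebra ℚ_[p] M]
  [FiniteDimensional ℚ_[p] T] [FiniteDimensional ℚ_[p] M] [Algebra T M] [IsScalarTower ℚ_[p] T M]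

variable {p T M}

/-- `ν ^ (2 e(T)) = p⁻¹`. -/
theorem nu_pow {lam : T} {lam' : M} (h : IsQuad p T M lam lam') :
    snorm p M lam' ^ (2 * UnitLevelLoc4.ramE p T) = (p : ℝ)⁻¹ := by
  rw [pow_mul, h.nu_sq, ← UnitLevelLoc4.snorm_natCast_eq h.unif, snorm_natCast_q]

/-- `e(M) = 2 e(T)`. -/
theorem ramE_quad {lam : T} {lam' : M} (h : IsQuad p T M lam lam') :
    UnitLevelLoc4.ramE p M = 2 * UnitLevelLoc4.ramE p T := by
  have h1 := UnitLevelLoc4.snorm_natCast_eq h.isUniformizer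
  rw [snorm_natCast_q, ← nu_pow h] at h1
  exact (pow_right_injective₀ h.nu_pos h.nu_lt_one.ne h1).symm

/-- `p ^ (-(k/(2e))) = ν ^ k`. -/
theorem rpow_neg_nu {lam : T} {lam' : M} (h : IsQuad p T M lam lam') (k : ℕ) :
    (p : ℝ) ^ (-((k : ℝ) / (2 * (UnitLevelLoc4.ramE p T : ℝ)))) = snorm p M lam' ^ k :=
  rpow_neg_div h.nu_pos (by have := UnitLevelLoc4.one_le_ramE p T; omega) (nu_pow h) k

theorem rpow_neg_mExp {lam : T} {lam' : M} (h : IsQuad p T M lam lam') (r : ℕ) :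
    (p : ℝ) ^ (-(mExp (UnitLevelLoc4.ramE p T) r)) =
      snorm p M lam' ^ (2 * UnitLevelLoc4.ramE p T + r) :=
  rpow_neg_nu h _

/-- Membership in `𝔞_M^m`, `m = mExp e r`, in terms of `ν`. -/
theorem mem_aIdeal_mExp {lam : T} {lam' : M} (h : IsQuad p T M lam lam') (r : ℕ)
    (x : intRing p M) :
    x ∈ aIdeal p M (mExp (UnitLevelLoc4.ramE p T) r) ↔
      snorm p M (x : M) ≤ snorm p M lam' ^ (2 * UnitLevelLoc4.ramE p T + r) := by
  rw [mem_aIdeal_iff, rpow_neg_mExp h]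

end Quad

/-- The inequality `p/(p-1) < m - t` for `m = (2e+r)/(2e)`, `t = 2s/(2e)`, `e = (p-1)e'`,
`r ≥ 2e' + 2s + 1`. -/
theorem lt_mExp_sub {e e' r s : ℕ} (he' : 1 ≤ e') (hee' : e = (p - 1) * e')
    (hr : 2 * e' + 2 * s + 1 ≤ r) :
    (p : ℝ) / ((p : ℝ) - 1) < mExp e r - ((2 * s : ℕ) : ℝ) / (2 * (e : ℝ)) := by
  have hp1 : 1 ≤ p := (Fact.out : p.Prime).one_lt.le
  have hp2 : 2 ≤ p := (Fact.out : p.Prime).two_le
  have hpR : (0 : ℝ) < (p : ℝ) - 1 := by
    have : (2 : ℝ) ≤ p := by exact_mod_cast hp2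
    linarith
  have heR : (e : ℝ) = ((p : ℝ) - 1) * e' := by
    rw [hee']; push_cast [Nat.cast_sub hp1]; ring
  have he'R : (0 : ℝ) < e' := by exact_mod_cast he'
  have hepos : (0 : ℝ) < 2 * (e : ℝ) := by rw [heR]; positivity
  have key : (p : ℝ) / ((p : ℝ) - 1) = (2 * (e : ℝ) + 2 * e') / (2 * (e : ℝ)) := by
    rw [div_eq_div_iff hpR.ne' hepos.ne', heR]; ring
  rw [key, mExp, ← sub_div]
  apply div_lt_div_of_pos_right _ hepos
  have hrR : (2 * (e' : ℝ) + 2 * s + 1) ≤ r := by exact_mod_cast hr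
  push_cast
  linarith

section Tail

variable (T Ls M F : Type) [Field T] [Field Ls] [Field M] [Field F]
  [Algebra ℚ_[p] T] [Algebra ℚ_[p] Ls] [Algebra ℚ_[p] M] [Algebra ℚ_[p] F]
  [FiniteDimensional ℚ_[p] T] [FiniteDimensional ℚ_[p] Ls] [FiniteDimensional ℚ_[p] M]
  [FiniteDimensional ℚ_[p] F]
  [Algebra T Ls] [Algebra T M] [IsScalarTower ℚ_[p] T Ls] [IsScalarTower ℚ_[p] T M]

variable {p T Ls M F}

/-- **The common end of the twist argument.** -/
theorem twist_tail (hp2 : p ≠ 2) (hTE : TwistEmbedStatement p) [IsGalois ℚ_[p] F]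
    (iF : F →ₐ[ℚ_[p]] Ls)
    (hsup : iF.fieldRange ⊔ (IsScalarTower.toAlgHom ℚ_[p] T Ls).fieldRange = ⊤)
    (hPm : ∀ m : ℝ, (p : ℝ) / ((p : ℝ) - 1) < m → Pm p F m)
    {θ : intRing p Ls} {P : (intRing p T)[X]} {d : ℕ}
    (hpres : IsPres (intRing p T) (intRing p Ls) θ P) (hdeg : P.natDegree = d)
    (hfin : Module.finrank T Ls = d) (hodd : Odd d)
    {lam : T} {lam' : M} (hquad : IsQuad p T M lam lam') (hζ : ∃ ζ : T, IsPrimitiveRoot ζ p)
    {e' : ℕ} (he' : 1 ≤ e') (hee' : UnitLevelLoc4.ramE p T = (p - 1) * e')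
    {r s l : ℕ} (hr : 2 * e' + 2 * s + 1 ≤ r) (hlodd : Odd l) (hlp : ¬ p ∣ l)
    (hlle : l ≤ 2 * p * e' - 1)
    (ι : intRing p T →ₐ[ℤ_[p]] intRing p M ⧸ aIdeal p M (mExp (UnitLevelLoc4.ramE p T) r))
    (a₂ : intRing p T) (y₂ : intRing p Ls)
    (hy : y₂ ^ p = algebraMap (intRing p T) (intRing p Ls) a₂)
    (a' : intRing p M) (ha' : ι a₂ = Ideal.Quotient.mk _ a')
    (hnorm : snorm p M (a' : M) = snorm p M lam' ^ (2 * s))
    (hlev : snorm p M ((a' : M) / algebraMap T M (a₂ : T) - 1) = snorm p M lam' ^ l) :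
    False := by
  have hν0 := hquad.nu_pos
  have hν1 := hquad.nu_lt_one
  have hl1 : 1 ≤ l := by
    obtain ⟨k, rfl⟩ := hlodd; omega
  -- `a₂ ≠ 0`
  have ha₂0 : algebraMap T M (a₂ : T) ≠ 0 := by
    intro h0
    rw [h0, div_zero, zero_sub, snorm_neg, snorm_one] at hlev
    have : snorm p M lam' ^ l < 1 := pow_lt_one₀ hν0.le hν1 (by omega)
    linarith
  -- the real exponents
  have hm := lt_mExp_sub p he' hee' hr
  have hm0 : (p : ℝ) / ((p : ℝ) - 1) < mExp (UnitLevelLoc4.ramE p T) r := by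
    have : (0 : ℝ) ≤ ((2 * s : ℕ) : ℝ) / (2 * (UnitLevelLoc4.ramE p T : ℝ)) := by positivity
    linarith
  have ht : (p : ℝ) ^ (-(((2 * s : ℕ) : ℝ) / (2 * (UnitLevelLoc4.ramE p T : ℝ)))) ≤
      snorm p M (a' : M) := by
    rw [rpow_neg_nu hquad, hnorm]
  -- decomposition of `a'/a₂`
  obtain ⟨b₀, b₁, hb⟩ := hquad.span ((a' : M) / algebraMap T M (a₂ : T))
  have hb' : (a' : M) = algebraMap T M (a₂ : T) *
      (algebraMap T M b₀ + algebraMap T M b₁ * lam') := by
    rw [← hb, mul_div_cancel₀ _ ha₂0]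
  obtain ⟨w, hw⟩ := hTE T Ls M F iF hsup θ P d hpres hdeg hfin hodd lam lam' hquad hζ _ hm0
    (hPm _ hm0) ι a₂ y₂ hy a' ha' ⟨_, ht, hm⟩ b₀ b₁ hb'
  -- the level of the conjugate quotient
  have hx : snorm p M (algebraMap T M (b₀ - 1) + algebraMap T M b₁ * lam') =
      snorm p M lam' ^ l := by
    rw [← hlev, hb, map_sub, map_one]
    congr 1; ring
  obtain ⟨hconj, hq⟩ := hquad.conj_level hp2 (b₀ - 1) b₁ l hlodd hx
  have h1 : (1 : M) + algebraMap T M (b₀ - 1) = algebraMap T M b₀ := by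
    rw [map_sub, map_one]; ring
  rw [h1] at hconj hq
  have hbar0 : algebraMap T M b₀ - algebraMap T M b₁ * lam' ≠ 0 := by
    intro h0
    rw [h0, snorm_zero] at hconj
    exact zero_ne_one hconj
  have hwq : (algebraMap T M b₀ + algebraMap T M b₁ * lam') /
      (algebraMap T M b₀ - algebraMap T M b₁ * lam') = 1 * w ^ p := by
    rw [one_mul, ← hw, mul_div_cancel_right₀ _ hbar0]
  -- `(N1a)` in `M`
  have hi : (p - 1) * l < p * UnitLevelLoc4.ramE p M := by
    rw [ramE_quad hquad, hee']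
    exact level_bound (Fact.out : p.Prime).two_le he' hlle
  refine UnitLevelLoc4.ne_mul_pow_of_snorm hquad.isUniformizer hq hlp hi ?_ hwq
  rw [sub_self, snorm_zero]
  exact pow_pos hν0 l

end Tail

section Tower

variable (K T Ls M F : Type) [Field K] [Field T] [Field Ls] [Field M] [Field F]
  [Algebra ℚ_[p] K] [Algebra ℚ_[p] T] [Algebra ℚ_[p] Ls] [Algebra ℚ_[p] M] [Algebra ℚ_[p] F]
  [FiniteDimensional ℚ_[p] K] [FiniteDimensional ℚ_[p] T] [FiniteDimensional ℚ_[p] Ls]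
  [FiniteDimensional ℚ_[p] M] [FiniteDimensional ℚ_[p] F]
  [Algebra K T] [Algebra T Ls] [Algebra T M]
  [IsScalarTower ℚ_[p] K T] [IsScalarTower ℚ_[p] T Ls] [IsScalarTower ℚ_[p] T M]

variable {p K T Ls M F}

/-- In a tame tower, `‖w‖ = p⁻¹` and the exponent `e` is the absolute ramification index of `T`. -/
theorem tower_numerics {e d : ℕ} {lam : intRing p T} {w : intRing p K} {θ : intRing p Ls}
    {P : (intRing p T)[X]} (htower : IsTameTower p K T Ls e d lam w θ P) :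
    snorm p K (w : K) = (p : ℝ)⁻¹ ∧ e = UnitLevelLoc4.ramE p T := by
  obtain ⟨u, hu⟩ := htower.w_eq
  have hw : snorm p K (w : K) = (p : ℝ)⁻¹ := by
    rw [hu]
    push_cast
    rw [snorm_mul, snorm_natCast_q, UnitLevelLoc4.snorm_unit, mul_one]
  refine ⟨hw, ?_⟩
  have hroot := htower.presT.root
  rw [map_sub, map_pow, aeval_X, aeval_C, sub_eq_zero] at hroot
  have h1 : ((lam : T)) ^ e = algebraMap K T (w : K) := by
    have := congrArg Subtype.val hroot
    simpa using this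
  have h2 : snorm p T (lam : T) ^ e = (p : ℝ)⁻¹ := by
    rw [← snorm_pow, h1, snorm_algebraMap_tower, hw]
  have h3 := UnitLevelLoc4.snorm_natCast_eq htower.lam_unif
  rw [snorm_natCast_q, ← h2] at h3
  exact pow_right_injective₀ (snorm_pos p T htower.lam_unif.2.1)
    (snorm_uniformizer_lt_one p T _ htower.lam_unif).ne h3

/-- If `T` contains a primitive `p`-th root of unity then `e(T) = (p-1) e'`. -/
theorem exists_e' (hζ : ∃ ζ : T, IsPrimitiveRoot ζ p) :
    ∃ e' : ℕ, 1 ≤ e' ∧ UnitLevelLoc4.ramE p T = (p - 1) * e' := by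
  obtain ⟨ζ, hζ⟩ := hζ
  have hp0 : p ≠ 0 := (Fact.out : p.Prime).ne_zero
  have hmem : ζ ∈ intRing p T := mem_intRing_of_pow_eq_one p T hp0 hζ.pow_eq_one
  have hζO : IsPrimitiveRoot (⟨ζ, hmem⟩ : intRing p T) p :=
    IsPrimitiveRoot.coe_submonoidClass_iff.1 hζ
  obtain ⟨e', h1, -, h3⟩ := UnitNormalForm4.addVal_primitiveRoot_sub_one p
    (UnitLevelLoc4.addVal_natCast p T) (UnitLevelLoc4.one_le_ramE p T) hζO
  exact ⟨e', h1, h3⟩

/-- **The twist `ι` for `c = λ'^r`.** -/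
theorem exists_iota {e d : ℕ} {lam : intRing p T} {w : intRing p K} {θ : intRing p Ls}
    {P : (intRing p T)[X]} (htower : IsTameTower p K T Ls e d lam w θ P) {lam' : M}
    (hquad : IsQuad p T M (lam : T) lam') (r : ℕ) :
    ∃ (c : intRing p M)
      (ι : intRing p T →ₐ[ℤ_[p]] intRing p M ⧸ aIdeal p M (mExp (UnitLevelLoc4.ramE p T) r)),
      (c : M) = lam' ^ r ∧
      ι lam = Ideal.Quotient.mk _ (algebraMap (intRing p T) (intRing p M) lam * (1 + c)) ∧
      ∀ x : intRing p T, ∃ γ : intRing p M, ι x = Ideal.Quotient.mk _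
        (algebraMap (intRing p T) (intRing p M) x +
          algebraMap (intRing p T) (intRing p M) lam * c * γ) := by
  obtain ⟨hw, he⟩ := tower_numerics htower
  have hcmem : lam' ^ r ∈ intRing p M := by
    rw [mem_intRing_iff]
    change snorm p M (lam' ^ r) ≤ 1
    rw [snorm_pow]
    exact pow_le_one₀ hquad.nu_pos.le hquad.nu_lt_one.le
  set c : intRing p M := ⟨lam' ^ r, hcmem⟩ with hc
  have hcI : algebraMap (intRing p T) (intRing p M)
      (algebraMap (intRing p K) (intRing p T) w) * c ∈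
      aIdeal p M (mExp (UnitLevelLoc4.ramE p T) r) := by
    rw [mem_aIdeal_mExp hquad]
    have : ((algebraMap (intRing p T) (intRing p M)
        (algebraMap (intRing p K) (intRing p T) w) * c : intRing p M) : M) =
        algebraMap T M (algebraMap K T (w : K)) * lam' ^ r := by
      simp [hc]
    rw [this, snorm_mul, snorm_algebraMap_tower, snorm_algebraMap_tower, hw, snorm_pow,
      ← nu_pow hquad, ← pow_add]
  obtain ⟨ι, hιl, hιx⟩ := exists_twist_algHom p K T M htower.presT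
    (mExp (UnitLevelLoc4.ramE p T) r) c hcI
  exact ⟨c, ι, rfl, hιl, hιx⟩

end Tower

section Contra

variable (K T Ls M F : Type) [Field K] [Field T] [Field Ls] [Field M] [Field F]
  [Algebra ℚ_[p] K] [Algebra ℚ_[p] T] [Algebra ℚ_[p] Ls] [Algebra ℚ_[p] M] [Algebra ℚ_[p] F]
  [FiniteDimensional ℚ_[p] K] [FiniteDimensional ℚ_[p] T] [FiniteDimensional ℚ_[p] Ls]
  [FiniteDimensional ℚ_[p] M] [FiniteDimensional ℚ_[p] F]
  [Algebra K T] [Algebra T Ls] [Algebra T M]
  [IsScalarTower ℚ_[p] K T] [IsScalarTower ℚ_[p] T Ls] [IsScalarTower ℚ_[p] T M]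

variable {p K T Ls M F}

/-- An element of `Ls` whose `p`-th power is (the image of) an integer of `T` is integral. -/
theorem mem_intRing_of_pow {u : T} (hu : u ∈ intRing p T) {y : Ls}
    (hy : y ^ p = algebraMap T Ls u) : y ∈ intRing p Ls := by
  have h1 : algebraMap T Ls u ∈ intRing p Ls := algebraMap_mem_intRing p T Ls hu
  rw [← hy] at h1
  exact IsIntegral.of_pow (Fact.out : p.Prime).pos h1

/-- **Units (Q5/Q6).** A unit `u ∈ T` of exact level `i < e(T)`, `p ∤ i`, has no `p`-th root in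
`Ls`. -/
theorem twist_unit_contra (hp2 : p ≠ 2) (hTE : TwistEmbedStatement p) [IsGalois ℚ_[p] F]
    (iF : F →ₐ[ℚ_[p]] Ls)
    (hsup : iF.fieldRange ⊔ (IsScalarTower.toAlgHom ℚ_[p] T Ls).fieldRange = ⊤)
    (hPm : ∀ m : ℝ, (p : ℝ) / ((p : ℝ) - 1) < m → Pm p F m)
    {e d : ℕ} {lam : intRing p T} {w : intRing p K} {θ : intRing p Ls}
    {P : (intRing p T)[X]} (htower : IsTameTower p K T Ls e d lam w θ P) {lam' : M}
    (hquad : IsQuad p T M (lam : T) lam') (hζ : ∃ ζ : T, IsPrimitiveRoot ζ p)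
    {u : T} {i : ℕ} (hu : snorm p T (u - 1) = snorm p T (lam : T) ^ i) (hpi : ¬ p ∣ i)
    (hie : i < UnitLevelLoc4.ramE p T) (y : Ls) (hy : y ^ p = algebraMap T Ls u) : False := by
  have hp : p.Prime := Fact.out
  obtain ⟨e', he', hee'⟩ := exists_e' hζ
  have hodd_d : Odd d := by
    obtain ⟨s, hs⟩ := htower.d_pow
    rw [hs]; exact (hp.odd_of_ne_two hp2).pow
  have hi1 : 1 ≤ i := by
    by_contra h
    have : i = 0 := by omega
    exact hpi (this ▸ dvd_zero p)
  -- the level `ℓ₁ = 2i + 2e' + 1 ≤ 2pe' - 1`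
  have hpe : 2 * p * e' = 2 * ((p - 1) * e') + 2 * e' := by
    have : p = (p - 1) + 1 := by have := hp.two_le; omega
    conv_lhs => rw [this]
    ring
  have hl₁ : 2 * i + (2 * e' + 1) ≤ 2 * p * e' - 1 := by
    rw [hee'] at hie
    omega
  have hodd₁ : Odd (2 * i + (2 * e' + 1)) := ⟨i + e', by ring⟩
  obtain ⟨δ, hδ, hnd, hle⟩ := choose_level hp hp2 hodd₁ hl₁ he'
  set r : ℕ := 2 * e' + 1 + δ with hr
  have hl_eq : 2 * i + (2 * e' + 1) + δ = 2 * i + r := by rw [hr]; ring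
  rw [hl_eq] at hnd hle
  have hlodd : Odd (2 * i + r) := by
    rcases hδ with h0 | h2
    · rw [hr, h0]; exact ⟨i + e', by ring⟩
    · rw [hr, h2]; exact ⟨i + e' + 1, by ring⟩
  -- the twist
  obtain ⟨c, ι, hc, hιl, hιx⟩ := exists_iota htower hquad r
  have hν0 := hquad.nu_pos
  have hν1 := hquad.nu_lt_one
  have hL0 : (lam : T) ≠ 0 := htower.lam_unif.2.1
  have hLpos : 0 < snorm p T (lam : T) := snorm_pos p T hL0
  -- `u = 1 + λ^i β`
  set β : T := (u - 1) / (lam : T) ^ i with hβdef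
  have hβ : snorm p T β = 1 := by
    rw [hβdef, snorm_div, hu, snorm_pow, div_self (pow_pos hLpos i).ne']
  have hβmem : β ∈ intRing p T := (mem_intRing_iff p T β).2 hβ.le
  have hu_eq : u = 1 + (lam : T) ^ i * β := by
    rw [hβdef]; field_simp; ring
  have humem : u ∈ intRing p T := by
    rw [hu_eq]
    exact add_mem (one_mem _) (mul_mem (pow_mem lam.2 i) hβmem)
  set a₂ : intRing p T := ⟨u, humem⟩ with ha₂
  set βO : intRing p T := ⟨β, hβmem⟩ with hβO
  have ha₂' : a₂ = 1 + lam ^ i * βO := Subtype.ext (by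
    rw [ha₂, hβO]; push_cast; exact hu_eq)
  -- the level formula
  obtain ⟨ρ₁, ρ₂, hρ⟩ := twist_level (B := intRing p T) (B' := intRing p M) lam
    (aIdeal p M (mExp (UnitLevelLoc4.ramE p T) r)) c (ι : intRing p T →+* _) hιl hιx i βO
  obtain ⟨a', ha'⟩ := Ideal.Quotient.mk_surjective (ι a₂)
  have hmem : a' - (algebraMap (intRing p T) (intRing p M) (1 + lam ^ i * βO) +
      algebraMap (intRing p T) (intRing p M) lam ^ i * c *
        ((i : intRing p M) * algebraMap (intRing p T) (intRing p M) βO + c * ρ₁ +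
          algebraMap (intRing p T) (intRing p M) lam * ρ₂)) ∈
      aIdeal p M (mExp (UnitLevelLoc4.ramE p T) r) := by
    rw [← Ideal.Quotient.eq, ha', ha₂']
    exact hρ
  rw [mem_aIdeal_mExp hquad] at hmem
  -- norms in `M`
  have hlevel := level_unit p M hν0 hν1 (L := algebraMap T M (lam : T)) (c := lam' ^ r)
    (β := algebraMap T M β) (ρ₁ := (ρ₁ : M)) (ρ₂ := (ρ₂ : M)) (i := i)
    (e := UnitLevelLoc4.ramE p T) (r := r) (a' := (a' : M))
    (by rw [snorm_algebraMap_tower, hquad.nu_sq]) (by rw [snorm_pow]) (by rw [hr]; omega)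
    (by rw [snorm_algebraMap_tower, hβ]) ((mem_intRing_iff p M _).1 ρ₁.2)
    ((mem_intRing_iff p M _).1 ρ₂.2) (snorm_natCast_eq_one p M hpi) hi1 hie hmem (by
      simp only [hc, hβO, Subalgebra.coe_sub, Subalgebra.coe_add, Subalgebra.coe_mul,
        Subalgebra.coe_pow, Subalgebra.coe_one, coe_algebraMap_intRing, SubringClass.coe_natCast,
        map_add, map_one, map_mul, map_pow]
      ring)
  obtain ⟨-, hnorm, hlev⟩ := hlevel
  have hy₂mem : y ∈ intRing p Ls := mem_intRing_of_pow humem hy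
  refine twist_tail hp2 hTE iF hsup hPm htower.presLs htower.degP htower.finrank_Ls hodd_d hquad hζ
    he' hee' (r := r) (s := 0) (l := 2 * i + r) (by rw [hr]; omega) hlodd hnd hle ι a₂
    ⟨y, hy₂mem⟩ (Subtype.ext (by simpa using hy)) a' ha'.symm (by rw [hnorm]; simp) ?_
  have : algebraMap T M ((a₂ : intRing p T) : T) =
      1 + algebraMap T M (lam : T) ^ i * algebraMap T M β := by
    rw [ha₂]
    change algebraMap T M u = _
    rw [hu_eq, map_add, map_one, map_mul, map_pow]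
  rw [this]
  exact hlev

/-- **Non-units (Q7).** An element `λ·a₁` of `T` (`a₁` a unit) has no `p`-th root in `Ls`. -/
theorem twist_nonunit_contra (hp2 : p ≠ 2) (hTE : TwistEmbedStatement p) [IsGalois ℚ_[p] F]
    (iF : F →ₐ[ℚ_[p]] Ls)
    (hsup : iF.fieldRange ⊔ (IsScalarTower.toAlgHom ℚ_[p] T Ls).fieldRange = ⊤)
    (hPm : ∀ m : ℝ, (p : ℝ) / ((p : ℝ) - 1) < m → Pm p F m)
    {e d : ℕ} {lam : intRing p T} {w : intRing p K} {θ : intRing p Ls}
    {P : (intRing p T)[X]} (htower : IsTameTower p K T Ls e d lam w θ P) {lam' : M}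
    (hquad : IsQuad p T M (lam : T) lam') (hζ : ∃ ζ : T, IsPrimitiveRoot ζ p)
    {a₁ : T} (ha₁ : snorm p T a₁ = 1) (y : Ls)
    (hy : y ^ p = algebraMap T Ls ((lam : T) * a₁)) : False := by
  have hp : p.Prime := Fact.out
  have hp3 : 3 ≤ p := by
    have := hp.two_le
    omega
  obtain ⟨e', he', hee'⟩ := exists_e' hζ
  have hodd_d : Odd d := by
    obtain ⟨s, hs⟩ := htower.d_pow
    rw [hs]; exact (hp.odd_of_ne_two hp2).pow
  -- the level `ℓ₁ = 2e' + 3 ≤ 2pe' - 1`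
  have hpe : 2 * p * e' = 2 * ((p - 1) * e') + 2 * e' := by
    have : p = (p - 1) + 1 := by omega
    conv_lhs => rw [this]
    ring
  have he2 : 2 ≤ (p - 1) * e' := by
    calc 2 = 2 * 1 := rfl
      _ ≤ (p - 1) * e' := Nat.mul_le_mul (by omega) he'
  have hl₁ : 2 * e' + 3 ≤ 2 * p * e' - 1 := by omega
  have hodd₁ : Odd (2 * e' + 3) := ⟨e' + 1, by ring⟩
  obtain ⟨δ, hδ, hnd, hle⟩ := choose_level hp hp2 hodd₁ hl₁ he'
  set r : ℕ := 2 * e' + 3 + δ with hr
  have hlodd : Odd r := by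
    rcases hδ with h0 | h2
    · rw [hr, h0]; exact ⟨e' + 1, by ring⟩
    · rw [hr, h2]; exact ⟨e' + 2, by ring⟩
  -- the twist
  obtain ⟨c, ι, hc, hιl, hιx⟩ := exists_iota htower hquad r
  have hν0 := hquad.nu_pos
  have hν1 := hquad.nu_lt_one
  have ha₁mem : a₁ ∈ intRing p T := (mem_intRing_iff p T a₁).2 ha₁.le
  set a₁O : intRing p T := ⟨a₁, ha₁mem⟩ with ha₁O
  set a₂ : intRing p T := lam * a₁O with ha₂
  obtain ⟨γ, hγ⟩ := hιx a₁O
  obtain ⟨a', ha'⟩ := Ideal.Quotient.mk_surjective (ι a₂)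
  have hmem : a' - (algebraMap (intRing p T) (intRing p M) lam * (1 + c)) *
      (algebraMap (intRing p T) (intRing p M) a₁O +
        algebraMap (intRing p T) (intRing p M) lam * c * γ) ∈
      aIdeal p M (mExp (UnitLevelLoc4.ramE p T) r) := by
    rw [← Ideal.Quotient.eq, ha', ha₂, map_mul, hιl, hγ, ← map_mul]
  rw [mem_aIdeal_mExp hquad] at hmem
  have hlevel := level_nonunit p M hν0 hν1 (L := algebraMap T M (lam : T)) (c := lam' ^ r)
    (a₁ := algebraMap T M a₁) (γ := (γ : M)) (e := UnitLevelLoc4.ramE p T) (r := r)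
    (a' := (a' : M))
    (by rw [snorm_algebraMap_tower, hquad.nu_sq]) (by rw [snorm_pow]) (by rw [hr]; omega)
    (by rw [snorm_algebraMap_tower, ha₁]) ((mem_intRing_iff p M _).1 γ.2)
    (by rw [hee']; exact he2) hmem (by
      simp only [hc, ha₁O, Subalgebra.coe_sub, Subalgebra.coe_add, Subalgebra.coe_mul,
        Subalgebra.coe_one, coe_algebraMap_intRing]
      ring)
  obtain ⟨hnorm, hlev⟩ := hlevel
  have ha₂mem : (lam : T) * a₁ ∈ intRing p T := mul_mem lam.2 ha₁mem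
  have hy₂mem : y ∈ intRing p Ls := mem_intRing_of_pow ha₂mem hy
  refine twist_tail hp2 hTE iF hsup hPm htower.presLs htower.degP htower.finrank_Ls hodd_d hquad hζ
    he' hee' (r := r) (s := 1) (l := r) (by rw [hr]; omega) hlodd hnd hle ι a₂
    ⟨y, hy₂mem⟩ (Subtype.ext (by simpa [ha₂, ha₁O] using hy)) a' ha'.symm (by rw [hnorm]) ?_
  have : algebraMap T M ((a₂ : intRing p T) : T) =
      algebraMap T M (lam : T) * algebraMap T M a₁ := by
    rw [ha₂, ha₁O, Subalgebra.coe_mul, map_mul]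
  rw [this]
  exact hlev

end Contra

section Main

variable (K T Ls F : Type) [Field K] [Field T] [Field Ls] [Field F]
  [Algebra ℚ_[p] K] [Algebra ℚ_[p] T] [Algebra ℚ_[p] Ls] [Algebra ℚ_[p] F]
  [FiniteDimensional ℚ_[p] K] [FiniteDimensional ℚ_[p] T] [FiniteDimensional ℚ_[p] Ls]
  [FiniteDimensional ℚ_[p] F]
  [Algebra K T] [Algebra T Ls]
  [IsScalarTower ℚ_[p] K T] [IsScalarTower ℚ_[p] T Ls]

variable {p K T Ls F}

/-- **Theorem R′ for the maximal tame subfield `T` of `Ls = F·T`** (`p` odd): an element of `Tˣ` with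
a `p`-th root in `Ls` lies in `(1 + p𝒪_T)·T^{×p}`. -/
theorem rT (hp2 : p ≠ 2) (hTE : TwistEmbedStatement p) [IsGalois ℚ_[p] F]
    (iF : F →ₐ[ℚ_[p]] Ls)
    (hsup : iF.fieldRange ⊔ (IsScalarTower.toAlgHom ℚ_[p] T Ls).fieldRange = ⊤)
    (hPm : ∀ m : ℝ, (p : ℝ) / ((p : ℝ) - 1) < m → Pm p F m)
    {e d : ℕ} {lam : intRing p T} {w : intRing p K} {θ : intRing p Ls}
    {P : (intRing p T)[X]} (htower : IsTameTower p K T Ls e d lam w θ P)
    (hζ : ∃ ζ : T, IsPrimitiveRoot ζ p)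
    (a : Tˣ) (y : Ls) (hy : y ^ p = algebraMap T Ls (a : T)) :
    ∃ u b : Tˣ, a = u * b ^ p ∧ IsOneModP p T (u : T) := by
  have hp : p.Prime := Fact.out
  obtain ⟨M, _, _, _, _, _, lam', hquad⟩ := exists_isQuad p T htower.lam_unif
  by_cases hdvd : (p : ℤ) ∣ ord p T a
  · rcases UnitLevelLoc4.exists_normal_form_loc htower.lam_unif a hdvd with
      h | ⟨u, b, i, hab, hpi, hie, hu⟩
    · exact h
    · exfalso
      have hb0 : algebraMap T Ls (b : T) ≠ 0 := by
        rw [Ne, map_eq_zero]; exact b.ne_zero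
      refine twist_unit_contra hp2 hTE iF hsup hPm htower hquad hζ hu hpi hie
        (y / algebraMap T Ls (b : T)) ?_
      rw [div_pow, hy, ← map_pow, ← map_div₀]
      congr 1
      rw [hab, Units.val_mul, Units.val_pow_eq_pow_val,
        mul_div_cancel_right₀ _ (pow_ne_zero p b.ne_zero)]
  · exfalso
    have hcop : IsCoprime (p : ℤ) (ord p T a) :=
      (Prime.coprime_iff_not_dvd (Nat.prime_iff_prime_int.1 hp)).2 hdvd
    obtain ⟨x, k, hxk⟩ := hcop
    have hL0 : (lam : T) ≠ 0 := htower.lam_unif.2.1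
    set ϖ : Tˣ := Units.mk0 (lam : T) hL0 with hϖ
    have hϖord : ord p T ϖ = 1 :=
      (isUniformizer_iff_ord p T ϖ).1 (by rw [hϖ, Units.val_mk0]; exact htower.lam_unif)
    -- `a₁ = a^k ϖ^(xp - 1)` is a unit
    set a₁ : Tˣ := a ^ k * ϖ ^ (x * p - 1) with ha₁
    have ha₁ord : ord p T a₁ = 0 := by
      rw [ha₁, ord_mul, ord_zpow, ord_zpow, hϖord]
      linarith
    have ha₁n : snorm p T (a₁ : T) = 1 :=
      (mem_unitGroup_iff_snorm p T a₁).1 ((mem_unitGroup_iff_ord p T a₁).2 ha₁ord)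
    have hLs0 : algebraMap T Ls (lam : T) ≠ 0 := by
      rw [Ne, map_eq_zero]; exact hL0
    have hy0 : y ≠ 0 := by
      rintro rfl
      rw [zero_pow hp.ne_zero] at hy
      exact (by rw [Ne, map_eq_zero]; exact a.ne_zero : algebraMap T Ls (a : T) ≠ 0) hy.symm
    refine twist_nonunit_contra hp2 hTE iF hsup hPm htower hquad hζ ha₁n
      (y ^ k * algebraMap T Ls (lam : T) ^ x) ?_
    have h1 : (lam : T) * (a₁ : T) = (a : T) ^ k * (lam : T) ^ (x * p) := by
      rw [ha₁, Units.val_mul, Units.val_zpow_eq_zpow_val, Units.val_zpow_eq_zpow_val, hϖ,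
        Units.val_mk0, zpow_sub₀ hL0, zpow_one]
      field_simp
    rw [h1, map_mul, map_zpow₀, map_zpow₀, mul_pow, ← hy, ← zpow_natCast (y ^ k) p,
      ← zpow_natCast (algebraMap T Ls (lam : T) ^ x) p, ← zpow_mul, ← zpow_mul,
      ← zpow_natCast (y) p, ← zpow_mul, mul_comm k (p : ℤ)]

end Main

end

end Fermat.Agent.ES.T56.RPrimeCore14
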