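/-
Programme T (S56), FLAT leg, chapter R′ (variant Q) — helper14.

**THEOREM R′** (`FlatRIface14.RPrimeStatement p`, `p` odd), assembled from

* `TameIface14.TameStructureStatement p` (helper8: the tame tower `K ⊆ T ⊆ Ls`, `L₀ ⊆ T`),
* `TwistEmbedIface14.TwistEmbedStatement p` (helper5: the field-theoretic half of variant Q),
* `RPrimeCore14.rT` (Theorem R′ for `T`), `RPrimeDescent14.descent` (from `T` down to `L₀`).
-/
import Mathlib
import Fermat.Agent.ES.T56.RPrimeCore14
import Fermat.Agent.ES.T56.RPrimeDescent14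

set_option autoImplicit false
set_option linter.unusedSectionVars false

namespace Fermat.Agent.ES.T56.RPrime14

open scoped Fermat.Agent.PT.LOC.Interface12 Fermat.Agent.PT.LOC.StructureTower27
open Fermat.Agent.PT.LOC.Interface12 Fermat.Agent.PT.LOC.Structure14
  Fermat.Agent.PT.LOC.StructureNorm14 Fermat.Agent.PT.LOC.StructureTower27
  Fermat.Agent.ES.T56.FlatRIface14 Fermat.Agent.ES.T56.TwistEmbedIface14
  Fermat.Agent.ES.T56.TameIface14 Fermat.Agent.ES.T56.RPrimeCore14
  Fermat.Agent.ES.T56.RPrimeDescent14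

noncomputable section

variable (p : ℕ) [Fact p.Prime]

/-- **Theorem R′** for odd `p`. -/
theorem rPrime (hp2 : p ≠ 2) (hTS : TameStructureStatement p) (hTE : TwistEmbedStatement p) :
    RPrimeStatement p := by
  intro F _ _ _ _ hPm L₀ _ _ _ htame hζ Ls _ _ _ iF i0 hsup a y hy
  -- the image of `L₀` in `Ls`
  set φ : L₀ ≃ₐ[ℚ_[p]] i0.fieldRange := AlgEquiv.ofInjectiveField i0 with hφ
  have htame' : ¬ (p : ℤ) ∣ ramIdxZ p i0.fieldRange := by
    rw [← ramIdxZ_algEquiv p φ]; exact htame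
  obtain ⟨K, T, h, hL₀T, e, d, lam, w, θ, P, htower⟩ := hTS Ls i0.fieldRange htame'
  let _ : Algebra K T := inclAlg h
  have : IsScalarTower ℚ_[p] K T := inclTower h
  -- `T` as an `L₀`-algebra
  set j : L₀ →ₐ[ℚ_[p]] T := (IntermediateField.inclusion hL₀T).comp φ.toAlgHom with hj
  let _ : Algebra L₀ T := j.toRingHom.toAlgebra
  have : IsScalarTower ℚ_[p] L₀ T := IsScalarTower.of_algebraMap_eq (fun x => (j.commutes x).symm)
  have hjval : ∀ x : L₀, ((algebraMap L₀ T x : T) : Ls) = i0 x := fun x => rfl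
  -- `Ls = F·T`
  have hT : (IsScalarTower.toAlgHom ℚ_[p] T Ls).fieldRange = T := by
    ext x
    constructor
    · rintro ⟨t, rfl⟩
      exact t.2
    · intro hx
      exact ⟨⟨x, hx⟩, rfl⟩
  have hsup' : iF.fieldRange ⊔ (IsScalarTower.toAlgHom ℚ_[p] T Ls).fieldRange = ⊤ := by
    rw [hT]
    apply top_le_iff.1
    rw [← hsup]
    exact sup_le_sup_left hL₀T _
  -- `ζ_p ∈ T`
  have hζT : ∃ ζ : T, IsPrimitiveRoot ζ p := by
    obtain ⟨ζ₀, hζ₀⟩ := hζ
    exact ⟨algebraMap L₀ T ζ₀, hζ₀.map_of_injective (algebraMap L₀ T).injective⟩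
  -- Theorem R′ for `T`
  set aT : Tˣ := Units.map (algebraMap L₀ T : L₀ →* T) a with haT
  have hyT : y ^ p = algebraMap T Ls (aT : T) := by
    rw [hy]
    exact (hjval (a : L₀)).symm
  obtain ⟨u, b, hab, hu⟩ := rT hp2 hTE iF hsup' hPm htower hζT aT y hyT
  -- `T` is tamely ramified
  have hTtame : ¬ (p : ℤ) ∣ ramIdxZ p T := by
    obtain ⟨-, he⟩ := tower_numerics htower
    rw [← UnitLevelLoc4.ramE_cast, ← he]
    exact fun hd => htower.e_ndvd (Int.natCast_dvd_natCast.1 hd)
  -- descent to `L₀`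
  refine descent hTtame a u b ?_ hu
  have := congrArg Units.val hab
  rw [Units.val_mul, Units.val_pow_eq_pow_val] at this
  rw [← this]
  rfl

end

end Fermat.Agent.ES.T56.RPrime14
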