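/-
Programme T (S56, Taylor–Wiles primes), FLAT leg, chapter R′, VARIANT Q — helper5.

THE GALOIS LEMMA `TwistGalois` (T56_FLAT14_Q.md, step Q4; pure field theory).

`T ⊂ E` a finite extension, `N`, `M` intermediate fields with `N/T` Galois, `M = T(μ)`, `μ² ∈ T`,
`μ ∉ N`, `N ⊔ M = E`, all `p`-th roots of unity of `E` lie in `T`; `σ ∈ Gal(M/T)` with `σ μ = -μ`.
If `b ∈ Mˣ` is a `p`-th power in `E`, then `b / σ b` is a `p`-th power in `M`
(`exists_pow_eq_div_conj`).

Proof.  There is an `N`-algebra endomorphism `φ` of `E = N(μ)` with `φ μ = -μ`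
(`exists_algHom_neg`: the minimal polynomial of `μ` over `N` is `X² - μ²` because `μ ∉ N`); it
restricts to `σ` on `M`.  Every `τ ∈ Gal(E/M)` commutes with `φ` (on `N` because `τ N = N` by
normality and `φ` is the identity on `N`; on `μ` both composites give `-μ`).  If `z^p = b` then
`τ z = ζ_τ z` with `ζ_τ^p = 1`, so `ζ_τ ∈ T` is fixed by `φ` and `w := z / φ z` is fixed by
`Gal(E/M)`; `E/M` is Galois (`IsGalois.sup_right`), hence `w ∈ M`, and `w^p = b / σ b`.

Consumer (variant Q): `T` = maximal tame subfield of `Ls`, `N = ψ(Ls)`, `M = L₀′ = T(√λ)`,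
`μ = √λ`, `b = a^ι / a`.
-/
import Mathlib

set_option autoImplicit false

namespace Fermat.Agent.ES.T56.TwistGalois5

open IntermediateField Polynomial

variable {T E : Type*} [Field T] [Field E] [Algebra T E]


/-- If `N ⊔ T(μ) = ⊤` then `N(μ) = ⊤` as an intermediate field of `E/N`. -/
theorem adjoin_top_of_sup (N M : IntermediateField T E) {μ : E} (hM : M = T⟮μ⟯) (hNM : N ⊔ M = ⊤) :
    (adjoin N {μ} : IntermediateField N E) = ⊤ := by
  rw [← restrictScalars_eq_top_iff (K := T), restrictScalars_adjoin, adjoin_union, adjoin_self,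
    ← hM, hNM]

/-- The `N`-algebra endomorphism of `E = N(μ)` with `μ ↦ -μ` (`μ² ∈ T`, `μ ∉ N`). -/
theorem exists_algHom_neg [FiniteDimensional T E] (N M : IntermediateField T E) {μ : E}
    (hM : M = T⟮μ⟯) (hμ2 : μ ^ 2 ∈ (⊥ : IntermediateField T E)) (hμN : μ ∉ N) (hNM : N ⊔ M = ⊤) :
    ∃ φ : E →ₐ[N] E, φ μ = -μ := by
  have hint : IsIntegral N μ := Algebra.IsIntegral.isIntegral μ
  -- μ² = c ∈ N
  obtain ⟨c0, hc0⟩ := IntermediateField.mem_bot.1 hμ2
  let c : N := algebraMap T N c0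
  have hc : (c : E) = μ ^ 2 := by rw [← hc0]; rfl
  -- minimal polynomial
  have hq : aeval μ (X ^ 2 - C c : N[X]) = 0 := by
    simp only [map_sub, map_pow, aeval_X, aeval_C]
    rw [show algebraMap N E c = (c : E) from rfl, hc, sub_self]
  have hqm : (X ^ 2 - C c : N[X]).Monic := monic_X_pow_sub_C c (by norm_num)
  have hdvd : minpoly N μ ∣ (X ^ 2 - C c : N[X]) := minpoly.dvd N μ hq
  have hdeg2 : 2 ≤ (minpoly N μ).natDegree := by
    by_contra h
    push Not at h
    have h1 : (minpoly N μ).natDegree = 1 := by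
      have := minpoly.natDegree_pos hint
      omega
    have := (minpoly.natDegree_eq_one_iff (A := N) (x := μ)).1 h1
    obtain ⟨n, hn⟩ := this
    exact hμN (hn ▸ n.2)
  have hmin : minpoly N μ = X ^ 2 - C c := by
    refine (Polynomial.eq_of_monic_of_dvd_of_natDegree_le (minpoly.monic hint) hqm hdvd ?_).symm
    rw [natDegree_X_pow_sub_C]
    exact hdeg2
  have hroot : -μ ∈ (minpoly N μ).aroots E := by
    rw [mem_aroots]
    refine ⟨minpoly.ne_zero hint, ?_⟩
    rw [hmin]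
    simp only [map_sub, map_pow, aeval_X, aeval_C]
    rw [show algebraMap N E c = (c : E) from rfl, hc]
    ring
  let φ₀ : N⟮μ⟯ →ₐ[N] E := (algHomAdjoinIntegralEquiv N hint).symm ⟨-μ, hroot⟩
  have hφ₀ : φ₀ (AdjoinSimple.gen N μ) = -μ :=
    algHomAdjoinIntegralEquiv_symm_apply_gen N hint ⟨-μ, hroot⟩
  have htop : (N⟮μ⟯ : IntermediateField N E) = ⊤ := adjoin_top_of_sup N M hM hNM
  let e : E ≃ₐ[N] N⟮μ⟯ := (IntermediateField.topEquiv.symm).trans (IntermediateField.equivOfEq htop.symm)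
  refine ⟨φ₀.comp e.toAlgHom, ?_⟩
  have : e μ = AdjoinSimple.gen N μ := by
    apply Subtype.ext
    rfl
  show φ₀ (e μ) = -μ
  rw [this, hφ₀]

theorem exists_pow_eq_div_conj [FiniteDimensional T E] (N M : IntermediateField T E) [IsGalois T N]
    {μ : E} (hμM : μ ∈ M) (hM : M = T⟮μ⟯) (hμ2 : μ ^ 2 ∈ (⊥ : IntermediateField T E))
    (hμN : μ ∉ N) (hNM : N ⊔ M = ⊤) {p : ℕ}
    (hζ : ∀ ζ : E, ζ ^ p = 1 → ζ ∈ (⊥ : IntermediateField T E))
    (σ : M ≃ₐ[T] M) (hσ : ((σ ⟨μ, hμM⟩ : M) : E) = -μ) (b : M) (hb : b ≠ 0) (z : E)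
    (hz : z ^ p = (b : E)) : ∃ w : M, w ^ p = b / σ b := by
  rcases Nat.eq_zero_or_pos p with rfl | hp
  · -- `p = 0`: then `b = 1`
    have hb1 : b = 1 := by
      apply Subtype.ext
      rw [← hz, pow_zero]; rfl
    refine ⟨1, ?_⟩
    rw [hb1, map_one, div_one, pow_zero]
  obtain ⟨φ, hφμ⟩ := exists_algHom_neg N M hM hμ2 hμN hNM
  let φT : E →ₐ[T] E := φ.restrictScalars T
  have hφN : ∀ x : E, x ∈ N → φ x = x := fun x hx => φ.commutes ⟨x, hx⟩
  -- `φ` restricted to `M` is `σ`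
  have hφM : ∀ m : M, φ (m : E) = ((σ m : M) : E) := by
    have h12 : φT.comp M.val = M.val.comp (σ : M →ₐ[T] M) := by
      apply algHom_ext_of_eq_adjoin T hM
      intro x hx
      rw [Set.mem_singleton_iff] at hx
      subst hx
      show φ x = ((σ ⟨x, _⟩ : M) : E)
      rw [hφμ, ← hσ]
    intro m
    exact congrArg (fun f : M →ₐ[T] E => f m) h12
  -- `E = T(N, μ)`
  have htop : (⊤ : IntermediateField T E) = adjoin T ((N : Set E) ∪ {μ}) := by
    rw [adjoin_union, adjoin_self, ← hM, hNM]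
  -- every `M`-automorphism of `E` commutes with `φ`
  have hcomm : ∀ (τ : E ≃ₐ[M] E) (x : E), τ (φ x) = φ (τ x) := by
    intro τ
    let τT : E →ₐ[T] E := (τ : E →ₐ[M] E).restrictScalars T
    have hτN : ∀ x : E, x ∈ N → τ x ∈ N := by
      intro x hx
      have h := AlgHom.fieldRange_of_normal (τT.comp N.val)
      have : τ x ∈ (τT.comp N.val).fieldRange := ⟨⟨x, hx⟩, rfl⟩
      rwa [h] at this
    have hτμ : τ μ = μ := τ.commutes ⟨μ, hμM⟩
    have h12 : (τT.comp φT).comp (⊤ : IntermediateField T E).val =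
        (φT.comp τT).comp (⊤ : IntermediateField T E).val := by
      apply algHom_ext_of_eq_adjoin T htop
      intro x hx
      show τ (φ x) = φ (τ x)
      rcases hx with hx | hx
      · rw [hφN x hx, hφN (τ x) (hτN x hx)]
      · rw [Set.mem_singleton_iff] at hx
        subst hx
        rw [hφμ, hτμ, hφμ, map_neg, hτμ]
    intro x
    exact congrArg (fun f : (⊤ : IntermediateField T E) →ₐ[T] E => f ⟨x, mem_top⟩) h12
  -- `E/M` is Galois
  have hgal : IsGalois M E := IsGalois.sup_right N M hNM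
  have hb' : (b : E) ≠ 0 := fun h => hb (Subtype.ext h)
  have hz0 : z ≠ 0 := by
    rintro rfl
    rw [zero_pow hp.ne'] at hz
    exact hb' hz.symm
  have hφz0 : φ z ≠ 0 := (map_ne_zero_iff φ φ.injective).2 hz0
  -- the element `w = z / φ z` is fixed by `Gal(E/M)`
  have hfix : ∀ τ : E ≃ₐ[M] E, τ (z / φ z) = z / φ z := by
    intro τ
    have hτz : (τ z / z) ^ p = 1 := by
      rw [div_pow, ← map_pow, hz]
      have : τ (b : E) = (b : E) := τ.commutes b
      rw [this, div_self hb']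
    obtain ⟨c, hc⟩ := IntermediateField.mem_bot.1 (hζ _ hτz)
    have hτz' : τ z = algebraMap T E c * z := by
      rw [hc, div_mul_cancel₀ _ hz0]
    have hc0 : algebraMap T E c ≠ 0 := by
      intro h
      rw [h, zero_mul] at hτz'
      exact hz0 ((map_eq_zero_iff τ τ.injective).1 hτz')
    rw [map_div₀, hcomm τ z, hτz', map_mul]
    have : φ (algebraMap T E c) = algebraMap T E c := φT.commutes c
    rw [this, mul_div_mul_left _ _ hc0]
  obtain ⟨m, hm⟩ := (IsGalois.mem_range_algebraMap_iff_fixed (F := M) (E := E) (z / φ z)).2 hfix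
  refine ⟨m, ?_⟩
  apply Subtype.ext
  have hm' : (m : E) = z / φ z := hm
  have hσb : ((σ b : M) : E) = φ (b : E) := (hφM b).symm
  show ((m ^ p : M) : E) = ((b / σ b : M) : E)
  rw [IntermediateField.coe_pow, IntermediateField.coe_div, hm', div_pow, hz, hσb, ← hz, map_pow]

end Fermat.Agent.ES.T56.TwistGalois5
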