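/-
Programme T (S56, Taylor–Wiles primes), FLAT leg, chapter R′, VARIANT Q — helper5.

PURE FIELD THEORY for the brick `TwistEmbed` (T56_FLAT14_Q.md, steps Q2–Q4); no `p`-adic model here.

* `fieldRange_eq_of_normal` : two `K`-embeddings of a normal extension `F/K` into the same field have
  the same image.
* `exists_algHom_of_sup` : if `Ls = F·T` with `F/K` normal, a `K`-embedding `F → E` into a field
  extension `E/T` produces a `T`-embedding `Ls → E` (through `AlgebraicClosure E`).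
* `isGalois_of_sup` : if `Ls = F·T` with `F/K` finite Galois then `Ls/T` is Galois.
* `finrank_adjoin_sqrt` : `μ² ∈ T`, `μ ∉ T` ⟹ `[T(μ) : T] = 2`.
* `finrank_eq_two`, `exists_conj` : `[M : T] = 2` and the conjugation `μ ↦ -μ` for `M = T ⊕ Tμ`.
* `exists_pow_mul_conj` : **the core**: `Ls/T` Galois of odd degree `d`, `M = T ⊕ Tμ` quadratic, both
  embedded over `T` in `E` with `[E : T] ≤ 2d`, `ζ_p ∈ T`; if `β = b₀ + b₁μ` becomes a `p`-th power in
  `E` then `β/β̄ = w^p` with `w ∈ M` (degree count ⟹ `E = ψ(Ls)·M`, `μ ∉ ψ(Ls)`; then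
  `TwistGalois5.exists_pow_eq_div_conj`).
-/
import Mathlib
import Fermat.Agent.ES.T56.TwistGalois5

set_option autoImplicit false

namespace Fermat.Agent.ES.T56.TwistField5

open IntermediateField Polynomial Fermat.Agent.ES.T56.TwistGalois5

section Normal

/-- Two embeddings of a normal extension have the same image. -/
theorem fieldRange_eq_of_normal {K F Ω : Type*} [Field K] [Field F] [Field Ω] [Algebra K F]
    [Algebra K Ω] [Normal K F] (f g : F →ₐ[K] Ω) : f.fieldRange = g.fieldRange := by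
  let e : F ≃ₐ[K] g.fieldRange := AlgEquiv.ofInjectiveField g
  have : Normal K g.fieldRange := Normal.of_algEquiv e
  have h := AlgHom.fieldRange_of_normal (E := g.fieldRange) (f.comp e.symm.toAlgHom)
  rw [← h]
  ext x
  constructor
  · rintro ⟨y, rfl⟩
    exact ⟨e y, by simp⟩
  · rintro ⟨y, rfl⟩
    exact ⟨e.symm y, rfl⟩

end Normal

section Embed

variable {K T Ls F E : Type*} [Field K] [Field T] [Field Ls] [Field F] [Field E]
  [Algebra K T] [Algebra K Ls] [Algebra K F] [Algebra K E] [Algebra T Ls] [Algebra T E]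
  [IsScalarTower K T Ls] [IsScalarTower K T E]

/-- `Ls = F·T` with `F/K` normal: a `K`-embedding `F → E` into a `T`-algebra gives a `T`-embedding `Ls → E`. -/
theorem exists_algHom_of_sup [Normal K F] [Algebra.IsAlgebraic T Ls]
    (iF : F →ₐ[K] Ls) (hsup : iF.fieldRange ⊔ (IsScalarTower.toAlgHom K T Ls).fieldRange = ⊤)
    (φ : F →ₐ[K] E) : Nonempty (Ls →ₐ[T] E) := by
  let Ω := AlgebraicClosure E
  let ψ : Ls →ₐ[T] Ω := IsAlgClosed.lift
  let jE : E →ₐ[T] Ω := IsScalarTower.toAlgHom T E Ω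
  let jEK : E →ₐ[K] Ω := IsScalarTower.toAlgHom K E Ω
  let ψK : Ls →ₐ[K] Ω := ψ.restrictScalars K
  have hrange : (ψK.comp iF).fieldRange = (jEK.comp φ).fieldRange := fieldRange_eq_of_normal _ _
  have h1 : iF.fieldRange ≤ IntermediateField.comap ψK jEK.fieldRange := by
    rintro _ ⟨x, rfl⟩
    show ψK (iF x) ∈ jEK.fieldRange
    have : ψK (iF x) ∈ (ψK.comp iF).fieldRange := ⟨x, rfl⟩
    rw [hrange] at this
    obtain ⟨y, hy⟩ := this
    exact ⟨φ y, hy⟩
  have h2 : (IsScalarTower.toAlgHom K T Ls).fieldRange ≤ IntermediateField.comap ψK jEK.fieldRange := by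
    rintro _ ⟨t, rfl⟩
    show ψK (algebraMap T Ls t) ∈ jEK.fieldRange
    refine ⟨algebraMap T E t, ?_⟩
    show algebraMap E Ω (algebraMap T E t) = ψ (algebraMap T Ls t)
    rw [ψ.commutes, ← IsScalarTower.algebraMap_apply]
  have h3 : ∀ x : Ls, ψ x ∈ jE.fieldRange := by
    intro x
    have : x ∈ IntermediateField.comap ψK jEK.fieldRange := by
      have := sup_le h1 h2
      rw [hsup] at this
      exact this mem_top
    obtain ⟨y, hy⟩ := this
    exact ⟨y, hy⟩
  have hle : ψ.fieldRange ≤ jE.fieldRange := by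
    rintro _ ⟨x, rfl⟩
    exact h3 x
  exact ⟨((AlgEquiv.ofInjectiveField jE).symm.toAlgHom.comp
    (IntermediateField.inclusion hle)).comp (AlgEquiv.ofInjectiveField ψ).toAlgHom⟩

/-- `Ls = F·T` with `F/K` finite Galois: `Ls/T` is Galois. -/
theorem isGalois_of_sup [IsGalois K F] [FiniteDimensional K F]
    (iF : F →ₐ[K] Ls) (hsup : iF.fieldRange ⊔ (IsScalarTower.toAlgHom K T Ls).fieldRange = ⊤) :
    IsGalois T Ls := by
  let e : F ≃ₐ[K] iF.fieldRange := AlgEquiv.ofInjectiveField iF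
  have : IsGalois K iF.fieldRange := IsGalois.of_algEquiv e
  have : FiniteDimensional K iF.fieldRange := e.toLinearEquiv.finiteDimensional
  have hgal : IsGalois (IsScalarTower.toAlgHom K T Ls).fieldRange Ls :=
    IsGalois.sup_right iF.fieldRange _ hsup
  let f : T ≃ₐ[K] (IsScalarTower.toAlgHom K T Ls).fieldRange :=
    AlgEquiv.ofInjectiveField (IsScalarTower.toAlgHom K T Ls)
  refine IsGalois.of_equiv_equiv (F := (IsScalarTower.toAlgHom K T Ls).fieldRange) (E := Ls)
    (f := f.symm.toRingEquiv) (g := RingEquiv.refl Ls) ?_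
  ext x
  show algebraMap T Ls (f.symm x) = x
  have : (f (f.symm x) : Ls) = algebraMap T Ls (f.symm x) := rfl
  rw [← this, f.apply_symm_apply]

end Embed

section Quad

variable {T E : Type*} [Field T] [Field E] [Algebra T E]

/-- `μ² ∈ T`, `μ ∉ T` ⟹ `[T(μ) : T] = 2`. -/
theorem finrank_adjoin_sqrt {μ : E} (hμ2 : μ ^ 2 ∈ (⊥ : IntermediateField T E))
    (hμ : μ ∉ (⊥ : IntermediateField T E)) : Module.finrank T T⟮μ⟯ = 2 := by
  obtain ⟨c, hc⟩ := IntermediateField.mem_bot.1 hμ2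
  have hq : aeval μ (X ^ 2 - C c : T[X]) = 0 := by
    simp only [map_sub, map_pow, aeval_X, aeval_C]
    rw [hc, sub_self]
  have hqm : (X ^ 2 - C c : T[X]).Monic := monic_X_pow_sub_C c (by norm_num)
  have hint : IsIntegral T μ := ⟨_, hqm, hq⟩
  rw [IntermediateField.adjoin.finrank hint]
  have hdvd := minpoly.dvd T μ hq
  have hle : (minpoly T μ).natDegree ≤ 2 := by
    have := natDegree_le_of_dvd hdvd hqm.ne_zero
    rwa [natDegree_X_pow_sub_C] at this
  have hge : 2 ≤ (minpoly T μ).natDegree := by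
    by_contra h
    push Not at h
    have h1 : (minpoly T μ).natDegree = 1 := by
      have := minpoly.natDegree_pos hint
      omega
    obtain ⟨n, hn⟩ := (minpoly.natDegree_eq_one_iff (A := T) (x := μ)).1 h1
    exact hμ (IntermediateField.mem_bot.2 ⟨n, hn⟩)
  omega

/-- `M = T + Tμ` ⟹ `T(μ) = M`. -/
theorem adjoin_eq_top_of_span {M : Type*} [Field M] [Algebra T M] {μ : M}
    (hspan : ∀ x : M, ∃ x₀ x₁ : T, x = algebraMap T M x₀ + algebraMap T M x₁ * μ) :
    (⊤ : IntermediateField T M) = T⟮μ⟯ := by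
  refine le_antisymm ?_ le_top
  intro x _
  obtain ⟨x₀, x₁, rfl⟩ := hspan x
  exact add_mem (IntermediateField.algebraMap_mem _ _)
    (mul_mem (IntermediateField.algebraMap_mem _ _) (mem_adjoin_simple_self T μ))

/-- `M = T ⊕ Tμ`, `μ² ∈ T`, `μ ∉ T` ⟹ `[M : T] = 2`. -/
theorem finrank_eq_two {M : Type*} [Field M] [Algebra T M] {μ : M} {c : T}
    (hμ2 : μ ^ 2 = algebraMap T M c) (hμ : μ ∉ (algebraMap T M).range)
    (hspan : ∀ x : M, ∃ x₀ x₁ : T, x = algebraMap T M x₀ + algebraMap T M x₁ * μ) :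
    Module.finrank T M = 2 := by
  have hμ2' : μ ^ 2 ∈ (⊥ : IntermediateField T M) := IntermediateField.mem_bot.2 ⟨c, hμ2.symm⟩
  have hμbot : μ ∉ (⊥ : IntermediateField T M) := fun h => by
    obtain ⟨t, ht⟩ := IntermediateField.mem_bot.1 h
    exact hμ ⟨t, ht⟩
  rw [← IntermediateField.finrank_top', adjoin_eq_top_of_span hspan]
  exact finrank_adjoin_sqrt hμ2' hμbot

/-- The conjugation of `M = T ⊕ Tμ`, `μ² ∈ T`, `μ ∉ T`. -/
theorem exists_conj {M : Type*} [Field M] [Algebra T M] {μ : M} {c : T}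
    (hμ2 : μ ^ 2 = algebraMap T M c) (hμ : μ ∉ (algebraMap T M).range)
    (hspan : ∀ x : M, ∃ x₀ x₁ : T, x = algebraMap T M x₀ + algebraMap T M x₁ * μ) :
    ∃ σ : M ≃ₐ[T] M, σ μ = -μ := by
  have hμ2' : μ ^ 2 ∈ (⊥ : IntermediateField T M) := IntermediateField.mem_bot.2 ⟨c, hμ2.symm⟩
  have hμbot : μ ∉ (⊥ : IntermediateField T M) := fun h => by
    obtain ⟨t, ht⟩ := IntermediateField.mem_bot.1 h
    exact hμ ⟨t, ht⟩
  have htop : (⊤ : IntermediateField T M) = T⟮μ⟯ := adjoin_eq_top_of_span hspan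
  have hq : aeval μ (X ^ 2 - C c : T[X]) = 0 := by
    simp only [map_sub, map_pow, aeval_X, aeval_C]
    rw [hμ2, sub_self]
  have hint : IsIntegral T μ := ⟨_, monic_X_pow_sub_C c (by norm_num), hq⟩
  have hfd1 : FiniteDimensional T (⊤ : IntermediateField T M) := by
    rw [htop]; exact adjoin.finiteDimensional hint
  have hfd : FiniteDimensional T M :=
    (IntermediateField.topEquiv (F := T) (E := M)).toLinearEquiv.finiteDimensional
  obtain ⟨φ, hφ⟩ := exists_algHom_neg (⊥ : IntermediateField T M) ⊤ htop hμ2' hμbot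
    (by rw [bot_sup_eq])
  let φT : M →ₐ[T] M := φ.restrictScalars T
  exact ⟨AlgEquiv.ofBijective φT (AlgHom.bijective φT), hφ⟩

end Quad

section Main

/-- **The field-theoretic core of variant Q.**  `Ls/T` Galois of odd degree `d`, `M = T ⊕ Tμ`
quadratic, both embedded in `E` with `[E : T] ≤ 2d`, `ζ_p ∈ T`.  If `β = b₀ + b₁ μ ∈ M` becomes a
`p`-th power in `E`, then `β / β̄` is a `p`-th power in `M`. -/
theorem exists_pow_mul_conj {T E Ls M : Type*} [Field T] [Field E] [Field Ls] [Field M]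
    [Algebra T E] [Algebra T Ls] [Algebra T M] [FiniteDimensional T E] [IsGalois T Ls]
    (ψ : Ls →ₐ[T] E) (j : M →ₐ[T] E) {d : ℕ} (hd : Module.finrank T Ls = d) (hodd : Odd d)
    (hE : Module.finrank T E ≤ 2 * d)
    {μ : M} {c : T} (hμ2 : μ ^ 2 = algebraMap T M c) (hμ : μ ∉ (algebraMap T M).range)
    (hspan : ∀ x : M, ∃ x₀ x₁ : T, x = algebraMap T M x₀ + algebraMap T M x₁ * μ)
    {p : ℕ} (hp : 0 < p) {ζ : T} (hζ : IsPrimitiveRoot ζ p)
    (b₀ b₁ : T) (hb : algebraMap T M b₀ + algebraMap T M b₁ * μ ≠ 0)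
    (z : E) (hz : z ^ p = j (algebraMap T M b₀ + algebraMap T M b₁ * μ)) :
    ∃ w : M, w ^ p * (algebraMap T M b₀ - algebraMap T M b₁ * μ) =
      algebraMap T M b₀ + algebraMap T M b₁ * μ := by
  have : NeZero p := ⟨hp.ne'⟩
  set N : IntermediateField T E := ψ.fieldRange with hN
  set M' : IntermediateField T E := j.fieldRange with hM'def
  set μ' : E := j μ with hμ'
  let eN : Ls ≃ₐ[T] N := AlgEquiv.ofInjectiveField ψ
  let e : M ≃ₐ[T] M' := AlgEquiv.ofInjectiveField j
  have he : ∀ x : M, ((e x : M') : E) = j x := fun _ => rfl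
  have hgalN : IsGalois T N := IsGalois.of_algEquiv eN
  have hfrN : Module.finrank T N = d := by
    rw [← hd]; exact eN.toLinearEquiv.finrank_eq.symm
  have hμM' : μ' ∈ M' := ⟨μ, rfl⟩
  have hM' : M' = T⟮μ'⟯ := by
    refine le_antisymm ?_ (adjoin_simple_le_iff.2 hμM')
    rintro _ ⟨x, rfl⟩
    obtain ⟨x₀, x₁, rfl⟩ := hspan x
    have : j (algebraMap T M x₀ + algebraMap T M x₁ * μ) =
        algebraMap T E x₀ + algebraMap T E x₁ * μ' := by
      rw [map_add, map_mul, AlgHom.commutes, AlgHom.commutes]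
    show j (algebraMap T M x₀ + algebraMap T M x₁ * μ) ∈ T⟮μ'⟯
    rw [this]
    exact add_mem (IntermediateField.algebraMap_mem _ _)
      (mul_mem (IntermediateField.algebraMap_mem _ _) (mem_adjoin_simple_self T μ'))
  have hμ'2 : μ' ^ 2 ∈ (⊥ : IntermediateField T E) :=
    IntermediateField.mem_bot.2 ⟨c, by rw [hμ', ← map_pow, hμ2, AlgHom.commutes]⟩
  have hμ'bot : μ' ∉ (⊥ : IntermediateField T E) := by
    intro h
    obtain ⟨t, ht⟩ := IntermediateField.mem_bot.1 h
    exact hμ ⟨t, j.injective (by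
      show j (algebraMap T M t) = j μ
      rw [AlgHom.commutes, ht])⟩
  have hfr2 : Module.finrank T T⟮μ'⟯ = 2 := finrank_adjoin_sqrt hμ'2 hμ'bot
  have hfrM' : Module.finrank T M' = 2 := by rw [hM']; exact hfr2
  have hμ'N : μ' ∉ N := by
    intro h
    have hle : T⟮μ'⟯ ≤ N := adjoin_simple_le_iff.2 h
    have h2 := finrank_dvd_of_le_right hle
    rw [hfr2, hfrN] at h2
    exact (Nat.not_even_iff_odd.2 hodd) (even_iff_two_dvd.2 h2)
  have hNM : N ⊔ M' = ⊤ := by
    have h1 : d ∣ Module.finrank T ↥(N ⊔ M') := by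
      rw [← hfrN]; exact finrank_dvd_of_le_right le_sup_left
    have h2 : 2 ∣ Module.finrank T ↥(N ⊔ M') := by
      rw [← hfrM']; exact finrank_dvd_of_le_right le_sup_right
    have hcop : Nat.Coprime 2 d := Nat.coprime_two_left.2 hodd
    have h3 : 2 * d ∣ Module.finrank T ↥(N ⊔ M') := hcop.mul_dvd_of_dvd_of_dvd h2 h1
    have hpos : 0 < Module.finrank T ↥(N ⊔ M') := Module.finrank_pos
    have h4 : Module.finrank T E ≤ Module.finrank T ↥(N ⊔ M') :=
      hE.trans (Nat.le_of_dvd hpos h3)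
    refine IntermediateField.eq_of_le_of_finrank_le le_top ?_
    rw [IntermediateField.finrank_top']
    exact h4
  have hζE : ∀ ζ' : E, ζ' ^ p = 1 → ζ' ∈ (⊥ : IntermediateField T E) := by
    intro ζ' h
    have hζ' : IsPrimitiveRoot (algebraMap T E ζ) p :=
      hζ.map_of_injective (algebraMap T E).injective
    obtain ⟨i, -, hi⟩ := hζ'.eq_pow_of_pow_eq_one h
    exact IntermediateField.mem_bot.2 ⟨ζ ^ i, by rw [map_pow, hi]⟩
  obtain ⟨σ, hσ⟩ := exists_conj hμ2 hμ hspan
  let σ' : M' ≃ₐ[T] M' := e.symm.trans (σ.trans e)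
  have hσ'e : ∀ x : M, σ' (e x) = e (σ x) := fun x => by
    show e (σ (e.symm (e x))) = e (σ x)
    rw [e.symm_apply_apply]
  have hμe : (⟨μ', hμM'⟩ : M') = e μ := Subtype.ext rfl
  have hσ' : ((σ' ⟨μ', hμM'⟩ : M') : E) = -μ' := by
    rw [hμe, hσ'e, hσ, he, map_neg]
  set β : M := algebraMap T M b₀ + algebraMap T M b₁ * μ with hβ
  set β' : M := algebraMap T M b₀ - algebraMap T M b₁ * μ with hβ'
  have hσβ : σ β = β' := by
    rw [hβ, hβ', map_add, map_mul, AlgEquiv.commutes, AlgEquiv.commutes, hσ]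
    ring
  have hb' : e β ≠ 0 := (map_ne_zero_iff e e.injective).2 hb
  obtain ⟨w, hw⟩ := exists_pow_eq_div_conj N M' hμM' hM' hμ'2 hμ'N hNM hζE σ' hσ' (e β) hb' z
    (by rw [he]; exact hz)
  have hσb : σ' (e β) ≠ 0 := (map_ne_zero_iff σ' σ'.injective).2 hb'
  refine ⟨e.symm w, ?_⟩
  apply e.injective
  rw [map_mul, map_pow, e.apply_symm_apply, hw, ← hσβ, ← hσ'e, div_mul_cancel₀ _ hσb]

end Main

end Fermat.Agent.ES.T56.TwistField5
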