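/-
Programme T (S56, Taylor–Wiles primes), FLAT leg, chapter R′, VARIANT Q — helper5.

THE BRICK `TwistEmbed` (T56_FLAT14_Q.md, steps Q1 (end), Q2, Q3, Q4): the field-theoretic half of
variant Q of Theorem R′, literal of `TwistEmbedIface14` (helper14):

    theorem twistEmbed (hN2 : N2Statement p) : TwistEmbedStatement p

Proof.  `Q = P^ι` a monic lift of `ι(P)` (`TwistMap14.exists_lift_monic`), `ϑ₀` a root of `Q` in
`AlgebraicClosure M`, `E = M(ϑ₀)` (a model field; `[E : M] ≤ deg Q = d`), `ϑ₀ ∈ 𝒪_E`;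
`η : 𝒪_Ls → 𝒪_E/𝔞_E^m` extending `ι` (`TwistMap14.exists_eta`), `ℤ_p`-linear because `ι` is;
`η ∘ (𝒪_F → 𝒪_Ls)` and `(P_m)` give `φ : F →ₐ[ℚ_p] E`; since `F/ℚ_p` is normal and `Ls = F·T` this
gives `ψ : Ls →ₐ[T] E` (`TwistField5.exists_algHom_of_sup`) and `Ls/T` is Galois
(`TwistField5.isGalois_of_sup`); `ỹ^p ≡ a' mod 𝔞_E^m` (`TwistMap14.pow_sub_mem`) and `(N2)` give
`a' = z^p` in `E`, so `β = a'/a = (z/ψ(y))^p`; `[M : T] = 2`, `[E : T] ≤ 2d`, `d` odd, `ζ_p ∈ T`:
`TwistField5.exists_pow_mul_conj` (degree count + `TwistGalois5`) gives `β/β̄ ∈ M^{×p}`.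

`twistEmbed_core` is the same statement for an arbitrary auxiliary model field `E ⊇ M` with a root
`ϑ ∈ 𝒪_E` of `Q` and `[E : M] ≤ d`.
-/
import Mathlib
import Fermat.Agent.PT.LOC.Interface12
import Fermat.Agent.PT.LOC.Structure14
import Fermat.Agent.PT.LOC.StructureNorm14
import Fermat.Agent.PT.LOC.StructureTower27
import Fermat.Agent.ES.T56.FlatRIface14
import Fermat.Agent.ES.T56.TwistMap14
import Fermat.Agent.ES.T56.TwistQuad14
import Fermat.Agent.ES.T56.TwistEmbedIface14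
import Fermat.Agent.ES.T56.TwistField5

set_option autoImplicit false

namespace Fermat.Agent.ES.T56.TwistEmbed5

open scoped Fermat.Agent.PT.LOC.Interface12 Fermat.Agent.PT.LOC.StructureTower27
open Fermat.Agent.PT.LOC.Interface12 Fermat.Agent.PT.LOC.Structure14
  Fermat.Agent.PT.LOC.StructureNorm14
  Fermat.Agent.PT.LOC.StructureTower27 Fermat.Agent.ES.T56.FlatRIface14
  Fermat.Agent.ES.T56.TwistMap14 Fermat.Agent.ES.T56.TwistQuad14
  Fermat.Agent.ES.T56.TwistEmbedIface14 Fermat.Agent.ES.T56.TwistField5 Polynomial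

noncomputable section

variable (p : ℕ) [Fact p.Prime]

/-- `λ' ∉ T`. -/
theorem IsQuad.not_mem_range {T M : Type} [Field T] [Field M] [Algebra ℚ_[p] T] [Algebra ℚ_[p] M]
    [FiniteDimensional ℚ_[p] T] [FiniteDimensional ℚ_[p] M] [Algebra T M] [IsScalarTower ℚ_[p] T M]
    {lam : T} {lam' : M} (h : IsQuad p T M lam lam') : lam' ∉ (algebraMap T M).range := by
  rintro ⟨x, hx⟩
  have hx0 : x ≠ 0 := by
    rintro rfl
    rw [map_zero] at hx
    exact h.lam'_ne_zero hx.symm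
  obtain ⟨n, hn⟩ := h.snorm_base hx0
  rw [hx] at hn
  have h1 : snorm p M lam' ^ (2 * (0 : ℤ) + 1) = snorm p M lam' := by simp
  exact h.zpow_ne n 0 (hn.symm.trans h1.symm)

/-- **Core of `TwistEmbed`**, for an arbitrary auxiliary field `E ⊇ M` containing a root `ϑ ∈ 𝒪_E` of
the lifted polynomial `Q = P^ι`, with `[E : M] ≤ d`. -/
theorem twistEmbed_core (hN2 : N2Statement p)
    (T Ls M F : Type) [Field T] [Field Ls] [Field M] [Field F]
    [Algebra ℚ_[p] T] [Algebra ℚ_[p] Ls] [Algebra ℚ_[p] M] [Algebra ℚ_[p] F]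
    [FiniteDimensional ℚ_[p] T] [FiniteDimensional ℚ_[p] Ls] [FiniteDimensional ℚ_[p] M]
    [FiniteDimensional ℚ_[p] F]
    [Algebra T Ls] [Algebra T M] [IsScalarTower ℚ_[p] T Ls] [IsScalarTower ℚ_[p] T M]
    [IsGalois ℚ_[p] F] (iF : F →ₐ[ℚ_[p]] Ls)
    (hsup : iF.fieldRange ⊔ (IsScalarTower.toAlgHom ℚ_[p] T Ls).fieldRange = ⊤)
    (θ : intRing p Ls) (P : (intRing p T)[X]) (d : ℕ)
    (hpres : IsPres (intRing p T) (intRing p Ls) θ P) (hfr : Module.finrank T Ls = d)
    (hodd : Odd d)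
    (lam : T) (lam' : M) (hquad : IsQuad p T M lam lam') (hζ : ∃ ζ : T, IsPrimitiveRoot ζ p)
    (m : ℝ) (hPm : Pm p F m)
    (ι : intRing p T →ₐ[ℤ_[p]] intRing p M ⧸ aIdeal p M m)
    (a : intRing p T) (y : intRing p Ls)
    (hy : y ^ p = algebraMap (intRing p T) (intRing p Ls) a)
    (a' : intRing p M) (ha' : ι a = Ideal.Quotient.mk (aIdeal p M m) a')
    (ht : ∃ t : ℝ, (p : ℝ) ^ (-t) ≤ snorm p M (a' : M) ∧ (p : ℝ) / ((p : ℝ) - 1) < m - t)
    (b₀ b₁ : T)
    (hb : (a' : M) = algebraMap T M (a : T) * (algebraMap T M b₀ + algebraMap T M b₁ * lam'))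
    (Q : (intRing p M)[X])
    (hQ : Q.map (Ideal.Quotient.mk (aIdeal p M m)) = P.map ι.toRingHom)
    (E : Type) [Field E] [Algebra ℚ_[p] E] [FiniteDimensional ℚ_[p] E] [Algebra M E]
    [IsScalarTower ℚ_[p] M E] (ϑ : intRing p E) (hϑ : aeval ϑ Q = 0)
    (hdeg : Module.finrank M E ≤ d) :
    ∃ w : M, w ^ p * (algebraMap T M b₀ - algebraMap T M b₁ * lam') =
      algebraMap T M b₀ + algebraMap T M b₁ * lam' := by
  have hp0 : 0 < p := (Fact.out : p.Prime).pos
  -- `E` as a `T`-algebra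
  let algTE : Algebra T E := ((algebraMap M E).comp (algebraMap T M)).toAlgebra
  have towTME : IsScalarTower T M E := IsScalarTower.of_algebraMap_eq (fun _ => rfl)
  have towQTE : IsScalarTower ℚ_[p] T E := IsScalarTower.of_algebraMap_eq (fun x => by
    show algebraMap ℚ_[p] E x = algebraMap M E (algebraMap T M (algebraMap ℚ_[p] T x))
    rw [← IsScalarTower.algebraMap_apply ℚ_[p] T M, ← IsScalarTower.algebraMap_apply ℚ_[p] M E])
  have : FiniteDimensional T Ls := FiniteDimensional.right ℚ_[p] T Ls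
  have : FiniteDimensional T E := FiniteDimensional.right ℚ_[p] T E
  -- the extension `η` of `ι`
  have hIJ : ∀ x ∈ aIdeal p M m, algebraMap (intRing p M) (intRing p E) x ∈ aIdeal p E m := by
    intro x hx
    rw [mem_aIdeal_iff] at hx ⊢
    rw [coe_algebraMap_intRing, snorm_algebraMap_tower]
    exact hx
  obtain ⟨η, hηB, -⟩ := exists_eta θ P hpres (aIdeal p M m) (aIdeal p E m) hIJ ι.toRingHom Q hQ ϑ hϑ
  -- `η` is `ℤ_p`-linear
  let ηA : intRing p Ls →ₐ[ℤ_[p]] intRing p E ⧸ aIdeal p E m :=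
    { η with
      commutes' := fun c => by
        have h1 : algebraMap ℤ_[p] (intRing p Ls) c =
            algebraMap (intRing p T) (intRing p Ls) (algebraMap ℤ_[p] (intRing p T) c) :=
          IsScalarTower.algebraMap_apply ℤ_[p] (intRing p T) (intRing p Ls) c
        have h2 : ι.toRingHom (algebraMap ℤ_[p] (intRing p T) c) =
            Ideal.Quotient.mk (aIdeal p M m) (algebraMap ℤ_[p] (intRing p M) c) :=
          ι.commutes c
        show η (algebraMap ℤ_[p] (intRing p Ls) c) = _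
        rw [h1, hηB _ _ h2, ← IsScalarTower.algebraMap_apply ℤ_[p] (intRing p M) (intRing p E)]
        rfl }
  have hηA : ∀ x, ηA x = η x := fun _ => rfl
  let iFint : intRing p F →ₐ[ℤ_[p]] intRing p Ls := (iF.restrictScalars ℤ_[p]).mapIntegralClosure
  obtain ⟨φ⟩ := hPm E ⟨ηA.comp iFint⟩
  -- the embedding of `Ls`
  have : IsGalois T Ls := isGalois_of_sup iF hsup
  obtain ⟨ψ⟩ := exists_algHom_of_sup iF hsup φ
  -- `a'` is a `p`-th power in `E`
  obtain ⟨y', hy'⟩ := Ideal.Quotient.mk_surjective (η y)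
  have hmem : y' ^ p - algebraMap (intRing p M) (intRing p E) a' ∈ aIdeal p E m :=
    pow_sub_mem (aIdeal p M m) (aIdeal p E m) ι.toRingHom η hηB p a y hy a' ha' y' hy'.symm
  obtain ⟨t, ht1, ht2⟩ := ht
  obtain ⟨z, hz⟩ := hN2 E y' (algebraMap (intRing p M) (intRing p E) a') m t hmem
    (by rw [coe_algebraMap_intRing, snorm_algebraMap_tower]; exact ht1) ht2
  rw [coe_algebraMap_intRing] at hz
  -- non-vanishing
  have ha'0 : (a' : M) ≠ 0 := by
    intro h0
    rw [h0, snorm_zero] at ht1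
    have : (0 : ℝ) < (p : ℝ) ^ (-t) := Real.rpow_pos_of_pos (by exact_mod_cast hp0) _
    linarith
  have ha0 : algebraMap T M (a : T) ≠ 0 := by
    intro h0
    rw [h0, zero_mul] at hb
    exact ha'0 hb
  have hβ0 : algebraMap T M b₀ + algebraMap T M b₁ * lam' ≠ 0 := by
    intro h0
    rw [h0, mul_zero] at hb
    exact ha'0 hb
  -- `ψ y` is a `p`-th root of `a`
  have hψy : ψ (y : Ls) ^ p = algebraMap M E (algebraMap T M (a : T)) := by
    have h1 : ((y ^ p : intRing p Ls) : Ls) = algebraMap T Ls (a : T) := by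
      rw [hy, coe_algebraMap_intRing]
    rw [← map_pow, ← Subalgebra.coe_pow, h1, ψ.commutes]
    rfl
  have hψy0 : ψ (y : Ls) ^ p ≠ 0 := by
    rw [hψy]
    exact (map_ne_zero_iff _ (algebraMap M E).injective).2 ha0
  let j : M →ₐ[T] E := IsScalarTower.toAlgHom T M E
  have hz1 : (z / ψ (y : Ls)) ^ p = j (algebraMap T M b₀ + algebraMap T M b₁ * lam') := by
    show _ = algebraMap M E (algebraMap T M b₀ + algebraMap T M b₁ * lam')
    rw [div_pow, hz, hψy, hb, map_mul, mul_div_cancel_left₀ _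
      ((map_ne_zero_iff _ (algebraMap M E).injective).2 ha0)]
  -- degrees
  have hfrM : Module.finrank T M = 2 :=
    finrank_eq_two hquad.sq (IsQuad.not_mem_range p hquad) hquad.span
  have hE : Module.finrank T E ≤ 2 * d := by
    rw [← Module.finrank_mul_finrank T M E, hfrM]
    exact Nat.mul_le_mul_left 2 hdeg
  obtain ⟨ζ, hζ⟩ := hζ
  exact exists_pow_mul_conj ψ j hfr hodd hE hquad.sq (IsQuad.not_mem_range p hquad) hquad.span hp0 hζ
    b₀ b₁ hβ0 _ hz1

/-- **`TwistEmbed`**: the field-theoretic half of variant Q of Theorem R′. -/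
theorem twistEmbed (hN2 : N2Statement p) : TwistEmbedStatement p := by
  intro T Ls M F _ _ _ _ _ _ _ _ _ _ _ _ _ _ _ _ _ iF hsup θ P d hpres hPd hfr hodd lam lam' hquad hζ
    m hm hPm ι a y hy a' ha' ht b₀ b₁ hb
  have hp1 : (1 : ℝ) < p := by exact_mod_cast (Fact.out : p.Prime).one_lt
  have hm0 : 0 < m := lt_trans (div_pos (by linarith) (by linarith)) hm
  -- the lifted polynomial `Q = P^ι`
  have hI : aIdeal p M m ≠ ⊤ := by
    intro h
    have h1 : (1 : intRing p M) ∈ aIdeal p M m := by rw [h]; exact Submodule.mem_top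
    rw [mem_aIdeal_iff, Subalgebra.coe_one, snorm_one] at h1
    have h2 : (p : ℝ) ^ (-m) < 1 := Real.rpow_lt_one_of_one_lt_of_neg hp1 (by linarith)
    linarith
  obtain ⟨Q, hQ, hQdeg, hQm⟩ := exists_lift_monic (aIdeal p M m) hI ι.toRingHom P hpres.monic
  -- a root `ϑ` of `Q` in an algebraic closure of `M`
  let Qm : M[X] := Q.map (algebraMap (intRing p M) M)
  have hQmm : Qm.Monic := hQm.map _
  have hQmdeg : Qm.natDegree = d := by
    show (Q.map (algebraMap (intRing p M) M)).natDegree = d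
    rw [hQm.natDegree_map, hQdeg, hPd]
  have hd0 : d ≠ 0 := fun h => by
    rw [h] at hodd
    exact absurd hodd (by decide)
  have hQmdeg' : Qm.degree ≠ 0 := by
    rw [degree_eq_natDegree hQmm.ne_zero, hQmdeg]
    exact_mod_cast hd0
  obtain ⟨ϑ₀, hϑ₀⟩ := IsAlgClosed.exists_aeval_eq_zero (AlgebraicClosure M) Qm hQmdeg'
  have hint : IsIntegral M ϑ₀ := ⟨Qm, hQmm, by rw [← aeval_def]; exact hϑ₀⟩
  have hfdE : FiniteDimensional M ↥(IntermediateField.adjoin M {ϑ₀}) :=
    IntermediateField.adjoin.finiteDimensional hint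
  have hfdE' : FiniteDimensional ℚ_[p] ↥(IntermediateField.adjoin M {ϑ₀}) :=
    FiniteDimensional.trans ℚ_[p] M ↥(IntermediateField.adjoin M {ϑ₀})
  -- the root, inside `E = M(ϑ₀)`
  let ϑE : ↥(IntermediateField.adjoin M {ϑ₀}) := IntermediateField.AdjoinSimple.gen M ϑ₀
  have hϑE : aeval ϑE Qm = 0 := by
    apply (algebraMap ↥(IntermediateField.adjoin M {ϑ₀}) (AlgebraicClosure M)).injective
    rw [map_zero, ← aeval_algebraMap_apply]
    exact hϑ₀
  have hϑE' : aeval ϑE Q = 0 := by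
    rw [← aeval_map_algebraMap M ϑE Q]
    exact hϑE
  have hintE : IsIntegral (intRing p M) ϑE := ⟨Q, hQm, by rw [← aeval_def]; exact hϑE'⟩
  obtain ⟨ϑ, hϑ⟩ := (IsIntegralClosure.isIntegral_iff
    (A := intRing p ↥(IntermediateField.adjoin M {ϑ₀})) (R := intRing p M)
    (B := ↥(IntermediateField.adjoin M {ϑ₀}))).1 hintE
  have hϑQ : aeval ϑ Q = 0 := by
    apply Subtype.val_injective
    have h1 := aeval_algebraMap_apply (A := intRing p ↥(IntermediateField.adjoin M {ϑ₀}))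
      ↥(IntermediateField.adjoin M {ϑ₀}) ϑ Q
    rw [hϑ, hϑE'] at h1
    exact h1.symm
  -- degree
  have hdeg : Module.finrank M ↥(IntermediateField.adjoin M {ϑ₀}) ≤ d := by
    rw [IntermediateField.adjoin.finrank hint, ← hQmdeg]
    exact natDegree_le_of_dvd (minpoly.dvd M ϑ₀ hϑ₀) hQmm.ne_zero
  exact twistEmbed_core p hN2 T Ls M F iF hsup θ P d hpres hfr hodd lam lam' hquad hζ m hPm ι a y
    hy a' ha' ht b₀ b₁ hb Q hQ ↥(IntermediateField.adjoin M {ϑ₀}) ϑ hϑQ hdeg

end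

end Fermat.Agent.ES.T56.TwistEmbed5
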