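/-
Programme T (S56), FLAT leg, chapter R′ (variant Q) — helper14.

**THEOREM R′, closed**: `rPrimeStatement (hp2 : p ≠ 2) : FlatRIface14.RPrimeStatement p`, from
`RPrime14.rPrime`, helper8's `TameStructure8.tameStructureStatement`, helper5's
`TwistEmbed5.twistEmbed` and helper4's `N2Proof4.n2Statement`.
-/
import Mathlib
import Fermat.Agent.ES.T56.RPrime14
import Fermat.Agent.ES.T56.TameStructure8
import Fermat.Agent.ES.T56.TwistEmbed5
import Fermat.Agent.ES.T56.N2Proof4

set_option autoImplicit false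

namespace Fermat.Agent.ES.T56.RPrimeFinal14

/-- **Theorem R′** (`p` odd): if `F/ℚ_p` is Galois with Fontaine's property `(P_m)` for all
`m > p/(p-1)`, `L₀/ℚ_p` is tamely ramified with `ζ_p ∈ L₀`, and `a ∈ L₀ˣ` has a `p`-th root in
`F·L₀`, then `a ∈ (1 + p𝒪_{L₀})·L₀^{×p}`. -/
theorem rPrimeStatement (p : ℕ) [Fact p.Prime] (hp2 : p ≠ 2) : FlatRIface14.RPrimeStatement p :=
  RPrime14.rPrime p hp2 (TameStructure8.tameStructureStatement p)
    (TwistEmbed5.twistEmbed p (N2Proof4.n2Statement p))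

end Fermat.Agent.ES.T56.RPrimeFinal14
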