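/-
Programme T (S56), chapter KUM: **`FlatIface20.KumF2`** (helper17).

`H ≤ G_p` normal of index two, open, containing the inertia group; `χ : H → kˣ` level-constant with
`χ · χ^σ = ω` (`σ ∉ H`), `χ^σ ≠ χ` on inertia, `ξ = χ / χ^σ`.  Then `#Z¹_b(H, k(ξ)) ≤ |k|²`.

* `E := Ω^H` is an unramified quadratic extension of `ℚ_p` (`KumF2Base7.unram_quadratic`, helper7);
* `L₀ :=` the level of `Φ = (χ, χ^σ, ω_p, κ_π)` on `Gal(Ω/E)`, `π ^ (p² - 1) = -p` (`KumF2Level17`): abelian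
  of degree prime to `p` over `E` (⇒ `e(L₀/ℚ_p) = p² - 1`, `TameAbelian4`), normal over `ℚ_p`
  (⇒ `s := σ|L₀`);
* the dictionary `Gal(Ω/E) ↔ H` and `KumF2Dict4` (helper4) turn KumF2's three hypotheses into those of
  `KumPair7.card_Hset_le` (helper7; `ι : κ_E → k` from `KumIotaLoc4.exists_iota`, helper4):
  `#𝓗(ξ₀) ≤ |k|`;
* `KumF1_17.finite_and_card_le` (Kummer classes determine the cocycle up to a coboundary, Theorem R′).
-/
import Mathlib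
import Fermat.Agent.ES.T56.FlatIface20
import Fermat.Agent.ES.T56.KumFlat17
import Fermat.Agent.ES.T56.RPrimeFinal14
import Fermat.Agent.ES.T56.TameAbelian4
import Fermat.Agent.ES.T56.InertiaDict16
import Fermat.Agent.ES.T56.KumF1Level17
import Fermat.Agent.ES.T56.KumF1_17
import Fermat.Agent.ES.T56.KumF2Level17
import Fermat.Agent.ES.T56.KumPair7
import Fermat.Agent.ES.T56.KumIotaLoc4
import Fermat.Agent.ES.T56.KumF2Base7
import Fermat.Agent.ES.T56.KumF2Dict4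

set_option autoImplicit false
set_option linter.unusedSectionVars false
set_option linter.style.haveILetI false

namespace Fermat.Agent.ES.T56.KumF2_17

open Fermat.Agent.PT.LOC.Interface12 Fermat.Agent.PT.LOC.Structure14
  Fermat.Agent.PT.LOC.Teichmuller14 Fermat.Agent.ES.T56.KumCountIface7 Fermat.Agent.ES.T56.FlatRIface14
  Fermat.Agent.ES.T56.FlatClass20 Fermat.Agent.ES.T56.KumKD17 Fermat.Agent.ES.T56.KumFlat17
  Fermat.Agent.ES.T56.KumF1Level17 Fermat.Agent.ES.T56.KumF2Level17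

noncomputable section

variable (p : ℕ) [hp : Fact p.Prime]

section Core

variable {k : Type} [Field k] [Finite k] [CharP k p]

theorem not_dvd_sq_sub_one : ¬ p ∣ p ^ 2 - 1 := Fermat.Agent.ES.T56.KumPair7.not_dvd_sq_sub_one p

/-- **`KumF2`, in terms of `Gal(ℚ̄_p/ℚ_p)`.** -/
theorem kumF2_core (hp2 : p ≠ 2)
    (E : IntermediateField ℚ_[p] (PadicAlgCl p)) [FiniteDimensional ℚ_[p] E]
    (hur : IsUnramified p ℚ_[p] ↥E) (hdeg : Module.finrank ℚ_[p] ↥E = 2)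
    (H : Subgroup (PadicAlgCl p ≃ₐ[ℚ_[p]] PadicAlgCl p)) [H.Normal] (hidx : H.index = 2)
    (hEH : E.fixingSubgroup = H)
    (χ ξ : ↥H →* kˣ) (σ : PadicAlgCl p ≃ₐ[ℚ_[p]] PadicAlgCl p) (hσ : σ ∉ H)
    (E₁ : IntermediateField ℚ_[p] (PadicAlgCl p)) [FiniteDimensional ℚ_[p] E₁]
    (hE₁ : ∀ h : ↥H, (∀ y ∈ E₁, (h : PadicAlgCl p ≃ₐ[ℚ_[p]] PadicAlgCl p) y = y) →
      χ h = 1 ∧ χ (MulAut.conjNormal σ h) = 1)
    (hdetG : ∀ (h : ↥H) (n : ℕ),
      (∀ μ : AlgebraicClosure ℚ, μ ^ p = 1 → localGaloisToGlobal p (h : _ ≃ₐ[ℚ_[p]] _) μ = μ ^ n) →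
        ((χ h : kˣ) : k) * ((χ (MulAut.conjNormal σ h) : kˣ) : k) = (n : k))
    (hneG : ∃ h : ↥H, localGaloisToGlobal p (h : _ ≃ₐ[ℚ_[p]] _) ∈
      (padicPlace p).inertiaSubgroupIn ℚ ∧ χ (MulAut.conjNormal σ h) ≠ χ h)
    (hξG : ∀ h : ↥H, ξ h * χ (MulAut.conjNormal σ h) = χ h)
    (Z : Set (↥H → k))
    (hZ : ∀ f ∈ Z,
      (∃ E' : IntermediateField ℚ_[p] (PadicAlgCl p), FiniteDimensional ℚ_[p] E' ∧
        ∀ g s : ↥H, (∀ y ∈ E', (s : PadicAlgCl p ≃ₐ[ℚ_[p]] PadicAlgCl p) y = y) →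
          f (g * s) = f g) ∧
      (∃ F ∈ FlatClass p (PadicAlgCl p), ∀ h : ↥H,
        (∀ y ∈ F, (h : PadicAlgCl p ≃ₐ[ℚ_[p]] PadicAlgCl p) y = y) → f h = 0) ∧
      ∀ g h : ↥H, f (g * h) = f g + ((ξ g : kˣ) : k) * f h) :
    Z.Finite ∧ Nat.card Z ≤ Nat.card k ^ 2 := by
  classical
  -- `E/ℚ_p` is Galois
  haveI hgalE : IsGalois ℚ_[p] ↥E := Fermat.Agent.ES.T56.KumPair7.isGalois_of_finrank_two p ↥E hdeg
  haveI hnE : Normal ℚ_[p] ↥E := inferInstance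
  -- roots of unity and `π`
  obtain ⟨ζ, hζ⟩ := HasEnoughRootsOfUnity.exists_primitiveRoot (PadicAlgCl p) p
  have hres : resCard p ↥E = p ^ 2 := Fermat.Agent.ES.T56.KumCountF2_7.resCard_unram2 p ↥E hur hdeg
  obtain ⟨ζ₂, hζ₂⟩ := Fermat.Agent.PT.LOC.Teichmuller14.exists_isPrimitiveRoot p ↥E
  rw [hres] at hζ₂
  haveI hn0 : NeZero (p ^ 2 - 1) := ⟨Fermat.Agent.ES.T56.KumPair7.sq_sub_one_ne_zero p⟩
  obtain ⟨π, hπ'⟩ := IsAlgClosed.exists_pow_nat_eq (algebraMap ℚ_[p] (PadicAlgCl p) (-(p : ℚ_[p])))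
    (Nat.pos_of_ne_zero (Fermat.Agent.ES.T56.KumPair7.sq_sub_one_ne_zero p))
  have hπ0 : π ≠ 0 := by
    intro h0
    rw [h0, zero_pow (Fermat.Agent.ES.T56.KumPair7.sq_sub_one_ne_zero p)] at hπ'
    have h1 : (-(p : ℚ_[p])) = 0 := (algebraMap ℚ_[p] (PadicAlgCl p)).injective (by rw [← hπ', map_zero])
    rw [neg_eq_zero] at h1
    exact hp.out.ne_zero (by exact_mod_cast h1)
  -- the characters on `Gal(Ω/E)`
  let χ₁ : (PadicAlgCl p ≃ₐ[↥E] PadicAlgCl p) →* kˣ := χ.comp (down E hEH)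
  let χ₂ : (PadicAlgCl p ≃ₐ[↥E] PadicAlgCl p) →* kˣ :=
    (χ.comp (MulAut.conjNormal σ : ↥H ≃* ↥H).toMonoidHom).comp (down E hEH)
  let ξ' : (PadicAlgCl p ≃ₐ[↥E] PadicAlgCl p) →* kˣ := ξ.comp (down E hEH)
  obtain ⟨E₂, hE₂fd, hker⟩ := exists_fixing_le_ker_Phi2 E p χ₁ χ₂ hζ hζ₂ hπ0 hπ' E₁
    (fun g hg => hE₁ (down E hEH g) (fun y hy => hg y hy))
  haveI := hE₂fd
  -- the level field
  set Φ := Phi2 E p χ₁ χ₂ hζ hζ₂ hπ0 hπ' with hΦ
  haveI hfdL : FiniteDimensional ↥E (level Φ) := finiteDimensional_level Φ hker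
  haveI hfdLp : FiniteDimensional ℚ_[p] (level Φ) := FiniteDimensional.trans ℚ_[p] ↥E ↥(level Φ)
  have hcomm := comm_level Φ hker
  have hdegL : ¬ p ∣ Module.finrank ↥E (level Φ) :=
    not_dvd_finrank_level Φ hker (not_dvd_card_target2 E p hζ₂ (not_dvd_sq_sub_one p))
  have hζL : ζ ∈ level Φ := zeta_mem_level2 E p χ₁ χ₂ hζ hζ₂ hπ0 hπ'
  have hπL : π ∈ level Φ := pi_mem_level2 E p χ₁ χ₂ hζ hζ₂ hπ0 hπ'
  have hζ' : ∃ ζ' : ↥(level Φ), IsPrimitiveRoot ζ' p :=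
    ⟨⟨ζ, hζL⟩, IsPrimitiveRoot.of_map_of_injective (f := (level Φ).val)
      (by exact hζ) (level Φ).val.injective⟩
  have hπpow : (⟨π, hπL⟩ : ↥(level Φ)) ^ (p ^ 2 - 1) = -((p : ℕ) : ↥(level Φ)) := by
    apply Subtype.ext
    rw [SubmonoidClass.coe_pow]
    show π ^ (p ^ 2 - 1) = _
    rw [hπ', map_neg, map_natCast]
    simp
  have hram := TameAbelian4.ramIdxZ_eq_of_unram2 p ↥E ↥(level Φ) hur hdeg hcomm hdegL
    ⟨π, hπL⟩ hπpow
  -- descended characters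
  have hξ' : ∀ g, ξ' g = χ₁ g * (χ₂ g)⁻¹ := by
    intro g
    have h1 := hξG (down E hEH g)
    show ξ (down E hEH g) = χ (down E hEH g) * (χ (MulAut.conjNormal σ (down E hEH g)))⁻¹
    rw [← h1, mul_inv_cancel_right]
  have hkerξ : Φ.ker ≤ ξ'.ker := by
    intro g hg
    have h1 := (mem_ker_Phi2 E p χ₁ χ₂ hζ hζ₂ hπ0 hπ').1 hg
    rw [MonoidHom.mem_ker, hξ' g, h1.1, h1.2.1, inv_one, mul_one]
  let χ₀ : (level Φ ≃ₐ[↥E] level Φ) →* kˣ :=
    descend Φ hker χ₁ (ker_Phi2_le_left E p χ₁ χ₂ hζ hζ₂ hπ0 hπ')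
  let ξ₀ : (level Φ ≃ₐ[↥E] level Φ) →* kˣ := descend Φ hker ξ' hkerξ
  have hχ₀ : ∀ g, χ₀ (res (level Φ) g) = χ₁ g := fun g =>
    descend_resL Φ hker χ₁ (ker_Phi2_le_left E p χ₁ χ₂ hζ hζ₂ hπ0 hπ') g
  have hξ₀ : ∀ g, ξ₀ (res (level Φ) g) = ξ' g := fun g => descend_resL Φ hker ξ' hkerξ g
  -- normality over `ℚ_p`
  haveI hnL : Normal ℚ_[p] ↥((level Φ).restrictScalars ℚ_[p]) := by
    apply normal_level2 E p χ₁ χ₂ hζ hζ₂ hπ0 hπ'
    intro τ g h1 h2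
    have h3 := conj_ker_stable H hidx χ hσ τ (down E hEH g) h1 h2
    constructor
    · show χ (down E hEH (conjE E τ g)) = 1
      rw [down_conjE]
      exact h3.1
    · show χ (MulAut.conjNormal σ (down E hEH (conjE E τ g))) = 1
      rw [down_conjE]
      exact h3.2
  let s : ↥(level Φ) ≃ₐ[ℚ_[p]] ↥(level Φ) :=
    (AlgEquiv.restrictNormalHom (F := ℚ_[p]) (K₁ := PadicAlgCl p)
      ↥((level Φ).restrictScalars ℚ_[p]) σ :
        ↥((level Φ).restrictScalars ℚ_[p]) ≃ₐ[ℚ_[p]] ↥((level Φ).restrictScalars ℚ_[p]))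
  have hs_apply : ∀ x : ↥(level Φ), ((s x : ↥(level Φ)) : PadicAlgCl p) = σ (x : PadicAlgCl p) :=
    fun x => AlgEquiv.restrictNormal_commutes σ ↥((level Φ).restrictScalars ℚ_[p]) x
  -- the dictionary (helper4's `KumF2Dict4`)
  have hIn : ∀ g : PadicAlgCl p ≃ₐ[↥E] PadicAlgCl p,
      localGaloisToGlobal p (g.restrictScalars ℚ_[p]) ∈ (padicPlace p).inertiaSubgroupIn ℚ →
        IsInertial p ↥(level Φ) (res (level Φ) g) :=
    fun g hg => Fermat.Agent.ES.T56.KumF2Dict4.isInertial_res p hg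
  have hMu : ∀ (g : PadicAlgCl p ≃ₐ[↥E] PadicAlgCl p) (n : ℕ),
      ActsOnMuAs p ↥(level Φ) (res (level Φ) g) n →
        ∀ μ : AlgebraicClosure ℚ, μ ^ p = 1 →
          localGaloisToGlobal p (g.restrictScalars ℚ_[p]) μ = μ ^ n :=
    fun g n hn => Fermat.Agent.ES.T56.KumF2Dict4.actsOnMu_of_res p n hn hζ'
  -- `s` moves `E`
  have hs : ∃ x : ↥E, s (algebraMap ↥E ↥(level Φ) x) ≠ algebraMap ↥E ↥(level Φ) x := by
    have hσ' := hσ
    rw [← hEH, IntermediateField.mem_fixingSubgroup_iff] at hσ'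
    push Not at hσ'
    obtain ⟨x, hx, hne⟩ := hσ'
    refine ⟨⟨x, hx⟩, fun h => hne ?_⟩
    have h1 := congrArg Subtype.val h
    rw [hs_apply] at h1
    exact h1
  -- conjugation
  have hconj : ∀ (g : PadicAlgCl p ≃ₐ[↥E] PadicAlgCl p) (x : ↥(level Φ)),
      res (level Φ) (conjE E σ g) (s x) = s (res (level Φ) g x) := by
    intro g x
    apply Subtype.ext
    rw [res_apply, hs_apply, conjE_apply_apply, hs_apply, res_apply]
  have hconj' : ∀ (g : PadicAlgCl p ≃ₐ[↥E] PadicAlgCl p) (δ' : ↥(level Φ) ≃ₐ[↥E] ↥(level Φ)),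
      (∀ x, δ' (s x) = s (res (level Φ) g x)) → δ' = res (level Φ) (conjE E σ g) := by
    intro g δ' h
    apply AlgEquiv.ext
    intro y
    obtain ⟨x, rfl⟩ := s.surjective y
    rw [h x, hconj g x]
  have hχconj : ∀ g : PadicAlgCl p ≃ₐ[↥E] PadicAlgCl p,
      χ₀ (res (level Φ) (conjE E σ g)) = χ (MulAut.conjNormal σ (down E hEH g)) := by
    intro g
    rw [hχ₀]
    show χ (down E hEH (conjE E σ g)) = _
    rw [down_conjE]
  have hdet : ∀ (δ δ' : ↥(level Φ) ≃ₐ[↥E] ↥(level Φ)) (n : ℕ), IsInertial p ↥(level Φ) δ →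
      (∀ x, δ' (s x) = s (δ x)) → ActsOnMuAs p ↥(level Φ) δ n →
        ((χ₀ δ : kˣ) : k) * ((χ₀ δ' : kˣ) : k) = (n : k) := by
    intro δ δ' n _ hc hn
    obtain ⟨g, rfl⟩ := res_surjective (level Φ) δ
    rw [hconj' g δ' hc, hχconj, hχ₀]
    exact hdetG (down E hEH g) n (hMu g n hn)
  have hξ : ∀ (δ δ' : ↥(level Φ) ≃ₐ[↥E] ↥(level Φ)), IsInertial p ↥(level Φ) δ →
      (∀ x, δ' (s x) = s (δ x)) → ξ₀ δ * χ₀ δ' = χ₀ δ := by
    intro δ δ' _ hc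
    obtain ⟨g, rfl⟩ := res_surjective (level Φ) δ
    rw [hconj' g δ' hc, hχconj, hχ₀, hξ₀]
    exact hξG (down E hEH g)
  have hne : ∃ δ δ' : ↥(level Φ) ≃ₐ[↥E] ↥(level Φ), IsInertial p ↥(level Φ) δ ∧
      (∀ x, δ' (s x) = s (δ x)) ∧ χ₀ δ' ≠ χ₀ δ := by
    obtain ⟨h, hin, hne⟩ := hneG
    refine ⟨res (level Φ) (up E hEH h), res (level Φ) (conjE E σ (up E hEH h)),
      hIn (up E hEH h) hin, fun x => hconj _ x, ?_⟩
    rw [hχconj, hχ₀]
    show χ (MulAut.conjNormal σ (down E hEH (up E hEH h))) ≠ χ (down E hEH (up E hEH h))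
    rw [down_up]
    exact hne
  obtain ⟨ι⟩ := Fermat.Agent.ES.T56.KumIotaLoc4.exists_iota p hur hdeg hram ⟨π, hπL⟩ hπpow s hs
    χ₀ hne
  obtain ⟨hHfin, hHcard⟩ := Fermat.Agent.ES.T56.KumPair7.card_Hset_le p hp2 hur hdeg hram hζ'
    ⟨π, hπL⟩ hπpow ι s hs χ₀ ξ₀ hdet hξ hne
  -- Theorem R′ and the order of `Gal(L₀/E)`
  have htame : ¬ (p : ℤ) ∣ ramIdxZ p ↥(level Φ) := by
    rw [hram]
    intro h
    have h1 : (p : ℤ) ∣ ((p ^ 2 - 1 : ℕ) : ℤ) := by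
      rw [Nat.cast_sub (Nat.one_le_pow _ _ hp.out.pos), Nat.cast_pow, Nat.cast_one]
      exact h
    exact not_dvd_sq_sub_one p (by exact_mod_cast h1)
  have hΔ : (Nat.card (↥(level Φ) ≃ₐ[↥E] ↥(level Φ)) : k) ≠ 0 := by
    rw [IsGalois.card_aut_eq_finrank]
    intro h
    exact hdegL ((CharP.cast_eq_zero_iff k p _).mp h)
  have hR := RPrimeFinal14.rPrimeStatement p hp2
  have hζu : IsPrimitiveRoot (hζ.isUnit hp.out.ne_zero).unit p :=
    IsPrimitiveRoot.coe_units_iff.mp hζ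
  -- transport of the cocycles
  let T : (↥H → k) → ((PadicAlgCl p ≃ₐ[↥E] PadicAlgCl p) → k) := fun f g => f (down E hEH g)
  have hTinj : Function.Injective T := by
    intro f f' h
    funext x
    have h1 : f (down E hEH (up E hEH x)) = f' (down E hEH (up E hEH x)) :=
      congrFun h (up E hEH x)
    rwa [down_up] at h1
  obtain ⟨hZfin, hZcard⟩ := KumF1_17.finite_and_card_le p (level Φ) ξ₀ hζu hζL hΔ hHfin (T '' Z)
    (fun c hc => by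
      obtain ⟨f, hf, rfl⟩ := hc
      obtain ⟨⟨E', hE'fd, hlev⟩, ⟨F, hF, hvan⟩, hcoc⟩ := hZ f hf
      haveI := hE'fd
      obtain ⟨E'', hE''fd, hE''⟩ := exists_extend E E'
      refine ⟨⟨⟨E'', hE''fd, fun g t ht => ?_⟩, fun g h => ?_⟩, fixer p (K := ↥E) F,
        fun τ hτ => hvan (down E hEH τ) (fun y hy => hτ y hy),
        rPrimeAt_of_flatClass p (level Φ) hR hF htame hζ'⟩
      · show f (down E hEH (g * t)) = f (down E hEH g)
        rw [map_mul]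
        exact hlev _ _ (fun y hy => hE'' t ht y hy)
      · show f (down E hEH (g * h)) = f (down E hEH g) + psiT (level Φ) ξ₀ g * f (down E hEH h)
        rw [map_mul, hcoc]
        unfold psiT
        rw [hξ₀]
        rfl)
  have hZfin' : Z.Finite := Set.Finite.of_finite_image hZfin hTinj.injOn
  refine ⟨hZfin', ?_⟩
  have hcardT : Nat.card (T '' Z) = Nat.card Z := Nat.card_image_of_injective hTinj Z
  rw [← hcardT]
  refine hZcard.trans ?_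
  have hq : 1 ≤ Nat.card k := Nat.card_pos
  have hsq : Nat.card k ^ 2 = Nat.card k * Nat.card k := sq _
  rw [hsq]
  refine Nat.mul_le_mul hHcard ?_
  split_ifs
  · exact hq
  · exact le_rfl

end Core

/-! ### `KumF2` -/

section Final

open Fermat.Agent.ES.T56.FlatIface20 Fermat.Agent.PT.BR.LocInj13

/-- `KumF2` with `G_p` unfolded. -/
theorem kumF2_aux {k : Type} [Field k] [Finite k] [CharP k p] (hp2 : p ≠ 2)
    (H : Subgroup (PadicAlgCl p ≃ₐ[ℚ_[p]] PadicAlgCl p)) [H.Normal] (hidx : H.index = 2)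
    (hI : ∀ g : PadicAlgCl p ≃ₐ[ℚ_[p]] PadicAlgCl p,
      localGaloisToGlobal p g ∈ (padicPlace p).inertiaSubgroupIn ℚ → g ∈ H)
    (hopen : ∃ F₀ : IntermediateField ℚ (AlgebraicClosure ℚ), FiniteDimensional ℚ F₀ ∧
      ∀ g : PadicAlgCl p ≃ₐ[ℚ_[p]] PadicAlgCl p,
        localGaloisToGlobal p g ∈ F₀.fixingSubgroup → g ∈ H)
    (χ ξ : ↥H →* kˣ)
    (hχ : ∃ F : IntermediateField ℚ (AlgebraicClosure ℚ), FiniteDimensional ℚ F ∧
      ∀ g s : ↥H, localGaloisToGlobal p (s : PadicAlgCl p ≃ₐ[ℚ_[p]] PadicAlgCl p) ∈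
        F.fixingSubgroup → χ (g * s) = χ g)
    (σ : PadicAlgCl p ≃ₐ[ℚ_[p]] PadicAlgCl p) (hσ : σ ∉ H)
    (hdet : ∀ (h : ↥H) (n : ℕ),
      (∀ μ : AlgebraicClosure ℚ, μ ^ p = 1 → localGaloisToGlobal p (h : _ ≃ₐ[ℚ_[p]] _) μ = μ ^ n) →
        ((χ h : kˣ) : k) * ((χ (MulAut.conjNormal σ h) : kˣ) : k) = (n : k))
    (hne : ∃ h : ↥H, localGaloisToGlobal p (h : _ ≃ₐ[ℚ_[p]] _) ∈
      (padicPlace p).inertiaSubgroupIn ℚ ∧ χ (MulAut.conjNormal σ h) ≠ χ h)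
    (hξ : ∀ h : ↥H, ξ h * χ (MulAut.conjNormal σ h) = χ h)
    (Z : Set (↥H → k))
    (hZ : ∀ f ∈ Z,
      (∃ F : IntermediateField ℚ (AlgebraicClosure ℚ), FiniteDimensional ℚ F ∧
        ∀ g s : ↥H, localGaloisToGlobal p (s : PadicAlgCl p ≃ₐ[ℚ_[p]] PadicAlgCl p) ∈
          F.fixingSubgroup → f (g * s) = f g) ∧
      (∃ F ∈ FlatClass p (PadicAlgCl p), ∀ h : ↥H,
        (∀ y ∈ F, (h : PadicAlgCl p ≃ₐ[ℚ_[p]] PadicAlgCl p) y = y) → f h = 0) ∧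
      ∀ g h : ↥H, f (g * h) = f g + ((ξ g : kˣ) : k) * f h) :
    Z.Finite ∧ Nat.card Z ≤ Nat.card k ^ 2 := by
  classical
  obtain ⟨E, hEfd, hEH, hdeg, hur⟩ :=
    Fermat.Agent.ES.T56.KumF2Base7.unram_quadratic p H hidx hI hopen
  haveI := hEfd
  -- the level of `χ`, made Galois
  obtain ⟨F, hFfd, hF⟩ := hχ
  haveI := hFfd
  obtain ⟨M, hFM, hMfd, hMgal⟩ := Fermat.Agent.PT.BR.LevelBridge13.exists_isGalois_ge F
  haveI := hMfd
  haveI := hMgal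
  have hMn : M.fixingSubgroup.Normal := Fermat.Agent.PT.BR.LevelBridge13.normal_fixingSubgroup M
  have hχ1 : ∀ h : ↥H, localGaloisToGlobal p (h : PadicAlgCl p ≃ₐ[ℚ_[p]] PadicAlgCl p) ∈
      M.fixingSubgroup → χ h = 1 := by
    intro h hh
    have h1 := hF 1 h (IntermediateField.fixingSubgroup_antitone hFM hh)
    rwa [one_mul, map_one] at h1
  exact kumF2_core p hp2 E hur hdeg H hidx hEH χ ξ σ hσ (localField p M)
    (fun h hh => by
      have h1 : localGaloisToGlobal p (h : PadicAlgCl p ≃ₐ[ℚ_[p]] PadicAlgCl p) ∈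
          M.fixingSubgroup :=
        (mem_fixingSubgroup_localField_iff p M _).1
          ((IntermediateField.mem_fixingSubgroup_iff _ _).2 hh)
      refine ⟨hχ1 h h1, hχ1 _ ?_⟩
      have h2 : localGaloisToGlobal p
          ((MulAut.conjNormal σ h : ↥H) : PadicAlgCl p ≃ₐ[ℚ_[p]] PadicAlgCl p) =
          localGaloisToGlobal p σ * localGaloisToGlobal p (h : _ ≃ₐ[ℚ_[p]] _) *
            (localGaloisToGlobal p σ)⁻¹ := by
        rw [MulAut.conjNormal_apply, map_mul, map_mul, map_inv]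
      rw [h2]
      exact hMn.conj_mem _ h1 _)
    hdet hne hξ Z
    (fun f hf => by
      obtain ⟨⟨F', hF'fd, hlev⟩, hvan, hcoc⟩ := hZ f hf
      haveI := hF'fd
      refine ⟨⟨localField p F', inferInstance, fun g t ht => hlev g t ?_⟩, hvan, hcoc⟩
      exact (mem_fixingSubgroup_localField_iff p F' _).1
        ((IntermediateField.mem_fixingSubgroup_iff _ _).2 ht))

/-- **`FlatIface20.KumF2`.** -/
theorem kumF2 (k : Type) [Field k] : KumF2 p k := by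
  intro hp2 hfin hchar H hHn hidx hI hopen χ ξ hχ σ hσ hdet hne hξ
  haveI := hfin
  haveI := hchar
  exact @kumF2_aux p hp k _ hfin hchar hp2 H hHn hidx (fun g hg => hI hg) hopen χ ξ hχ σ hσ
    hdet hne hξ (ZbPsiOn p H ξ) (fun f hf => hf)

end Final

end

end Fermat.Agent.ES.T56.KumF2_17
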