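/-
Programme T (S56), FLAT leg, chapter FLAT-C — helper4.

**`ω|_{I_p} ≠ 1` for odd `p`**, in the language of `FlatIface20` (`G_p`, `inertiaGp`, `ActsOnMuGp`):

* `exists_actsOnMuGp` : every `g ∈ G_p` acts on `μ_p(ℚ̄)` through some exponent;
* `exists_inertia_ne_one` : for `p ≠ 2` some `g ∈ inertiaGp p` has exponent `≢ 1 (mod p)`
  (`RamOmega11.exists_inertia_exponent_ne_one`, transported through
  `LocSurj16.inertia_le_range_primes`);
* `not_isOmegaOnInertia_of_unram` : an unramified character is not `ω` on inertia.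
-/
import Mathlib
import Fermat.Agent.ES.T56.RamOmega11
import Fermat.Agent.ES.T56.LocSurj16
import Fermat.Agent.ES.T56.FlatIface20

set_option autoImplicit false
set_option linter.unusedSectionVars false

namespace Fermat.Agent.ES.T56.OmegaNe4

open Fermat.Agent.ES.T56.RamOmega11 Fermat.Agent.ES.T56.FlatIface20 ExtCitation

variable (p : ℕ) [Fact p.Prime]

/-- Every `g ∈ G_p` acts on `μ_p(ℚ̄)` through some exponent. -/
theorem exists_actsOnMuGp (g : Gp p) : ∃ n : ℕ, ActsOnMuGp p g n := by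
  obtain ⟨a, ha, -⟩ := exists_exponent (Fact.out : p.Prime) (locp p g)
  exact ⟨a, ha⟩

/-- **Inertia at an odd prime `p` acts non-trivially on `μ_p`**, in `G_p`. -/
theorem exists_inertia_ne_one (hp2 : p ≠ 2) :
    ∃ g ∈ inertiaGp p, ∃ n : ℕ, ActsOnMuGp p g n ∧ ¬ (n ≡ 1 [MOD p]) := by
  have hp : p.Prime := Fact.out
  have hP : (primeLocalPlace (pPrime p)).LiesOverPrime p :=
    primeLocalPlace_liesOverPrime (pPrime p)
  obtain ⟨τ, hτ, a, ha, hne⟩ :=
    exists_inertia_exponent_ne_one (primeLocalPlace (pPrime p)) hp hp2 hP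
  obtain ⟨g, hg⟩ := Fermat.Agent.ES.T56.LocSurj16.inertia_le_range_primes (pPrime p) hτ
  refine ⟨g, ?_, a, fun μ hμ => ?_, hne⟩
  · show locp p g ∈ (primeLocalPlace (pPrime p)).inertiaSubgroupIn ℚ
    rw [show locp p g = τ from hg]
    exact hτ
  · rw [show locp p g = τ from hg]
    exact ha μ hμ

/-- An unramified character is not `ω` on inertia (`p` odd). -/
theorem not_isOmegaOnInertia_of_unram (hp2 : p ≠ 2) {k : Type} [Field k] [CharP k p]
    (ψ : Gp p →* kˣ) (h : IsUnramChar p ψ) : ¬ IsOmegaOnInertia p ψ := by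
  intro hΩ
  obtain ⟨g, hg, n, hact, hne⟩ := exists_inertia_ne_one p hp2
  have h1 := hΩ g hg n hact
  rw [h g hg, Units.val_one] at h1
  apply hne
  rw [← CharP.natCast_eq_natCast k p, ← h1, Nat.cast_one]

end Fermat.Agent.ES.T56.OmegaNe4
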