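/-
Programme T (S56), FLAT leg, chapter FLAT-C — helper4.

**`ω²|_{I_p} ≠ 1` for `p ≥ 5`**: proof of `FlatIface20.OmegaSqNeOne p`.

* `exists_inertia_apply_ne_ne` : `P` a place of `ℚ̄` over a prime `p ≥ 5`, `ζ` a primitive `p`-th root of
  unity: some `τ ∈ I_P` has `τ ζ ≠ ζ` and `τ ζ ≠ ζ⁻¹`.
  (Otherwise `y = (1 - ζ)(1 - ζ⁻¹)` is fixed by `I_P`, so `p ∣ y` in `P`
  (`P36.UnrFixed1.div_natCast_mem_of_fixed`): `v(1-ζ) v(1-ζ⁻¹) ≤ v(p) = ∏_{k<p} v(1-ζ^k)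
  ≤ v(1-ζ)^{p-2} v(1-ζ⁻¹)`, hence `v(1-ζ) ≤ v(1-ζ)^{p-2}`, impossible for `0 < v(1-ζ) < 1`, `p-2 ≥ 2`.)
* `exists_inertia_exponent_sq_ne_one` : the same with exponents: `τ μ = μ^a` on `μ_p`, `a² ≢ 1 (mod p)`.
* `omegaSqNeOne : OmegaSqNeOne p` : transport to `G_p` through `LocSurj16.inertia_le_range_primes`.
-/
import Mathlib
import Fermat.Agent.ES.T56.RamOmega11
import Fermat.Agent.ES.T56.LocSurj16
import Fermat.Agent.ES.T56.FlatIface20

set_option autoImplicit false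
set_option linter.unusedSectionVars false

namespace Fermat.Agent.ES.T56.OmegaSq4

open Fermat.Agent.S05.Inertia Fermat.Agent.ES.T56.RamOmega11 ExtCitation

/-! ### Inertia moves `ζ_p` neither to `ζ_p` nor to `ζ_p⁻¹` -/

section Place

variable (P : ValuationSubring (AlgebraicClosure ℚ)) {p : ℕ}

/-- `v(1 - ζ^k) ≤ v(1 - ζ)`. -/
theorem valuation_one_sub_pow_le (hp : p.Prime) {ζ : AlgebraicClosure ℚ} (hζ : ζ ^ p = 1) (k : ℕ) :
    P.valuation (1 - ζ ^ k) ≤ P.valuation (1 - ζ) := by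
  obtain ⟨c, hc⟩ : (1 : P) - (⟨ζ, root_mem P hp hζ⟩ : P) ∣
      1 ^ k - (⟨ζ, root_mem P hp hζ⟩ : P) ^ k := sub_dvd_pow_sub_pow _ _ k
  have hc' : 1 - ζ ^ k = (1 - ζ) * (c : AlgebraicClosure ℚ) := by
    have := congrArg (Subtype.val : P → AlgebraicClosure ℚ) hc
    simpa using this
  rw [hc', map_mul]
  calc P.valuation (1 - ζ) * P.valuation (c : AlgebraicClosure ℚ)
      ≤ P.valuation (1 - ζ) * 1 :=
        mul_le_mul_right ((ValuationSubring.valuation_le_one_iff P _).mpr c.2) _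
    _ = P.valuation (1 - ζ) := mul_one _

/-- **Inertia at a prime `p ≥ 5` does not act on `μ_p` through `±1`.** -/
theorem exists_inertia_apply_ne_ne (hp : p.Prime) (h5 : 5 ≤ p) (hP : P.LiesOverPrime p)
    {ζ : AlgebraicClosure ℚ} (hζ : IsPrimitiveRoot ζ p) :
    ∃ τ ∈ P.inertiaSubgroupIn ℚ, τ ζ ≠ ζ ∧ τ ζ ≠ ζ⁻¹ := by
  by_contra hcon
  replace hcon : ∀ τ ∈ P.inertiaSubgroupIn ℚ, τ ζ = ζ ∨ τ ζ = ζ⁻¹ := fun τ hτ => by
    by_contra h
    rw [not_or] at h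
    exact hcon ⟨τ, hτ, h.1, h.2⟩
  have hζ0 : ζ ≠ 0 := hζ.ne_zero hp.ne_zero
  have hζinv : ζ⁻¹ ^ p = 1 := by rw [inv_pow, hζ.pow_eq_one, inv_one]
  -- `y = (1 - ζ)(1 - ζ⁻¹)` is fixed by inertia
  have hfix : ∀ τ ∈ P.inertiaSubgroupIn ℚ, τ ((1 - ζ) * (1 - ζ⁻¹)) = (1 - ζ) * (1 - ζ⁻¹) := by
    intro τ hτ
    rw [map_mul, map_sub, map_sub, map_one, map_inv₀]
    rcases hcon τ hτ with h | h
    · rw [h]
    · rw [h, inv_inv, mul_comm]
  -- the valuations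
  have hw1 : P.valuation (1 - ζ) < 1 := valuation_one_sub_lt_one P hp hP hζ.pow_eq_one
  have hw'1 : P.valuation (1 - ζ⁻¹) < 1 := valuation_one_sub_lt_one P hp hP hζinv
  have hw0 : P.valuation (1 - ζ) ≠ 0 := by
    rw [Valuation.ne_zero_iff, sub_ne_zero]
    exact fun h => hζ.ne_one hp.one_lt h.symm
  have hw'0 : P.valuation (1 - ζ⁻¹) ≠ 0 := by
    rw [Valuation.ne_zero_iff, sub_ne_zero]
    intro h
    apply hζ.ne_one hp.one_lt
    rw [← inv_inv ζ, ← h, inv_one]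
  have hx : (1 - ζ) * (1 - ζ⁻¹) ∈ P.nonunits := by
    rw [ValuationSubring.mem_nonunits_iff, map_mul]
    calc P.valuation (1 - ζ) * P.valuation (1 - ζ⁻¹)
        ≤ P.valuation (1 - ζ) * 1 := mul_le_mul_right hw'1.le _
      _ = P.valuation (1 - ζ) := mul_one _
      _ < 1 := hw1
  have hdiv := Fermat.Agent.ES.P36.UnrFixed1.div_natCast_mem_of_fixed P hp hP _ hfix hx
  have hp0 : (p : AlgebraicClosure ℚ) ≠ 0 := Nat.cast_ne_zero.mpr hp.ne_zero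
  have hvp0 : P.valuation (p : AlgebraicClosure ℚ) ≠ 0 := (Valuation.ne_zero_iff _).mpr hp0
  -- `v(y) ≤ v(p)`
  have h1 : P.valuation (1 - ζ) * P.valuation (1 - ζ⁻¹) ≤ P.valuation (p : AlgebraicClosure ℚ) := by
    have h := (ValuationSubring.valuation_le_one_iff P _).mpr hdiv
    rw [map_div₀, map_mul] at h
    exact (div_le_one₀ (zero_lt_iff.mpr hvp0)).mp h
  -- `v(p) ≤ v(1-ζ)^{p-2} v(1-ζ⁻¹)`
  obtain ⟨m, rfl⟩ : ∃ m, p = m + 2 := ⟨p - 2, by omega⟩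
  have hprod := hζ.prod_one_sub_pow_eq_order
  have hlast : ζ ^ (m + 1) = ζ⁻¹ := by
    apply eq_inv_of_mul_eq_one_left
    rw [← pow_succ]
    exact hζ.pow_eq_one
  have h2 : P.valuation ((m + 2 : ℕ) : AlgebraicClosure ℚ) ≤
      P.valuation (1 - ζ) ^ m * P.valuation (1 - ζ⁻¹) := by
    have hcast : ((m + 2 : ℕ) : AlgebraicClosure ℚ) = ((m + 1 : ℕ) : AlgebraicClosure ℚ) + 1 := by
      push_cast; ring
    calc P.valuation ((m + 2 : ℕ) : AlgebraicClosure ℚ)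
        = ∏ k ∈ Finset.range (m + 1), P.valuation (1 - ζ ^ (k + 1)) := by
          rw [hcast, ← hprod, map_prod]
      _ = (∏ k ∈ Finset.range m, P.valuation (1 - ζ ^ (k + 1))) * P.valuation (1 - ζ⁻¹) := by
          rw [Finset.prod_range_succ, hlast]
      _ ≤ (∏ _k ∈ Finset.range m, P.valuation (1 - ζ)) * P.valuation (1 - ζ⁻¹) :=
          mul_le_mul_left (Finset.prod_le_prod' fun k _ =>
            valuation_one_sub_pow_le P hp hζ.pow_eq_one (k + 1)) _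
      _ = P.valuation (1 - ζ) ^ m * P.valuation (1 - ζ⁻¹) := by
          rw [Finset.prod_const, Finset.card_range]
  -- `v(1-ζ)^m < v(1-ζ)` since `m ≥ 3`
  have hm : 2 ≤ m := by omega
  have h3 : P.valuation (1 - ζ) ^ m < P.valuation (1 - ζ) := by
    calc P.valuation (1 - ζ) ^ m ≤ P.valuation (1 - ζ) ^ 2 :=
          pow_le_pow_of_le_one zero_le hw1.le hm
      _ = P.valuation (1 - ζ) * P.valuation (1 - ζ) := sq _
      _ < P.valuation (1 - ζ) * 1 := mul_lt_mul_of_pos_left hw1 (zero_lt_iff.mpr hw0)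
      _ = P.valuation (1 - ζ) := mul_one _
  have h4 : P.valuation (1 - ζ) ^ m * P.valuation (1 - ζ⁻¹) <
      P.valuation (1 - ζ) * P.valuation (1 - ζ⁻¹) :=
    mul_lt_mul_of_pos_right h3 (zero_lt_iff.mpr hw'0)
  exact absurd (h1.trans h2) (not_le.mpr h4)

/-- A natural number whose square is `1` modulo the prime `p` is `±1` modulo `p`. -/
theorem pow_eq_or_of_sq_modEq (hp : p.Prime) {ζ : AlgebraicClosure ℚ} (hζ : IsPrimitiveRoot ζ p)
    {a : ℕ} (ha : a ^ 2 ≡ 1 [MOD p]) : ζ ^ a = ζ ∨ ζ ^ a = ζ⁻¹ := by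
  have : Fact p.Prime := ⟨hp⟩
  have h1 : ((a : ZMod p)) * (a : ZMod p) = 1 := by
    have := (ZMod.natCast_eq_natCast_iff _ _ _).2 ha
    rw [Nat.cast_pow, Nat.cast_one, sq] at this
    exact this
  rcases mul_self_eq_one_iff.1 h1 with h | h
  · left
    have h2 : a ≡ 1 [MOD p] := (ZMod.natCast_eq_natCast_iff _ _ _).1 (by rw [h, Nat.cast_one])
    have h3 : ζ ^ a = ζ ^ (a % p) := by rw [hζ.eq_orderOf, pow_mod_orderOf]
    have h4 : a % p = 1 := by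
      have h5 : a % p = 1 % p := h2
      rw [h5]
      exact Nat.mod_eq_of_lt hp.one_lt
    rw [h3, h4, pow_one]
  · right
    have h2 : ((a + 1 : ℕ) : ZMod p) = 0 := by rw [Nat.cast_add, h, Nat.cast_one, neg_add_cancel]
    have h3 : p ∣ a + 1 := (ZMod.natCast_eq_zero_iff _ _).1 h2
    apply eq_inv_of_mul_eq_one_left
    rw [← pow_succ]
    exact (hζ.pow_eq_one_iff_dvd _).2 h3

/-- The form with exponents: an inertia element whose exponent `a` on `μ_p` has `a² ≢ 1 (mod p)`. -/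
theorem exists_inertia_exponent_sq_ne_one (hp : p.Prime) (h5 : 5 ≤ p) (hP : P.LiesOverPrime p) :
    ∃ τ ∈ P.inertiaSubgroupIn ℚ, ∃ a : ℕ,
      (∀ μ : AlgebraicClosure ℚ, μ ^ p = 1 → τ μ = μ ^ a) ∧ ¬ (a ^ 2 ≡ 1 [MOD p]) := by
  have : NeZero p := ⟨hp.ne_zero⟩
  obtain ⟨ζ, hζ⟩ : ∃ ζ : AlgebraicClosure ℚ, IsPrimitiveRoot ζ p :=
    HasEnoughRootsOfUnity.exists_primitiveRoot (AlgebraicClosure ℚ) p
  obtain ⟨τ, hτ, hne1, hne2⟩ := exists_inertia_apply_ne_ne P hp h5 hP hζ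
  have hτζ : (τ ζ) ^ p = 1 := by rw [← map_pow, hζ.pow_eq_one, map_one]
  obtain ⟨a, -, ha⟩ := hζ.eq_pow_of_pow_eq_one hτζ
  refine ⟨τ, hτ, a, fun μ hμ => ?_, fun hmod => ?_⟩
  · obtain ⟨i, -, rfl⟩ := hζ.eq_pow_of_pow_eq_one hμ
    rw [map_pow, ← ha, ← pow_mul, ← pow_mul, mul_comm]
  · rcases pow_eq_or_of_sq_modEq hp hζ hmod with h | h
    · exact hne1 (ha.symm.trans h)
    · exact hne2 (ha.symm.trans h)

end Place

/-! ### The statement of `FlatIface20` -/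

open Fermat.Agent.ES.T56.FlatIface20 in
/-- **`ω²|_{I_p} ≠ 1` for `p ≥ 5`.** -/
theorem omegaSqNeOne (p : ℕ) [Fact p.Prime] : OmegaSqNeOne p := by
  intro h5
  have hp : p.Prime := Fact.out
  have hP : (primeLocalPlace (pPrime p)).LiesOverPrime p :=
    primeLocalPlace_liesOverPrime (pPrime p)
  obtain ⟨τ, hτ, a, ha, hne⟩ :=
    exists_inertia_exponent_sq_ne_one (primeLocalPlace (pPrime p)) hp h5 hP
  obtain ⟨g, hg⟩ := Fermat.Agent.ES.T56.LocSurj16.inertia_le_range_primes (pPrime p) hτ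
  refine ⟨g, ?_, a, fun μ hμ => ?_, hne⟩
  · show locp p g ∈ (primeLocalPlace (pPrime p)).inertiaSubgroupIn ℚ
    rw [show locp p g = τ from hg]
    exact hτ
  · rw [show locp p g = τ from hg]
    exact ha μ hμ

end Fermat.Agent.ES.T56.OmegaSq4
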