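/-
Programme T (S56), chapter FLAT (helper20): **the final wiring of FLAT-EXPORT**.

`flatExportM : FlatExportM p k` (unconditional) and
`flatExportM_of_kumF2 : KumF2 p k → FlatExportM p k` — every input of
`FlatExport20.flatExportM_of` is discharged: `KumF2` (helper17 `KumF2_17.kumF2`),
`KumF1` (helper17 `KumF1_17.kumF1`), `OmegaSqNeOne` (helper4 `OmegaSq4`), `IrrShape`/`RedShape`
(helper14 `FlatIrrShape14`/`FlatRedShape14`), `OmegaNeOne` (helper4 `OmegaNe4`), `RedEntry` (helper4
`FlatStable4`), `FlatPSplit`/`FlatPLowerLeft` (helper4 `FlatPSplit4`, helper10 `FlatPLower10`, from the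
package `FlatPkg20.flatPkg` and helper26's `FlatPCore26.flatPCore`).
-/
import Mathlib
import Fermat.Agent.ES.T56.FlatExport20
import Fermat.Agent.ES.T56.KumF1_17
import Fermat.Agent.ES.T56.KumF2_17
import Fermat.Agent.ES.T56.OmegaSq4
import Fermat.Agent.ES.T56.OmegaNe4
import Fermat.Agent.ES.T56.FlatStable4
import Fermat.Agent.ES.T56.FlatIrrShape14
import Fermat.Agent.ES.T56.FlatRedShape14
import Fermat.Agent.ES.T56.FlatPCore26
import Fermat.Agent.ES.T56.FlatPkg20
import Fermat.Agent.ES.T56.FlatPSplit4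
import Fermat.Agent.ES.T56.FlatPLower10

set_option autoImplicit false

namespace Fermat.Agent.ES.T56.FlatFinal20

open Fermat.Agent.ES.T56.FlatIface20 Fermat.Agent.ES.T56.FlatExport20

variable (p : ℕ) [Fact p.Prime] (k : Type) [Field k]

theorem omegaNeOne : OmegaNeOne p := fun hp2 => OmegaNe4.exists_inertia_ne_one p hp2

theorem redEntry : RedEntry p k := fun rbar hlev hdet hirr =>
  FlatStable4.exists_stableLine_of_not_irr p rbar hlev hdet hirr

theorem flatPkg : FlatPkgIface20.FlatPkg p k := FlatPkg20.flatPkg (FlatPCore26.flatPCore p)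

/-- **FLAT-EXPORT from `KumF2` alone.** -/
theorem flatExportM_of_kumF2 (hK2 : KumF2 p k) : FlatExportM p k :=
  flatExportM_of (KumF1_17.kumF1 p k) hK2 (OmegaSq4.omegaSqNeOne p) (FlatIrrShape14.irrShape p k)
    (FlatRedShape14.redShape p k) (FlatPSplit4.flatPSplit_of_pkg p k (flatPkg p k))
    (FlatPLower10.flatPLowerLeft_of_pkg p k (flatPkg p k)) (omegaNeOne p) (redEntry p k)

/-- **FLAT-EXPORT** (unconditional). -/
theorem flatExportM : FlatExportM p k := flatExportM_of_kumF2 p k (KumF2_17.kumF2 p k)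

end Fermat.Agent.ES.T56.FlatFinal20
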