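/-
Programme T (S56), FLAT leg, chapter FLAT-P, representation side, brick P2 — helper4.

`FlatPkg p k → FlatPSplit p k` (helper20's contract `FlatPkgIface20`): if `⟨v⟩` is a stable line of
`ρ̄|_{G_p}` with UNRAMIFIED sub-character `ψ₁` and some flat lift `r` of `ρ̄` to `k[ε]` with cyclotomic
determinant exists, then there is a complementary stable line `⟨v'⟩` (character `ψ₂`, quotient `ψ₁`).

PROOF (pure `k`-linear algebra with the bracket `cross` of `FlatStable4`).  Take `M°` with (Q1), (Q2)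
from the package; (Q2) at `E₂ = ⊥` says: an `x ∈ M°` fixed by inertia is `0`.  Pick `g₀` in inertia
with `ψ₂ g₀ ≠ 1` and put `T b = ρ̄(g₀) b - b`.  For all `g ∈ G_p`, `b ∈ k²`: `(0, ρ̄(g) T b) ∈ M°`
((Q1) for the inertial element `g g₀ g⁻¹`).  With `cross v w₀ = 1`, `λ = ψ₂ g₀ - 1`, `u = λ⁻¹ w₀`,
`v' = T u` one has `cross v v' = 1`.  Writing `ρ̄(g) v' = β v + α v'`, the element
`(0, β v) = (0, ρ̄(g) T u) - (0, T (α u))` lies in `M°` and is fixed by inertia (`ψ₁` unramified), so
`β = 0`: the line `⟨v'⟩` is stable, with character `α = ψ₂ g`; the quotient character is `ψ₁`.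
-/
import Mathlib
import Fermat.Agent.ES.T56.FlatIface20
import Fermat.Agent.ES.T56.FlatPkgIface20
import Fermat.Agent.ES.T56.FlatStable4

set_option autoImplicit false
set_option linter.unusedSectionVars false

namespace Fermat.Agent.ES.T56.FlatPSplit4

open ExtCitation Fermat.Agent.S53 Fermat.Agent.ES.T56.Ad0Rep10 Fermat.Agent.ES.T56.FlatIface20
  Fermat.Agent.ES.T56.FlatZ20 Fermat.Agent.ES.T56.FlatPkgIface20 Fermat.Agent.ES.T56.FlatStable4

section Aux

variable {p : ℕ} [Fact p.Prime] {k : Type} [Field k]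

theorem cross_swap (x y : Fin 2 → k) : cross x y = -cross y x := by
  unfold cross; ring

theorem cross_zero_right (x : Fin 2 → k) : cross x 0 = 0 := by
  unfold cross; simp only [Pi.zero_apply]; ring

theorem act_sub (r : GQ →* M2 (DualNumber k)) (g : Gp p) (x y : VV k) :
    act p r g (x - y) = act p r g x - act p r g y := by
  have h := act_add r g (x - y) y
  rw [sub_add_cancel] at h
  rw [h, add_sub_cancel_right]

theorem act_zero (r : GQ →* M2 (DualNumber k)) (g : Gp p) : act p r g (0 : VV k) = 0 := by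
  have h := act_smul r g (0 : k) (0 : VV k)
  rwa [zero_smul, zero_smul] at h

/-- `r(g)` on the `ε`-part is `ρ̄(g)`. -/
theorem act_inr {rbar : GQ →* M2 k} (r : GQ →* M2 (DualNumber k))
    (hfst : ∀ σ, fstM (r σ) = rbar σ) (g : Gp p) (b : Fin 2 → k) :
    act p r g ((0 : Fin 2 → k), b) = ((0 : Fin 2 → k), (rbar (locp p g)).mulVec b) := by
  apply Prod.ext
  · rw [act_fst]
    exact Matrix.mulVec_zero _
  · rw [act_snd]
    show (fstM (r (locp p g))).mulVec b + (sndM (r (locp p g))).mulVec 0 = _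
    rw [Matrix.mulVec_zero, add_zero, hfst]

end Aux

/-- **FLAT-P (α/β) from the connected-part package.** -/
theorem flatPSplit_of_pkg (p : ℕ) [Fact p.Prime] (k : Type) [Field k]
    (hpkg : FlatPkgIface20.FlatPkg p k) : FlatIface20.FlatPSplit p k := by
  intro hp2 hfin rbar v ψ₁ ψ₂ hv hur r hr hfst hdc hflat
  have hchar : CharP k p := charP_of_detIsCyclotomic r hr hdc
  obtain ⟨M0, Q1, Q2⟩ := hpkg hp2 hfin hchar r hr hflat
  obtain ⟨g₀, hg₀, hne⟩ := exists_inertia_right_ne_one hp2 hv hur r hr hfst hdc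
  obtain ⟨w₀, hvw⟩ := exists_cross_eq_one hv.ne
  -- the quotient character through the bracket
  have hq : ∀ (g : Gp p) (w : Fin 2 → k),
      cross v ((rbar (locp p g)).mulVec w) = ((ψ₂ g : kˣ) : k) * cross v w := by
    intro g w
    have h := cross_eq_zero_of_mem_span (hv.quot g w)
    rw [cross_sub_right, cross_smul_right, sub_eq_zero] at h
    exact h
  -- `λ = ψ₂ g₀ - 1 ≠ 0`
  have hlam : ((ψ₂ g₀ : kˣ) : k) - 1 ≠ 0 := by
    intro h
    apply hne
    apply Units.ext
    rw [Units.val_one]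
    exact sub_eq_zero.1 h
  -- (Q2) at `E₂ = ⊥`
  have hQ2 : ∀ x ∈ M0, (∀ g ∈ inertiaGp p, act p r g x - x = 0) → x = 0 := by
    intro x hx hfix
    have h := Q2 ⊥ (fun g y hy => by
      rw [AddSubgroup.mem_bot] at hy ⊢
      rw [hy, act_zero]) x hx (fun g hg => by
      rw [AddSubgroup.mem_bot]
      exact hfix g hg)
    exact (AddSubgroup.mem_bot).1 h
  -- `(0, T b) ∈ M°`
  have hT : ∀ b : Fin 2 → k,
      (((0 : Fin 2 → k), (rbar (locp p g₀)).mulVec b - b) : VV k) ∈ M0 := by
    intro b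
    have h := Q1 g₀ hg₀ ((0 : Fin 2 → k), b)
    rw [act_inr r hfst, Prod.mk_sub_mk, sub_zero] at h
    exact h
  -- `(0, ρ̄(g) T b) ∈ M°`
  have hgT : ∀ (g : Gp p) (b : Fin 2 → k),
      (((0 : Fin 2 → k),
        (rbar (locp p g)).mulVec ((rbar (locp p g₀)).mulVec b - b)) : VV k) ∈ M0 := by
    intro g b
    have h := Q1 (g * g₀ * g⁻¹) (inertiaGp_conj_mem hg₀ g) (act p r g ((0 : Fin 2 → k), b))
    rw [← act_mul, inv_mul_cancel_right, act_mul, ← act_sub, act_inr r hfst g₀, Prod.mk_sub_mk,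
      sub_zero, act_inr r hfst g] at h
    exact h
  -- the new vector
  obtain ⟨u, hu⟩ : ∃ u : Fin 2 → k, cross v ((rbar (locp p g₀)).mulVec u - u) = 1 := by
    refine ⟨(((ψ₂ g₀ : kˣ) : k) - 1)⁻¹ • w₀, ?_⟩
    rw [cross_sub_right, hq, cross_smul_right, hvw, mul_one, ← sub_one_mul,
      mul_inv_cancel₀ hlam]
  set v' : Fin 2 → k := (rbar (locp p g₀)).mulVec u - u with hv'
  have hTsmul : ∀ a : k, (rbar (locp p g₀)).mulVec (a • u) - a • u = a • v' := by
    intro a
    rw [Matrix.mulVec_smul, hv', smul_sub]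
  have hv'ne : v' ≠ 0 := by
    intro h
    rw [h, cross_zero_right] at hu
    exact zero_ne_one hu
  -- the line `⟨v'⟩` is stable, with character `ψ₂`
  have hsub : ∀ g : Gp p, (rbar (locp p g)).mulVec v' = ((ψ₂ g : kˣ) : k) • v' := by
    intro g
    have hdec := eq_cross_smul_add hu ((rbar (locp p g)).mulVec v')
    have hα : cross v ((rbar (locp p g)).mulVec v') = ((ψ₂ g : kˣ) : k) := by
      rw [hq, hu, mul_one]
    rw [hα] at hdec
    -- `(0, β v) ∈ M°`
    have hmem : (((0 : Fin 2 → k),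
        cross ((rbar (locp p g)).mulVec v') v' • v) : VV k) ∈ M0 := by
      have h1 := hgT g u
      have h2 := hT (((ψ₂ g : kˣ) : k) • u)
      rw [hTsmul] at h2
      have h3 := M0.sub_mem h1 h2
      rw [Prod.mk_sub_mk, sub_zero] at h3
      have e : (rbar (locp p g)).mulVec v' - ((ψ₂ g : kˣ) : k) • v' =
          cross ((rbar (locp p g)).mulVec v') v' • v := by
        conv_lhs => rw [hdec]
        rw [add_sub_cancel_right]
      rw [← e]
      exact h3
    have hzero := hQ2 _ hmem (fun h hh => by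
      rw [act_inr r hfst, Prod.mk_sub_mk, sub_zero, Matrix.mulVec_smul, hv.sub h, hur h hh,
        Units.val_one, one_smul, sub_self]
      rfl)
    have hβ : cross ((rbar (locp p g)).mulVec v') v' • v = 0 := congrArg Prod.snd hzero
    rw [hβ, zero_add] at hdec
    exact hdec
  refine ⟨v', hv'ne, hsub, fun g w => ?_⟩
  -- the quotient character is `ψ₁`
  obtain ⟨a, b, rfl⟩ : ∃ a b : k, w = a • v + b • v' := ⟨_, _, eq_cross_smul_add hu w⟩
  rw [Submodule.mem_span_singleton]
  refine ⟨b * (((ψ₂ g : kˣ) : k) - ((ψ₁ g : kˣ) : k)), ?_⟩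
  rw [Matrix.mulVec_add, Matrix.mulVec_smul, Matrix.mulVec_smul, hv.sub g, hsub g]
  ext i
  simp only [Pi.add_apply, Pi.sub_apply, Pi.smul_apply, smul_eq_mul]
  ring

end Fermat.Agent.ES.T56.FlatPSplit4
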