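/-
Chapter GT of Programme T (S56): vanishing of `H¹(G, ad⁰ ⊗ det)` for a finite subgroup
`G ≤ GL₂(k)` in explicit-cocycle form.  This file: the twisted adjoint action `act`, abstract
cocycles/coboundaries for a linear action `ρ : Γ →* Module.End k V`, and the concrete notions
`IsCocycle G c`, `IsCoboundary G c` for a subgroup `G ≤ GL₂(k)` and a function
`c : GL₂(k) → M₂(k)` (values outside `G` are irrelevant).
-/
import Mathlib

namespace Fermat.Agent.ES.T56.GTDefs19

open Matrix

variable {k : Type*} [Field k]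

/-! ### The twisted adjoint action -/

/-- The twisted adjoint action `g · m = det g • (g m g⁻¹)` of `GL₂(k)` on `M₂(k)`
(this is `ad ⊗ det`; on trace-zero matrices it is `ad⁰ ⊗ det`). -/
def act (g : GL (Fin 2) k) (m : Matrix (Fin 2) (Fin 2) k) : Matrix (Fin 2) (Fin 2) k :=
  g.1.det • (g.1 * m * (g⁻¹ : GL (Fin 2) k).1)

theorem act_one (m : Matrix (Fin 2) (Fin 2) k) : act (1 : GL (Fin 2) k) m = m := by
  simp [act]

theorem act_mul (g h : GL (Fin 2) k) (m : Matrix (Fin 2) (Fin 2) k) :
    act (g * h) m = act g (act h m) := by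
  simp only [act, Units.val_mul, Matrix.det_mul, _root_.mul_inv_rev, Matrix.mul_smul,
    Matrix.smul_mul, smul_smul, Matrix.mul_assoc]

theorem act_add (g : GL (Fin 2) k) (m n : Matrix (Fin 2) (Fin 2) k) :
    act g (m + n) = act g m + act g n := by
  simp only [act, Matrix.mul_add, Matrix.add_mul, smul_add]

theorem act_smul (g : GL (Fin 2) k) (a : k) (m : Matrix (Fin 2) (Fin 2) k) :
    act g (a • m) = a • act g m := by
  simp only [act, Matrix.mul_smul, Matrix.smul_mul, smul_smul, mul_comm]

theorem act_zero (g : GL (Fin 2) k) : act g (0 : Matrix (Fin 2) (Fin 2) k) = 0 := by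
  simp [act]

theorem act_neg (g : GL (Fin 2) k) (m : Matrix (Fin 2) (Fin 2) k) : act g (-m) = -act g m := by
  simp [act]

theorem act_sub (g : GL (Fin 2) k) (m n : Matrix (Fin 2) (Fin 2) k) :
    act g (m - n) = act g m - act g n := by
  simp only [sub_eq_add_neg, act_add, act_neg]

theorem trace_act (g : GL (Fin 2) k) (m : Matrix (Fin 2) (Fin 2) k) :
    (act g m).trace = g.1.det * m.trace := by
  unfold act
  rw [Matrix.trace_smul, Matrix.trace_mul_cycle, Units.inv_mul, Matrix.one_mul, smul_eq_mul]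

theorem act_one_mat (g : GL (Fin 2) k) :
    act g (1 : Matrix (Fin 2) (Fin 2) k) = g.1.det • (1 : Matrix (Fin 2) (Fin 2) k) := by
  unfold act
  rw [Matrix.mul_one, Units.mul_inv]

/-- The twisted adjoint action as a monoid homomorphism into `k`-linear endomorphisms. -/
def actHom : GL (Fin 2) k →* Module.End k (Matrix (Fin 2) (Fin 2) k) where
  toFun g :=
    { toFun := act g
      map_add' := act_add g
      map_smul' := fun a m => by simpa using act_smul g a m }
  map_one' := by
    ext1 m
    exact act_one m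
  map_mul' g h := by
    ext1 m
    exact act_mul g h m

theorem actHom_apply (g : GL (Fin 2) k) (m : Matrix (Fin 2) (Fin 2) k) : actHom g m = act g m :=
  rfl

/-! ### Abstract cocycles -/

section Abstract

variable {Γ V : Type*} [Group Γ] [AddCommGroup V] [Module k V]

/-- `c : Γ → V` is a 1-cocycle for the linear action `ρ`. -/
def Coc (ρ : Γ →* Module.End k V) (c : Γ → V) : Prop :=
  ∀ g h : Γ, c (g * h) = c g + ρ g (c h)

/-- `c : Γ → V` is a 1-coboundary for the linear action `ρ`. -/
def Cob (ρ : Γ →* Module.End k V) (c : Γ → V) : Prop :=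
  ∃ m : V, ∀ g : Γ, c g = ρ g m - m

theorem Coc.map_one {ρ : Γ →* Module.End k V} {c : Γ → V} (hc : Coc ρ c) : c 1 = 0 := by
  have h := hc 1 1
  rw [mul_one, _root_.map_one, Module.End.one_apply] at h
  simpa using h

theorem Coc.map_inv {ρ : Γ →* Module.End k V} {c : Γ → V} (hc : Coc ρ c) (g : Γ) :
    c g⁻¹ = -ρ g⁻¹ (c g) := by
  have h := hc g⁻¹ g
  rw [inv_mul_cancel, Coc.map_one hc] at h
  exact eq_neg_of_add_eq_zero_left h.symm

theorem Coc.sub_cob {ρ : Γ →* Module.End k V} {c : Γ → V} (hc : Coc ρ c) (m : V) :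
    Coc ρ (fun g => c g - (ρ g m - m)) := by
  intro g h
  simp only [hc g h, map_mul, Module.End.mul_apply, map_sub]
  abel

theorem Cob.of_sub {ρ : Γ →* Module.End k V} {c : Γ → V} (m : V)
    (h : Cob ρ (fun g => c g - (ρ g m - m))) : Cob ρ c := by
  obtain ⟨m', hm'⟩ := h
  refine ⟨m' + m, fun g => ?_⟩
  have := hm' g
  rw [map_add]
  rw [sub_eq_iff_eq_add] at this
  rw [this]
  abel

/-- Restriction of a cocycle along a group homomorphism. -/
theorem Coc.comp {Γ' : Type*} [Group Γ'] {ρ : Γ →* Module.End k V} {c : Γ → V} (hc : Coc ρ c)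
    (f : Γ' →* Γ) : Coc (ρ.comp f) (fun x => c (f x)) := by
  intro g h
  simp only [map_mul, MonoidHom.comp_apply]
  exact hc (f g) (f h)

end Abstract

/-! ### Concrete cocycles on a subgroup of `GL₂(k)` -/

/-- `c` restricted to the subgroup `G ≤ GL₂(k)` is a 1-cocycle with values in trace-zero matrices,
for the twisted adjoint action. -/
structure IsCocycle (G : Subgroup (GL (Fin 2) k))
    (c : GL (Fin 2) k → Matrix (Fin 2) (Fin 2) k) : Prop where
  trace_zero : ∀ g ∈ G, (c g).trace = 0
  map_mul : ∀ g ∈ G, ∀ h ∈ G, c (g * h) = c g + act g (c h)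

/-- `c` restricted to `G` is the coboundary of a trace-zero matrix. -/
def IsCoboundary (G : Subgroup (GL (Fin 2) k))
    (c : GL (Fin 2) k → Matrix (Fin 2) (Fin 2) k) : Prop :=
  ∃ m : Matrix (Fin 2) (Fin 2) k, m.trace = 0 ∧ ∀ g ∈ G, c g = act g m - m

/-- The action of the subgroup `G` (as a type) on `M₂(k)`. -/
def actSub (G : Subgroup (GL (Fin 2) k)) : G →* Module.End k (Matrix (Fin 2) (Fin 2) k) :=
  actHom.comp G.subtype

theorem actSub_apply (G : Subgroup (GL (Fin 2) k)) (g : G) (m : Matrix (Fin 2) (Fin 2) k) :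
    actSub G g m = act g.1 m :=
  rfl

theorem IsCocycle.coc {G : Subgroup (GL (Fin 2) k)}
    {c : GL (Fin 2) k → Matrix (Fin 2) (Fin 2) k} (hc : IsCocycle G c) :
    Coc (actSub G) (fun g : G => c g.1) := by
  intro g h
  exact hc.map_mul g.1 g.2 h.1 h.2

/-- A coboundary in `M₂(k)` of a trace-zero-valued function is the coboundary of a trace-zero
matrix (characteristic `≠ 2`). -/
theorem IsCoboundary.of_cob (h2 : (2 : k) ≠ 0) {G : Subgroup (GL (Fin 2) k)}
    {c : GL (Fin 2) k → Matrix (Fin 2) (Fin 2) k} (htr : ∀ g ∈ G, (c g).trace = 0)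
    (h : Cob (actSub G) (fun g : G => c g.1)) : IsCoboundary G c := by
  obtain ⟨m, hm⟩ := h
  have hm' : ∀ g ∈ G, c g = act g m - m := fun g hg => hm ⟨g, hg⟩
  set t : k := m.trace / 2 with ht
  refine ⟨m - t • (1 : Matrix (Fin 2) (Fin 2) k), ?_, fun g hg => ?_⟩
  · rw [Matrix.trace_sub, Matrix.trace_smul, Matrix.trace_one, Fintype.card_fin, smul_eq_mul, ht]
    have : m.trace / 2 * ((2 : ℕ) : k) = m.trace := by
      rw [Nat.cast_ofNat]
      field_simp
    rw [this, sub_self]
  · have h0 : (g.1.det - 1) * m.trace = 0 := by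
      have := htr g hg
      rw [hm' g hg, Matrix.trace_sub, trace_act] at this
      rw [sub_mul, one_mul]
      exact this
    have h1 : (g.1.det - 1) * t = 0 := by
      rw [ht, ← mul_div_assoc, h0, zero_div]
    rw [hm' g hg, act_sub, act_smul, act_one_mat, smul_smul]
    have : (t * g.1.det) • (1 : Matrix (Fin 2) (Fin 2) k) = t • 1 := by
      have : t * g.1.det = t := by
        have := h1
        rw [sub_mul, one_mul, sub_eq_zero] at this
        rw [mul_comm]
        exact this
      rw [this]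
    rw [this]
    abel

theorem IsCoboundary.cob {G : Subgroup (GL (Fin 2) k)}
    {c : GL (Fin 2) k → Matrix (Fin 2) (Fin 2) k} (h : IsCoboundary G c) :
    Cob (actSub G) (fun g : G => c g.1) := by
  obtain ⟨m, -, hm⟩ := h
  exact ⟨m, fun g => hm g.1 g.2⟩

end Fermat.Agent.ES.T56.GTDefs19
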