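/-
Chapter GT (S56): two abstract vanishing criteria for 1-cocycles of a linear action
`ρ : Γ →* Module.End k V`:
* `cob_of_central` (Sah): a central element acting by a scalar `μ ≠ 1` kills `H¹`;
* `cob_of_subgroup` (restriction–corestriction): a cocycle which is a coboundary on a subgroup
  of index invertible in `k` is a coboundary.
-/
import Fermat.Agent.ES.T56.GTDefs19

namespace Fermat.Agent.ES.T56.GTAvg19

open Fermat.Agent.ES.T56.GTDefs19

variable {k : Type*} [Field k] {Γ V : Type*} [Group Γ] [AddCommGroup V] [Module k V]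

/-- **Sah's lemma.** If a central element `z` acts on `V` by a scalar `μ ≠ 1`, every cocycle is a
coboundary. -/
theorem cob_of_central {ρ : Γ →* Module.End k V} {c : Γ → V} (hc : Coc ρ c) (z : Γ)
    (hz : ∀ g : Γ, g * z = z * g) (μ : k) (hμ : μ ≠ 1) (hρ : ∀ v : V, ρ z v = μ • v) :
    Cob ρ c := by
  have hμ' : μ - 1 ≠ 0 := sub_ne_zero.mpr hμ
  refine ⟨(μ - 1)⁻¹ • c z, fun g => ?_⟩
  have h1 := hc g z
  have h2 := hc z g
  rw [hz g, h2, hρ] at h1
  -- h1 : c z + μ • c g = c g + ρ g (c z)
  have h3 : (μ - 1) • c g = ρ g (c z) - c z := by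
    rw [sub_smul, one_smul, sub_eq_sub_iff_add_eq_add, add_comm, h1, add_comm]
  rw [map_smul, ← smul_sub, ← h3, smul_smul, inv_mul_cancel₀ hμ', one_smul]

/-- A cocycle vanishing on a subgroup `H` is constant on left cosets of `H`. -/
theorem coc_mul_of_vanish {ρ : Γ →* Module.End k V} {c : Γ → V} (hc : Coc ρ c) (H : Subgroup Γ)
    (hH : ∀ h ∈ H, c h = 0) (g : Γ) (h : Γ) (hh : h ∈ H) : c (g * h) = c g := by
  rw [hc g h, hH h hh, map_zero, add_zero]

/-- Averaging over `Γ ⧸ H`: a cocycle vanishing on a subgroup of index invertible in `k` is a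
coboundary. -/
theorem cob_of_vanish {ρ : Γ →* Module.End k V} {c : Γ → V} (hc : Coc ρ c) (H : Subgroup Γ)
    [H.FiniteIndex] (hidx : (H.index : k) ≠ 0) (hH : ∀ h ∈ H, c h = 0) : Cob ρ c := by
  classical
  let _ : Fintype (Γ ⧸ H) := H.fintypeQuotientOfFiniteIndex
  -- the function induced by `c` on `Γ ⧸ H`
  let f : Γ ⧸ H → V := Quotient.lift c (by
    intro a b hab
    have hab' : a⁻¹ * b ∈ H := QuotientGroup.leftRel_apply.mp hab
    have := coc_mul_of_vanish hc H hH a (a⁻¹ * b) hab'
    rw [mul_inv_cancel_left] at this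
    exact this.symm)
  have hf : ∀ g : Γ, f (QuotientGroup.mk g) = c g := fun g => rfl
  set S : V := ∑ q : Γ ⧸ H, f q with hS
  have key : ∀ x : Γ, S = (H.index : k) • c x + ρ x S := by
    intro x
    have h1 : S = ∑ q : Γ ⧸ H, f (x • q) :=
      (Equiv.sum_comp (MulAction.toPerm x : Equiv.Perm (Γ ⧸ H)) f).symm
    have h2 : ∀ q : Γ ⧸ H, f (x • q) = c x + ρ x (f q) := by
      intro q
      induction q using QuotientGroup.induction_on with
      | H g =>
        rw [show x • (QuotientGroup.mk g : Γ ⧸ H) = QuotientGroup.mk (x * g) from rfl, hf, hf]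
        exact hc x g
    have h3 : ∑ q : Γ ⧸ H, f (x • q) = (H.index : k) • c x + ρ x S := by
      simp only [h2]
      rw [Finset.sum_add_distrib, Finset.sum_const, Finset.card_univ, ← map_sum,
        ← Nat.card_eq_fintype_card, ← Subgroup.index_eq_card, Nat.cast_smul_eq_nsmul]
    exact h1.trans h3
  refine ⟨-((H.index : k)⁻¹ • S), fun x => ?_⟩
  have hx := key x
  have h3 : (H.index : k) • c x = S - ρ x S := by
    rw [eq_sub_iff_add_eq]
    exact hx.symm
  have h4 : c x = (H.index : k)⁻¹ • (S - ρ x S) := by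
    rw [← h3, smul_smul, inv_mul_cancel₀ hidx, one_smul]
  rw [h4, map_neg, map_smul, smul_sub]
  abel

/-- **Restriction–corestriction.** A cocycle which is a coboundary on a subgroup of index
invertible in `k` is a coboundary. -/
theorem cob_of_subgroup {ρ : Γ →* Module.End k V} {c : Γ → V} (hc : Coc ρ c) (H : Subgroup Γ)
    [H.FiniteIndex] (hidx : (H.index : k) ≠ 0) (hH : ∃ m : V, ∀ h ∈ H, c h = ρ h m - m) :
    Cob ρ c := by
  obtain ⟨m, hm⟩ := hH
  refine Cob.of_sub m ?_
  refine cob_of_vanish (hc.sub_cob m) H hidx (fun h hh => ?_)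
  simp only [hm h hh, sub_self]

end Fermat.Agent.ES.T56.GTAvg19
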