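/-
Chapter GT (S56): the abstract counting lemma (D′).

A finite group `Γ` acts on a finite set `X` (think: `G ∩ SL₂(k)` on `ℙ¹(k)`), `Z ≤ Γ` is a central
subgroup acting trivially, and `U x ≤ Γ` (`x : X`) are `p`-subgroups ("unipotent stabilisers") such
that every element outside `Z` either lies in `Z · (U x ∖ 1)` for some `x` (exactly one fixed
point) or has exactly two fixed points.  If `Γ` has no global fixed point, then `Γ` is transitive
on `Ω = {x | U x ≠ ⊥}`, the `U x` (`x ∈ Ω`) are Sylow `p`-subgroups, and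
`|Z| · q · (q - 1) ≤ 2 · |Stab x|` for `x ∈ Ω`, `q = |U x|`.
-/
import Mathlib

namespace Fermat.Agent.ES.T56.GTCount19

open MulAction

variable {Γ X : Type*} [Group Γ] [MulAction Γ X]

/-- The hypotheses of the counting lemma. -/
structure Hyp (p : ℕ) (Z : Subgroup Γ) (U : X → Subgroup Γ) : Prop where
  not_dvd_card : ¬ p ∣ Nat.card X
  Z_central : ∀ z ∈ Z, ∀ g : Γ, g * z = z * g
  Z_fix : ∀ z ∈ Z, ∀ x : X, z • x = x
  U_conj : ∀ (g : Γ) (x : X) (u : Γ), u ∈ U x → g * u * g⁻¹ ∈ U (g • x)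
  U_fix : ∀ x, ∀ u ∈ U x, u ≠ 1 → ∀ y, u • y = y ↔ y = x
  U_pgroup : ∀ x, IsPGroup p (U x)
  U_max : ∀ (x : X) (g : Γ), g • x = x → (∃ j : ℕ, g ^ p ^ j = 1) → g ∈ U x
  Z_U : ∀ x, ∀ z ∈ Z, z ∈ U x → z = 1
  cases : ∀ g : Γ, g ∉ Z →
    (∃ x, ∃ z ∈ Z, ∃ u ∈ U x, u ≠ 1 ∧ g = z * u) ∨ Nat.card {x : X // g • x = x} = 2
  no_fix : ∀ x : X, ∃ g : Γ, g • x ≠ x

variable {p : ℕ} {Z : Subgroup Γ} {U : X → Subgroup Γ}

theorem Hyp.U_smul (h : Hyp p Z U) {x : X} {u : Γ} (hu : u ∈ U x) : u • x = x := by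
  by_cases h1 : u = 1
  · rw [h1, one_smul]
  · exact (h.U_fix x u hu h1 x).mpr rfl

theorem Hyp.U_conj_iff (h : Hyp p Z U) (g : Γ) (x : X) (u : Γ) :
    g * u * g⁻¹ ∈ U (g • x) ↔ u ∈ U x := by
  refine ⟨fun hu => ?_, h.U_conj g x u⟩
  have := h.U_conj g⁻¹ (g • x) _ hu
  rw [inv_smul_smul] at this
  have e : g⁻¹ * (g * u * g⁻¹) * g⁻¹⁻¹ = u := by group
  rwa [e] at this

/-- Conjugation by `g` identifies `U x` with `U (g • x)`. -/
def Hyp.conjEquiv (h : Hyp p Z U) (g : Γ) (x : X) : U x ≃ U (g • x) where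
  toFun u := ⟨g * u.1 * g⁻¹, h.U_conj g x u.1 u.2⟩
  invFun v := ⟨g⁻¹ * v.1 * g, by
    have := (h.U_conj_iff g x (g⁻¹ * v.1 * g)).mp
    apply this
    have e : g * (g⁻¹ * v.1 * g) * g⁻¹ = v.1 := by group
    rw [e]
    exact v.2⟩
  left_inv u := by
    apply Subtype.ext
    simp only
    group
  right_inv v := by
    apply Subtype.ext
    simp only
    group

theorem Hyp.card_U_smul (h : Hyp p Z U) (g : Γ) (x : X) :
    Nat.card (U (g • x)) = Nat.card (U x) :=
  (Nat.card_congr (h.conjEquiv g x)).symm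

theorem Hyp.U_smul_ne_bot (h : Hyp p Z U) (g : Γ) {x : X} (hx : U x ≠ ⊥) : U (g • x) ≠ ⊥ := by
  intro hb
  apply hx
  rw [Subgroup.eq_bot_iff_forall] at hb ⊢
  intro u hu
  have := hb _ (h.U_conj g x u hu)
  have e : u = g⁻¹ * (g * u * g⁻¹) * g := by group
  rw [e, this]
  group

theorem card_stabilizer_smul (g : Γ) (x : X) :
    Nat.card (stabilizer Γ (g • x)) = Nat.card (stabilizer Γ x) :=
  (Nat.card_congr (stabilizerEquivStabilizer (g := g) (a := x) rfl).toEquiv).symm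

section Sylow

variable [Fact p.Prime]

/-- Some `U z` is a Sylow `p`-subgroup. -/
theorem Hyp.exists_sylow (h : Hyp p Z U) : ∃ (z : X) (S : Sylow p Γ), (S : Subgroup Γ) = U z := by
  obtain ⟨S⟩ : Nonempty (Sylow p Γ) := inferInstance
  obtain ⟨z, hz⟩ := S.isPGroup'.nonempty_fixed_point_of_prime_not_dvd_card X h.not_dvd_card
  refine ⟨z, S, ?_⟩
  have hle : (S : Subgroup Γ) ≤ U z := by
    intro s hs
    have h1 : s • z = z := hz ⟨s, hs⟩
    refine h.U_max z s h1 ?_
    obtain ⟨j, hj⟩ := S.isPGroup' ⟨s, hs⟩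
    refine ⟨j, ?_⟩
    have := congrArg Subtype.val hj
    simpa using this
  exact (S.is_maximal' (h.U_pgroup z) hle).symm

/-- `Γ` is transitive on `Ω = {x | U x ≠ ⊥}`; more precisely every point of `Ω` is conjugate to
the base point `z` of `exists_sylow`. -/
theorem Hyp.exists_smul_eq_of_sylow [Finite Γ] (h : Hyp p Z U) {z : X} {S : Sylow p Γ}
    (hS : (S : Subgroup Γ) = U z) {x : X} (hx : U x ≠ ⊥) : ∃ g : Γ, g • z = x := by
  obtain ⟨Q, hQ⟩ := (h.U_pgroup x).exists_le_sylow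
  obtain ⟨g, hg⟩ := MulAction.exists_smul_eq Γ S Q
  obtain ⟨u, hu1⟩ := (Subgroup.ne_bot_iff_exists_ne_one).mp hx
  have hu1' : u.1 ≠ 1 := fun h0 => hu1 (Subtype.ext h0)
  have huQ : u.1 ∈ (Q : Subgroup Γ) := hQ u.2
  rw [← hg, Sylow.coe_subgroup_smul, Subgroup.mem_pointwise_smul_iff_inv_smul_mem, hS] at huQ
  -- huQ : g⁻¹ • u ∈ U z  (conjugation action)
  have hconj : g⁻¹ * u.1 * g ∈ U z := by
    simpa [MulAut.smul_def, MulAut.conj_apply] using huQ
  have hne : g⁻¹ * u.1 * g ≠ 1 := by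
    intro h0
    apply hu1'
    have e : u.1 = g * (g⁻¹ * u.1 * g) * g⁻¹ := by group
    rw [e, h0]
    group
  have hfix : (g⁻¹ * u.1 * g) • (g⁻¹ • x) = g⁻¹ • x := by
    rw [smul_smul, mul_assoc, mul_assoc, mul_inv_cancel, mul_one, ← smul_smul, h.U_smul u.2]
  have := (h.U_fix z _ hconj hne (g⁻¹ • x)).mp hfix
  refine ⟨g, ?_⟩
  rw [← this, smul_inv_smul]

theorem Hyp.exists_smul_eq [Finite Γ] (h : Hyp p Z U) {x y : X} (hx : U x ≠ ⊥) (hy : U y ≠ ⊥) :
    ∃ g : Γ, g • x = y := by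
  obtain ⟨z, S, hS⟩ := h.exists_sylow
  obtain ⟨g₁, hg₁⟩ := h.exists_smul_eq_of_sylow hS hx
  obtain ⟨g₂, hg₂⟩ := h.exists_smul_eq_of_sylow hS hy
  refine ⟨g₂ * g₁⁻¹, ?_⟩
  rw [← hg₁, smul_smul, inv_mul_cancel_right, hg₂]

/-- Each nontrivial `U x` is a Sylow `p`-subgroup: its cardinality is the full `p`-part of `|Γ|`. -/
theorem Hyp.card_U_eq [Finite Γ] (h : Hyp p Z U) {x : X} (hx : U x ≠ ⊥) :
    Nat.card (U x) = p ^ (Nat.card Γ).factorization p := by
  obtain ⟨z, S, hS⟩ := h.exists_sylow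
  obtain ⟨g, hg⟩ := h.exists_smul_eq_of_sylow hS hx
  rw [← hg, h.card_U_smul, ← hS]
  exact S.card_eq_multiplicity

end Sylow

/-! ### The arithmetic core -/

theorem arith_core (N z₀ n q s e K d₁ e' : ℕ) (hz : 0 < z₀) (hq3 : 3 ≤ q)
    (hqodd : Nat.Coprime q 2) (hn : 2 ≤ n) (hNpos : 0 < N) (hN : N = n * s)
    (hs : s = z₀ * q * d₁) (hNK : N = K * e) (he : e = z₀ * e')
    (hK : K = 2 + n * (q - 2)) (hqK : q ∣ K) : q - 1 ≤ 2 * d₁ := by
  obtain ⟨D, hD⟩ := hqK
  have hqpos : 0 < q := by omega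
  have hd₁ : 0 < d₁ := by
    rcases Nat.eq_zero_or_pos d₁ with h | h
    · subst h
      simp only [mul_zero] at hs
      subst hs
      simp at hN
      omega
    · exact h
  -- n * d₁ = D * e'
  have h1 : n * d₁ = D * e' := by
    have : z₀ * q * (n * d₁) = z₀ * q * (D * e') := by
      calc z₀ * q * (n * d₁) = n * (z₀ * q * d₁) := by ring
        _ = N := by rw [← hs, ← hN]
        _ = K * e := hNK
        _ = z₀ * q * (D * e') := by rw [hD, he]; ring
    exact Nat.eq_of_mul_eq_mul_left (Nat.mul_pos hz hqpos) this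
  have h2 : D ∣ n * d₁ := ⟨e', h1⟩
  have h3 : D ∣ K * d₁ := by
    rw [hD]
    exact Dvd.dvd.mul_right (Dvd.intro_left q rfl) d₁
  have h4 : D ∣ Nat.gcd n K * d₁ := by
    rw [← Nat.gcd_mul_right]
    exact Nat.dvd_gcd h2 h3
  have h5 : Nat.gcd n K ∣ 2 := by
    rw [hK, Nat.gcd_add_mul_left_right]
    exact Nat.gcd_dvd_right n 2
  have h6 : D ∣ 2 * d₁ := h4.trans (Nat.mul_dvd_mul_right h5 d₁)
  have h7 : D ≤ 2 * d₁ := Nat.le_of_dvd (by omega) h6
  -- q ∣ n - 1
  have h8 : q ∣ n - 1 := by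
    have : q ∣ 2 * (n - 1) := by
      have e1 : 2 * (n - 1) + K = q * n := by
        rw [hK]
        obtain ⟨q', rfl⟩ : ∃ q', q = q' + 2 := ⟨q - 2, by omega⟩
        obtain ⟨n', rfl⟩ : ∃ n', n = n' + 1 := ⟨n - 1, by omega⟩
        simp only [Nat.add_sub_cancel]
        ring
      have : q ∣ 2 * (n - 1) + K := by rw [e1]; exact Dvd.intro _ rfl
      exact (Nat.dvd_add_left ⟨D, hD⟩).mp this
    exact hqodd.dvd_of_dvd_mul_left this
  have h9 : q ≤ n - 1 := Nat.le_of_dvd (by omega) h8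
  -- K ≥ q * (q - 1)
  have h10 : q * (q - 1) ≤ K := by
    rw [hK]
    obtain ⟨q', rfl⟩ : ∃ q', q = q' + 2 := ⟨q - 2, by omega⟩
    simp only [Nat.add_sub_cancel]
    have : q' + 2 + 1 ≤ n := by omega
    calc (q' + 2) * (q' + 2 - 1) = (q' + 2) * (q' + 1) := by congr 1
      _ ≤ 2 + (q' + 2 + 1) * q' := by ring_nf; omega
      _ ≤ 2 + n * q' := by
        have := Nat.mul_le_mul_right q' this
        omega
  have h11 : q - 1 ≤ D := by
    rw [hD] at h10
    exact Nat.le_of_mul_le_mul_left h10 hqpos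
  omega

theorem mul_pred_eq (n q : ℕ) (hq : 2 ≤ q) : n * (q - 1) = n * (q - 2) + n := by
  obtain ⟨q', rfl⟩ : ∃ q', q = q' + 2 := ⟨q - 2, by omega⟩
  simp only [Nat.add_sub_cancel]
  have : q' + 2 - 1 = q' + 1 := by omega
  rw [this]
  ring

/-! ### Counting -/

section Count

variable [Fintype Γ] [Fintype X]

open scoped Classical in
theorem sum_card_fix_eq :
    ∑ g : Γ, (Finset.univ.filter (fun x : X => g • x = x)).card =
      ∑ x : X, (Finset.univ.filter (fun g : Γ => g • x = x)).card := by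
  simp only [Finset.card_filter]
  exact Finset.sum_comm

omit [Fintype X] in
open scoped Classical in
theorem card_stabilizer_eq (x : X) :
    Nat.card (stabilizer Γ x) = (Finset.univ.filter (fun g : Γ => g • x = x)).card := by
  refine Nat.subtype_card _ (fun g => ?_)
  simp [mem_stabilizer_iff]

omit [Fintype Γ] in
open scoped Classical in
theorem card_orbit_eq (x : X) :
    Nat.card (orbit Γ x) = (Finset.univ.filter (fun y : X => y ∈ orbit Γ x)).card := by
  refine Nat.subtype_card _ (fun g => ?_)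
  simp

omit [Fintype Γ] [Fintype X] in
theorem card_orbit_mul_card_stabilizer (x : X) :
    Nat.card (orbit Γ x) * Nat.card (stabilizer Γ x) = Nat.card Γ := by
  rw [← Nat.card_prod]
  exact Nat.card_congr (orbitProdStabilizerEquivGroup Γ x)

omit [Fintype X] in
open scoped Classical in
theorem card_subgroup_eq (H : Subgroup Γ) :
    Nat.card H = (Finset.univ.filter (fun g : Γ => g ∈ H)).card := by
  refine Nat.subtype_card _ (fun g => ?_)
  simp

/-- The elements `z * u` with `z ∈ Z`, `u ∈ U x`, `u ≠ 1`. -/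
noncomputable def TF (Z : Subgroup Γ) (U : X → Subgroup Γ) (x : X) : Finset Γ :=
  open scoped Classical in
  ((Finset.univ.filter (fun g : Γ => g ∈ Z)) ×ˢ
    ((Finset.univ.filter (fun g : Γ => g ∈ U x)).erase 1)).image (fun zu => zu.1 * zu.2)

omit [MulAction Γ X] [Fintype X] in
theorem mem_TF {x : X} {g : Γ} :
    g ∈ TF Z U x ↔ ∃ z ∈ Z, ∃ u ∈ U x, u ≠ 1 ∧ g = z * u := by
  classical
  simp only [TF, Finset.mem_image, Finset.mem_product, Finset.mem_filter, Finset.mem_univ,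
    true_and, Finset.mem_erase, Prod.exists]
  constructor
  · rintro ⟨z, u, ⟨hz, hu1, hu⟩, rfl⟩
    exact ⟨z, hz, u, hu, hu1, rfl⟩
  · rintro ⟨z, hz, u, hu, hu1, rfl⟩
    exact ⟨z, u, ⟨hz, hu1, hu⟩, rfl⟩

omit [Fintype Γ] [Fintype X] in
theorem Hyp.fix_of_mem_TF (h : Hyp p Z U) {x : X} {z u : Γ} (hz : z ∈ Z) (hu : u ∈ U x)
    (hu1 : u ≠ 1) (y : X) : (z * u) • y = y ↔ y = x := by
  rw [mul_smul, h.Z_fix z hz]
  exact h.U_fix x u hu hu1 y

omit [Fintype X] in
theorem Hyp.card_TF (h : Hyp p Z U) (x : X) :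
    (TF Z U x).card = Nat.card Z * (Nat.card (U x) - 1) := by
  classical
  rw [TF, Finset.card_image_of_injOn, Finset.card_product, Finset.card_erase_of_mem,
    ← card_subgroup_eq, ← card_subgroup_eq]
  · simp [(U x).one_mem]
  · rintro ⟨z, u⟩ hzu ⟨z', u'⟩ hzu' heq
    simp only [Finset.coe_product, Set.mem_prod, Finset.mem_coe, Finset.mem_filter,
      Finset.mem_univ, true_and, Finset.mem_erase] at hzu hzu'
    simp only at heq
    have h1 : z'⁻¹ * z = u' * u⁻¹ := by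
      have : z * u * u⁻¹ = z' * u' * u⁻¹ := by rw [heq]
      rw [mul_inv_cancel_right] at this
      rw [this]
      group
    have h2 : z'⁻¹ * z ∈ Z := Z.mul_mem (Z.inv_mem hzu'.1) hzu.1
    have h3 : z'⁻¹ * z ∈ U x := by
      rw [h1]
      exact (U x).mul_mem hzu'.2.2 ((U x).inv_mem hzu.2.2)
    have h4 := h.Z_U x _ h2 h3
    have h5 : z = z' := by
      have := inv_mul_eq_one.mp h4
      exact this.symm
    have h6 : u = u' := by
      rw [h5] at heq
      exact mul_left_cancel heq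
    rw [h5, h6]

omit [Fintype Γ] [Fintype X] in
theorem Hyp.not_mem_Z_of_mem_TF (h : Hyp p Z U) {x : X} {z u : Γ} (hz : z ∈ Z) (hu : u ∈ U x)
    (hu1 : u ≠ 1) : z * u ∉ Z := by
  intro hzu
  apply hu1
  apply h.Z_U x u _ hu
  have : u = z⁻¹ * (z * u) := by group
  rw [this]
  exact Z.mul_mem (Z.inv_mem hz) hzu

omit [Fintype X] in
theorem Hyp.disjoint_TF (h : Hyp p Z U) {x x' : X} (hxx' : x ≠ x') :
    Disjoint (TF Z U x) (TF Z U x') := by
  rw [Finset.disjoint_left]
  intro g hg hg'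
  obtain ⟨z, hz, u, hu, hu1, rfl⟩ := mem_TF.mp hg
  obtain ⟨z', hz', u', hu', hu1', he⟩ := mem_TF.mp hg'
  have h1 := (h.fix_of_mem_TF hz hu hu1 x).mpr rfl
  rw [he] at h1
  exact hxx' ((h.fix_of_mem_TF hz' hu' hu1' x).mp h1)

open scoped Classical in
/-- The basic double count. -/
theorem Hyp.count_identity (h : Hyp p Z U) :
    ∑ x : X, Nat.card (stabilizer Γ x) + ∑ x : X, Nat.card Z * (Nat.card (U x) - 1)
        + 2 * Nat.card Z = 2 * Nat.card Γ + Nat.card Z * Nat.card X := by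
  set T : Finset Γ := Finset.univ.biUnion (TF Z U) with hT
  have hTcard : T.card = ∑ x : X, Nat.card Z * (Nat.card (U x) - 1) := by
    rw [hT, Finset.card_biUnion]
    · exact Finset.sum_congr rfl (fun x _ => h.card_TF x)
    · intro x _ x' _ hxx'
      exact h.disjoint_TF hxx'
  have hmemT : ∀ g : Γ, g ∈ T ↔ ∃ x, ∃ z ∈ Z, ∃ u ∈ U x, u ≠ 1 ∧ g = z * u := by
    intro g
    simp only [hT, Finset.mem_biUnion, Finset.mem_univ, true_and, mem_TF]
  have key : ∀ g : Γ, (Finset.univ.filter (fun x : X => g • x = x)).card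
      + (if g ∈ T then 1 else 0) + (if g ∈ Z then 2 else 0)
      = 2 + (if g ∈ Z then Nat.card X else 0) := by
    intro g
    by_cases hgZ : g ∈ Z
    · have hgT : g ∉ T := by
        intro hgT
        obtain ⟨x, z, hz, u, hu, hu1, rfl⟩ := (hmemT g).mp hgT
        exact h.not_mem_Z_of_mem_TF hz hu hu1 hgZ
      have : (Finset.univ.filter (fun x : X => g • x = x)) = Finset.univ := by
        apply Finset.filter_true_of_mem
        intro x _
        exact h.Z_fix g hgZ x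
      rw [this, if_neg hgT, if_pos hgZ, if_pos hgZ, Finset.card_univ, Nat.card_eq_fintype_card]
      ring
    · by_cases hgT : g ∈ T
      · obtain ⟨x, z, hz, u, hu, hu1, rfl⟩ := (hmemT g).mp hgT
        have : (Finset.univ.filter (fun y : X => (z * u) • y = y)) = {x} := by
          ext y
          simp only [Finset.mem_filter, Finset.mem_univ, true_and, Finset.mem_singleton]
          exact h.fix_of_mem_TF hz hu hu1 y
        rw [this, if_pos hgT, if_neg hgZ, if_neg hgZ, Finset.card_singleton]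
      · rcases h.cases g hgZ with h1 | h1
        · exact absurd ((hmemT g).mpr h1) hgT
        · have : (Finset.univ.filter (fun x : X => g • x = x)).card = 2 := by
            rw [← h1]
            symm
            exact Nat.subtype_card _ (fun x => by simp)
          rw [this, if_neg hgT, if_neg hgZ, if_neg hgZ]
  have hsum := Finset.sum_congr (rfl : (Finset.univ : Finset Γ) = Finset.univ) (fun g _ => key g)
  rw [Finset.sum_add_distrib, Finset.sum_add_distrib, Finset.sum_add_distrib, sum_card_fix_eq]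
    at hsum
  simp only [Finset.sum_ite_mem, Finset.univ_inter, Finset.sum_const, smul_eq_mul,
    Finset.card_univ] at hsum
  have hZc : ∀ a : ℕ, (∑ g : Γ, if g ∈ Z then a else 0) = Nat.card Z * a := by
    intro a
    rw [← Finset.sum_filter, Finset.sum_const, smul_eq_mul, ← card_subgroup_eq]
  rw [hZc, hZc] at hsum
  have hst : ∀ x : X, (Finset.univ.filter (fun g : Γ => g • x = x)).card
      = Nat.card (stabilizer Γ x) := fun x => (card_stabilizer_eq x).symm
  simp only [hst] at hsum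
  rw [← hTcard, ← Nat.card_eq_fintype_card (α := Γ)] at *
  linarith

end Count

section Main

variable [Finite Γ] [Fact p.Prime]

/-- A subgroup fixing `x` and meeting `U x` trivially has order prime to `p` (Cauchy). -/
theorem Hyp.not_dvd_card_of_inf (h : Hyp p Z U) (x : X) (H : Subgroup Γ)
    (hfix : ∀ g ∈ H, g • x = x) (hU : ∀ g ∈ H, g ∈ U x → g = 1) : ¬ p ∣ Nat.card H := by
  intro hdvd
  obtain ⟨g, hg⟩ := exists_prime_orderOf_dvd_card' p hdvd
  have hp : p.Prime := Fact.out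
  have h1 : g.1 ^ p ^ 1 = 1 := by
    rw [pow_one, ← hg, ← Subgroup.orderOf_coe, pow_orderOf_eq_one]
  have h2 : g.1 ∈ U x := h.U_max x g.1 (hfix g.1 g.2) ⟨1, h1⟩
  have h3 : g.1 = 1 := hU g.1 g.2 h2
  have h4 : g = 1 := Subtype.ext h3
  rw [h4, orderOf_one] at hg
  exact hp.one_lt.ne hg

/-- Each nontrivial `U x` has index prime to `p`. -/
theorem Hyp.not_dvd_index (h : Hyp p Z U) {x : X} (hx : U x ≠ ⊥) : ¬ p ∣ (U x).index := by
  intro hdvd
  have hp : p.Prime := Fact.out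
  have h1 := (U x).card_mul_index
  rw [h.card_U_eq hx] at h1
  have h2 : p ^ ((Nat.card Γ).factorization p + 1) ∣ Nat.card Γ := by
    have h3 : p ^ (Nat.card Γ).factorization p * p ∣
        p ^ (Nat.card Γ).factorization p * (U x).index := Nat.mul_dvd_mul_left _ hdvd
    rw [pow_succ]
    exact h3.trans (dvd_of_eq h1)
  exact Nat.pow_succ_factorization_not_dvd Nat.card_pos.ne' hp h2

/-- Points of `Ω = {x | U x ≠ ⊥}` form the orbit of any of its points. -/
theorem Hyp.ne_bot_iff_mem_orbit (h : Hyp p Z U) {x₀ : X} (hx₀ : U x₀ ≠ ⊥) (x : X) :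
    U x ≠ ⊥ ↔ x ∈ orbit Γ x₀ := by
  constructor
  · intro hx
    obtain ⟨g, hg⟩ := h.exists_smul_eq hx₀ hx
    exact ⟨g, hg⟩
  · rintro ⟨g, rfl⟩
    exact h.U_smul_ne_bot g hx₀

open scoped Classical in
/-- **The counting lemma (D′).** -/
theorem Hyp.main [Finite X] (hp2 : p ≠ 2) (h : Hyp p Z U) {x₀ : X} (hx₀ : U x₀ ≠ ⊥) :
    Nat.card Z * (Nat.card (U x₀) * (Nat.card (U x₀) - 1))
      ≤ 2 * Nat.card (stabilizer Γ x₀) := by
  have : Fintype Γ := Fintype.ofFinite Γ
  have : Fintype X := Fintype.ofFinite X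
  have hp : p.Prime := Fact.out
  set N := Nat.card Γ with hNdef
  set z₀ := Nat.card Z with hz₀
  set q := Nat.card (U x₀) with hqdef
  set s := Nat.card (stabilizer Γ x₀) with hsdef
  set n := Nat.card (orbit Γ x₀) with hndef
  have hNpos : 0 < N := Nat.card_pos
  have hz₀pos : 0 < z₀ := Nat.card_pos
  have hspos : 0 < s := Nat.card_pos
  -- `q` is an odd prime power `≥ 3`
  have hq_eq : q = p ^ (Nat.card Γ).factorization p := h.card_U_eq hx₀
  have hq1 : 1 < q := (Subgroup.one_lt_card_iff_ne_bot _).mpr hx₀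
  have hp3 : 3 ≤ p := by
    have := hp.two_le
    omega
  have hq3 : 3 ≤ q := by
    have ha : (Nat.card Γ).factorization p ≠ 0 := by
      intro h0
      rw [hq_eq, h0, pow_zero] at hq1
      exact lt_irrefl _ hq1
    calc 3 ≤ p := hp3
      _ = p ^ 1 := (pow_one p).symm
      _ ≤ p ^ (Nat.card Γ).factorization p :=
          Nat.pow_le_pow_right hp.pos (Nat.one_le_iff_ne_zero.mpr ha)
      _ = q := hq_eq.symm
  have hqodd : Nat.Coprime q 2 := by
    rw [hq_eq]
    exact Nat.Coprime.pow_left _ ((Nat.coprime_primes hp Nat.prime_two).mpr hp2)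
  have hqp : ∀ m : ℕ, ¬ p ∣ m → Nat.Coprime q m := by
    intro m hm
    rw [hq_eq]
    exact Nat.Coprime.pow_left _ ((Nat.Prime.coprime_iff_not_dvd hp).mpr hm)
  -- `N = n * s`
  have hN : N = n * s := (card_orbit_mul_card_stabilizer x₀).symm
  -- `s = z₀ * q * d₁`
  have hzq : Nat.Coprime z₀ q := by
    apply Nat.Coprime.symm
    apply hqp
    exact h.not_dvd_card_of_inf x₀ Z (fun g hg => h.Z_fix g hg x₀) (fun g hg hgU => h.Z_U x₀ g hg hgU)
  have hzdvd : ∀ y : X, z₀ ∣ Nat.card (stabilizer Γ y) := fun y =>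
    Subgroup.card_dvd_of_le (fun z hz => h.Z_fix z hz y)
  have hqdvd : q ∣ s := Subgroup.card_dvd_of_le (fun u hu => h.U_smul hu)
  obtain ⟨d₁, hd₁⟩ : z₀ * q ∣ s := hzq.mul_dvd_of_dvd_of_dvd (hzdvd x₀) hqdvd
  have hd₁pos : 0 < d₁ := by
    rcases Nat.eq_zero_or_pos d₁ with h0 | h0
    · rw [h0, mul_zero] at hd₁
      omega
    · exact h0
  -- `Ω` and its complement `Y`
  set Ω : Finset X := Finset.univ.filter (fun x => x ∈ orbit Γ x₀) with hΩ
  set Y : Finset X := Finset.univ.filter (fun x => ¬ x ∈ orbit Γ x₀) with hY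
  have hΩcard : Ω.card = n := (card_orbit_eq x₀).symm
  have hXcard : Nat.card X = n + Y.card := by
    rw [← hΩcard, Nat.card_eq_fintype_card, ← Finset.card_univ,
      ← Finset.card_filter_add_card_filter_not (fun x => x ∈ orbit Γ x₀)]
  have hn2 : 2 ≤ n := by
    rw [← hΩcard]
    obtain ⟨g, hg⟩ := h.no_fix x₀
    apply Finset.one_lt_card.mpr
    refine ⟨x₀, ?_, g • x₀, ?_, hg.symm⟩
    · simp [hΩ]
    · simp [hΩ]
  have hqΩ : ∀ x ∈ Ω, Nat.card (U x) = q := by
    intro x hx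
    obtain ⟨g, rfl⟩ := (Finset.mem_filter.mp hx).2
    exact h.card_U_smul g x₀
  have hsΩ : ∀ x ∈ Ω, Nat.card (stabilizer Γ x) = s := by
    intro x hx
    obtain ⟨g, rfl⟩ := (Finset.mem_filter.mp hx).2
    exact card_stabilizer_smul g x₀
  have hUY : ∀ y ∈ Y, U y = ⊥ := by
    intro y hy
    by_contra hne
    exact (Finset.mem_filter.mp hy).2 ((h.ne_bot_iff_mem_orbit hx₀ y).mp hne)
  have hqY : ∀ y ∈ Y, Nat.card (U y) = 1 := by
    intro y hy
    rw [hUY y hy]
    exact Subgroup.card_bot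
  set t : X → ℕ := fun y => Nat.card (stabilizer Γ y) - z₀ with ht
  have hst : ∀ y, Nat.card (stabilizer Γ y) = z₀ + t y := by
    intro y
    have := Nat.le_of_dvd Nat.card_pos (hzdvd y)
    simp only [ht]
    omega
  have hzt : ∀ y, z₀ ∣ t y := by
    intro y
    have := hzdvd y
    rw [hst y] at this
    exact (Nat.dvd_add_right (dvd_refl z₀)).mp this
  -- the two sums
  have hsum1 : ∑ x : X, Nat.card (stabilizer Γ x) = n * s + z₀ * Y.card + ∑ y ∈ Y, t y := by
    rw [← Finset.sum_filter_add_sum_filter_not Finset.univ (fun x => x ∈ orbit Γ x₀)]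
    rw [Finset.sum_congr rfl hsΩ, Finset.sum_const, smul_eq_mul, hΩcard]
    rw [Finset.sum_congr rfl (fun y _ => hst y), Finset.sum_add_distrib, Finset.sum_const,
      smul_eq_mul]
    ring
  have hsum2 : ∑ x : X, z₀ * (Nat.card (U x) - 1) = n * (z₀ * (q - 1)) := by
    rw [← Finset.sum_filter_add_sum_filter_not Finset.univ (fun x => x ∈ orbit Γ x₀)]
    rw [Finset.sum_congr rfl (fun x hx => by rw [hqΩ x hx]), Finset.sum_const, smul_eq_mul,
      hΩcard]
    rw [Finset.sum_congr rfl (fun y hy => by rw [hqY y hy]), Finset.sum_const]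
    simp
  have hid : ∑ x : X, Nat.card (stabilizer Γ x) + ∑ x : X, z₀ * (Nat.card (U x) - 1)
        + 2 * z₀ = 2 * N + z₀ * Nat.card X := h.count_identity
  rw [hsum1, hsum2, hXcard, mul_add, ← hN] at hid
  -- (‡′)
  have hR : ∑ y ∈ Y, t y + n * (z₀ * (q - 1)) + 2 * z₀ = N + z₀ * n := by
    omega
  -- orbits inside `Y`
  have horb : ∀ y : X, ∀ y' ∈ orbit Γ y, t y' = t y := by
    rintro y _ ⟨g, rfl⟩
    simp only [ht, card_stabilizer_smul]
  have horbY : ∀ y ∈ Y, ∀ y' ∈ orbit Γ y, y' ∈ Y := by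
    intro y hy y' hy'
    simp only [hY, Finset.mem_filter, Finset.mem_univ, true_and] at hy ⊢
    intro h1
    apply hy
    rw [← MulAction.orbit_eq_iff] at hy' h1
    rw [← h1, hy']
    exact mem_orbit_self y
  set O : X → Finset X := fun y => Finset.univ.filter (fun y' => y' ∈ orbit Γ y) with hO
  have hOcard : ∀ y, (O y).card * (z₀ + t y) = N := by
    intro y
    rw [← hst y, ← card_orbit_eq y]
    exact card_orbit_mul_card_stabilizer y
  have hOsub : ∀ y ∈ Y, O y ⊆ Y := by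
    intro y hy y' hy'
    exact horbY y hy y' (Finset.mem_filter.mp hy').2
  have hOsum : ∀ y, ∑ y' ∈ O y, t y' = (O y).card * t y := by
    intro y
    rw [Finset.sum_congr rfl (fun y' hy' => horb y y' (Finset.mem_filter.mp hy').2),
      Finset.sum_const, smul_eq_mul]
  have hOhalf : ∀ y, t y ≠ 0 → N ≤ 2 * ((O y).card * t y) := by
    intro y hty
    have h1 : z₀ ≤ t y := Nat.le_of_dvd (Nat.pos_of_ne_zero hty) (hzt y)
    rw [← hOcard y, mul_add]
    have := Nat.mul_le_mul_left (O y).card h1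
    omega
  -- existence of a non-regular orbit
  have hex : ∃ y₀ ∈ Y, t y₀ ≠ 0 := by
    by_contra hcon
    have hcon' : ∀ y ∈ Y, t y = 0 := fun y hy => by
      by_contra hne
      exact hcon ⟨y, hy, hne⟩
    rw [Finset.sum_congr rfl hcon', Finset.sum_const_zero, zero_add, hN, hd₁] at hR
    have h1 : n * (q - 1) = n * q - n := Nat.mul_sub_one n q
    have h2 : n * q ≤ n * q * d₁ := Nat.le_mul_of_pos_right _ hd₁pos
    have h3 : n ≤ n * q := Nat.le_mul_of_pos_right _ (by omega)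
    have h4 : z₀ * (n * (q - 1) + 2) = z₀ * (n * q * d₁ + n) := by
      calc z₀ * (n * (q - 1) + 2) = n * (z₀ * (q - 1)) + 2 * z₀ := by ring
        _ = n * (z₀ * q * d₁) + z₀ * n := hR
        _ = z₀ * (n * q * d₁ + n) := by ring
    have h5 := Nat.eq_of_mul_eq_mul_left hz₀pos h4
    omega
  obtain ⟨y₀, hy₀, hty₀⟩ := hex
  -- uniqueness of the non-regular orbit
  have huniq : ∀ y₁ ∈ Y, y₁ ∉ O y₀ → t y₁ = 0 := by
    intro y₁ hy₁ hy₁O
    by_contra hty₁
    have hdisj : Disjoint (O y₀) (O y₁) := by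
      rw [Finset.disjoint_left]
      intro y hy hy'
      apply hy₁O
      have e0 := (MulAction.orbit_eq_iff).mpr (Finset.mem_filter.mp hy).2
      have e1 := (MulAction.orbit_eq_iff).mpr (Finset.mem_filter.mp hy').2
      simp only [hO, Finset.mem_filter, Finset.mem_univ, true_and]
      rw [← e0, e1]
      exact mem_orbit_self y₁
    have hsub : O y₀ ∪ O y₁ ⊆ Y := Finset.union_subset (hOsub y₀ hy₀) (hOsub y₁ hy₁)
    have hle : ∑ y ∈ O y₀ ∪ O y₁, t y ≤ ∑ y ∈ Y, t y := Finset.sum_le_sum_of_subset hsub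
    rw [Finset.sum_union hdisj, hOsum, hOsum] at hle
    have h0 := hOhalf y₀ hty₀
    have h1 := hOhalf y₁ hty₁
    have h2 : N ≤ ∑ y ∈ Y, t y := by omega
    have h3 : n * (z₀ * 2) ≤ n * (z₀ * (q - 1)) :=
      Nat.mul_le_mul_left n (Nat.mul_le_mul_left z₀ (by omega))
    have h4 : 0 < z₀ * n := Nat.mul_pos hz₀pos (by omega)
    have h5 : n * (z₀ * 2) = 2 * (z₀ * n) := by ring
    omega
  have hRO : ∑ y ∈ Y, t y = (O y₀).card * t y₀ := by
    rw [← hOsum y₀]
    symm
    exact Finset.sum_subset (hOsub y₀ hy₀) huniq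
  set K := (O y₀).card with hKdef
  set e := z₀ + t y₀ with hedef
  have hNK : N = K * e := (hOcard y₀).symm
  -- `K = 2 + n * (q - 2)`
  have hK : K = 2 + n * (q - 2) := by
    rw [hRO, hNK, hedef, mul_add] at hR
    have h1 : z₀ * (n * (q - 1) + 2) = z₀ * (K + n) := by
      have : n * (z₀ * (q - 1)) + 2 * z₀ = K * z₀ + z₀ * n := by omega
      calc z₀ * (n * (q - 1) + 2) = n * (z₀ * (q - 1)) + 2 * z₀ := by ring
        _ = K * z₀ + z₀ * n := this
        _ = z₀ * (K + n) := by ring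
    have h2 := Nat.eq_of_mul_eq_mul_left hz₀pos h1
    have h3 : n * (q - 1) = n * (q - 2) + n := mul_pred_eq n q (by omega)
    omega
  -- `e = z₀ * e'`
  obtain ⟨e', he'⟩ : z₀ ∣ e := by
    rw [hedef, ← hst y₀]
    exact hzdvd y₀
  -- `q ∣ K`
  have hqK : q ∣ K := by
    have hpe : ¬ p ∣ e := by
      rw [hedef, ← hst y₀]
      refine h.not_dvd_card_of_inf y₀ (stabilizer Γ y₀) (fun g hg => hg) (fun g _ hgU => ?_)
      have := hUY y₀ hy₀
      rw [this] at hgU
      exact Subgroup.mem_bot.mp hgU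
    have hqN : q ∣ K * e := by
      rw [← hNK]
      exact Subgroup.card_subgroup_dvd_card (U x₀)
    exact (hqp e hpe).dvd_of_dvd_mul_right hqN
  have hfin := arith_core N z₀ n q s e K d₁ e' hz₀pos hq3 hqodd hn2 hNpos hN
    (by rw [hd₁]) hNK he' hK hqK
  calc z₀ * (q * (q - 1)) ≤ z₀ * (q * (2 * d₁)) :=
        Nat.mul_le_mul_left z₀ (Nat.mul_le_mul_left q hfin)
    _ = 2 * (z₀ * q * d₁) := by ring
    _ = 2 * s := by rw [hd₁]

end Main

end Fermat.Agent.ES.T56.GTCount19
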