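/-
Chapter GT (S56): elementary linear algebra of `2 × 2` matrices over a field acting on
`Fin 2 → k`, phrased with the "cross product" `cross v w = v₀ w₁ - v₁ w₀`:
Cramer's rule, eigen-lines of matrices of determinant one, unipotent elements have `p`-power
order in characteristic `p`.
-/
import Mathlib

namespace Fermat.Agent.ES.T56.GTLin19

open Matrix

variable {k : Type*} [Field k]

/-- `cross v w = v₀ w₁ - v₁ w₀`, the determinant of the matrix with columns `v`, `w`. -/
def cross (v w : Fin 2 → k) : k := v 0 * w 1 - v 1 * w 0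

theorem cross_self (v : Fin 2 → k) : cross v v = 0 := by
  unfold cross
  ring

theorem cross_comm (v w : Fin 2 → k) : cross v w = -cross w v := by
  unfold cross
  ring

theorem cross_smul_right (a : k) (v w : Fin 2 → k) : cross v (a • w) = a * cross v w := by
  simp only [cross, Pi.smul_apply, smul_eq_mul]
  ring

theorem cross_smul_left (a : k) (v w : Fin 2 → k) : cross (a • v) w = a * cross v w := by
  simp only [cross, Pi.smul_apply, smul_eq_mul]
  ring

theorem cross_mulVec (g : Matrix (Fin 2) (Fin 2) k) (v w : Fin 2 → k) :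
    cross (g *ᵥ v) (g *ᵥ w) = g.det * cross v w := by
  simp only [cross, Matrix.mulVec, dotProduct, Fin.sum_univ_two, Matrix.det_fin_two]
  ring

/-- Cramer's rule in `k²`. -/
theorem cramer (v w y : Fin 2 → k) : cross v w • y = cross y w • v + cross v y • w := by
  ext i
  fin_cases i <;> simp [cross] <;> ring

theorem cross_eq_zero_iff {v : Fin 2 → k} (hv : v ≠ 0) (w : Fin 2 → k) :
    cross v w = 0 ↔ ∃ a : k, w = a • v := by
  constructor
  · intro h
    unfold cross at h
    by_cases h0 : v 0 = 0
    · have h1 : v 1 ≠ 0 := by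
        intro h1
        apply hv
        ext i
        fin_cases i
        · exact h0
        · exact h1
      refine ⟨w 1 / v 1, ?_⟩
      ext i
      fin_cases i
      · simp only [Fin.zero_eta, Pi.smul_apply, smul_eq_mul, h0, mul_zero]
        rw [h0, zero_mul, zero_sub, neg_eq_zero] at h
        rcases mul_eq_zero.mp h with h2 | h2
        · exact absurd h2 h1
        · exact h2
      · simp only [Fin.mk_one, Pi.smul_apply, smul_eq_mul]
        field_simp
    · refine ⟨w 0 / v 0, ?_⟩
      ext i
      fin_cases i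
      · simp only [Fin.zero_eta, Pi.smul_apply, smul_eq_mul]
        field_simp
      · simp only [Fin.mk_one, Pi.smul_apply, smul_eq_mul]
        field_simp
        linear_combination h
  · rintro ⟨a, rfl⟩
    rw [cross_smul_right, cross_self, mul_zero]

theorem exists_cross_ne_zero {v : Fin 2 → k} (hv : v ≠ 0) : ∃ y : Fin 2 → k, cross v y ≠ 0 := by
  by_cases h0 : v 0 = 0
  · have h1 : v 1 ≠ 0 := by
      intro h1
      apply hv
      ext i
      fin_cases i
      · exact h0
      · exact h1
    refine ⟨![1, 0], ?_⟩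
    simp [cross, h1]
  · refine ⟨![0, 1], ?_⟩
    simp [cross, h0]

/-- Cayley–Hamilton for `2 × 2` matrices, applied to a vector. -/
theorem mulVec_mulVec (g : Matrix (Fin 2) (Fin 2) k) (v : Fin 2 → k) :
    g *ᵥ (g *ᵥ v) = g.trace • (g *ᵥ v) - g.det • v := by
  ext i
  fin_cases i <;>
    simp [Matrix.mulVec, dotProduct, Fin.sum_univ_two, Matrix.trace_fin_two, Matrix.det_fin_two] <;>
    ring

/-- A matrix agreeing with the scalar `l` on two independent vectors is the scalar `l`. -/
theorem eq_scalar_of_two {g : Matrix (Fin 2) (Fin 2) k} {l : k} {v w : Fin 2 → k}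
    (hvw : cross v w ≠ 0) (hv : g *ᵥ v = l • v) (hw : g *ᵥ w = l • w) (y : Fin 2 → k) :
    g *ᵥ y = l • y := by
  have h1 : cross v w • (g *ᵥ y) = cross v w • (l • y) := by
    calc cross v w • (g *ᵥ y) = g *ᵥ (cross v w • y) := (Matrix.mulVec_smul _ _ _).symm
      _ = g *ᵥ (cross y w • v + cross v y • w) := by rw [cramer v w y]
      _ = cross y w • (l • v) + cross v y • (l • w) := by
          rw [Matrix.mulVec_add, Matrix.mulVec_smul, Matrix.mulVec_smul, hv, hw]
      _ = l • (cross y w • v + cross v y • w) := by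
          rw [smul_add, smul_comm l, smul_comm l (cross v y)]
      _ = l • (cross v w • y) := by rw [cramer v w y]
      _ = cross v w • (l • y) := smul_comm _ _ _
  exact smul_right_injective _ hvw h1

theorem eq_smul_one_of_forall {g : Matrix (Fin 2) (Fin 2) k} {l : k}
    (h : ∀ y : Fin 2 → k, g *ᵥ y = l • y) : g = l • (1 : Matrix (Fin 2) (Fin 2) k) := by
  ext i j
  have := congrFun (h (Pi.single j 1)) i
  simp only [Matrix.mulVec_single, MulOpposite.op_one, one_smul, Matrix.col_apply,
    Pi.smul_apply, smul_eq_mul] at this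
  rw [this, Matrix.smul_apply, Matrix.one_apply, Pi.single_apply]
  simp

/-- The trace of a determinant-one matrix with eigenvalue `l`. -/
theorem trace_of_eigen {g : Matrix (Fin 2) (Fin 2) k} (hdet : g.det = 1) {l : k}
    {w : Fin 2 → k} (hw : w ≠ 0) (hgw : g *ᵥ w = l • w) : l * l + 1 = g.trace * l := by
  have h := mulVec_mulVec g w
  rw [hgw, Matrix.mulVec_smul, hgw, hdet, one_smul, smul_smul, smul_smul] at h
  have h2 : (l * l + 1 - g.trace * l) • w = 0 := by
    rw [sub_smul, add_smul, one_smul, h]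
    abel
  rcases smul_eq_zero.mp h2 with h3 | h3
  · exact sub_eq_zero.mp h3
  · exact absurd h3 hw

/-- An eigenvalue of a determinant-one matrix fixing a nonzero vector is `1`. -/
theorem eigen_eq_one {g : Matrix (Fin 2) (Fin 2) k} (hdet : g.det = 1) {v w : Fin 2 → k}
    (hv : v ≠ 0) (hgv : g *ᵥ v = v) (hw : w ≠ 0) {l : k} (hgw : g *ᵥ w = l • w) : l = 1 := by
  have h1 := cross_mulVec g v w
  rw [hgv, hgw, hdet, one_mul, cross_smul_right] at h1
  by_cases hc : cross v w = 0
  · obtain ⟨a, rfl⟩ := (cross_eq_zero_iff hv w).mp hc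
    rw [Matrix.mulVec_smul, hgv] at hgw
    have h2 : (1 - l) • (a • v) = 0 := by
      rw [sub_smul, one_smul, ← hgw, sub_self]
    rcases smul_eq_zero.mp h2 with h3 | h3
    · exact (sub_eq_zero.mp h3).symm
    · exact absurd h3 hw
  · have : (l - 1) * cross v w = 0 := by
      rw [sub_mul, one_mul, h1, sub_self]
    rcases mul_eq_zero.mp this with h3 | h3
    · exact sub_eq_zero.mp h3
    · exact absurd h3 hc

/-- A non-identity determinant-one matrix fixing `v ≠ 0` fixes only multiples of `v`. -/
theorem cross_eq_zero_of_fix {g : Matrix (Fin 2) (Fin 2) k} (hg1 : g ≠ 1) {v w : Fin 2 → k}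
    (hgv : g *ᵥ v = v) (hgw : g *ᵥ w = w) : cross v w = 0 := by
  by_contra hc
  apply hg1
  have h := eq_smul_one_of_forall (g := g) (l := 1)
    (eq_scalar_of_two hc (by rw [hgv, one_smul]) (by rw [hgw, one_smul]))
  rw [h, one_smul]

/-- A determinant-one matrix fixing a nonzero vector has trace `2`. -/
theorem trace_eq_two_of_fix {g : Matrix (Fin 2) (Fin 2) k} (hdet : g.det = 1) {v : Fin 2 → k}
    (hv : v ≠ 0) (hgv : g *ᵥ v = v) : g.trace = 2 := by
  have h := trace_of_eigen hdet hv (l := 1) (by rw [hgv, one_smul])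
  rw [mul_one, mul_one] at h
  rw [← h]
  norm_num

theorem sub_one_sq_eq_zero {g : Matrix (Fin 2) (Fin 2) k} (hdet : g.det = 1)
    (htr : g.trace = 2) : (g - 1) * (g - 1) = 0 := by
  rw [Matrix.det_fin_two] at hdet
  rw [Matrix.trace_fin_two] at htr
  ext i j
  fin_cases i <;> fin_cases j <;>
    simp [Matrix.mul_apply, Fin.sum_univ_two, Matrix.sub_apply, Matrix.one_apply]
  · linear_combination (-1 : k) * hdet + (g 0 0) * htr
  · linear_combination (g 0 1) * htr
  · linear_combination (g 1 0) * htr
  · linear_combination (-1 : k) * hdet + (g 1 1) * htr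

/-- Unipotent matrices have order dividing `p` in characteristic `p`. -/
theorem pow_char_eq_one_of_fix (p : ℕ) [Fact p.Prime] [CharP k p]
    {g : Matrix (Fin 2) (Fin 2) k} (hdet : g.det = 1) {v : Fin 2 → k}
    (hv : v ≠ 0) (hgv : g *ᵥ v = v) : g ^ p = 1 := by
  have hp : p.Prime := Fact.out
  have hsq := sub_one_sq_eq_zero hdet (trace_eq_two_of_fix hdet hv hgv)
  have h1 : g = (g - 1) + 1 := by abel
  have hcomm : Commute (g - 1) (1 : Matrix (Fin 2) (Fin 2) k) := Commute.one_right _
  rw [h1, add_pow_char_of_commute _ hcomm, one_pow]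
  have h2 : (g - 1) ^ p = 0 := by
    have : p = 2 + (p - 2) := by have := hp.two_le; omega
    rw [this, pow_add, pow_two, hsq, zero_mul]
  rw [h2, zero_add]

theorem pow_mulVec_eigen {g : Matrix (Fin 2) (Fin 2) k} {l : k} {v : Fin 2 → k}
    (hgv : g *ᵥ v = l • v) (n : ℕ) : (g ^ n) *ᵥ v = l ^ n • v := by
  induction n with
  | zero => simp
  | succ n ih =>
    rw [pow_succ, ← Matrix.mulVec_mulVec, hgv, Matrix.mulVec_smul, ih, smul_smul, pow_succ,
      mul_comm]

/-- In characteristic `p`, an eigenvalue of an element of `p`-power order is `1`. -/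
theorem eigen_eq_one_of_pow (p : ℕ) [Fact p.Prime] [CharP k p]
    {g : Matrix (Fin 2) (Fin 2) k} {l : k} {v : Fin 2 → k} (hv : v ≠ 0)
    (hgv : g *ᵥ v = l • v) {j : ℕ} (hg : g ^ p ^ j = 1) : l = 1 := by
  have h1 := pow_mulVec_eigen hgv (p ^ j)
  rw [hg, Matrix.one_mulVec] at h1
  have h2 : (l ^ p ^ j - 1) • v = 0 := by
    rw [sub_smul, one_smul, ← h1, sub_self]
  have h3 : l ^ p ^ j - 1 = 0 := by
    rcases smul_eq_zero.mp h2 with h3 | h3
    · exact h3
    · exact absurd h3 hv
  have h4 : (l - 1) ^ p ^ j = 0 := by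
    rw [sub_pow_char_pow, one_pow, h3]
  exact sub_eq_zero.mp (pow_eq_zero_iff (pow_ne_zero j (Fact.out : p.Prime).ne_zero) |>.mp h4)

/-- Second eigenvector: if `g` has determinant one and eigenvalue `l` with `l² ≠ 1`, then `l⁻¹`
is an eigenvalue too. -/
theorem exists_second_eigen {g : Matrix (Fin 2) (Fin 2) k} (hdet : g.det = 1) {l : k}
    {w : Fin 2 → k} (hw : w ≠ 0) (hgw : g *ᵥ w = l • w) (hl : l * l ≠ 1) :
    ∃ w' : Fin 2 → k, w' ≠ 0 ∧ g *ᵥ w' = l⁻¹ • w' := by
  have hl0 : l ≠ 0 := by
    intro h0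
    have := trace_of_eigen hdet hw hgw
    rw [h0] at this
    simp at this
  obtain ⟨y, hy⟩ := exists_cross_ne_zero hw
  refine ⟨g *ᵥ y - l • y, ?_, ?_⟩
  · intro h0
    have hgy : g *ᵥ y = l • y := sub_eq_zero.mp h0
    have hsc := eq_smul_one_of_forall (eq_scalar_of_two hy hgw hgy)
    apply hl
    rw [hsc, Matrix.det_smul, Matrix.det_one, Fintype.card_fin, mul_one, pow_two] at hdet
    exact hdet
  · have htr := trace_of_eigen hdet hw hgw
    have htr' : g.trace = l + l⁻¹ := by
      field_simp
      linear_combination -htr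
    rw [Matrix.mulVec_sub, Matrix.mulVec_smul, mulVec_mulVec, hdet, one_smul, htr', smul_sub,
      smul_smul, inv_mul_cancel₀ hl0, one_smul, add_smul]
    abel

end Fermat.Agent.ES.T56.GTLin19
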