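/-
Chapter GT (S56): a finite subgroup `G₁ ≤ GL₂(k)` of determinant-one matrices with all
eigenvalues in `k` and no invariant line, acting on `ℙ¹(k)`, satisfies the hypotheses `Hyp` of the
counting lemma (D′) of `GTCount19`, with `Z = G₁ ∩ {±1}` and `U x` = the stabiliser in `G₁` of a
representative vector of the line `x`.
-/
import Fermat.Agent.ES.T56.GTCount19
import Fermat.Agent.ES.T56.GTLin19

namespace Fermat.Agent.ES.T56.GTProj19

open Matrix MulAction
open scoped LinearAlgebra.Projectivization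
open Fermat.Agent.ES.T56.GTLin19

variable {k : Type*} [Field k]

/-- The subgroup `G₁ ∩ {±1}` of `G₁`. -/
def Zsub (G₁ : Subgroup (GL (Fin 2) k)) : Subgroup G₁ where
  carrier := {g | g.1 = 1 ∨ g.1 = -1}
  one_mem' := Or.inl rfl
  mul_mem' := by
    rintro a b (ha | ha) (hb | hb)
    · left; simp [ha, hb]
    · right; simp [ha, hb]
    · right; simp [ha, hb]
    · left; simp [ha, hb]
  inv_mem' := by
    rintro a (ha | ha)
    · left; simp [ha]
    · right; simp [ha, inv_neg]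

theorem mem_Zsub {G₁ : Subgroup (GL (Fin 2) k)} {g : G₁} :
    g ∈ Zsub G₁ ↔ g.1 = 1 ∨ g.1 = -1 := Iff.rfl

/-- The unipotent stabiliser of the line `x`: the stabiliser of a representative vector. -/
noncomputable def Usub (G₁ : Subgroup (GL (Fin 2) k)) (x : ℙ k (Fin 2 → k)) : Subgroup G₁ :=
  stabilizer G₁ x.rep

theorem smul_vec_def {G₁ : Subgroup (GL (Fin 2) k)} (g : G₁) (v : Fin 2 → k) :
    g • v = g.1.1 *ᵥ v := rfl

theorem mem_Usub {G₁ : Subgroup (GL (Fin 2) k)} {g : G₁} {x : ℙ k (Fin 2 → k)} :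
    g ∈ Usub G₁ x ↔ g.1.1 *ᵥ x.rep = x.rep := Iff.rfl

/-- Membership in `Usub` can be tested on any representative. -/
theorem mem_Usub_mk {G₁ : Subgroup (GL (Fin 2) k)} {g : G₁} {w : Fin 2 → k} (hw : w ≠ 0) :
    g ∈ Usub G₁ (Projectivization.mk k w hw) ↔ g.1.1 *ᵥ w = w := by
  obtain ⟨a, ha⟩ := Projectivization.exists_smul_eq_mk_rep k w hw
  rw [mem_Usub, ← ha]
  rw [show (a • w : Fin 2 → k) = (a : k) • w from rfl, Matrix.mulVec_smul]
  constructor
  · intro h
    exact smul_right_injective _ a.ne_zero h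
  · intro h
    rw [h]

theorem smul_mk' {G₁ : Subgroup (GL (Fin 2) k)} (g : G₁) {w : Fin 2 → k} (hw : w ≠ 0) :
    ∃ hw' : g.1.1 *ᵥ w ≠ 0,
      g • Projectivization.mk k w hw = Projectivization.mk k (g.1.1 *ᵥ w) hw' :=
  ⟨(smul_ne_zero_iff_ne g.1).mpr hw, rfl⟩

/-- `g` fixes the line through `w` iff `w` is an eigenvector. -/
theorem smul_mk_eq_iff {G₁ : Subgroup (GL (Fin 2) k)} (g : G₁) {w : Fin 2 → k} (hw : w ≠ 0) :
    g • Projectivization.mk k w hw = Projectivization.mk k w hw ↔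
      ∃ l : k, g.1.1 *ᵥ w = l • w := by
  obtain ⟨hw', he⟩ := smul_mk' g hw
  rw [he, Projectivization.mk_eq_mk_iff' k _ _ hw' hw]
  constructor
  · rintro ⟨a, ha⟩
    exact ⟨a, ha.symm⟩
  · rintro ⟨l, hl⟩
    exact ⟨l, hl.symm⟩

theorem mk_eq_mk_iff_cross {v w : Fin 2 → k} (hv : v ≠ 0) (hw : w ≠ 0) :
    Projectivization.mk k v hv = Projectivization.mk k w hw ↔ cross v w = 0 := by
  rw [Projectivization.mk_eq_mk_iff' k _ _ hv hw, cross_eq_zero_iff hv]
  constructor
  · rintro ⟨a, ha⟩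
    have ha0 : a ≠ 0 := by
      rintro rfl
      rw [zero_smul] at ha
      exact hv ha.symm
    refine ⟨a⁻¹, ?_⟩
    rw [← ha, smul_smul, inv_mul_cancel₀ ha0, one_smul]
  · rintro ⟨a, ha⟩
    have ha0 : a ≠ 0 := by
      rintro rfl
      rw [zero_smul] at ha
      exact hw ha
    refine ⟨a⁻¹, ?_⟩
    rw [ha, smul_smul, inv_mul_cancel₀ ha0, one_smul]

/-- The standing hypotheses on `G₁`. -/
structure SLHyp (G₁ : Subgroup (GL (Fin 2) k)) : Prop where
  det_one : ∀ g ∈ G₁, g.1.det = 1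
  split : ∀ g ∈ G₁, ∃ (l : k) (v : Fin 2 → k), v ≠ 0 ∧ g.1 *ᵥ v = l • v
  irr : ∀ v : Fin 2 → k, v ≠ 0 → ∃ g ∈ G₁, ∀ a : k, g.1 *ᵥ v ≠ a • v

section Hyp

variable {G₁ : Subgroup (GL (Fin 2) k)} (p : ℕ) [Fact p.Prime] [CharP k p]

theorem val_ne_one {g : G₁} (hg : g ≠ 1) : g.1.1 ≠ 1 := by
  intro h
  apply hg
  apply Subtype.ext
  apply Units.ext
  exact h

/-- Elements of `Usub` have order dividing `p`. -/
theorem pow_eq_one_of_mem_Usub (h : SLHyp G₁) {x : ℙ k (Fin 2 → k)} {g : G₁}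
    (hg : g ∈ Usub G₁ x) : g ^ p = 1 := by
  apply Subtype.ext
  apply Units.ext
  rw [Subgroup.coe_pow, Units.val_pow_eq_pow_val]
  exact pow_char_eq_one_of_fix p (h.det_one g.1 g.2) x.rep_nonzero (mem_Usub.mp hg)

theorem neg_one_mulVec (v : Fin 2 → k) : (-1 : Matrix (Fin 2) (Fin 2) k) *ᵥ v = -v := by
  rw [Matrix.neg_mulVec, Matrix.one_mulVec]

theorem two_ne_zero_of (hp2 : p ≠ 2) : (2 : k) ≠ 0 := by
  intro h2
  have h3 : ((2 : ℕ) : k) = 0 := by exact_mod_cast h2
  rw [CharP.cast_eq_zero_iff k p] at h3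
  have hp : p.Prime := Fact.out
  exact hp2 ((Nat.prime_dvd_prime_iff_eq hp Nat.prime_two).mp h3)

theorem not_dvd_card_proj [Finite k] : ¬ p ∣ Nat.card (ℙ k (Fin 2 → k)) := by
  have hp : p.Prime := Fact.out
  rw [Projectivization.card_of_finrank_two k (Fin 2 → k) (by simp)]
  have h1 : p ∣ Nat.card k := by
    have : Fintype k := Fintype.ofFinite k
    rw [← CharP.cast_eq_zero_iff k p, Nat.card_eq_fintype_card]
    exact Nat.cast_card_eq_zero k
  intro h2
  have := (Nat.dvd_add_right h1).mp h2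
  exact hp.one_lt.ne' (Nat.dvd_one.mp this)

theorem Z_central {z : G₁} (hz : z ∈ Zsub G₁) (g : G₁) : g * z = z * g := by
  apply Subtype.ext
  rcases mem_Zsub.mp hz with h1 | h1
  · simp [h1]
  · simp [h1]

theorem Z_fix {z : G₁} (hz : z ∈ Zsub G₁) (x : ℙ k (Fin 2 → k)) : z • x = x := by
  induction x with
  | h w hw =>
    rw [smul_mk_eq_iff z hw]
    rcases mem_Zsub.mp hz with h1 | h1
    · exact ⟨1, by rw [h1]; simp⟩
    · exact ⟨-1, by rw [h1, Units.val_neg, Units.val_one, neg_one_mulVec, neg_smul, one_smul]⟩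

theorem U_conj (g : G₁) (x : ℙ k (Fin 2 → k)) (u : G₁) (hu : u ∈ Usub G₁ x) :
    g * u * g⁻¹ ∈ Usub G₁ (g • x) := by
  induction x with
  | h w hw =>
    obtain ⟨hw', he⟩ := smul_mk' g hw
    rw [he, mem_Usub_mk hw']
    have hu' := (mem_Usub_mk hw).mp hu
    simp only [Subgroup.coe_mul, Units.val_mul, Subgroup.coe_inv]
    rw [Matrix.mulVec_mulVec, Matrix.mul_assoc, Units.inv_mul, Matrix.mul_one,
      ← Matrix.mulVec_mulVec, hu']

theorem U_fix (h : SLHyp G₁) (x : ℙ k (Fin 2 → k)) (u : G₁) (hu : u ∈ Usub G₁ x) (hu1 : u ≠ 1)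
    (y : ℙ k (Fin 2 → k)) : u • y = y ↔ y = x := by
  have hdet := h.det_one u.1 u.2
  have hux := mem_Usub.mp hu
  constructor
  · intro hy
    induction y with
    | h w hw =>
      obtain ⟨l, hl⟩ := (smul_mk_eq_iff u hw).mp hy
      have hl1 : l = 1 := eigen_eq_one hdet x.rep_nonzero hux hw hl
      rw [hl1, one_smul] at hl
      have hc := cross_eq_zero_of_fix (val_ne_one hu1) hux hl
      rw [← Projectivization.mk_rep x]
      exact ((mk_eq_mk_iff_cross x.rep_nonzero hw).mpr hc).symm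
  · rintro rfl
    rw [← Projectivization.mk_rep y, smul_mk_eq_iff u y.rep_nonzero]
    exact ⟨1, by rw [hux, one_smul]⟩

theorem U_pgroup (h : SLHyp G₁) (x : ℙ k (Fin 2 → k)) : IsPGroup p (Usub G₁ x) := by
  intro g
  refine ⟨1, ?_⟩
  apply Subtype.ext
  rw [pow_one, Subgroup.coe_pow, pow_eq_one_of_mem_Usub p h g.2]
  rfl

theorem U_max (x : ℙ k (Fin 2 → k)) (g : G₁) (hgx : g • x = x)
    (hg : ∃ j : ℕ, g ^ p ^ j = 1) : g ∈ Usub G₁ x := by
  obtain ⟨j, hj⟩ := hg
  rw [← Projectivization.mk_rep x, smul_mk_eq_iff g x.rep_nonzero] at hgx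
  obtain ⟨l, hl⟩ := hgx
  have hj' : g.1.1 ^ p ^ j = 1 := by
    have := congrArg (fun t : G₁ => t.1.1) hj
    simpa using this
  have hl1 := eigen_eq_one_of_pow p x.rep_nonzero hl hj'
  rw [mem_Usub, hl, hl1, one_smul]

theorem Z_U (hp2 : p ≠ 2) (x : ℙ k (Fin 2 → k)) (z : G₁) (hz : z ∈ Zsub G₁)
    (hzU : z ∈ Usub G₁ x) : z = 1 := by
  rcases mem_Zsub.mp hz with h1 | h1
  · exact Subtype.ext h1
  · exfalso
    have h2 := mem_Usub.mp hzU
    rw [h1, Units.val_neg, Units.val_one, neg_one_mulVec] at h2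
    have h3 : (2 : k) • x.rep = 0 := by
      rw [two_smul]
      nth_rewrite 1 [← h2]
      exact neg_add_cancel _
    rcases smul_eq_zero.mp h3 with h4 | h4
    · exact two_ne_zero_of p hp2 h4
    · exact x.rep_nonzero h4

theorem no_fix (h : SLHyp G₁) (x : ℙ k (Fin 2 → k)) : ∃ g : G₁, g • x ≠ x := by
  obtain ⟨g, hg, hgv⟩ := h.irr x.rep x.rep_nonzero
  refine ⟨⟨g, hg⟩, ?_⟩
  intro hfix
  rw [← Projectivization.mk_rep x, smul_mk_eq_iff _ x.rep_nonzero] at hfix
  obtain ⟨l, hl⟩ := hfix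
  exact hgv l hl

/-- An element of `G₁` with eigenvalue `-1` is `(-1) * u` with `-1 ∈ G₁` and `u` unipotent. -/
theorem cases_neg_one (h : SLHyp G₁) (hp2 : p ≠ 2) (g : G₁) {w : Fin 2 → k} (hw : w ≠ 0)
    (hgw : g.1.1 *ᵥ w = (-1 : k) • w) :
    ∃ z ∈ Zsub G₁, ∃ u ∈ Usub G₁ (Projectivization.mk k w hw), z.1 = -1 ∧ g = z * u := by
  have hp : p.Prime := Fact.out
  have hodd : Odd p := hp.odd_of_ne_two hp2
  have hdet := h.det_one g.1 g.2
  have hdet' : (-g.1.1).det = 1 := by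
    rw [Matrix.det_neg, Fintype.card_fin, hdet]
    norm_num
  have hfix : (-g.1.1) *ᵥ w = w := by
    rw [Matrix.neg_mulVec, hgw, neg_smul, one_smul, neg_neg]
  have hpow := pow_char_eq_one_of_fix p hdet' hw hfix
  rw [hodd.neg_pow, neg_eq_iff_eq_neg] at hpow
  -- `g ^ p = -1`
  have hz : (g ^ p).1 = -1 := by
    apply Units.ext
    rw [Subgroup.coe_pow, Units.val_pow_eq_pow_val, hpow, Units.val_neg, Units.val_one]
  refine ⟨g ^ p, Or.inr hz, g ^ p * g, ?_, hz, ?_⟩
  · rw [mem_Usub_mk hw, Subgroup.coe_mul, hz, Units.val_mul, Units.val_neg, Units.val_one,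
      neg_one_mul]
    exact hfix
  · apply Subtype.ext
    rw [Subgroup.coe_mul, Subgroup.coe_mul, hz]
    simp

/-- Elements with an eigenvalue `l`, `l² ≠ 1`, have exactly two fixed points on `ℙ¹(k)`. -/
theorem card_fix_eq_two (h : SLHyp G₁) (g : G₁) {l : k} {w : Fin 2 → k} (hw : w ≠ 0)
    (hgw : g.1.1 *ᵥ w = l • w) (hl : l * l ≠ 1) :
    Nat.card {x : ℙ k (Fin 2 → k) // g • x = x} = 2 := by
  have hdet := h.det_one g.1 g.2
  obtain ⟨w', hw', hgw'⟩ := exists_second_eigen hdet hw hgw hl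
  have hl0 : l ≠ 0 := by
    rintro rfl
    have := trace_of_eigen hdet hw hgw
    simp at this
  rw [Nat.card_eq_two_iff]
  refine ⟨⟨Projectivization.mk k w hw, (smul_mk_eq_iff g hw).mpr ⟨l, hgw⟩⟩,
    ⟨Projectivization.mk k w' hw', (smul_mk_eq_iff g hw').mpr ⟨l⁻¹, hgw'⟩⟩, ?_, ?_⟩
  · intro heq
    have heq' := congrArg Subtype.val heq
    simp only at heq'
    rw [mk_eq_mk_iff_cross hw hw', cross_eq_zero_iff hw] at heq'
    obtain ⟨a, rfl⟩ := heq'
    rw [Matrix.mulVec_smul, hgw, smul_smul, smul_smul] at hgw'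
    have h1 : (a * l - l⁻¹ * a) • w = 0 := by
      rw [sub_smul, hgw', sub_self]
    have ha : a ≠ 0 := by
      rintro rfl
      rw [zero_smul] at hw'
      exact hw' rfl
    rcases smul_eq_zero.mp h1 with h2 | h2
    · apply hl
      have h3 : a * (l - l⁻¹) = 0 := by rw [mul_sub, mul_comm a l⁻¹]; exact h2
      rcases mul_eq_zero.mp h3 with h4 | h4
      · exact absurd h4 ha
      · have h5 : l * (l - l⁻¹) = 0 := by rw [h4, mul_zero]
        rw [mul_sub, mul_inv_cancel₀ hl0] at h5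
        exact sub_eq_zero.mp h5
    · exact hw h2
  · rw [Set.eq_univ_iff_forall]
    rintro ⟨y, hy⟩
    induction y with
    | h y' hy' =>
      obtain ⟨m, hm⟩ := (smul_mk_eq_iff g hy').mp hy
      have h1 := cross_mulVec g.1.1 w y'
      rw [hgw, hm, hdet, one_mul, cross_smul_left, cross_smul_right] at h1
      have h2 := cross_mulVec g.1.1 w' y'
      rw [hgw', hm, hdet, one_mul, cross_smul_left, cross_smul_right] at h2
      by_cases hc : cross w y' = 0
      · left
        apply Subtype.ext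
        exact ((mk_eq_mk_iff_cross hw hy').mpr hc).symm
      · by_cases hc' : cross w' y' = 0
        · right
          apply Subtype.ext
          exact ((mk_eq_mk_iff_cross hw' hy').mpr hc').symm
        · exfalso
          apply hl
          have e1 : l * m = 1 := by
            have : (l * m - 1) * cross w y' = 0 := by
              rw [sub_mul, one_mul, mul_assoc, h1, sub_self]
            rcases mul_eq_zero.mp this with h3 | h3
            · exact sub_eq_zero.mp h3
            · exact absurd h3 hc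
          have e2 : l⁻¹ * m = 1 := by
            have : (l⁻¹ * m - 1) * cross w' y' = 0 := by
              rw [sub_mul, one_mul, mul_assoc, h2, sub_self]
            rcases mul_eq_zero.mp this with h3 | h3
            · exact sub_eq_zero.mp h3
            · exact absurd h3 hc'
          have e3 : m = l := by
            field_simp at e2
            exact e2
          rw [e3] at e1
          exact e1

theorem cases (h : SLHyp G₁) (hp2 : p ≠ 2) (g : G₁) (hg : g ∉ Zsub G₁) :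
    (∃ x, ∃ z ∈ Zsub G₁, ∃ u ∈ Usub G₁ x, u ≠ 1 ∧ g = z * u) ∨
      Nat.card {x : ℙ k (Fin 2 → k) // g • x = x} = 2 := by
  obtain ⟨l, w, hw, hgw⟩ := h.split g.1 g.2
  by_cases hl : l * l = 1
  · left
    have hl' : l = 1 ∨ l = -1 := by
      have : (l - 1) * (l + 1) = 0 := by linear_combination hl
      rcases mul_eq_zero.mp this with h1 | h1
      · exact Or.inl (sub_eq_zero.mp h1)
      · exact Or.inr (eq_neg_of_add_eq_zero_left h1)
    rcases hl' with rfl | rfl
    · refine ⟨Projectivization.mk k w hw, 1, (Zsub G₁).one_mem, g, ?_, ?_, (one_mul g).symm⟩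
      · rw [mem_Usub_mk hw, hgw, one_smul]
      · rintro rfl
        exact hg (Zsub G₁).one_mem
    · obtain ⟨z, hz, u, hu, hz1, hgzu⟩ := cases_neg_one p h hp2 g hw hgw
      refine ⟨Projectivization.mk k w hw, z, hz, u, hu, ?_, hgzu⟩
      rintro rfl
      rw [mul_one] at hgzu
      rw [hgzu] at hg
      exact hg hz
  · right
    exact card_fix_eq_two h g hw hgw hl

/-- **The hypotheses of the counting lemma hold** for `G₁` acting on `ℙ¹(k)`. -/
theorem hyp [Finite k] (h : SLHyp G₁) (hp2 : p ≠ 2) :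
    GTCount19.Hyp p (Zsub G₁) (Usub G₁) where
  not_dvd_card := not_dvd_card_proj p
  Z_central := fun _ hz g => Z_central hz g
  Z_fix := fun _ hz x => Z_fix hz x
  U_conj := U_conj
  U_fix := U_fix h
  U_pgroup := U_pgroup p h
  U_max := U_max p
  Z_U := Z_U p hp2
  cases := cases p h hp2
  no_fix := no_fix h

end Hyp

end Fermat.Agent.ES.T56.GTProj19
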