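/-
Chapter GT (S56): the Frattini step.  `G ≤ GL₂(k)` finite, `det G = 𝔽_pˣ`, eigenvalues in `k`,
`G₁ = G ∩ SL₂(k)` without invariant line, and `G` in standard position (a nontrivial upper
unipotent `upper a₀ ∈ G`).  With `B = {b ∈ G | b₁₀ = 0}`:
* `exists_borel_det`: `det : B → 𝔽_pˣ` is onto (transitivity of `G₁` on `Ω`);
* `main`: if every scalar matrix in `G` is `±1`, then `p = 3` and `B` acts transitively
  (through `θ(b) = b₀₀ / b₁₁`) on the nonzero `a` with `upper a ∈ G`.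
-/
import Fermat.Agent.ES.T56.GTProj19

namespace Fermat.Agent.ES.T56.GTFrattini19

open Matrix MulAction
open scoped LinearAlgebra.Projectivization
open Fermat.Agent.ES.T56.GTLin19 Fermat.Agent.ES.T56.GTProj19

variable {k : Type*} [Field k]

/-- The first standard basis vector. -/
def e1 : Fin 2 → k := ![1, 0]

theorem e1_ne_zero : (e1 : Fin 2 → k) ≠ 0 := by
  intro h
  have := congrFun h 0
  simp [e1] at this

/-- The base point `[1 : 0]` of `ℙ¹(k)`. -/
noncomputable def x0 : ℙ k (Fin 2 → k) := Projectivization.mk k e1 e1_ne_zero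

theorem mulVec_e1 (g : Matrix (Fin 2) (Fin 2) k) : g *ᵥ e1 = ![g 0 0, g 1 0] := by
  ext i
  fin_cases i <;> simp [e1, Matrix.mulVec, dotProduct, Fin.sum_univ_two]

/-- The upper unipotent matrix `[[1, a], [0, 1]]` as an element of `GL₂(k)`. -/
def upper (a : k) : GL (Fin 2) k :=
  Matrix.GeneralLinearGroup.mkOfDetNeZero !![1, a; 0, 1] (by simp [Matrix.det_fin_two])

theorem upper_val (a : k) : (upper a).1 = !![1, a; 0, 1] := rfl

theorem upper_det (a : k) : (upper a).1.det = 1 := by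
  simp [upper_val, Matrix.det_fin_two]

theorem upper_mul (a b : k) : upper a * upper b = upper (a + b) := by
  apply Units.ext
  rw [Units.val_mul, upper_val, upper_val, upper_val]
  ext i j
  fin_cases i <;> fin_cases j <;> simp [Matrix.mul_apply, Fin.sum_univ_two, add_comm]

theorem upper_zero : upper (0 : k) = 1 := by
  apply Units.ext
  rw [upper_val]
  ext i j
  fin_cases i <;> fin_cases j <;> simp

theorem upper_inj {a b : k} (h : upper a = upper b) : a = b := by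
  have := congrArg (fun g : GL (Fin 2) k => g.1 0 1) h
  simpa [upper_val] using this

theorem upper_ne_one {a : k} (ha : a ≠ 0) : upper a ≠ 1 := by
  intro h
  rw [← upper_zero] at h
  exact ha (upper_inj h)

theorem upper_inv (a : k) : (upper a)⁻¹ = upper (-a) := by
  rw [inv_eq_iff_mul_eq_one, upper_mul, add_neg_cancel, upper_zero]

theorem upper_mulVec_e1 (a : k) : (upper a).1 *ᵥ e1 = e1 := by
  rw [mulVec_e1, upper_val]
  simp [e1]

/-- A determinant-one matrix fixing `e₁` is upper unipotent. -/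
theorem eq_upper_of_fix {g : GL (Fin 2) k} (hdet : g.1.det = 1) (hg : g.1 *ᵥ e1 = e1) :
    g = upper (g.1 0 1) := by
  rw [mulVec_e1] at hg
  have h00 : g.1 0 0 = 1 := by
    have := congrFun hg 0
    simpa [e1] using this
  have h10 : g.1 1 0 = 0 := by
    have := congrFun hg 1
    simpa [e1] using this
  have h11 : g.1 1 1 = 1 := by
    rw [Matrix.det_fin_two, h00, h10, one_mul, mul_zero, sub_zero] at hdet
    exact hdet
  apply Units.ext
  rw [upper_val]
  ext i j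
  fin_cases i <;> fin_cases j <;> simp [h00, h10, h11]

/-- Conjugating an upper unipotent by an upper triangular matrix. -/
theorem conj_upper {b : GL (Fin 2) k} (hb : b.1 1 0 = 0) (a : k) :
    b * upper a * b⁻¹ = upper (b.1 0 0 / b.1 1 1 * a) := by
  have hdet : b.1 0 0 * b.1 1 1 ≠ 0 := by
    have := Matrix.GeneralLinearGroup.det_ne_zero b
    rw [Matrix.det_fin_two, hb, mul_zero, sub_zero] at this
    exact this
  have h11 : b.1 1 1 ≠ 0 := right_ne_zero_of_mul hdet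
  rw [mul_inv_eq_iff_eq_mul]
  apply Units.ext
  rw [Units.val_mul, Units.val_mul, upper_val, upper_val]
  ext i j
  fin_cases i <;> fin_cases j <;> simp [Matrix.mul_apply, Fin.sum_univ_two, hb]
  field_simp
  ring

/-- The determinant-one part of `G`. -/
def SLpart (G : Subgroup (GL (Fin 2) k)) : Subgroup (GL (Fin 2) k) :=
  G ⊓ (Matrix.GeneralLinearGroup.det).ker

theorem mem_SLpart {G : Subgroup (GL (Fin 2) k)} {g : GL (Fin 2) k} :
    g ∈ SLpart G ↔ g ∈ G ∧ g.1.det = 1 := by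
  rw [SLpart, Subgroup.mem_inf, MonoidHom.mem_ker, Units.ext_iff,
    Matrix.GeneralLinearGroup.val_det_apply, Units.val_one]

/-- The standing hypotheses on `G`. -/
structure GHyp (p : ℕ) (G : Subgroup (GL (Fin 2) k)) : Prop where
  det_pow : ∀ g ∈ G, g.1.det ^ (p - 1) = 1
  det_surj : ∀ a : k, a ^ (p - 1) = 1 → ∃ g ∈ G, g.1.det = a
  split : ∀ g ∈ G, ∃ (l : k) (v : Fin 2 → k), v ≠ 0 ∧ g.1 *ᵥ v = l • v
  irr : ∀ v : Fin 2 → k, v ≠ 0 → ∃ g ∈ G, g.1.det = 1 ∧ ∀ a : k, g.1 *ᵥ v ≠ a • v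

theorem GHyp.slHyp {p : ℕ} {G : Subgroup (GL (Fin 2) k)} (h : GHyp p G) : SLHyp (SLpart G) where
  det_one := fun _ hg => (mem_SLpart.mp hg).2
  split := fun g hg => h.split g (mem_SLpart.mp hg).1
  irr := fun v hv => by
    obtain ⟨g, hg, hdet, hgv⟩ := h.irr v hv
    exact ⟨g, mem_SLpart.mpr ⟨hg, hdet⟩, hgv⟩

section Frattini

variable {p : ℕ} [Fact p.Prime] [CharP k p] {G : Subgroup (GL (Fin 2) k)}

theorem SLpart_le (G : Subgroup (GL (Fin 2) k)) : SLpart G ≤ G := inf_le_left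

/-- `SLpart G` is normalised by `G`. -/
theorem conj_mem_SLpart {g u : GL (Fin 2) k} (hg : g ∈ G) (hu : u ∈ SLpart G) :
    g * u * g⁻¹ ∈ SLpart G := by
  rw [mem_SLpart] at hu ⊢
  refine ⟨G.mul_mem (G.mul_mem hg hu.1) (G.inv_mem hg), ?_⟩
  rw [Units.val_mul, Units.val_mul, Matrix.det_mul, Matrix.det_mul, hu.2, mul_one,
    ← Matrix.det_mul, Units.mul_inv, Matrix.det_one]

theorem upper_mem_SLpart {a : k} (ha : upper a ∈ G) : upper a ∈ SLpart G :=
  mem_SLpart.mpr ⟨ha, upper_det a⟩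

/-- `g` fixes the base point iff it is upper triangular. -/
theorem smul_x0_eq_iff (g : GL (Fin 2) k) : g • (x0 : ℙ k (Fin 2 → k)) = x0 ↔ g.1 1 0 = 0 := by
  have h1 : g • (x0 : ℙ k (Fin 2 → k)) =
      Projectivization.mk k (g.1 *ᵥ e1) ((smul_ne_zero_iff_ne g).mpr e1_ne_zero) := rfl
  rw [h1, x0, mk_eq_mk_iff_cross, mulVec_e1]
  simp [cross, e1]

/-- The unipotent stabiliser of the base point is nontrivial once `upper a₀ ∈ G`, `a₀ ≠ 0`. -/
theorem Usub_x0_ne_bot {a₀ : k} (ha₀ : a₀ ≠ 0) (hu : upper a₀ ∈ G) :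
    Usub (SLpart G) (x0 : ℙ k (Fin 2 → k)) ≠ ⊥ := by
  intro hbot
  have hmem : (⟨upper a₀, upper_mem_SLpart hu⟩ : SLpart G) ∈ Usub (SLpart G) x0 := by
    rw [x0, mem_Usub_mk]
    exact upper_mulVec_e1 a₀
  rw [hbot, Subgroup.mem_bot] at hmem
  exact upper_ne_one ha₀ (congrArg Subtype.val hmem)

/-- **Frattini.** Every value of `det` on `G` is attained on the upper triangular part of `G`. -/
theorem exists_borel_det [Finite k] (hp2 : p ≠ 2) (h : GHyp p G) {a₀ : k} (ha₀ : a₀ ≠ 0)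
    (hu : upper a₀ ∈ G) {g : GL (Fin 2) k} (hg : g ∈ G) :
    ∃ b ∈ G, b.1 1 0 = 0 ∧ b.1.det = g.1.det := by
  have hH := GTProj19.hyp p h.slHyp hp2
  have hx0 := Usub_x0_ne_bot ha₀ hu
  -- the point `y = g • x0` lies in `Ω`
  have hy : Usub (SLpart G) (g • (x0 : ℙ k (Fin 2 → k))) ≠ ⊥ := by
    intro hbot
    have hmem : (⟨g * upper a₀ * g⁻¹, conj_mem_SLpart hg (upper_mem_SLpart hu)⟩ : SLpart G)
        ∈ Usub (SLpart G) (g • (x0 : ℙ k (Fin 2 → k))) := by
      have h1 : g • (x0 : ℙ k (Fin 2 → k)) =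
        Projectivization.mk k (g.1 *ᵥ e1) ((smul_ne_zero_iff_ne g).mpr e1_ne_zero) := rfl
      rw [h1, mem_Usub_mk]
      simp only [Units.val_mul]
      rw [Matrix.mulVec_mulVec, Matrix.mul_assoc, Units.inv_mul, Matrix.mul_one,
        ← Matrix.mulVec_mulVec, upper_mulVec_e1]
    rw [hbot, Subgroup.mem_bot] at hmem
    have h2 : g * upper a₀ * g⁻¹ = 1 := congrArg Subtype.val hmem
    have h3 : upper a₀ = 1 := by
      have : upper a₀ = g⁻¹ * (g * upper a₀ * g⁻¹) * g := by group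
      rw [this, h2]
      group
    exact upper_ne_one ha₀ h3
  obtain ⟨hh, hhy⟩ := hH.exists_smul_eq hy hx0
  refine ⟨hh.1 * g, G.mul_mem (SLpart_le G hh.2) hg, ?_, ?_⟩
  · rw [← smul_x0_eq_iff, mul_smul]
    exact hhy
  · rw [Units.val_mul, Matrix.det_mul, (mem_SLpart.mp hh.2).2, one_mul]

end Frattini

/-! ### Upper triangular matrices -/

section Borel

/-- Diagonal entries of an upper triangular invertible matrix are nonzero. -/
theorem diag_ne_zero {b : GL (Fin 2) k} (hb : b.1 1 0 = 0) : b.1 0 0 ≠ 0 ∧ b.1 1 1 ≠ 0 := by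
  have := Matrix.GeneralLinearGroup.det_ne_zero b
  rw [Matrix.det_fin_two, hb, mul_zero, sub_zero] at this
  exact ⟨left_ne_zero_of_mul this, right_ne_zero_of_mul this⟩

theorem mul_lower_left {b c : GL (Fin 2) k} (hb : b.1 1 0 = 0) (hc : c.1 1 0 = 0) :
    (b * c).1 1 0 = 0 ∧ (b * c).1 0 0 = b.1 0 0 * c.1 0 0 ∧ (b * c).1 1 1 = b.1 1 1 * c.1 1 1 := by
  rw [Units.val_mul]
  simp [Matrix.mul_apply, Fin.sum_univ_two, hb, hc]

theorem inv_mul_lower_left {b c : GL (Fin 2) k} (hb : b.1 1 0 = 0) (hc : c.1 1 0 = 0) :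
    (b⁻¹ * c).1 1 0 = 0 := by
  rw [← smul_x0_eq_iff] at hb hc ⊢
  rw [mul_smul, hc, inv_smul_eq_iff, hb]

/-- The character `θ(b) = b₀₀ / b₁₁` is multiplicative on upper triangular matrices. -/
theorem theta_inv_mul {b c : GL (Fin 2) k} (hb : b.1 1 0 = 0) (hc : c.1 1 0 = 0)
    (hθ : b.1 0 0 / b.1 1 1 = c.1 0 0 / c.1 1 1) : (b⁻¹ * c).1 0 0 = (b⁻¹ * c).1 1 1 := by
  have hd := inv_mul_lower_left hb hc
  obtain ⟨-, h00, h11⟩ := mul_lower_left hb hd
  rw [mul_inv_cancel_left] at h00 h11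
  obtain ⟨hb0, hb1⟩ := diag_ne_zero hb
  obtain ⟨hc0, hc1⟩ := diag_ne_zero hc
  obtain ⟨hd0, hd1⟩ := diag_ne_zero hd
  rw [h00, h11] at hθ
  have h1 := (div_eq_div_iff hb1 (mul_ne_zero hb1 hd1)).mp hθ
  have : b.1 0 0 * b.1 1 1 * (b⁻¹ * c).1 1 1 = b.1 0 0 * b.1 1 1 * (b⁻¹ * c).1 0 0 := by
    linear_combination h1
  exact (mul_left_cancel₀ (mul_ne_zero hb0 hb1) this).symm

/-- An upper triangular matrix with equal diagonal entries is a scalar times a unipotent. -/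
theorem val_eq_smul_upper {b : GL (Fin 2) k} (hb : b.1 1 0 = 0) (hd : b.1 0 0 = b.1 1 1) :
    b.1 = b.1 0 0 • (upper (b.1 0 1 / b.1 0 0)).1 := by
  obtain ⟨hb0, -⟩ := diag_ne_zero hb
  rw [upper_val]
  ext i j
  fin_cases i <;> fin_cases j <;> simp [hb, ← hd]
  field_simp

end Borel

/-! ### The counting chain -/

section Chain

variable {p : ℕ} [Fact p.Prime] [CharP k p] {G : Subgroup (GL (Fin 2) k)}

/-- Every scalar matrix in `G` is `±1`. -/
def ScalarsTrivial (G : Subgroup (GL (Fin 2) k)) : Prop :=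
  ∀ g ∈ G, ∀ s : k, g.1 = s • (1 : Matrix (Fin 2) (Fin 2) k) → s * s = 1

/-- In characteristic `p`, `x ^ p = 1` forces `x = 1`. -/
theorem eq_one_of_pow_char (x : k) (hx : x ^ p = 1) : x = 1 := by
  have h : (x - 1) ^ p = 0 := by
    rw [sub_pow_char, one_pow, hx, sub_self]
  exact sub_eq_zero.mp (pow_eq_zero_iff (Fact.out : p.Prime).ne_zero |>.mp h)

/-- Elements of the kernel of `θ` on the Borel part of `G`: `b ^ p` is the scalar `b₀₀ = ±1`. -/
theorem pow_char_of_diag_eq (hp2 : p ≠ 2) (hsc : ScalarsTrivial G) {b : GL (Fin 2) k}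
    (hbG : b ∈ G) (hb : b.1 1 0 = 0) (hd : b.1 0 0 = b.1 1 1) :
    (b ^ p).1 = b.1 0 0 • (1 : Matrix (Fin 2) (Fin 2) k) ∧ b.1 0 0 * b.1 0 0 = 1 := by
  have hp : p.Prime := Fact.out
  set s := b.1 0 0 with hs
  have h1 : (b ^ p).1 = s ^ p • (1 : Matrix (Fin 2) (Fin 2) k) := by
    rw [Units.val_pow_eq_pow_val, val_eq_smul_upper hb hd, smul_pow,
      pow_char_eq_one_of_fix p (upper_det _) e1_ne_zero (upper_mulVec_e1 _)]
  have h2 : s ^ p * s ^ p = 1 := hsc _ (G.pow_mem hbG p) _ h1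
  have h3 : s * s = 1 := by
    apply eq_one_of_pow_char (p := p)
    rw [mul_pow]
    exact h2
  obtain ⟨m, hm⟩ := hp.odd_of_ne_two hp2
  have h4 : s ^ p = s := by
    rw [hm, pow_succ, pow_mul, pow_two, h3, one_pow, one_mul]
  rw [h4] at h1
  exact ⟨h1, h3⟩

variable [Finite k]

/-- The kernel of `θ` on the Borel part of `G` has at most `|Z| · |U|` elements. -/
theorem card_ker_le (hp2 : p ≠ 2) (hsc : ScalarsTrivial G) :
    Nat.card {b : GL (Fin 2) k // b ∈ G ∧ b.1 1 0 = 0 ∧ b.1 0 0 = b.1 1 1} ≤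
      Nat.card (Zsub (SLpart G)) * Nat.card (Usub (SLpart G) (x0 : ℙ k (Fin 2 → k))) := by
  rw [← Nat.card_prod]
  have hp : p.Prime := Fact.out
  have key : ∀ b : GL (Fin 2) k, b ∈ G ∧ b.1 1 0 = 0 ∧ b.1 0 0 = b.1 1 1 →
      ∃ (hz : b ^ p ∈ SLpart G) (hu : (b ^ p)⁻¹ * b ∈ SLpart G),
        (⟨b ^ p, hz⟩ : SLpart G) ∈ Zsub (SLpart G) ∧
        (⟨(b ^ p)⁻¹ * b, hu⟩ : SLpart G) ∈ Usub (SLpart G) (x0 : ℙ k (Fin 2 → k)) := by
    rintro b ⟨hbG, hb, hd⟩
    obtain ⟨h1, h3⟩ := pow_char_of_diag_eq hp2 hsc hbG hb hd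
    have hzG : b ^ p ∈ G := G.pow_mem hbG p
    have hzdet : (b ^ p).1.det = 1 := by
      rw [h1, Matrix.det_smul, Matrix.det_one, Fintype.card_fin, mul_one, pow_two, h3]
    have hz : b ^ p ∈ SLpart G := mem_SLpart.mpr ⟨hzG, hzdet⟩
    have hudet : ((b ^ p)⁻¹ * b).1.det = 1 := by
      have h5 : (b ^ p).1.det * ((b ^ p)⁻¹ * b).1.det = b.1.det := by
        rw [← Matrix.det_mul, ← Units.val_mul, mul_inv_cancel_left]
      rw [hzdet, one_mul] at h5
      rw [h5, Matrix.det_fin_two, hb, mul_zero, sub_zero, ← hd, h3]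
    have hu : (b ^ p)⁻¹ * b ∈ SLpart G :=
      mem_SLpart.mpr ⟨G.mul_mem (G.inv_mem hzG) hbG, hudet⟩
    refine ⟨hz, hu, ?_, ?_⟩
    · rw [mem_Zsub]
      have h6 : b.1 0 0 = 1 ∨ b.1 0 0 = -1 := by
        have : (b.1 0 0 - 1) * (b.1 0 0 + 1) = 0 := by linear_combination h3
        rcases mul_eq_zero.mp this with h | h
        · exact Or.inl (sub_eq_zero.mp h)
        · exact Or.inr (eq_neg_of_add_eq_zero_left h)
      rcases h6 with h6 | h6
      · left
        apply Units.ext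
        rw [h1, h6, one_smul, Units.val_one]
      · right
        apply Units.ext
        rw [h1, h6, Units.val_neg, Units.val_one, neg_smul, one_smul]
    · rw [x0, mem_Usub_mk]
      show ((b ^ p)⁻¹ * b).1 *ᵥ e1 = e1
      have h7 : (b ^ p).1 *ᵥ (((b ^ p)⁻¹ * b).1 *ᵥ e1) = (b ^ p).1 *ᵥ e1 := by
        rw [Matrix.mulVec_mulVec, ← Units.val_mul, mul_inv_cancel_left, h1, Matrix.smul_mulVec,
          Matrix.one_mulVec, mulVec_e1, hb]
        ext i
        fin_cases i <;> simp [e1]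
      have hinj : ∀ v w : Fin 2 → k, (b ^ p).1 *ᵥ v = (b ^ p).1 *ᵥ w → v = w := by
        intro v w hvw
        have h8 := congrArg (fun t => ((b ^ p)⁻¹).1 *ᵥ t) hvw
        simp only [Matrix.mulVec_mulVec] at h8
        rw [← Units.val_mul, inv_mul_cancel, Units.val_one, Matrix.one_mulVec,
          Matrix.one_mulVec] at h8
        exact h8
      exact hinj _ _ h7
  choose hz hu hzZ huU using key
  refine Nat.card_le_card_of_injective
    (fun b => (⟨⟨b.1 ^ p, hz b.1 b.2⟩, hzZ b.1 b.2⟩, ⟨⟨(b.1 ^ p)⁻¹ * b.1, hu b.1 b.2⟩, huU b.1 b.2⟩))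
    ?_
  rintro ⟨b, hb⟩ ⟨c, hc⟩ hbc
  simp only [Prod.mk.injEq, Subtype.mk.injEq] at hbc
  apply Subtype.ext
  show b = c
  have h1 : b = b ^ p * ((b ^ p)⁻¹ * b) := by group
  have h2 : c = c ^ p * ((c ^ p)⁻¹ * c) := by group
  rw [h1, h2, hbc.2, hbc.1]

/-- The number of `a` with `upper a ∈ G` is at most `|U|`. -/
theorem card_upper_le :
    Nat.card {a : k // upper a ∈ G} ≤ Nat.card (Usub (SLpart G) (x0 : ℙ k (Fin 2 → k))) := by
  have key : ∀ a : k, upper a ∈ G → ∃ (h1 : upper a ∈ SLpart G),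
      (⟨upper a, h1⟩ : SLpart G) ∈ Usub (SLpart G) (x0 : ℙ k (Fin 2 → k)) := by
    intro a ha
    refine ⟨upper_mem_SLpart ha, ?_⟩
    rw [x0, mem_Usub_mk]
    exact upper_mulVec_e1 a
  choose h1 h2 using key
  refine Nat.card_le_card_of_injective (fun a => ⟨⟨upper a.1, h1 a.1 a.2⟩, h2 a.1 a.2⟩) ?_
  rintro ⟨a, ha⟩ ⟨b, hb⟩ hab
  simp only [Subtype.mk.injEq] at hab
  exact Subtype.ext (upper_inj hab)

/-- **Frattini, counting form**: `(p - 1) · |Stab_{G₁}(x₀)| ≤ |B|`. -/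
theorem card_borel_ge (hp2 : p ≠ 2) (h : GHyp p G) {a₀ : k} (ha₀ : a₀ ≠ 0) (hu : upper a₀ ∈ G) :
    (p - 1) * Nat.card (stabilizer (SLpart G) (x0 : ℙ k (Fin 2 → k))) ≤
      Nat.card {b : GL (Fin 2) k // b ∈ G ∧ b.1 1 0 = 0} := by
  have hp : p.Prime := Fact.out
  let φ : ZMod p →+* k := ZMod.castHom (dvd_refl p) k
  have hφinj : Function.Injective φ := φ.injective
  have key : ∀ a : (ZMod p)ˣ, ∃ b ∈ G, b.1 1 0 = 0 ∧ b.1.det = φ a := by
    intro a
    have h1 : (φ a) ^ (p - 1) = 1 := by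
      rw [← map_pow, ZMod.pow_card_sub_one_eq_one a.ne_zero, map_one]
    obtain ⟨g, hg, hgdet⟩ := h.det_surj _ h1
    obtain ⟨b, hb, hb0, hbdet⟩ := exists_borel_det hp2 h ha₀ hu hg
    exact ⟨b, hb, hb0, hbdet.trans hgdet⟩
  choose β hβG hβ0 hβdet using key
  have hcard : (p - 1) * Nat.card (stabilizer (SLpart G) (x0 : ℙ k (Fin 2 → k))) =
      Nat.card ((ZMod p)ˣ × stabilizer (SLpart G) (x0 : ℙ k (Fin 2 → k))) := by
    rw [Nat.card_prod, Nat.card_eq_fintype_card (α := (ZMod p)ˣ), ZMod.card_units]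
  rw [hcard]
  have hmem : ∀ (a : (ZMod p)ˣ) (hh : stabilizer (SLpart G) (x0 : ℙ k (Fin 2 → k))),
      β a * hh.1.1 ∈ G ∧ (β a * hh.1.1).1 1 0 = 0 := by
    intro a hh
    refine ⟨G.mul_mem (hβG a) (SLpart_le G hh.1.2), ?_⟩
    have h1 : hh.1.1.1 1 0 = 0 := by
      rw [← smul_x0_eq_iff]
      exact hh.2
    exact (mul_lower_left (hβ0 a) h1).1
  refine Nat.card_le_card_of_injective (fun ah => ⟨β ah.1 * ah.2.1.1, hmem ah.1 ah.2⟩) ?_
  rintro ⟨a, hh⟩ ⟨a', hh'⟩ heq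
  simp only [Subtype.mk.injEq] at heq
  have hdet := congrArg (fun g : GL (Fin 2) k => g.1.det) heq
  simp only [Units.val_mul, Matrix.det_mul, hβdet, (mem_SLpart.mp hh.1.2).2,
    (mem_SLpart.mp hh'.1.2).2, mul_one] at hdet
  have haa' : a = a' := Units.ext (hφinj hdet)
  subst haa'
  have hhh' : hh.1.1 = hh'.1.1 := mul_left_cancel heq
  rw [Prod.mk.injEq]
  exact ⟨rfl, Subtype.ext (Subtype.ext hhh')⟩

/-- **Main theorem of the Frattini step.** If every scalar matrix of `G` is `±1`, then `p = 3`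
and the upper triangular part of `G` acts transitively on the nonzero `a` with `upper a ∈ G`. -/
theorem main (hp2 : p ≠ 2) (h : GHyp p G) {a₀ : k} (ha₀ : a₀ ≠ 0) (hu : upper a₀ ∈ G)
    (hsc : ScalarsTrivial G) :
    p = 3 ∧ ∀ a : k, a ≠ 0 → upper a ∈ G →
      ∃ b ∈ G, b.1 1 0 = 0 ∧ b.1 0 0 / b.1 1 1 * a₀ = a := by
  classical
  have hp : p.Prime := Fact.out
  have hH := GTProj19.hyp p h.slHyp hp2
  have hx0 := Usub_x0_ne_bot ha₀ hu
  have hcount := hH.main hp2 hx0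
  have hlow := card_borel_ge hp2 h ha₀ hu
  have hK := card_ker_le hp2 hsc
  have hA := card_upper_le (G := G)
  have hq1 : 1 < Nat.card (Usub (SLpart G) (x0 : ℙ k (Fin 2 → k))) :=
    (Subgroup.one_lt_card_iff_ne_bot _).mpr hx0
  have hz1 : 0 < Nat.card (Zsub (SLpart G)) := Nat.card_pos
  generalize Nat.card (Zsub (SLpart G)) = z₁ at *
  generalize Nat.card (Usub (SLpart G) (x0 : ℙ k (Fin 2 → k))) = q at *
  generalize Nat.card (stabilizer (SLpart G) (x0 : ℙ k (Fin 2 → k))) = s₁ at *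
  have : Fintype k := Fintype.ofFinite k
  have : Fintype {b : GL (Fin 2) k // b ∈ G ∧ b.1 1 0 = 0} := Fintype.ofFinite _
  set f : {b : GL (Fin 2) k // b ∈ G ∧ b.1 1 0 = 0} → k :=
    fun b => b.1.1 0 0 / b.1.1 1 1 * a₀ with hf
  set Af : Finset k := Finset.univ.filter (fun a => a ≠ 0 ∧ upper a ∈ G) with hAf
  -- the image of `f` lies in `Af`
  have himg : Finset.univ.image f ⊆ Af := by
    intro a ha
    obtain ⟨b, -, rfl⟩ := Finset.mem_image.mp ha
    obtain ⟨hb0, hb1⟩ := diag_ne_zero b.2.2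
    simp only [hAf, Finset.mem_filter, Finset.mem_univ, true_and]
    refine ⟨mul_ne_zero (div_ne_zero hb0 hb1) ha₀, ?_⟩
    rw [hf, ← conj_upper b.2.2]
    exact G.mul_mem (G.mul_mem b.2.1 hu) (G.inv_mem b.2.1)
  -- `|Af| + 1 ≤ q`
  have hAfcard : Af.card + 1 ≤ q := by
    have h1 : Nat.card {a : k // upper a ∈ G} = (insert 0 Af).card := by
      refine Nat.subtype_card _ (fun a => ?_)
      simp only [hAf, Finset.mem_insert, Finset.mem_filter, Finset.mem_univ, true_and]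
      constructor
      · rintro (rfl | ⟨-, h2⟩)
        · rw [upper_zero]
          exact G.one_mem
        · exact h2
      · intro h2
        by_cases h3 : a = 0
        · exact Or.inl h3
        · exact Or.inr ⟨h3, h2⟩
    rw [Finset.card_insert_of_notMem (by simp [hAf])] at h1
    omega
  -- the fibre bound
  have hfib : Fintype.card {b : GL (Fin 2) k // b ∈ G ∧ b.1 1 0 = 0} ≤
      Nat.card {b : GL (Fin 2) k // b ∈ G ∧ b.1 1 0 = 0 ∧ b.1 0 0 = b.1 1 1} *
        (Finset.univ.image f).card := by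
    rw [← Finset.card_univ]
    refine Finset.card_le_mul_card_image _ _ (fun a ha => ?_)
    obtain ⟨b₀, -, hb₀⟩ := Finset.mem_image.mp ha
    rw [← Fintype.card_subtype, ← Nat.card_eq_fintype_card]
    have hmem : ∀ b : {b : {b : GL (Fin 2) k // b ∈ G ∧ b.1 1 0 = 0} // f b = a},
        b₀.1⁻¹ * b.1.1 ∈ G ∧ (b₀.1⁻¹ * b.1.1).1 1 0 = 0 ∧
          (b₀.1⁻¹ * b.1.1).1 0 0 = (b₀.1⁻¹ * b.1.1).1 1 1 := by
      intro b
      refine ⟨G.mul_mem (G.inv_mem b₀.2.1) b.1.2.1, inv_mul_lower_left b₀.2.2 b.1.2.2, ?_⟩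
      apply theta_inv_mul b₀.2.2 b.1.2.2
      have h1 : f b₀ = f b.1 := hb₀.trans b.2.symm
      exact mul_right_cancel₀ ha₀ h1
    refine Nat.card_le_card_of_injective (fun b => ⟨b₀.1⁻¹ * b.1.1, hmem b⟩) ?_
    intro b c hbc
    simp only [Subtype.mk.injEq] at hbc
    exact Subtype.ext (Subtype.ext (mul_left_cancel hbc))
  rw [← Nat.card_eq_fintype_card] at hfib
  generalize Nat.card {b : GL (Fin 2) k // b ∈ G ∧ b.1 1 0 = 0} = nB at *
  generalize Nat.card {b : GL (Fin 2) k // b ∈ G ∧ b.1 1 0 = 0 ∧ b.1 0 0 = b.1 1 1} = nK at *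
  have himgcard : (Finset.univ.image f).card ≤ Af.card := Finset.card_le_card himg
  set nI := (Finset.univ.image f).card with hnI
  -- the chain
  have hzq : 0 < z₁ * q := Nat.mul_pos hz1 (by omega)
  have hchain : (p - 1) * (q - 1) * (z₁ * q) ≤ 2 * nI * (z₁ * q) := by
    calc (p - 1) * (q - 1) * (z₁ * q) = (p - 1) * (z₁ * (q * (q - 1))) := by ring
      _ ≤ (p - 1) * (2 * s₁) := Nat.mul_le_mul_left _ hcount
      _ = 2 * ((p - 1) * s₁) := by ring
      _ ≤ 2 * nB := Nat.mul_le_mul_left _ hlow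
      _ ≤ 2 * (nK * nI) := Nat.mul_le_mul_left _ hfib
      _ ≤ 2 * (z₁ * q * nI) := Nat.mul_le_mul_left _ (Nat.mul_le_mul_right _ hK)
      _ = 2 * nI * (z₁ * q) := by ring
  have hchain' : (p - 1) * (q - 1) ≤ 2 * nI := Nat.le_of_mul_le_mul_right hchain hzq
  have hp3 : 3 ≤ p := by
    have := hp.two_le
    omega
  have hnIq : nI ≤ q - 1 := by omega
  have hp3' : p = 3 := by
    by_contra hne
    have h4 : 4 ≤ p := by omega
    have h5 : 3 * (q - 1) ≤ (p - 1) * (q - 1) := Nat.mul_le_mul_right _ (by omega)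
    omega
  refine ⟨hp3', ?_⟩
  -- surjectivity
  have hge : Af.card ≤ nI := by
    rw [hp3'] at hchain'
    omega
  have himgeq : Finset.univ.image f = Af := Finset.eq_of_subset_of_card_le himg hge
  intro a ha haG
  have haAf : a ∈ Af := by
    simp only [hAf, Finset.mem_filter, Finset.mem_univ, true_and]
    exact ⟨ha, haG⟩
  rw [← himgeq] at haAf
  obtain ⟨b, -, hb⟩ := Finset.mem_image.mp haAf
  exact ⟨b.1, b.2.1, b.2.2, hb⟩

end Chain

end Fermat.Agent.ES.T56.GTFrattini19
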