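/-
Chapter GT (S56): the case `p = 3` with only the scalars `±1` in `G`.  Explicit cocycle algebra on
the upper unipotent subgroup `P = {upper a | upper a ∈ G}`: a cocycle `c` on `G` restricted to `P`
is a coboundary, using the cocycle relation on the upper triangular part of `G`, which acts
transitively on `P ∖ 1` and contains an element of determinant `-1`.
-/
import Fermat.Agent.ES.T56.GTDefs19
import Fermat.Agent.ES.T56.GTFrattini19

namespace Fermat.Agent.ES.T56.GTThree19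

open Matrix
open Fermat.Agent.ES.T56.GTDefs19 Fermat.Agent.ES.T56.GTFrattini19

variable {k : Type*} [Field k]

/-- The twisted adjoint action without inverses: `act g m = g * m * adj g`. -/
theorem act_adj (g : GL (Fin 2) k) (m : Matrix (Fin 2) (Fin 2) k) :
    act g m = g.1 * m * g.1.adjugate := by
  have hdet : g.1.det ≠ 0 := Matrix.GeneralLinearGroup.det_ne_zero g
  unfold act
  rw [Matrix.coe_units_inv, Matrix.inv_def, Ring.inverse_eq_inv', Matrix.mul_smul, smul_smul,
    mul_inv_cancel₀ hdet, one_smul]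

/-- Entries of `act (upper a) m`. -/
theorem act_upper (a : k) (m : Matrix (Fin 2) (Fin 2) k) :
    act (upper a) m = !![m 0 0 + a * m 1 0, m 0 1 + a * (m 1 1 - m 0 0) - a ^ 2 * m 1 0;
      m 1 0, m 1 1 - a * m 1 0] := by
  rw [act_adj, upper_val, Matrix.adjugate_fin_two]
  conv_lhs => rw [Matrix.eta_fin_two m]
  simp only [Matrix.mul_fin_two, Matrix.of_apply, Matrix.cons_val', Matrix.cons_val_zero,
    Matrix.cons_val_one, Matrix.cons_val_fin_one]
  ext i j
  fin_cases i <;> fin_cases j <;> simp <;> ring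

/-- Entries of `act b m` for upper triangular `b`. -/
theorem act_borel {b : GL (Fin 2) k} (hb : b.1 1 0 = 0) (m : Matrix (Fin 2) (Fin 2) k) :
    act b m = !![b.1 0 0 * b.1 1 1 * m 0 0 + b.1 0 1 * b.1 1 1 * m 1 0,
      b.1 0 0 * b.1 0 0 * m 0 1 + b.1 0 0 * b.1 0 1 * (m 1 1 - m 0 0) - b.1 0 1 * b.1 0 1 * m 1 0;
      b.1 1 1 * b.1 1 1 * m 1 0, b.1 0 0 * b.1 1 1 * m 1 1 - b.1 0 1 * b.1 1 1 * m 1 0] := by
  rw [act_adj, Matrix.adjugate_fin_two]
  conv_lhs => rw [Matrix.eta_fin_two m, Matrix.eta_fin_two b.1]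
  simp only [Matrix.mul_fin_two, hb]
  ext i j
  fin_cases i <;> fin_cases j <;> simp <;> ring

theorem IsCocycle.map_one {G : Subgroup (GL (Fin 2) k)}
    {c : GL (Fin 2) k → Matrix (Fin 2) (Fin 2) k} (hc : IsCocycle G c) : c 1 = 0 := by
  have h := hc.map_mul 1 G.one_mem 1 G.one_mem
  rw [mul_one, act_one] at h
  exact left_eq_add.mp h

/-- Subtracting a coboundary from a cocycle. -/
theorem IsCocycle.sub_cob {G : Subgroup (GL (Fin 2) k)}
    {c : GL (Fin 2) k → Matrix (Fin 2) (Fin 2) k} (hc : IsCocycle G c)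
    (m : Matrix (Fin 2) (Fin 2) k) (hm : m.trace = 0) :
    IsCocycle G (fun g => c g - (act g m - m)) where
  trace_zero := fun g hg => by
    rw [Matrix.trace_sub, Matrix.trace_sub, trace_act, hm, hc.trace_zero g hg, mul_zero, sub_self,
      sub_self]
  map_mul := fun g hg h hh => by
    simp only [hc.map_mul g hg h hh, act_mul, act_sub]
    abel

section Unipotent

variable {G : Subgroup (GL (Fin 2) k)} {c : GL (Fin 2) k → Matrix (Fin 2) (Fin 2) k}

theorem upper_add_mem {a b : k} (ha : upper a ∈ G) (hb : upper b ∈ G) : upper (a + b) ∈ G := by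
  rw [← upper_mul]
  exact G.mul_mem ha hb

/-- The cocycle relation on the unipotent subgroup, entrywise. -/
theorem coc_upper (hc : IsCocycle G c) {a b : k} (ha : upper a ∈ G) (hb : upper b ∈ G) :
    c (upper (a + b)) 1 0 = c (upper a) 1 0 + c (upper b) 1 0 ∧
    c (upper (a + b)) 0 0 = c (upper a) 0 0 + (c (upper b) 0 0 + a * c (upper b) 1 0) ∧
    c (upper (a + b)) 0 1 = c (upper a) 0 1 + (c (upper b) 0 1
      + a * (c (upper b) 1 1 - c (upper b) 0 0) - a ^ 2 * c (upper b) 1 0) := by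
  have h := hc.map_mul _ ha _ hb
  rw [upper_mul, act_upper] at h
  refine ⟨?_, ?_, ?_⟩
  · have := congrFun (congrFun h 1) 0
    simpa using this
  · have := congrFun (congrFun h 0) 0
    simpa using this
  · have := congrFun (congrFun h 0) 1
    simpa using this

theorem trace_zero_entry (hc : IsCocycle G c) {g : GL (Fin 2) k} (hg : g ∈ G) :
    c g 1 1 = -c g 0 0 := by
  have := hc.trace_zero g hg
  rw [Matrix.trace_fin_two] at this
  exact eq_neg_of_add_eq_zero_right this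

end Unipotent

section CharThree

variable [CharP k 3] {G : Subgroup (GL (Fin 2) k)} {c : GL (Fin 2) k → Matrix (Fin 2) (Fin 2) k}

theorem three_eq_zero : (3 : k) = 0 := by
  have := CharP.cast_eq_zero k 3
  exact_mod_cast this

/-- **Lemma A** (characteristic `3`): a cocycle has no lower-left component on the unipotent
subgroup. -/
theorem lower_left_zero (hc : IsCocycle G c) {a : k} (ha : upper a ∈ G) :
    c (upper a) 1 0 = 0 := by
  by_cases ha0 : a = 0
  · subst ha0
    rw [upper_zero, IsCocycle.map_one hc]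
    rfl
  have h2a := upper_add_mem ha ha
  obtain ⟨-, -, e1⟩ := coc_upper hc ha ha
  obtain ⟨-, -, e2⟩ := coc_upper hc h2a ha
  have h30 : a + a + a = 0 := by linear_combination a * (three_eq_zero (k := k))
  rw [h30, upper_zero, IsCocycle.map_one hc, Matrix.zero_apply] at e2
  have t := trace_zero_entry hc ha
  rw [e1, t] at e2
  have h3 := three_eq_zero (k := k)
  have key : a ^ 2 * c (upper a) 1 0 = 0 := by
    linear_combination (-1 : k) * e2 + (-(c (upper a) 0 1) + 2 * a * c (upper a) 0 0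
      + 2 * a ^ 2 * c (upper a) 1 0) * h3
  rcases mul_eq_zero.mp key with h | h
  · exact absurd (pow_eq_zero_iff (two_ne_zero) |>.mp h) ha0
  · exact h

/-- **Lemma B**: the diagonal component on the unipotent subgroup is proportional to `a`. -/
theorem diag_prop (hc : IsCocycle G c) {a b : k} (ha : upper a ∈ G) (hb : upper b ∈ G) :
    a * c (upper b) 0 0 = b * c (upper a) 0 0 := by
  obtain ⟨-, -, e1⟩ := coc_upper hc ha hb
  obtain ⟨-, -, e2⟩ := coc_upper hc hb ha
  rw [add_comm b a, e1, trace_zero_entry hc ha, trace_zero_entry hc hb, lower_left_zero hc ha,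
    lower_left_zero hc hb] at e2
  have h3 := three_eq_zero (k := k)
  linear_combination e2 + (a * c (upper b) 0 0 - b * c (upper a) 0 0) * h3

/-- The relation coming from the upper triangular part of `G`, for a cocycle whose restriction to
the unipotent subgroup has only an upper-right component. -/
theorem borel_rel (hc : IsCocycle G c) (h00 : ∀ a : k, upper a ∈ G → c (upper a) 0 0 = 0)
    {b : GL (Fin 2) k} (hbG : b ∈ G) (hb : b.1 1 0 = 0) {a : k} (ha : upper a ∈ G) :
    upper (b.1 0 0 / b.1 1 1 * a) ∈ G ∧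
    c (upper (b.1 0 0 / b.1 1 1 * a)) 0 1 =
      b.1 0 0 * b.1 0 0 * c (upper a) 0 1 + 2 * (b.1 0 0 / b.1 1 1 * a) * c b 0 0 := by
  set a' := b.1 0 0 / b.1 1 1 * a with ha'
  have hconj : b * upper a * b⁻¹ = upper a' := conj_upper hb a
  have ha'G : upper a' ∈ G := by
    rw [← hconj]
    exact G.mul_mem (G.mul_mem hbG ha) (G.inv_mem hbG)
  refine ⟨ha'G, ?_⟩
  have hcomm : b * upper a = upper a' * b := by
    rw [← hconj]
    group
  have h1 := hc.map_mul b hbG _ ha
  have h2 := hc.map_mul _ ha'G b hbG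
  rw [hcomm, h2, act_upper, act_borel hb] at h1
  have e00 := congrFun (congrFun h1 0) 0
  have e01 := congrFun (congrFun h1 0) 1
  simp only [Matrix.add_apply, Matrix.of_apply, Matrix.cons_val', Matrix.cons_val_zero,
    Matrix.cons_val_one, Matrix.cons_val_fin_one] at e00 e01
  have A00 : c (upper a) 0 0 = 0 := h00 a ha
  have A10 : c (upper a) 1 0 = 0 := lower_left_zero hc ha
  have A11 : c (upper a) 1 1 = -c (upper a) 0 0 := trace_zero_entry hc ha
  have A'00 : c (upper a') 0 0 = 0 := h00 a' ha'G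
  have B11 : c b 1 1 = -c b 0 0 := trace_zero_entry hc hbG
  have e00' : a' * c b 1 0 = 0 := by
    linear_combination e00 - A'00 + b.1 0 0 * b.1 1 1 * A00 + b.1 0 1 * b.1 1 1 * A10
  have e00'' : a' ^ 2 * c b 1 0 = 0 := by rw [pow_two, mul_assoc, e00', mul_zero]
  linear_combination e01 - a' * B11 + e00'' + b.1 0 0 * b.1 0 1 * (A11 - 2 * A00)
    - b.1 0 1 * b.1 0 1 * A10

theorem two_ne_zero_three : (2 : k) ≠ 0 := by
  intro h2
  have h3 := three_eq_zero (k := k)
  have : (1 : k) = 0 := by linear_combination h3 - h2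
  exact one_ne_zero this

omit [CharP k 3] in
theorem det_borel {b : GL (Fin 2) k} (hb : b.1 1 0 = 0) : b.1.det = b.1 0 0 * b.1 1 1 := by
  rw [Matrix.det_fin_two, hb, mul_zero, sub_zero]

/-- **Characteristic `3`**: a cocycle restricted to the unipotent subgroup is a coboundary, provided
the upper triangular part of `G` acts transitively on the nontrivial upper unipotents of `G` and
contains an element of determinant `-1`. -/
theorem cob_on_unipotent (hc : IsCocycle G c) {a₀ : k} (ha₀ : a₀ ≠ 0) (hu : upper a₀ ∈ G)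
    (hdet : ∀ b ∈ G, b.1.det = 1 ∨ b.1.det = -1)
    (hS2 : ∀ a : k, a ≠ 0 → upper a ∈ G →
      ∃ b ∈ G, b.1 1 0 = 0 ∧ b.1 0 0 / b.1 1 1 * a₀ = a)
    (hS3 : ∃ b ∈ G, b.1 1 0 = 0 ∧ b.1.det = -1) :
    ∃ m : Matrix (Fin 2) (Fin 2) k, m.trace = 0 ∧
      ∀ a : k, upper a ∈ G → c (upper a) = act (upper a) m - m := by
  have h2 := two_ne_zero_three (k := k)
  set μ : k := c (upper a₀) 0 0 / a₀ with hμ
  set ν₀ : k := -(c (upper a₀) 0 1 + a₀ ^ 2 * μ) / (2 * a₀) with hν₀
  set m : Matrix (Fin 2) (Fin 2) k := !![ν₀, 0; μ, -ν₀] with hm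
  have hmtr : m.trace = 0 := by
    rw [Matrix.trace_fin_two, hm]
    simp
  refine ⟨m, hmtr, ?_⟩
  set c₂ : GL (Fin 2) k → Matrix (Fin 2) (Fin 2) k := fun g => c g - (act g m - m) with hc₂def
  have hc₂ : IsCocycle G c₂ := IsCocycle.sub_cob hc m hmtr
  suffices hzero : ∀ a : k, upper a ∈ G → c₂ (upper a) = 0 by
    intro a ha
    exact sub_eq_zero.mp (hzero a ha)
  -- entries of `c₂ (upper a)`
  have hent00 : ∀ a : k, c₂ (upper a) 0 0 = c (upper a) 0 0 - a * μ := by
    intro a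
    simp only [hc₂def, act_upper, hm, Matrix.sub_apply, Matrix.of_apply, Matrix.cons_val',
      Matrix.cons_val_zero, Matrix.cons_val_one, Matrix.cons_val_fin_one]
    ring
  have hent01 : ∀ a : k, c₂ (upper a) 0 1 = c (upper a) 0 1 + 2 * a * ν₀ + a ^ 2 * μ := by
    intro a
    simp only [hc₂def, act_upper, hm, Matrix.sub_apply, Matrix.of_apply, Matrix.cons_val',
      Matrix.cons_val_zero, Matrix.cons_val_one, Matrix.cons_val_fin_one]
    ring
  have P00 : c₂ (upper a₀) 0 0 = 0 := by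
    rw [hent00, hμ]
    field_simp
    ring
  have P01 : c₂ (upper a₀) 0 1 = 0 := by
    rw [hent01, hν₀]
    field_simp
    ring
  have h00 : ∀ a : k, upper a ∈ G → c₂ (upper a) 0 0 = 0 := by
    intro a ha
    have h1 := diag_prop hc₂ hu ha
    rw [P00, mul_zero] at h1
    exact (mul_eq_zero.mp h1).resolve_left ha₀
  have h10 : ∀ a : k, upper a ∈ G → c₂ (upper a) 1 0 = 0 := fun a ha => lower_left_zero hc₂ ha
  have h11 : ∀ a : k, upper a ∈ G → c₂ (upper a) 1 1 = 0 := by
    intro a ha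
    rw [trace_zero_entry hc₂ ha, h00 a ha, neg_zero]
  -- additivity of the upper-right component
  have hadd : ∀ a b : k, upper a ∈ G → upper b ∈ G →
      c₂ (upper (a + b)) 0 1 = c₂ (upper a) 0 1 + c₂ (upper b) 0 1 := by
    intro a b ha hb
    obtain ⟨-, -, e1⟩ := coc_upper hc₂ ha hb
    rw [e1, h11 b hb, h00 b hb, h10 b hb]
    ring
  have hε0 : c₂ (upper 0) 0 1 = 0 := by
    rw [upper_zero, IsCocycle.map_one hc₂]
    rfl
  -- the relations coming from the upper triangular part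
  have E1 : ∀ b ∈ G, b.1 1 0 = 0 → ∀ a : k, upper a ∈ G →
      upper (b.1 0 0 / b.1 1 1 * a) ∈ G ∧
      c₂ (upper (b.1 0 0 / b.1 1 1 * a)) 0 1 =
        b.1 0 0 * b.1 0 0 * c₂ (upper a) 0 1 + (b.1 0 0 / b.1 1 1 * a) * (2 * c₂ b 0 0) := by
    intro b hbG hb a ha
    obtain ⟨h1, h2'⟩ := borel_rel hc₂ h00 hbG hb ha
    refine ⟨h1, ?_⟩
    rw [h2']
    ring
  have E2 : ∀ b ∈ G, b.1 1 0 = 0 →
      c₂ (upper (b.1 0 0 / b.1 1 1 * a₀)) 0 1 = (b.1 0 0 / b.1 1 1 * a₀) * (2 * c₂ b 0 0) := by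
    intro b hbG hb
    rw [(E1 b hbG hb a₀ hu).2, P01, mul_zero, zero_add]
  have E3 : ∀ b ∈ G, b.1 1 0 = 0 → ∀ b' ∈ G, b'.1 1 0 = 0 →
      b.1.det * (2 * c₂ b' 0 0) + 2 * c₂ b 0 0 = b'.1.det * (2 * c₂ b 0 0) + 2 * c₂ b' 0 0 := by
    intro b hbG hb b' hb'G hb'
    obtain ⟨hb0, hb1⟩ := diag_ne_zero hb
    obtain ⟨hb'0, hb'1⟩ := diag_ne_zero hb'
    have hA' := (E1 b' hb'G hb' a₀ hu).1
    have hA := (E1 b hbG hb a₀ hu).1
    have e1 := (E1 b hbG hb _ hA').2
    have e2 := (E1 b' hb'G hb' _ hA).2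
    rw [E2 b' hb'G hb'] at e1
    rw [E2 b hbG hb] at e2
    have hcomm : b.1 0 0 / b.1 1 1 * (b'.1 0 0 / b'.1 1 1 * a₀) =
        b'.1 0 0 / b'.1 1 1 * (b.1 0 0 / b.1 1 1 * a₀) := by ring
    rw [hcomm, e2] at e1
    rw [det_borel hb, det_borel hb']
    have hne : b.1 0 0 / b.1 1 1 * (b'.1 0 0 / b'.1 1 1) * a₀ ≠ 0 :=
      mul_ne_zero (mul_ne_zero (div_ne_zero hb0 hb1) (div_ne_zero hb'0 hb'1)) ha₀
    apply mul_left_cancel₀ hne
    field_simp
    field_simp at e1
    linear_combination -e1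
  obtain ⟨b₁, hb₁G, hb₁, hb₁det⟩ := hS3
  -- `N b = 0` when `det b = 1`
  have key1 : ∀ b ∈ G, b.1 1 0 = 0 → b.1.det = 1 → 2 * c₂ b 0 0 = 0 := by
    intro b hbG hb hbdet
    have h := E3 b hbG hb b₁ hb₁G hb₁
    rw [hbdet, hb₁det] at h
    have : 2 * (2 * c₂ b 0 0) = 0 := by linear_combination h
    exact (mul_eq_zero.mp this).resolve_left h2
  -- `N b = N b₁` when `det b = -1`
  have key2 : ∀ b ∈ G, b.1 1 0 = 0 → b.1.det = -1 → 2 * c₂ b 0 0 = 2 * c₂ b₁ 0 0 := by
    intro b hbG hb hbdet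
    have h := E3 b hbG hb b₁ hb₁G hb₁
    rw [hbdet, hb₁det] at h
    have : 2 * (2 * c₂ b 0 0 - 2 * c₂ b₁ 0 0) = 0 := by linear_combination h
    exact sub_eq_zero.mp ((mul_eq_zero.mp this).resolve_left h2)
  obtain ⟨hb₁0, hb₁1⟩ := diag_ne_zero hb₁
  have hθ₁ : b₁.1 0 0 / b₁.1 1 1 ≠ 0 := div_ne_zero hb₁0 hb₁1
  -- `N b₁ = 0`
  have key3 : 2 * c₂ b₁ 0 0 = 0 := by
    have hA₁ := (E1 b₁ hb₁G hb₁ a₀ hu).1
    have hsum := hadd a₀ _ hu hA₁
    rw [P01, zero_add, E2 b₁ hb₁G hb₁] at hsum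
    by_cases hstar : a₀ + b₁.1 0 0 / b₁.1 1 1 * a₀ = 0
    · rw [hstar, hε0] at hsum
      rcases mul_eq_zero.mp hsum.symm with h | h
      · exact absurd h (mul_ne_zero hθ₁ ha₀)
      · exact h
    · obtain ⟨b₂, hb₂G, hb₂, hb₂eq⟩ := hS2 _ hstar (upper_add_mem hu hA₁)
      have h3 := E2 b₂ hb₂G hb₂
      rw [hb₂eq, hsum] at h3
      rcases hdet b₂ hb₂G with hd | hd
      · rw [key1 b₂ hb₂G hb₂ hd, mul_zero] at h3
        rcases mul_eq_zero.mp h3 with h | h
        · exact absurd h (mul_ne_zero hθ₁ ha₀)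
        · exact h
      · rw [key2 b₂ hb₂G hb₂ hd] at h3
        have : a₀ * (2 * c₂ b₁ 0 0) = 0 := by linear_combination -h3
        exact (mul_eq_zero.mp this).resolve_left ha₀
  have key4 : ∀ b ∈ G, b.1 1 0 = 0 → 2 * c₂ b 0 0 = 0 := by
    intro b hbG hb
    rcases hdet b hbG with hd | hd
    · exact key1 b hbG hb hd
    · rw [key2 b hbG hb hd, key3]
  -- conclusion
  intro a ha
  have hε : c₂ (upper a) 0 1 = 0 := by
    by_cases ha0 : a = 0
    · rw [ha0]
      exact hε0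
    · obtain ⟨b, hbG, hb, hbeq⟩ := hS2 a ha0 ha
      have := E2 b hbG hb
      rw [hbeq, key4 b hbG hb, mul_zero] at this
      exact this
  ext i j
  fin_cases i <;> fin_cases j
  · exact h00 a ha
  · exact hε
  · exact h10 a ha
  · exact h11 a ha

end CharThree

end Fermat.Agent.ES.T56.GTThree19
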