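/-
Chapter GT (S56): **`H¹(G, ad⁰ ⊗ det) = 0`** for a finite subgroup `G ≤ GL₂(k)` (`k` finite of odd
characteristic `p`) with `det G = 𝔽_pˣ`, all eigenvalues in `k`, and `G ∩ SL₂(k)` without invariant
line — in explicit-cocycle form, by the counting route (D′), no Dickson.
* `coboundary_of_std`: `G` in standard position (contains a nontrivial `upper a₀`);
* `coboundary`: the general subgroup statement;
* `h1_vanish`: the export for a finite group `𝒢` with `r : 𝒢 →* GL₂(k)` whose kernel is central.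
-/
import Fermat.Agent.ES.T56.GTAvg19
import Fermat.Agent.ES.T56.GTThree19

namespace Fermat.Agent.ES.T56.GTMain19

open Matrix MulAction Polynomial
open scoped LinearAlgebra.Projectivization
open Fermat.Agent.ES.T56.GTDefs19 Fermat.Agent.ES.T56.GTAvg19 Fermat.Agent.ES.T56.GTLin19
  Fermat.Agent.ES.T56.GTProj19 Fermat.Agent.ES.T56.GTFrattini19 Fermat.Agent.ES.T56.GTThree19

variable {k : Type*} [Field k]

section Index

variable [Finite k] {p : ℕ} [Fact p.Prime] [CharP k p] {G : Subgroup (GL (Fin 2) k)}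

theorem not_dvd_card_units : ¬ p ∣ Nat.card kˣ := by
  have hp : p.Prime := Fact.out
  have : Fintype k := Fintype.ofFinite k
  have h1 : p ∣ Nat.card k := by
    rw [← CharP.cast_eq_zero_iff k p, Nat.card_eq_fintype_card]
    exact Nat.cast_card_eq_zero k
  rw [Nat.card_units]
  intro h2
  have hpos : 0 < Nat.card k := Nat.card_pos
  have h3 : p ∣ Nat.card k - (Nat.card k - 1) := Nat.dvd_sub h1 h2
  have h4 : Nat.card k - (Nat.card k - 1) = 1 := by omega
  rw [h4] at h3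
  exact hp.one_lt.ne' (Nat.dvd_one.mp h3)

/-- The index of `G ∩ SL₂` in `G` is prime to `p`. -/
theorem not_dvd_index_SLpart : ¬ p ∣ ((SLpart G).subgroupOf G).index := by
  have h1 : (SLpart G).subgroupOf G =
      ((Matrix.GeneralLinearGroup.det (n := Fin 2) (R := k)).comp G.subtype).ker := by
    rw [SLpart, Subgroup.inf_subgroupOf_left, ← MonoidHom.comap_ker]
    rfl
  rw [h1, Subgroup.index_ker]
  intro h2
  exact not_dvd_card_units (p := p) (k := k) (h2.trans (Subgroup.card_subgroup_dvd_card _))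

end Index

section Std

variable {p : ℕ} [Fact p.Prime] [CharP k p] {G : Subgroup (GL (Fin 2) k)}
  {c : GL (Fin 2) k → Matrix (Fin 2) (Fin 2) k}

theorem act_scalar {g : GL (Fin 2) k} {s : k} (hgs : g.1 = s • (1 : Matrix (Fin 2) (Fin 2) k))
    (v : Matrix (Fin 2) (Fin 2) k) : act g v = (s * s) • v := by
  rw [act_adj, hgs, Matrix.adjugate_smul, Matrix.adjugate_one, Fintype.card_fin]
  simp [smul_smul]

/-- **Sah case**: a scalar matrix `s • 1 ∈ G` with `s² ≠ 1` kills `H¹`. -/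
theorem coboundary_of_scalar (hp2 : p ≠ 2) (hc : IsCocycle G c) {g : GL (Fin 2) k} (hg : g ∈ G)
    {s : k} (hgs : g.1 = s • (1 : Matrix (Fin 2) (Fin 2) k)) (hs : s * s ≠ 1) :
    IsCoboundary G c := by
  apply IsCoboundary.of_cob (two_ne_zero_of p hp2) hc.trace_zero
  refine cob_of_central hc.coc ⟨g, hg⟩ ?_ (s * s) hs ?_
  · intro x
    apply Subtype.ext
    apply Units.ext
    simp only [Subgroup.coe_mul, Units.val_mul, hgs, Matrix.mul_smul, Matrix.smul_mul,
      Matrix.mul_one, Matrix.one_mul]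
  · intro v
    rw [actSub_apply]
    exact act_scalar hgs v

/-- Restriction–corestriction from the unipotent subgroup: if `c` is a coboundary on all
`upper a ∈ G`, it is a coboundary on `G`. -/
theorem coboundary_of_unipotent [Finite k] (hp2 : p ≠ 2) (h : GHyp p G) {a₀ : k} (ha₀ : a₀ ≠ 0)
    (hu : upper a₀ ∈ G) (hc : IsCocycle G c)
    (hP : ∃ m : Matrix (Fin 2) (Fin 2) k, ∀ a : k, upper a ∈ G →
      c (upper a) = act (upper a) m - m) : IsCoboundary G c := by
  apply IsCoboundary.of_cob (two_ne_zero_of p hp2) hc.trace_zero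
  have hH := GTProj19.hyp p h.slHyp hp2
  have hx0 := Usub_x0_ne_bot ha₀ hu
  set H : Subgroup G :=
    (Usub (SLpart G) (x0 : ℙ k (Fin 2 → k))).map (Subgroup.inclusion (SLpart_le G)) with hHdef
  have hidx : ¬ p ∣ H.index := by
    rw [hHdef, Subgroup.index_map_of_injective _ (Subgroup.inclusion_injective (SLpart_le G)),
      Subgroup.inclusion_range]
    intro hdvd
    rcases (Nat.Prime.dvd_mul (Fact.out : p.Prime)).mp hdvd with h1 | h1
    · exact hH.not_dvd_index hx0 h1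
    · exact not_dvd_index_SLpart (p := p) h1
  have hidx' : (H.index : k) ≠ 0 := by
    rw [Ne, CharP.cast_eq_zero_iff k p]
    exact hidx
  obtain ⟨m, hm⟩ := hP
  refine cob_of_subgroup hc.coc H hidx' ⟨m, ?_⟩
  rintro hh ⟨u, hu', rfl⟩
  have hufix : u.1.1 *ᵥ e1 = e1 := by
    rw [SetLike.mem_coe, x0, mem_Usub_mk] at hu'
    exact hu'
  have hudet : u.1.1.det = 1 := (mem_SLpart.mp u.2).2
  have hueq : u.1 = upper (u.1.1 0 1) := eq_upper_of_fix hudet hufix
  have huG : upper (u.1.1 0 1) ∈ G := by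
    rw [← hueq]
    exact SLpart_le G u.2
  show c u.1 = act u.1 m - m
  rw [hueq]
  exact hm _ huG

/-- **Standard position.** -/
theorem coboundary_of_std [Finite k] (hp2 : p ≠ 2) (h : GHyp p G) {a₀ : k} (ha₀ : a₀ ≠ 0)
    (hu : upper a₀ ∈ G) (hc : IsCocycle G c) : IsCoboundary G c := by
  by_cases hsc : ScalarsTrivial G
  · obtain ⟨hp3, hS2⟩ := GTFrattini19.main hp2 h ha₀ hu hsc
    subst hp3
    have hdet : ∀ b ∈ G, b.1.det = 1 ∨ b.1.det = -1 := by
      intro b hb
      have h1 := h.det_pow b hb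
      have h2 : (b.1.det - 1) * (b.1.det + 1) = 0 := by
        have : b.1.det ^ 2 = 1 := h1
        linear_combination this
      rcases mul_eq_zero.mp h2 with h3 | h3
      · exact Or.inl (sub_eq_zero.mp h3)
      · exact Or.inr (eq_neg_of_add_eq_zero_left h3)
    have hS3 : ∃ b ∈ G, b.1 1 0 = 0 ∧ b.1.det = -1 := by
      obtain ⟨g, hg, hgdet⟩ := h.det_surj (-1) (by norm_num)
      obtain ⟨b, hb, hb0, hbdet⟩ := exists_borel_det hp2 h ha₀ hu hg
      exact ⟨b, hb, hb0, hbdet.trans hgdet⟩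
    obtain ⟨m, -, hm⟩ := cob_on_unipotent hc ha₀ hu hdet hS2 hS3
    exact coboundary_of_unipotent hp2 h ha₀ hu hc ⟨m, hm⟩
  · unfold ScalarsTrivial at hsc
    push Not at hsc
    obtain ⟨g, hg, s, hgs, hs⟩ := hsc
    exact coboundary_of_scalar hp2 hc hg hgs hs

end Std

/-! ### Conjugation -/

section Conj

variable {p : ℕ} {G : Subgroup (GL (Fin 2) k)} {c : GL (Fin 2) k → Matrix (Fin 2) (Fin 2) k}

/-- The conjugate subgroup `γ⁻¹ G γ`. -/
def conjSub (γ : GL (Fin 2) k) (G : Subgroup (GL (Fin 2) k)) : Subgroup (GL (Fin 2) k) :=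
  G.comap (MulAut.conj γ).toMonoidHom

theorem mem_conjSub {γ x : GL (Fin 2) k} : x ∈ conjSub γ G ↔ γ * x * γ⁻¹ ∈ G := Iff.rfl

theorem det_conj (γ x : GL (Fin 2) k) : (γ * x * γ⁻¹).1.det = x.1.det := by
  rw [Units.val_mul, Units.val_mul, Matrix.det_mul, Matrix.det_mul, mul_comm, ← mul_assoc,
    ← Matrix.det_mul, Units.inv_mul, Matrix.det_one, one_mul]

theorem mulVec_ne_zero (γ : GL (Fin 2) k) {v : Fin 2 → k} (hv : v ≠ 0) : γ.1 *ᵥ v ≠ 0 :=
  (smul_ne_zero_iff_ne γ).mpr hv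

theorem mulVec_inv_mulVec (γ : GL (Fin 2) k) (v : Fin 2 → k) : γ⁻¹.1 *ᵥ (γ.1 *ᵥ v) = v := by
  rw [Matrix.mulVec_mulVec, Units.inv_mul, Matrix.one_mulVec]

theorem mulVec_mulVec_inv (γ : GL (Fin 2) k) (v : Fin 2 → k) : γ.1 *ᵥ (γ⁻¹.1 *ᵥ v) = v := by
  rw [Matrix.mulVec_mulVec, Units.mul_inv, Matrix.one_mulVec]

theorem ghyp_conj (h : GHyp p G) (γ : GL (Fin 2) k) : GHyp p (conjSub γ G) where
  det_pow := fun x hx => by
    rw [← det_conj γ x]
    exact h.det_pow _ (mem_conjSub.mp hx)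
  det_surj := fun a ha => by
    obtain ⟨g, hg, hgdet⟩ := h.det_surj a ha
    refine ⟨γ⁻¹ * g * γ, ?_, ?_⟩
    · rw [mem_conjSub]
      have : γ * (γ⁻¹ * g * γ) * γ⁻¹ = g := by group
      rw [this]
      exact hg
    · have := det_conj γ⁻¹ g
      rw [inv_inv] at this
      rw [this, hgdet]
  split := fun x hx => by
    obtain ⟨l, v, hv, hgv⟩ := h.split _ (mem_conjSub.mp hx)
    refine ⟨l, γ⁻¹.1 *ᵥ v, mulVec_ne_zero γ⁻¹ hv, ?_⟩
    have h1 : x.1 * γ⁻¹.1 = γ⁻¹.1 * (γ * x * γ⁻¹).1 := by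
      rw [← Units.val_mul, ← Units.val_mul]
      congr 1
      group
    rw [Matrix.mulVec_mulVec, h1, ← Matrix.mulVec_mulVec, hgv, Matrix.mulVec_smul]
  irr := fun v hv => by
    obtain ⟨g, hg, hgdet, hgv⟩ := h.irr (γ.1 *ᵥ v) (mulVec_ne_zero γ hv)
    refine ⟨γ⁻¹ * g * γ, ?_, ?_, ?_⟩
    · rw [mem_conjSub]
      have : γ * (γ⁻¹ * g * γ) * γ⁻¹ = g := by group
      rw [this]
      exact hg
    · have := det_conj γ⁻¹ g
      rw [inv_inv] at this
      rw [this, hgdet]
    · intro a ha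
      apply hgv a
      have h1 : g.1 * γ.1 = γ.1 * (γ⁻¹ * g * γ).1 := by
        rw [← Units.val_mul, ← Units.val_mul]
        congr 1
        group
      rw [Matrix.mulVec_mulVec, h1, ← Matrix.mulVec_mulVec, ha, Matrix.mulVec_smul]

/-- The conjugated cocycle. -/
def conjCoc (γ : GL (Fin 2) k) (c : GL (Fin 2) k → Matrix (Fin 2) (Fin 2) k) :
    GL (Fin 2) k → Matrix (Fin 2) (Fin 2) k :=
  fun x => act γ⁻¹ (c (γ * x * γ⁻¹))

theorem isCocycle_conj (hc : IsCocycle G c) (γ : GL (Fin 2) k) :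
    IsCocycle (conjSub γ G) (conjCoc γ c) where
  trace_zero := fun x hx => by
    unfold conjCoc
    rw [trace_act, hc.trace_zero _ (mem_conjSub.mp hx), mul_zero]
  map_mul := fun x hx y hy => by
    unfold conjCoc
    have h1 : γ * (x * y) * γ⁻¹ = (γ * x * γ⁻¹) * (γ * y * γ⁻¹) := by group
    rw [h1, hc.map_mul _ (mem_conjSub.mp hx) _ (mem_conjSub.mp hy), act_add, ← act_mul,
      ← act_mul]
    have h2 : γ⁻¹ * (γ * x * γ⁻¹) = x * γ⁻¹ := by group
    rw [h2]

theorem isCoboundary_of_conj (γ : GL (Fin 2) k)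
    (h : IsCoboundary (conjSub γ G) (conjCoc γ c)) : IsCoboundary G c := by
  obtain ⟨m', hm'tr, hm'⟩ := h
  refine ⟨act γ m', by rw [trace_act, hm'tr, mul_zero], fun g hg => ?_⟩
  have hx : γ⁻¹ * g * γ ∈ conjSub γ G := by
    rw [mem_conjSub]
    have : γ * (γ⁻¹ * g * γ) * γ⁻¹ = g := by group
    rw [this]
    exact hg
  have h1 := hm' _ hx
  unfold conjCoc at h1
  have h2 : γ * (γ⁻¹ * g * γ) * γ⁻¹ = g := by group
  rw [h2] at h1
  have h3 := congrArg (act γ) h1
  rw [← act_mul, mul_inv_cancel, act_one, act_sub, ← act_mul] at h3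
  have h4 : γ * (γ⁻¹ * g * γ) = g * γ := by group
  rw [h4, act_mul] at h3
  exact h3

end Conj

/-! ### The subgroup theorem -/

section General

variable [Finite k] {p : ℕ} [Fact p.Prime] [CharP k p] {G : Subgroup (GL (Fin 2) k)}
  {c : GL (Fin 2) k → Matrix (Fin 2) (Fin 2) k}

/-- The matrix with columns `v`, `w`. -/
def colMat (v w : Fin 2 → k) (h : cross v w ≠ 0) : GL (Fin 2) k :=
  Matrix.GeneralLinearGroup.mkOfDetNeZero !![v 0, w 0; v 1, w 1] (by
    have h1 : (!![v 0, w 0; v 1, w 1] : Matrix (Fin 2) (Fin 2) k).det = cross v w := by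
      rw [Matrix.det_fin_two]
      simp only [cross, Matrix.of_apply, Matrix.cons_val', Matrix.cons_val_zero,
        Matrix.cons_val_one, Matrix.cons_val_fin_one]
      ring
    rw [h1]
    exact h)

omit [Finite k] in
theorem colMat_mulVec_e1 (v w : Fin 2 → k) (h : cross v w ≠ 0) : (colMat v w h).1 *ᵥ e1 = v := by
  rw [mulVec_e1]
  ext i
  fin_cases i <;> simp [colMat]

/-- **`H¹(G, ad⁰ ⊗ det) = 0`**, subgroup form. -/
theorem coboundary (hp2 : p ≠ 2) (h : GHyp p G) (hc : IsCocycle G c) : IsCoboundary G c := by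
  have hp : p.Prime := Fact.out
  by_cases hpG : p ∣ Nat.card G
  · -- an element of order `p` in `G ∩ SL₂`
    have h1 : p ∣ Nat.card (SLpart G) := by
      have h2 := ((SLpart G).subgroupOf G).card_mul_index
      rw [← h2] at hpG
      rcases (Nat.Prime.dvd_mul hp).mp hpG with h3 | h3
      · rwa [Nat.card_congr (Subgroup.subgroupOfEquivOfLe (SLpart_le G)).toEquiv] at h3
      · exact absurd h3 (not_dvd_index_SLpart (p := p))
    obtain ⟨u, hu⟩ := exists_prime_orderOf_dvd_card' p h1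
    have huG : u.1 ∈ G := SLpart_le G u.2
    have hudet : u.1.1.det = 1 := (mem_SLpart.mp u.2).2
    have hu1 : u.1 ≠ 1 := by
      intro h0
      have : u = 1 := Subtype.ext h0
      rw [this, orderOf_one] at hu
      exact hp.one_lt.ne hu
    have hup : u.1.1 ^ p ^ 1 = 1 := by
      have h2 : u ^ p = 1 := by rw [← hu]; exact pow_orderOf_eq_one u
      have h3 := congrArg (fun t : SLpart G => t.1.1) h2
      simpa using h3
    obtain ⟨l, v, hv, hlv⟩ := h.split u.1 huG
    have hl1 : l = 1 := eigen_eq_one_of_pow p hv hlv hup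
    rw [hl1, one_smul] at hlv
    obtain ⟨w, hw⟩ := exists_cross_ne_zero hv
    set γ := colMat v w hw with hγ
    have hγe : γ.1 *ᵥ e1 = v := colMat_mulVec_e1 v w hw
    have hγe' : γ⁻¹.1 *ᵥ v = e1 := by rw [← hγe, mulVec_inv_mulVec]
    -- the conjugated unipotent
    set u' := γ⁻¹ * u.1 * γ with hu'
    have hu'mem : u' ∈ conjSub γ G := by
      rw [mem_conjSub]
      have : γ * (γ⁻¹ * u.1 * γ) * γ⁻¹ = u.1 := by group
      rw [this]
      exact huG
    have hu'det : u'.1.det = 1 := by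
      have := det_conj γ⁻¹ u.1
      rw [inv_inv] at this
      rw [hu', this, hudet]
    have hu'fix : u'.1 *ᵥ e1 = e1 := by
      rw [hu', Units.val_mul, Units.val_mul, ← Matrix.mulVec_mulVec, ← Matrix.mulVec_mulVec, hγe,
        hlv, hγe']
    have hu'eq := eq_upper_of_fix hu'det hu'fix
    have hu'1 : u' ≠ 1 := by
      intro h0
      apply hu1
      have : u.1 = γ * u' * γ⁻¹ := by rw [hu']; group
      rw [this, h0]
      group
    have ha₀ : u'.1 0 1 ≠ 0 := by
      intro h0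
      apply hu'1
      rw [hu'eq, h0, upper_zero]
    have hstd : upper (u'.1 0 1) ∈ conjSub γ G := by
      rw [← hu'eq]
      exact hu'mem
    exact isCoboundary_of_conj γ
      (coboundary_of_std hp2 (ghyp_conj h γ) ha₀ hstd (isCocycle_conj hc γ))
  · -- `p ∤ |G|`: averaging
    apply IsCoboundary.of_cob (two_ne_zero_of p hp2) hc.trace_zero
    refine cob_of_vanish hc.coc ⊥ ?_ ?_
    · rw [Subgroup.index_bot, Ne, CharP.cast_eq_zero_iff k p]
      exact hpG
    · intro x hx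
      rw [Subgroup.mem_bot] at hx
      rw [hx]
      exact IsCocycle.map_one hc

end General

/-! ### The export -/

section Export

/-- A root of the characteristic polynomial is an eigenvalue. -/
theorem exists_eigen_of_charpoly (M : Matrix (Fin 2) (Fin 2) k) {α β : k}
    (h : M.charpoly = (X - C α) * (X - C β)) :
    ∃ (l : k) (v : Fin 2 → k), v ≠ 0 ∧ M *ᵥ v = l • v := by
  have h1 : M.charpoly.eval α = 0 := by
    rw [h]
    simp
  rw [Matrix.eval_charpoly] at h1
  obtain ⟨v, hv, hMv⟩ := Matrix.exists_mulVec_eq_zero_iff.mpr h1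
  refine ⟨α, v, hv, ?_⟩
  rw [Matrix.sub_mulVec, sub_eq_zero] at hMv
  rw [← hMv]
  ext i
  simp [Matrix.mulVec, dotProduct, Matrix.scalar_apply, Matrix.diagonal_apply]

/-- **GT export.** `𝒢` a group, `r : 𝒢 →* GL₂(k)` (`k` finite of odd characteristic `p`) with
central kernel, `det ∘ r` onto `𝔽_pˣ = {a | a ^ (p - 1) = 1}`, all eigenvalues in `k`, no line of
`k²` fixed by `{det ∘ r = 1}`, and no invariants on trace-zero matrices for the twisted adjoint
action.  Then every 1-cocycle `𝒢 → (ad⁰ ⊗ det)` is a coboundary. -/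
theorem h1_vanish [Finite k] (p : ℕ) [Fact p.Prime] [CharP k p] (hp2 : p ≠ 2)
    {𝒢 : Type*} [Group 𝒢] (r : 𝒢 →* GL (Fin 2) k)
    (hdet : ∀ x : 𝒢, (r x).1.det ^ (p - 1) = 1)
    (hdetsurj : ∀ a : k, a ^ (p - 1) = 1 → ∃ x : 𝒢, (r x).1.det = a)
    (hsplit : ∀ x : 𝒢, ∃ α β : k, (r x).1.charpoly = (X - C α) * (X - C β))
    (hirr : ∀ v : Fin 2 → k, v ≠ 0 → ∃ x : 𝒢, (r x).1.det = 1 ∧ ∀ a : k, (r x).1 *ᵥ v ≠ a • v)
    (hker : ∀ x : 𝒢, r x = 1 → ∀ y : 𝒢, y * x = x * y)
    (hinv : ∀ m : Matrix (Fin 2) (Fin 2) k, m.trace = 0 → (∀ x, act (r x) m = m) → m = 0)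
    (c : 𝒢 → Matrix (Fin 2) (Fin 2) k) (htr : ∀ x, (c x).trace = 0)
    (hc : ∀ x y, c (x * y) = c x + act (r x) (c y)) :
    ∃ m : Matrix (Fin 2) (Fin 2) k, m.trace = 0 ∧ ∀ x, c x = act (r x) m - m := by
  classical
  -- `c` vanishes on `ker r`
  have hvan : ∀ x : 𝒢, r x = 1 → c x = 0 := by
    intro x hx
    apply hinv (c x) (htr x)
    intro y
    have h1 := hc y x
    have h2 := hc x y
    rw [hx, act_one] at h2
    rw [hker x hx y, h2] at h1
    have h3 : c x + c y = act (r y) (c x) + c y := by rw [h1, add_comm]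
    exact (add_right_cancel h3).symm
  -- `c` is constant on the fibres of `r`
  have hfib : ∀ x y : 𝒢, r x = r y → c x = c y := by
    intro x y hxy
    have h1 : r (x⁻¹ * y) = 1 := by rw [map_mul, map_inv, hxy, inv_mul_cancel]
    have h2 := hc x (x⁻¹ * y)
    rw [mul_inv_cancel_left, hvan _ h1, act_zero, add_zero] at h2
    exact h2.symm
  -- descend to the range
  set cbar : GL (Fin 2) k → Matrix (Fin 2) (Fin 2) k :=
    fun g => if hg : g ∈ r.range then c (Classical.choose (MonoidHom.mem_range.mp hg)) else 0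
    with hcbar
  have hcbar_r : ∀ x : 𝒢, cbar (r x) = c x := by
    intro x
    have hx : r x ∈ r.range := ⟨x, rfl⟩
    simp only [hcbar, dif_pos hx]
    exact hfib _ _ (Classical.choose_spec (MonoidHom.mem_range.mp hx))
  have hcoc : IsCocycle r.range cbar := by
    refine ⟨?_, ?_⟩
    · rintro g ⟨x, rfl⟩
      rw [hcbar_r]
      exact htr x
    · rintro g ⟨x, rfl⟩ g' ⟨y, rfl⟩
      rw [← map_mul, hcbar_r, hcbar_r, hcbar_r]
      exact hc x y
  have hG : GHyp p r.range := by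
    refine ⟨?_, ?_, ?_, ?_⟩
    · rintro g ⟨x, rfl⟩
      exact hdet x
    · intro a ha
      obtain ⟨x, hx⟩ := hdetsurj a ha
      exact ⟨r x, ⟨x, rfl⟩, hx⟩
    · rintro g ⟨x, rfl⟩
      obtain ⟨α, β, hαβ⟩ := hsplit x
      exact exists_eigen_of_charpoly _ hαβ
    · intro v hv
      obtain ⟨x, hx1, hx2⟩ := hirr v hv
      exact ⟨r x, ⟨x, rfl⟩, hx1, hx2⟩
  obtain ⟨m, hm, hcob⟩ := coboundary hp2 hG hcoc
  refine ⟨m, hm, fun x => ?_⟩
  rw [← hcbar_r x]
  exact hcob (r x) ⟨x, rfl⟩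

end Export

end Fermat.Agent.ES.T56.GTMain19
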