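/-
Programme T (S56, Taylor–Wiles primes), chapter GW, leaf `LocDict21` (helper21):

  **dictionary** between the Prelude's continuous classes (`continuousH1S Sg X ⊆ H¹(Γ, X)`,
  `contLoc p q X = continuousH1 (primeLocalToGlobal q) _ ⊆ H¹(Γ_q, X)`) and main's `ℤ`-linear level
  cohomology `Resolved4.Hlev1` for the bases `levelS Sg`, `levelLoc q` of `PT/GLUE/Objects21`:

  * `dGlob Sg X hX : continuousH1S Sg X ≃+ Hlev1 (levelS Sg) (intRep X)`,
  * `dLoc q X hX   : contLoc p q X     ≃+ Hlev1 (levelLoc q) (intRep (X|_{Γ_q}))`,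
  * `dLoc_resLoc`  : `dLoc q (res_q x) = res_q (dGlob x)` (`res_q` = main's `plainPHom … id`).

Built from `BR/Interface29.toH1` (level `H¹` → Mathlib's `H¹`, injective), `LevelEquiv29.h1IntEquiv`
(`LevelCoh28.H1 ≃+ Hlev1 ∘ intRep`), `Interface29.toH1_ppH1_res`, `LevelEquiv29.h1IntEquiv_ppH1`.
-/
import Mathlib
import Fermat.Agent.ES.T56.GWIface21
import Fermat.Agent.PT.PRO.MainFinal4
import Fermat.Agent.PT.BR.Interface29

set_option autoImplicit false
set_option linter.unusedSectionVars false

open CategoryTheory Module groupCohomology ExtCitation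
open Fermat.Agent.PT Fermat.Agent.PT.PRO Fermat.Agent.PT.GLUE Fermat.Agent.PT.GLUE.Objects21
open Fermat.Agent.PT.PRO.HyperLevel25 Fermat.Agent.PT.PRO.Resolved4
open Fermat.Agent.PT.PRO.IntRep20 Fermat.Agent.PT.PRO.LevelEquiv29
open Fermat.Agent.PT.BR
open Fermat.Agent.ES.T56.GWIface21

namespace Fermat.Agent.ES.T56.LocDict21

local notation "Γ" => (AlgebraicClosure ℚ ≃ₐ[ℚ] AlgebraicClosure ℚ)

variable {p : ℕ} [Fact p.Prime]

/-! ### Level `H¹` and the Prelude's continuous classes -/

section Local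

variable (q : Nat.Primes) (X : Rep.{0} (ZMod p) Γ)

/-- `levelLoc q` as a level basis of the Prelude's `primeLocalGaloisGroup q`. -/
noncomputable abbrev locBasis : LevelCoh28.LevelBasis (primeLocalGaloisGroup q) :=
  (levelLoc ((q : Nat.Primes) : ℕ) : LevelCoh28.LevelBasis (primeLocalGaloisGroup q))

theorem range_toH1_locBasis :
    LinearMap.range (Interface29.toH1 (locBasis q) (Rep.res (primeLocalToGlobal q) X)) =
      contLoc p q X := by
  ext x
  rw [Interface29.mem_range_toH1_iff, mem_continuousH1_iff]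
  exact exists_congr fun c => and_congr_left fun _ => isLevel₁_levelLoc_iff ((q : Nat.Primes) : ℕ) _

/-- Level `H¹` at `q` is the Prelude's `contLoc`. -/
noncomputable def locEquiv :
    LevelCoh28.H1 (locBasis q) (Rep.res (primeLocalToGlobal q) X) ≃ₗ[ZMod p] ↥(contLoc p q X) :=
  (LinearEquiv.ofInjective _ (Interface29.toH1_injective (locBasis q)
    (Rep.res (primeLocalToGlobal q) X))).trans (LinearEquiv.ofEq _ _ (range_toH1_locBasis q X))

theorem coe_locEquiv (y : LevelCoh28.H1 (locBasis q) (Rep.res (primeLocalToGlobal q) X)) :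
    ((locEquiv q X y : ↥(contLoc p q X)) : H1loc p q X) =
      Interface29.toH1 (locBasis q) (Rep.res (primeLocalToGlobal q) X) y := rfl

end Local

section Global

variable (S : Finset Nat.Primes) (X : Rep.{0} (ZMod p) Γ)

theorem range_toH1_levelS :
    LinearMap.range (Interface29.toH1 (levelS S) X) = continuousH1S S X := by
  ext x
  rw [Interface29.mem_range_toH1_iff, mem_continuousH1S_iff]
  exact exists_congr fun c => and_congr_left fun _ => isLevel₁_levelS_iff S _

/-- Level `H¹` for `levelS S` is the Prelude's `continuousH1S S`. -/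
noncomputable def globEquiv : LevelCoh28.H1 (levelS S) X ≃ₗ[ZMod p] ↥(continuousH1S S X) :=
  (LinearEquiv.ofInjective _ (Interface29.toH1_injective (levelS S) X)).trans
    (LinearEquiv.ofEq _ _ (range_toH1_levelS S X))

theorem coe_globEquiv (y : LevelCoh28.H1 (levelS S) X) :
    ((globEquiv S X y : ↥(continuousH1S S X)) : H1 X) = Interface29.toH1 (levelS S) X y := rfl

/-- `Γ_q → Γ` is continuous for `levelLoc q`, `levelS S` (`LevelCoh28` vocabulary). -/
theorem isLevelHom_prime (q : Nat.Primes) :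
    LevelCohRes28.IsLevelHom (primeLocalToGlobal q) (locBasis q).sets (levelS S).sets :=
  LocI13.isLevelHom_levelLoc S ((q : Nat.Primes) : ℕ)

/-- Localisation of level classes is Mathlib's restriction. -/
theorem resLoc_globEquiv (q : Nat.Primes) (y : LevelCoh28.H1 (levelS S) X) :
    resLoc p q X ((globEquiv S X y : ↥(continuousH1S S X)) : H1 X) =
      ((locEquiv q X (LevelCohRes28.ppH1 (𝓑G := locBasis q) (𝓑H := levelS S)
        (primeLocalToGlobal q) (LinearMap.id : X →ₗ[ZMod p] Rep.res (primeLocalToGlobal q) X)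
        (fun _ _ => rfl) (isLevelHom_prime S q) y) : ↥(contLoc p q X)) : H1loc p q X) := by
  rw [coe_globEquiv, coe_locEquiv]
  exact (Interface29.toH1_ppH1_res (locBasis q) (levelS S) (primeLocalToGlobal q) X
    (isLevelHom_prime S q) y).symm

end Global

/-! ### The `ℤ`-linear level model -/

section IntModel

variable (S : Finset Nat.Primes) (q : Nat.Primes) (X : Rep.{0} (ZMod p) Γ)
  (hXS : LevelCoh28.IsDiscrete (levelS S).sets X)
  (hXq : LevelCoh28.IsDiscrete (locBasis q).sets (Rep.res (primeLocalToGlobal q) X))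

/-- `continuousH1S S X ≃+ H¹_lev(Γ, levelS S; X)` (`ℤ`-linear model). -/
noncomputable def dGlob :
    ↥(continuousH1S S X) ≃+ Hlev1 (basis (levelS S)) (intRep X) hXS :=
  (globEquiv S X).symm.toAddEquiv.trans (h1IntEquiv (levelS S) X hXS)

/-- `contLoc p q X ≃+ H¹_lev(Γ_q, levelLoc q; X)` (`ℤ`-linear model). -/
noncomputable def dLoc :
    ↥(contLoc p q X) ≃+
      Hlev1 (basis (locBasis q)) (intRep (Rep.res (primeLocalToGlobal q) X)) hXq :=
  (locEquiv q X).symm.toAddEquiv.trans (h1IntEquiv (locBasis q) _ hXq)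

theorem dGlob_globEquiv (y : LevelCoh28.H1 (levelS S) X) :
    dGlob S X hXS (globEquiv S X y) = h1IntEquiv (levelS S) X hXS y := by
  show h1IntEquiv (levelS S) X hXS ((globEquiv S X).symm (globEquiv S X y)) = _
  rw [LinearEquiv.symm_apply_apply]

theorem dLoc_locEquiv (y : LevelCoh28.H1 (locBasis q) (Rep.res (primeLocalToGlobal q) X)) :
    dLoc q X hXq (locEquiv q X y) = h1IntEquiv (locBasis q) _ hXq y := by
  show h1IntEquiv (locBasis q) _ hXq ((locEquiv q X).symm (locEquiv q X y)) = _
  rw [LinearEquiv.symm_apply_apply]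

/-- **Naturality**: the dictionary turns Mathlib's localisation `resLoc` into main's restriction of level
classes. -/
theorem dLoc_resLoc (x : ↥(continuousH1S S X))
    (hx : resLoc p q X (x : H1 X) ∈ contLoc p q X) :
    dLoc q X hXq ⟨resLoc p q X (x : H1 X), hx⟩ =
      (HyperRes25.plainPHom (isLevelHom_iff.1 (isLevelHom_prime S q)) (basis (levelS S))
        (basis (locBasis q)) (ρ := intRep X) (ρ' := intRep (Rep.res (primeLocalToGlobal q) X))
        hXS hXq LinearMap.id (fun _ _ => rfl)).mapH1 (dGlob S X hXS x) := by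
  obtain ⟨y, rfl⟩ := (globEquiv S X).surjective x
  have h1 : (⟨resLoc p q X ((globEquiv S X y : ↥(continuousH1S S X)) : H1 X), hx⟩ :
      ↥(contLoc p q X)) =
      locEquiv q X (LevelCohRes28.ppH1 (𝓑G := locBasis q) (𝓑H := levelS S)
        (primeLocalToGlobal q) (LinearMap.id : X →ₗ[ZMod p] Rep.res (primeLocalToGlobal q) X)
        (fun _ _ => rfl) (isLevelHom_prime S q) y) :=
    Subtype.ext (resLoc_globEquiv S X q y)
  rw [h1, dLoc_locEquiv, dGlob_globEquiv]
  exact h1IntEquiv_ppH1 (primeLocalToGlobal q) hXS hXq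
    (LinearMap.id : X →ₗ[ZMod p] Rep.res (primeLocalToGlobal q) X) (fun _ _ => rfl)
    (isLevelHom_prime S q) LinearMap.id (fun _ _ => rfl) (fun _ => rfl) y

end IntModel

end Fermat.Agent.ES.T56.LocDict21
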