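/-
Programme T (S56, Taylor–Wiles primes), chapter GW, leaf `LocPairLev21` (helper21):

  **the local Tate pairing at `q` in level cohomology**, for a finite-dimensional smooth
  `M : Rep (ZMod p) Γ` (`Γ = Gal(ℚ̄/ℚ)`), `A = M^∨(1) = M.dualTwist (cycloChar p)`:

  `pairLev : H¹_lev(Γ_q; M) →+ H¹_lev(Γ_q; A) →+ ℤ/p`,
  `pairLev x y = inv_q ⟨Φ_q x, y⟩`,

where `Φ_q = KerIso7.compare1 : H¹_lev(Γ_q; M) ≅ ℍ¹(K(P|_{Γ_q}; ℚ̄_qˣ))` (`P = freeRes (intRep A)`),
`⟨·,·⟩ = pair11` of main's `PT/PRO`, and `inv_q = invLoc p q : H²_lev(Γ_q; ℚ̄_qˣ)[p] ↪ ℤ/p` is a chosen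
injective additive map (`InvFund18.exists_inv_of_isFundClass` + local fundamental classes
`LocalFund11.fundFixed_unitsLoc`).

* `pairLev_right_kernel` : trivial right kernel (`LocalHypR11.pair11_right_kernel_local` + `Φ_q` onto).
-/
import Mathlib
import Fermat.Agent.PT.PRO.MainFinal4
import Fermat.Agent.PT.GLUE.LocalFund11

set_option autoImplicit false
set_option linter.unusedSectionVars false

open CategoryTheory Module groupCohomology ExtCitation
open Fermat.Agent.PT Fermat.Agent.PT.PRO Fermat.Agent.PT.GLUE Fermat.Agent.PT.GLUE.Objects21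
open Fermat.Agent.PT.PRO.HyperLevel25 Fermat.Agent.PT.PRO.Resolved4
open Fermat.Agent.PT.PRO.HyperRes25 Fermat.Agent.PT.PRO.PairingRes1
open Fermat.Agent.PT.PRO.IntRep20 Fermat.Agent.PT.PRO.LevelEquiv29
open Fermat.Agent.PT.PRO.IndRes20 Fermat.Agent.PT.PRO.Setup20 Fermat.Agent.PT.PRO.Objects20
open Fermat.Agent.PT.PRO.InvP4 Fermat.Agent.PT.PRO.PairP4
open Fermat.Agent.PT.PRO.KerIso7 Fermat.Agent.PT.PRO.KerIsoGal7

namespace Fermat.Agent.ES.T56.LocPairLev21

local notation "Γ" => (AlgebraicClosure ℚ ≃ₐ[ℚ] AlgebraicClosure ℚ)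

variable (p : ℕ) [Fact p.Prime] (q : ℕ) [Fact q.Prime]

/-! ### The local invariant -/

theorem exists_invLoc :
    ∃ τ : pTor p (Hlev2 (basis (levelLoc q)) (unitsLoc q).ρ (isDiscrete_unitsLoc q)) →+ ZMod p,
      Function.Injective τ :=
  InvFund18.exists_inv_of_isFundClass (unitsLoc q).ρ (basis (levelLoc q)) (isDiscrete_unitsLoc q)
    (LocalFund11.fundFixed_unitsLoc q p)

/-- The local invariant `H²_lev(Γ_q; ℚ̄_qˣ)[p] ↪ ℤ/p` (a choice). -/
noncomputable def invLoc :
    pTor p (Hlev2 (basis (levelLoc q)) (unitsLoc q).ρ (isDiscrete_unitsLoc q)) →+ ZMod p :=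
  Classical.choose (exists_invLoc p q)

theorem invLoc_injective : Function.Injective (invLoc p q) :=
  Classical.choose_spec (exists_invLoc p q)

/-! ### Discreteness from smoothness -/

section Smooth

local notation "Γq" => (PadicAlgCl q ≃ₐ[ℚ_[q]] PadicAlgCl q)

/-- `Γ_q → Γ` is continuous for the full level bases. -/
theorem isLevelHom_locAll :
    HyperRes25.IsLevelHom (localGaloisToGlobal q) (levelLoc q).sets levelAll.sets :=
  fun U hU => ⟨U.comap (localGaloisToGlobal q), ⟨U, hU, rfl⟩, le_rfl⟩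

variable {p}

/-- A smooth `Γ`-module is discrete for the full level basis. -/
theorem isDiscrete_all_of_smooth (X : Rep.{0} (ZMod p) Γ)
    (hsm : ∀ m : X, ∃ F : IntermediateField ℚ (AlgebraicClosure ℚ), FiniteDimensional ℚ F ∧
      ∀ s ∈ F.fixingSubgroup, X.ρ s m = m) :
    HyperLevel25.IsDiscrete levelAll.sets (IntRep20.intRep X) := by
  intro m
  obtain ⟨F, hF, h⟩ := hsm m
  exact ⟨F.fixingSubgroup, ⟨F, hF, rfl⟩, fun s hs => h s hs⟩

/-- A smooth `Γ`-module is discrete for the full level basis (`ZMod p`-linear form). -/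
theorem isDiscrete_all_of_smooth' (X : Rep.{0} (ZMod p) Γ)
    (hsm : ∀ m : X, ∃ F : IntermediateField ℚ (AlgebraicClosure ℚ), FiniteDimensional ℚ F ∧
      ∀ s ∈ F.fixingSubgroup, X.ρ s m = m) :
    HyperLevel25.IsDiscrete levelAll.sets X.ρ := by
  intro m
  obtain ⟨F, hF, h⟩ := hsm m
  exact ⟨F.fixingSubgroup, ⟨F, hF, rfl⟩, fun s hs => h s hs⟩

end Smooth

/-! ### The local pairing in level cohomology -/

section Pair

local notation "Γq" => (PadicAlgCl q ≃ₐ[ℚ_[q]] PadicAlgCl q)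

variable (M : Rep.{0} (ZMod p) Γ) [FiniteDimensional (ZMod p) M]

/-- The canonical resolution of `A = M^∨(1)`, restricted to `Γ_q`. -/
noncomputable abbrev Rq :=
  (HpAt29.freeRes (IntRep20.intRep (M.dualTwist (cycloChar p)))).comap (localGaloisToGlobal q)

instance finite_dualTwist : Finite (M.dualTwist (cycloChar p)) := by
  have : FiniteDimensional (ZMod p) (M.dualTwist (cycloChar p)) :=
    inferInstanceAs (FiniteDimensional (ZMod p) (Module.Dual (ZMod p) M))
  exact Module.finite_of_finite (ZMod p)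

theorem nsmul_dualTwist (m : M.dualTwist (cycloChar p)) : p • m = 0 := by
  rw [← Nat.cast_smul_eq_nsmul (ZMod p), ZMod.natCast_self, zero_smul]

variable (hsm : ∀ m : M, ∃ F : IntermediateField ℚ (AlgebraicClosure ℚ), FiniteDimensional ℚ F ∧
      ∀ s ∈ F.fixingSubgroup, M.ρ s m = m)

include hsm in
theorem isDiscrete_Rq0 : HyperLevel25.IsDiscrete (levelLoc q).sets (Rq p q M).ρ0 :=
  IsLevelHom.isDiscrete (isLevelHom_locAll q)
    (FreeRes29.isDiscrete_freeRep (basis levelAll)
      (isDiscrete_all_of_smooth _ (BR.DualTwist7.smooth_dualTwist M hsm)))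

include hsm in
theorem isDiscrete_Mq :
    HyperLevel25.IsDiscrete (levelLoc q).sets (M.ρ.comp (localGaloisToGlobal q)) :=
  IsLevelHom.isDiscrete (isLevelHom_locAll q) (isDiscrete_all_of_smooth' M hsm)

/-- `Φ_q : H¹_lev(Γ_q; M) → ℍ¹(K(P|_{Γ_q}; ℚ̄_qˣ))`. -/
noncomputable def Phi
    (hM : HyperLevel25.IsDiscrete (levelLoc q).sets (M.ρ.comp (localGaloisToGlobal q)))
    (h0 : HyperLevel25.IsDiscrete (levelLoc q).sets (Rq p q M).ρ0) :
    HyperCompare25.Hp1 (basis (levelLoc q))
        (KerIso7.intRep intSurj_int (M.ρ.comp (localGaloisToGlobal q)))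
        (isDiscrete_intRep intSurj_int hM) →ₗ[ℤ]
      (KX (Rq p q M) h0 (basis (levelLoc q)) (unitsLoc q).ρ (isDiscrete_unitsLoc q)).ℍ1
        (basis (levelLoc q)) :=
  compare1 intSurj_int (basis (levelLoc q)) (toResolved (Rq p q M) h0)
    (M.ρ.comp (localGaloisToGlobal q)) hM ((cycloChar p).comp (localGaloisToGlobal q))
    (KerIsoMain7.hA_comap (HpAt29.freeRes (IntRep20.intRep (M.dualTwist (cycloChar p)))) M.ρ
      (cycloChar p) (KerIsoMain7.hA_freeRes M (cycloChar p)) (localGaloisToGlobal q))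
    (isDiscrete_unitsLoc q) (muLoc p q)

variable (hM : HyperLevel25.IsDiscrete (levelLoc q).sets (M.ρ.comp (localGaloisToGlobal q)))
  (h0 : HyperLevel25.IsDiscrete (levelLoc q).sets (Rq p q M).ρ0)

/-- `Φ_q` is bijective (`ℚ̄_qˣ` is `p`-divisible with `p`-torsion `μ_p`). -/
theorem Phi_bijective : Function.Bijective (Phi p q M hM h0) :=
  compare1_bijective intSurj_int (basis (levelLoc q)) (toResolved (Rq p q M) h0)
    (M.ρ.comp (localGaloisToGlobal q)) hM ((cycloChar p).comp (localGaloisToGlobal q))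
    (KerIsoMain7.hA_comap (HpAt29.freeRes (IntRep20.intRep (M.dualTwist (cycloChar p)))) M.ρ
      (cycloChar p) (KerIsoMain7.hA_freeRes M (cycloChar p)) (localGaloisToGlobal q))
    (isDiscrete_unitsLoc q) (muLoc p q) (exists_zsmul_eq_unitsLoc p q)

/-- **The local pairing on level cohomology**: `(x, y) ↦ inv_q ⟨Φ_q x, y⟩`. -/
noncomputable def pairLev :
    HyperCompare25.Hp1 (basis (levelLoc q))
        (KerIso7.intRep intSurj_int (M.ρ.comp (localGaloisToGlobal q)))
        (isDiscrete_intRep intSurj_int hM) →+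
      (Hlev1 (basis (levelLoc q)) (toResolved (Rq p q M) h0).ρM
        (toResolved (Rq p q M) h0).discM →+ ZMod p) :=
  (alphaP (evP (Rq p q M) h0 (basis (levelLoc q)) (unitsLoc q).ρ (isDiscrete_unitsLoc q))
    (basis (levelLoc q)) (isDiscrete_unitsLoc q) (nsmul_dualTwist p M) (invLoc p q)).comp
    (Phi p q M hM h0).toAddMonoidHom

theorem pairLev_apply (x : HyperCompare25.Hp1 (basis (levelLoc q))
      (KerIso7.intRep intSurj_int (M.ρ.comp (localGaloisToGlobal q)))
      (isDiscrete_intRep intSurj_int hM))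
    (y : Hlev1 (basis (levelLoc q)) (toResolved (Rq p q M) h0).ρM
      (toResolved (Rq p q M) h0).discM) :
    pairLev p q M hM h0 x y =
      alphaP (evP (Rq p q M) h0 (basis (levelLoc q)) (unitsLoc q).ρ (isDiscrete_unitsLoc q))
        (basis (levelLoc q)) (isDiscrete_unitsLoc q) (nsmul_dualTwist p M) (invLoc p q)
        (Phi p q M hM h0 x) y := rfl

/-- **Trivial right kernel** of the local pairing. -/
theorem pairLev_right_kernel
    (y : Hlev1 (basis (levelLoc q)) (toResolved (Rq p q M) h0).ρM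
      (toResolved (Rq p q M) h0).discM)
    (h : ∀ x, pairLev p q M hM h0 x y = 0) : y = 0 := by
  apply alphaP_right_kernel (evP (Rq p q M) h0 (basis (levelLoc q)) (unitsLoc q).ρ
    (isDiscrete_unitsLoc q)) (basis (levelLoc q)) (isDiscrete_unitsLoc q) (nsmul_dualTwist p M)
    (invLoc p q) (invLoc_injective p q)
    (fun x hx => GLUE.LocalHypR11.pair11_right_kernel_local q (toResolved (Rq p q M) h0) p
      (nsmul_dualTwist p M) x hx) y
  intro ξ
  obtain ⟨x, rfl⟩ := (Phi_bijective p q M hM h0).2 ξ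
  exact h x

end Pair

end Fermat.Agent.ES.T56.LocPairLev21
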