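/-
Programme T (S56, Taylor–Wiles primes), chapter GW, leaf `LocRecipGen21` (helper21):

  **the reciprocity law for the local Tate pairings, up to unit weights — generic form.**

Setting of `PT/PRO/HK20` / `MainWrap20` (generic ring `k`): a raw resolution `R` of `A` (`p A = 0`) over
`(G, 𝒰)`, discrete coefficient modules `E --d--> I --t--> C` over `G` with `t ∘ d = 0`
(`E_S → I_S → C_S`), `I = ⊕_q I_q` (`inc q`, `prj q`, `∑ inc q ∘ prj q = id`), local groups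
`r q : G_q → G` with coefficient modules `W q` and evaluations `ev q : I_q → W q` over `r q`.

Inputs: an injective invariant `τ : H²_lev(G; C)[p] →+ ℤ/p`, injective local invariants
`inv q : H²_lev(G_q; W q)[p] →+ ℤ/p`, `(S2)` (`res_q : H²_lev(G; I_q) → H²_lev(G_q; W q)` injective)
and `(LG)` (`H²_lev(G; I_q)[p] → H²_lev(G; C)` injective).

Output (`exists_weights`): units `c q ∈ (ℤ/p)ˣ` such that for all `ξ ∈ ℍ¹(K(P; E))`, `y ∈ H¹_lev(A)`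

  `∑_q c q · inv_q ⟨Λ_q ξ, res_q y⟩_{W q} = 0`,        `Λ_q = ppℍ¹(KXPHom (ev q ∘ prj q ∘ d))`.

Proof.  `w := ⟨ξ, y⟩_E ∈ H²_lev(E)[p]`; `t_* d_* w = 0`; `d_* w = ∑_q inc_q_* prj_q_* d_* w`; so
`∑_q λ_q (prj_q_* d_* w) = 0` with `λ_q := τ ∘ t_* ∘ inc_q_*` injective on `T_q := H²_lev(I_q)[p]` by
(LG); `μ_q := inv_q ∘ res_q` is injective on `T_q` by (S2); two injective additive maps `T_q → ℤ/p`
differ by a unit (`exists_unit_mul_eq`); `res_q (prj_q_* d_* w) = ⟨Λ_q ξ, res_q y⟩` by naturality of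
`pair11` (`PairingResObj1.pair11_KXPHom`).
-/
import Mathlib
import Fermat.Agent.PT.PRO.MainWrap20

set_option autoImplicit false
set_option linter.unusedSectionVars false

namespace Fermat.Agent.ES.T56.LocRecipGen21

open Function
open Fermat.Agent.PT.PRO.HyperLevel25 Fermat.Agent.PT.PRO.Resolved4
open Fermat.Agent.PT.PRO.ExtPairing4 Fermat.Agent.PT.PRO.ExtPairingB4
open Fermat.Agent.PT.PRO.HyperRes25 Fermat.Agent.PT.PRO.PairingRes1
open Fermat.Agent.PT.PRO.PairingResObj1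
open Fermat.Agent.PT.PRO.InvP4 Fermat.Agent.PT.PRO.PairP4
open Fermat.Agent.PT.PRO.IndRes20 Fermat.Agent.PT.PRO.Setup20 Fermat.Agent.PT.PRO.Objects20

/-! ### Two embeddings into `ℤ/p` differ by a unit -/

section Algebra

/-- Two injective additive maps `T → ℤ/p` differ by a unit. -/
theorem exists_unit_mul_eq {T : Type*} [AddCommGroup T] (p : ℕ) [Fact p.Prime]
    (lam mu : T →+ ZMod p) (hlam : Injective lam) (hmu : Injective mu) :
    ∃ c : (ZMod p)ˣ, ∀ v, lam v = (c : ZMod p) * mu v := by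
  by_cases h : ∀ v : T, v = 0
  · refine ⟨1, fun v => ?_⟩
    rw [h v, map_zero, map_zero, mul_zero]
  · push Not at h
    obtain ⟨v0, hv0⟩ := h
    have hm0 : mu v0 ≠ 0 := fun e => hv0 (hmu (by rw [e, map_zero]))
    have hl0 : lam v0 ≠ 0 := fun e => hv0 (hlam (by rw [e, map_zero]))
    refine ⟨Units.mk0 (lam v0 / mu v0) (div_ne_zero hl0 hm0), fun v => ?_⟩
    rw [Units.val_mk0]
    set a : ZMod p := mu v / mu v0 with ha
    have hv : v = a.val • v0 := by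
      apply hmu
      rw [map_nsmul, nsmul_eq_mul, ZMod.natCast_zmod_val, ha, div_mul_cancel₀ _ hm0]
    have h1 : lam v = a * lam v0 := by
      conv_lhs => rw [hv]
      rw [map_nsmul, nsmul_eq_mul, ZMod.natCast_zmod_val]
    rw [h1, ha]
    field_simp

/-- The map induced on `p`-torsion. -/
def pTorMap (p : ℕ) {X Y : Type*} [AddCommGroup X] [AddCommGroup Y] (f : X →+ Y) :
    pTor p X →+ pTor p Y where
  toFun x := ⟨f x.1, by
    show p • f x.1 = 0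
    rw [← map_nsmul, (x.2 : p • x.1 = 0), map_zero]⟩
  map_zero' := Subtype.ext (map_zero f)
  map_add' x y := Subtype.ext (map_add f x.1 y.1)

@[simp] theorem coe_pTorMap (p : ℕ) {X Y : Type*} [AddCommGroup X] [AddCommGroup Y] (f : X →+ Y)
    (x : pTor p X) : ((pTorMap p f x : pTor p Y) : Y) = f x.1 := rfl

end Algebra

/-! ### Plain level `H²`: functoriality in the coefficients -/

section Plain

variable {k G G' : Type*} [CommRing k] [Group G] [Group G']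
  {𝒰 : Set (Subgroup G)} {𝒰' : Set (Subgroup G')}
variable {A B C W : Type*} [AddCommGroup A] [Module k A] [AddCommGroup B] [Module k B]
  [AddCommGroup C] [Module k C] [AddCommGroup W] [Module k W]
variable (h𝒰 : IsLevelBasis 𝒰) (h𝒰' : IsLevelBasis 𝒰')
variable {ρA : Representation k G A} {ρB : Representation k G B} {ρC : Representation k G C}
  {ρW : Representation k G' W}
variable (hA : IsDiscrete 𝒰 ρA) (hB : IsDiscrete 𝒰 ρB) (hC : IsDiscrete 𝒰 ρC)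
  (hW : IsDiscrete 𝒰' ρW)

/-- `ψ_* ∘ φ_* = (ψ ∘ φ)_*` on plain level `H²`. -/
theorem mapH2_comp (φ : A →ₗ[k] B) (hφ : ∀ g a, φ (ρA g a) = ρB g (φ a))
    (ψ : B →ₗ[k] C) (hψ : ∀ g b, ψ (ρB g b) = ρC g (ψ b))
    (χ : A →ₗ[k] C) (hχ : ∀ g a, χ (ρA g a) = ρC g (χ a)) (hcomp : ∀ a, ψ (φ a) = χ a)
    (w : Hlev2 h𝒰 ρA hA) :
    (lvlHom h𝒰 hB hC ψ hψ).mapH2 ((lvlHom h𝒰 hA hB φ hφ).mapH2 w) =
      (lvlHom h𝒰 hA hC χ hχ).mapH2 w := by
  obtain ⟨z, rfl⟩ := (lvl h𝒰 ρA hA).π2_surjective w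
  rw [Cpx.Hom.mapH2_π2, Cpx.Hom.mapH2_π2, Cpx.Hom.mapH2_π2]
  congr 1
  apply Subtype.ext
  apply Subtype.ext
  funext x
  exact hcomp _

/-- The zero map induces zero. -/
theorem mapH2_zero (χ : A →ₗ[k] C) (hχ : ∀ g a, χ (ρA g a) = ρC g (χ a)) (h0 : ∀ a, χ a = 0)
    (w : Hlev2 h𝒰 ρA hA) : (lvlHom h𝒰 hA hC χ hχ).mapH2 w = 0 := by
  obtain ⟨z, rfl⟩ := (lvl h𝒰 ρA hA).π2_surjective w
  rw [Cpx.Hom.mapH2_π2]
  have : (lvlHom h𝒰 hA hC χ hχ).mapZ2 z = 0 := by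
    apply Subtype.ext
    apply Subtype.ext
    funext x
    exact h0 _
  rw [this, map_zero]

/-- Restriction after a coefficient map is restriction with the composite coefficient map. -/
theorem resH2_mapH2 {f : G' →* G} (hf : IsLevelHom f 𝒰' 𝒰)
    (φ : A →ₗ[k] B) (hφ : ∀ g a, φ (ρA g a) = ρB g (φ a))
    (ε : B →ₗ[k] W) (hε : ∀ g b, ε (ρB (f g) b) = ρW g (ε b))
    (η : A →ₗ[k] W) (hη : ∀ g a, η (ρA (f g) a) = ρW g (η a)) (hcomp : ∀ a, ε (φ a) = η a)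
    (w : Hlev2 h𝒰 ρA hA) :
    resH2 hf h𝒰 h𝒰' hB hW ε hε ((lvlHom h𝒰 hA hB φ hφ).mapH2 w) =
      resH2 hf h𝒰 h𝒰' hA hW η hη w := by
  obtain ⟨z, rfl⟩ := (lvl h𝒰 ρA hA).π2_surjective w
  unfold resH2
  rw [Cpx.Hom.mapH2_π2, Cpx.Hom.mapH2_π2, Cpx.Hom.mapH2_π2]
  congr 1
  apply Subtype.ext
  apply Subtype.ext
  funext x
  exact hcomp _

/-- `w = ∑_q inc_q_* prj_q_* w` on plain level `H²` of a finite direct sum. -/
theorem sum_mapH2_mapH2 {ι : Type*} [Fintype ι] {Iq : ι → Type*} [∀ q, AddCommGroup (Iq q)]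
    [∀ q, Module k (Iq q)] {ρIq : ∀ q, Representation k G (Iq q)}
    (hIq : ∀ q, IsDiscrete 𝒰 (ρIq q))
    (inc : ∀ q, Iq q →ₗ[k] A) (hinc : ∀ q g x, inc q (ρIq q g x) = ρA g (inc q x))
    (prj : ∀ q, A →ₗ[k] Iq q) (hprj : ∀ q g x, prj q (ρA g x) = ρIq q g (prj q x))
    (hsum : ∀ x : A, ∑ q, inc q (prj q x) = x) (w : Hlev2 h𝒰 ρA hA) :
    ∑ q, (lvlHom h𝒰 (hIq q) hA (inc q) (hinc q)).mapH2
      ((lvlHom h𝒰 hA (hIq q) (prj q) (hprj q)).mapH2 w) = w := by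
  obtain ⟨z, rfl⟩ := (lvl h𝒰 ρA hA).π2_surjective w
  simp only [Cpx.Hom.mapH2_π2]
  rw [← map_sum]
  congr 1
  apply Subtype.ext
  apply Subtype.ext
  funext x
  rw [Submodule.coe_sum, Submodule.coe_sum, Finset.sum_apply]
  exact hsum _

end Plain

/-! ### The reciprocity law up to unit weights -/

section Main

variable {k G : Type} [CommRing k] [Group G] {𝒰 : Set (Subgroup G)}
variable {P1 P0 A : Type} [AddCommGroup P1] [Module k P1] [AddCommGroup P0] [Module k P0]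
  [AddCommGroup A] [Module k A]
variable {ι : Type} [Fintype ι] {Gq : ι → Type} [∀ q, Group (Gq q)]
  {𝒰q : ∀ q, Set (Subgroup (Gq q))}
variable {E I C : Type} [AddCommGroup E] [Module k E] [AddCommGroup I] [Module k I]
  [AddCommGroup C] [Module k C]
variable {Iq W : ι → Type} [∀ q, AddCommGroup (Iq q)] [∀ q, Module k (Iq q)]
  [∀ q, AddCommGroup (W q)] [∀ q, Module k (W q)]

variable (R : Res k G P1 P0 A) (h0 : IsDiscrete 𝒰 R.ρ0) [Module.Finite k P0] [Module.Finite k P1]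
  (h𝒰 : IsLevelBasis 𝒰) (h𝒰q : ∀ q, IsLevelBasis (𝒰q q))
  (r : ∀ q, Gq q →* G) (hr : ∀ q, IsLevelHom (r q) (𝒰q q) 𝒰)
  {ρE : Representation k G E} (hE : IsDiscrete 𝒰 ρE)
  {ρI : Representation k G I} (hI : IsDiscrete 𝒰 ρI)
  {ρC : Representation k G C} (hC : IsDiscrete 𝒰 ρC)
  {ρIq : ∀ q, Representation k G (Iq q)} (hIq : ∀ q, IsDiscrete 𝒰 (ρIq q))
  {ρW : ∀ q, Representation k (Gq q) (W q)} (hW : ∀ q, IsDiscrete (𝒰q q) (ρW q))
  (d : E →ₗ[k] I) (hd : ∀ g x, d (ρE g x) = ρI g (d x))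
  (t : I →ₗ[k] C) (ht : ∀ g x, t (ρI g x) = ρC g (t x))
  (inc : ∀ q, Iq q →ₗ[k] I) (hinc : ∀ q g x, inc q (ρIq q g x) = ρI g (inc q x))
  (prj : ∀ q, I →ₗ[k] Iq q) (hprj : ∀ q g x, prj q (ρI g x) = ρIq q g (prj q x))
  (ev : ∀ q, Iq q →ₗ[k] W q) (hev : ∀ q g x, ev q (ρIq q (r q g) x) = ρW q g (ev q x))
  (ε : ∀ q, E →ₗ[k] W q) (hε : ∀ q g x, ε q (ρE (r q g) x) = ρW q g (ε q x))

include hd hprj in
/-- **Reciprocity up to unit weights** (generic form). -/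
theorem exists_weights (p : ℕ) [Fact p.Prime] (hpA : ∀ m : A, p • m = 0)
    (htd : ∀ x, t (d x) = 0) (hsum : ∀ x : I, ∑ q, inc q (prj q x) = x)
    (hεq : ∀ q x, ev q (prj q (d x)) = ε q x)
    (τ : pTor p (Hlev2 h𝒰 ρC hC) →+ ZMod p) (hτ : Injective τ)
    (inv : ∀ q, pTor p (Hlev2 (h𝒰q q) (ρW q) (hW q)) →+ ZMod p) (hinv : ∀ q, Injective (inv q))
    (hS2 : ∀ q, Injective (resH2 (hr q) h𝒰 (h𝒰q q) (hIq q) (hW q) (ev q) (hev q)))
    (hLG : ∀ q (w : Hlev2 h𝒰 (ρIq q) (hIq q)), p • w = 0 →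
      (lvlHom h𝒰 hI hC t ht).mapH2 ((lvlHom h𝒰 (hIq q) hI (inc q) (hinc q)).mapH2 w) = 0 → w = 0) :
    ∃ c : ι → (ZMod p)ˣ, ∀ (ξ : (KX R h0 h𝒰 ρE hE).ℍ1 h𝒰)
      (y : Hlev1 h𝒰 (toResolved R h0).ρM (toResolved R h0).discM),
      ∑ q, (c q : ZMod p) *
        alphaP (evP (R.comap (r q)) (comap_disc0 R h0 (r q) (hr q)) (h𝒰q q) (ρW q) (hW q))
          (h𝒰q q) (hW q) hpA (inv q)
          ((KXPHom R h0 h𝒰 (h𝒰q q) (r q) (hr q) hE (hW q) (ε q) (hε q)).ppℍ1 (hr q) h𝒰 (h𝒰q q) ξ)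
          (resM R h0 h𝒰 (h𝒰q q) (r q) (hr q) y) = 0 := by
  classical
  -- the two embeddings of `T_q = H²_lev(I_q)[p]` into `ℤ/p`
  let lam : ∀ q, pTor p (Hlev2 h𝒰 (ρIq q) (hIq q)) →+ ZMod p := fun q =>
    τ.comp (pTorMap p (((lvlHom h𝒰 hI hC t ht).mapH2.toAddMonoidHom).comp
      ((lvlHom h𝒰 (hIq q) hI (inc q) (hinc q)).mapH2.toAddMonoidHom)))
  let mu : ∀ q, pTor p (Hlev2 h𝒰 (ρIq q) (hIq q)) →+ ZMod p := fun q =>
    (inv q).comp (pTorMap p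
      (resH2 (hr q) h𝒰 (h𝒰q q) (hIq q) (hW q) (ev q) (hev q)).toAddMonoidHom)
  have hlam : ∀ q, Injective (lam q) := by
    intro q
    rw [injective_iff_map_eq_zero]
    intro v hv
    have h1 : pTorMap p (((lvlHom h𝒰 hI hC t ht).mapH2.toAddMonoidHom).comp
        ((lvlHom h𝒰 (hIq q) hI (inc q) (hinc q)).mapH2.toAddMonoidHom)) v = 0 :=
      hτ (by rw [map_zero]; exact hv)
    apply Subtype.ext
    exact hLG q v.1 v.2 (congrArg Subtype.val h1)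
  have hmu : ∀ q, Injective (mu q) := by
    intro q
    rw [injective_iff_map_eq_zero]
    intro v hv
    have h1 : pTorMap p
        (resH2 (hr q) h𝒰 (h𝒰q q) (hIq q) (hW q) (ev q) (hev q)).toAddMonoidHom v = 0 :=
      hinv q (by rw [map_zero]; exact hv)
    apply Subtype.ext
    rw [AddSubgroup.coe_zero]
    apply hS2 q
    rw [map_zero]
    exact congrArg Subtype.val h1
  choose c hc using fun q => exists_unit_mul_eq p (lam q) (mu q) (hlam q) (hmu q)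
  refine ⟨c, fun ξ y => ?_⟩
  -- the class `w = ⟨ξ, y⟩_E`
  set w : Hlev2 h𝒰 ρE hE := pair11 (evP R h0 h𝒰 ρE hE) h𝒰 hE ξ y with hw
  have hpw : p • w = 0 := by
    rw [hw, ← map_nsmul,
      Fermat.Agent.PT.PRO.DualityAdapter29.nsmul_Hlev1_eq_zero h𝒰 (toResolved R h0).ρM (toResolved R h0).discM p hpA y,
      map_zero]
  set wI : Hlev2 h𝒰 ρI hI := (lvlHom h𝒰 hE hI d hd).mapH2 w with hwI
  have hpwI : p • wI = 0 := by rw [hwI, ← map_nsmul, hpw, map_zero]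
  -- the components
  let v : ∀ q, pTor p (Hlev2 h𝒰 (ρIq q) (hIq q)) := fun q =>
    ⟨(lvlHom h𝒰 hI (hIq q) (prj q) (hprj q)).mapH2 wI, by
      show p • _ = 0
      rw [← map_nsmul, hpwI, map_zero]⟩
  -- `∑ λ_q v_q = 0`
  have hsum0 : ∑ q, lam q (v q) = 0 := by
    have h1 : (lvlHom h𝒰 hI hC t ht).mapH2 wI = 0 := by
      rw [hwI, mapH2_comp h𝒰 hE hI hC d hd t ht (t ∘ₗ d)
        (fun g a => by rw [LinearMap.comp_apply, LinearMap.comp_apply, hd, ht]) (fun _ => rfl)]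
      exact mapH2_zero h𝒰 hE hC _ _ (fun a => htd a) w
    have h2 : ∑ q, (lvlHom h𝒰 hI hC t ht).mapH2
        ((lvlHom h𝒰 (hIq q) hI (inc q) (hinc q)).mapH2 (v q).1) = 0 := by
      rw [← map_sum]
      rw [show ∑ q, (lvlHom h𝒰 (hIq q) hI (inc q) (hinc q)).mapH2 (v q).1 = wI from
        sum_mapH2_mapH2 h𝒰 hI hIq inc hinc prj hprj hsum wI]
      exact h1
    have h3 : ∀ q, lam q (v q) = τ (pTorMap p (((lvlHom h𝒰 hI hC t ht).mapH2.toAddMonoidHom).comp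
        ((lvlHom h𝒰 (hIq q) hI (inc q) (hinc q)).mapH2.toAddMonoidHom)) (v q)) := fun q => rfl
    simp only [h3]
    rw [← map_sum]
    have h4 : ∑ q, pTorMap p (((lvlHom h𝒰 hI hC t ht).mapH2.toAddMonoidHom).comp
        ((lvlHom h𝒰 (hIq q) hI (inc q) (hinc q)).mapH2.toAddMonoidHom)) (v q) = 0 := by
      apply Subtype.ext
      rw [AddSubgroup.coe_zero, ← h2]
      exact AddSubgroup.val_finsetSum _ _ _
    rw [h4, map_zero]
  -- `μ_q v_q = inv_q ⟨Λ_q ξ, res_q y⟩`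
  have hmuv : ∀ q, mu q (v q) =
      alphaP (evP (R.comap (r q)) (comap_disc0 R h0 (r q) (hr q)) (h𝒰q q) (ρW q) (hW q))
        (h𝒰q q) (hW q) hpA (inv q)
        ((KXPHom R h0 h𝒰 (h𝒰q q) (r q) (hr q) hE (hW q) (ε q) (hε q)).ppℍ1 (hr q) h𝒰 (h𝒰q q) ξ)
        (resM R h0 h𝒰 (h𝒰q q) (r q) (hr q) y) := by
    intro q
    rw [alphaP_apply]
    show inv q _ = inv q _
    congr 1
    apply Subtype.ext
    rw [coe_pair11P, pair11_KXPHom R h0 h𝒰 (h𝒰q q) (r q) (hr q) hE (hW q) (ε q) (hε q) ξ y]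
    show resH2 (hr q) h𝒰 (h𝒰q q) (hIq q) (hW q) (ev q) (hev q)
        ((lvlHom h𝒰 hI (hIq q) (prj q) (hprj q)).mapH2 wI) = _
    rw [hwI, mapH2_comp h𝒰 hE hI (hIq q) d hd (prj q) (hprj q) (prj q ∘ₗ d)
      (fun g a => by rw [LinearMap.comp_apply, LinearMap.comp_apply, hd, hprj]) (fun _ => rfl),
      resH2_mapH2 h𝒰 (h𝒰q q) hE (hIq q) (hW q) (hr q) (prj q ∘ₗ d) _ (ev q) (hev q) (ε q) (hε q)
        (fun a => hεq q a)]
    rfl
  calc ∑ q, (c q : ZMod p) * _ = ∑ q, lam q (v q) := by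
        refine Finset.sum_congr rfl fun q _ => ?_
        rw [← hmuv q, hc q]
    _ = 0 := hsum0

end Main

end Fermat.Agent.ES.T56.LocRecipGen21
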