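/-
Programme T (S56, Taylor–Wiles primes), chapter GW, leaf `LocRecipInst21` (helper21):

  `LocRecipGen21.exists_weights` at the S55 objects of main (`k = ℤ`, `G = Γ = Gal(ℚ̄/ℚ)`, `𝒰 = levelS S`,
  `G_q = Γ_q`, `E/I/C = ES/IS/CS S`, `I_q = ISq S q`, `W_q = unitsLoc q`, `R = freeRes (intRep A)`,
  `A = M^∨(1)`), with
  * `τ` from `InvFund18.exists_inv_of_isFundClass` + `FundLevel2.fundFixed_CS` (global fundamental classes),
  * (S2) `LocS2_29.resH2_injective`, (LG) `LocalGlobalInst27.hLG_inclq` + `LocalInjMain14.localInjectivity`,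
  * `ε_q = locE S q : E_S → ℚ̄_qˣ`  (`ev_q ∘ prj_q ∘ diag = locE`).

The local invariants `inv q` are ARBITRARY injective additive maps `H²_lev(Γ_q; ℚ̄_qˣ)[p] →+ ℤ/p`.
-/
import Mathlib
import Fermat.Agent.ES.T56.LocRecipGen21
import Fermat.Agent.PT.PRO.MainFinal4
import Fermat.Agent.PT.GLOB.LocalInjMain14

set_option autoImplicit false
set_option linter.unusedSectionVars false

open CategoryTheory Module groupCohomology ExtCitation
open Fermat.Agent.PT Fermat.Agent.PT.PRO Fermat.Agent.PT.GLUE Fermat.Agent.PT.GLUE.Objects21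
open Fermat.Agent.PT.PRO.HyperLevel25 Fermat.Agent.PT.PRO.Resolved4
open Fermat.Agent.PT.PRO.HyperRes25 Fermat.Agent.PT.PRO.PairingRes1
open Fermat.Agent.PT.PRO.PairingResObj1
open Fermat.Agent.PT.PRO.IntRep20 Fermat.Agent.PT.PRO.LevelEquiv29
open Fermat.Agent.PT.PRO.ProdDict10 Fermat.Agent.PT.GLUE.LocS2_29
open Fermat.Agent.PT.GLUE.LevelTheta21
open Fermat.Agent.PT.PRO.IndRes20 Fermat.Agent.PT.PRO.Setup20 Fermat.Agent.PT.PRO.Objects20
open Fermat.Agent.PT.PRO.InvP4 Fermat.Agent.PT.PRO.PairP4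

namespace Fermat.Agent.ES.T56.LocRecipInst21

local notation "Γ" => (AlgebraicClosure ℚ ≃ₐ[ℚ] AlgebraicClosure ℚ)

variable {p : ℕ} [Fact p.Prime]

/-- `∑_q incl_q (proj_q x) = x` on `I_S`. -/
theorem sum_inclq_ISproj (S : Finset Nat.Primes) (x : IS S) :
    ∑ q : ↥S, inclq S q (ISproj S q x) = x := by
  classical
  apply (ISequiv S).injective
  rw [map_sum]
  funext q'
  rw [Finset.sum_apply]
  simp only [ISequiv_inclq, ISproj_apply]
  rw [Finset.sum_eq_single q']
  · rw [Pi.single_eq_same]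
  · intro b _ hb
    rw [Pi.single_eq_of_ne' hb]
  · intro h
    exact absurd (Finset.mem_univ q') h

/-- `ev_q ∘ prj_q ∘ diag = locE`. -/
theorem evq_ISproj_diag (S : Finset Nat.Primes) (q : ↥S) (b : ES S) :
    evq S ((q : Nat.Primes) : ℕ) (ISproj S q (diag S b)) = locE S ((q : Nat.Primes) : ℕ) b := by
  rw [ISproj_diag]
  exact Fermat.Agent.PT.GLUE.SmCoind21.ev_lift _ _ _ (isDiscrete_ES S)
    (locE S ((q : Nat.Primes) : ℕ)) (locE_ρ S ((q : Nat.Primes) : ℕ)) _

/-- **Reciprocity up to unit weights at the S55 objects** (level-cohomology form). -/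
theorem exists_weights_S55 (hp2 : p ≠ 2) (S : Finset Nat.Primes) (hpS : pPrime p ∈ S)
    (A : Rep.{0} (ZMod p) Γ) [Finite A]
    (h0 : IsDiscrete (levelS S).sets (HpAt29.freeRes (IntRep20.intRep A)).ρ0)
    (hpA : ∀ m : A, p • m = 0)
    (inv : ∀ q : ↥S, pTor p (Hlev2 (basis (levelLoc ((q : Nat.Primes) : ℕ)))
      (unitsLoc ((q : Nat.Primes) : ℕ)).ρ (isDiscrete_unitsLoc ((q : Nat.Primes) : ℕ))) →+ ZMod p)
    (hinv : ∀ q, Function.Injective (inv q)) :
    ∃ c : ↥S → (ZMod p)ˣ,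
      ∀ (ξ : (KX (HpAt29.freeRes (IntRep20.intRep A)) h0 (basis (levelS S)) (ES S).ρ
          (isDiscrete_ES S)).ℍ1 (basis (levelS S)))
        (y : Hlev1 (basis (levelS S)) (toResolved (HpAt29.freeRes (IntRep20.intRep A)) h0).ρM
          (toResolved (HpAt29.freeRes (IntRep20.intRep A)) h0).discM),
        ∑ q : ↥S, (c q : ZMod p) *
          alphaP (evP ((HpAt29.freeRes (IntRep20.intRep A)).comap
              (localGaloisToGlobal ((q : Nat.Primes) : ℕ)))
            (comap_disc0 (HpAt29.freeRes (IntRep20.intRep A)) h0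
              (localGaloisToGlobal ((q : Nat.Primes) : ℕ))
              (isLevelHom_loc S ((q : Nat.Primes) : ℕ)))
            (basis (levelLoc ((q : Nat.Primes) : ℕ))) (unitsLoc ((q : Nat.Primes) : ℕ)).ρ
            (isDiscrete_unitsLoc ((q : Nat.Primes) : ℕ)))
            (basis (levelLoc ((q : Nat.Primes) : ℕ)))
            (isDiscrete_unitsLoc ((q : Nat.Primes) : ℕ)) hpA (inv q)
            ((KXPHom (HpAt29.freeRes (IntRep20.intRep A)) h0 (basis (levelS S))
              (basis (levelLoc ((q : Nat.Primes) : ℕ)))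
              (localGaloisToGlobal ((q : Nat.Primes) : ℕ))
              (isLevelHom_loc S ((q : Nat.Primes) : ℕ)) (isDiscrete_ES S)
              (isDiscrete_unitsLoc ((q : Nat.Primes) : ℕ))
              (locE S ((q : Nat.Primes) : ℕ)) (locE_ρ S ((q : Nat.Primes) : ℕ))).ppℍ1
                (isLevelHom_loc S ((q : Nat.Primes) : ℕ)) (basis (levelS S))
                (basis (levelLoc ((q : Nat.Primes) : ℕ))) ξ)
            (resM (HpAt29.freeRes (IntRep20.intRep A)) h0 (basis (levelS S))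
              (basis (levelLoc ((q : Nat.Primes) : ℕ)))
              (localGaloisToGlobal ((q : Nat.Primes) : ℕ))
              (isLevelHom_loc S ((q : Nat.Primes) : ℕ)) y) = 0 := by
  classical
  have hp : p.Prime := Fact.out
  have hpS' : ∃ q ∈ S, (q : ℕ) = p := ⟨pPrime p, hpS, rfl⟩
  have hGCF := GLOB.FundClassExists6.fundClassExists p S
  have hfund := GLUE.FundLevel2.fundFixed_CS p hp2 hpS hGCF
  obtain ⟨τ, hτ⟩ := InvFund18.exists_inv_of_isFundClass (CS S).ρ (basis (levelS S))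
    (isDiscrete_CS S) hfund
  have hL1 := GLOB.LocalInjMain14.localInjectivity p S
  exact LocRecipGen21.exists_weights (HpAt29.freeRes (IntRep20.intRep A)) h0 (basis (levelS S))
    (fun q : ↥S => basis (levelLoc ((q : Nat.Primes) : ℕ)))
    (fun q : ↥S => localGaloisToGlobal ((q : Nat.Primes) : ℕ))
    (fun q : ↥S => isLevelHom_loc S ((q : Nat.Primes) : ℕ))
    (isDiscrete_ES S) (isDiscrete_IS' S) (isDiscrete_CS S) (isDiscrete_ISq' S)
    (fun q : ↥S => isDiscrete_unitsLoc ((q : Nat.Primes) : ℕ))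
    (diag S) (diag_ρ S) (toCS S) (toCS_ρ S) (inclq S) (inclq_ρ S) (ISproj S) (ISproj_ρ S)
    (fun q : ↥S => evq S ((q : Nat.Primes) : ℕ)) (fun q : ↥S => evq_ρ S ((q : Nat.Primes) : ℕ))
    (fun q : ↥S => locE S ((q : Nat.Primes) : ℕ)) (fun q : ↥S => locE_ρ S ((q : Nat.Primes) : ℕ))
    p hpA (fun x => (toCS_eq_zero_iff S _).2 ⟨x, rfl⟩) (sum_inclq_ISproj S)
    (evq_ISproj_diag S) τ hτ inv hinv
    (fun q : ↥S => LocS2_29.resH2_injective S ((q : Nat.Primes) : ℕ))
    (GLUE.LocalGlobalInst27.hLG_inclq S p hp hp2 hpS' hL1 (basis (levelS S)) (isDiscrete_ISq' S)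
      (isDiscrete_IS' S) (isDiscrete_CS S))

end Fermat.Agent.ES.T56.LocRecipInst21
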