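/-
Programme T (S56, Taylor–Wiles primes), chapter GW, leaf `LocPairRecip21` (helper21):

  **reciprocity for the local level pairings `LocPairLev21.pairLev`** (up to unit weights):
  for `S ∋ p`, `M` finite-dimensional, smooth, unramified outside `S`, there are units `c q` (`q ∈ S`) with

    `∑_{q ∈ S} c q · pairLev_q (res_q x) (res_q y) = 0`   for all `x ∈ H¹_lev(G_S; M)`, `y ∈ H¹_lev(G_S; M^∨(1))`.

Proof: `LocRecipInst21.exists_weights_S55` at `ξ = Φ_S x` (`Φ_S = KerIso7.compare1` for `E_S`, `μ_p ⊂ E_S`) and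
the square `Φ_q ∘ res_q = Λ_q ∘ Φ_S` (`KerIsoMain7.compare1_natural`, `locE ∘ j_{E_S} = j_{ℚ̄_q}`).
-/
import Mathlib
import Fermat.Agent.ES.T56.LocPairLev21
import Fermat.Agent.ES.T56.LocRecipInst21

set_option autoImplicit false
set_option linter.unusedSectionVars false

open CategoryTheory Module groupCohomology ExtCitation
open Fermat.Agent.PT Fermat.Agent.PT.PRO Fermat.Agent.PT.GLUE Fermat.Agent.PT.GLUE.Objects21
open Fermat.Agent.PT.PRO.HyperLevel25 Fermat.Agent.PT.PRO.Resolved4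
open Fermat.Agent.PT.PRO.HyperRes25 Fermat.Agent.PT.PRO.PairingRes1
open Fermat.Agent.PT.PRO.PairingResObj1
open Fermat.Agent.PT.PRO.IntRep20 Fermat.Agent.PT.PRO.LevelEquiv29
open Fermat.Agent.PT.PRO.ProdDict10 Fermat.Agent.PT.GLUE.LocS2_29
open Fermat.Agent.PT.PRO.IndRes20 Fermat.Agent.PT.PRO.Setup20 Fermat.Agent.PT.PRO.Objects20
open Fermat.Agent.PT.PRO.InvP4 Fermat.Agent.PT.PRO.PairP4
open Fermat.Agent.PT.PRO.KerIso7 Fermat.Agent.PT.PRO.KerIsoGal7
open Fermat.Agent.ES.T56.LocPairLev21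

namespace Fermat.Agent.ES.T56.LocPairRecip21

local notation "Γ" => (AlgebraicClosure ℚ ≃ₐ[ℚ] AlgebraicClosure ℚ)

variable {p : ℕ} [Fact p.Prime]

/-- **Reciprocity for the local level pairings, up to unit weights.** -/
theorem exists_weights_pairLev (hp2 : p ≠ 2) (S : Finset Nat.Primes) (hpS : pPrime p ∈ S)
    (M : Rep.{0} (ZMod p) Γ) [FiniteDimensional (ZMod p) M]
    (hMS : HyperLevel25.IsDiscrete (levelS S).sets M.ρ)
    (h0 : HyperLevel25.IsDiscrete (levelS S).sets
      (HpAt29.freeRes (IntRep20.intRep (M.dualTwist (cycloChar p)))).ρ0)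
    (hMq : ∀ q : ↥S, HyperLevel25.IsDiscrete (levelLoc ((q : Nat.Primes) : ℕ)).sets
      (M.ρ.comp (localGaloisToGlobal ((q : Nat.Primes) : ℕ))))
    (h0q : ∀ q : ↥S, HyperLevel25.IsDiscrete (levelLoc ((q : Nat.Primes) : ℕ)).sets
      (Rq p ((q : Nat.Primes) : ℕ) M).ρ0) :
    ∃ c : ↥S → (ZMod p)ˣ,
      ∀ (x : HyperCompare25.Hp1 (basis (levelS S)) (KerIso7.intRep intSurj_int M.ρ)
          (isDiscrete_intRep intSurj_int hMS))
        (y : Hlev1 (basis (levelS S))
          (toResolved (HpAt29.freeRes (IntRep20.intRep (M.dualTwist (cycloChar p)))) h0).ρM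
          (toResolved (HpAt29.freeRes (IntRep20.intRep (M.dualTwist (cycloChar p)))) h0).discM),
        ∑ q : ↥S, (c q : ZMod p) *
          pairLev p ((q : Nat.Primes) : ℕ) M (hMq q) (h0q q)
            ((KerIsoMain7.resPlain intSurj_int (basis (levelS S))
              (basis (levelLoc ((q : Nat.Primes) : ℕ))) M.ρ hMS
              (localGaloisToGlobal ((q : Nat.Primes) : ℕ))
              (isLevelHom_loc S ((q : Nat.Primes) : ℕ))).mapH1 x)
            (resM (HpAt29.freeRes (IntRep20.intRep (M.dualTwist (cycloChar p)))) h0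
              (basis (levelS S)) (basis (levelLoc ((q : Nat.Primes) : ℕ)))
              (localGaloisToGlobal ((q : Nat.Primes) : ℕ))
              (isLevelHom_loc S ((q : Nat.Primes) : ℕ)) y) = 0 := by
  obtain ⟨c, hc⟩ := LocRecipInst21.exists_weights_S55 hp2 S hpS (M.dualTwist (cycloChar p)) h0
    (nsmul_dualTwist p M) (fun q : ↥S => invLoc p ((q : Nat.Primes) : ℕ))
    (fun q : ↥S => invLoc_injective p ((q : Nat.Primes) : ℕ))
  refine ⟨c, fun x y => ?_⟩
  have key := hc (compare1 intSurj_int (basis (levelS S))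
    (toResolved (HpAt29.freeRes (IntRep20.intRep (M.dualTwist (cycloChar p)))) h0) M.ρ hMS
    (cycloChar p) (KerIsoMain7.hA_freeRes M (cycloChar p)) (isDiscrete_ES S) (muES p S hpS) x) y
  refine (Finset.sum_congr rfl fun q _ => ?_).trans key
  have hq := KerIsoMain7.compare1_natural intSurj_int
    (HpAt29.freeRes (IntRep20.intRep (M.dualTwist (cycloChar p)))) h0 (basis (levelS S))
    (basis (levelLoc ((q : Nat.Primes) : ℕ))) M.ρ hMS (cycloChar p)
    (KerIsoMain7.hA_freeRes M (cycloChar p)) (isDiscrete_ES S) (muES p S hpS)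
    (localGaloisToGlobal ((q : Nat.Primes) : ℕ)) (isLevelHom_loc S ((q : Nat.Primes) : ℕ))
    (isDiscrete_unitsLoc ((q : Nat.Primes) : ℕ)) (muLoc p ((q : Nat.Primes) : ℕ))
    (locE S ((q : Nat.Primes) : ℕ)) (locE_ρ S ((q : Nat.Primes) : ℕ))
    (locE_muES p ((q : Nat.Primes) : ℕ) S hpS) x
  exact congrArg (fun ξ => (c q : ZMod p) *
    alphaP (evP (Rq p ((q : Nat.Primes) : ℕ) M) (h0q q) (basis (levelLoc ((q : Nat.Primes) : ℕ)))
      (unitsLoc ((q : Nat.Primes) : ℕ)).ρ (isDiscrete_unitsLoc ((q : Nat.Primes) : ℕ)))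
      (basis (levelLoc ((q : Nat.Primes) : ℕ))) (isDiscrete_unitsLoc ((q : Nat.Primes) : ℕ))
      (nsmul_dualTwist p M) (invLoc p ((q : Nat.Primes) : ℕ)) ξ
      (resM (HpAt29.freeRes (IntRep20.intRep (M.dualTwist (cycloChar p)))) h0
        (basis (levelS S)) (basis (levelLoc ((q : Nat.Primes) : ℕ)))
        (localGaloisToGlobal ((q : Nat.Primes) : ℕ))
        (isLevelHom_loc S ((q : Nat.Primes) : ℕ)) y)) hq

end Fermat.Agent.ES.T56.LocPairRecip21
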