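/-
Programme T (S56, Taylor–Wiles primes), chapter GW, leaf `LocPairing21` (helper21):

  **`locPairing hp2 M hsm : GWIface21.LocPairing p M`** — the local Tate pairings with reciprocity (up to
  unit weights) and trivial right kernel, for `p ≠ 2` and `M` finite-dimensional smooth.

* `pairCont q x y = pairLev_q (dLoc_q x) (dLoc_q y)` on continuous classes (`LocPairLev21`, `LocDict21`);
* `pair q` = `pairCont q` precomposed with linear projections `H¹(Γ_q, ·) → contLoc` (any choice);
* `recip`  = `LocPairRecip21.exists_weights_pairLev` + `LocDict21.dLoc_resLoc`;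
* `rnd`    = `LocPairLev21.pairLev_right_kernel`.
-/
import Mathlib
import Fermat.Agent.ES.T56.LocDict21
import Fermat.Agent.ES.T56.LocPairRecip21
import Fermat.Agent.PT.PRO.FinH1S55_9

set_option autoImplicit false
set_option linter.unusedSectionVars false

open CategoryTheory Module groupCohomology ExtCitation
open Fermat.Agent.PT Fermat.Agent.PT.PRO Fermat.Agent.PT.GLUE Fermat.Agent.PT.GLUE.Objects21
open Fermat.Agent.PT.PRO.HyperLevel25 Fermat.Agent.PT.PRO.Resolved4
open Fermat.Agent.PT.PRO.IntRep20 Fermat.Agent.PT.PRO.LevelEquiv29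
open Fermat.Agent.PT.PRO.IndRes20 Fermat.Agent.PT.PRO.Setup20 Fermat.Agent.PT.PRO.Objects20
open Fermat.Agent.PT.PRO.KerIso7
open Fermat.Agent.PT.PRO.PairingResObj1 Fermat.Agent.PT.GLUE.LocS2_29
open Fermat.Agent.ES.T56.GWIface21 Fermat.Agent.ES.T56.LocDict21 Fermat.Agent.ES.T56.LocPairLev21

namespace Fermat.Agent.ES.T56.LocPairing21

/-! ### Biadditive maps into `ℤ/p` are bilinear -/

section BiLin

variable {p : ℕ} [Fact p.Prime] {A B : Type*} [AddCommGroup A] [Module (ZMod p) A]
  [AddCommGroup B] [Module (ZMod p) B]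

/-- A biadditive map of `𝔽_p`-vector spaces into `𝔽_p` is bilinear. -/
def biLin (f : A →+ B →+ ZMod p) : A →ₗ[ZMod p] B →ₗ[ZMod p] ZMod p :=
  AddMonoidHom.toZModLinearMap p
    { toFun := fun x => AddMonoidHom.toZModLinearMap p (f x)
      map_zero' := by
        ext y
        simp
      map_add' := fun x x' => by
        ext y
        simp }

@[simp] theorem biLin_apply (f : A →+ B →+ ZMod p) (x : A) (y : B) : biLin f x y = f x y := rfl

end BiLin

variable {p : ℕ} [Fact p.Prime] (M : Rep.{0} (ZMod p) GQ) [FiniteDimensional (ZMod p) M]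
  (hsm : IsSmooth p M)

/-! ### The pairing on continuous classes -/

include hsm in
theorem isDiscrete_M (q : Nat.Primes) :
    LevelCoh28.IsDiscrete (locBasis q).sets (Rep.res (primeLocalToGlobal q) M) :=
  isDiscrete_Mq p ((q : Nat.Primes) : ℕ) M hsm

include hsm in
theorem isDiscrete_N (q : Nat.Primes) :
    LevelCoh28.IsDiscrete (locBasis q).sets (Rep.res (primeLocalToGlobal q) (dualT p M)) :=
  isDiscrete_Mq p ((q : Nat.Primes) : ℕ) (dualT p M) (BR.DualTwist7.smooth_dualTwist M hsm)

/-- The dictionary at `q` for `M`, with values in the source of `pairLev`. -/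
noncomputable def dM (q : Nat.Primes) :
    ↥(contLoc p q M) →+ HyperCompare25.Hp1 (basis (levelLoc ((q : Nat.Primes) : ℕ)))
      (KerIso7.intRep intSurj_int (M.ρ.comp (localGaloisToGlobal ((q : Nat.Primes) : ℕ))))
      (isDiscrete_intRep intSurj_int (isDiscrete_Mq p ((q : Nat.Primes) : ℕ) M hsm)) :=
  (dLoc q M (isDiscrete_M M hsm q)).toAddMonoidHom

/-- The dictionary at `q` for `N = M^∨(1)`, with values in the second source of `pairLev`. -/
noncomputable def dN (q : Nat.Primes) :
    ↥(contLoc p q (dualT p M)) →+ Hlev1 (basis (levelLoc ((q : Nat.Primes) : ℕ)))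
      (toResolved (Rq p ((q : Nat.Primes) : ℕ) M) (isDiscrete_Rq0 p ((q : Nat.Primes) : ℕ) M hsm)).ρM
      (toResolved (Rq p ((q : Nat.Primes) : ℕ) M)
        (isDiscrete_Rq0 p ((q : Nat.Primes) : ℕ) M hsm)).discM :=
  (dLoc q (dualT p M) (isDiscrete_N M hsm q)).toAddMonoidHom

theorem dM_surjective (q : Nat.Primes) : Function.Surjective (dM M hsm q) :=
  (dLoc q M (isDiscrete_M M hsm q)).surjective

theorem dN_injective (q : Nat.Primes) : Function.Injective (dN M hsm q) :=
  (dLoc q (dualT p M) (isDiscrete_N M hsm q)).injective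

/-- The local pairing on continuous classes. -/
noncomputable def pairCont (q : Nat.Primes) :
    ↥(contLoc p q M) →+ ↥(contLoc p q (dualT p M)) →+ ZMod p :=
  ((pairLev p ((q : Nat.Primes) : ℕ) M (isDiscrete_Mq p ((q : Nat.Primes) : ℕ) M hsm)
      (isDiscrete_Rq0 p ((q : Nat.Primes) : ℕ) M hsm)).comp (dM M hsm q)).compl₂ (dN M hsm q)

theorem pairCont_apply (q : Nat.Primes) (x : ↥(contLoc p q M)) (y : ↥(contLoc p q (dualT p M))) :
    pairCont M hsm q x y =
      pairLev p ((q : Nat.Primes) : ℕ) M (isDiscrete_Mq p ((q : Nat.Primes) : ℕ) M hsm)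
        (isDiscrete_Rq0 p ((q : Nat.Primes) : ℕ) M hsm) (dM M hsm q x) (dN M hsm q y) := rfl

/-- Trivial right kernel on continuous classes. -/
theorem pairCont_right_kernel (q : Nat.Primes) (y : ↥(contLoc p q (dualT p M)))
    (h : ∀ x, pairCont M hsm q x y = 0) : y = 0 := by
  apply dN_injective M hsm q
  rw [map_zero]
  apply pairLev_right_kernel p ((q : Nat.Primes) : ℕ) M
    (isDiscrete_Mq p ((q : Nat.Primes) : ℕ) M hsm) (isDiscrete_Rq0 p ((q : Nat.Primes) : ℕ) M hsm)
  intro ξ
  obtain ⟨x, rfl⟩ := dM_surjective M hsm q ξ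
  exact h x

/-! ### Reciprocity on continuous classes -/

/-- Localisation maps the continuous global classes into the continuous local classes. -/
theorem resLoc_mem (Sg : Finset Nat.Primes) (q : Nat.Primes) (X : Rep.{0} (ZMod p) GQ)
    (x : ↥(continuousH1S Sg X)) : resLoc p q X (x : H1 X) ∈ contLoc p q X := by
  obtain ⟨y, rfl⟩ := (globEquiv Sg X).surjective x
  rw [resLoc_globEquiv]
  exact Subtype.mem _

include hsm in
/-- **Reciprocity on continuous classes, up to unit weights.** -/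
theorem pairCont_recip (hp2 : p ≠ 2) (Sg : Finset Nat.Primes) (hpS : pPrime p ∈ Sg)
    (hur : IsUnramOutside p Sg M) :
    ∃ c : ↥Sg → (ZMod p)ˣ, ∀ (x : ↥(continuousH1S Sg M)) (y : ↥(continuousH1S Sg (dualT p M))),
      ∑ q : ↥Sg, (c q : ZMod p) *
        pairCont M hsm q.1 ⟨resLoc p q.1 M (x : H1 M), resLoc_mem Sg q.1 M x⟩
          ⟨resLoc p q.1 (dualT p M) (y : H1 (dualT p M)), resLoc_mem Sg q.1 (dualT p M) y⟩ = 0 := by
  have hMS' : LevelCoh28.IsDiscrete (levelS Sg).sets M :=
    FinH1S55_9.isDiscrete_intRep_self Sg hpS M hsm hur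
  have hMS : HyperLevel25.IsDiscrete (levelS Sg).sets M.ρ := fun m => hMS' m
  have hNS : LevelCoh28.IsDiscrete (levelS Sg).sets (dualT p M) :=
    FinH1S55_9.isDiscrete_intRep_dualTwist Sg hpS M hsm hur
  have h0 : HyperLevel25.IsDiscrete (levelS Sg).sets
      (HpAt29.freeRes (IntRep20.intRep (M.dualTwist (cycloChar p)))).ρ0 :=
    FreeRes29.isDiscrete_freeRep (basis (levelS Sg)) hNS
  obtain ⟨c, hc⟩ := LocPairRecip21.exists_weights_pairLev hp2 Sg hpS M hMS h0
    (fun q : ↥Sg => isDiscrete_Mq p ((q : Nat.Primes) : ℕ) M hsm)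
    (fun q : ↥Sg => isDiscrete_Rq0 p ((q : Nat.Primes) : ℕ) M hsm)
  refine ⟨c, fun x y => ?_⟩
  refine (Finset.sum_congr rfl fun q _ => ?_).trans
    (hc (dGlob Sg M hMS' x) (dGlob Sg (dualT p M) hNS y))
  have e1 := dLoc_resLoc Sg q.1 M hMS' (isDiscrete_M M hsm q.1) x (resLoc_mem Sg q.1 M x)
  have e2 := dLoc_resLoc Sg q.1 (dualT p M) hNS (isDiscrete_N M hsm q.1) y
    (resLoc_mem Sg q.1 (dualT p M) y)
  rw [pairCont_apply]
  exact congrArg₂ (fun a b => (c q : ZMod p) *
    pairLev p ((q : Nat.Primes) : ℕ) M (isDiscrete_Mq p ((q : Nat.Primes) : ℕ) M hsm)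
      (isDiscrete_Rq0 p ((q : Nat.Primes) : ℕ) M hsm) a b) e1 e2

/-! ### Projections onto the continuous classes, and the structure -/

section Proj

variable {V : Type*} [AddCommGroup V] [Module (ZMod p) V]

theorem exists_proj (W : Submodule (ZMod p) V) :
    ∃ π : V →ₗ[ZMod p] ↥W, ∀ w : ↥W, π (w : V) = w := by
  obtain ⟨g, hg⟩ := LinearMap.exists_leftInverse_of_injective W.subtype (Submodule.ker_subtype W)
  exact ⟨g, fun w => LinearMap.congr_fun hg w⟩

/-- A linear projection onto a subspace (a choice). -/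
noncomputable def proj (W : Submodule (ZMod p) V) : V →ₗ[ZMod p] ↥W :=
  Classical.choose (exists_proj W)

theorem proj_coe (W : Submodule (ZMod p) V) (w : ↥W) : proj W (w : V) = w :=
  Classical.choose_spec (exists_proj W) w

theorem proj_of_mem (W : Submodule (ZMod p) V) {v : V} (hv : v ∈ W) : proj W v = ⟨v, hv⟩ :=
  proj_coe W ⟨v, hv⟩

end Proj

/-- **The local Tate pairings**: `GWIface21.LocPairing p M` for `p ≠ 2`, `M` finite-dimensional and
smooth. -/
noncomputable def locPairing (hp2 : p ≠ 2) : LocPairing p M where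
  pair q := (biLin (pairCont M hsm q)).compl₁₂ (proj (contLoc p q M))
    (proj (contLoc p q (dualT p M)))
  recip Sg hpS hur := by
    classical
    obtain ⟨c, hc⟩ := pairCont_recip M hsm hp2 Sg hpS hur
    refine ⟨fun q => if h : q ∈ Sg then c ⟨q, h⟩ else 1, fun x hx y hy => ?_⟩
    rw [← Finset.sum_attach, ← Finset.univ_eq_attach]
    refine (Finset.sum_congr rfl fun q _ => ?_).trans (hc ⟨x, hx⟩ ⟨y, hy⟩)
    beta_reduce
    rw [dif_pos q.2, LinearMap.compl₁₂_apply, biLin_apply,
      proj_of_mem _ (resLoc_mem Sg q.1 M ⟨x, hx⟩),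
      proj_of_mem _ (resLoc_mem Sg q.1 (dualT p M) ⟨y, hy⟩)]
  rnd q y hy h := by
    have h0 : (⟨y, hy⟩ : ↥(contLoc p q (dualT p M))) = 0 := by
      apply pairCont_right_kernel M hsm q
      intro x
      have h1 := h (x : H1loc p q M) x.2
      rw [LinearMap.compl₁₂_apply, biLin_apply, proj_coe, proj_of_mem _ hy] at h1
      exact h1
    exact congrArg Subtype.val h0

end Fermat.Agent.ES.T56.LocPairing21
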