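/-
Programme T (S56), chapter GW, helper21: **the GW exports for TOP, assembled**.

TOP (`TopAsm27.twSelmer_of_inputs`) consumes from the GW chapter, for `M` finite-dimensional and
smooth and `p` odd:

* `P : LocPairing p M`        — `LocPairing21.locPairing M hsm hp2` (unconditional);
* `hmono : DualSelMono M P`   — `DualSelMonoFinal21.dualSelMono_final` (unconditional);
* `hgw : GWLe M P`            — `GwLeAsm25.gwLe_of_claims` from C2 (`ShaCount21.shaCount`,
  unconditional), C3 (`HardP2`, the hard direction at `P²`) and C4 (`GlobChi`, Tate's global Euler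
  characteristic formula).

This file plugs the unconditional parts in, so that the only remaining inputs are C3 and C4.
-/
import Mathlib
import Fermat.Agent.ES.T56.GWIface21
import Fermat.Agent.ES.T56.ShaCount21
import Fermat.Agent.ES.T56.GwLeAsm25
import Fermat.Agent.ES.T56.LocPairing21
import Fermat.Agent.ES.T56.DualSelMonoFinal21

set_option autoImplicit false

namespace Fermat.Agent.ES.T56.GWFinal21

open ExtCitation
open Fermat.Agent.ES.T56.GWIface21

variable {p : ℕ} [Fact p.Prime]

/-- The local Tate pairings of the GW chapter. -/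
noncomputable abbrev gwPairing (M : Rep (ZMod p) GQ) [FiniteDimensional (ZMod p) M]
    (hsm : IsSmooth p M) (hp2 : p ≠ 2) : LocPairing p M :=
  LocPairing21.locPairing M hsm hp2

/-- **`hmono`** for the pairing of the GW chapter (unconditional). -/
theorem dualSelMono_gw (M : Rep (ZMod p) GQ) [FiniteDimensional (ZMod p) M]
    (hsm : IsSmooth p M) (hp2 : p ≠ 2) : DualSelMono M (gwPairing M hsm hp2) :=
  DualSelMonoFinal21.dualSelMono_final M _

/-- **`hgw`** for the pairing of the GW chapter, from C3 and C4 only. -/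
theorem gwLe_gw (M : Rep (ZMod p) GQ) [FiniteDimensional (ZMod p) M]
    (hsm : IsSmooth p M) (hp2 : p ≠ 2)
    (hC3 : ∀ Sg : Finset Nat.Primes, pPrime p ∈ Sg → IsUnramOutside p Sg M →
      HardP2 Sg (dualT p M))
    (hC4 : ∀ Sg : Finset Nat.Primes, pPrime p ∈ Sg → GlobChi p Sg) :
    GWLe M (gwPairing M hsm hp2) :=
  GwLeAsm25.gwLe_of_claims hp2 M hsm _
    (fun Sg hpS hur => ShaCount21.shaCount hp2 Sg hpS M hsm hur) hC3 hC4

/-- The three GW inputs of TOP in one statement, from C3 and C4. -/
theorem gw_exports (M : Rep (ZMod p) GQ) [FiniteDimensional (ZMod p) M]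
    (hsm : IsSmooth p M) (hp2 : p ≠ 2)
    (hC3 : ∀ Sg : Finset Nat.Primes, pPrime p ∈ Sg → IsUnramOutside p Sg M →
      HardP2 Sg (dualT p M))
    (hC4 : ∀ Sg : Finset Nat.Primes, pPrime p ∈ Sg → GlobChi p Sg) :
    ∃ P : LocPairing p M, GWLe M P ∧ DualSelMono M P :=
  ⟨gwPairing M hsm hp2, gwLe_gw M hsm hp2 hC3 hC4, dualSelMono_gw M hsm hp2⟩

end Fermat.Agent.ES.T56.GWFinal21
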