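/-
Programme T (S56, Taylor–Wiles primes), chapter GW (Greenberg–Wiles), brick 7 `BaseShapiro`
(helper22), part B3b: **the inflation dictionary**, representation side.  `N ◁ G_ℚ` a normal subgroup,
`G = G_ℚ ⧸ N`; for `Z : Rep (ZMod p) G`, `infl N Z = Rep.res (QuotientGroup.mk' N) Z`.

* `infl`, `infl_ρ`; `descend N X h : Rep (ZMod p) (G_ℚ ⧸ N)` for `X` trivial on `N` (same carrier),
  `inflDescendEquiv : infl N (descend N X h) ≃ₗ X` with `inflDescendEquiv_equivariant`;
* `infl_equivariant` (an equivariant iso of `G`-modules is one of the inflations), `shortExact_infl`;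
* `IsLevelGroup p Sg N` := `N = G_F` for some finite Galois `F ∋ ζ_p` unramified outside `Sg`;
  then `finite_quotient`, `isSmooth_infl`, `isUnramOutside_infl`, `cycloChar_eq_one_of_mem`;
* `exists_levelGroup`: a finite-dimensional smooth `X` unramified outside `Sg ∋ p` is trivial on
  some level group `N` (so `X ≅ infl N (descend N X _)`).
-/
import Mathlib
import Fermat.Agent.PT.BR.DualTwist7
import Fermat.Agent.PT.BR.Interface29
import Fermat.Agent.PT.BR.UnramBridge13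
import Fermat.Agent.ES.T56.GWIface21

set_option autoImplicit false

open Module ExtCitation

namespace Fermat.Agent.ES.T56.InflRep22

open Fermat.Agent.ES.T56.GWIface21 Fermat.Agent.PT.BR.Interface29

variable {p : ℕ} [Fact p.Prime]

/-! ### Inflation and descent -/

section Infl

variable (N : Subgroup GQ) [N.Normal]

/-- Inflation from `G_ℚ ⧸ N` to `G_ℚ`. -/
noncomputable abbrev infl (Z : Rep.{0} (ZMod p) (GQ ⧸ N)) : Rep.{0} (ZMod p) GQ :=
  Rep.res (QuotientGroup.mk' N) Z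

theorem infl_ρ (Z : Rep.{0} (ZMod p) (GQ ⧸ N)) (g : GQ) :
    (infl N Z).ρ g = Z.ρ (QuotientGroup.mk' N g) := rfl

/-- A representation of `G_ℚ` which is trivial on `N`, as a representation of `G_ℚ ⧸ N`. -/
noncomputable def descend (X : Rep.{0} (ZMod p) GQ) (h : ∀ s ∈ N, X.ρ s = 1) :
    Rep.{0} (ZMod p) (GQ ⧸ N) :=
  Rep.of (QuotientGroup.lift N (X.ρ : GQ →* (X →ₗ[ZMod p] X)) fun s hs => h s hs)

theorem descend_ρ_mk (X : Rep.{0} (ZMod p) GQ) (h : ∀ s ∈ N, X.ρ s = 1) (g : GQ) :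
    (descend N X h).ρ (QuotientGroup.mk' N g) = X.ρ g := rfl

/-- `infl (descend X) ≃ X` (the identity of the carrier). -/
noncomputable def inflDescendEquiv (X : Rep.{0} (ZMod p) GQ) (h : ∀ s ∈ N, X.ρ s = 1) :
    (infl N (descend N X h)) ≃ₗ[ZMod p] X :=
  LinearEquiv.refl _ _

theorem inflDescendEquiv_equivariant (X : Rep.{0} (ZMod p) GQ) (h : ∀ s ∈ N, X.ρ s = 1) (g : GQ)
    (x : infl N (descend N X h)) :
    inflDescendEquiv N X h ((infl N (descend N X h)).ρ g x) = X.ρ g (inflDescendEquiv N X h x) :=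
  rfl

theorem finiteDimensional_descend (X : Rep.{0} (ZMod p) GQ) (h : ∀ s ∈ N, X.ρ s = 1)
    [FiniteDimensional (ZMod p) X] : FiniteDimensional (ZMod p) (descend N X h) :=
  inferInstanceAs (FiniteDimensional (ZMod p) X)

theorem finiteDimensional_infl (Z : Rep.{0} (ZMod p) (GQ ⧸ N)) [FiniteDimensional (ZMod p) Z] :
    FiniteDimensional (ZMod p) (infl N Z) :=
  inferInstanceAs (FiniteDimensional (ZMod p) Z)

/-- An equivariant map of `G_ℚ ⧸ N`-modules is equivariant for the inflations. -/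
theorem infl_equivariant {Z Z' : Rep.{0} (ZMod p) (GQ ⧸ N)} (e : Z →ₗ[ZMod p] Z')
    (he : ∀ g z, e (Z.ρ g z) = Z'.ρ g (e z)) (g : GQ) (z : infl N Z) :
    e ((infl N Z).ρ g z) = (infl N Z').ρ g (e z) :=
  he (QuotientGroup.mk' N g) z

/-- Inflation preserves short exact sequences. -/
theorem shortExact_infl {Z' Z Z'' : Rep.{0} (ZMod p) (GQ ⧸ N)} {φ : Z' →ₗ[ZMod p] Z}
    {ψ : Z →ₗ[ZMod p] Z''} (h : ShortExact Z' Z Z'' φ ψ) :
    ShortExact (infl N Z') (infl N Z) (infl N Z'') φ ψ :=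
  ⟨fun g x => h.φ_comm (QuotientGroup.mk' N g) x, fun g x => h.ψ_comm (QuotientGroup.mk' N g) x,
    h.inj, h.surj, h.exact⟩

end Infl

/-! ### Level groups -/

/-- `N = G_F` for a finite Galois extension `F` of `ℚ`, unramified outside `Sg`, containing `ζ_p`. -/
def IsLevelGroup (p : ℕ) [Fact p.Prime] (Sg : Finset Nat.Primes) (N : Subgroup GQ) : Prop :=
  ∃ F : IntermediateField ℚ (AlgebraicClosure ℚ), IsGalois ℚ F ∧ F.IsUnramifiedOutside Sg ∧
    Fermat.Agent.S14.Fields.zeta p ∈ F ∧ N = F.fixingSubgroup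

section Level

variable {Sg : Finset Nat.Primes} {N : Subgroup GQ}

theorem IsLevelGroup.normal (hN : IsLevelGroup p Sg N) : N.Normal := by
  obtain ⟨F, hgal, -, -, rfl⟩ := hN
  exact normal_fixingSubgroup F hgal

theorem IsLevelGroup.finiteIndex (hN : IsLevelGroup p Sg N) : N.FiniteIndex := by
  obtain ⟨F, -, hun, -, rfl⟩ := hN
  have := hun.1
  exact finiteIndex_fixingSubgroup F

theorem IsLevelGroup.finite_quotient (hN : IsLevelGroup p Sg N) : Finite (GQ ⧸ N) := by
  have := hN.finiteIndex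
  exact Subgroup.finite_quotient_of_finiteIndex

theorem IsLevelGroup.cycloChar_eq_one (hN : IsLevelGroup p Sg N) {s : GQ} (hs : s ∈ N) :
    cycloChar p s = 1 := by
  obtain ⟨F, -, -, hζ, rfl⟩ := hN
  rw [Fermat.Agent.PT.BR.DualTwist7.cycloChar_eq_one_iff]
  exact (IntermediateField.mem_fixingSubgroup_iff F s).1 hs _ hζ

variable [N.Normal]

theorem IsLevelGroup.isSmooth_infl (hN : IsLevelGroup p Sg N) (Z : Rep.{0} (ZMod p) (GQ ⧸ N)) :
    IsSmooth p (infl N Z) := by
  obtain ⟨F, -, hun, -, rfl⟩ := hN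
  intro z
  refine ⟨F, hun.1, fun s hs => ?_⟩
  have h1 : QuotientGroup.mk' F.fixingSubgroup s = 1 := (QuotientGroup.eq_one_iff s).2 hs
  rw [infl_ρ, h1, map_one]
  rfl

theorem IsLevelGroup.isUnramOutside_infl (hN : IsLevelGroup p Sg N)
    (Z : Rep.{0} (ZMod p) (GQ ⧸ N)) : IsUnramOutside p Sg (infl N Z) := by
  obtain ⟨F, -, hun, -, rfl⟩ := hN
  intro q hq A hA g hg
  have h1 : QuotientGroup.mk' F.fixingSubgroup g = 1 :=
    (QuotientGroup.eq_one_iff g).2 (hun.2 q hq A hA hg)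
  rw [infl_ρ, h1, map_one]

end Level

/-- A finite-dimensional smooth representation unramified outside `Sg ∋ p` is trivial on a level
group. -/
theorem exists_levelGroup {Sg : Finset Nat.Primes} (hpS : pPrime p ∈ Sg)
    (X : Rep.{0} (ZMod p) GQ) [FiniteDimensional (ZMod p) X] (hsm : IsSmooth p X)
    (hur : IsUnramOutside p Sg X) :
    ∃ N : Subgroup GQ, IsLevelGroup p Sg N ∧ ∀ s ∈ N, X.ρ s = 1 := by
  obtain ⟨F₀, hF₀, h₀⟩ := Fermat.Agent.PT.BR.DualTwist7.exists_splitting_field X Sg hsm hur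
  have hF₁ : (F₀ ⊔ Fermat.Agent.S14.Fields.Kz p).IsUnramifiedOutside Sg :=
    hF₀.sup (Fermat.Agent.PT.BR.DualTwist7.isUnramifiedOutside_Kz p hpS)
  obtain ⟨F, hle, hgal, hun⟩ :=
    Fermat.Agent.PT.BR.UnramBridge13.exists_isGalois_isUnramifiedOutside hF₁
  refine ⟨F.fixingSubgroup, ⟨F, hgal, hun,
    hle (le_sup_right (a := F₀) (Fermat.Agent.S14.Fields.zeta_mem_Kz p)), rfl⟩, fun s hs => ?_⟩
  exact (h₀ s).1 (IntermediateField.fixingSubgroup_antitone (le_sup_left.trans hle) hs)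

end Fermat.Agent.ES.T56.InflRep22
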