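/-
Programme T (S56, Taylor–Wiles primes), chapter GW (Greenberg–Wiles), brick 7 `BaseShapiro`
(helper22), part B3c: **the inflation dictionary, base class**.  `N = G_F` a level group
(`InflRep22.IsLevelGroup p Sg N`), `G = G_ℚ ⧸ N`, `C ≤ G` cyclic, `N₀ : Rep (ZMod p) ↥C` finite
dimensional on which the elements of `p`-power order act trivially (the third hypothesis of
`GWIface21.KZeroLemma`).  Then `infl N (Rep.coind C.subtype N₀)` is the representation of a base
datum:

* `Ct = C.comap mk'`, `Pt` = preimage of (the image in `G` of) a Sylow `p`-subgroup `P` of `C`;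
  `K = (ℚ̄)^{Ct}`, `L = (ℚ̄)^{Pt}` (`fixingSubgroup_K`, `fixingSubgroup_L`: Galois correspondence for
  open subgroups);
* `baseDatumOf hN C N₀ htriv : BaseDatum Sg` (`Y` = `N₀` pulled back along `G_K = Ct → C`);
* `baseEquiv : infl N (Rep.coind C.subtype N₀) ≃ₗ[ZMod p] (baseDatumOf …).rep` (`f ↦ f ∘ mk'`) with
  `baseEquiv_equivariant`.
-/
import Mathlib
import Fermat.Agent.S14.Fields
import Fermat.Agent.ES.T56.InflRep22

set_option autoImplicit false

open Module ExtCitation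

namespace Fermat.Agent.ES.T56.InflBase22

open Fermat.Agent.ES.T56.GWIface21 Fermat.Agent.ES.T56.InflRep22 Fermat.Agent.S14.Fields

variable {p : ℕ} [Fact p.Prime] {Sg : Finset Nat.Primes}

section Groups

variable (N : Subgroup GQ) [N.Normal] (C : Subgroup (GQ ⧸ N))

/-- The preimage of `C` in `G_ℚ`. -/
noncomputable def Ct : Subgroup GQ := C.comap (QuotientGroup.mk' N)

/-- The preimage in `G_ℚ` of a subgroup `P` of `C`. -/
noncomputable def Pt (P : Subgroup ↥C) : Subgroup GQ := (P.map C.subtype).comap (QuotientGroup.mk' N)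

theorem le_Pt (P : Subgroup ↥C) : N ≤ Pt N C P := by
  intro s hs
  have h1 : QuotientGroup.mk' N s = 1 := (QuotientGroup.eq_one_iff s).2 hs
  show QuotientGroup.mk' N s ∈ P.map C.subtype
  rw [h1]
  exact (P.map C.subtype).one_mem

theorem Pt_le_Ct (P : Subgroup ↥C) : Pt N C P ≤ Ct N C := by
  intro s hs
  obtain ⟨x, -, hx⟩ := Subgroup.mem_map.1 (show QuotientGroup.mk' N s ∈ P.map C.subtype from hs)
  show QuotientGroup.mk' N s ∈ C
  rw [← hx]
  exact x.2

theorem mem_Pt_iff (P : Subgroup ↥C) (s : GQ) (hs : s ∈ Ct N C) :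
    s ∈ Pt N C P ↔ (⟨QuotientGroup.mk' N s, hs⟩ : ↥C) ∈ P := by
  constructor
  · intro h
    obtain ⟨x, hxP, hx⟩ := Subgroup.mem_map.1 (show QuotientGroup.mk' N s ∈ P.map C.subtype from h)
    have : x = ⟨QuotientGroup.mk' N s, hs⟩ := Subtype.ext hx
    rw [← this]
    exact hxP
  · intro h
    exact Subgroup.mem_map.2 ⟨_, h, rfl⟩

end Groups

variable {N : Subgroup GQ} [N.Normal]

theorem isOpen_of_le (hN : IsLevelGroup p Sg N) {H : Subgroup GQ} (h : N ≤ H) :
    IsOpen (H : Set GQ) := by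
  obtain ⟨F, -, hun, -, rfl⟩ := hN
  have := hun.1
  exact Subgroup.isOpen_mono h (IntermediateField.fixingSubgroup_isOpen F)

/-- The fixed field of a subgroup containing a level group is unramified outside `Sg`. -/
theorem isUnramifiedOutside_Lf (hN : IsLevelGroup p Sg N) {H : Subgroup GQ} (h : N ≤ H) :
    (Lf H).IsUnramifiedOutside Sg := by
  obtain ⟨F, -, hun, -, rfl⟩ := hN
  refine hun.of_le ?_
  have h1 : Lf H ≤ IntermediateField.fixedField F.fixingSubgroup :=
    IntermediateField.fixedField_antitone h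
  rwa [InfiniteGalois.fixedField_fixingSubgroup] at h1

/-- An element of `G_ℚ` whose image in `G_ℚ ⧸ N` has `p`-power order fixes `ζ_p`. -/
theorem cycloChar_eq_one_of_orderOf (hN : IsLevelGroup p Sg N) (s : GQ) (n : ℕ)
    (hs : (QuotientGroup.mk' N s) ^ (p ^ n) = 1) : cycloChar p s = 1 := by
  have h1 : s ^ (p ^ n) ∈ N := by
    rw [← QuotientGroup.eq_one_iff]
    exact hs
  have h2 : cycloChar p s ^ (p ^ n) = 1 := by
    rw [← map_pow]
    exact hN.cycloChar_eq_one h1
  have h3 : cycloChar p s ^ (p - 1) = 1 := ZMod.units_pow_card_sub_one_eq_one p _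
  have hp : p.Prime := Fact.out
  have hcop : Nat.Coprime (p ^ n) (p - 1) := by
    apply Nat.Coprime.pow_left
    rw [Nat.Prime.coprime_iff_not_dvd hp]
    intro h
    have h5 := hp.two_le
    have := Nat.le_of_dvd (by omega) h
    omega
  have h4 : orderOf (cycloChar p s) ∣ Nat.gcd (p ^ n) (p - 1) :=
    Nat.dvd_gcd (orderOf_dvd_of_pow_eq_one h2) (orderOf_dvd_of_pow_eq_one h3)
  rw [hcop, Nat.dvd_one] at h4
  exact orderOf_eq_one_iff.1 h4


/-! ### The fields and the base datum -/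

section Datum

variable (hN : IsLevelGroup p Sg N) (C : Subgroup (GQ ⧸ N))

theorem le_Ct : N ≤ Ct N C := fun s hs => by
  have h1 : QuotientGroup.mk' N s = 1 := (QuotientGroup.eq_one_iff s).2 hs
  show QuotientGroup.mk' N s ∈ C
  rw [h1]
  exact C.one_mem

variable (p) in
/-- The chosen Sylow `p`-subgroup of `C`. -/
noncomputable def sylowC : Sylow p ↥C := Classical.choice Sylow.nonempty

/-- `K = ℚ̄^{Ct}`. -/
noncomputable def fieldK : IntermediateField ℚ (AlgebraicClosure ℚ) := Lf (Ct N C)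

variable (p) in
/-- `L = ℚ̄^{Pt}`. -/
noncomputable def fieldL : IntermediateField ℚ (AlgebraicClosure ℚ) :=
  Lf (Pt N C (sylowC p C : Subgroup ↥C))

include hN in
theorem fixingSubgroup_K : (fieldK C).fixingSubgroup = Ct N C :=
  fixingSubgroup_Lf _ (isOpen_of_le hN (le_Ct C))

include hN in
theorem fixingSubgroup_L :
    (fieldL p C).fixingSubgroup = Pt N C (sylowC p C : Subgroup ↥C) :=
  fixingSubgroup_Lf _ (isOpen_of_le hN (le_Pt N C _))

/-- The restriction of `mk'` to `G_K → C`. -/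
noncomputable def toC : ↥(fieldK C).fixingSubgroup →* ↥C where
  toFun s := ⟨QuotientGroup.mk' N (s : GQ), (fixingSubgroup_K hN C).le s.2⟩
  map_one' := Subtype.ext (map_one _)
  map_mul' _ _ := Subtype.ext (map_mul _ _ _)

theorem coe_toC (s : ↥(fieldK C).fixingSubgroup) :
    ((toC hN C s : ↥C) : GQ ⧸ N) = QuotientGroup.mk' N (s : GQ) := rfl

theorem toC_surjective : Function.Surjective (toC hN C) := by
  intro c
  obtain ⟨s, hs⟩ := QuotientGroup.mk'_surjective N (c : GQ ⧸ N)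
  have hsK : s ∈ (fieldK C).fixingSubgroup := by
    rw [fixingSubgroup_K hN C]
    show QuotientGroup.mk' N s ∈ C
    rw [hs]
    exact c.2
  exact ⟨⟨s, hsK⟩, Subtype.ext hs⟩

theorem toC_mem_sylow_iff (s : ↥(fieldK C).fixingSubgroup) :
    toC hN C s ∈ (sylowC p C : Subgroup ↥C) ↔ (s : GQ) ∈ (fieldL p C).fixingSubgroup := by
  rw [fixingSubgroup_L hN C]
  have hs : (s : GQ) ∈ Ct N C := (fixingSubgroup_K hN C).le s.2
  exact (mem_Pt_iff N C _ (s : GQ) hs).symm

omit [Fact (Nat.Prime p)] in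
/-- Elements of the Sylow subgroup have `p`-power order. -/
theorem exists_pow_eq_one_of_mem_sylow {c : ↥C} (hc : c ∈ (sylowC p C : Subgroup ↥C)) :
    ∃ n : ℕ, c ^ (p ^ n) = 1 := by
  obtain ⟨n, hn⟩ := (sylowC p C).2 ⟨c, hc⟩
  exact ⟨n, congrArg Subtype.val hn⟩

variable [IsCyclic ↥C] (N₀ : Rep.{0} (ZMod p) ↥C) [FiniteDimensional (ZMod p) N₀]
  (htriv : ∀ c : ↥C, (∃ n : ℕ, orderOf c = p ^ n) → N₀.ρ c = 1)

/-- **The base datum of `infl N (Coind_C^G N₀)`.** -/
noncomputable def baseDatumOf : BaseDatum (p := p) Sg where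
  K := fieldK C
  L := fieldL p C
  le := IntermediateField.fixedField_antitone (Pt_le_Ct N C _)
  unram := isUnramifiedOutside_Lf hN (le_Pt N C _)
  zeta := by
    refine ⟨zeta p, ?_, zeta_spec p⟩
    refine (IntermediateField.mem_fixedField_iff _ _).2 fun σ hσ => ?_
    obtain ⟨x, hxP, hx⟩ := Subgroup.mem_map.1
      (show QuotientGroup.mk' N σ ∈ (sylowC p C : Subgroup ↥C).map C.subtype from hσ)
    obtain ⟨n, hn⟩ := exists_pow_eq_one_of_mem_sylow C hxP
    rw [← Fermat.Agent.PT.BR.DualTwist7.cycloChar_eq_one_iff]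
    refine cycloChar_eq_one_of_orderOf hN σ n ?_
    rw [← hx]
    exact congrArg Subtype.val hn
  normal := by
    refine ⟨fun s hs t => ?_⟩
    rw [Subgroup.mem_subgroupOf] at hs ⊢
    rw [← toC_mem_sylow_iff hN C] at hs ⊢
    let _ : CommGroup ↥C := IsCyclic.commGroup
    rw [map_mul, map_mul, map_inv, mul_comm, inv_mul_cancel_left]
    exact hs
  cyclic := by
    have : Finite (GQ ⧸ N) := hN.finite_quotient
    obtain ⟨c₀, hc₀⟩ := IsCyclic.exists_monoid_generator (α := ↥C)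
    obtain ⟨σ, hσ⟩ := toC_surjective hN C c₀
    refine ⟨σ, σ.2, fun τ hτ => ?_⟩
    obtain ⟨n, hn⟩ := hc₀ (toC hN C ⟨τ, hτ⟩)
    refine ⟨n, ?_⟩
    have h1 : toC hN C (σ ^ n * (⟨τ, hτ⟩ : ↥(fieldK C).fixingSubgroup)⁻¹) = 1 := by
      rw [map_mul, map_pow, map_inv, hσ]
      exact mul_inv_eq_one.2 hn
    have h2 := (toC_mem_sylow_iff hN C (σ ^ n * (⟨τ, hτ⟩ : ↥(fieldK C).fixingSubgroup)⁻¹)).1
      (by rw [h1]; exact Subgroup.one_mem _)
    exact h2
  prime_to_p := by
    have : Finite (GQ ⧸ N) := hN.finite_quotient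
    have h1 : (fieldL p C).fixingSubgroup.subgroupOf (fieldK C).fixingSubgroup =
        (sylowC p C : Subgroup ↥C).comap (toC hN C) := by
      ext s
      rw [Subgroup.mem_subgroupOf, Subgroup.mem_comap, toC_mem_sylow_iff hN C]
    rw [h1, Subgroup.index_comap_of_surjective _ (toC_surjective hN C)]
    exact Sylow.not_dvd_index _
  Y := Rep.res (toC hN C) N₀
  fd := inferInstanceAs (FiniteDimensional (ZMod p) N₀)
  triv := fun s hs => by
    have h1 : toC hN C s ∈ (sylowC p C : Subgroup ↥C) := (toC_mem_sylow_iff hN C s).2 hs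
    obtain ⟨n, hn⟩ := exists_pow_eq_one_of_mem_sylow C h1
    obtain ⟨k, -, hk⟩ := (Nat.dvd_prime_pow (Fact.out : p.Prime)).1 (orderOf_dvd_of_pow_eq_one hn)
    exact htriv (toC hN C s) ⟨k, hk⟩

theorem baseDatumOf_Y : (baseDatumOf hN C N₀ htriv).Y = Rep.res (toC hN C) N₀ := rfl

omit [IsCyclic ↥C] [FiniteDimensional (ZMod p) ↑N₀] in
/-- Elements of `N`, as elements of `G_K`, act trivially on `Y`. -/
theorem rho_toC_eq_one (s : ↥(fieldK C).fixingSubgroup) (hs : (s : GQ) ∈ N) :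
    N₀.ρ (toC hN C s) = 1 := by
  have h1 : toC hN C s = 1 := Subtype.ext ((QuotientGroup.eq_one_iff (s : GQ)).2 hs)
  rw [h1, map_one]

omit [IsCyclic ↥C] [FiniteDimensional (ZMod p) ↑N₀] in
/-- A function of the coinduced module `Coind_{G_K}^{G_ℚ} Y` is right `N`-invariant. -/
theorem coind_right_invariant
    (f : Rep.coind (fieldK C).fixingSubgroup.subtype (Rep.res (toC hN C) N₀)) (a b : GQ)
    (hab : QuotientGroup.mk' N a = QuotientGroup.mk' N b) : f.1 a = f.1 b := by
  have hn : b * a⁻¹ ∈ N := by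
    rw [← QuotientGroup.eq_one_iff]
    have : QuotientGroup.mk' N (b * a⁻¹) = 1 := by rw [map_mul, map_inv, hab, mul_inv_cancel]
    exact this
  have hK : b * a⁻¹ ∈ (fieldK C).fixingSubgroup := by
    rw [fixingSubgroup_K hN C]
    exact le_Ct C hn
  have h1 := f.2 ⟨b * a⁻¹, hK⟩ a
  have h2 : (fieldK C).fixingSubgroup.subtype ⟨b * a⁻¹, hK⟩ * a = b := by
    show b * a⁻¹ * a = b
    rw [inv_mul_cancel_right]
  rw [h2] at h1
  rw [h1]
  show f.1 a = N₀.ρ (toC hN C ⟨b * a⁻¹, hK⟩) (f.1 a)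
  rw [rho_toC_eq_one hN C N₀ ⟨b * a⁻¹, hK⟩ hn]
  rfl

/-- **`infl N (Coind_C^G N₀) ≃ Coind_{G_K}^{G_ℚ} Y`**, `f ↦ f ∘ mk'`. -/
noncomputable def baseEquiv :
    (infl N (Rep.coind C.subtype N₀)) ≃ₗ[ZMod p] ((baseDatumOf hN C N₀ htriv).rep) where
  toFun f := ⟨fun g => f.1 (QuotientGroup.mk' N g), fun s g => by
    show f.1 (QuotientGroup.mk' N ((s : GQ) * g)) = N₀.ρ (toC hN C s) (f.1 (QuotientGroup.mk' N g))
    rw [map_mul]
    exact f.2 (toC hN C s) (QuotientGroup.mk' N g)⟩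
  map_add' _ _ := rfl
  map_smul' _ _ := rfl
  invFun F := ⟨fun x => F.1 (Quotient.out x), fun c x => by
    obtain ⟨s, rfl⟩ := toC_surjective hN C c
    show F.1 (Quotient.out ((toC hN C s : GQ ⧸ N) * x)) =
      N₀.ρ (toC hN C s) (F.1 (Quotient.out x))
    have h1 : F.1 ((s : GQ) * Quotient.out x) = N₀.ρ (toC hN C s) (F.1 (Quotient.out x)) :=
      F.2 s (Quotient.out x)
    rw [← h1]
    apply coind_right_invariant hN C N₀ F
    rw [map_mul]
    show ((Quotient.out ((toC hN C s : GQ ⧸ N) * x) : GQ) : GQ ⧸ N) =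
      QuotientGroup.mk' N (s : GQ) * ((Quotient.out x : GQ) : GQ ⧸ N)
    rw [QuotientGroup.out_eq', QuotientGroup.out_eq']
    rfl⟩
  left_inv f := by
    apply Subtype.ext
    funext x
    show f.1 (QuotientGroup.mk' N (Quotient.out x)) = f.1 x
    exact congrArg f.1 (QuotientGroup.out_eq' x)
  right_inv F := by
    apply Subtype.ext
    funext g
    show F.1 (Quotient.out (QuotientGroup.mk' N g)) = F.1 g
    apply coind_right_invariant hN C N₀ F
    exact QuotientGroup.out_eq' _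

theorem baseEquiv_apply (f : infl N (Rep.coind C.subtype N₀)) (g : GQ) :
    (baseEquiv hN C N₀ htriv f).1 g = f.1 (QuotientGroup.mk' N g) := rfl

theorem baseEquiv_equivariant (g : GQ) (f : infl N (Rep.coind C.subtype N₀)) :
    baseEquiv hN C N₀ htriv ((infl N (Rep.coind C.subtype N₀)).ρ g f) =
      (baseDatumOf hN C N₀ htriv).rep.ρ g (baseEquiv hN C N₀ htriv f) := by
  apply Subtype.ext
  funext x
  show f.1 (QuotientGroup.mk' N x * QuotientGroup.mk' N g) = f.1 (QuotientGroup.mk' N (x * g))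
  rw [map_mul]

end Datum

end Fermat.Agent.ES.T56.InflBase22
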