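/-
Programme T (S56), chapter GW, helper21: **the final dévissage for C4** (`GWIface21.GlobChi`).

  `globChi_of : EulerAdditive Sg → KZeroLemma p → (finiteness of H²_S) →
      (∀ D : BaseDatum Sg, GlobalChi Sg D.rep) → GlobChi p Sg`     (`p` odd, `p ∈ Sg`).

Proof (helper22's inflation dictionary `InflRep22`/`InflBase22`/`GWNumIso22`/`H0cDual22`, helper28's
`K₀`-lemma in the contract shape `GWIface21.KZeroLemma`).  Let `X` be finite-dimensional, smooth,
unramified outside `Sg`.  It is trivial on a level group `N = G_F` (`exists_levelGroup`), so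
`X = infl N Z` with `Z = descend N X _` a representation of the FINITE group `G = G_ℚ ⧸ N`.  The defect
`δ(Z) = (h¹_S + h⁰_c) − (h⁰ + h²_S + dim)` of `infl N Z`, as an integer, is
* invariant under equivariant isomorphisms (`GWNumIso22`),
* additive on short exact sequences (`EulerAdditive` on `shortExact_infl`; `dim` and `h⁰_c` are
  additive, `H0cDual22`),
* zero on `Coind_C^G N₀`, `C` cyclic with trivial action of the `p`-part
  (`infl N (Coind_C^G N₀) ≅ D.rep` for the base datum `D = baseDatumOf …`, `InflBase22.baseEquiv`).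
By the `K₀`-lemma `δ ≡ 0`.
-/
import Mathlib
import Fermat.Agent.ES.T56.GWIface21
import Fermat.Agent.ES.T56.GWNumIso22
import Fermat.Agent.ES.T56.InflRep22
import Fermat.Agent.ES.T56.InflBase22
import Fermat.Agent.ES.T56.H0cDual22

set_option autoImplicit false

open Module ExtCitation groupCohomology

namespace Fermat.Agent.ES.T56.GlobChiOf21

open Fermat.Agent.ES.T56.GWIface21 Fermat.Agent.ES.T56.InflRep22 Fermat.Agent.ES.T56.InflBase22

variable {p : ℕ} [Fact p.Prime]

/-- The defect of Tate's global Euler characteristic formula, as an integer: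
`(h¹(G_S,X) + h⁰(⟨c⟩,X)) − (h⁰(G_ℚ,X) + h²(G_S,X) + dim X)`. -/
noncomputable def defect (Sg : Finset Nat.Primes) (X : Rep.{0} (ZMod p) GQ) : ℤ :=
  ((h1S p Sg X : ℤ) + (h0c p X : ℤ)) -
    ((h0 p X : ℤ) + (h2S p Sg X : ℤ) + (finrank (ZMod p) X : ℤ))

theorem defect_eq_zero_iff (Sg : Finset Nat.Primes) (X : Rep.{0} (ZMod p) GQ) :
    defect Sg X = 0 ↔ h1S p Sg X + h0c p X = h0 p X + h2S p Sg X + finrank (ZMod p) X := by
  unfold defect
  omega

/-- The defect is invariant under equivariant isomorphisms. -/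
theorem defect_congr (Sg : Finset Nat.Primes) {X X' : Rep.{0} (ZMod p) GQ} (e : X ≃ₗ[ZMod p] X')
    (he : ∀ g x, e (X.ρ g x) = X'.ρ g (e x)) : defect Sg X = defect Sg X' := by
  unfold defect
  rw [GWNumIso22.h1S_congr e he Sg, GWNumIso22.h2S_congr e he Sg, GWNumIso22.h0c_congr e he,
    GWNumIso22.h0_congr e he, GWNumIso22.finrank_congr e]

/-- The defect is additive on short exact sequences, given `EulerAdditive`. -/
theorem defect_add (hp2 : p ≠ 2) {Sg : Finset Nat.Primes} (hEA : EulerAdditive (p := p) Sg)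
    {X' X X'' : Rep.{0} (ZMod p) GQ} {φ : X' →ₗ[ZMod p] X} {ψ : X →ₗ[ZMod p] X''}
    [FiniteDimensional (ZMod p) X] (hsm : IsSmooth p X) (hur : IsUnramOutside p Sg X)
    (h : ShortExact X' X X'' φ ψ) : defect Sg X = defect Sg X' + defect Sg X'' := by
  have h1 := hEA X' X X'' φ ψ inferInstance hsm hur h
  have h2 := H0cDual22.finrank_add_of_shortExact h
  have h3 := H0cDual22.h0c_add_of_shortExact hp2 h
  unfold defect
  omega

/-- **C4 from the chain**: `EulerAdditive` + the `K₀`-lemma + finiteness of `H²_S` + Tate's formula on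
the base class `𝔅` give Tate's formula for every finite-dimensional smooth `X` unramified outside
`Sg`. -/
theorem globChi_of (hp2 : p ≠ 2) {Sg : Finset Nat.Primes} (hpS : pPrime p ∈ Sg)
    (hEA : EulerAdditive (p := p) Sg) (hK : KZeroLemma p)
    (hfin1 : ∀ X : Rep.{0} (ZMod p) GQ, FiniteDimensional (ZMod p) X → IsSmooth p X →
      IsUnramOutside p Sg X → FiniteDimensional (ZMod p) ↥(continuousH1S Sg X))
    (hfin2 : ∀ X : Rep.{0} (ZMod p) GQ, FiniteDimensional (ZMod p) X → IsSmooth p X →
      IsUnramOutside p Sg X → FiniteDimensional (ZMod p) (continuousH2S Sg X))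
    (hbase : ∀ D : BaseDatum (p := p) Sg, GlobalChi Sg D.rep) : GlobChi p Sg := by
  intro X hX hsm hur
  refine ⟨hfin1 X hX hsm hur, hfin2 X hX hsm hur, ?_⟩
  obtain ⟨N, hN, hXN⟩ := exists_levelGroup hpS X hsm hur
  have : N.Normal := hN.normal
  have : Finite (GQ ⧸ N) := hN.finite_quotient
  -- the defect of the inflation, as a function on representations of `G_ℚ ⧸ N`
  have key : ∀ Z : Rep.{0} (ZMod p) (GQ ⧸ N), FiniteDimensional (ZMod p) Z →
      defect Sg (infl N Z) = 0 := by
    refine hK (GQ ⧸ N) (fun Z => defect Sg (infl N Z)) ?_ ?_ ?_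
    · intro Z Z' e he
      exact defect_congr Sg e (fun g z => infl_equivariant N (e : Z →ₗ[ZMod p] Z') he g z)
    · intro Z' Z Z'' φ ψ hZ hex
      have : FiniteDimensional (ZMod p) (infl N Z) := finiteDimensional_infl N Z
      exact defect_add hp2 hEA (hN.isSmooth_infl Z) (hN.isUnramOutside_infl Z)
        (shortExact_infl N hex)
    · intro C hC N₀ hN₀ htriv
      have := hC
      have := hN₀
      rw [defect_congr Sg (baseEquiv hN C N₀ htriv) (baseEquiv_equivariant hN C N₀ htriv),
        defect_eq_zero_iff]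
      exact (hbase (baseDatumOf hN C N₀ htriv)).2.2
  have h0 := key (descend N X hXN) (finiteDimensional_descend N X hXN)
  rw [defect_congr Sg (inflDescendEquiv N X hXN) (inflDescendEquiv_equivariant N X hXN),
    defect_eq_zero_iff] at h0
  exact h0

end Fermat.Agent.ES.T56.GlobChiOf21
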