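/-
Programme T (S56), chapter GW-D, leaf KZero (helper28).

`KZeroMain28`: **the `K₀`-lemma** (`KZeroIface28.KZeroLemma`).  An additive invariant `F` of finite
`𝔽_p[G]`-modules that vanishes on `Coind_C^G N` for `C` cyclic with `p`-part acting trivially on `N`
vanishes identically.

Proof.  Fix `X` and put `Φ(U) := F(U → X)` for finite `G`-sets `U`.  Artin (`ArtinList28`):
`ℚ[|G|·pt ⊔ ⨆ G/Bm i] ≅ ℚ[⨆ G/Bp i]` with all `B` cyclic; Brauer–Nesbitt (`PermDual28`,
`BNChain28`): `Φ` of the two `G`-sets agree; additivity: `|G|·F(X) + Σ Φ(G/Bm i) = Σ Φ(G/Bp i)`;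
`Φ(G/C) = F(Coind_C^G Res X) = 0` for cyclic `C` by dévissage (`CoindFilt28`); `ℤ` is torsion-free.
-/
import Mathlib
import Fermat.Agent.ES.T56.KZeroIface28
import Fermat.Agent.ES.T56.ArtinList28
import Fermat.Agent.ES.T56.PermDual28
import Fermat.Agent.ES.T56.CoindFilt28

set_option autoImplicit false

namespace Fermat.Agent.ES.T56.KZeroMain28

open Representation Fermat.Agent.ES.T56.KZeroIface28 Fermat.Agent.ES.T56.ArtinList28
  Fermat.Agent.ES.T56.PermDual28 Fermat.Agent.ES.T56.CoindFilt28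

/-- **The `K₀`-lemma.** -/
theorem kzero (p : ℕ) [Fact p.Prime] (G : Type) [Group G] [Finite G] : KZeroLemma p G := by
  intro F hF X _ _ _ ρ
  classical
  obtain ⟨ιp, ιm, hp, hm, Bp, Bm, hBp, hBm, hiso⟩ := artin_permRep G
  have : Fintype G := Fintype.ofFinite G
  have hcyc : ∀ C : Subgroup G, IsCyclic C → Phi ρ F (G ⧸ C) = 0 := by
    intro C hC
    rw [Phi_quotient_eq_coind]
    exact F_coind_eq_zero F hF C hC (Nat.card X) X _ le_rfl
  have htop : Phi ρ F (G ⧸ (⊤ : Subgroup G)) = F.f X ρ := by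
    have hs : Subsingleton (G ⧸ (⊤ : Subgroup G)) := QuotientGroup.subsingleton_quotient_top
    let _ : Unique (G ⧸ (⊤ : Subgroup G)) := uniqueOfSubsingleton ((1 : G) : G ⧸ (⊤ : Subgroup G))
    exact Phi_unique ρ F _
  have h1 := Phi_eq_of_repIso ρ F _ _ hiso
  rw [Phi_sigma, Phi_sigma, Fintype.sum_sum_type] at h1
  have h2 : (∑ _x : G, Phi ρ F (G ⧸ (⊤ : Subgroup G))) + ∑ i : ιm, Phi ρ F (G ⧸ Bm i) =
      ∑ i : ιp, Phi ρ F (G ⧸ Bp i) := h1
  rw [Finset.sum_congr rfl (fun i _ => hcyc (Bm i) (hBm i)),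
    Finset.sum_congr rfl (fun i _ => hcyc (Bp i) (hBp i)), htop] at h2
  simp only [Finset.sum_const, Finset.card_univ, smul_zero, add_zero, nsmul_eq_mul] at h2
  have hG : (Fintype.card G : ℤ) ≠ 0 := by exact_mod_cast Fintype.card_ne_zero
  exact (mul_eq_zero.1 h2).resolve_left hG

end Fermat.Agent.ES.T56.KZeroMain28
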