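/-
Programme T (S56), chapter GW-D, leaf KZero (helper28).

`KZeroBridge28`: the `K₀`-lemma in the shape of the GW contract, `GWIface21.KZeroLemma p`
(functions on `Rep.{0} (ZMod p) G`), from `KZeroMain28.kzero` (unbundled representations).
Bridge: `F.f V ρ := f (Rep.of ρ)`.
-/
import Mathlib
import Fermat.Agent.ES.T56.GWIface21
import Fermat.Agent.ES.T56.KZeroIface28
import Fermat.Agent.ES.T56.KZeroMain28

set_option autoImplicit false

namespace Fermat.Agent.ES.T56.KZeroBridge28

open Representation Fermat.Agent.ES.T56.KZeroIface28 Fermat.Agent.ES.T56.GWIface21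

/-- **The `K₀`-lemma, GW-contract form.** -/
theorem kZeroLemma (p : ℕ) [Fact p.Prime] : GWIface21.KZeroLemma p := by
  intro G _ _ f _hiso hadd hvan X hX
  let F : AddInv p G :=
    { f := fun V _ _ _ ρ => f (Rep.of ρ)
      add := by
        intro V' V V'' _ _ _ _ _ _ _ _ _ ρ' ρ ρ'' i q hi hq hex ei eq
        refine hadd (Rep.of ρ') (Rep.of ρ) (Rep.of ρ'') i q
          (Module.Finite.of_finite) ⟨ei, eq, hi, hq, ?_⟩
        exact (LinearMap.exact_iff.1 hex).symm }
  have hF : VanishesOnCyclic F := by
    intro C hC N _ _ _ σ hσ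
    exact hvan C hC (Rep.of σ) (Module.Finite.of_finite) hσ
  have hfin : Finite X := Module.finite_of_finite (ZMod p)
  exact KZeroMain28.kzero p G F hF X X.ρ

end Fermat.Agent.ES.T56.KZeroBridge28
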