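/-
Programme T (S56), chapter GW, helper21: **THE GW CHAIN, ASSEMBLED** — from the six open leaf
statements (all frozen literals of `GWIface21` / `GWProps21` / `BaseLocChiOfLe8`) to the single export
that TOP consumes:

  `gw_rest_of … : ∃ P : LocPairing p M, GWLe M P ∧ DualSelMono M P`.

Leaves (each for `p` odd):
* `hFin` : `FinAll Sg Y`                    (finiteness of `H¹_S, H²_S, H¹(G_q), H²(G_q)`; helper6 `FinAll6`)
* `hP2`  : `P2Eq Sg Y`                      (the `P²` count; helper25 `P2Count25`)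
* `hLD`  : `LocDual20 q Y`                  (local `(2,0)` duality, numerically; helper2)
* `hRE`  : `LocH2RightExact q`              (local `H²` is right exact; helper2)
* `hGE`  : `BaseCaseGE Sg`                  (`T56_BASE28.md`, bricks K1–K7)
* `hLeT` : `BaseLocChiLeTriv Sg`            (one-sided local Euler characteristic, ONLY for base data with
                                              `K = L` and TRIVIAL coefficients; helper11)

Chain: `NineTermAsm25.nineTermCount_of` ⇒ `EulerSuperAdd6.eulerAdditive_of` ⇒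
`BaseTrivTrick21.globalChi_base_of_triv` (direct-summand trick: the twisted local count is NOT needed)
⇒ `GlobChiOf21.globChi_of` (with `KZeroBridge28.kZeroLemma`) = C4;
`GWProps21.hardP2_of` = C3; `GWFinal21.gw_exports`.
-/
import Mathlib
import Fermat.Agent.ES.T56.GWIface21
import Fermat.Agent.ES.T56.GWProps21
import Fermat.Agent.ES.T56.ShaCount21
import Fermat.Agent.ES.T56.GwLeAsm25
import Fermat.Agent.ES.T56.GWFinal21
import Fermat.Agent.ES.T56.GlobChiOf21
import Fermat.Agent.ES.T56.NineTermAsm25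
import Fermat.Agent.ES.T56.EulerSuperAdd6
import Fermat.Agent.ES.T56.KZeroBridge28
import Fermat.Agent.ES.T56.BaseShapiro22
import Fermat.Agent.ES.T56.CoindMackey22
import Fermat.Agent.ES.T56.BaseLocChiOfLe8
import Fermat.Agent.ES.T56.BaseLocChiFinal8
import Fermat.Agent.ES.T56.BaseTrivTrick21
import Fermat.Agent.PT.BR.DualTwist7
import Fermat.Agent.PT.BR.Interface29

set_option autoImplicit false

open CategoryTheory Module groupCohomology ExtCitation

namespace Fermat.Agent.ES.T56.GWChain21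

open Fermat.Agent.ES.T56.GWIface21 Fermat.Agent.ES.T56.GWProps21
open Fermat.Agent.ES.T56.BaseLocChiOfLe8 Fermat.Agent.ES.T56.BaseTrivTrick21
open Fermat.Agent.PT.BR.DualTwist7 Fermat.Agent.PT.BR.Interface29
open Fermat.Agent.PT.PRO

variable {p : ℕ} [Fact p.Prime]

/-! ### The chain -/

section Chain

variable (hp2 : p ≠ 2) {Sg : Finset Nat.Primes} (hpS : pPrime p ∈ Sg)

include hp2 hpS

/-- `NineTermCount` for every `Y`, from `P2Eq` (for every `Y`) and `LocDual20`. -/
theorem nineTermCount_all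
    (hP2 : ∀ Y : Rep.{0} (ZMod p) GQ, FiniteDimensional (ZMod p) Y → IsSmooth p Y →
      IsUnramOutside p Sg Y → P2Eq Sg Y)
    (hLD : ∀ (q : Nat.Primes) (Y : Rep.{0} (ZMod p) GQ), FiniteDimensional (ZMod p) Y →
      IsSmooth p Y → LocDual20 q Y)
    (Y : Rep.{0} (ZMod p) GQ) (hY : FiniteDimensional (ZMod p) Y) (hsm : IsSmooth p Y)
    (hur : IsUnramOutside p Sg Y) : NineTermCount Sg Y :=
  NineTermAsm25.nineTermCount_of hp2 Sg hpS Y hsm hur (hP2 Y hY hsm hur)
    (hP2 (dualT p Y) inferInstance (smooth_dualTwist Y hsm) (unram_dualTwist Y hpS hur))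
    (fun q => hLD q.1 Y hY hsm)

/-- **C4** from the leaves. -/
theorem globChi_of_leaves
    (hFin : ∀ Y : Rep.{0} (ZMod p) GQ, FiniteDimensional (ZMod p) Y → IsSmooth p Y →
      IsUnramOutside p Sg Y → FinAll Sg Y)
    (hP2 : ∀ Y : Rep.{0} (ZMod p) GQ, FiniteDimensional (ZMod p) Y → IsSmooth p Y →
      IsUnramOutside p Sg Y → P2Eq Sg Y)
    (hLD : ∀ (q : Nat.Primes) (Y : Rep.{0} (ZMod p) GQ), FiniteDimensional (ZMod p) Y →
      IsSmooth p Y → LocDual20 q Y)
    (hRE : ∀ q : Nat.Primes, LocH2RightExact (p := p) q)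
    (hGE : BaseCaseGE (p := p) Sg) (hLeT : BaseLocChiLeTriv (p := p) Sg) : GlobChi p Sg := by
  have hN := nineTermCount_all hp2 hpS hP2 hLD
  have hEA : EulerAdditive (p := p) Sg :=
    EulerSuperAdd6.eulerAdditive_of Sg hpS hFin hN (fun q => hRE q.1)
  refine GlobChiOf21.globChi_of hp2 hpS hEA (KZeroBridge28.kZeroLemma p)
    (fun Y hY hsm hur => (hFin Y hY hsm hur).h1S) (fun Y hY hsm hur => (hFin Y hY hsm hur).h2S) ?_
  intro D
  exact globalChi_base_of_triv hp2 hEA hGE
    (fun D' => hN D'.rep (CoindMackey22.finiteDimensional_rep D') (isSmooth_rep D')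
      (isUnramOutside_rep D')) hLeT D

omit hp2 in
/-- **C3** from the leaves, for `X = dualT p M`. -/
theorem hardP2_of_leaves
    (hFin : ∀ Y : Rep.{0} (ZMod p) GQ, FiniteDimensional (ZMod p) Y → IsSmooth p Y →
      IsUnramOutside p Sg Y → FinAll Sg Y)
    (hP2 : ∀ Y : Rep.{0} (ZMod p) GQ, FiniteDimensional (ZMod p) Y → IsSmooth p Y →
      IsUnramOutside p Sg Y → P2Eq Sg Y)
    (hLD : ∀ (q : Nat.Primes) (Y : Rep.{0} (ZMod p) GQ), FiniteDimensional (ZMod p) Y →
      IsSmooth p Y → LocDual20 q Y)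
    (M : Rep.{0} (ZMod p) GQ) [FiniteDimensional (ZMod p) M] (hsm : IsSmooth p M)
    (hur : IsUnramOutside p Sg M) : HardP2 Sg (dualT p M) := by
  have hsmN := smooth_dualTwist M hsm
  have hurN := unram_dualTwist M hpS hur
  refine hardP2_of Sg (dualT p M) (hFin (dualT p M) inferInstance hsmN hurN).h2S
    (hP2 (dualT p M) inferInstance hsmN hurN) (fun q => ?_)
  show h0loc p q.1 (dualT p (dualT p M)) ≤ h2loc p q.1 (dualT p M)
  rw [GwLeAsm25.h0loc_ddual q.1 M]
  exact (hLD q.1 M inferInstance hsm).ge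

end Chain

/-- **THE GW EXPORT FOR TOP**, from the six leaves. -/
theorem gw_rest_of (hp2 : p ≠ 2)
    (hFin : ∀ Sg : Finset Nat.Primes, pPrime p ∈ Sg → ∀ Y : Rep.{0} (ZMod p) GQ,
      FiniteDimensional (ZMod p) Y → IsSmooth p Y → IsUnramOutside p Sg Y → FinAll Sg Y)
    (hP2 : ∀ Sg : Finset Nat.Primes, pPrime p ∈ Sg → ∀ Y : Rep.{0} (ZMod p) GQ,
      FiniteDimensional (ZMod p) Y → IsSmooth p Y → IsUnramOutside p Sg Y → P2Eq Sg Y)
    (hLD : ∀ (q : Nat.Primes) (Y : Rep.{0} (ZMod p) GQ), FiniteDimensional (ZMod p) Y →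
      IsSmooth p Y → LocDual20 q Y)
    (hRE : ∀ q : Nat.Primes, LocH2RightExact (p := p) q)
    (hGE : ∀ Sg : Finset Nat.Primes, pPrime p ∈ Sg → BaseCaseGE (p := p) Sg)
    (hLeT : ∀ Sg : Finset Nat.Primes, pPrime p ∈ Sg → BaseLocChiLeTriv (p := p) Sg)
    (M : Rep.{0} (ZMod p) GQ) [FiniteDimensional (ZMod p) M] (hsm : IsSmooth p M) :
    ∃ P : LocPairing p M, GWLe M P ∧ DualSelMono M P :=
  GWFinal21.gw_exports M hsm hp2
    (fun Sg hpS hur => hardP2_of_leaves hpS (hFin Sg hpS) (hP2 Sg hpS) hLD M hsm hur)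
    (fun Sg hpS => globChi_of_leaves hp2 hpS (hFin Sg hpS) (hP2 Sg hpS) hLD hRE (hGE Sg hpS)
      (hLeT Sg hpS))

end Fermat.Agent.ES.T56.GWChain21
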