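/-
Programme T (S56), chapter GW, helper18: how the invariant `τ` on `H²_lev(C)[p]` enters the
reciprocity law of the local pairings (brick 8, `LocPairing.recip` with UNIT WEIGHTS).

Dictionary (that of `PT/PRO/LocalGlobal20`, `q ∈ S`):
`BI = H²_lev(Γ; I_S)`, `BIq q = H²_lev(Γ; I_{S,q})`, `inclB q`, `projB q`; `Bq q = H²_lev(Γ_q; ℚ̄_qˣ)`,
`sh2 q` (Shapiro ∘ inflation, injective: `LocS2_29.resH2_injective`); `BC = H²_lev(Γ; C_S)`,
`t = (toCS)_*`; `j : BC[p] → 𝔽_p` the global invariant (`InvFund18.exists_inv_of_isFundClass`),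
`τq q : (Bq q)[p] → 𝔽_p` the local invariants (`exists_inv_local` below); `LG` = local–global
injectivity on `p`-torsion (`LocalGlobalLimit27.localGlobal_limit`).

* `exists_unit_of_injective` : two injective additive maps `W → 𝔽_p` differ by a unit;
* `mapTor`                    : an additive map restricted to the `p`-torsion subgroups;
* `exists_weights`            : `∃ c : ι → 𝔽_pˣ`, `j (t (inclB q w)) = c q * τq q (sh2 q w)` on `(BIq q)[p]`;
* `sum_incl_proj`             : `x = ∑ q, inclB q (projB q x)` from the three product axioms;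
* `weighted_sum_eq_zero`      : for `x ∈ BI[p]` with `t x = 0`:
                                 `∑ q, c q * τq q (sh2 q (projB q x)) = 0`
  (apply it to `x = pI (e_* ξ) h`, `ξ ∈ ℍ¹(K(P; E_S))`: `t x = 0` because `E_S → I_S → C_S` is zero,
  and `sh2 q (projB q (pI y h)) = pq q (sh1 q (proj q y)) (res q h)` by `hproj`, `hN2`);
* `exists_inv_local`          : the local invariant `τ_q : H²_lev(Γ_q; ℚ̄_qˣ)[p] ↪ 𝔽_p`, unconditionally.
-/
import Mathlib
import Fermat.Agent.PT.PRO.InvFund18
import Fermat.Agent.PT.GLUE.LocalHypR11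

set_option autoImplicit false

namespace Fermat.Agent.ES.T56.RecipWeights18

open Function Fermat.Agent.PT.PRO.InvP4

/-! ### Pure algebra -/

section Algebra

variable {p : ℕ} [Fact p.Prime]

/-- Two injective additive maps into `ZMod p` differ by a unit. -/
theorem exists_unit_of_injective {W : Type*} [AddCommGroup W] (f g : W →+ ZMod p)
    (hf : Injective f) (hg : Injective g) :
    ∃ c : (ZMod p)ˣ, ∀ w, f w = (c : ZMod p) * g w := by
  have : NeZero p := ⟨(Fact.out : p.Prime).ne_zero⟩
  by_cases hz : ∀ w : W, w = 0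
  · exact ⟨1, fun w => by rw [hz w, map_zero, map_zero, mul_zero]⟩
  · push Not at hz
    obtain ⟨w₀, hw₀⟩ := hz
    have hg0 : g w₀ ≠ 0 := fun h => hw₀ (hg (by rw [h, map_zero]))
    have hf0 : f w₀ ≠ 0 := fun h => hw₀ (hf (by rw [h, map_zero]))
    refine ⟨Units.mk0 (f w₀ * (g w₀)⁻¹) (mul_ne_zero hf0 (inv_ne_zero hg0)), fun w => ?_⟩
    set a : ZMod p := g w * (g w₀)⁻¹ with ha
    have h1 : g (a.val • w₀) = g w := by
      rw [map_nsmul, nsmul_eq_mul, ZMod.natCast_zmod_val, ha, mul_assoc, inv_mul_cancel₀ hg0,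
        mul_one]
    have h2 : w = a.val • w₀ := hg h1.symm
    have h3 : f w = a * f w₀ := by
      conv_lhs => rw [h2]
      rw [map_nsmul, nsmul_eq_mul, ZMod.natCast_zmod_val]
    rw [h3, Units.val_mk0, ha]
    ring

variable (p)

/-- An additive map restricted to the `p`-torsion subgroups. -/
def mapTor {A B : Type*} [AddCommGroup A] [AddCommGroup B] (f : A →+ B) :
    pTor p A →+ pTor p B where
  toFun x := ⟨f x, by
    show p • f x = 0
    rw [← map_nsmul, show p • (x : A) = 0 from x.2, map_zero]⟩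
  map_zero' := Subtype.ext (by simp)
  map_add' _ _ := Subtype.ext (by simp)

omit [Fact p.Prime] in
@[simp] theorem coe_mapTor {A B : Type*} [AddCommGroup A] [AddCommGroup B] (f : A →+ B)
    (x : pTor p A) : ((mapTor p f x : pTor p B) : B) = f x := rfl

omit [Fact p.Prime] in
theorem mapTor_injective {A B : Type*} [AddCommGroup A] [AddCommGroup B] (f : A →+ B)
    (hf : Injective f) : Injective (mapTor p f) := fun _ _ h =>
  Subtype.ext (hf (congrArg Subtype.val h))

end Algebra

/-! ### The weights -/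

section Weights

variable {p : ℕ} [Fact p.Prime]
variable {ι : Type*} {BI BC : Type*} [AddCommGroup BI] [AddCommGroup BC]
variable {BIq Bq : ι → Type*} [∀ q, AddCommGroup (BIq q)] [∀ q, AddCommGroup (Bq q)]

/-- **The unit weights.**  On `H²(Γ; I_{S,q})[p]` the global invariant of the image in `H²(Γ; C_S)`
is a unit multiple of the local invariant of the image in `H²(Γ_q; ℚ̄_qˣ)`. -/
theorem exists_weights (inclB : ∀ q, BIq q →+ BI)
    (sh2 : ∀ q, BIq q →+ Bq q) (hsh2 : ∀ q, Injective (sh2 q))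
    (t : BI →+ BC) (j : pTor p BC →+ ZMod p) (hj : Injective j)
    (τq : ∀ q, pTor p (Bq q) →+ ZMod p) (hτq : ∀ q, Injective (τq q))
    (hLG : ∀ q (w : BIq q), p • w = 0 → t (inclB q w) = 0 → w = 0) :
    ∃ c : ι → (ZMod p)ˣ, ∀ q (w : pTor p (BIq q)),
      j (mapTor p t (mapTor p (inclB q) w)) = (c q : ZMod p) * τq q (mapTor p (sh2 q) w) := by
  have h : ∀ q, ∃ c : (ZMod p)ˣ, ∀ w : pTor p (BIq q),
      j (mapTor p t (mapTor p (inclB q) w)) = (c : ZMod p) * τq q (mapTor p (sh2 q) w) := by
    intro q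
    refine exists_unit_of_injective
      ((j.comp (mapTor p t)).comp (mapTor p (inclB q))) ((τq q).comp (mapTor p (sh2 q))) ?_ ?_
    · rw [injective_iff_map_eq_zero]
      intro w hw
      have h1 : mapTor p t (mapTor p (inclB q) w) = 0 := hj (by rw [map_zero]; exact hw)
      exact Subtype.ext (hLG q w w.2 (congrArg Subtype.val h1))
    · exact (hτq q).comp (mapTor_injective p (sh2 q) (hsh2 q))
  choose c hc using h
  exact ⟨c, hc⟩

variable [Fintype ι]

/-- `H²(Γ; I_S) = ⊕_q H²(Γ; I_{S,q})`: the sum formula from the three product axioms. -/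
theorem sum_incl_proj (inclB : ∀ q, BIq q →+ BI) (projB : ∀ q, BI →+ BIq q)
    (hprojB : ∀ x : BI, (∀ q, projB q x = 0) → x = 0)
    (hsame : ∀ q (w : BIq q), projB q (inclB q w) = w)
    (hne : ∀ q q' (w : BIq q), q ≠ q' → projB q' (inclB q w) = 0) (x : BI) :
    x = ∑ q, inclB q (projB q x) := by
  rw [← sub_eq_zero]
  apply hprojB
  intro q'
  rw [map_sub, map_sum, Finset.sum_eq_single q' (fun q _ hq => hne q q' _ hq)
    (fun h => absurd (Finset.mem_univ q') h), hsame, sub_self]

/-- **Reciprocity with unit weights**: for `x ∈ H²(Γ; I_S)[p]` dying in `H²(Γ; C_S)` the weighted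
sum of the local invariants of its components vanishes. -/
theorem weighted_sum_eq_zero (inclB : ∀ q, BIq q →+ BI) (projB : ∀ q, BI →+ BIq q)
    (hsum : ∀ x : BI, x = ∑ q, inclB q (projB q x))
    (sh2 : ∀ q, BIq q →+ Bq q) (t : BI →+ BC) (j : pTor p BC →+ ZMod p)
    (τq : ∀ q, pTor p (Bq q) →+ ZMod p) (c : ι → (ZMod p)ˣ)
    (hc : ∀ q (w : pTor p (BIq q)),
      j (mapTor p t (mapTor p (inclB q) w)) = (c q : ZMod p) * τq q (mapTor p (sh2 q) w))
    (x : pTor p BI) (hx : t x = 0) :
    ∑ q, (c q : ZMod p) * τq q (mapTor p (sh2 q) (mapTor p (projB q) x)) = 0 := by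
  have h1 : x = ∑ q, mapTor p (inclB q) (mapTor p (projB q) x) := by
    apply Subtype.ext
    rw [AddSubgroup.val_finsetSum]
    exact hsum x
  have h2 : mapTor p t x = 0 := Subtype.ext hx
  have h3 : j (mapTor p t x) = 0 := by rw [h2, map_zero]
  rw [h1, map_sum, map_sum] at h3
  rw [← h3]
  exact Finset.sum_congr rfl fun q _ => (hc q _).symm

end Weights

/-! ### The local invariant -/

section Local

open Fermat.Agent.PT.PRO Fermat.Agent.PT.PRO.HyperLevel25 Fermat.Agent.PT.PRO.Resolved4
  Fermat.Agent.PT.GLUE.Objects21 Fermat.Agent.PT.GLUE.LocalSide11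
  Fermat.Agent.PT.GLUE.LocalHypR11

variable (q : ℕ) [Fact q.Prime]

/-- **The local invariant** `τ_q : H²_lev(Γ_q; ℚ̄_qˣ)[p] ↪ ℤ/p`, unconditionally (from the local
fundamental classes at the finite levels, `LocalSide11`). -/
theorem exists_inv_local (p : ℕ) [Fact p.Prime] :
    ∃ τ : pTor p (Hlev2 (isLevelBasis_levelLoc q) (unitsLoc q).ρ (isDiscrete_unitsLoc' q)) →+
      ZMod p, Injective τ :=
  InvFund18.exists_inv_of_isFundClass (unitsLoc q).ρ (isLevelBasis_levelLoc q)
    (isDiscrete_unitsLoc' q)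
    (fun _ hV hn => haveI := hn; exists_isFundClass_of_mem_levelLoc q hV p)

end Local

end Fermat.Agent.ES.T56.RecipWeights18
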