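/-
Programme T (S56), chapter GW (Greenberg–Wiles), brick 3/4 (global `(2,0)` duality), helper18.

`LGTwoZero18`: **the local–global square in degree `(2,0)`**, the twin of main's
`PairingRes1` / `PairingResObj1` (`pair11_res`, `pair11_KXPHom`) and of `LocRecipGen21`.

* Part A (change of group for `pair20`): `lvl0PHom`, `resH0` (restriction on `H⁰_lev`),
  `hz2Res`, `lift0Res`, `p20_res`, **`pair20_res`**, `pair20_res_eval`, `resM0`,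
  **`pair20_KXPHom`** : `⟨Λ² ξ, res⁰ x⟩_{W} = res² ⟨ξ, x⟩_{X}` for `Λ² = (KXPHom ε).ppℍ2`;
  `pair20_KXmap` (coefficient change over the same group).
* Part B (one place `q`): for `s : I_q → C` over `G`, `ev : I_q → W` over `r : G_q → G`,
  invariants `τ`, `inv` injective on `p`-torsion, `(S2)` (`res² ∘ ev_*` injective on
  `H²_lev(G; I_q)`) and `(LG)` (`s_*` injective on `H²_lev(G; I_q)[p]`):
  **`lg20`** : `∃ c : (ℤ/p)ˣ, ∀ ξ x, α²_C (s_* ξ) x = c * α²_{q} (Λ² ξ) (res⁰ x)`.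
* Part C (consequences): if moreover the S-local pairing `ℍ²(G; K(P; I_q)) × H⁰(G_q, M) → ℤ/p`
  has trivial right kernel on the image of `Λ²`, then `α²_C ∘ s_*` is onto
  (`surjective_alphaTwo_comp`), the global right kernel is trivial (`right_kernel_of_local`),
  and, `α²_C` being injective, `s_* : ℍ²(K(P; I_q)) → ℍ²(K(P; C))` is ONTO
  (`surjective_mapℍ2_of_local`); `alphaTwoPackage_of_local`.
-/
import Mathlib
import Fermat.Agent.ES.T56.GlobAlphaTwo18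
import Fermat.Agent.ES.T56.RecipWeights18
import Fermat.Agent.PT.PRO.PairingResObj1

set_option autoImplicit false
set_option linter.unusedSectionVars false

namespace Fermat.Agent.ES.T56.LGTwoZero18

open Function Fermat.Agent.PT.PRO.HyperLevel25 Fermat.Agent.PT.PRO.HyperRes25
  Fermat.Agent.PT.PRO.Resolved4 Fermat.Agent.PT.PRO.ExtPairing4 Fermat.Agent.PT.PRO.ExtPairingB4
  Fermat.Agent.PT.PRO.PairingRes1 Fermat.Agent.ES.T56.PairTwoZero18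

variable {k G G' : Type*} [CommRing k] [Group G] [Group G']
variable {𝒰 : Set (Subgroup G)} {𝒰' : Set (Subgroup G')}

/-! ## Part A: change of group for `pair20` -/

section Lvl0

variable {f : G' →* G} {V V' : Type*} [AddCommGroup V] [Module k V] [AddCommGroup V'] [Module k V']

/-- Change of group for the shifted level complex `Resolved4.lvl0`. -/
def lvl0PHom (hf : IsLevelHom f 𝒰' 𝒰) (h𝒰 : IsLevelBasis 𝒰) (h𝒰' : IsLevelBasis 𝒰')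
    {ρ : Representation k G V} (hρ : IsDiscrete 𝒰 ρ) {ρ' : Representation k G' V'}
    (hρ' : IsDiscrete 𝒰' ρ') (φ : V →ₗ[k] V') (hφ : ∀ g y, φ (ρ (f g) y) = ρ' g (φ y)) :
    Cpx.Hom (lvl0 h𝒰 ρ hρ) (lvl0 h𝒰' ρ' hρ') where
  m0 := LinearMap.id
  m1 := φ
  m2 := ((φ.compLeft G').comp (LinearMap.funLeft k V ⇑f)).restrict
    (p := lev₁ k h𝒰 V) (q := lev₁ k h𝒰' V') (fun _ hc => (hf.isLevel₁ hc).comp _)
  m3 := ((φ.compLeft (G' × G')).comp (LinearMap.funLeft k V (Prod.map ⇑f ⇑f))).restrict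
    (p := lev₂ k h𝒰 V) (q := lev₂ k h𝒰' V') (fun _ hc => (hf.isLevel₂ hc).comp _)
  c0 _ := by simp [lvl0]
  c1 y := Subtype.ext (dZero_precomp ρ ρ' φ hφ y).symm
  c2 c := Subtype.ext (dOne_precomp ρ ρ' φ hφ c.1).symm

variable (hf : IsLevelHom f 𝒰' 𝒰) (h𝒰 : IsLevelBasis 𝒰) (h𝒰' : IsLevelBasis 𝒰')
  {ρ : Representation k G V} (hρ : IsDiscrete 𝒰 ρ) {ρ' : Representation k G' V'}
  (hρ' : IsDiscrete 𝒰' ρ') (φ : V →ₗ[k] V') (hφ : ∀ g y, φ (ρ (f g) y) = ρ' g (φ y))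

/-- Change of group on level `H⁰`: `[m] ↦ [φ m]`. -/
def resH0 : Hlev0 h𝒰 ρ hρ →ₗ[k] Hlev0 h𝒰' ρ' hρ' := (lvl0PHom hf h𝒰 h𝒰' hρ hρ' φ hφ).mapH1

lemma resH0_π1 (z : (lvl0 h𝒰 ρ hρ).Z1) :
    resH0 hf h𝒰 h𝒰' hρ hρ' φ hφ ((lvl0 h𝒰 ρ hρ).π1 z) =
      (lvl0 h𝒰' ρ' hρ').π1 ((lvl0PHom hf h𝒰 h𝒰' hρ hρ' φ hφ).mapZ1 z) := rfl

lemma coe_mapZ1_lvl0PHom (z : (lvl0 h𝒰 ρ hρ).Z1) :
    (((lvl0PHom hf h𝒰 h𝒰' hρ hρ' φ hφ).mapZ1 z : (lvl0 h𝒰' ρ' hρ').Z1) : V') = φ (z : V) := rfl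

/-- `res⁰` is injective as soon as the coefficient map is. -/
theorem resH0_injective (hinj : Injective φ) : Injective (resH0 hf h𝒰 h𝒰' hρ hρ' φ hφ) := by
  intro x y hxy
  obtain ⟨z, rfl⟩ := (lvl0 h𝒰 ρ hρ).π1_surjective x
  obtain ⟨w, rfl⟩ := (lvl0 h𝒰 ρ hρ).π1_surjective y
  rw [resH0_π1, resH0_π1, π1_lvl0_eq_iff, coe_mapZ1_lvl0PHom, coe_mapZ1_lvl0PHom] at hxy
  rw [π1_lvl0_eq_iff]
  exact hinj hxy

end Lvl0

section Res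

variable {Y0 Y1 P1 P0 M C : Type*}
  [AddCommGroup Y0] [Module k Y0] [AddCommGroup Y1] [Module k Y1]
  [AddCommGroup P1] [Module k P1] [AddCommGroup P0] [Module k P0]
  [AddCommGroup M] [Module k M] [AddCommGroup C] [Module k C]
variable {Y0' Y1' P1' P0' M' C' : Type*}
  [AddCommGroup Y0'] [Module k Y0'] [AddCommGroup Y1'] [Module k Y1']
  [AddCommGroup P1'] [Module k P1'] [AddCommGroup P0'] [Module k P0']
  [AddCommGroup M'] [Module k M'] [AddCommGroup C'] [Module k C']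

variable {f : G' →* G} {Y : Cx k 𝒰 Y0 Y1} {P : Resolved k 𝒰 P1 P0 M} {ρC : Representation k G C}
variable {Y' : Cx k 𝒰' Y0' Y1'} {P' : Resolved k 𝒰' P1' P0' M'} {ρC' : Representation k G' C'}

/-- Push a raw hyper-2-cocycle along a morphism of two-term complexes over `f`. -/
def hz2Res (hf : IsLevelHom f 𝒰' 𝒰) (a : PHom f Y Y') (ξ : HZ2 Y) : HZ2 Y' where
  c2 := ⇑a.φ0 ∘ ξ.c2 ∘ Prod.map ⇑f ⇑f
  c1 := ⇑a.φ1 ∘ ξ.c1 ∘ ⇑f
  lev2 := (hf.isLevel₂ ξ.lev2).comp _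
  lev1 := (hf.isLevel₁ ξ.lev1).comp _
  hc2 g h j := by
    have h1 := congrFun (dTwo_precomp Y.ρ0 Y'.ρ0 a.φ0 a.comm0 ξ.c2) (g, h, j)
    rw [h1, Function.comp_apply, Function.comp_apply, Prod.map_apply, Prod.map_apply, ξ.hc2,
      map_zero]
  hc1 g h := by
    have h1 := congrFun (dOne_precomp Y.ρ1 Y'.ρ1 a.φ1 a.comm1 ξ.c1) (g, h)
    rw [h1, Function.comp_apply, Function.comp_apply, Function.comp_apply, Function.comp_apply,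
      Prod.map_apply, ← a.commf, ξ.hc1]

lemma cls_hz2Res (hf : IsLevelHom f 𝒰' 𝒰) (h𝒰 : IsLevelBasis 𝒰) (h𝒰' : IsLevelBasis 𝒰')
    (a : PHom f Y Y') (ξ : HZ2 Y) :
    (hz2Res hf a ξ).cls h𝒰' = a.ppℍ2 hf h𝒰 h𝒰' (ξ.cls h𝒰) := rfl

/-- Push a lift of an invariant along a morphism of resolved modules over `f`. -/
def lift0Res (b : ResolvedPHom f P P') (L : Lift0 P) : Lift0 P' where
  mt := b.φ0 L.mt
  z' := ⇑b.φ1 ∘ L.z' ∘ ⇑f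
  hz g := by
    rw [Function.comp_apply, Function.comp_apply, ← b.commι, L.hz, dZero_apply, dZero_apply,
      map_sub, b.comm0]

lemma lifts_lift0Res (b : ResolvedPHom f P P') {L : Lift0 P} {m : M} (hL : L.Lifts m) :
    (lift0Res b L).Lifts (b.φM m) := by
  show P'.π (b.φ0 L.mt) = b.φM m
  rw [← b.commπ, hL]

variable {B : Pairing Y P ρC} {B' : Pairing Y' P' ρC'}

/-- Raw naturality of the `(2,0)` cochain for a change of group. -/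
lemma p20_res (hf : IsLevelHom f 𝒰' 𝒰) (F : PairingPHom f B B') (ξ : HZ2 Y) (L : Lift0 P) :
    B'.p20 (hz2Res hf F.a ξ).c2 (hz2Res hf F.a ξ).c1 (lift0Res F.b L).mt (lift0Res F.b L).z' =
      ⇑F.γ ∘ B.p20 ξ.c2 ξ.c1 L.mt L.z' ∘ Prod.map ⇑f ⇑f := by
  funext ⟨g, h⟩
  show B'.β0 (F.a.φ0 (ξ.c2 (f g, f h))) (P'.ρ0 (g * h) (F.b.φ0 L.mt))
      - B'.β1 (F.a.φ1 (ξ.c1 (f g))) (P'.ρ1 g (F.b.φ1 (L.z' (f h))))
    = F.γ (B.β0 (ξ.c2 (f g, f h)) (P.ρ0 (f g * f h) L.mt)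
      - B.β1 (ξ.c1 (f g)) (P.ρ1 (f g) (L.z' (f h))))
  rw [map_sub, ← F.h0, ← F.h1, ← map_mul f g h, F.b.comm0, F.b.comm1]

variable (hf : IsLevelHom f 𝒰' 𝒰) (h𝒰 : IsLevelBasis 𝒰) (h𝒰' : IsLevelBasis 𝒰')
  (hC : IsDiscrete 𝒰 ρC) (hC' : IsDiscrete 𝒰' ρC')

/-- **Naturality of the `(2,0)` pairing for a change of group.** -/
theorem pair20_res (F : PairingPHom f B B') (ξ : Y.ℍ2 h𝒰) (x : Hlev0 h𝒰 P.ρM P.discM) :
    pair20 B' h𝒰' hC' (F.a.ppℍ2 hf h𝒰 h𝒰' ξ)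
        (resH0 hf h𝒰 h𝒰' P.discM P'.discM F.b.φM F.b.commM x) =
      resH2 hf h𝒰 h𝒰' hC hC' F.γ F.hγ (pair20 B h𝒰 hC ξ x) := by
  obtain ⟨ξ', rfl⟩ := HZ2.cls_surjective h𝒰 ξ
  obtain ⟨z, rfl⟩ := (lvl0 h𝒰 P.ρM P.discM).π1_surjective x
  obtain ⟨L, hL⟩ := Lift0.exists_lift (P := P) (val0_invariant h𝒰 z)
  rw [← cls_hz2Res hf h𝒰 h𝒰', pair20_mk B h𝒰 hC ξ' z L hL, resH0_π1,
    pair20_mk B' h𝒰' hC' (hz2Res hf F.a ξ') _ (lift0Res F.b L) (lifts_lift0Res F.b hL)]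
  unfold cls20 cl2 resH2
  rw [Cpx.Hom.mapH2_π2]
  congr 1
  apply Subtype.ext
  apply Subtype.ext
  exact p20_res hf F ξ' L

section Eval

variable [Module.Finite k P0] [Module.Finite k P1]

/-- Naturality of `pair20` for the evaluation pairing: with `Λ² := (KPHom γ).ppℍ2`,
`res⁰ := resH0 id`, `res² := resH2 γ`:  `⟨Λ² ξ, res⁰ x⟩ = res² ⟨ξ, x⟩`. -/
theorem pair20_res_eval (P : Resolved k 𝒰 P1 P0 M) (γ : C →ₗ[k] C')
    (hγ : ∀ g c, γ (ρC (f g) c) = ρC' g (γ c))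
    (ξ : (P.K h𝒰 ρC hC).ℍ2 h𝒰) (x : Hlev0 h𝒰 P.ρM P.discM) :
    pair20 (evalPairing (comapResolved f hf P) h𝒰' ρC' hC') h𝒰' hC'
        ((KPHom hf h𝒰 h𝒰' hC hC' P γ hγ).ppℍ2 hf h𝒰 h𝒰' ξ)
        (resH0 hf h𝒰 h𝒰' P.discM (comapResolved f hf P).discM LinearMap.id (fun _ _ => rfl) x) =
      resH2 hf h𝒰 h𝒰' hC hC' γ hγ
        (pair20 (evalPairing P h𝒰 ρC hC) h𝒰 hC ξ x) :=
  pair20_res hf h𝒰 h𝒰' hC hC' (evalPairingPHom hf h𝒰 h𝒰' hC hC' P γ hγ) ξ x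

end Eval

end Res

/-! ## Part A': the common objects `K(P; X)` of a raw resolution -/

section Obj

open Fermat.Agent.PT.PRO.IndRes20 Fermat.Agent.PT.PRO.Setup20 Fermat.Agent.PT.PRO.Objects20
  Fermat.Agent.PT.PRO.PairingResObj1

variable {P1 P0 M X X' W : Type*} [AddCommGroup P1] [Module k P1] [AddCommGroup P0] [Module k P0]
  [AddCommGroup M] [Module k M] [AddCommGroup X] [Module k X] [AddCommGroup X'] [Module k X']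
  [AddCommGroup W] [Module k W]

variable (R : Res k G P1 P0 M) (h0 : IsDiscrete 𝒰 R.ρ0)
  (h𝒰 : IsLevelBasis 𝒰) (h𝒰' : IsLevelBasis 𝒰') (f : G' →* G) (hf : IsLevelHom f 𝒰' 𝒰)

/-- Restriction `H⁰_lev(G; M) → H⁰_lev(G'; M)`, `[m] ↦ [m]`. -/
def resM0 :
    Hlev0 h𝒰 (toResolved R h0).ρM (toResolved R h0).discM →ₗ[k]
      Hlev0 h𝒰' (toResolved (R.comap f) (comap_disc0 R h0 f hf)).ρM
        (toResolved (R.comap f) (comap_disc0 R h0 f hf)).discM :=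
  resH0 hf h𝒰 h𝒰' (toResolved R h0).discM
    (toResolved (R.comap f) (comap_disc0 R h0 f hf)).discM LinearMap.id (fun _ _ => rfl)

/-- Restriction of invariants is injective. -/
theorem resM0_injective : Injective (resM0 R h0 h𝒰 h𝒰' f hf) :=
  resH0_injective hf h𝒰 h𝒰' _ _ LinearMap.id (fun _ _ => rfl) (fun _ _ h => h)

lemma resM0_cl0 (m : M) (hm : ∀ g, R.ρM g m = m) :
    resM0 R h0 h𝒰 h𝒰' f hf (cl0 (P := toResolved R h0) h𝒰 m hm) =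
      cl0 (P := toResolved (R.comap f) (comap_disc0 R h0 f hf)) h𝒰' m (fun g => hm (f g)) := rfl

variable {ρX : Representation k G X} (hX : IsDiscrete 𝒰 ρX)
  {ρX' : Representation k G X'} (hX' : IsDiscrete 𝒰 ρX')
  {ρW : Representation k G' W} (hW : IsDiscrete 𝒰' ρW)

variable [Module.Finite k P0] [Module.Finite k P1]

/-- **Naturality of `pair20` for a change of group, on the common objects**:
`⟨Λ² ξ, res⁰ x⟩ = resX ⟨ξ, x⟩` for `Λ² = (KXPHom R h0 h𝒰 h𝒰' f hf hX hW ε hε).ppℍ2`. -/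
theorem pair20_KXPHom (ε : X →ₗ[k] W) (hε : ∀ g x, ε (ρX (f g) x) = ρW g (ε x))
    (ξ : (KX R h0 h𝒰 ρX hX).ℍ2 h𝒰)
    (x : Hlev0 h𝒰 (toResolved R h0).ρM (toResolved R h0).discM) :
    pair20 (evP (R.comap f) (comap_disc0 R h0 f hf) h𝒰' ρW hW) h𝒰' hW
        ((KXPHom R h0 h𝒰 h𝒰' f hf hX hW ε hε).ppℍ2 hf h𝒰 h𝒰' ξ) (resM0 R h0 h𝒰 h𝒰' f hf x) =
      resX h𝒰 h𝒰' f hf hX hW ε hε (pair20 (evP R h0 h𝒰 ρX hX) h𝒰 hX ξ x) :=
  pair20_res_eval hf h𝒰 h𝒰' hX hW (toResolved R h0) ε hε ξ x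

/-- **Naturality of `pair20` in the coefficients** (same group). -/
theorem pair20_KXmap (α : X →ₗ[k] X') (hα : ∀ g x, α (ρX g x) = ρX' g (α x))
    (ξ : (KX R h0 h𝒰 ρX hX).ℍ2 h𝒰)
    (x : Hlev0 h𝒰 (toResolved R h0).ρM (toResolved R h0).discM) :
    pair20 (evP R h0 h𝒰 ρX' hX') h𝒰 hX' ((KXmap R h0 h𝒰 hX hX' α hα).mapℍ2 h𝒰 ξ) x =
      (lvlHom h𝒰 hX hX' α hα).mapH2 (pair20 (evP R h0 h𝒰 ρX hX) h𝒰 hX ξ x) := by
  have h := pair20_natural h𝒰 hX hX' (pairHom R h0 h𝒰 hX hX' α hα) ξ x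
  have hx : (lvl0Hom h𝒰 (toResolved R h0).discM (toResolved R h0).discM
      (pairHom R h0 h𝒰 hX hX' α hα).b.φM (pairHom R h0 h𝒰 hX hX' α hα).b.commM).mapH1 x = x := by
    obtain ⟨z, rfl⟩ := (lvl0 h𝒰 (toResolved R h0).ρM (toResolved R h0).discM).π1_surjective x
    rfl
  rw [hx] at h
  exact h

/-- `ψ_* ∘ φ_* = (ψ ∘ φ)_*` on `ℍ²(K(P; ·))`. -/
theorem KXmap_mapℍ2_comp {X'' : Type*} [AddCommGroup X''] [Module k X'']
    {ρX'' : Representation k G X''} (hX'' : IsDiscrete 𝒰 ρX'')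
    (φ : X →ₗ[k] X') (hφ : ∀ g x, φ (ρX g x) = ρX' g (φ x))
    (ψ : X' →ₗ[k] X'') (hψ : ∀ g x, ψ (ρX' g x) = ρX'' g (ψ x))
    (χ : X →ₗ[k] X'') (hχ : ∀ g x, χ (ρX g x) = ρX'' g (χ x)) (hcomp : ∀ x, ψ (φ x) = χ x)
    (ξ : (KX R h0 h𝒰 ρX hX).ℍ2 h𝒰) :
    (KXmap R h0 h𝒰 hX' hX'' ψ hψ).mapℍ2 h𝒰 ((KXmap R h0 h𝒰 hX hX' φ hφ).mapℍ2 h𝒰 ξ) =
      (KXmap R h0 h𝒰 hX hX'' χ hχ).mapℍ2 h𝒰 ξ := by
  obtain ⟨ξ', rfl⟩ := HZ2.cls_surjective h𝒰 ξ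
  rw [← cls_hz2Map, ← cls_hz2Map, ← cls_hz2Map]
  congr 1
  have e2 : (hz2Map (KXmap R h0 h𝒰 hX' hX'' ψ hψ) (hz2Map (KXmap R h0 h𝒰 hX hX' φ hφ) ξ')).c2 =
      (hz2Map (KXmap R h0 h𝒰 hX hX'' χ hχ) ξ').c2 := by
    funext q
    apply LinearMap.ext
    intro y
    exact hcomp _
  have e1 : (hz2Map (KXmap R h0 h𝒰 hX' hX'' ψ hψ) (hz2Map (KXmap R h0 h𝒰 hX hX' φ hφ) ξ')).c1 =
      (hz2Map (KXmap R h0 h𝒰 hX hX'' χ hχ) ξ').c1 := by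
    funext q
    apply LinearMap.ext
    intro y
    exact hcomp _
  cases h1 : hz2Map (KXmap R h0 h𝒰 hX' hX'' ψ hψ) (hz2Map (KXmap R h0 h𝒰 hX hX' φ hφ) ξ')
  cases h2 : hz2Map (KXmap R h0 h𝒰 hX hX'' χ hχ) ξ'
  rw [h1, h2] at e2 e1
  simp only at e2 e1
  subst e2 e1
  rfl

end Obj

/-! ## Part B: the local–global square for one place -/

section LG

open Fermat.Agent.PT.PRO.IndRes20 Fermat.Agent.PT.PRO.Setup20 Fermat.Agent.PT.PRO.Objects20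
  Fermat.Agent.PT.PRO.PairingResObj1 Fermat.Agent.PT.PRO.InvP4 Fermat.Agent.PT.PRO.PairP4
  Fermat.Agent.PT.PRO.PerfectPairing29 Fermat.Agent.ES.T56.GlobAlphaTwo18
  Fermat.Agent.ES.T56.RecipWeights18

variable {k G Gq : Type} [CommRing k] [Group G] [Group Gq]
  {𝒰 : Set (Subgroup G)} {𝒰q : Set (Subgroup Gq)}
variable {P1 P0 A Iq C W : Type} [AddCommGroup P1] [Module k P1] [AddCommGroup P0] [Module k P0]
  [AddCommGroup A] [Module k A] [AddCommGroup Iq] [Module k Iq] [AddCommGroup C] [Module k C]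
  [AddCommGroup W] [Module k W]

variable (R : Res k G P1 P0 A) (h0 : IsDiscrete 𝒰 R.ρ0) [Module.Finite k P0] [Module.Finite k P1]
  (h𝒰 : IsLevelBasis 𝒰) (h𝒰q : IsLevelBasis 𝒰q) (r : Gq →* G) (hr : IsLevelHom r 𝒰q 𝒰)
  {ρIq : Representation k G Iq} (hIq : IsDiscrete 𝒰 ρIq)
  {ρC : Representation k G C} (hC : IsDiscrete 𝒰 ρC)
  {ρW : Representation k Gq W} (hW : IsDiscrete 𝒰q ρW)
  (s : Iq →ₗ[k] C) (hs : ∀ g x, s (ρIq g x) = ρC g (s x))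
  (ev : Iq →ₗ[k] W) (hev : ∀ g x, ev (ρIq (r g) x) = ρW g (ev x))
  (p : ℕ) [Fact p.Prime] (hpA : ∀ m : A, p • m = 0)

include hpA in
/-- The class `w = ⟨ξ, x⟩_{I_q} ∈ H²_lev(G; I_q)` is `p`-torsion. -/
lemma nsmul_pair20_eq_zero (ξ : (KX R h0 h𝒰 ρIq hIq).ℍ2 h𝒰)
    (x : Hlev0 h𝒰 (toResolved R h0).ρM (toResolved R h0).discM) :
    p • pair20 (evP R h0 h𝒰 ρIq hIq) h𝒰 hIq ξ x = 0 := by
  rw [← map_nsmul,
    nsmul_Hlev0_eq_zero h𝒰 (toResolved R h0).ρM (toResolved R h0).discM p hpA x, map_zero]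

/-- **The local–global square in degree `(2,0)`, up to a unit weight.**  With `s : I_q → C`
(over `G`), `ev : I_q → W` (over `r : G_q → G`), injective invariants `τ`, `inv`, `(S2)` and `(LG)`:
there is a unit `c` with `α²_C (s_* ξ) x = c · α²_q (Λ² ξ) (res⁰ x)` for all
`ξ ∈ ℍ²(G; K(P; I_q))`, `x ∈ H⁰(G, A)`. -/
theorem lg20
    (τ : pTor p (Hlev2 h𝒰 ρC hC) →+ ZMod p) (hτ : Injective τ)
    (inv : pTor p (Hlev2 h𝒰q ρW hW) →+ ZMod p) (hinv : Injective inv)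
    (hS2 : Injective (resH2 hr h𝒰 h𝒰q hIq hW ev hev))
    (hLG : ∀ w : Hlev2 h𝒰 ρIq hIq, p • w = 0 → (lvlHom h𝒰 hIq hC s hs).mapH2 w = 0 → w = 0) :
    ∃ c : (ZMod p)ˣ, ∀ (ξ : (KX R h0 h𝒰 ρIq hIq).ℍ2 h𝒰)
      (x : Hlev0 h𝒰 (toResolved R h0).ρM (toResolved R h0).discM),
      alphaTwo (evP R h0 h𝒰 ρC hC) h𝒰 hC hpA τ ((KXmap R h0 h𝒰 hIq hC s hs).mapℍ2 h𝒰 ξ) x =
        (c : ZMod p) *
          alphaTwo (evP (R.comap r) (comap_disc0 R h0 r hr) h𝒰q ρW hW) h𝒰q hW hpA inv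
            ((KXPHom R h0 h𝒰 h𝒰q r hr hIq hW ev hev).ppℍ2 hr h𝒰 h𝒰q ξ)
            (resM0 R h0 h𝒰 h𝒰q r hr x) := by
  -- the two embeddings of `T_q = H²_lev(I_q)[p]` into `ℤ/p`
  let lam : pTor p (Hlev2 h𝒰 ρIq hIq) →+ ZMod p :=
    τ.comp (mapTor p (lvlHom h𝒰 hIq hC s hs).mapH2.toAddMonoidHom)
  let mu : pTor p (Hlev2 h𝒰 ρIq hIq) →+ ZMod p :=
    inv.comp (mapTor p (resH2 hr h𝒰 h𝒰q hIq hW ev hev).toAddMonoidHom)
  have hlam : Injective lam := by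
    rw [injective_iff_map_eq_zero]
    intro v hv
    have h1 : mapTor p (lvlHom h𝒰 hIq hC s hs).mapH2.toAddMonoidHom v = 0 :=
      hτ (by rw [map_zero]; exact hv)
    apply Subtype.ext
    exact hLG v.1 v.2 (congrArg Subtype.val h1)
  have hmu : Injective mu := by
    rw [injective_iff_map_eq_zero]
    intro v hv
    have h1 : mapTor p (resH2 hr h𝒰 h𝒰q hIq hW ev hev).toAddMonoidHom v = 0 :=
      hinv (by rw [map_zero]; exact hv)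
    apply Subtype.ext
    rw [AddSubgroup.coe_zero]
    apply hS2
    rw [map_zero]
    exact congrArg Subtype.val h1
  obtain ⟨c, hc⟩ := exists_unit_of_injective lam mu hlam hmu
  refine ⟨c, fun ξ x => ?_⟩
  let v : pTor p (Hlev2 h𝒰 ρIq hIq) :=
    ⟨pair20 (evP R h0 h𝒰 ρIq hIq) h𝒰 hIq ξ x, nsmul_pair20_eq_zero R h0 h𝒰 hIq p hpA ξ x⟩
  have h1 : alphaTwo (evP R h0 h𝒰 ρC hC) h𝒰 hC hpA τ
      ((KXmap R h0 h𝒰 hIq hC s hs).mapℍ2 h𝒰 ξ) x = lam v := by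
    rw [alphaTwo_apply]
    show τ _ = τ _
    congr 1
    apply Subtype.ext
    rw [coe_pair20P]
    exact pair20_KXmap R h0 h𝒰 hIq hC s hs ξ x
  have h2 : alphaTwo (evP (R.comap r) (comap_disc0 R h0 r hr) h𝒰q ρW hW) h𝒰q hW hpA inv
      ((KXPHom R h0 h𝒰 h𝒰q r hr hIq hW ev hev).ppℍ2 hr h𝒰 h𝒰q ξ)
      (resM0 R h0 h𝒰 h𝒰q r hr x) = mu v := by
    rw [alphaTwo_apply]
    show inv _ = inv _
    congr 1
    apply Subtype.ext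
    rw [coe_pair20P]
    exact pair20_KXPHom R h0 h𝒰 h𝒰q r hr hIq hW ev hev ξ x
  rw [h1, h2, hc]

/-! ## Part C: consequences — global right kernel and surjectivity of `s_*` on `ℍ²` -/

/-- The hypothesis "the S-local `(2,0)` pairing `ℍ²(G; K(P; I_q)) × H⁰(G_q, A) → H²_lev(G_q; W)` has
trivial right kernel" (the classes on the left are the images under `Λ² = (KXPHom ev).ppℍ2`). -/
def LocalRightKernel : Prop :=
  ∀ y : Hlev0 h𝒰q (toResolved (R.comap r) (comap_disc0 R h0 r hr)).ρM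
      (toResolved (R.comap r) (comap_disc0 R h0 r hr)).discM,
    (∀ ξ : (KX R h0 h𝒰 ρIq hIq).ℍ2 h𝒰,
      pair20 (evP (R.comap r) (comap_disc0 R h0 r hr) h𝒰q ρW hW) h𝒰q hW
        ((KXPHom R h0 h𝒰 h𝒰q r hr hIq hW ev hev).ppℍ2 hr h𝒰 h𝒰q ξ) y = 0) → y = 0

include hpA in
/-- The right kernel of `(ξ, x) ↦ ⟨s_* ξ, x⟩_C` on `ℍ²(G; K(P; I_q)) × H⁰(G, A)` is trivial, from
`(LG)` and the S-local right kernel at ONE place. -/
theorem right_kernel_comp_of_local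
    (hLG : ∀ w : Hlev2 h𝒰 ρIq hIq, p • w = 0 → (lvlHom h𝒰 hIq hC s hs).mapH2 w = 0 → w = 0)
    (hloc : LocalRightKernel R h0 h𝒰 h𝒰q r hr hIq hW ev hev)
    (x : Hlev0 h𝒰 (toResolved R h0).ρM (toResolved R h0).discM)
    (h : ∀ ξ : (KX R h0 h𝒰 ρIq hIq).ℍ2 h𝒰,
      pair20 (evP R h0 h𝒰 ρC hC) h𝒰 hC ((KXmap R h0 h𝒰 hIq hC s hs).mapℍ2 h𝒰 ξ) x = 0) :
    x = 0 := by
  apply resM0_injective R h0 h𝒰 h𝒰q r hr
  rw [map_zero]
  apply hloc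
  intro ξ
  have h1 := h ξ
  rw [pair20_KXmap R h0 h𝒰 hIq hC s hs ξ x] at h1
  have h2 := hLG _ (nsmul_pair20_eq_zero R h0 h𝒰 hIq p hpA ξ x) h1
  rw [pair20_KXPHom R h0 h𝒰 h𝒰q r hr hIq hW ev hev ξ x, h2, map_zero]

include hpA in
/-- **The global right kernel from ONE place**: the right kernel of the global `pair20` of
`K(P; C)` is trivial. -/
theorem right_kernel_of_local
    (hLG : ∀ w : Hlev2 h𝒰 ρIq hIq, p • w = 0 → (lvlHom h𝒰 hIq hC s hs).mapH2 w = 0 → w = 0)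
    (hloc : LocalRightKernel R h0 h𝒰 h𝒰q r hr hIq hW ev hev)
    (x : Hlev0 h𝒰 (toResolved R h0).ρM (toResolved R h0).discM)
    (h : ∀ ξ : (KX R h0 h𝒰 ρC hC).ℍ2 h𝒰, pair20 (evP R h0 h𝒰 ρC hC) h𝒰 hC ξ x = 0) : x = 0 :=
  right_kernel_comp_of_local R h0 h𝒰 h𝒰q r hr hIq hC hW s hs ev hev p hpA hLG hloc x
    (fun _ => h _)

/-- `α²_C ∘ s_* : ℍ²(G; K(P; I_q)) → Hom(H⁰(G, A), ℤ/p)` is ONTO (`A` finite). -/
theorem surjective_alphaTwo_comp [Finite A]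
    (τ : pTor p (Hlev2 h𝒰 ρC hC) →+ ZMod p) (hτ : Injective τ)
    (hLG : ∀ w : Hlev2 h𝒰 ρIq hIq, p • w = 0 → (lvlHom h𝒰 hIq hC s hs).mapH2 w = 0 → w = 0)
    (hloc : LocalRightKernel R h0 h𝒰 h𝒰q r hr hIq hW ev hev)
    (φ : Hlev0 h𝒰 (toResolved R h0).ρM (toResolved R h0).discM →+ ZMod p) :
    ∃ ξ : (KX R h0 h𝒰 ρIq hIq).ℍ2 h𝒰,
      alphaTwo (evP R h0 h𝒰 ρC hC) h𝒰 hC hpA τ ((KXmap R h0 h𝒰 hIq hC s hs).mapℍ2 h𝒰 ξ) = φ := by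
  have : Finite (Hlev0 h𝒰 (toResolved R h0).ρM (toResolved R h0).discM) :=
    finite_Hlev0 h𝒰 _ _
  have hsurj := surjective_of_right_kernel
    ((pair20P (evP R h0 h𝒰 ρC hC) h𝒰 hC hpA).comp
      ((KXmap R h0 h𝒰 hIq hC s hs).mapℍ2 h𝒰).toAddMonoidHom) τ
    (injOnTorsion_of_injective τ hτ)
    (nsmul_Hlev0_eq_zero h𝒰 (toResolved R h0).ρM (toResolved R h0).discM p hpA)
    (fun x h => right_kernel_comp_of_local R h0 h𝒰 h𝒰q r hr hIq hC hW s hs ev hev p hpA hLG hloc x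
      (fun ξ => (pair20P_eq_zero_iff (evP R h0 h𝒰 ρC hC) h𝒰 hC hpA _ x).1 (h ξ)))
  obtain ⟨ξ, hξ⟩ := hsurj φ
  exact ⟨ξ, hξ⟩

/-- **`s_* : ℍ²(G; K(P; I_q)) → ℍ²(G; K(P; C))` is ONTO**, as soon as `α²_C` is injective (the LEFT
kernel of the global pairing, `AlphaTwoLeft`), `(LG)` holds and the S-local right kernel at the
place is trivial. -/
theorem surjective_mapℍ2_of_local [Finite A]
    (τ : pTor p (Hlev2 h𝒰 ρC hC) →+ ZMod p) (hτ : Injective τ)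
    (hα : Injective (alphaTwo (evP R h0 h𝒰 ρC hC) h𝒰 hC hpA τ))
    (hLG : ∀ w : Hlev2 h𝒰 ρIq hIq, p • w = 0 → (lvlHom h𝒰 hIq hC s hs).mapH2 w = 0 → w = 0)
    (hloc : LocalRightKernel R h0 h𝒰 h𝒰q r hr hIq hW ev hev) :
    Surjective ((KXmap R h0 h𝒰 hIq hC s hs).mapℍ2 h𝒰) := by
  intro η
  obtain ⟨ξ, hξ⟩ := surjective_alphaTwo_comp R h0 h𝒰 h𝒰q r hr hIq hC hW s hs ev hev p hpA τ hτ
    hLG hloc (alphaTwo (evP R h0 h𝒰 ρC hC) h𝒰 hC hpA τ η)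
  exact ⟨ξ, hα hξ⟩

/-- The full global `(2,0)` package from its LEFT half, `(LG)` and the S-local right kernel at
one place. -/
theorem alphaTwoPackage_of_local
    (hL : AlphaTwoLeft R h0 h𝒰 ρC hC p hpA)
    (hLG : ∀ w : Hlev2 h𝒰 ρIq hIq, p • w = 0 → (lvlHom h𝒰 hIq hC s hs).mapH2 w = 0 → w = 0)
    (hloc : LocalRightKernel R h0 h𝒰 h𝒰q r hr hIq hW ev hev) :
    AlphaTwoPackage R h0 h𝒰 ρC hC p hpA :=
  alphaTwoPackage_of hL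
    (right_kernel_of_local R h0 h𝒰 h𝒰q r hr hIq hC hW s hs ev hev p hpA hLG hloc)

/-- Variant of `surjective_mapℍ2_of_local` consuming `AlphaTwoLeft`. -/
theorem surjective_mapℍ2_of_left [Finite A]
    (hL : AlphaTwoLeft R h0 h𝒰 ρC hC p hpA)
    (hLG : ∀ w : Hlev2 h𝒰 ρIq hIq, p • w = 0 → (lvlHom h𝒰 hIq hC s hs).mapH2 w = 0 → w = 0)
    (hloc : LocalRightKernel R h0 h𝒰 h𝒰q r hr hIq hW ev hev) :
    Surjective ((KXmap R h0 h𝒰 hIq hC s hs).mapℍ2 h𝒰) := by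
  obtain ⟨τ, hτ, hinj, _⟩ := hL
  exact surjective_mapℍ2_of_local R h0 h𝒰 h𝒰q r hr hIq hC hW s hs ev hev p hpA τ hτ hinj hLG hloc

end LG

end Fermat.Agent.ES.T56.LGTwoZero18
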