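/-
Programme T (S56), chapter GW, bricks 2/4 (the S-LOCAL `(2,0)` leg), helper18.

`LocSAlphaTwo18`: **the full `(2,0)` duality package for the S-local datum**
`(Γ_q = Gal(ℚ̄_q/ℚ_q), levelLocS q S, ((ℚ_S)_q)ˣ = unitsLocS S q)`, `p ∈ S`, UNCONDITIONALLY: for a
finite `Γ_q`-module `A`, discrete for `levelLocS q S`, with `p A = 0` and canonical resolution
`P = HpAt29.freeRes ρA`,

* `fixedObjIso`                      : `(C^N)^V ≅ C^V` as `G ⧸ V`-modules for `N ≤ V` (generic `k`);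
* `exists_isFundClass_of_mem_levelLocS` : fundamental classes at the finite levels of the S-local
                                       datum (transport of `LocalSide11` along `fixedObjIso`);
* `alphaTwoLeft_locS`, `rightKernelTrivial_locS`, **`alphaTwoPackage_locS`**, **`cardTwoEq_locS`** :
  `#ℍ²(K(P; ((ℚ_S)_q)ˣ)) = #A^{Γ_q}` (LK = `FinTN20Fund18.alphaTwoLeft_freeRes`, RK = helper2's
  `AlphaTwoRight2.rightKernelTrivial_of_isFundClass`, tower condition = helper25's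
  `NKS25.nk_levelLocS`);
* for a GLOBAL `ρA : Representation ℤ Γ A`, discrete for `levelS S`:
  **`localRightKernel_S`** : `LGTwoZero18.LocalRightKernel` for
  `Λ² = (KXPHom .. (evqS S q) (evqS_ρ S q)).ppℍ2 : ℍ²(Γ; K(P; I_{S,q})) → ℍ²(Γ_q; K(P|; ((ℚ_S)_q)ˣ))`
  (bijective by Shapiro, `LocHyperFinal13.shPHom_ppℍ2_bijective`), and
  **`card_ℍ2_ISq`** : `ℍ²(Γ; K(P; I_{S,q}))` is finite of cardinality `#A^{Γ_q}`.
-/
import Mathlib
import Fermat.Agent.ES.T56.LocAlphaTwoR2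
import Fermat.Agent.ES.T56.LGTwoZero18
import Fermat.Agent.ES.T56.NKS25
import Fermat.Agent.PT.GLUE.LocHyperFinal13
import Fermat.Agent.PT.FG.FundClassTransferB2
import Fermat.Agent.PT.PRO.LevelEquiv29

set_option autoImplicit false

namespace Fermat.Agent.ES.T56.LocSAlphaTwo18

open Function
open Fermat.Agent.PT.PRO Fermat.Agent.PT.GLUE Fermat.Agent.PT.PRO.HyperLevel25
open Fermat.Agent.PT.PRO.GlobalDuality20 Fermat.Agent.PT.PRO.HyperColim18
open Fermat.Agent.PT.PRO.InfLevel13 Fermat.Agent.PT.PRO.FundRaw18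
open Fermat.Agent.PT.GLUE.Objects21 Fermat.Agent.PT.GLUE.LocalSide11
  Fermat.Agent.PT.GLUE.LocalHypR11 Fermat.Agent.PT.GLUE.LocHyper13
  Fermat.Agent.PT.BR.InfLocal13
open Fermat.Agent.ES.T56.GlobAlphaTwo18 Fermat.Agent.ES.T56.FinTN20Fund18
  Fermat.Agent.ES.T56.AlphaTwoRight2 Fermat.Agent.ES.T56.LocAlphaTwoR2

/-! ### Generic: `(C^N)^V ≅ C^V` -/

section Generic

variable {k : Type} [CommRing k] {G : Type} [Group G] {W W' : Type}
  [AddCommGroup W] [Module k W] [AddCommGroup W'] [Module k W']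
  {ρ : Representation k G W} {ρ' : Representation k G W'} {ι : W' →ₗ[k] W} {N : Subgroup G}

/-- For `C' = C^N` and `N ≤ V`: `(C')^V ≃ C^V`. -/
noncomputable def fixedEquivOfInvIncl (hι : IsInvIncl N ρ' ρ ι) (V : Subgroup G) (hNV : N ≤ V) :
    ↥(fixedSub V ρ') ≃ₗ[k] ↥(fixedSub V ρ) :=
  LinearEquiv.ofBijective (fixedMap V ρ' ρ ι hι.comm)
    ⟨fun x y h => Subtype.ext (hι.inj (congrArg Subtype.val h)), fun w => by
      obtain ⟨a, ha⟩ := hι.surj (w : W) (fun n hn => w.2 n (hNV hn))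
      refine ⟨⟨a, fun s hs => hι.inj ?_⟩, Subtype.ext ha⟩
      rw [hι.comm, ha]
      exact w.2 s hs⟩

/-- The same as an equivalence of representations of `G ⧸ V`. -/
noncomputable def fixedRepEquiv (hι : IsInvIncl N ρ' ρ ι) (V : Subgroup G) [V.Normal]
    (hNV : N ≤ V) : Representation.Equiv (fixedRep V ρ') (fixedRep V ρ) :=
  Representation.Equiv.mk (fixedEquivOfInvIncl hι V hNV) (fun q => by
    ext y
    exact congrArg Subtype.val (fixedMap_comm V ρ' ρ ι hι.comm q y))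

/-- The same as an isomorphism of objects of `Rep k (G ⧸ V)`. -/
noncomputable def fixedObjIso (hι : IsInvIncl N ρ' ρ ι) (V : Subgroup G) [V.Normal]
    (hNV : N ≤ V) : fixedObj V ρ' ≅ fixedObj V ρ :=
  Rep.mkIso (fixedRepEquiv hι V hNV)

end Generic

/-! ### The S-local datum -/

section Local

variable (S : Finset Nat.Primes) (q : ℕ) [Fact q.Prime]

local notation "Γq" => (PadicAlgCl q ≃ₐ[ℚ_[q]] PadicAlgCl q)

theorem isLevelBasis_levelLocS : IsLevelBasis (levelLocS q S).sets :=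
  LevelCompare13.isLevelBasis_iff.1 (levelLocS q S).isBasis

/-- The S-levels of `Γ_q` are levels. -/
theorem mem_levelLoc_of_mem_levelLocS {V : Subgroup Γq} (hV : V ∈ (levelLocS q S).sets) :
    V ∈ (levelLoc q).sets := by
  obtain ⟨U, hU, rfl⟩ := hV
  exact ⟨U, levelSetS_subset_levelSetAll S hU, rfl⟩

theorem Nloc_le_of_mem_levelLocS {V : Subgroup Γq} (hV : V ∈ (levelLocS q S).sets) :
    Nloc S q ≤ V :=
  (isInfData_loc S q).N_le V hV

theorem isDiscrete_unitsLocS' : IsDiscrete (levelLocS q S).sets (unitsLocS S q).ρ :=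
  isDiscrete_unitsLocS S q

/-- **Fundamental classes at the finite levels of the S-local datum**
`(Γ_q ⧸ V, (((ℚ_S)_q)ˣ)^V)`, `V ∈ levelLocS q S` normal. -/
theorem exists_isFundClass_of_mem_levelLocS {V : Subgroup Γq}
    (hV : V ∈ (levelLocS q S).sets) [hn : V.Normal] (p : ℕ) [Fact p.Prime] :
    ∃ u : groupCohomology.H2 (fixedObj V (unitsLocS S q).ρ),
      Fermat.Agent.PT.FG.Interface8.IsFundClass p (fixedObj V (unitsLocS S q).ρ) u := by
  obtain ⟨u, hu⟩ :=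
    exists_isFundClass_of_mem_levelLoc q (mem_levelLoc_of_mem_levelLocS S q hV) p
  have φ : fixedObj V (unitsLoc q).ρ ≅ fixedObj V (unitsLocS S q).ρ :=
    (fixedObjIso (isInvIncl_inclS S q) V (Nloc_le_of_mem_levelLocS S q hV)).symm
  exact ⟨_, Fermat.Agent.PT.FG.FundClassTransferB2.isFundClass_of_equiv p (MulEquiv.refl (Γq ⧸ V))
    (fixedObj V (unitsLoc q).ρ) (fixedObj V (unitsLocS S q).ρ) φ u hu⟩

variable {p : ℕ} [Fact p.Prime] {A : Type} [AddCommGroup A] [Finite A]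

/-- **LEFT half** of the S-local `(2,0)` package. -/
theorem alphaTwoLeft_locS (ρA : Representation ℤ Γq A)
    (hA : IsDiscrete (levelLocS q S).sets ρA) (hpA : ∀ a : A, p • a = 0) :
    AlphaTwoLeft (HpAt29.freeRes ρA)
      (FreeRes29.isDiscrete_freeRep (isLevelBasis_levelLocS S q) hA) (isLevelBasis_levelLocS S q)
      (unitsLocS S q).ρ (isDiscrete_unitsLocS' S q) p hpA :=
  alphaTwoLeft_freeRes ρA (unitsLocS S q).ρ (isLevelBasis_levelLocS S q) hA hpA
    (isDiscrete_unitsLocS' S q)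
    (fun _ hV hn => haveI := hn; exists_isFundClass_of_mem_levelLocS S q hV p)

/-- The tower condition for the trivialising family of S-levels (`p ∈ S`). -/
theorem hdvd_levelLocS (hpS : (⟨p, Fact.out⟩ : Nat.Primes) ∈ S) {P1 P0 M : Type}
    [AddCommGroup P1] [Module ℤ P1] [AddCommGroup P0] [Module ℤ P0] [AddCommGroup M] [Module ℤ M]
    (R : IndRes20.Res ℤ Γq P1 P0 M) :
    ∀ V ∈ GlobalHypP8.trivFam R (levelLocS q S).sets,
      ∃ V' ∈ GlobalHypP8.trivFam R (levelLocS q S).sets, V' ≤ V ∧ p ∣ V'.relIndex V := by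
  intro V hV
  obtain ⟨V', hV', hle, hn, hdvd⟩ := NKS25.nk_levelLocS q p S hpS V
    (GlobalHypP8.trivFam_sub R (levelLocS q S).sets hV)
  refine ⟨V', ⟨hV', hn (GlobalHypP8.trivFam_normal R (levelLocS q S).sets V hV),
    fun s hs x => GlobalHypP8.trivFam_triv0 R (levelLocS q S).sets V hV s (hle hs) x⟩, hle, hdvd⟩

/-- **RIGHT half** of the S-local `(2,0)` package (`p ∈ S`): the right kernel of
`pair20 : ℍ²(K(P; ((ℚ_S)_q)ˣ)) × H⁰_lev(Γ_q; A) → H²_lev(Γ_q; ((ℚ_S)_q)ˣ)` is trivial. -/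
theorem rightKernelTrivial_locS (hpS : (⟨p, Fact.out⟩ : Nat.Primes) ∈ S)
    (ρA : Representation ℤ Γq A) (hA : IsDiscrete (levelLocS q S).sets ρA)
    (hpA : ∀ a : A, p • a = 0) :
    RightKernelTrivial (HpAt29.freeRes ρA)
      (FreeRes29.isDiscrete_freeRep (isLevelBasis_levelLocS S q) hA) (isLevelBasis_levelLocS S q)
      (unitsLocS S q).ρ (isDiscrete_unitsLocS' S q) :=
  rightKernelTrivial_of_isFundClass (HpAt29.freeRes ρA) (unitsLocS S q).ρ
    (isLevelBasis_levelLocS S q)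
    (FreeRes29.isDiscrete_freeRep (isLevelBasis_levelLocS S q) hA) hpA (isDiscrete_unitsLocS' S q)
    (GlobalHypP8.trivFam_sub (HpAt29.freeRes ρA) (levelLocS q S).sets)
    (GlobalHypP8.trivFam_normal (HpAt29.freeRes ρA) (levelLocS q S).sets)
    (GlobalHypP8.trivFam_cofinal (HpAt29.freeRes ρA) (isLevelBasis_levelLocS S q)
      (FreeRes29.isDiscrete_freeRep (isLevelBasis_levelLocS S q) hA))
    (GlobalHypP8.trivFam_triv0 (HpAt29.freeRes ρA) (levelLocS q S).sets)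
    (fun _ hV hn => haveI := hn; exists_isFundClass_of_mem_levelLocS S q hV p)
    (hdvd_levelLocS S q hpS (HpAt29.freeRes ρA))

/-- **The FULL S-local `(2,0)` duality package for `K(P; ((ℚ_S)_q)ˣ)`** (`p ∈ S`). -/
theorem alphaTwoPackage_locS (hpS : (⟨p, Fact.out⟩ : Nat.Primes) ∈ S)
    (ρA : Representation ℤ Γq A) (hA : IsDiscrete (levelLocS q S).sets ρA)
    (hpA : ∀ a : A, p • a = 0) :
    AlphaTwoPackage (HpAt29.freeRes ρA)
      (FreeRes29.isDiscrete_freeRep (isLevelBasis_levelLocS S q) hA) (isLevelBasis_levelLocS S q)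
      (unitsLocS S q).ρ (isDiscrete_unitsLocS' S q) p hpA :=
  alphaTwoPackage_of_rightKernelTrivial (alphaTwoLeft_locS S q ρA hA hpA)
    (rightKernelTrivial_locS S q hpS ρA hA hpA)

/-- **Numerically**: `#ℍ²(K(P; ((ℚ_S)_q)ˣ)) = #A^{Γ_q}`. -/
theorem cardTwoEq_locS (hpS : (⟨p, Fact.out⟩ : Nat.Primes) ∈ S)
    (ρA : Representation ℤ Γq A) (hA : IsDiscrete (levelLocS q S).sets ρA)
    (hpA : ∀ a : A, p • a = 0) :
    CardTwoEq (HpAt29.freeRes ρA)
      (FreeRes29.isDiscrete_freeRep (isLevelBasis_levelLocS S q) hA) (isLevelBasis_levelLocS S q)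
      (unitsLocS S q).ρ (isDiscrete_unitsLocS' S q) :=
  cardTwoEq_of_package (alphaTwoPackage_locS S q hpS ρA hA hpA)

end Local

/-! ### Generic-`k` wrappers for the Shapiro comparison -/

section Wrapper

open Fermat.Agent.PT.PRO.Setup20 Fermat.Agent.PT.PRO.Objects20 Fermat.Agent.PT.PRO.IndRes20
  Fermat.Agent.PT.PRO.HyperRes25 Fermat.Agent.PT.PRO.Resolved4
  Fermat.Agent.ES.T56.PairTwoZero18 Fermat.Agent.ES.T56.LGTwoZero18

variable {k G Gq : Type} [CommRing k] [Group G] [Group Gq]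
  {𝒰 : Set (Subgroup G)} {𝒰q : Set (Subgroup Gq)}
variable {P1 P0 A Iq W : Type} [AddCommGroup P1] [Module k P1] [AddCommGroup P0] [Module k P0]
  [AddCommGroup A] [Module k A] [AddCommGroup Iq] [Module k Iq] [AddCommGroup W] [Module k W]
variable (R : Res k G P1 P0 A) (h0 : IsDiscrete 𝒰 R.ρ0) [Module.Finite k P0] [Module.Finite k P1]
  (h𝒰 : IsLevelBasis 𝒰) (h𝒰q : IsLevelBasis 𝒰q) (r : Gq →* G) (hr : IsLevelHom r 𝒰q 𝒰)
  {ρIq : Representation k G Iq} (hIq : IsDiscrete 𝒰 ρIq)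
  {ρW : Representation k Gq W} (hW : IsDiscrete 𝒰q ρW)
  (ev : Iq →ₗ[k] W) (hev : ∀ g x, ev (ρIq (r g) x) = ρW g (ev x))

/-- `Λ² = (KXPHom ev).ppℍ2 : ℍ²(G; K(P; I_q)) → ℍ²(G_q; K(P|; W))` is bijective (base modules only:
usable at `k = ℤ`). -/
def Sh2BijAt : Prop :=
  Bijective ((KXPHom R h0 h𝒰 h𝒰q r hr hIq hW ev hev).ppℍ2 hr h𝒰 h𝒰q)

variable {R h0 h𝒰 h𝒰q r hr hIq hW ev hev}

/-- The S-local right kernel from the Shapiro bijection and the right kernel of the local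
datum. -/
theorem localRightKernel_of_sh2Bij (hSh : Sh2BijAt R h0 h𝒰 h𝒰q r hr hIq hW ev hev)
    (hRK : RightKernelTrivial (R.comap r) (comap_disc0 R h0 r hr) h𝒰q ρW hW) :
    LocalRightKernel R h0 h𝒰 h𝒰q r hr hIq hW ev hev := by
  intro y hy
  refine hRK y (fun η => ?_)
  obtain ⟨ξ, rfl⟩ := hSh.2 η
  exact hy ξ

/-- `ℍ²(G; K(P; I_q))` is finite of cardinality `#A^{G_q}`, from the Shapiro bijection and the
count for the local datum. -/
theorem card_of_sh2Bij (hSh : Sh2BijAt R h0 h𝒰 h𝒰q r hr hIq hW ev hev)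
    (hcard : CardTwoEq (R.comap r) (comap_disc0 R h0 r hr) h𝒰q ρW hW) :
    Finite ((KX R h0 h𝒰 ρIq hIq).ℍ2 h𝒰) ∧
      Nat.card ((KX R h0 h𝒰 ρIq hIq).ℍ2 h𝒰) = Nat.card ↥(R.comap r).ρM.invariants := by
  have := hcard.1
  refine ⟨Finite.of_injective _ hSh.1, ?_⟩
  rw [Nat.card_congr (Equiv.ofBijective _ hSh), hcard.2]

/-- The count, as a statement about `R`, `ρIq` (base modules only: usable at `k = ℤ`). -/
def CardTwoLoc (R : Res k G P1 P0 A) (h0 : IsDiscrete 𝒰 R.ρ0) (h𝒰 : IsLevelBasis 𝒰)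
    (r : Gq →* G) (ρIq : Representation k G Iq) (hIq : IsDiscrete 𝒰 ρIq) : Prop :=
  Finite ((KX R h0 h𝒰 ρIq hIq).ℍ2 h𝒰) ∧
    Nat.card ((KX R h0 h𝒰 ρIq hIq).ℍ2 h𝒰) = Nat.card ↥(R.comap r).ρM.invariants

theorem cardTwoLoc_of_sh2Bij (hSh : Sh2BijAt R h0 h𝒰 h𝒰q r hr hIq hW ev hev)
    (hcard : CardTwoEq (R.comap r) (comap_disc0 R h0 r hr) h𝒰q ρW hW) :
    CardTwoLoc R h0 h𝒰 r ρIq hIq :=
  card_of_sh2Bij hSh hcard

end Wrapper

/-! ### The S55 objects -/

section Global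

open Fermat.Agent.PT.PRO.Setup20 Fermat.Agent.PT.PRO.Objects20 Fermat.Agent.PT.PRO.IndRes20
  Fermat.Agent.PT.PRO.LevelEquiv29 Fermat.Agent.ES.T56.LGTwoZero18

variable (S : Finset Nat.Primes) (q : ℕ) [Fact q.Prime]

local notation "Γ" => (AlgebraicClosure ℚ ≃ₐ[ℚ] AlgebraicClosure ℚ)

variable {p : ℕ} [Fact p.Prime] {A : Type} [AddCommGroup A] [Finite A]
  (ρA : Representation ℤ Γ A) (hA : IsDiscrete (levelS S).sets ρA)
  (hIq : IsDiscrete (levelS S).sets (ISq S q).ρ)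

omit [Finite A] in
include hA in
/-- The restriction of `A` to `Γ_q` is discrete for the S-levels. -/
theorem isDiscrete_comp_levelLocS :
    IsDiscrete (levelLocS q S).sets (ρA.comp (localGaloisToGlobal q)) :=
  HyperRes25.IsLevelHom.isDiscrete (LocI13.isLevelHom_levelLocS S q) hA

/-- **The Shapiro half is bijective on `ℍ²`** for the canonical resolution, in wrapper form. -/
theorem sh2BijAt_S :
    Sh2BijAt (HpAt29.freeRes ρA) (FreeRes29.isDiscrete_freeRep (basis (levelS S)) hA)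
      (basis (levelS S)) (isLevelBasis_levelLocS S q) (localGaloisToGlobal q)
      (LocI13.isLevelHom_levelLocS S q) hIq (isDiscrete_unitsLocS' S q) (evqS S q)
      (evqS_ρ S q) :=
  Fermat.Agent.PT.GLUE.LocHyperFinal13.shPHom_ppℍ2_bijective (localGaloisToGlobal q) (levelS S)
    (isInvIncl_inclS S q) (Nloc_le_comap S q)
    (toResolved (HpAt29.freeRes ρA) (FreeRes29.isDiscrete_freeRep (basis (levelS S)) hA))
    (basis (levelS S)) (isLevelBasis_levelLocS S q) (LocI13.isLevelHom_levelLocS S q) hIq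
    (isDiscrete_unitsLocS S q) (LocI13.induced_levelLocS S q)

/-- **The S-local right kernel for the S55 objects** (`p ∈ S`): the hypothesis `hloc` of
`LGTwoZero18.right_kernel_of_local` / `surjective_mapℍ2_of_left` / `alphaTwoPackage_of_local`. -/
theorem localRightKernel_S (hpS : (⟨p, Fact.out⟩ : Nat.Primes) ∈ S) (hpA : ∀ a : A, p • a = 0) :
    LocalRightKernel (HpAt29.freeRes ρA) (FreeRes29.isDiscrete_freeRep (basis (levelS S)) hA)
      (basis (levelS S)) (isLevelBasis_levelLocS S q) (localGaloisToGlobal q)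
      (LocI13.isLevelHom_levelLocS S q) hIq (isDiscrete_unitsLocS' S q) (evqS S q)
      (evqS_ρ S q) :=
  localRightKernel_of_sh2Bij (sh2BijAt_S S q ρA hA hIq)
    (rightKernelTrivial_locS S q hpS (ρA.comp (localGaloisToGlobal q))
      (isDiscrete_comp_levelLocS S q ρA hA) hpA)

/-- **`#ℍ²(Γ; K(P; I_{S,q})) = #A^{Γ_q}`** (`p ∈ S`). -/
theorem cardTwoLoc_S (hpS : (⟨p, Fact.out⟩ : Nat.Primes) ∈ S) (hpA : ∀ a : A, p • a = 0) :
    CardTwoLoc (HpAt29.freeRes ρA) (FreeRes29.isDiscrete_freeRep (basis (levelS S)) hA)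
      (basis (levelS S)) (localGaloisToGlobal q) (ISq S q).ρ hIq :=
  cardTwoLoc_of_sh2Bij (sh2BijAt_S S q ρA hA hIq)
    (cardTwoEq_locS S q hpS (ρA.comp (localGaloisToGlobal q))
      (isDiscrete_comp_levelLocS S q ρA hA) hpA)

end Global

end Fermat.Agent.ES.T56.LocSAlphaTwo18
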