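/-
Programme T (S56), chapter GW, brick 3 (global `(2,0)` duality) — FINAL, helper18.

`GlobAlphaTwoFull18`: **the FULL global `(2,0)` duality for the S55 datum**
`(Γ = Gal(ℚ̄/ℚ), levelS S, C_S)`, UNCONDITIONALLY (`p` odd, `p ∈ S`): for a finite discrete
`𝔽_p[Γ]`-module `A` with canonical resolution `P = HpAt29.freeRes (intRep A)`,

* `hLG_comp`            : `(LG)` for the composite `s_q = toCS ∘ inclq q : I_{S,q} → C_S`;
* `localRightKernel_CS` : the S-local right kernel at the place `q ∈ S` (`LocSAlphaTwo18`);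
* **`alphaTwoPackage_CS`** : `α² = τ ∘ pair20 : ℍ²(K(P; C_S)) → Hom(H⁰_lev(Γ; A), ℤ/p)` is injective
  with trivial right kernel (`GlobAlphaTwo18.AlphaTwoPackage`);
* **`cardTwoEq_CS`**       : `#ℍ²(K(P; C_S)) = #A^Γ`;
* **`surjective_inclq_toCS`** : `(toCS ∘ inclq q)_* : ℍ²(K(P; I_{S,q})) → ℍ²(K(P; C_S))` is ONTO for
  every `q ∈ S`;
* **`surjective_toCS`**    : `ψ_* = toCS_* : ℍ²(K(P; I_S)) → ℍ²(K(P; C_S))` is ONTO
  (item (ii) of `P2Count`);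
* **`cardTwoLoc_ISq`**     : `#ℍ²(Γ; K(P; I_{S,q})) = #A^{Γ_q}` for every `q ∈ S` (item (iii)).

Inputs: (G1) global fundamental classes (`FundLevelFinal2.fundFixed_CS`), (L1) local injectivity
(`LocalInjMain14.localInjectivity` ⇒ `LocalGlobalInst27.hLG_inclq`), local fundamental classes, the
Shapiro bijection (`LocHyperFinal13`), and `p^∞ ∣ #Gal((ℚ_S)_q/ℚ_q)` (helper25's `NKS25`).
-/
import Mathlib
import Fermat.Agent.ES.T56.GlobAlphaTwoCS18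
import Fermat.Agent.ES.T56.LocSAlphaTwo18
import Fermat.Agent.PT.PRO.ProdDict10
import Fermat.Agent.PT.GLUE.LocalGlobalInst27
import Fermat.Agent.PT.GLOB.LocalInjMain14

set_option autoImplicit false

namespace Fermat.Agent.ES.T56.GlobAlphaTwoFull18

open Function ExtCitation
open Fermat.Agent.PT Fermat.Agent.PT.PRO Fermat.Agent.PT.GLUE Fermat.Agent.PT.GLUE.Objects21
open Fermat.Agent.PT.PRO.HyperLevel25 Fermat.Agent.PT.PRO.Resolved4
open Fermat.Agent.PT.PRO.IntRep20 Fermat.Agent.PT.PRO.LevelEquiv29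
open Fermat.Agent.PT.PRO.ProdDict10 Fermat.Agent.PT.GLUE.LevelTheta21
open Fermat.Agent.PT.PRO.IndRes20 Fermat.Agent.PT.PRO.Setup20 Fermat.Agent.PT.PRO.Objects20
open Fermat.Agent.PT.GLUE.LocHyper13
open Fermat.Agent.ES.T56.GlobAlphaTwo18 Fermat.Agent.ES.T56.FinTN20Fund18
  Fermat.Agent.ES.T56.GlobAlphaTwoCS18 Fermat.Agent.ES.T56.LocSAlphaTwo18
  Fermat.Agent.ES.T56.LGTwoZero18 Fermat.Agent.ES.T56.LocAlphaTwoR2

/-! ### Generic: composition on plain level `H²` and surjectivity of a composite -/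

section Generic

variable {k G : Type} [CommRing k] [Group G] {𝒰 : Set (Subgroup G)}
variable {X Y Z : Type} [AddCommGroup X] [Module k X] [AddCommGroup Y] [Module k Y]
  [AddCommGroup Z] [Module k Z]
variable (h𝒰 : IsLevelBasis 𝒰)
variable {ρX : Representation k G X} {ρY : Representation k G Y} {ρZ : Representation k G Z}
variable (hX : IsDiscrete 𝒰 ρX) (hY : IsDiscrete 𝒰 ρY) (hZ : IsDiscrete 𝒰 ρZ)

/-- `ψ_* ∘ φ_* = (ψ ∘ φ)_*` on plain level `H²`. -/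
theorem lvl_mapH2_comp (φ : X →ₗ[k] Y) (hφ : ∀ g a, φ (ρX g a) = ρY g (φ a))
    (ψ : Y →ₗ[k] Z) (hψ : ∀ g b, ψ (ρY g b) = ρZ g (ψ b))
    (χ : X →ₗ[k] Z) (hχ : ∀ g a, χ (ρX g a) = ρZ g (χ a)) (hcomp : ∀ a, ψ (φ a) = χ a)
    (w : Hlev2 h𝒰 ρX hX) :
    (lvlHom h𝒰 hY hZ ψ hψ).mapH2 ((lvlHom h𝒰 hX hY φ hφ).mapH2 w) =
      (lvlHom h𝒰 hX hZ χ hχ).mapH2 w := by
  obtain ⟨z, rfl⟩ := (lvl h𝒰 ρX hX).π2_surjective w
  rw [Cpx.Hom.mapH2_π2, Cpx.Hom.mapH2_π2, Cpx.Hom.mapH2_π2]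
  congr 1
  apply Subtype.ext
  apply Subtype.ext
  funext x
  exact hcomp _

variable {P1 P0 A : Type} [AddCommGroup P1] [Module k P1] [AddCommGroup P0] [Module k P0]
  [AddCommGroup A] [Module k A] (R : Res k G P1 P0 A) (h0 : IsDiscrete 𝒰 R.ρ0)
  [Module.Finite k P0] [Module.Finite k P1]

/-- If `(ψ ∘ φ)_*` is onto on `ℍ²(K(P; ·))` then so is `ψ_*` (base modules only: usable at
`k = ℤ`). -/
theorem surjective_of_comp (φ : X →ₗ[k] Y) (hφ : ∀ g a, φ (ρX g a) = ρY g (φ a))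
    (ψ : Y →ₗ[k] Z) (hψ : ∀ g b, ψ (ρY g b) = ρZ g (ψ b))
    (χ : X →ₗ[k] Z) (hχ : ∀ g a, χ (ρX g a) = ρZ g (χ a)) (hcomp : ∀ a, ψ (φ a) = χ a)
    (h : Surjective ((KXmap R h0 h𝒰 hX hZ χ hχ).mapℍ2 h𝒰)) :
    Surjective ((KXmap R h0 h𝒰 hY hZ ψ hψ).mapℍ2 h𝒰) := by
  intro η
  obtain ⟨ξ, hξ⟩ := h η
  refine ⟨(KXmap R h0 h𝒰 hX hY φ hφ).mapℍ2 h𝒰 ξ, ?_⟩
  rw [KXmap_mapℍ2_comp R h0 h𝒰 hX hY hZ φ hφ ψ hψ χ hχ hcomp ξ, hξ]

/-- Surjectivity of `ψ_*` on `ℍ²(K(P; ·))`, as a statement about `R` and the coefficient map (base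
modules only: usable at `k = ℤ`). -/
def SurjTwoAt (ψ : Y →ₗ[k] Z) (hψ : ∀ g b, ψ (ρY g b) = ρZ g (ψ b)) : Prop :=
  Surjective ((KXmap R h0 h𝒰 hY hZ ψ hψ).mapℍ2 h𝒰)

end Generic

/-! ### The S55 objects -/

local notation "Γ" => (AlgebraicClosure ℚ ≃ₐ[ℚ] AlgebraicClosure ℚ)

variable {p : ℕ} [Fact p.Prime] (S : Finset Nat.Primes) (A : Rep.{0} (ZMod p) Γ)

/-- The composite `s_q = toCS ∘ inclq q : I_{S,q} → C_S`. -/
noncomputable def sq (q : ↥S) : ISq S ((q : Nat.Primes) : ℕ) →ₗ[ℤ] CS S :=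
  (toCS S).comp (inclq S q)

theorem sq_ρ (q : ↥S) (g : Γ) (x : ISq S ((q : Nat.Primes) : ℕ)) :
    sq S q ((ISq S ((q : Nat.Primes) : ℕ)).ρ g x) = (CS S).ρ g (sq S q x) := by
  show toCS S (inclq S q _) = _
  rw [inclq_ρ, toCS_ρ]
  rfl

/-- **(LG)** for the composite `s_q`. -/
theorem hLG_comp (hp2 : p ≠ 2) (hpS : pPrime p ∈ S) (q : ↥S)
    (w : Hlev2 (basis (levelS S)) (ISq S ((q : Nat.Primes) : ℕ)).ρ (isDiscrete_ISq' S q))
    (hpw : p • w = 0)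
    (hw : (lvlHom (basis (levelS S)) (isDiscrete_ISq' S q) (isDiscrete_CS S) (sq S q)
      (sq_ρ S q)).mapH2 w = 0) : w = 0 := by
  have hp : p.Prime := Fact.out
  refine LocalGlobalInst27.hLG_inclq S p hp hp2 ⟨pPrime p, hpS, rfl⟩
    (GLOB.LocalInjMain14.localInjectivity p S) (basis (levelS S)) (isDiscrete_ISq' S)
    (isDiscrete_IS' S) (isDiscrete_CS S) q w hpw ?_
  rw [lvl_mapH2_comp (basis (levelS S)) (isDiscrete_ISq' S q) (isDiscrete_IS' S) (isDiscrete_CS S)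
    (inclq S q) (inclq_ρ S q) (toCS S) (toCS_ρ S) (sq S q) (sq_ρ S q) (fun _ => rfl) w]
  exact hw

variable [Finite A]

/-- **The S-local right kernel at `q ∈ S`** for the S55 objects. -/
theorem localRightKernel_CS (hpS : pPrime p ∈ S) (hA : IsDiscrete (levelS S).sets (intRep A))
    (q : ↥S) :
    LocalRightKernel (HpAt29.freeRes (intRep A))
      (FreeRes29.isDiscrete_freeRep (basis (levelS S)) hA) (basis (levelS S))
      (isLevelBasis_levelLocS S ((q : Nat.Primes) : ℕ))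
      (localGaloisToGlobal ((q : Nat.Primes) : ℕ))
      (LocI13.isLevelHom_levelLocS S ((q : Nat.Primes) : ℕ)) (isDiscrete_ISq' S q)
      (isDiscrete_unitsLocS' S ((q : Nat.Primes) : ℕ)) (evqS S ((q : Nat.Primes) : ℕ))
      (evqS_ρ S ((q : Nat.Primes) : ℕ)) :=
  localRightKernel_S S ((q : Nat.Primes) : ℕ) (intRep A) hA (isDiscrete_ISq' S q) hpS (hpA A)

/-- **The FULL global `(2,0)` duality package for `K(P; C_S)`**: `α² = τ ∘ pair20` is injective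
with trivial right kernel.  Unconditional for `p` odd, `p ∈ S`. -/
theorem alphaTwoPackage_CS (hp2 : p ≠ 2) (hpS : pPrime p ∈ S)
    (hA : IsDiscrete (levelS S).sets (intRep A)) :
    AlphaTwoPackage (HpAt29.freeRes (intRep A))
      (FreeRes29.isDiscrete_freeRep (basis (levelS S)) hA) (basis (levelS S)) (CS S).ρ
      (isDiscrete_CS S) p (hpA A) :=
  alphaTwoPackage_of_local (HpAt29.freeRes (intRep A))
    (FreeRes29.isDiscrete_freeRep (basis (levelS S)) hA) (basis (levelS S))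
    (isLevelBasis_levelLocS S p) (localGaloisToGlobal p) (LocI13.isLevelHom_levelLocS S p)
    (isDiscrete_ISq' S ⟨pPrime p, hpS⟩) (isDiscrete_CS S) (isDiscrete_unitsLocS' S p)
    (sq S ⟨pPrime p, hpS⟩) (sq_ρ S ⟨pPrime p, hpS⟩) (evqS S p) (evqS_ρ S p) p (hpA A)
    (alphaTwoLeft_CS S A hp2 hpS hA) (hLG_comp S hp2 hpS ⟨pPrime p, hpS⟩)
    (localRightKernel_CS S A hpS hA ⟨pPrime p, hpS⟩)

/-- **Numerically**: `#ℍ²(K(P; C_S)) = #A^Γ`. -/
theorem cardTwoEq_CS (hp2 : p ≠ 2) (hpS : pPrime p ∈ S)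
    (hA : IsDiscrete (levelS S).sets (intRep A)) :
    CardTwoEq (HpAt29.freeRes (intRep A))
      (FreeRes29.isDiscrete_freeRep (basis (levelS S)) hA) (basis (levelS S)) (CS S).ρ
      (isDiscrete_CS S) :=
  cardTwoEq_of_package (alphaTwoPackage_CS S A hp2 hpS hA)

/-- **`(toCS ∘ inclq q)_* : ℍ²(K(P; I_{S,q})) → ℍ²(K(P; C_S))` is ONTO** for every `q ∈ S`. -/
theorem surjective_inclq_toCS (hp2 : p ≠ 2) (hpS : pPrime p ∈ S)
    (hA : IsDiscrete (levelS S).sets (intRep A)) (q : ↥S) :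
    SurjTwoAt (basis (levelS S)) (isDiscrete_ISq' S q) (isDiscrete_CS S)
      (HpAt29.freeRes (intRep A)) (FreeRes29.isDiscrete_freeRep (basis (levelS S)) hA)
      (sq S q) (sq_ρ S q) :=
  surjective_mapℍ2_of_left (HpAt29.freeRes (intRep A))
    (FreeRes29.isDiscrete_freeRep (basis (levelS S)) hA) (basis (levelS S))
    (isLevelBasis_levelLocS S ((q : Nat.Primes) : ℕ))
    (localGaloisToGlobal ((q : Nat.Primes) : ℕ))
    (LocI13.isLevelHom_levelLocS S ((q : Nat.Primes) : ℕ))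
    (isDiscrete_ISq' S q) (isDiscrete_CS S) (isDiscrete_unitsLocS' S ((q : Nat.Primes) : ℕ))
    (sq S q) (sq_ρ S q) (evqS S ((q : Nat.Primes) : ℕ)) (evqS_ρ S ((q : Nat.Primes) : ℕ)) p
    (hpA A) (alphaTwoLeft_CS S A hp2 hpS hA) (hLG_comp S hp2 hpS q)
    (localRightKernel_CS S A hpS hA q)

/-- **`ψ_* = toCS_* : ℍ²(K(P; I_S)) → ℍ²(K(P; C_S))` is ONTO** (item (ii) of `P2Count`). -/
theorem surjective_toCS (hp2 : p ≠ 2) (hpS : pPrime p ∈ S)
    (hA : IsDiscrete (levelS S).sets (intRep A)) :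
    SurjTwoAt (basis (levelS S)) (isDiscrete_IS' S) (isDiscrete_CS S)
      (HpAt29.freeRes (intRep A)) (FreeRes29.isDiscrete_freeRep (basis (levelS S)) hA)
      (toCS S) (toCS_ρ S) :=
  surjective_of_comp (basis (levelS S)) (isDiscrete_ISq' S ⟨pPrime p, hpS⟩) (isDiscrete_IS' S)
    (isDiscrete_CS S) (HpAt29.freeRes (intRep A))
    (FreeRes29.isDiscrete_freeRep (basis (levelS S)) hA)
    (inclq S ⟨pPrime p, hpS⟩) (inclq_ρ S ⟨pPrime p, hpS⟩) (toCS S) (toCS_ρ S)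
    (sq S ⟨pPrime p, hpS⟩) (sq_ρ S ⟨pPrime p, hpS⟩) (fun _ => rfl)
    (surjective_inclq_toCS S A hp2 hpS hA ⟨pPrime p, hpS⟩)

/-- **`#ℍ²(Γ; K(P; I_{S,q})) = #A^{Γ_q}`** for every `q ∈ S` (item (iii) of `P2Count`). -/
theorem cardTwoLoc_ISq (hpS : pPrime p ∈ S) (hA : IsDiscrete (levelS S).sets (intRep A))
    (q : ↥S) :
    CardTwoLoc (HpAt29.freeRes (intRep A)) (FreeRes29.isDiscrete_freeRep (basis (levelS S)) hA)
      (basis (levelS S)) (localGaloisToGlobal ((q : Nat.Primes) : ℕ))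
      (ISq S ((q : Nat.Primes) : ℕ)).ρ (isDiscrete_ISq' S q) :=
  cardTwoLoc_S S ((q : Nat.Primes) : ℕ) (intRep A) hA (isDiscrete_ISq' S q) hpS (hpA A)

end Fermat.Agent.ES.T56.GlobAlphaTwoFull18
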