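/-
Programme T (S56), chapter GW, brick 10 (`BaseLocChi`), sub-brick (P2), abstract half (helper5).

**The Kummer bound for level homomorphisms.**  Let `Ω/K` be a Galois extension, `E` a finite subextension
containing a primitive `p`-th root of unity `ζ`, `N = Gal(Ω/E) = E.fixingSubgroup`.  A *level homomorphism* is an
additive `f : N → ZMod p` which is right-invariant under `N ∩ Gal(Ω/E')` for some finite subextension `E'`.

* `exists_gen` : such an `f` has a Kummer generator `β ∈ Ωˣ`: `ζ ^ f n = n β / β` for `n ∈ N`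
  (helper17's `KumH90_17.exists_kummer_gen` applied to the extension of `f` by zero), and
  `β ^ p ∈ E` (`InfiniteGalois.fixedField_fixingSubgroup`);
* `kumClass_injective` : `f ↦ [β ^ p] ∈ Eˣ/(Eˣ)^p` is injective (`KumH90_17.exists_coboundary_of_pow_eq`);
* `finite_levelHom`, `card_levelHom_le` : the set of level homomorphisms is finite of cardinality
  `≤ #(Eˣ/(Eˣ)^p)` as soon as the latter is finite (stated for any subgroup `N` with `N = E.fixingSubgroup`).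
-/
import Mathlib
import Fermat.Agent.ES.T56.KumH90_17

set_option autoImplicit false

namespace Fermat.Agent.ES.T56.KumHomBound5

open Fermat.Agent.ES.T56.KumH90_17

variable {K Ω : Type*} [Field K] [Field Ω] [Algebra K Ω]

/-- A level homomorphism `N → ZMod p`, `N` a subgroup of `Gal(Ω/K)`. -/
def IsLevelHom (N : Subgroup (Ω ≃ₐ[K] Ω)) (p : ℕ) (f : ↥N → ZMod p) : Prop :=
  (∀ a b, f (a * b) = f a + f b) ∧
    ∃ E' : IntermediateField K Ω, FiniteDimensional K E' ∧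
      ∀ g s : ↥N, (s : Ω ≃ₐ[K] Ω) ∈ E'.fixingSubgroup → f (g * s) = f g

/-- Extension by zero of a function on `N` to `Gal(Ω/K)`. -/
noncomputable def ext0 (N : Subgroup (Ω ≃ₐ[K] Ω)) {p : ℕ} (f : ↥N → ZMod p) :
    (Ω ≃ₐ[K] Ω) → ZMod p :=
  fun g => by
    classical
    exact if h : g ∈ N then f ⟨g, h⟩ else 0

theorem ext0_of_mem (N : Subgroup (Ω ≃ₐ[K] Ω)) {p : ℕ} (f : ↥N → ZMod p)
    {g : Ω ≃ₐ[K] Ω} (h : g ∈ N) : ext0 N f g = f ⟨g, h⟩ := by
  unfold ext0
  exact dif_pos h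

theorem ext0_of_not_mem (N : Subgroup (Ω ≃ₐ[K] Ω)) {p : ℕ} (f : ↥N → ZMod p)
    {g : Ω ≃ₐ[K] Ω} (h : g ∉ N) : ext0 N f g = 0 := by
  unfold ext0
  exact dif_neg h

theorem smul_eq_of_mem (E : IntermediateField K Ω) {u : Ωˣ} (hu : (u : Ω) ∈ E) {n : Ω ≃ₐ[K] Ω}
    (hn : n ∈ E.fixingSubgroup) : n • u = u := by
  apply Units.ext
  show n (u : Ω) = u
  exact (IntermediateField.mem_fixingSubgroup_iff E n).1 hn _ hu

theorem hchi_one (E : IntermediateField K Ω) (p : ℕ) [Fact p.Prime] {ζ : Ωˣ} (hζE : (ζ : Ω) ∈ E) :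
    ∀ n ∈ E.fixingSubgroup, n • ζ = ζ ^ ((fun _ => 1 : (Ω ≃ₐ[K] Ω) → ZMod p) n).val := by
  intro n hn
  have h1 : ((1 : ZMod p)).val = 1 := by
    have : Fact (1 < p) := ⟨(Fact.out : p.Prime).one_lt⟩
    exact ZMod.val_one p
  show n • ζ = ζ ^ ((1 : ZMod p)).val
  rw [h1, pow_one]
  exact smul_eq_of_mem E hζE hn

variable [IsGalois K Ω] (E : IntermediateField K Ω) [FiniteDimensional K E] (p : ℕ) [Fact p.Prime]
  {ζ : Ωˣ} (hζ : IsPrimitiveRoot ζ p) (hζE : (ζ : Ω) ∈ E)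

include hζ hζE in
/-- Kummer generator of a level homomorphism on `Gal(Ω/E)`. -/
theorem exists_gen {f : ↥E.fixingSubgroup → ZMod p} (hf : IsLevelHom E.fixingSubgroup p f) :
    ∃ x : Ωˣ × (↥E)ˣ,
      (∀ n ∈ E.fixingSubgroup, zetaPow ζ (ext0 E.fixingSubgroup f n) = n • x.1 / x.1) ∧
        (((x.2 : (↥E)ˣ) : ↥E) : Ω) = (x.1 : Ω) ^ p := by
  obtain ⟨hadd, E', hE'fin, hE'⟩ := hf
  have := hE'fin
  have hgen := exists_kummer_gen E.fixingSubgroup hζ (fun _ => (1 : ZMod p)) (hchi_one E p hζE)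
    (ext0 E.fixingSubgroup f)
    ⟨E' ⊔ E, IntermediateField.finiteDimensional_sup _ _, fun g s hs => by
      have hsE : s ∈ E.fixingSubgroup :=
        IntermediateField.fixingSubgroup_antitone (le_sup_right : E ≤ E' ⊔ E) hs
      have hsE' : s ∈ E'.fixingSubgroup :=
        IntermediateField.fixingSubgroup_antitone (le_sup_left : E' ≤ E' ⊔ E) hs
      by_cases hg : g ∈ E.fixingSubgroup
      · rw [ext0_of_mem _ f (mul_mem hg hsE), ext0_of_mem _ f hg]
        exact hE' ⟨g, hg⟩ ⟨s, hsE⟩ hsE'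
      · have hgs : g * s ∉ E.fixingSubgroup := fun h => hg (by
          have := mul_mem h (inv_mem hsE)
          rwa [mul_inv_cancel_right] at this)
        rw [ext0_of_not_mem _ f hgs, ext0_of_not_mem _ f hg]⟩
    (fun n hn n' hn' => by
      rw [ext0_of_mem _ f (mul_mem hn hn'), ext0_of_mem _ f hn, ext0_of_mem _ f hn', one_mul]
      exact hadd ⟨n, hn⟩ ⟨n', hn'⟩)
  obtain ⟨β, hβ⟩ := hgen
  have hfix : ∀ n ∈ E.fixingSubgroup, n • (β ^ p) = β ^ p := fun n hn =>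
    pow_fixed E.fixingSubgroup hζ hβ hn
  have hmem : ((β ^ p : Ωˣ) : Ω) ∈ E := by
    have h := InfiniteGalois.fixedField_fixingSubgroup E
    rw [← h, IntermediateField.mem_fixedField_iff]
    intro n hn
    have := congrArg (fun u : Ωˣ => (u : Ω)) (hfix n hn)
    exact this
  have hne : (⟨((β ^ p : Ωˣ) : Ω), hmem⟩ : ↥E) ≠ 0 := by
    intro h0
    have := congrArg (fun y : ↥E => (y : Ω)) h0
    exact (β ^ p).ne_zero this
  refine ⟨(β, Units.mk0 ⟨((β ^ p : Ωˣ) : Ω), hmem⟩ hne), hβ, ?_⟩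
  show ((β ^ p : Ωˣ) : Ω) = (β : Ω) ^ p
  exact Units.val_pow_eq_pow_val β p

/-- The Kummer class `[β ^ p] ∈ Eˣ/(Eˣ)^p` of a level homomorphism (a choice of generator). -/
noncomputable def kumClass
    (f : {f : ↥E.fixingSubgroup → ZMod p // IsLevelHom E.fixingSubgroup p f}) :
    (↥E)ˣ ⧸ (powMonoidHom p : (↥E)ˣ →* (↥E)ˣ).range :=
  QuotientGroup.mk (Classical.choose (exists_gen E p hζ hζE f.2)).2

include hζ hζE in
theorem kumClass_injective : Function.Injective (kumClass E p hζ hζE) := by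
  rintro ⟨f, hf⟩ ⟨f', hf'⟩ h
  apply Subtype.ext
  show f = f'
  obtain ⟨hβ, hb⟩ := Classical.choose_spec (exists_gen E p hζ hζE hf)
  obtain ⟨hβ', hb'⟩ := Classical.choose_spec (exists_gen E p hζ hζE hf')
  set x := Classical.choose (exists_gen E p hζ hζE hf) with hx
  set x' := Classical.choose (exists_gen E p hζ hζE hf') with hx'
  have h' : (QuotientGroup.mk x.2 : (↥E)ˣ ⧸ (powMonoidHom p : (↥E)ˣ →* (↥E)ˣ).range) =
      QuotientGroup.mk x'.2 := h
  rw [QuotientGroup.eq] at h'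
  obtain ⟨c, hc⟩ := h'
  -- `x'.2 = x.2 * c ^ p`
  have hc' : x'.2 = x.2 * c ^ p := by
    have : c ^ p = x.2⁻¹ * x'.2 := hc
    rw [this, mul_inv_cancel_left]
  let cΩ : Ωˣ := Units.map (algebraMap ↥E Ω : ↥E →* Ω) c
  have hcΩ : (cΩ : Ω) = ((c : ↥E) : Ω) := rfl
  have hpow : x'.1 ^ p = x.1 ^ p * cΩ ^ p := by
    apply Units.ext
    rw [Units.val_mul, Units.val_pow_eq_pow_val, Units.val_pow_eq_pow_val,
      Units.val_pow_eq_pow_val, ← hb', ← hb, hcΩ, hc']
    push_cast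
    rfl
  have hcfix : ∀ n ∈ E.fixingSubgroup, n • cΩ = cΩ := fun n hn =>
    smul_eq_of_mem E (by rw [hcΩ]; exact (c : ↥E).2) hn
  obtain ⟨m, hm⟩ := exists_coboundary_of_pow_eq E.fixingSubgroup hζ (fun _ => (1 : ZMod p))
    (hchi_one E p hζE) hβ' hβ hcfix hpow
  funext n
  have := hm n.1 n.2
  rw [one_mul] at this
  have h2 := add_right_cancel this
  rw [ext0_of_mem _ f' n.2, ext0_of_mem _ f n.2] at h2
  exact h2.symm

include hζ hζE in
/-- The set of level homomorphisms is finite when `Eˣ/(Eˣ)^p` is. -/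
theorem finite_levelHom [Finite ((↥E)ˣ ⧸ (powMonoidHom p : (↥E)ˣ →* (↥E)ˣ).range)]
    (N : Subgroup (Ω ≃ₐ[K] Ω)) (hN : N = E.fixingSubgroup) :
    Finite {f : ↥N → ZMod p // IsLevelHom N p f} := by
  subst hN
  exact Finite.of_injective _ (kumClass_injective E p hζ hζE)

include hζ hζE in
/-- **The Kummer bound**: `#{level homomorphisms Gal(Ω/E) → ZMod p} ≤ #(Eˣ/(Eˣ)^p)`. -/
theorem card_levelHom_le [Finite ((↥E)ˣ ⧸ (powMonoidHom p : (↥E)ˣ →* (↥E)ˣ).range)]
    (N : Subgroup (Ω ≃ₐ[K] Ω)) (hN : N = E.fixingSubgroup) :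
    Nat.card {f : ↥N → ZMod p // IsLevelHom N p f} ≤
      Nat.card ((↥E)ˣ ⧸ (powMonoidHom p : (↥E)ˣ →* (↥E)ˣ).range) := by
  subst hN
  exact Nat.card_le_card_of_injective _ (kumClass_injective E p hζ hζE)

end Fermat.Agent.ES.T56.KumHomBound5
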