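/-
Programme T (S56), chapter GW-D / brick 10a (`BaseLocChi`), leaf `LocPowIndex5` (helper5):
THE EXACT LOCAL `p`-POWER INDEX in the LOC model (`E : Type`, `[Field E] [Algebra ℚ_[q] E]
[FiniteDimensional ℚ_[q] E]`, `𝒪 = intRing q E`), `p` an odd prime, `q` any prime:

  `[Eˣ : Eˣ^p] = p · q^{[E:ℚ_q]·[q = p]} · #μ_p(E)`,   `#μ_p(E) = p` or `1`.

* `isAdicComplete_span_q`  : `𝒪` is `q`-adically complete (`(q) = 𝔪^e`);
* `card_quotient_span_q`   : `#(𝒪/q𝒪) = q^{[E:ℚ_q]}` (`𝒪` is `ℤ_q`-free of rank `[E:ℚ_q]`);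
* `index_powRange_intRing` : `[𝒪ˣ : 𝒪ˣ^p] = q^{[E:ℚ_q]·[q = p]} · #𝒪ˣ[p]` (main's
  `PT/GLOB/LocalPowerIndex5.index_powRange_units`);
* `kerOrdEquiv`            : `ker ord ≃* 𝒪ˣ`;
* `index_powRange_field`, `card_quotient_powRange_field`, `card_quotient_powRange_field_ite`;
* `card_powKer_eq_ite`     : `#{x ∈ Fˣ | x^p = 1} = p` if `F` has a primitive `p`-th root of unity,
  `1` otherwise (any field `F`).
-/
import Mathlib
import Fermat.Agent.PT.LOC.Interface12
import Fermat.Agent.PT.LOC.Structure14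
import Fermat.Agent.PT.LOC.StructureNorm14
import Fermat.Agent.PT.LOC.StructureTower27
import Fermat.Agent.PT.GLOB.LocalPowerIndex5
import Fermat.Agent.ES.T56.UnitRootLoc4

set_option autoImplicit false
set_option linter.unusedSectionVars false

open scoped Fermat.Agent.PT.LOC.Interface12 Fermat.Agent.PT.LOC.StructureTower27
open Fermat.Agent.PT.LOC.Interface12 Fermat.Agent.PT.LOC.Structure14
  Fermat.Agent.PT.LOC.StructureNorm14 Fermat.Agent.PT.LOC.StructureTower27
  Fermat.Agent.ES.T56.UnitLevelLoc4 Fermat.Agent.ES.T56.UnitRootLoc4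
  Fermat.Agent.PT.GLOB.LocalPowerIndex5

namespace Fermat.Agent.ES.T56.LocPowIndex5

noncomputable section

variable (q : ℕ) [hq : Fact q.Prime] (E : Type) [Field E] [Algebra ℚ_[q] E]
  [FiniteDimensional ℚ_[q] E]

/-! ### `𝒪` is `q`-adically complete -/

theorem span_q_le_maximalIdeal :
    Ideal.span {(q : intRing q E)} ≤ IsLocalRing.maximalIdeal (intRing q E) := by
  rw [Ideal.span_singleton_le_iff_mem, ← maxId_eq_maximalIdeal]
  exact natCast_mem_maxId q E

theorem maximalIdeal_pow_le_span_q :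
    IsLocalRing.maximalIdeal (intRing q E) ^ ramE q E ≤ Ideal.span {(q : intRing q E)} := by
  obtain ⟨ϖ, hϖ⟩ := IsDiscreteValuationRing.exists_irreducible (intRing q E)
  obtain ⟨u, hu⟩ := exists_natCast_eq q E hϖ
  rw [hϖ.maximalIdeal_eq, Ideal.span_singleton_pow, Ideal.span_singleton_le_iff_mem,
    Ideal.mem_span_singleton]
  refine ⟨((u⁻¹ : (intRing q E)ˣ) : intRing q E), ?_⟩
  rw [hu, mul_assoc, Units.mul_inv, mul_one]

theorem isAdicComplete_span_q :
    IsAdicComplete (Ideal.span {(q : intRing q E)}) (intRing q E) := by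
  have h1 : IsHausdorff (Ideal.span {(q : intRing q E)}) (intRing q E) :=
    P2MW.S_IsLocalRing_isAdicComplete_of_module_finite.M4cP1X1.isHausdorff_of_le
      (span_q_le_maximalIdeal q E)
  have h2 : IsPrecomplete (Ideal.span {(q : intRing q E)}) (intRing q E) :=
    P2MW.S_IsLocalRing_isAdicComplete_of_module_finite.M4cP1X1.isPrecomplete_of_pow_le_of_le
      (span_q_le_maximalIdeal q E) (maximalIdeal_pow_le_span_q q E)
  exact { toIsHausdorff := h1, toIsPrecomplete := h2 }

theorem natCast_q_ne_zero : (q : intRing q E) ≠ 0 := by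
  intro h
  have h1 := congrArg (fun x : intRing q E => (x : E)) h
  simp only [SubringClass.coe_natCast, ZeroMemClass.coe_zero] at h1
  exact natCast_ne_zero q E h1

theorem natCast_q_regular (x : intRing q E) (h : (q : intRing q E) * x = 0) : x = 0 :=
  (mul_eq_zero.1 h).resolve_left (natCast_q_ne_zero q E)

/-! ### `#(𝒪 / q𝒪) = q ^ [E : ℚ_q]` -/

theorem free_intRing : Module.Free ℤ_[q] (intRing q E) :=
  IsIntegralClosure.module_free ℤ_[q] ℚ_[q] E (intRing q E)

theorem finrank_intRing : Module.finrank ℤ_[q] (intRing q E) = Module.finrank ℚ_[q] E :=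
  IsIntegralClosure.rank ℤ_[q] ℚ_[q] E (intRing q E)

/-- The index set of a `ℤ_q`-basis of `𝒪`. -/
abbrev Idx : Type :=
  @Module.Free.ChooseBasisIndex ℤ_[q] (intRing q E) _ _ _ (free_intRing q E)

/-- Coordinates with respect to a `ℤ_q`-basis of `𝒪`. -/
def coordEquiv : intRing q E ≃ₗ[ℤ_[q]] (Idx q E →₀ ℤ_[q]) :=
  (@Module.Free.chooseBasis ℤ_[q] (intRing q E) _ _ _ (free_intRing q E)).repr

theorem coordEquiv_natCast_mul (n : ℕ) (x : intRing q E) :
    coordEquiv q E ((n : intRing q E) * x) = n • coordEquiv q E x := by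
  rw [← nsmul_eq_mul, map_nsmul]

/-- Reduction modulo `q` in coordinates. -/
def redInt : intRing q E →+ (Idx q E → ZMod q) where
  toFun x i := PadicInt.toZMod (coordEquiv q E x i)
  map_zero' := by
    funext i
    simp
  map_add' x y := by
    funext i
    simp

theorem redInt_apply (x : intRing q E) (i : Idx q E) :
    redInt q E x i = PadicInt.toZMod (coordEquiv q E x i) := rfl

theorem redInt_surjective : Function.Surjective (redInt q E) := by
  intro g
  have hs : ∀ i, ∃ c : ℤ_[q], PadicInt.toZMod c = g i := fun i =>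
    ZMod.ringHom_surjective PadicInt.toZMod (g i)
  choose c hc using hs
  refine ⟨(coordEquiv q E).symm (Finsupp.equivFunOnFinite.symm c), ?_⟩
  funext i
  rw [redInt_apply, LinearEquiv.apply_symm_apply, Finsupp.coe_equivFunOnFinite_symm, hc]

theorem toZMod_eq_zero_iff (c : ℤ_[q]) :
    PadicInt.toZMod c = 0 ↔ ∃ w : ℤ_[q], c = (q : ℤ_[q]) * w := by
  rw [← RingHom.mem_ker, PadicInt.ker_toZMod, PadicInt.maximalIdeal_eq_span_p,
    Ideal.mem_span_singleton']
  constructor
  · rintro ⟨w, hw⟩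
    exact ⟨w, by rw [← hw, mul_comm]⟩
  · rintro ⟨w, hw⟩
    exact ⟨w, by rw [hw, mul_comm]⟩

theorem ker_redInt :
    (redInt q E).ker = (Ideal.span {(q : intRing q E)}).toAddSubgroup := by
  ext x
  rw [AddMonoidHom.mem_ker, Submodule.mem_toAddSubgroup, Ideal.mem_span_singleton']
  constructor
  · intro h
    have h1 : ∀ i, ∃ w : ℤ_[q], coordEquiv q E x i = (q : ℤ_[q]) * w := fun i =>
      (toZMod_eq_zero_iff q _).mp (congrFun h i)
    choose w hw using h1
    refine ⟨(coordEquiv q E).symm (Finsupp.equivFunOnFinite.symm w), ?_⟩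
    apply (coordEquiv q E).injective
    rw [mul_comm, coordEquiv_natCast_mul, LinearEquiv.apply_symm_apply]
    ext i
    rw [Finsupp.smul_apply, Finsupp.coe_equivFunOnFinite_symm, nsmul_eq_mul, hw i]
  · rintro ⟨y, rfl⟩
    funext i
    rw [redInt_apply, mul_comm, coordEquiv_natCast_mul, Finsupp.smul_apply, nsmul_eq_mul, map_mul,
      map_natCast, ZMod.natCast_self, zero_mul]
    rfl

/-- `#(𝒪 / q 𝒪) = q ^ [E : ℚ_q]`. -/
theorem card_quotient_span_q :
    Nat.card (intRing q E ⧸ Ideal.span {(q : intRing q E)}) = q ^ Module.finrank ℚ_[q] E := by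
  have h1 : Nat.card (intRing q E ⧸ Ideal.span {(q : intRing q E)}) =
      (Ideal.span {(q : intRing q E)}).toAddSubgroup.index := rfl
  rw [h1, ← ker_redInt, AddSubgroup.index_ker,
    AddMonoidHom.range_eq_top.mpr (redInt_surjective q E),
    Nat.card_congr (AddSubgroup.topEquiv (G := Idx q E → ZMod q)).toEquiv, Nat.card_pi]
  simp only [Nat.card_zmod, Finset.prod_const, Finset.card_univ]
  rw [← finrank_intRing, Module.finrank_eq_card_chooseBasisIndex]

theorem finite_quotient_span_q : Finite (intRing q E ⧸ Ideal.span {(q : intRing q E)}) := by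
  apply Nat.finite_of_card_ne_zero
  rw [card_quotient_span_q]
  exact pow_ne_zero _ hq.out.ne_zero

/-- **Index of `p`-th powers in `𝒪ˣ`.** -/
theorem index_powRange_intRing {p : ℕ} (hp : p.Prime) (hp2 : p ≠ 2) :
    (powMonoidHom (α := (intRing q E)ˣ) p).range.index =
      (if q = p then q ^ Module.finrank ℚ_[q] E else 1) *
        Nat.card (powMonoidHom (α := (intRing q E)ˣ) p).ker := by
  have := isAdicComplete_span_q q E
  have := finite_quotient_span_q q E
  rw [index_powRange_units (Λ := intRing q E) q hp hp2 hq.out (natCast_q_regular q E),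
    card_quotient_span_q]

theorem finite_powKer_intRing {p : ℕ} (hp : p.Prime) (hp2 : p ≠ 2) :
    Finite (powMonoidHom (α := (intRing q E)ˣ) p).ker := by
  have := isAdicComplete_span_q q E
  have := finite_quotient_span_q q E
  exact finite_powKer_units (Λ := intRing q E) q hp hp2 hq.out (natCast_q_regular q E)

/-! ### From `𝒪ˣ` to `Eˣ` -/

/-- The kernel of `ord` is `𝒪ˣ`. -/
def kerOrdEquiv : (ordHom q E).ker ≃* (intRing q E)ˣ where
  toFun x :=
    ⟨⟨((x : Eˣ) : E), ((ker_ordHom q E ▸ x.2 : (x : Eˣ) ∈ unitGroup q E)).1⟩,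
      ⟨(((x : Eˣ)⁻¹ : Eˣ) : E), ((ker_ordHom q E ▸ x.2 : (x : Eˣ) ∈ unitGroup q E)).2⟩,
      Subtype.ext (by simp), Subtype.ext (by simp)⟩
  invFun u := ⟨unitsToField u, by
    rw [ker_ordHom]
    refine ⟨?_, ?_⟩
    · rw [coe_unitsToField]
      exact (u : intRing q E).2
    · rw [← map_inv, coe_unitsToField]
      exact ((u⁻¹ : (intRing q E)ˣ) : intRing q E).2⟩
  left_inv x := by
    apply Subtype.ext
    apply Units.ext
    rfl
  right_inv u := by
    apply Units.ext
    apply Subtype.ext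
    rfl
  map_mul' x y := by
    apply Units.ext
    apply Subtype.ext
    rfl

theorem pow_eq_one_mulInt {p : ℕ} (hp : p ≠ 0) (z : Multiplicative ℤ) (hz : z ^ p = 1) : z = 1 := by
  have h1 : p • Multiplicative.toAdd z = 0 := by
    rw [← toAdd_pow, hz]; rfl
  rw [nsmul_eq_mul] at h1
  rcases mul_eq_zero.1 h1 with h | h
  · exact absurd (by exact_mod_cast h) hp
  · exact Multiplicative.toAdd.injective h

theorem index_powRange_mulInt (p : ℕ) [NeZero p] :
    (powMonoidHom p : Multiplicative ℤ →* Multiplicative ℤ).range.index = p := by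
  have h := index_powRange_pi Unit p
  rw [index_powRange_congr p (MulEquiv.funUnique Unit (Multiplicative ℤ)), h]
  simp

/-- **The index of the `p`-th powers in `Eˣ`**, `p` odd:
`[Eˣ : Eˣ^p] = p · q^{[E:ℚ_q]·[q = p]} · #μ_p(E)`. -/
theorem index_powRange_field {p : ℕ} (hp : p.Prime) (hp2 : p ≠ 2) :
    (powMonoidHom p : Eˣ →* Eˣ).range.index =
      p * (if q = p then q ^ Module.finrank ℚ_[q] E else 1) *
        Nat.card (powMonoidHom p : Eˣ →* Eˣ).ker := by
  have : NeZero p := ⟨hp.ne_zero⟩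
  rw [index_powRange_of_exact p (ordHom q E) (ordHom_surjective q E)
      (pow_eq_one_mulInt hp.ne_zero),
    card_powKer_of_exact p (ordHom q E) (pow_eq_one_mulInt hp.ne_zero),
    index_powRange_mulInt p, ← index_powRange_congr p (kerOrdEquiv q E),
    ← card_powKer_congr p (kerOrdEquiv q E), index_powRange_intRing q E hp hp2]
  ring

/-- The same, as the cardinality of the quotient group `Eˣ / Eˣ^p`. -/
theorem card_quotient_powRange_field {p : ℕ} (hp : p.Prime) (hp2 : p ≠ 2) :
    Nat.card (Eˣ ⧸ (powMonoidHom p : Eˣ →* Eˣ).range) =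
      p * (if q = p then q ^ Module.finrank ℚ_[q] E else 1) *
        Nat.card (powMonoidHom p : Eˣ →* Eˣ).ker :=
  index_powRange_field q E hp hp2

end

/-! ### The `p`-torsion of `Fˣ` for a field `F` -/

section Torsion

variable {F : Type*} [Field F]

theorem card_powKer_of_isPrimitiveRoot {p : ℕ} (hp : p.Prime) {ζ : F} (hζ : IsPrimitiveRoot ζ p) :
    Nat.card (powMonoidHom p : Fˣ →* Fˣ).ker = p := by
  have : NeZero p := ⟨hp.ne_zero⟩
  have h1 : (powMonoidHom p : Fˣ →* Fˣ).ker = rootsOfUnity p F := by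
    ext x
    rw [MonoidHom.mem_ker, powMonoidHom_apply, mem_rootsOfUnity]
  rw [h1, hζ.card_rootsOfUnity]

theorem card_powKer_of_not_isPrimitiveRoot {p : ℕ} (hp : p.Prime)
    (h : ¬ ∃ ζ : F, IsPrimitiveRoot ζ p) :
    Nat.card (powMonoidHom p : Fˣ →* Fˣ).ker = 1 := by
  have h1 : (powMonoidHom p : Fˣ →* Fˣ).ker = ⊥ := by
    rw [eq_bot_iff]
    intro x hx
    rw [MonoidHom.mem_ker, powMonoidHom_apply] at hx
    rw [Subgroup.mem_bot]
    by_contra hx1
    apply h
    have : Fact p.Prime := ⟨hp⟩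
    have h2 : orderOf x = p := orderOf_eq_prime hx hx1
    have h3 : IsPrimitiveRoot x p := h2 ▸ IsPrimitiveRoot.orderOf x
    exact ⟨(x : F), IsPrimitiveRoot.coe_units_iff.2 h3⟩
  rw [h1]
  exact Subgroup.card_bot

open Classical in
/-- `#μ_p(F) = p` or `1`. -/
theorem card_powKer_eq_ite {p : ℕ} (hp : p.Prime) :
    Nat.card (powMonoidHom p : Fˣ →* Fˣ).ker = if ∃ ζ : F, IsPrimitiveRoot ζ p then p else 1 := by
  split_ifs with h
  · obtain ⟨ζ, hζ⟩ := h
    exact card_powKer_of_isPrimitiveRoot hp hζ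
  · exact card_powKer_of_not_isPrimitiveRoot hp h

end Torsion

noncomputable section

variable (q : ℕ) [hq : Fact q.Prime] (E : Type) [Field E] [Algebra ℚ_[q] E]
  [FiniteDimensional ℚ_[q] E]

theorem finite_powKer_field {p : ℕ} (hp : p.Prime) :
    Finite (powMonoidHom p : Eˣ →* Eˣ).ker := by
  classical
  apply Nat.finite_of_card_ne_zero
  rw [card_powKer_eq_ite hp]
  split_ifs
  · exact hp.ne_zero
  · exact one_ne_zero

include q in
theorem finite_quotient_powRange_field {p : ℕ} (hp : p.Prime) (hp2 : p ≠ 2) :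
    Finite (Eˣ ⧸ (powMonoidHom p : Eˣ →* Eˣ).range) := by
  classical
  apply Nat.finite_of_card_ne_zero
  rw [card_quotient_powRange_field q E hp hp2, card_powKer_eq_ite hp]
  have hq0 : q ≠ 0 := hq.out.ne_zero
  have hp0 : p ≠ 0 := hp.ne_zero
  split_ifs <;> positivity

open Classical in
/-- **`#(Eˣ / Eˣ^p) = p · q^{[E:ℚ_q]·[q = p]} · p^{[ζ_p ∈ E]}`**, `p` odd. -/
theorem card_quotient_powRange_field_ite {p : ℕ} (hp : p.Prime) (hp2 : p ≠ 2) :
    Nat.card (Eˣ ⧸ (powMonoidHom p : Eˣ →* Eˣ).range) =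
      p * (if q = p then q ^ Module.finrank ℚ_[q] E else 1) *
        (if ∃ ζ : E, IsPrimitiveRoot ζ p then p else 1) := by
  rw [card_quotient_powRange_field q E hp hp2, card_powKer_eq_ite hp]

end
end Fermat.Agent.ES.T56.LocPowIndex5
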