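/-
Programme T (S56), chapter GW, brick 10 (`BaseLocChi`), sub-brick (P1) (helper5): the local `p`-power
index in helper11's literal (#21738), for a `q`-adic field `F` (PT/LOC model) containing a primitive
`p`-th root of unity, `p` odd:

  `#(Fˣ / Fˣ^p) = p ^ (2 + [q = p]·[F : ℚ_q])`.

Direct corollary of `LocPowIndex5.card_quotient_powRange_field` and
`LocPowIndex5.card_powKer_of_isPrimitiveRoot`.
-/
import Mathlib
import Fermat.Agent.ES.T56.LocPowIndex5

set_option autoImplicit false

namespace Fermat.Agent.ES.T56.LocPowExport5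

open Fermat.Agent.ES.T56.LocPowIndex5

/-- **(P1)** `#(Fˣ/Fˣ^p) = p ^ (2 + [q = p]·[F : ℚ_q])` when `ζ_p ∈ F`, `p` odd. -/
theorem locPowIndex (q p : ℕ) [Fact q.Prime] [Fact p.Prime] (hp2 : p ≠ 2) (F : Type) [Field F]
    [Algebra ℚ_[q] F] [FiniteDimensional ℚ_[q] F] (ζ : F) (hζ : IsPrimitiveRoot ζ p) :
    Finite (Fˣ ⧸ (powMonoidHom p : Fˣ →* Fˣ).range) ∧
      Nat.card (Fˣ ⧸ (powMonoidHom p : Fˣ →* Fˣ).range) =
        p ^ (2 + if q = p then Module.finrank ℚ_[q] F else 0) := by
  have hp : p.Prime := Fact.out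
  refine ⟨finite_quotient_powRange_field q F hp hp2, ?_⟩
  rw [card_quotient_powRange_field q F hp hp2, card_powKer_of_isPrimitiveRoot hp hζ]
  by_cases h : q = p
  · rw [if_pos h, if_pos h]
    generalize Module.finrank ℚ_[q] F = n
    rw [h]
    ring
  · rw [if_neg h, if_neg h]
    ring

/-- The same as an inequality of `𝔽_p`-dimensions is immediate for consumers; the cardinality of the
`p`-torsion: `#μ_p(F) = p`. -/
theorem card_powKer (p : ℕ) [Fact p.Prime] (F : Type) [Field F] (ζ : F)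
    (hζ : IsPrimitiveRoot ζ p) : Nat.card (powMonoidHom p : Fˣ →* Fˣ).ker = p :=
  card_powKer_of_isPrimitiveRoot Fact.out hζ

end Fermat.Agent.ES.T56.LocPowExport5
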