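/-
Programme T (S56), chapter GW, brick 10 (`BaseLocChi`), sub-brick (P2) (helper5): **the plain local Kummer
bound** in helper11's literal `LocChiIface11.LocTrivLe`.

For a number field `L ∋ ζ_p`, `H = r_q⁻¹(G_L) = Gal(ℚ̄_q/L_w)` (`L_w = localField q L`) and a finite-dimensional
`V` with trivial action:  `dim H¹_level(H, V) ≤ (2 + [q = p]·[Γ_q : H]) · dim V`.

Proof.  Level `1`-cocycles with values in the trivial module `V` are level homomorphisms `H → V`; composing with
the coordinates of a basis of `V` embeds them into `d = dim V` copies of the set of level homomorphisms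
`H → ZMod p`, which has at most `#(L_wˣ/(L_wˣ)^p) = p ^ (2 + [q = p]·[L_w : ℚ_q])` elements
(`KumHomBound5.card_levelHom_le` and (P1) `LocPowExport5.locPowIndex`), and `[L_w : ℚ_q] = [Γ_q : H]`.
-/
import Mathlib
import Fermat.Agent.PT.BR.LevelBridge13
import Fermat.Agent.ES.T56.LocChiIface11
import Fermat.Agent.ES.T56.LocPowExport5
import Fermat.Agent.ES.T56.KumHomBound5

set_option autoImplicit false

open CategoryTheory Module groupCohomology ExtCitation

namespace Fermat.Agent.ES.T56.LocTrivLe5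

open Fermat.Agent.ES.T56.GWIface21 Fermat.Agent.PT.PRO.LevelCoh28 Fermat.Agent.PT.BR.Interface29
  Fermat.Agent.ES.T56.LocChiIface11 Fermat.Agent.ES.T56.KumHomBound5 Fermat.Agent.PT.BR

variable (p : ℕ) [Fact p.Prime]

section Local

variable (q : ℕ) [Fact q.Prime] (L : IntermediateField ℚ (AlgebraicClosure ℚ))

/-- `r_q⁻¹(G_L)` as a subgroup of `Gal(ℚ̄_q/ℚ_q)`. -/
noncomputable abbrev locSubN : Subgroup (PadicAlgCl q ≃ₐ[ℚ_[q]] PadicAlgCl q) :=
  L.fixingSubgroup.comap (localGaloisToGlobal q)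

theorem locSubN_eq : locSubN q L = (LocInj13.localField q L).fixingSubgroup :=
  LevelBridge13.comap_fixingSubgroup_eq q L

/-- `H → G_ℚ`. -/
noncomputable abbrev locHomN : ↥(locSubN q L) →* GalQ :=
  (localGaloisToGlobal q).comp (locSubN q L).subtype

variable {q L}

/-- A level function `H → X` composed with any map to `ZMod p` is a level function in the sense of
`KumHomBound5.IsLevelHom`. -/
theorem isLevelHom_of {f : ↥(locSubN q L) → ZMod p} (hadd : ∀ a b, f (a * b) = f a + f b)
    (hlev : IsLevel₁ (levelBasisOf (locHomN q L)).sets f) : IsLevelHom (locSubN q L) p f := by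
  refine ⟨hadd, ?_⟩
  obtain ⟨U, ⟨F, hF, rfl⟩, hU⟩ := hlev
  have := hF
  refine ⟨LocInj13.localField q F, inferInstance, fun g s hs => hU g s ?_⟩
  rw [Subgroup.mem_comap]
  exact (LocInj13.mem_fixingSubgroup_localField_iff q F s.1).1 hs

variable (q L)

/-- The count for `ZMod p`-valued level homomorphisms: finitely many, at most
`p ^ (2 + [q = p]·[Γ_q : H])`. -/
theorem card_levelHom (hp2 : p ≠ 2) [FiniteDimensional ℚ L]
    (hζ : ∃ ζ ∈ L, IsPrimitiveRoot ζ p) :
    Finite {f : ↥(locSubN q L) → ZMod p // IsLevelHom (locSubN q L) p f} ∧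
      Nat.card {f : ↥(locSubN q L) → ZMod p // IsLevelHom (locSubN q L) p f} ≤
        p ^ (2 + if q = p then (locSubN q L).index else 0) := by
  obtain ⟨ζ₀, hζ₀L, hζ₀⟩ := hζ
  set E : IntermediateField ℚ_[q] (PadicAlgCl q) := LocInj13.localField q L with hE
  have hinj : Function.Injective (padicEmbedding q) := (padicEmbedding q).injective
  have hζΩ : IsPrimitiveRoot (padicEmbedding q ζ₀) p := hζ₀.map_of_injective hinj
  have hmem : padicEmbedding q ζ₀ ∈ E := LocInj13.padicEmbedding_mem_localField q hζ₀L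
  have hpne : p ≠ 0 := (Fact.out : p.Prime).ne_zero
  -- `ζ` as a unit of `Ω` and as an element of `E`
  have hne : padicEmbedding q ζ₀ ≠ 0 := hζΩ.ne_zero hpne
  let ζu : (PadicAlgCl q)ˣ := Units.mk0 _ hne
  have hζu : IsPrimitiveRoot ζu p := IsPrimitiveRoot.coe_units_iff.1 hζΩ
  let ζE : ↥E := ⟨_, hmem⟩
  have hζE : IsPrimitiveRoot ζE p := IsPrimitiveRoot.coe_submonoidClass_iff.1 hζΩ
  obtain ⟨hfin, hcard⟩ := LocPowExport5.locPowIndex q p hp2 ↥E ζE hζE
  have hidx : Module.finrank ℚ_[q] ↥E = (locSubN q L).index := by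
    rw [locSubN_eq, IntermediateField.finrank_eq_fixingSubgroup_index]
  rw [hidx] at hcard
  refine ⟨finite_levelHom E p hζu hmem _ (locSubN_eq q L), ?_⟩
  rw [← hcard]
  exact card_levelHom_le E p hζu hmem _ (locSubN_eq q L)

/-- **(P2) for the model `locSubN`**: level `H¹` of the trivial module `V`. -/
theorem h1_trivial_le (hp2 : p ≠ 2) [FiniteDimensional ℚ L]
    (hζ : ∃ ζ ∈ L, IsPrimitiveRoot ζ p)
    (V : Type) [AddCommGroup V] [Module (ZMod p) V] [FiniteDimensional (ZMod p) V] :
    FiniteDimensional (ZMod p)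
        (H1 (levelBasisOf (locHomN q L)) (Rep.trivial (ZMod p) ↥(locSubN q L) V)) ∧
      finrank (ZMod p) (H1 (levelBasisOf (locHomN q L)) (Rep.trivial (ZMod p) ↥(locSubN q L) V)) ≤
        (2 + (if q = p then (locSubN q L).index else 0)) * finrank (ZMod p) V := by
  obtain ⟨hSfin, hScard⟩ := card_levelHom p q L hp2 hζ
  set A : Rep.{0} (ZMod p) ↥(locSubN q L) := Rep.trivial (ZMod p) ↥(locSubN q L) V with hA
  set 𝓑 := levelBasisOf (locHomN q L) with h𝓑
  set n : ℕ := 2 + (if q = p then (locSubN q L).index else 0) with hn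
  set d : ℕ := finrank (ZMod p) V with hd
  let b : Basis (Fin d) (ZMod p) V := Module.finBasis (ZMod p) V
  -- coordinates of a level cocycle
  have hadd : ∀ c : ↥(Z1 𝓑 A), ∀ g h : ↥(locSubN q L), (c : _ → V) (g * h) = c.1 h + c.1 g := by
    intro c g h
    have h1 : (c : ↥(locSubN q L) → A) ∈ cocycles₁ A := c.2.1
    have h2 := (mem_cocycles₁_iff (A := A) c.1).1 h1 g h
    simpa [hA] using h2
  let Ψ : ↥(Z1 𝓑 A) → (Fin d → {f : ↥(locSubN q L) → ZMod p // IsLevelHom (locSubN q L) p f}) :=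
    fun c i => ⟨fun g => b.repr ((c : _ → V) g) i, isLevelHom_of p (fun g h => by
      show b.repr ((c : _ → V) (g * h)) i = b.repr (c.1 g) i + b.repr (c.1 h) i
      rw [hadd c g h, map_add, Finsupp.add_apply, add_comm]) (by
      have hl : IsLevel₁ 𝓑.sets (c : ↥(locSubN q L) → V) := c.2.2
      exact hl.comp (fun v => b.repr v i))⟩
  have hΨ : Function.Injective Ψ := by
    intro c c' h
    apply Subtype.ext
    funext g
    apply b.ext_elem
    intro i
    have := congrArg (fun F => (F i).1 g) h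
    exact this
  have hZfin : Finite ↥(Z1 𝓑 A) := Finite.of_injective Ψ hΨ
  have hZmod : Module.Finite (ZMod p) ↥(Z1 𝓑 A) := Module.Finite.of_finite
  have hZcard : Nat.card ↥(Z1 𝓑 A) ≤ p ^ (n * d) := by
    calc Nat.card ↥(Z1 𝓑 A)
        ≤ Nat.card (Fin d → {f : ↥(locSubN q L) → ZMod p // IsLevelHom (locSubN q L) p f}) :=
          Nat.card_le_card_of_injective Ψ hΨ
      _ = Nat.card {f : ↥(locSubN q L) → ZMod p // IsLevelHom (locSubN q L) p f} ^ d := by
          rw [Nat.card_fun, Nat.card_fin]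
      _ ≤ (p ^ n) ^ d := Nat.pow_le_pow_left hScard d
      _ = p ^ (n * d) := (pow_mul p n d).symm
  have hZrank : finrank (ZMod p) ↥(Z1 𝓑 A) ≤ n * d := by
    have h1 : Nat.card ↥(Z1 𝓑 A) = p ^ finrank (ZMod p) ↥(Z1 𝓑 A) := by
      rw [Module.natCard_eq_pow_finrank (K := ZMod p), Nat.card_zmod]
    rw [h1] at hZcard
    exact (Nat.pow_le_pow_iff_right (Fact.out : p.Prime).one_lt).1 hZcard
  refine ⟨inferInstance, ?_⟩
  exact (Submodule.finrank_quotient_le _).trans hZrank

end Local

/-- **(P2) `LocTrivLe`** in helper11's literal, for `p` odd. -/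
theorem locTrivLe (hp2 : p ≠ 2) (q : Nat.Primes) : LocTrivLe p q := by
  intro L hL hζ V _ _ _
  have : Fact ((q : ℕ)).Prime := ⟨q.2⟩
  have := hL
  have key := h1_trivial_le p (q : ℕ) L hp2 hζ V
  refine ⟨key.1, ?_⟩
  have key2 := key.2
  by_cases h : (q : ℕ) = p
  · have h' : q = pPrime p := Subtype.ext h
    rw [if_pos h] at key2
    show finrank (ZMod p) (H1 (levelBasisOf (locHom q L)) (Rep.trivial (ZMod p) ↥(locSub q L) V)) ≤
      (2 + (if q = pPrime p then (locSub q L).index else 0)) * finrank (ZMod p) V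
    rw [if_pos h']
    exact key2
  · have h' : ¬ q = pPrime p := fun h'' => h (by rw [h'']; rfl)
    rw [if_neg h] at key2
    show finrank (ZMod p) (H1 (levelBasisOf (locHom q L)) (Rep.trivial (ZMod p) ↥(locSub q L) V)) ≤
      (2 + (if q = pPrime p then (locSub q L).index else 0)) * finrank (ZMod p) V
    rw [if_neg h']
    exact key2

end Fermat.Agent.ES.T56.LocTrivLe5
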