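/-
Programme T (S56, Taylor–Wiles primes), chapter TAN (helper23): **stability of the local conditions
of S56 under base change along local homomorphisms `φ : A → B`** (`A`, `B` local rings,
`ρ : GaloisRepAdic A`, `ρ.baseChangeAlong φ hφ` on `B ⊗[A] ρ.V`).

* `det_baseChangeAlong`, `charpoly_baseChangeAlong`;
* `detIsCyclotomic_baseChangeAlong`, `isUnramifiedAt_baseChangeAlong`,
  `isUnipotentOnInertiaAt_baseChangeAlong`, `isStrictOrdinaryAt_baseChangeAlong` (line `B (1 ⊗ b₀)`,
  characters `φ x`, `φ z`): ANY local homomorphism `φ`;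
* `isFlatAt_baseChangeAlong (hsurj : Surjective φ)`: for `I' ≤ B` take `J := I'.comap φ` and the SAME
  Hopf datum; `quotMap : V ⧸ J V ≃ (B ⊗ V) ⧸ I' (B ⊗ V)` (`quotMap_injective` on a basis,
  `quotMap_surjective` from `hsurj`), additive and Galois-equivariant (Hopf-free);
* **`ordCond_baseChangeAlong`** (any local `φ`), **`flatCond_baseChangeAlong`** (`φ` surjective): the
  two conditions `T56Iface27.ordCond / flatCond 𝒪 p Smin T` of S56.
-/
import Mathlib
import Fermat.Agent.ES.T56.T56Iface27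

set_option autoImplicit false
set_option linter.unusedSectionVars false
set_option linter.style.haveILetI false

noncomputable section

namespace Fermat.Agent.ES.T56.QuotStable23

open IsLocalRing TensorProduct Polynomial

variable {A B : Type} [CommRing A] [IsLocalRing A] [CommRing B] [IsLocalRing B]
  (φ : A →+* B) (hφ : IsLocalHom φ) (ρ : GaloisRepAdic A)

include hφ in
theorem natCast_mem_maximalIdeal {p : ℕ} (h : (p : A) ∈ maximalIdeal A) :
    (p : B) ∈ maximalIdeal B := by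
  have := hφ
  have h1 := map_nonunit φ (p : A) h
  rwa [map_natCast] at h1

omit [IsLocalRing A] [IsLocalRing B] in
theorem map_mem_span_natCast {m : ℕ} {x : A} (h : x ∈ Ideal.span {((m : ℕ) : A)}) :
    φ x ∈ Ideal.span {((m : ℕ) : B)} := by
  obtain ⟨c, rfl⟩ := Ideal.mem_span_singleton'.mp h
  rw [map_mul, map_natCast]
  exact Ideal.mem_span_singleton'.mpr ⟨φ c, rfl⟩

/-- `det` of the base change. -/
theorem det_baseChangeAlong (σ : AlgebraicClosure ℚ ≃ₐ[ℚ] AlgebraicClosure ℚ) :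
    LinearMap.det ((ρ.baseChangeAlong φ hφ).ρ σ) = φ (LinearMap.det (ρ.ρ σ)) := by
  letI : Algebra A B := φ.toAlgebra
  exact LinearMap.det_baseChange (ρ.ρ σ)

/-- `charpoly` of the base change. -/
theorem charpoly_baseChangeAlong (σ : AlgebraicClosure ℚ ≃ₐ[ℚ] AlgebraicClosure ℚ) :
    LinearMap.charpoly ((ρ.baseChangeAlong φ hφ).ρ σ) = (LinearMap.charpoly (ρ.ρ σ)).map φ := by
  letI : Algebra A B := φ.toAlgebra
  exact LinearMap.charpoly_baseChange (ρ.ρ σ) B

theorem detIsCyclotomic_baseChangeAlong {p : ℕ} (h : ρ.DetIsCyclotomic p) :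
    (ρ.baseChangeAlong φ hφ).DetIsCyclotomic p := by
  refine ⟨natCast_mem_maximalIdeal φ hφ h.1, fun n σ a ha => ?_⟩
  rw [det_baseChangeAlong]
  have := map_mem_span_natCast φ (h.2 n σ a ha)
  rwa [map_sub, map_natCast] at this

theorem isUnramifiedAt_baseChangeAlong {q : ℕ} (h : ρ.IsUnramifiedAt q) :
    (ρ.baseChangeAlong φ hφ).IsUnramifiedAt q := by
  intro P hP σ hσ
  letI : Algebra A B := φ.toAlgebra
  show (ρ.ρ σ).baseChange B = 1
  rw [h P hP σ hσ, LinearMap.baseChange_one]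

theorem isUnipotentOnInertiaAt_baseChangeAlong {q : ℕ} (h : ρ.IsUnipotentOnInertiaAt q) :
    (ρ.baseChangeAlong φ hφ).IsUnipotentOnInertiaAt q := by
  intro P hP σ hσ
  rw [charpoly_baseChangeAlong, h P hP σ hσ]
  simp

section Ord

/-- pure tensors on elements of the line `L = A b₀` lie on the line `B (1 ⊗ b₀)`. -/
theorem tmul_mem_span_of_mem [Algebra A B] {V : Type} [AddCommGroup V] [Module A V]
    {L : Submodule A V} {b0 : V} (hL : L = A ∙ b0) (c : B) {w : V} (hw : w ∈ L) :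
    c ⊗ₜ[A] w ∈ (B ∙ ((1 : B) ⊗ₜ[A] b0) : Submodule B (B ⊗[A] V)) := by
  rw [hL] at hw
  obtain ⟨a, rfl⟩ := Submodule.mem_span_singleton.mp hw
  have h1 : c ⊗ₜ[A] (a • b0) = (c * algebraMap A B a) • ((1 : B) ⊗ₜ[A] b0) := by
    calc c ⊗ₜ[A] (a • b0) = (a • c) ⊗ₜ[A] b0 := (TensorProduct.smul_tmul a c b0).symm
      _ = ((c * algebraMap A B a) • (1 : B)) ⊗ₜ[A] b0 := by
          rw [Algebra.smul_def, smul_eq_mul, mul_one, mul_comm]
      _ = (c * algebraMap A B a) • ((1 : B) ⊗ₜ[A] b0) := (TensorProduct.smul_tmul' _ _ _).symm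
  rw [h1]
  exact Submodule.smul_mem _ _ (Submodule.mem_span_singleton_self _)

/-- `z • (c ⊗ v) = c ⊗ (z • v)` for the `B`-action through `A → B`. -/
theorem algebraMap_smul_tmul [Algebra A B] {V : Type} [AddCommGroup V] [Module A V]
    (z : A) (c : B) (v : V) : algebraMap A B z • (c ⊗ₜ[A] v) = c ⊗ₜ[A] (z • v) := by
  rw [TensorProduct.smul_tmul', smul_eq_mul,
    show algebraMap A B z * c = z • c by rw [Algebra.smul_def], TensorProduct.smul_tmul]

theorem isStrictOrdinaryAt_baseChangeAlong {p : ℕ} (h : ρ.IsStrictOrdinaryAt p) :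
    (ρ.baseChangeAlong φ hφ).IsStrictOrdinaryAt p := by
  letI : Algebra A B := φ.toAlgebra
  refine ⟨natCast_mem_maximalIdeal φ hφ h.1, fun P hP => ?_⟩
  obtain ⟨L, ⟨b, hLb⟩, hD, hI, hxz⟩ := h.2 P hP
  change ∃ L' : Submodule B (B ⊗[A] ρ.V),
    (∃ b' : Module.Basis (Fin 2) B (B ⊗[A] ρ.V), L' = B ∙ b' 0) ∧
    (∀ σ ∈ P.decompositionSubgroup ℚ, ∀ v ∈ L', (ρ.ρ σ).baseChange B v ∈ L') ∧
    (∀ σ ∈ P.inertiaSubgroupIn ℚ, ∀ v : B ⊗[A] ρ.V, (ρ.ρ σ).baseChange B v - v ∈ L') ∧
    (∀ σ ∈ P.decompositionSubgroup ℚ, ∃ x z : B,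
      (∀ w ∈ L', (ρ.ρ σ).baseChange B w = x • w) ∧
      (∀ v : B ⊗[A] ρ.V, (ρ.ρ σ).baseChange B v - z • v ∈ L') ∧
      ∀ (n a : ℕ), (∀ μ : AlgebraicClosure ℚ, μ ^ p ^ n = 1 → σ μ = μ ^ a) →
        x - (a : B) * z ∈ Ideal.span {((p ^ n : ℕ) : B)})
  let b' : Module.Basis (Fin 2) B (B ⊗[A] ρ.V) := Algebra.TensorProduct.basis B b
  have hb'0 : b' 0 = (1 : B) ⊗ₜ[A] b 0 := Algebra.TensorProduct.basis_apply b 0
  have hb0L : b 0 ∈ L := hLb ▸ Submodule.mem_span_singleton_self _
  have key : ∀ (c : B) {w : ρ.V}, w ∈ L →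
      c ⊗ₜ[A] w ∈ (B ∙ b' 0 : Submodule B (B ⊗[A] ρ.V)) := by
    intro c w hw
    rw [hb'0]
    exact tmul_mem_span_of_mem hLb c hw
  refine ⟨(B ∙ b' 0 : Submodule B (B ⊗[A] ρ.V)), ⟨b', rfl⟩, ?_, ?_, ?_⟩
  · intro σ hσ v hv
    obtain ⟨c, rfl⟩ := Submodule.mem_span_singleton.mp hv
    rw [map_smul, hb'0, LinearMap.baseChange_tmul]
    exact Submodule.smul_mem _ _ (hb'0 ▸ key 1 (hD σ hσ _ hb0L))
  · intro σ hσ v
    induction v using TensorProduct.induction_on with
    | zero => rw [LinearMap.map_zero, sub_zero]; exact Submodule.zero_mem _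
    | tmul c v =>
      rw [LinearMap.baseChange_tmul, ← TensorProduct.tmul_sub]
      exact key c (hI σ hσ v)
    | add x y hx hy =>
      rw [map_add, add_sub_add_comm]
      exact Submodule.add_mem _ hx hy
  · intro σ hσ
    obtain ⟨x, z, hx, hz, hxz'⟩ := hxz σ hσ
    refine ⟨φ x, φ z, ?_, ?_, ?_⟩
    · intro w hw
      obtain ⟨c, rfl⟩ := Submodule.mem_span_singleton.mp hw
      rw [map_smul, hb'0, LinearMap.baseChange_tmul, hx _ hb0L, smul_comm]
      congr 1
      exact (algebraMap_smul_tmul x 1 (b 0)).symm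
    · intro v
      induction v using TensorProduct.induction_on with
      | zero => rw [LinearMap.map_zero, smul_zero, sub_zero]; exact Submodule.zero_mem _
      | tmul c v =>
        have h1 : φ z • (c ⊗ₜ[A] v) = c ⊗ₜ[A] (z • v) := algebraMap_smul_tmul z c v
        rw [LinearMap.baseChange_tmul, h1, ← TensorProduct.tmul_sub]
        exact key c (hz v)
      | add u w hu hw =>
        rw [map_add, smul_add, add_sub_add_comm]
        exact Submodule.add_mem _ hu hw
    · intro n a ha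
      have := map_mem_span_natCast φ (hxz' n a ha)
      rwa [map_sub, map_mul, map_natCast] at this

end Ord

section Flat

/-- membership in `I • ⊤` of a free module, read off on coordinates. -/
theorem repr_mem_of_mem_smul_top {R M ι : Type} [CommRing R] [AddCommGroup M] [Module R M]
    (b : Module.Basis ι R M) (I : Ideal R) {x : M} (hx : x ∈ I • (⊤ : Submodule R M)) (i : ι) :
    b.repr x i ∈ I := by
  rw [← b.span_eq, Submodule.mem_ideal_smul_span_iff_exists_sum] at hx
  obtain ⟨a, ha, rfl⟩ := hx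
  have h1 : b.repr (a.sum fun i c => c • b i) = a := by
    have : (a.sum fun i c => c • b i) = Finsupp.linearCombination R b a := rfl
    rw [this, b.repr_linearCombination]
  rw [h1]
  exact ha i

theorem mem_smul_top_of_repr_mem {R M ι : Type} [CommRing R] [AddCommGroup M] [Module R M]
    [Fintype ι] (b : Module.Basis ι R M) (I : Ideal R) {x : M} (hx : ∀ i, b.repr x i ∈ I) :
    x ∈ I • (⊤ : Submodule R M) := by
  rw [← b.sum_repr x]
  exact Submodule.sum_mem _ fun i _ => Submodule.smul_mem_smul (hx i) Submodule.mem_top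

/-- **`V/JV ≅ (B ⊗ V)/I'(B ⊗ V)`** for a surjection `A ↠ B`, `J = I'.comap`, `V` free: the map. -/
def quotMap [Algebra A B] (V : Type) [AddCommGroup V] [Module A V] (I' : Ideal B) :
    (V ⧸ ((I'.comap (algebraMap A B)) • (⊤ : Submodule A V))) →ₗ[A]
      ((B ⊗[A] V) ⧸ (I' • (⊤ : Submodule B (B ⊗[A] V)))) :=
  Submodule.liftQ _
    (((I' • (⊤ : Submodule B (B ⊗[A] V))).mkQ.restrictScalars A).comp (TensorProduct.mk A B V 1))
    (by
      rw [Submodule.smul_le]
      intro j hj v _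
      rw [LinearMap.mem_ker, LinearMap.comp_apply, TensorProduct.mk_apply,
        LinearMap.restrictScalars_apply, Submodule.mkQ_apply, Submodule.Quotient.mk_eq_zero,
        ← algebraMap_smul_tmul]
      exact Submodule.smul_mem_smul (Ideal.mem_comap.mp hj) Submodule.mem_top)

theorem quotMap_mk [Algebra A B] (V : Type) [AddCommGroup V] [Module A V] (I' : Ideal B) (v : V) :
    quotMap (A := A) V I' (Submodule.Quotient.mk v) = Submodule.Quotient.mk ((1 : B) ⊗ₜ[A] v) :=
  rfl

theorem quotMap_surjective [Algebra A B] (hsurj : Function.Surjective (algebraMap A B))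
    (V : Type) [AddCommGroup V] [Module A V] (I' : Ideal B) :
    Function.Surjective (quotMap (A := A) V I') := by
  intro y
  obtain ⟨t, rfl⟩ := Submodule.Quotient.mk_surjective _ y
  induction t using TensorProduct.induction_on with
  | zero => exact ⟨0, by rw [map_zero, Submodule.Quotient.mk_zero]⟩
  | tmul c v =>
    obtain ⟨a, rfl⟩ := hsurj c
    refine ⟨Submodule.Quotient.mk (a • v), ?_⟩
    rw [quotMap_mk, ← algebraMap_smul_tmul, smul_tmul', smul_eq_mul, mul_one]
  | add x y hx hy =>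
    obtain ⟨x', hx'⟩ := hx
    obtain ⟨y', hy'⟩ := hy
    exact ⟨x' + y', by rw [map_add, hx', hy', Submodule.Quotient.mk_add]⟩

theorem quotMap_injective [Algebra A B] (V : Type) [AddCommGroup V] [Module A V]
    [Module.Free A V] [Module.Finite A V] (I' : Ideal B) :
    Function.Injective (quotMap (A := A) V I') := by
  rw [← LinearMap.ker_eq_bot, quotMap]
  refine Submodule.ker_liftQ_eq_bot _ _ _ ?_
  intro v hv
  rw [LinearMap.mem_ker, LinearMap.comp_apply, TensorProduct.mk_apply,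
    LinearMap.restrictScalars_apply, Submodule.mkQ_apply, Submodule.Quotient.mk_eq_zero] at hv
  let b := Module.Free.chooseBasis A V
  refine mem_smul_top_of_repr_mem b _ fun i => ?_
  have h1 := repr_mem_of_mem_smul_top (Algebra.TensorProduct.basis B b) I' hv i
  rw [Algebra.TensorProduct.basis_repr_tmul, one_smul, Finsupp.mapRange_apply] at h1
  exact Ideal.mem_comap.mpr h1

end Flat

section FlatMain

include hφ in
theorem finite_residueField_of_surjective (hsurj : Function.Surjective φ)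
    (h : Finite (ResidueField A)) : Finite (ResidueField B) := by
  have := hφ
  refine Finite.of_surjective (ResidueField.map φ) fun y => ?_
  obtain ⟨b, rfl⟩ := residue_surjective y
  obtain ⟨a, rfl⟩ := hsurj b
  exact ⟨residue A a, ResidueField.map_residue φ a⟩

theorem isFlatAt_baseChangeAlong (hsurj : Function.Surjective φ) {p : ℕ} (h : ρ.IsFlatAt p) :
    (ρ.baseChangeAlong φ hφ).IsFlatAt p := by
  letI : Algebra A B := φ.toAlgebra
  have hsurj' : Function.Surjective (algebraMap A B) := hsurj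
  refine ⟨finite_residueField_of_surjective φ hφ hsurj h.1, fun I' hI' => ?_⟩
  -- the ideal of `A`
  have hJ : Finite (A ⧸ I'.comap (algebraMap A B)) :=
    Finite.of_injective (Ideal.quotientMap I' (algebraMap A B) le_rfl)
      (Ideal.quotientMap_injective)
  obtain ⟨H, iCR, iHopf, hfin, hflat, hcocomm, e, hadd, hgal⟩ := h.2 _ hJ
  let E : (ρ.V ⧸ ((I'.comap (algebraMap A B)) • (⊤ : Submodule A ρ.V))) ≃
      ((B ⊗[A] ρ.V) ⧸ (I' • (⊤ : Submodule B (B ⊗[A] ρ.V)))) :=
    Equiv.ofBijective (quotMap (A := A) ρ.V I')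
      ⟨quotMap_injective ρ.V I', quotMap_surjective hsurj' ρ.V I'⟩
  have hE : ∀ x, E x = quotMap (A := A) ρ.V I' x := fun _ => rfl
  refine ⟨H, iCR, iHopf, hfin, hflat, hcocomm, e.trans E, ?_, ?_⟩
  · intro f g
    show E (e (f * g)) = E (e f) + E (e g)
    rw [hadd, hE, hE, hE, map_add]
  · intro σ f g hfg
    show E (e g) = (ρ.baseChangeAlong φ hφ).levelAction I' σ (E (e f))
    rw [hgal σ f g hfg]
    obtain ⟨v, hv⟩ := Submodule.Quotient.mk_surjective _ (e f)
    rw [← hv]
    rfl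

end FlatMain

section Cond

open Fermat.Agent.ES.T56.T56Iface27

variable {𝒪 : Type} [CommRing 𝒪] [Algebra 𝒪 A] [Algebra 𝒪 B]

/-- **the strict-ordinary condition of S56 is stable under base change along local
homomorphisms.** -/
theorem ordCond_baseChangeAlong {p : ℕ} {Smin T : Finset ℕ} (h : ordCond 𝒪 p Smin T ρ) :
    ordCond 𝒪 p Smin T (ρ.baseChangeAlong φ hφ) :=
  ⟨⟨detIsCyclotomic_baseChangeAlong φ hφ ρ h.1.1, isStrictOrdinaryAt_baseChangeAlong φ hφ ρ h.1.2.1,
    fun q hq hqT => isUnramifiedAt_baseChangeAlong φ hφ ρ (h.1.2.2 q hq hqT)⟩,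
    fun q hqS hq hqp => isUnipotentOnInertiaAt_baseChangeAlong φ hφ ρ (h.2 q hqS hq hqp)⟩

/-- **the flat condition of S56 is stable under base change along SURJECTIVE local
homomorphisms.** -/
theorem flatCond_baseChangeAlong (hsurj : Function.Surjective φ) {p : ℕ} {Smin T : Finset ℕ}
    (h : flatCond 𝒪 p Smin T ρ) : flatCond 𝒪 p Smin T (ρ.baseChangeAlong φ hφ) :=
  ⟨⟨detIsCyclotomic_baseChangeAlong φ hφ ρ h.1.1, isFlatAt_baseChangeAlong φ hφ ρ hsurj h.1.2.1,
    fun q hq hqT => isUnramifiedAt_baseChangeAlong φ hφ ρ (h.1.2.2 q hq hqT)⟩,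
    fun q hqS hq hqp => isUnipotentOnInertiaAt_baseChangeAlong φ hφ ρ (h.2 q hqS hq hqp)⟩

end Cond

end Fermat.Agent.ES.T56.QuotStable23
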