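/-
Programme T (S56, Taylor–Wiles primes), chapter TAN (helper23): **the (Hρ̄) extraction**.

If a deformation ring `DQ` of type `T56Iface27.ordCond 𝒪 p Smin T` (resp. `flatCond`) exists AT ALL,
then `ρ̄` itself, seen as a representation over the local ring `k`
(`GaloisRepAdic.ofResidualGaloisRep ρbar`), is of that type:

* **`ordCond_rhoBar DQ`**, **`flatCond_rhoBar DQ`**, and the unpacked consequences
  (i) `charpoly_inertia_of_ord / _of_flat`: `charpoly (ρ̄ σ) = (X - 1)^2` for `σ` in inertia at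
      `q ∈ Smin`, `q ≠ p`;
  (ii) `isStrictOrdinaryAt_rhoBar`, `isFlatAt_rhoBar`;
  (iii) `isUnramifiedAt_of_ord / _of_flat`: `ρ̄` unramified outside `T`;
  (iv) `detIsCyclotomic_of_ord / _of_flat`, with `natCast_eq_zero_of_detIsCyclotomic`,
      `det_eq_of_detIsCyclotomic` (what `DetIsCyclotomic` says over a field).

Route: `resk : R →+* k` (`= ψ⁻¹ ∘ residue`, `ψ = ResidueField.map (algebraMap 𝒪 R)` bijective by
`DQ.residue_surjective`) is a surjective local homomorphism, so `DQ.ρ.baseChangeAlong resk` has the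
type by `QuotStable23`; `equivOfResidual` turns `DQ.residual_isEquiv` into an equivalence
`DQ.ρ.baseChangeAlong resk ≃ ρ̄` (`alpha : k ⊗[R] V ≃ k_R ⊗[R] V`, `iota : W ≃ k_R ⊗[k] W`), and
`CondEquiv23` transports the type along it.
-/
import Mathlib
import Fermat.Agent.ES.T56.T56Iface27
import Fermat.Agent.ES.T56.QuotStable23
import Fermat.Agent.ES.T56.CondEquiv23

set_option autoImplicit false
set_option linter.unusedSectionVars false
set_option linter.style.haveILetI false

noncomputable section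

namespace Fermat.Agent.ES.T56.HrhoBar23

open IsLocalRing TensorProduct Polynomial

section Alpha

variable {R : Type} [CommRing R] [IsLocalRing R] {k : Type} [Field k] [Algebra R k]
  (ψ : k ≃+* ResidueField R) (hψ : ∀ r : R, ψ (algebraMap R k r) = residue R r)
  (V : Type) [AddCommGroup V] [Module R V]

/-- `ψ : k ≃ k_R` as an `R`-linear equivalence (`R` acts on `k` through the given algebra
structure, on `k_R` through the residue map). -/
def psiLin : k ≃ₗ[R] ResidueField R :=
  { ψ.toAddEquiv with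
    map_smul' := fun r c => by
      show ψ (r • c) = r • ψ c
      rw [Algebra.smul_def, map_mul, hψ, Algebra.smul_def, ResidueField.algebraMap_eq] }

theorem psiLin_apply (c : k) : psiLin ψ hψ c = ψ c := rfl

/-- `k ⊗[R] V ≃ k_R ⊗[R] V`, `c ⊗ v ↦ ψ c ⊗ v`. -/
def alpha : k ⊗[R] V ≃ₗ[R] ResidueField R ⊗[R] V := LinearEquiv.rTensor V (psiLin ψ hψ)

theorem alpha_tmul (c : k) (v : V) : alpha ψ hψ V (c ⊗ₜ[R] v) = ψ c ⊗ₜ[R] v := rfl

theorem alpha_smul (c : k) (x : k ⊗[R] V) :
    alpha ψ hψ V (c • x) = ψ c • alpha ψ hψ V x := by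
  induction x using TensorProduct.induction_on with
  | zero => rw [smul_zero, map_zero, smul_zero]
  | tmul c₁ v =>
    rw [TensorProduct.smul_tmul', alpha_tmul, alpha_tmul, TensorProduct.smul_tmul', smul_eq_mul,
      smul_eq_mul, map_mul]
  | add x y hx hy => rw [smul_add, map_add, hx, hy, map_add, smul_add]

theorem alpha_baseChange (f : V →ₗ[R] V) (x : k ⊗[R] V) :
    alpha ψ hψ V (f.baseChange k x) = f.baseChange (ResidueField R) (alpha ψ hψ V x) := by
  induction x using TensorProduct.induction_on with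
  | zero => rw [map_zero, map_zero, map_zero]
  | tmul c v =>
    rw [LinearMap.baseChange_tmul, alpha_tmul, alpha_tmul, LinearMap.baseChange_tmul]
  | add x y hx hy => rw [map_add, map_add, hx, hy, map_add, map_add]

end Alpha

section Beta

variable {k k' : Type} [Field k] [Field k'] [Algebra k k']
  (hbij : Function.Bijective (algebraMap k k')) (W : Type) [AddCommGroup W] [Module k W]

include hbij in
theorem linearMap_bijective : Function.Bijective (Algebra.linearMap k k') := hbij

/-- `W ≃ k' ⊗[k] W`, `w ↦ 1 ⊗ w`, when `k → k'` is bijective. -/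
def iota : W ≃ₗ[k] k' ⊗[k] W :=
  (TensorProduct.lid k W).symm ≪≫ₗ
    LinearEquiv.rTensor W (LinearEquiv.ofBijective (Algebra.linearMap k k')
      (linearMap_bijective hbij))

theorem iota_apply (w : W) : iota hbij W w = (1 : k') ⊗ₜ[k] w := by
  show LinearEquiv.rTensor W (LinearEquiv.ofBijective (Algebra.linearMap k k')
    (linearMap_bijective hbij)) ((TensorProduct.lid k W).symm w) = _
  rw [TensorProduct.lid_symm_apply, LinearEquiv.rTensor_tmul, LinearEquiv.ofBijective_apply,
    Algebra.linearMap_apply, map_one]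

theorem iota_smul (c : k) (w : W) : iota hbij W (c • w) = algebraMap k k' c • iota hbij W w := by
  rw [map_smul, algebraMap_smul]

theorem iota_baseChange (f : W →ₗ[k] W) (w : W) :
    f.baseChange k' (iota hbij W w) = iota hbij W (f w) := by
  rw [iota_apply, iota_apply, LinearMap.baseChange_tmul]

theorem iota_symm_smul (c : k) (z : k' ⊗[k] W) :
    (iota hbij W).symm (algebraMap k k' c • z) = c • (iota hbij W).symm z := by
  rw [algebraMap_smul, map_smul]

theorem iota_symm_baseChange (f : W →ₗ[k] W) (z : k' ⊗[k] W) :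
    (iota hbij W).symm (f.baseChange k' z) = f ((iota hbij W).symm z) := by
  obtain ⟨w, rfl⟩ := (iota hbij W).surjective z
  rw [iota_baseChange, LinearEquiv.symm_apply_apply, LinearEquiv.symm_apply_apply]

end Beta

section Resk

variable {𝒪 : Type} [CommRing 𝒪] [IsLocalRing 𝒪] {R : Type} [CommRing R] [IsLocalRing R]
  [Algebra 𝒪 R] [IsLocalHom (algebraMap 𝒪 R)]
  (hres : Function.Surjective (residue R ∘ algebraMap 𝒪 R))

include hres in
theorem map_bijective : Function.Bijective (ResidueField.map (algebraMap 𝒪 R)) := by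
  refine ⟨RingHom.injective _, fun x => ?_⟩
  obtain ⟨c, hc⟩ := hres x
  exact ⟨residue 𝒪 c, by rw [ResidueField.map_residue]; exact hc⟩

/-- `k_𝒪 ≃ k_R`. -/
def psiEquiv : ResidueField 𝒪 ≃+* ResidueField R :=
  RingEquiv.ofBijective (ResidueField.map (algebraMap 𝒪 R)) (map_bijective hres)

theorem psiEquiv_apply (c : ResidueField 𝒪) :
    psiEquiv hres c = ResidueField.map (algebraMap 𝒪 R) c := rfl

/-- the residue map of `R` with values in `k = k_𝒪`. -/
def resk : R →+* ResidueField 𝒪 :=
  ((psiEquiv hres).symm : ResidueField R →+* ResidueField 𝒪).comp (residue R)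

theorem resk_apply (r : R) : resk hres r = (psiEquiv hres).symm (residue R r) := rfl

theorem psiEquiv_resk (r : R) : psiEquiv hres (resk hres r) = residue R r := by
  rw [resk_apply, RingEquiv.apply_symm_apply]

theorem resk_algebraMap (c : 𝒪) : resk hres (algebraMap 𝒪 R c) = residue 𝒪 c := by
  rw [resk_apply, RingEquiv.symm_apply_eq, psiEquiv_apply, ResidueField.map_residue]

theorem resk_surjective : Function.Surjective (resk hres) := by
  intro κ
  obtain ⟨c, rfl⟩ := residue_surjective κ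
  exact ⟨algebraMap 𝒪 R c, resk_algebraMap hres c⟩

theorem resk_isLocalHom : IsLocalHom (resk hres) := by
  refine ⟨fun a ha => ?_⟩
  by_contra hna
  have h0 : residue R a = 0 := (residue_eq_zero_iff a).mpr hna
  have h1 : resk hres a = 0 := by rw [resk_apply, h0, map_zero]
  rw [h1] at ha
  exact not_isUnit_zero ha

end Resk

section CompGeneric

variable {R : Type} [CommRing R] [IsLocalRing R] {k : Type} [Field k] [Algebra R k]
  [Algebra k (ResidueField R)]
  (ψ : k ≃+* ResidueField R) (hψ : ∀ r : R, ψ (algebraMap R k r) = residue R r)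
  (hψ' : ∀ c : k, algebraMap k (ResidueField R) c = ψ c)
  (V : Type) [AddCommGroup V] [Module R V] (W : Type) [AddCommGroup W] [Module k W]
  (E : ResidueField R ⊗[R] V ≃ₗ[ResidueField R] ResidueField R ⊗[k] W)

include hψ' in
theorem algebraMap_bijective : Function.Bijective (algebraMap k (ResidueField R)) := by
  have h : (algebraMap k (ResidueField R) : k → ResidueField R) = ψ := funext hψ'
  rw [h]
  exact ψ.bijective

/-- the comparison `k ⊗[R] V ≃ W` obtained from `E : k_R ⊗[R] V ≃ k_R ⊗[k] W` and `ψ : k ≃ k_R`. -/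
def compEquiv : k ⊗[R] V ≃ₗ[k] W :=
  { toFun := fun x => (iota (algebraMap_bijective ψ hψ') W).symm (E (alpha ψ hψ V x))
    invFun := fun w => (alpha ψ hψ V).symm (E.symm (iota (algebraMap_bijective ψ hψ') W w))
    left_inv := fun x => by
      dsimp only
      rw [LinearEquiv.apply_symm_apply, LinearEquiv.symm_apply_apply,
        LinearEquiv.symm_apply_apply]
    right_inv := fun w => by
      dsimp only
      rw [LinearEquiv.apply_symm_apply, LinearEquiv.apply_symm_apply,
        LinearEquiv.symm_apply_apply]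
    map_add' := fun x y => by rw [map_add, map_add, map_add]
    map_smul' := fun c x => by
      rw [alpha_smul, map_smul, ← hψ', iota_symm_smul, RingHom.id_apply] }

theorem compEquiv_apply (x : k ⊗[R] V) :
    compEquiv ψ hψ hψ' V W E x =
      (iota (algebraMap_bijective ψ hψ') W).symm (E (alpha ψ hψ V x)) := rfl

theorem compEquiv_baseChange (f : V →ₗ[R] V) (g : W →ₗ[k] W)
    (h : ∀ y, E (f.baseChange (ResidueField R) y) = g.baseChange (ResidueField R) (E y))
    (x : k ⊗[R] V) :
    compEquiv ψ hψ hψ' V W E (f.baseChange k x) = g (compEquiv ψ hψ hψ' V W E x) := by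
  rw [compEquiv_apply, compEquiv_apply, alpha_baseChange, h, iota_symm_baseChange]

end CompGeneric

section Comparison

variable {𝒪 : Type} [CommRing 𝒪] [IsLocalRing 𝒪] {R : Type} [CommRing R] [IsLocalRing R]
  [Algebra 𝒪 R] [IsLocalHom (algebraMap 𝒪 R)]
  (hres : Function.Surjective (residue R ∘ algebraMap 𝒪 R))
  (ρ : GaloisRepAdic R) (ρbar : ResidualGaloisRep (ResidueField 𝒪))
  (e : ResidualGaloisRep.Equiv ρ.residual
    (ρbar.baseChangeAlong (ResidueField.map (algebraMap 𝒪 R))))

/-- **the comparison**: the base change of `ρ` along `R ↠ k` is equivalent to `ρ̄`. -/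
def equivOfResidual :
    GaloisRepAdic.Equiv (ρ.baseChangeAlong (resk hres) (resk_isLocalHom hres))
      (GaloisRepAdic.ofResidualGaloisRep ρbar) :=
  letI : Algebra R (ResidueField 𝒪) := (resk hres).toAlgebra
  letI : Algebra (ResidueField 𝒪) (ResidueField R) :=
    (ResidueField.map (algebraMap 𝒪 R)).toAlgebra
  { toLinearEquiv := compEquiv (psiEquiv hres) (psiEquiv_resk hres) (fun _ => rfl) ρ.V ρbar.V
      e.toLinearEquiv
    map_apply := fun σ x =>
      compEquiv_baseChange (psiEquiv hres) (psiEquiv_resk hres) (fun _ => rfl) ρ.V ρbar.V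
        e.toLinearEquiv (ρ.ρ σ) (ρbar.ρ σ) (e.map_apply σ) x }

end Comparison

section FieldCase

variable {k : Type} [Field k] {ρ : GaloisRepAdic k} {p : ℕ}

/-- over a field, `DetIsCyclotomic p` says `p = 0`. -/
theorem natCast_eq_zero_of_detIsCyclotomic (h : ρ.DetIsCyclotomic p) : (p : k) = 0 := by
  have h1 := h.1
  rwa [IsLocalRing.maximalIdeal_eq_bot, Ideal.mem_bot] at h1

/-- over a field, `DetIsCyclotomic p` says `det ρ(σ) = a` whenever `σ` acts on `μ_p` as `μ ↦ μ^a`. -/
theorem det_eq_of_detIsCyclotomic (h : ρ.DetIsCyclotomic p)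
    (σ : AlgebraicClosure ℚ ≃ₐ[ℚ] AlgebraicClosure ℚ) (a : ℕ)
    (ha : ∀ μ : AlgebraicClosure ℚ, μ ^ p = 1 → σ μ = μ ^ a) :
    LinearMap.det (ρ.ρ σ) = (a : k) := by
  have h1 := h.2 1 σ a (fun μ hμ => ha μ (by rwa [pow_one] at hμ))
  rw [pow_one, natCast_eq_zero_of_detIsCyclotomic h, Ideal.mem_span_singleton,
    zero_dvd_iff, sub_eq_zero] at h1
  exact h1

end FieldCase

section Final

open Fermat.Agent.ES.T56.T56Iface27

variable {𝒪 : Type} [CommRing 𝒪] [IsDomain 𝒪] [IsDiscreteValuationRing 𝒪]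
  [IsAdicComplete (maximalIdeal 𝒪) 𝒪] {ρbar : ResidualGaloisRep (ResidueField 𝒪)}
  {p : ℕ} {Smin T : Finset ℕ}

/-- **(Hρ̄), ordinary half**: if a deformation ring of type `ordCond 𝒪 p Smin T` exists at all,
then `ρ̄` itself (as a representation over the local ring `k`) is of that type. -/
theorem ordCond_rhoBar (DQ : GaloisRep.DeformationRingData 𝒪 ρbar (ordCond 𝒪 p Smin T)) :
    ordCond 𝒪 p Smin T (GaloisRepAdic.ofResidualGaloisRep ρbar) := by
  obtain ⟨e⟩ := DQ.residual_isEquiv
  exact CondEquiv23.ordCond_of_equiv (equivOfResidual DQ.residue_surjective DQ.ρ ρbar e)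
    (QuotStable23.ordCond_baseChangeAlong (resk DQ.residue_surjective)
      (resk_isLocalHom DQ.residue_surjective) DQ.ρ DQ.isOfType)

/-- **(Hρ̄), flat half**. -/
theorem flatCond_rhoBar (DQ : GaloisRep.DeformationRingData 𝒪 ρbar (flatCond 𝒪 p Smin T)) :
    flatCond 𝒪 p Smin T (GaloisRepAdic.ofResidualGaloisRep ρbar) := by
  obtain ⟨e⟩ := DQ.residual_isEquiv
  exact CondEquiv23.flatCond_of_equiv (equivOfResidual DQ.residue_surjective DQ.ρ ρbar e)
    (QuotStable23.flatCond_baseChangeAlong (resk DQ.residue_surjective)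
      (resk_isLocalHom DQ.residue_surjective) DQ.ρ (resk_surjective DQ.residue_surjective)
      DQ.isOfType)

/-! ### the unpacked consequences -/

/-- (i) `ρ̄` is unipotent on inertia at the primes of `Smin ∖ {p}` (ordinary half). -/
theorem charpoly_inertia_of_ord (DQ : GaloisRep.DeformationRingData 𝒪 ρbar (ordCond 𝒪 p Smin T))
    {q : ℕ} (hqS : q ∈ Smin) (hq : q.Prime) (hqp : q ≠ p)
    (P : ValuationSubring (AlgebraicClosure ℚ)) (hP : P.LiesOverPrime q)
    {σ : AlgebraicClosure ℚ ≃ₐ[ℚ] AlgebraicClosure ℚ} (hσ : σ ∈ P.inertiaSubgroupIn ℚ) :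
    LinearMap.charpoly (ρbar.ρ σ) = (X - 1) ^ 2 :=
  (ordCond_rhoBar DQ).2 q hqS hq hqp P hP σ hσ

/-- (i) `ρ̄` is unipotent on inertia at the primes of `Smin ∖ {p}` (flat half). -/
theorem charpoly_inertia_of_flat (DQ : GaloisRep.DeformationRingData 𝒪 ρbar (flatCond 𝒪 p Smin T))
    {q : ℕ} (hqS : q ∈ Smin) (hq : q.Prime) (hqp : q ≠ p)
    (P : ValuationSubring (AlgebraicClosure ℚ)) (hP : P.LiesOverPrime q)
    {σ : AlgebraicClosure ℚ ≃ₐ[ℚ] AlgebraicClosure ℚ} (hσ : σ ∈ P.inertiaSubgroupIn ℚ) :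
    LinearMap.charpoly (ρbar.ρ σ) = (X - 1) ^ 2 :=
  (flatCond_rhoBar DQ).2 q hqS hq hqp P hP σ hσ

/-- (ii) `ρ̄` is strictly ordinary at `p`. -/
theorem isStrictOrdinaryAt_rhoBar
    (DQ : GaloisRep.DeformationRingData 𝒪 ρbar (ordCond 𝒪 p Smin T)) :
    (GaloisRepAdic.ofResidualGaloisRep ρbar).IsStrictOrdinaryAt p :=
  (ordCond_rhoBar DQ).1.2.1

/-- (ii) `ρ̄` is flat at `p`. -/
theorem isFlatAt_rhoBar (DQ : GaloisRep.DeformationRingData 𝒪 ρbar (flatCond 𝒪 p Smin T)) :
    (GaloisRepAdic.ofResidualGaloisRep ρbar).IsFlatAt p :=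
  (flatCond_rhoBar DQ).1.2.1

/-- (iii) `ρ̄` is unramified outside `T` (ordinary half). -/
theorem isUnramifiedAt_of_ord (DQ : GaloisRep.DeformationRingData 𝒪 ρbar (ordCond 𝒪 p Smin T))
    {q : ℕ} (hq : q.Prime) (hqT : q ∉ T) : ρbar.IsUnramifiedAt q :=
  fun P hP σ hσ => (ordCond_rhoBar DQ).1.2.2 q hq hqT P hP σ hσ

/-- (iii) `ρ̄` is unramified outside `T` (flat half). -/
theorem isUnramifiedAt_of_flat (DQ : GaloisRep.DeformationRingData 𝒪 ρbar (flatCond 𝒪 p Smin T))
    {q : ℕ} (hq : q.Prime) (hqT : q ∉ T) : ρbar.IsUnramifiedAt q :=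
  fun P hP σ hσ => (flatCond_rhoBar DQ).1.2.2 q hq hqT P hP σ hσ

/-- (iv) `det ρ̄` is the mod-`p` cyclotomic character, and `p = 0` in `k` (ordinary half). -/
theorem detIsCyclotomic_of_ord
    (DQ : GaloisRep.DeformationRingData 𝒪 ρbar (ordCond 𝒪 p Smin T)) :
    (GaloisRepAdic.ofResidualGaloisRep ρbar).DetIsCyclotomic p :=
  (ordCond_rhoBar DQ).1.1

/-- (iv) `det ρ̄` is the mod-`p` cyclotomic character, and `p = 0` in `k` (flat half). -/
theorem detIsCyclotomic_of_flat
    (DQ : GaloisRep.DeformationRingData 𝒪 ρbar (flatCond 𝒪 p Smin T)) :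
    (GaloisRepAdic.ofResidualGaloisRep ρbar).DetIsCyclotomic p :=
  (flatCond_rhoBar DQ).1.1

end Final

end Fermat.Agent.ES.T56.HrhoBar23
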