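/-
Programme T (S56), helper27: RESTRICTION OF SCALARS `k ↦ 𝔽_p` for representations and their `H¹`.

Programme F (S55, Poitou–Tate) and the GW contract `GWIface21` are over `Rep (ZMod p) G`; the
deformation-theoretic chapters (TAN, LOC, TW) live over `k = ResidueField 𝒪`.  This file is the bridge:

* `RS p k V` : the carrier `V` of a `k`-module, as a `ZMod p`-module (type synonym);
* `resScal p A : Rep (ZMod p) G` for `A : Rep k G`, on the carrier `RS p k A`;
* `toRS`/`ofRS` : the identity maps between the carriers; cocycles and coboundaries are literally the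
  same functions (`mem_cocycles₁_resScal_iff`, `mem_coboundaries₁_resScal_iff`);
* `h1Equiv A : H1 (resScal p A) ≃+ H1 A` with `h1Equiv_H1π`;
* `Rep.res` commutes with `resScal` definitionally (`res_resScal`);
* invariants: same subset (`mem_invariants_resScal_iff`).
-/
import Mathlib

set_option autoImplicit false

open CategoryTheory groupCohomology

namespace Fermat.Agent.ES.T56.ResScal27

/-- The carrier of a `k`-module, to be regarded as a `ZMod p`-module. -/
def RS (_p : ℕ) (_k : Type) (V : Type) : Type := V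

instance instAddCommGroupRS (p : ℕ) (k V : Type) [I : AddCommGroup V] : AddCommGroup (RS p k V) := I

noncomputable instance instModuleRS (p : ℕ) (k V : Type) [Field k] [Algebra (ZMod p) k]
    [AddCommGroup V] [Module k V] : Module (ZMod p) (RS p k V) :=
  Module.compHom V (algebraMap (ZMod p) k)

variable (p : ℕ) [Fact p.Prime] {k : Type} [Field k] [Algebra (ZMod p) k] {G : Type} [Group G]

theorem smul_RS_def {V : Type} [AddCommGroup V] [Module k V] (c : ZMod p) (v : RS p k V) :
    c • v = (show RS p k V from (algebraMap (ZMod p) k c • (show V from v) : V)) := rfl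

/-- Restriction of scalars of a representation, on the type synonym `RS`. -/
noncomputable def resScalRep {V : Type} [AddCommGroup V] [Module k V] (ρ : Representation k G V) :
    Representation (ZMod p) G (RS p k V) where
  toFun g :=
    { toFun := fun v => (show RS p k V from ρ g (show V from v))
      map_add' := fun v w => (ρ g).map_add v w
      map_smul' := fun c v => (ρ g).map_smul (algebraMap (ZMod p) k c) v }
  map_one' := by
    ext v
    show ρ 1 v = v
    rw [map_one]; rfl
  map_mul' g h := by
    ext v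
    show ρ (g * h) v = ρ g (ρ h v)
    rw [map_mul]; rfl

/-- Restriction of scalars `Rep k G → Rep (ZMod p) G`. -/
noncomputable def resScal (A : Rep.{0} k G) : Rep.{0} (ZMod p) G := Rep.of (resScalRep p A.ρ)

variable {p}

/-- The identity `A → resScal p A`. -/
def toRS (A : Rep.{0} k G) (a : A) : resScal p A := a

/-- The identity `resScal p A → A`. -/
def ofRS (A : Rep.{0} k G) (a : resScal p A) : A := a

@[simp] theorem ofRS_toRS (A : Rep.{0} k G) (a : A) : ofRS (p := p) A (toRS A a) = a := rfl
@[simp] theorem toRS_ofRS (A : Rep.{0} k G) (a : resScal p A) : toRS A (ofRS A a) = a := rfl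

theorem resScal_ρ_apply (A : Rep.{0} k G) (g : G) (a : resScal p A) :
    ofRS A ((resScal p A).ρ g a) = A.ρ g (ofRS A a) := rfl

theorem ofRS_add (A : Rep.{0} k G) (a b : resScal p A) :
    ofRS A (a + b) = ofRS A a + ofRS A b := rfl
theorem ofRS_sub (A : Rep.{0} k G) (a b : resScal p A) :
    ofRS A (a - b) = ofRS A a - ofRS A b := rfl
theorem ofRS_zero (A : Rep.{0} k G) : ofRS A (0 : resScal p A) = 0 := rfl
theorem ofRS_smul (A : Rep.{0} k G) (c : ZMod p) (a : resScal p A) :
    ofRS A (c • a) = algebraMap (ZMod p) k c • ofRS A a := rfl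

/-- `Rep.res` commutes with restriction of scalars, definitionally. -/
theorem res_resScal {H : Type} [Group H] (f : H →* G) (A : Rep.{0} k G) :
    Rep.res f (resScal p A) = resScal p (Rep.res f A) := rfl

/-! ### Cocycles, coboundaries, `H¹` -/

/-- A function `G → A` as a function `G → resScal p A` (the identity). -/
def funToRS (A : Rep.{0} k G) (f : G → A) : G → resScal p A := f

/-- A function `G → resScal p A` as a function `G → A` (the identity). -/
def funOfRS (A : Rep.{0} k G) (f : G → resScal p A) : G → A := f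

theorem mem_cocycles₁_resScal_iff (A : Rep.{0} k G) (f : G → resScal p A) :
    f ∈ cocycles₁ (resScal p A) ↔ funOfRS A f ∈ cocycles₁ A := by
  rw [mem_cocycles₁_iff, mem_cocycles₁_iff]
  rfl

theorem mem_coboundaries₁_iff' {k' : Type} [CommRing k'] (B : Rep.{0} k' G) (f : G → B) :
    f ∈ coboundaries₁ B ↔ ∃ x : B, ∀ g, B.ρ g x - x = f g := by
  constructor
  · rintro ⟨x, rfl⟩
    exact ⟨x, fun g => (d₀₁_hom_apply B x g).symm⟩
  · rintro ⟨x, hx⟩
    refine ⟨x, ?_⟩
    funext g
    rw [d₀₁_hom_apply, hx]

theorem mem_coboundaries₁_resScal_iff (A : Rep.{0} k G) (f : G → resScal p A) :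
    f ∈ coboundaries₁ (resScal p A) ↔ funOfRS A f ∈ coboundaries₁ A := by
  rw [mem_coboundaries₁_iff', mem_coboundaries₁_iff']
  rfl

/-- Cocycles of `resScal p A` as cocycles of `A`. -/
def cocOfRS (A : Rep.{0} k G) (c : cocycles₁ (resScal p A)) : cocycles₁ A :=
  ⟨funOfRS A c.1, (mem_cocycles₁_resScal_iff A c.1).1 c.2⟩

/-- Cocycles of `A` as cocycles of `resScal p A`. -/
def cocToRS (A : Rep.{0} k G) (c : cocycles₁ A) : cocycles₁ (resScal p A) :=
  ⟨funToRS A c.1, (mem_cocycles₁_resScal_iff A _).2 c.2⟩

@[simp] theorem cocOfRS_cocToRS (A : Rep.{0} k G) (c : cocycles₁ A) :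
    cocOfRS (p := p) A (cocToRS A c) = c := rfl

@[simp] theorem cocToRS_cocOfRS (A : Rep.{0} k G) (c : cocycles₁ (resScal p A)) :
    cocToRS A (cocOfRS A c) = c := rfl

theorem cocOfRS_apply (A : Rep.{0} k G) (c : cocycles₁ (resScal p A)) (g : G) :
    (cocOfRS A c).1 g = ofRS A (c.1 g) := rfl

theorem H1π_surjective {k' : Type} [CommRing k'] (B : Rep.{0} k' G) :
    Function.Surjective (H1π B).hom := fun x =>
  H1_induction_on (C := fun x => ∃ c, (H1π B).hom c = x) x fun c => ⟨c, rfl⟩

/-- The map `H1 (resScal p A) → H1 A`, `[c] ↦ [c]`, as a function. -/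
noncomputable def h1Fun (A : Rep.{0} k G) (x : H1 (resScal p A)) : H1 A :=
  (H1π A).hom (cocOfRS A (H1π_surjective (resScal p A) x).choose)

theorem h1Fun_H1π (A : Rep.{0} k G) (c : cocycles₁ (resScal p A)) :
    h1Fun A ((H1π (resScal p A)).hom c) = (H1π A).hom (cocOfRS A c) := by
  have h := (H1π_surjective (resScal p A) ((H1π (resScal p A)).hom c)).choose_spec
  rw [h1Fun, H1π_eq_iff]
  have h' := (H1π_eq_iff _ _).1 h
  exact (mem_coboundaries₁_resScal_iff A _).1 h'

/-- `H¹` does not see restriction of scalars: the additive equivalence `[c] ↦ [c]`. -/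
noncomputable def h1Equiv (A : Rep.{0} k G) : H1 (resScal p A) ≃+ H1 A where
  toFun := h1Fun A
  invFun y := (H1π (resScal p A)).hom (cocToRS A (H1π_surjective A y).choose)
  left_inv x := by
    obtain ⟨c, rfl⟩ := H1π_surjective (resScal p A) x
    rw [h1Fun_H1π]
    have h := (H1π_surjective A ((H1π A).hom (cocOfRS A c))).choose_spec
    rw [H1π_eq_iff]
    have h' := (H1π_eq_iff _ _).1 h
    exact (mem_coboundaries₁_resScal_iff A _).2 h'
  right_inv y := by
    have h := (H1π_surjective A y).choose_spec
    rw [h1Fun_H1π, cocOfRS_cocToRS]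
    exact h
  map_add' x y := by
    obtain ⟨c, rfl⟩ := H1π_surjective (resScal p A) x
    obtain ⟨d, rfl⟩ := H1π_surjective (resScal p A) y
    rw [← map_add, h1Fun_H1π, h1Fun_H1π, h1Fun_H1π, ← map_add]
    rfl

@[simp] theorem h1Equiv_H1π (A : Rep.{0} k G) (c : cocycles₁ (resScal p A)) :
    h1Equiv A ((H1π (resScal p A)).hom c) = (H1π A).hom (cocOfRS A c) := h1Fun_H1π A c

theorem h1Equiv_symm_H1π (A : Rep.{0} k G) (c : cocycles₁ A) :
    (h1Equiv (p := p) A).symm ((H1π A).hom c) = (H1π (resScal p A)).hom (cocToRS A c) := by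
  rw [AddEquiv.symm_apply_eq, h1Equiv_H1π, cocOfRS_cocToRS]

/-- The equivalence is semilinear: `c • x ↦ algebraMap c • x`. -/
theorem h1Equiv_smul (A : Rep.{0} k G) (c : ZMod p) (x : H1 (resScal p A)) :
    h1Equiv A (c • x) = algebraMap (ZMod p) k c • h1Equiv A x := by
  obtain ⟨z, rfl⟩ := H1π_surjective (resScal p A) x
  rw [← map_smul, h1Equiv_H1π, h1Equiv_H1π, ← map_smul]
  rfl

/-! ### Invariants -/

theorem mem_invariants_resScal_iff (A : Rep.{0} k G) (a : resScal p A) :
    a ∈ (resScal p A).ρ.invariants ↔ ofRS A a ∈ A.ρ.invariants := Iff.rfl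


end Fermat.Agent.ES.T56.ResScal27
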