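/-
Programme T (S56, Taylor–Wiles primes), Chebotarev leg (helper17): **primes all of whose Frobenius
elements satisfy a finite-level, conjugation- and inversion-stable predicate**.

On top of main's `ChebExport7.chebExport` (Chebotarev up to inversion over `ℚ̄`):

* `IsLevelPred P` : the predicate `P` on `Gal(ℚ̄/ℚ)` only depends on the restriction to a finite
  extension `L ⊂ ℚ̄` of `ℚ`;
* `exists_prime_forall_frob` : if `P` is a level predicate, stable under conjugation and inversion
  and holds somewhere, then outside every finite set `T` there is a prime `q` such that **every**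
  Frobenius element at **every** valuation subring of `ℚ̄` over `q` satisfies `P`;
* `exists_injective_primes_fam`, `exists_injective_primes` : the same for `r` pairwise distinct
  primes (with one predicate per index, resp. a single predicate).
-/
import Mathlib
import Fermat.Agent.ES.R48.ChebExport7
import Fermat.Agent.ES.R48.ChebInvQbar18

set_option autoImplicit false
set_option linter.unusedSectionVars false
set_option linter.style.haveILetI false

open IsDedekindDomain Ideal NumberField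
open scoped Pointwise
open Fermat.Agent.Lib.FrobeniusExists Fermat.Agent.PT.GLOB.FrobGenerate19
  Fermat.Agent.CFT.SplitPrimes Fermat.Agent.CFT.NotAllSplit Fermat.Agent.ES.GAL.ChebAbstract23
  Fermat.Agent.ES.GAL.ChebQbar23 Fermat.Agent.ES.R48.DensDefs16 Fermat.Agent.ES.R48.RatPrimes18
  Fermat.Agent.ES.R48.DeuringNF18 Fermat.Agent.ES.R48.ChebInvQbar18

namespace Fermat.Agent.ES.T56.TWCheb17

attribute [local instance] isGalois_Qbar isIntegral_Qbar

/-- A predicate on `Gal(ℚ̄/ℚ)` of finite level: it only depends on the restriction to a finite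
extension of `ℚ`. -/
def IsLevelPred (P : GQ → Prop) : Prop :=
  ∃ L : IntermediateField ℚ Qbar, FiniteDimensional ℚ L ∧
    ∀ σ s : GQ, (∀ x ∈ L, s x = x) → (P (σ * s) ↔ P σ)

theorem IsLevelPred.and {P Q : GQ → Prop} (hP : IsLevelPred P) (hQ : IsLevelPred Q) :
    IsLevelPred fun σ => P σ ∧ Q σ := by
  obtain ⟨L, hLfin, hL⟩ := hP
  obtain ⟨L', hL'fin, hL'⟩ := hQ
  haveI := hLfin
  haveI := hL'fin
  refine ⟨L ⊔ L', IntermediateField.finiteDimensional_sup L L', fun σ s hs => ?_⟩
  have h1 : ∀ x ∈ L, s x = x := fun x hx => hs x ((le_sup_left : L ≤ L ⊔ L') hx)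
  have h2 : ∀ x ∈ L', s x = x := fun x hx => hs x ((le_sup_right : L' ≤ L ⊔ L') hx)
  exact and_congr (hL σ s h1) (hL' σ s h2)

/-- A predicate that factors through a homomorphism of finite level is a level predicate. -/
theorem isLevelPred_of_hom {Γ : Type} [MulOneClass Γ] (ρ : GQ →* Γ)
    (hρ : GaloisFactorsThroughFiniteLevel ρ) (Q : Γ → Prop) : IsLevelPred fun σ => Q (ρ σ) := by
  obtain ⟨L, hLfin, hL⟩ := hρ
  refine ⟨L, hLfin, fun σ s hs => ?_⟩
  show Q (ρ (σ * s)) ↔ Q (ρ σ)
  rw [map_mul, hL s hs, mul_one]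

/-- The kernel of the restriction to a normal intermediate field fixes it pointwise. -/
theorem fixes_of_restrictNormalHom_eq_one (N : IntermediateField ℚ Qbar) [Normal ℚ N] {s : GQ}
    (hs : AlgEquiv.restrictNormalHom N s = 1) : ∀ x ∈ N, s x = x := by
  intro x hx
  have h1 : algebraMap N Qbar ((AlgEquiv.restrictNormalHom N s) ⟨x, hx⟩) =
      s (algebraMap N Qbar ⟨x, hx⟩) := AlgEquiv.restrictNormal_commutes s N ⟨x, hx⟩
  rw [hs] at h1
  exact h1.symm

theorem restrictNormalHom_eq_one_of_fixes (N : IntermediateField ℚ Qbar) [Normal ℚ N] {s : GQ}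
    (hs : ∀ x ∈ N, s x = x) : AlgEquiv.restrictNormalHom N s = 1 := by
  apply AlgEquiv.ext
  intro x
  apply (algebraMap N Qbar).injective
  have h1 : algebraMap N Qbar ((AlgEquiv.restrictNormalHom N s) x) =
      s (algebraMap N Qbar x) := AlgEquiv.restrictNormal_commutes s N x
  rw [h1]
  exact hs _ x.2

/-- **Chebotarev, "every Frobenius" form.**  Let `P` be a predicate on `Gal(ℚ̄/ℚ)` of finite level,
stable under conjugation and inversion, which holds somewhere.  Outside every finite set `T` there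
is a prime `q` such that every Frobenius element at every valuation subring of `ℚ̄` over `q`
satisfies `P`. -/
theorem exists_prime_forall_frob (P : GQ → Prop) (hlev : IsLevelPred P)
    (hconj : ∀ σ τ : GQ, P σ → P (τ * σ * τ⁻¹)) (hinv : ∀ σ : GQ, P σ → P σ⁻¹)
    (hne : ∃ σ : GQ, P σ) (T : Set ℕ) (hT : T.Finite) :
    ∃ q : ℕ, q.Prime ∧ q ∉ T ∧ ∀ A : ValuationSubring Qbar, A.LiesOverPrime q →
      ∀ σ : GQ, A.IsFrobeniusAt σ q → P σ := by
  classical
  obtain ⟨L, hLfin, hL⟩ := hlev
  haveI := hLfin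
  -- the Galois level
  set N : IntermediateField ℚ Qbar := IntermediateField.normalClosure ℚ L Qbar with hN
  haveI hNfin : FiniteDimensional ℚ N := normalClosure.is_finiteDimensional ℚ L Qbar
  haveI hnorm : Normal ℚ N := normalClosure.normal ℚ L Qbar
  have hLN : L ≤ N := IntermediateField.le_normalClosure L
  haveI hgal : IsGalois ℚ N := ⟨⟩
  haveI hNnf : NumberField N := ⟨⟩
  set ρ : GQ →* (N ≃ₐ[ℚ] N) := AlgEquiv.restrictNormalHom (F := ℚ) (K₁ := Qbar) N with hρdef
  have hsurj : Function.Surjective ρ := AlgEquiv.restrictNormalHom_surjective Qbar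
  have hρlev : GaloisFactorsThroughFiniteLevel ρ :=
    ⟨N, hNfin, fun σ hσ => restrictNormalHom_eq_one_of_fixes N hσ⟩
  -- the class
  set C : Set (N ≃ₐ[ℚ] N) := {g | ∃ σ : GQ, ρ σ = g ∧ P σ} with hC
  have hCiff : ∀ σ : GQ, ρ σ ∈ C ↔ P σ := by
    intro σ
    constructor
    · rintro ⟨σ', hσ', hPσ'⟩
      have hs : ρ (σ'⁻¹ * σ) = 1 := by rw [map_mul, map_inv, hσ', inv_mul_cancel]
      have hfix : ∀ x ∈ L, (σ'⁻¹ * σ) x = x := fun x hx =>
        fixes_of_restrictNormalHom_eq_one N hs x (hLN hx)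
      have := (hL σ' (σ'⁻¹ * σ) hfix).mpr hPσ'
      rwa [mul_inv_cancel_left] at this
    · intro h
      exact ⟨σ, rfl, h⟩
  have hconjC : ∀ g ∈ C, ∀ h : N ≃ₐ[ℚ] N, h * g * h⁻¹ ∈ C := by
    rintro g ⟨σ, rfl, hσ⟩ h
    obtain ⟨τ, rfl⟩ := hsurj h
    refine ⟨τ * σ * τ⁻¹, ?_, hconj σ τ hσ⟩
    rw [map_mul, map_mul, map_inv]
  have hinvC : ∀ g ∈ C, g⁻¹ ∈ C := by
    rintro g ⟨σ, rfl, hσ⟩
    exact ⟨σ⁻¹, map_inv ρ σ, hinv σ hσ⟩
  have hCne : C.Nonempty := by
    obtain ⟨σ, hσ⟩ := hne
    exact ⟨ρ σ, σ, rfl, hσ⟩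
  haveI : Finite (N ≃ₐ[ℚ] N) := inferInstance
  have hcardC : 0 < Nat.card C := by
    haveI : Nonempty C := hCne.to_subtype
    exact Nat.card_pos
  have hcardΓ : 0 < Nat.card (N ≃ₐ[ℚ] N) := Nat.card_pos
  set η : ℝ := (Nat.card C : ℝ) / Nat.card (N ≃ₐ[ℚ] N) / 2 with hη
  have hquot : 0 < (Nat.card C : ℝ) / Nat.card (N ≃ₐ[ℚ] N) := by positivity
  have hη0 : 0 < η := by positivity
  have hηlt : η < (Nat.card C : ℝ) / Nat.card (N ≃ₐ[ℚ] N) := by
    rw [hη]; linarith
  have hdens := Fermat.Agent.ES.R48.ChebExport7.chebExport (N ≃ₐ[ℚ] N) ρ hρlev hsurj C hconjC hinvC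
    η hηlt
  -- the Chebotarev set is `frobPrimes N C`, and is infinite
  have hXinf : (frobPrimes N C).Infinite := by
    intro hfin
    have h0 : η ≤ 0 := le_of_lowerGe_of_upperLe hdens (upperLe_of_finite hfin)
    linarith
  set M : ℕ := (discr N).natAbs with hM
  have hM0 : M ≠ 0 := Int.natAbs_ne_zero.mpr (discr_ne_zero N)
  have hbad : (T ∪ {p | p ∣ M}).Finite := by
    refine hT.union ?_
    refine (Set.finite_le_nat M).subset fun p hp => ?_
    exact Nat.le_of_dvd (Nat.pos_of_ne_zero hM0) hp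
  obtain ⟨q, hqX, hqbad⟩ := (hXinf.sdiff hbad).nonempty
  have hqT : q ∉ T := fun h => hqbad (Or.inl h)
  have hqM : ¬ q ∣ M := fun h => hqbad (Or.inr h)
  refine ⟨q, hqX.1, hqT, fun A hA σ hσ => ?_⟩
  by_contra hPσ
  have hσC : ρ σ ∈ Cᶜ := fun h => hPσ ((hCiff σ).mp h)
  have h1 : q ∈ frobPrimes N Cᶜ := ⟨hqX.1, A, σ, hA, hσ, hσC⟩
  rcases frobPrimes_subset N M Cᶜ h1 with h1' | h1'
  swap
  · exact hqM h1'
  rcases frobPrimes_subset N M C hqX with h2' | h2'
  swap
  · exact hqM h2'
  obtain ⟨v', hv', hv'q⟩ := h1'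
  obtain ⟨v, hv, hvq⟩ := h2'
  have hvv' : v = v' := nrm_injective (hvq.trans hv'q.symm)
  subst hvv'
  exact frobClassIn_disjoint N dvd_rfl C hconjC hv hv'

/-- `r` pairwise distinct primes outside a finite set, all the Frobenius elements at the `i`-th
one satisfying the `i`-th predicate. -/
theorem exists_injective_primes_fam (T : Set ℕ) (hT : T.Finite) :
    ∀ (r : ℕ) (P : Fin r → GQ → Prop), (∀ i, IsLevelPred (P i)) →
      (∀ i, ∀ σ τ : GQ, P i σ → P i (τ * σ * τ⁻¹)) → (∀ i, ∀ σ : GQ, P i σ → P i σ⁻¹) →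
      (∀ i, ∃ σ : GQ, P i σ) →
      ∃ qv : Fin r → ℕ, Function.Injective qv ∧ ∀ i, (qv i).Prime ∧ qv i ∉ T ∧
        ∀ A : ValuationSubring Qbar, A.LiesOverPrime (qv i) →
          ∀ σ : GQ, A.IsFrobeniusAt σ (qv i) → P i σ := by
  intro r
  induction r with
  | zero => exact fun _ _ _ _ _ => ⟨Fin.elim0, fun i => i.elim0, fun i => i.elim0⟩
  | succ r ih =>
    intro P hlev hconj hinv hne
    obtain ⟨qv, hinj, hqv⟩ := ih (fun i => P i.castSucc) (fun i => hlev _) (fun i => hconj _)
      (fun i => hinv _) (fun i => hne _)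
    obtain ⟨q, hq, hqT, hqP⟩ := exists_prime_forall_frob (P (Fin.last r)) (hlev _) (hconj _)
      (hinv _) (hne _) (T ∪ Set.range qv) (hT.union (Set.finite_range qv))
    refine ⟨Fin.snoc qv q, ?_, ?_⟩
    · intro i j hij
      induction i using Fin.lastCases with
      | last =>
        induction j using Fin.lastCases with
        | last => rfl
        | cast j =>
          exfalso
          rw [Fin.snoc_last, Fin.snoc_castSucc] at hij
          exact hqT (Or.inr ⟨j, hij.symm⟩)
      | cast i =>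
        induction j using Fin.lastCases with
        | last =>
          exfalso
          rw [Fin.snoc_last, Fin.snoc_castSucc] at hij
          exact hqT (Or.inr ⟨i, hij⟩)
        | cast j =>
          rw [Fin.snoc_castSucc, Fin.snoc_castSucc] at hij
          rw [hinj hij]
    · intro i
      induction i using Fin.lastCases with
      | last =>
        rw [Fin.snoc_last]
        exact ⟨hq, fun h => hqT (Or.inl h), hqP⟩
      | cast i =>
        rw [Fin.snoc_castSucc]
        exact hqv i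

/-- `r` pairwise distinct primes outside a finite set, all of whose Frobenius elements satisfy
`P`. -/
theorem exists_injective_primes (P : GQ → Prop) (hlev : IsLevelPred P)
    (hconj : ∀ σ τ : GQ, P σ → P (τ * σ * τ⁻¹)) (hinv : ∀ σ : GQ, P σ → P σ⁻¹)
    (hne : ∃ σ : GQ, P σ) (T : Set ℕ) (hT : T.Finite) (r : ℕ) :
    ∃ qv : Fin r → ℕ, Function.Injective qv ∧ ∀ i, (qv i).Prime ∧ qv i ∉ T ∧
      ∀ A : ValuationSubring Qbar, A.LiesOverPrime (qv i) →
        ∀ σ : GQ, A.IsFrobeniusAt σ (qv i) → P σ :=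
  exists_injective_primes_fam T hT r (fun _ => P) (fun _ => hlev) (fun _ => hconj)
    (fun _ => hinv) (fun _ => hne)

end Fermat.Agent.ES.T56.TWCheb17
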