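/-
Programme T (S56, Taylor–Wiles primes), Chebotarev leg, part 2 (helper17): **the Taylor–Wiles
predicates** and the S56-shaped corollary of `TWCheb17.exists_injective_primes_fam`.

* rank two: `charpoly_rank_two`, `SplitDistinct f` (`charpoly f = (X - α)(X - β)`, `α ≠ β`) is stable
  under conjugation and inversion;
* `FixesRoots m σ` (`σ` fixes the `m`-th roots of unity) `↔ chiMod m σ = 1`; it forces `m ∣ q - 1`
  at a Frobenius over a prime `q ∤ m`;
* cocycles: `Detects act c σ` (`c σ ∉ range (act σ - 1)`) is stable under conjugation, inversion and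
  change of `c` by a coboundary, and is a level predicate when `act` and `c` are of finite level;
* **`exists_tw_prime`** : one prime `q` outside a finite set `T ∋ p` with `p ^ (n + 1) ∣ q - 1`,
  every Frobenius at `q` having split distinct eigenvalues and satisfying an additional level
  predicate `D` (e.g. `Detects act c`), from one witness `g ∈ Gal(ℚ̄/ℚ)` — the primitive for an
  adaptive choice of Taylor–Wiles primes;
* `exists_tw_prime_detects` : the same with `D φ := c φ ∉ range (act φ - 1)` for a cocycle `c`;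
* **`exists_tw_primes`** : the S56 shape (injective `qv : Fin r → ℕ`, primes outside `S`,
  `p ^ (n + 1) ∣ qv i - 1`, every Frobenius at `qv i` has split distinct eigenvalues and satisfies
  the `i`-th additional level predicate) from one witness per index.
-/
import Mathlib
import Fermat.Agent.ES.T56.TWCheb17
import Fermat.Agent.ES.R48.ModCyclo13

set_option autoImplicit false
set_option linter.unusedSectionVars false
set_option linter.style.haveILetI false

open Polynomial
open Fermat.Agent.Lib.FrobeniusExists Fermat.Agent.ES.T56.TWCheb17 Fermat.Agent.ES.R48.ModCyclo13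

namespace Fermat.Agent.ES.T56.TWPred17

/-! ### Rank two -/

section RankTwo

variable {k : Type*} [Field k] {V : Type*} [AddCommGroup V] [Module k V] [Module.Finite k V]

/-- In rank two, `charpoly f = X² - tr f X + det f`. -/
theorem charpoly_rank_two (hV : Module.finrank k V = 2) (f : Module.End k V) :
    f.charpoly = X ^ 2 - C (LinearMap.trace k V f) * X + C (LinearMap.det f) := by
  set b := Module.finBasisOfFinrankEq k V hV with hb
  rw [← LinearMap.charpoly_toMatrix f b, Matrix.charpoly_fin_two,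
    ← LinearMap.trace_eq_matrix_trace k b, LinearMap.det_toMatrix b]

/-- The characteristic polynomial splits with two distinct roots. -/
def SplitDistinct (f : Module.End k V) : Prop :=
  ∃ α β : k, α ≠ β ∧ f.charpoly = (X - C α) * (X - C β)

theorem trace_det_of_split (hV : Module.finrank k V = 2) {f : Module.End k V} {α β : k}
    (h : f.charpoly = (X - C α) * (X - C β)) :
    LinearMap.trace k V f = α + β ∧ LinearMap.det f = α * β := by
  rw [charpoly_rank_two hV f] at h
  have h0 := congrArg (Polynomial.eval 0) h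
  have h1 := congrArg (Polynomial.eval 1) h
  simp only [eval_add, eval_sub, eval_mul, eval_pow, eval_X, eval_C] at h0 h1
  have hd : LinearMap.det f = α * β := by linear_combination h0
  refine ⟨?_, hd⟩
  rw [hd] at h1
  linear_combination -h1

theorem charpoly_of_trace_det (hV : Module.finrank k V = 2) {f : Module.End k V} {α β : k}
    (ht : LinearMap.trace k V f = α + β) (hd : LinearMap.det f = α * β) :
    f.charpoly = (X - C α) * (X - C β) := by
  rw [charpoly_rank_two hV f, ht, hd, C_add, C_mul]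
  ring

/-- Conjugation invariance of the characteristic polynomial in rank two. -/
theorem charpoly_conj_rank_two (hV : Module.finrank k V = 2) (f h h' : Module.End k V)
    (hh : h' * h = 1) : (h * f * h').charpoly = f.charpoly := by
  rw [charpoly_rank_two hV, charpoly_rank_two hV f]
  have ht : LinearMap.trace k V (h * f * h') = LinearMap.trace k V f := by
    rw [LinearMap.trace_mul_comm, ← mul_assoc, hh, one_mul]
  have hd : LinearMap.det (h * f * h') = LinearMap.det f := by
    have h1 : LinearMap.det h' * LinearMap.det h = 1 := by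
      rw [← map_mul, hh, map_one]
    rw [map_mul, map_mul]
    linear_combination (LinearMap.det f) * h1
  rw [ht, hd]

theorem SplitDistinct.conj (hV : Module.finrank k V = 2) {f : Module.End k V}
    (hf : SplitDistinct f) (h h' : Module.End k V) (hh : h' * h = 1) :
    SplitDistinct (h * f * h') := by
  obtain ⟨α, β, hαβ, hc⟩ := hf
  exact ⟨α, β, hαβ, by rw [charpoly_conj_rank_two hV f h h' hh, hc]⟩

/-- The inverse of an endomorphism with split distinct eigenvalues has split distinct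
eigenvalues (rank two). -/
theorem SplitDistinct.inv (hV : Module.finrank k V = 2) {f g : Module.End k V}
    (hf : SplitDistinct f) (hfg : f * g = 1) : SplitDistinct g := by
  obtain ⟨α, β, hαβ, hc⟩ := hf
  obtain ⟨ht, hd⟩ := trace_det_of_split hV hc
  have hdet : LinearMap.det f * LinearMap.det g = 1 := by rw [← map_mul, hfg, map_one]
  have hαβ0 : α * β ≠ 0 := by
    intro h0
    rw [hd, h0, zero_mul] at hdet
    exact zero_ne_one hdet
  have hα0 : α ≠ 0 := left_ne_zero_of_mul hαβ0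
  have hβ0 : β ≠ 0 := right_ne_zero_of_mul hαβ0
  -- Cayley–Hamilton
  have hCH : f * f - (α + β) • f + (α * β) • (1 : Module.End k V) = 0 := by
    have := LinearMap.aeval_self_charpoly f
    rw [charpoly_rank_two hV f, ht, hd] at this
    rw [← this]
    simp only [map_add, map_sub, map_mul, aeval_X, aeval_C,
      Algebra.algebraMap_eq_smul_one, smul_mul_assoc, one_mul, pow_two]
    rw [add_smul, add_mul, smul_mul_assoc, smul_mul_assoc, one_mul, mul_smul]
  have hg : (α * β) • g = (α + β) • (1 : Module.End k V) - f := by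
    have h2 := congrArg (· * g) hCH
    simp only [add_mul, sub_mul, zero_mul, smul_mul_assoc, one_mul, mul_assoc, hfg, mul_one] at h2
    rw [← sub_eq_zero]
    rw [← h2]
    abel
  have htg : (α * β) * LinearMap.trace k V g = α + β := by
    have h3 := congrArg (LinearMap.trace k V) hg
    rw [map_smul, map_sub, map_smul, LinearMap.trace_one, hV, ht, smul_eq_mul, smul_eq_mul] at h3
    rw [h3]
    push_cast
    ring
  have hdg : (α * β) * LinearMap.det g = 1 := by rw [← hd]; exact hdet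
  refine ⟨α⁻¹, β⁻¹, fun h => hαβ (inv_injective h), charpoly_of_trace_det hV ?_ ?_⟩
  · field_simp
    linear_combination htg
  · field_simp
    linear_combination hdg

end RankTwo

/-! ### Roots of unity -/

section Roots

/-- `σ` fixes the `m`-th roots of unity of `ℚ̄`. -/
def FixesRoots (m : ℕ) (σ : GQ) : Prop := ∀ ζ : Qbar, ζ ^ m = 1 → σ ζ = ζ

theorem fixesRoots_iff_chiMod (m : ℕ) [NeZero m] (σ : GQ) :
    FixesRoots m σ ↔ chiMod m σ = 1 := by
  constructor
  · intro h
    obtain ⟨ζ, hζ⟩ := exists_primitiveRoot13 m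
    have h1 : σ ζ = ζ ^ 1 := by rw [pow_one]; exact h ζ hζ.pow_eq_one
    apply Units.ext
    rw [chiMod_eq_of_apply hζ h1, Nat.cast_one, Units.val_one]
  · intro h ζ hζ
    have h1 := chiMod_spec m σ hζ
    rw [h, Units.val_one, ZMod.val_one_eq_one_mod, ← pow_eq_pow_mod 1 hζ, pow_one] at h1
    exact h1

theorem FixesRoots.conj {m : ℕ} {σ : GQ} (h : FixesRoots m σ) (τ : GQ) :
    FixesRoots m (τ * σ * τ⁻¹) := by
  intro ζ hζ
  have h1 : (τ⁻¹ ζ) ^ m = 1 := by rw [← map_pow, hζ, map_one]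
  show τ (σ (τ⁻¹ ζ)) = ζ
  rw [h _ h1]
  show (τ * τ⁻¹) ζ = ζ
  rw [mul_inv_cancel]
  rfl

theorem FixesRoots.inv {m : ℕ} {σ : GQ} (h : FixesRoots m σ) : FixesRoots m σ⁻¹ := by
  intro ζ hζ
  have h1 := h ζ hζ
  calc σ⁻¹ ζ = σ⁻¹ (σ ζ) := by rw [h1]
    _ = (σ⁻¹ * σ) ζ := rfl
    _ = ζ := by rw [inv_mul_cancel]; rfl

theorem isLevelPred_fixesRoots (m : ℕ) [NeZero m] : IsLevelPred (FixesRoots m) := by
  have h := isLevelPred_of_hom (chiMod m) (chiMod_finiteLevel m) (fun u => u = 1)
  have e : (fun σ : GQ => chiMod m σ = 1) = FixesRoots m := by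
    funext σ
    exact propext (fixesRoots_iff_chiMod m σ).symm
  rwa [e] at h

/-- A Frobenius element over `q ∤ m` fixing the `m`-th roots of unity forces `m ∣ q - 1`. -/
theorem dvd_sub_one_of_fixesRoots {m : ℕ} [NeZero m] {q : ℕ} (hq : q.Prime) (hqm : ¬ q ∣ m)
    (A : ValuationSubring Qbar) (hA : A.LiesOverPrime q) {φ : GQ} (hφ : A.IsFrobeniusAt φ q)
    (h : FixesRoots m φ) : m ∣ q - 1 := by
  have h1 := chiMod_of_isFrobeniusAt hq hqm A hA hφ
  rw [(fixesRoots_iff_chiMod m φ).mp h, Units.val_one] at h1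
  have h2 : ((1 : ℕ) : ZMod m) = (q : ZMod m) := by rw [Nat.cast_one]; exact h1
  have h3 : 1 ≡ q [MOD m] := (ZMod.natCast_eq_natCast_iff 1 q m).mp h2
  exact (Nat.modEq_iff_dvd' hq.one_le).mp h3

end Roots

/-! ### Cocycles -/

section Cocycle

variable {R : Type*} [Ring R] {M : Type*} [AddCommGroup M] [Module R M] {G : Type*} [Group G]

/-- `c` is a `1`-cocycle for the action `act`. -/
def IsCocycle (act : G →* Module.End R M) (c : G → M) : Prop :=
  ∀ σ τ : G, c (σ * τ) = c σ + act σ (c τ)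

/-- The class of `c` is detected at `σ`: `c σ` is not in the image of `σ - 1`, that is, the
restriction of `c` to the (pro)cyclic group generated by `σ` is not a coboundary. -/
def Detects (act : G →* Module.End R M) (c : G → M) (σ : G) : Prop :=
  c σ ∉ LinearMap.range (act σ - 1)

variable {act : G →* Module.End R M} {c : G → M}

theorem IsCocycle.map_one (hc : IsCocycle act c) : c 1 = 0 := by
  have h := hc 1 1
  rw [mul_one, _root_.map_one, Module.End.one_apply] at h
  exact left_eq_add.mp h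

theorem act_inv_apply (σ : G) (m : M) : act σ⁻¹ (act σ m) = m := by
  rw [← Module.End.mul_apply, ← map_mul, inv_mul_cancel, map_one, Module.End.one_apply]

theorem act_apply_inv (σ : G) (m : M) : act σ (act σ⁻¹ m) = m := by
  rw [← Module.End.mul_apply, ← map_mul, mul_inv_cancel, map_one, Module.End.one_apply]

theorem IsCocycle.map_inv (hc : IsCocycle act c) (σ : G) : c σ⁻¹ = - act σ⁻¹ (c σ) := by
  have h := hc σ⁻¹ σ
  rw [inv_mul_cancel, hc.map_one] at h
  exact eq_neg_of_add_eq_zero_left h.symm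

/-- The cocycle relation for a conjugate: `c (τ σ τ⁻¹) = τ c(σ) - (τ σ τ⁻¹ - 1) c(τ)`. -/
theorem IsCocycle.map_conj (hc : IsCocycle act c) (σ τ : G) :
    c (τ * σ * τ⁻¹) = act τ (c σ) - (act (τ * σ * τ⁻¹) - 1) (c τ) := by
  rw [hc (τ * σ) τ⁻¹, hc τ σ, hc.map_inv τ, map_neg, LinearMap.sub_apply, Module.End.one_apply]
  have e : act (τ * σ) (act τ⁻¹ (c τ)) = act (τ * σ * τ⁻¹) (c τ) := by
    rw [← Module.End.mul_apply, ← map_mul]
  rw [e]
  abel

theorem Detects.conj (hc : IsCocycle act c) {σ : G} (h : Detects act c σ) (τ : G) :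
    Detects act c (τ * σ * τ⁻¹) := by
  rintro ⟨m, hm⟩
  apply h
  -- `c σ = (σ - 1) (τ⁻¹ (m + c τ))`
  refine ⟨act τ⁻¹ (m + c τ), ?_⟩
  have h1 : act τ (c σ) = (act (τ * σ * τ⁻¹) - 1) (m + c τ) := by
    rw [map_add, hm, hc.map_conj σ τ]
    abel
  have h2 : c σ = act τ⁻¹ (act τ (c σ)) := (act_inv_apply τ (c σ)).symm
  rw [h2, h1, LinearMap.sub_apply, LinearMap.sub_apply, Module.End.one_apply, Module.End.one_apply,
    map_sub]
  congr 1
  rw [← Module.End.mul_apply, ← Module.End.mul_apply, ← map_mul, ← map_mul]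
  congr 2
  group

theorem Detects.inv (hc : IsCocycle act c) {σ : G} (h : Detects act c σ) :
    Detects act c σ⁻¹ := by
  rintro ⟨m, hm⟩
  apply h
  refine ⟨m, ?_⟩
  -- `- σ⁻¹ c(σ) = (σ⁻¹ - 1) m`, apply `- σ`
  rw [hc.map_inv σ, LinearMap.sub_apply, Module.End.one_apply] at hm
  have h1 := congrArg (fun x => - act σ x) hm
  simp only [map_sub, map_neg, act_apply_inv, neg_neg] at h1
  rw [LinearMap.sub_apply, Module.End.one_apply, ← h1]
  abel

/-- Detection only depends on the cohomology class. -/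
theorem detects_add_coboundary (c : G → M) (m : M) (σ : G) :
    Detects act (fun τ => c τ + (act τ - 1) m) σ ↔ Detects act c σ := by
  unfold Detects
  rw [not_iff_not]
  constructor
  · intro h
    have := Submodule.sub_mem _ h (LinearMap.mem_range_self (act σ - 1) m)
    simpa using this
  · intro h
    exact Submodule.add_mem _ h (LinearMap.mem_range_self (act σ - 1) m)

end Cocycle

/-- Detection is a level predicate for an action and a cocycle of finite level. -/
theorem isLevelPred_detects {R : Type} [Ring R] {M : Type} [AddCommGroup M] [Module R M]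
    (act : GQ →* Module.End R M) (hact : GaloisFactorsThroughFiniteLevel act) (c : GQ → M)
    (hc : ∃ L : IntermediateField ℚ Qbar, FiniteDimensional ℚ L ∧
      ∀ σ s : GQ, (∀ x ∈ L, s x = x) → c (σ * s) = c σ) :
    IsLevelPred (Detects act c) := by
  obtain ⟨L, hLfin, hL⟩ := hact
  obtain ⟨L', hL'fin, hL'⟩ := hc
  haveI := hLfin
  haveI := hL'fin
  refine ⟨L ⊔ L', IntermediateField.finiteDimensional_sup L L', fun σ s hs => ?_⟩
  have h1 : ∀ x ∈ L, s x = x := fun x hx => hs x ((le_sup_left : L ≤ L ⊔ L') hx)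
  have h2 : ∀ x ∈ L', s x = x := fun x hx => hs x ((le_sup_right : L' ≤ L ⊔ L') hx)
  unfold Detects
  rw [hL' σ s h2, map_mul, hL s h1, mul_one]

/-! ### The S56 shape -/

section TW

variable {k : Type} [Field k] (ρbar : ResidualGaloisRep k)

/-- The Taylor–Wiles predicate: `σ` fixes the `m`-th roots of unity, `ρbar σ` has split distinct
eigenvalues, and `σ` satisfies the additional predicate `D`. -/
def TWPredicate (m : ℕ) (D : GQ → Prop) (σ : GQ) : Prop :=
  (FixesRoots m σ ∧ SplitDistinct (ρbar.ρ σ)) ∧ D σ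

theorem isLevelPred_twPredicate (m : ℕ) [NeZero m] {D : GQ → Prop} (hD : IsLevelPred D) :
    IsLevelPred (TWPredicate ρbar m D) :=
  ((isLevelPred_fixesRoots m).and
    (isLevelPred_of_hom ρbar.ρ ρbar.factorsThroughFiniteLevel SplitDistinct)).and hD

theorem TWPredicate.conj {m : ℕ} {D : GQ → Prop}
    (hDconj : ∀ σ τ : GQ, D σ → D (τ * σ * τ⁻¹)) {σ : GQ} (h : TWPredicate ρbar m D σ) (τ : GQ) :
    TWPredicate ρbar m D (τ * σ * τ⁻¹) := by
  obtain ⟨⟨h1, h2⟩, h3⟩ := h
  refine ⟨⟨h1.conj τ, ?_⟩, hDconj σ τ h3⟩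
  rw [map_mul, map_mul]
  exact h2.conj ρbar.finrank_eq _ _ (by rw [← map_mul, inv_mul_cancel, map_one])

theorem TWPredicate.inv {m : ℕ} {D : GQ → Prop} (hDinv : ∀ σ : GQ, D σ → D σ⁻¹) {σ : GQ}
    (h : TWPredicate ρbar m D σ) : TWPredicate ρbar m D σ⁻¹ := by
  obtain ⟨⟨h1, h2⟩, h3⟩ := h
  exact ⟨⟨h1.inv, h2.inv ρbar.finrank_eq (by rw [← map_mul, mul_inv_cancel, map_one])⟩,
    hDinv σ h3⟩

/-- What the Taylor–Wiles predicate at every Frobenius over `q ∤ m` gives, in the S56 shape. -/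
theorem tw_of_forall_frob {m : ℕ} [NeZero m] {D : GQ → Prop} {q : ℕ} (hq : q.Prime)
    (hqm : ¬ q ∣ m)
    (h : ∀ A : ValuationSubring Qbar, A.LiesOverPrime q → ∀ σ : GQ, A.IsFrobeniusAt σ q →
      TWPredicate ρbar m D σ) :
    m ∣ q - 1 ∧
      (∀ P : ValuationSubring (AlgebraicClosure ℚ), P.LiesOverPrime q →
        ∀ φ : AlgebraicClosure ℚ ≃ₐ[ℚ] AlgebraicClosure ℚ, P.IsFrobeniusAt φ q →
          ∃ α β : k, α ≠ β ∧ LinearMap.charpoly (ρbar.ρ φ) = (X - C α) * (X - C β)) ∧
      (∀ P : ValuationSubring (AlgebraicClosure ℚ), P.LiesOverPrime q →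
        ∀ φ : AlgebraicClosure ℚ ≃ₐ[ℚ] AlgebraicClosure ℚ, P.IsFrobeniusAt φ q → D φ) := by
  refine ⟨?_, fun P hP φ hφ => (h P hP φ hφ).1.2, fun P hP φ hφ => (h P hP φ hφ).2⟩
  obtain ⟨A, hA⟩ : ∃ A : ValuationSubring Qbar, A.LiesOverPrime q :=
    exists_valuationSubring_liesOverPrime q hq
  obtain ⟨φ, hφ⟩ := Fermat.Agent.ES.FROB.FrobFacts12.exists_isFrobeniusAt_of q hq A hA
  exact dvd_sub_one_of_fixesRoots hq hqm A hA hφ (h A hA φ hφ).1.1

theorem not_dvd_prime_pow {p q : ℕ} (hp : p.Prime) (hq : q.Prime) (hqp : q ≠ p) (n : ℕ) :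
    ¬ q ∣ p ^ (n + 1) := fun h =>
  hqp ((Nat.prime_dvd_prime_iff_eq hq hp).mp (hq.dvd_of_dvd_pow h))

/-- **One Taylor–Wiles prime, Chebotarev leg** (the primitive for an adaptive choice).  Let `D` be a
level predicate stable under conjugation and inversion.  If some `g ∈ Gal(ℚ̄/ℚ)` fixes the
`p ^ (n + 1)`-th roots of unity, has split distinct eigenvalues under `ρbar` and satisfies `D`,
then outside every finite set `T ∋ p` there is a prime `q ≡ 1 mod p ^ (n + 1)` such that every
Frobenius element at every place over `q` has split distinct eigenvalues under `ρbar` and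
satisfies `D`. -/
theorem exists_tw_prime (p : ℕ) (hp : p.Prime) (n : ℕ) (T : Set ℕ) (hT : T.Finite) (hpT : p ∈ T)
    (D : GQ → Prop) (hDlev : IsLevelPred D) (hDconj : ∀ σ τ : GQ, D σ → D (τ * σ * τ⁻¹))
    (hDinv : ∀ σ : GQ, D σ → D σ⁻¹)
    (hex : ∃ g : GQ, (∀ ζ : AlgebraicClosure ℚ, ζ ^ p ^ (n + 1) = 1 → g ζ = ζ) ∧
      (∃ α β : k, α ≠ β ∧ LinearMap.charpoly (ρbar.ρ g) = (X - C α) * (X - C β)) ∧ D g) :
    ∃ q : ℕ, q.Prime ∧ q ∉ T ∧ p ^ (n + 1) ∣ q - 1 ∧
      (∀ P : ValuationSubring (AlgebraicClosure ℚ), P.LiesOverPrime q →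
        ∀ φ : AlgebraicClosure ℚ ≃ₐ[ℚ] AlgebraicClosure ℚ, P.IsFrobeniusAt φ q →
          ∃ α β : k, α ≠ β ∧ LinearMap.charpoly (ρbar.ρ φ) = (X - C α) * (X - C β)) ∧
      (∀ P : ValuationSubring (AlgebraicClosure ℚ), P.LiesOverPrime q →
        ∀ φ : AlgebraicClosure ℚ ≃ₐ[ℚ] AlgebraicClosure ℚ, P.IsFrobeniusAt φ q → D φ) := by
  haveI : NeZero (p ^ (n + 1)) := ⟨pow_ne_zero _ hp.ne_zero⟩
  obtain ⟨g, h1, h2, h3⟩ := hex
  obtain ⟨q, hq, hqT, hqP⟩ := exists_prime_forall_frob (TWPredicate ρbar (p ^ (n + 1)) D)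
    (isLevelPred_twPredicate ρbar _ hDlev) (fun σ τ h => h.conj ρbar hDconj τ)
    (fun σ h => h.inv ρbar hDinv) ⟨g, ⟨h1, h2⟩, h3⟩ T hT
  have hqp : q ≠ p := fun h => hqT (h ▸ hpT)
  exact ⟨q, hq, hqT, tw_of_forall_frob ρbar hq (not_dvd_prime_pow hp hq hqp n) hqP⟩

/-- **Taylor–Wiles primes, Chebotarev leg, family form.**  Let `D i` (`i : Fin r`) be level
predicates stable under conjugation and inversion.  If for every `i` some `g ∈ Gal(ℚ̄/ℚ)` fixes the
`p ^ (n + 1)`-th roots of unity, has split distinct eigenvalues under `ρbar` and satisfies `D i`,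
then there are `r` pairwise distinct primes `qv i ∉ S`, `qv i ≡ 1 mod p ^ (n + 1)`, such that every
Frobenius element at every place over `qv i` has split distinct eigenvalues under `ρbar` and
satisfies `D i`. -/
theorem exists_tw_primes (p : ℕ) (hp : p.Prime)
    (n : ℕ) (S : Finset ℕ) (hpS : p ∈ S) (r : ℕ) (D : Fin r → GQ → Prop)
    (hDlev : ∀ i, IsLevelPred (D i))
    (hDconj : ∀ i, ∀ σ τ : GQ, D i σ → D i (τ * σ * τ⁻¹))
    (hDinv : ∀ i, ∀ σ : GQ, D i σ → D i σ⁻¹)
    (hex : ∀ i, ∃ g : GQ, (∀ ζ : AlgebraicClosure ℚ, ζ ^ p ^ (n + 1) = 1 → g ζ = ζ) ∧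
      (∃ α β : k, α ≠ β ∧ LinearMap.charpoly (ρbar.ρ g) = (X - C α) * (X - C β)) ∧ D i g) :
    ∃ qv : Fin r → ℕ, Function.Injective qv ∧
      (∀ i, (qv i).Prime ∧ qv i ∉ S ∧ p ^ (n + 1) ∣ qv i - 1) ∧
      (∀ i, ∀ P : ValuationSubring (AlgebraicClosure ℚ), P.LiesOverPrime (qv i) →
        ∀ φ : AlgebraicClosure ℚ ≃ₐ[ℚ] AlgebraicClosure ℚ, P.IsFrobeniusAt φ (qv i) →
          ∃ α β : k, α ≠ β ∧ LinearMap.charpoly (ρbar.ρ φ) = (X - C α) * (X - C β)) ∧
      (∀ i, ∀ P : ValuationSubring (AlgebraicClosure ℚ), P.LiesOverPrime (qv i) →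
        ∀ φ : AlgebraicClosure ℚ ≃ₐ[ℚ] AlgebraicClosure ℚ, P.IsFrobeniusAt φ (qv i) → D i φ) := by
  haveI : NeZero (p ^ (n + 1)) := ⟨pow_ne_zero _ hp.ne_zero⟩
  obtain ⟨qv, hinj, hqv⟩ := exists_injective_primes_fam (S : Set ℕ) S.finite_toSet r
    (fun i => TWPredicate ρbar (p ^ (n + 1)) (D i))
    (fun i => isLevelPred_twPredicate ρbar _ (hDlev i))
    (fun i σ τ h => h.conj ρbar (hDconj i) τ) (fun i σ h => h.inv ρbar (hDinv i))
    (fun i => by
      obtain ⟨g, h1, h2, h3⟩ := hex i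
      exact ⟨g, ⟨h1, h2⟩, h3⟩)
  have hqp : ∀ i, qv i ≠ p := fun i h => (hqv i).2.1 (Finset.mem_coe.mpr (h ▸ hpS))
  have key := fun i => tw_of_forall_frob ρbar (hqv i).1
    (not_dvd_prime_pow hp (hqv i).1 (hqp i) n) (hqv i).2.2
  exact ⟨qv, hinj, fun i => ⟨(hqv i).1, fun h => (hqv i).2.1 (Finset.mem_coe.mpr h), (key i).1⟩,
    fun i => (key i).2.1, fun i => (key i).2.2⟩

/-- **One Taylor–Wiles prime detecting a cocycle.**  For an action `act` of `Gal(ℚ̄/ℚ)` on `M` and a
`1`-cocycle `c`, both of finite level: if some `g` fixes the `p ^ (n + 1)`-th roots of unity, has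
split distinct eigenvalues under `ρbar` and `c g ∉ (g - 1) M`, then outside every finite set
`T ∋ p` there is a prime `q ≡ 1 mod p ^ (n + 1)` such that every Frobenius element `φ` at every
place over `q` has split distinct eigenvalues under `ρbar` and `c φ ∉ (φ - 1) M`. -/
theorem exists_tw_prime_detects (p : ℕ) (hp : p.Prime) (n : ℕ) (T : Set ℕ) (hT : T.Finite)
    (hpT : p ∈ T) {R : Type} [Ring R] {M : Type} [AddCommGroup M] [Module R M]
    (act : GQ →* Module.End R M) (hact : GaloisFactorsThroughFiniteLevel act) (c : GQ → M)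
    (hc : ∀ σ τ : GQ, c (σ * τ) = c σ + act σ (c τ))
    (hclev : ∃ L : IntermediateField ℚ Qbar, FiniteDimensional ℚ L ∧
      ∀ σ s : GQ, (∀ x ∈ L, s x = x) → c (σ * s) = c σ)
    (hex : ∃ g : GQ, (∀ ζ : AlgebraicClosure ℚ, ζ ^ p ^ (n + 1) = 1 → g ζ = ζ) ∧
      (∃ α β : k, α ≠ β ∧ LinearMap.charpoly (ρbar.ρ g) = (X - C α) * (X - C β)) ∧
      c g ∉ LinearMap.range (act g - 1)) :
    ∃ q : ℕ, q.Prime ∧ q ∉ T ∧ p ^ (n + 1) ∣ q - 1 ∧
      (∀ P : ValuationSubring (AlgebraicClosure ℚ), P.LiesOverPrime q →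
        ∀ φ : AlgebraicClosure ℚ ≃ₐ[ℚ] AlgebraicClosure ℚ, P.IsFrobeniusAt φ q →
          ∃ α β : k, α ≠ β ∧ LinearMap.charpoly (ρbar.ρ φ) = (X - C α) * (X - C β)) ∧
      (∀ P : ValuationSubring (AlgebraicClosure ℚ), P.LiesOverPrime q →
        ∀ φ : AlgebraicClosure ℚ ≃ₐ[ℚ] AlgebraicClosure ℚ, P.IsFrobeniusAt φ q →
          c φ ∉ LinearMap.range (act φ - 1)) :=
  exists_tw_prime ρbar p hp n T hT hpT (Detects act c) (isLevelPred_detects act hact c hclev)
    (fun _ τ h => Detects.conj hc h τ) (fun _ h => Detects.inv hc h) hex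

end TW

end Fermat.Agent.ES.T56.TWPred17
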