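/-
Programme T (S56, Taylor–Wiles primes), TW chapter (helper3): **`det ρ̄` is the mod `p` cyclotomic
character** (consequences of `hdet`), for the glue with the group-theoretic vanishing (GT).

* `charP_of_hdet`, `two_ne_zero_of_hdet` : `k` has characteristic `p`; `2 ≠ 0` for `p ≠ 2`;
* `chiMod_surjective` : the mod `n` cyclotomic character of `Gal(ℚ̄/ℚ)` is onto `(ℤ/n)ˣ`
  (Dirichlet's theorem + existence of Frobenius elements);
* `det_eq_cast_chiMod` : `det ρ̄(σ) = χ̄_p(σ)` in `k`;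
* `det_pow_sub_one`    : `det ρ̄(σ) ^ (p - 1) = 1`;
* `exists_det_eq`      : every `a : k` with `a ^ (p - 1) = 1` is `det ρ̄(σ)` for some `σ`.
-/
import Mathlib
import Fermat.Agent.ES.T56.TWPred17
import Fermat.Prelude.Def_GaloisRep_LocalConditions

set_option autoImplicit false
set_option linter.unusedSectionVars false
set_option linter.style.haveILetI false

open Polynomial

namespace Fermat.Agent.ES.T56.TWDetChi3

open Fermat.Agent.Lib.FrobeniusExists Fermat.Agent.ES.R48.ModCyclo13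

/-- **The mod `n` cyclotomic character is surjective.** -/
theorem chiMod_surjective (n : ℕ) [NeZero n] (u : (ZMod n)ˣ) : ∃ σ : GQ, chiMod n σ = u := by
  obtain ⟨q, hqn, hq, hqu⟩ := Nat.forall_exists_prime_gt_and_eq_mod (q := n) (a := (u : ZMod n))
    u.isUnit n
  have hqn' : ¬ q ∣ n := fun h => absurd (Nat.le_of_dvd (Nat.pos_of_ne_zero (NeZero.ne n)) h)
    (not_le.mpr hqn)
  obtain ⟨A, hA⟩ : ∃ A : ValuationSubring Qbar, A.LiesOverPrime q :=
    exists_valuationSubring_liesOverPrime q hq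
  obtain ⟨φ, hφ⟩ := Fermat.Agent.ES.FROB.FrobFacts12.exists_isFrobeniusAt_of q hq A hA
  refine ⟨φ, Units.ext ?_⟩
  rw [chiMod_of_isFrobeniusAt hq hqn' A hA hφ, hqu]

section Residual

variable {k : Type} [Field k] (ρbar : ResidualGaloisRep k) (p : ℕ) [hp : Fact p.Prime]

theorem natCast_eq_zero_of_hdet
    (hdet : (GaloisRepAdic.ofResidualGaloisRep ρbar).DetIsCyclotomic p) : (p : k) = 0 := by
  have hp0 := hdet.1
  rw [IsLocalRing.maximalIdeal_eq_bot] at hp0
  exact (Ideal.mem_bot).mp hp0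

theorem charP_of_hdet (hdet : (GaloisRepAdic.ofResidualGaloisRep ρbar).DetIsCyclotomic p) :
    CharP k p :=
  (CharP.charP_iff_prime_eq_zero hp.out).mpr (natCast_eq_zero_of_hdet ρbar p hdet)

theorem two_ne_zero_of_hdet (hdet : (GaloisRepAdic.ofResidualGaloisRep ρbar).DetIsCyclotomic p)
    (hp2 : p ≠ 2) : (2 : k) ≠ 0 := by
  haveI := charP_of_hdet ρbar p hdet
  intro h
  have h2 : ((2 : ℕ) : k) = 0 := by rw [Nat.cast_ofNat]; exact h
  have hdvd : p ∣ 2 := (CharP.cast_eq_zero_iff k p 2).mp h2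
  exact hp2 ((Nat.prime_dvd_prime_iff_eq hp.out Nat.prime_two).mp hdvd)

/-- `det ρ̄(σ) = χ̄_p(σ)`. -/
theorem det_eq_cast_chiMod (hdet : (GaloisRepAdic.ofResidualGaloisRep ρbar).DetIsCyclotomic p)
    (σ : GQ) :
    LinearMap.det (ρbar.ρ σ) = ((((chiMod p σ : (ZMod p)ˣ) : ZMod p).val : ℕ) : k) := by
  have hpk := natCast_eq_zero_of_hdet ρbar p hdet
  have h1 := hdet.2 1 σ ((chiMod p σ : (ZMod p)ˣ) : ZMod p).val (fun μ hμ => by
    rw [pow_one] at hμ
    exact chiMod_spec p σ hμ)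
  rw [pow_one, hpk, Ideal.span_singleton_eq_bot.mpr rfl, Ideal.mem_bot, sub_eq_zero] at h1
  exact h1

/-- `det ρ̄(σ) ^ (p - 1) = 1`. -/
theorem det_pow_sub_one (hdet : (GaloisRepAdic.ofResidualGaloisRep ρbar).DetIsCyclotomic p)
    (σ : GQ) : LinearMap.det (ρbar.ρ σ) ^ (p - 1) = 1 := by
  haveI := charP_of_hdet ρbar p hdet
  rw [det_eq_cast_chiMod ρbar p hdet σ, ← Nat.cast_pow]
  have h1 : (((chiMod p σ : (ZMod p)ˣ) : ZMod p)) ^ (p - 1) = 1 :=
    ZMod.pow_card_sub_one_eq_one (Units.ne_zero _)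
  have h2 : ((((chiMod p σ : (ZMod p)ˣ) : ZMod p).val ^ (p - 1) : ℕ) : ZMod p) = ((1 : ℕ) : ZMod p) := by
    rw [Nat.cast_pow, ZMod.natCast_zmod_val, h1, Nat.cast_one]
  have h3 := (ZMod.natCast_eq_natCast_iff _ _ _).mp h2
  have h4 : ((((chiMod p σ : (ZMod p)ˣ) : ZMod p).val ^ (p - 1) : ℕ) : k) = ((1 : ℕ) : k) :=
    (CharP.natCast_eq_natCast k p).mpr h3
  rw [h4, Nat.cast_one]

/-- Every `(p - 1)`-th root of unity of `k` is `det ρ̄(σ)` for some `σ`. -/
theorem exists_det_eq (hdet : (GaloisRepAdic.ofResidualGaloisRep ρbar).DetIsCyclotomic p)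
    (a : k) (ha : a ^ (p - 1) = 1) : ∃ σ : GQ, LinearMap.det (ρbar.ρ σ) = a := by
  haveI := charP_of_hdet ρbar p hdet
  have ha0 : a ≠ 0 := by
    intro h0
    rw [h0, zero_pow (Nat.sub_ne_zero_of_lt hp.out.one_lt)] at ha
    exact zero_ne_one ha
  have hap : a ^ p = a := by
    have : a ^ p = a ^ (p - 1) * a := by
      rw [← pow_succ, Nat.sub_add_cancel hp.out.one_le]
    rw [this, ha, one_mul]
  have hbot : a ∈ (⊥ : Subfield k) := (Subfield.mem_bot_iff_pow_eq_self k p).mpr hap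
  have hrange : a ∈ (ZMod.castHom (dvd_refl p) k).fieldRange :=
    (bot_le : (⊥ : Subfield k) ≤ (ZMod.castHom (dvd_refl p) k).fieldRange) hbot
  obtain ⟨u, hu⟩ := hrange
  have hu0 : u ≠ 0 := by
    intro h0
    rw [h0, map_zero] at hu
    exact ha0 hu.symm
  obtain ⟨σ, hσ⟩ := chiMod_surjective p (Units.mk0 u hu0)
  refine ⟨σ, ?_⟩
  rw [det_eq_cast_chiMod ρbar p hdet σ, hσ, Units.val_mk0, ← hu, ZMod.castHom_apply,
    ZMod.natCast_val]

end Residual

end Fermat.Agent.ES.T56.TWDetChi3
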