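/-
Programme T (S56, Taylor–Wiles primes), TW chapter (helper3): consequences of `habs` and `hTW`,
part 1 (`T56_TW.md` §0): **`Gal(ℚ̄/ℚ)` does not permute a pair of proper non-zero subspaces.**

`hTW` of S56 says that no subgroup of index `2` of `Gal(ℚ̄/ℚ)` stabilises a proper non-zero subspace
of `K ⊗ V̄`; together with irreducibility over `K` this excludes a pair `{W₁, W₂}` of subspaces
(with `W₁ ≠ ⊥, ⊤`) permuted by the Galois action (here via `Submodule.comap`): the stabiliser of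
`W₁` would have index `1` or `2`.
-/
import Mathlib
import Fermat.Prelude.Def_GaloisRep_Residual

set_option autoImplicit false
set_option linter.unusedSectionVars false
set_option linter.style.haveILetI false

open scoped TensorProduct

namespace Fermat.Agent.ES.T56.TWHypCore3

/-- `Gal(ℚ̄/ℚ)`. -/
abbrev GQ : Type := AlgebraicClosure ℚ ≃ₐ[ℚ] AlgebraicClosure ℚ

section

variable {K : Type*} [Field K] {V : Type*} [AddCommGroup V] [Module K V] {G : Type*} [Group G]
  (ρ : G →* Module.End K V)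

theorem comap_one (W : Submodule K V) : W.comap (ρ 1) = W := by
  rw [map_one]
  exact Submodule.comap_id W

theorem comap_mul (W : Submodule K V) (σ τ : G) :
    W.comap (ρ (σ * τ)) = (W.comap (ρ σ)).comap (ρ τ) := by
  rw [map_mul, Module.End.mul_eq_comp, Submodule.comap_comp]

theorem comap_inv_comap (W : Submodule K V) (σ : G) : (W.comap (ρ σ)).comap (ρ σ⁻¹) = W := by
  rw [← comap_mul, mul_inv_cancel, comap_one]

theorem comap_comap_inv (W : Submodule K V) (σ : G) : (W.comap (ρ σ⁻¹)).comap (ρ σ) = W := by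
  rw [← comap_mul, inv_mul_cancel, comap_one]

theorem comap_injective (σ : G) {W W' : Submodule K V} (h : W.comap (ρ σ) = W'.comap (ρ σ)) :
    W = W' := by
  rw [← comap_inv_comap ρ W σ, h, comap_inv_comap]

/-- The stabiliser of a subspace for the `comap` action. -/
def stab (W : Submodule K V) : Subgroup G where
  carrier := {σ | W.comap (ρ σ) = W}
  one_mem' := comap_one ρ W
  mul_mem' := by
    intro σ τ hσ hτ
    show W.comap (ρ (σ * τ)) = W
    rw [comap_mul, hσ, hτ]
  inv_mem' := by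
    intro σ hσ
    show W.comap (ρ σ⁻¹) = W
    have h := comap_inv_comap ρ W σ
    rwa [hσ] at h

theorem mem_stab {W : Submodule K V} {σ : G} : σ ∈ stab ρ W ↔ W.comap (ρ σ) = W := Iff.rfl

theorem stab_stable {W : Submodule K V} {σ : G} (hσ : σ ∈ stab ρ W) {x : V} (hx : x ∈ W) :
    ρ σ x ∈ W := by
  have h : x ∈ W.comap (ρ σ) := by rw [(mem_stab ρ).mp hσ]; exact hx
  exact h

/-- **A permuted pair of subspaces has a stabiliser of index `1` or `2`.** -/
theorem stab_eq_top_or_index_two (W₁ W₂ : Submodule K V)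
    (h₁ : ∀ σ : G, W₁.comap (ρ σ) = W₁ ∨ W₁.comap (ρ σ) = W₂)
    (h₂ : ∀ σ : G, W₂.comap (ρ σ) = W₁ ∨ W₂.comap (ρ σ) = W₂) :
    stab ρ W₁ = ⊤ ∨ (stab ρ W₁).index = 2 := by
  by_cases htop : stab ρ W₁ = ⊤
  · exact Or.inl htop
  right
  obtain ⟨a, ha⟩ : ∃ a : G, a ∉ stab ρ W₁ := by
    by_contra hcon
    push Not at hcon
    exact htop (eq_top_iff.mpr fun σ _ => hcon σ)
  have haW : W₁.comap (ρ a) = W₂ := (h₁ a).resolve_left ha
  have hne : W₂ ≠ W₁ := fun h => ha (by rw [mem_stab, haW, h])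
  rw [Subgroup.index_eq_two_iff]
  refine ⟨a, fun b => ?_⟩
  by_cases hb : b ∈ stab ρ W₁
  · refine Or.inr ⟨hb, fun hba => ?_⟩
    rw [mem_stab, comap_mul, (mem_stab ρ).mp hb, haW] at hba
    exact hne hba
  · refine Or.inl ⟨?_, hb⟩
    have hbW : W₁.comap (ρ b) = W₂ := (h₁ b).resolve_left hb
    rw [mem_stab, comap_mul, hbW]
    refine (h₂ a).resolve_right fun h => hne ?_
    exact comap_injective ρ a (h.trans haW.symm)

end

section Residual

variable {k : Type} [Field k] (ρbar : ResidualGaloisRep k)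

/-- **No permuted pair.**  If `ρbar ⊗ K` is irreducible and no subgroup of index `2` stabilises a
proper non-zero subspace (S56's `hTW` at `K`), then `Gal(ℚ̄/ℚ)` cannot permute (via `comap`) two
subspaces `W₁, W₂` of `K ⊗ V̄` with `W₁` proper and non-zero. -/
theorem no_permuted_pair (K : Type) [Field K] [Algebra k K]
    (hirr : (ρbar.baseChange K).IsIrreducible)
    (hTW : ∀ G : Subgroup GQ, G.index = 2 → ∀ V : Submodule K (ρbar.baseChange K).V,
      (∀ σ ∈ G, ∀ x ∈ V, (ρbar.baseChange K).ρ σ x ∈ V) → V = ⊥ ∨ V = ⊤)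
    (W₁ W₂ : Submodule K (ρbar.baseChange K).V) (hbot : W₁ ≠ ⊥) (htop : W₁ ≠ ⊤)
    (h₁ : ∀ σ : GQ, W₁.comap ((ρbar.baseChange K).ρ σ) = W₁ ∨
      W₁.comap ((ρbar.baseChange K).ρ σ) = W₂)
    (h₂ : ∀ σ : GQ, W₂.comap ((ρbar.baseChange K).ρ σ) = W₁ ∨
      W₂.comap ((ρbar.baseChange K).ρ σ) = W₂) : False := by
  rcases stab_eq_top_or_index_two (ρbar.baseChange K).ρ W₁ W₂ h₁ h₂ with h | h
  · rcases hirr W₁ (fun σ x hx => stab_stable _ (h ▸ Subgroup.mem_top σ) hx) with h' | h'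
    · exact hbot h'
    · exact htop h'
  · rcases hTW _ h W₁ (fun σ hσ x hx => stab_stable _ hσ hx) with h' | h'
    · exact hbot h'
    · exact htop h'

/-- The same from the literal hypotheses `habs`, `hTW` of S56 (`K = k̄`). -/
theorem no_permuted_pair_algClosure (habs : ρbar.IsAbsolutelyIrreducible)
    (hTW : ∀ (K : Type) [Field K] [Algebra k K] (G : Subgroup GQ), G.index = 2 →
      ∀ V : Submodule K (ρbar.baseChange K).V,
        (∀ σ ∈ G, ∀ x ∈ V, (ρbar.baseChange K).ρ σ x ∈ V) → V = ⊥ ∨ V = ⊤)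
    (W₁ W₂ : Submodule (AlgebraicClosure k) (ρbar.baseChange (AlgebraicClosure k)).V)
    (hbot : W₁ ≠ ⊥) (htop : W₁ ≠ ⊤)
    (h₁ : ∀ σ : GQ, W₁.comap ((ρbar.baseChange (AlgebraicClosure k)).ρ σ) = W₁ ∨
      W₁.comap ((ρbar.baseChange (AlgebraicClosure k)).ρ σ) = W₂)
    (h₂ : ∀ σ : GQ, W₂.comap ((ρbar.baseChange (AlgebraicClosure k)).ρ σ) = W₁ ∨
      W₂.comap ((ρbar.baseChange (AlgebraicClosure k)).ρ σ) = W₂) : False :=
  no_permuted_pair ρbar (AlgebraicClosure k) habs (hTW (AlgebraicClosure k)) W₁ W₂ hbot htop h₁ h₂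

end Residual

end Fermat.Agent.ES.T56.TWHypCore3
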