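/-
Programme T (S56, Taylor–Wiles primes), TW chapter (helper3): consequences of `habs` and `hTW`,
part 2 (`T56_TW.md` §0): **no Galois-stable line in `ad⁰ρ̄`** (End-model).

If `X ≠ 0` is a trace-zero endomorphism of `V̄` with `ρ̄(σ) X ρ̄(σ)⁻¹ ∈ k · X` for all `σ`, then
`X² = D` is a scalar and, over `k̄`, the subspaces `ker (X - s)`, `ker (X + s)` (`s² = D`) are
permuted by `Gal(ℚ̄/ℚ)`: impossible by `TWHypCore3.no_permuted_pair`.
-/
import Mathlib
import Fermat.Agent.ES.T56.TWHypCore3
import Fermat.Agent.ES.T56.TWPred17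
import Fermat.Agent.S53.ResidualCore

set_option autoImplicit false
set_option linter.unusedSectionVars false
set_option linter.style.haveILetI false

open scoped TensorProduct
open Polynomial

namespace Fermat.Agent.ES.T56.TWHypLine3

open Fermat.Agent.ES.T56.TWHypCore3

/-- Cayley–Hamilton for a trace-zero endomorphism in rank two: `X² = - det X`. -/
theorem mul_self_of_trace_zero {k : Type*} [Field k] {V : Type*} [AddCommGroup V] [Module k V]
    [Module.Finite k V] (hV : Module.finrank k V = 2) (X : Module.End k V)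
    (htr : LinearMap.trace k V X = 0) : X * X = (-LinearMap.det X) • (1 : Module.End k V) := by
  have h := LinearMap.aeval_self_charpoly X
  rw [Fermat.Agent.ES.T56.TWPred17.charpoly_rank_two hV X, htr] at h
  simp only [map_zero, zero_mul, sub_zero, map_add, map_pow, aeval_X, aeval_C,
    Algebra.algebraMap_eq_smul_one] at h
  rw [pow_two] at h
  rw [neg_smul]
  exact eq_neg_of_add_eq_zero_left h

section

variable {k : Type} [Field k] (ρbar : ResidualGaloisRep k)

theorem rho_mul_inv (σ : GQ) : ρbar.ρ σ * ρbar.ρ σ⁻¹ = 1 := by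
  rw [← map_mul, mul_inv_cancel, map_one]

theorem rho_inv_mul (σ : GQ) : ρbar.ρ σ⁻¹ * ρbar.ρ σ = 1 := by
  rw [← map_mul, inv_mul_cancel, map_one]

/-- **No stable line in `ad⁰ρ̄`.** -/
theorem no_stable_line (h2 : (2 : k) ≠ 0) (habs : ρbar.IsAbsolutelyIrreducible)
    (hTW : ∀ (K : Type) [Field K] [Algebra k K] (G : Subgroup GQ), G.index = 2 →
      ∀ V : Submodule K (ρbar.baseChange K).V,
        (∀ σ ∈ G, ∀ x ∈ V, (ρbar.baseChange K).ρ σ x ∈ V) → V = ⊥ ∨ V = ⊤)
    (X : Module.End k ρbar.V) (hX0 : X ≠ 0) (htr : LinearMap.trace k ρbar.V X = 0)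
    (hconj : ∀ σ : GQ, ∃ δ : k, ρbar.ρ σ * X = δ • (X * ρbar.ρ σ)) : False := by
  classical
  haveI : Nontrivial ρbar.V := Fermat.Agent.S53.residual_nontrivial ρbar
  set D : k := -LinearMap.det X with hD
  have hXX : X * X = D • (1 : Module.End k ρbar.V) := mul_self_of_trace_zero ρbar.finrank_eq X htr
  -- the scalars `δ σ`
  choose δ hδ using hconj
  have hδ0 : ∀ σ, δ σ ≠ 0 := by
    intro σ h0
    have h1 := hδ σ
    rw [h0, zero_smul] at h1
    apply hX0
    calc X = (ρbar.ρ σ⁻¹ * ρbar.ρ σ) * X := by rw [rho_inv_mul, one_mul]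
      _ = ρbar.ρ σ⁻¹ * (ρbar.ρ σ * X) := mul_assoc _ _ _
      _ = 0 := by rw [h1, mul_zero]
  have hδD : ∀ σ, δ σ * δ σ * D = D := by
    intro σ
    have h1 : ρbar.ρ σ * (X * X) = (δ σ * δ σ) • ((X * X) * ρbar.ρ σ) := by
      calc ρbar.ρ σ * (X * X) = (ρbar.ρ σ * X) * X := (mul_assoc _ _ _).symm
        _ = (δ σ • (X * ρbar.ρ σ)) * X := by rw [hδ σ]
        _ = δ σ • (X * (ρbar.ρ σ * X)) := by rw [smul_mul_assoc, mul_assoc]
        _ = δ σ • (X * (δ σ • (X * ρbar.ρ σ))) := by rw [hδ σ]
        _ = (δ σ * δ σ) • ((X * X) * ρbar.ρ σ) := by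
          rw [mul_smul_comm, smul_smul, mul_assoc]
    rw [hXX, mul_smul_comm, mul_one, smul_mul_assoc, one_mul, smul_smul] at h1
    have h3 : (D - δ σ * δ σ * D) • (1 : Module.End k ρbar.V) = 0 := by
      have h4 := congrArg (· * ρbar.ρ σ⁻¹) h1
      simp only [smul_mul_assoc, rho_mul_inv] at h4
      rw [sub_smul, h4, sub_self]
    have h5 := smul_eq_zero.mp h3
    rcases h5 with h5 | h5
    · exact (sub_eq_zero.mp h5).symm
    · exact absurd h5 one_ne_zero
  -- base change to `K = k̄`
  let K := AlgebraicClosure k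
  obtain ⟨s, hs⟩ := IsAlgClosed.exists_pow_nat_eq (algebraMap k K D) (n := 2) (by norm_num)
  rw [pow_two] at hs
  let V' := K ⊗[k] ρbar.V
  let X' : Module.End K V' := X.baseChange K
  let ρ' : GQ →* Module.End K V' := (ρbar.baseChange K).ρ
  have hρ' : ∀ σ, ρ' σ = (ρbar.ρ σ).baseChange K := fun _ => rfl
  have hX'X' : X' * X' = (s * s) • (1 : Module.End K V') := by
    show X.baseChange K * X.baseChange K = _
    rw [← LinearMap.baseChange_mul, hXX, LinearMap.baseChange_smul, LinearMap.baseChange_one, hs,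
      algebraMap_smul]
  have hρX' : ∀ σ, ρ' σ * X' = algebraMap k K (δ σ) • (X' * ρ' σ) := by
    intro σ
    show (ρbar.ρ σ).baseChange K * X.baseChange K = _ • (X.baseChange K * (ρbar.ρ σ).baseChange K)
    rw [← LinearMap.baseChange_mul, hδ σ, LinearMap.baseChange_smul, LinearMap.baseChange_mul,
      algebraMap_smul]
  have hρ'inv : ∀ σ, ρ' σ⁻¹ * ρ' σ = 1 := by
    intro σ
    rw [← map_mul, inv_mul_cancel, map_one]
  have hρ'inj : ∀ σ, Function.Injective (ρ' σ) := by
    intro σ x y hxy
    have h1 := congrArg (ρ' σ⁻¹) hxy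
    rwa [← Module.End.mul_apply, ← Module.End.mul_apply, hρ'inv, Module.End.one_apply,
      Module.End.one_apply] at h1
  -- `X'` is not a scalar
  have hfr : Module.finrank K V' = 2 := by
    rw [Module.finrank_baseChange, ρbar.finrank_eq]
  have hX'ne : ∀ c : K, X' ≠ c • (1 : Module.End K V') := by
    intro c hc
    have h1 : LinearMap.trace K V' X' = 0 := by
      show LinearMap.trace K (K ⊗[k] ρbar.V) (X.baseChange K) = 0
      rw [LinearMap.trace_baseChange, htr, map_zero]
    rw [hc, map_smul, LinearMap.trace_one, hfr, smul_eq_mul] at h1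
    have h2K : ((2 : ℕ) : K) ≠ 0 := by
      have h := (map_ne_zero_iff _ (algebraMap k K).injective).mpr h2
      rw [map_ofNat] at h
      rw [Nat.cast_ofNat]
      exact h
    have hc0 : c = 0 := (mul_eq_zero.mp h1).resolve_right h2K
    rw [hc0, zero_smul] at hc
    -- `X' = 0` forces `X = 0`
    apply hX0
    ext v
    by_contra hv
    have h3 := Fermat.Agent.S53.one_tmul_ne_zero ρbar K (v := X v) hv
    apply h3
    have h4 : X' ((1 : K) ⊗ₜ[k] v) = (1 : K) ⊗ₜ[k] X v := LinearMap.baseChange_tmul X 1 v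
    rw [← h4, hc, LinearMap.zero_apply]
  -- the two eigenspaces
  let W : K → Submodule K V' := fun t => LinearMap.ker (X' - t • (1 : Module.End K V'))
  have hWmem : ∀ (t : K) (x : V'), x ∈ W t ↔ X' x = t • x := by
    intro t x
    show x ∈ LinearMap.ker (X' - t • (1 : Module.End K V')) ↔ _
    rw [LinearMap.mem_ker, LinearMap.sub_apply, LinearMap.smul_apply, Module.End.one_apply,
      sub_eq_zero]
  have hWcomap : ∀ (σ : GQ) (t : K), (W t).comap (ρ' σ) = W (algebraMap k K (δ σ) * t) := by
    intro σ t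
    ext x
    rw [Submodule.mem_comap, hWmem, hWmem]
    have h1 : ρ' σ (X' x) = algebraMap k K (δ σ) • X' (ρ' σ x) := by
      have := LinearMap.congr_fun (hρX' σ) x
      simpa only [Module.End.mul_apply, LinearMap.smul_apply] using this
    have hδK : algebraMap k K (δ σ) ≠ 0 :=
      (map_ne_zero_iff _ (algebraMap k K).injective).mpr (hδ0 σ)
    constructor
    · intro h
      apply hρ'inj σ
      rw [h1, h, map_smul, smul_smul]
    · intro h
      rw [h, map_smul] at h1
      have h3 : algebraMap k K (δ σ) • (t • ρ' σ x) = algebraMap k K (δ σ) • X' (ρ' σ x) := by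
        rw [← h1, smul_smul]
      exact (smul_right_injective _ hδK h3).symm
  have hδs : ∀ σ, algebraMap k K (δ σ) * s = s ∨ algebraMap k K (δ σ) * s = -s := by
    intro σ
    have h1 : (algebraMap k K (δ σ) * s - s) * (algebraMap k K (δ σ) * s + s) = 0 := by
      have h3 : algebraMap k K (δ σ * δ σ * D) = algebraMap k K D := by rw [hδD σ]
      rw [map_mul, map_mul, ← hs] at h3
      linear_combination h3
    rcases mul_eq_zero.mp h1 with h | h
    · exact Or.inl (sub_eq_zero.mp h)
    · exact Or.inr (eq_neg_of_add_eq_zero_left h)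
  -- `W s` is non-zero and proper
  have hWs_bot : W s ≠ ⊥ := by
    intro hbot
    -- `(X' - s)(X' + s) = 0`
    have hprod : ∀ y : V', (X' + s • (1 : Module.End K V')) y ∈ W s := by
      intro y
      rw [hWmem, LinearMap.add_apply, LinearMap.smul_apply, Module.End.one_apply, map_add,
        map_smul, smul_add, smul_smul]
      have h1 : X' (X' y) = (s * s) • y := by
        have := LinearMap.congr_fun hX'X' y
        simpa only [Module.End.mul_apply, LinearMap.smul_apply, Module.End.one_apply] using this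
      rw [h1, add_comm]
    apply hX'ne (-s)
    refine LinearMap.ext fun y => ?_
    have h1 := hprod y
    rw [hbot, Submodule.mem_bot, LinearMap.add_apply, LinearMap.smul_apply, Module.End.one_apply]
      at h1
    rw [LinearMap.smul_apply, Module.End.one_apply, neg_smul]
    exact eq_neg_of_add_eq_zero_left h1
  have hWs_top : W s ≠ ⊤ := by
    intro htop
    apply hX'ne s
    refine LinearMap.ext fun y => ?_
    have h1 : y ∈ W s := htop ▸ Submodule.mem_top
    rw [hWmem] at h1
    rw [h1, LinearMap.smul_apply, Module.End.one_apply]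
  refine no_permuted_pair_algClosure ρbar habs hTW (W s) (W (-s)) hWs_bot hWs_top
    (fun σ => ?_) (fun σ => ?_)
  · show (W s).comap (ρ' σ) = W s ∨ (W s).comap (ρ' σ) = W (-s)
    rw [hWcomap]
    rcases hδs σ with h | h
    · exact Or.inl (by rw [h])
    · exact Or.inr (by rw [h])
  · show (W (-s)).comap (ρ' σ) = W s ∨ (W (-s)).comap (ρ' σ) = W (-s)
    rw [hWcomap, mul_neg]
    rcases hδs σ with h | h
    · exact Or.inr (by rw [h])
    · exact Or.inl (by rw [h, neg_neg])

end

end Fermat.Agent.ES.T56.TWHypLine3
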