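/-
Programme T (S56, Taylor–Wiles primes), TW chapter (helper3): consequences of `habs` and `hTW`,
part 3 (`T56_TW.md` §0, (H2)): **`ad⁰ρ̄` is irreducible** (matrix model).

`R : Gal(ℚ̄/ℚ) →* M₂(k)` is `ρ̄` in a basis `b` of `V̄` (e.g. `Sl.rbar`, `Sl.basis` of an S53
`SliceData`).  Every subspace `W` of trace-zero matrices stable under all `X ↦ R σ X R σ⁻¹` is `0` or
everything: a stable line is excluded by `TWHypLine3.no_stable_line`; a stable plane `⟨X, Y⟩`
gives the stable line `k · (XY - YX)`.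
-/
import Mathlib
import Fermat.Agent.ES.T56.TWHypLine3

set_option autoImplicit false
set_option linter.unusedSectionVars false
set_option linter.style.haveILetI false

open Polynomial Matrix

namespace Fermat.Agent.ES.T56.TWHypAd3

/-- `Gal(ℚ̄/ℚ)`. -/
abbrev GQ : Type := AlgebraicClosure ℚ ≃ₐ[ℚ] AlgebraicClosure ℚ

/-- Trace-zero `2 × 2` matrices (the same term as `sl2` of `Ad0Rep10`). -/
abbrev sl2 (k : Type) [Field k] : Submodule k (Matrix (Fin 2) (Fin 2) k) :=
  LinearMap.ker (Matrix.traceLinearMap (Fin 2) k k)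

theorem mem_sl2 {k : Type} [Field k] {X : Matrix (Fin 2) (Fin 2) k} :
    X ∈ sl2 k ↔ X.trace = 0 := by
  rw [LinearMap.mem_ker, Matrix.traceLinearMap_apply]

section Matrices

variable {k : Type} [Field k]

/-- A trace-zero matrix in coordinates. -/
theorem eq_of_trace_zero {X : Matrix (Fin 2) (Fin 2) k} (h : X.trace = 0) :
    X = !![X 0 0, X 0 1; X 1 0, -X 0 0] := by
  rw [Matrix.trace_fin_two] at h
  have h11 : X 1 1 = -X 0 0 := eq_neg_of_add_eq_zero_right h
  ext i j
  fin_cases i <;> fin_cases j <;> simp [h11]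

/-- Two linearly independent trace-zero matrices do not commute (`2 ≠ 0`). -/
theorem commutator_ne_zero (h2 : (2 : k) ≠ 0) {X Y : Matrix (Fin 2) (Fin 2) k}
    (hX : X.trace = 0) (hY : Y.trace = 0) (hli : LinearIndependent k ![X, Y]) :
    X * Y - Y * X ≠ 0 := by
  intro hcomm
  rw [sub_eq_zero] at hcomm
  rw [LinearIndependent.pair_iff] at hli
  have hX' := eq_of_trace_zero hX
  have hY' := eq_of_trace_zero hY
  set a := X 0 0
  set b := X 0 1
  set c := X 1 0
  set a' := Y 0 0
  set b' := Y 0 1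
  set c' := Y 1 0
  have hcomm' : !![a, b; c, -a] * !![a', b'; c', -a'] = !![a', b'; c', -a'] * !![a, b; c, -a] := by
    rw [← hX', ← hY']
    exact hcomm
  have e00 := congrFun (congrFun hcomm' 0) 0
  have e01 := congrFun (congrFun hcomm' 0) 1
  have e10 := congrFun (congrFun hcomm' 1) 0
  simp only [Matrix.mul_apply, Fin.sum_univ_two, Matrix.of_apply, Matrix.cons_val',
    Matrix.cons_val_zero, Matrix.cons_val_one, Matrix.empty_val', Matrix.cons_val_fin_one]
    at e00 e01 e10
  have hbc : b * c' = b' * c := by linear_combination e00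
  have hab : a * b' = a' * b := by
    have h : (2 : k) * (a * b' - a' * b) = 0 := by linear_combination e01
    have h' := (mul_eq_zero.mp h).resolve_left h2
    linear_combination h'
  have hac : a * c' = a' * c := by
    have h : (2 : k) * (a * c' - a' * c) = 0 := by linear_combination -e10
    have h' := (mul_eq_zero.mp h).resolve_left h2
    linear_combination h'
  -- the three relations `a' X = a Y`, `b' X = b Y`, `c' X = c Y`
  have ha : a' • X + (-a) • Y = 0 := by
    rw [hX', hY']
    ext i j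
    fin_cases i <;> fin_cases j
    · simp
      ring
    · simp
      linear_combination -hab
    · simp
      linear_combination -hac
    · simp
      ring
  have hb : b' • X + (-b) • Y = 0 := by
    rw [hX', hY']
    ext i j
    fin_cases i <;> fin_cases j
    · simp
      linear_combination hab
    · simp
      ring
    · simp
      linear_combination -hbc
    · simp
      linear_combination -hab
  have hc : c' • X + (-c) • Y = 0 := by
    rw [hX', hY']
    ext i j
    fin_cases i <;> fin_cases j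
    · simp
      linear_combination hac
    · simp
      linear_combination hbc
    · simp
      ring
    · simp
      linear_combination -hac
  have ha0 : a = 0 := neg_eq_zero.mp (hli _ _ ha).2
  have hb0 : b = 0 := neg_eq_zero.mp (hli _ _ hb).2
  have hc0 : c = 0 := neg_eq_zero.mp (hli _ _ hc).2
  have hX0 : X = 0 := by
    rw [hX', ha0, hb0, hc0]
    ext i j
    fin_cases i <;> fin_cases j <;> simp
  have h1 : (1 : k) • X + (0 : k) • Y = 0 := by rw [hX0, smul_zero, zero_smul, add_zero]
  exact one_ne_zero (hli _ _ h1).1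

/-- `sl₂` has dimension `3`. -/
theorem finrank_sl2 : Module.finrank k (sl2 k) = 3 := by
  have h := LinearMap.finrank_range_add_finrank_ker (Matrix.traceLinearMap (Fin 2) k k)
  have hsurj : LinearMap.range (Matrix.traceLinearMap (Fin 2) k k) = ⊤ := by
    rw [LinearMap.range_eq_top]
    intro c
    refine ⟨!![c, 0; 0, 0], ?_⟩
    rw [Matrix.traceLinearMap_apply, Matrix.trace_fin_two]
    simp
  rw [hsurj, finrank_top, Module.finrank_self, Module.finrank_matrix] at h
  simp only [Fintype.card_fin, Module.finrank_self] at h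
  show Module.finrank k (LinearMap.ker (Matrix.traceLinearMap (Fin 2) k k)) = 3
  omega

end Matrices

section Residual

variable {k : Type} [Field k] (ρbar : ResidualGaloisRep k)

theorem R_mul_inv (R : GQ →* Matrix (Fin 2) (Fin 2) k) (σ : GQ) : R σ * R σ⁻¹ = 1 := by
  rw [← map_mul, mul_inv_cancel, map_one]

theorem R_inv_mul (R : GQ →* Matrix (Fin 2) (Fin 2) k) (σ : GQ) : R σ⁻¹ * R σ = 1 := by
  rw [← map_mul, inv_mul_cancel, map_one]

/-- **No stable line in `ad⁰ρ̄`**, matrix model. -/
theorem no_stable_line_matrix (h2 : (2 : k) ≠ 0) (habs : ρbar.IsAbsolutelyIrreducible)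
    (hTW : ∀ (K : Type) [Field K] [Algebra k K] (G : Subgroup GQ), G.index = 2 →
      ∀ V : Submodule K (ρbar.baseChange K).V,
        (∀ σ ∈ G, ∀ x ∈ V, (ρbar.baseChange K).ρ σ x ∈ V) → V = ⊥ ∨ V = ⊤)
    (R : GQ →* Matrix (Fin 2) (Fin 2) k) (b : Module.Basis (Fin 2) k ρbar.V)
    (hR : ∀ σ, R σ = LinearMap.toMatrix b b (ρbar.ρ σ))
    (X : Matrix (Fin 2) (Fin 2) k) (hX0 : X ≠ 0) (htr : X.trace = 0)
    (hconj : ∀ σ : GQ, ∃ δ : k, R σ * X = δ • (X * R σ)) : False := by
  refine TWHypLine3.no_stable_line ρbar h2 habs hTW (Matrix.toLin b b X) ?_ ?_ ?_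
  · intro h
    apply hX0
    have h1 := congrArg (LinearMap.toMatrix b b) h
    rwa [LinearMap.toMatrix_toLin, map_zero] at h1
  · rw [LinearMap.trace_eq_matrix_trace k b, LinearMap.toMatrix_toLin]
    exact htr
  · intro σ
    obtain ⟨δ, hδ⟩ := hconj σ
    refine ⟨δ, ?_⟩
    apply (LinearMap.toMatrix b b).injective
    rw [LinearMap.toMatrix_mul, map_smul, LinearMap.toMatrix_mul, LinearMap.toMatrix_toLin, ← hR]
    exact hδ

/-- **(H2) `ad⁰ρ̄` is irreducible** (over `k`), matrix model. -/
theorem ad0_irreducible (h2 : (2 : k) ≠ 0) (habs : ρbar.IsAbsolutelyIrreducible)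
    (hTW : ∀ (K : Type) [Field K] [Algebra k K] (G : Subgroup GQ), G.index = 2 →
      ∀ V : Submodule K (ρbar.baseChange K).V,
        (∀ σ ∈ G, ∀ x ∈ V, (ρbar.baseChange K).ρ σ x ∈ V) → V = ⊥ ∨ V = ⊤)
    (R : GQ →* Matrix (Fin 2) (Fin 2) k) (b : Module.Basis (Fin 2) k ρbar.V)
    (hR : ∀ σ, R σ = LinearMap.toMatrix b b (ρbar.ρ σ))
    (W : Submodule k (Matrix (Fin 2) (Fin 2) k)) (hW : W ≤ sl2 k)
    (hstab : ∀ σ : GQ, ∀ X ∈ W, R σ * X * R σ⁻¹ ∈ W) : W = ⊥ ∨ W = sl2 k := by
  classical
  by_contra hcon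
  push Not at hcon
  obtain ⟨hbot, htop⟩ := hcon
  have hlt : W < sl2 k := lt_of_le_of_ne hW htop
  have h3 : Module.finrank k W < 3 := by
    rw [← finrank_sl2 (k := k)]
    exact Submodule.finrank_lt_finrank_of_lt hlt
  have h0 : 0 < Module.finrank k W := by
    rw [Module.finrank_pos_iff]
    exact (Submodule.nontrivial_iff_ne_bot).mpr hbot
  have hcases : Module.finrank k W = 1 ∨ Module.finrank k W = 2 := by omega
  rcases hcases with h1 | h2'
  · -- a stable line
    obtain ⟨v, hv0, hv⟩ := finrank_eq_one_iff'.mp h1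
    refine no_stable_line_matrix ρbar h2 habs hTW R b hR (v : Matrix (Fin 2) (Fin 2) k) ?_
      (mem_sl2.mp (hW v.2)) (fun σ => ?_)
    · intro h
      exact hv0 (Subtype.ext h)
    · obtain ⟨c, hc⟩ := hv ⟨R σ * v * R σ⁻¹, hstab σ v v.2⟩
      have hc' : c • (v : Matrix (Fin 2) (Fin 2) k) = R σ * v * R σ⁻¹ := by
        have := congrArg Subtype.val hc
        simpa using this
      refine ⟨c, ?_⟩
      rw [← smul_mul_assoc, hc', mul_assoc, R_inv_mul, mul_one]
  · -- a stable plane `⟨X, Y⟩` gives the stable line `k (XY - YX)`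
    set bW := Module.finBasisOfFinrankEq k W h2' with hbW
    set X : Matrix (Fin 2) (Fin 2) k := (bW 0 : Matrix (Fin 2) (Fin 2) k) with hXdef
    set Y : Matrix (Fin 2) (Fin 2) k := (bW 1 : Matrix (Fin 2) (Fin 2) k) with hYdef
    have hXtr : X.trace = 0 := mem_sl2.mp (hW (bW 0).2)
    have hYtr : Y.trace = 0 := mem_sl2.mp (hW (bW 1).2)
    have hli : LinearIndependent k ![X, Y] := by
      have h := bW.linearIndependent.map' W.subtype (Submodule.ker_subtype W)
      have e : (W.subtype ∘ bW) = ![X, Y] := by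
        funext i
        fin_cases i <;> rfl
      rwa [e] at h
    have hspan : ∀ w ∈ W, ∃ p q : k, w = p • X + q • Y := by
      intro w hw
      have h := bW.sum_repr ⟨w, hw⟩
      rw [Fin.sum_univ_two] at h
      refine ⟨bW.repr ⟨w, hw⟩ 0, bW.repr ⟨w, hw⟩ 1, ?_⟩
      have h' := congrArg Subtype.val h
      simpa using h'.symm
    have hZ0 : X * Y - Y * X ≠ 0 := commutator_ne_zero h2 hXtr hYtr hli
    have hZtr : (X * Y - Y * X).trace = 0 := by
      rw [Matrix.trace_sub, Matrix.trace_mul_comm, sub_self]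
    refine no_stable_line_matrix ρbar h2 habs hTW R b hR (X * Y - Y * X) hZ0 hZtr (fun σ => ?_)
    obtain ⟨p, q, hpq⟩ := hspan _ (hstab σ X (bW 0).2)
    obtain ⟨r, s, hrs⟩ := hspan _ (hstab σ Y (bW 1).2)
    refine ⟨p * s - q * r, ?_⟩
    have hconjZ : R σ * (X * Y - Y * X) * R σ⁻¹ = (p * s - q * r) • (X * Y - Y * X) := by
      have e1 : R σ * (X * Y - Y * X) * R σ⁻¹ =
          (R σ * X * R σ⁻¹) * (R σ * Y * R σ⁻¹) - (R σ * Y * R σ⁻¹) * (R σ * X * R σ⁻¹) := by
        have e2 : ∀ A B : Matrix (Fin 2) (Fin 2) k,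
            (R σ * A * R σ⁻¹) * (R σ * B * R σ⁻¹) = R σ * (A * B) * R σ⁻¹ := by
          intro A B
          calc (R σ * A * R σ⁻¹) * (R σ * B * R σ⁻¹)
              = R σ * A * (R σ⁻¹ * R σ) * B * R σ⁻¹ := by simp only [mul_assoc]
            _ = R σ * (A * B) * R σ⁻¹ := by rw [R_inv_mul, mul_one]; simp only [mul_assoc]
        rw [e2, e2, mul_sub, sub_mul]
      rw [e1, hpq, hrs]
      simp only [add_mul, mul_add, smul_mul_assoc, mul_smul_comm, sub_smul, smul_sub]
      module
    calc R σ * (X * Y - Y * X) = R σ * (X * Y - Y * X) * (R σ⁻¹ * R σ) := by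
          rw [R_inv_mul, mul_one]
      _ = (R σ * (X * Y - Y * X) * R σ⁻¹) * R σ := by simp only [mul_assoc]
      _ = (p * s - q * r) • ((X * Y - Y * X) * R σ) := by rw [hconjZ, smul_mul_assoc]

end Residual

end Fermat.Agent.ES.T56.TWHypAd3
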