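/-
Programme T (S56), chapter TOP (helper27): preparation lemmas for the final assembly.

* `twHalf_of_nonempty` : the vacuity split – to prove a half of S56 one may assume that SOME
  deformation ring of the type exists (for some ramification set);
* `toPrimes`           : `Finset ℕ` of primes ↦ `Finset Nat.Primes`, with `mem_toPrimes`;
* `card_le_pow_of_finrank_le` : the final count `finrank_{𝔽_p} X ≤ d * r → #X ≤ (p ^ d) ^ r`;
* `finrank_le_of_gw`   : the arithmetic of (GW≤) once the dual Selmer group is killed.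
-/
import Mathlib
import Fermat.Agent.ES.T56.T56Iface27

set_option autoImplicit false

open IsLocalRing Module

namespace Fermat.Agent.ES.T56.TopPrep27

open Fermat.Agent.ES.T56.T56Iface27

section Vacuity

variable {𝒪 : Type} [CommRing 𝒪] [IsDomain 𝒪] [IsDiscreteValuationRing 𝒪]
  [IsAdicComplete (maximalIdeal 𝒪) 𝒪]

/-- To prove a half of S56 one may assume that some deformation ring of the type exists. -/
theorem twHalf_of_nonempty (p : ℕ) (ρbar : ResidualGaloisRep (ResidueField 𝒪)) (S Smin : Finset ℕ)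
    (𝒟 : Finset ℕ → Cond 𝒪)
    (h : (∃ T : Finset ℕ, Nonempty (GaloisRep.DeformationRingData 𝒪 ρbar (𝒟 T))) →
      TWHalf p ρbar S Smin 𝒟) : TWHalf p ρbar S Smin 𝒟 := by
  by_cases hne : ∃ T : Finset ℕ, Nonempty (GaloisRep.DeformationRingData 𝒪 ρbar (𝒟 T))
  · exact h hne
  · refine twHalf_of_isEmpty p ρbar S Smin 𝒟 fun T => ⟨fun DQ => hne ⟨T, ⟨DQ⟩⟩⟩

end Vacuity

section Primes

/-- A finite set of natural numbers, as a finite set of primes (non-primes are dropped). -/
noncomputable def toPrimes (S : Finset ℕ) : Finset Nat.Primes :=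
  (S.subtype Nat.Prime).map ⟨fun q => (⟨q.1, q.2⟩ : Nat.Primes), fun _ _ h => by
    apply Subtype.ext
    exact congrArg (fun x : Nat.Primes => (x : ℕ)) h⟩

@[simp] theorem mem_toPrimes {S : Finset ℕ} {q : Nat.Primes} : q ∈ toPrimes S ↔ (q : ℕ) ∈ S := by
  constructor
  · intro h
    obtain ⟨a, ha, rfl⟩ := Finset.mem_map.1 h
    exact Finset.mem_subtype.1 ha
  · intro h
    refine Finset.mem_map.2 ⟨⟨q.1, q.2⟩, Finset.mem_subtype.2 h, rfl⟩

theorem toPrimes_mono {S T : Finset ℕ} (h : S ⊆ T) : toPrimes S ⊆ toPrimes T := fun _ hq =>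
  mem_toPrimes.2 (h (mem_toPrimes.1 hq))

theorem toPrimes_union (S T : Finset ℕ) [DecidableEq ℕ] [DecidableEq Nat.Primes] :
    toPrimes (S ∪ T) = toPrimes S ∪ toPrimes T := by
  ext q
  simp [Finset.mem_union]

/-- A prime outside `S` (as a natural number) is outside `toPrimes S`. -/
theorem not_mem_toPrimes {S : Finset ℕ} {q : Nat.Primes} (h : (q : ℕ) ∉ S) : q ∉ toPrimes S :=
  fun hq => h (mem_toPrimes.1 hq)

end Primes

section Count

/-- The final count: an `𝔽_p`-space of dimension `≤ d * r` has at most `(p ^ d) ^ r` elements. -/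
theorem card_le_pow_of_finrank_le {p : ℕ} [Fact p.Prime] {X : Type} [AddCommGroup X]
    [Module (ZMod p) X] [FiniteDimensional (ZMod p) X] {d r : ℕ}
    (h : finrank (ZMod p) X ≤ d * r) : Nat.card X ≤ (p ^ d) ^ r := by
  have hp : 1 ≤ p := (Fact.out : p.Prime).one_lt.le
  rw [Module.natCard_eq_pow_finrank (K := ZMod p) (V := X), Nat.card_zmod, ← pow_mul]
  exact Nat.pow_le_pow_right hp h

/-- The arithmetic of (GW≤) once the dual Selmer group is killed and `H⁰(G_ℚ, M) = 0`: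
`s + Σ h⁰_q + c ≤ 0 + 0 + Σ ℓ_q`, `ℓ_q ≤ h⁰_q + d·δ_q`, `c = d`, `Σ δ_q = r + 1` give `s ≤ d * r`. -/
theorem finrank_le_of_gw {ι : Type} [Fintype ι] (s c d r : ℕ) (h0 ℓ δ : ι → ℕ)
    (hgw : s + ∑ q, h0 q + c ≤ ∑ q, ℓ q) (hloc : ∀ q, ℓ q ≤ h0 q + d * δ q) (hc : c = d)
    (hδ : ∑ q, δ q = r + 1) : s ≤ d * r := by
  have h1 : ∑ q, ℓ q ≤ ∑ q, h0 q + d * (r + 1) := by
    calc ∑ q, ℓ q ≤ ∑ q, (h0 q + d * δ q) := Finset.sum_le_sum fun q _ => hloc q
      _ = ∑ q, h0 q + d * ∑ q, δ q := by rw [Finset.sum_add_distrib, Finset.mul_sum]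
      _ = ∑ q, h0 q + d * (r + 1) := by rw [hδ]
  have h2 : d * (r + 1) = d * r + d := by ring
  omega

end Count

end Fermat.Agent.ES.T56.TopPrep27
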