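/-
Programme T (S56, Taylor–Wiles primes), chapter LOC, leaf `LocGlob5` (helper5): the three GLOBAL
inputs of `TopAsm27.twSelmer_of_inputs` for `A = ad⁰ρ̄ = Ad0Rep10.ad0 rbar`, `M = resScal p A`:

* `isUnramOutside_resScal_ad0` (`hur`) : `M` is unramified outside `toPrimes Smin`, from S56's
  minimality hypothesis `hmin` and `p ∈ Smin`;
* `h0_resScal_ad0` (`hh0`)             : `h⁰(G_ℚ, M) = 0`  (no invariant trace-zero matrix, by
  `TWHypAd3.no_stable_line_matrix`);
* `h0c_resScal_ad0` (`hh0c`)           : `h⁰(⟨c⟩, M) = [k : 𝔽_p]`: `g = rbar c` has `g² = 1`,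
  `det g = -1`, hence `tr g = 0`, and the trace-zero matrices commuting with `g` are the line `k·g`.

Everything is stated for a general matrix model `rbar`, `b`, `hrbar : rbar σ = [ρ̄ σ]_b`.
-/
import Mathlib
import Fermat.Agent.ES.R48.ModCyclo13
import Fermat.Agent.ES.T56.Ad0Rep10
import Fermat.Agent.ES.T56.ResScal27
import Fermat.Agent.ES.T56.GWIface21
import Fermat.Agent.ES.T56.TopPrep27
import Fermat.Agent.ES.T56.TWHypAd3
import Fermat.Agent.ES.T56.TWDetChi3

set_option autoImplicit false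
set_option linter.unusedSectionVars false

open Module

namespace Fermat.Agent.ES.T56.LocGlob5

open Fermat.Agent.S53 Fermat.Agent.ES.T56.Ad0Rep10 Fermat.Agent.ES.T56.ResScal27
open Fermat.Agent.ES.T56.TopPrep27
open Fermat.Agent.ES.T56.GWIface21 hiding GQ

variable {k : Type} [Field k]

/-! ### Matrix lemmas -/

/-- If `rbar σ = 1` then the adjoint action of `σ` is trivial. -/
theorem ad0_ρ_eq_one_of_rbar_eq_one (rbar : GQ →* M2 k) (σ : GQ) (h : rbar σ = 1) :
    (ad0 rbar).ρ σ = 1 := by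
  have h' : rbar σ⁻¹ = 1 := by
    have := rbar_inv_mul rbar σ
    rwa [h, mul_one] at this
  apply LinearMap.ext
  intro X
  apply Subtype.ext
  rw [ad0_ρ_apply_coe, h, h', one_mul, mul_one]
  rfl

/-- An element of `sl₂` fixed by `Ad (rbar σ)` commutes with `rbar σ`. -/
theorem commute_of_fixed (rbar : GQ →* M2 k) (σ : GQ) (Y : sl2 k)
    (hfix : (ad0 rbar).ρ σ Y = Y) : rbar σ * (Y : M2 k) = (Y : M2 k) * rbar σ := by
  have h1 : rbar σ * (Y : M2 k) * rbar σ⁻¹ = (Y : M2 k) := by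
    rw [← ad0_ρ_apply_coe, hfix]
  calc rbar σ * (Y : M2 k) = rbar σ * (Y : M2 k) * (rbar σ⁻¹ * rbar σ) := by
        rw [rbar_inv_mul, mul_one]
    _ = (rbar σ * (Y : M2 k) * rbar σ⁻¹) * rbar σ := by simp only [mul_assoc]
    _ = (Y : M2 k) * rbar σ := by rw [h1]

/-- Conversely, a trace-zero matrix commuting with `rbar σ` is fixed by `Ad (rbar σ)`. -/
theorem fixed_of_commute (rbar : GQ →* M2 k) (σ : GQ) (Y : sl2 k)
    (hc : rbar σ * (Y : M2 k) = (Y : M2 k) * rbar σ) : (ad0 rbar).ρ σ Y = Y := by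
  apply Subtype.ext
  rw [ad0_ρ_apply_coe, hc, mul_assoc, rbar_mul_inv, mul_one]

/-- An involution of determinant `-1` has trace zero. -/
theorem trace_eq_zero_of_involution {g : M2 k} (hgg : g * g = 1) (hdet : g.det = -1) :
    g.trace = 0 := by
  have e00 := congrFun (congrFun hgg 0) 0
  have e11 := congrFun (congrFun hgg 1) 1
  simp only [Matrix.mul_apply, Fin.sum_univ_two, Matrix.one_apply_eq] at e00 e11
  rw [Matrix.det_fin_two] at hdet
  have ht : g.trace ^ 2 = 0 := by
    rw [Matrix.trace_fin_two]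
    linear_combination e00 + e11 + 2 * hdet
  exact pow_eq_zero_iff (two_ne_zero) |>.1 ht

/-- **The centraliser in `sl₂` of a trace-zero involution `g` is the line `k·g`** (`2 ≠ 0`). -/
theorem exists_smul_eq_of_commute (h2 : (2 : k) ≠ 0) {g : M2 k} (hgg : g * g = 1)
    (htr : g.trace = 0) {Y : M2 k} (hY : Y.trace = 0) (hc : g * Y = Y * g) :
    ∃ c : k, c • g = Y := by
  rw [Matrix.trace_fin_two] at htr hY
  have g11 : g 1 1 = -g 0 0 := by linear_combination htr
  have Y11 : Y 1 1 = -Y 0 0 := by linear_combination hY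
  have e00 := congrFun (congrFun hgg 0) 0
  simp only [Matrix.mul_apply, Fin.sum_univ_two, Matrix.one_apply_eq] at e00
  have c00 := congrFun (congrFun hc 0) 0
  have c01 := congrFun (congrFun hc 0) 1
  have c10 := congrFun (congrFun hc 1) 0
  simp only [Matrix.mul_apply, Fin.sum_univ_two] at c00 c01 c10
  rw [g11, Y11] at c01 c10
  -- the three minors vanish
  have E1 : g 0 1 * Y 1 0 = g 1 0 * Y 0 1 := by linear_combination c00
  have E2 : 2 * (g 0 0 * Y 0 1 - g 0 1 * Y 0 0) = 0 := by linear_combination c01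
  have E3 : 2 * (g 1 0 * Y 0 0 - g 0 0 * Y 1 0) = 0 := by linear_combination c10
  have E2' : g 0 0 * Y 0 1 = g 0 1 * Y 0 0 := by
    have := (mul_eq_zero.1 E2).resolve_left h2
    linear_combination this
  have E3' : g 1 0 * Y 0 0 = g 0 0 * Y 1 0 := by
    have := (mul_eq_zero.1 E3).resolve_left h2
    linear_combination this
  refine ⟨g 0 0 * Y 0 0 + g 0 1 * Y 1 0, ?_⟩
  ext i j
  fin_cases i <;> fin_cases j
  · show (g 0 0 * Y 0 0 + g 0 1 * Y 1 0) * g 0 0 = Y 0 0
    linear_combination (Y 0 0) * e00 - (g 0 1) * E3'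
  · show (g 0 0 * Y 0 0 + g 0 1 * Y 1 0) * g 0 1 = Y 0 1
    linear_combination (Y 0 1) * e00 + (g 0 1) * E1 - (g 0 0) * E2'
  · show (g 0 0 * Y 0 0 + g 0 1 * Y 1 0) * g 1 0 = Y 1 0
    linear_combination (Y 1 0) * e00 + (g 0 0) * E3'
  · show (g 0 0 * Y 0 0 + g 0 1 * Y 1 0) * g 1 1 = Y 1 1
    rw [g11, Y11]
    linear_combination (-(Y 0 0)) * e00 + (g 0 1) * E3'

/-! ### (1) `hur` -/

section Unram

variable (p : ℕ) [Fact p.Prime] [Algebra (ZMod p) k] (ρbar : ResidualGaloisRep k)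
  {rbar : GQ →* M2 k} {b : Module.Basis (Fin 2) k ρbar.V}

/-- `rbar σ = 1` when `ρ̄ σ = 1`. -/
theorem rbar_eq_one_of_ρ_eq_one (hrbar : ∀ σ, rbar σ = LinearMap.toMatrix b b (ρbar.ρ σ))
    {σ : GQ} (h : ρbar.ρ σ = 1) : rbar σ = 1 := by
  rw [hrbar, h]
  exact LinearMap.toMatrix_one b

/-- **`hur`**: `resScal p (ad⁰ρ̄)` is unramified outside `toPrimes Smin`. -/
theorem isUnramOutside_resScal_ad0 (hrbar : ∀ σ, rbar σ = LinearMap.toMatrix b b (ρbar.ρ σ))
    {Smin : Finset ℕ} (hpSmin : p ∈ Smin)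
    (hmin : ∀ q : ℕ, q.Prime → q ≠ p → (q ∈ Smin ↔ ¬ ρbar.IsUnramifiedAt q)) :
    IsUnramOutside p (toPrimes Smin) (resScal p (ad0 rbar)) := by
  intro q hq A hA g hg
  have hqS : (q : ℕ) ∉ Smin := fun h => hq (mem_toPrimes.2 h)
  have hqp : (q : ℕ) ≠ p := fun h => hqS (h ▸ hpSmin)
  have hunr : ρbar.IsUnramifiedAt q := by
    by_contra hcon
    exact hqS ((hmin q q.2 hqp).2 hcon)
  have h1 : rbar g = 1 := rbar_eq_one_of_ρ_eq_one ρbar hrbar (hunr A hA g hg)
  have h2 := ad0_ρ_eq_one_of_rbar_eq_one rbar g h1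
  apply LinearMap.ext
  intro x
  show (resScal p (ad0 rbar)).ρ g x = x
  have h3 : ofRS (ad0 rbar) ((resScal p (ad0 rbar)).ρ g x) = (ad0 rbar).ρ g (ofRS (ad0 rbar) x) :=
    resScal_ρ_apply (ad0 rbar) g x
  rw [h2] at h3
  exact h3

end Unram

/-! ### (2) `hh0` -/

section HZero

variable (p : ℕ) [Fact p.Prime] [Algebra (ZMod p) k] (ρbar : ResidualGaloisRep k)
  {rbar : GQ →* M2 k} {b : Module.Basis (Fin 2) k ρbar.V}

/-- **`hh0`**: `h⁰(G_ℚ, resScal p (ad⁰ρ̄)) = 0`. -/
theorem h0_resScal_ad0 (hrbar : ∀ σ, rbar σ = LinearMap.toMatrix b b (ρbar.ρ σ))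
    (h2 : (2 : k) ≠ 0) (habs : ρbar.IsAbsolutelyIrreducible)
    (hTW : ∀ (K : Type) [Field K] [Algebra k K] (G : Subgroup GQ), G.index = 2 →
      ∀ V : Submodule K (ρbar.baseChange K).V,
        (∀ σ ∈ G, ∀ x ∈ V, (ρbar.baseChange K).ρ σ x ∈ V) → V = ⊥ ∨ V = ⊤) :
    h0 p (resScal p (ad0 rbar)) = 0 := by
  have hbot : (resScal p (ad0 rbar)).ρ.invariants = ⊥ := by
    rw [eq_bot_iff]
    intro x hx
    rw [Submodule.mem_bot]
    by_contra hx0
    set Y : sl2 k := ofRS (ad0 rbar) x with hY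
    have hfix : ∀ σ : GQ, (ad0 rbar).ρ σ Y = Y := fun σ => hx σ
    have hY0 : (Y : M2 k) ≠ 0 := by
      intro h
      apply hx0
      have : Y = 0 := Subtype.ext h
      exact this
    refine TWHypAd3.no_stable_line_matrix ρbar h2 habs hTW rbar b hrbar (Y : M2 k) hY0
      (trace_coe_sl2 Y) (fun σ => ⟨1, ?_⟩)
    rw [one_smul]
    exact commute_of_fixed rbar σ Y (hfix σ)
  show finrank (ZMod p) ↥((resScal p (ad0 rbar)).ρ.invariants) = 0
  rw [hbot]
  exact finrank_bot _ _

end HZero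

/-! ### (3) `hh0c` -/

section HZeroC

variable (p : ℕ) [hp : Fact p.Prime] [Algebra (ZMod p) k] (ρbar : ResidualGaloisRep k)
  {rbar : GQ →* M2 k} {b : Module.Basis (Fin 2) k ρbar.V}

/-- `det (rbar c) = -1`. -/
theorem det_rbar_complexConjugation (hrbar : ∀ σ, rbar σ = LinearMap.toMatrix b b (ρbar.ρ σ))
    (hdet : (GaloisRepAdic.ofResidualGaloisRep ρbar).DetIsCyclotomic p) :
    (rbar complexConjugation).det = -1 := by
  have hchar : CharP k p := TWDetChi3.charP_of_hdet ρbar p hdet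
  rw [hrbar, LinearMap.det_toMatrix, TWDetChi3.det_eq_cast_chiMod ρbar p hdet,
    Fermat.Agent.ES.R48.ModCyclo13.chiMod_complexConjugation, ZMod.natCast_val,
    ← ZMod.castHom_apply (h := dvd_refl p), map_neg, map_one]

/-- The involution `g = rbar c`. -/
theorem rbar_complexConjugation_mul_self (rbar : GQ →* M2 k) :
    rbar complexConjugation * rbar complexConjugation = 1 := by
  rw [← map_mul, complexConjugation_mul_self, map_one]

/-- **`hh0c`**: `h⁰(⟨c⟩, resScal p (ad⁰ρ̄)) = [k : 𝔽_p]`. -/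
theorem h0c_resScal_ad0 (hrbar : ∀ σ, rbar σ = LinearMap.toMatrix b b (ρbar.ρ σ))
    (hp2 : p ≠ 2) (hdet : (GaloisRepAdic.ofResidualGaloisRep ρbar).DetIsCyclotomic p) :
    h0c p (resScal p (ad0 rbar)) = finrank (ZMod p) k := by
  have h2 : (2 : k) ≠ 0 := TWDetChi3.two_ne_zero_of_hdet ρbar p hdet hp2
  set g : M2 k := rbar complexConjugation with hg
  have hgg : g * g = 1 := rbar_complexConjugation_mul_self rbar
  have hgdet : g.det = -1 := det_rbar_complexConjugation p ρbar hrbar hdet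
  have hgtr : g.trace = 0 := trace_eq_zero_of_involution hgg hgdet
  have hg0 : g ≠ 0 := by
    intro h
    rw [h, mul_zero] at hgg
    exact zero_ne_one hgg
  -- the generator of the line
  set G0 : sl2 k := ⟨g, (mem_sl2_iff g).2 hgtr⟩ with hG0
  -- the `𝔽_p`-linear map `k → resScal p (ad0 rbar)`, `c ↦ c • g`
  let f : k →ₗ[ZMod p] ↥(resScal p (ad0 rbar)) :=
    { toFun := fun c => toRS (ad0 rbar) (c • G0)
      map_add' := fun c d => by
        show toRS (ad0 rbar) ((c + d) • G0) = toRS (ad0 rbar) (c • G0) + toRS (ad0 rbar) (d • G0)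
        rw [add_smul]
        rfl
      map_smul' := fun a c => by
        show toRS (ad0 rbar) ((a • c) • G0) = a • toRS (ad0 rbar) (c • G0)
        rw [Algebra.smul_def, mul_smul]
        rfl }
  have hf_apply : ∀ c : k, ofRS (ad0 rbar) (f c) = c • G0 := fun c => rfl
  have hinj : Function.Injective f := by
    intro c d hcd
    have h1 : c • G0 = d • G0 := congrArg (ofRS (ad0 rbar)) hcd
    have h3 : (c - d) • g = 0 := by
      have h4 := congrArg (fun Z : sl2 k => (Z : M2 k)) h1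
      simp only [Submodule.coe_smul, hG0] at h4
      rw [sub_smul, h4, sub_self]
    rcases smul_eq_zero.1 h3 with h5 | h5
    · exact sub_eq_zero.1 h5
    · exact absurd h5 hg0
  have hrange : LinearMap.range f =
      LinearMap.ker ((resScal p (ad0 rbar)).ρ complexConjugation - 1) := by
    ext x
    rw [LinearMap.mem_range, LinearMap.mem_ker, LinearMap.sub_apply, Module.End.one_apply,
      sub_eq_zero]
    constructor
    · rintro ⟨c, rfl⟩
      have h1 : (ad0 rbar).ρ complexConjugation (c • G0) = c • G0 := by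
        apply fixed_of_commute
        show g * ((c • G0 : sl2 k) : M2 k) = ((c • G0 : sl2 k) : M2 k) * g
        rw [Submodule.coe_smul, hG0]
        show g * (c • g) = (c • g) * g
        rw [Matrix.mul_smul, Matrix.smul_mul]
      exact h1
    · intro hx
      set Y : sl2 k := ofRS (ad0 rbar) x with hY
      have hfix : (ad0 rbar).ρ complexConjugation Y = Y := hx
      have hcomm := commute_of_fixed rbar complexConjugation Y hfix
      obtain ⟨c, hc⟩ := exists_smul_eq_of_commute h2 hgg hgtr (trace_coe_sl2 Y) hcomm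
      refine ⟨c, ?_⟩
      have : c • G0 = Y := by
        apply Subtype.ext
        rw [Submodule.coe_smul, hG0]
        exact hc
      show toRS (ad0 rbar) (c • G0) = x
      rw [this]
      rfl
  show finrank (ZMod p)
    ↥(LinearMap.ker ((resScal p (ad0 rbar)).ρ complexConjugation - 1)) = finrank (ZMod p) k
  rw [← hrange]
  exact LinearMap.finrank_range_of_inj hinj

end HZeroC

end Fermat.Agent.ES.T56.LocGlob5
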