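/-
Programme T (S56, Taylor–Wiles primes), chapter LOC, leaf `LocQFinal16` (helper16): the LOCAL TERM AT A
TAYLOR–WILES PRIME `q` for `M = ad⁰ρ̄` (`Ad0Rep10.ad0 rbar`, matrix model of S53).

Hypotheses (S56's literals): `ρ̄` unramified at `q`, every Frobenius at `q` has two distinct eigenvalues
in `k` on `ρ̄` (`T56Iface27.FrobSplit ρbar q`, unfolded), `q ≡ 1 (mod p)`, `char k = p`, `k` finite.

* `card_invariants_ad0_le` : `# H⁰(Γ_q, M) ≤ |k|`;
* `card_contLoc_ad0_le`    : `# H¹_cont(Γ_q, M) ≤ |k| · # H⁰(Γ_q, M)`   (the `δ_q = 1` shape of TOP/GW);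
* `card_contLoc_ad0_le_sq` : `# H¹_cont(Γ_q, M) ≤ |k| ^ 2`.

Route: `LocFrob1.exists_local_frobenius_primes` (helper1) gives `τ ∈ Γ_q` and a Prelude Frobenius `φ`
with `r τ φ⁻¹ ∈ I_P ⊔ Gal(ℚ̄/L)`, so `rbar (r τ) = rbar φ` has distinct eigenvalues; `AdSplit16` bounds
the invariants; `LocTWBridge16.card_contLoc_le` is the count `# H¹_cont ≤ (# H⁰)²`.
-/
import Mathlib
import Fermat.Agent.PT.BR.LevelBridge13
import Fermat.Agent.ES.T56.Ad0Rep10
import Fermat.Agent.ES.T56.AdSplit16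
import Fermat.Agent.ES.T56.LocFrob1
import Fermat.Agent.ES.T56.LocTWBridge16

set_option autoImplicit false
set_option linter.unusedSectionVars false

open Polynomial groupCohomology ExtCitation

namespace Fermat.Agent.ES.T56.LocQFinal16

open Fermat.Agent.S53 Fermat.Agent.ES.T56.Ad0Rep10

local notation "Qbar" => AlgebraicClosure ℚ

variable {k : Type} [Field k] (ρbar : ResidualGaloisRep k) (rbar : GQ →* M2 k)
  (b : Module.Basis (Fin 2) k ρbar.V)

/-! ### Dictionary `ρbar ↔ rbar ↔ ad⁰` -/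

section Dict

variable {ρbar rbar b}

theorem rbar_eq_one (hrbar : ∀ σ, rbar σ = LinearMap.toMatrix b b (ρbar.ρ σ)) {σ : GQ}
    (h : ρbar.ρ σ = 1) : rbar σ = 1 := by
  rw [hrbar, h]
  exact LinearMap.toMatrix_one b

theorem charpoly_rbar (hrbar : ∀ σ, rbar σ = LinearMap.toMatrix b b (ρbar.ρ σ)) (σ : GQ) :
    (rbar σ).charpoly = LinearMap.charpoly (ρbar.ρ σ) := by
  rw [hrbar, LinearMap.charpoly_toMatrix]

/-- `ad⁰` is trivial where `rbar` is. -/
theorem ad0_apply_of_rbar_eq_one {σ : GQ} (h : rbar σ = 1) (Y : (ad0 rbar)) :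
    (ad0 rbar).ρ σ Y = Y := by
  have hinv : rbar σ⁻¹ = 1 := by
    have := rbar_inv_mul rbar σ
    rwa [h, mul_one] at this
  apply Subtype.ext
  rw [ad0_ρ_apply_coe, hinv, h, one_mul, mul_one]

end Dict

/-- A finite Galois level of `ρ̄`. -/
theorem exists_level : ∃ L : IntermediateField ℚ Qbar, FiniteDimensional ℚ L ∧ IsGalois ℚ L ∧
    ∀ σ ∈ L.fixingSubgroup, ρbar.ρ σ = 1 := by
  obtain ⟨L₀, hL₀, h⟩ := ρbar.factorsThroughFiniteLevel
  obtain ⟨L, hle, hLf, hLg⟩ := Fermat.Agent.PT.BR.LevelBridge13.exists_isGalois_ge L₀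
  refine ⟨L, hLf, hLg, fun σ hσ => h σ fun x hx => ?_⟩
  exact (IntermediateField.mem_fixingSubgroup_iff L σ).1 hσ x (hle hx)

variable {ρbar rbar b}

/-- **`# H⁰(Γ_q, ad⁰ρ̄) ≤ |k|` at a Taylor–Wiles prime.** -/
theorem card_invariants_ad0_le [Finite k]
    (hrbar : ∀ σ, rbar σ = LinearMap.toMatrix b b (ρbar.ρ σ)) (q : Nat.Primes)
    (hur : ρbar.IsUnramifiedAt q)
    (hsplit : ∀ P : ValuationSubring Qbar, P.LiesOverPrime q →
      ∀ φ : Qbar ≃ₐ[ℚ] Qbar, P.IsFrobeniusAt φ q →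
        ∃ α β : k, α ≠ β ∧ LinearMap.charpoly (ρbar.ρ φ) = (X - C α) * (X - C β)) :
    Nat.card ↥(Representation.invariants (Rep.res (primeLocalToGlobal q) (ad0 rbar)).ρ)
      ≤ Nat.card k := by
  obtain ⟨L, hLf, hLg, hL⟩ := exists_level ρbar
  have : NumberField L := { to_charZero := inferInstance, to_finiteDimensional := hLf }
  obtain ⟨τ, φ, hφ, hmem, -⟩ := LocFrob1.exists_local_frobenius_primes q L
  have hP := LocFrob1.primeLocalPlace_liesOverPrime q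
  have hle : (primeLocalPlace q).inertiaSubgroupIn ℚ ⊔ L.fixingSubgroup ≤ ρbar.ρ.ker := by
    refine sup_le (fun σ hσ => ?_) (fun σ hσ => ?_)
    · exact MonoidHom.mem_ker.2 (hur _ hP σ hσ)
    · exact MonoidHom.mem_ker.2 (hL σ hσ)
  have h1 : ρbar.ρ (primeLocalToGlobal q τ) = ρbar.ρ φ := by
    have h2 := MonoidHom.mem_ker.1 (hle hmem)
    rw [map_mul] at h2
    have h3 : ρbar.ρ (primeLocalToGlobal q τ) * ρbar.ρ φ⁻¹ * ρbar.ρ φ = 1 * ρbar.ρ φ := by
      rw [h2]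
    rw [mul_assoc, ← map_mul, inv_mul_cancel, map_one, mul_one, one_mul] at h3
    exact h3
  obtain ⟨α, β, hαβ, hchar⟩ := hsplit _ hP φ hφ
  refine AdSplit16.card_invariants_le (primeLocalToGlobal q) rbar τ hαβ ?_
  rw [charpoly_rbar hrbar, h1, hchar]

/-- `q ≡ 1 (mod p)` from S56's literal `p ^ (n + 1) ∣ q - 1`. -/
theorem mod_eq_of_pow_dvd {p q n : ℕ} (hq : q.Prime) (h : p ^ (n + 1) ∣ q - 1) :
    q % p = 1 % p := by
  have h1 : p ∣ q - 1 := dvd_trans (dvd_pow_self p (Nat.succ_ne_zero n)) h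
  exact (Nat.modEq_iff_dvd' hq.one_lt.le).2 h1 |>.symm

/-- **The local term at a Taylor–Wiles prime**, `δ_q = 1` shape. -/
theorem card_contLoc_ad0_le [Finite k] {p : ℕ} (hp : p.Prime) [CharP k p]
    (hrbar : ∀ σ, rbar σ = LinearMap.toMatrix b b (ρbar.ρ σ)) (q : Nat.Primes)
    (hpq : (q : ℕ) % p = 1 % p) (hur : ρbar.IsUnramifiedAt q)
    (hsplit : ∀ P : ValuationSubring Qbar, P.LiesOverPrime q →
      ∀ φ : Qbar ≃ₐ[ℚ] Qbar, P.IsFrobeniusAt φ q →
        ∃ α β : k, α ≠ β ∧ LinearMap.charpoly (ρbar.ρ φ) = (X - C α) * (X - C β)) :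
    Finite ↥(continuousH1 (primeLocalToGlobal q) (Rep.res (primeLocalToGlobal q) (ad0 rbar))) ∧
      Nat.card ↥(continuousH1 (primeLocalToGlobal q) (Rep.res (primeLocalToGlobal q) (ad0 rbar)))
        ≤ Nat.card k *
          Nat.card ↥(Representation.invariants (Rep.res (primeLocalToGlobal q) (ad0 rbar)).ρ) := by
  obtain ⟨L, hLf, hLg, hL⟩ := exists_level ρbar
  have hP := LocFrob1.primeLocalPlace_liesOverPrime q
  have hfin : Finite (ad0 rbar) := inferInstanceAs (Finite ↥(sl2 k))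
  have hpM : ∀ a : (ad0 rbar), p • a = 0 := by
    intro a
    rw [← Nat.cast_smul_eq_nsmul k p a, CharP.cast_eq_zero k p, zero_smul]
  obtain ⟨h1, h2⟩ := LocTWBridge16.card_contLoc_le q hp hpq (ad0 rbar) hpM L
    (fun σ hσ a => ad0_apply_of_rbar_eq_one (rbar_eq_one hrbar (hL σ hσ)) a)
    (fun σ hσ a => ad0_apply_of_rbar_eq_one (rbar_eq_one hrbar (hur _ hP σ hσ)) a)
  refine ⟨h1, h2.trans ?_⟩
  rw [pow_two]
  exact Nat.mul_le_mul_right _ (card_invariants_ad0_le hrbar q hur hsplit)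

/-- `# H¹_cont(Γ_q, ad⁰ρ̄) ≤ |k|²`. -/
theorem card_contLoc_ad0_le_sq [Finite k] {p : ℕ} (hp : p.Prime) [CharP k p]
    (hrbar : ∀ σ, rbar σ = LinearMap.toMatrix b b (ρbar.ρ σ)) (q : Nat.Primes)
    (hpq : (q : ℕ) % p = 1 % p) (hur : ρbar.IsUnramifiedAt q)
    (hsplit : ∀ P : ValuationSubring Qbar, P.LiesOverPrime q →
      ∀ φ : Qbar ≃ₐ[ℚ] Qbar, P.IsFrobeniusAt φ q →
        ∃ α β : k, α ≠ β ∧ LinearMap.charpoly (ρbar.ρ φ) = (X - C α) * (X - C β)) :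
    Nat.card ↥(continuousH1 (primeLocalToGlobal q) (Rep.res (primeLocalToGlobal q) (ad0 rbar)))
      ≤ Nat.card k ^ 2 := by
  refine (card_contLoc_ad0_le hp hrbar q hpq hur hsplit).2.trans ?_
  rw [pow_two]
  exact Nat.mul_le_mul_left _ (card_invariants_ad0_le hrbar q hur hsplit)

end Fermat.Agent.ES.T56.LocQFinal16
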