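/-
Programme T (S56, Taylor–Wiles primes), chapter LOC, leaf `LocQExport16` (helper16): the LOC-Q exports
in the LITERAL shapes consumed by `TopAsm27.twSelmer_of_inputs` (helper27, #20795).

* `exists_frob_in_range q` : a Frobenius element at `primeLocalPlace q` in the image of `Γ_q`
  (the choice `Φ` of TOP / TW);
* `isUnramifiedAt_of_not_mem` : S56's `hmin`, `hSmin`, `hpSmin` ⟹ `ρ̄` unramified at every `q ∉ S`;
* `card_invariants_le_of_frobSplit` : `# H⁰(Γ_q, ad⁰ρ̄) ≤ |k|` under `T56Iface27.FrobSplit ρbar q`;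
* `hQ_of_hmin` : TOP's hypothesis `hQ` for `A = ad0 rbar`, with finiteness:
  `∀ q ∉ S, p ∣ q - 1 → FrobSplit ρbar q → Finite H¹_cont(Γ_q, A) ∧ # H¹_cont(Γ_q, A) ≤ # H⁰(Γ_q, A) · |k|`.
-/
import Mathlib
import Fermat.Agent.ES.FROB.FrobFacts12
import Fermat.Agent.ES.T56.T56Iface27
import Fermat.Agent.ES.T56.LocSurj16
import Fermat.Agent.ES.T56.LocQFinal16

set_option autoImplicit false
set_option linter.unusedSectionVars false

open Polynomial groupCohomology ExtCitation IsLocalRing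

namespace Fermat.Agent.ES.T56.LocQExport16

open Fermat.Agent.S53 Fermat.Agent.ES.T56.Ad0Rep10
open Fermat.Agent.ES.T56.T56Iface27 hiding GQ

local notation "Qbar" => AlgebraicClosure ℚ

/-- **A Frobenius element at `primeLocalPlace q` in the image of `Γ_q`.** -/
theorem exists_frob_in_range (q : Nat.Primes) :
    ∃ φ ∈ (primeLocalToGlobal q).range,
      (primeLocalPlace q).LiesOverPrime q ∧ (primeLocalPlace q).IsFrobeniusAt φ q := by
  have hP := LocFrob1.primeLocalPlace_liesOverPrime q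
  obtain ⟨φ, hφ⟩ := Fermat.Agent.ES.FROB.FrobFacts12.exists_isFrobeniusAt_of (q : ℕ) q.2
    (primeLocalPlace q) hP
  exact ⟨φ, LocSurj16.decomposition_le_range_primes q hφ.mem_decompositionSubgroup, hP, hφ⟩

/-- `q ≡ 1 (mod p)` from `p ∣ q - 1`. -/
theorem mod_eq_of_dvd {p q : ℕ} (hq : q.Prime) (h : p ∣ q - 1) : q % p = 1 % p :=
  ((Nat.modEq_iff_dvd' hq.one_lt.le).2 h).symm

section

variable {k : Type} [Field k] (ρbar : ResidualGaloisRep k)

/-- S56's minimality hypothesis: `ρ̄` is unramified outside `S`. -/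
theorem isUnramifiedAt_of_not_mem {p : ℕ} {S Smin : Finset ℕ} (hpSmin : p ∈ Smin)
    (hSmin : Smin ⊆ S)
    (hmin : ∀ q : ℕ, q.Prime → q ≠ p → (q ∈ Smin ↔ ¬ ρbar.IsUnramifiedAt q))
    (q : Nat.Primes) (hq : (q : ℕ) ∉ S) : ρbar.IsUnramifiedAt q := by
  have hqp : (q : ℕ) ≠ p := by
    rintro h
    exact hq (hSmin (h ▸ hpSmin))
  have h1 : (q : ℕ) ∉ Smin := fun h => hq (hSmin h)
  by_contra hcon
  exact h1 ((hmin q q.2 hqp).2 hcon)

end

section Iface

variable {𝒪 : Type} [CommRing 𝒪] [IsDomain 𝒪] [IsDiscreteValuationRing 𝒪]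
  [IsAdicComplete (maximalIdeal 𝒪) 𝒪]
  {ρbar : ResidualGaloisRep (ResidueField 𝒪)} {rbar : GQ →* M2 (ResidueField 𝒪)}
  {b : Module.Basis (Fin 2) (ResidueField 𝒪) ρbar.V}

/-- **`# H⁰(Γ_q, ad⁰ρ̄) ≤ |k|`** at a prime with distinct Frobenius eigenvalues. -/
theorem card_invariants_le_of_frobSplit [Finite (ResidueField 𝒪)]
    (hrbar : ∀ σ, rbar σ = LinearMap.toMatrix b b (ρbar.ρ σ)) (q : Nat.Primes)
    (hur : ρbar.IsUnramifiedAt q) (hsplit : FrobSplit ρbar (q : ℕ)) :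
    Nat.card ↥((Rep.res (primeLocalToGlobal q) (ad0 rbar)).ρ.invariants)
      ≤ Nat.card (ResidueField 𝒪) :=
  LocQFinal16.card_invariants_ad0_le hrbar q hur hsplit

/-- **TOP's `hQ`** (with finiteness) for `A = ad0 rbar`, from S56's literals. -/
theorem hQ_of_hmin [Finite (ResidueField 𝒪)] {p : ℕ} (hp : p.Prime) [CharP (ResidueField 𝒪) p]
    (hrbar : ∀ σ, rbar σ = LinearMap.toMatrix b b (ρbar.ρ σ))
    {S Smin : Finset ℕ} (hpSmin : p ∈ Smin) (hSmin : Smin ⊆ S)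
    (hmin : ∀ q : ℕ, q.Prime → q ≠ p → (q ∈ Smin ↔ ¬ ρbar.IsUnramifiedAt q)) :
    ∀ q : Nat.Primes, (q : ℕ) ∉ S → p ∣ (q : ℕ) - 1 → FrobSplit ρbar (q : ℕ) →
      Finite ↥(continuousH1 (primeLocalToGlobal q) (Rep.res (primeLocalToGlobal q) (ad0 rbar))) ∧
      Nat.card ↥(continuousH1 (primeLocalToGlobal q) (Rep.res (primeLocalToGlobal q) (ad0 rbar)))
        ≤ Nat.card ↥((Rep.res (primeLocalToGlobal q) (ad0 rbar)).ρ.invariants) *
          Nat.card (ResidueField 𝒪) := by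
  intro q hqS hpq hsplit
  have hur := isUnramifiedAt_of_not_mem ρbar hpSmin hSmin hmin q hqS
  obtain ⟨h1, h2⟩ := LocQFinal16.card_contLoc_ad0_le hp hrbar q (mod_eq_of_dvd q.2 hpq) hur hsplit
  refine ⟨h1, ?_⟩
  rw [mul_comm]
  exact h2

end Iface

end Fermat.Agent.ES.T56.LocQExport16
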