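/-
Programme T (S56, Taylor–Wiles primes), commutative-algebra leaf (helper23): **a complete Noetherian
local `𝒪`-algebra `R` with residue field `k = k_𝒪` whose relative cotangent space
`𝔪_R / (𝔪_𝒪 R + 𝔪_R²)` is generated by `r` elements is a quotient of `𝒪⟦x₁, …, x_r⟧`**, and the
counting form through the tangent space `Hom_𝒪(R, k[ε])`.

* `evalLim m hm : MvPowerSeries σ 𝒪 →ₐ[𝒪] R`, `X i ↦ m i` (`m i ∈ 𝔪_R`, `σ` finite): the limit of
  main's `S53.evalNilp` into `R ⧸ 𝔪_Rⁿ`; `evalLim_X`.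
* **`exists_surjective_mvPowerSeries`** : if `𝔪_R ≤ (m₁, …, m_r) + 𝔪_𝒪 R + 𝔪_R²` then
  `∃ γ : MvPowerSeries (Fin r) 𝒪 →ₐ[𝒪] R, (∀ i, γ (X i) = m i) ∧ Surjective γ`
  (`𝒪` complete: Mathlib's `surjective_of_mk_map_comp_surjective`, twice + Nakayama).
* `RelCot 𝒪 R = R ⧸ (𝔪_𝒪 R + 𝔪_R² + 𝒪·1)`, a `k`-vector space (`relCotModule`), finite-dimensional
  (`finite_relCot`); `homOf halg hres Λ : R →ₐ[𝒪] k[ε]` for `Λ ∈ (RelCot)ᵛ`, injective in `Λ`
  (`homOf_injective`; main's `S53.TangentHom.homOfDer`); `finite_algHom_dualNumber`.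
* `finrank_relCot_le`, **`exists_surjective_of_card_algHom_le`** : `k` finite and
  `Nat.card (R →ₐ[𝒪] k[ε]) ≤ (Nat.card k) ^ r` ⇒ `∃ γ : MvPowerSeries (Fin r) 𝒪 →ₐ[𝒪] R` surjective
  (any `𝒪`-algebra structure on `k[ε]` with structure map `c ↦ inl (residue c)`);
  `exists_surjective_of_card_tangent_le` : the same with the Prelude's `letI` structure
  `𝒪 → k → k[ε]` of `GaloisRep.TangentFinite`.
-/
import Mathlib
import Fermat.Agent.S53.EvalNilp
import Fermat.Agent.S53.TangentHom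

set_option autoImplicit false
set_option linter.unusedSectionVars false
set_option linter.style.haveILetI false

noncomputable section

namespace Fermat.Agent.ES.T56.PowSurj23

open IsLocalRing MvPowerSeries Fermat.Agent.S53

section Eval

variable {𝒪 : Type} [CommRing 𝒪] {R : Type} [CommRing R] [IsLocalRing R] [Algebra 𝒪 R]
  {σ : Type} [Finite σ]

/-- the images of elements of `𝔪_R` in `R ⧸ 𝔪_Rⁿ` generate an ideal whose `n`-th power is `0`. -/
theorem span_mk_pow_eq_bot (m : σ → R) (hm : ∀ i, m i ∈ maximalIdeal R) (n : ℕ) :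
    Ideal.span (Set.range fun i => Ideal.Quotient.mk (maximalIdeal R ^ n) (m i)) ^ n = ⊥ := by
  rw [eq_bot_iff]
  have h1 : Ideal.span (Set.range fun i => Ideal.Quotient.mk (maximalIdeal R ^ n) (m i)) ≤
      Ideal.map (Ideal.Quotient.mk (maximalIdeal R ^ n)) (maximalIdeal R) := by
    rw [Ideal.span_le]
    rintro _ ⟨i, rfl⟩
    exact Ideal.mem_map_of_mem _ (hm i)
  refine (Ideal.pow_right_mono h1 n).trans ?_
  rw [← Ideal.map_pow, Ideal.map_quotient_self]

/-- the truncated evaluations `𝒪⟦X⟧ → R ⧸ 𝔪_Rⁿ`, `X i ↦ m i`. -/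
def evalLevel (m : σ → R) (hm : ∀ i, m i ∈ maximalIdeal R) (n : ℕ) :
    MvPowerSeries σ 𝒪 →ₐ[𝒪] R ⧸ maximalIdeal R ^ n :=
  evalNilp (fun i => Ideal.Quotient.mk (maximalIdeal R ^ n) (m i)) n (span_mk_pow_eq_bot m hm n)

theorem evalLevel_X (m : σ → R) (hm : ∀ i, m i ∈ maximalIdeal R) (n : ℕ) (i : σ) :
    evalLevel (𝒪 := 𝒪) m hm n (X i) = Ideal.Quotient.mk (maximalIdeal R ^ n) (m i) :=
  evalNilp_X _ n _ i

theorem evalLevel_compat (m : σ → R) (hm : ∀ i, m i ∈ maximalIdeal R) {a b : ℕ} (hle : a ≤ b) :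
    (Ideal.Quotient.factorₐ 𝒪 (Ideal.pow_le_pow_right hle)).comp (evalLevel (𝒪 := 𝒪) m hm b) =
      evalLevel m hm a := by
  refine eq_evalNilp _ _ a (span_mk_pow_eq_bot m hm a) fun i => ?_
  rw [AlgHom.comp_apply, evalLevel_X]
  rfl

variable [IsAdicComplete (maximalIdeal R) R]

/-- **Evaluation of power series at a tuple of elements of `𝔪_R`**, `R` complete. -/
def evalLim (m : σ → R) (hm : ∀ i, m i ∈ maximalIdeal R) : MvPowerSeries σ 𝒪 →ₐ[𝒪] R :=
  IsAdicComplete.liftAlgHom (maximalIdeal R) (evalLevel (𝒪 := 𝒪) m hm)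
    (fun hle => evalLevel_compat m hm hle)

theorem mk_evalLim (m : σ → R) (hm : ∀ i, m i ∈ maximalIdeal R) (n : ℕ) (p : MvPowerSeries σ 𝒪) :
    Ideal.Quotient.mk (maximalIdeal R ^ n) (evalLim m hm p) = evalLevel m hm n p :=
  IsAdicComplete.mk_liftAlgHom (maximalIdeal R) _ _ n p

theorem evalLim_X (m : σ → R) (hm : ∀ i, m i ∈ maximalIdeal R) (i : σ) :
    evalLim (𝒪 := 𝒪) m hm (X i) = m i := by
  rw [← sub_eq_zero]
  refine IsHausdorff.haus' (I := maximalIdeal R) _ fun n => ?_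
  rw [smul_eq_mul, Ideal.mul_top, SModEq.zero, ← Ideal.Quotient.eq_zero_iff_mem, map_sub,
    mk_evalLim, evalLevel_X, sub_self]

end Eval

section Surj

variable {𝒪 : Type} [CommRing 𝒪] [IsLocalRing 𝒪] [IsAdicComplete (maximalIdeal 𝒪) 𝒪]
  {R : Type} [CommRing R] [IsLocalRing R] [IsNoetherianRing R]
  [IsAdicComplete (maximalIdeal R) R] [Algebra 𝒪 R] [IsLocalHom (algebraMap 𝒪 R)]

/-- Nakayama: the relative cotangent condition gives `𝔪_R = (m) + 𝔪_𝒪 R`. -/
theorem maximalIdeal_le_span_sup_map {σ : Type} (m : σ → R)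
    (hgen : maximalIdeal R ≤ Ideal.span (Set.range m) ⊔
      Ideal.map (algebraMap 𝒪 R) (maximalIdeal 𝒪) ⊔ maximalIdeal R ^ 2) :
    maximalIdeal R ≤ Ideal.span (Set.range m) ⊔ Ideal.map (algebraMap 𝒪 R) (maximalIdeal 𝒪) := by
  refine Submodule.le_of_le_smul_of_le_jacobson_bot (I := maximalIdeal R)
    (IsNoetherian.noetherian _) ?_ ?_
  · exact (IsLocalRing.jacobson_eq_maximalIdeal ⊥ bot_ne_top).ge
  · rwa [smul_eq_mul, ← pow_two]

/-- the image of `𝔪_R` in a quotient of `R` lies in the Jacobson radical. -/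
theorem map_mk_maximalIdeal_le_jacobson (𝔞 : Ideal R) :
    Ideal.map (Ideal.Quotient.mk 𝔞) (maximalIdeal R) ≤ Ideal.jacobson ⊥ := by
  intro x hx
  obtain ⟨a, ha, rfl⟩ := (Ideal.mem_map_iff_of_surjective _ Ideal.Quotient.mk_surjective).mp hx
  rw [Ideal.mem_jacobson_bot]
  intro y
  obtain ⟨b, rfl⟩ := Ideal.Quotient.mk_surjective y
  have hu : IsUnit (a * b + 1) := by
    have h1 : a * b ∈ maximalIdeal R := Ideal.mul_mem_right _ _ ha
    by_contra hnu
    have h2 : a * b + 1 ∈ maximalIdeal R := (mem_maximalIdeal _).mpr hnu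
    have h3 : (1 : R) ∈ maximalIdeal R := by
      have h4 := sub_mem h2 h1
      rwa [add_sub_cancel_left] at h4
    exact (maximalIdeal.isMaximal R).ne_top ((Ideal.eq_top_iff_one _).mpr h3)
  have := hu.map (Ideal.Quotient.mk 𝔞)
  simpa using this

/-- the structure map `𝒪 → R ⧸ (m)` is surjective. -/
theorem algebraMap_quotient_surjective {σ : Type} (m : σ → R)
    (hres : Function.Surjective (residue R ∘ algebraMap 𝒪 R))
    (hgen : maximalIdeal R ≤ Ideal.span (Set.range m) ⊔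
      Ideal.map (algebraMap 𝒪 R) (maximalIdeal 𝒪) ⊔ maximalIdeal R ^ 2) :
    Function.Surjective (algebraMap 𝒪 (R ⧸ Ideal.span (Set.range m))) := by
  set 𝔞 : Ideal R := Ideal.span (Set.range m) with h𝔞
  have hle := maximalIdeal_le_span_sup_map (𝒪 := 𝒪) m hgen
  have hmapeq : Ideal.map (algebraMap 𝒪 (R ⧸ 𝔞)) (maximalIdeal 𝒪) =
      Ideal.map (Ideal.Quotient.mk 𝔞) (maximalIdeal R) := by
    have h1 : algebraMap 𝒪 (R ⧸ 𝔞) = (Ideal.Quotient.mk 𝔞).comp (algebraMap 𝒪 R) := rfl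
    rw [h1, ← Ideal.map_map]
    apply le_antisymm
    · refine Ideal.map_mono ?_
      rw [Ideal.map_le_iff_le_comap]
      intro c hc
      exact map_nonunit (algebraMap 𝒪 R) c hc
    · refine (Ideal.map_mono hle).trans ?_
      rw [Ideal.map_sup, Ideal.map_quotient_self, bot_sup_eq]
  have hH : IsHausdorff (Ideal.map (algebraMap 𝒪 (R ⧸ 𝔞)) (maximalIdeal 𝒪)) (R ⧸ 𝔞) := by
    rw [hmapeq]
    exact IsHausdorff.of_le_jacobson _ _ (map_mk_maximalIdeal_le_jacobson 𝔞)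
  refine surjective_of_mk_map_comp_surjective (I := maximalIdeal 𝒪) (algebraMap 𝒪 (R ⧸ 𝔞)) ?_
  intro y
  obtain ⟨z, rfl⟩ := Ideal.Quotient.mk_surjective y
  obtain ⟨x, rfl⟩ := Ideal.Quotient.mk_surjective z
  obtain ⟨c, hc⟩ := hres (residue R x)
  refine ⟨c, ?_⟩
  rw [RingHom.comp_apply, ← sub_eq_zero, ← map_sub, Ideal.Quotient.eq_zero_iff_mem, hmapeq]
  have h2 : algebraMap 𝒪 (R ⧸ 𝔞) c - Ideal.Quotient.mk 𝔞 x =
      Ideal.Quotient.mk 𝔞 (algebraMap 𝒪 R c - x) := by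
    rw [map_sub]; rfl
  rw [h2]
  refine Ideal.mem_map_of_mem _ ?_
  rw [← residue_eq_zero_iff, map_sub, sub_eq_zero]
  exact hc

/-- **A complete Noetherian local `𝒪`-algebra with residue field `k_𝒪` whose relative cotangent
space is generated by `m₁, …, m_r` is a quotient of `𝒪⟦x₁, …, x_r⟧`** (`𝒪` complete). -/
theorem exists_surjective_mvPowerSeries [IsNoetherianRing 𝒪]
    (hres : Function.Surjective (residue R ∘ algebraMap 𝒪 R)) (r : ℕ) (m : Fin r → R)
    (hm : ∀ i, m i ∈ maximalIdeal R)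
    (hgen : maximalIdeal R ≤ Ideal.span (Set.range m) ⊔
      Ideal.map (algebraMap 𝒪 R) (maximalIdeal 𝒪) ⊔ maximalIdeal R ^ 2) :
    ∃ γ : MvPowerSeries (Fin r) 𝒪 →ₐ[𝒪] R, (∀ i, γ (X i) = m i) ∧ Function.Surjective γ := by
  refine ⟨evalLim m hm, evalLim_X m hm, ?_⟩
  set γ : MvPowerSeries (Fin r) 𝒪 →ₐ[𝒪] R := evalLim m hm with hγ
  set I : Ideal (MvPowerSeries (Fin r) 𝒪) :=
    Ideal.span (Set.range (X : Fin r → MvPowerSeries (Fin r) 𝒪)) with hI
  have hmap : I.map (γ : MvPowerSeries (Fin r) 𝒪 →+* R) = Ideal.span (Set.range m) := by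
    rw [hI, Ideal.map_span, ← Set.range_comp]
    congr 2
    funext i
    exact evalLim_X m hm i
  have hne : Ideal.span (Set.range m) ≤ maximalIdeal R := by
    rw [Ideal.span_le]
    rintro _ ⟨i, rfl⟩
    exact hm i
  have hH : IsHausdorff (I.map (γ : MvPowerSeries (Fin r) 𝒪 →+* R)) R := by
    rw [hmap]
    exact IsHausdorff.of_le_jacobson _ _ (hne.trans (maximalIdeal_le_jacobson _))
  have hsurj : Function.Surjective (γ : MvPowerSeries (Fin r) 𝒪 →+* R) := by
    refine surjective_of_mk_map_comp_surjective (I := I) (γ : MvPowerSeries (Fin r) 𝒪 →+* R) ?_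
    rw [hmap]
    intro y
    obtain ⟨c, rfl⟩ := algebraMap_quotient_surjective (𝒪 := 𝒪) m hres hgen y
    refine ⟨C c, ?_⟩
    rw [RingHom.comp_apply]
    have h1 : (γ : MvPowerSeries (Fin r) 𝒪 →+* R) (C c) = algebraMap 𝒪 R c := by
      have := γ.commutes c
      rwa [MvPowerSeries.algebraMap_apply, Algebra.algebraMap_self, RingHom.id_apply] at this
    rw [h1]
    rfl
  exact hsurj

end Surj

section Cot

variable (𝒪 : Type) [CommRing 𝒪] [IsLocalRing 𝒪] (R : Type) [CommRing R] [IsLocalRing R]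
  [Algebra 𝒪 R]

/-- the ideal `𝔪_𝒪 R + 𝔪_R²`. -/
def relIdeal : Ideal R := Ideal.map (algebraMap 𝒪 R) (maximalIdeal 𝒪) ⊔ maximalIdeal R ^ 2

/-- the `𝒪`-submodule `𝔪_𝒪 R + 𝔪_R² + 𝒪·1` of `R`. -/
def relSub : Submodule 𝒪 R := (relIdeal 𝒪 R).restrictScalars 𝒪 ⊔ Submodule.span 𝒪 {(1 : R)}

/-- **the relative cotangent space** `𝔪_R / (𝔪_𝒪 R + 𝔪_R²) = R / (𝔪_𝒪 R + 𝔪_R² + 𝒪·1)`. -/
abbrev RelCot : Type := R ⧸ relSub 𝒪 R

variable {𝒪 R}

theorem relIdeal_le_relSub {y : R} (hy : y ∈ relIdeal 𝒪 R) : y ∈ relSub 𝒪 R :=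
  (le_sup_left : (relIdeal 𝒪 R).restrictScalars 𝒪 ≤ relSub 𝒪 R) hy

theorem algebraMap_mem_relSub (c : 𝒪) : algebraMap 𝒪 R c ∈ relSub 𝒪 R := by
  refine (le_sup_right : Submodule.span 𝒪 {(1 : R)} ≤ relSub 𝒪 R) ?_
  rw [Algebra.algebraMap_eq_smul_one]
  exact Submodule.smul_mem _ _ (Submodule.subset_span rfl)

variable (𝒪 R)

theorem isTorsion_relCot :
    Module.IsTorsionBySet 𝒪 (RelCot 𝒪 R) (maximalIdeal 𝒪 : Set 𝒪) := by
  rw [Module.isTorsionBySet_quotient_iff]
  intro x c hc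
  refine relIdeal_le_relSub ?_
  rw [Algebra.smul_def]
  exact (le_sup_left : Ideal.map (algebraMap 𝒪 R) (maximalIdeal 𝒪) ≤ relIdeal 𝒪 R)
    (Ideal.mul_mem_right _ _ (Ideal.mem_map_of_mem _ hc))

instance relCotModule : Module (ResidueField 𝒪) (RelCot 𝒪 R) :=
  ((isTorsion_relCot 𝒪 R).module : Module (𝒪 ⧸ maximalIdeal 𝒪) (RelCot 𝒪 R))

variable {𝒪 R}

theorem residue_smul_relCot (c : 𝒪) (q : RelCot 𝒪 R) : residue 𝒪 c • q = c • q :=
  Module.IsTorsionBySet.mk_smul (isTorsion_relCot 𝒪 R) c q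

end Cot

section Fin

variable {𝒪 : Type} [CommRing 𝒪] [IsLocalRing 𝒪] {R : Type} [CommRing R] [IsLocalRing R]
  [Algebra 𝒪 R]

/-- every element of `R` is a constant plus an element of `𝔪_R`. -/
theorem exists_sub_mem (hres : Function.Surjective (residue R ∘ algebraMap 𝒪 R)) (y : R) :
    ∃ c : 𝒪, y - algebraMap 𝒪 R c ∈ maximalIdeal R := by
  obtain ⟨c, hc⟩ := hres (residue R y)
  refine ⟨c, ?_⟩
  rw [← residue_eq_zero_iff, map_sub, sub_eq_zero]
  exact hc.symm

/-- `R = 𝔪_𝒪 R + 𝔪_R² + 𝒪·1 + Σ 𝒪 xᵢ` when the `xᵢ` generate `𝔪_R`. -/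
theorem mem_relSub_sup_span (hres : Function.Surjective (residue R ∘ algebraMap 𝒪 R))
    {s : ℕ} (x : Fin s → R) (hx : Ideal.span (Set.range x) = maximalIdeal R) (y : R) :
    y ∈ relSub 𝒪 R ⊔ Submodule.span 𝒪 (Set.range x) := by
  obtain ⟨c, hc⟩ := exists_sub_mem hres y
  have hy : y = algebraMap 𝒪 R c + (y - algebraMap 𝒪 R c) := by ring
  rw [hy]
  refine add_mem ((le_sup_left : relSub 𝒪 R ≤ _) (algebraMap_mem_relSub c)) ?_
  rw [← hx] at hc
  obtain ⟨a, ha⟩ := (Ideal.mem_span_range_iff_exists_fun).mp hc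
  rw [← ha]
  refine Submodule.sum_mem _ fun i _ => ?_
  obtain ⟨ci, hci⟩ := exists_sub_mem hres (a i)
  have h1 : a i * x i = (a i - algebraMap 𝒪 R ci) * x i + ci • x i := by
    rw [Algebra.smul_def]; ring
  rw [h1]
  refine add_mem ((le_sup_left : relSub 𝒪 R ≤ _) (relIdeal_le_relSub ?_))
    ((le_sup_right : Submodule.span 𝒪 (Set.range x) ≤ _)
      (Submodule.smul_mem _ _ (Submodule.subset_span ⟨i, rfl⟩)))
  refine (le_sup_right : maximalIdeal R ^ 2 ≤ relIdeal 𝒪 R) ?_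
  rw [pow_two]
  refine Ideal.mul_mem_mul hci ?_
  rw [← hx]
  exact Ideal.subset_span ⟨i, rfl⟩

/-- the relative cotangent space is finite-dimensional over `k`. -/
theorem finite_relCot [IsNoetherianRing R]
    (hres : Function.Surjective (residue R ∘ algebraMap 𝒪 R)) :
    Module.Finite (ResidueField 𝒪) (RelCot 𝒪 R) := by
  obtain ⟨s, x, hx⟩ := Submodule.fg_iff_exists_fin_generating_family.mp
    ((isNoetherianRing_iff_ideal_fg R).mp inferInstance (maximalIdeal R))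
  have hx' : Ideal.span (Set.range x) = maximalIdeal R := hx
  have hspan : Submodule.span (ResidueField 𝒪)
      (Set.range fun i => (Submodule.Quotient.mk (x i) : RelCot 𝒪 R)) = ⊤ := by
    rw [eq_top_iff]
    rintro q -
    obtain ⟨y, rfl⟩ := Submodule.Quotient.mk_surjective _ q
    obtain ⟨n, hn, z, hz, rfl⟩ := Submodule.mem_sup.mp (mem_relSub_sup_span hres x hx' y)
    rw [Submodule.Quotient.mk_add, (Submodule.Quotient.mk_eq_zero _).mpr hn, zero_add]
    refine Submodule.span_induction ?_ ?_ ?_ ?_ hz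
    · rintro _ ⟨i, rfl⟩
      exact Submodule.subset_span ⟨i, rfl⟩
    · rw [Submodule.Quotient.mk_zero]
      exact Submodule.zero_mem _
    · intro u v _ _ hu hv
      rw [Submodule.Quotient.mk_add]
      exact Submodule.add_mem _ hu hv
    · intro c u _ hu
      rw [Submodule.Quotient.mk_smul, ← residue_smul_relCot]
      exact Submodule.smul_mem _ _ hu
  exact Module.finite_def.mpr (hspan ▸ Submodule.fg_span (Set.finite_range _))

end Fin

section Tangent

variable {𝒪 : Type} [CommRing 𝒪] [IsLocalRing 𝒪] {R : Type} [CommRing R] [IsLocalRing R]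
  [Algebra 𝒪 R] [IsLocalHom (algebraMap 𝒪 R)]

/-- the residue map of `R` with values in `k = k_𝒪`. -/
theorem exists_resk (hres : Function.Surjective (residue R ∘ algebraMap 𝒪 R)) :
    ∃ f : R →ₐ[𝒪] ResidueField 𝒪, ∀ (a : R) (c : 𝒪),
      f a = residue 𝒪 c ↔ a - algebraMap 𝒪 R c ∈ maximalIdeal R := by
  have hbij : Function.Bijective (ResidueField.map (algebraMap 𝒪 R)) := by
    refine ⟨RingHom.injective _, fun x => ?_⟩
    obtain ⟨c, hc⟩ := hres x
    exact ⟨residue 𝒪 c, by rw [ResidueField.map_residue]; exact hc⟩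
  let e : ResidueField 𝒪 ≃+* ResidueField R := RingEquiv.ofBijective _ hbij
  have he : ∀ c : 𝒪, e (residue 𝒪 c) = residue R (algebraMap 𝒪 R c) := fun c =>
    ResidueField.map_residue _ c
  let f0 : R →+* ResidueField 𝒪 := (e.symm : ResidueField R →+* ResidueField 𝒪).comp (residue R)
  have hf0 : ∀ c : 𝒪, f0 (algebraMap 𝒪 R c) = algebraMap 𝒪 (ResidueField 𝒪) c := by
    intro c
    show e.symm (residue R (algebraMap 𝒪 R c)) = _
    rw [← he, RingEquiv.symm_apply_apply, ResidueField.algebraMap_eq]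
  refine ⟨{ f0 with commutes' := hf0 }, fun a c => ?_⟩
  show e.symm (residue R a) = residue 𝒪 c ↔ _
  rw [RingEquiv.symm_apply_eq, he, ← sub_eq_zero, ← map_sub, residue_eq_zero_iff]

/-- the additive functional on `R` attached to a linear form on the relative cotangent space. -/
def lamOf (Λ : Module.Dual (ResidueField 𝒪) (RelCot 𝒪 R)) : R →+ ResidueField 𝒪 where
  toFun y := Λ (Submodule.Quotient.mk y)
  map_zero' := by rw [Submodule.Quotient.mk_zero, map_zero]
  map_add' a b := by rw [Submodule.Quotient.mk_add, map_add]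

theorem lamOf_apply (Λ : Module.Dual (ResidueField 𝒪) (RelCot 𝒪 R)) (y : R) :
    lamOf Λ y = Λ (Submodule.Quotient.mk y) := rfl

theorem lamOf_of_mem (Λ : Module.Dual (ResidueField 𝒪) (RelCot 𝒪 R)) {y : R}
    (hy : y ∈ relSub 𝒪 R) : lamOf Λ y = 0 := by
  rw [lamOf_apply, (Submodule.Quotient.mk_eq_zero _).mpr hy, map_zero]

theorem lamOf_algebraMap (Λ : Module.Dual (ResidueField 𝒪) (RelCot 𝒪 R)) (c : 𝒪) :
    lamOf Λ (algebraMap 𝒪 R c) = 0 :=
  lamOf_of_mem Λ (algebraMap_mem_relSub c)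

theorem lamOf_algebraMap_mul (Λ : Module.Dual (ResidueField 𝒪) (RelCot 𝒪 R)) (c : 𝒪) (y : R) :
    lamOf Λ (algebraMap 𝒪 R c * y) = residue 𝒪 c * lamOf Λ y := by
  rw [lamOf_apply, ← Algebra.smul_def, Submodule.Quotient.mk_smul, ← residue_smul_relCot, map_smul,
    smul_eq_mul, lamOf_apply]

theorem lamOf_mul (hres : Function.Surjective (residue R ∘ algebraMap 𝒪 R))
    (res : R →ₐ[𝒪] ResidueField 𝒪)
    (hr : ∀ (a : R) (c : 𝒪), res a = residue 𝒪 c ↔ a - algebraMap 𝒪 R c ∈ maximalIdeal R)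
    (Λ : Module.Dual (ResidueField 𝒪) (RelCot 𝒪 R)) (y z : R) :
    lamOf Λ (y * z) = res y * lamOf Λ z + res z * lamOf Λ y := by
  obtain ⟨c, hc⟩ := exists_sub_mem hres y
  obtain ⟨c', hc'⟩ := exists_sub_mem hres z
  have hy : res y = residue 𝒪 c := (hr y c).mpr hc
  have hz : res z = residue 𝒪 c' := (hr z c').mpr hc'
  have h1 : y * z = (y - algebraMap 𝒪 R c) * (z - algebraMap 𝒪 R c') + algebraMap 𝒪 R c' * y
      + algebraMap 𝒪 R c * z - algebraMap 𝒪 R (c * c') := by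
    rw [map_mul]; ring
  have h2 : lamOf Λ ((y - algebraMap 𝒪 R c) * (z - algebraMap 𝒪 R c')) = 0 := by
    refine lamOf_of_mem Λ (relIdeal_le_relSub ?_)
    refine (le_sup_right : maximalIdeal R ^ 2 ≤ relIdeal 𝒪 R) ?_
    rw [pow_two]
    exact Ideal.mul_mem_mul hc hc'
  rw [h1, map_sub, map_add, map_add, h2, lamOf_algebraMap_mul, lamOf_algebraMap_mul,
    lamOf_algebraMap, hy, hz]
  ring

variable [alg : Algebra 𝒪 (DualNumber (ResidueField 𝒪))]

/-- **the tangent homomorphism** `R → k[ε]` attached to a linear form on the relative cotangent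
space. -/
def homOf (halg : ∀ c : 𝒪, algebraMap 𝒪 (DualNumber (ResidueField 𝒪)) c =
      TrivSqZeroExt.inl (residue 𝒪 c))
    (hres : Function.Surjective (residue R ∘ algebraMap 𝒪 R))
    (Λ : Module.Dual (ResidueField 𝒪) (RelCot 𝒪 R)) :
    R →ₐ[𝒪] DualNumber (ResidueField 𝒪) :=
  TangentHom.homOfDer halg (exists_resk hres).choose (lamOf Λ)
    (lamOf_mul hres _ (exists_resk hres).choose_spec Λ) (lamOf_algebraMap Λ)

theorem snd_homOf (halg : ∀ c : 𝒪, algebraMap 𝒪 (DualNumber (ResidueField 𝒪)) c =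
      TrivSqZeroExt.inl (residue 𝒪 c))
    (hres : Function.Surjective (residue R ∘ algebraMap 𝒪 R))
    (Λ : Module.Dual (ResidueField 𝒪) (RelCot 𝒪 R)) (y : R) :
    TrivSqZeroExt.snd (homOf halg hres Λ y) = Λ (Submodule.Quotient.mk y) := by
  rw [homOf, TangentHom.homOfDer_apply]
  simp [lamOf_apply]

theorem homOf_injective (halg : ∀ c : 𝒪, algebraMap 𝒪 (DualNumber (ResidueField 𝒪)) c =
      TrivSqZeroExt.inl (residue 𝒪 c))
    (hres : Function.Surjective (residue R ∘ algebraMap 𝒪 R)) :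
    Function.Injective (homOf (R := R) halg hres) := by
  intro Λ Λ' h
  refine LinearMap.ext fun q => ?_
  obtain ⟨y, rfl⟩ := Submodule.Quotient.mk_surjective _ q
  rw [← snd_homOf halg hres Λ y, ← snd_homOf halg hres Λ' y, h]

end Tangent

section FiniteHom

variable {𝒪 : Type} [CommRing 𝒪] [IsLocalRing 𝒪] {R : Type} [CommRing R] [IsLocalRing R]
  [Algebra 𝒪 R] [alg : Algebra 𝒪 (DualNumber (ResidueField 𝒪))]

/-- a tangent homomorphism maps `𝔪_R` into `ε k`. -/
theorem fst_apply_eq_zero (halg : ∀ c : 𝒪, algebraMap 𝒪 (DualNumber (ResidueField 𝒪)) c =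
      TrivSqZeroExt.inl (residue 𝒪 c))
    (φ : R →ₐ[𝒪] DualNumber (ResidueField 𝒪)) {a : R} (ha : a ∈ maximalIdeal R) :
    TrivSqZeroExt.fst (φ a) = 0 := by
  let ψ : R →+* ResidueField 𝒪 :=
    (TrivSqZeroExt.fstHom (ResidueField 𝒪) (ResidueField 𝒪) (ResidueField 𝒪) :
      DualNumber (ResidueField 𝒪) →+* ResidueField 𝒪).comp (φ : R →+* DualNumber (ResidueField 𝒪))
  have hψ : ∀ y, ψ y = TrivSqZeroExt.fst (φ y) := fun _ => rfl
  have hsurj : Function.Surjective ψ := by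
    intro κ
    obtain ⟨c, rfl⟩ := residue_surjective κ
    refine ⟨algebraMap 𝒪 R c, ?_⟩
    rw [hψ, AlgHom.commutes, halg, TrivSqZeroExt.fst_inl]
  have hmax : (RingHom.ker ψ).IsMaximal := RingHom.ker_isMaximal_of_surjective ψ hsurj
  have hker : RingHom.ker ψ = maximalIdeal R := eq_maximalIdeal hmax
  have : a ∈ RingHom.ker ψ := hker ▸ ha
  rw [← hψ]
  exact (RingHom.mem_ker).mp this

/-- the first component of a tangent homomorphism does not depend on the homomorphism. -/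
theorem fst_apply_eq (halg : ∀ c : 𝒪, algebraMap 𝒪 (DualNumber (ResidueField 𝒪)) c =
      TrivSqZeroExt.inl (residue 𝒪 c))
    (hres : Function.Surjective (residue R ∘ algebraMap 𝒪 R))
    (φ ψ : R →ₐ[𝒪] DualNumber (ResidueField 𝒪)) (a : R) :
    TrivSqZeroExt.fst (φ a) = TrivSqZeroExt.fst (ψ a) := by
  obtain ⟨c, hc⟩ := exists_sub_mem hres a
  have ha : a = algebraMap 𝒪 R c + (a - algebraMap 𝒪 R c) := by ring
  rw [ha, map_add, map_add, TrivSqZeroExt.fst_add, TrivSqZeroExt.fst_add,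
    fst_apply_eq_zero halg φ hc, fst_apply_eq_zero halg ψ hc, AlgHom.commutes, AlgHom.commutes]

/-- in `k[ε]`, `u * e` only depends on the first component of `u` when `e ∈ ε k`. -/
theorem mul_eq_of_fst_eq {k : Type} [Field k] {u v e : DualNumber k}
    (huv : TrivSqZeroExt.fst u = TrivSqZeroExt.fst v) (he : TrivSqZeroExt.fst e = 0) :
    u * e = v * e := by
  apply TrivSqZeroExt.ext
  · rw [TrivSqZeroExt.fst_mul, TrivSqZeroExt.fst_mul, huv]
  · rw [TrivSqZeroExt.snd_mul, TrivSqZeroExt.snd_mul, huv, he]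
    simp

/-- a tangent homomorphism is determined by its values on generators of `𝔪_R`. -/
theorem algHom_ext_of_generators (halg : ∀ c : 𝒪, algebraMap 𝒪 (DualNumber (ResidueField 𝒪)) c =
      TrivSqZeroExt.inl (residue 𝒪 c))
    (hres : Function.Surjective (residue R ∘ algebraMap 𝒪 R))
    {s : ℕ} (x : Fin s → R) (hx : Ideal.span (Set.range x) = maximalIdeal R)
    (φ ψ : R →ₐ[𝒪] DualNumber (ResidueField 𝒪)) (h : ∀ i, φ (x i) = ψ (x i)) : φ = ψ := by
  refine AlgHom.ext fun y => ?_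
  obtain ⟨c, hc⟩ := exists_sub_mem hres y
  have hy : y = algebraMap 𝒪 R c + (y - algebraMap 𝒪 R c) := by ring
  rw [hy, map_add, map_add, AlgHom.commutes, AlgHom.commutes]
  congr 1
  rw [← hx] at hc
  obtain ⟨a, ha⟩ := (Ideal.mem_span_range_iff_exists_fun).mp hc
  rw [← ha, map_sum, map_sum]
  refine Finset.sum_congr rfl fun i _ => ?_
  rw [map_mul, map_mul, ← h i]
  refine mul_eq_of_fst_eq (fst_apply_eq halg hres φ ψ (a i)) ?_
  refine fst_apply_eq_zero halg φ ?_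
  rw [← hx]
  exact Ideal.subset_span ⟨i, rfl⟩

/-- **the tangent space `Hom_𝒪(R, k[ε])` is finite** (`k` finite, `R` Noetherian). -/
theorem finite_algHom_dualNumber [IsNoetherianRing R] [Finite (ResidueField 𝒪)]
    (halg : ∀ c : 𝒪, algebraMap 𝒪 (DualNumber (ResidueField 𝒪)) c =
      TrivSqZeroExt.inl (residue 𝒪 c))
    (hres : Function.Surjective (residue R ∘ algebraMap 𝒪 R)) :
    Finite (R →ₐ[𝒪] DualNumber (ResidueField 𝒪)) := by
  obtain ⟨s, x, hx⟩ := Submodule.fg_iff_exists_fin_generating_family.mp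
    ((isNoetherianRing_iff_ideal_fg R).mp inferInstance (maximalIdeal R))
  have hx' : Ideal.span (Set.range x) = maximalIdeal R := hx
  have : Finite (DualNumber (ResidueField 𝒪)) :=
    Finite.of_equiv (ResidueField 𝒪 × ResidueField 𝒪) (Equiv.refl _)
  refine Finite.of_injective
    (fun (φ : R →ₐ[𝒪] DualNumber (ResidueField 𝒪)) (i : Fin s) => φ (x i)) ?_
  intro φ ψ h
  exact algHom_ext_of_generators halg hres x hx' φ ψ fun i => congrFun h i

end FiniteHom

section Main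

variable {𝒪 : Type} [CommRing 𝒪] [IsLocalRing 𝒪] {R : Type} [CommRing R] [IsLocalRing R]
  [Algebra 𝒪 R] [IsLocalHom (algebraMap 𝒪 R)]

/-- a `k`-spanning family of the relative cotangent space lifts to generators of `𝔪_R` modulo
`𝔪_𝒪 R + 𝔪_R²`. -/
theorem exists_generators_of_span (hres : Function.Surjective (residue R ∘ algebraMap 𝒪 R))
    {r : ℕ} (v : Fin r → RelCot 𝒪 R) (hv : Submodule.span (ResidueField 𝒪) (Set.range v) = ⊤) :
    ∃ m : Fin r → R, (∀ i, m i ∈ maximalIdeal R) ∧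
      maximalIdeal R ≤ Ideal.span (Set.range m) ⊔
        Ideal.map (algebraMap 𝒪 R) (maximalIdeal 𝒪) ⊔ maximalIdeal R ^ 2 := by
  have hlift : ∀ i, ∃ y : R, y ∈ maximalIdeal R ∧ (Submodule.Quotient.mk y : RelCot 𝒪 R) = v i := by
    intro i
    obtain ⟨y, hy⟩ := Submodule.Quotient.mk_surjective _ (v i)
    obtain ⟨c, hc⟩ := exists_sub_mem hres y
    refine ⟨y - algebraMap 𝒪 R c, hc, ?_⟩
    rw [Submodule.Quotient.mk_sub, (Submodule.Quotient.mk_eq_zero _).mpr (algebraMap_mem_relSub (R := R) c),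
      sub_zero, hy]
  choose m hm hmv using hlift
  refine ⟨m, hm, fun x hx => ?_⟩
  -- write the class of `x` in terms of the `v i`
  have hxv : (Submodule.Quotient.mk x : RelCot 𝒪 R) ∈
      Submodule.span (ResidueField 𝒪) (Set.range v) := hv ▸ Submodule.mem_top
  obtain ⟨κ, hκ⟩ := (Submodule.mem_span_range_iff_exists_fun _).mp hxv
  choose c hc using fun i => residue_surjective (κ i)
  have hsum : (Submodule.Quotient.mk (∑ i, c i • m i) : RelCot 𝒪 R) = Submodule.Quotient.mk x := by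
    rw [← hκ]
    have : (Submodule.Quotient.mk (∑ i, c i • m i) : RelCot 𝒪 R) =
        ∑ i, (Submodule.Quotient.mk (c i • m i) : RelCot 𝒪 R) :=
      map_sum (Submodule.mkQ (relSub 𝒪 R)) _ _
    rw [this]
    refine Finset.sum_congr rfl fun i _ => ?_
    rw [Submodule.Quotient.mk_smul, hmv, ← hc, residue_smul_relCot]
  have hmem : x - ∑ i, c i • m i ∈ relSub 𝒪 R := by
    rw [← Submodule.Quotient.mk_eq_zero, Submodule.Quotient.mk_sub, hsum, sub_self]
  obtain ⟨j, hj, z, hz, hjz⟩ := Submodule.mem_sup.mp hmem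
  obtain ⟨d, rfl⟩ := Submodule.mem_span_singleton.mp hz
  have hjR : j ∈ relIdeal 𝒪 R := hj
  have hjm : j ∈ maximalIdeal R := by
    have hle : relIdeal 𝒪 R ≤ maximalIdeal R := by
      refine sup_le ?_ (Ideal.pow_le_self two_ne_zero)
      rw [Ideal.map_le_iff_le_comap]
      intro a ha
      exact map_nonunit (algebraMap 𝒪 R) a ha
    exact hle hjR
  have hsm : ∑ i, c i • m i ∈ Ideal.span (Set.range m) := by
    refine Ideal.sum_mem _ fun i _ => ?_
    rw [Algebra.smul_def]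
    exact Ideal.mul_mem_left _ _ (Ideal.subset_span ⟨i, rfl⟩)
  have hsm' : ∑ i, c i • m i ∈ maximalIdeal R := by
    refine (Ideal.span_le.mpr ?_) hsm
    rintro _ ⟨i, rfl⟩
    exact hm i
  -- the constant term lies in `𝔪_𝒪`
  have hdR : algebraMap 𝒪 R d ∈ maximalIdeal R := by
    have h1 : algebraMap 𝒪 R d = x - ∑ i, c i • m i - j := by
      rw [← hjz, Algebra.algebraMap_eq_smul_one]; ring
    rw [h1]
    exact sub_mem (sub_mem hx hsm') hjm
  have hdO : d ∈ maximalIdeal 𝒪 := by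
    by_contra hnot
    have hu : IsUnit d := by
      by_contra hnu
      exact hnot ((mem_maximalIdeal _).mpr hnu)
    exact (mem_maximalIdeal _).mp hdR (hu.map (algebraMap 𝒪 R))
  have hx' : x = ∑ i, c i • m i + (j + algebraMap 𝒪 R d) := by
    rw [Algebra.algebraMap_eq_smul_one, hjz]; ring
  rw [hx', sup_assoc]
  refine Ideal.add_mem _ (Ideal.mem_sup_left hsm) (Ideal.mem_sup_right ?_)
  refine Ideal.add_mem _ hjR ?_
  exact (le_sup_left : Ideal.map (algebraMap 𝒪 R) (maximalIdeal 𝒪) ≤ relIdeal 𝒪 R)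
    (Ideal.mem_map_of_mem _ hdO)

end Main

section Final

variable {𝒪 : Type} [CommRing 𝒪] [IsLocalRing 𝒪] [IsNoetherianRing 𝒪]
  [IsAdicComplete (maximalIdeal 𝒪) 𝒪] [Finite (ResidueField 𝒪)]
  [alg : Algebra 𝒪 (DualNumber (ResidueField 𝒪))]
  {R : Type} [CommRing R] [IsLocalRing R] [IsNoetherianRing R]
  [IsAdicComplete (maximalIdeal R) R] [Algebra 𝒪 R] [IsLocalHom (algebraMap 𝒪 R)]

/-- the relative cotangent space has at most `r` dimensions when there are at most `|k| ^ r`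
tangent homomorphisms. -/
theorem finrank_relCot_le (halg : ∀ c : 𝒪, algebraMap 𝒪 (DualNumber (ResidueField 𝒪)) c =
      TrivSqZeroExt.inl (residue 𝒪 c))
    (hres : Function.Surjective (residue R ∘ algebraMap 𝒪 R)) (r : ℕ)
    (hcard : Nat.card (R →ₐ[𝒪] DualNumber (ResidueField 𝒪)) ≤ Nat.card (ResidueField 𝒪) ^ r) :
    Module.finrank (ResidueField 𝒪) (RelCot 𝒪 R) ≤ r := by
  have hfin : Module.Finite (ResidueField 𝒪) (RelCot 𝒪 R) := finite_relCot hres
  have hT : Finite (R →ₐ[𝒪] DualNumber (ResidueField 𝒪)) := finite_algHom_dualNumber halg hres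
  have h1 : Nat.card (Module.Dual (ResidueField 𝒪) (RelCot 𝒪 R)) =
      Nat.card (ResidueField 𝒪) ^ Module.finrank (ResidueField 𝒪) (RelCot 𝒪 R) := by
    rw [Module.natCard_eq_pow_finrank (K := ResidueField 𝒪), Subspace.dual_finrank_eq]
  have h2 : Nat.card (Module.Dual (ResidueField 𝒪) (RelCot 𝒪 R)) ≤
      Nat.card (R →ₐ[𝒪] DualNumber (ResidueField 𝒪)) :=
    Nat.card_le_card_of_injective _ (homOf_injective halg hres)
  have h3 : Nat.card (ResidueField 𝒪) ^ Module.finrank (ResidueField 𝒪) (RelCot 𝒪 R) ≤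
      Nat.card (ResidueField 𝒪) ^ r := h1 ▸ h2.trans hcard
  exact (Nat.pow_le_pow_iff_right Finite.one_lt_card).mp h3

/-- **Counting form**: a complete Noetherian local `𝒪`-algebra `R` with residue field `k = k_𝒪`
(finite) having at most `|k| ^ r` tangent homomorphisms `R → k[ε]` is a quotient of
`𝒪⟦x₁, …, x_r⟧`. -/
theorem exists_surjective_of_card_algHom_le
    (halg : ∀ c : 𝒪, algebraMap 𝒪 (DualNumber (ResidueField 𝒪)) c =
      TrivSqZeroExt.inl (residue 𝒪 c))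
    (hres : Function.Surjective (residue R ∘ algebraMap 𝒪 R)) (r : ℕ)
    (hcard : Nat.card (R →ₐ[𝒪] DualNumber (ResidueField 𝒪)) ≤ Nat.card (ResidueField 𝒪) ^ r) :
    ∃ γ : MvPowerSeries (Fin r) 𝒪 →ₐ[𝒪] R, Function.Surjective γ := by
  have hfin : Module.Finite (ResidueField 𝒪) (RelCot 𝒪 R) := finite_relCot hres
  have hd := finrank_relCot_le halg hres r hcard
  set d := Module.finrank (ResidueField 𝒪) (RelCot 𝒪 R) with hd_def
  let b : Module.Basis (Fin d) (ResidueField 𝒪) (RelCot 𝒪 R) :=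
    Module.finBasis (ResidueField 𝒪) (RelCot 𝒪 R)
  let v : Fin r → RelCot 𝒪 R := fun i => if h : (i : ℕ) < d then b ⟨i, h⟩ else 0
  have hv : Submodule.span (ResidueField 𝒪) (Set.range v) = ⊤ := by
    rw [eq_top_iff, ← b.span_eq]
    refine Submodule.span_mono ?_
    rintro _ ⟨i, rfl⟩
    refine ⟨⟨i, i.2.trans_le hd⟩, ?_⟩
    simp only [v]
    rw [dif_pos i.2]
  obtain ⟨m, hm, hgen⟩ := exists_generators_of_span hres v hv
  obtain ⟨γ, -, hγ⟩ := exists_surjective_mvPowerSeries hres r m hm hgen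
  exact ⟨γ, hγ⟩

end Final

section Prelude

variable {𝒪 : Type} [CommRing 𝒪] [IsLocalRing 𝒪] [IsNoetherianRing 𝒪]
  [IsAdicComplete (maximalIdeal 𝒪) 𝒪] [Finite (ResidueField 𝒪)]
  {R : Type} [CommRing R] [IsLocalRing R] [IsNoetherianRing R]
  [IsAdicComplete (maximalIdeal R) R] [Algebra 𝒪 R] [IsLocalHom (algebraMap 𝒪 R)]

/-- **Counting form, with the `𝒪`-algebra structure on `k[ε]` used by the Prelude**
(`GaloisRep.TangentFinite`): `𝒪 → k → k[ε]`. -/
theorem exists_surjective_of_card_tangent_le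
    (hres : Function.Surjective (residue R ∘ algebraMap 𝒪 R)) (r : ℕ) :
    letI : Algebra 𝒪 (DualNumber (ResidueField 𝒪)) :=
      ((algebraMap (ResidueField 𝒪) (DualNumber (ResidueField 𝒪))).comp
        (algebraMap 𝒪 (ResidueField 𝒪))).toAlgebra
    Nat.card (R →ₐ[𝒪] DualNumber (ResidueField 𝒪)) ≤ Nat.card (ResidueField 𝒪) ^ r →
      ∃ γ : MvPowerSeries (Fin r) 𝒪 →ₐ[𝒪] R, Function.Surjective γ := by
  letI : Algebra 𝒪 (DualNumber (ResidueField 𝒪)) :=
    ((algebraMap (ResidueField 𝒪) (DualNumber (ResidueField 𝒪))).comp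
      (algebraMap 𝒪 (ResidueField 𝒪))).toAlgebra
  intro hcard
  refine exists_surjective_of_card_algHom_le (fun c => ?_) hres r hcard
  rfl

end Prelude

end Fermat.Agent.ES.T56.PowSurj23
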