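/-
Programme T (S56, Taylor–Wiles primes), chapter TAN, commutative-algebra leaf, closer (helper23):
**`powSurj : T56Iface27.PowSurj 𝒪`**, literally the Prop of the contract file `T56Iface27`
(no finiteness hypothesis on `k`; the tangent space `Hom_𝒪(R, k[ε])` is assumed finite).

* `exists_surjective_of_finrank_relCot_le` : `dim_k 𝔪_R/(𝔪_𝒪 R + 𝔪_R²) ≤ r` ⇒ `R` is a quotient of
  `𝒪⟦x₁, …, x_r⟧` (`PowSurj23.exists_generators_of_span` + `exists_surjective_mvPowerSeries`);
* `finrank_relCot_le_of_finite` : `Finite (R →ₐ[𝒪] k[ε])` and `#(R →ₐ[𝒪] k[ε]) ≤ (Nat.card k) ^ r`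
  ⇒ `dim_k RelCot ≤ r` (`k` finite: counting as in `PowSurj23.finrank_relCot_le`; `k` infinite: the
  dual of a nonzero space would be infinite and embeds into the tangent space);
* `powSurj`.
-/
import Mathlib
import Fermat.Agent.ES.T56.T56Iface27
import Fermat.Agent.ES.T56.PowSurj23

set_option autoImplicit false
set_option linter.unusedSectionVars false
set_option linter.style.haveILetI false

noncomputable section

namespace Fermat.Agent.ES.T56.PowSurjFinal23

open IsLocalRing MvPowerSeries Fermat.Agent.ES.T56.PowSurj23 Fermat.Agent.ES.T56.T56Iface27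

section Gen

variable {𝒪 : Type} [CommRing 𝒪] [IsLocalRing 𝒪] [IsNoetherianRing 𝒪]
  [IsAdicComplete (maximalIdeal 𝒪) 𝒪]
  {R : Type} [CommRing R] [IsLocalRing R] [IsNoetherianRing R]
  [IsAdicComplete (maximalIdeal R) R] [Algebra 𝒪 R] [IsLocalHom (algebraMap 𝒪 R)]

/-- `dim_k 𝔪_R/(𝔪_𝒪 R + 𝔪_R²) ≤ r` ⇒ `R` is a quotient of `𝒪⟦x₁, …, x_r⟧`. -/
theorem exists_surjective_of_finrank_relCot_le
    (hres : Function.Surjective (residue R ∘ algebraMap 𝒪 R)) (r : ℕ)
    (hd : Module.finrank (ResidueField 𝒪) (RelCot 𝒪 R) ≤ r) :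
    ∃ γ : MvPowerSeries (Fin r) 𝒪 →ₐ[𝒪] R, Function.Surjective γ := by
  have hfin : Module.Finite (ResidueField 𝒪) (RelCot 𝒪 R) := finite_relCot hres
  set d := Module.finrank (ResidueField 𝒪) (RelCot 𝒪 R) with hd_def
  let b : Module.Basis (Fin d) (ResidueField 𝒪) (RelCot 𝒪 R) :=
    Module.finBasis (ResidueField 𝒪) (RelCot 𝒪 R)
  let v : Fin r → RelCot 𝒪 R := fun i => if h : (i : ℕ) < d then b ⟨i, h⟩ else 0
  have hv : Submodule.span (ResidueField 𝒪) (Set.range v) = ⊤ := by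
    rw [eq_top_iff, ← b.span_eq]
    refine Submodule.span_mono ?_
    rintro _ ⟨i, rfl⟩
    refine ⟨⟨i, i.2.trans_le hd⟩, ?_⟩
    simp only [v]
    rw [dif_pos i.2]
  obtain ⟨m, hm, hgen⟩ := exists_generators_of_span hres v hv
  obtain ⟨γ, -, hγ⟩ := exists_surjective_mvPowerSeries hres r m hm hgen
  exact ⟨γ, hγ⟩

end Gen

section Count

variable {𝒪 : Type} [CommRing 𝒪] [IsLocalRing 𝒪]
  [alg : Algebra 𝒪 (DualNumber (ResidueField 𝒪))]
  {R : Type} [CommRing R] [IsLocalRing R] [IsNoetherianRing R]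
  [Algebra 𝒪 R] [IsLocalHom (algebraMap 𝒪 R)]

/-- the counting bound on the relative cotangent space, without finiteness of `k`. -/
theorem finrank_relCot_le_of_finite
    (halg : ∀ c : 𝒪, algebraMap 𝒪 (DualNumber (ResidueField 𝒪)) c =
      TrivSqZeroExt.inl (residue 𝒪 c))
    (hres : Function.Surjective (residue R ∘ algebraMap 𝒪 R)) (r : ℕ)
    (hT : Finite (R →ₐ[𝒪] DualNumber (ResidueField 𝒪)))
    (hcard : Nat.card (R →ₐ[𝒪] DualNumber (ResidueField 𝒪)) ≤ Nat.card (ResidueField 𝒪) ^ r) :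
    Module.finrank (ResidueField 𝒪) (RelCot 𝒪 R) ≤ r := by
  have hfin : Module.Finite (ResidueField 𝒪) (RelCot 𝒪 R) := finite_relCot hres
  have hDfin : Finite (Module.Dual (ResidueField 𝒪) (RelCot 𝒪 R)) :=
    Finite.of_injective _ (homOf_injective halg hres)
  by_cases hk : Finite (ResidueField 𝒪)
  · have h1 : Nat.card (Module.Dual (ResidueField 𝒪) (RelCot 𝒪 R)) =
        Nat.card (ResidueField 𝒪) ^ Module.finrank (ResidueField 𝒪) (RelCot 𝒪 R) := by
      rw [Module.natCard_eq_pow_finrank (K := ResidueField 𝒪), Subspace.dual_finrank_eq]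
    have h2 : Nat.card (Module.Dual (ResidueField 𝒪) (RelCot 𝒪 R)) ≤
        Nat.card (R →ₐ[𝒪] DualNumber (ResidueField 𝒪)) :=
      Nat.card_le_card_of_injective _ (homOf_injective halg hres)
    have h3 : Nat.card (ResidueField 𝒪) ^ Module.finrank (ResidueField 𝒪) (RelCot 𝒪 R) ≤
        Nat.card (ResidueField 𝒪) ^ r := h1 ▸ h2.trans hcard
    exact (Nat.pow_le_pow_iff_right Finite.one_lt_card).mp h3
  · -- `k` infinite: the dual space is finite, hence zero
    have h0 : Module.finrank (ResidueField 𝒪) (RelCot 𝒪 R) = 0 := by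
      by_contra hne
      have hne' : Module.finrank (ResidueField 𝒪)
          (Module.Dual (ResidueField 𝒪) (RelCot 𝒪 R)) ≠ 0 := by
        rwa [Subspace.dual_finrank_eq]
      have hpos : 0 < Module.finrank (ResidueField 𝒪)
          (Module.Dual (ResidueField 𝒪) (RelCot 𝒪 R)) := Nat.pos_of_ne_zero hne'
      obtain ⟨Λ, hΛ⟩ := (Module.finrank_pos_iff_exists_ne_zero).mp hpos
      exact hk (Finite.of_injective (fun c : ResidueField 𝒪 => c • Λ)
        (smul_left_injective (ResidueField 𝒪) hΛ))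
    rw [h0]
    exact Nat.zero_le r

end Count

/-- **The commutative-algebra leaf of the contract**: `T56Iface27.PowSurj 𝒪`. -/
theorem powSurj {𝒪 : Type} [CommRing 𝒪] [IsDomain 𝒪] [IsDiscreteValuationRing 𝒪]
    [IsAdicComplete (maximalIdeal 𝒪) 𝒪] : PowSurj 𝒪 := by
  intro R _ _ _ _ _ _ hres r hT hcard
  letI := dualAlg 𝒪
  have hd : Module.finrank (ResidueField 𝒪) (RelCot 𝒪 R) ≤ r :=
    finrank_relCot_le_of_finite (fun _ => rfl) hres r hT hcard
  exact exists_surjective_of_finrank_relCot_le hres r hd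

end Fermat.Agent.ES.T56.PowSurjFinal23
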