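/-
Programme T (S56, Taylor–Wiles primes), TW chapter (helper3): **the abstract detection lemma**
(`T56_TW.md` §2).

* `exists_detects_of_normal` (pure group theory): `c` a `1`-cocycle of a group `G` with values in an
  irreducible `k[G]`-module `N`, `H` a normal subgroup acting trivially on `N` with `c|_H ≠ 0`, and
  `σ₀ ∈ G` with `(σ₀ - 1) N ≠ N`.  Then some `τ ∈ H` has `c (τ σ₀) ∉ (σ₀ - 1) N`
  (and `τ σ₀` acts on `N` as `σ₀`).
  [`c|_H` is a `G`-equivariant homomorphism, so `k · c(H)` is a non-zero stable subspace, hence `N`;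
  it is not contained in the proper subspace `(σ₀ - 1) N`, and `c (τ σ₀) = c τ + c σ₀`.]
* `exists_tw_witness` : the Galois form, the output being literally the hypothesis `hkill` of
  `TWSet3.exists_tw_set` / `hex` of `TWPred17.exists_tw_prime_detects`: `H` is the subgroup of
  `Gal(ℚ̄/ℚ)` fixing the field `F_n = ℚ(ρbar, ζ_{p^(n+1)})`.
-/
import Mathlib
import Fermat.Agent.ES.T56.TWPred17

set_option autoImplicit false
set_option linter.unusedSectionVars false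
set_option linter.style.haveILetI false

open Polynomial
open Fermat.Agent.Lib.FrobeniusExists Fermat.Agent.ES.T56.TWCheb17 Fermat.Agent.ES.T56.TWPred17

namespace Fermat.Agent.ES.T56.TWKillAbs3

section Abstract

variable {k : Type*} [Field k] {N : Type*} [AddCommGroup N] [Module k N] {G : Type*} [Group G]

/-- **The abstract detection lemma.** -/
theorem exists_detects_of_normal (act : G →* Module.End k N) (c : G → N)
    (hc : ∀ σ τ : G, c (σ * τ) = c σ + act σ (c τ))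
    (H : Subgroup G) [hHn : H.Normal] (hH : ∀ h ∈ H, act h = 1)
    (hirr : ∀ W : Submodule k N, (∀ σ : G, ∀ x ∈ W, act σ x ∈ W) → W = ⊥ ∨ W = ⊤)
    (hnz : ∃ h ∈ H, c h ≠ 0)
    (σ₀ : G) (hσ₀ : LinearMap.range (act σ₀ - 1) ≠ ⊤) :
    ∃ τ ∈ H, c (τ * σ₀) ∉ LinearMap.range (act σ₀ - 1) ∧ act (τ * σ₀) = act σ₀ := by
  have hcoc : IsCocycle act c := hc
  -- the span of `c(H)`
  set W : Submodule k N := Submodule.span k (c '' (H : Set G)) with hW
  have hstab : ∀ σ : G, ∀ x ∈ W, act σ x ∈ W := by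
    intro σ x hx
    induction hx using Submodule.span_induction with
    | mem x hx =>
      obtain ⟨h, hh, rfl⟩ := hx
      have hconj : σ * h * σ⁻¹ ∈ H := hHn.conj_mem h hh σ
      have h1 := hcoc.map_conj h σ
      rw [hH _ hconj, sub_self, LinearMap.zero_apply, sub_zero] at h1
      rw [← h1]
      exact Submodule.subset_span ⟨_, hconj, rfl⟩
    | zero => rw [map_zero]; exact Submodule.zero_mem _
    | add x y _ _ hx hy => rw [map_add]; exact Submodule.add_mem _ hx hy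
    | smul a x _ hx => rw [map_smul]; exact Submodule.smul_mem _ a hx
  have hWtop : W = ⊤ := by
    refine (hirr W hstab).resolve_left (fun hbot => ?_)
    obtain ⟨h, hh, hne⟩ := hnz
    apply hne
    have : c h ∈ W := Submodule.subset_span ⟨h, hh, rfl⟩
    rw [hbot] at this
    exact (Submodule.mem_bot k).mp this
  -- some `c τ₁`, `τ₁ ∈ H`, is outside the proper subspace `(σ₀ - 1) N`
  obtain ⟨τ₁, hτ₁, hτ₁R⟩ : ∃ τ₁ ∈ H, c τ₁ ∉ LinearMap.range (act σ₀ - 1) := by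
    by_contra hcon
    push Not at hcon
    apply hσ₀
    rw [eq_top_iff, ← hWtop, hW, Submodule.span_le]
    rintro x ⟨h, hh, rfl⟩
    exact hcon h hh
  have hmul : ∀ τ ∈ H, c (τ * σ₀) = c τ + c σ₀ := by
    intro τ hτ
    rw [hc τ σ₀, hH τ hτ, Module.End.one_apply]
  have hact : ∀ τ ∈ H, act (τ * σ₀) = act σ₀ := by
    intro τ hτ
    rw [map_mul, hH τ hτ, one_mul]
  by_cases h0 : c σ₀ ∈ LinearMap.range (act σ₀ - 1)
  · refine ⟨τ₁, hτ₁, fun h => hτ₁R ?_, hact τ₁ hτ₁⟩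
    rw [hmul τ₁ hτ₁] at h
    have := Submodule.sub_mem _ h h0
    rwa [add_sub_cancel_right] at this
  · refine ⟨1, H.one_mem, ?_, hact 1 H.one_mem⟩
    rw [one_mul]
    exact h0

end Abstract

section Galois

variable {k : Type} [Field k] (ρbar : ResidualGaloisRep k)
  {N : Type} [AddCommGroup N] [Module k N]

/-- The subgroup of `Gal(ℚ̄/ℚ)` fixing `F_m = ℚ(ρbar, ζ_m)`. -/
def fixer (m : ℕ) : Subgroup GQ where
  carrier := {σ | ρbar.ρ σ = 1 ∧ FixesRoots m σ}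
  one_mem' := ⟨map_one _, fun ζ _ => rfl⟩
  mul_mem' := by
    rintro σ τ ⟨h1, h2⟩ ⟨h3, h4⟩
    refine ⟨by rw [map_mul, h1, h3, one_mul], fun ζ hζ => ?_⟩
    show σ (τ ζ) = ζ
    rw [h4 ζ hζ, h2 ζ hζ]
  inv_mem' := by
    rintro σ ⟨h1, h2⟩
    refine ⟨?_, h2.inv⟩
    have h3 : ρbar.ρ σ⁻¹ * ρbar.ρ σ = 1 := by rw [← map_mul, inv_mul_cancel, map_one]
    rwa [h1, mul_one] at h3

theorem mem_fixer {m : ℕ} {σ : GQ} : σ ∈ fixer ρbar m ↔ ρbar.ρ σ = 1 ∧ FixesRoots m σ := Iff.rfl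

instance fixer_normal (m : ℕ) : (fixer ρbar m).Normal := by
  refine ⟨fun σ hσ τ => ⟨?_, hσ.2.conj τ⟩⟩
  rw [map_mul, map_mul, hσ.1, mul_one, ← map_mul, mul_inv_cancel, map_one]

/-- **`TWKill`, modulo the group-theoretic vanishing.**  Let `act` be an irreducible `k`-linear
action of `Gal(ℚ̄/ℚ)` on `N` which is trivial on `ker ρbar`, and `c` a `1`-cocycle which does not
vanish identically on the fixer of `F_n = ℚ(ρbar, ζ_{p^(n+1)})` (by the vanishing theorem (GT) this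
holds as soon as `c` is not a coboundary).  If some `σ₀` fixes the `p ^ (n + 1)`-th roots of unity,
has split distinct eigenvalues on `ρbar` and `(σ₀ - 1) N ≠ N`, then some `g` fixes the
`p ^ (n + 1)`-th roots of unity, has split distinct eigenvalues on `ρbar` and
`c g ∉ (g - 1) N`. -/
theorem exists_tw_witness (p n : ℕ) (act : GQ →* Module.End k N)
    (htriv : ∀ σ : GQ, ρbar.ρ σ = 1 → act σ = 1)
    (hirr : ∀ W : Submodule k N, (∀ σ : GQ, ∀ x ∈ W, act σ x ∈ W) → W = ⊥ ∨ W = ⊤)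
    (c : GQ → N) (hc : ∀ σ τ : GQ, c (σ * τ) = c σ + act σ (c τ))
    (hnz : ∃ h ∈ fixer ρbar (p ^ (n + 1)), c h ≠ 0)
    (hσ₀ : ∃ σ₀ : GQ, (∀ ζ : AlgebraicClosure ℚ, ζ ^ p ^ (n + 1) = 1 → σ₀ ζ = ζ) ∧
      (∃ α β : k, α ≠ β ∧ LinearMap.charpoly (ρbar.ρ σ₀) = (X - C α) * (X - C β)) ∧
      LinearMap.range (act σ₀ - 1) ≠ ⊤) :
    ∃ g : GQ, (∀ ζ : AlgebraicClosure ℚ, ζ ^ p ^ (n + 1) = 1 → g ζ = ζ) ∧
      (∃ α β : k, α ≠ β ∧ LinearMap.charpoly (ρbar.ρ g) = (X - C α) * (X - C β)) ∧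
      c g ∉ LinearMap.range (act g - 1) := by
  obtain ⟨σ₀, h1, h2, h3⟩ := hσ₀
  obtain ⟨τ, hτ, hdet, hact⟩ := exists_detects_of_normal act c hc (fixer ρbar (p ^ (n + 1)))
    (fun h hh => htriv h hh.1) hirr hnz σ₀ h3
  refine ⟨τ * σ₀, fun ζ hζ => ?_, ?_, ?_⟩
  · show τ (σ₀ ζ) = ζ
    rw [h1 ζ hζ, hτ.2 ζ hζ]
  · rw [map_mul, hτ.1, one_mul]
    exact h2
  · rw [hact]
    exact hdet

end Galois

end Fermat.Agent.ES.T56.TWKillAbs3
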