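/-
Programme T (S56, Taylor–Wiles primes), TW chapter (helper3): **the concrete model of `ad⁰ρ̄(1)`**
and the hypotheses of `TWKillAbs3.exists_tw_witness` for it (`T56_TW.md` §0, §2).

`R : Gal(ℚ̄/ℚ) →* M₂(k)` is `ρ̄` in a basis.  By `hdet` the mod `p` cyclotomic character is `det R`, so
`ad⁰ρ̄(1) = ad⁰ρ̄ ⊗ det ρ̄` is `sl₂(k)` with the action `twAct R σ X = det (R σ) • (R σ X R σ⁻¹)`.

* `twAct`, `twAct_coe`;
* `twAct_irreducible`  : `hirr`  (from `TWHypAd3.ad0_irreducible`);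
* `twAct_eq_one`       : `htriv` (`ρ̄ σ = 1 → twAct σ = 1`);
* `twAct_finiteLevel`  : `hact`;
* `range_twAct_sub_one_ne_top` : `(σ₀ - 1) N ≠ N` when `det (R σ₀) = 1`
  (`R σ₀ - tr/2` is a fixed vector, or `R σ₀` is scalar);
* `det_eq_one_of_fixesRoots` : `hdet` ⇒ `det ρ̄(σ) = 1` for `σ` fixing the `p`-th roots of unity;
* **`exists_tw_witness_twAct`** : `TWKill` for this model, modulo the group-theoretic vanishing
  (hypothesis `hnz`).
-/
import Mathlib
import Fermat.Agent.ES.T56.TWHypF1_3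
import Fermat.Agent.ES.T56.TWKillAbs3
import Fermat.Prelude.Def_GaloisRep_LocalConditions

set_option autoImplicit false
set_option linter.unusedSectionVars false
set_option linter.style.haveILetI false

open Polynomial Matrix

namespace Fermat.Agent.ES.T56.TWHypFix3

open Fermat.Agent.ES.T56.TWHypAd3 Fermat.Agent.ES.T56.TWPred17 Fermat.Agent.ES.T56.TWHypF1_3
  Fermat.Agent.ES.T56.TWKillAbs3

section Model

variable {k : Type} [Field k] (R : GQ →* Matrix (Fin 2) (Fin 2) k)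

theorem det_R_ne_zero (σ : GQ) : (R σ).det ≠ 0 := by
  intro h0
  have h1 : (R σ).det * (R σ⁻¹).det = 1 := by
    rw [← Matrix.det_mul, R_mul_inv, Matrix.det_one]
  rw [h0, zero_mul] at h1
  exact zero_ne_one h1

/-- The underlying linear map of the twisted adjoint action on all `2 × 2` matrices. -/
noncomputable def twLin (σ : GQ) : Matrix (Fin 2) (Fin 2) k →ₗ[k] Matrix (Fin 2) (Fin 2) k :=
  (R σ).det • ((LinearMap.mulLeft k (R σ)).comp (LinearMap.mulRight k (R σ⁻¹)))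

theorem twLin_apply (σ : GQ) (X : Matrix (Fin 2) (Fin 2) k) :
    twLin R σ X = (R σ).det • (R σ * X * R σ⁻¹) := by
  simp only [twLin, LinearMap.smul_apply, LinearMap.comp_apply, LinearMap.mulRight_apply,
    LinearMap.mulLeft_apply, mul_assoc]

theorem twLin_mem (σ : GQ) : ∀ X ∈ sl2 k, twLin R σ X ∈ sl2 k := by
  intro X hX
  rw [mem_sl2] at hX ⊢
  rw [twLin_apply, Matrix.trace_smul, Matrix.trace_mul_comm, ← mul_assoc, R_inv_mul, one_mul, hX,
    smul_zero]

/-- **The det-twisted adjoint action on `sl₂(k)`**: the concrete model of `ad⁰ρ̄(1)`. -/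
noncomputable def twAct : GQ →* Module.End k (sl2 k) where
  toFun σ := (twLin R σ).restrict (twLin_mem R σ)
  map_one' := by
    apply LinearMap.ext
    intro X
    apply Subtype.ext
    rw [LinearMap.coe_restrict_apply, twLin_apply, inv_one, map_one, Matrix.det_one, one_smul,
      one_mul, mul_one]
    rfl
  map_mul' σ τ := by
    apply LinearMap.ext
    intro X
    apply Subtype.ext
    rw [Module.End.mul_apply, LinearMap.coe_restrict_apply, LinearMap.coe_restrict_apply,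
      LinearMap.coe_restrict_apply, twLin_apply, twLin_apply, twLin_apply, _root_.mul_inv_rev, map_mul,
      map_mul, Matrix.det_mul, mul_smul_comm, smul_mul_assoc, smul_smul]
    simp only [mul_assoc]

theorem twAct_coe (σ : GQ) (X : sl2 k) :
    ((twAct R σ X : sl2 k) : Matrix (Fin 2) (Fin 2) k) =
      (R σ).det • (R σ * (X : Matrix (Fin 2) (Fin 2) k) * R σ⁻¹) := by
  show ((twLin R σ).restrict (twLin_mem R σ) X : Matrix (Fin 2) (Fin 2) k) = _
  rw [LinearMap.coe_restrict_apply, twLin_apply]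

/-- `htriv`. -/
theorem twAct_eq_one {σ : GQ} (h : R σ = 1) : twAct R σ = 1 := by
  apply LinearMap.ext
  intro X
  apply Subtype.ext
  have hinv : R σ⁻¹ = 1 := by
    have h1 := R_inv_mul R σ
    rwa [h, mul_one] at h1
  rw [twAct_coe, h, hinv, Matrix.det_one, one_smul, one_mul, mul_one]
  rfl

end Model

section Residual

variable {k : Type} [Field k] (ρbar : ResidualGaloisRep k)
  (R : GQ →* Matrix (Fin 2) (Fin 2) k) (b : Module.Basis (Fin 2) k ρbar.V)
  (hR : ∀ σ, R σ = LinearMap.toMatrix b b (ρbar.ρ σ))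

include hR in
theorem R_eq_one_of_rho {σ : GQ} (h : ρbar.ρ σ = 1) : R σ = 1 := by
  rw [hR, h, LinearMap.toMatrix_one]

include hR in
/-- `hact`. -/
theorem twAct_finiteLevel : GaloisFactorsThroughFiniteLevel (twAct R) := by
  obtain ⟨L, hL, h1⟩ := ρbar.factorsThroughFiniteLevel
  exact ⟨L, hL, fun σ hσ => twAct_eq_one R (R_eq_one_of_rho ρbar R b hR (h1 σ hσ))⟩

include hR in
/-- `hirr`: the twisted adjoint representation is irreducible. -/
theorem twAct_irreducible (h2 : (2 : k) ≠ 0) (habs : ρbar.IsAbsolutelyIrreducible)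
    (hTW : ∀ (K : Type) [Field K] [Algebra k K] (G : Subgroup GQ), G.index = 2 →
      ∀ V : Submodule K (ρbar.baseChange K).V,
        (∀ σ ∈ G, ∀ x ∈ V, (ρbar.baseChange K).ρ σ x ∈ V) → V = ⊥ ∨ V = ⊤)
    (W : Submodule k (sl2 k)) (hW : ∀ σ : GQ, ∀ x ∈ W, twAct R σ x ∈ W) : W = ⊥ ∨ W = ⊤ := by
  set W' : Submodule k (Matrix (Fin 2) (Fin 2) k) := W.map (sl2 k).subtype with hW'
  have hle : W' ≤ sl2 k := by
    rintro _ ⟨x, -, rfl⟩
    exact x.2
  have hstab : ∀ σ : GQ, ∀ X ∈ W', R σ * X * R σ⁻¹ ∈ W' := by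
    rintro σ _ ⟨x, hx, rfl⟩
    refine ⟨((R σ).det)⁻¹ • twAct R σ x, W.smul_mem _ (hW σ x hx), ?_⟩
    rw [map_smul, Submodule.subtype_apply, twAct_coe, smul_smul,
      inv_mul_cancel₀ (det_R_ne_zero R σ), one_smul]
    rfl
  rcases ad0_irreducible ρbar h2 habs hTW R b hR W' hle hstab with h | h
  · left
    rw [eq_bot_iff]
    intro x hx
    have hx' : (x : Matrix (Fin 2) (Fin 2) k) ∈ W' := ⟨x, hx, rfl⟩
    rw [h] at hx'
    exact (Submodule.mem_bot k).mpr (Subtype.ext ((Submodule.mem_bot k).mp hx'))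
  · right
    rw [eq_top_iff]
    intro x _
    have hx : (x : Matrix (Fin 2) (Fin 2) k) ∈ W' := by rw [h]; exact x.2
    obtain ⟨y, hy, hyx⟩ := hx
    have : y = x := Subtype.ext hyx
    rwa [this] at hy

/-- `(σ₀ - 1) N ≠ N` when `det (R σ₀) = 1`. -/
theorem range_twAct_sub_one_ne_top (h2 : (2 : k) ≠ 0) {σ₀ : GQ} (hdet : (R σ₀).det = 1) :
    LinearMap.range (twAct R σ₀ - 1) ≠ ⊤ := by
  intro htop
  have hsurj : Function.Surjective ⇑(twAct R σ₀ - 1) := LinearMap.range_eq_top.mp htop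
  have hinj : Function.Injective ⇑(twAct R σ₀ - 1) := LinearMap.injective_iff_surjective.mpr hsurj
  -- the fixed vector
  set c : k := (R σ₀).trace / 2 with hc
  set Z : Matrix (Fin 2) (Fin 2) k := R σ₀ - c • (1 : Matrix (Fin 2) (Fin 2) k) with hZ
  have hZtr : Z.trace = 0 := by
    rw [hZ, Matrix.trace_sub, Matrix.trace_smul, Matrix.trace_one, hc]
    simp only [Fintype.card_fin, smul_eq_mul]
    push_cast
    field_simp
    ring
  have hZfix : R σ₀ * Z * R σ₀⁻¹ = Z := by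
    rw [hZ, mul_sub, sub_mul, mul_smul_comm, mul_one, smul_mul_assoc, R_mul_inv, mul_assoc,
      R_mul_inv, mul_one]
  let z : sl2 k := ⟨Z, mem_sl2.mpr hZtr⟩
  have hz : (twAct R σ₀ - 1) z = 0 := by
    apply Subtype.ext
    rw [LinearMap.sub_apply, Module.End.one_apply]
    show ((twAct R σ₀ z : sl2 k) : Matrix (Fin 2) (Fin 2) k) - Z = 0
    rw [twAct_coe, hdet, one_smul]
    show R σ₀ * Z * R σ₀⁻¹ - Z = 0
    rw [hZfix, sub_self]
  have hz0 : z = 0 := hinj (hz.trans (map_zero _).symm)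
  have hZ0 : Z = 0 := congrArg Subtype.val hz0
  -- `R σ₀` is scalar, so `twAct R σ₀ = 1` and `σ₀ - 1 = 0` is not onto
  have hscal : R σ₀ = c • (1 : Matrix (Fin 2) (Fin 2) k) := by
    rw [hZ] at hZ0
    exact sub_eq_zero.mp hZ0
  have hcomm : ∀ X : Matrix (Fin 2) (Fin 2) k, R σ₀ * X = X * R σ₀ := by
    intro X
    rw [hscal, smul_mul_assoc, one_mul, mul_smul_comm, mul_one]
  have hone : ∀ X : sl2 k, (twAct R σ₀ - 1) X = 0 := by
    intro X
    apply Subtype.ext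
    rw [LinearMap.sub_apply, Module.End.one_apply]
    show ((twAct R σ₀ X : sl2 k) : Matrix (Fin 2) (Fin 2) k) - (X : Matrix (Fin 2) (Fin 2) k) = 0
    rw [twAct_coe, hdet, one_smul, hcomm, mul_assoc, R_mul_inv, mul_one, sub_self]
  let H : sl2 k := ⟨!![1, 0; 0, -1], by rw [mem_sl2, Matrix.trace_fin_two]; simp⟩
  obtain ⟨y, hy⟩ := hsurj H
  rw [hone y] at hy
  have h1 : (!![1, 0; 0, -1] : Matrix (Fin 2) (Fin 2) k) = 0 := (congrArg Subtype.val hy).symm
  have h3 := congrFun (congrFun h1 0) 0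
  simp at h3

/-- `hdet` ⇒ `det ρ̄(σ) = 1` for `σ` fixing the `p`-th roots of unity. -/
theorem det_eq_one_of_fixesRoots (p : ℕ)
    (hdet : (GaloisRepAdic.ofResidualGaloisRep ρbar).DetIsCyclotomic p) {σ : GQ}
    (hσ : ∀ ζ : AlgebraicClosure ℚ, ζ ^ p = 1 → σ ζ = ζ) : LinearMap.det (ρbar.ρ σ) = 1 := by
  obtain ⟨hp0, h⟩ := hdet
  have hpk : (p : k) = 0 := by
    rw [IsLocalRing.maximalIdeal_eq_bot] at hp0
    exact (Ideal.mem_bot).mp hp0
  have h1 := h 1 σ 1 (fun μ hμ => by rw [pow_one] at hμ ⊢; exact hσ μ hμ)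
  rw [pow_one, hpk, Ideal.span_singleton_eq_bot.mpr rfl, Ideal.mem_bot, Nat.cast_one, sub_eq_zero]
    at h1
  exact h1

include hR in
/-- **`TWKill` for the concrete model, modulo the group-theoretic vanishing.**  Let `c` be a
`1`-cocycle of `Gal(ℚ̄/ℚ)` with values in `ad⁰ρ̄(1) = (sl₂(k), twAct R)` which does not vanish
identically on the fixer of `F_n = ℚ(ρ̄, ζ_{p^(n+1)})`.  Then some `g` fixes the `p ^ (n + 1)`-th roots
of unity, has split distinct eigenvalues on `ρ̄` and `c g ∉ (g - 1) ad⁰ρ̄(1)`. -/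
theorem exists_tw_witness_twAct (p : ℕ) (hp : p.Prime) (n : ℕ) (h2 : (2 : k) ≠ 0)
    (habs : ρbar.IsAbsolutelyIrreducible)
    (hdet : (GaloisRepAdic.ofResidualGaloisRep ρbar).DetIsCyclotomic p)
    (hsplit : ∀ σ : GQ, ∃ α β : k, LinearMap.charpoly (ρbar.ρ σ) = (X - C α) * (X - C β))
    (hTW : ∀ (K : Type) [Field K] [Algebra k K] (G : Subgroup GQ), G.index = 2 →
      ∀ V : Submodule K (ρbar.baseChange K).V,
        (∀ σ ∈ G, ∀ x ∈ V, (ρbar.baseChange K).ρ σ x ∈ V) → V = ⊥ ∨ V = ⊤)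
    (c : GQ → sl2 k) (hc : ∀ σ τ : GQ, c (σ * τ) = c σ + twAct R σ (c τ))
    (hnz : ∃ h ∈ fixer ρbar (p ^ (n + 1)), c h ≠ 0) :
    ∃ g : GQ, (∀ ζ : AlgebraicClosure ℚ, ζ ^ p ^ (n + 1) = 1 → g ζ = ζ) ∧
      (∃ α β : k, α ≠ β ∧ LinearMap.charpoly (ρbar.ρ g) = (X - C α) * (X - C β)) ∧
      c g ∉ LinearMap.range (twAct R g - 1) := by
  haveI : NeZero (p ^ (n + 1)) := ⟨pow_ne_zero _ hp.ne_zero⟩
  obtain ⟨σ₀, hσ₀, hsd⟩ := exists_fixesRoots_splitDistinct ρbar h2 habs hTW hsplit (p ^ (n + 1))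
  refine exists_tw_witness ρbar p n (twAct R)
    (fun σ hσ => twAct_eq_one R (R_eq_one_of_rho ρbar R b hR hσ))
    (twAct_irreducible ρbar R b hR h2 habs hTW) c hc hnz ⟨σ₀, hσ₀, hsd, ?_⟩
  apply range_twAct_sub_one_ne_top R h2
  rw [hR, LinearMap.det_toMatrix b]
  apply det_eq_one_of_fixesRoots ρbar p hdet
  intro ζ hζ
  apply hσ₀
  rw [pow_succ', pow_mul, hζ, one_pow]

end Residual

end Fermat.Agent.ES.T56.TWHypFix3
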