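/-
Programme T (S56, Taylor–Wiles primes), TW chapter (helper3): **`(ad⁰ρ̄)^∨(1) ≅ ad⁰ρ̄(1)`**, the
identification of the GW contract's `N = dualT p M`, `M = resScal p (ad0 R)` (decision D1), with the
model `(sl₂(k), twAct R)` of the TW chapter.

`k` a finite field with `[Algebra (ZMod p) k]`, `2 ≠ 0` in `k`, `R : G_ℚ →* M₂(k)`.

* `pairFun Y X = Tr_{k/𝔽_p} (tr (Y X))`, the trace pairing on `sl₂(k)` followed by the field trace;
* `toDual R : sl₂(k) →+ Module.Dual 𝔽_p (resScal p (ad0 R))`, `Y ↦ pairFun Y ·`;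
* `toDual_injective` (nondegeneracy of both traces), `toDual_bijective` (cardinalities);
* `toDual_twAct` : if `det (R σ) = χ̄_p(σ)` then `toDual (twAct R σ Y) = σ • toDual Y` in `dualT p M`;
* **`dualIso R : dualT p (resScal p (ad0 R)) ≃+ sl₂(k)`** with **`dualIso_equivariant`** — the inputs
  `e`, `he` of `TWGlue3.exists_tw_set_dualSel`;
* `det_eq_algebraMap_cycloChar` : the hypothesis `hχ` from S56's `hdet`.
-/
import Mathlib
import Fermat.Agent.ES.T56.GWIface21
import Fermat.Agent.ES.T56.Ad0Rep10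
import Fermat.Agent.ES.T56.ResScal27
import Fermat.Agent.ES.T56.TWHypFix3
import Fermat.Agent.ES.T56.TWDetChi3

set_option autoImplicit false
set_option linter.unusedSectionVars false
set_option linter.style.haveILetI false

open CategoryTheory ExtCitation Matrix

namespace Fermat.Agent.ES.T56.TWDualIso3

open Fermat.Agent.ES.T56.TWHypAd3 Fermat.Agent.ES.T56.TWHypFix3 Fermat.Agent.ES.T56.ResScal27
  Fermat.Agent.ES.T56.TWPred17

open Fermat.Agent.ES.T56.GWIface21 hiding GQ
open Fermat.Agent.ES.T56.Ad0Rep10 hiding sl2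

variable (p : ℕ) [hp : Fact p.Prime] {k : Type} [Field k] [Algebra (ZMod p) k]

/-- `Tr_{k/𝔽_p} (tr (Y X))`. -/
noncomputable def pairFun (Y X : Matrix (Fin 2) (Fin 2) k) : ZMod p :=
  Algebra.trace (ZMod p) k (Y * X).trace

theorem pairFun_add_right (Y X X' : Matrix (Fin 2) (Fin 2) k) :
    pairFun p Y (X + X') = pairFun p Y X + pairFun p Y X' := by
  unfold pairFun
  rw [mul_add, trace_add, map_add]

theorem pairFun_add_left (Y Y' X : Matrix (Fin 2) (Fin 2) k) :
    pairFun p (Y + Y') X = pairFun p Y X + pairFun p Y' X := by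
  unfold pairFun
  rw [add_mul, trace_add, map_add]

theorem pairFun_smul_right (a : k) (Y X : Matrix (Fin 2) (Fin 2) k) :
    pairFun p Y (a • X) = Algebra.trace (ZMod p) k (a * (Y * X).trace) := by
  unfold pairFun
  rw [Matrix.mul_smul, trace_smul, smul_eq_mul]

theorem pairFun_smul_left (a : k) (Y X : Matrix (Fin 2) (Fin 2) k) :
    pairFun p (a • Y) X = Algebra.trace (ZMod p) k (a * (Y * X).trace) := by
  unfold pairFun
  rw [Matrix.smul_mul, trace_smul, smul_eq_mul]

theorem trace_algebraMap_mul (c : ZMod p) (t : k) :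
    Algebra.trace (ZMod p) k (algebraMap (ZMod p) k c * t) = c * Algebra.trace (ZMod p) k t := by
  rw [← Algebra.smul_def, map_smul, smul_eq_mul]

/-- If `tr (Y X) = 0` for all trace-zero `X` and `2 ≠ 0`, then the trace-zero matrix `Y` is `0`. -/
theorem eq_zero_of_trace_mul_eq_zero (h2 : (2 : k) ≠ 0) {Y : Matrix (Fin 2) (Fin 2) k}
    (hY : Y.trace = 0) (h : ∀ X : Matrix (Fin 2) (Fin 2) k, X.trace = 0 → (Y * X).trace = 0) :
    Y = 0 := by
  have h01 := h !![0, 0; 1, 0] (by simp [Matrix.trace_fin_two])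
  have h10 := h !![0, 1; 0, 0] (by simp [Matrix.trace_fin_two])
  have hH := h !![1, 0; 0, -1] (by simp [Matrix.trace_fin_two])
  rw [Matrix.trace_fin_two] at hY
  simp only [Matrix.trace_fin_two, Matrix.mul_apply, Fin.sum_univ_two, Matrix.of_apply,
    Matrix.cons_val', Matrix.cons_val_zero, Matrix.cons_val_one, Matrix.cons_val_fin_one,
    mul_zero, mul_one, zero_add, add_zero, mul_neg] at h01 h10 hH
  have h11 : Y 1 1 = -Y 0 0 := eq_neg_of_add_eq_zero_right hY
  have h00 : Y 0 0 = 0 := by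
    rw [h11, neg_neg, ← two_mul] at hH
    exact (mul_eq_zero.mp hH).resolve_left h2
  ext i j
  fin_cases i <;> fin_cases j
  · exact h00
  · exact h01
  · exact h10
  · show Y 1 1 = 0
    rw [h11, h00, neg_zero]

variable (R : GQ →* Matrix (Fin 2) (Fin 2) k)

/-- `Y ↦ (X ↦ Tr_{k/𝔽_p} (tr (Y X)))`. -/
noncomputable def toDual : ↥(sl2 k) →+ Module.Dual (ZMod p) (resScal p (ad0 R)) where
  toFun Y :=
    { toFun := fun X => pairFun p (Y : Matrix (Fin 2) (Fin 2) k)
        ((ofRS (ad0 R) X : ↥(Ad0Rep10.sl2 k)) : Matrix (Fin 2) (Fin 2) k)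
      map_add' := fun X X' => pairFun_add_right p _ _ _
      map_smul' := fun c X => by
        show pairFun p (Y : Matrix (Fin 2) (Fin 2) k)
            (algebraMap (ZMod p) k c • ((ofRS (ad0 R) X : ↥(Ad0Rep10.sl2 k)) :
              Matrix (Fin 2) (Fin 2) k)) = c • pairFun p _ _
        rw [pairFun_smul_right, trace_algebraMap_mul, smul_eq_mul]
        rfl }
  map_zero' := by
    apply LinearMap.ext
    intro X
    show pairFun p ((0 : ↥(sl2 k)) : Matrix (Fin 2) (Fin 2) k) _ = 0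
    unfold pairFun
    rw [Submodule.coe_zero, zero_mul, trace_zero, map_zero]
  map_add' Y Y' := by
    apply LinearMap.ext
    intro X
    exact pairFun_add_left p _ _ _

theorem toDual_apply (Y : ↥(sl2 k)) (X : resScal p (ad0 R)) :
    toDual p R Y X = pairFun p (Y : Matrix (Fin 2) (Fin 2) k)
      ((ofRS (ad0 R) X : ↥(Ad0Rep10.sl2 k)) : Matrix (Fin 2) (Fin 2) k) := rfl

theorem toDual_injective [Finite k] (h2 : (2 : k) ≠ 0) : Function.Injective (toDual p R) := by
  rw [injective_iff_map_eq_zero]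
  intro Y hY
  apply Subtype.ext
  rw [Submodule.coe_zero]
  apply eq_zero_of_trace_mul_eq_zero h2 (mem_sl2.mp Y.2)
  intro X hX
  apply (traceForm_nondegenerate (ZMod p) k).1
  intro a
  rw [Algebra.traceForm_apply, mul_comm]
  have h1 := LinearMap.congr_fun hY
    (toRS (ad0 R) (a • (⟨X, mem_sl2.mpr hX⟩ : ↥(Ad0Rep10.sl2 k))))
  rw [toDual_apply, ofRS_toRS, Submodule.coe_smul, pairFun_smul_right] at h1
  exact h1

theorem toDual_bijective [Finite k] (h2 : (2 : k) ≠ 0) : Function.Bijective (toDual p R) := by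
  haveI : Finite (resScal p (ad0 R)) :=
    (inferInstance : Finite ↥(Ad0Rep10.sl2 k))
  haveI : Module.Finite (ZMod p) (resScal p (ad0 R)) := Module.Finite.of_finite
  haveI : Finite (Module.Dual (ZMod p) (resScal p (ad0 R))) := Module.finite_of_finite (ZMod p)
  apply (toDual_injective p R h2).bijective_of_nat_card_le
  rw [Module.natCard_eq_pow_finrank (K := ZMod p), Subspace.dual_finrank_eq,
    ← Module.natCard_eq_pow_finrank (K := ZMod p)]
  exact le_of_eq rfl

/-- **`(ad⁰ρ̄)^∨(1) ≃+ sl₂(k)`.** -/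
noncomputable def dualIso [Finite k] (h2 : (2 : k) ≠ 0) :
    (dualT p (resScal p (ad0 R))) ≃+ ↥(sl2 k) :=
  (AddEquiv.ofBijective (toDual p R) (toDual_bijective p R h2)).symm

/-- Equivariance of `toDual` when `det R = χ̄_p`. -/
theorem toDual_twAct
    (hχ : ∀ σ : GQ, (R σ).det = algebraMap (ZMod p) k ((cycloChar p σ : (ZMod p)ˣ) : ZMod p))
    (σ : GQ) (Y : ↥(sl2 k)) :
    toDual p R (twAct R σ Y) = (dualT p (resScal p (ad0 R))).ρ σ (toDual p R Y) := by
  apply LinearMap.ext
  intro X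
  rw [Rep.dualTwist_ρ_apply, LinearMap.smul_apply, LinearMap.comp_apply, toDual_apply,
    toDual_apply, twAct_coe, pairFun_smul_left, hχ, trace_algebraMap_mul, smul_eq_mul]
  congr 1
  unfold pairFun
  congr 1
  have h1 : ((ofRS (ad0 R) ((resScal p (ad0 R)).ρ σ⁻¹ X) : ↥(Ad0Rep10.sl2 k)) :
      Matrix (Fin 2) (Fin 2) k) = R σ⁻¹ * ((ofRS (ad0 R) X : ↥(Ad0Rep10.sl2 k)) :
        Matrix (Fin 2) (Fin 2) k) * R σ := by
    rw [resScal_ρ_apply, ad0_ρ_apply_coe, inv_inv]
  rw [h1, ← mul_assoc (Y : Matrix (Fin 2) (Fin 2) k), ← mul_assoc (Y : Matrix (Fin 2) (Fin 2) k),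
    Matrix.trace_mul_comm _ (R σ)]
  simp only [mul_assoc]

/-- **Equivariance of `dualIso`**: the hypothesis `he` of `TWGlue3.exists_tw_set_dualSel`. -/
theorem dualIso_equivariant [Finite k] (h2 : (2 : k) ≠ 0)
    (hχ : ∀ σ : GQ, (R σ).det = algebraMap (ZMod p) k ((cycloChar p σ : (ZMod p)ˣ) : ZMod p))
    (σ : GQ) (x : dualT p (resScal p (ad0 R))) :
    dualIso p R h2 ((dualT p (resScal p (ad0 R))).ρ σ x) = twAct R σ (dualIso p R h2 x) := by
  obtain ⟨Y, rfl⟩ := (toDual_bijective p R h2).2 x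
  have h1 : dualIso p R h2 (toDual p R Y) = Y :=
    (AddEquiv.ofBijective (toDual p R) (toDual_bijective p R h2)).symm_apply_apply Y
  rw [← toDual_twAct p R hχ, h1]
  exact (AddEquiv.ofBijective (toDual p R) (toDual_bijective p R h2)).symm_apply_apply _

section Residual

open Fermat.Agent.ES.R48.ModCyclo13 Fermat.Agent.ES.T56.TWDetChi3

variable (ρbar : ResidualGaloisRep k) (b : Module.Basis (Fin 2) k ρbar.V)
  (hR : ∀ σ, R σ = LinearMap.toMatrix b b (ρbar.ρ σ))

include hR in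
/-- `det R = χ̄_p` from S56's `hdet`, for ANY `ZMod p`-algebra structure on `k`. -/
theorem det_eq_algebraMap_cycloChar
    (hdet : (GaloisRepAdic.ofResidualGaloisRep ρbar).DetIsCyclotomic p) (σ : GQ) :
    (R σ).det = algebraMap (ZMod p) k ((cycloChar p σ : (ZMod p)ˣ) : ZMod p) := by
  haveI : NeZero p := ⟨hp.out.ne_zero⟩
  have h1 : cycloChar p σ = chiMod p σ := rfl
  rw [hR, LinearMap.det_toMatrix b, det_eq_cast_chiMod ρbar p hdet σ, h1]
  conv_rhs => rw [← ZMod.natCast_zmod_val ((chiMod p σ : (ZMod p)ˣ) : ZMod p)]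
  rw [map_natCast]

end Residual

end Fermat.Agent.ES.T56.TWDualIso3
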