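/-
Programme T (S56, Taylor–Wiles primes), TW chapter (helper3): **local Frobenius elements**, the
hypothesis `hloc` of `TWGlue3.exists_tw_set_dualSel`.

* `padicPlace_liesOverPrime` : the Prelude's place `padicPlace q` of `ℚ̄` lies over `q`;
* `DecompositionLeRange` : the statement `D_w ≤ im (Γ_q → G_ℚ)` of helper16's `LocSurj16`
  (`decomposition_le_range`), for all primes;
* **`exists_local_frobenius`** : `DecompositionLeRange →` for every `q : Nat.Primes` there is `γ` in
  the local Galois group whose image `primeLocalToGlobal q γ` is a Frobenius element at a place over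
  `q` (existence of Frobenius elements: main's `FrobFacts12.exists_isFrobeniusAt_of`).
-/
import Mathlib
import Fermat.Prelude.Def_ExtEndgame_ProductionDatum
import Fermat.Prelude.Def_EllipticCurve_FrobeniusTrace
import Fermat.Agent.ES.FROB.FrobFacts12

set_option autoImplicit false
set_option linter.unusedSectionVars false
set_option linter.style.haveILetI false

open ExtCitation

namespace Fermat.Agent.ES.T56.TWFrobLoc3

/-- The place `padicPlace q` lies over `q`. -/
theorem padicPlace_liesOverPrime (q : ℕ) [hq : Fact q.Prime] : (padicPlace q).LiesOverPrime q := by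
  have hq0 : ((q : ℕ) : AlgebraicClosure ℚ) ≠ 0 := Nat.cast_ne_zero.mpr hq.out.ne_zero
  show ((q : ℕ) : AlgebraicClosure ℚ) ∈ (padicPlace q).nonunits
  rw [ValuationSubring.mem_nonunits_iff_or]
  refine Or.inr ?_
  rw [mem_padicPlace_iff, map_inv₀, map_natCast, nnnorm_inv, not_le]
  have h1 : ‖((q : ℕ) : PadicAlgCl q)‖ < 1 := by
    have h2 : ((q : ℕ) : PadicAlgCl q) = algebraMap ℚ_[q] (PadicAlgCl q) ((q : ℕ) : ℚ_[q]) := by
      rw [map_natCast]
    rw [h2, PadicAlgCl.norm_extends, Padic.norm_p]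
    exact inv_lt_one_of_one_lt₀ (by exact_mod_cast hq.out.one_lt)
  have h3 : ‖((q : ℕ) : PadicAlgCl q)‖₊ < 1 := by exact_mod_cast h1
  have h4 : ‖((q : ℕ) : PadicAlgCl q)‖₊ ≠ 0 := by
    rw [nnnorm_ne_zero_iff]
    exact Nat.cast_ne_zero.mpr hq.out.ne_zero
  exact (one_lt_inv₀ (pos_iff_ne_zero.mpr h4)).mpr h3

/-- `Γ_q → G_ℚ` is onto the decomposition group of `padicPlace q` (helper16's
`LocSurj16.decomposition_le_range`). -/
def DecompositionLeRange : Prop :=
  ∀ (q : ℕ) [Fact q.Prime],
    (padicPlace q).decompositionSubgroup ℚ ≤ (localGaloisToGlobal q).range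

/-- **Local Frobenius elements.** -/
theorem exists_local_frobenius (hdec : DecompositionLeRange) (q : Nat.Primes) :
    ∃ γ : primeLocalGaloisGroup q, ∃ A : ValuationSubring (AlgebraicClosure ℚ),
      A.LiesOverPrime (q : ℕ) ∧ A.IsFrobeniusAt (primeLocalToGlobal q γ) (q : ℕ) := by
  haveI : Fact (q : ℕ).Prime := ⟨q.2⟩
  have hA : (padicPlace (q : ℕ)).LiesOverPrime (q : ℕ) := padicPlace_liesOverPrime (q : ℕ)
  obtain ⟨σ, hσ⟩ := Fermat.Agent.ES.FROB.FrobFacts12.exists_isFrobeniusAt_of (q : ℕ) q.2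
    (padicPlace (q : ℕ)) hA
  obtain ⟨γ, hγ⟩ := hdec (q : ℕ) hσ.mem_decompositionSubgroup
  refine ⟨γ, padicPlace (q : ℕ), hA, ?_⟩
  have h1 : primeLocalToGlobal q γ = σ := hγ
  rw [h1]
  exact hσ

end Fermat.Agent.ES.T56.TWFrobLoc3
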