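/-
Programme T (S56, Taylor–Wiles primes), TW chapter (helper3): two more consequences of `habs` + `hTW`
in the matrix model, in the shape consumed by the group-theoretic vanishing (GT, helper19):

* `scalar_normal_absurd` : a (conjugation-stable) family of elements containing all commutators
  cannot act by scalars;
* `exists_det_one_not_eigen` (GT's `hirr`): no non-zero vector of `k²` is a common eigenvector of all
  `R σ` with `det (R σ) = 1` (that is: `ρ̄` restricted to `Gal(ℚ̄/ℚ(ζ_p))` has no stable line);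
* `no_twisted_invariant` (GT's `hinv`): no non-zero trace-zero `m` with
  `det (R σ) • (R σ m R σ⁻¹) = m` for all `σ`.
-/
import Mathlib
import Fermat.Agent.ES.T56.TWHypAd3

set_option autoImplicit false
set_option linter.unusedSectionVars false
set_option linter.style.haveILetI false

open Polynomial Matrix

namespace Fermat.Agent.ES.T56.TWIrrDetOne3

open Fermat.Agent.ES.T56.TWHypAd3

variable {k : Type} [Field k] (ρbar : ResidualGaloisRep k)
  (R : GQ →* Matrix (Fin 2) (Fin 2) k) (b : Module.Basis (Fin 2) k ρbar.V)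
  (hR : ∀ σ, R σ = LinearMap.toMatrix b b (ρbar.ρ σ))

include hR in
/-- A family `P` of elements of `Gal(ℚ̄/ℚ)` containing all commutators cannot act by scalars. -/
theorem scalar_normal_absurd (h2 : (2 : k) ≠ 0) (habs : ρbar.IsAbsolutelyIrreducible)
    (hTW : ∀ (K : Type) [Field K] [Algebra k K] (G : Subgroup GQ), G.index = 2 →
      ∀ V : Submodule K (ρbar.baseChange K).V,
        (∀ σ ∈ G, ∀ x ∈ V, (ρbar.baseChange K).ρ σ x ∈ V) → V = ⊥ ∨ V = ⊤)
    (P : GQ → Prop) (hcomm : ∀ τ g : GQ, P (τ * g * τ⁻¹ * g⁻¹))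
    (hscal : ∀ σ : GQ, P σ → ∃ c : k, R σ = c • (1 : Matrix (Fin 2) (Fin 2) k)) : False := by
  classical
  by_cases hall : ∀ g : GQ, ∃ c : k, R g = c • (1 : Matrix (Fin 2) (Fin 2) k)
  · -- everything is scalar: the line `k E₁₂` is stable
    refine no_stable_line_matrix ρbar h2 habs hTW R b hR !![0, 1; 0, 0] ?_ ?_ (fun σ => ?_)
    · intro h
      have := congrFun (congrFun h 0) 1
      simp at this
    · rw [Matrix.trace_fin_two]
      simp
    · refine ⟨1, ?_⟩
      obtain ⟨c, hc⟩ := hall σ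
      rw [one_smul, hc, smul_mul_assoc, one_mul, mul_smul_comm, mul_one]
  · push Not at hall
    obtain ⟨g, hg⟩ := hall
    set t : k := (R g).trace / 2 with ht
    set Z : Matrix (Fin 2) (Fin 2) k := R g - t • (1 : Matrix (Fin 2) (Fin 2) k) with hZ
    have hZ0 : Z ≠ 0 := fun h => hg t (sub_eq_zero.mp h)
    have hZtr : Z.trace = 0 := by
      rw [hZ, Matrix.trace_sub, Matrix.trace_smul, Matrix.trace_one, ht]
      simp only [Fintype.card_fin, smul_eq_mul]
      push_cast
      field_simp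
      ring
    refine no_stable_line_matrix ρbar h2 habs hTW R b hR Z hZ0 hZtr (fun τ => ?_)
    obtain ⟨c, hc⟩ := hscal _ (hcomm τ g)
    have hconj : R τ * R g * R τ⁻¹ = c • R g := by
      have e : τ * g * τ⁻¹ = (τ * g * τ⁻¹ * g⁻¹) * g := by group
      rw [← map_mul, ← map_mul, e, map_mul, hc, smul_mul_assoc, one_mul]
    -- traces: `(c - 1) tr (R g) = 0`
    have htr : c * (R g).trace = (R g).trace := by
      have h1 := congrArg Matrix.trace hconj
      rw [Matrix.trace_mul_comm, ← mul_assoc, R_inv_mul, one_mul, Matrix.trace_smul,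
        smul_eq_mul] at h1
      exact h1.symm
    have hct : c * t = t := by
      rw [ht, ← mul_div_assoc, htr]
    refine ⟨c, ?_⟩
    have hZconj : R τ * Z * R τ⁻¹ = c • Z := by
      rw [hZ, mul_sub, sub_mul, hconj, mul_smul_comm, mul_one, smul_mul_assoc, R_mul_inv,
        smul_sub, smul_smul, hct]
    calc R τ * Z = R τ * Z * (R τ⁻¹ * R τ) := by rw [R_inv_mul, mul_one]
      _ = (R τ * Z * R τ⁻¹) * R τ := by simp only [mul_assoc]
      _ = c • (Z * R τ) := by rw [hZconj, smul_mul_assoc]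

include hR in
/-- **GT's `hirr`**: the elements with `det (R σ) = 1` have no common eigenvector in `k²`. -/
theorem exists_det_one_not_eigen (h2 : (2 : k) ≠ 0) (habs : ρbar.IsAbsolutelyIrreducible)
    (hTW : ∀ (K : Type) [Field K] [Algebra k K] (G : Subgroup GQ), G.index = 2 →
      ∀ V : Submodule K (ρbar.baseChange K).V,
        (∀ σ ∈ G, ∀ x ∈ V, (ρbar.baseChange K).ρ σ x ∈ V) → V = ⊥ ∨ V = ⊤)
    (v : Fin 2 → k) (hv : v ≠ 0) :
    ∃ σ : GQ, (R σ).det = 1 ∧ ∀ a : k, (R σ) *ᵥ v ≠ a • v := by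
  classical
  by_contra hcon
  push Not at hcon
  -- `hcon : ∀ σ, det (R σ) = 1 → ∃ a, R σ *ᵥ v = a • v`
  set Z : GQ → Matrix (Fin 2) (Fin 2) k :=
    fun σ => R σ - ((R σ).trace / 2) • (1 : Matrix (Fin 2) (Fin 2) k) with hZ
  have hZtr : ∀ σ, (Z σ).trace = 0 := by
    intro σ
    rw [hZ]
    simp only
    rw [Matrix.trace_sub, Matrix.trace_smul, Matrix.trace_one]
    simp only [Fintype.card_fin, smul_eq_mul]
    push_cast
    field_simp
    ring
  have hZconj : ∀ σ τ : GQ, R τ * Z σ * R τ⁻¹ = Z (τ * σ * τ⁻¹) := by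
    intro σ τ
    rw [hZ]
    simp only
    have ht : (R (τ * σ * τ⁻¹)).trace = (R σ).trace := by
      rw [map_mul, map_mul, Matrix.trace_mul_comm, ← mul_assoc, R_inv_mul, one_mul]
    rw [ht, mul_sub, sub_mul, mul_smul_comm, mul_one, smul_mul_assoc, R_mul_inv, map_mul, map_mul]
  have hdetconj : ∀ σ τ : GQ, (R σ).det = 1 → (R (τ * σ * τ⁻¹)).det = 1 := by
    intro σ τ h
    have h1 : (R τ).det * (R τ⁻¹).det = 1 := by rw [← Matrix.det_mul, R_mul_inv, Matrix.det_one]
    rw [map_mul, map_mul, Matrix.det_mul, Matrix.det_mul, h, mul_one, h1]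
  set W : Submodule k (Matrix (Fin 2) (Fin 2) k) :=
    Submodule.span k (Z '' {σ | (R σ).det = 1}) with hW
  have hWsl : W ≤ sl2 k := by
    rw [hW, Submodule.span_le]
    rintro _ ⟨σ, -, rfl⟩
    exact mem_sl2.mpr (hZtr σ)
  have hWstab : ∀ τ : GQ, ∀ X ∈ W, R τ * X * R τ⁻¹ ∈ W := by
    intro τ X hX
    induction hX using Submodule.span_induction with
    | mem X hX =>
      obtain ⟨σ, hσ, rfl⟩ := hX
      rw [hZconj]
      exact Submodule.subset_span ⟨_, hdetconj σ τ hσ, rfl⟩
    | zero => rw [mul_zero, zero_mul]; exact Submodule.zero_mem _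
    | add x y _ _ hx hy => rw [mul_add, add_mul]; exact Submodule.add_mem _ hx hy
    | smul a x _ hx =>
      rw [mul_smul_comm, smul_mul_assoc]
      exact Submodule.smul_mem _ a hx
  rcases ad0_irreducible ρbar h2 habs hTW R b hR W hWsl hWstab with hbot | htop
  · -- the elements of determinant one are scalar
    refine scalar_normal_absurd ρbar R b hR h2 habs hTW (fun σ => (R σ).det = 1) ?_ ?_
    · intro τ g
      have h1 : (R τ).det * (R τ⁻¹).det = 1 := by rw [← Matrix.det_mul, R_mul_inv, Matrix.det_one]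
      have h3 : (R g).det * (R g⁻¹).det = 1 := by rw [← Matrix.det_mul, R_mul_inv, Matrix.det_one]
      rw [map_mul, map_mul, map_mul, Matrix.det_mul, Matrix.det_mul, Matrix.det_mul]
      linear_combination (R g).det * (R g⁻¹).det * h1 + h3
    · intro σ hσ
      have : Z σ ∈ W := Submodule.subset_span ⟨σ, hσ, rfl⟩
      rw [hbot] at this
      exact ⟨_, sub_eq_zero.mp ((Submodule.mem_bot k).mp this)⟩
  · -- every element of `W = sl₂` has `v` as an eigenvector
    have heig : ∀ X ∈ W, ∃ a : k, X *ᵥ v = a • v := by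
      intro X hX
      induction hX using Submodule.span_induction with
      | mem X hX =>
        obtain ⟨σ, hσ, rfl⟩ := hX
        obtain ⟨a, ha⟩ := hcon σ hσ
        refine ⟨a - (R σ).trace / 2, ?_⟩
        rw [hZ]
        simp only
        rw [Matrix.sub_mulVec, ha, Matrix.smul_mulVec, Matrix.one_mulVec, sub_smul]
      | zero => exact ⟨0, by rw [Matrix.zero_mulVec, zero_smul]⟩
      | add x y _ _ hx hy =>
        obtain ⟨a, ha⟩ := hx
        obtain ⟨a', ha'⟩ := hy
        exact ⟨a + a', by rw [Matrix.add_mulVec, ha, ha', add_smul]⟩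
      | smul c x _ hx =>
        obtain ⟨a, ha⟩ := hx
        exact ⟨c * a, by rw [Matrix.smul_mulVec, ha, smul_smul]⟩
    have hE12 : (!![0, 1; 0, 0] : Matrix (Fin 2) (Fin 2) k) ∈ W := by
      rw [htop, mem_sl2, Matrix.trace_fin_two]
      simp
    have hE21 : (!![0, 0; 1, 0] : Matrix (Fin 2) (Fin 2) k) ∈ W := by
      rw [htop, mem_sl2, Matrix.trace_fin_two]
      simp
    obtain ⟨a, ha⟩ := heig _ hE12
    obtain ⟨a', ha'⟩ := heig _ hE21
    have e0 := congrFun ha 0
    have e1 := congrFun ha 1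
    have f0 := congrFun ha' 0
    have f1 := congrFun ha' 1
    simp [Matrix.mulVec, dotProduct, Fin.sum_univ_two] at e0 e1 f0 f1
    -- `e0 : v 1 = a * v 0`, `e1 : a = 0 ∨ v 1 = 0`, `f0 : a' = 0 ∨ v 0 = 0`, `f1 : v 0 = a' * v 1`
    apply hv
    have hv1 : v 1 = 0 := by
      rcases e1 with h | h
      · rw [e0, h, zero_mul]
      · exact h
    have hv0 : v 0 = 0 := by
      rcases f0 with h | h
      · rw [f1, h, zero_mul]
      · exact h
    funext i
    fin_cases i
    · exact hv0
    · exact hv1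

include hR in
/-- **GT's `hinv`**: `ad⁰ρ̄(1)` has no non-zero invariant. -/
theorem no_twisted_invariant (h2 : (2 : k) ≠ 0) (habs : ρbar.IsAbsolutelyIrreducible)
    (hTW : ∀ (K : Type) [Field K] [Algebra k K] (G : Subgroup GQ), G.index = 2 →
      ∀ V : Submodule K (ρbar.baseChange K).V,
        (∀ σ ∈ G, ∀ x ∈ V, (ρbar.baseChange K).ρ σ x ∈ V) → V = ⊥ ∨ V = ⊤)
    (m : Matrix (Fin 2) (Fin 2) k) (htr : m.trace = 0)
    (hinv : ∀ σ : GQ, (R σ).det • (R σ * m * R σ⁻¹) = m) : m = 0 := by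
  by_contra hm
  refine no_stable_line_matrix ρbar h2 habs hTW R b hR m hm htr (fun σ => ?_)
  have hd : (R σ).det ≠ 0 := by
    intro h0
    have h1 : (R σ).det * (R σ⁻¹).det = 1 := by rw [← Matrix.det_mul, R_mul_inv, Matrix.det_one]
    rw [h0, zero_mul] at h1
    exact zero_ne_one h1
  refine ⟨((R σ).det)⁻¹, ?_⟩
  have h1 : R σ * m * R σ⁻¹ = ((R σ).det)⁻¹ • m := by
    rw [← hinv σ, smul_smul, inv_mul_cancel₀ hd, one_smul, hinv σ]
  calc R σ * m = R σ * m * (R σ⁻¹ * R σ) := by rw [R_inv_mul, mul_one]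
    _ = (R σ * m * R σ⁻¹) * R σ := by simp only [mul_assoc]
    _ = ((R σ).det)⁻¹ • (m * R σ) := by rw [h1, smul_mul_assoc]

end Fermat.Agent.ES.T56.TWIrrDetOne3
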