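/-
Programme T (S56, Taylor–Wiles primes), TW chapter (helper3): **the adaptive choice of the
Taylor–Wiles set** (`T56_TW.md` §1).

Abstract setting: `F` is a field (`F = k`, or `F = 𝔽_p` if the Selmer groups only carry their
`𝔽_p`-structure), `N` an `F`-vector space with an `F`-linear action `act` of `Gal(ℚ̄/ℚ)` of finite
level, `D` a finite-dimensional `F`-vector space (in the application: the dual Selmer group
`H¹_{L_∅^⊥}(G_ℚ, ad⁰ρ̄(1))`, independent of `n`) and `cl : D →ₗ[F] (Gal(ℚ̄/ℚ) → N)` an `F`-linear choice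
of representing cocycles, each of finite level.  The hypothesis `hkill` is the output of the
`TWKill` contract (for the given `n`): every non-zero class of `D` is detected by some `g` fixing
the `p ^ (n + 1)`-th roots of unity with split distinct eigenvalues on `ρbar`.

* `exists_tw_set_aux`, `exists_tw_set_of_frob` : let `Φ` be ANY choice of a Frobenius element `Φ q` at
  (some place over) every prime `q ∉ S` (e.g. the image of a local Frobenius under
  `primeLocalToGlobal q`).  For every `r ≥ dim_F D` there are `r` pairwise distinct primes `qv i ∉ S`,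
  `qv i ≡ 1 mod p ^ (n + 1)`, every Frobenius at `qv i` having split distinct eigenvalues on `ρbar`,
  such that the only `d : D` with `cl d (Φ (qv i)) ∈ (Φ (qv i) - 1) N` for all `i` is `d = 0`;
* `exists_tw_set` : the same with Frobenius elements `φv i` chosen by the theorem;
* `exists_tw_set_forall` : the weaker "for all Frobenius elements" form of the last clause.

The primes are chosen one at a time with helper17's `TWPred17.exists_tw_prime_detects` (the next
prime depends on the subspace of `D` left by the previous ones); once the subspace is `0` the set is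
filled up with `TWPred17.exists_tw_prime`.
-/
import Mathlib
import Fermat.Agent.ES.T56.TWPred17

set_option autoImplicit false
set_option linter.unusedSectionVars false
set_option linter.style.haveILetI false

open Polynomial
open Fermat.Agent.Lib.FrobeniusExists Fermat.Agent.ES.T56.TWCheb17 Fermat.Agent.ES.T56.TWPred17

namespace Fermat.Agent.ES.T56.TWSet3

/-- `Fin.cons` of a new value onto an injective family avoiding it is injective. -/
theorem cons_injective {α : Type*} {m : ℕ} {a : α} {f : Fin m → α} (hf : Function.Injective f)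
    (ha : ∀ i, f i ≠ a) : Function.Injective (Fin.cons a f : Fin (m + 1) → α) := by
  intro i j hij
  induction i using Fin.cases with
  | zero =>
    induction j using Fin.cases with
    | zero => rfl
    | succ j =>
      exfalso
      rw [Fin.cons_zero, Fin.cons_succ] at hij
      exact ha j hij.symm
  | succ i =>
    induction j using Fin.cases with
    | zero =>
      exfalso
      rw [Fin.cons_zero, Fin.cons_succ] at hij
      exact ha i hij
    | succ j =>
      rw [Fin.cons_succ, Fin.cons_succ] at hij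
      rw [hf hij]

section

variable {k : Type} [Field k] (ρbar : ResidualGaloisRep k)
  {F : Type} [Field F] {N : Type} [AddCommGroup N] [Module F N]
  {D : Type} [AddCommGroup D] [Module F D] [FiniteDimensional F D]

/-- **The adaptive induction.**  See the file header. -/
theorem exists_tw_set_aux (p : ℕ) (hp : p.Prime) (n : ℕ)
    (act : GQ →* Module.End F N) (hact : GaloisFactorsThroughFiniteLevel act)
    (cl : D →ₗ[F] (GQ → N))
    (hcoc : ∀ d : D, ∀ σ τ : GQ, cl d (σ * τ) = cl d σ + act σ (cl d τ))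
    (hlev : ∀ d : D, ∃ L : IntermediateField ℚ Qbar, FiniteDimensional ℚ L ∧
      ∀ σ s : GQ, (∀ x ∈ L, s x = x) → cl d (σ * s) = cl d σ)
    (hpad : ∃ g : GQ, (∀ ζ : AlgebraicClosure ℚ, ζ ^ p ^ (n + 1) = 1 → g ζ = ζ) ∧
      ∃ α β : k, α ≠ β ∧ LinearMap.charpoly (ρbar.ρ g) = (X - C α) * (X - C β))
    (hkill : ∀ d : D, d ≠ 0 → ∃ g : GQ,
      (∀ ζ : AlgebraicClosure ℚ, ζ ^ p ^ (n + 1) = 1 → g ζ = ζ) ∧
      (∃ α β : k, α ≠ β ∧ LinearMap.charpoly (ρbar.ρ g) = (X - C α) * (X - C β)) ∧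
      cl d g ∉ LinearMap.range (act g - 1))
    (S : Finset ℕ) (Φ : ℕ → GQ)
    (hΦ : ∀ q : ℕ, q.Prime → q ∉ S → ∃ P : ValuationSubring (AlgebraicClosure ℚ),
      P.LiesOverPrime q ∧ P.IsFrobeniusAt (Φ q) q) :
    ∀ (m : ℕ) (W : Submodule F D), Module.finrank F W ≤ m → ∀ T : Finset ℕ, p ∈ T → S ⊆ T →
      ∃ qv : Fin m → ℕ, Function.Injective qv ∧
        (∀ i, (qv i).Prime ∧ qv i ∉ T ∧ p ^ (n + 1) ∣ qv i - 1) ∧
        (∀ i, ∀ P : ValuationSubring (AlgebraicClosure ℚ), P.LiesOverPrime (qv i) →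
          ∀ φ : AlgebraicClosure ℚ ≃ₐ[ℚ] AlgebraicClosure ℚ, P.IsFrobeniusAt φ (qv i) →
            ∃ α β : k, α ≠ β ∧ LinearMap.charpoly (ρbar.ρ φ) = (X - C α) * (X - C β)) ∧
        ∀ d ∈ W, (∀ i, cl d (Φ (qv i)) ∈ LinearMap.range (act (Φ (qv i)) - 1)) → d = 0 := by
  intro m
  induction m with
  | zero =>
    intro W hW T _ _
    have hbot : W = ⊥ := by
      apply Submodule.finrank_eq_zero.mp
      omega
    refine ⟨Fin.elim0, fun i => i.elim0, fun i => i.elim0, fun i => i.elim0, fun d hd _ => ?_⟩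
    rw [hbot] at hd
    exact (Submodule.mem_bot F).mp hd
  | succ m ih =>
    intro W hW T hpT hST
    -- the new prime `q` and the subspace `W'` it leaves
    obtain ⟨q, W', hq, hqT, hqdvd, hqsplit, hW'le, hW'rank, hW'mem⟩ :
        ∃ (q : ℕ) (W' : Submodule F D), q.Prime ∧ q ∉ T ∧ p ^ (n + 1) ∣ q - 1 ∧
          (∀ P : ValuationSubring (AlgebraicClosure ℚ), P.LiesOverPrime q →
            ∀ φ : AlgebraicClosure ℚ ≃ₐ[ℚ] AlgebraicClosure ℚ, P.IsFrobeniusAt φ q →
              ∃ α β : k, α ≠ β ∧ LinearMap.charpoly (ρbar.ρ φ) = (X - C α) * (X - C β)) ∧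
          W' ≤ W ∧ Module.finrank F W' ≤ m ∧
          ∀ d ∈ W, cl d (Φ q) ∈ LinearMap.range (act (Φ q) - 1) → d ∈ W' := by
      by_cases hbot : W = ⊥
      · -- nothing left to kill: fill up with any Taylor–Wiles prime
        obtain ⟨g, hg1, hg2⟩ := hpad
        obtain ⟨q, hq, hqT, hqdvd, hqsplit, -⟩ := exists_tw_prime ρbar p hp n (T : Set ℕ)
          T.finite_toSet (Finset.mem_coe.mpr hpT) (fun _ => True)
          ⟨⊥, inferInstance, fun _ _ _ => Iff.rfl⟩ (fun _ _ _ => trivial) (fun _ _ => trivial)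
          ⟨g, hg1, hg2, trivial⟩
        refine ⟨q, ⊥, hq, fun h => hqT (Finset.mem_coe.mpr h), hqdvd, hqsplit,
          bot_le, ?_, fun d hd _ => ?_⟩
        · rw [finrank_bot]
          exact Nat.zero_le m
        · rwa [hbot] at hd
      · -- a non-zero class `d₀` of `W`, and a prime detecting it
        obtain ⟨d₀, hd₀W, hd₀⟩ := Submodule.exists_mem_ne_zero_of_ne_bot hbot
        obtain ⟨q, hq, hqT, hqdvd, hqsplit, hqdet⟩ := exists_tw_prime_detects ρbar p hp n
          (T : Set ℕ) T.finite_toSet (Finset.mem_coe.mpr hpT) act hact (cl d₀) (hcoc d₀) (hlev d₀)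
          (hkill d₀ hd₀)
        have hqT' : q ∉ T := fun h => hqT (Finset.mem_coe.mpr h)
        obtain ⟨A, hA, hφ⟩ := hΦ q hq (fun h => hqT' (hST h))
        -- evaluation at `φ = Φ q`
        set φ : GQ := Φ q with hφdef
        let ev : D →ₗ[F] N := (LinearMap.proj φ).comp cl
        have hev : ∀ d, ev d = cl d φ := fun _ => rfl
        let W' : Submodule F D := W ⊓ (LinearMap.range (act φ - 1)).comap ev
        have hW'le : W' ≤ W := inf_le_left
        have hd₀W' : d₀ ∉ W' := by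
          intro h
          have h2 : ev d₀ ∈ LinearMap.range (act φ - 1) := h.2
          rw [hev] at h2
          exact hqdet A hA φ hφ h2
        have hlt : W' < W := lt_of_le_of_ne hW'le (fun h => hd₀W' (h ▸ hd₀W))
        have hrank : Module.finrank F W' < Module.finrank F W := Submodule.finrank_lt_finrank_of_lt hlt
        refine ⟨q, W', hq, hqT', hqdvd, hqsplit,
          hW'le, by omega, fun d hd h => ⟨hd, ?_⟩⟩
        show ev d ∈ LinearMap.range (act φ - 1)
        rw [hev]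
        exact h
    -- the remaining primes, outside `T ∪ {q}`
    obtain ⟨qv, hinj, hqv, hsplit, hzero⟩ := ih W' hW'rank (insert q T)
      (Finset.mem_insert_of_mem hpT) (hST.trans (Finset.subset_insert q T))
    refine ⟨Fin.cons q qv, cons_injective hinj (fun i h => (hqv i).2.1 ?_), ?_, ?_, ?_⟩
    · rw [h]
      exact Finset.mem_insert_self q T
    · intro i
      induction i using Fin.cases with
      | zero =>
        rw [Fin.cons_zero]
        exact ⟨hq, hqT, hqdvd⟩
      | succ i =>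
        rw [Fin.cons_succ]
        exact ⟨(hqv i).1, fun h => (hqv i).2.1 (Finset.mem_insert_of_mem h), (hqv i).2.2⟩
    · intro i
      induction i using Fin.cases with
      | zero =>
        rw [Fin.cons_zero]
        exact hqsplit
      | succ i =>
        rw [Fin.cons_succ]
        exact hsplit i
    · intro d hd h
      have h0 := h 0
      rw [Fin.cons_zero] at h0
      refine hzero d (hW'mem d hd h0) (fun i => ?_)
      have hi := h i.succ
      rw [Fin.cons_succ] at hi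
      exact hi

/-- **The Taylor–Wiles set** (`TWSet`), strongest form: `Φ` is any choice of a Frobenius element at
every prime outside `S`; there are `r ≥ dim_F D` pairwise distinct Taylor–Wiles primes `qv i`
outside `S ∋ p` such that a class `d : D` whose cocycle is locally trivial at every `Φ (qv i)` (that
is `cl d (Φ (qv i)) ∈ (Φ (qv i) - 1) N`) vanishes. -/
theorem exists_tw_set_of_frob (p : ℕ) (hp : p.Prime) (n : ℕ) (S : Finset ℕ) (hpS : p ∈ S)
    (act : GQ →* Module.End F N) (hact : GaloisFactorsThroughFiniteLevel act)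
    (cl : D →ₗ[F] (GQ → N))
    (hcoc : ∀ d : D, ∀ σ τ : GQ, cl d (σ * τ) = cl d σ + act σ (cl d τ))
    (hlev : ∀ d : D, ∃ L : IntermediateField ℚ Qbar, FiniteDimensional ℚ L ∧
      ∀ σ s : GQ, (∀ x ∈ L, s x = x) → cl d (σ * s) = cl d σ)
    (hpad : ∃ g : GQ, (∀ ζ : AlgebraicClosure ℚ, ζ ^ p ^ (n + 1) = 1 → g ζ = ζ) ∧
      ∃ α β : k, α ≠ β ∧ LinearMap.charpoly (ρbar.ρ g) = (X - C α) * (X - C β))
    (hkill : ∀ d : D, d ≠ 0 → ∃ g : GQ,
      (∀ ζ : AlgebraicClosure ℚ, ζ ^ p ^ (n + 1) = 1 → g ζ = ζ) ∧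
      (∃ α β : k, α ≠ β ∧ LinearMap.charpoly (ρbar.ρ g) = (X - C α) * (X - C β)) ∧
      cl d g ∉ LinearMap.range (act g - 1))
    (Φ : ℕ → GQ)
    (hΦ : ∀ q : ℕ, q.Prime → q ∉ S → ∃ P : ValuationSubring (AlgebraicClosure ℚ),
      P.LiesOverPrime q ∧ P.IsFrobeniusAt (Φ q) q)
    (r : ℕ) (hr : Module.finrank F D ≤ r) :
    ∃ qv : Fin r → ℕ, Function.Injective qv ∧
      (∀ i, (qv i).Prime ∧ qv i ∉ S ∧ p ^ (n + 1) ∣ qv i - 1) ∧
      (∀ i, ∀ P : ValuationSubring (AlgebraicClosure ℚ), P.LiesOverPrime (qv i) →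
        ∀ φ : AlgebraicClosure ℚ ≃ₐ[ℚ] AlgebraicClosure ℚ, P.IsFrobeniusAt φ (qv i) →
          ∃ α β : k, α ≠ β ∧ LinearMap.charpoly (ρbar.ρ φ) = (X - C α) * (X - C β)) ∧
      ∀ d : D, (∀ i, cl d (Φ (qv i)) ∈ LinearMap.range (act (Φ (qv i)) - 1)) → d = 0 := by
  obtain ⟨qv, hinj, hqv, hsplit, hzero⟩ := exists_tw_set_aux ρbar p hp n act hact cl hcoc
    hlev hpad hkill S Φ hΦ r ⊤ (by rw [finrank_top]; exact hr) S hpS (Finset.Subset.refl S)
  exact ⟨qv, hinj, hqv, hsplit, fun d h => hzero d Submodule.mem_top h⟩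

/-- **The Taylor–Wiles set**, with Frobenius elements `φv i` chosen by the theorem. -/
theorem exists_tw_set (p : ℕ) (hp : p.Prime) (n : ℕ) (S : Finset ℕ) (hpS : p ∈ S)
    (act : GQ →* Module.End F N) (hact : GaloisFactorsThroughFiniteLevel act)
    (cl : D →ₗ[F] (GQ → N))
    (hcoc : ∀ d : D, ∀ σ τ : GQ, cl d (σ * τ) = cl d σ + act σ (cl d τ))
    (hlev : ∀ d : D, ∃ L : IntermediateField ℚ Qbar, FiniteDimensional ℚ L ∧
      ∀ σ s : GQ, (∀ x ∈ L, s x = x) → cl d (σ * s) = cl d σ)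
    (hpad : ∃ g : GQ, (∀ ζ : AlgebraicClosure ℚ, ζ ^ p ^ (n + 1) = 1 → g ζ = ζ) ∧
      ∃ α β : k, α ≠ β ∧ LinearMap.charpoly (ρbar.ρ g) = (X - C α) * (X - C β))
    (hkill : ∀ d : D, d ≠ 0 → ∃ g : GQ,
      (∀ ζ : AlgebraicClosure ℚ, ζ ^ p ^ (n + 1) = 1 → g ζ = ζ) ∧
      (∃ α β : k, α ≠ β ∧ LinearMap.charpoly (ρbar.ρ g) = (X - C α) * (X - C β)) ∧
      cl d g ∉ LinearMap.range (act g - 1))
    (r : ℕ) (hr : Module.finrank F D ≤ r) :
    ∃ qv : Fin r → ℕ, Function.Injective qv ∧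
      (∀ i, (qv i).Prime ∧ qv i ∉ S ∧ p ^ (n + 1) ∣ qv i - 1) ∧
      (∀ i, ∀ P : ValuationSubring (AlgebraicClosure ℚ), P.LiesOverPrime (qv i) →
        ∀ φ : AlgebraicClosure ℚ ≃ₐ[ℚ] AlgebraicClosure ℚ, P.IsFrobeniusAt φ (qv i) →
          ∃ α β : k, α ≠ β ∧ LinearMap.charpoly (ρbar.ρ φ) = (X - C α) * (X - C β)) ∧
      ∃ φv : Fin r → GQ,
        (∀ i, ∃ P : ValuationSubring (AlgebraicClosure ℚ), P.LiesOverPrime (qv i) ∧
          P.IsFrobeniusAt (φv i) (qv i)) ∧
        ∀ d : D, (∀ i, cl d (φv i) ∈ LinearMap.range (act (φv i) - 1)) → d = 0 := by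
  classical
  -- a Frobenius element at every prime
  have hex : ∀ q : ℕ, ∃ φ : GQ, q.Prime → ∃ P : ValuationSubring (AlgebraicClosure ℚ),
      P.LiesOverPrime q ∧ P.IsFrobeniusAt φ q := by
    intro q
    by_cases hq : q.Prime
    · obtain ⟨A, hA⟩ : ∃ A : ValuationSubring Qbar, A.LiesOverPrime q :=
        exists_valuationSubring_liesOverPrime q hq
      obtain ⟨φ, hφ⟩ := Fermat.Agent.ES.FROB.FrobFacts12.exists_isFrobeniusAt_of q hq A hA
      exact ⟨φ, fun _ => ⟨A, hA, hφ⟩⟩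
    · exact ⟨1, fun h => absurd h hq⟩
  choose Φ hΦ using hex
  obtain ⟨qv, hinj, hqv, hsplit, hzero⟩ := exists_tw_set_of_frob ρbar p hp n S hpS act hact cl hcoc
    hlev hpad hkill Φ (fun q hq _ => hΦ q hq) r hr
  exact ⟨qv, hinj, hqv, hsplit, fun i => Φ (qv i), fun i => hΦ (qv i) (hqv i).1, hzero⟩

/-- **The Taylor–Wiles set**, "all Frobenius elements" form of the last clause. -/
theorem exists_tw_set_forall (p : ℕ) (hp : p.Prime) (n : ℕ) (S : Finset ℕ) (hpS : p ∈ S)
    (act : GQ →* Module.End F N) (hact : GaloisFactorsThroughFiniteLevel act)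
    (cl : D →ₗ[F] (GQ → N))
    (hcoc : ∀ d : D, ∀ σ τ : GQ, cl d (σ * τ) = cl d σ + act σ (cl d τ))
    (hlev : ∀ d : D, ∃ L : IntermediateField ℚ Qbar, FiniteDimensional ℚ L ∧
      ∀ σ s : GQ, (∀ x ∈ L, s x = x) → cl d (σ * s) = cl d σ)
    (hpad : ∃ g : GQ, (∀ ζ : AlgebraicClosure ℚ, ζ ^ p ^ (n + 1) = 1 → g ζ = ζ) ∧
      ∃ α β : k, α ≠ β ∧ LinearMap.charpoly (ρbar.ρ g) = (X - C α) * (X - C β))
    (hkill : ∀ d : D, d ≠ 0 → ∃ g : GQ,
      (∀ ζ : AlgebraicClosure ℚ, ζ ^ p ^ (n + 1) = 1 → g ζ = ζ) ∧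
      (∃ α β : k, α ≠ β ∧ LinearMap.charpoly (ρbar.ρ g) = (X - C α) * (X - C β)) ∧
      cl d g ∉ LinearMap.range (act g - 1))
    (r : ℕ) (hr : Module.finrank F D ≤ r) :
    ∃ qv : Fin r → ℕ, Function.Injective qv ∧
      (∀ i, (qv i).Prime ∧ qv i ∉ S ∧ p ^ (n + 1) ∣ qv i - 1) ∧
      (∀ i, ∀ P : ValuationSubring (AlgebraicClosure ℚ), P.LiesOverPrime (qv i) →
        ∀ φ : AlgebraicClosure ℚ ≃ₐ[ℚ] AlgebraicClosure ℚ, P.IsFrobeniusAt φ (qv i) →
          ∃ α β : k, α ≠ β ∧ LinearMap.charpoly (ρbar.ρ φ) = (X - C α) * (X - C β)) ∧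
      ∀ d : D, (∀ i, ∀ P : ValuationSubring (AlgebraicClosure ℚ), P.LiesOverPrime (qv i) →
        ∀ φ : AlgebraicClosure ℚ ≃ₐ[ℚ] AlgebraicClosure ℚ, P.IsFrobeniusAt φ (qv i) →
          cl d φ ∈ LinearMap.range (act φ - 1)) → d = 0 := by
  obtain ⟨qv, hinj, hqv, hsplit, φv, hφv, hzero⟩ := exists_tw_set ρbar p hp n S hpS act hact cl hcoc
    hlev hpad hkill r hr
  refine ⟨qv, hinj, hqv, hsplit, fun d h => hzero d (fun i => ?_)⟩
  obtain ⟨P, hP, hφ⟩ := hφv i
  exact h i P hP (φv i) hφ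

end

end Fermat.Agent.ES.T56.TWSet3
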