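/-
Programme T (S56, Taylor–Wiles primes), TW chapter (helper3): **the Taylor–Wiles set for the dual
Selmer group** — assembly of `TWSet3` (adaptive induction), `TWKillAbs3` (detection lemma),
`TWHyp*3` (consequences of `habs`, `hTW`, `hsplit`, `hdet`) — modulo the group-theoretic vanishing
(GT), which enters as the hypothesis `hGT` (discharged in `TWKill3` from helper19's chapter).

The coefficient module `N` of the dual Selmer group is ANY `F`-vector space (`F` a field, e.g.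
`F = 𝔽_p` or `F = k`) with an `F`-linear action `act` of `Gal(ℚ̄/ℚ)`, identified with the concrete model
`(sl₂(k), twAct R)` of `ad⁰ρ̄(1)` by an equivariant ADDITIVE bijection `e` (for
`N = Hom_{𝔽_p}(ad⁰ρ̄, 𝔽_p)(1)`: the trace form composed with `Tr_{k/𝔽_p}`).
-/
import Mathlib
import Fermat.Agent.ES.T56.TWHypFix3
import Fermat.Agent.ES.T56.TWSet3

set_option autoImplicit false
set_option linter.unusedSectionVars false
set_option linter.style.haveILetI false

open Polynomial Matrix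

namespace Fermat.Agent.ES.T56.TWMain3

open Fermat.Agent.ES.T56.TWHypAd3 Fermat.Agent.ES.T56.TWPred17 Fermat.Agent.ES.T56.TWHypF1_3
  Fermat.Agent.ES.T56.TWKillAbs3 Fermat.Agent.ES.T56.TWHypFix3 Fermat.Agent.ES.T56.TWSet3

variable {k : Type} [Field k] (ρbar : ResidualGaloisRep k)
  (R : GQ →* Matrix (Fin 2) (Fin 2) k) (b : Module.Basis (Fin 2) k ρbar.V)
  (hR : ∀ σ, R σ = LinearMap.toMatrix b b (ρbar.ρ σ))
  {F : Type} [Field F] {N : Type} [AddCommGroup N] [Module F N]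
  {D : Type} [AddCommGroup D] [Module F D] [FiniteDimensional F D]

/-- The group-theoretic vanishing (GT) in Galois form, for the level `n`: a `1`-cocycle with values
in `ad⁰ρ̄(1)` which vanishes on the fixer of `F_n = ℚ(ρ̄, ζ_{p^(n+1)})` is a coboundary. -/
def GTVanishing (p n : ℕ) : Prop :=
  ∀ c : GQ → sl2 k, (∀ σ τ : GQ, c (σ * τ) = c σ + twAct R σ (c τ)) →
    (∀ h ∈ fixer ρbar (p ^ (n + 1)), c h = 0) → ∃ m : sl2 k, ∀ σ : GQ, c σ = twAct R σ m - m

include hR in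
/-- **`TWKill`** for a coefficient module identified with `ad⁰ρ̄(1)`: a cocycle which is not a
coboundary is detected by some `g` fixing the `p ^ (n + 1)`-th roots of unity with split distinct
eigenvalues on `ρ̄`. -/
theorem exists_tw_witness_of_equiv (p : ℕ) (hp : p.Prime) (n : ℕ) (h2 : (2 : k) ≠ 0)
    (habs : ρbar.IsAbsolutelyIrreducible)
    (hdet : (GaloisRepAdic.ofResidualGaloisRep ρbar).DetIsCyclotomic p)
    (hsplit : ∀ σ : GQ, ∃ α β : k, LinearMap.charpoly (ρbar.ρ σ) = (X - C α) * (X - C β))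
    (hTW : ∀ (K : Type) [Field K] [Algebra k K] (G : Subgroup GQ), G.index = 2 →
      ∀ V : Submodule K (ρbar.baseChange K).V,
        (∀ σ ∈ G, ∀ x ∈ V, (ρbar.baseChange K).ρ σ x ∈ V) → V = ⊥ ∨ V = ⊤)
    (hGT : GTVanishing ρbar R p n)
    (act : GQ →* Module.End F N) (e : N ≃+ sl2 k)
    (he : ∀ (σ : GQ) (x : N), e (act σ x) = twAct R σ (e x))
    (c : GQ → N) (hc : ∀ σ τ : GQ, c (σ * τ) = c σ + act σ (c τ))
    (hncob : ¬ ∃ m : N, ∀ σ : GQ, c σ = act σ m - m) :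
    ∃ g : GQ, (∀ ζ : AlgebraicClosure ℚ, ζ ^ p ^ (n + 1) = 1 → g ζ = ζ) ∧
      (∃ α β : k, α ≠ β ∧ LinearMap.charpoly (ρbar.ρ g) = (X - C α) * (X - C β)) ∧
      c g ∉ LinearMap.range (act g - 1) := by
  -- the transported cocycle
  set c' : GQ → sl2 k := fun σ => e (c σ) with hc'
  have hc'coc : ∀ σ τ : GQ, c' (σ * τ) = c' σ + twAct R σ (c' τ) := by
    intro σ τ
    show e (c (σ * τ)) = e (c σ) + twAct R σ (e (c τ))
    rw [hc σ τ, map_add, he]
  have hnz : ∃ h ∈ fixer ρbar (p ^ (n + 1)), c' h ≠ 0 := by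
    by_contra hcon
    push Not at hcon
    obtain ⟨m, hm⟩ := hGT c' hc'coc hcon
    apply hncob
    refine ⟨e.symm m, fun σ => ?_⟩
    apply e.injective
    rw [map_sub, he, AddEquiv.apply_symm_apply]
    exact hm σ
  obtain ⟨g, hg1, hg2, hg3⟩ := exists_tw_witness_twAct ρbar R b hR p hp n h2 habs hdet hsplit hTW
    c' hc'coc hnz
  refine ⟨g, hg1, hg2, fun hmem => hg3 ?_⟩
  obtain ⟨x, hx⟩ := hmem
  refine ⟨e x, ?_⟩
  rw [LinearMap.sub_apply, Module.End.one_apply] at hx ⊢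
  show twAct R g (e x) - e x = e (c g)
  rw [← he, ← map_sub, hx]

include hR in
/-- The action on a module identified with `ad⁰ρ̄(1)` is of finite level. -/
theorem act_finiteLevel (act : GQ →* Module.End F N) (e : N ≃+ sl2 k)
    (he : ∀ (σ : GQ) (x : N), e (act σ x) = twAct R σ (e x)) :
    GaloisFactorsThroughFiniteLevel act := by
  obtain ⟨L, hL, h1⟩ := ρbar.factorsThroughFiniteLevel
  refine ⟨L, hL, fun σ hσ => ?_⟩
  apply LinearMap.ext
  intro x
  apply e.injective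
  rw [he, twAct_eq_one R (R_eq_one_of_rho ρbar R b hR (h1 σ hσ))]
  rfl

include hR in
/-- **The Taylor–Wiles set for the dual Selmer group** (`TWSet`, final form).  `D` is a
finite-dimensional `F`-vector space of classes with an `F`-linear choice `cl` of representing
cocycles of finite level, none of which is a coboundary for `d ≠ 0`; `Φ` is any choice of Frobenius
elements.  For every `r ≥ dim_F D` there are `r` distinct Taylor–Wiles primes `qv i ∉ S`,
`qv i ≡ 1 mod p ^ (n + 1)`, such that the only `d : D` with `cl d (Φ (qv i)) ∈ (Φ (qv i) - 1) N` for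
all `i` is `0`. -/
theorem exists_tw_set_main (p : ℕ) (hp : p.Prime) (n : ℕ) (h2 : (2 : k) ≠ 0)
    (habs : ρbar.IsAbsolutelyIrreducible)
    (hdet : (GaloisRepAdic.ofResidualGaloisRep ρbar).DetIsCyclotomic p)
    (hsplit : ∀ σ : GQ, ∃ α β : k, LinearMap.charpoly (ρbar.ρ σ) = (X - C α) * (X - C β))
    (hTW : ∀ (K : Type) [Field K] [Algebra k K] (G : Subgroup GQ), G.index = 2 →
      ∀ V : Submodule K (ρbar.baseChange K).V,
        (∀ σ ∈ G, ∀ x ∈ V, (ρbar.baseChange K).ρ σ x ∈ V) → V = ⊥ ∨ V = ⊤)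
    (hGT : GTVanishing ρbar R p n)
    (S : Finset ℕ) (hpS : p ∈ S)
    (act : GQ →* Module.End F N) (e : N ≃+ sl2 k)
    (he : ∀ (σ : GQ) (x : N), e (act σ x) = twAct R σ (e x))
    (cl : D →ₗ[F] (GQ → N))
    (hcoc : ∀ d : D, ∀ σ τ : GQ, cl d (σ * τ) = cl d σ + act σ (cl d τ))
    (hlev : ∀ d : D, ∃ L : IntermediateField ℚ (AlgebraicClosure ℚ), FiniteDimensional ℚ L ∧
      ∀ σ s : GQ, (∀ x ∈ L, s x = x) → cl d (σ * s) = cl d σ)
    (hncob : ∀ d : D, d ≠ 0 → ¬ ∃ m : N, ∀ σ : GQ, cl d σ = act σ m - m)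
    (Φ : ℕ → GQ)
    (hΦ : ∀ q : ℕ, q.Prime → q ∉ S → ∃ P : ValuationSubring (AlgebraicClosure ℚ),
      P.LiesOverPrime q ∧ P.IsFrobeniusAt (Φ q) q)
    (r : ℕ) (hr : Module.finrank F D ≤ r) :
    ∃ qv : Fin r → ℕ, Function.Injective qv ∧
      (∀ i, (qv i).Prime ∧ qv i ∉ S ∧ p ^ (n + 1) ∣ qv i - 1) ∧
      (∀ i, ∀ P : ValuationSubring (AlgebraicClosure ℚ), P.LiesOverPrime (qv i) →
        ∀ φ : AlgebraicClosure ℚ ≃ₐ[ℚ] AlgebraicClosure ℚ, P.IsFrobeniusAt φ (qv i) →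
          ∃ α β : k, α ≠ β ∧ LinearMap.charpoly (ρbar.ρ φ) = (X - C α) * (X - C β)) ∧
      ∀ d : D, (∀ i, cl d (Φ (qv i)) ∈ LinearMap.range (act (Φ (qv i)) - 1)) → d = 0 := by
  haveI : NeZero (p ^ (n + 1)) := ⟨pow_ne_zero _ hp.ne_zero⟩
  refine exists_tw_set_of_frob ρbar p hp n S hpS act (act_finiteLevel ρbar R b hR act e he) cl hcoc
    hlev ?_ ?_ Φ hΦ r hr
  · exact exists_fixesRoots_splitDistinct ρbar h2 habs hTW hsplit (p ^ (n + 1))
  · intro d hd
    exact exists_tw_witness_of_equiv ρbar R b hR p hp n h2 habs hdet hsplit hTW hGT act e he (cl d)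
      (hcoc d) (hncob d hd)

end Fermat.Agent.ES.T56.TWMain3
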