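/-
Programme T (S56, Taylor–Wiles primes), TW chapter (helper3): **glue with the group-theoretic
vanishing (GT)** of helper19's chapter.

`GTFinite k p` is (the specialisation to `k`, `p`, `Type`-valued groups of) the export
`GTMain19.h1_vanish`: for a finite group `𝒢` with `r : 𝒢 →* GL₂(k)` such that `det r` is onto
`μ_{p-1}(k)`, `hsplit`, no common eigenvector of `{det r = 1}`, `ker r` central and no twisted
invariant, every cocycle `c : 𝒢 → sl₂(k)` for `act (r x) m = det (r x) • (r x) m (r x)⁻¹` is a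
coboundary.

`gtVanishing_of_gtFinite` : `GTFinite k p` ⇒ `TWMain3.GTVanishing ρbar R p n` for every `n`.
The finite group is the image `𝒢 ⊂ GL₂(k) × (ℤ/p^(n+1))ˣ` of `σ ↦ (R σ, χ_{p^(n+1)}(σ))`, whose kernel
is the fixer of `F_n = ℚ(ρ̄, ζ_{p^(n+1)})`; a cocycle of `Gal(ℚ̄/ℚ)` vanishing on the fixer descends to
`𝒢`.  The hypotheses of GT are supplied by `TWDetChi3` (`hdet`, `hdetsurj`), `TWIrrDetOne3` (`hirr`,
`hinv`), `hsplit`, and commutativity of `(ℤ/p^(n+1))ˣ` (`hker`).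
-/
import Mathlib
import Fermat.Agent.ES.T56.TWMain3
import Fermat.Agent.ES.T56.TWDetChi3
import Fermat.Agent.ES.T56.TWIrrDetOne3
import Fermat.Agent.ES.T56.GTDefs19

set_option autoImplicit false
set_option linter.unusedSectionVars false
set_option linter.style.haveILetI false

open Polynomial Matrix

namespace Fermat.Agent.ES.T56.TWKill3

open Fermat.Agent.ES.T56.TWHypAd3 Fermat.Agent.ES.T56.TWPred17 Fermat.Agent.ES.T56.TWKillAbs3
  Fermat.Agent.ES.T56.TWHypFix3 Fermat.Agent.ES.T56.TWMain3 Fermat.Agent.ES.T56.TWDetChi3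
  Fermat.Agent.ES.T56.TWIrrDetOne3 Fermat.Agent.ES.T56.GTDefs19 Fermat.Agent.ES.R48.ModCyclo13

/-- The export of the GT chapter (`GTMain19.h1_vanish`), specialised to `k`, `p`. -/
def GTFinite (k : Type) [Field k] (p : ℕ) : Prop :=
  ∀ {𝒢 : Type} [Group 𝒢] [Finite 𝒢] (r : 𝒢 →* GL (Fin 2) k),
    (∀ x : 𝒢, (r x).1.det ^ (p - 1) = 1) →
    (∀ a : k, a ^ (p - 1) = 1 → ∃ x : 𝒢, (r x).1.det = a) →
    (∀ x : 𝒢, ∃ α β : k, (r x).1.charpoly = (X - C α) * (X - C β)) →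
    (∀ v : Fin 2 → k, v ≠ 0 → ∃ x : 𝒢, (r x).1.det = 1 ∧ ∀ a : k, (r x).1 *ᵥ v ≠ a • v) →
    (∀ x : 𝒢, r x = 1 → ∀ y : 𝒢, y * x = x * y) →
    (∀ m : Matrix (Fin 2) (Fin 2) k, m.trace = 0 → (∀ x, act (r x) m = m) → m = 0) →
    ∀ c : 𝒢 → Matrix (Fin 2) (Fin 2) k, (∀ x, (c x).trace = 0) →
      (∀ x y, c (x * y) = c x + act (r x) (c y)) →
      ∃ m : Matrix (Fin 2) (Fin 2) k, m.trace = 0 ∧ ∀ x, c x = act (r x) m - m

section

variable {k : Type} [Field k] (ρbar : ResidualGaloisRep k)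
  (R : GQ →* Matrix (Fin 2) (Fin 2) k) (b : Module.Basis (Fin 2) k ρbar.V)
  (hR : ∀ σ, R σ = LinearMap.toMatrix b b (ρbar.ρ σ))

/-- `R` with values in `GL₂(k)`. -/
noncomputable def RGL : GQ →* GL (Fin 2) k := R.toHomUnits

theorem RGL_val (σ : GQ) : (RGL R σ).1 = R σ := rfl

theorem RGL_inv_val (σ : GQ) : ((RGL R σ)⁻¹ : GL (Fin 2) k).1 = R σ⁻¹ := by
  rw [← map_inv]
  rfl

theorem act_RGL (σ : GQ) (m : Matrix (Fin 2) (Fin 2) k) :
    act (RGL R σ) m = (R σ).det • (R σ * m * R σ⁻¹) := by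
  unfold act
  rw [RGL_inv_val, RGL_val]

include hR in
theorem rho_eq_one_of_R {σ : GQ} (h : R σ = 1) : ρbar.ρ σ = 1 := by
  apply (LinearMap.toMatrix b b).injective
  rw [← hR, h, LinearMap.toMatrix_one]

/-- The homomorphism `σ ↦ (R σ, χ_m(σ))`. -/
noncomputable def Psi (m : ℕ) [NeZero m] : GQ →* GL (Fin 2) k × (ZMod m)ˣ :=
  (RGL R).prod (chiMod m)

theorem Psi_apply (m : ℕ) [NeZero m] (σ : GQ) : Psi R m σ = (RGL R σ, chiMod m σ) := rfl

include hR in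
/-- Elements with the same image under `Psi` differ by an element of the fixer. -/
theorem inv_mul_mem_fixer (m : ℕ) [NeZero m] {σ σ' : GQ} (h : Psi R m σ = Psi R m σ') :
    σ⁻¹ * σ' ∈ fixer ρbar m := by
  have h1 : Psi R m (σ⁻¹ * σ') = 1 := by rw [map_mul, map_inv, h, inv_mul_cancel]
  rw [Psi_apply, Prod.mk_eq_one] at h1
  refine ⟨rho_eq_one_of_R ρbar R b hR ?_, (fixesRoots_iff_chiMod m _).mpr h1.2⟩
  have := congrArg Units.val h1.1
  exact this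

include hR in
/-- A cocycle vanishing on the fixer is constant on the fibres of `Psi`. -/
theorem cocycle_const_on_fibres (m : ℕ) [NeZero m] (c : GQ → sl2 k)
    (hc : ∀ σ τ : GQ, c (σ * τ) = c σ + twAct R σ (c τ))
    (hvan : ∀ h ∈ fixer ρbar m, c h = 0) {σ σ' : GQ} (h : Psi R m σ = Psi R m σ') :
    c σ = c σ' := by
  have e : σ' = σ * (σ⁻¹ * σ') := by group
  rw [e, hc, hvan _ (inv_mul_mem_fixer ρbar R b hR m h), map_zero, add_zero]

include hR in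
/-- **(GT) in Galois form from (GT) for finite groups.** -/
theorem gtVanishing_of_gtFinite [Finite k] (p : ℕ) [hp : Fact p.Prime] (hp2 : p ≠ 2)
    (habs : ρbar.IsAbsolutelyIrreducible)
    (hdet : (GaloisRepAdic.ofResidualGaloisRep ρbar).DetIsCyclotomic p)
    (hsplit : ∀ σ : GQ, ∃ α β : k, LinearMap.charpoly (ρbar.ρ σ) = (X - C α) * (X - C β))
    (hTW : ∀ (K : Type) [Field K] [Algebra k K] (G : Subgroup GQ), G.index = 2 →
      ∀ V : Submodule K (ρbar.baseChange K).V,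
        (∀ σ ∈ G, ∀ x ∈ V, (ρbar.baseChange K).ρ σ x ∈ V) → V = ⊥ ∨ V = ⊤)
    (hGT : GTFinite k p) (n : ℕ) : GTVanishing ρbar R p n := by
  classical
  intro c hc hvan
  haveI : NeZero (p ^ (n + 1)) := ⟨pow_ne_zero _ hp.out.ne_zero⟩
  have h2 : (2 : k) ≠ 0 := two_ne_zero_of_hdet ρbar p hdet hp2
  set m := p ^ (n + 1) with hm
  -- the finite group
  let 𝒢 : Subgroup (GL (Fin 2) k × (ZMod m)ˣ) := (Psi R m).range
  let π : GQ →* 𝒢 := (Psi R m).rangeRestrict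
  have hπsurj : Function.Surjective π := (Psi R m).rangeRestrict_surjective
  have hπ : ∀ σ : GQ, ((π σ : 𝒢) : GL (Fin 2) k × (ZMod m)ˣ) = Psi R m σ := fun σ => rfl
  let r : 𝒢 →* GL (Fin 2) k := (MonoidHom.fst _ _).comp 𝒢.subtype
  have hr : ∀ σ : GQ, r (π σ) = RGL R σ := fun σ => rfl
  have hdetR : ∀ σ : GQ, (R σ).det = LinearMap.det (ρbar.ρ σ) := by
    intro σ
    rw [hR, LinearMap.det_toMatrix b]
  -- the descended cocycle
  let s : 𝒢 → GQ := Function.surjInv hπsurj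
  have hs : ∀ x : 𝒢, π (s x) = x := Function.surjInv_eq hπsurj
  have hfib : ∀ σ σ' : GQ, π σ = π σ' → c σ = c σ' := by
    intro σ σ' h
    apply cocycle_const_on_fibres ρbar R b hR m c hc hvan
    rw [← hπ, ← hπ, h]
  let cbar : 𝒢 → Matrix (Fin 2) (Fin 2) k := fun x => (c (s x) : Matrix (Fin 2) (Fin 2) k)
  have hcbar : ∀ σ : GQ, cbar (π σ) = (c σ : Matrix (Fin 2) (Fin 2) k) := by
    intro σ
    show (c (s (π σ)) : Matrix (Fin 2) (Fin 2) k) = c σ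
    rw [hfib (s (π σ)) σ (hs _)]
  have g1 : ∀ x : 𝒢, (r x).1.det ^ (p - 1) = 1 := by
    intro x
    obtain ⟨σ, rfl⟩ := hπsurj x
    rw [hr, RGL_val, hdetR]
    exact det_pow_sub_one ρbar p hdet σ
  have g2 : ∀ a : k, a ^ (p - 1) = 1 → ∃ x : 𝒢, (r x).1.det = a := by
    intro a ha
    obtain ⟨σ, hσ⟩ := exists_det_eq ρbar p hdet a ha
    exact ⟨π σ, by rw [hr, RGL_val, hdetR, hσ]⟩
  have g3 : ∀ x : 𝒢, ∃ α β : k, (r x).1.charpoly = (X - C α) * (X - C β) := by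
    intro x
    obtain ⟨σ, rfl⟩ := hπsurj x
    obtain ⟨α, β, h⟩ := hsplit σ
    refine ⟨α, β, ?_⟩
    rw [hr, RGL_val, hR, LinearMap.charpoly_toMatrix]
    exact h
  have g4 : ∀ v : Fin 2 → k, v ≠ 0 →
      ∃ x : 𝒢, (r x).1.det = 1 ∧ ∀ a : k, (r x).1 *ᵥ v ≠ a • v := by
    intro v hv
    obtain ⟨σ, h1, h3⟩ := exists_det_one_not_eigen ρbar R b hR h2 habs hTW v hv
    exact ⟨π σ, by rw [hr, RGL_val]; exact h1, by rw [hr, RGL_val]; exact h3⟩
  have g5 : ∀ x : 𝒢, r x = 1 → ∀ y : 𝒢, y * x = x * y := by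
    intro x hx y
    apply Subtype.ext
    apply Prod.ext
    · show (y : GL (Fin 2) k × (ZMod m)ˣ).1 * (x : GL (Fin 2) k × (ZMod m)ˣ).1 =
        (x : GL (Fin 2) k × (ZMod m)ˣ).1 * (y : GL (Fin 2) k × (ZMod m)ˣ).1
      have hx1 : (x : GL (Fin 2) k × (ZMod m)ˣ).1 = 1 := hx
      rw [hx1, mul_one, one_mul]
    · exact mul_comm _ _
  have g6 : ∀ m₁ : Matrix (Fin 2) (Fin 2) k, m₁.trace = 0 → (∀ x : 𝒢, act (r x) m₁ = m₁) →
      m₁ = 0 := by
    intro m₁ hm₁ hinv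
    apply no_twisted_invariant ρbar R b hR h2 habs hTW m₁ hm₁
    intro σ
    have h1 := hinv (π σ)
    rwa [hr, act_RGL] at h1
  have g7 : ∀ x : 𝒢, (cbar x).trace = 0 := fun x => mem_sl2.mp (c (s x)).2
  have g8 : ∀ x y : 𝒢, cbar (x * y) = cbar x + act (r x) (cbar y) := by
    intro x y
    have h1 : c (s (x * y)) = c (s x * s y) := by
      apply hfib
      rw [hs, map_mul, hs, hs]
    show (c (s (x * y)) : Matrix (Fin 2) (Fin 2) k) = (c (s x) : Matrix (Fin 2) (Fin 2) k) +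
      act (r x) (c (s y) : Matrix (Fin 2) (Fin 2) k)
    rw [h1, hc, Submodule.coe_add, twAct_coe]
    have h3 : r x = RGL R (s x) := by rw [← hr, hs]
    rw [h3, act_RGL]
  obtain ⟨m₀, hm₀tr, hm₀⟩ := hGT (𝒢 := 𝒢) r g1 g2 g3 g4 g5 g6 cbar g7 g8
  refine ⟨⟨m₀, mem_sl2.mpr hm₀tr⟩, fun σ => ?_⟩
  apply Subtype.ext
  have h1 := hm₀ (π σ)
  rw [hcbar, hr, act_RGL] at h1
  rw [h1]
  show _ = ((twAct R σ ⟨m₀, mem_sl2.mpr hm₀tr⟩ : sl2 k) : Matrix (Fin 2) (Fin 2) k) - m₀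
  rw [twAct_coe]

include hR in
/-- **The Taylor–Wiles set for the dual Selmer group, from S56's literal hypotheses and (GT).**
See `TWMain3.exists_tw_set_main`; the only remaining input is `GTFinite k p`
(`GTMain19.h1_vanish`). -/
theorem exists_tw_set_final [Finite k] (p : ℕ) [hp : Fact p.Prime] (hp2 : p ≠ 2)
    (habs : ρbar.IsAbsolutelyIrreducible)
    (hdet : (GaloisRepAdic.ofResidualGaloisRep ρbar).DetIsCyclotomic p)
    (hsplit : ∀ σ : GQ, ∃ α β : k, LinearMap.charpoly (ρbar.ρ σ) = (X - C α) * (X - C β))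
    (hTW : ∀ (K : Type) [Field K] [Algebra k K] (G : Subgroup GQ), G.index = 2 →
      ∀ V : Submodule K (ρbar.baseChange K).V,
        (∀ σ ∈ G, ∀ x ∈ V, (ρbar.baseChange K).ρ σ x ∈ V) → V = ⊥ ∨ V = ⊤)
    (hGT : GTFinite k p) (n : ℕ) (S : Finset ℕ) (hpS : p ∈ S)
    {F : Type} [Field F] {N : Type} [AddCommGroup N] [Module F N]
    {D : Type} [AddCommGroup D] [Module F D] [FiniteDimensional F D]
    (act : GQ →* Module.End F N) (e : N ≃+ sl2 k)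
    (he : ∀ (σ : GQ) (x : N), e (act σ x) = twAct R σ (e x))
    (cl : D →ₗ[F] (GQ → N))
    (hcoc : ∀ d : D, ∀ σ τ : GQ, cl d (σ * τ) = cl d σ + act σ (cl d τ))
    (hlev : ∀ d : D, ∃ L : IntermediateField ℚ (AlgebraicClosure ℚ), FiniteDimensional ℚ L ∧
      ∀ σ s : GQ, (∀ x ∈ L, s x = x) → cl d (σ * s) = cl d σ)
    (hncob : ∀ d : D, d ≠ 0 → ¬ ∃ m : N, ∀ σ : GQ, cl d σ = act σ m - m)
    (Φ : ℕ → GQ)
    (hΦ : ∀ q : ℕ, q.Prime → q ∉ S → ∃ P : ValuationSubring (AlgebraicClosure ℚ),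
      P.LiesOverPrime q ∧ P.IsFrobeniusAt (Φ q) q)
    (r : ℕ) (hr : Module.finrank F D ≤ r) :
    ∃ qv : Fin r → ℕ, Function.Injective qv ∧
      (∀ i, (qv i).Prime ∧ qv i ∉ S ∧ p ^ (n + 1) ∣ qv i - 1) ∧
      (∀ i, ∀ P : ValuationSubring (AlgebraicClosure ℚ), P.LiesOverPrime (qv i) →
        ∀ φ : AlgebraicClosure ℚ ≃ₐ[ℚ] AlgebraicClosure ℚ, P.IsFrobeniusAt φ (qv i) →
          ∃ α β : k, α ≠ β ∧ LinearMap.charpoly (ρbar.ρ φ) = (X - C α) * (X - C β)) ∧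
      ∀ d : D, (∀ i, cl d (Φ (qv i)) ∈ LinearMap.range (act (Φ (qv i)) - 1)) → d = 0 :=
  exists_tw_set_main ρbar R b hR p hp.out n (two_ne_zero_of_hdet ρbar p hdet hp2) habs hdet hsplit
    hTW (gtVanishing_of_gtFinite ρbar R b hR p hp2 habs hdet hsplit hTW hGT n) S hpS act e he cl
    hcoc hlev hncob Φ hΦ r hr

end

end Fermat.Agent.ES.T56.TWKill3
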