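/-
Programme T (S56, Taylor–Wiles primes), TW chapter (helper3): **glue between the Taylor–Wiles set
(`TWKill3.exists_tw_set_final`) and the dual Selmer group of the GW contract (`GWIface21`).**

Part 1 (`Abstract`, any field `F`, any `N : Rep F G_ℚ`):
* `exists_cocycle_section` : a submodule `D ≤ continuousH1S Sg N` of `H1 N` has an `F`-LINEAR section
  `s : D → cocycles₁ N` of `H1π` with level-constant values;
* `not_coboundary_of_ne_zero` : `s d` is not a coboundary for `d ≠ 0`;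
* `mem_range_of_map_eq_zero` : if the restriction of `[c]` along `ι : H →* G_ℚ` vanishes then
  `c (ι γ) ∈ (ι γ - 1) N` for every `γ : H`.

Part 2 (`GW`): for `M : Rep (ZMod p) G_ℚ`, `P : LocPairing p M`, and `D = dualSel P Sg L`:
* `exists_cl_dualSel` : the cocycle section `cl` of `D` in the exact shape consumed by
  `exists_tw_set_final`, together with the consequence of `DualSelMono`: every class of
  `dualSel P Sg' L'` (`L'` extending `L` by `⊤`) is some `d : D` with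
  `cl d (ι_q γ) ∈ (ι_q γ - 1) N` for every new prime `q` and every `γ` in the local Galois group;
* **`exists_tw_set_dualSel`** : the EXPORT of the TW chapter — `r := dim_{𝔽_p} D` and for every `n` a
  set of `r` Taylor–Wiles primes of level `n` such that `dualSel P Sg' L' = ⊥` for every
  `(Sg', L')` extending `(Sg, L)` by `⊤` at a set of primes containing them.
  Inputs: S56's literal hypotheses, `GTFinite k p` (GT chapter), an equivariant additive bijection
  `e : dualT p M ≃+ sl₂(k)` (`TWDualIso3`), and local Frobenius elements (`hloc`, from `LocSurj16`).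
-/
import Mathlib
import Fermat.Agent.ES.T56.GWIface21
import Fermat.Agent.ES.T56.TWKill3

set_option autoImplicit false
set_option linter.unusedSectionVars false
set_option linter.style.haveILetI false

open CategoryTheory groupCohomology ExtCitation Polynomial

namespace Fermat.Agent.ES.T56.TWGlue3

open Fermat.Agent.ES.T56.TWHypAd3 Fermat.Agent.ES.T56.TWHypFix3 Fermat.Agent.ES.T56.TWKill3

open Fermat.Agent.ES.T56.GWIface21 hiding GQ

section Abstract

variable {F : Type} [Field F] (N : Rep.{0} F GQ)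

/-- A function `G → N` is a coboundary iff it is `g ↦ g • m - m`. -/
theorem mem_coboundaries₁_iff_exists {G : Type} [Group G] (B : Rep.{0} F G) (f : G → B) :
    f ∈ coboundaries₁ B ↔ ∃ x : B, ∀ g, B.ρ g x - x = f g := by
  constructor
  · rintro ⟨x, rfl⟩
    exact ⟨x, fun g => (d₀₁_hom_apply B x g).symm⟩
  · rintro ⟨x, hx⟩
    refine ⟨x, ?_⟩
    funext g
    rw [d₀₁_hom_apply, hx]

/-- **A linear section by level-constant cocycles.** -/
theorem exists_cocycle_section (Sg : Finset Nat.Primes) (D : Submodule F (H1 N))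
    (hD : D ≤ continuousH1S Sg N) :
    ∃ s : ↥D →ₗ[F] ↥(cocycles₁ N), (∀ d : ↥D, (H1π N).hom (s d) = (d : H1 N)) ∧
      ∀ d : ↥D, IsLevelConstantS₁ Sg (s d : GQ → N) := by
  let Z : Submodule F ↥(cocycles₁ N) := levelCocyclesS₁ Sg N ⊓ D.comap (H1π N).hom
  let f : ↥Z →ₗ[F] ↥D := ((H1π N).hom.domRestrict Z).codRestrict D (fun z => z.2.2)
  have hf : LinearMap.range f = ⊤ := by
    rw [LinearMap.range_eq_top]
    intro d
    obtain ⟨c, hc, hcd⟩ := (mem_continuousH1S_iff Sg N (d : H1 N)).1 (hD d.2)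
    have hcZ : c ∈ Z := ⟨hc, by
      show (H1π N).hom c ∈ D
      rw [hcd]; exact d.2⟩
    exact ⟨⟨c, hcZ⟩, Subtype.ext hcd⟩
  obtain ⟨g, hg⟩ := LinearMap.exists_rightInverse_of_surjective f hf
  refine ⟨Z.subtype ∘ₗ g, fun d => ?_, fun d => (g d).2.1⟩
  have h1 := congrArg (fun φ : ↥D →ₗ[F] ↥D => ((φ d : ↥D) : H1 N)) hg
  exact h1

/-- A cocycle whose class is nonzero is not a coboundary. -/
theorem not_coboundary_of_H1π_ne_zero (c : ↥(cocycles₁ N)) (hc : (H1π N).hom c ≠ 0) :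
    ¬ ∃ m : N, ∀ σ : GQ, (c : GQ → N) σ = N.ρ σ m - m := by
  rintro ⟨m, hm⟩
  apply hc
  rw [H1π_eq_zero_iff, mem_coboundaries₁_iff_exists]
  exact ⟨m, fun g => (hm g).symm⟩

/-- If the restriction of the class of `c` along `ι` vanishes then `c (ι γ) ∈ (ι γ - 1) N`. -/
theorem mem_range_of_map_eq_zero {H : Type} [Group H] (ι : H →* GQ) (c : ↥(cocycles₁ N))
    (h0 : (map ι (𝟙 (Rep.res ι N)) 1).hom ((H1π N).hom c) = 0) (γ : H) :
    (c : GQ → N) (ι γ) ∈ LinearMap.range (N.ρ (ι γ) - 1) := by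
  rw [H1π_comp_map_apply, H1π_eq_zero_iff, mem_coboundaries₁_iff_exists] at h0
  obtain ⟨m, hm⟩ := h0
  refine ⟨m, ?_⟩
  have h1 := hm γ
  rw [LinearMap.sub_apply, Module.End.one_apply]
  exact h1

end Abstract

section GW

variable {p : ℕ} [hp : Fact p.Prime] (M : Rep.{0} (ZMod p) GQ) (P : LocPairing p M)

/-- **The cocycle section of the dual Selmer group**, in the shape consumed by
`TWKill3.exists_tw_set_final`, and the consequence of `DualSelMono` in cocycle form. -/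
theorem exists_cl_dualSel (hmono : DualSelMono M P) (Sg : Finset Nat.Primes)
    (hpSg : pPrime p ∈ Sg) (hur : IsUnramOutside p Sg M) (L : LocCond Sg M) :
    ∃ cl : ↥(dualSel P Sg L) →ₗ[ZMod p] (GQ → dualT p M),
      (∀ d : ↥(dualSel P Sg L), ∀ σ τ : GQ,
        cl d (σ * τ) = cl d σ + (dualT p M).ρ σ (cl d τ)) ∧
      (∀ d : ↥(dualSel P Sg L), ∃ Lf : IntermediateField ℚ (AlgebraicClosure ℚ),
        FiniteDimensional ℚ Lf ∧ ∀ σ s : GQ, (∀ x ∈ Lf, s x = x) → cl d (σ * s) = cl d σ) ∧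
      (∀ d : ↥(dualSel P Sg L), d ≠ 0 →
        ¬ ∃ m : dualT p M, ∀ σ : GQ, cl d σ = (dualT p M).ρ σ m - m) ∧
      ∀ (Sg' : Finset Nat.Primes) (h : Sg ⊆ Sg') (L' : LocCond Sg' M), L.ExtendsTop L' h →
        ∀ y ∈ dualSel P Sg' L', ∃ d : ↥(dualSel P Sg L), (d : H1 (dualT p M)) = y ∧
          ∀ q : ↥Sg', q.1 ∉ Sg → ∀ γ : primeLocalGaloisGroup q.1,
            cl d (primeLocalToGlobal q.1 γ) ∈
              LinearMap.range ((dualT p M).ρ (primeLocalToGlobal q.1 γ) - 1) := by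
  obtain ⟨s, hs1, hs2⟩ := exists_cocycle_section (dualT p M) Sg (dualSel P Sg L) inf_le_left
  refine ⟨(cocycles₁ (dualT p M)).subtype ∘ₗ s, fun d σ τ => ?_, fun d => ?_, fun d hd => ?_,
    fun Sg' h L' hext y hy => ?_⟩
  · have h1 := (mem_cocycles₁_iff (s d : GQ → dualT p M)).1 (s d).2 σ τ
    rw [add_comm] at h1
    exact h1
  · obtain ⟨Lf, hLf, hconst⟩ := hs2 d
    refine ⟨Lf, hLf.1, fun σ t ht => hconst σ t ?_⟩
    rw [IntermediateField.mem_fixingSubgroup_iff]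
    exact ht
  · apply not_coboundary_of_H1π_ne_zero (dualT p M) (s d)
    rw [hs1]
    exact fun h0 => hd (Subtype.ext h0)
  · obtain ⟨hyD, hyloc⟩ := hmono Sg Sg' h hpSg hur L L' hext y hy
    refine ⟨⟨y, hyD⟩, rfl, fun q hq γ => ?_⟩
    apply mem_range_of_map_eq_zero (dualT p M) (primeLocalToGlobal q.1) (s ⟨y, hyD⟩)
    rw [hs1]
    exact hyloc q hq

variable {k : Type} [Field k] (ρbar : ResidualGaloisRep k)
  (R : GQ →* Matrix (Fin 2) (Fin 2) k) (b : Module.Basis (Fin 2) k ρbar.V)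
  (hR : ∀ σ, R σ = LinearMap.toMatrix b b (ρbar.ρ σ))

include hR in
/-- **The export of the TW chapter**: Taylor–Wiles sets kill the dual Selmer group.
`r` is any number `≥ dim_{𝔽_p} H¹_{L^⊥}(G_{Sg}, M^∨(1))`. -/
theorem exists_tw_set_dualSel [Finite k] (hp2 : p ≠ 2)
    (habs : ρbar.IsAbsolutelyIrreducible)
    (hdet : (GaloisRepAdic.ofResidualGaloisRep ρbar).DetIsCyclotomic p)
    (hsplit : ∀ σ : GQ, ∃ α β : k, LinearMap.charpoly (ρbar.ρ σ) = (X - C α) * (X - C β))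
    (hTW : ∀ (K : Type) [Field K] [Algebra k K] (G : Subgroup GQ), G.index = 2 →
      ∀ V : Submodule K (ρbar.baseChange K).V,
        (∀ σ ∈ G, ∀ x ∈ V, (ρbar.baseChange K).ρ σ x ∈ V) → V = ⊥ ∨ V = ⊤)
    (hGT : GTFinite k p) (S : Finset ℕ) (hpS : p ∈ S)
    (e : (dualT p M) ≃+ sl2 k)
    (he : ∀ (σ : GQ) (x : dualT p M), e ((dualT p M).ρ σ x) = twAct R σ (e x))
    (hmono : DualSelMono M P)
    (hloc : ∀ q : Nat.Primes, ∃ γ : primeLocalGaloisGroup q,
      ∃ A : ValuationSubring (AlgebraicClosure ℚ), A.LiesOverPrime (q : ℕ) ∧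
        A.IsFrobeniusAt (primeLocalToGlobal q γ) (q : ℕ))
    (Sg : Finset Nat.Primes) (hSg : ∀ q ∈ Sg, (q : ℕ) ∈ S) (hpSg : pPrime p ∈ Sg)
    (hur : IsUnramOutside p Sg M) (L : LocCond Sg M)
    [FiniteDimensional (ZMod p) ↥(dualSel P Sg L)] (r : ℕ)
    (hr : Module.finrank (ZMod p) ↥(dualSel P Sg L) ≤ r) (n : ℕ) :
    ∃ qv : Fin r → ℕ, Function.Injective qv ∧
      (∀ i, (qv i).Prime ∧ qv i ∉ S ∧ p ^ (n + 1) ∣ qv i - 1) ∧
      (∀ i, ∀ A : ValuationSubring (AlgebraicClosure ℚ), A.LiesOverPrime (qv i) →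
        ∀ φ : AlgebraicClosure ℚ ≃ₐ[ℚ] AlgebraicClosure ℚ, A.IsFrobeniusAt φ (qv i) →
          ∃ α β : k, α ≠ β ∧ LinearMap.charpoly (ρbar.ρ φ) = (X - C α) * (X - C β)) ∧
      ∀ (Sg' : Finset Nat.Primes) (h : Sg ⊆ Sg') (L' : LocCond Sg' M), L.ExtendsTop L' h →
        (∀ i, ∃ q ∈ Sg', (q : ℕ) = qv i) → dualSel P Sg' L' = ⊥ := by
  classical
  obtain ⟨cl, hcoc, hlev, hncob, hkey⟩ := exists_cl_dualSel M P hmono Sg hpSg hur L
  choose γ hγ using hloc
  let Φ : ℕ → GQ := fun q => if hq : q.Prime then primeLocalToGlobal ⟨q, hq⟩ (γ ⟨q, hq⟩) else 1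
  have hΦ : ∀ q : ℕ, q.Prime → q ∉ S → ∃ A : ValuationSubring (AlgebraicClosure ℚ),
      A.LiesOverPrime q ∧ A.IsFrobeniusAt (Φ q) q := by
    intro q hq _
    obtain ⟨A, hA1, hA2⟩ := hγ ⟨q, hq⟩
    refine ⟨A, hA1, ?_⟩
    show A.IsFrobeniusAt (if hq : q.Prime then primeLocalToGlobal ⟨q, hq⟩ (γ ⟨q, hq⟩) else 1) q
    rw [dif_pos hq]
    exact hA2
  obtain ⟨qv, hinj, hqv, hfrob, hzero⟩ := exists_tw_set_final ρbar R b hR p hp2 habs hdet hsplit
    hTW hGT n S hpS (dualT p M).ρ e he cl hcoc hlev hncob Φ hΦ r hr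
  refine ⟨qv, hinj, hqv, hfrob, fun Sg' h L' hext hQ => ?_⟩
  rw [eq_bot_iff]
  intro y hy
  obtain ⟨d, rfl, hd⟩ := hkey Sg' h L' hext y hy
  have hd0 : d = 0 := by
    apply hzero d
    intro i
    obtain ⟨q, hqS', hqi⟩ := hQ i
    have hqSg : q ∉ Sg := fun hmem => (hqv i).2.1 (hqi ▸ hSg q hmem)
    have hprime : (qv i).Prime := (hqv i).1
    have hq_eq : (⟨qv i, hprime⟩ : Nat.Primes) = q := Subtype.ext hqi.symm
    have hΦi : Φ (qv i) = primeLocalToGlobal q (γ q) := by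
      show (if hq : (qv i).Prime then primeLocalToGlobal ⟨qv i, hq⟩ (γ ⟨qv i, hq⟩) else 1) = _
      rw [dif_pos hprime, hq_eq]
    rw [hΦi]
    exact hd ⟨q, hqS'⟩ hqSg (γ q)
  rw [hd0]
  exact Submodule.zero_mem _

end GW

end Fermat.Agent.ES.T56.TWGlue3
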