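/-
Programme T (S56, Taylor–Wiles primes), TW chapter (helper3): **THE EXPORT OF THE TW CHAPTER** for the
contract objects of decision D1: `M = resScal p (ad0 R)` (`Ad0Rep10`, `ResScal27`), `N = dualT p M`,
`P : LocPairing p M` (`GWIface21`).

`tw_export` : from S56's literal hypotheses on `ρ̄` (`habs`, `hdet`, `hsplit`, `hTW`, `p ≠ 2`), the
group-theoretic vanishing `GTFinite k p` (GT chapter, `GTMain19.h1_vanish`), `DualSelMono M P`
(GW chapter), `DecompositionLeRange` (LOC chapter, `LocSurj16.decomposition_le_range`) and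
finite-dimensionality of `D = dualSel P Sg L` (from `GWLe`): for every `r ≥ dim_{𝔽_p} D` and every `n`
there are `r` distinct Taylor–Wiles primes `q ≡ 1 mod p^(n+1)`, `q ∉ S`, with `FrobSplit`, such that
`dualSel P Sg' L' = ⊥` whenever `(Sg', L')` extends `(Sg, L)` by `⊤` and `Sg'` contains these primes.

This file only assembles `TWGlue3.exists_tw_set_dualSel`, `TWDualIso3.dualIso(_equivariant)`,
`TWDualIso3.det_eq_algebraMap_cycloChar` and `TWFrobLoc3.exists_local_frobenius`.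
-/
import Mathlib
import Fermat.Agent.ES.T56.TWGlue3
import Fermat.Agent.ES.T56.TWDualIso3
import Fermat.Agent.ES.T56.TWFrobLoc3

set_option autoImplicit false
set_option linter.unusedSectionVars false
set_option linter.style.haveILetI false

open CategoryTheory groupCohomology ExtCitation Polynomial

namespace Fermat.Agent.ES.T56.TWExport3

open Fermat.Agent.ES.T56.TWHypAd3 Fermat.Agent.ES.T56.TWKill3 Fermat.Agent.ES.T56.ResScal27
  Fermat.Agent.ES.T56.TWDetChi3 Fermat.Agent.ES.T56.TWFrobLoc3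

open Fermat.Agent.ES.T56.GWIface21 hiding GQ
open Fermat.Agent.ES.T56.Ad0Rep10 hiding sl2

variable {p : ℕ} [hp : Fact p.Prime] {k : Type} [Field k] [Algebra (ZMod p) k]
  (ρbar : ResidualGaloisRep k) (R : GQ →* Matrix (Fin 2) (Fin 2) k)
  (b : Module.Basis (Fin 2) k ρbar.V) (hR : ∀ σ, R σ = LinearMap.toMatrix b b (ρbar.ρ σ))

include hR in
/-- **The export of the TW chapter.** -/
theorem tw_export [Finite k] (hp2 : p ≠ 2)
    (habs : ρbar.IsAbsolutelyIrreducible)
    (hdet : (GaloisRepAdic.ofResidualGaloisRep ρbar).DetIsCyclotomic p)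
    (hsplit : ∀ σ : GQ, ∃ α β : k, LinearMap.charpoly (ρbar.ρ σ) = (X - C α) * (X - C β))
    (hTW : ∀ (K : Type) [Field K] [Algebra k K] (G : Subgroup GQ), G.index = 2 →
      ∀ V : Submodule K (ρbar.baseChange K).V,
        (∀ σ ∈ G, ∀ x ∈ V, (ρbar.baseChange K).ρ σ x ∈ V) → V = ⊥ ∨ V = ⊤)
    (hGT : GTFinite k p) (hdec : DecompositionLeRange) (S : Finset ℕ) (hpS : p ∈ S)
    (P : LocPairing p (resScal p (ad0 R))) (hmono : DualSelMono (resScal p (ad0 R)) P)
    (Sg : Finset Nat.Primes) (hSg : ∀ q ∈ Sg, (q : ℕ) ∈ S) (hpSg : pPrime p ∈ Sg)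
    (hur : IsUnramOutside p Sg (resScal p (ad0 R))) (L : LocCond Sg (resScal p (ad0 R)))
    [FiniteDimensional (ZMod p) ↥(dualSel P Sg L)] (r : ℕ)
    (hr : Module.finrank (ZMod p) ↥(dualSel P Sg L) ≤ r) (n : ℕ) :
    ∃ qv : Fin r → ℕ, Function.Injective qv ∧
      (∀ i, (qv i).Prime ∧ qv i ∉ S ∧ p ^ (n + 1) ∣ qv i - 1) ∧
      (∀ i, ∀ A : ValuationSubring (AlgebraicClosure ℚ), A.LiesOverPrime (qv i) →
        ∀ φ : AlgebraicClosure ℚ ≃ₐ[ℚ] AlgebraicClosure ℚ, A.IsFrobeniusAt φ (qv i) →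
          ∃ α β : k, α ≠ β ∧ LinearMap.charpoly (ρbar.ρ φ) = (X - C α) * (X - C β)) ∧
      ∀ (Sg' : Finset Nat.Primes) (h : Sg ⊆ Sg') (L' : LocCond Sg' (resScal p (ad0 R))),
        L.ExtendsTop L' h → (∀ i, ∃ q ∈ Sg', (q : ℕ) = qv i) → dualSel P Sg' L' = ⊥ := by
  have h2 : (2 : k) ≠ 0 := two_ne_zero_of_hdet ρbar p hdet hp2
  have hχ := TWDualIso3.det_eq_algebraMap_cycloChar p R ρbar b hR hdet
  exact TWGlue3.exists_tw_set_dualSel (resScal p (ad0 R)) P ρbar R b hR hp2 habs hdet hsplit hTW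
    hGT S hpS (TWDualIso3.dualIso p R h2) (TWDualIso3.dualIso_equivariant p R h2 hχ) hmono
    (exists_local_frobenius hdec) Sg hSg hpSg hur L r hr n

end Fermat.Agent.ES.T56.TWExport3
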