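/-
Programme T (S56, Taylor–Wiles primes), TW chapter (helper3): `TWExport3.tw_export` with the LOC
input `DecompositionLeRange` DISCHARGED by helper16's `LocSurj16.decomposition_le_range`.

* `decompositionLeRange : TWFrobLoc3.DecompositionLeRange`;
* `exists_local_frobenius` : `hloc` of `TWGlue3.exists_tw_set_dualSel`, unconditionally;
* **`tw_final`** : the statement TOP calls.  Remaining hypotheses: S56's literals on `ρ̄`,
  `GTFinite k p` (GT chapter), `DualSelMono M P` (GW chapter) and the `Sg`/`L` data.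
-/
import Mathlib
import Fermat.Agent.ES.T56.TWExport3
import Fermat.Agent.ES.T56.LocSurj16

set_option autoImplicit false
set_option linter.unusedSectionVars false
set_option linter.style.haveILetI false

open CategoryTheory groupCohomology ExtCitation Polynomial

namespace Fermat.Agent.ES.T56.TWFinal3

open Fermat.Agent.ES.T56.TWHypAd3 Fermat.Agent.ES.T56.TWKill3 Fermat.Agent.ES.T56.ResScal27
  Fermat.Agent.ES.T56.TWFrobLoc3

open Fermat.Agent.ES.T56.GWIface21 hiding GQ
open Fermat.Agent.ES.T56.Ad0Rep10 hiding sl2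

/-- `Γ_q → D_w` is onto (helper16). -/
theorem decompositionLeRange : DecompositionLeRange := fun q _ =>
  LocSurj16.decomposition_le_range q

/-- Local Frobenius elements, unconditionally. -/
theorem exists_local_frobenius (q : Nat.Primes) :
    ∃ γ : primeLocalGaloisGroup q, ∃ A : ValuationSubring (AlgebraicClosure ℚ),
      A.LiesOverPrime (q : ℕ) ∧ A.IsFrobeniusAt (primeLocalToGlobal q γ) (q : ℕ) :=
  TWFrobLoc3.exists_local_frobenius decompositionLeRange q

variable {p : ℕ} [hp : Fact p.Prime] {k : Type} [Field k] [Algebra (ZMod p) k]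
  (ρbar : ResidualGaloisRep k) (R : GQ →* Matrix (Fin 2) (Fin 2) k)
  (b : Module.Basis (Fin 2) k ρbar.V) (hR : ∀ σ, R σ = LinearMap.toMatrix b b (ρbar.ρ σ))

include hR in
/-- **The export of the TW chapter** (no LOC hypothesis left). -/
theorem tw_final [Finite k] (hp2 : p ≠ 2)
    (habs : ρbar.IsAbsolutelyIrreducible)
    (hdet : (GaloisRepAdic.ofResidualGaloisRep ρbar).DetIsCyclotomic p)
    (hsplit : ∀ σ : GQ, ∃ α β : k, LinearMap.charpoly (ρbar.ρ σ) = (X - C α) * (X - C β))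
    (hTW : ∀ (K : Type) [Field K] [Algebra k K] (G : Subgroup GQ), G.index = 2 →
      ∀ V : Submodule K (ρbar.baseChange K).V,
        (∀ σ ∈ G, ∀ x ∈ V, (ρbar.baseChange K).ρ σ x ∈ V) → V = ⊥ ∨ V = ⊤)
    (hGT : GTFinite k p) (S : Finset ℕ) (hpS : p ∈ S)
    (P : LocPairing p (resScal p (ad0 R))) (hmono : DualSelMono (resScal p (ad0 R)) P)
    (Sg : Finset Nat.Primes) (hSg : ∀ q ∈ Sg, (q : ℕ) ∈ S) (hpSg : pPrime p ∈ Sg)
    (hur : IsUnramOutside p Sg (resScal p (ad0 R))) (L : LocCond Sg (resScal p (ad0 R)))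
    [FiniteDimensional (ZMod p) ↥(dualSel P Sg L)] (r : ℕ)
    (hr : Module.finrank (ZMod p) ↥(dualSel P Sg L) ≤ r) (n : ℕ) :
    ∃ qv : Fin r → ℕ, Function.Injective qv ∧
      (∀ i, (qv i).Prime ∧ qv i ∉ S ∧ p ^ (n + 1) ∣ qv i - 1) ∧
      (∀ i, ∀ A : ValuationSubring (AlgebraicClosure ℚ), A.LiesOverPrime (qv i) →
        ∀ φ : AlgebraicClosure ℚ ≃ₐ[ℚ] AlgebraicClosure ℚ, A.IsFrobeniusAt φ (qv i) →
          ∃ α β : k, α ≠ β ∧ LinearMap.charpoly (ρbar.ρ φ) = (X - C α) * (X - C β)) ∧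
      ∀ (Sg' : Finset Nat.Primes) (h : Sg ⊆ Sg') (L' : LocCond Sg' (resScal p (ad0 R))),
        L.ExtendsTop L' h → (∀ i, ∃ q ∈ Sg', (q : ℕ) = qv i) → dualSel P Sg' L' = ⊥ :=
  TWExport3.tw_export ρbar R b hR hp2 habs hdet hsplit hTW hGT decompositionLeRange S hpS P hmono
    Sg hSg hpSg hur L r hr n

end Fermat.Agent.ES.T56.TWFinal3
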