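/-
Programme T (S56, Taylor–Wiles primes), TW chapter (helper3): **the TW chapter closed** — `tw_final`
with the group-theoretic vanishing `GTFinite k p` DISCHARGED by helper19's `GTMain19.h1_vanish`.

* `gtFinite : GTFinite k p` for `k` finite of characteristic `p ≠ 2`;
* **`tw_chapter`** : from S56's literal hypotheses on `ρ̄` (`habs`, `hdet`, `hsplit`, `hTW`, `p ≠ 2`),
  `DualSelMono M P` (GW chapter) and finite-dimensionality of `D = dualSel P Sg L`: for every
  `r ≥ dim_{𝔽_p} D` and every `n` there are `r` distinct Taylor–Wiles primes of level `n` outside `S`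
  with `FrobSplit`, such that `dualSel P Sg' L' = ⊥` whenever `(Sg', L')` extends `(Sg, L)` by `⊤`
  and `Sg'` contains these primes.  (`M = resScal p (ad0 R)`, decision D1.)
-/
import Mathlib
import Fermat.Agent.ES.T56.TWFinal3
import Fermat.Agent.ES.T56.GTMain19

set_option autoImplicit false
set_option linter.unusedSectionVars false
set_option linter.style.haveILetI false

open CategoryTheory groupCohomology ExtCitation Polynomial

namespace Fermat.Agent.ES.T56.TWChapter3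

open Fermat.Agent.ES.T56.TWHypAd3 Fermat.Agent.ES.T56.TWKill3 Fermat.Agent.ES.T56.ResScal27
  Fermat.Agent.ES.T56.TWDetChi3

open Fermat.Agent.ES.T56.GWIface21 hiding GQ
open Fermat.Agent.ES.T56.Ad0Rep10 hiding sl2

/-- **(GT)**: helper19's `GTMain19.h1_vanish` in the shape consumed by `TWKill3`. -/
theorem gtFinite {k : Type} [Field k] [Finite k] (p : ℕ) [Fact p.Prime] [CharP k p] (hp2 : p ≠ 2) :
    GTFinite k p :=
  fun r h1 h2 h3 h4 h5 h6 c h7 h8 => GTMain19.h1_vanish p hp2 r h1 h2 h3 h4 h5 h6 c h7 h8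

variable {p : ℕ} [hp : Fact p.Prime] {k : Type} [Field k] [Algebra (ZMod p) k]
  (ρbar : ResidualGaloisRep k) (R : GQ →* Matrix (Fin 2) (Fin 2) k)
  (b : Module.Basis (Fin 2) k ρbar.V) (hR : ∀ σ, R σ = LinearMap.toMatrix b b (ρbar.ρ σ))

include hR in
/-- **The TW chapter.** -/
theorem tw_chapter [Finite k] (hp2 : p ≠ 2)
    (habs : ρbar.IsAbsolutelyIrreducible)
    (hdet : (GaloisRepAdic.ofResidualGaloisRep ρbar).DetIsCyclotomic p)
    (hsplit : ∀ σ : GQ, ∃ α β : k, LinearMap.charpoly (ρbar.ρ σ) = (X - C α) * (X - C β))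
    (hTW : ∀ (K : Type) [Field K] [Algebra k K] (G : Subgroup GQ), G.index = 2 →
      ∀ V : Submodule K (ρbar.baseChange K).V,
        (∀ σ ∈ G, ∀ x ∈ V, (ρbar.baseChange K).ρ σ x ∈ V) → V = ⊥ ∨ V = ⊤)
    (S : Finset ℕ) (hpS : p ∈ S)
    (P : LocPairing p (resScal p (ad0 R))) (hmono : DualSelMono (resScal p (ad0 R)) P)
    (Sg : Finset Nat.Primes) (hSg : ∀ q ∈ Sg, (q : ℕ) ∈ S) (hpSg : pPrime p ∈ Sg)
    (hur : IsUnramOutside p Sg (resScal p (ad0 R))) (L : LocCond Sg (resScal p (ad0 R)))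
    [FiniteDimensional (ZMod p) ↥(dualSel P Sg L)] (r : ℕ)
    (hr : Module.finrank (ZMod p) ↥(dualSel P Sg L) ≤ r) (n : ℕ) :
    ∃ qv : Fin r → ℕ, Function.Injective qv ∧
      (∀ i, (qv i).Prime ∧ qv i ∉ S ∧ p ^ (n + 1) ∣ qv i - 1) ∧
      (∀ i, ∀ A : ValuationSubring (AlgebraicClosure ℚ), A.LiesOverPrime (qv i) →
        ∀ φ : AlgebraicClosure ℚ ≃ₐ[ℚ] AlgebraicClosure ℚ, A.IsFrobeniusAt φ (qv i) →
          ∃ α β : k, α ≠ β ∧ LinearMap.charpoly (ρbar.ρ φ) = (X - C α) * (X - C β)) ∧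
      ∀ (Sg' : Finset Nat.Primes) (h : Sg ⊆ Sg') (L' : LocCond Sg' (resScal p (ad0 R))),
        L.ExtendsTop L' h → (∀ i, ∃ q ∈ Sg', (q : ℕ) = qv i) → dualSel P Sg' L' = ⊥ := by
  haveI : CharP k p := charP_of_hdet ρbar p hdet
  exact TWFinal3.tw_final ρbar R b hR hp2 habs hdet hsplit hTW (gtFinite p hp2) S hpS P hmono
    Sg hSg hpSg hur L r hr n

end Fermat.Agent.ES.T56.TWChapter3
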