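/-
Programme T (S56), chapter TOP (helper27): the OBJECTS of the final assembly and the dictionary
between the Selmer group over `k` (where TAN / LOC live) and the `𝔽_p`-Selmer group of the GW contract.

For `A : Rep k G_ℚ` (in the proof `A = Ad0Rep10.ad0 Sl.rbar`), `M = resScal p A`, `N = dualT p M`:

* `LocCondK A`      : a family of `k`-subspaces `Lk q ≤ H¹(G_q, A)`, one for every prime `q`;
* `selK A Lk Sm Sg` : the Selmer group over `k` – classes in `continuousH1S Sg A` whose localisation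
                      at every `q ∈ Sm` lies in `Lk q` (no condition at the other primes of `Sg`, none at `∞`);
* `h1EquivLoc q A`, `subRSloc p q A W` : `h1Equiv` / `subRS` at the local group, typed as the GW contract
                      wants them (`H1loc p q (resScal p A)`);
* `locCond p A Lk Sm Sg : GWIface21.LocCond Sg (resScal p A)` : the conditions of `selK` in the GW contract's
                      shape (`subRSloc` of `Lk q` at `q ∈ Sm`, `⊤` elsewhere);
* `mem_sel_locCond_iff`, `sel_locCond_eq`, `card_sel_locCond` : the two Selmer groups agree;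
* `fin_locCond_of_mem`, `fin_locCond_of_not_mem`, `contLoc_eq_subRSloc` : the local terms `L.fin q`;
* `card_invariants_resScal`, `card_invariants_eq_pow_h0loc`, `finrank_subRSloc_le_of_card` : from
                      cardinalities over `k` to `𝔽_p`-dimensions;
* `card_selK_le`    : **the count** – (GW≤) + vanishing dual Selmer group + local numerics give
                      `#selK ≤ (p^d)^r`.
-/
import Mathlib
import Fermat.Prelude.Def_GroupCohomology_ContinuousUnramified
import Fermat.Agent.ES.T56.ResScalCoh27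
import Fermat.Agent.ES.T56.GWIface21
import Fermat.Agent.ES.T56.TopPrep27

set_option autoImplicit false
set_option linter.style.haveILetI false

open CategoryTheory groupCohomology ExtCitation Module

namespace Fermat.Agent.ES.T56.TopObjs27

open Fermat.Agent.ES.T56.ResScal27 Fermat.Agent.ES.T56.ResScalCoh27 Fermat.Agent.ES.T56.GWIface21
open Fermat.Agent.ES.T56.TopPrep27

variable (p : ℕ) [Fact p.Prime] {k : Type} [Field k] [Algebra (ZMod p) k]

/-- A family of local conditions over `k`, one for every prime. -/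
abbrev LocCondK (A : Rep.{0} k GQ) : Type :=
  ∀ q : Nat.Primes, Submodule k (H1 (Rep.res (primeLocalToGlobal q) A))

/-- Localisation at `q`, over `k`. -/
noncomputable abbrev resLocK (q : Nat.Primes) (A : Rep.{0} k GQ) :
    H1 A →ₗ[k] H1 (Rep.res (primeLocalToGlobal q) A) :=
  (map (primeLocalToGlobal q) (𝟙 (Rep.res (primeLocalToGlobal q) A)) 1).hom

/-- The continuous part of the local `H¹` at `q`, over `k`. -/
noncomputable abbrev contLocK (q : Nat.Primes) (A : Rep.{0} k GQ) :
    Submodule k (H1 (Rep.res (primeLocalToGlobal q) A)) :=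
  continuousH1 (primeLocalToGlobal q) (Rep.res (primeLocalToGlobal q) A)

/-- The Selmer group over `k`: ramification allowed in `Sg`, local condition `Lk q` at `q ∈ Sm`. -/
noncomputable def selK (A : Rep.{0} k GQ) (Lk : LocCondK A) (Sm Sg : Finset Nat.Primes) :
    Submodule k (H1 A) :=
  continuousH1S Sg A ⊓ ⨅ q ∈ Sm, (Lk q).comap (resLocK q A)

theorem mem_selK_iff (A : Rep.{0} k GQ) (Lk : LocCondK A) (Sm Sg : Finset Nat.Primes) (x : H1 A) :
    x ∈ selK A Lk Sm Sg ↔ x ∈ continuousH1S Sg A ∧ ∀ q ∈ Sm, resLocK q A x ∈ Lk q := by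
  simp only [selK, Submodule.mem_inf, Submodule.mem_iInf, Submodule.mem_comap]

/-! ### `h1Equiv` and `subRS` at the local groups, typed for the GW contract -/

/-- `h1Equiv` for the restriction to `G_q` (`Rep.res` commutes with `resScal` definitionally). -/
noncomputable def h1EquivLoc (q : Nat.Primes) (A : Rep.{0} k GQ) :
    H1loc p q (resScal p A) ≃+ H1 (Rep.res (primeLocalToGlobal q) A) :=
  h1Equiv (p := p) (Rep.res (primeLocalToGlobal q) A)

theorem h1EquivLoc_resLoc (q : Nat.Primes) (A : Rep.{0} k GQ) (x : H1 (resScal p A)) :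
    h1EquivLoc p q A (resLoc p q (resScal p A) x) = resLocK q A (h1Equiv A x) :=
  h1Equiv_map_res (primeLocalToGlobal q) A x

theorem h1EquivLoc_smul (q : Nat.Primes) (A : Rep.{0} k GQ) (c : ZMod p)
    (x : H1loc p q (resScal p A)) :
    h1EquivLoc p q A (c • x) = algebraMap (ZMod p) k c • h1EquivLoc p q A x :=
  h1Equiv_smul (Rep.res (primeLocalToGlobal q) A) c x

/-- `subRS` at the local group. -/
noncomputable def subRSloc (q : Nat.Primes) (A : Rep.{0} k GQ)
    (W : Submodule k (H1 (Rep.res (primeLocalToGlobal q) A))) :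
    Submodule (ZMod p) (H1loc p q (resScal p A)) :=
  subRS (p := p) (Rep.res (primeLocalToGlobal q) A) W

variable {p}

@[simp] theorem mem_subRSloc (q : Nat.Primes) (A : Rep.{0} k GQ)
    (W : Submodule k (H1 (Rep.res (primeLocalToGlobal q) A))) (x : H1loc p q (resScal p A)) :
    x ∈ subRSloc p q A W ↔ h1EquivLoc p q A x ∈ W := Iff.rfl

theorem subRSloc_inf (q : Nat.Primes) (A : Rep.{0} k GQ)
    (W W' : Submodule k (H1 (Rep.res (primeLocalToGlobal q) A))) :
    subRSloc p q A (W ⊓ W') = subRSloc p q A W ⊓ subRSloc p q A W' := rfl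

theorem subRSloc_top (q : Nat.Primes) (A : Rep.{0} k GQ) : subRSloc p q A ⊤ = ⊤ := by
  ext x
  simp

theorem subRSloc_mono (q : Nat.Primes) (A : Rep.{0} k GQ)
    {W W' : Submodule k (H1 (Rep.res (primeLocalToGlobal q) A))} (h : W ≤ W') :
    subRSloc p q A W ≤ subRSloc p q A W' := fun _ hx => h hx

/-- The bijection `subRSloc p q A W ≃ W`. -/
noncomputable def subRSlocEquiv (q : Nat.Primes) (A : Rep.{0} k GQ)
    (W : Submodule k (H1 (Rep.res (primeLocalToGlobal q) A))) : ↥(subRSloc p q A W) ≃ ↥W :=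
  subRSEquiv (p := p) (Rep.res (primeLocalToGlobal q) A) W

theorem card_subRSloc (q : Nat.Primes) (A : Rep.{0} k GQ)
    (W : Submodule k (H1 (Rep.res (primeLocalToGlobal q) A))) :
    Nat.card ↥(subRSloc p q A W) = Nat.card ↥W :=
  Nat.card_congr (subRSlocEquiv q A W)

theorem contLoc_eq_subRSloc (q : Nat.Primes) (A : Rep.{0} k GQ) :
    contLoc p q (resScal p A) = subRSloc p q A (contLocK q A) := by
  ext x
  rw [mem_subRSloc]
  exact mem_continuousH1_resScal_iff (primeLocalToGlobal q) (Rep.res (primeLocalToGlobal q) A) x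

/-! ### The local conditions in the shape of the GW contract -/

variable (p)

open Classical in
/-- The local conditions of `selK` in the shape of the GW contract. -/
noncomputable def locCond (A : Rep.{0} k GQ) (Lk : LocCondK A) (Sm Sg : Finset Nat.Primes) :
    LocCond Sg (resScal p A)
  | Sum.inl _ => ⊤
  | Sum.inr q => if q.1 ∈ Sm then subRSloc p q.1 A (Lk q.1) else ⊤

variable {p}

/-- The component of a `LocCond` at a finite place, typed as a subspace of `H1loc`. -/
abbrev locAt {Sg : Finset Nat.Primes} {M : Rep (ZMod p) GQ} (L : LocCond Sg M) (q : ↥Sg) :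
    Submodule (ZMod p) (H1loc p q.1 M) := L (Sum.inr q)

theorem locAt_locCond_of_mem (A : Rep.{0} k GQ) (Lk : LocCondK A) {Sm Sg : Finset Nat.Primes} (q : ↥Sg)
    (hq : q.1 ∈ Sm) : locAt (locCond p A Lk Sm Sg) q = subRSloc p q.1 A (Lk q.1) := by
  show (if q.1 ∈ Sm then _ else _) = _
  rw [if_pos hq]

theorem locAt_locCond_of_not_mem (A : Rep.{0} k GQ) (Lk : LocCondK A) {Sm Sg : Finset Nat.Primes}
    (q : ↥Sg) (hq : q.1 ∉ Sm) : locAt (locCond p A Lk Sm Sg) q = ⊤ := by
  show (if q.1 ∈ Sm then _ else _) = _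
  rw [if_neg hq]
  rfl

theorem fin_eq_at_inf {Sg : Finset Nat.Primes} {M : Rep (ZMod p) GQ} (L : LocCond Sg M) (q : ↥Sg) :
    LocCond.fin L q = locAt L q ⊓ contLoc p q.1 M := rfl

/-- The two Selmer groups agree (elementwise). -/
theorem mem_sel_locCond_iff (A : Rep.{0} k GQ) (Lk : LocCondK A) {Sm Sg : Finset Nat.Primes}
    (hSm : Sm ⊆ Sg) (x : H1 (resScal p A)) :
    x ∈ sel Sg (resScal p A) (locCond p A Lk Sm Sg) ↔ h1Equiv A x ∈ selK A Lk Sm Sg := by
  show x ∈ continuousH1S Sg (resScal p A) ⊓ selmer (extArithLoc Sg) (resScal p A)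
    (locCond p A Lk Sm Sg) ↔ _
  rw [mem_selK_iff, Submodule.mem_inf, mem_selmer_iff, mem_continuousH1S_resScal_iff]
  refine and_congr Iff.rfl ⟨fun h q hq => ?_, fun h v => ?_⟩
  · have h1 : resLoc p q (resScal p A) x ∈ locAt (locCond p A Lk Sm Sg) ⟨q, hSm hq⟩ :=
      h (Sum.inr ⟨q, hSm hq⟩)
    rw [locAt_locCond_of_mem A Lk (⟨q, hSm hq⟩ : ↥Sg) hq, mem_subRSloc, h1EquivLoc_resLoc] at h1
    exact h1
  · rcases v with u | q
    · exact Submodule.mem_top
    · show resLoc p q.1 (resScal p A) x ∈ locAt (locCond p A Lk Sm Sg) q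
      by_cases hq : q.1 ∈ Sm
      · rw [locAt_locCond_of_mem A Lk q hq, mem_subRSloc, h1EquivLoc_resLoc]
        exact h q.1 hq
      · rw [locAt_locCond_of_not_mem A Lk q hq]
        exact Submodule.mem_top

theorem sel_locCond_eq (A : Rep.{0} k GQ) (Lk : LocCondK A) {Sm Sg : Finset Nat.Primes}
    (hSm : Sm ⊆ Sg) :
    sel Sg (resScal p A) (locCond p A Lk Sm Sg) = subRS A (selK A Lk Sm Sg) := by
  ext x
  rw [mem_sel_locCond_iff A Lk hSm, mem_subRS]

theorem card_sel_locCond (A : Rep.{0} k GQ) (Lk : LocCondK A) {Sm Sg : Finset Nat.Primes}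
    (hSm : Sm ⊆ Sg) :
    Nat.card ↥(sel Sg (resScal p A) (locCond p A Lk Sm Sg)) = Nat.card ↥(selK A Lk Sm Sg) := by
  rw [sel_locCond_eq A Lk hSm, card_subRS]

/-! ### The local terms -/

theorem fin_locCond_of_mem (A : Rep.{0} k GQ) (Lk : LocCondK A) {Sm Sg : Finset Nat.Primes} (q : ↥Sg)
    (hq : q.1 ∈ Sm) :
    LocCond.fin (locCond p A Lk Sm Sg) q = subRSloc p q.1 A (Lk q.1 ⊓ contLocK q.1 A) := by
  rw [fin_eq_at_inf, locAt_locCond_of_mem A Lk q hq, contLoc_eq_subRSloc, subRSloc_inf]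

theorem fin_locCond_of_not_mem (A : Rep.{0} k GQ) (Lk : LocCondK A) {Sm Sg : Finset Nat.Primes}
    (q : ↥Sg) (hq : q.1 ∉ Sm) :
    LocCond.fin (locCond p A Lk Sm Sg) q = subRSloc p q.1 A (contLocK q.1 A) := by
  rw [fin_eq_at_inf, locAt_locCond_of_not_mem A Lk q hq, top_inf_eq, contLoc_eq_subRSloc]

/-! ### From cardinalities over `k` to `𝔽_p`-dimensions -/

section Card

variable {G : Type} [Group G]

/-- Invariants do not see restriction of scalars. -/
theorem card_invariants_resScal (B : Rep.{0} k G) :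
    Nat.card ↥((resScal p B).ρ.invariants) = Nat.card ↥(B.ρ.invariants) :=
  Nat.card_congr
    { toFun := fun x => ⟨ofRS B x.1, (mem_invariants_resScal_iff B x.1).1 x.2⟩
      invFun := fun y => ⟨toRS B y.1, (mem_invariants_resScal_iff B (toRS B y.1)).2 y.2⟩
      left_inv := fun _ => rfl
      right_inv := fun _ => rfl }

end Card

/-- `#k = p ^ [k : 𝔽_p]`. -/
theorem card_k_eq [Module.Finite (ZMod p) k] : Nat.card k = p ^ finrank (ZMod p) k := by
  rw [Module.natCard_eq_pow_finrank (K := ZMod p) (V := k), Nat.card_zmod]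

/-- `#H⁰(G_q, A) = p ^ h⁰(G_q, resScal p A)` for finite `A`. -/
theorem card_invariants_eq_pow_h0loc (q : Nat.Primes) (A : Rep.{0} k GQ) [Finite A] :
    Nat.card ↥((Rep.res (primeLocalToGlobal q) A).ρ.invariants) = p ^ h0loc p q (resScal p A) := by
  rw [← card_invariants_resScal (p := p) (Rep.res (primeLocalToGlobal q) A)]
  haveI : Finite (resScal p (Rep.res (primeLocalToGlobal q) A)) := ‹Finite A›
  haveI : Finite ↥((resScal p (Rep.res (primeLocalToGlobal q) A)).ρ.invariants) :=
    Finite.of_injective (fun x => x.1) Subtype.val_injective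
  exact card_eq_pow_finrank

/-- The local bound in `𝔽_p`-dimensions from a bound of cardinalities over `k`:
`#W ≤ #H⁰(G_q, A) · #k^δ` gives `dim_{𝔽_p} (subRSloc W) ≤ h⁰(G_q, M) + [k:𝔽_p] · δ`. -/
theorem finrank_subRSloc_le_of_card [Module.Finite (ZMod p) k] (q : Nat.Primes) (A : Rep.{0} k GQ)
    [Finite A] (W : Submodule k (H1 (Rep.res (primeLocalToGlobal q) A))) [Finite ↥W] (δ : ℕ)
    (h : Nat.card ↥W ≤ Nat.card ↥((Rep.res (primeLocalToGlobal q) A).ρ.invariants) * Nat.card k ^ δ) :
    finrank (ZMod p) ↥(subRSloc p q A W) ≤ h0loc p q (resScal p A) + finrank (ZMod p) k * δ := by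
  have hp : 1 < p := (Fact.out : p.Prime).one_lt
  haveI : Finite ↥(subRSloc p q A W) := Finite.of_equiv _ (subRSlocEquiv q A W).symm
  have h1 : Nat.card ↥(subRSloc p q A W) = p ^ finrank (ZMod p) ↥(subRSloc p q A W) :=
    card_eq_pow_finrank
  rw [← card_subRSloc (p := p), h1, card_invariants_eq_pow_h0loc (p := p), card_k_eq (p := p),
    ← pow_mul, ← pow_add] at h
  exact (Nat.pow_le_pow_iff_right hp).1 h

/-! ### The count -/

/-- **The count.**  (GW≤) for `(Sg, locCond p A Lk Sm Sg)`, a vanishing dual Selmer group,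
`h⁰(G_ℚ, M) = 0`, `h⁰(⟨c⟩, M) = d` and the local bounds `dim L_q ≤ h⁰(G_q, M) + d·δ_q` with
`Σ δ_q = r + 1` give `#selK ≤ (p^d)^r`. -/
theorem card_selK_le (A : Rep.{0} k GQ) (Lk : LocCondK A) {Sm Sg : Finset Nat.Primes} (hSm : Sm ⊆ Sg)
    (hpS : pPrime p ∈ Sg) (P : LocPairing p (resScal p A)) (hgw : GWLe (resScal p A) P)
    (hur : IsUnramOutside p Sg (resScal p A))
    (hfin : ∀ q : ↥Sg, FiniteDimensional (ZMod p) ↥(LocCond.fin (locCond p A Lk Sm Sg) q))
    (hdual : dualSel P Sg (locCond p A Lk Sm Sg) = ⊥)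
    (hh0 : h0 p (resScal p A) = 0) (d r : ℕ) (hh0c : h0c p (resScal p A) = d)
    (δ : ↥Sg → ℕ) (hδ : ∑ q, δ q = r + 1)
    (hloc : ∀ q : ↥Sg, finrank (ZMod p) ↥(LocCond.fin (locCond p A Lk Sm Sg) q) ≤
      h0loc p q.1 (resScal p A) + d * δ q) :
    Finite ↥(selK A Lk Sm Sg) ∧ Nat.card ↥(selK A Lk Sm Sg) ≤ (p ^ d) ^ r := by
  obtain ⟨hf1, -, hle⟩ := hgw Sg hpS hur (locCond p A Lk Sm Sg) hfin
  rw [hdual, finrank_bot, hh0] at hle
  have hs : finrank (ZMod p) ↥(sel Sg (resScal p A) (locCond p A Lk Sm Sg)) ≤ d * r :=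
    finrank_le_of_gw _ (h0c p (resScal p A)) d r (fun q : ↥Sg => h0loc p q.1 (resScal p A))
      (fun q : ↥Sg => finrank (ZMod p) ↥(LocCond.fin (locCond p A Lk Sm Sg) q)) δ
      (by simpa using hle) hloc hh0c hδ
  haveI := hf1
  have hcard := card_le_pow_of_finrank_le (p := p) hs
  rw [card_sel_locCond A Lk hSm] at hcard
  haveI hfs : Finite ↥(sel Sg (resScal p A) (locCond p A Lk Sm Sg)) :=
    Module.finite_of_finite (ZMod p)
  refine ⟨?_, hcard⟩
  rw [sel_locCond_eq A Lk hSm] at hfs
  exact Finite.of_equiv _ (subRSEquiv (p := p) A (selK A Lk Sm Sg))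

end Fermat.Agent.ES.T56.TopObjs27
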