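/-
Programme T (S56), chapter TOP (helper27): THE ASSEMBLY  `chapter exports ⟹ T56Iface27.TWSelmer`.

`A : Rep k G_ℚ` is `ad⁰ρ̄` over `k = ResidueField 𝒪` (in `S56.lean`: `A = Ad0Rep10.ad0 Sl.rbar`),
`M = resScal p A`, `N = dualT p M`, `Lk : LocCondK A` the local conditions over `k` of the deformation
type, `Sg = toPrimes Smin`.

INPUTS (each is the export of one chapter, in the literal shape below):
* `TanSel 𝒟 Smin A Lk`   (TAN + LOC/FLAT membership): every tangent space injects into `selK`;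
* `P : LocPairing p M`, `GWLe M P`, `DualSelMono M P`      (GW);
* `TWSetExists p ρbar S N Φ`  (TW; = the conclusion of `TWKill3.exists_tw_set_final` for `F = ZMod p`);
* `Φ q ∈ range (primeLocalToGlobal q)`   (LOC: the Frobenius elements are chosen in the decomposition
  groups of the fixed places);
* `IsUnramOutside p Sg M`, `h⁰(G_ℚ, M) = 0`, `h⁰(⟨c⟩, M) = [k : 𝔽_p]`   (LOC);
* `Finite (Lk q ⊓ cont)` for `q ∈ Smin` (each local leg brings its own finiteness; NO general local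
  finiteness of `H¹_cont(G_q, A)` is needed);
* the three local counts over `k` (LOC / FLAT):
    `#(Lk q ⊓ cont) ≤ #H⁰(G_q, A)`           for `q ∈ Smin`, `q ≠ p`,
    `#(Lk p ⊓ cont) ≤ #H⁰(G_p, A) · #k`,
    `H¹_cont(G_q, A)` finite and `#H¹_cont(G_q, A) ≤ #H⁰(G_q, A) · #k`   at Taylor–Wiles primes.

OUTPUT: `twSelmer_of_inputs : T56Iface27.TWSelmer p ρbar S Smin 𝒟`.
-/
import Mathlib
import Fermat.Agent.ES.T56.T56Iface27
import Fermat.Agent.ES.T56.TopObjs27
import Fermat.Agent.ES.T56.TopKill27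

set_option autoImplicit false
set_option linter.style.haveILetI false

open CategoryTheory groupCohomology ExtCitation Module IsLocalRing

namespace Fermat.Agent.ES.T56.TopAsm27

open Fermat.Agent.ES.T56.T56Iface27 Fermat.Agent.ES.T56.TopPrep27 Fermat.Agent.ES.T56.TopObjs27
open Fermat.Agent.ES.T56.TopKill27 Fermat.Agent.ES.T56.ResScal27 Fermat.Agent.ES.T56.ResScalCoh27
open Fermat.Agent.ES.T56.GWIface21

/-- The export of chapter TW for `F = ZMod p` (the conclusion of `TWKill3.exists_tw_set_final`). -/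
def TWSetExists {𝒪 : Type} [CommRing 𝒪] [IsDomain 𝒪] [IsDiscreteValuationRing 𝒪]
    [IsAdicComplete (maximalIdeal 𝒪) 𝒪] (p : ℕ) [Fact p.Prime]
    (ρbar : ResidualGaloisRep (ResidueField 𝒪)) (S : Finset ℕ)
    (N : Rep.{0} (ZMod p) GWIface21.GQ) (Φ : ℕ → GWIface21.GQ) : Prop :=
  ∀ (n : ℕ) (D : Type) [AddCommGroup D] [Module (ZMod p) D] [FiniteDimensional (ZMod p) D]
    (cl : D →ₗ[ZMod p] (GWIface21.GQ → N)),
    (∀ (d : D) (σ τ : GWIface21.GQ), cl d (σ * τ) = cl d σ + N.ρ σ (cl d τ)) →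
    (∀ d : D, ∃ L : IntermediateField ℚ (AlgebraicClosure ℚ), FiniteDimensional ℚ L ∧
      ∀ σ s : GWIface21.GQ, (∀ x ∈ L, s x = x) → cl d (σ * s) = cl d σ) →
    (∀ d : D, d ≠ 0 → ¬ ∃ m : N, ∀ σ : GWIface21.GQ, cl d σ = N.ρ σ m - m) →
    ∀ r : ℕ, finrank (ZMod p) D ≤ r →
    ∃ qv : Fin r → ℕ, Function.Injective qv ∧
      (∀ i, (qv i).Prime ∧ qv i ∉ S ∧ p ^ (n + 1) ∣ qv i - 1) ∧
      (∀ i, FrobSplit ρbar (qv i)) ∧
      ∀ d : D, (∀ i, cl d (Φ (qv i)) ∈ LinearMap.range (N.ρ (Φ (qv i)) - 1)) → d = 0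

section

variable {𝒪 : Type} [CommRing 𝒪] [IsDomain 𝒪] [IsDiscreteValuationRing 𝒪]
  [IsAdicComplete (maximalIdeal 𝒪) 𝒪]

/-- The export of TAN + the membership halves of LOC / FLAT: for every allowed ramification set
`T ⊇ Smin`, the tangent space of every deformation ring of type `𝒟 T` injects into the Selmer group
`selK A Lk (toPrimes Smin) (toPrimes T)`. -/
def TanSel (p : ℕ) [Fact p.Prime] [Algebra (ZMod p) (ResidueField 𝒪)]
    (ρbar : ResidualGaloisRep (ResidueField 𝒪)) (𝒟 : Finset ℕ → Cond 𝒪) (Smin : Finset ℕ)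
    (A : Rep.{0} (ResidueField 𝒪) GWIface21.GQ) (Lk : LocCondK A) : Prop :=
  ∀ T : Finset ℕ, Smin ⊆ T → ∀ DQ : GaloisRep.DeformationRingData 𝒪 ρbar (𝒟 T),
    letI := dualAlg 𝒪
    ∃ τ : (DQ.R →ₐ[𝒪] DualNumber (ResidueField 𝒪)) → H1 A, Function.Injective τ ∧
      ∀ f, τ f ∈ selK A Lk (toPrimes Smin) (toPrimes T)

end

/-! ### The bookkeeping of `δ` -/

section Delta

variable {p : ℕ} [Fact p.Prime]

/-- The weight `δ_q`: `1` at `p` and at the new primes, `0` at the other primes of `Sg`. -/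
noncomputable def delta (p : ℕ) [Fact p.Prime] (Sg : Finset Nat.Primes) (q : Nat.Primes) : ℕ :=
  open Classical in if q ∈ Sg then (if q = pPrime p then 1 else 0) else 1

theorem delta_of_mem_ne {Sg : Finset Nat.Primes} {q : Nat.Primes} (h : q ∈ Sg) (hq : q ≠ pPrime p) :
    delta p Sg q = 0 := by
  rw [delta, if_pos h, if_neg hq]

theorem delta_pPrime {Sg : Finset Nat.Primes} (h : pPrime p ∈ Sg) : delta p Sg (pPrime p) = 1 := by
  rw [delta, if_pos h, if_pos rfl]

theorem delta_of_not_mem {Sg : Finset Nat.Primes} {q : Nat.Primes} (h : q ∉ Sg) :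
    delta p Sg q = 1 := by
  rw [delta, if_neg h]

/-- `Σ_{q ∈ Sg ∪ Q} δ_q = #Q + 1` for `Q` disjoint from `Sg ∋ p`. -/
theorem sum_delta {Sg Q : Finset Nat.Primes} (hp : pPrime p ∈ Sg) (hdisj : Disjoint Sg Q)
    [DecidableEq Nat.Primes] : ∑ q ∈ Sg ∪ Q, delta p Sg q = Q.card + 1 := by
  classical
  rw [Finset.sum_union hdisj]
  have h1 : ∑ q ∈ Sg, delta p Sg q = 1 := by
    rw [Finset.sum_eq_single_of_mem (pPrime p) hp, delta_pPrime hp]
    intro q hq hne
    exact delta_of_mem_ne hq hne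
  have h2 : ∑ q ∈ Q, delta p Sg q = Q.card := by
    rw [Finset.card_eq_sum_ones]
    refine Finset.sum_congr rfl fun q hq => ?_
    exact delta_of_not_mem (fun h => (Finset.disjoint_left.1 hdisj h hq))
  rw [h1, h2, add_comm]

end Delta

section Main

variable {𝒪 : Type} [CommRing 𝒪] [IsDomain 𝒪] [IsDiscreteValuationRing 𝒪]
  [IsAdicComplete (maximalIdeal 𝒪) 𝒪]

/-- **The assembly.** -/
theorem twSelmer_of_inputs (p : ℕ) [Fact p.Prime] [Algebra (ZMod p) (ResidueField 𝒪)]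
    [Module.Finite (ZMod p) (ResidueField 𝒪)]
    (ρbar : ResidualGaloisRep (ResidueField 𝒪)) (S Smin : Finset ℕ) (hpSmin : p ∈ Smin)
    (hSmin : Smin ⊆ S) (𝒟 : Finset ℕ → Cond 𝒪)
    (A : Rep.{0} (ResidueField 𝒪) GWIface21.GQ) [Finite A] (Lk : LocCondK A)
    -- TAN (+ membership halves of LOC / FLAT)
    (htan : TanSel p ρbar 𝒟 Smin A Lk)
    -- GW
    (P : LocPairing p (resScal p A)) (hgw : GWLe (resScal p A) P)
    (hmono : DualSelMono (resScal p A) P)
    -- TW + the choice of Frobenius elements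
    (Φ : ℕ → GWIface21.GQ) (hΦ : ∀ q : Nat.Primes, Φ (q : ℕ) ∈ (primeLocalToGlobal q).range)
    (htw : TWSetExists p ρbar S (dualT p (resScal p A)) Φ)
    -- LOC: global facts
    (hur : IsUnramOutside p (toPrimes Smin) (resScal p A))
    (hfinS : ∀ q ∈ toPrimes Smin, Finite ↥(Lk q ⊓ contLocK q A))
    (hh0 : h0 p (resScal p A) = 0)
    (hh0c : h0c p (resScal p A) = finrank (ZMod p) (ResidueField 𝒪))
    -- LOC / FLAT: the local counts over `k`
    (hmin : ∀ q ∈ toPrimes Smin, q ≠ pPrime p → Nat.card ↥(Lk q ⊓ contLocK q A) ≤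
      Nat.card ↥((Rep.res (primeLocalToGlobal q) A).ρ.invariants))
    (hpcount : Nat.card ↥(Lk (pPrime p) ⊓ contLocK (pPrime p) A) ≤
      Nat.card ↥((Rep.res (primeLocalToGlobal (pPrime p)) A).ρ.invariants) *
        Nat.card (ResidueField 𝒪))
    (hQ : ∀ q : Nat.Primes, (q : ℕ) ∉ S → p ∣ (q : ℕ) - 1 → FrobSplit ρbar (q : ℕ) →
      Finite ↥(contLocK q A) ∧ Nat.card ↥(contLocK q A) ≤
        Nat.card ↥((Rep.res (primeLocalToGlobal q) A).ρ.invariants) * Nat.card (ResidueField 𝒪)) :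
    TWSelmer p ρbar S Smin 𝒟 := by
  classical
  set Sg : Finset Nat.Primes := toPrimes Smin with hSg
  have hpSg : pPrime p ∈ Sg := mem_toPrimes.2 hpSmin
  set d : ℕ := finrank (ZMod p) (ResidueField 𝒪) with hd
  -- finiteness of the local terms at the primes of `Smin`
  have hfinSg : ∀ (Sg' : Finset Nat.Primes) (q : ↥Sg'), q.1 ∈ Sg →
      FiniteDimensional (ZMod p) ↥(LocCond.fin (locCond p A Lk Sg Sg') q) := by
    intro Sg' q hq
    rw [fin_locCond_of_mem A Lk q hq]
    haveI := hfinS q.1 hq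
    haveI : Finite ↥(subRSloc p q.1 A (Lk q.1 ⊓ contLocK q.1 A)) :=
      Finite.of_equiv _ (subRSlocEquiv q.1 A _).symm
    exact Module.Finite.of_finite
  -- the dual Selmer group at level `Smin` and the number `r`
  set L0 : LocCond Sg (resScal p A) := locCond p A Lk Sg Sg with hL0
  have hfD : FiniteDimensional (ZMod p) ↥(dualSel P Sg L0) :=
    (hgw Sg hpSg hur L0 (fun q => hfinSg Sg q q.2)).2.1
  refine ⟨finrank (ZMod p) ↥(dualSel P Sg L0), fun n => ?_⟩
  set r : ℕ := finrank (ZMod p) ↥(dualSel P Sg L0) with hr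
  -- cocycle representatives
  obtain ⟨cl, hcoc, hlev, hncob, hcl⟩ := exists_cocycle_section Sg (dualT p (resScal p A)) (dualSel P Sg L0)
    (fun y hy => (Submodule.mem_inf.1 hy).1)
  -- the Taylor–Wiles set
  obtain ⟨qv, hinj, hqv, hfrob, hkill⟩ :=
    @htw n ↥(dualSel P Sg L0) _ _ hfD cl hcoc hlev hncob r le_rfl
  refine ⟨qv, hinj, hqv, hfrob, ?_⟩
  -- the new primes
  let qP : Fin r → Nat.Primes := fun i => ⟨qv i, (hqv i).1⟩
  have hqP_inj : Function.Injective qP := fun i j h => hinj (congrArg (fun x : Nat.Primes => (x : ℕ)) h)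
  set Q : Finset Nat.Primes := Finset.univ.image qP with hQdef
  have hQcard : Q.card = r := by
    rw [hQdef, Finset.card_image_of_injective _ hqP_inj, Finset.card_univ, Fintype.card_fin]
  have hdisj : Disjoint Sg Q := by
    rw [Finset.disjoint_left]
    intro q hq hqQ
    obtain ⟨i, -, rfl⟩ := Finset.mem_image.1 hqQ
    exact (hqv i).2.1 (hSmin (mem_toPrimes.1 hq))
  set Sg' : Finset Nat.Primes := toPrimes (Smin ∪ Finset.univ.image qv) with hSg'
  have hSg'eq : Sg' = Sg ∪ Q := by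
    ext q
    rw [hSg', mem_toPrimes, Finset.mem_union, Finset.mem_union, hSg, mem_toPrimes, hQdef,
      Finset.mem_image, Finset.mem_image]
    refine or_congr Iff.rfl ⟨?_, ?_⟩
    · rintro ⟨i, hi, h⟩
      exact ⟨i, hi, Subtype.ext h⟩
    · rintro ⟨i, hi, h⟩
      exact ⟨i, hi, congrArg (fun x : Nat.Primes => (x : ℕ)) h⟩
  have hsub : Sg ⊆ Sg' := by
    rw [hSg'eq]; exact Finset.subset_union_left
  have hnew : ∀ q ∈ Sg', q ∉ Sg → ∃ i, q = qP i := by
    intro q hq hqS
    rw [hSg'eq, Finset.mem_union] at hq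
    rcases hq with hq | hq
    · exact absurd hq hqS
    · obtain ⟨i, -, rfl⟩ := Finset.mem_image.1 hq
      exact ⟨i, rfl⟩
  have hpSg' : pPrime p ∈ Sg' := hsub hpSg
  have hur' : IsUnramOutside p Sg' (resScal p A) := fun q hq => hur q (fun h => hq (hsub h))
  set L' : LocCond Sg' (resScal p A) := locCond p A Lk Sg Sg' with hL'
  -- `L'` extends `L0` by `⊤`
  have hext : LocCond.ExtendsTop L0 L' hsub := by
    refine ⟨fun q => ?_, fun q hq => ?_⟩
    · rw [hL', hL0, fin_locCond_of_mem A Lk (⟨q.1, hsub q.2⟩ : ↥Sg') q.2,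
        fin_locCond_of_mem A Lk q q.2]
    · rw [hL', fin_locCond_of_not_mem A Lk q hq, contLoc_eq_subRSloc]
  -- the dual Selmer group dies
  have hdual : dualSel P Sg' L' = ⊥ := by
    refine dualSel_eq_bot (resScal p A) P hmono hsub hpSg hur L0 L' hext cl hcl (fun q => Φ (q : ℕ))
      (fun q _ _ => hΦ q) (fun dd hdd => hkill dd fun i => ?_)
    have hmem : qP i ∈ Sg' := by
      rw [hSg'eq]
      exact Finset.mem_union_right _ (Finset.mem_image_of_mem _ (Finset.mem_univ i))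
    have hnot : qP i ∉ Sg := fun h => Finset.disjoint_left.1 hdisj h
      (Finset.mem_image_of_mem _ (Finset.mem_univ i))
    exact hdd (qP i) hmem hnot
  -- the Taylor–Wiles primes satisfy the hypotheses of `hQ`
  have hQi : ∀ i, Finite ↥(contLocK (qP i) A) ∧ Nat.card ↥(contLocK (qP i) A) ≤
      Nat.card ↥((Rep.res (primeLocalToGlobal (qP i)) A).ρ.invariants) *
        Nat.card (ResidueField 𝒪) := fun i =>
    hQ (qP i) (hqv i).2.1 (Dvd.dvd.trans (dvd_pow_self p (Nat.succ_ne_zero n)) (hqv i).2.2)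
      (hfrob i)
  have hfin' : ∀ q : ↥Sg', FiniteDimensional (ZMod p) ↥(LocCond.fin L' q) := by
    intro q
    by_cases hq : q.1 ∈ Sg
    · exact hfinSg Sg' q hq
    · rw [hL', fin_locCond_of_not_mem A Lk q hq]
      obtain ⟨i, hi⟩ := hnew q.1 q.2 hq
      haveI : Finite ↥(contLocK q.1 A) := by
        rw [hi]; exact (hQi i).1
      haveI : Finite ↥(subRSloc p q.1 A (contLocK q.1 A)) :=
        Finite.of_equiv _ (subRSlocEquiv q.1 A _).symm
      exact Module.Finite.of_finite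
  -- the count
  have hδ : ∑ q : ↥Sg', delta p Sg q.1 = r + 1 := by
    rw [Finset.sum_coe_sort Sg' (fun q => delta p Sg q), hSg'eq, sum_delta hpSg hdisj, hQcard]
  have hloc : ∀ q : ↥Sg', finrank (ZMod p) ↥(LocCond.fin L' q) ≤
      h0loc p q.1 (resScal p A) + d * delta p Sg q.1 := by
    intro q
    by_cases hq : q.1 ∈ Sg
    · rw [hL', fin_locCond_of_mem A Lk q hq]
      haveI := hfinS q.1 hq
      by_cases hqp : q.1 = pPrime p
      · rw [hqp, delta_pPrime hpSg]
        haveI := hfinS (pPrime p) hpSg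
        refine finrank_subRSloc_le_of_card (pPrime p) A _ 1 ?_
        rw [pow_one]
        exact hpcount
      · rw [delta_of_mem_ne hq hqp]
        refine finrank_subRSloc_le_of_card q.1 A _ 0 ?_
        rw [pow_zero, mul_one]
        exact hmin q.1 hq hqp
    · rw [hL', fin_locCond_of_not_mem A Lk q hq, delta_of_not_mem hq]
      obtain ⟨i, hi⟩ := hnew q.1 q.2 hq
      rw [hi]
      haveI := (hQi i).1
      refine finrank_subRSloc_le_of_card (qP i) A _ 1 ?_
      rw [pow_one]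
      exact (hQi i).2
  obtain ⟨hXfin, hXcard⟩ := card_selK_le A Lk hsub hpSg' P hgw hur' hfin' hdual hh0 d r hh0c
    (fun q => delta p Sg q.1) hδ hloc
  refine ⟨↥(selK A Lk Sg Sg'), hXfin, ?_, fun DQ => ?_⟩
  · rw [card_k_eq (p := p) (k := ResidueField 𝒪)]
    exact hXcard
  · obtain ⟨τ, hτinj, hτmem⟩ := htan (Smin ∪ Finset.univ.image qv) Finset.subset_union_left DQ
    exact ⟨fun f => ⟨τ f, hτmem f⟩, fun f g h => hτinj (congrArg Subtype.val h)⟩

end Main

end Fermat.Agent.ES.T56.TopAsm27
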