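/-
Programme T (S56, Taylor–Wiles primes), TW chapter (helper3): **the TW input of the TOP assembly**
`TopAsm27.twSelmer_of_inputs`, in helper27's literal shape.

* `frobChoice : ℕ → G_ℚ` : for a prime `q`, the image under `primeLocalToGlobal q` of an element of the
  local Galois group which is an honest Frobenius element at a place over `q` (`TWFinal3`,
  i.e. `LocSurj16` + existence of Frobenius elements); `1` for non-primes;
* `frobChoice_mem_range` : the hypothesis `hΦ` of `twSelmer_of_inputs`;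
* `frobChoice_spec`      : `∃ A, A.LiesOverPrime q ∧ A.IsFrobeniusAt (frobChoice q) q`;
* **`twSetExists`** : `TopAsm27.TWSetExists p ρbar S (dualT p (resScal p (ad0 R))) frobChoice` from S56's
  literal hypotheses on `ρ̄` — the hypothesis `htw` of `twSelmer_of_inputs`.
-/
import Mathlib
import Fermat.Agent.ES.T56.TopAsm27
import Fermat.Agent.ES.T56.TWChapter3

set_option autoImplicit false
set_option linter.unusedSectionVars false
set_option linter.style.haveILetI false

open CategoryTheory groupCohomology ExtCitation Polynomial IsLocalRing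

namespace Fermat.Agent.ES.T56.TWTop3

open Fermat.Agent.ES.T56.TWHypAd3 Fermat.Agent.ES.T56.TWKill3 Fermat.Agent.ES.T56.ResScal27
  Fermat.Agent.ES.T56.TWDetChi3

open Fermat.Agent.ES.T56.GWIface21 hiding GQ
open Fermat.Agent.ES.T56.Ad0Rep10 hiding sl2

/-- The chosen Frobenius elements: images of elements of the local Galois groups. -/
noncomputable def frobChoice (q : ℕ) : GQ :=
  if hq : q.Prime then
    primeLocalToGlobal ⟨q, hq⟩ (Classical.choose (TWFinal3.exists_local_frobenius ⟨q, hq⟩))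
  else 1

theorem frobChoice_eq (q : Nat.Primes) :
    frobChoice (q : ℕ) =
      primeLocalToGlobal q (Classical.choose (TWFinal3.exists_local_frobenius q)) := by
  obtain ⟨q, hq⟩ := q
  unfold frobChoice
  rw [dif_pos hq]

/-- `hΦ` of `TopAsm27.twSelmer_of_inputs`. -/
theorem frobChoice_mem_range (q : Nat.Primes) :
    frobChoice (q : ℕ) ∈ (primeLocalToGlobal q).range :=
  ⟨_, (frobChoice_eq q).symm⟩

/-- `frobChoice q` is a Frobenius element at a place over `q`. -/
theorem frobChoice_spec (q : ℕ) (hq : q.Prime) :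
    ∃ A : ValuationSubring (AlgebraicClosure ℚ), A.LiesOverPrime q ∧
      A.IsFrobeniusAt (frobChoice q) q := by
  have h := Classical.choose_spec (TWFinal3.exists_local_frobenius ⟨q, hq⟩)
  rw [← frobChoice_eq ⟨q, hq⟩] at h
  exact h

variable {𝒪 : Type} [CommRing 𝒪] [IsDomain 𝒪] [IsDiscreteValuationRing 𝒪]
  [IsAdicComplete (maximalIdeal 𝒪) 𝒪] (p : ℕ) [hp : Fact p.Prime]
  [Algebra (ZMod p) (ResidueField 𝒪)] [Finite (ResidueField 𝒪)]
  (ρbar : ResidualGaloisRep (ResidueField 𝒪))
  (R : GQ →* Matrix (Fin 2) (Fin 2) (ResidueField 𝒪))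
  (b : Module.Basis (Fin 2) (ResidueField 𝒪) ρbar.V)
  (hR : ∀ σ, R σ = LinearMap.toMatrix b b (ρbar.ρ σ))

include hR in
/-- **The TW input of the TOP assembly.** -/
theorem twSetExists (hp2 : p ≠ 2)
    (habs : ρbar.IsAbsolutelyIrreducible)
    (hdet : (GaloisRepAdic.ofResidualGaloisRep ρbar).DetIsCyclotomic p)
    (hsplit : ∀ σ : GQ, ∃ α β : ResidueField 𝒪,
      LinearMap.charpoly (ρbar.ρ σ) = (X - C α) * (X - C β))
    (hTW : ∀ (K : Type) [Field K] [Algebra (ResidueField 𝒪) K] (G : Subgroup GQ), G.index = 2 →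
      ∀ V : Submodule K (ρbar.baseChange K).V,
        (∀ σ ∈ G, ∀ x ∈ V, (ρbar.baseChange K).ρ σ x ∈ V) → V = ⊥ ∨ V = ⊤)
    (S : Finset ℕ) (hpS : p ∈ S) :
    TopAsm27.TWSetExists p ρbar S (dualT p (resScal p (ad0 R))) frobChoice := by
  intro n D _ _ _ cl hcoc hlev hncob r hr
  haveI : CharP (ResidueField 𝒪) p := charP_of_hdet ρbar p hdet
  have h2 : (2 : ResidueField 𝒪) ≠ 0 := two_ne_zero_of_hdet ρbar p hdet hp2
  have hχ := TWDualIso3.det_eq_algebraMap_cycloChar p R ρbar b hR hdet
  exact exists_tw_set_final ρbar R b hR p hp2 habs hdet hsplit hTW (TWChapter3.gtFinite p hp2) n S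
    hpS (dualT p (resScal p (ad0 R))).ρ (TWDualIso3.dualIso p R h2)
    (TWDualIso3.dualIso_equivariant p R h2 hχ) cl hcoc hlev hncob frobChoice
    (fun q hq _ => frobChoice_spec q hq) r hr

end Fermat.Agent.ES.T56.TWTop3
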