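/-
Programme T (S56), chapter KUM (Kummer theory over `p`-adic fields), leaf (C1-a) — helper17.

**The index of the `p`-th powers in `ℚ_pˣ` is `p²`** (`p` odd), from main's
`PT/GLOB/LocalPowerIndex5` (`index_powRange_units` for `Λ = ℤ_[p]`, `index_powRange_of_exact` for the
valuation sequence `1 → ℤ_pˣ → ℚ_pˣ → ℤ → 0`).

* `card_quot_span_p : Nat.card (ℤ_[p] ⧸ span {p}) = p`;
* `padicInt_units_pow_eq_one` : `ℤ_pˣ` has no `p`-torsion (`p` odd);
* `index_powRange_padicInt_units : [ℤ_pˣ : ℤ_pˣᵖ] = p`;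
* `valHom : ℚ_[p]ˣ →* Multiplicative ℤ`, `kerValHomEquiv : valHom.ker ≃* ℤ_[p]ˣ`;
* **`card_padic_units_mod_pow : Nat.card (ℚ_[p]ˣ ⧸ (powMonoidHom p).range) = p ^ 2`**.
-/
import Mathlib
import Fermat.Agent.PT.GLOB.LocalPowerIndex5

set_option autoImplicit false
set_option linter.unusedSectionVars false
set_option linter.style.haveILetI false

namespace Fermat.Agent.ES.T56.KumQpPow17

open Fermat.Agent.PT.GLOB.LocalPowerIndex5

variable (p : ℕ) [hp : Fact p.Prime]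

/-! ### `ℤ_[p]` -/

theorem isAdicComplete_span_p : IsAdicComplete (Ideal.span {(p : ℤ_[p])}) ℤ_[p] := by
  rw [← PadicInt.maximalIdeal_eq_span_p]
  infer_instance

/-- `ℤ_[p] ⧸ (p) ≃ ZMod p`. -/
noncomputable def quotEquivZMod : (ℤ_[p] ⧸ Ideal.span {(p : ℤ_[p])}) ≃+* ZMod p :=
  (Ideal.quotEquivOfEq (by rw [PadicInt.ker_toZMod, PadicInt.maximalIdeal_eq_span_p])).trans
    (RingHom.quotientKerEquivOfSurjective
      (ZMod.ringHom_surjective (PadicInt.toZMod : ℤ_[p] →+* ZMod p)))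

theorem card_quot_span_p : Nat.card (ℤ_[p] ⧸ Ideal.span {(p : ℤ_[p])}) = p := by
  rw [Nat.card_congr (quotEquivZMod p).toEquiv, Nat.card_zmod]

theorem finite_quot_span_p : Finite (ℤ_[p] ⧸ Ideal.span {(p : ℤ_[p])}) :=
  Nat.finite_of_card_ne_zero (by rw [card_quot_span_p]; exact hp.out.ne_zero)

theorem padicInt_regular (x : ℤ_[p]) (h : (p : ℤ_[p]) * x = 0) : x = 0 := by
  rcases mul_eq_zero.mp h with h | h
  · exact absurd h (by exact_mod_cast hp.out.ne_zero)
  · exact h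

/-- `ℤ_pˣ` has no `p`-torsion for `p` odd. -/
theorem padicInt_units_pow_eq_one (hp2 : p ≠ 2) (u : ℤ_[p]ˣ) (h : u ^ p = 1) : u = 1 := by
  haveI := isAdicComplete_span_p p
  refine eq_one_of_pow_eq_one (Λ := ℤ_[p]) p hp.out hp2 hp.out (padicInt_regular p) u ?_ h
  rw [mem_U_one, ← PadicInt.maximalIdeal_eq_span_p, ← PadicInt.ker_toZMod, RingHom.mem_ker,
    map_sub, map_one, sub_eq_zero]
  have h1 : (PadicInt.toZMod (u : ℤ_[p]) : ZMod p) ^ p = 1 := by
    rw [← map_pow, ← Units.val_pow_eq_pow_val, h, Units.val_one, map_one]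
  rwa [ZMod.pow_card] at h1

theorem card_powKer_padicInt_units (hp2 : p ≠ 2) :
    Nat.card (powMonoidHom p : ℤ_[p]ˣ →* ℤ_[p]ˣ).ker = 1 := by
  rw [Nat.card_eq_one_iff_unique]
  refine ⟨⟨fun a b => Subtype.ext ?_⟩, ⟨1⟩⟩
  rw [padicInt_units_pow_eq_one p hp2 a.1 a.2, padicInt_units_pow_eq_one p hp2 b.1 b.2]

/-- `[ℤ_pˣ : ℤ_pˣᵖ] = p` for `p` odd. -/
theorem index_powRange_padicInt_units (hp2 : p ≠ 2) :
    (powMonoidHom p : ℤ_[p]ˣ →* ℤ_[p]ˣ).range.index = p := by
  haveI := isAdicComplete_span_p p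
  haveI := finite_quot_span_p p
  rw [index_powRange_units (Λ := ℤ_[p]) p hp.out hp2 hp.out (padicInt_regular p), if_pos rfl,
    card_quot_span_p, card_powKer_padicInt_units p hp2, mul_one]

/-! ### The valuation sequence -/

/-- The valuation `ℚ_pˣ → ℤ`. -/
noncomputable def valHom : ℚ_[p]ˣ →* Multiplicative ℤ where
  toFun x := Multiplicative.ofAdd (x : ℚ_[p]).valuation
  map_one' := by rw [Units.val_one, Padic.valuation_one]; rfl
  map_mul' x y := by
    rw [Units.val_mul, Padic.valuation_mul x.ne_zero y.ne_zero, ofAdd_add]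

theorem valHom_apply (x : ℚ_[p]ˣ) : valHom p x = Multiplicative.ofAdd (x : ℚ_[p]).valuation := rfl

theorem valHom_surjective : Function.Surjective (valHom p) := by
  intro z
  have hp0 : (p : ℚ_[p]) ≠ 0 := by exact_mod_cast hp.out.ne_zero
  refine ⟨(Units.mk0 (p : ℚ_[p]) hp0) ^ (Multiplicative.toAdd z), ?_⟩
  rw [valHom_apply, Units.val_zpow_eq_zpow_val, Units.val_mk0, Padic.valuation_zpow,
    Padic.valuation_p, mul_one]
  rfl

theorem norm_eq_one_of_mem_ker {x : ℚ_[p]ˣ} (hx : x ∈ (valHom p).ker) : ‖(x : ℚ_[p])‖ = 1 := by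
  rw [MonoidHom.mem_ker, valHom_apply, ofAdd_eq_one] at hx
  rw [Padic.norm_eq_zpow_neg_valuation x.ne_zero, hx, neg_zero, zpow_zero]

theorem mem_ker_of_norm_eq_one {x : ℚ_[p]ˣ} (hx : ‖(x : ℚ_[p])‖ = 1) : x ∈ (valHom p).ker := by
  rw [MonoidHom.mem_ker, valHom_apply, ofAdd_eq_one]
  have h1 := Padic.norm_eq_zpow_neg_valuation (p := p) x.ne_zero
  rw [hx] at h1
  have hp1 : (1 : ℝ) < p := by exact_mod_cast hp.out.one_lt
  have h2 : -(x : ℚ_[p]).valuation = 0 := by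
    by_contra hne
    rcases lt_or_gt_of_ne hne with hlt | hgt
    · have := zpow_lt_one_of_neg₀ hp1 hlt
      rw [← h1] at this
      exact lt_irrefl _ this
    · have := one_lt_zpow₀ hp1 hgt
      rw [← h1] at this
      exact lt_irrefl _ this
  exact neg_eq_zero.mp h2

/-- The kernel of the valuation is `ℤ_pˣ`. -/
noncomputable def kerValHomEquiv : (valHom p).ker ≃* ℤ_[p]ˣ where
  toFun x := PadicInt.mkUnits (norm_eq_one_of_mem_ker p x.2)
  invFun u := ⟨Units.map (PadicInt.Coe.ringHom : ℤ_[p] →+* ℚ_[p]).toMonoidHom u,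
    mem_ker_of_norm_eq_one p (PadicInt.isUnit_iff.mp u.isUnit)⟩
  left_inv x := by
    apply Subtype.ext
    apply Units.ext
    rfl
  right_inv u := by
    apply Units.ext
    apply Subtype.ext
    rfl
  map_mul' x y := by
    apply Units.ext
    apply Subtype.ext
    rfl

/-- **`[ℚ_pˣ : ℚ_pˣᵖ] = p²`** for `p` odd. -/
theorem index_powRange_padic_units (hp2 : p ≠ 2) :
    (powMonoidHom p : ℚ_[p]ˣ →* ℚ_[p]ˣ).range.index = p ^ 2 := by
  haveI : NeZero p := ⟨hp.out.ne_zero⟩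
  have htf : ∀ z : Multiplicative ℤ, z ^ p = 1 → z = 1 := by
    intro z hz
    have h1 : p • Multiplicative.toAdd z = 0 := by rw [← toAdd_pow, hz]; rfl
    rw [nsmul_eq_mul] at h1
    rcases mul_eq_zero.mp h1 with h | h
    · exact absurd (by exact_mod_cast h) hp.out.ne_zero
    · exact toAdd_eq_zero.mp h
  have hZ : (powMonoidHom p : Multiplicative ℤ →* Multiplicative ℤ).range.index = p := by
    rw [index_powRange_congr p (MulEquiv.funUnique Unit (Multiplicative ℤ)),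
      index_powRange_pi Unit p, Nat.card_unique, pow_one]
  rw [index_powRange_of_exact p (valHom p) (valHom_surjective p) htf,
    ← index_powRange_congr p (kerValHomEquiv p), index_powRange_padicInt_units p hp2, hZ, pow_two]

/-- **`#(ℚ_pˣ / ℚ_pˣᵖ) = p²`** for `p` odd. -/
theorem card_padic_units_mod_pow (hp2 : p ≠ 2) :
    Nat.card (ℚ_[p]ˣ ⧸ (powMonoidHom p : ℚ_[p]ˣ →* ℚ_[p]ˣ).range) = p ^ 2 :=
  index_powRange_padic_units p hp2

end Fermat.Agent.ES.T56.KumQpPow17
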