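/-
Programme T (S56), chapter KUM, export (C1) — helper17.

**`#Z¹_cont(G_p, 𝔽_p(ω)) ≤ p³`** (`p` odd), i.e. `#H¹_cont(G_p, 𝔽_p(ω)) ≤ p²`: Kummer theory for `ℚ_p`.
`G_p = Gal(PadicAlgCl p / ℚ_p)`, `ω` = the mod `p` cyclotomic character of `G_ℚ` pulled back along
the Prelude's `localGaloisToGlobal p`; "continuous" = the Prelude's `IsLevelConstant₁`.

A level cocycle `f : G_p → 𝔽_p(ω)` is `ζ ^ f g = g β / β` (`KumH90_17.exists_kummer_gen`, Hilbert 90),
`β ^ p ∈ ℚ_pˣ` is well defined modulo `p`-th powers up to the choice of `β`, and `f ↦ β ^ p` has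
fibres of size `≤ p` (coboundaries); `#(ℚ_pˣ / ℚ_pˣᵖ) = p²` (`KumQpPow17`).

* `kumBound_local` : the statement for `Γ = PadicAlgCl p ≃ₐ[ℚ_[p]] PadicAlgCl p`;
* **`kumBound`** : literally `OrdIface11.KumBound p` (the subtype `KumZ p` spelled out) for
  `primeLocalGaloisGroup (pPrime p)` / `primeLocalToGlobal (pPrime p)`.
-/
import Mathlib
import Fermat.Prelude.Def_ExtCitation_KummerBridge
import Fermat.Prelude.Def_ExtEndgame_ProductionDatum
import Fermat.Agent.PT.BR.LocInj13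
import Fermat.Agent.ES.T56.KumQpPow17
import Fermat.Agent.ES.T56.KumH90_17

set_option autoImplicit false
set_option linter.unusedSectionVars false
set_option linter.style.haveILetI false

namespace Fermat.Agent.ES.T56.KumOrdP17

open ExtCitation groupCohomology Fermat.Agent.ES.T56.KumH90_17 Fermat.Agent.ES.T56.KumQpPow17
  Fermat.Agent.PT.BR.LocInj13

variable (p : ℕ) [hp : Fact p.Prime]

local notation "Ω" => PadicAlgCl p
local notation "Γ" => (PadicAlgCl p ≃ₐ[ℚ_[p]] PadicAlgCl p)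

local instance neZero17 : NeZero p := ⟨hp.out.ne_zero⟩

local instance isGaloisPadic17 : IsGalois ℚ_[p] Ω := IsAlgClosure.isGalois ℚ_[p] Ω

/-- The mod `p` cyclotomic character on `G_p`, with values in `ZMod p`. -/
noncomputable def chi (g : Γ) : ZMod p :=
  ((cycloChar p (localGaloisToGlobal p g) : (ZMod p)ˣ) : ZMod p)

/-- `σ` raises every `p`-th root of unity of `ℚ̄` to the power `cycloChar p σ`. -/
theorem apply_eq_pow_cycloChar (σ : AlgebraicClosure ℚ ≃ₐ[ℚ] AlgebraicClosure ℚ)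
    {t : AlgebraicClosure ℚ} (ht : t ^ p = 1) :
    σ t = t ^ ((cycloChar p σ : (ZMod p)ˣ) : ZMod p).val := by
  have htu : IsUnit t := IsUnit.of_pow_eq_one ht (NeZero.ne p)
  obtain ⟨u, rfl⟩ := htu
  have hu : u ∈ rootsOfUnity p (AlgebraicClosure ℚ) := by
    rw [mem_rootsOfUnity]
    exact Units.ext (by simpa using ht)
  exact modularCyclotomicCharacter.spec (AlgebraicClosure ℚ) (card_rootsOfUnity_eq_self p)
    (σ : AlgebraicClosure ℚ ≃+* AlgebraicClosure ℚ) hu

/-- A primitive `p`-th root of unity of `PadicAlgCl p` on which `G_p` acts through `chi`. -/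
theorem exists_zeta : ∃ ζ : Ωˣ, IsPrimitiveRoot ζ p ∧ ∀ g : Γ, g • ζ = ζ ^ (chi p g).val := by
  haveI : NeZero (p : AlgebraicClosure ℚ) := ⟨Nat.cast_ne_zero.mpr (NeZero.ne p)⟩
  obtain ⟨ζ₀, hζ₀⟩ := HasEnoughRootsOfUnity.exists_primitiveRoot (AlgebraicClosure ℚ) p
  have hζ' : IsPrimitiveRoot (padicEmbedding p ζ₀) p :=
    hζ₀.map_of_injective (padicEmbedding p).injective
  have hunit : IsUnit (padicEmbedding p ζ₀) := hζ'.isUnit (NeZero.ne p)
  obtain ⟨ζ, hζ⟩ := hunit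
  refine ⟨ζ, IsPrimitiveRoot.coe_units_iff.mp (hζ ▸ hζ'), fun g => ?_⟩
  apply Units.ext
  rw [AlgEquiv.smul_units_def, Units.coe_map, MonoidHom.coe_coe, Units.val_pow_eq_pow_val, hζ,
    ← padicEmbedding_localGaloisToGlobal, apply_eq_pow_cycloChar p _ hζ₀.pow_eq_one, map_pow]
  rfl

/-- The set of level `ω`-cocycles `G_p → ZMod p`. -/
def IsKumCocycle (f : Γ → ZMod p) : Prop :=
  IsLevelConstant₁ (localGaloisToGlobal p) f ∧ ∀ g h, f (g * h) = f g + chi p g * f h

/-- The elements of `Ωˣ` fixed by `G_p` come from `ℚ_pˣ`. -/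
theorem exists_unit_of_fixed {b : Ωˣ} (hb : ∀ g : Γ, g • b = b) :
    ∃ a : ℚ_[p]ˣ, Units.map (algebraMap ℚ_[p] Ω : ℚ_[p] →* Ω) a = b := by
  have h1 : (b : Ω) ∈ Set.range (algebraMap ℚ_[p] Ω) := by
    rw [InfiniteGalois.mem_range_algebraMap_iff_fixed]
    intro g
    have := congrArg Units.val (hb g)
    rwa [AlgEquiv.smul_units_def, Units.coe_map, MonoidHom.coe_coe] at this
  obtain ⟨a, ha⟩ := h1
  have ha0 : a ≠ 0 := by
    rintro rfl
    rw [map_zero] at ha
    exact b.ne_zero ha.symm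
  exact ⟨Units.mk0 a ha0, Units.ext ha⟩

theorem smul_map_algebraMap (a : ℚ_[p]ˣ) (g : Γ) :
    g • Units.map (algebraMap ℚ_[p] Ω : ℚ_[p] →* Ω) a =
      Units.map (algebraMap ℚ_[p] Ω : ℚ_[p] →* Ω) a := by
  apply Units.ext
  rw [AlgEquiv.smul_units_def, Units.coe_map, MonoidHom.coe_coe, Units.coe_map, MonoidHom.coe_coe,
    AlgEquiv.commutes]

section Main

variable {ζ : (PadicAlgCl p)ˣ} (hζ : IsPrimitiveRoot ζ p)
  (hχ : ∀ g : PadicAlgCl p ≃ₐ[ℚ_[p]] PadicAlgCl p, g • ζ = ζ ^ (chi p g).val)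

include hζ hχ

/-- Kummer generator and its `p`-th power in `ℚ_pˣ`. -/
theorem exists_gen {f : Γ → ZMod p} (hf : IsKumCocycle p f) :
    ∃ (β : Ωˣ) (a : ℚ_[p]ˣ), (∀ g : Γ, zetaPow ζ (f g) = g • β / β) ∧
      Units.map (algebraMap ℚ_[p] Ω : ℚ_[p] →* Ω) a = β ^ p := by
  obtain ⟨β, hβ⟩ := exists_kummer_gen (⊤ : Subgroup Γ) hζ (chi p) (fun g _ => hχ g) f
    ((isLevelConstant₁_iff p f).mp hf.1) (fun g _ h _ => hf.2 g h)
  obtain ⟨a, ha⟩ := exists_unit_of_fixed p (b := β ^ p)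
    (fun g => pow_fixed (⊤ : Subgroup Γ) hζ (fun n _ => hβ n trivial) trivial)
  exact ⟨β, a, fun g => hβ g trivial, ha⟩

/-- The Kummer class of a cocycle (choice of a generator). -/
noncomputable def kumClass (f : {f : Γ → ZMod p // IsKumCocycle p f}) :
    ℚ_[p]ˣ ⧸ (powMonoidHom p : ℚ_[p]ˣ →* ℚ_[p]ˣ).range :=
  QuotientGroup.mk (exists_gen p hζ hχ f.2).choose_spec.choose

/-- Cocycles with the same Kummer class differ by a coboundary. -/
theorem exists_coboundary_of_kumClass_eq {f f' : {f : Γ → ZMod p // IsKumCocycle p f}}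
    (h : kumClass p hζ hχ f = kumClass p hζ hχ f') :
    ∃ m : ZMod p, ∀ g : Γ, f.1 g + m = f'.1 g + chi p g * m := by
  obtain ⟨hβ, ha⟩ := (exists_gen p hζ hχ f.2).choose_spec.choose_spec
  obtain ⟨hβ', ha'⟩ := (exists_gen p hζ hχ f'.2).choose_spec.choose_spec
  set β := (exists_gen p hζ hχ f.2).choose
  set a := (exists_gen p hζ hχ f.2).choose_spec.choose
  set β' := (exists_gen p hζ hχ f'.2).choose
  set a' := (exists_gen p hζ hχ f'.2).choose_spec.choose
  have h1 : a'⁻¹ * a ∈ (powMonoidHom p : ℚ_[p]ˣ →* ℚ_[p]ˣ).range :=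
    QuotientGroup.eq.mp h.symm
  obtain ⟨b₀, hb₀⟩ := h1
  rw [powMonoidHom_apply] at hb₀
  have hab : a = a' * b₀ ^ p := by rw [hb₀, mul_inv_cancel_left]
  obtain ⟨m, hm⟩ := exists_coboundary_of_pow_eq (⊤ : Subgroup Γ) hζ (chi p) (fun g _ => hχ g)
    (f := f.1) (f' := f'.1) (β := β) (β' := β')
    (b := Units.map (algebraMap ℚ_[p] Ω : ℚ_[p] →* Ω) b₀)
    (fun n _ => hβ n) (fun n _ => hβ' n) (fun n _ => smul_map_algebraMap p b₀ n)
    (by rw [← ha, ← ha', hab, map_mul, map_pow])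
  exact ⟨m, fun g => hm g trivial⟩

end Main

/-- **(C1), local form.**  The level `ω`-cocycles `G_p → ZMod p` form a finite set of cardinality
at most `p³` (`p` odd). -/
theorem kumBound_local (hp2 : p ≠ 2) :
    Finite {f : Γ → ZMod p // IsKumCocycle p f} ∧
      Nat.card {f : Γ → ZMod p // IsKumCocycle p f} ≤ p ^ 3 := by
  classical
  obtain ⟨ζ, hζ, hχ⟩ := exists_zeta p
  have hcardQ := card_padic_units_mod_pow p hp2
  haveI hfinQ : Finite (ℚ_[p]ˣ ⧸ (powMonoidHom p : ℚ_[p]ˣ →* ℚ_[p]ˣ).range) :=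
    Nat.finite_of_card_ne_zero (by rw [hcardQ]; exact pow_ne_zero _ hp.out.ne_zero)
  -- an element on which `ω ≠ 1`, if any
  by_cases hω : ∀ g : Γ, chi p g = 1
  · -- `ω = 1` on `G_p`: the Kummer class is injective
    have hinj : Function.Injective (kumClass p hζ hχ) := by
      intro f f' h
      obtain ⟨m, hm⟩ := exists_coboundary_of_kumClass_eq p hζ hχ h
      apply Subtype.ext
      funext g
      have := hm g
      rw [hω g, one_mul] at this
      exact add_right_cancel this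
    haveI := Finite.of_injective _ hinj
    refine ⟨inferInstance, ?_⟩
    calc Nat.card {f : Γ → ZMod p // IsKumCocycle p f}
        ≤ Nat.card (ℚ_[p]ˣ ⧸ (powMonoidHom p : ℚ_[p]ˣ →* ℚ_[p]ˣ).range) :=
          Nat.card_le_card_of_injective _ hinj
      _ = p ^ 2 := hcardQ
      _ ≤ p ^ 3 := Nat.pow_le_pow_right hp.out.pos (by norm_num)
  · push Not at hω
    obtain ⟨g₀, hg₀⟩ := hω
    let Φ : {f : Γ → ZMod p // IsKumCocycle p f} →
        (ℚ_[p]ˣ ⧸ (powMonoidHom p : ℚ_[p]ˣ →* ℚ_[p]ˣ).range) × ZMod p :=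
      fun f => (kumClass p hζ hχ f, f.1 g₀)
    have hinj : Function.Injective Φ := by
      intro f f' h
      have h1 : kumClass p hζ hχ f = kumClass p hζ hχ f' := congrArg Prod.fst h
      have h2 : f.1 g₀ = f'.1 g₀ := congrArg Prod.snd h
      obtain ⟨m, hm⟩ := exists_coboundary_of_kumClass_eq p hζ hχ h1
      have hm0 : m = 0 := by
        have h3 := hm g₀
        rw [h2] at h3
        have h4 : (chi p g₀ - 1) * m = 0 := by
          rw [sub_mul, one_mul, sub_eq_zero]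
          exact (add_left_cancel h3).symm
        rcases mul_eq_zero.mp h4 with h5 | h5
        · exact absurd (sub_eq_zero.mp h5) hg₀
        · exact h5
      apply Subtype.ext
      funext g
      have := hm g
      rwa [hm0, mul_zero, add_zero, add_zero] at this
    haveI := Finite.of_injective _ hinj
    refine ⟨inferInstance, ?_⟩
    calc Nat.card {f : Γ → ZMod p // IsKumCocycle p f}
        ≤ Nat.card ((ℚ_[p]ˣ ⧸ (powMonoidHom p : ℚ_[p]ˣ →* ℚ_[p]ˣ).range) × ZMod p) :=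
          Nat.card_le_card_of_injective _ hinj
      _ = p ^ 2 * p := by rw [Nat.card_prod, hcardQ, Nat.card_zmod]
      _ = p ^ 3 := by ring

/-- **(C1)**, literally `OrdIface11.KumBound p` (helper11's contract, the subtype `KumZ p` spelled
out): `#Z¹_cont(G_p, 𝔽_p(ω)) ≤ p³` for `p` odd. -/
theorem kumBound (hp2 : p ≠ 2) :
    Finite {f : primeLocalGaloisGroup (pPrime p) → ZMod p //
        IsLevelConstant₁ (primeLocalToGlobal (pPrime p)) f ∧
          ∀ g h, f (g * h) = f g +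
            ((cycloChar p (primeLocalToGlobal (pPrime p) g) : (ZMod p)ˣ) : ZMod p) * f h} ∧
      Nat.card {f : primeLocalGaloisGroup (pPrime p) → ZMod p //
        IsLevelConstant₁ (primeLocalToGlobal (pPrime p)) f ∧
          ∀ g h, f (g * h) = f g +
            ((cycloChar p (primeLocalToGlobal (pPrime p) g) : (ZMod p)ˣ) : ZMod p) * f h} ≤ p ^ 3 :=
  kumBound_local p hp2

end Fermat.Agent.ES.T56.KumOrdP17
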