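/-
Programme T (S56), chapter LOC, leg ORD-p (helper11): **(b) the count** — `OrdIface11.OrdCount`.

`#L_p^{ord} ≤ |k| · #H⁰(G_p, ad⁰ρ̄)`, from chapter KUM's `KumBound p` (`#Z¹_cont(G_p, 𝔽_p(ω)) ≤ p³`).

`Z` := level-constant `W⁰(v)`-valued cocycles of `ad⁰ρ̄|_{G_p}`; `L_p^{ord}` is the image of `Z` in `H¹`.
* `G_p` acts on `W⁰(v)` through `ω` (`conj_W0`), so the coordinates of `c ∈ Z` in an `𝔽_p`-basis of `W⁰(v)` are elements
  of `KumZ p`: `#Z ≤ (p³)^{dim} = (#W⁰)³ ≤ |k|³` (`card_W0_le`);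
* the kernel of `Z → H¹` contains `{d m : m ∈ W¹(v)}`, of cardinality `#W¹/#(W¹ ∩ H⁰) ≥ |k|²/#H⁰` (`card_W1_ge`).
-/
import Mathlib
import Fermat.Prelude.Def_ExtCitation_KummerBridge
import Fermat.Agent.ES.T56.OrdIface11

set_option autoImplicit false
set_option linter.unusedSectionVars false
set_option linter.style.haveILetI false

namespace Fermat.Agent.ES.T56.OrdCount11

open CategoryTheory groupCohomology ExtCitation Fermat.Agent.S53 Fermat.Agent.ES.T56.Ad0Rep10
  Fermat.Agent.ES.T56.OrdIface11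

/-! ### Counting lemmas -/

/-- First isomorphism theorem, in cardinalities (`Nat.card`, no finiteness needed). -/
theorem card_ker_mul_card_range {R M N : Type*} [Ring R] [AddCommGroup M] [AddCommGroup N]
    [Module R M] [Module R N] (f : M →ₗ[R] N) :
    Nat.card (LinearMap.ker f) * Nat.card (LinearMap.range f) = Nat.card M := by
  have h1 := (f.toAddMonoidHom.ker).card_mul_index
  rw [AddSubgroup.index_ker] at h1
  exact h1

/-- A linear form on a finite space has a kernel of cardinality at least `#M / #k`. -/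
theorem card_le_card_ker_mul {k M : Type*} [Field k] [Finite k] [AddCommGroup M] [Module k M]
    (f : M →ₗ[k] k) : Nat.card M ≤ Nat.card (LinearMap.ker f) * Nat.card k := by
  rw [← card_ker_mul_card_range f]
  exact Nat.mul_le_mul_left _ (Nat.card_le_card_of_injective _ Subtype.val_injective)


/-- **The abstract count.**  `Z` finite with `#Z ≤ q³`, `φ : Z → H`, `δ : W → Z` with `φ ∘ δ = 0`,
`#W ≥ q²`, `#ker δ ≤ n`: then `#φ(Z) ≤ q · n`. -/
theorem abstract_count {R Z H W : Type*} [Field R] [AddCommGroup Z] [AddCommGroup H] [AddCommGroup W]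
    [Module R Z] [Module R H] [Module R W] [Finite Z] (φ : Z →ₗ[R] H)
    (δ : W →ₗ[R] Z) (hδφ : ∀ m, φ (δ m) = 0) (q n : ℕ) (hq : 0 < q)
    (hZ : Nat.card Z ≤ q ^ 3) (hW : q ^ 2 ≤ Nat.card W) (hker : Nat.card (LinearMap.ker δ) ≤ n) :
    Finite (LinearMap.range φ) ∧ Nat.card (LinearMap.range φ) ≤ q * n := by
  have hfin : Finite (LinearMap.range φ) :=
    Finite.of_surjective φ.rangeRestrict φ.surjective_rangeRestrict
  refine ⟨hfin, ?_⟩
  have h1 : Nat.card (LinearMap.ker φ) * Nat.card (LinearMap.range φ) = Nat.card Z :=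
    card_ker_mul_card_range φ
  have h2 : Nat.card (LinearMap.ker δ) * Nat.card (LinearMap.range δ) = Nat.card W :=
    card_ker_mul_card_range δ
  have hle : LinearMap.range δ ≤ LinearMap.ker φ := by
    rintro _ ⟨m, rfl⟩
    exact LinearMap.mem_ker.mpr (hδφ m)
  have hD : Nat.card (LinearMap.range δ) ≤ Nat.card (LinearMap.ker φ) :=
    Nat.card_le_card_of_injective (Submodule.inclusion hle) (Submodule.inclusion_injective hle)
  have hq2 : 0 < q ^ 2 := pow_pos hq 2
  have hfinal : Nat.card (LinearMap.range φ) * q ^ 2 ≤ q * n * q ^ 2 := by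
    calc Nat.card (LinearMap.range φ) * q ^ 2
        ≤ Nat.card (LinearMap.range φ) * Nat.card W := Nat.mul_le_mul_left _ hW
      _ = Nat.card (LinearMap.range φ) *
            (Nat.card (LinearMap.ker δ) * Nat.card (LinearMap.range δ)) := by rw [h2]
      _ ≤ Nat.card (LinearMap.range φ) * (n * Nat.card (LinearMap.ker φ)) :=
          Nat.mul_le_mul_left _ (Nat.mul_le_mul hker hD)
      _ = n * (Nat.card (LinearMap.ker φ) * Nat.card (LinearMap.range φ)) := by ring
      _ = n * Nat.card Z := by rw [h1]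
      _ ≤ n * q ^ 3 := Nat.mul_le_mul_left _ hZ
      _ = q * n * q ^ 2 := by ring
  exact Nat.le_of_mul_le_mul_right hfinal hq2

/-! ### The count for a general representation -/

section General

variable {k G : Type} [Field k] [Group G] (loc : G →* GQ) (A : Rep k G) (W₀ W₁ : Submodule k A)

/-- The level-constant `W₀`-valued cocycles. -/
noncomputable def ZsubG : Submodule k (cocycles₁ A) :=
  levelCocycles₁ loc A ⊓ cocyclesIn A W₀

theorem classesIn_eq_map : classesIn loc A W₀ = (ZsubG loc A W₀).map (H1π A).hom := rfl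

variable {loc A W₀ W₁}

/-- The coboundary map `W₁ → Z`, `m ↦ (g ↦ g m - m)`. -/
noncomputable def deltaG (hd : ∀ m ∈ W₁, ∀ g, A.ρ g m - m ∈ W₀)
    (hlev : ∀ m ∈ W₁, IsLevelConstant₁ loc ((d₀₁ A).hom m)) : W₁ →ₗ[k] ZsubG loc A W₀ where
  toFun m := ⟨⟨(d₀₁ A).hom m.1, d₀₁_apply_mem_cocycles₁ (A := A) m.1⟩,
    ⟨hlev m.1 m.2, fun g => hd m.1 m.2 g⟩⟩
  map_add' m m' := by
    apply Subtype.ext
    apply Subtype.ext
    exact map_add (d₀₁ A).hom m.1 m'.1
  map_smul' a m := by
    apply Subtype.ext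
    apply Subtype.ext
    exact map_smul (d₀₁ A).hom a m.1

theorem card_ker_deltaG_le [Finite A] (hd : ∀ m ∈ W₁, ∀ g, A.ρ g m - m ∈ W₀)
    (hlev : ∀ m ∈ W₁, IsLevelConstant₁ loc ((d₀₁ A).hom m)) :
    Nat.card (LinearMap.ker (deltaG hd hlev)) ≤ Nat.card ↥(A.ρ.invariants) := by
  have hmem : ∀ m : LinearMap.ker (deltaG hd hlev), ((m : W₁) : A) ∈ A.ρ.invariants := by
    intro m
    rw [← d₀₁_ker_eq_invariants, LinearMap.mem_ker]
    have h3 := congrArg (fun c : ZsubG loc A W₀ => ((c : cocycles₁ A) : G → A))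
      (LinearMap.mem_ker.mp m.2)
    exact h3
  apply Nat.card_le_card_of_injective
    (fun m : LinearMap.ker (deltaG hd hlev) => (⟨((m : W₁) : A), hmem m⟩ : A.ρ.invariants))
  intro m m' h
  apply Subtype.ext
  apply Subtype.ext
  have h' := congrArg (fun x : A.ρ.invariants => (x : A)) h
  exact h'

/-- **The count, for a general representation.** -/
theorem general_count [Finite k] [Finite A] (hd : ∀ m ∈ W₁, ∀ g, A.ρ g m - m ∈ W₀)
    (hlev : ∀ m ∈ W₁, IsLevelConstant₁ loc ((d₀₁ A).hom m))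
    (hZ : Finite (ZsubG loc A W₀) ∧ Nat.card (ZsubG loc A W₀) ≤ Nat.card k ^ 3)
    (hW : Nat.card k ^ 2 ≤ Nat.card W₁) :
    Finite ↥(classesIn loc A W₀) ∧
      Nat.card ↥(classesIn loc A W₀) ≤ Nat.card k * Nat.card ↥(A.ρ.invariants) := by
  haveI := hZ.1
  have hδφ : ∀ m, ((H1π A).hom.domRestrict (ZsubG loc A W₀)) (deltaG hd hlev m) = 0 :=
    fun m => (H1π_eq_zero_iff _).mpr ⟨m.1, rfl⟩
  have key := abstract_count ((H1π A).hom.domRestrict (ZsubG loc A W₀))
    (deltaG hd hlev) hδφ (Nat.card k) (Nat.card ↥(A.ρ.invariants)) Nat.card_pos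
    hZ.2 hW (card_ker_deltaG_le hd hlev)
  rw [LinearMap.range_domRestrict] at key
  exact key

end General

/-! ### Cardinalities of `sl₂`, `W⁰(v)`, `W¹(v)` -/

section LinAlg

variable {k : Type} [Field k]

/-- `#sl₂(k) ≥ |k|³`. -/
theorem card_sl2_ge [Finite k] : Nat.card k ^ 3 ≤ Nat.card (sl2 k) := by
  have h1 := card_le_card_ker_mul (Matrix.traceLinearMap (Fin 2) k k)
  have h2 : Nat.card (M2 k) = Nat.card k ^ 4 := by
    show Nat.card (Fin 2 → Fin 2 → k) = _
    rw [Nat.card_fun, Nat.card_fun, Nat.card_fin, ← pow_mul]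
  rw [h2] at h1
  have hq : 0 < Nat.card k := Nat.card_pos
  have h3 : Nat.card k ^ 3 * Nat.card k ≤ Nat.card (sl2 k) * Nat.card k := by
    calc Nat.card k ^ 3 * Nat.card k = Nat.card k ^ 4 := by ring
      _ ≤ _ := h1
  exact Nat.le_of_mul_le_mul_right h3 hq

/-- The linear form `X ↦ det [v | X v]` on `sl₂`. -/
noncomputable def detForm (v : Fin 2 → k) : sl2 k →ₗ[k] k where
  toFun X := v 0 * ((X : M2 k).mulVec v) 1 - v 1 * ((X : M2 k).mulVec v) 0
  map_add' X Y := by
    rw [Submodule.coe_add, Matrix.add_mulVec]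
    simp only [Pi.add_apply]
    ring
  map_smul' c X := by
    rw [Submodule.coe_smul, Matrix.smul_mulVec]
    simp only [Pi.smul_apply, smul_eq_mul, RingHom.id_apply]
    ring

/-- `det [v | u] = 0` and `v ≠ 0` imply `u ∈ ⟨v⟩`. -/
theorem mem_span_of_det_eq_zero {v u : Fin 2 → k} (hv : v ≠ 0) (h : v 0 * u 1 - v 1 * u 0 = 0) :
    u ∈ Submodule.span k {v} := by
  rw [Submodule.mem_span_singleton]
  obtain ⟨i, hi⟩ := Function.ne_iff.mp hv
  refine ⟨u i / v i, ?_⟩
  funext j
  rw [Pi.smul_apply, smul_eq_mul, div_mul_eq_mul_div, div_eq_iff hi]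
  fin_cases i <;> fin_cases j <;> simp <;>
    first | linear_combination h | linear_combination (-1 : k) * h

theorem ker_detForm_le_W1 {v : Fin 2 → k} (hv : v ≠ 0) : LinearMap.ker (detForm v) ≤ W1 v := by
  intro X hX
  rw [mem_W1_iff]
  exact mem_span_of_det_eq_zero hv (LinearMap.mem_ker.mp hX)

/-- `#W¹(v) ≥ |k|²`. -/
theorem card_W1_ge [Finite k] {v : Fin 2 → k} (hv : v ≠ 0) : Nat.card k ^ 2 ≤ Nat.card (W1 v) := by
  have hq : 0 < Nat.card k := Nat.card_pos
  have h1 := card_le_card_ker_mul (detForm v)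
  have h2 : Nat.card k ^ 2 * Nat.card k ≤ Nat.card (LinearMap.ker (detForm v)) * Nat.card k := by
    calc Nat.card k ^ 2 * Nat.card k = Nat.card k ^ 3 := by ring
      _ ≤ Nat.card (sl2 k) := card_sl2_ge
      _ ≤ _ := h1
  have h3 := Nat.le_of_mul_le_mul_right h2 hq
  exact h3.trans (Nat.card_le_card_of_injective (Submodule.inclusion (ker_detForm_le_W1 hv))
    (Submodule.inclusion_injective _))

/-- `#W⁰(v) ≤ |k|`: an element of `W⁰(v)` is determined by one entry. -/
theorem card_W0_le [Finite k] {v : Fin 2 → k} (hv : v ≠ 0) : Nat.card (W0 v) ≤ Nat.card k := by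
  obtain ⟨i, hi⟩ := Function.ne_iff.mp hv
  -- the other index
  obtain ⟨j, hj⟩ : ∃ j : Fin 2, j ≠ i := by
    fin_cases i
    · exact ⟨1, by decide⟩
    · exact ⟨0, by decide⟩
  have huniv : ∀ a : Fin 2, a = i ∨ a = j := by
    intro a
    fin_cases i <;> fin_cases j <;> fin_cases a <;> simp_all
  -- an element of `W⁰(v)` with vanishing `(i, j)` entry is zero
  have hzero : ∀ X : W0 v, ((X : sl2 k) : M2 k) i j = 0 → X = 0 := by
    intro X hX
    obtain ⟨hX1, hX2⟩ := (mem_W0_iff v X.1).mp X.2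
    -- column `j`
    obtain ⟨t, ht⟩ := Submodule.mem_span_singleton.mp (hX2 (Pi.single j 1))
    rw [Matrix.mulVec_single_one] at ht
    have ht0 : t = 0 := by
      have := congrFun ht i
      rw [Pi.smul_apply, smul_eq_mul, Matrix.col_apply, hX] at this
      exact (mul_eq_zero.mp this).resolve_right hi
    have hcolj : ∀ a, ((X : sl2 k) : M2 k) a j = 0 := by
      intro a
      have := congrFun ht a
      rw [ht0, zero_smul, Pi.zero_apply, Matrix.col_apply] at this
      exact this.symm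
    -- column `i`
    have hcoli : ∀ a, ((X : sl2 k) : M2 k) a i = 0 := by
      intro a
      have := congrFun hX1 a
      rw [Matrix.mulVec, dotProduct, Pi.zero_apply] at this
      have hsum : ∑ b, ((X : sl2 k) : M2 k) a b * v b =
          ((X : sl2 k) : M2 k) a i * v i + ((X : sl2 k) : M2 k) a j * v j := by
        rw [Fin.sum_univ_two]
        fin_cases i <;> fin_cases j <;> simp_all [add_comm]
      rw [hsum, hcolj a, zero_mul, add_zero] at this
      exact (mul_eq_zero.mp this).resolve_right hi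
    apply Subtype.ext
    apply Subtype.ext
    apply Matrix.ext
    intro a b
    rcases huniv b with rfl | rfl
    · exact hcoli a
    · exact hcolj a
  apply Nat.card_le_card_of_injective (fun X : W0 v => ((X : sl2 k) : M2 k) i j)
  intro X Y hXY
  have := hzero (X - Y) (by
    show (((X - Y : W0 v) : sl2 k) : M2 k) i j = 0
    rw [Submodule.coe_sub, Submodule.coe_sub, Matrix.sub_apply, sub_eq_zero]
    exact hXY)
  exact sub_eq_zero.mp this


/-- **`D_P` acts on `W⁰(v)` through `x / z`.**  If `g v = x v`, `g w - z w ∈ ⟨v⟩` for all `w`, `x = a z`, then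
`g X g⁻¹ = a X` for `X ∈ W⁰(v)`. -/
theorem conj_W0 {v : Fin 2 → k} (g ginv : M2 k) (hg : g * ginv = 1) (x z a : k)
    (hx : g.mulVec v = x • v) (hz : ∀ w : Fin 2 → k, g.mulVec w - z • w ∈ Submodule.span k {v})
    (hxz : x = a * z) (X : sl2 k) (hX : X ∈ W0 v) :
    g * (X : M2 k) * ginv = a • (X : M2 k) := by
  obtain ⟨hX1, hX2⟩ := (mem_W0_iff v X).mp hX
  apply Matrix.mulVec_injective
  funext w
  show (g * (X : M2 k) * ginv).mulVec w = (a • (X : M2 k)).mulVec w
  set w' := ginv.mulVec w with hw'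
  have hw : w = g.mulVec w' := by
    rw [hw', Matrix.mulVec_mulVec, hg, Matrix.one_mulVec]
  obtain ⟨l, hl⟩ := Submodule.mem_span_singleton.mp (hX2 w')
  obtain ⟨μ, hμ⟩ := Submodule.mem_span_singleton.mp (hz w')
  have h1 : (g * (X : M2 k) * ginv).mulVec w = (l * x) • v := by
    rw [← Matrix.mulVec_mulVec, ← Matrix.mulVec_mulVec, ← hw', ← hl, Matrix.mulVec_smul, hx,
      smul_smul]
  have h2 : (X : M2 k).mulVec w = (z * l) • v := by
    have : g.mulVec w' = z • w' + μ • v := by rw [hμ]; abel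
    rw [hw, this, Matrix.mulVec_add, Matrix.mulVec_smul, Matrix.mulVec_smul, hX1, smul_zero,
      add_zero, ← hl, smul_smul]
  rw [h1, Matrix.smul_mulVec, h2, smul_smul, hxz]
  congr 1
  ring

end LinAlg


/-! ### The action of `G_p` on `W⁰(v)` -/

section Action

variable {k : Type} [Field k] (p : ℕ) [Fact p.Prime]

/-- The defining property of the Prelude's `cycloExp`. -/
theorem apply_eq_pow_cycloExp (σ : GQ) {t : AlgebraicClosure ℚ} (ht : t ^ p = 1) :
    σ t = t ^ cycloExp p σ := by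
  haveI : NeZero p := ⟨(Fact.out : p.Prime).ne_zero⟩
  have htu : IsUnit t := IsUnit.of_pow_eq_one ht (NeZero.ne p)
  obtain ⟨u, rfl⟩ := htu
  have hu : u ∈ rootsOfUnity p (AlgebraicClosure ℚ) := by
    rw [mem_rootsOfUnity]
    exact Units.ext (by simpa using ht)
  exact modularCyclotomicCharacter.spec (AlgebraicClosure ℚ) (card_rootsOfUnity_eq_self p)
    (σ : AlgebraicClosure ℚ ≃+* AlgebraicClosure ℚ) hu

theorem loc_mem_decomposition (g : primeLocalGaloisGroup (pPrime p)) :
    primeLocalToGlobal (pPrime p) g ∈ (primeLocalPlace (pPrime p)).decompositionSubgroup ℚ := by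
  haveI : Fact ((pPrime p : Nat.Primes) : ℕ).Prime := ⟨(pPrime p).2⟩
  exact localGaloisToGlobal_mem_decompositionSubgroup ((pPrime p : Nat.Primes) : ℕ) g

variable {p}

/-- A field carrying a strict-ordinary line has characteristic `p`. -/
theorem natCast_eq_zero_of_isStrictOrdLine {rbar : GQ →* M2 k} {v : Fin 2 → k}
    (hv : IsStrictOrdLine p rbar v) : (p : k) = 0 := by
  obtain ⟨x, z, hx, -, hcyc⟩ := hv.dec 1 (one_mem _)
  have hx0 : x ≠ 0 := by
    intro h0
    rw [map_one, Matrix.one_mulVec, h0, zero_smul] at hx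
    exact hv.ne hx
  have h1 : x = ((1 : ℕ) : k) * z := hcyc 1 (fun μ _ => by simp)
  have h2 : x = ((1 + p : ℕ) : k) * z := hcyc (1 + p) (fun μ hμ => by
    rw [pow_add, pow_one, hμ, mul_one]; simp)
  rw [Nat.cast_one, one_mul] at h1
  rw [← h1] at h2
  push_cast at h2
  have h3 : (p : k) * x = 0 := by linear_combination -h2
  exact (mul_eq_zero.mp h3).resolve_right hx0

/-- **`G_p` acts on `W⁰(v)` through the mod-`p` cyclotomic character.** -/
theorem rho_W0 {rbar : GQ →* M2 k} {v : Fin 2 → k} (hv : IsStrictOrdLine p rbar v)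
    (g : primeLocalGaloisGroup (pPrime p)) (X : sl2 k) (hX : X ∈ W0 v) :
    (ad0Loc p rbar).ρ g X = cycloExp p (primeLocalToGlobal (pPrime p) g) • X := by
  obtain ⟨x, z, hx, hz, hcyc⟩ := hv.dec _ (loc_mem_decomposition p g)
  have hxz := hcyc (cycloExp p (primeLocalToGlobal (pPrime p) g))
    (fun μ hμ => apply_eq_pow_cycloExp p _ hμ)
  have h := conj_W0 (rbar (primeLocalToGlobal (pPrime p) g)) (rbar (primeLocalToGlobal (pPrime p) g)⁻¹)
    (rbar_mul_inv rbar _) x z _ hx hz hxz X hX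
  apply Subtype.ext
  show (((ad0 rbar).ρ (primeLocalToGlobal (pPrime p) g) X : sl2 k) : M2 k) = _
  rw [ad0_ρ_apply_coe, h, Nat.cast_smul_eq_nsmul]
  exact (AddSubmonoidClass.coe_nsmul X _).symm

/-- `W⁰(v)` is stable under `G_p`. -/
theorem W0_stable {rbar : GQ →* M2 k} {v : Fin 2 → k} (hv : IsStrictOrdLine p rbar v)
    (g : primeLocalGaloisGroup (pPrime p)) (X : sl2 k) (hX : X ∈ W0 v) :
    (ad0Loc p rbar).ρ g X ∈ W0 v := by
  rw [rho_W0 hv g X hX]
  exact (W0 v).nsmul_mem hX _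

end Action


/-! ### The cocycles `Z` and the bound `#Z ≤ |k|³` -/

section Zsub

variable {k : Type} [Field k] (p : ℕ) [Fact p.Prime]

/-- `Z`: the level-constant `W⁰(v)`-valued cocycles of `ad⁰ρ̄|_{G_p}`. -/
noncomputable def Zsub (rbar : GQ →* M2 k) (v : Fin 2 → k) : Submodule k (cocycles₁ (ad0Loc p rbar)) :=
  ZsubG (primeLocalToGlobal (pPrime p)) (ad0Loc p rbar) (W0 v)

theorem Lord_eq_map (rbar : GQ →* M2 k) (v : Fin 2 → k) :
    Lord p rbar v = (Zsub p rbar v).map (H1π (ad0Loc p rbar)).hom := rfl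

variable {p}

/-- The value of `c ∈ Z` at `g`, as an element of `W⁰(v)`. -/
noncomputable def Zval {rbar : GQ →* M2 k} {v : Fin 2 → k} (c : Zsub p rbar v)
    (g : primeLocalGaloisGroup (pPrime p)) : W0 v :=
  ⟨(c.1 : _ → ad0Loc p rbar) g, c.2.2 g⟩

theorem Zval_mul {rbar : GQ →* M2 k} {v : Fin 2 → k} (hv : IsStrictOrdLine p rbar v)
    (c : Zsub p rbar v) (g h : primeLocalGaloisGroup (pPrime p)) :
    Zval c (g * h) = cycloExp p (primeLocalToGlobal (pPrime p) g) • Zval c h + Zval c g := by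
  apply Subtype.ext
  have hcoc : (c.1 : _ → ad0Loc p rbar) (g * h) =
      (ad0Loc p rbar).ρ g ((c.1 : _ → ad0Loc p rbar) h) + (c.1 : _ → ad0Loc p rbar) g :=
    (mem_cocycles₁_iff (c.1 : _ → ad0Loc p rbar)).mp c.1.2 g h
  show (c.1 : _ → ad0Loc p rbar) (g * h) = _
  rw [hcoc, rho_W0 hv g _ (c.2.2 h)]
  rfl

theorem Zval_level {rbar : GQ →* M2 k} {v : Fin 2 → k} (c : Zsub p rbar v) :
    IsLevelConstant₁ (primeLocalToGlobal (pPrime p)) (Zval c) := by
  obtain ⟨E, hE, hconst⟩ := c.2.1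
  exact ⟨E, hE, fun g s hs => Subtype.ext (hconst g s hs)⟩

theorem Zval_injective {rbar : GQ →* M2 k} {v : Fin 2 → k} :
    Function.Injective (Zval : Zsub p rbar v → _ → W0 v) := by
  intro c c' h
  apply Subtype.ext
  apply Subtype.ext
  funext g
  exact congrArg Subtype.val (congrFun h g)

/-- `#Z ≤ |k|³`, from `KumBound p`. -/
theorem card_Zsub_le [Finite k] {rbar : GQ →* M2 k} {v : Fin 2 → k} (hv : IsStrictOrdLine p rbar v)
    (hK : KumBound p) : Finite (Zsub p rbar v) ∧ Nat.card (Zsub p rbar v) ≤ Nat.card k ^ 3 := by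
  have hpk : (p : k) = 0 := natCast_eq_zero_of_isStrictOrdLine hv
  haveI : Finite (W0 v) := Finite.of_injective (fun X : W0 v => ((X : sl2 k) : M2 k))
    (fun X Y h => Subtype.ext (Subtype.ext h))
  have hpX : ∀ X : W0 v, p • X = 0 := fun X => by
    rw [← Nat.cast_smul_eq_nsmul k, hpk, zero_smul]
  letI : Module (ZMod p) (W0 v) := AddCommGroup.zmodModule (n := p) (G := ↥(W0 v)) hpX
  haveI : Module.Finite (ZMod p) (W0 v) := Module.Finite.of_finite
  let β := Module.finBasis (ZMod p) (W0 v)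
  set n := Module.finrank (ZMod p) (W0 v) with hn
  have hcardT : Nat.card (W0 v) = p ^ n := by
    rw [Module.natCard_eq_pow_finrank (K := ZMod p) (V := W0 v), Nat.card_zmod]
  haveI := hK.1
  -- the coordinates of `c ∈ Z` are `ω`-cocycles
  let F : Zsub p rbar v → (Fin n → KumZ p) := fun c i =>
    ⟨fun g => β.repr (Zval c g) i, by
      obtain ⟨E, hE, hconst⟩ := Zval_level c
      exact ⟨E, hE, fun g s hs => by beta_reduce; rw [hconst g s hs]⟩, fun g h => by
      beta_reduce
      rw [Zval_mul hv c g h, map_add, map_nsmul, Finsupp.add_apply, Finsupp.smul_apply, nsmul_eq_mul,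
        coe_cycloChar, add_comm]⟩
  have hF : Function.Injective F := by
    intro c c' h
    apply Zval_injective
    funext g
    apply β.repr.injective
    ext i
    exact congrFun (congrArg Subtype.val (congrFun h i)) g
  haveI : Finite (Zsub p rbar v) := Finite.of_injective F hF
  refine ⟨inferInstance, ?_⟩
  calc Nat.card (Zsub p rbar v) ≤ Nat.card (Fin n → KumZ p) := Nat.card_le_card_of_injective F hF
    _ = Nat.card (KumZ p) ^ n := by rw [Nat.card_fun, Nat.card_fin]
    _ ≤ (p ^ 3) ^ n := Nat.pow_le_pow_left hK.2 n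
    _ = Nat.card (W0 v) ^ 3 := by rw [hcardT, ← pow_mul, ← pow_mul, mul_comm]
    _ ≤ Nat.card k ^ 3 := Nat.pow_le_pow_left (card_W0_le hv.ne) 3


/-! ### The coboundaries of `W¹(v)` -/

/-- `d m` for `m ∈ W¹(v)` has values in `W⁰(v)`. -/
theorem d_W1_mem_W0 {rbar : GQ →* M2 k} {v : Fin 2 → k} (hv : IsStrictOrdLine p rbar v)
    (m : sl2 k) (hm : m ∈ W1 v) (g : primeLocalGaloisGroup (pPrime p)) :
    (ad0Loc p rbar).ρ g m - m ∈ W0 v := by
  obtain ⟨x, z, hx, hz, -⟩ := hv.dec _ (loc_mem_decomposition p g)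
  set σ := primeLocalToGlobal (pPrime p) g with hσ
  have hval : (((ad0Loc p rbar).ρ g m - m : sl2 k) : M2 k) = rbar σ * (m : M2 k) * rbar σ⁻¹ - m := by
    show (((ad0 rbar).ρ σ m - m : sl2 k) : M2 k) = _
    rw [Submodule.coe_sub, ad0_ρ_apply_coe]
  have hx0 : x ≠ 0 := by
    intro h0
    rw [h0, zero_smul] at hx
    have := congrArg (rbar σ⁻¹).mulVec hx
    rw [Matrix.mulVec_mulVec, rbar_inv_mul, Matrix.one_mulVec, Matrix.mulVec_zero] at this
    exact hv.ne this
  -- `rbar σ⁻¹ v = x⁻¹ v`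
  have hinv : (rbar σ⁻¹).mulVec v = x⁻¹ • v := by
    have := congrArg (rbar σ⁻¹).mulVec hx
    rw [Matrix.mulVec_mulVec, rbar_inv_mul, Matrix.one_mulVec, Matrix.mulVec_smul] at this
    calc (rbar σ⁻¹).mulVec v = x⁻¹ • (x • (rbar σ⁻¹).mulVec v) := by
          rw [smul_smul, inv_mul_cancel₀ hx0, one_smul]
      _ = x⁻¹ • v := by rw [← this]
  -- `rbar σ⁻¹ w - z⁻¹ w ∈ ⟨v⟩`
  have hz0 : z ≠ 0 := by
    intro h0
    -- then `rbar σ` has image in `⟨v⟩`, so `rbar σ⁻¹ v`... contradiction with invertibility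
    have himg : ∀ w, (rbar σ).mulVec w ∈ Submodule.span k {v} := fun w => by
      have := hz w
      rwa [h0, zero_smul, sub_zero] at this
    -- `W¹` argument: choose `w` with `rbar σ w = ` anything; every vector is in the image
    have hall : ∀ u : Fin 2 → k, u ∈ Submodule.span k {v} := fun u => by
      have := himg ((rbar σ⁻¹).mulVec u)
      rwa [Matrix.mulVec_mulVec, rbar_mul_inv, Matrix.one_mulVec] at this
    -- but `k²` is not a line: `det [v | u] = 0` for all `u` forces `v = 0`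
    obtain ⟨i, hi⟩ := Function.ne_iff.mp hv.ne
    have h0' := Submodule.mem_span_singleton.mp (hall (Pi.single 0 1))
    have h1' := Submodule.mem_span_singleton.mp (hall (Pi.single 1 1))
    obtain ⟨a, ha⟩ := h0'
    obtain ⟨b, hb⟩ := h1'
    have ha0 := congrFun ha 0
    have ha1 := congrFun ha 1
    have hb0 := congrFun hb 0
    have hb1 := congrFun hb 1
    simp only [Pi.smul_apply, smul_eq_mul, Pi.single_eq_same, ne_eq, zero_ne_one, not_false_eq_true,
      Pi.single_eq_of_ne, one_ne_zero] at ha0 ha1 hb0 hb1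
    -- `a v₀ = 1`, `a v₁ = 0`, `b v₀ = 0`, `b v₁ = 1`
    have : (1 : k) = 0 := by
      have e1 : a * v 0 * (b * v 1) = 1 := by rw [ha0, hb1, one_mul]
      have e2 : a * v 1 * (b * v 0) = 0 := by rw [ha1, zero_mul]
      linear_combination e2 - e1
    exact one_ne_zero this
  have hzinv : ∀ w, (rbar σ⁻¹).mulVec w - z⁻¹ • w ∈ Submodule.span k {v} := by
    intro w
    obtain ⟨t, ht⟩ := Submodule.mem_span_singleton.mp (hz ((rbar σ⁻¹).mulVec w))
    rw [Matrix.mulVec_mulVec, rbar_mul_inv, Matrix.one_mulVec] at ht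
    -- `w - z • w' = t • v` with `w' = rbar σ⁻¹ w`
    rw [Submodule.mem_span_singleton]
    refine ⟨-(z⁻¹ * t), ?_⟩
    have : (rbar σ⁻¹).mulVec w = z⁻¹ • (w - t • v) := by
      rw [ht, sub_sub_cancel, smul_smul, inv_mul_cancel₀ hz0, one_smul]
    rw [this, smul_sub, smul_smul]
    rw [neg_smul]
    abel
  obtain ⟨s, hs⟩ := Submodule.mem_span_singleton.mp ((mem_W1_iff v m).mp hm)
  rw [mem_W0_iff, hval]
  constructor
  · -- kills `v`
    rw [Matrix.sub_mulVec, ← Matrix.mulVec_mulVec, ← Matrix.mulVec_mulVec, hinv]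
    simp only [Matrix.mulVec_smul, ← hs, hx]
    rw [smul_smul, smul_smul, mul_comm x⁻¹ s, mul_assoc, inv_mul_cancel₀ hx0, mul_one, sub_self]
  · -- image in `⟨v⟩`
    intro w
    obtain ⟨t, ht⟩ := Submodule.mem_span_singleton.mp (hzinv w)
    have hw' : (rbar σ⁻¹).mulVec w = z⁻¹ • w + t • v := by rw [ht]; abel
    obtain ⟨t', ht'⟩ := Submodule.mem_span_singleton.mp (hz ((m : M2 k).mulVec w))
    have hmw : (rbar σ).mulVec ((m : M2 k).mulVec w) = z • (m : M2 k).mulVec w + t' • v := by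
      rw [ht']; abel
    have e : (rbar σ * (m : M2 k) * rbar σ⁻¹ - (m : M2 k)).mulVec w = (z⁻¹ * t' + t * s * x) • v := by
      rw [Matrix.sub_mulVec, ← Matrix.mulVec_mulVec, ← Matrix.mulVec_mulVec, hw']
      simp only [Matrix.mulVec_add, Matrix.mulVec_smul, ← hs, hx, hmw]
      rw [smul_add, smul_smul, inv_mul_cancel₀ hz0, one_smul]
      module
    rw [e]
    exact Submodule.smul_mem _ _ (Submodule.mem_span_singleton_self _)


/-- Elements of `G_p` acting trivially through `rbar` act trivially on `ad⁰`. -/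
theorem rho_eq_self_of_rbar_eq_one {rbar : GQ →* M2 k} (s : primeLocalGaloisGroup (pPrime p))
    (hs : rbar (primeLocalToGlobal (pPrime p) s) = 1) (m : sl2 k) : (ad0Loc p rbar).ρ s m = m := by
  apply Subtype.ext
  show (((ad0 rbar).ρ (primeLocalToGlobal (pPrime p) s) m : sl2 k) : M2 k) = _
  have hinv : rbar (primeLocalToGlobal (pPrime p) s)⁻¹ = 1 := by
    have := rbar_mul_inv rbar (primeLocalToGlobal (pPrime p) s)
    rwa [hs, one_mul] at this
  rw [ad0_ρ_apply_coe, hs, hinv, one_mul, mul_one]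

/-- The coboundaries of elements of `ad⁰` are level-constant (`rbar` factors through a finite level). -/
theorem d_levelConstant {rbar : GQ →* M2 k} (hcont : GaloisFactorsThroughFiniteLevel rbar) (m : sl2 k) :
    IsLevelConstant₁ (primeLocalToGlobal (pPrime p)) ((d₀₁ (ad0Loc p rbar)).hom m) := by
  obtain ⟨L, hL, hone⟩ := hcont
  refine ⟨L, hL, fun g s hs => ?_⟩
  have h1 : rbar (primeLocalToGlobal (pPrime p) s) = 1 :=
    hone _ (fun x hx => (IntermediateField.mem_fixingSubgroup_iff L _).mp hs x hx)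
  show (ad0Loc p rbar).ρ (g * s) m - m = (ad0Loc p rbar).ρ g m - m
  rw [map_mul, Module.End.mul_apply, rho_eq_self_of_rbar_eq_one s h1]

/-! ### The statement -/

theorem ordCount (p : ℕ) [Fact p.Prime] (k : Type) [Field k] : OrdCount p k := by
  intro hfin rbar hcont v hv hK
  haveI := hfin
  haveI : Finite (sl2 k) := inferInstance
  exact general_count (loc := primeLocalToGlobal (pPrime p)) (A := ad0Loc p rbar) (W₀ := W0 v)
    (W₁ := W1 v) (fun m hm g => d_W1_mem_W0 hv m hm g) (fun m _ => d_levelConstant hcont m)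
    (card_Zsub_le hv hK) (card_W1_ge hv.ne)

end Zsub

end Fermat.Agent.ES.T56.OrdCount11
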