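/-
Programme T (S56), chapter LOC, leg ORD-p (helper11): **(a) the line** — `OrdIface11.OrdLine`.

(Hρ̄) at `p`, i.e. `(GaloisRepAdic.ofResidualGaloisRep ρbar).IsStrictOrdinaryAt p`, in the matrix model `Sl.rbar` of `ρ̄`:
the coordinates `v` (in `Sl.basis`) of a generator of the ordinary line at the Prelude's place satisfy
`IsStrictOrdLine p Sl.rbar v`.  Also: `Sl.rbar` factors through a finite level.
-/
import Mathlib
import Fermat.Agent.ES.T56.OrdIface11
import Fermat.Agent.ES.T56.RamOmega11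

set_option autoImplicit false

namespace Fermat.Agent.ES.T56.OrdLine11

open ExtCitation IsLocalRing Fermat.Agent.S53 Fermat.Agent.ES.T56.OrdIface11

variable {𝒪 : Type} [CommRing 𝒪] [IsLocalRing 𝒪]

/-- `Sl.rbar σ` acts on coordinates as `ρ̄ σ` acts on vectors. -/
theorem rbar_mulVec_equivFun {ρbar : ResidualGaloisRep (ResidueField 𝒪)} (Sl : SliceData 𝒪 ρbar)
    (σ : GQ) (w : ρbar.V) :
    (Sl.rbar σ).mulVec (Sl.basis.equivFun w) = Sl.basis.equivFun (ρbar.ρ σ w) := by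
  rw [Sl.rbar_eq]
  exact LinearMap.toMatrix_mulVec_repr Sl.basis Sl.basis (ρbar.ρ σ) w

/-- Membership in a line, in coordinates. -/
theorem equivFun_mem_span_iff {ρbar : ResidualGaloisRep (ResidueField 𝒪)} (Sl : SliceData 𝒪 ρbar)
    (b₀ w : ρbar.V) :
    Sl.basis.equivFun w ∈ Submodule.span (ResidueField 𝒪) {Sl.basis.equivFun b₀} ↔
      w ∈ Submodule.span (ResidueField 𝒪) {b₀} := by
  rw [Submodule.mem_span_singleton, Submodule.mem_span_singleton]
  constructor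
  · rintro ⟨a, ha⟩
    refine ⟨a, Sl.basis.equivFun.injective ?_⟩
    rw [map_smul, ha]
  · rintro ⟨a, rfl⟩
    exact ⟨a, (map_smul _ _ _).symm⟩

/-- `Sl.rbar` factors through a finite level. -/
theorem factorsThroughFiniteLevel_rbar {ρbar : ResidualGaloisRep (ResidueField 𝒪)}
    (Sl : SliceData 𝒪 ρbar) : GaloisFactorsThroughFiniteLevel Sl.rbar := by
  obtain ⟨L, hL, h⟩ := ρbar.factorsThroughFiniteLevel
  refine ⟨L, hL, fun σ hσ => ?_⟩
  rw [Sl.rbar_eq, h σ hσ]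
  exact LinearMap.toMatrix_one Sl.basis

/-- The Prelude's clause at the place `P`, restated on `ρbar.V` itself. -/
theorem exists_line {K : Type} [Field K] (ρbar : ResidualGaloisRep K) (p : ℕ)
    (P : ValuationSubring (AlgebraicClosure ℚ)) (hP : P.LiesOverPrime p)
    (h : (GaloisRepAdic.ofResidualGaloisRep ρbar).IsStrictOrdinaryAt p) :
    ∃ b₀ : ρbar.V, b₀ ≠ 0 ∧
      (∀ σ ∈ P.decompositionSubgroup ℚ, ∃ x z : K, ρbar.ρ σ b₀ = x • b₀ ∧
        (∀ w : ρbar.V, ρbar.ρ σ w - z • w ∈ Submodule.span K {b₀}) ∧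
        ∀ a : ℕ, (∀ μ : AlgebraicClosure ℚ, μ ^ p = 1 → σ μ = μ ^ a) → x = (a : K) * z) ∧
      (∀ σ ∈ P.inertiaSubgroupIn ℚ, ∀ w : ρbar.V, ρbar.ρ σ w - w ∈ Submodule.span K {b₀}) := by
  obtain ⟨hpK, hall⟩ := h
  have hp0 : (p : K) = 0 := by
    rw [maximalIdeal_eq_bot, Ideal.mem_bot] at hpK
    exact hpK
  obtain ⟨L, ⟨b, hLb⟩, -, hin, hstrict⟩ := hall P hP
  have hb0 : b 0 ∈ L := by
    rw [hLb]; exact Submodule.mem_span_singleton_self _
  refine ⟨b 0, b.ne_zero 0, fun σ hσ => ?_, fun σ hσ w => ?_⟩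
  · obtain ⟨x, z, hx, hz, hcyc⟩ := hstrict σ hσ
    refine ⟨x, z, hx (b 0) hb0, fun w => ?_, fun a ha => ?_⟩
    · have := hz w
      rw [hLb] at this
      exact this
    · have := hcyc 1 a (fun μ hμ => ha μ (by rwa [pow_one] at hμ))
      rw [pow_one, hp0, Ideal.span_singleton_zero, Ideal.mem_bot, sub_eq_zero] at this
      exact this
  · have := hin σ hσ w
    rw [hLb] at this
    exact this

/-- **(a)**. -/
theorem ordLine (p : ℕ) [Fact p.Prime] : OrdLine p 𝒪 := by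
  intro ρbar Sl h
  obtain ⟨b₀, hb₀, hdec, hin⟩ := exists_line ρbar p (primeLocalPlace (pPrime p))
    (RamOmega11.primeLocalPlace_liesOverPrime (pPrime p)) h
  refine ⟨Sl.basis.equivFun b₀, ⟨fun h0 => ?_, fun σ hσ => ?_, fun σ hσ w => ?_⟩⟩
  · exact hb₀ (Sl.basis.equivFun.injective (by rw [h0, map_zero]))
  · obtain ⟨x, z, hx, hz, hcyc⟩ := hdec σ hσ
    refine ⟨x, z, ?_, fun w => ?_, hcyc⟩
    · rw [rbar_mulVec_equivFun, hx, map_smul]
    · obtain ⟨w', rfl⟩ := Sl.basis.equivFun.surjective w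
      rw [rbar_mulVec_equivFun, ← map_smul, ← map_sub, equivFun_mem_span_iff]
      exact hz w'
  · obtain ⟨w', rfl⟩ := Sl.basis.equivFun.surjective w
    rw [rbar_mulVec_equivFun, ← map_sub, equivFun_mem_span_iff]
    exact hin σ hσ w'

end Fermat.Agent.ES.T56.OrdLine11
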