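/-
Programme T (S56), chapter LOC, leg ORD-p (helper11): **(c) membership** — `OrdIface11.OrdMember`.

For a strict-ordinary lift `r` of `rbar` to `k[ε]` with cyclotomic determinant, the local class at `p` of the `ε`-part
cocycle lies in `L_p^{ord} = Lord p rbar v`.

* `DualVec`  : vectors over `k[ε]` (`fstV`, `sndV`, `mulVec`, `smul`);
* `core`     : the matrix computation: if `R b₀ = x b₀`, `R w - z w ∈ A b₀`, `x`, `z` without `ε`-part, `m u = u₁`
               (`b₀ = u + ε u₁`), then `X = sndM R * R̄⁻¹ + (R̄ m R̄⁻¹ - m)` kills `u` and has image in `⟨u⟩`;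
* `noEps`    : `x = a z`, `x z = a` (`a` a unit of `k`), `2 ≠ 0` ⇒ `x`, `z` have no `ε`-part;
* `line_unique` : the reduction of the lift's line is `⟨v⟩` (uses `RamOmega11`);
* `ordMember`: the statement.
-/
import Mathlib
import Fermat.Agent.ES.T56.OrdIface11
import Fermat.Agent.ES.T56.RamOmega11

set_option autoImplicit false
set_option linter.style.haveILetI false
set_option linter.unusedSectionVars false

namespace Fermat.Agent.ES.T56.OrdMember11

open CategoryTheory groupCohomology ExtCitation Fermat.Agent.S53 Fermat.Agent.ES.T56.Ad0Rep10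
  Fermat.Agent.ES.T56.OrdIface11

variable {k : Type} [Field k]

/-! ### Vectors over the dual numbers -/

/-- The constant part of a vector over `k[ε]`. -/
def fstV (w : Fin 2 → DualNumber k) : Fin 2 → k := fun i => TrivSqZeroExt.fst (w i)

/-- The `ε`-part of a vector over `k[ε]`. -/
def sndV (w : Fin 2 → DualNumber k) : Fin 2 → k := fun i => TrivSqZeroExt.snd (w i)

/-- The vector `a + ε b`. -/
def mkV (a b : Fin 2 → k) : Fin 2 → DualNumber k :=
  fun i => TrivSqZeroExt.inl (a i) + TrivSqZeroExt.inr (b i)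

theorem fstV_mkV (a b : Fin 2 → k) : fstV (mkV a b) = a := by
  funext i; simp [fstV, mkV]

theorem sndV_mkV (a b : Fin 2 → k) : sndV (mkV a b) = b := by
  funext i; simp [sndV, mkV]

theorem fstV_mulVec (X : M2 (DualNumber k)) (w : Fin 2 → DualNumber k) :
    fstV (X.mulVec w) = (fstM X).mulVec (fstV w) := by
  funext i
  simp [fstV, fstM_apply, Matrix.mulVec, dotProduct, Fin.sum_univ_two]

theorem sndV_mulVec (X : M2 (DualNumber k)) (w : Fin 2 → DualNumber k) :
    sndV (X.mulVec w) = (fstM X).mulVec (sndV w) + (sndM X).mulVec (fstV w) := by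
  funext i
  fin_cases i <;>
    simp [fstV, sndV, fstM_apply, sndM_apply, Matrix.mulVec, dotProduct, Fin.sum_univ_two] <;> ring

theorem fstV_smul (t : DualNumber k) (w : Fin 2 → DualNumber k) :
    fstV (t • w) = TrivSqZeroExt.fst t • fstV w := by
  funext i; simp [fstV]

theorem sndV_smul (t : DualNumber k) (w : Fin 2 → DualNumber k) :
    sndV (t • w) = TrivSqZeroExt.fst t • sndV w + TrivSqZeroExt.snd t • fstV w := by
  funext i; simp [fstV, sndV]

theorem fstV_sub (w w' : Fin 2 → DualNumber k) : fstV (w - w') = fstV w - fstV w' := by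
  funext i; simp [fstV]

theorem sndV_sub (w w' : Fin 2 → DualNumber k) : sndV (w - w') = sndV w - sndV w' := by
  funext i; simp [sndV]

/-! ### The matrix computation -/

/-- **Core computation.**  `R b₀ = x b₀`, `R w - z w ∈ A b₀` for all `w`, `x` and `z` without `ε`-part, `Rinv` the
inverse of the constant part of `R`, `m u = u₁` where `b₀ = u + ε u₁`.  Then
`X = sndM R * Rinv + (fstM R * m * Rinv - m)` kills `u` and has image in `⟨u⟩`. -/
theorem core (R : M2 (DualNumber k)) (Rinv : M2 k) (h1 : fstM R * Rinv = 1) (h2 : Rinv * fstM R = 1)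
    (b₀ : Fin 2 → DualNumber k) (x z : DualNumber k) (hx : TrivSqZeroExt.snd x = 0)
    (hz : TrivSqZeroExt.snd z = 0) (hb : R.mulVec b₀ = x • b₀)
    (hq : ∀ w : Fin 2 → DualNumber k, ∃ t : DualNumber k, R.mulVec w - z • w = t • b₀)
    (hu : fstV b₀ ≠ 0) (m : M2 k) (hm : m.mulVec (fstV b₀) = sndV b₀) :
    (sndM R * Rinv + (fstM R * m * Rinv - m)).mulVec (fstV b₀) = 0 ∧
      ∀ w : Fin 2 → k, ∃ β : k, (sndM R * Rinv + (fstM R * m * Rinv - m)).mulVec w = β • fstV b₀ := by
  set u := fstV b₀ with hu_def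
  set u₁ := sndV b₀ with hu₁_def
  set x₀ := TrivSqZeroExt.fst x with hx₀
  set z₀ := TrivSqZeroExt.fst z with hz₀
  -- the two components of `R b₀ = x b₀`
  have hb1 : (fstM R).mulVec u = x₀ • u := by
    have := congrArg fstV hb
    rwa [fstV_mulVec, fstV_smul] at this
  have hb2 : (fstM R).mulVec u₁ + (sndM R).mulVec u = x₀ • u₁ := by
    have := congrArg sndV hb
    rw [sndV_mulVec, sndV_smul, hx, zero_smul, add_zero] at this
    exact this
  -- `x₀ ≠ 0`
  have hx₀ne : x₀ ≠ 0 := by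
    intro h0
    rw [h0, zero_smul] at hb1
    have : u = 0 := by
      have := congrArg Rinv.mulVec hb1
      rwa [Matrix.mulVec_mulVec, h2, Matrix.one_mulVec, Matrix.mulVec_zero] at this
    exact hu this
  -- `Rinv u = x₀⁻¹ u`
  have hinv : Rinv.mulVec u = x₀⁻¹ • u := by
    have := congrArg Rinv.mulVec hb1
    rw [Matrix.mulVec_mulVec, h2, Matrix.one_mulVec, Matrix.mulVec_smul] at this
    calc Rinv.mulVec u = x₀⁻¹ • (x₀ • Rinv.mulVec u) := by
          rw [smul_smul, inv_mul_cancel₀ hx₀ne, one_smul]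
      _ = x₀⁻¹ • u := by rw [← this]
  -- the key identity: `(sndM R + fstM R * m - m * fstM R) w = β u`
  have key : ∀ w : Fin 2 → k, ∃ β : k,
      (sndM R + fstM R * m - m * fstM R).mulVec w = β • u := by
    intro w
    obtain ⟨t, ht⟩ := hq (mkV w (m.mulVec w))
    have ht1 := congrArg fstV ht
    have ht2 := congrArg sndV ht
    rw [fstV_sub, fstV_mulVec, fstV_smul, fstV_smul, fstV_mkV] at ht1
    rw [sndV_sub, sndV_mulVec, sndV_smul, sndV_smul, fstV_mkV, sndV_mkV, hz, zero_smul, add_zero]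
      at ht2
    refine ⟨TrivSqZeroExt.snd t, ?_⟩
    -- `ht1 : R̄ w - z₀ w = fst t • u`, `ht2 : R̄ (m w) + R₁ w - z₀ (m w) = fst t • u₁ + snd t • u`
    have e1 : (m * fstM R).mulVec w = z₀ • m.mulVec w + TrivSqZeroExt.fst t • u₁ := by
      rw [← Matrix.mulVec_mulVec, ← hm]
      have : (fstM R).mulVec w = z₀ • w + TrivSqZeroExt.fst t • u := by
        rw [← ht1]; abel
      rw [this, Matrix.mulVec_add, Matrix.mulVec_smul, Matrix.mulVec_smul]
    rw [Matrix.sub_mulVec, Matrix.add_mulVec, ← Matrix.mulVec_mulVec, e1]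
    have : (fstM R).mulVec (m.mulVec w) + (sndM R).mulVec w =
        z₀ • m.mulVec w + (TrivSqZeroExt.fst t • u₁ + TrivSqZeroExt.snd t • u) := by
      rw [← ht2]; abel
    rw [add_comm ((sndM R).mulVec w), this]
    abel
  -- rewrite `X = (sndM R + fstM R * m - m * fstM R) * Rinv`
  have hX : sndM R * Rinv + (fstM R * m * Rinv - m) =
      (sndM R + fstM R * m - m * fstM R) * Rinv := by
    rw [sub_mul, add_mul, mul_assoc m, h1, mul_one]
    abel
  rw [hX]
  constructor
  · rw [← Matrix.mulVec_mulVec, hinv, Matrix.mulVec_smul, Matrix.sub_mulVec, Matrix.add_mulVec,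
      ← Matrix.mulVec_mulVec, ← Matrix.mulVec_mulVec, hm, hb1, Matrix.mulVec_smul, hm]
    rw [add_comm, hb2, sub_self, smul_zero]
  · intro w
    obtain ⟨β, hβ⟩ := key (Rinv.mulVec w)
    exact ⟨β, by rw [← Matrix.mulVec_mulVec, hβ]⟩


/-! ### No `ε`-part in the diagonal characters -/

/-- `x = a z`, `x z = a` with `a ∈ kˣ` and `2 ∈ kˣ`: then `z² = 1` and `x`, `z` have no `ε`-part. -/
theorem noEps {a : k} (ha : a ≠ 0) (h2 : (2 : k) ≠ 0) {x z : DualNumber k}
    (hxz : x = TrivSqZeroExt.inl a * z) (hdet : x * z = TrivSqZeroExt.inl a) :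
    TrivSqZeroExt.snd x = 0 ∧ TrivSqZeroExt.snd z = 0 := by
  have hx1 : TrivSqZeroExt.fst x = a * TrivSqZeroExt.fst z := by
    rw [hxz, TrivSqZeroExt.fst_mul, TrivSqZeroExt.fst_inl]
  have hx2 : TrivSqZeroExt.snd x = a * TrivSqZeroExt.snd z := by
    rw [hxz, DualNumber.snd_mul, TrivSqZeroExt.fst_inl, TrivSqZeroExt.snd_inl, zero_mul, add_zero]
  have hd1 : TrivSqZeroExt.fst x * TrivSqZeroExt.fst z = a := by
    have := congrArg TrivSqZeroExt.fst hdet
    rwa [TrivSqZeroExt.fst_mul, TrivSqZeroExt.fst_inl] at this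
  have hd2 : TrivSqZeroExt.fst x * TrivSqZeroExt.snd z + TrivSqZeroExt.snd x * TrivSqZeroExt.fst z
      = 0 := by
    have := congrArg TrivSqZeroExt.snd hdet
    rwa [DualNumber.snd_mul, TrivSqZeroExt.snd_inl] at this
  have hz0 : TrivSqZeroExt.fst z ≠ 0 := by
    intro h0
    rw [h0, mul_zero] at hd1
    exact ha hd1.symm
  have hz1 : TrivSqZeroExt.snd z = 0 := by
    rw [hx1, hx2] at hd2
    have : (2 : k) * a * TrivSqZeroExt.fst z * TrivSqZeroExt.snd z = 0 := by
      linear_combination hd2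
    rcases mul_eq_zero.mp this with h | h
    · rcases mul_eq_zero.mp h with h | h
      · rcases mul_eq_zero.mp h with h | h
        · exact absurd h h2
        · exact absurd h ha
      · exact absurd h hz0
    · exact h
  exact ⟨by rw [hx2, hz1, mul_zero], hz1⟩

/-- The determinant of an endomorphism that is triangular in a basis `b`. -/
theorem det_of_triangular {A V : Type} [CommRing A] [AddCommGroup V] [Module A V]
    (b : Module.Basis (Fin 2) A V) (f : V →ₗ[A] V) (x z : A) (h0 : f (b 0) = x • b 0)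
    (h1 : ∃ y : A, f (b 1) - z • b 1 = y • b 0) : LinearMap.det f = x * z := by
  obtain ⟨y, hy⟩ := h1
  have h1' : f (b 1) = z • b 1 + y • b 0 := by rw [← hy]; abel
  rw [← LinearMap.det_toMatrix b, Matrix.det_fin_two]
  simp only [LinearMap.toMatrix_apply, h0, h1', map_add, map_smul, Module.Basis.repr_self,
    Finsupp.smul_single, smul_eq_mul, mul_one, Finsupp.coe_add, Pi.add_apply]
  simp


/-! ### Small facts on `k[ε]` -/

theorem eq_zero_of_mem_maximalIdeal_sq {a : DualNumber k}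
    (ha : a ∈ IsLocalRing.maximalIdeal (DualNumber k) ^ 2) : a = 0 := by
  rw [pow_two] at ha
  refine Submodule.mul_induction_on ha (fun x hx y hy => ?_) (fun x y hx hy => ?_)
  · rw [mem_maximalIdeal_dualNumber_iff] at hx hy
    apply TrivSqZeroExt.ext
    · rw [TrivSqZeroExt.fst_mul, hx, zero_mul, TrivSqZeroExt.fst_zero]
    · rw [DualNumber.snd_mul, hx, hy, zero_mul, mul_zero, add_zero, TrivSqZeroExt.snd_zero]
  · rw [hx, hy, add_zero]

theorem natCast_dualNumber_eq_zero {n : ℕ}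
    (h : (n : DualNumber k) ∈ IsLocalRing.maximalIdeal (DualNumber k)) :
    (n : DualNumber k) = 0 ∧ (n : k) = 0 := by
  rw [mem_maximalIdeal_dualNumber_iff, TrivSqZeroExt.fst_natCast] at h
  refine ⟨?_, h⟩
  apply TrivSqZeroExt.ext
  · rw [TrivSqZeroExt.fst_natCast, h, TrivSqZeroExt.fst_zero]
  · rw [TrivSqZeroExt.snd_natCast, TrivSqZeroExt.snd_zero]

/-- A basis vector of `k[ε]²` has non-zero constant part. -/
theorem fstV_basis_ne_zero (b : Module.Basis (Fin 2) (DualNumber k) (Fin 2 → DualNumber k))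
    (i : Fin 2) : fstV (b i) ≠ 0 := by
  intro h0
  have h1 : (TrivSqZeroExt.inr (1 : k) : DualNumber k) • b i = 0 := by
    funext j
    have hj : TrivSqZeroExt.fst (b i j) = 0 := congrFun h0 j
    apply TrivSqZeroExt.ext
    · simp
    · simp [hj]
  have h2 := congrArg b.repr h1
  rw [map_smul, Module.Basis.repr_self, Finsupp.smul_single, map_zero, smul_eq_mul, mul_one,
    Finsupp.single_eq_zero] at h2
  have := congrArg TrivSqZeroExt.snd h2
  simp at this

/-! ### `W⁰` only depends on the line -/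

theorem W0_smul {s : k} (hs : s ≠ 0) (v : Fin 2 → k) : W0 (s • v) = W0 v := by
  have hspan : Submodule.span k {s • v} = Submodule.span k {v} :=
    Submodule.span_singleton_smul_eq (IsUnit.mk0 s hs) v
  ext X
  rw [mem_W0_iff, mem_W0_iff, hspan, Matrix.mulVec_smul]
  constructor
  · rintro ⟨h1, h2⟩
    exact ⟨(smul_eq_zero.mp h1).resolve_left hs, h2⟩
  · rintro ⟨h1, h2⟩
    exact ⟨by rw [h1, smul_zero], h2⟩

/-! ### The data of a strict-ordinary lift at the Prelude's place -/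

section Data

variable (p : ℕ) [Fact p.Prime]

/-- Matrix form of `IsStrictOrdinaryAt p` for `ofMatrix r hr` at `P = primeLocalPlace (pPrime p)`. -/
theorem exists_basis_of_isStrictOrdinaryAt (r : GQ →* M2 (DualNumber k)) (hr : MatCont r)
    (hord : (ofMatrix r hr).IsStrictOrdinaryAt p) :
    ∃ b : Module.Basis (Fin 2) (DualNumber k) (Fin 2 → DualNumber k),
      (∀ σ ∈ (primeLocalPlace (pPrime p)).decompositionSubgroup ℚ, ∃ x z : DualNumber k,
        (r σ).mulVec (b 0) = x • b 0 ∧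
        (∀ w : Fin 2 → DualNumber k, ∃ t : DualNumber k, (r σ).mulVec w - z • w = t • b 0) ∧
        ∀ a : ℕ, (∀ μ : AlgebraicClosure ℚ, μ ^ p = 1 → σ μ = μ ^ a) →
          x = (a : DualNumber k) * z) ∧
      (∀ σ ∈ (primeLocalPlace (pPrime p)).inertiaSubgroupIn ℚ, ∀ w : Fin 2 → DualNumber k,
        ∃ t : DualNumber k, (r σ).mulVec w - w = t • b 0) := by
  obtain ⟨hpA, hP⟩ := hord
  have hp0 : (p : DualNumber k) = 0 := (natCast_dualNumber_eq_zero hpA).1
  obtain ⟨L, ⟨b, hLb⟩, -, hin, hstrict⟩ :=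
    hP (primeLocalPlace (pPrime p)) (RamOmega11.primeLocalPlace_liesOverPrime (pPrime p))
  refine ⟨b, fun σ hσ => ?_, fun σ hσ w => ?_⟩
  · obtain ⟨x, z, hx, hz, hcyc⟩ := hstrict σ hσ
    refine ⟨x, z, ?_, fun w => ?_, fun a ha => ?_⟩
    · exact hx (b 0) (by rw [hLb]; exact Submodule.mem_span_singleton_self _)
    · have := hz w
      rw [hLb, Submodule.mem_span_singleton] at this
      obtain ⟨t, ht⟩ := this
      exact ⟨t, ht.symm⟩
    · have := hcyc 1 a (fun μ hμ => ha μ (by rwa [pow_one] at hμ))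
      rw [pow_one, hp0, Ideal.span_singleton_zero, Ideal.mem_bot, sub_eq_zero] at this
      exact this
  · have := hin σ hσ w
    rw [hLb, Submodule.mem_span_singleton] at this
    obtain ⟨t, ht⟩ := this
    exact ⟨t, ht.symm⟩

end Data


/-! ### The diagonal characters of a strict-ordinary lift have no `ε`-part -/

section Main

variable (p : ℕ) [Fact p.Prime]

theorem charP_of_natCast_eq_zero (h : (p : k) = 0) : CharP k p :=
  (CharP.charP_iff_prime_eq_zero (Fact.out : p.Prime)).mpr h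

theorem two_ne_zero_of_ne (hp2 : p ≠ 2) (h : (p : k) = 0) : (2 : k) ≠ 0 := by
  haveI := charP_of_natCast_eq_zero p h
  intro h2
  have h2' : ((2 : ℕ) : k) = 0 := by exact_mod_cast h2
  rw [CharP.cast_eq_zero_iff k p] at h2'
  exact hp2 ((Nat.prime_dvd_prime_iff_eq (Fact.out : p.Prime) Nat.prime_two).mp h2')

/-- `det (r σ) = a` when `σ` acts on `μ_p` through `μ ↦ μ ^ a`. -/
theorem det_eq_natCast (r : GQ →* M2 (DualNumber k)) (hr : MatCont r)
    (hdet : (ofMatrix r hr).DetIsCyclotomic p) (σ : GQ) (a : ℕ)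
    (ha : ∀ μ : AlgebraicClosure ℚ, μ ^ p = 1 → σ μ = μ ^ a) :
    LinearMap.det ((ofMatrix r hr).ρ σ) = (a : DualNumber k) := by
  have hp0 : (p : DualNumber k) = 0 := (natCast_dualNumber_eq_zero hdet.1).1
  have := hdet.2 1 σ a (fun μ hμ => ha μ (by rwa [pow_one] at hμ))
  rw [pow_one, hp0, Ideal.span_singleton_zero, Ideal.mem_bot, sub_eq_zero] at this
  exact this

theorem det_ofMatrix (r : GQ →* M2 (DualNumber k)) (hr : MatCont r) (σ : GQ) :
    LinearMap.det ((ofMatrix r hr).ρ σ) = (r σ).det :=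
  LinearMap.det_toLin' (r σ)

theorem snd_eq_zero_of_dec (hp2 : p ≠ 2) (r : GQ →* M2 (DualNumber k)) (hr : MatCont r)
    (hdet : (ofMatrix r hr).DetIsCyclotomic p)
    (b : Module.Basis (Fin 2) (DualNumber k) (Fin 2 → DualNumber k)) (σ : GQ) (x z : DualNumber k)
    (hx : (r σ).mulVec (b 0) = x • b 0)
    (hz : ∀ w : Fin 2 → DualNumber k, ∃ t : DualNumber k, (r σ).mulVec w - z • w = t • b 0)
    (hcyc : ∀ a : ℕ, (∀ μ : AlgebraicClosure ℚ, μ ^ p = 1 → σ μ = μ ^ a) →
      x = (a : DualNumber k) * z) :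
    TrivSqZeroExt.snd x = 0 ∧ TrivSqZeroExt.snd z = 0 := by
  have hpk : (p : k) = 0 := (natCast_dualNumber_eq_zero hdet.1).2
  haveI := charP_of_natCast_eq_zero p hpk
  obtain ⟨a, ha, hpa⟩ := RamOmega11.exists_exponent (Fact.out : p.Prime) σ
  have hak : (a : k) ≠ 0 := fun h => hpa ((CharP.cast_eq_zero_iff k p a).mp h)
  have hxz : x = TrivSqZeroExt.inl (a : k) * z := by
    rw [TrivSqZeroExt.inl_natCast]; exact hcyc a ha
  have hdet' : x * z = TrivSqZeroExt.inl (a : k) := by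
    rw [TrivSqZeroExt.inl_natCast, ← det_eq_natCast p r hr hdet σ a ha]
    exact (det_of_triangular b ((ofMatrix r hr).ρ σ) x z hx (hz (b 1))).symm
  exact noEps hak (two_ne_zero_of_ne p hp2 hpk) hxz hdet'

/-! ### The reduction of the lift's line is the given line -/

theorem fstV_mem_span (hp2 : p ≠ 2) (rbar : GQ →* M2 k) (v : Fin 2 → k)
    (hv : IsStrictOrdLine p rbar v) (r : GQ →* M2 (DualNumber k)) (hr : MatCont r)
    (hfst : ∀ σ, fstM (r σ) = rbar σ) (hdet : (ofMatrix r hr).DetIsCyclotomic p)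
    (b : Module.Basis (Fin 2) (DualNumber k) (Fin 2 → DualNumber k))
    (hin : ∀ σ ∈ (primeLocalPlace (pPrime p)).inertiaSubgroupIn ℚ, ∀ w : Fin 2 → DualNumber k,
      ∃ t : DualNumber k, (r σ).mulVec w - w = t • b 0) :
    ∃ s : k, s ≠ 0 ∧ fstV (b 0) = s • v := by
  have hu : fstV (b 0) ≠ 0 := fstV_basis_ne_zero b 0
  by_cases hmem : fstV (b 0) ∈ Submodule.span k {v}
  · obtain ⟨s, hs⟩ := Submodule.mem_span_singleton.mp hmem
    refine ⟨s, fun h0 => hu ?_, hs.symm⟩
    rw [← hs, h0, zero_smul]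
  · exfalso
    have hpk : (p : k) = 0 := (natCast_dualNumber_eq_zero hdet.1).2
    haveI := charP_of_natCast_eq_zero p hpk
    obtain ⟨τ, hτ, a, ha, hne⟩ := RamOmega11.exists_inertia_exponent_ne_one
      (primeLocalPlace (pPrime p)) (Fact.out : p.Prime) hp2
      (RamOmega11.primeLocalPlace_liesOverPrime (pPrime p))
    -- `rbar τ` is the identity
    have hone : rbar τ = 1 := by
      apply Matrix.mulVec_injective
      funext w
      rw [Matrix.one_mulVec]
      obtain ⟨t, ht⟩ := hin τ hτ (mkV w 0)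
      have ht1 := congrArg fstV ht
      rw [fstV_sub, fstV_mulVec, fstV_smul, fstV_mkV, hfst] at ht1
      obtain ⟨s', hs'⟩ := Submodule.mem_span_singleton.mp (hv.inert τ hτ w)
      by_cases ht0 : TrivSqZeroExt.fst t = 0
      · rw [ht0, zero_smul, sub_eq_zero] at ht1
        exact ht1
      · exfalso
        apply hmem
        rw [Submodule.mem_span_singleton]
        refine ⟨(TrivSqZeroExt.fst t)⁻¹ * s', ?_⟩
        rw [mul_smul, hs', ht1, smul_smul, inv_mul_cancel₀ ht0, one_smul]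
    -- but its determinant is `a ≠ 1`
    have h1 := det_eq_natCast p r hr hdet τ a ha
    rw [det_ofMatrix] at h1
    have h2 := congrArg TrivSqZeroExt.fst h1
    rw [fst_det, hfst, hone, Matrix.det_one, TrivSqZeroExt.fst_natCast] at h2
    have h3 : ((a : ℕ) : k) = ((1 : ℕ) : k) := by rw [← h2, Nat.cast_one]
    exact hne ((CharP.natCast_eq_natCast k p).mp h3)


/-! ### A matrix sending a non-zero vector to a given vector -/

theorem exists_matrix_mulVec_eq {u : Fin 2 → k} (hu : u ≠ 0) (u₁ : Fin 2 → k) :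
    ∃ m : M2 k, m.mulVec u = u₁ := by
  obtain ⟨i, hi⟩ := Function.ne_iff.mp hu
  refine ⟨Matrix.of fun j l => if l = i then u₁ j * (u i)⁻¹ else 0, ?_⟩
  funext j
  simp only [Matrix.mulVec, dotProduct, Matrix.of_apply, ite_mul, zero_mul,
    Finset.sum_ite_eq', Finset.mem_univ, if_true]
  rw [mul_assoc, inv_mul_cancel₀ hi, mul_one]

/-- The trace-zero part `m - (tr m / 2)` of a matrix. -/
noncomputable def tz (m : M2 k) : M2 k := m - (m.trace / 2) • (1 : M2 k)

theorem trace_tz (h2 : (2 : k) ≠ 0) (m : M2 k) : (tz m).trace = 0 := by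
  rw [tz, Matrix.trace_sub, Matrix.trace_smul, Matrix.trace_one, Fintype.card_fin, smul_eq_mul]
  push_cast
  field_simp
  ring

theorem conj_tz (m g g' : M2 k) (hg : g * g' = 1) :
    g * tz m * g' - tz m = g * m * g' - m := by
  rw [tz, mul_sub, sub_mul, Matrix.mul_smul, Matrix.smul_mul, mul_one, hg]
  abel


/-! ### The local cocycle -/

/-- restriction of a cocycle to `G_p`. -/
noncomputable def resC (rbar : GQ →* M2 k) (c : cocycles₁ (ad0 rbar)) : cocycles₁ (ad0Loc p rbar) :=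
  mapCocycles₁ (primeLocalToGlobal (pPrime p)) (𝟙 (ad0Loc p rbar)) c

theorem resC_apply (rbar : GQ →* M2 k) (c : cocycles₁ (ad0 rbar)) (g : primeLocalGaloisGroup (pPrime p)) :
    (resC p rbar c : _ → ad0Loc p rbar) g = (c : GQ → ad0 rbar) (primeLocalToGlobal (pPrime p) g) := by
  rw [resC, coe_mapCocycles₁]
  rfl

/-- the coboundary of `m₀`. -/
noncomputable def cobC (rbar : GQ →* M2 k) (m₀ : sl2 k) : cocycles₁ (ad0Loc p rbar) :=
  ⟨(d₀₁ (ad0Loc p rbar)).hom m₀, d₀₁_apply_mem_cocycles₁ (A := ad0Loc p rbar) m₀⟩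

theorem cobC_apply (rbar : GQ →* M2 k) (m₀ : sl2 k) (g : primeLocalGaloisGroup (pPrime p)) :
    (cobC p rbar m₀ : _ → ad0Loc p rbar) g = (ad0Loc p rbar).ρ g m₀ - m₀ := rfl

theorem class_eq (rbar : GQ →* M2 k) (c : cocycles₁ (ad0 rbar)) (m₀ : sl2 k) :
    (map (primeLocalToGlobal (pPrime p)) (𝟙 (ad0Loc p rbar)) 1).hom ((H1π (ad0 rbar)).hom c) =
      (H1π (ad0Loc p rbar)).hom (resC p rbar c + cobC p rbar m₀) := by
  have h1 : (map (primeLocalToGlobal (pPrime p)) (𝟙 (ad0Loc p rbar)) 1).hom ((H1π (ad0 rbar)).hom c) =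
      (H1π (ad0Loc p rbar)).hom (resC p rbar c) :=
    H1π_comp_map_apply (primeLocalToGlobal (pPrime p)) (𝟙 (ad0Loc p rbar)) c
  rw [h1]
  symm
  apply (H1π_eq_iff (resC p rbar c + cobC p rbar m₀) (resC p rbar c)).mpr
  refine ⟨m₀, ?_⟩
  funext g
  show _ = ((resC p rbar c + cobC p rbar m₀ : cocycles₁ (ad0Loc p rbar)) : _ → ad0Loc p rbar) g -
    (resC p rbar c : _ → ad0Loc p rbar) g
  have : ((resC p rbar c + cobC p rbar m₀ : cocycles₁ (ad0Loc p rbar)) : _ → ad0Loc p rbar) g =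
    (resC p rbar c : _ → ad0Loc p rbar) g + (cobC p rbar m₀ : _ → ad0Loc p rbar) g := rfl
  rw [this, add_sub_cancel_left]
  rfl


/-- The matrix of `(resC c + cobC m₀) g`. -/
theorem val_eq (rbar : GQ →* M2 k) (r : GQ →* M2 (DualNumber k)) (hfst : ∀ σ, fstM (r σ) = rbar σ)
    (c : cocycles₁ (ad0 rbar)) (hc : ∀ σ, ((c σ : sl2 k) : M2 k) = epsPart r σ) (m : M2 k)
    (hm : tz m ∈ sl2 k) (g : primeLocalGaloisGroup (pPrime p)) :
    ((((resC p rbar c + cobC p rbar ⟨tz m, hm⟩ : cocycles₁ (ad0Loc p rbar)) : _ → ad0Loc p rbar) g :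
      sl2 k) : M2 k) =
      sndM (r (primeLocalToGlobal (pPrime p) g)) * rbar (primeLocalToGlobal (pPrime p) g)⁻¹ +
        (fstM (r (primeLocalToGlobal (pPrime p) g)) * m * rbar (primeLocalToGlobal (pPrime p) g)⁻¹ - m) := by
  have e1 : ((resC p rbar c + cobC p rbar ⟨tz m, hm⟩ : cocycles₁ (ad0Loc p rbar)) : _ → ad0Loc p rbar) g
      = (resC p rbar c : _ → ad0Loc p rbar) g + (cobC p rbar ⟨tz m, hm⟩ : _ → ad0Loc p rbar) g := rfl
  rw [e1, resC_apply, cobC_apply]
  have e2 : ((((ad0Loc p rbar).ρ g (⟨tz m, hm⟩ : sl2 k) - (⟨tz m, hm⟩ : sl2 k) : ad0Loc p rbar) : sl2 k) : M2 k)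
      = rbar (primeLocalToGlobal (pPrime p) g) * tz m * rbar (primeLocalToGlobal (pPrime p) g)⁻¹ - tz m := by
    show (((ad0 rbar).ρ (primeLocalToGlobal (pPrime p) g) (⟨tz m, hm⟩ : sl2 k) - (⟨tz m, hm⟩ : sl2 k) : sl2 k) : M2 k) = _
    rw [Submodule.coe_sub, ad0_ρ_apply_coe]
  show ((((c : GQ → ad0 rbar) (primeLocalToGlobal (pPrime p) g) : sl2 k) +
    ((ad0Loc p rbar).ρ g (⟨tz m, hm⟩ : sl2 k) - (⟨tz m, hm⟩ : sl2 k) : sl2 k) : sl2 k) : M2 k) = _
  rw [Submodule.coe_add, e2, hc, epsPart_eq, hfst, hfst,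
    conj_tz m _ _ (rbar_mul_inv rbar _)]


/-- Level-constancy of `resC c + cobC m₀`, from the continuity of `r` modulo `𝔪² = 0`. -/
theorem levelConstant (rbar : GQ →* M2 k) (r : GQ →* M2 (DualNumber k)) (hr : MatCont r)
    (hfst : ∀ σ, fstM (r σ) = rbar σ)
    (c : cocycles₁ (ad0 rbar)) (hc : ∀ σ, ((c σ : sl2 k) : M2 k) = epsPart r σ) (m : M2 k)
    (hm : tz m ∈ sl2 k) :
    IsLevelConstant₁ (primeLocalToGlobal (pPrime p))
      ((resC p rbar c + cobC p rbar ⟨tz m, hm⟩ : cocycles₁ (ad0Loc p rbar)) : _ → ad0Loc p rbar) := by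
  obtain ⟨F, hF, hFr⟩ := hr 2
  refine ⟨F, hF, fun g t ht => ?_⟩
  have hr1 : r (primeLocalToGlobal (pPrime p) t) = 1 := by
    have h := hFr (primeLocalToGlobal (pPrime p) t)
      (fun x hx => (IntermediateField.mem_fixingSubgroup_iff F _).mp ht x hx)
    apply Matrix.ext
    intro i j
    have := eq_zero_of_mem_maximalIdeal_sq (h i j)
    rw [Matrix.sub_apply, sub_eq_zero] at this
    exact this
  have hrinv : r (primeLocalToGlobal (pPrime p) t)⁻¹ = 1 := by
    have := map_mul r (primeLocalToGlobal (pPrime p) t)⁻¹ (primeLocalToGlobal (pPrime p) t)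
    rw [inv_mul_cancel, map_one, hr1, mul_one] at this
    exact this.symm
  obtain ⟨X, hX⟩ : ∃ X : cocycles₁ (ad0Loc p rbar), X = resC p rbar c + cobC p rbar ⟨tz m, hm⟩ :=
    ⟨_, rfl⟩
  rw [← hX]
  have hcoc : (X : _ → ad0Loc p rbar) (g * t) =
      (ad0Loc p rbar).ρ g ((X : _ → ad0Loc p rbar) t) + (X : _ → ad0Loc p rbar) g :=
    (mem_cocycles₁_iff (X : _ → ad0Loc p rbar)).mp X.2 g t
  have hzero : (X : _ → ad0Loc p rbar) t = 0 := by
    apply Subtype.ext
    have := val_eq p rbar r hfst c hc m hm t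
    rw [← hX, hr1, sndM_one, fstM_one, zero_mul, one_mul, zero_add, ← hfst, hrinv, fstM_one, mul_one,
      sub_self] at this
    rw [this]
    rfl
  rw [hcoc, hzero, map_zero, zero_add]

theorem loc_mem_decomposition (g : primeLocalGaloisGroup (pPrime p)) :
    primeLocalToGlobal (pPrime p) g ∈ (primeLocalPlace (pPrime p)).decompositionSubgroup ℚ := by
  haveI : Fact ((pPrime p : Nat.Primes) : ℕ).Prime := ⟨(pPrime p).2⟩
  exact localGaloisToGlobal_mem_decompositionSubgroup ((pPrime p : Nat.Primes) : ℕ) g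

/-! ### The statement -/

theorem ordMember : OrdMember p k := by
  intro hp2 rbar v hv r hr hfst hdet hord c hc
  have hpk : (p : k) = 0 := (natCast_dualNumber_eq_zero hdet.1).2
  have h2 : (2 : k) ≠ 0 := two_ne_zero_of_ne p hp2 hpk
  obtain ⟨b, hdec, hin⟩ := exists_basis_of_isStrictOrdinaryAt p r hr hord
  obtain ⟨s, hs0, hs⟩ := fstV_mem_span p hp2 rbar v hv r hr hfst hdet b hin
  have hu : fstV (b 0) ≠ 0 := fstV_basis_ne_zero b 0
  obtain ⟨m, hm⟩ := exists_matrix_mulVec_eq hu (sndV (b 0))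
  have hm₀ : tz m ∈ sl2 k := (mem_sl2_iff _).mpr (trace_tz h2 m)
  rw [class_eq p rbar c ⟨tz m, hm₀⟩, Lord, mem_classesIn_iff]
  refine ⟨resC p rbar c + cobC p rbar ⟨tz m, hm₀⟩, levelConstant p rbar r hr hfst c hc m hm₀, ?_, rfl⟩
  intro g
  obtain ⟨x, z, hx, hz, hcyc⟩ := hdec _ (loc_mem_decomposition p g)
  obtain ⟨hx0, hz0⟩ := snd_eq_zero_of_dec p hp2 r hr hdet b _ x z hx hz hcyc
  have hcore := core (r (primeLocalToGlobal (pPrime p) g)) (rbar (primeLocalToGlobal (pPrime p) g)⁻¹)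
    (by rw [hfst]; exact rbar_mul_inv rbar _) (by rw [hfst]; exact rbar_inv_mul rbar _)
    (b 0) x z hx0 hz0 hx hz hu m hm
  rw [← W0_smul hs0 v, ← hs, mem_W0_iff, val_eq p rbar r hfst c hc m hm₀ g]
  refine ⟨hcore.1, fun w => ?_⟩
  obtain ⟨β, hβ⟩ := hcore.2 w
  rw [hβ]
  exact Submodule.smul_mem _ _ (Submodule.mem_span_singleton_self _)

end Main

end Fermat.Agent.ES.T56.OrdMember11
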