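/-
Programme T (S56), chapter LOC, leg ORD-p (helper11): **the exports**, in the literal shapes consumed by chapter TOP
(`TopAsm27.twSelmer_of_inputs`, hypothesis `hpcount`; `TopObjs27.contLocK`, `TopObjs27.resLocK` are reducible
abbreviations of the terms written out below) and by chapter TAN (membership at `p`).

For the matrix model `Sl.rbar` of a strict-ordinary `ρ̄` (`p` odd, `k = ResidueField 𝒪` finite) there is a vector `v`
such that, with `Lk p := Lord p Sl.rbar v ≤ H¹(G_p, ad⁰ρ̄)`:
* `Lk p ≤ H¹_cont`, `Lk p ⊓ H¹_cont` is finite and `#(Lk p ⊓ H¹_cont) ≤ #H⁰(G_p, ad⁰ρ̄) · #k`          (`hpcount`);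
* the localisation at `p` of the class of the `ε`-part cocycle of every strict-ordinary lift of `Sl.rbar` to `k[ε]`
  with cyclotomic determinant lies in `Lk p`                                                          (membership).
-/
import Mathlib
import Fermat.Agent.ES.T56.OrdIface11
import Fermat.Agent.ES.T56.OrdLine11
import Fermat.Agent.ES.T56.OrdMember11
import Fermat.Agent.ES.T56.OrdCount11
import Fermat.Agent.ES.T56.KumOrdP17

set_option autoImplicit false

namespace Fermat.Agent.ES.T56.OrdExport11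

open CategoryTheory groupCohomology ExtCitation IsLocalRing Fermat.Agent.S53 Fermat.Agent.ES.T56.Ad0Rep10
  Fermat.Agent.ES.T56.OrdIface11

section Field

variable (p : ℕ) [Fact p.Prime] {k : Type} [Field k]

/-- `L_p^{ord}` consists of continuous classes. -/
theorem lord_le_cont (rbar : GQ →* M2 k) (v : Fin 2 → k) :
    Lord p rbar v ≤ continuousH1 (primeLocalToGlobal (pPrime p))
      (Rep.res (primeLocalToGlobal (pPrime p)) (ad0 rbar)) :=
  classesIn_le_continuousH1 _ _ _

theorem lord_inf_cont (rbar : GQ →* M2 k) (v : Fin 2 → k) :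
    Lord p rbar v ⊓ continuousH1 (primeLocalToGlobal (pPrime p))
      (Rep.res (primeLocalToGlobal (pPrime p)) (ad0 rbar)) = Lord p rbar v :=
  inf_eq_left.mpr (lord_le_cont p rbar v)

/-- **The count at `p`**, in the literal shape of `TopAsm27.twSelmer_of_inputs`'s `hpcount` (for
`A = ad0 rbar`, `Lk (pPrime p) = Lord p rbar v`), together with the finiteness of the local term. -/
theorem hpcount_ord (hp2 : p ≠ 2) [Finite k] (rbar : GQ →* M2 k)
    (hcont : GaloisFactorsThroughFiniteLevel rbar) (v : Fin 2 → k) (hv : IsStrictOrdLine p rbar v) :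
    Finite ↥(Lord p rbar v ⊓ continuousH1 (primeLocalToGlobal (pPrime p))
        (Rep.res (primeLocalToGlobal (pPrime p)) (ad0 rbar))) ∧
      Nat.card ↥(Lord p rbar v ⊓ continuousH1 (primeLocalToGlobal (pPrime p))
        (Rep.res (primeLocalToGlobal (pPrime p)) (ad0 rbar))) ≤
        Nat.card ↥((Rep.res (primeLocalToGlobal (pPrime p)) (ad0 rbar)).ρ.invariants) * Nat.card k := by
  rw [lord_inf_cont]
  obtain ⟨hfin, hcard⟩ :=
    OrdCount11.ordCount p k inferInstance rbar hcont v hv (KumOrdP17.kumBound p hp2)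
  exact ⟨hfin, hcard.trans_eq (mul_comm _ _)⟩

/-- **Membership at `p`** (`= OrdMember11.ordMember`, unfolded): `resLocK (pPrime p) (ad0 rbar)` of the class of the
`ε`-part cocycle of a strict-ordinary lift with cyclotomic determinant lies in `Lord p rbar v`. -/
theorem member_ord (hp2 : p ≠ 2) (rbar : GQ →* M2 k) (v : Fin 2 → k) (hv : IsStrictOrdLine p rbar v)
    (r : GQ →* M2 (DualNumber k)) (hr : MatCont r) (hfst : ∀ σ, fstM (r σ) = rbar σ)
    (hdet : (ofMatrix r hr).DetIsCyclotomic p) (hord : (ofMatrix r hr).IsStrictOrdinaryAt p)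
    (c : cocycles₁ (ad0 rbar)) (hc : ∀ σ, ((c σ : sl2 k) : M2 k) = epsPart r σ) :
    (map (primeLocalToGlobal (pPrime p))
        (𝟙 (Rep.res (primeLocalToGlobal (pPrime p)) (ad0 rbar))) 1).hom ((H1π (ad0 rbar)).hom c) ∈
      Lord p rbar v :=
  OrdMember11.ordMember (p := p) (k := k) hp2 rbar v hv r hr hfst hdet hord c hc

end Field

section Slice

variable {𝒪 : Type} [CommRing 𝒪] [IsLocalRing 𝒪] (p : ℕ) [Fact p.Prime]

/-- **The ORD-p package for `S56`**: for the matrix model `Sl.rbar` of a strict-ordinary `ρ̄` there is a line `v` whose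
local condition `Lord p Sl.rbar v` satisfies the count (`hpcount`) and receives the strict-ordinary lifts. -/
theorem exists_ord_package (hp2 : p ≠ 2) [Finite (ResidueField 𝒪)]
    (ρbar : ResidualGaloisRep (ResidueField 𝒪)) (Sl : SliceData 𝒪 ρbar)
    (hord : (GaloisRepAdic.ofResidualGaloisRep ρbar).IsStrictOrdinaryAt p) :
    ∃ v : Fin 2 → ResidueField 𝒪, IsStrictOrdLine p Sl.rbar v ∧
      (Finite ↥(Lord p Sl.rbar v ⊓ continuousH1 (primeLocalToGlobal (pPrime p))
          (Rep.res (primeLocalToGlobal (pPrime p)) (ad0 Sl.rbar))) ∧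
        Nat.card ↥(Lord p Sl.rbar v ⊓ continuousH1 (primeLocalToGlobal (pPrime p))
          (Rep.res (primeLocalToGlobal (pPrime p)) (ad0 Sl.rbar))) ≤
          Nat.card ↥((Rep.res (primeLocalToGlobal (pPrime p)) (ad0 Sl.rbar)).ρ.invariants) *
            Nat.card (ResidueField 𝒪)) ∧
      ∀ (r : GQ →* M2 (DualNumber (ResidueField 𝒪))) (hr : MatCont r), (∀ σ, fstM (r σ) = Sl.rbar σ) →
        (ofMatrix r hr).DetIsCyclotomic p → (ofMatrix r hr).IsStrictOrdinaryAt p →
        ∀ c : cocycles₁ (ad0 Sl.rbar), (∀ σ, ((c σ : sl2 (ResidueField 𝒪)) : M2 (ResidueField 𝒪)) = epsPart r σ) →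
          (map (primeLocalToGlobal (pPrime p))
              (𝟙 (Rep.res (primeLocalToGlobal (pPrime p)) (ad0 Sl.rbar))) 1).hom
            ((H1π (ad0 Sl.rbar)).hom c) ∈ Lord p Sl.rbar v := by
  obtain ⟨v, hv⟩ := OrdLine11.ordLine (𝒪 := 𝒪) p ρbar Sl hord
  exact ⟨v, hv, hpcount_ord p hp2 Sl.rbar (OrdLine11.factorsThroughFiniteLevel_rbar Sl) v hv,
    fun r hr hfst hdet hordr c hc => member_ord p hp2 Sl.rbar v hv r hr hfst hdet hordr c hc⟩

end Slice

end Fermat.Agent.ES.T56.OrdExport11
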