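/-
Programme T (S56, Taylor–Wiles primes), chapter TAN (helper23): `QuotStable23` in the literal shape
`QuotStable 𝒟` of helper10's TAN contract (`T56_TAN_CONTRACT10`, hypothesis of `BMain` /
`TangentMap10`): stability of the type under SURJECTIVE `𝒪`-algebra maps from complete Noetherian
local `𝒪`-algebras onto `k[ε]`, for `𝒟 = T56Iface27.ordCond 𝒪 p Smin T` and `flatCond 𝒪 p Smin T`;
and the same for surjections onto any local `𝒪`-algebra `B` (used with `B = k` for (Hρ̄)).
-/
import Mathlib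
import Fermat.Agent.ES.T56.QuotStable23

set_option autoImplicit false

namespace Fermat.Agent.ES.T56.QuotStableCor23

open IsLocalRing Fermat.Agent.ES.T56.T56Iface27 Fermat.Agent.ES.T56.QuotStable23

variable {𝒪 : Type} [CommRing 𝒪]

/-- `ordCond` is stable under `𝒪`-algebra maps that are local homomorphisms. -/
theorem ordCond_of_algHom (p : ℕ) (Smin T : Finset ℕ) {R B : Type} [CommRing R] [IsLocalRing R]
    [Algebra 𝒪 R] [CommRing B] [IsLocalRing B] [Algebra 𝒪 B] (ρ : GaloisRepAdic R)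
    (f : R →ₐ[𝒪] B) (hf : IsLocalHom (f : R →+* B)) (h : ordCond 𝒪 p Smin T ρ) :
    ordCond 𝒪 p Smin T (ρ.baseChangeAlong (f : R →+* B) hf) :=
  ordCond_baseChangeAlong (f : R →+* B) hf ρ h

/-- `flatCond` is stable under SURJECTIVE `𝒪`-algebra maps that are local homomorphisms. -/
theorem flatCond_of_algHom (p : ℕ) (Smin T : Finset ℕ) {R B : Type} [CommRing R] [IsLocalRing R]
    [Algebra 𝒪 R] [CommRing B] [IsLocalRing B] [Algebra 𝒪 B] (ρ : GaloisRepAdic R)
    (f : R →ₐ[𝒪] B) (hf : IsLocalHom (f : R →+* B)) (hsurj : Function.Surjective f)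
    (h : flatCond 𝒪 p Smin T ρ) :
    flatCond 𝒪 p Smin T (ρ.baseChangeAlong (f : R →+* B) hf) :=
  flatCond_baseChangeAlong (f : R →+* B) hf ρ hsurj h

variable [IsLocalRing 𝒪] [alg : Algebra 𝒪 (DualNumber (ResidueField 𝒪))]

/-- **`QuotStable (ordCond 𝒪 p Smin T)`**, literally the Prop of the TAN contract. -/
theorem quotStable_ordCond (p : ℕ) (Smin T : Finset ℕ) :
    ∀ (R : Type) [CommRing R] [IsLocalRing R] [IsNoetherianRing R]
      [IsAdicComplete (maximalIdeal R) R] [Algebra 𝒪 R] (ρ : GaloisRepAdic R)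
      (f : R →ₐ[𝒪] DualNumber (ResidueField 𝒪))
      (hf : IsLocalHom (f : R →+* DualNumber (ResidueField 𝒪))), Function.Surjective f →
      ordCond 𝒪 p Smin T ρ →
        ordCond 𝒪 p Smin T (ρ.baseChangeAlong (f : R →+* DualNumber (ResidueField 𝒪)) hf) :=
  fun _ _ _ _ _ _ ρ f hf _ h => ordCond_of_algHom p Smin T ρ f hf h

/-- **`QuotStable (flatCond 𝒪 p Smin T)`**, literally the Prop of the TAN contract. -/
theorem quotStable_flatCond (p : ℕ) (Smin T : Finset ℕ) :
    ∀ (R : Type) [CommRing R] [IsLocalRing R] [IsNoetherianRing R]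
      [IsAdicComplete (maximalIdeal R) R] [Algebra 𝒪 R] (ρ : GaloisRepAdic R)
      (f : R →ₐ[𝒪] DualNumber (ResidueField 𝒪))
      (hf : IsLocalHom (f : R →+* DualNumber (ResidueField 𝒪))), Function.Surjective f →
      flatCond 𝒪 p Smin T ρ →
        flatCond 𝒪 p Smin T (ρ.baseChangeAlong (f : R →+* DualNumber (ResidueField 𝒪)) hf) :=
  fun _ _ _ _ _ _ ρ f hf hsurj h => flatCond_of_algHom p Smin T ρ f hf hsurj h

end Fermat.Agent.ES.T56.QuotStableCor23
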