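import Mathlib
import Fermat.Prelude.Def_GaloisRep_DeformationRingData
import Fermat.Prelude.Def_GaloisRep_LocalConditions
import Fermat.Prelude.Def_GroupCohomology_ContinuousUnramified
import Fermat.Agent.S53.MatrixRes
import Fermat.Agent.S53.Pairs
import Fermat.Agent.ES.T56.Ad0Rep10
import Fermat.Agent.ES.T56.Ad0Lift10

/-!
# T56 (TAN): the tangent map `Hom_𝒪(R, k[ε]) ↪ H¹(G_ℚ, ad⁰ρ̄)` of a deformation ring (helper10)

`D : DeformationRingData 𝒪 ρbar 𝒟`, `Sl : SliceData 𝒪 ρbar` (S53), `k[ε] = DualNumber k` with any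
`𝒪`-algebra structure through the residue map (`halg`).

* `k[ε]` is a complete Noetherian local `𝒪`-algebra (`isAdicComplete_of_pow_eq_bot`, …);
* every `f : R →ₐ[𝒪] k[ε]` is local, and is surjective or kills `m_R` (`surjective_or_vanish`);
* `QuotStable 𝒟`, `EquivStable 𝒟` : the two stability properties of the type that are used;
* **`exists_tangent_injection`** : an injective function `τ` from the tangent set of `D.R` to
  `H1 (ad0 Sl.rbar)` with values in `continuousH1S Sg`, every nonzero value being the class of the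
  `ε`-part cocycle of a strict lift of type `𝒟` over `k[ε]`.
-/

set_option autoImplicit false
set_option linter.unusedSectionVars false
set_option linter.style.haveILetI false

namespace Fermat.Agent.ES.T56.TangentMap10

open IsLocalRing GaloisRep Fermat.Agent.S53 Fermat.Agent.ES.T56.Ad0Rep10
  Fermat.Agent.ES.T56.Ad0Lift10 groupCohomology

/-! ### Nilpotent ideals give complete rings -/

theorem isAdicComplete_of_pow_eq_bot {A : Type*} [CommRing A] (I : Ideal A) (N : ℕ)
    (h : I ^ N = ⊥) : IsAdicComplete I A where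
  haus' x hx := by
    have h1 := hx N
    rw [h, Submodule.bot_smul, SModEq.zero, Submodule.mem_bot] at h1
    exact h1
  prec' f hf := by
    refine ⟨f N, fun n => ?_⟩
    rcases le_total n N with hn | hn
    · exact hf hn
    · have h1 := hf hn
      rw [h, Submodule.bot_smul, SModEq.def, Submodule.Quotient.eq, Submodule.mem_bot,
        sub_eq_zero] at h1
      rw [h1]

/-! ### `k[ε]` as a complete Noetherian local `𝒪`-algebra -/

section Dual

variable {𝒪 : Type} [CommRing 𝒪] [IsLocalRing 𝒪]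
  [alg : Algebra 𝒪 (DualNumber (ResidueField 𝒪))]
  (halg : ∀ c : 𝒪, algebraMap 𝒪 (DualNumber (ResidueField 𝒪)) c =
    TrivSqZeroExt.inl (residue 𝒪 c))

include halg

theorem isLocalHom_algebraMap_dual :
    IsLocalHom (algebraMap 𝒪 (DualNumber (ResidueField 𝒪))) := by
  refine ⟨fun c hc => ?_⟩
  rw [halg, TrivSqZeroExt.isUnit_iff_isUnit_fst, TrivSqZeroExt.fst_inl] at hc
  by_contra hnc
  have h0 : residue 𝒪 c = 0 := (residue_eq_zero_iff c).mpr ((mem_maximalIdeal c).mpr hnc)
  rw [h0] at hc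
  exact not_isUnit_zero hc

theorem residue_comp_algebraMap_dual_surjective :
    Function.Surjective (residue (DualNumber (ResidueField 𝒪)) ∘
      algebraMap 𝒪 (DualNumber (ResidueField 𝒪))) := by
  intro y
  obtain ⟨e, rfl⟩ := residue_surjective y
  obtain ⟨c, hc⟩ := residue_surjective (TrivSqZeroExt.fst e)
  refine ⟨c, ?_⟩
  rw [Function.comp_apply, ← sub_eq_zero, ← map_sub, residue_eq_zero_iff,
    mem_maximalIdeal_dualNumber_iff, TrivSqZeroExt.fst_sub, halg, TrivSqZeroExt.fst_inl, hc,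
    sub_self]

omit halg in
theorem maximalIdeal_dual_sq {k : Type} [Field k] : maximalIdeal (DualNumber k) ^ 2 = ⊥ := by
  rw [eq_bot_iff, pow_two, Ideal.mul_le]
  intro a ha b hb
  rw [mem_maximalIdeal_dualNumber_iff] at ha hb
  rw [Ideal.mem_bot]
  apply TrivSqZeroExt.ext
  · rw [TrivSqZeroExt.fst_mul, ha, zero_mul, TrivSqZeroExt.fst_zero]
  · rw [TrivSqZeroExt.snd_mul, ha, hb, TrivSqZeroExt.snd_zero]
    simp

omit halg in
theorem isAdicComplete_dual {k : Type} [Field k] :
    IsAdicComplete (maximalIdeal (DualNumber k)) (DualNumber k) :=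
  isAdicComplete_of_pow_eq_bot _ 2 maximalIdeal_dual_sq

end Dual

/-! ### Tangent homomorphisms -/

section Tangent

variable {𝒪 : Type} [CommRing 𝒪] [IsLocalRing 𝒪]
  [alg : Algebra 𝒪 (DualNumber (ResidueField 𝒪))]
  (halg : ∀ c : 𝒪, algebraMap 𝒪 (DualNumber (ResidueField 𝒪)) c =
    TrivSqZeroExt.inl (residue 𝒪 c))
  {R : Type} [CommRing R] [IsLocalRing R] [Algebra 𝒪 R]

include halg

/-- Every tangent homomorphism maps the maximal ideal into `ε k`. -/
theorem fst_apply_eq_zero (f : R →ₐ[𝒪] DualNumber (ResidueField 𝒪)) {x : R}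
    (hx : x ∈ maximalIdeal R) : TrivSqZeroExt.fst (f x) = 0 := by
  let g : R →+* ResidueField 𝒪 :=
    (TrivSqZeroExt.fstHom (ResidueField 𝒪) (ResidueField 𝒪) (ResidueField 𝒪)).toRingHom.comp
      (f : R →+* DualNumber (ResidueField 𝒪))
  have hg : ∀ y, g y = TrivSqZeroExt.fst (f y) := fun _ => rfl
  have hsurj : Function.Surjective g := by
    intro y
    obtain ⟨c, rfl⟩ := residue_surjective y
    refine ⟨algebraMap 𝒪 R c, ?_⟩
    rw [hg, AlgHom.commutes, halg, TrivSqZeroExt.fst_inl]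
  have hmax : (RingHom.ker g).IsMaximal := RingHom.ker_isMaximal_of_surjective g hsurj
  have hker : RingHom.ker g = maximalIdeal R := eq_maximalIdeal hmax
  have : x ∈ RingHom.ker g := hker ▸ hx
  exact (hg x) ▸ this

/-- Every tangent homomorphism is a local homomorphism. -/
theorem isLocalHom_tangent (f : R →ₐ[𝒪] DualNumber (ResidueField 𝒪)) :
    IsLocalHom (f : R →+* DualNumber (ResidueField 𝒪)) := by
  refine ⟨fun x hx => ?_⟩
  by_contra hnx
  have h0 := fst_apply_eq_zero halg f ((mem_maximalIdeal x).mpr hnx)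
  rw [RingHom.coe_coe, TrivSqZeroExt.isUnit_iff_isUnit_fst, h0] at hx
  exact not_isUnit_zero hx

variable (hres : Function.Surjective (residue R ∘ algebraMap 𝒪 R))

include hres

omit halg in
theorem exists_sub_mem (y : R) : ∃ c : 𝒪, y - algebraMap 𝒪 R c ∈ maximalIdeal R := by
  obtain ⟨c, hc⟩ := hres (residue R y)
  refine ⟨c, ?_⟩
  rw [← residue_eq_zero_iff, map_sub, sub_eq_zero]
  exact hc.symm

/-- Two tangent homomorphisms killing the maximal ideal are equal. -/
theorem eq_of_vanish (f g : R →ₐ[𝒪] DualNumber (ResidueField 𝒪))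
    (hf : ∀ x ∈ maximalIdeal R, f x = 0) (hg : ∀ x ∈ maximalIdeal R, g x = 0) : f = g := by
  apply AlgHom.ext
  intro y
  obtain ⟨c, hc⟩ := exists_sub_mem hres y
  have hy : y = algebraMap 𝒪 R c + (y - algebraMap 𝒪 R c) := by ring
  rw [hy, map_add, map_add, hf _ hc, hg _ hc, AlgHom.commutes, AlgHom.commutes]

/-- A tangent homomorphism is surjective or kills the maximal ideal. -/
theorem surjective_or_vanish (f : R →ₐ[𝒪] DualNumber (ResidueField 𝒪)) :
    Function.Surjective f ∨ ∀ x ∈ maximalIdeal R, f x = 0 := by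
  by_cases h : ∀ x ∈ maximalIdeal R, f x = 0
  · exact Or.inr h
  · left
    obtain ⟨x₀, hx₀'⟩ := not_forall.mp h
    obtain ⟨hx₀, hne⟩ := Classical.not_imp.mp hx₀'
    have hfst := fst_apply_eq_zero halg f hx₀
    have hsnd : TrivSqZeroExt.snd (f x₀) ≠ 0 := by
      intro h0
      exact hne (TrivSqZeroExt.ext (by rw [hfst, TrivSqZeroExt.fst_zero])
        (by rw [h0, TrivSqZeroExt.snd_zero]))
    intro e
    obtain ⟨c, hc⟩ := residue_surjective (TrivSqZeroExt.fst e)
    obtain ⟨d, hd⟩ := residue_surjective (TrivSqZeroExt.snd e / TrivSqZeroExt.snd (f x₀))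
    refine ⟨algebraMap 𝒪 R c + algebraMap 𝒪 R d * x₀, ?_⟩
    rw [map_add, map_mul, AlgHom.commutes, AlgHom.commutes, halg, halg, hc, hd]
    apply TrivSqZeroExt.ext
    · rw [TrivSqZeroExt.fst_add, TrivSqZeroExt.fst_mul, hfst, mul_zero, add_zero,
        TrivSqZeroExt.fst_inl]
    · rw [TrivSqZeroExt.snd_add, TrivSqZeroExt.snd_mul, TrivSqZeroExt.snd_inl,
        TrivSqZeroExt.fst_inl, hfst, zero_add]
      simp only [smul_eq_mul, add_zero, MulOpposite.op_zero, zero_smul]
      rw [div_mul_cancel₀ _ hsnd]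

end Tangent

/-! ### The two stability properties of the type that are used -/

section Stab

variable {𝒪 : Type} [CommRing 𝒪] [IsLocalRing 𝒪]

/-- Stability of the type under SURJECTIVE `𝒪`-algebra maps from complete Noetherian local
`𝒪`-algebras onto `k[ε]`. -/
def QuotStable [alg : Algebra 𝒪 (DualNumber (ResidueField 𝒪))]
    (𝒟 : ∀ ⦃A : Type⦄ [CommRing A] [IsLocalRing A] [Algebra 𝒪 A], GaloisRepAdic A → Prop) : Prop :=
  ∀ (R : Type) [CommRing R] [IsLocalRing R] [IsNoetherianRing R]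
    [IsAdicComplete (maximalIdeal R) R] [Algebra 𝒪 R] (ρ : GaloisRepAdic R)
    (f : R →ₐ[𝒪] DualNumber (ResidueField 𝒪))
    (hf : IsLocalHom (f : R →+* DualNumber (ResidueField 𝒪))), Function.Surjective f →
    𝒟 ρ → 𝒟 (ρ.baseChangeAlong (f : R →+* DualNumber (ResidueField 𝒪)) hf)

/-- Stability of the type under equivalence of representations over `k[ε]`. -/
def EquivStable [alg : Algebra 𝒪 (DualNumber (ResidueField 𝒪))]
    (𝒟 : ∀ ⦃A : Type⦄ [CommRing A] [IsLocalRing A] [Algebra 𝒪 A], GaloisRepAdic A → Prop) : Prop :=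
  ∀ ρ ρ' : GaloisRepAdic (DualNumber (ResidueField 𝒪)), ρ.IsEquiv ρ' → 𝒟 ρ → 𝒟 ρ'

end Stab

/-! ### The lift attached to a tangent homomorphism -/

section Lift

variable {𝒪 : Type} [CommRing 𝒪] [IsLocalRing 𝒪]
  [alg : Algebra 𝒪 (DualNumber (ResidueField 𝒪))]
  (halg : ∀ c : 𝒪, algebraMap 𝒪 (DualNumber (ResidueField 𝒪)) c =
    TrivSqZeroExt.inl (residue 𝒪 c))
  {R : Type} [CommRing R] [IsLocalRing R] [Algebra 𝒪 R]
  {rbar : GQ →* M2 (ResidueField 𝒪)}
  (ru : GQ →* M2 R)

/-- The lift of `rbar` to `k[ε]` attached to a tangent homomorphism `f` (push-forward of the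
universal matrix representation `ru`). -/
noncomputable def liftOf (f : R →ₐ[𝒪] DualNumber (ResidueField 𝒪)) :
    GQ →* M2 (DualNumber (ResidueField 𝒪)) :=
  mapMat (f : R →+* DualNumber (ResidueField 𝒪)) ru

theorem liftOf_apply (f : R →ₐ[𝒪] DualNumber (ResidueField 𝒪)) (σ : GQ) (i j : Fin 2) :
    liftOf ru f σ i j = f (ru σ i j) := by
  simp [liftOf]

variable {ru}

include halg

theorem matCont_liftOf (hc : MatCont ru) (f : R →ₐ[𝒪] DualNumber (ResidueField 𝒪)) :
    MatCont (A := DualNumber (ResidueField 𝒪)) (liftOf ru f) :=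
  MatrixModel.matCont_mapMat hc _ (isLocalHom_tangent halg f)

theorem isStrictLift_liftOf (hs : IsStrictLift rbar ru)
    (f : R →ₐ[𝒪] DualNumber (ResidueField 𝒪)) :
    IsStrictLift (A := DualNumber (ResidueField 𝒪)) rbar (liftOf ru f) :=
  isStrictLift_mapMat_alg f (isLocalHom_tangent halg f) hs

theorem fstM_liftOf (hs : IsStrictLift rbar ru) (f : R →ₐ[𝒪] DualNumber (ResidueField 𝒪))
    (σ : GQ) : fstM (liftOf ru f σ) = rbar σ :=
  (isStrictLift_iff_fstM halg rbar (liftOf ru f)).mp (isStrictLift_liftOf halg hs f) σ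

theorem isEquiv_baseChangeAlong_liftOf (hc : MatCont ru) {ρ : GaloisRepAdic R}
    (he : ρ.IsEquiv (ofMatrix ru hc)) (f : R →ₐ[𝒪] DualNumber (ResidueField 𝒪)) :
    (ρ.baseChangeAlong (f : R →+* DualNumber (ResidueField 𝒪)) (isLocalHom_tangent halg f)).IsEquiv
      (ofMatrix (A := DualNumber (ResidueField 𝒪)) (liftOf ru f) (matCont_liftOf halg hc f)) :=
  adicIsEquiv_trans (adicIsEquiv_baseChangeAlong _ (isLocalHom_tangent halg f) he)
    (MatrixModel.baseChangeAlong_ofMatrix _ (isLocalHom_tangent halg f) ru hc)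

theorem snd_det_liftOf (p : ℕ) [Fact p.Prime] (hc : MatCont ru) {ρ : GaloisRepAdic R}
    (he : ρ.IsEquiv (ofMatrix ru hc)) (hdet : ρ.DetIsCyclotomic p)
    (f : R →ₐ[𝒪] DualNumber (ResidueField 𝒪)) (σ : GQ) :
    TrivSqZeroExt.snd (liftOf ru f σ).det = 0 :=
  snd_det_eq_zero_of_detIsCyclotomic p (liftOf ru f) (matCont_liftOf halg hc f)
    (detIsCyclotomic_mapMat _ (isLocalHom_tangent halg f) hc
      (detIsCyclotomic_of_isEquiv he hdet)) σ

/-- A tangent homomorphism killing the maximal ideal gives the constant lift. -/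
theorem sndM_liftOf_of_vanish (f : R →ₐ[𝒪] DualNumber (ResidueField 𝒪))
    (hres : Function.Surjective (residue R ∘ algebraMap 𝒪 R))
    (hf : ∀ x ∈ maximalIdeal R, f x = 0) (σ : GQ) : sndM (liftOf ru f σ) = 0 := by
  ext i j
  rw [sndM_apply, liftOf_apply]
  obtain ⟨c, hc⟩ := exists_sub_mem hres (ru σ i j)
  have hy : ru σ i j = algebraMap 𝒪 R c + (ru σ i j - algebraMap 𝒪 R c) := by ring
  rw [hy, map_add, hf _ hc, add_zero, AlgHom.commutes, halg, TrivSqZeroExt.snd_inl]
  rfl

end Lift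

/-! ### The tangent map and its injectivity -/

section Tau

variable {𝒪 : Type} [CommRing 𝒪] [IsDomain 𝒪] [IsDiscreteValuationRing 𝒪]
  [IsAdicComplete (maximalIdeal 𝒪) 𝒪]
  {ρbar : ResidualGaloisRep (ResidueField 𝒪)}
  {𝒟 : ∀ ⦃A : Type⦄ [CommRing A] [IsLocalRing A] [Algebra 𝒪 A], GaloisRepAdic A → Prop}
  [alg : Algebra 𝒪 (DualNumber (ResidueField 𝒪))]
  (halg : ∀ c : 𝒪, algebraMap 𝒪 (DualNumber (ResidueField 𝒪)) c =
    TrivSqZeroExt.inl (residue 𝒪 c))
  (D : DeformationRingData 𝒪 ρbar 𝒟) (Sl : SliceData 𝒪 ρbar)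
  (p : ℕ) [Fact p.Prime]
  {ru : GQ →* M2 D.R} (hc : MatCont ru) (hs : IsStrictLift Sl.rbar ru)
  (he : D.ρ.IsEquiv (ofMatrix ru hc)) (hdet : D.ρ.DetIsCyclotomic p)

/-- The `ε`-part cocycle attached to a tangent homomorphism. -/
noncomputable def cocTan (f : D.R →ₐ[𝒪] DualNumber (ResidueField 𝒪)) :
    cocycles₁ (ad0 Sl.rbar) :=
  cocOf Sl.rbar (liftOf ru f) (fstM_liftOf halg hs f) (snd_det_liftOf halg p hc he hdet f)

/-- **The tangent map** `Hom_𝒪(R, k[ε]) → H¹(G_ℚ, ad⁰ρ̄)`. -/
noncomputable def tau (f : D.R →ₐ[𝒪] DualNumber (ResidueField 𝒪)) : H1 (ad0 Sl.rbar) :=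
  (H1π (ad0 Sl.rbar)).hom (cocTan halg D Sl p hc hs he hdet f)

theorem cocTan_apply_coe (f : D.R →ₐ[𝒪] DualNumber (ResidueField 𝒪)) (σ : GQ) :
    ((cocTan halg D Sl p hc hs he hdet f σ : sl2 (ResidueField 𝒪)) : M2 (ResidueField 𝒪)) =
      epsPart (liftOf ru f) σ := rfl

/-- A tangent homomorphism killing the maximal ideal has trivial class. -/
theorem tau_eq_zero_of_vanish (f : D.R →ₐ[𝒪] DualNumber (ResidueField 𝒪))
    (hf : ∀ x ∈ maximalIdeal D.R, f x = 0) : tau halg D Sl p hc hs he hdet f = 0 := by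
  have h0 : cocTan halg D Sl p hc hs he hdet f = 0 := by
    apply Subtype.ext
    funext σ
    apply Subtype.ext
    show epsPart (liftOf ru f) σ = 0
    rw [epsPart_eq, sndM_liftOf_of_vanish halg f D.residue_surjective hf, zero_mul]
  rw [tau, h0, map_zero]

/-- Equal classes and one of the two homomorphisms surjective: the homomorphisms are equal. -/
theorem eq_of_tau_eq_of_surjective (hQ : QuotStable 𝒟)
    (f g : D.R →ₐ[𝒪] DualNumber (ResidueField 𝒪)) (hfs : Function.Surjective f)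
    (h : tau halg D Sl p hc hs he hdet g = tau halg D Sl p hc hs he hdet f) : f = g := by
  haveI : IsLocalHom (algebraMap 𝒪 (DualNumber (ResidueField 𝒪))) :=
    isLocalHom_algebraMap_dual halg
  haveI : IsAdicComplete (maximalIdeal (DualNumber (ResidueField 𝒪)))
      (DualNumber (ResidueField 𝒪)) := isAdicComplete_dual
  -- the two lifts are conjugate
  obtain ⟨X, hX⟩ := exists_conj_of_H1π_eq (fstM_liftOf halg hs f)
    (snd_det_liftOf halg p hc he hdet f) (fstM_liftOf halg hs g)
    (snd_det_liftOf halg p hc he hdet g) h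
  have hfl := isLocalHom_tangent halg f
  have hgl := isLocalHom_tangent halg g
  have e1 : (ofMatrix (A := DualNumber (ResidueField 𝒪)) (liftOf ru f)
      (matCont_liftOf halg hc f)).IsEquiv
      (ofMatrix (A := DualNumber (ResidueField 𝒪)) (liftOf ru g) (matCont_liftOf halg hc g)) := by
    have h1 := isEquiv_conjEps X (matCont_liftOf halg hc f)
    have key : ∀ (r' : GQ →* M2 (DualNumber (ResidueField 𝒪)))
        (hr' : MatCont (A := DualNumber (ResidueField 𝒪)) r'), r' = conjEps X (liftOf ru f) →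
        (ofMatrix (A := DualNumber (ResidueField 𝒪)) (liftOf ru f)
          (matCont_liftOf halg hc f)).IsEquiv
          (ofMatrix (A := DualNumber (ResidueField 𝒪)) r' hr') := by
      intro r' hr' hrr
      subst hrr
      exact h1
    exact key _ _ hX
  -- the universal property for `ρ_f`
  have ef := isEquiv_baseChangeAlong_liftOf halg hc he f
  have eg := isEquiv_baseChangeAlong_liftOf halg hc he g
  have h𝒟 : 𝒟 (D.ρ.baseChangeAlong (f : D.R →+* DualNumber (ResidueField 𝒪)) hfl) :=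
    hQ D.R D.ρ f hfl hfs D.isOfType
  have hres : (D.ρ.baseChangeAlong (f : D.R →+* DualNumber (ResidueField 𝒪)) hfl).residual.IsEquiv
      (ρbar.baseChangeAlong (ResidueField.map (algebraMap 𝒪 (DualNumber (ResidueField 𝒪))))) :=
    resIsEquiv_trans (adicIsEquiv_residual ef)
      (residual_isEquiv_of_strictLift (A := DualNumber (ResidueField 𝒪)) Sl
        (matCont_liftOf halg hc f) (isStrictLift_liftOf halg hs f))
  have huniv := D.universal (DualNumber (ResidueField 𝒪))
    (residue_comp_algebraMap_dual_surjective halg) _ h𝒟 hres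
  refine huniv.unique ⟨hfl, adicIsEquiv_refl _⟩ ⟨hgl, ?_⟩
  exact adicIsEquiv_trans eg (adicIsEquiv_trans (adicIsEquiv_symm e1) (adicIsEquiv_symm ef))

/-- **The tangent map is injective.** -/
theorem tau_injective (hQ : QuotStable 𝒟) :
    Function.Injective (tau halg D Sl p hc hs he hdet) := by
  intro f g hfg
  rcases surjective_or_vanish halg D.residue_surjective f with hf | hf
  · exact eq_of_tau_eq_of_surjective halg D Sl p hc hs he hdet hQ f g hf hfg.symm
  · rcases surjective_or_vanish halg D.residue_surjective g with hg | hg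
    · exact (eq_of_tau_eq_of_surjective halg D Sl p hc hs he hdet hQ g f hg hfg).symm
    · exact eq_of_vanish halg D.residue_surjective f g hf hg

/-! ### The classes are unramified outside the allowed set -/

/-- The kernel of a continuous lift over `k[ε]` is the fixing subgroup of a number field,
unramified wherever the lift is. -/
theorem exists_field_of_lift {k : Type} [Field k] (r : GQ →* M2 (DualNumber k))
    (hr : MatCont (A := DualNumber k) r) (Sg : Finset Nat.Primes)
    (hur : ∀ q : Nat.Primes, q ∉ Sg → ∀ P : ValuationSubring (AlgebraicClosure ℚ),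
      P.LiesOverPrime (q : ℕ) → ∀ σ ∈ P.inertiaSubgroupIn ℚ, r σ = 1) :
    ∃ F : IntermediateField ℚ (AlgebraicClosure ℚ), F.IsUnramifiedOutside Sg ∧
      ∀ s ∈ F.fixingSubgroup, r s = 1 := by
  haveI : Algebra.IsAlgebraic ℚ (AlgebraicClosure ℚ) := AlgebraicClosure.isAlgebraic ℚ
  haveI : IsAlgClosure ℚ (AlgebraicClosure ℚ) := ⟨inferInstance, inferInstance⟩
  haveI : IsGalois ℚ (AlgebraicClosure ℚ) := IsAlgClosure.isGalois ℚ (AlgebraicClosure ℚ)
  obtain ⟨L, hL, h2⟩ := hr 2
  have hker : L.fixingSubgroup ≤ r.ker := by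
    intro σ hσ
    rw [MonoidHom.mem_ker]
    have h3 := h2 σ (fun x hx => (IntermediateField.mem_fixingSubgroup_iff L σ).mp hσ x hx)
    rw [maximalIdeal_dual_sq] at h3
    apply Matrix.ext
    intro i j
    have h4 := h3 i j
    rw [Ideal.mem_bot, Matrix.sub_apply, sub_eq_zero] at h4
    exact h4
  have hopen : IsOpen (r.ker : Set GQ) :=
    Subgroup.isOpen_mono hker (IntermediateField.fixingSubgroup_isOpen L)
  have hclosed : IsClosed (r.ker : Set GQ) := Subgroup.isClosed_of_isOpen r.ker hopen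
  let Hc : ClosedSubgroup GQ := ⟨r.ker, hclosed⟩
  have hfix : (IntermediateField.fixedField r.ker).fixingSubgroup = r.ker :=
    InfiniteGalois.fixingSubgroup_fixedField Hc
  have hle : IntermediateField.fixedField r.ker ≤ L := by
    intro x hx
    rw [← InfiniteGalois.fixedField_fixingSubgroup L, IntermediateField.mem_fixedField_iff]
    intro σ hσ
    exact (IntermediateField.mem_fixedField_iff _ x).mp hx σ (hker hσ)
  refine ⟨IntermediateField.fixedField r.ker, ⟨?_, fun q hq P hP σ hσ => ?_⟩, fun s hs => ?_⟩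
  · exact FiniteDimensional.of_injective (IntermediateField.inclusion hle).toLinearMap
      (IntermediateField.inclusion_injective hle)
  · rw [hfix, MonoidHom.mem_ker]
    exact hur q hq P hP σ hσ
  · rw [hfix] at hs
    exact MonoidHom.mem_ker.mp hs

variable (Sg : Finset Nat.Primes)
  (hur : ∀ q : Nat.Primes, q ∉ Sg → D.ρ.IsUnramifiedAt (q : ℕ))

include hur hc he in
theorem liftOf_eq_one_of_inertia (f : D.R →ₐ[𝒪] DualNumber (ResidueField 𝒪)) (q : Nat.Primes)
    (hq : q ∉ Sg) (P : ValuationSubring (AlgebraicClosure ℚ)) (hP : P.LiesOverPrime (q : ℕ))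
    (σ : GQ) (hσ : σ ∈ P.inertiaSubgroupIn ℚ) : liftOf ru f σ = 1 := by
  have h1 : ru σ = 1 :=
    (isUnramifiedAt_ofMatrix_iff ru hc (q : ℕ)).mp (isUnramifiedAt_of_isEquiv he (hur q hq)) P hP σ hσ
  apply Matrix.ext
  intro i j
  rw [liftOf_apply, h1]
  by_cases hij : i = j
  · rw [hij, Matrix.one_apply_eq, Matrix.one_apply_eq, map_one]
  · rw [Matrix.one_apply_ne hij, Matrix.one_apply_ne hij, map_zero]

include hur in
/-- The tangent classes are level-constant and unramified outside `Sg`. -/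
theorem tau_mem_continuousH1S (f : D.R →ₐ[𝒪] DualNumber (ResidueField 𝒪)) :
    tau halg D Sl p hc hs he hdet f ∈ continuousH1S Sg (ad0 Sl.rbar) := by
  rw [mem_continuousH1S_iff]
  refine ⟨cocTan halg D Sl p hc hs he hdet f, ?_, rfl⟩
  obtain ⟨F, hF, hF1⟩ := exists_field_of_lift (liftOf ru f) (matCont_liftOf halg hc f) Sg
    (fun q hq P hP σ hσ => liftOf_eq_one_of_inertia D hc he Sg hur f q hq P hP σ hσ)
  refine ⟨F, hF, fun g s hsF => ?_⟩
  have hcoc := (mem_cocycles₁_iff _).mp (cocTan halg D Sl p hc hs he hdet f).2 g s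
  have hs0 : (cocTan halg D Sl p hc hs he hdet f) s = 0 := by
    apply Subtype.ext
    show epsPart (liftOf ru f) s = 0
    rw [epsPart_eq, hF1 s hsF, sndM_one, zero_mul]
  show (cocTan halg D Sl p hc hs he hdet f) (g * s) = (cocTan halg D Sl p hc hs he hdet f) g
  have hcoc' : (cocTan halg D Sl p hc hs he hdet f) (g * s) =
      (ad0 Sl.rbar).ρ g ((cocTan halg D Sl p hc hs he hdet f) s) +
        (cocTan halg D Sl p hc hs he hdet f) g := hcoc
  rw [hcoc', hs0, map_zero, zero_add]

end Tau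

/-! ### The export -/

section Export

variable {𝒪 : Type} [CommRing 𝒪] [IsDomain 𝒪] [IsDiscreteValuationRing 𝒪]
  [IsAdicComplete (maximalIdeal 𝒪) 𝒪]
  {ρbar : ResidualGaloisRep (ResidueField 𝒪)}
  {𝒟 : ∀ ⦃A : Type⦄ [CommRing A] [IsLocalRing A] [Algebra 𝒪 A], GaloisRepAdic A → Prop}
  [alg : Algebra 𝒪 (DualNumber (ResidueField 𝒪))]

/-- **The tangent space of a deformation ring injects into `H¹(G_{ℚ,Sg}, ad⁰ρ̄)`** (as a plain
function), and every nonzero value is the class of the `ε`-part cocycle of a strict lift of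
`Sl.rbar` over `k[ε]` which is of type `𝒟`. -/
theorem exists_tangent_injection
    (halg : ∀ c : 𝒪, algebraMap 𝒪 (DualNumber (ResidueField 𝒪)) c =
      TrivSqZeroExt.inl (residue 𝒪 c))
    (hQ : QuotStable 𝒟) (hE : EquivStable 𝒟)
    (D : DeformationRingData 𝒪 ρbar 𝒟) (Sl : SliceData 𝒪 ρbar) (p : ℕ) [Fact p.Prime]
    (Sg : Finset Nat.Primes) (hdet : D.ρ.DetIsCyclotomic p)
    (hur : ∀ q : Nat.Primes, q ∉ Sg → D.ρ.IsUnramifiedAt (q : ℕ)) :
    ∃ τ : (D.R →ₐ[𝒪] DualNumber (ResidueField 𝒪)) → H1 (ad0 Sl.rbar),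
      Function.Injective τ ∧
      ∀ f, τ f ∈ continuousH1S Sg (ad0 Sl.rbar) ∧
        (τ f = 0 ∨
          ∃ (r : GQ →* M2 (DualNumber (ResidueField 𝒪)))
            (hr : MatCont (A := DualNumber (ResidueField 𝒪)) r),
            IsStrictLift (A := DualNumber (ResidueField 𝒪)) Sl.rbar r ∧
            (∀ σ, fstM (r σ) = Sl.rbar σ) ∧
            𝒟 (ofMatrix (A := DualNumber (ResidueField 𝒪)) r hr) ∧
            ∃ c : cocycles₁ (ad0 Sl.rbar),
              (∀ σ, ((c σ : sl2 (ResidueField 𝒪)) : M2 (ResidueField 𝒪)) = epsPart r σ) ∧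
              τ f = (H1π (ad0 Sl.rbar)).hom c) := by
  obtain ⟨ru, hc, hs, he⟩ := exists_strictLift Sl D.ρ D.residual_isEquiv
  refine ⟨tau halg D Sl p hc hs he hdet, tau_injective halg D Sl p hc hs he hdet hQ, fun f => ?_⟩
  refine ⟨tau_mem_continuousH1S halg D Sl p hc hs he hdet Sg hur f, ?_⟩
  rcases surjective_or_vanish halg D.residue_surjective f with hf | hf
  · right
    refine ⟨liftOf ru f, matCont_liftOf halg hc f, isStrictLift_liftOf halg hs f,
      fstM_liftOf halg hs f, ?_, cocTan halg D Sl p hc hs he hdet f, fun σ => rfl, rfl⟩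
    exact hE _ _ (isEquiv_baseChangeAlong_liftOf halg hc he f)
      (hQ D.R D.ρ f (isLocalHom_tangent halg f) hf D.isOfType)
  · exact Or.inl (tau_eq_zero_of_vanish halg D Sl p hc hs he hdet f hf)

end Export

end Fermat.Agent.ES.T56.TangentMap10
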