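/-
Programme T (S56), chapter LOC, helper1: the GLOBAL → FINITE LEVEL bridge for decomposition and
inertia groups at a valuation subring `A` of `ℚ̄` over a prime `q`.

For a finite Galois `L ⊂ ℚ̄`, `𝔓 = primeAt A L` is the prime of `𝓞 L` cut out by `A`,
`G = Gal(L/ℚ)`:

* `restrict_mem_stabilizer` : `D_A → D(𝔓)`;
* `restrict_mem_inertia`    : `I_A → I(𝔓)` (Mathlib's `Ideal.inertia`);
* `exists_inertia_lift`     : `I_A → I(𝔓)` is onto (main's `S13.UnramLift11`);
* `mem_sup_iff`             : `g ∈ I_A ⊔ Gal(ℚ̄/L) ↔ g|_L ∈ I(𝔓)`;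
* `isCyclic_stabilizer_quotient` : `D(𝔓)/I(𝔓)` is cyclic;
* `exists_gen_mod_inertia`  : for ANY homomorphism `r : Γ → G_ℚ` with image in `D_A` there is
  `φ ∈ Γ` such that every `τ ∈ Γ` lies in `φ^n · r⁻¹(I_A ⊔ Gal(ℚ̄/L))` for some `n : ℕ`;
* `inertiaLevel A L r := (I_A ⊔ Gal(ℚ̄/L)).comap r` is normal in `Γ`.

Only the "easy directions" of the local–global dictionary are used: no statement about the image
of the local Galois group being the whole decomposition group is needed.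
-/
import Mathlib
import Fermat.Prelude.Def_ExtEndgame_ProductionDatum
import Fermat.Agent.S13.UnramLift11
import Fermat.Agent.ES.GAL.ChebQbar23
import Fermat.Agent.ES.FROB.FrobFacts12
import Fermat.Agent.PT.GLOB.DecompFrob17

set_option autoImplicit false

open NumberField
open scoped Pointwise

namespace Fermat.Agent.ES.T56.InertiaBridge1

open Fermat.Agent.ES.GAL.ChebQbar23 Fermat.Agent.ES.FROB.FrobFacts12

local notation "Qbar" => AlgebraicClosure ℚ

/-- `G_ℚ`. -/
abbrev GQ : Type := Qbar ≃ₐ[ℚ] Qbar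

variable (A : ValuationSubring Qbar) (L : IntermediateField ℚ Qbar) [NumberField L]

/-- `𝓞 L → A`. -/
noncomputable def toVal : 𝓞 L →+* A :=
  (incl L).codRestrict A.toSubring (incl_mem L A)

/-- The prime of `𝓞 L` cut out by `A`. -/
noncomputable def primeAt : Ideal (𝓞 L) :=
  Ideal.comap (toVal A L) (IsLocalRing.maximalIdeal A)

instance : (primeAt A L).IsPrime := by
  unfold primeAt
  infer_instance

theorem mem_primeAt (x : 𝓞 L) : x ∈ primeAt A L ↔ incl L x ∈ A.nonunits := by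
  unfold primeAt
  rw [Ideal.mem_comap, ← ValuationSubring.coe_mem_nonunits_iff]
  rfl

variable {A} in
theorem natCast_mem_primeAt {q : ℕ} (hA : A.LiesOverPrime q) : (q : 𝓞 L) ∈ primeAt A L := by
  rw [mem_primeAt, map_natCast]
  exact hA

theorem primeAt_ne_top : primeAt A L ≠ ⊤ := Ideal.IsPrime.ne_top inferInstance

variable {A} in
theorem primeAt_ne_bot {q : ℕ} (hq : q.Prime) (hA : A.LiesOverPrime q) : primeAt A L ≠ ⊥ := by
  intro h
  have := natCast_mem_primeAt L hA
  rw [h, Ideal.mem_bot] at this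
  exact hq.ne_zero (Nat.cast_eq_zero.mp this)

variable {A} in
theorem primeAt_isMaximal {q : ℕ} (hq : q.Prime) (hA : A.LiesOverPrime q) :
    (primeAt A L).IsMaximal :=
  Ring.DimensionLEOne.maximalOfPrime (primeAt_ne_bot L hq hA) inferInstance

/-! ### Elements of the decomposition group preserve `A` and its maximal ideal -/

section Decomp

variable {A}

theorem apply_mem_of_mem_decomposition {g : GQ} (hg : g ∈ A.decompositionSubgroup ℚ) {x : Qbar}
    (hx : x ∈ A) : g x ∈ A := by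
  have h1 : g • A = A := MulAction.mem_stabilizer_iff.mp hg
  have h2 : g • x ∈ g • A := ValuationSubring.smul_mem_pointwise_smul g x A hx
  rw [h1] at h2
  exact h2

theorem mem_nonunits_iff' {x : Qbar} : x ∈ A.nonunits ↔ x = 0 ∨ x⁻¹ ∉ A := by
  rw [ValuationSubring.mem_nonunits_iff]
  by_cases hx : x = 0
  · simp [hx]
  · simp only [hx, false_or]
    rw [← ValuationSubring.valuation_le_one_iff, map_inv₀, not_le,
      one_lt_inv₀ (by
        rw [pos_iff_ne_zero, ne_eq, map_eq_zero]; exact hx)]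

theorem apply_mem_nonunits_of_mem_decomposition {g : GQ} (hg : g ∈ A.decompositionSubgroup ℚ)
    {x : Qbar} (hx : x ∈ A.nonunits) : g x ∈ A.nonunits := by
  rw [mem_nonunits_iff'] at hx ⊢
  rcases hx with rfl | hx
  · left; exact map_zero g
  · right
    intro h
    apply hx
    have := apply_mem_of_mem_decomposition (inv_mem hg) h
    rw [← map_inv₀] at this
    have h3 : g⁻¹ (g x⁻¹) = x⁻¹ := by
      change g.symm (g x⁻¹) = x⁻¹
      exact g.symm_apply_apply _
    rwa [h3] at this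

end Decomp

variable [IsGalois ℚ L]

omit [NumberField L] in
theorem incl_smul (g : GQ) (x : 𝓞 L) :
    incl L ((AlgEquiv.restrictNormalHom L g) • x) = g (incl L x) :=
  AlgEquiv.restrictNormal_commutes g L (algebraMap (𝓞 L) L x)

/-- `D_A → D(𝔓)`. -/
theorem restrict_mem_stabilizer {g : GQ} (hg : g ∈ A.decompositionSubgroup ℚ) :
    AlgEquiv.restrictNormalHom L g ∈ MulAction.stabilizer (L ≃ₐ[ℚ] L) (primeAt A L) := by
  have key : ∀ {h : GQ}, h ∈ A.decompositionSubgroup ℚ → ∀ x ∈ primeAt A L,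
      (AlgEquiv.restrictNormalHom L h) • x ∈ primeAt A L := by
    intro h hh x hx
    rw [mem_primeAt] at hx ⊢
    rw [incl_smul]
    exact apply_mem_nonunits_of_mem_decomposition hh hx
  rw [MulAction.mem_stabilizer_iff]
  ext x
  rw [Ideal.mem_pointwise_smul_iff_inv_smul_mem, ← map_inv]
  constructor
  · intro hx
    have := key hg _ hx
    rwa [← mul_smul, ← map_mul, mul_inv_cancel, map_one, one_smul] at this
  · intro hx
    exact key (inv_mem hg) x hx

/-- `I_A → I(𝔓)`. -/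
theorem restrict_mem_inertia {g : GQ} (hg : g ∈ A.inertiaSubgroupIn ℚ) :
    AlgEquiv.restrictNormalHom L g ∈ (primeAt A L).inertia (L ≃ₐ[ℚ] L) := by
  obtain ⟨hD, hres⟩ := (mem_inertiaSubgroupIn_iff A).mp hg
  intro x
  change (AlgEquiv.restrictNormalHom L g) • x - x ∈ primeAt A L
  rw [mem_primeAt, map_sub, incl_smul]
  have hxA : incl L x ∈ A := incl_mem L A x
  have h1 := hres (IsLocalRing.residue A ⟨incl L x, hxA⟩)
  rw [← IsLocalRing.ResidueField.residue_smul, ← sub_eq_zero, ← map_sub,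
    IsLocalRing.residue_eq_zero_iff] at h1
  have h2 := (ValuationSubring.coe_mem_nonunits_iff (A := A)).mpr h1
  exact h2

omit [NumberField L] in
theorem mem_fixingSubgroup_iff_restrict (g : GQ) :
    g ∈ L.fixingSubgroup ↔ AlgEquiv.restrictNormalHom L g = 1 := by
  rw [IntermediateField.mem_fixingSubgroup_iff]
  constructor
  · intro h
    ext x
    have h1 := AlgEquiv.restrictNormal_commutes g L x
    exact h1.trans (h x x.2)
  · intro h x hx
    have h1 := AlgEquiv.restrictNormal_commutes g L ⟨x, hx⟩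
    have h2 : AlgEquiv.restrictNormal g L = 1 := h
    rw [h2] at h1
    exact h1.symm

/-- `I_A → I(𝔓)` is onto. -/
theorem exists_inertia_lift {q : ℕ} (hq : q.Prime) (hA : A.LiesOverPrime q) {d : L ≃ₐ[ℚ] L}
    (hd : d ∈ (primeAt A L).inertia (L ≃ₐ[ℚ] L)) :
    ∃ σ ∈ A.inertiaSubgroupIn ℚ, AlgEquiv.restrictNormalHom L σ = d := by
  have hτ : ∀ x : L, IsIntegral ℤ x → ((d x : Qbar) - x) ∈ A.nonunits := by
    intro x hx
    obtain ⟨y, rfl⟩ : ∃ y : 𝓞 L, algebraMap (𝓞 L) L y = x := ⟨⟨x, hx⟩, rfl⟩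
    have h1 : d • y - y ∈ primeAt A L := hd y
    rw [mem_primeAt] at h1
    have h3 : incl L (d • y - y)
        = ((d (algebraMap (𝓞 L) L y) : L) : Qbar) - (algebraMap (𝓞 L) L y : L) := by
      rw [map_sub]; rfl
    rwa [h3] at h1
  obtain ⟨σ, hσ, hσd⟩ := Fermat.Agent.S13.UnramLift11.exists_inertia_lift L A hq hA d hτ
  refine ⟨σ, hσ, ?_⟩
  ext x
  have h1 := AlgEquiv.restrictNormal_commutes σ L x
  exact h1.trans (hσd x)

/-- `g ∈ I_A · Gal(ℚ̄/L)` iff `g|_L` lies in the inertia group of `𝔓`. -/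
theorem mem_sup_iff {q : ℕ} (hq : q.Prime) (hA : A.LiesOverPrime q) (g : GQ) :
    g ∈ A.inertiaSubgroupIn ℚ ⊔ L.fixingSubgroup ↔
      AlgEquiv.restrictNormalHom L g ∈ (primeAt A L).inertia (L ≃ₐ[ℚ] L) := by
  constructor
  · intro hg
    have hle : A.inertiaSubgroupIn ℚ ⊔ L.fixingSubgroup ≤
        ((primeAt A L).inertia (L ≃ₐ[ℚ] L)).comap (AlgEquiv.restrictNormalHom L) := by
      refine sup_le (fun h hh => restrict_mem_inertia A L hh) (fun h hh => ?_)
      rw [Subgroup.mem_comap]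
      rw [(mem_fixingSubgroup_iff_restrict L h).mp hh]
      exact one_mem _
    exact hle hg
  · intro hg
    obtain ⟨σ, hσ, hσd⟩ := exists_inertia_lift A L hq hA hg
    have h1 : σ⁻¹ * g ∈ L.fixingSubgroup := by
      rw [mem_fixingSubgroup_iff_restrict, map_mul, map_inv, hσd, inv_mul_cancel]
    have h2 : g = σ * (σ⁻¹ * g) := by group
    rw [h2]
    exact Subgroup.mul_mem_sup hσ h1

/-! ### The inertia subgroup at level `L` of a group mapping to the decomposition group -/

section Level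

variable {Γ : Type*} [Group Γ] (r : Γ →* GQ)

/-- `r⁻¹(I_A · Gal(ℚ̄/L))`. -/
noncomputable def inertiaLevel : Subgroup Γ := (A.inertiaSubgroupIn ℚ ⊔ L.fixingSubgroup).comap r

omit [NumberField L] [IsGalois ℚ L] in
theorem mem_inertiaLevel (γ : Γ) :
    γ ∈ inertiaLevel A L r ↔ r γ ∈ A.inertiaSubgroupIn ℚ ⊔ L.fixingSubgroup := Iff.rfl

theorem mem_inertiaLevel_iff {q : ℕ} (hq : q.Prime) (hA : A.LiesOverPrime q) (γ : Γ) :
    γ ∈ inertiaLevel A L r ↔
      AlgEquiv.restrictNormalHom L (r γ) ∈ (primeAt A L).inertia (L ≃ₐ[ℚ] L) :=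
  mem_sup_iff A L hq hA (r γ)

omit [NumberField L] [IsGalois ℚ L] in
theorem inertiaLevel_antitone {L L' : IntermediateField ℚ Qbar} (h : L ≤ L') :
    inertiaLevel A L' r ≤ inertiaLevel A L r :=
  Subgroup.comap_mono (sup_le_sup_left (IntermediateField.fixingSubgroup_antitone h) _)

omit [NumberField L] [IsGalois ℚ L] in
theorem comap_fixingSubgroup_le : L.fixingSubgroup.comap r ≤ inertiaLevel A L r :=
  Subgroup.comap_mono le_sup_right

/-- The inertia group at level `L` is normal, when `r` maps to the decomposition group. -/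
theorem inertiaLevel_normal {q : ℕ} (hq : q.Prime) (hA : A.LiesOverPrime q)
    (hr : ∀ γ, r γ ∈ A.decompositionSubgroup ℚ) : (inertiaLevel A L r).Normal := by
  refine ⟨fun j hj γ => ?_⟩
  rw [mem_inertiaLevel_iff A L r hq hA] at hj ⊢
  have hn : (((primeAt A L).inertia (L ≃ₐ[ℚ] L)).subgroupOf
      (MulAction.stabilizer (L ≃ₐ[ℚ] L) (primeAt A L))).Normal :=
    inferInstanceAs ((primeAt A L).inertia (MulAction.stabilizer (L ≃ₐ[ℚ] L) (primeAt A L))).Normal
  have h1 := hn.conj_mem ⟨_, Ideal.inertia_le_stabilizer _ hj⟩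
    (by rw [Subgroup.mem_subgroupOf]; exact hj) ⟨_, restrict_mem_stabilizer A L (hr γ)⟩
  rw [Subgroup.mem_subgroupOf] at h1
  simpa [map_mul, map_inv] using h1

/-- If `r τ` restricts to an arithmetic Frobenius at `𝔓`, then `τ` generates `Γ` modulo the
inertia group at level `L`. -/
theorem exists_pow_inv_mul_mem [FiniteDimensional ℚ L] {q : ℕ} (hq : q.Prime)
    (hA : A.LiesOverPrime q) (hr : ∀ γ, r γ ∈ A.decompositionSubgroup ℚ) {τ : Γ}
    (hτ : IsArithFrobAt (𝓞 ℚ) (AlgEquiv.restrictNormalHom L (r τ)) (primeAt A L)) (γ : Γ) :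
    ∃ n : ℕ, (τ ^ n)⁻¹ * γ ∈ inertiaLevel A L r := by
  have : (primeAt A L).IsMaximal := primeAt_isMaximal L hq hA
  have : Finite (𝓞 L ⧸ primeAt A L) :=
    Ideal.finiteQuotientOfFreeOfNeBot _ (primeAt_ne_bot L hq hA)
  obtain ⟨n, hn⟩ := Fermat.Agent.PT.GLOB.DecompFrob17.exists_pow_sub_mem (A := 𝓞 ℚ)
    (primeAt A L) hτ (restrict_mem_stabilizer A L (hr γ))
  refine ⟨n, ?_⟩
  rw [mem_inertiaLevel_iff A L r hq hA]
  simp only [map_mul, map_inv, map_pow]
  set F := AlgEquiv.restrictNormalHom L (r τ) with hF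
  set g := AlgEquiv.restrictNormalHom L (r γ) with hg
  intro b
  change ((F ^ n)⁻¹ * g) • b - b ∈ primeAt A L
  have hFn : (F ^ n)⁻¹ ∈ MulAction.stabilizer (L ≃ₐ[ℚ] L) (primeAt A L) :=
    inv_mem (pow_mem hτ.mem_stabilizer n)
  have h1 : ((F ^ n)⁻¹ * g) • b - b = (F ^ n)⁻¹ • (g • b - (F ^ n) • b) := by
    rw [mul_smul, smul_sub, inv_smul_smul]
  rw [h1]
  have h2 := Ideal.smul_mem_pointwise_smul (F ^ n)⁻¹ _ _ (hn b)
  rwa [MulAction.mem_stabilizer_iff.mp hFn] at h2

end Level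

/-- The restriction of a Frobenius element at `A` is an arithmetic Frobenius at `𝔓`. -/
theorem isArithFrobAt_restrict {q : ℕ} (hq : q.Prime) (hA : A.LiesOverPrime q) {φ : GQ}
    (hφ : A.IsFrobeniusAt φ q) :
    IsArithFrobAt (𝓞 ℚ) (AlgEquiv.restrictNormalHom L φ) (primeAt A L) :=
  Fermat.Agent.ES.GAL.ChebQbar23.isArithFrobAt_restrict L (fun x => (mem_primeAt A L x).symm)
    (Fermat.Agent.PT.GLOB.DecompFrob17.absNorm_under_rat q hq (primeAt A L)
      (natCast_mem_primeAt L hA)) hφ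

end Fermat.Agent.ES.T56.InertiaBridge1
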