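/-
Programme T (S56), chapter LOC, helper1: UNRAMIFIED local classes.

`Γ_q = primeLocalGaloisGroup q`, `loc = primeLocalToGlobal q`, `P = primeLocalPlace q` (Prelude).
For a finite extension `L ⊂ ℚ̄` of `ℚ`, `inertiaAt q L = loc⁻¹(I_P ⊔ Gal(ℚ̄/L))` is the inertia
subgroup of `Γ_q` at level `L` (`InertiaBridge1.inertiaLevel`).

* `locUr q N : Submodule k (H1 N)` for ANY `N : Rep k Γ_q`: the classes of cocycles vanishing on
  `inertiaAt q L` for some finite `L` (a directed union, hence a submodule);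
* `locUr_le_continuousH1` : such cocycles are level-constant, so `locUr q N ≤ continuousH1 loc N`;
* `urClasses q N L` : the classes at a fixed level, `locUr = ⋃_L urClasses`.
-/
import Mathlib
import Fermat.Prelude.Def_GroupCohomology_ContinuousUnramified
import Fermat.Agent.ES.T56.InertiaBridge1

set_option autoImplicit false

open CategoryTheory groupCohomology ExtCitation

namespace Fermat.Agent.ES.T56.UrDef1

open Fermat.Agent.ES.T56.InertiaBridge1

local notation "Qbar" => AlgebraicClosure ℚ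

variable {k : Type} [CommRing k] (q : Nat.Primes)

/-- The inertia subgroup of `Γ_q` at level `L`: `loc⁻¹(I_P ⊔ Gal(ℚ̄/L))`. -/
noncomputable abbrev inertiaAt (L : IntermediateField ℚ Qbar) :
    Subgroup (primeLocalGaloisGroup q) :=
  inertiaLevel (primeLocalPlace q) L (primeLocalToGlobal q)

theorem inertiaAt_antitone {L L' : IntermediateField ℚ Qbar} (h : L ≤ L') :
    inertiaAt q L' ≤ inertiaAt q L :=
  inertiaLevel_antitone _ _ h

variable (N : Rep k (primeLocalGaloisGroup q))

/-- The classes of the cocycles vanishing on the inertia subgroup at level `L`. -/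
def urClasses (L : IntermediateField ℚ Qbar) : Set (H1 N) :=
  {x | ∃ c : cocycles₁ N, (∀ τ ∈ inertiaAt q L, c τ = 0) ∧ (H1π N).hom c = x}

theorem urClasses_mono {L L' : IntermediateField ℚ Qbar} (h : L ≤ L') :
    urClasses q N L ⊆ urClasses q N L' := by
  rintro x ⟨c, hc, rfl⟩
  exact ⟨c, fun τ hτ => hc τ (inertiaAt_antitone q h hτ), rfl⟩

/-- **The unramified classes** in `H¹(Γ_q, N)`. -/
def locUr : Submodule k (H1 N) where
  carrier := {x | ∃ L : IntermediateField ℚ Qbar, FiniteDimensional ℚ L ∧ x ∈ urClasses q N L}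
  add_mem' := by
    rintro x y ⟨L, hL, c, hc, rfl⟩ ⟨L', hL', c', hc', rfl⟩
    refine ⟨L ⊔ L', IntermediateField.finiteDimensional_sup L L', c + c', fun τ hτ => ?_, map_add _ _ _⟩
    have h1 := hc τ (inertiaAt_antitone q le_sup_left hτ)
    have h2 := hc' τ (inertiaAt_antitone q le_sup_right hτ)
    change c τ + c' τ = 0
    rw [h1, h2, add_zero]
  zero_mem' := ⟨⊥, inferInstance, 0, fun _ _ => rfl, map_zero _⟩
  smul_mem' := by
    rintro a x ⟨L, hL, c, hc, rfl⟩
    refine ⟨L, hL, a • c, fun τ hτ => ?_, map_smul _ _ _⟩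
    change a • c τ = 0
    rw [hc τ hτ, smul_zero]

theorem mem_locUr_iff (x : H1 N) :
    x ∈ locUr q N ↔ ∃ L : IntermediateField ℚ Qbar, FiniteDimensional ℚ L ∧
      ∃ c : cocycles₁ N, (∀ τ ∈ inertiaAt q L, c τ = 0) ∧ (H1π N).hom c = x := Iff.rfl

theorem coe_locUr :
    (locUr q N : Set (H1 N)) =
      ⋃ L : {L : IntermediateField ℚ Qbar // FiniteDimensional ℚ L}, urClasses q N L.1 := by
  ext x
  simp only [Set.mem_iUnion, Subtype.exists, exists_prop]
  rfl

/-- A cocycle vanishing on the inertia subgroup at level `L` is constant on the cosets of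
`loc⁻¹ Gal(ℚ̄/L)`. -/
theorem isLevelConstant_of_vanishing {L : IntermediateField ℚ Qbar} [FiniteDimensional ℚ L]
    (c : cocycles₁ N) (hc : ∀ τ ∈ inertiaAt q L, c τ = 0) :
    IsLevelConstant₁ (primeLocalToGlobal q) (c : primeLocalGaloisGroup q → N) := by
  refine ⟨L, inferInstance, fun g s hs => ?_⟩
  have h1 : c s = 0 := hc s (comap_fixingSubgroup_le _ L _ hs)
  have h2 := (mem_cocycles₁_iff (c : primeLocalGaloisGroup q → N)).1 c.2 g s
  rw [h2, h1, map_zero, zero_add]

theorem locUr_le_continuousH1 : locUr q N ≤ continuousH1 (primeLocalToGlobal q) N := by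
  rintro x ⟨L, hL, c, hc, rfl⟩
  have := hL
  exact H1π_mem_continuousH1 _ N (isLevelConstant_of_vanishing q N c hc)

end Fermat.Agent.ES.T56.UrDef1
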