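/-
Programme T (S56), chapter LOC, helper1: THE COUNT of unramified local classes,
`#H¹_ur(Γ_q, N) ≤ #H⁰(Γ_q, N)`.

* abstract part (`Γ` any group, `J ⊴ Γ`, `τ₀` generating `Γ` modulo `J`, `N : Rep k Γ` finite):
  the classes of cocycles vanishing on `J` inject into `N^J / (τ₀ - 1) N^J`, which has as many
  elements as `ker (τ₀ - 1 | N^J) = N^Γ` (`ncard_classes_le`);
* `card_locUr_le` : for `N : Rep k Γ_q` finite on which `loc⁻¹ Gal(ℚ̄/L₀)` acts trivially for
  some finite `L₀`:  `Finite (locUr q N)` and `Nat.card (locUr q N) ≤ Nat.card N^{Γ_q}`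
  (level by level, `LocFrob1.exists_local_frobenius_primes` provides the generator; the union over
  the levels is directed, `TameAbs16.finite_ncard_iUnion_le`).
-/
import Mathlib
import Fermat.Agent.ES.T56.UrDef1
import Fermat.Agent.ES.T56.LocFrob1
import Fermat.Agent.ES.T56.TameAbs16

set_option autoImplicit false

open CategoryTheory groupCohomology ExtCitation

namespace Fermat.Agent.ES.T56.UrDim1

/-! ### The abstract count -/

section Abstract

variable {k Γ : Type} [CommRing k] [Group Γ] (N : Rep k Γ) (J : Subgroup Γ)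

/-- The vectors fixed by `J`. -/
def fixedBy : AddSubgroup N where
  carrier := {a | ∀ j ∈ J, N.ρ j a = a}
  add_mem' := by
    intro a b ha hb j hj
    rw [map_add, ha j hj, hb j hj]
  zero_mem' := fun j _ => map_zero _
  neg_mem' := by
    intro a ha j hj
    rw [map_neg, ha j hj]

theorem mem_fixedBy (a : N) : a ∈ fixedBy N J ↔ ∀ j ∈ J, N.ρ j a = a := Iff.rfl

variable {N J}

/-- The values of a cocycle vanishing on the normal subgroup `J` are fixed by `J`. -/
theorem apply_mem_fixedBy [hJ : J.Normal] (c : cocycles₁ N) (hc : ∀ j ∈ J, c j = 0) (γ : Γ) :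
    c γ ∈ fixedBy N J := by
  intro j hj
  have hcoc := (mem_cocycles₁_iff (c : Γ → N)).1 c.2
  have h1 : c (j * γ) = N.ρ j (c γ) := by rw [hcoc, hc j hj, add_zero]
  have h2 : c (j * γ) = c γ := by
    have hj' : γ⁻¹ * j * γ ∈ J := hJ.conj_mem' j hj γ
    have e : j * γ = γ * (γ⁻¹ * j * γ) := by group
    rw [e, hcoc, hc _ hj', map_zero, zero_add]
  rw [← h1, h2]

theorem rho_mem_fixedBy [hJ : J.Normal] {a : N} (ha : a ∈ fixedBy N J) (γ : Γ) :
    N.ρ γ a ∈ fixedBy N J := by
  intro j hj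
  have hj' : γ⁻¹ * j * γ ∈ J := hJ.conj_mem' j hj γ
  have e : j * γ = γ * (γ⁻¹ * j * γ) := by group
  calc N.ρ j (N.ρ γ a) = N.ρ (j * γ) a := by rw [map_mul]; rfl
    _ = N.ρ (γ * (γ⁻¹ * j * γ)) a := by rw [e]
    _ = N.ρ γ (N.ρ (γ⁻¹ * j * γ) a) := by rw [map_mul]; rfl
    _ = N.ρ γ a := by rw [ha _ hj']

/-- A cocycle vanishing on `J` and at `τ₀` vanishes on `⟨τ₀⟩ J`. -/
theorem eq_zero_of_apply_eq_zero (c : cocycles₁ N) (hc : ∀ j ∈ J, c j = 0) {τ₀ : Γ}
    (h0 : c τ₀ = 0) {γ : Γ} (hγ : ∃ n : ℕ, (τ₀ ^ n)⁻¹ * γ ∈ J) : c γ = 0 := by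
  have hcoc := (mem_cocycles₁_iff (c : Γ → N)).1 c.2
  have hpow : ∀ n : ℕ, c (τ₀ ^ n) = 0 := by
    intro n
    induction n with
    | zero => rw [pow_zero]; exact cocycles₁_map_one c
    | succ n ih => rw [pow_succ, hcoc, h0, map_zero, ih, add_zero]
  obtain ⟨n, hn⟩ := hγ
  have e : γ = τ₀ ^ n * ((τ₀ ^ n)⁻¹ * γ) := by group
  rw [e, hcoc, hc _ hn, map_zero, hpow n, add_zero]

variable (N J)

/-- `τ₀ - 1` on `N^J`. -/
def phiSub [J.Normal] (τ₀ : Γ) : fixedBy N J →+ fixedBy N J where
  toFun a := ⟨N.ρ τ₀ a.1 - a.1, sub_mem (rho_mem_fixedBy a.2 τ₀) a.2⟩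
  map_zero' := by
    apply Subtype.ext
    simp
  map_add' a b := by
    apply Subtype.ext
    change N.ρ τ₀ (a.1 + b.1) - (a.1 + b.1) = (N.ρ τ₀ a.1 - a.1) + (N.ρ τ₀ b.1 - b.1)
    rw [map_add]
    abel

/-- The coboundary of `n`, as a cocycle. -/
def dCoc (n : N) : cocycles₁ N := ⟨(d₀₁ N).hom n, d₀₁_apply_mem_cocycles₁ n⟩

theorem dCoc_apply (n : N) (γ : Γ) : dCoc N n γ = N.ρ γ n - n := rfl

/-- The set of classes of cocycles vanishing on `J`. -/
def classes : Set (H1 N) := {x | ∃ c : cocycles₁ N, (∀ j ∈ J, c j = 0) ∧ (H1π N).hom c = x}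

variable {N J}

/-- The kernel of `τ₀ - 1` on `N^J` consists of `Γ`-invariant vectors. -/
theorem mem_invariants_of_mem_ker [J.Normal] {τ₀ : Γ} (hgen : ∀ γ : Γ, ∃ n : ℕ, (τ₀ ^ n)⁻¹ * γ ∈ J)
    (a : fixedBy N J) (ha : a ∈ (phiSub N J τ₀).ker) : a.1 ∈ Representation.invariants N.ρ := by
  have h1 : N.ρ τ₀ a.1 = a.1 := by
    have := congrArg Subtype.val ((AddMonoidHom.mem_ker).mp ha)
    exact sub_eq_zero.mp this
  have hpow : ∀ n : ℕ, N.ρ (τ₀ ^ n) a.1 = a.1 := by
    intro n
    induction n with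
    | zero => rw [pow_zero, map_one]; rfl
    | succ n ih => rw [pow_succ, map_mul]; change N.ρ (τ₀ ^ n) (N.ρ τ₀ a.1) = a.1; rw [h1, ih]
  intro γ
  obtain ⟨n, hn⟩ := hgen γ
  have e : γ = τ₀ ^ n * ((τ₀ ^ n)⁻¹ * γ) := by group
  rw [e, map_mul]
  change N.ρ (τ₀ ^ n) (N.ρ ((τ₀ ^ n)⁻¹ * γ) a.1) = a.1
  rw [a.2 _ hn, hpow n]

/-- **The abstract count.** -/
theorem ncard_classes_le [Finite N] [J.Normal] {τ₀ : Γ}
    (hgen : ∀ γ : Γ, ∃ n : ℕ, (τ₀ ^ n)⁻¹ * γ ∈ J) :
    (classes N J).Finite ∧ (classes N J).ncard ≤ Nat.card (Representation.invariants N.ρ) := by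
  classical
  have hfinF : Finite (fixedBy N J) := inferInstance
  set φ := phiSub N J τ₀ with hφ
  -- the map `classes → N^J / (τ₀ - 1) N^J`
  have hrep : ∀ x : classes N J, ∃ c : cocycles₁ N, (∀ j ∈ J, c j = 0) ∧ (H1π N).hom c = x.1 :=
    fun x => x.2
  choose rep hrep0 hrepx using hrep
  let F : classes N J → fixedBy N J ⧸ φ.range := fun x =>
    QuotientAddGroup.mk ⟨rep x τ₀, apply_mem_fixedBy (rep x) (hrep0 x) τ₀⟩
  have hFinj : Function.Injective F := by
    intro x y hxy
    have h1 := QuotientAddGroup.eq.mp hxy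
    obtain ⟨n, hn⟩ := h1
    -- `hn : φ n = -⟨c_x τ₀⟩ + ⟨c_y τ₀⟩`
    have hn' : N.ρ τ₀ n.1 - n.1 = -(rep x τ₀) + rep y τ₀ := congrArg Subtype.val hn
    -- the cocycle `c_y - c_x - d n` vanishes on `J` and at `τ₀`
    set c : cocycles₁ N := rep y - rep x - dCoc N n.1 with hc
    have hcJ : ∀ j ∈ J, c j = 0 := by
      intro j hj
      change rep y j - rep x j - dCoc N n.1 j = 0
      rw [hrep0 y j hj, hrep0 x j hj, dCoc_apply, n.2 j hj]
      simp
    have hc0 : c τ₀ = 0 := by
      change rep y τ₀ - rep x τ₀ - dCoc N n.1 τ₀ = 0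
      rw [dCoc_apply, hn']
      abel
    have hczero : c = 0 := by
      apply cocycles₁_ext
      intro γ
      exact eq_zero_of_apply_eq_zero c hcJ hc0 (hgen γ)
    apply Subtype.ext
    rw [← hrepx x, ← hrepx y]
    symm
    rw [H1π_eq_iff]
    refine ⟨n.1, ?_⟩
    have h2 : rep y - rep x = dCoc N n.1 := by
      have := hczero
      rw [hc, sub_eq_zero] at this
      exact this
    have h3 := congrArg (fun z : cocycles₁ N => (z : Γ → N)) h2
    exact h3.symm
  have hfinQ : Finite (fixedBy N J ⧸ φ.range) := inferInstance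
  have hfinC : Finite (classes N J) := Finite.of_injective F hFinj
  refine ⟨Set.toFinite _, ?_⟩
  -- cardinalities
  have hcard1 : Nat.card (classes N J) ≤ Nat.card (fixedBy N J ⧸ φ.range) :=
    Nat.card_le_card_of_injective F hFinj
  have hcard2 : Nat.card (fixedBy N J ⧸ φ.range) = Nat.card φ.ker := by
    have e1 : Nat.card φ.ker * φ.ker.index = Nat.card (fixedBy N J) := AddSubgroup.card_mul_index _
    have e2 : Nat.card φ.range * φ.range.index = Nat.card (fixedBy N J) :=
      AddSubgroup.card_mul_index _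
    have e3 : φ.ker.index = Nat.card φ.range := AddSubgroup.index_ker φ
    have e4 : φ.range.index = Nat.card (fixedBy N J ⧸ φ.range) := AddSubgroup.index_eq_card _
    have hpos : 0 < Nat.card φ.range := Nat.card_pos
    rw [← e4]
    have : Nat.card φ.range * φ.range.index = Nat.card φ.range * Nat.card φ.ker := by
      rw [e2, ← e1, e3, mul_comm]
    exact Nat.eq_of_mul_eq_mul_left hpos this
  have hcard3 : Nat.card φ.ker ≤ Nat.card (Representation.invariants N.ρ) := by
    let G : φ.ker → Representation.invariants N.ρ := fun a =>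
      ⟨a.1.1, mem_invariants_of_mem_ker hgen a.1 a.2⟩
    have hG : Function.Injective G := by
      intro a b hab
      apply Subtype.ext
      apply Subtype.ext
      exact congrArg (fun z : Representation.invariants N.ρ => (z : N)) hab
    exact Nat.card_le_card_of_injective G hG
  rw [← Nat.card_coe_set_eq]
  omega

end Abstract

/-! ### The count for the local Galois group -/

section Concrete

open Fermat.Agent.ES.T56.InertiaBridge1 Fermat.Agent.ES.T56.UrDef1 Fermat.Agent.ES.T56.LocFrob1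

local notation "Qbar" => AlgebraicClosure ℚ

variable {k : Type} [CommRing k] (q : Nat.Primes) (N : Rep k (primeLocalGaloisGroup q)) [Finite N]

/-- The count at a finite Galois level. -/
theorem ncard_urClasses_le_of_isGalois (L : IntermediateField ℚ Qbar) [FiniteDimensional ℚ L]
    [IsGalois ℚ L] :
    (urClasses q N L).Finite ∧
      (urClasses q N L).ncard ≤ Nat.card (Representation.invariants N.ρ) := by
  have hNF : NumberField L := ⟨⟩
  have hnorm : (inertiaAt q L).Normal :=
    inertiaLevel_normal (primeLocalPlace q) L (primeLocalToGlobal q) q.2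
      (primeLocalPlace_liesOverPrime q) (primeLocalToGlobal_mem_decompositionSubgroup q)
  obtain ⟨τ₀, -, -, -, hgen⟩ := exists_local_frobenius_primes q L
  exact ncard_classes_le (N := N) (J := inertiaAt q L) hgen

/-- The count at any finite level. -/
theorem ncard_urClasses_le (L : IntermediateField ℚ Qbar) [FiniteDimensional ℚ L] :
    (urClasses q N L).Finite ∧
      (urClasses q N L).ncard ≤ Nat.card (Representation.invariants N.ρ) := by
  have hfd : FiniteDimensional ℚ (IntermediateField.normalClosure ℚ L Qbar) :=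
    normalClosure.is_finiteDimensional ℚ L Qbar
  have hgal : IsGalois ℚ (IntermediateField.normalClosure ℚ L Qbar) :=
    IsGalois.normalClosure ℚ L Qbar
  obtain ⟨h1, h2⟩ := ncard_urClasses_le_of_isGalois q N (IntermediateField.normalClosure ℚ L Qbar)
  have hsub : urClasses q N L ⊆ urClasses q N (IntermediateField.normalClosure ℚ L Qbar) :=
    urClasses_mono q N (IntermediateField.le_normalClosure L)
  exact ⟨h1.subset hsub, (Set.ncard_le_ncard hsub h1).trans h2⟩

/-- **`#H¹_ur(Γ_q, N) ≤ #H⁰(Γ_q, N)`** for every finite `Γ_q`-module `N`. -/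
theorem card_locUr_le :
    Finite (locUr q N) ∧ Nat.card (locUr q N) ≤ Nat.card (Representation.invariants N.ρ) := by
  have h := Fermat.Agent.ES.T56.TameAbs16.finite_ncard_iUnion_le
    (fun L : {L : IntermediateField ℚ Qbar // FiniteDimensional ℚ L} => urClasses q N L.1)
    (Nat.card (Representation.invariants N.ρ))
    (fun L L' => ⟨⟨L.1 ⊔ L'.1, by
        have := L.2; have := L'.2
        exact IntermediateField.finiteDimensional_sup L.1 L'.1⟩,
      urClasses_mono q N le_sup_left, urClasses_mono q N le_sup_right⟩)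
    (fun L => by
      have := L.2
      exact ncard_urClasses_le q N L.1)
  rw [← coe_locUr] at h
  refine ⟨h.1, ?_⟩
  have := h.2
  rwa [← Nat.card_coe_set_eq] at this

end Concrete

end Fermat.Agent.ES.T56.UrDim1
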