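/-
Programme T (S56), chapter LOC, helper1: the NUMBER FIELD instance of the abstract tame character
(`TameChar1`), transported to `G_ℚ` through `InertiaBridge1`.

* `exists_uniformizer`   : a non-zero prime `P` of a Dedekind domain has `π ∈ P ∖ P²` with
  `P = (π) + P²`;
* `faithfulSMul_ringOfIntegers` : `Gal(L/ℚ)` acts faithfully on `𝓞 L`;
* `cyclic_image_inertia` : `f : G_ℚ →* H` (any monoid `H`), trivial on `Gal(ℚ̄/L)` for a finite
  Galois `L`, with `p`-power order values on the inertia group `I_A` of a valuation subring `A`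
  of `ℚ̄` over `q ≠ p`: then `f(I_A)` is cyclic, i.e. there is `τ₀ ∈ I_A` such that every `f σ`,
  `σ ∈ I_A`, is a power of `f τ₀`.
-/
import Mathlib
import Fermat.Agent.ES.T56.TameChar1
import Fermat.Agent.ES.T56.InertiaBridge1

set_option autoImplicit false

open NumberField
open scoped Pointwise

namespace Fermat.Agent.ES.T56.TameNF1

open Fermat.Agent.ES.T56.InertiaBridge1

local notation "Qbar" => AlgebraicClosure ℚ

/-- A uniformizer at a non-zero prime of a Dedekind domain. -/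
theorem exists_uniformizer {S : Type*} [CommRing S] [IsDedekindDomain S] (P : Ideal S)
    [P.IsPrime] (hP : P ≠ ⊥) : ∃ π : S, P = Ideal.span {π} ⊔ P ^ 2 ∧ π ∉ P ^ 2 := by
  obtain ⟨π, hπ1, hπ2⟩ :=
    Ideal.exists_mem_pow_notMem_pow_succ P hP (Ideal.IsPrime.ne_top inferInstance) 1
  refine ⟨π, ?_, hπ2⟩
  have h := (Ideal.eq_prime_pow_of_succ_lt_of_le (P := P) (I := Ideal.span {π} ⊔ P ^ (1 + 1)) hP
    (i := 1) (lt_of_le_of_ne le_sup_right ?_)
    (sup_le (Ideal.span_le.mpr (Set.singleton_subset_iff.mpr hπ1))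
      (Ideal.pow_succ_lt_pow hP 1).le)).symm
  · rw [pow_one] at h
    exact h
  · intro this
    apply hπ2
    rw [this]
    exact Ideal.mem_sup_left (Ideal.mem_span_singleton_self π)

/-- `Gal(L/ℚ)` acts faithfully on the ring of integers. -/
theorem faithfulSMul_ringOfIntegers (L : Type*) [Field L] [NumberField L] :
    FaithfulSMul (L ≃ₐ[ℚ] L) (𝓞 L) := by
  refine ⟨fun {σ τ} h => ?_⟩
  ext y
  obtain ⟨a, b, hb, rfl⟩ := IsFractionRing.div_surjective (A := 𝓞 L) y
  have ha := congrArg (algebraMap (𝓞 L) L) (h a)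
  have hb' := congrArg (algebraMap (𝓞 L) L) (h b)
  have e1 : ∀ (ρ : L ≃ₐ[ℚ] L) (x : 𝓞 L), algebraMap (𝓞 L) L (ρ • x) = ρ (algebraMap (𝓞 L) L x) :=
    fun ρ x => rfl
  rw [e1, e1] at ha hb'
  rw [map_div₀, map_div₀, ha, hb']

variable (A : ValuationSubring Qbar) (L : IntermediateField ℚ Qbar) [NumberField L] [IsGalois ℚ L]

/-- **(T1) over `ℚ`**: the image of the inertia group `I_A` under a homomorphism of finite level
with `p`-power order values, `p ≠ q`, is cyclic. -/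
theorem cyclic_image_inertia {q : ℕ} (hq : q.Prime) (hA : A.LiesOverPrime q) {p : ℕ}
    (hp : p.Prime) (hpq : p ≠ q) {H : Type*} [Monoid H] (f : GQ →* H)
    (hfL : ∀ g ∈ L.fixingSubgroup, f g = 1)
    (hf : ∀ σ ∈ A.inertiaSubgroupIn ℚ, ∃ j : ℕ, f σ ^ p ^ j = 1) :
    ∃ τ₀ ∈ A.inertiaSubgroupIn ℚ, ∀ σ ∈ A.inertiaSubgroupIn ℚ, ∃ n : ℕ, f σ = f τ₀ ^ n := by
  have hsurj : Function.Surjective (AlgEquiv.restrictNormalHom (F := ℚ) (K₁ := Qbar) L) :=
    AlgEquiv.restrictNormalHom_surjective Qbar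
  set s := Function.surjInv hsurj with hs_def
  have hs : ∀ d, AlgEquiv.restrictNormalHom L (s d) = d := Function.surjInv_eq hsurj
  have key : ∀ g g' : GQ, AlgEquiv.restrictNormalHom L g = AlgEquiv.restrictNormalHom L g' →
      f g = f g' := by
    intro g g' h
    have h1 : g⁻¹ * g' ∈ L.fixingSubgroup := by
      rw [mem_fixingSubgroup_iff_restrict, map_mul, map_inv, h, inv_mul_cancel]
    have h2 : g' = g * (g⁻¹ * g') := by group
    rw [h2, map_mul, hfL _ h1, mul_one]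
  let fbar : (L ≃ₐ[ℚ] L) →* H :=
    { toFun := fun d => f (s d)
      map_one' := by
        rw [← map_one f]
        apply key
        rw [hs, map_one]
      map_mul' := fun d e => by
        rw [← map_mul]
        apply key
        rw [hs, map_mul, hs, hs] }
  have hfbar : ∀ g : GQ, fbar (AlgEquiv.restrictNormalHom L g) = f g := fun g => key _ _ (hs _)
  have : (primeAt A L).IsMaximal := primeAt_isMaximal L hq hA
  have : FaithfulSMul (L ≃ₐ[ℚ] L) (𝓞 L) := faithfulSMul_ringOfIntegers L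
  obtain ⟨π, hπ, hπ2⟩ := exists_uniformizer (primeAt A L) (primeAt_ne_bot L hq hA)
  have hf' : ∀ d ∈ (primeAt A L).inertia (L ≃ₐ[ℚ] L), ∃ j : ℕ, fbar d ^ p ^ j = 1 := by
    intro d hd
    obtain ⟨σ, hσ, rfl⟩ := exists_inertia_lift A L hq hA hd
    rw [hfbar]
    exact hf σ hσ
  obtain ⟨τ, hτ, h⟩ := TameChar1.cyclic_image (G := L ≃ₐ[ℚ] L) hπ hπ2 hq
    (natCast_mem_primeAt L hA) hp hpq fbar hf'
  obtain ⟨τ₀, hτ₀, rfl⟩ := exists_inertia_lift A L hq hA hτ
  refine ⟨τ₀, hτ₀, fun σ hσ => ?_⟩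
  obtain ⟨n, hn⟩ := h _ (restrict_mem_inertia A L hσ)
  rw [hfbar, hfbar] at hn
  exact ⟨n, hn⟩

end Fermat.Agent.ES.T56.TameNF1
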