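/-
Programme T (S56), chapter LOC, helper1: the MATRIX LEMMA behind (LOC-Smin).

* `exists_comm_eq` : `k` a field with `2 ≠ 0`, `u ∈ M₂(k)` with `tr u = 2`, `det u = 1`, `u ≠ 1`
  (a non-trivial unipotent), `S ∈ M₂(k)` with `tr S = 0` and `tr (S u) = 0`.  Then there is a
  trace-zero `X` with `X u - u X = S`.  (Explicit solution; `S` has to lie in the 2-dimensional
  image of `X ↦ [X, u]` on `sl₂`, and the two trace conditions cut out exactly that image.)
* `exists_comm_eq_of_dual` : for `g ∈ M₂(k[ε])` with `tr g = 2`, `det g = 1` and reduction `≠ 1`: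
  `∃ X, tr X = 0 ∧ X ū - ū X = sndM g`, i.e. `g = (1 + εX)⁻¹ ū (1 + εX)`: a unipotent lift of a
  non-trivial unipotent is conjugate to the constant lift.
* `pow_eq_one_of_unipotent` : `tr g = 2`, `det g = 1`, `(p : A) = 0`, `p` prime `⇒ g ^ p = 1`.
-/
import Mathlib
import Fermat.Agent.ES.T56.Ad0Rep10

set_option autoImplicit false

open Matrix

namespace Fermat.Agent.ES.T56.UnipLiftDual1

open Fermat.Agent.S53 Fermat.Agent.ES.T56.Ad0Rep10

section Field

variable {k : Type} [Field k]

theorem comm_lower (p r a b c d : k) :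
    (!![p, 0; r, -p] : M2 k) * !![a, b; c, d] - !![a, b; c, d] * !![p, 0; r, -p]
      = !![-(b * r), 2 * p * b; r * (a - d) - 2 * p * c, r * b] := by
  ext i j
  fin_cases i <;> fin_cases j <;> simp <;> ring

theorem comm_upper (p s a b c d : k) :
    (!![p, s; 0, -p] : M2 k) * !![a, b; c, d] - !![a, b; c, d] * !![p, s; 0, -p]
      = !![c * s, 2 * p * b + s * (d - a); -(2 * p * c), -(c * s)] := by
  ext i j
  fin_cases i <;> fin_cases j <;> simp <;> ring

/-- The explicit solution of `X u - u X = S`. -/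
theorem exists_comm_eq (h2 : (2 : k) ≠ 0) (u S : M2 k) (hutr : u.trace = 2) (hudet : u.det = 1)
    (hu1 : u ≠ 1) (hStr : S.trace = 0) (hSu : (S * u).trace = 0) :
    ∃ X : M2 k, X.trace = 0 ∧ X * u - u * X = S := by
  -- coordinates
  have hu : u = !![u 0 0, u 0 1; u 1 0, u 1 1] := by
    ext i j; fin_cases i <;> fin_cases j <;> rfl
  have hS : S = !![S 0 0, S 0 1; S 1 0, S 1 1] := by
    ext i j; fin_cases i <;> fin_cases j <;> rfl
  have e1 : u 0 0 + u 1 1 = 2 := by rw [← hutr, Matrix.trace_fin_two]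
  have e2 : u 0 0 * u 1 1 - u 0 1 * u 1 0 = 1 := by rw [← hudet, Matrix.det_fin_two]
  have e3 : S 0 0 + S 1 1 = 0 := by rw [← hStr, Matrix.trace_fin_two]
  have e4 : S 0 0 * u 0 0 + S 0 1 * u 1 0 + (S 1 0 * u 0 1 + S 1 1 * u 1 1) = 0 := by
    rw [← hSu, Matrix.trace_fin_two, Matrix.mul_apply, Matrix.mul_apply, Fin.sum_univ_two,
      Fin.sum_univ_two]
  generalize u 0 0 = a at hu e1 e2 e4
  generalize u 0 1 = b at hu e2 e4
  generalize u 1 0 = c at hu e2 e4
  generalize u 1 1 = d at hu e1 e2 e4
  generalize S 0 0 = x at hS e3 e4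
  generalize S 0 1 = y at hS e4
  generalize S 1 0 = z at hS e4
  generalize S 1 1 = w at hS e3 e4
  have hbc : b ≠ 0 ∨ c ≠ 0 := by
    by_contra hcon
    push Not at hcon
    obtain ⟨hb0, hc0⟩ := hcon
    apply hu1
    have had : a * d = 1 := by rw [hb0, zero_mul, sub_zero] at e2; exact e2
    have ha1 : (a - 1) * (a - 1) = 0 := by
      have hd' : d = 2 - a := by linear_combination e1
      rw [hd'] at had
      linear_combination -had
    have ha1' : a = 1 := by
      have := mul_self_eq_zero.mp ha1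
      linear_combination this
    have hd1 : d = 1 := by rw [ha1'] at e1; linear_combination e1
    rw [hu, ha1', hb0, hc0, hd1]
    ext i j; fin_cases i <;> fin_cases j <;> simp
  rcases hbc with hb0 | hc0
  · -- `b ≠ 0`
    obtain ⟨r, hr⟩ : ∃ r : k, b * r = -x := ⟨b⁻¹ * -x, by rw [← mul_assoc, mul_inv_cancel₀ hb0, one_mul]⟩
    obtain ⟨p, hp⟩ : ∃ p : k, 2 * p * b = y :=
      ⟨(2 * b)⁻¹ * y, by
        have h2b : (2 : k) * b ≠ 0 := mul_ne_zero h2 hb0
        calc 2 * ((2 * b)⁻¹ * y) * b = (2 * b) * (2 * b)⁻¹ * y := by ring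
          _ = y := by rw [mul_inv_cancel₀ h2b, one_mul]⟩
    refine ⟨!![p, 0; r, -p], ?_, ?_⟩
    · rw [Matrix.trace_fin_two]; simp
    · rw [hu, hS, comm_lower]
      have h00 : -(b * r) = x := by linear_combination -hr
      have h01 : 2 * p * b = y := hp
      have h10 : r * (a - d) - 2 * p * c = z := by
        apply mul_left_cancel₀ hb0
        linear_combination (a - d) * hr - c * hp - e4 + d * e3
      have h11 : r * b = w := by linear_combination hr - e3
      rw [h11, h10, h01, h00]
  · -- `c ≠ 0`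
    obtain ⟨s, hs⟩ : ∃ s : k, c * s = x := ⟨c⁻¹ * x, by rw [← mul_assoc, mul_inv_cancel₀ hc0, one_mul]⟩
    obtain ⟨p, hp⟩ : ∃ p : k, 2 * p * c = -z :=
      ⟨(2 * c)⁻¹ * -z, by
        have h2c : (2 : k) * c ≠ 0 := mul_ne_zero h2 hc0
        calc 2 * ((2 * c)⁻¹ * -z) * c = (2 * c) * (2 * c)⁻¹ * -z := by ring
          _ = -z := by rw [mul_inv_cancel₀ h2c, one_mul]⟩
    refine ⟨!![p, s; 0, -p], ?_, ?_⟩
    · rw [Matrix.trace_fin_two]; simp
    · rw [hu, hS, comm_upper]
      have h00 : c * s = x := hs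
      have h01 : 2 * p * b + s * (d - a) = y := by
        apply mul_left_cancel₀ hc0
        linear_combination b * hp + (d - a) * hs - e4 + d * e3
      have h10 : -(2 * p * c) = z := by linear_combination -hp
      have h11 : -(c * s) = w := by linear_combination -hs - e3
      rw [h11, h00, h01, h10]

/-- A lift to `k[ε]` of a non-trivial unipotent, with trace `2` and determinant `1`, is the
conjugate of the constant lift by some `1 + εX`, `tr X = 0`. -/
theorem exists_comm_eq_of_dual (h2 : (2 : k) ≠ 0) (g : M2 (DualNumber k)) (htr : g.trace = 2)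
    (hdet : g.det = 1) (hg : fstM g ≠ 1) :
    ∃ X : M2 k, X.trace = 0 ∧ X * fstM g - fstM g * X = sndM g := by
  have h1 : (fstM g).trace = 2 := by
    rw [← fst_trace, htr]; rfl
  have h2' : (fstM g).det = 1 := by
    rw [← fst_det, hdet]; rfl
  have h3 : (sndM g).trace = 0 := by
    rw [← snd_trace, htr]; rfl
  have h4 : (sndM g * (fstM g).adjugate).trace = 0 := by
    rw [← snd_det, hdet]; rfl
  refine exists_comm_eq h2 (fstM g) (sndM g) h1 h2' hg h3 ?_
  have key : (sndM g * fstM g).trace + (sndM g * (fstM g).adjugate).trace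
      = (sndM g).trace * (fstM g).trace := by
    rw [Matrix.trace_fin_two, Matrix.trace_fin_two, Matrix.trace_fin_two, Matrix.trace_fin_two,
      Matrix.adjugate_fin_two]
    simp only [Matrix.mul_apply, Fin.sum_univ_two, Matrix.of_apply, Matrix.cons_val',
      Matrix.cons_val_zero, Matrix.cons_val_one, Matrix.cons_val_fin_one]
    ring
  rw [h4, h3, zero_mul, add_zero] at key
  exact key

end Field

section Ring

variable {A : Type} [CommRing A]

/-- Cayley--Hamilton for a `2 × 2` matrix of trace `2` and determinant `1`. -/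
theorem sub_one_mul_self (g : M2 A) (htr : g.trace = 2) (hdet : g.det = 1) :
    (g - 1) * (g - 1) = 0 := by
  have e1 : g 0 0 + g 1 1 = 2 := by rw [← htr, Matrix.trace_fin_two]
  have e2 : g 0 0 * g 1 1 - g 0 1 * g 1 0 = 1 := by rw [← hdet, Matrix.det_fin_two]
  ext i j
  fin_cases i <;> fin_cases j
  · simp only [Fin.zero_eta, Fin.isValue, Matrix.mul_apply, Fin.sum_univ_two, Matrix.sub_apply,
      Matrix.one_apply_eq, Matrix.zero_apply, ne_eq, zero_ne_one, not_false_eq_true,
      Matrix.one_apply_ne, sub_zero, one_ne_zero]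
    linear_combination (g 0 0) * e1 - e2
  · simp only [Fin.zero_eta, Fin.isValue, Fin.mk_one, Matrix.mul_apply, Fin.sum_univ_two,
      Matrix.sub_apply, Matrix.one_apply_eq, Matrix.zero_apply, ne_eq, zero_ne_one,
      not_false_eq_true, Matrix.one_apply_ne, sub_zero]
    linear_combination (g 0 1) * e1
  · simp only [Fin.zero_eta, Fin.isValue, Fin.mk_one, Matrix.mul_apply, Fin.sum_univ_two,
      Matrix.sub_apply, Matrix.one_apply_eq, Matrix.zero_apply, ne_eq,
      not_false_eq_true, Matrix.one_apply_ne, sub_zero, one_ne_zero]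
    linear_combination (g 1 0) * e1
  · simp only [Fin.isValue, Fin.mk_one, Matrix.mul_apply, Fin.sum_univ_two, Matrix.sub_apply,
      Matrix.one_apply_eq, Matrix.zero_apply, ne_eq, zero_ne_one, not_false_eq_true,
      Matrix.one_apply_ne, sub_zero, one_ne_zero]
    linear_combination (g 1 1) * e1 - e2

theorem pow_eq_one_add_nsmul (g : M2 A) (htr : g.trace = 2) (hdet : g.det = 1) (n : ℕ) :
    g ^ n = 1 + n • (g - 1) := by
  have hN := sub_one_mul_self g htr hdet
  induction n with
  | zero => simp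
  | succ n ih =>
    have hg : g = 1 + (g - 1) := by abel
    have hstep : (1 + n • (g - 1)) * (1 + (g - 1)) = 1 + (n + 1) • (g - 1) := by
      rw [add_mul, one_mul, mul_add, mul_one, smul_mul_assoc, hN, smul_zero, add_zero,
        succ_nsmul]
      abel
    rw [pow_succ, ih]
    nth_rewrite 2 [hg]
    exact hstep

/-- A unipotent `2 × 2` matrix over a ring in which `p = 0` has `p`-th power `1`. -/
theorem pow_eq_one_of_unipotent (g : M2 A) (htr : g.trace = 2) (hdet : g.det = 1) (p : ℕ)
    (hp : (p : A) = 0) : g ^ p = 1 := by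
  rw [pow_eq_one_add_nsmul g htr hdet]
  have : p • (g - 1) = 0 := by
    rw [← Nat.cast_smul_eq_nsmul A, hp, zero_smul]
  rw [this, add_zero]

/-- Reading trace and determinant off the characteristic polynomial `(X - 1) ^ 2`. -/
theorem trace_det_of_charpoly [Nontrivial A] (g : M2 A)
    (h : g.charpoly = (Polynomial.X - 1) ^ 2) : g.trace = 2 ∧ g.det = 1 := by
  rw [Matrix.charpoly_fin_two] at h
  have h1 := congrArg (fun f => Polynomial.coeff f 1) h
  have h0 := congrArg (fun f => Polynomial.coeff f 0) h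
  have hsq : ((Polynomial.X - 1) ^ 2 : Polynomial A)
      = Polynomial.X ^ 2 - Polynomial.C 2 * Polynomial.X + Polynomial.C 1 := by
    rw [Polynomial.C_1, Polynomial.C_ofNat]; ring
  rw [hsq] at h1 h0
  simp only [Polynomial.coeff_add, Polynomial.coeff_sub, Polynomial.coeff_X_pow,
    Polynomial.coeff_C_mul, Polynomial.coeff_X_one, Polynomial.coeff_X_zero,
    Polynomial.coeff_C_succ, Polynomial.coeff_C] at h1 h0
  norm_num at h1 h0
  exact ⟨h1, h0⟩

end Ring


end Fermat.Agent.ES.T56.UnipLiftDual1
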