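/-
Programme T (S56), chapter LOC, helper1: **membership at the primes of `S_min ∖ {p}`**.

`k` a field with `p = 0`, `p` odd, `q ≠ p` a prime, `rbar : G_ℚ → GL₂(k)` RAMIFIED at the Prelude's
place `P = primeLocalPlace q`, `r` a lift of `rbar` to `k[ε]` which is unipotent on inertia at `q`
(the minimal condition of the Prelude).  Then the local class at `q` of the `ε`-part cocycle of `r`
is UNRAMIFIED: it lies in `UrDef1.locUr q (ad⁰ρ̄|Γ_q)`.

Proof.  `r(I_P)` is a group of unipotent matrices over a ring of characteristic `p`, so it has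
exponent `p`; by the tame structure of inertia (`TameNF1.cyclic_image_inertia`) it is generated by
`g = r τ₀`.  `ḡ = rbar τ₀ ≠ 1` since `rbar` is ramified, so by `UnipLiftDual1` there is a trace-zero
`X` with `X ḡ - ḡ X = sndM g`.  The cocycle `c' = c + d X` is cohomologous to `c`, vanishes at `τ₀`
and on `ker r`; the vanishing set of a cocycle is a subgroup, so `c'` vanishes on
`I_P ⊔ Gal(ℚ̄/L)` for a finite Galois level `L` of `r`.

* `zeroSubgroup c`  : the vanishing set of a `1`-cocycle, as a subgroup;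
* `exists_level`    : a finite Galois level of a continuous `r : G_ℚ → GL₂(k[ε])`;
* `urMember`        : the statement.
-/
import Mathlib
import Fermat.Prelude.Def_GaloisRep_LocalConditions
import Fermat.Agent.ES.T56.Ad0Rep10
import Fermat.Agent.ES.T56.UnipLiftDual1
import Fermat.Agent.ES.T56.TameNF1
import Fermat.Agent.ES.T56.LocFrob1
import Fermat.Agent.ES.T56.UrDef1

set_option autoImplicit false
set_option linter.unusedSectionVars false

open CategoryTheory groupCohomology ExtCitation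

namespace Fermat.Agent.ES.T56.UrMem1

open Fermat.Agent.S53 Fermat.Agent.ES.T56.Ad0Rep10 Fermat.Agent.ES.T56.UrDef1

local notation "Qbar" => AlgebraicClosure ℚ

/-! ### The vanishing set of a cocycle -/

section Zero

variable {R G : Type} [CommRing R] [Group G] {A : Rep R G}

/-- The vanishing set of a `1`-cocycle is a subgroup. -/
def zeroSubgroup (c : cocycles₁ A) : Subgroup G where
  carrier := {g | (c : G → A) g = 0}
  one_mem' := cocycles₁_map_one c
  mul_mem' := by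
    intro a b ha hb
    rw [Set.mem_ofPred_eq] at ha hb ⊢
    rw [(mem_cocycles₁_iff (c : G → A)).1 c.2 a b, ha, hb, map_zero, add_zero]
  inv_mem' := by
    intro a ha
    rw [Set.mem_ofPred_eq] at ha ⊢
    have h := cocycles₁_map_inv c a
    rw [ha, neg_zero] at h
    have h2 := congrArg (A.ρ a⁻¹) h
    rw [map_zero, ← Module.End.mul_apply, ← map_mul, inv_mul_cancel, map_one,
      Module.End.one_apply] at h2
    exact h2

theorem mem_zeroSubgroup (c : cocycles₁ A) (g : G) :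
    g ∈ zeroSubgroup c ↔ (c : G → A) g = 0 := Iff.rfl

end Zero

variable {k : Type} [Field k]

/-! ### Levels -/

theorem eq_zero_of_mem_sq {a : DualNumber k}
    (ha : a ∈ IsLocalRing.maximalIdeal (DualNumber k) ^ 2) : a = 0 := by
  rw [pow_two] at ha
  refine Submodule.mul_induction_on ha (fun x hx y hy => ?_) (fun x y hx hy => ?_)
  · rw [mem_maximalIdeal_dualNumber_iff] at hx hy
    apply TrivSqZeroExt.ext
    · rw [TrivSqZeroExt.fst_mul, hx, zero_mul, TrivSqZeroExt.fst_zero]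
    · rw [DualNumber.snd_mul, hx, hy, zero_mul, mul_zero, add_zero, TrivSqZeroExt.snd_zero]
  · rw [hx, hy, add_zero]

/-- A finite Galois level of a continuous matrix representation over `k[ε]`. -/
theorem exists_level {r : GQ →* M2 (DualNumber k)} (hr : MatCont r) :
    ∃ L : IntermediateField ℚ Qbar, FiniteDimensional ℚ L ∧ IsGalois ℚ L ∧
      ∀ σ ∈ L.fixingSubgroup, r σ = 1 := by
  obtain ⟨F, hF, hFr⟩ := hr 2
  refine ⟨IntermediateField.normalClosure ℚ F Qbar, normalClosure.is_finiteDimensional ℚ F Qbar,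
    IsGalois.normalClosure ℚ F Qbar, fun σ hσ => ?_⟩
  have h := hFr σ (fun x hx =>
    (IntermediateField.mem_fixingSubgroup_iff _ _).mp hσ x (IntermediateField.le_normalClosure F hx))
  apply Matrix.ext
  intro i j
  have := eq_zero_of_mem_sq (h i j)
  rw [Matrix.sub_apply, sub_eq_zero] at this
  exact this

theorem natCast_dual_eq_zero {p : ℕ} (hpk : (p : k) = 0) : (p : DualNumber k) = 0 := by
  apply TrivSqZeroExt.ext
  · rw [TrivSqZeroExt.fst_natCast, hpk, TrivSqZeroExt.fst_zero]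
  · rw [TrivSqZeroExt.snd_natCast, TrivSqZeroExt.snd_zero]

theorem two_ne_zero_of_ne {p : ℕ} (hp : p.Prime) (hp2 : p ≠ 2) (h : (p : k) = 0) :
    (2 : k) ≠ 0 := by
  intro h2
  rcases hp.eq_two_or_odd' with h | ⟨m, hm⟩
  · exact hp2 h
  · rw [hm] at h
    push_cast at h
    rw [h2, zero_mul, zero_add] at h
    exact one_ne_zero h

/-! ### The modified cocycle -/

section Coc

variable (rbar : GQ →* M2 k)

/-- The coboundary of `X₀ ∈ sl₂`. -/
noncomputable def cob (X₀ : sl2 k) : cocycles₁ (ad0 rbar) :=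
  ⟨(d₀₁ (ad0 rbar)).hom X₀, d₀₁_apply_mem_cocycles₁ (A := ad0 rbar) X₀⟩

theorem cob_apply (X₀ : sl2 k) (g : GQ) :
    (cob rbar X₀ : GQ → ad0 rbar) g = (ad0 rbar).ρ g X₀ - X₀ := rfl

theorem H1π_add_cob (c : cocycles₁ (ad0 rbar)) (X₀ : sl2 k) :
    (H1π (ad0 rbar)).hom (c + cob rbar X₀) = (H1π (ad0 rbar)).hom c := by
  apply (H1π_eq_iff (c + cob rbar X₀) c).mpr
  refine ⟨X₀, ?_⟩
  funext g
  show _ = ((c + cob rbar X₀ : cocycles₁ (ad0 rbar)) : GQ → ad0 rbar) g - (c : GQ → ad0 rbar) g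
  have : ((c + cob rbar X₀ : cocycles₁ (ad0 rbar)) : GQ → ad0 rbar) g =
    (c : GQ → ad0 rbar) g + (cob rbar X₀ : GQ → ad0 rbar) g := rfl
  rw [this, add_sub_cancel_left]
  rfl

/-- The matrix of `(c + d X₀) g`. -/
theorem val_eq (r : GQ →* M2 (DualNumber k)) (c : cocycles₁ (ad0 rbar))
    (hc : ∀ σ, ((c σ : sl2 k) : M2 k) = epsPart r σ) (X₀ : sl2 k) (g : GQ) :
    ((((c + cob rbar X₀ : cocycles₁ (ad0 rbar)) : GQ → ad0 rbar) g : sl2 k) : M2 k) =
      sndM (r g) * fstM (r g⁻¹) + (rbar g * (X₀ : M2 k) * rbar g⁻¹ - (X₀ : M2 k)) := by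
  have e1 : ((c + cob rbar X₀ : cocycles₁ (ad0 rbar)) : GQ → ad0 rbar) g
      = (c : GQ → ad0 rbar) g + (cob rbar X₀ : GQ → ad0 rbar) g := rfl
  rw [e1, cob_apply]
  show ((((c : GQ → ad0 rbar) g : sl2 k) + ((ad0 rbar).ρ g X₀ - X₀ : sl2 k) : sl2 k) : M2 k) = _
  rw [Submodule.coe_add, Submodule.coe_sub, ad0_ρ_apply_coe, hc, epsPart_eq]

/-- `c + d X₀` vanishes on the kernel of `r`. -/
theorem val_eq_zero_of_eq_one (r : GQ →* M2 (DualNumber k)) (hfst : ∀ σ, fstM (r σ) = rbar σ)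
    (c : cocycles₁ (ad0 rbar)) (hc : ∀ σ, ((c σ : sl2 k) : M2 k) = epsPart r σ) (X₀ : sl2 k)
    {g : GQ} (hg : r g = 1) :
    ((c + cob rbar X₀ : cocycles₁ (ad0 rbar)) : GQ → ad0 rbar) g = 0 := by
  apply Subtype.ext
  rw [val_eq rbar r c hc X₀ g]
  have hginv : r g⁻¹ = 1 := by
    have := map_mul r g⁻¹ g
    rw [inv_mul_cancel, map_one, hg, mul_one] at this
    exact this.symm
  rw [← hfst, ← hfst, hg, hginv, sndM_one, fstM_one, zero_mul, one_mul, mul_one, sub_self, add_zero]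
  rfl

end Coc

/-! ### The statement -/

/-- **(LOC-Smin) membership**: the local class at a prime `q ≠ p` where `rbar` is ramified, of the
`ε`-part cocycle of a lift which is unipotent on inertia at `q`, is unramified. -/
theorem urMember {p : ℕ} (hp : p.Prime) (hpk : (p : k) = 0) (hp2 : p ≠ 2) (q : Nat.Primes)
    (hqp : (q : ℕ) ≠ p) (rbar : GQ →* M2 k)
    (hram : ∃ σ ∈ (primeLocalPlace q).inertiaSubgroupIn ℚ, rbar σ ≠ 1)
    (r : GQ →* M2 (DualNumber k)) (hr : MatCont r) (hfst : ∀ σ, fstM (r σ) = rbar σ)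
    (hunip : (ofMatrix r hr).IsUnipotentOnInertiaAt q)
    (c : cocycles₁ (ad0 rbar)) (hc : ∀ σ, ((c σ : sl2 k) : M2 k) = epsPart r σ) :
    (map (primeLocalToGlobal q) (𝟙 (Rep.res (primeLocalToGlobal q) (ad0 rbar))) 1).hom
        ((H1π (ad0 rbar)).hom c) ∈ locUr q (Rep.res (primeLocalToGlobal q) (ad0 rbar)) := by
  have hP := LocFrob1.primeLocalPlace_liesOverPrime q
  have h2 : (2 : k) ≠ 0 := two_ne_zero_of_ne hp hp2 hpk
  -- trace and determinant on inertia
  have htd : ∀ σ ∈ (primeLocalPlace q).inertiaSubgroupIn ℚ, (r σ).trace = 2 ∧ (r σ).det = 1 := by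
    intro σ hσ
    have h := hunip (primeLocalPlace q) hP σ hσ
    have h' : (Matrix.toLin' (r σ)).charpoly = (Polynomial.X - 1) ^ 2 := h
    rw [Matrix.charpoly_toLin'] at h'
    exact UnipLiftDual1.trace_det_of_charpoly (r σ) h'
  -- the level
  obtain ⟨L, hLfd, hLgal, hL⟩ := exists_level hr
  have := hLfd
  have := hLgal
  have hNF : NumberField L := ⟨⟩
  -- the generator
  obtain ⟨τ₀, hτ₀, hgen⟩ := TameNF1.cyclic_image_inertia (primeLocalPlace q) L q.2 hP hp
    (Ne.symm hqp) r hL (fun σ hσ => ⟨1, by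
      rw [pow_one]
      exact UnipLiftDual1.pow_eq_one_of_unipotent (r σ) (htd σ hσ).1 (htd σ hσ).2 p
        (natCast_dual_eq_zero hpk)⟩)
  -- `rbar τ₀ ≠ 1`
  have hu1 : fstM (r τ₀) ≠ 1 := by
    intro h1
    obtain ⟨σ, hσ, hσ1⟩ := hram
    apply hσ1
    obtain ⟨n, hn⟩ := hgen σ hσ
    rw [← hfst, hn, ← map_pow, hfst, map_pow, ← hfst τ₀, h1, one_pow]
  -- the conjugating matrix
  obtain ⟨X, hXtr, hX⟩ := UnipLiftDual1.exists_comm_eq_of_dual h2 (r τ₀) (htd τ₀ hτ₀).1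
    (htd τ₀ hτ₀).2 hu1
  have hX₀ : X ∈ sl2 k := (mem_sl2_iff X).mpr hXtr
  set c' : cocycles₁ (ad0 rbar) := c + cob rbar ⟨X, hX₀⟩ with hc'
  -- `c'` vanishes at `τ₀`
  have hτ₀z : τ₀ ∈ zeroSubgroup c' := by
    rw [mem_zeroSubgroup]
    apply Subtype.ext
    rw [hc', val_eq rbar r c hc ⟨X, hX₀⟩ τ₀]
    show sndM (r τ₀) * fstM (r τ₀⁻¹) + (rbar τ₀ * X * rbar τ₀⁻¹ - X) = 0
    rw [← hX, hfst, hfst, sub_mul, mul_assoc X, rbar_mul_inv, mul_one]
    abel
  -- `c'` vanishes on `ker r`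
  have hker : ∀ g : GQ, r g = 1 → g ∈ zeroSubgroup c' := fun g hg =>
    val_eq_zero_of_eq_one rbar r hfst c hc ⟨X, hX₀⟩ hg
  -- hence on `I_P ⊔ Gal(ℚ̄/L)`
  have hle : (primeLocalPlace q).inertiaSubgroupIn ℚ ⊔ L.fixingSubgroup ≤ zeroSubgroup c' := by
    refine sup_le (fun σ hσ => ?_) (fun σ hσ => hker σ (hL σ hσ))
    obtain ⟨n, hn⟩ := hgen σ hσ
    have h1 : r ((τ₀ ^ n)⁻¹ * σ) = 1 := by
      rw [map_mul, hn, ← map_pow, ← map_mul, inv_mul_cancel, map_one]
    have h3 : σ = τ₀ ^ n * ((τ₀ ^ n)⁻¹ * σ) := by group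
    rw [h3]
    exact Subgroup.mul_mem _ (Subgroup.pow_mem _ hτ₀z n) (hker _ h1)
  -- conclusion
  rw [← H1π_add_cob rbar c ⟨X, hX₀⟩, ← hc']
  have hmap : (map (primeLocalToGlobal q) (𝟙 (Rep.res (primeLocalToGlobal q) (ad0 rbar))) 1).hom
      ((H1π (ad0 rbar)).hom c') =
      (H1π (Rep.res (primeLocalToGlobal q) (ad0 rbar))).hom
        (mapCocycles₁ (primeLocalToGlobal q) (𝟙 (Rep.res (primeLocalToGlobal q) (ad0 rbar))) c') :=
    H1π_comp_map_apply (primeLocalToGlobal q) (𝟙 (Rep.res (primeLocalToGlobal q) (ad0 rbar))) c'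
  rw [hmap, mem_locUr_iff]
  refine ⟨L, hLfd, _, fun τ hτ => ?_, rfl⟩
  have hτ' : primeLocalToGlobal q τ ∈ zeroSubgroup c' := hle hτ
  rw [coe_mapCocycles₁]
  exact hτ'

end Fermat.Agent.ES.T56.UrMem1
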