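/-
Programme T (S56), chapters TAN + LOC, the plug for the ORDINARY half (helper11):

  `tanSel_ord : TopAsm27.TanSel p ρbar (ordCond 𝒪 p Smin) Smin (ad0 Sl.rbar) (lkOrd p Sl.rbar v)`

for the local conditions
* `lkOrd p rbar v (pPrime p) = Lord p rbar v`            (the ordinary line condition at `p`, `OrdIface11`),
* `lkOrd p rbar v q = locUr q (ad⁰ρ̄|Γ_q)`  for `q ≠ p`    (unramified classes, `UrDef1`),

from helper10's `TangentMap10.exists_tangent_injection` (the tangent space injects into `H¹(G_{ℚ,T}, ad⁰ρ̄)`, every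
nonzero value is the class of the `ε`-part of a strict lift of type `𝒟`), the two membership lemmas
`OrdMember11.ordMember` (at `p`) and `UrMem1.urMember` (at `q ∈ Smin ∖ {p}`, where `ρ̄` is ramified by `hmin` and
`PlacesConj16`), and helper23's stability lemmas `QuotStableCor23.quotStable_ordCond`, `CondEquiv23.ordCond_of_equiv`.
Also the two counts for `lkOrd` in the literal shapes of `TopAsm27.twSelmer_of_inputs` (`hfinS`, `hmin`, `hpcount`).
-/
import Mathlib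
import Fermat.Agent.ES.T56.TopAsm27
import Fermat.Agent.ES.T56.TangentMap10
import Fermat.Agent.ES.T56.QuotStableCor23
import Fermat.Agent.ES.T56.CondEquiv23
import Fermat.Agent.ES.T56.OrdExport11
import Fermat.Agent.ES.T56.UrMem1
import Fermat.Agent.ES.T56.UrDim1
import Fermat.Agent.ES.T56.PlacesConj16

set_option autoImplicit false
set_option linter.style.haveILetI false
set_option linter.unusedSectionVars false

namespace Fermat.Agent.ES.T56.TanPlugOrd11

open CategoryTheory groupCohomology ExtCitation IsLocalRing Fermat.Agent.S53 Fermat.Agent.ES.T56.Ad0Rep10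
  Fermat.Agent.ES.T56.OrdIface11 Fermat.Agent.ES.T56.TopPrep27
  Fermat.Agent.ES.T56.TopObjs27 Fermat.Agent.ES.T56.TopAsm27 Fermat.Agent.ES.T56.UrDef1
open Fermat.Agent.ES.T56.T56Iface27 (ordCond dualAlg)
open scoped Pointwise

/-! ### The local conditions of the ordinary type -/

section Lk

variable {k : Type} [Field k] (p : ℕ) [Fact p.Prime]

/-- The classes at `q` of the level-constant cocycles with values in `W⁰(v)` (`= Lord p rbar v` at `q = p`). -/
noncomputable def lordAt (rbar : GQ →* M2 k) (v : Fin 2 → k) (q : Nat.Primes) :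
    Submodule k (H1 (Rep.res (primeLocalToGlobal q) (ad0 rbar))) :=
  classesIn (primeLocalToGlobal q) (Rep.res (primeLocalToGlobal q) (ad0 rbar)) (W0 v)

theorem lordAt_pPrime (rbar : GQ →* M2 k) (v : Fin 2 → k) :
    lordAt rbar v (pPrime p) = Lord p rbar v := rfl

open Classical in
/-- **The local conditions of the ordinary type**: `Lord` at `p`, the unramified classes elsewhere. -/
noncomputable def lkOrd (rbar : GQ →* M2 k) (v : Fin 2 → k) : LocCondK (ad0 rbar) :=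
  fun q => if q = pPrime p then lordAt rbar v q
    else locUr q (Rep.res (primeLocalToGlobal q) (ad0 rbar))

theorem lkOrd_pPrime (rbar : GQ →* M2 k) (v : Fin 2 → k) :
    lkOrd p rbar v (pPrime p) = Lord p rbar v := by
  rw [lkOrd, if_pos rfl, lordAt_pPrime]

theorem lkOrd_of_ne (rbar : GQ →* M2 k) (v : Fin 2 → k) {q : Nat.Primes} (hq : q ≠ pPrime p) :
    lkOrd p rbar v q = locUr q (Rep.res (primeLocalToGlobal q) (ad0 rbar)) := by
  rw [lkOrd, if_neg hq]

end Lk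

/-! ### The counts for `lkOrd`, in the literal shapes of `TopAsm27.twSelmer_of_inputs` -/

section Counts

variable {k : Type} [Field k] [Finite k] (p : ℕ) [Fact p.Prime]

/-- `ad⁰ρ̄` is finite. -/
theorem finite_ad0 (rbar : GQ →* M2 k) : Finite (ad0 rbar) :=
  Finite.of_injective (fun X : sl2 k => (X : M2 k)) Subtype.val_injective

/-- `hmin` (and its finiteness) for `lkOrd`: `#(Lk q ⊓ H¹_cont) ≤ #H⁰(G_q, ad⁰ρ̄)` at `q ≠ p`. -/
theorem hmin_lkOrd (rbar : GQ →* M2 k) (v : Fin 2 → k) {q : Nat.Primes} (hq : q ≠ pPrime p) :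
    Finite ↥(lkOrd p rbar v q ⊓ contLocK q (ad0 rbar)) ∧
      Nat.card ↥(lkOrd p rbar v q ⊓ contLocK q (ad0 rbar)) ≤
        Nat.card ↥((Rep.res (primeLocalToGlobal q) (ad0 rbar)).ρ.invariants) := by
  haveI : Finite (Rep.res (primeLocalToGlobal q) (ad0 rbar)) := finite_ad0 rbar
  obtain ⟨hfin, hcard⟩ := UrDim1.card_locUr_le q (Rep.res (primeLocalToGlobal q) (ad0 rbar))
  rw [lkOrd_of_ne p rbar v hq]
  have hle : locUr q (Rep.res (primeLocalToGlobal q) (ad0 rbar)) ⊓ contLocK q (ad0 rbar) ≤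
      locUr q (Rep.res (primeLocalToGlobal q) (ad0 rbar)) := inf_le_left
  haveI := hfin
  exact ⟨Finite.of_injective _ (Submodule.inclusion_injective hle),
    (Nat.card_le_card_of_injective _ (Submodule.inclusion_injective hle)).trans hcard⟩

/-- `hpcount` (and its finiteness) for `lkOrd`: `#(Lk p ⊓ H¹_cont) ≤ #H⁰(G_p, ad⁰ρ̄) · #k`. -/
theorem hpcount_lkOrd (hp2 : p ≠ 2) (rbar : GQ →* M2 k) (hcont : GaloisFactorsThroughFiniteLevel rbar)
    (v : Fin 2 → k) (hv : IsStrictOrdLine p rbar v) :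
    Finite ↥(lkOrd p rbar v (pPrime p) ⊓ contLocK (pPrime p) (ad0 rbar)) ∧
      Nat.card ↥(lkOrd p rbar v (pPrime p) ⊓ contLocK (pPrime p) (ad0 rbar)) ≤
        Nat.card ↥((Rep.res (primeLocalToGlobal (pPrime p)) (ad0 rbar)).ρ.invariants) * Nat.card k := by
  rw [lkOrd_pPrime]
  exact OrdExport11.hpcount_ord p hp2 rbar hcont v hv

/-- `hfinS` for `lkOrd`. -/
theorem hfinS_lkOrd (hp2 : p ≠ 2) (rbar : GQ →* M2 k) (hcont : GaloisFactorsThroughFiniteLevel rbar)
    (v : Fin 2 → k) (hv : IsStrictOrdLine p rbar v) (q : Nat.Primes) :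
    Finite ↥(lkOrd p rbar v q ⊓ contLocK q (ad0 rbar)) := by
  by_cases hq : q = pPrime p
  · subst hq
    exact (hpcount_lkOrd p hp2 rbar hcont v hv).1
  · exact (hmin_lkOrd p rbar v hq).1

end Counts

/-! ### `ρ̄` is ramified at the Prelude's place over `q ∈ Smin ∖ {p}` -/

section Ram

variable {𝒪 : Type} [CommRing 𝒪] [IsLocalRing 𝒪]

/-- `Sl.rbar σ = 1 ↔ ρ̄ σ = 1`. -/
theorem rbar_eq_one_iff {ρbar : ResidualGaloisRep (ResidueField 𝒪)} (Sl : SliceData 𝒪 ρbar) (σ : GQ) :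
    Sl.rbar σ = 1 ↔ ρbar.ρ σ = 1 := by
  rw [Sl.rbar_eq]
  constructor
  · intro h
    apply (LinearMap.toMatrix Sl.basis Sl.basis).injective
    rw [h, LinearMap.toMatrix_one]
  · intro h
    rw [h, LinearMap.toMatrix_one]

/-- If `ρ̄` is ramified at `q` then `Sl.rbar` is nontrivial on the inertia group of the Prelude's place
`primeLocalPlace q` (all places over `q` are conjugate: `PlacesConj16`). -/
theorem exists_inertia_rbar_ne_one {ρbar : ResidualGaloisRep (ResidueField 𝒪)} (Sl : SliceData 𝒪 ρbar)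
    (q : Nat.Primes) (h : ¬ ρbar.IsUnramifiedAt (q : ℕ)) :
    ∃ σ ∈ (primeLocalPlace q).inertiaSubgroupIn ℚ, Sl.rbar σ ≠ 1 := by
  by_contra hcon
  apply h
  intro A hA σ hσ
  obtain ⟨g, hg⟩ := PlacesConj16.placesConj_primes q A hA
  have h1 : g⁻¹ * σ * g⁻¹⁻¹ ∈ (g⁻¹ • A).inertiaSubgroupIn ℚ :=
    Fermat.Agent.PT.BR.UnramBridge13.conj_mem_inertiaSubgroupIn q.2 hA g⁻¹ hσ
  have h2 : g⁻¹ • A = primeLocalPlace q := by
    rw [hg, inv_smul_smul]
  rw [h2] at h1
  have h3 : Sl.rbar (g⁻¹ * σ * g⁻¹⁻¹) = 1 := by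
    by_contra h3
    exact hcon ⟨_, h1, h3⟩
  rw [rbar_eq_one_iff, map_mul, map_mul, inv_inv] at h3
  have h4 : ρbar.ρ σ = ρbar.ρ g * (ρbar.ρ g⁻¹ * ρbar.ρ σ * ρbar.ρ g) * ρbar.ρ g⁻¹ := by
    rw [← map_mul, ← map_mul, ← map_mul, ← map_mul]
    congr 1
    group
  rw [h4, h3, mul_one, ← map_mul, mul_inv_cancel, map_one]

end Ram

/-! ### The plug -/

section Plug

variable {𝒪 : Type} [CommRing 𝒪] [IsDomain 𝒪] [IsDiscreteValuationRing 𝒪]
  [IsAdicComplete (maximalIdeal 𝒪) 𝒪]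

/-- The structure map of `dualAlg 𝒪` in the form used by `TangentMap10`. -/
theorem dualAlg_algebraMap (c : 𝒪) :
    letI := dualAlg 𝒪
    algebraMap 𝒪 (DualNumber (ResidueField 𝒪)) c = TrivSqZeroExt.inl (residue 𝒪 c) := rfl

/-- **The plug, ordinary half**: `TanSel` for the ordinary type and the local conditions `lkOrd`. -/
theorem tanSel_ord (p : ℕ) [Fact p.Prime] [Algebra (ZMod p) (ResidueField 𝒪)] (hp2 : p ≠ 2)
    (ρbar : ResidualGaloisRep (ResidueField 𝒪)) (Sl : SliceData 𝒪 ρbar) (Smin : Finset ℕ)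
    (hmin : ∀ q : ℕ, q.Prime → q ≠ p → (q ∈ Smin ↔ ¬ ρbar.IsUnramifiedAt q))
    (v : Fin 2 → ResidueField 𝒪) (hv : IsStrictOrdLine p Sl.rbar v) :
    TanSel p ρbar (ordCond 𝒪 p Smin) Smin (ad0 Sl.rbar) (lkOrd p Sl.rbar v) := by
  intro T _hT DQ
  letI := dualAlg 𝒪
  have hpk : (p : ResidueField 𝒪) = 0 := OrdCount11.natCast_eq_zero_of_isStrictOrdLine hv
  obtain ⟨τ, hinj, hτ⟩ := TangentMap10.exists_tangent_injection (𝒟 := ordCond 𝒪 p Smin T)
    (fun c => dualAlg_algebraMap c)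
    (QuotStableCor23.quotStable_ordCond p Smin T)
    (fun ρ ρ' he h => by
      obtain ⟨e⟩ := he
      exact CondEquiv23.ordCond_of_equiv e h)
    DQ Sl p (toPrimes T) DQ.isOfType.1.1
    (fun q hq => DQ.isOfType.1.2.2 (q : ℕ) q.2 (fun h => hq (mem_toPrimes.2 h)))
  refine ⟨τ, hinj, fun f => ?_⟩
  rw [mem_selK_iff]
  refine ⟨(hτ f).1, fun q hq => ?_⟩
  rcases (hτ f).2 with h0 | ⟨r, hr, -, hfst, h𝒟, c, hc, hτc⟩
  · rw [h0, map_zero]
    exact Submodule.zero_mem _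
  · rw [hτc]
    by_cases hqp : q = pPrime p
    · subst hqp
      rw [lkOrd_pPrime]
      exact OrdExport11.member_ord p hp2 Sl.rbar v hv r hr hfst h𝒟.1.1 h𝒟.1.2.1 c hc
    · rw [lkOrd_of_ne p Sl.rbar v hqp]
      have hqp' : (q : ℕ) ≠ p := fun h => hqp (Subtype.ext h)
      have hqS : (q : ℕ) ∈ Smin := mem_toPrimes.1 hq
      exact UrMem1.urMember (Fact.out : p.Prime) hpk hp2 q hqp' Sl.rbar
        (exists_inertia_rbar_ne_one Sl q ((hmin (q : ℕ) q.2 hqp').1 hqS))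
        r hr hfst (h𝒟.2 (q : ℕ) hqS q.2 hqp') c hc

/-- **The ordinary half of `TWSelmer` from the chapter inputs**: `TopAsm27.twSelmer_of_inputs` applied to
`A = ad0 Sl.rbar`, `Lk = lkOrd p Sl.rbar v` (`v` the ordinary line of `ρ̄`), with the TAN input and the local inputs at
the primes of `Smin` discharged.  What remains: GW (`P`, `hgw`, `hmono`), TW (`Φ`, `hΦ`, `htw`), the global LOC facts
(`hur`, `hh0`, `hh0c`) and the count at the Taylor–Wiles primes (`hQ`). -/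
theorem twSelmer_ord (p : ℕ) [Fact p.Prime] [Algebra (ZMod p) (ResidueField 𝒪)]
    [Module.Finite (ZMod p) (ResidueField 𝒪)] [Finite (ResidueField 𝒪)] (hp2 : p ≠ 2)
    (ρbar : ResidualGaloisRep (ResidueField 𝒪)) (Sl : SliceData 𝒪 ρbar) (S Smin : Finset ℕ)
    (hpSmin : p ∈ Smin) (hSmin : Smin ⊆ S)
    (hmin : ∀ q : ℕ, q.Prime → q ≠ p → (q ∈ Smin ↔ ¬ ρbar.IsUnramifiedAt q))
    (hord : (GaloisRepAdic.ofResidualGaloisRep ρbar).IsStrictOrdinaryAt p)
    (P : GWIface21.LocPairing p (ResScal27.resScal p (ad0 Sl.rbar)))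
    (hgw : GWIface21.GWLe (ResScal27.resScal p (ad0 Sl.rbar)) P)
    (hmono : GWIface21.DualSelMono (ResScal27.resScal p (ad0 Sl.rbar)) P)
    (Φ : ℕ → GWIface21.GQ) (hΦ : ∀ q : Nat.Primes, Φ (q : ℕ) ∈ (primeLocalToGlobal q).range)
    (htw : TWSetExists p ρbar S (GWIface21.dualT p (ResScal27.resScal p (ad0 Sl.rbar))) Φ)
    (hur : GWIface21.IsUnramOutside p (toPrimes Smin) (ResScal27.resScal p (ad0 Sl.rbar)))
    (hh0 : GWIface21.h0 p (ResScal27.resScal p (ad0 Sl.rbar)) = 0)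
    (hh0c : GWIface21.h0c p (ResScal27.resScal p (ad0 Sl.rbar)) =
      Module.finrank (ZMod p) (ResidueField 𝒪))
    (hQ : ∀ q : Nat.Primes, (q : ℕ) ∉ S → p ∣ (q : ℕ) - 1 → T56Iface27.FrobSplit ρbar (q : ℕ) →
      Finite ↥(contLocK q (ad0 Sl.rbar)) ∧ Nat.card ↥(contLocK q (ad0 Sl.rbar)) ≤
        Nat.card ↥((Rep.res (primeLocalToGlobal q) (ad0 Sl.rbar)).ρ.invariants) *
          Nat.card (ResidueField 𝒪)) :
    T56Iface27.TWSelmer p ρbar S Smin (ordCond 𝒪 p Smin) := by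
  obtain ⟨v, hv⟩ := OrdLine11.ordLine (𝒪 := 𝒪) p ρbar Sl hord
  have hcont := OrdLine11.factorsThroughFiniteLevel_rbar Sl
  haveI : Finite (ad0 Sl.rbar) := finite_ad0 Sl.rbar
  exact twSelmer_of_inputs p ρbar S Smin hpSmin hSmin (ordCond 𝒪 p Smin) (ad0 Sl.rbar)
    (lkOrd p Sl.rbar v) (tanSel_ord p hp2 ρbar Sl Smin hmin v hv) P hgw hmono Φ hΦ htw hur
    (fun q _ => hfinS_lkOrd p hp2 Sl.rbar hcont v hv q) hh0 hh0c
    (fun q _ hq => (hmin_lkOrd p Sl.rbar v hq).2)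
    (hpcount_lkOrd p hp2 Sl.rbar hcont v hv).2 hQ

end Plug

end Fermat.Agent.ES.T56.TanPlugOrd11
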