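/-
Programme T (S56), chapter TOP (helper27): THE ORDINARY HALF of S56 from S56's literal hypotheses and the
two GW claims that are still being proved: C3 (`HardP2`) and C4 (`GlobChi`).

Everything else is discharged here from the trunk:
* vacuity split (`TopPrep27.twHalf_of_nonempty`) + `HrhoBar23.isStrictOrdinaryAt_rhoBar` (ρ̄ is ordinary
  as soon as one deformation ring of ordinary type exists);
* `S53.exists_sliceData` (matrix model of `ρ̄`);
* `TanPlugOrd11.twSelmer_ord` (TAN + LOC-Smin + ORD-p plugged into `TopAsm27.twSelmer_of_inputs`);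
* `TWTop3.twSetExists`, `TWTop3.frobChoice_mem_range` (TW + GT + Frobenius choice);
* `LocQExport16.hQ_of_hmin` (the count at the Taylor–Wiles primes);
* `LocGlob5` (`IsUnramOutside`, `h⁰(G_ℚ, M) = 0`, `h⁰(⟨c⟩, M) = [k : 𝔽_p]`);
* `GWFinal21.gw_exports` (local pairings, `DualSelMono`, and `GWLe` from C2 + C3 + C4);
* `PowSurjFinal23.powSurj` (commutative algebra).
-/
import Mathlib
import Fermat.Agent.S53.ResidualData
import Fermat.Agent.ES.T56.T56Iface27
import Fermat.Agent.ES.T56.TopPrep27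
import Fermat.Agent.ES.T56.TopAsm27
import Fermat.Agent.ES.T56.PowSurjFinal23
import Fermat.Agent.ES.T56.HrhoBar23
import Fermat.Agent.ES.T56.TanPlugOrd11
import Fermat.Agent.ES.T56.TWTop3
import Fermat.Agent.ES.T56.LocQExport16
import Fermat.Agent.ES.T56.LocGlob5
import Fermat.Agent.ES.T56.GWFinal21

set_option autoImplicit false
set_option linter.style.haveILetI false
set_option linter.unusedSectionVars false

open Polynomial IsLocalRing ExtCitation

namespace Fermat.Agent.ES.T56.TopOrd27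

open Fermat.Agent.S53 Fermat.Agent.ES.T56.T56Iface27 Fermat.Agent.ES.T56.TopPrep27
open Fermat.Agent.ES.T56.TopObjs27 Fermat.Agent.ES.T56.TopAsm27 Fermat.Agent.ES.T56.Ad0Rep10

variable {𝒪 : Type} [CommRing 𝒪] [IsDomain 𝒪] [IsDiscreteValuationRing 𝒪]
  [IsAdicComplete (maximalIdeal 𝒪) 𝒪] [Finite (ResidueField 𝒪)]

/-- `p = 0` in the residue field. -/
theorem natCast_residueField_eq_zero (p : ℕ) (hp𝒪 : (p : 𝒪) ∈ maximalIdeal 𝒪) :
    (p : ResidueField 𝒪) = 0 := by
  have h : residue 𝒪 (p : 𝒪) = 0 := (residue_eq_zero_iff _).2 hp𝒪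
  rwa [map_natCast] at h

/-- The residue field has characteristic `p`. -/
theorem charP_residueField (p : ℕ) [Fact p.Prime] (hp𝒪 : (p : 𝒪) ∈ maximalIdeal 𝒪) :
    CharP (ResidueField 𝒪) p :=
  (CharP.charP_iff_prime_eq_zero (Fact.out : p.Prime)).2 (natCast_residueField_eq_zero p hp𝒪)

/-- `M = resScal p (ad0 rbar)` is smooth: `rbar` factors through a finite level. -/
theorem isSmooth_resScal_ad0 (p : ℕ) [Fact p.Prime] {k : Type} [Field k] [Algebra (ZMod p) k]
    (rbar : S53.GQ →* M2 k) (h : GaloisFactorsThroughFiniteLevel rbar) :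
    GWIface21.IsSmooth p (ResScal27.resScal p (ad0 rbar)) := by
  obtain ⟨L, hL, hfix⟩ := h
  intro m
  show ∃ F : IntermediateField ℚ (AlgebraicClosure ℚ), FiniteDimensional ℚ F ∧
    ∀ s ∈ F.fixingSubgroup, (ResScal27.resScal p (ad0 rbar)).ρ s m = m
  refine ⟨L, hL, fun s hs => ?_⟩
  have h1 : rbar s = 1 := hfix s ((IntermediateField.mem_fixingSubgroup_iff L s).1 hs)
  have h2 := LocGlob5.ad0_ρ_eq_one_of_rbar_eq_one rbar s h1
  have h3 : ResScal27.ofRS (ad0 rbar) ((ResScal27.resScal p (ad0 rbar)).ρ s m) =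
      (ad0 rbar).ρ s (ResScal27.ofRS (ad0 rbar) m) := ResScal27.resScal_ρ_apply (ad0 rbar) s m
  rw [h2] at h3
  exact h3

/-- The two GW claims still being proved, in the generality in which the GW chapter states them. -/
structure GwClaims (p : ℕ) [Fact p.Prime] : Prop where
  /-- C3, the hard direction at `P²`. -/
  c3 : ∀ (M : Rep.{0} (ZMod p) GWIface21.GQ) [FiniteDimensional (ZMod p) M], GWIface21.IsSmooth p M →
    ∀ Sg : Finset Nat.Primes, pPrime p ∈ Sg → GWIface21.IsUnramOutside p Sg M →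
      GWIface21.HardP2 Sg (GWIface21.dualT p M)
  /-- C4, Tate's global Euler characteristic formula. -/
  c4 : ∀ Sg : Finset Nat.Primes, pPrime p ∈ Sg → GWIface21.GlobChi p Sg

/-- **The ordinary half of S56**, from S56's literal hypotheses and the two GW claims C3, C4. -/
theorem twHalf_ord (p : ℕ) [Fact p.Prime] (hp2 : p ≠ 2) (hp𝒪 : (p : 𝒪) ∈ maximalIdeal 𝒪)
    [Algebra (ZMod p) (ResidueField 𝒪)]
    (ρbar : ResidualGaloisRep (ResidueField 𝒪))
    (habs : ρbar.IsAbsolutelyIrreducible)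
    (hdet : (GaloisRepAdic.ofResidualGaloisRep ρbar).DetIsCyclotomic p)
    (hsplit : ∀ σ : AlgebraicClosure ℚ ≃ₐ[ℚ] AlgebraicClosure ℚ,
      ∃ α β : ResidueField 𝒪, LinearMap.charpoly (ρbar.ρ σ) = (X - C α) * (X - C β))
    (hTW : ∀ (K : Type) [Field K] [Algebra (ResidueField 𝒪) K]
      (G : Subgroup (AlgebraicClosure ℚ ≃ₐ[ℚ] AlgebraicClosure ℚ)), G.index = 2 →
      ∀ V : Submodule K (ρbar.baseChange K).V,
        (∀ σ ∈ G, ∀ x ∈ V, (ρbar.baseChange K).ρ σ x ∈ V) → V = ⊥ ∨ V = ⊤)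
    (S Smin : Finset ℕ) (hpSmin : p ∈ Smin) (hSmin : Smin ⊆ S)
    (hmin : ∀ q : ℕ, q.Prime → q ≠ p → (q ∈ Smin ↔ ¬ ρbar.IsUnramifiedAt q))
    (hgwc : GwClaims p) :
    TWHalf p ρbar S Smin (ordCond 𝒪 p Smin) := by
  refine twHalf_of_nonempty p ρbar S Smin (ordCond 𝒪 p Smin) ?_
  rintro ⟨T, ⟨DQ⟩⟩
  have hord : (GaloisRepAdic.ofResidualGaloisRep ρbar).IsStrictOrdinaryAt p :=
    HrhoBar23.isStrictOrdinaryAt_rhoBar DQ
  obtain ⟨Sl⟩ := exists_sliceData (𝒪 := 𝒪) ρbar habs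
  haveI : CharP (ResidueField 𝒪) p := charP_residueField p hp𝒪
  haveI : Module.Finite (ZMod p) (ResidueField 𝒪) := Module.Finite.of_finite
  haveI hfa : Finite (ad0 Sl.rbar) := TanPlugOrd11.finite_ad0 Sl.rbar
  haveI : Finite (ResScal27.resScal p (ad0 Sl.rbar)) := hfa
  haveI : FiniteDimensional (ZMod p) (ResScal27.resScal p (ad0 Sl.rbar)) := Module.Finite.of_finite
  have hsm : GWIface21.IsSmooth p (ResScal27.resScal p (ad0 Sl.rbar)) :=
    isSmooth_resScal_ad0 p Sl.rbar Sl.factors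
  obtain ⟨P, hgw, hmono⟩ := GWFinal21.gw_exports (ResScal27.resScal p (ad0 Sl.rbar)) hsm hp2
    (fun Sg hpS hur => hgwc.c3 _ hsm Sg hpS hur) hgwc.c4
  have hur := LocGlob5.isUnramOutside_resScal_ad0 p ρbar Sl.rbar_eq hpSmin hmin
  have hh0 := LocGlob5.h0_resScal_ad0 p ρbar Sl.rbar_eq
    (TWDetChi3.two_ne_zero_of_hdet ρbar p hdet hp2) habs hTW
  have hh0c := LocGlob5.h0c_resScal_ad0 p ρbar Sl.rbar_eq hp2 hdet
  refine twHalf_of_twSelmer PowSurjFinal23.powSurj p ρbar S Smin (ordCond 𝒪 p Smin) ?_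
  exact TanPlugOrd11.twSelmer_ord p hp2 ρbar Sl S Smin hpSmin hSmin hmin hord P hgw hmono
    TWTop3.frobChoice TWTop3.frobChoice_mem_range
    (TWTop3.twSetExists p ρbar Sl.rbar Sl.basis Sl.rbar_eq hp2 habs hdet hsplit hTW S
      (hSmin hpSmin))
    hur hh0 hh0c
    (LocQExport16.hQ_of_hmin (Fact.out : p.Prime) Sl.rbar_eq hpSmin hSmin hmin)

end Fermat.Agent.ES.T56.TopOrd27
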