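/-
Programme T (S56), chapter GW, helper21: **the GW chapter's final export in TOP's shape**,
`TopOrd27.GwClaims p` (C3 `HardP2` + C4 `GlobChi`), from the six leaves of `GWChain21`.

`gwClaims_of_leaves` is the conditional form (compiled now, to freeze the literals);
`gwClaims_of_three` has the three leaves that are already proved plugged in
(leaf 1 `hFin` = helper6's `FinAll6.finAll_forall` with helper2's `LocTwoZeroLeaves2.locH2Fin`;
leaf 3 `hLD` = `LocTwoZeroLeaves2.hLD`; leaf 4 `hRE` = `LocTwoZeroLeaves2.hRE`), so that only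
`hP2` (the `P²` count), `hGE` (`BaseCaseGE`) and `hLeT` (the trivial-type local count) remain;
`gwClaims_of_two` (v3) plugs in leaf 2 `hP2` = helper25's `P2Eq25.p2Eq_forall` and reduces leaf 6
`hLeT` to helper11's `CoindTrivLe` (P3) through `BaseLocChiLeTriv11.baseLocChiLeTriv` and helper2's
local duality; `gwClaims_of_P3` also plugs helper5's (P2) `LocTrivLe5.locTrivLe`, so that only
`hGE` (`BaseCaseGE`) and the implication (P3) `LocTrivLe p q → CoindTrivLe p q` remain.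
`gwClaims_of_GE` (v4) plugs in helper1's (P3) `CoindTrivLe1.coindTrivLe_of_locTrivLe`, so that ONLY
`hGE` (`BaseCaseGE`) remains.  **`gwClaims (p) [Fact p.Prime] (hp2 : p ≠ 2) : TopOrd27.GwClaims p`** (v5) is
`gwClaims_of_GE` applied to `BaseCaseAsm21.baseCaseGE` (K7, the assembly of the bricks K1–K6): the GW chapter's
final export, UNCONDITIONAL.
-/
import Mathlib
import Fermat.Agent.ES.T56.TopOrd27
import Fermat.Agent.ES.T56.GWChain21
import Fermat.Agent.ES.T56.FinAll6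
import Fermat.Agent.ES.T56.LocTwoZeroLeaves2
import Fermat.Agent.ES.T56.P2Eq25
import Fermat.Agent.ES.T56.BaseLocChiLeTriv11
import Fermat.Agent.ES.T56.LocTrivLe5
import Fermat.Agent.ES.T56.CoindTrivLe1
import Fermat.Agent.ES.T56.BaseCaseAsm21

set_option autoImplicit false

open ExtCitation

namespace Fermat.Agent.ES.T56.GwClaims21

open Fermat.Agent.ES.T56.GWIface21 Fermat.Agent.ES.T56.GWProps21
open Fermat.Agent.ES.T56.BaseTrivTrick21

/-- **`TopOrd27.GwClaims p` from the six leaves.** -/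
theorem gwClaims_of_leaves (p : ℕ) [Fact p.Prime] (hp2 : p ≠ 2)
    (hFin : ∀ Sg : Finset Nat.Primes, pPrime p ∈ Sg → ∀ Y : Rep.{0} (ZMod p) GQ,
      FiniteDimensional (ZMod p) Y → IsSmooth p Y → IsUnramOutside p Sg Y → FinAll Sg Y)
    (hP2 : ∀ Sg : Finset Nat.Primes, pPrime p ∈ Sg → ∀ Y : Rep.{0} (ZMod p) GQ,
      FiniteDimensional (ZMod p) Y → IsSmooth p Y → IsUnramOutside p Sg Y → P2Eq Sg Y)
    (hLD : ∀ (q : Nat.Primes) (Y : Rep.{0} (ZMod p) GQ), FiniteDimensional (ZMod p) Y →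
      IsSmooth p Y → LocDual20 q Y)
    (hRE : ∀ q : Nat.Primes, LocH2RightExact (p := p) q)
    (hGE : ∀ Sg : Finset Nat.Primes, pPrime p ∈ Sg → BaseCaseGE (p := p) Sg)
    (hLeT : ∀ Sg : Finset Nat.Primes, pPrime p ∈ Sg → BaseLocChiLeTriv (p := p) Sg) :
    TopOrd27.GwClaims p where
  c3 M _ hsm Sg hpS hur :=
    GWChain21.hardP2_of_leaves hpS (hFin Sg hpS) (hP2 Sg hpS) hLD M hsm hur
  c4 Sg hpS :=
    GWChain21.globChi_of_leaves hp2 hpS (hFin Sg hpS) (hP2 Sg hpS) hLD hRE (hGE Sg hpS)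
      (hLeT Sg hpS)

/-- Leaf 1 (finiteness), unconditional: helper6's `FinAll6` with helper2's local `H²` finiteness. -/
theorem hFin (p : ℕ) [Fact p.Prime] (hp2 : p ≠ 2) :
    ∀ Sg : Finset Nat.Primes, pPrime p ∈ Sg → ∀ Y : Rep.{0} (ZMod p) GQ,
      FiniteDimensional (ZMod p) Y → IsSmooth p Y → IsUnramOutside p Sg Y → FinAll Sg Y :=
  fun Sg hpS => FinAll6.finAll_forall hp2 Sg hpS LocTwoZeroLeaves2.locH2Fin

/-- **`TopOrd27.GwClaims p` from the three leaves still being proved.** -/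
theorem gwClaims_of_three (p : ℕ) [Fact p.Prime] (hp2 : p ≠ 2)
    (hP2 : ∀ Sg : Finset Nat.Primes, pPrime p ∈ Sg → ∀ Y : Rep.{0} (ZMod p) GQ,
      FiniteDimensional (ZMod p) Y → IsSmooth p Y → IsUnramOutside p Sg Y → P2Eq Sg Y)
    (hGE : ∀ Sg : Finset Nat.Primes, pPrime p ∈ Sg → BaseCaseGE (p := p) Sg)
    (hLeT : ∀ Sg : Finset Nat.Primes, pPrime p ∈ Sg → BaseLocChiLeTriv (p := p) Sg) :
    TopOrd27.GwClaims p :=
  gwClaims_of_leaves p hp2 (hFin p hp2) hP2 LocTwoZeroLeaves2.hLD LocTwoZeroLeaves2.hRE hGE hLeT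

/-- Leaf 6 from (P3): helper11's assembly with helper2's local duality `h⁰(Γ_q, X*) ≤ h²(Γ_q, X)`. -/
theorem hLeT_of_coindTrivLe (p : ℕ) [Fact p.Prime]
    (hC : ∀ q : Nat.Primes, LocChiIface11.CoindTrivLe p q) :
    ∀ Sg : Finset Nat.Primes, pPrime p ∈ Sg → BaseLocChiLeTriv (p := p) Sg :=
  fun Sg _ => BaseLocChiLeTriv11.baseLocChiLeTriv (fun q => hC q.1)
    (fun D q => haveI := CoindMackey22.finiteDimensional_rep D
      LocTwoZeroLeaves2.hlocGe Sg D.rep (isSmooth_rep D) q)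

/-- **`TopOrd27.GwClaims p` from `BaseCaseGE` and (P3) `CoindTrivLe`.** -/
theorem gwClaims_of_two (p : ℕ) [Fact p.Prime] (hp2 : p ≠ 2)
    (hGE : ∀ Sg : Finset Nat.Primes, pPrime p ∈ Sg → BaseCaseGE (p := p) Sg)
    (hC : ∀ q : Nat.Primes, LocChiIface11.CoindTrivLe p q) : TopOrd27.GwClaims p :=
  gwClaims_of_three p hp2 (P2Eq25.p2Eq_forall hp2) hGE (hLeT_of_coindTrivLe p hC)

/-- **`TopOrd27.GwClaims p` from `BaseCaseGE` and the implication (P3)**
(`LocTrivLe` itself is helper5's `LocTrivLe5.locTrivLe`). -/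
theorem gwClaims_of_P3 (p : ℕ) [Fact p.Prime] (hp2 : p ≠ 2)
    (hGE : ∀ Sg : Finset Nat.Primes, pPrime p ∈ Sg → BaseCaseGE (p := p) Sg)
    (hP3 : ∀ q : Nat.Primes, LocChiIface11.LocTrivLe p q → LocChiIface11.CoindTrivLe p q) :
    TopOrd27.GwClaims p :=
  gwClaims_of_two p hp2 hGE (fun q => hP3 q (LocTrivLe5.locTrivLe p hp2 q))

/-- **`TopOrd27.GwClaims p` from `BaseCaseGE` alone** (leaf 6 completely discharged:
(P1)+(P2) helper5, (P3) helper1, assembly helper11). -/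
theorem gwClaims_of_GE (p : ℕ) [Fact p.Prime] (hp2 : p ≠ 2)
    (hGE : ∀ Sg : Finset Nat.Primes, pPrime p ∈ Sg → BaseCaseGE (p := p) Sg) :
    TopOrd27.GwClaims p :=
  gwClaims_of_P3 p hp2 hGE (fun q => CoindTrivLe1.coindTrivLe_of_locTrivLe q)

/-- **The GW chapter's final export, unconditional**: `TopOrd27.GwClaims p` for every odd prime `p`. -/
theorem gwClaims (p : ℕ) [Fact p.Prime] (hp2 : p ≠ 2) : TopOrd27.GwClaims p :=
  gwClaims_of_GE p hp2 (fun Sg hpS => BaseCaseAsm21.baseCaseGE hp2 Sg hpS)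

end Fermat.Agent.ES.T56.GwClaims21
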