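/-
Programme T (S56), chapter FLAT, common brick (c1) `TameStructure`, inertia (helper8).

**`Gal(E/K)` acts as inertia when `f(E/K) = 1`** (PT/LOC model), for helper26's FLAT-P patch:

* `snorm_algEquiv_sub_lt_one` / `smul_sub_mem_maximalIdeal` : if `f(E/K) = 1` then
  `σ y - y ∈ 𝔪_E` for every `σ ∈ Gal(E/K)`, `y ∈ 𝒪_E`;
* `natCast_dvd_of_fixed` : if `E/K` is Galois and `p` is a uniformizer of `K`, an element of `𝔪_E`
  fixed by `Gal(E/K)` is divisible by `p` in `𝒪_E`;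
* `..._adjoin` : both for `K = K₀ = ℚ_p(ζ)`, `ζ` a primitive `(Q - 1)`-th root of unity
  (`MaxUnram8`).
-/
import Mathlib
import Fermat.Agent.ES.T56.MaxUnram8

set_option autoImplicit false
set_option linter.unusedSectionVars false

open IsDiscreteValuationRing Polynomial

open scoped Fermat.Agent.PT.LOC.Interface12 Fermat.Agent.PT.LOC.StructureTower27 IntermediateField
open Fermat.Agent.PT.LOC.Interface12 Fermat.Agent.PT.LOC.Structure14
  Fermat.Agent.PT.LOC.StructureNorm14 Fermat.Agent.PT.LOC.StructureTower27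
  Fermat.Agent.PT.LOC.StructureTowerEF27 Fermat.Agent.PT.LOC.Unram11
  Fermat.Agent.PT.LOC.RootsUnity14

namespace Fermat.Agent.ES.T56.InertiaK8

noncomputable section

variable (p : ℕ) [Fact p.Prime]

section General

variable (K E : Type) [Field K] [Field E] [Algebra ℚ_[p] K] [Algebra ℚ_[p] E] [Algebra K E]
  [IsScalarTower ℚ_[p] K E] [FiniteDimensional ℚ_[p] K] [FiniteDimensional ℚ_[p] E]

/-- **(a)** If `f(E/K) = 1`, every `σ ∈ Gal(E/K)` is trivial modulo `𝔪_E`. -/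
theorem snorm_algEquiv_sub_lt_one (hf : resDeg p K E = 1) (σ : E ≃ₐ[K] E) {y : E}
    (hy : y ∈ intRing p E) : snorm p E (σ y - y) < 1 := by
  obtain ⟨a, ha⟩ := EisModel8.exists_sub_mem_maximalIdeal p K E hf ⟨y, hy⟩
  rw [mem_maximalIdeal_iff_snorm] at ha
  have hcoe : (((⟨y, hy⟩ : intRing p E) - algebraMap (intRing p K) (intRing p E) a :
      intRing p E) : E) = y - algebraMap K E (a : K) := rfl
  rw [hcoe] at ha
  have h1 : σ y - y = σ (y - algebraMap K E (a : K)) - (y - algebraMap K E (a : K)) := by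
    rw [map_sub, σ.commutes]
    ring
  rw [h1]
  refine lt_of_le_of_lt (snorm_sub_le_max p E _ _) (max_lt ?_ ha)
  rw [snorm_galois]
  exact ha

/-- **(a)**, in terms of the action of `Gal(E/K)` on `𝒪_E`. -/
theorem smul_sub_mem_maximalIdeal (hf : resDeg p K E = 1) (σ : E ≃ₐ[K] E) (y : intRing p E) :
    σ • y - y ∈ IsLocalRing.maximalIdeal (intRing p E) := by
  rw [mem_maximalIdeal_iff_snorm]
  exact snorm_algEquiv_sub_lt_one p K E hf σ y.2

/-- **(b)** If `E/K` is Galois and `p` is a uniformizer of `K`, an element of `𝔪_E` fixed by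
`Gal(E/K)` is divisible by `p` in `𝒪_E`. -/
theorem natCast_dvd_of_fixed [IsGalois K E] (hpK : Irreducible ((p : ℕ) : intRing p K))
    {y : intRing p E} (hy : y ∈ IsLocalRing.maximalIdeal (intRing p E))
    (hfix : ∀ σ : E ≃ₐ[K] E, σ (y : E) = (y : E)) : ((p : ℕ) : intRing p E) ∣ y := by
  have := finiteDimensional_tower p K E
  obtain ⟨a, ha⟩ := (IsGalois.mem_range_algebraMap_iff_fixed (F := K) (E := E) (y : E)).mpr hfix
  have ha' : a ∈ intRing p K := by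
    rw [← algebraMap_mem_intRing_iff p K E, ha]
    exact y.2
  have hya : y = algebraMap (intRing p K) (intRing p E) ⟨a, ha'⟩ := Subtype.ext ha.symm
  have ham : (⟨a, ha'⟩ : intRing p K) ∈ IsLocalRing.maximalIdeal (intRing p K) := by
    rw [mem_maximalIdeal_iff_snorm] at hy ⊢
    rw [← snorm_algebraMap_tower p K E, ha]
    exact hy
  rw [(irreducible_iff_uniformizer _).mp hpK, Ideal.mem_span_singleton] at ham
  obtain ⟨c, hc⟩ := ham
  refine ⟨algebraMap (intRing p K) (intRing p E) c, ?_⟩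
  rw [hya, hc, map_mul, map_natCast]

end General

section Adjoin

variable (E : Type) [Field E] [Algebra ℚ_[p] E] [FiniteDimensional ℚ_[p] E]

/-- **(a)** for `K₀ = ℚ_p(ζ)`: `Gal(E/K₀)` is trivial modulo `𝔪_E`. -/
theorem smul_sub_mem_maximalIdeal_adjoin {ζ : E} (hζ : IsPrimitiveRoot ζ (resCard p E - 1))
    (σ : E ≃ₐ[ℚ_[p]⟮ζ⟯] E) (y : intRing p E) :
    σ • y - y ∈ IsLocalRing.maximalIdeal (intRing p E) :=
  smul_sub_mem_maximalIdeal p ℚ_[p]⟮ζ⟯ E (MaxUnram8.resDeg_adjoin_eq_one p E hζ) σ y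

theorem snorm_algEquiv_sub_lt_one_adjoin {ζ : E} (hζ : IsPrimitiveRoot ζ (resCard p E - 1))
    (σ : E ≃ₐ[ℚ_[p]⟮ζ⟯] E) {y : E} (hy : y ∈ intRing p E) : snorm p E (σ y - y) < 1 :=
  snorm_algEquiv_sub_lt_one p ℚ_[p]⟮ζ⟯ E (MaxUnram8.resDeg_adjoin_eq_one p E hζ) σ hy

/-- **(b)** for `K₀ = ℚ_p(ζ)`: an element of `𝔪_E` fixed by `Gal(E/K₀)` is divisible by `p`. -/
theorem natCast_dvd_of_fixed_adjoin {ζ : E} (hζ : IsPrimitiveRoot ζ (resCard p E - 1))
    [IsGalois ℚ_[p]⟮ζ⟯ E] {y : intRing p E}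
    (hy : y ∈ IsLocalRing.maximalIdeal (intRing p E))
    (hfix : ∀ σ : E ≃ₐ[ℚ_[p]⟮ζ⟯] E, σ (y : E) = (y : E)) : ((p : ℕ) : intRing p E) ∣ y :=
  natCast_dvd_of_fixed p ℚ_[p]⟮ζ⟯ E
    (MaxUnram8.irreducible_p_adjoin p E (MaxUnram8.not_dvd_resCard_sub_one p E) hζ) hy hfix

/-- `E/K₀` is Galois as soon as `E/ℚ_p` is. -/
theorem isGalois_adjoin_top [IsGalois ℚ_[p] E] (ζ : E) : IsGalois ℚ_[p]⟮ζ⟯ E :=
  IsGalois.tower_top_of_isGalois ℚ_[p] ℚ_[p]⟮ζ⟯ E

end Adjoin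

end

end Fermat.Agent.ES.T56.InertiaK8
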