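/-
Programme T (S56), chapter GW-D, brick (K2) of `T56_BASE28.md` (helper23): **the final glue of (K2)**,
abstract form.

DATA.  A tower `k ⊆ F ⊆ M` of number fields as in `ElemArtinDiv23`/`ElemArtinTwist23` (but WITHOUT
assuming that `Gal(M/F)` is commutative or of exponent `p`: both are DERIVED).  A group `Γ` (`= G_K`)
with a normal subgroup `N` (`= G_L`), `A : Rep (ZMod p) Γ`, a subspace `W ≤ EqHom N A`
(`TransferExtRep3.EqHom`: additive `Γ`-equivariant maps `N → A`), and the BRIDGE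
* `πF : Γ →* Gal(F/k)` with kernel `N`,
* `res : Γ →* Gal(M/k)` onto, compatible with `πF`, whose kernel on `N` is the common kernel of `W`,
* `hunr`, `hT` (unramified everywhere / split above `T`) for `M/F`.
A twisted duality `e : A → Y₀^∨` (injective, `e (s a) (πF s • y) = ω₀(πF s) · e a y`).

RESULT.  `toEqHom : W →ₗ eqHom ρ₀ ω₀` (`χ ↦ (res n ↦ e (χ n))`), injective;
**`finrank_le_twNum`** : `dim W ≤ twNum τC ω₀ ρ₀` for every model `(C, τC, q)` of `Cl_T(F)`, and
**`finrank_le_twNum_coker`** for `ElemArtinCoker23.cokerRep T k F`.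
-/
import Mathlib
import Fermat.Agent.ES.T56.TransferExtRep3
import Fermat.Agent.ES.T56.ElemArtinCoker23

set_option autoImplicit false
set_option linter.unusedSectionVars false
set_option linter.style.haveILetI false

open NumberField Module
open scoped Pointwise nonZeroDivisors

namespace Fermat.Agent.ES.T56.K2Glue23

open Fermat.Agent.ES.T56.ElemArtinEquiv23 Fermat.Agent.ES.T56.ElemArtinDiv23
  Fermat.Agent.ES.T56.ElemArtinTwist23 Fermat.Agent.ES.T56.ElemArtinCoker23
  Fermat.Agent.ES.T56.TwistNum28 Fermat.Agent.ES.T56.TransferExtRep3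
  Fermat.Agent.PT.GLOB.Interface23

section Lift

variable {k F M : Type} [Field k] [Field F] [Field M] [Algebra k F] [Algebra F M] [Algebra k M]
  [IsScalarTower k F M] [Normal k F]

/-- `σ ∈ Gal(M/k)` restricts to the identity of `F` iff it fixes the image of `F`. -/
theorem restrictNormal_eq_one_iff (σ : M ≃ₐ[k] M) :
    σ.restrictNormal F = 1 ↔ ∀ x : F, σ (algebraMap F M x) = algebraMap F M x := by
  constructor
  · intro h x
    have := AlgEquiv.restrictNormal_commutes σ F x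
    rw [h] at this
    exact this.symm
  · intro h
    ext x
    apply (algebraMap F M).injective
    rw [AlgEquiv.restrictNormal_commutes, h]
    rfl

/-- An element of `Gal(M/k)` fixing `F`, as an element of `Gal(M/F)`. -/
noncomputable def liftF (σ : M ≃ₐ[k] M) (h : ∀ x : F, σ (algebraMap F M x) = algebraMap F M x) :
    M ≃ₐ[F] M :=
  AlgEquiv.ofRingEquiv (f := σ.toRingEquiv) h

theorem liftF_restrictScalars (σ : M ≃ₐ[k] M)
    (h : ∀ x : F, σ (algebraMap F M x) = algebraMap F M x) :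
    (liftF σ h).restrictScalars k = σ := by
  ext x
  rfl

theorem restrictNormal_restrictScalars (g : M ≃ₐ[F] M) :
    (g.restrictScalars k).restrictNormal F = 1 :=
  (restrictNormal_eq_one_iff _).mpr fun x => g.commutes x

theorem restrictScalars_mul (g h : M ≃ₐ[F] M) :
    (g * h).restrictScalars k = g.restrictScalars k * h.restrictScalars k := rfl

theorem restrictScalars_one : (1 : M ≃ₐ[F] M).restrictScalars k = 1 := rfl

/-- `restrictScalars` as a group homomorphism `Gal(M/F) → Gal(M/k)`. -/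
def rsHom : (M ≃ₐ[F] M) →* (M ≃ₐ[k] M) where
  toFun g := g.restrictScalars k
  map_one' := rfl
  map_mul' _ _ := rfl

theorem restrictScalars_pow (g : M ≃ₐ[F] M) (j : ℕ) :
    (g ^ j).restrictScalars k = g.restrictScalars k ^ j :=
  map_pow (rsHom (k := k) (F := F) (M := M)) g j

theorem restrictScalars_eq_one_iff (g : M ≃ₐ[F] M) : g.restrictScalars k = 1 ↔ g = 1 := by
  constructor
  · intro h
    apply AlgEquiv.restrictScalars_injective k
    rw [h]
    rfl
  · rintro rfl
    rfl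

end Lift

section Glue

variable {k F M : Type} [Field k] [Field F] [Field M] [NumberField k] [NumberField F]
  [NumberField M] [Algebra k F] [Algebra F M] [Algebra k M] [IsScalarTower k F M]
  [IsGalois k F] [IsGalois F M] [IsGalois k M]
  {p : ℕ} [hpF : Fact p.Prime]
  {Γ : Type} [Group Γ] (N : Subgroup Γ) [hN : N.Normal] (A : Rep.{0} (ZMod p) Γ)
  (W : Submodule (ZMod p) ↥(EqHom N A))
  (πF : Γ →* (F ≃ₐ[k] F)) (hπN : ∀ s : Γ, πF s = 1 ↔ s ∈ N)
  (res : Γ →* (M ≃ₐ[k] M)) (hres : Function.Surjective res)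
  (hresπ : ∀ s : Γ, (res s).restrictNormal F = πF s)
  (hker : ∀ n : ↥N, res (n : Γ) = 1 ↔ ∀ χ ∈ W, (χ : ↥N → A) n = 0)

include hπN hres hresπ in
/-- Every element of `Gal(M/F)` is the restriction of an element of `N`. -/
theorem exists_mem_res (g : M ≃ₐ[F] M) : ∃ n : ↥N, res (n : Γ) = g.restrictScalars k := by
  obtain ⟨s, hs⟩ := hres (g.restrictScalars k)
  have h1 : πF s = 1 := by
    rw [← hresπ, hs]
    exact restrictNormal_restrictScalars g
  exact ⟨⟨s, (hπN s).mp h1⟩, hs⟩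

/-- A chosen preimage in `N`. -/
noncomputable def pre (g : M ≃ₐ[F] M) : ↥N :=
  Classical.choose (exists_mem_res N πF hπN res hres hresπ g)

theorem res_pre (g : M ≃ₐ[F] M) :
    res (pre N πF hπN res hres hresπ g : Γ) = g.restrictScalars k :=
  Classical.choose_spec (exists_mem_res N πF hπN res hres hresπ g)

include hker in
/-- Elements of `W` only depend on the image under `res`. -/
theorem apply_eq_of_res_eq {χ : ↥(EqHom N A)} (hχ : χ ∈ W) {n n' : ↥N}
    (h : res (n : Γ) = res (n' : Γ)) : (χ : ↥N → A) n = (χ : ↥N → A) n' := by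
  have h1 : res ((n⁻¹ * n' : ↥N) : Γ) = 1 := by
    rw [Subgroup.coe_mul, Subgroup.coe_inv, map_mul, map_inv, h, inv_mul_cancel]
  have h2 := (hker _).mp h1 χ hχ
  have h3 := χ.2.1 n (n⁻¹ * n')
  rw [mul_inv_cancel_left, h2, add_zero] at h3
  exact h3.symm

theorem eqHom_apply_one (χ : ↥(EqHom N A)) : (χ : ↥N → A) 1 = 0 := by
  have h := χ.2.1 1 1
  rw [mul_one] at h
  exact left_eq_add.mp h

theorem eqHom_apply_pow (χ : ↥(EqHom N A)) (n : ↥N) (j : ℕ) :
    (χ : ↥N → A) (n ^ j) = j • (χ : ↥N → A) n := by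
  induction j with
  | zero => rw [pow_zero, zero_smul]; exact eqHom_apply_one N A χ
  | succ j ih => rw [pow_succ, χ.2.1, ih, succ_nsmul]

theorem eqHom_apply_inv (χ : ↥(EqHom N A)) (n : ↥N) :
    (χ : ↥N → A) n⁻¹ = -(χ : ↥N → A) n := by
  have h := χ.2.1 n n⁻¹
  rw [mul_inv_cancel, eqHom_apply_one] at h
  exact (neg_eq_of_add_eq_zero_right h.symm).symm

include hπN hres hresπ hker in
/-- `Gal(M/F)` is commutative. -/
theorem isMulCommutative_gal : IsMulCommutative (M ≃ₐ[F] M) := by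
  refine ⟨⟨fun g h => ?_⟩⟩
  set a := pre N πF hπN res hres hresπ g with ha
  set b := pre N πF hπN res hres hresπ h with hb
  have h1 : res ((a * b * a⁻¹ * b⁻¹ : ↥N) : Γ) = 1 := by
    rw [hker]
    intro χ _
    rw [χ.2.1, χ.2.1, χ.2.1, eqHom_apply_inv, eqHom_apply_inv]
    abel
  have h2 : (g * h * g⁻¹ * h⁻¹).restrictScalars k = 1 := by
    rw [← h1]
    simp only [Subgroup.coe_mul, Subgroup.coe_inv, map_mul, map_inv, ha, hb, res_pre]
    rfl
  have h3 := (restrictScalars_eq_one_iff _).mp h2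
  rw [mul_inv_eq_one, mul_inv_eq_iff_eq_mul] at h3
  exact h3

include hπN hres hresπ hker in
/-- `Gal(M/F)` has exponent `p`. -/
theorem pow_eq_one_gal (g : M ≃ₐ[F] M) : g ^ p = 1 := by
  set a := pre N πF hπN res hres hresπ g with ha
  have h1 : res ((a ^ p : ↥N) : Γ) = 1 := by
    rw [hker]
    intro χ _
    rw [eqHom_apply_pow]
    have : (p : ZMod p) • (χ : ↥N → A) a = 0 := by
      rw [ZMod.natCast_self, zero_smul]
    rwa [Nat.cast_smul_eq_nsmul] at this
  have h2 : (g ^ p).restrictScalars k = 1 := by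
    rw [← h1, Subgroup.coe_pow, map_pow, ha, res_pre, restrictScalars_pow]
  exact (restrictScalars_eq_one_iff _).mp h2

variable {Y₀ : Type*} [AddCommGroup Y₀] [Module (ZMod p) Y₀]
  (ρ₀ : Representation (ZMod p) (F ≃ₐ[k] F) Y₀) (ω₀ : (F ≃ₐ[k] F) →* (ZMod p)ˣ)
  (e : A →ₗ[ZMod p] Module.Dual (ZMod p) Y₀) (he : Function.Injective e)
  (heq : ∀ (s : Γ) (a : A) (y : Y₀),
    e (A.ρ s a) (ρ₀ (πF s) y) = ((ω₀ (πF s) : (ZMod p)ˣ) : ZMod p) * e a y)

/-- The additive map `Gal(M/F) → Y₀^∨`, `res n ↦ e (χ n)`, attached to `χ ∈ W`. -/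
noncomputable def galHom (χ : ↥W) : Additive (M ≃ₐ[F] M) →+ Module.Dual (ZMod p) Y₀ where
  toFun g := e ((χ.1 : ↥N → A) (pre N πF hπN res hres hresπ (Additive.toMul g)))
  map_zero' := by
    have h : res ((pre N πF hπN res hres hresπ (1 : M ≃ₐ[F] M) : ↥N) : Γ) = res ((1 : ↥N) : Γ) := by
      rw [res_pre, Subgroup.coe_one, map_one]
      rfl
    show e ((χ.1 : ↥N → A) (pre N πF hπN res hres hresπ (1 : M ≃ₐ[F] M))) = 0
    rw [apply_eq_of_res_eq N A W res hker χ.2 h, eqHom_apply_one, map_zero]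
  map_add' g h := by
    have hh : res ((pre N πF hπN res hres hresπ (Additive.toMul g * Additive.toMul h) : ↥N) : Γ) =
        res ((pre N πF hπN res hres hresπ (Additive.toMul g) *
          pre N πF hπN res hres hresπ (Additive.toMul h) : ↥N) : Γ) := by
      rw [res_pre, Subgroup.coe_mul, map_mul, res_pre, res_pre]
      rfl
    show e ((χ.1 : ↥N → A) (pre N πF hπN res hres hresπ (Additive.toMul g * Additive.toMul h))) = _
    rw [apply_eq_of_res_eq N A W res hker χ.2 hh, χ.1.2.1, map_add]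

include hker in
theorem galHom_apply (χ : ↥W) (g : M ≃ₐ[F] M) (n : ↥N) (hn : res (n : Γ) = g.restrictScalars k) :
    galHom N A W πF hπN res hres hresπ hker e χ (Additive.ofMul g) = e ((χ.1 : ↥N → A) n) := by
  show e ((χ.1 : ↥N → A) (pre N πF hπN res hres hresπ g)) = _
  rw [apply_eq_of_res_eq N A W res hker χ.2 ((res_pre N πF hπN res hres hresπ g).trans hn.symm)]

include heq in
theorem galHom_mem (χ : ↥W) :
    galHom N A W πF hπN res hres hresπ hker e χ ∈ eqHom (M := M) ρ₀ ω₀ := by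
  intro δ g y
  obtain ⟨s, rfl⟩ := hres δ
  set n := pre N πF hπN res hres hresπ g with hn
  have hconj : res ((⟨s * n * s⁻¹, hN.conj_mem n n.2 s⟩ : ↥N) : Γ) =
      (conjK (res s) g).restrictScalars k := by
    rw [conjK_restrictScalars, ← res_pre N πF hπN res hres hresπ g, ← hn]
    simp only [map_mul, map_inv]
  rw [galHom_apply N A W πF hπN res hres hresπ hker e χ _ _ hconj,
    galHom_apply N A W πF hπN res hres hresπ hker e χ g n (res_pre N πF hπN res hres hresπ g),
    χ.1.2.2 s n, hresπ]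
  exact heq s _ y

/-- **The comparison map** `W → Hom_{Gal(F/k)}(Gal(M/F), Y₀^∨(1))`. -/
noncomputable def toEqHom : ↥W →ₗ[ZMod p] ↥(eqHom (M := M) ρ₀ ω₀) where
  toFun χ := ⟨galHom N A W πF hπN res hres hresπ hker e χ,
    galHom_mem N A W πF hπN res hres hresπ hker ρ₀ ω₀ e heq χ⟩
  map_add' χ χ' := by
    apply Subtype.ext
    apply AddMonoidHom.ext
    intro g
    show e (((χ + χ' : ↥W).1 : ↥N → A) _) = e ((χ.1 : ↥N → A) _) + e ((χ'.1 : ↥N → A) _)
    rw [← map_add]
    rfl
  map_smul' r χ := by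
    apply Subtype.ext
    apply AddMonoidHom.ext
    intro g
    show e (((r • χ : ↥W).1 : ↥N → A) _) = r • e ((χ.1 : ↥N → A) _)
    rw [← map_smul]
    rfl

include hπN he in
theorem toEqHom_injective :
    Function.Injective (toEqHom N A W πF hπN res hres hresπ hker ρ₀ ω₀ e heq) := by
  intro χ χ' h
  apply Subtype.ext
  apply Subtype.ext
  funext n
  have hfix : ∀ x : F, res (n : Γ) (algebraMap F M x) = algebraMap F M x := by
    rw [← restrictNormal_eq_one_iff, hresπ, hπN]
    exact n.2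
  have hn : res (n : Γ) = (liftF (res (n : Γ)) hfix).restrictScalars k :=
    (liftF_restrictScalars _ hfix).symm
  have h1 := galHom_apply N A W πF hπN res hres hresπ hker e χ _ n hn
  have h2 := galHom_apply N A W πF hπN res hres hresπ hker e χ' _ n hn
  have h3 : galHom N A W πF hπN res hres hresπ hker e χ =
      galHom N A W πF hπN res hres hresπ hker e χ' := congrArg Subtype.val h
  rw [h3, h2] at h1
  exact he h1.symm

end Glue

section Final

variable (T : Finset Nat.Primes)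
variable {k F M : Type} [Field k] [Field F] [Field M] [NumberField k] [NumberField F]
  [NumberField M] [Algebra k F] [Algebra F M] [Algebra k M] [IsScalarTower k F M]
  [IsGalois k F] [IsGalois F M] [IsGalois k M] [IsTotallyComplex F]
  {p : ℕ} [hpF : Fact p.Prime]
  {Γ : Type} [Group Γ] (N : Subgroup Γ) [hN : N.Normal] (A : Rep.{0} (ZMod p) Γ)
  (W : Submodule (ZMod p) ↥(EqHom N A))
  (πF : Γ →* (F ≃ₐ[k] F)) (hπN : ∀ s : Γ, πF s = 1 ↔ s ∈ N)
  (res : Γ →* (M ≃ₐ[k] M)) (hres : Function.Surjective res)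
  (hresπ : ∀ s : Γ, (res s).restrictNormal F = πF s)
  (hker : ∀ n : ↥N, res (n : Γ) = 1 ↔ ∀ χ ∈ W, (χ : ↥N → A) n = 0)
  (hunr : ∀ P : Ideal (𝓞 M), P.IsPrime → P ≠ ⊥ → P.inertia (M ≃ₐ[F] M) = ⊥)
  (hT : ∀ P : Ideal (𝓞 M), P.IsPrime → (∃ t ∈ T, (((t : ℕ) : ℤ) : 𝓞 M) ∈ P) →
    MulAction.stabilizer (M ≃ₐ[F] M) P = ⊥)
  {Y₀ : Type*} [AddCommGroup Y₀] [Module (ZMod p) Y₀]
  (ρ₀ : Representation (ZMod p) (F ≃ₐ[k] F) Y₀) (ω₀ : (F ≃ₐ[k] F) →* (ZMod p)ˣ)
  (e : A →ₗ[ZMod p] Module.Dual (ZMod p) Y₀) (he : Function.Injective e)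
  (heq : ∀ (s : Γ) (a : A) (y : Y₀),
    e (A.ρ s a) (ρ₀ (πF s) y) = ((ω₀ (πF s) : (ZMod p)ˣ) : ZMod p) * e a y)

include hπN hres hresπ hker hunr hT he heq in
/-- **(K2), abstract form, any model of `Cl_T(F)`.** -/
theorem finrank_le_twNum {R : Type*} [CommRing R] {C : Type*} [AddCommGroup C] [Module R C]
    (τC : Representation R (F ≃ₐ[k] F) C) (q : Additive (DivT T F) →+ C)
    (hq : Function.Surjective q)
    (hkerq : ∀ D : DivT T F, q (Additive.ofMul D) = 0 → ∃ x : Fˣ, divT T F x = D)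
    (hqeq : ∀ (σ : F ≃ₐ[k] F) (D : DivT T F),
      q (Additive.ofMul (σ • D)) = τC σ (q (Additive.ofMul D)))
    [Module.Finite (ZMod p) ↥(twAdd τC ω₀ ρ₀)] :
    finrank (ZMod p) ↥W ≤ twNum τC ω₀ ρ₀ := by
  haveI : IsMulCommutative (M ≃ₐ[F] M) := isMulCommutative_gal N A W πF hπN res hres hresπ hker
  have hexp : ∀ σ : M ≃ₐ[F] M, σ ^ p = 1 := pow_eq_one_gal N A W πF hπN res hres hresπ hker
  have hinj : Function.Injective
      ((toTwAdd T hexp hunr hT ρ₀ ω₀ τC q hq hkerq hqeq).comp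
        (toEqHom N A W πF hπN res hres hresπ hker ρ₀ ω₀ e heq)) := by
    rw [LinearMap.coe_comp]
    exact (toTwAdd_injective T hexp hunr hT ρ₀ ω₀ τC q hq hkerq hqeq).comp
      (toEqHom_injective N A W πF hπN res hres hresπ hker ρ₀ ω₀ e he heq)
  exact LinearMap.finrank_le_finrank_of_injective hinj

include hπN hres hresπ hker hunr hT he heq in
/-- **(K2), abstract form, cokernel model.** -/
theorem finrank_le_twNum_coker [Module.Finite (ZMod p) ↥(twAdd (cokerRep T k F) ω₀ ρ₀)] :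
    finrank (ZMod p) ↥W ≤ twNum (cokerRep T k F) ω₀ ρ₀ := by
  refine finrank_le_twNum T N A W πF hπN res hres hresπ hker hunr hT ρ₀ ω₀ e he heq
    (cokerRep T k F) ((princ T F).mkQ.toAddMonoidHom) (Submodule.mkQ_surjective _) ?_ ?_
  · intro D hD
    have h : (princ T F).mkQ (Additive.ofMul D) = 0 := hD
    rw [Submodule.mkQ_apply, Submodule.Quotient.mk_eq_zero] at h
    exact (mem_princ T F).mp h
  · intro σ D
    exact (cokerRep_mk T k F σ D).symm

end Final

end Fermat.Agent.ES.T56.K2Glue23
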