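/-
Programme T (S56), chapter GW-D, brick (K2) of `T56_BASE28.md` (helper23): `K2Glue23` instantiated at
a base datum, in the `Δ`-dictionary of `BaseDict28`.

`D : GWIface21.BaseDatum Sg`, `p` odd; `k := ↥D.K`, `F := ↥(LK D)`, `Γ := G_K = ↥D.K.fixingSubgroup`,
`N := G_L` inside `G_K`, `πF := π D`.

* `isTotallyComplex_LK` : `L ∋ ζ_p` is totally complex (`p ≠ 2`);
* **`finrank_le_twNum_base`** : for a base datum `D`, ANY `A : Rep (ZMod p) G_K`, `𝔽_p[Δ]`-module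
  `(Y₀, ρ₀)` and twisted duality `e : A → Y₀^∨`, a subspace `W ≤ EqHom (G_L) A` and BRIDGE data
  `(M, res, hunr, hT)`:  `dim W ≤ twNum (cokerRep Sg ↥D.K ↥(LK D)) (ω D) ρ₀`;
* **`finrank_le_twNum_dual`** : the case `A = Y^∨(1)`, `Y₀ = D.Y`, `ρ₀ = ρΔ D`, `e = id`:
  `dim W ≤ twNum (cokerRep Sg ↥D.K ↥(LK D)) (ω D) (ρΔ D)`;
* `finrank_le_twNum_dualDatum` : the same with `W ≤ EqHom (G_L) (dualDatum D).Y` (defeq restatement).
-/
import Mathlib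
import Fermat.Agent.ES.T56.BaseDict28
import Fermat.Agent.ES.T56.BaseDual22
import Fermat.Agent.ES.T56.K2Glue23

set_option autoImplicit false
set_option linter.unusedSectionVars false
set_option linter.style.haveILetI false

open NumberField Module ExtCitation
open scoped Pointwise nonZeroDivisors

namespace Fermat.Agent.ES.T56.K2Base23

open Fermat.Agent.ES.T56.GWIface21 Fermat.Agent.ES.T56.BaseDict28 Fermat.Agent.ES.T56.BaseDual22
  Fermat.Agent.ES.T56.ElemArtinCoker23 Fermat.Agent.ES.T56.TwistNum28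
  Fermat.Agent.ES.T56.TransferExtRep3 Fermat.Agent.ES.T56.K2Glue23

variable {p : ℕ} [Fact p.Prime] {Sg : Finset Nat.Primes}

/-- `L ∋ ζ_p` is totally complex for odd `p`. -/
theorem isTotallyComplex_LK (hp2 : p ≠ 2) (D : BaseDatum (p := p) Sg) [NumberField ↥(LK D)] :
    IsTotallyComplex ↥(LK D) := by
  obtain ⟨ζ, hζ⟩ := exists_zeta_LK D
  have h2 : 2 < p := lt_of_le_of_ne (Fact.out : p.Prime).two_le (Ne.symm hp2)
  haveI : NeZero p := ⟨(Fact.out : p.Prime).ne_zero⟩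
  exact NumberField.nrRealPlaces_eq_zero_iff.mp
    (NumberField.InfinitePlace.IsPrimitiveRoot.nrRealPlaces_eq_zero_of_two_lt h2 hζ)

theorem π_eq_one_iff_mem (D : BaseDatum (p := p) Sg) (s : ↥D.K.fixingSubgroup) :
    π D s = 1 ↔ s ∈ D.L.fixingSubgroup.subgroupOf D.K.fixingSubgroup := by
  rw [π_eq_one_iff, Subgroup.mem_subgroupOf]

/-- **(K2) for a base datum, abstract dual side** (`A` any representation of `G_K`). -/
theorem finrank_le_twNum_base (hp2 : p ≠ 2) (D : BaseDatum (p := p) Sg)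
    [NumberField ↥D.K] [NumberField ↥(LK D)] [IsGalois ↥D.K ↥(LK D)]
    (A : Rep.{0} (ZMod p) ↥D.K.fixingSubgroup)
    (W : Submodule (ZMod p)
      ↥(EqHom (hN := D.normal) (D.L.fixingSubgroup.subgroupOf D.K.fixingSubgroup) A))
    {M : Type} [Field M] [NumberField M] [Algebra ↥D.K M] [Algebra ↥(LK D) M]
    [IsScalarTower ↥D.K ↥(LK D) M] [IsGalois ↥D.K M] [IsGalois ↥(LK D) M]
    (res : ↥D.K.fixingSubgroup →* (M ≃ₐ[↥D.K] M)) (hres : Function.Surjective res)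
    (hresπ : ∀ s : ↥D.K.fixingSubgroup, (res s).restrictNormal ↥(LK D) = π D s)
    (hker : ∀ n : ↥(D.L.fixingSubgroup.subgroupOf D.K.fixingSubgroup),
      res (n : ↥D.K.fixingSubgroup) = 1 ↔ ∀ χ ∈ W, χ.1 n = 0)
    (hunr : ∀ P : Ideal (𝓞 M), P.IsPrime → P ≠ ⊥ → P.inertia (M ≃ₐ[↥(LK D)] M) = ⊥)
    (hT : ∀ P : Ideal (𝓞 M), P.IsPrime → (∃ t ∈ Sg, (((t : ℕ) : ℤ) : 𝓞 M) ∈ P) →
      MulAction.stabilizer (M ≃ₐ[↥(LK D)] M) P = ⊥)
    {Y₀ : Type*} [AddCommGroup Y₀] [Module (ZMod p) Y₀]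
    (ρ₀ : Representation (ZMod p) (Δ D) Y₀)
    (e : A →ₗ[ZMod p] Module.Dual (ZMod p) Y₀) (he : Function.Injective e)
    (heq : ∀ (s : ↥D.K.fixingSubgroup) (a : A) (y : Y₀),
      e (A.ρ s a) (ρ₀ (π D s) y) = ((ω D (π D s) : (ZMod p)ˣ) : ZMod p) * e a y)
    [Module.Finite (ZMod p) ↥(twAdd (cokerRep Sg ↥D.K ↥(LK D)) (ω D) ρ₀)] :
    finrank (ZMod p) ↥W ≤ twNum (cokerRep Sg ↥D.K ↥(LK D)) (ω D) ρ₀ := by
  haveI := isTotallyComplex_LK hp2 D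
  haveI := D.normal
  exact finrank_le_twNum_coker Sg (D.L.fixingSubgroup.subgroupOf D.K.fixingSubgroup) A W (π D)
    (π_eq_one_iff_mem D) res hres hresπ hker hunr hT ρ₀ (ω D) e he heq

/-- **(K2) for `Ш¹(X*)`**: `A = Y^∨(1) = (dualDatum D).Y`, `Y₀ = D.Y`, `ρ₀ = ρΔ D`, `e = id`. -/
theorem finrank_le_twNum_dual (hp2 : p ≠ 2) (D : BaseDatum (p := p) Sg)
    [NumberField ↥D.K] [NumberField ↥(LK D)] [IsGalois ↥D.K ↥(LK D)]
    (W : Submodule (ZMod p)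
      ↥(EqHom (hN := D.normal) (D.L.fixingSubgroup.subgroupOf D.K.fixingSubgroup)
        (D.Y.dualTwist ((cycloChar p).comp D.K.fixingSubgroup.subtype))))
    {M : Type} [Field M] [NumberField M] [Algebra ↥D.K M] [Algebra ↥(LK D) M]
    [IsScalarTower ↥D.K ↥(LK D) M] [IsGalois ↥D.K M] [IsGalois ↥(LK D) M]
    (res : ↥D.K.fixingSubgroup →* (M ≃ₐ[↥D.K] M)) (hres : Function.Surjective res)
    (hresπ : ∀ s : ↥D.K.fixingSubgroup, (res s).restrictNormal ↥(LK D) = π D s)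
    (hker : ∀ n : ↥(D.L.fixingSubgroup.subgroupOf D.K.fixingSubgroup),
      res (n : ↥D.K.fixingSubgroup) = 1 ↔ ∀ χ ∈ W, χ.1 n = 0)
    (hunr : ∀ P : Ideal (𝓞 M), P.IsPrime → P ≠ ⊥ → P.inertia (M ≃ₐ[↥(LK D)] M) = ⊥)
    (hT : ∀ P : Ideal (𝓞 M), P.IsPrime → (∃ t ∈ Sg, (((t : ℕ) : ℤ) : 𝓞 M) ∈ P) →
      MulAction.stabilizer (M ≃ₐ[↥(LK D)] M) P = ⊥)
    [Module.Finite (ZMod p) ↥(twAdd (cokerRep Sg ↥D.K ↥(LK D)) (ω D) (ρΔ D))] :
    finrank (ZMod p) ↥W ≤ twNum (cokerRep Sg ↥D.K ↥(LK D)) (ω D) (ρΔ D) := by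
  refine finrank_le_twNum_base hp2 D
    (D.Y.dualTwist ((cycloChar p).comp D.K.fixingSubgroup.subtype)) W res hres hresπ hker hunr hT
    (ρΔ D) (LinearMap.id : Module.Dual (ZMod p) D.Y →ₗ[ZMod p] Module.Dual (ZMod p) D.Y)
    Function.injective_id ?_
  intro s a y
  show ((D.Y.dualTwist ((cycloChar p).comp D.K.fixingSubgroup.subtype)).ρ s a) (ρΔ D (π D s) y) =
    _ * a y
  rw [Rep.dualTwist_ρ_apply, ρΔ_π]
  have h1 : D.Y.ρ s⁻¹ (D.Y.ρ s y) = y := by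
    rw [← Module.End.mul_apply, ← map_mul, inv_mul_cancel, map_one, Module.End.one_apply]
  rw [LinearMap.smul_apply, LinearMap.comp_apply, h1, smul_eq_mul, ω_π]
  rfl

/-- The same statement with the data written through `dualDatum D` (defeq restatement, so that
`W ≤ ShaRestrict3.ShaHom (dualDatum D)` plugs in by `exact`). -/
theorem finrank_le_twNum_dualDatum (hp2 : p ≠ 2) (D : BaseDatum (p := p) Sg)
    [NumberField ↥D.K] [NumberField ↥(LK D)] [IsGalois ↥D.K ↥(LK D)]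
    (W : Submodule (ZMod p)
      ↥(EqHom (hN := (dualDatum D).normal)
        ((dualDatum D).L.fixingSubgroup.subgroupOf (dualDatum D).K.fixingSubgroup)
        (dualDatum D).Y))
    {M : Type} [Field M] [NumberField M] [Algebra ↥D.K M] [Algebra ↥(LK D) M]
    [IsScalarTower ↥D.K ↥(LK D) M] [IsGalois ↥D.K M] [IsGalois ↥(LK D) M]
    (res : ↥D.K.fixingSubgroup →* (M ≃ₐ[↥D.K] M)) (hres : Function.Surjective res)
    (hresπ : ∀ s : ↥D.K.fixingSubgroup, (res s).restrictNormal ↥(LK D) = π D s)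
    (hker : ∀ n : ↥((dualDatum D).L.fixingSubgroup.subgroupOf (dualDatum D).K.fixingSubgroup),
      res n.1 = 1 ↔ ∀ χ ∈ W, χ.1 n = 0)
    (hunr : ∀ P : Ideal (𝓞 M), P.IsPrime → P ≠ ⊥ → P.inertia (M ≃ₐ[↥(LK D)] M) = ⊥)
    (hT : ∀ P : Ideal (𝓞 M), P.IsPrime → (∃ t ∈ Sg, (((t : ℕ) : ℤ) : 𝓞 M) ∈ P) →
      MulAction.stabilizer (M ≃ₐ[↥(LK D)] M) P = ⊥)
    [Module.Finite (ZMod p) ↥(twAdd (cokerRep Sg ↥D.K ↥(LK D)) (ω D) (ρΔ D))] :
    finrank (ZMod p) ↥W ≤ twNum (cokerRep Sg ↥D.K ↥(LK D)) (ω D) (ρΔ D) :=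
  finrank_le_twNum_dual hp2 D W res hres hresπ hker hunr hT

end Fermat.Agent.ES.T56.K2Base23
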