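/-
Programme T (S56), chapter KUM, for `FlatIface20.KumF2` (helper17 lead) — helper4.

The dictionary `Γ_E ↔ LOC model` over the base `↥E` (`E` a finite extension of `ℚ_p` inside
`Ω = PadicAlgCl p`, `L₀/E` a finite normal extension inside `Ω`), for `g ∈ Gal(Ω/E)`:

* `isInertial_res` : if `g` (as an element of `Γ_p`) maps into the global inertia group, then
  `g|_{L₀}` is inertial in the sense of `KumCountIface7.IsInertial`;
* `actsOnMu_of_res` : if `g|_{L₀}` acts on the `p`-th roots of unity of `L₀` as `ζ ↦ ζ ^ n` and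
  `ζ_p ∈ L₀`, then the image of `g` in `G_ℚ` acts on `μ_p(ℚ̄)` as `μ ↦ μ ^ n`
  (the converse of `KumF1_17.actsOnMuAs_res`).
-/
import Mathlib
import Fermat.Agent.ES.T56.KumCountIface7
import Fermat.Agent.ES.T56.InertiaDict16

set_option autoImplicit false
set_option linter.unusedSectionVars false

namespace Fermat.Agent.ES.T56.KumF2Dict4

open Fermat.Agent.ES.T56.KumCountIface7 Fermat.Agent.ES.T56.FlatRIface14
open Fermat.Agent.PT.LOC.Interface12 Fermat.Agent.PT.LOC.Structure14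

noncomputable section

variable (p : ℕ) [hp : Fact p.Prime]

variable (E : IntermediateField ℚ_[p] (PadicAlgCl p))
  (L₀ : IntermediateField ↥E (PadicAlgCl p)) [FiniteDimensional ↥E L₀] [Normal ↥E L₀]
  [FiniteDimensional ℚ_[p] L₀]

/-- The spectral norm of `L₀` is the norm of `Ω`. -/
theorem snorm_eq_norm (y : ↥L₀) : snorm p ↥L₀ y = ‖(y : PadicAlgCl p)‖ := by
  have htower : IsScalarTower ℚ_[p] ↥L₀ (PadicAlgCl p) :=
    IsScalarTower.of_algebraMap_eq (fun _ => rfl)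
  rw [← PadicAlgCl.spectralNorm_eq]
  exact spectralNorm.eq_of_tower (K := ℚ_[p]) (L := PadicAlgCl p) y

variable {E L₀}

/-- Global inertia (inside `Γ_E`) restricts to inertial elements of `Gal(L₀/E)`. -/
theorem isInertial_res {g : PadicAlgCl p ≃ₐ[↥E] PadicAlgCl p}
    (hg : localGaloisToGlobal p (g.restrictScalars ℚ_[p]) ∈
      (padicPlace p).inertiaSubgroupIn ℚ) :
    IsInertial p ↥L₀ (AlgEquiv.restrictNormalHom L₀ g) := by
  intro x hx
  have hx1 : snorm p ↥L₀ x ≤ 1 := (mem_intRing_iff p ↥L₀ x).1 hx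
  rw [snorm_eq_norm] at hx1 ⊢
  have h1 := (InertiaDict16.mem_inertia_iff p (g.restrictScalars ℚ_[p])).1 hg
    (x : PadicAlgCl p) hx1
  have h4 : (((AlgEquiv.restrictNormalHom L₀ g) x : ↥L₀) : PadicAlgCl p) =
      g (x : PadicAlgCl p) := AlgEquiv.restrictNormal_commutes g L₀ x
  rw [AddSubgroupClass.coe_sub, h4]
  exact h1

/-- The action on `μ_p`, from the level `L₀ ∋ ζ_p` back to `ℚ̄`. -/
theorem actsOnMu_of_res {g : PadicAlgCl p ≃ₐ[↥E] PadicAlgCl p} (n : ℕ)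
    (h : ActsOnMuAs p ↥L₀ (AlgEquiv.restrictNormalHom L₀ g) n)
    (hζ : ∃ ζ : ↥L₀, IsPrimitiveRoot ζ p) :
    ∀ μ : AlgebraicClosure ℚ, μ ^ p = 1 →
      localGaloisToGlobal p (g.restrictScalars ℚ_[p]) μ = μ ^ n := by
  intro μ hμ
  obtain ⟨ζ, hζ⟩ := hζ
  have hne0 : NeZero p := ⟨hp.out.ne_zero⟩
  have hζ' : IsPrimitiveRoot ((ζ : ↥L₀) : PadicAlgCl p) p :=
    hζ.map_of_injective (f := algebraMap ↥L₀ (PadicAlgCl p)) (algebraMap ↥L₀ (PadicAlgCl p)).injective
  have hy : (padicEmbedding p μ) ^ p = 1 := by rw [← map_pow, hμ, map_one]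
  obtain ⟨i, -, hi⟩ := hζ'.eq_pow_of_pow_eq_one hy
  -- `z = ζ ^ i ∈ L₀` is `ι μ`
  have hz : (ζ ^ i) ^ p = 1 := by rw [← pow_mul, mul_comm, pow_mul, hζ.pow_eq_one, one_pow]
  have h1 := h (ζ ^ i) hz
  have h2 : (((AlgEquiv.restrictNormalHom L₀ g) (ζ ^ i) : ↥L₀) : PadicAlgCl p) =
      g ((ζ ^ i : ↥L₀) : PadicAlgCl p) := AlgEquiv.restrictNormal_commutes g L₀ (ζ ^ i)
  rw [h1, SubmonoidClass.coe_pow, SubmonoidClass.coe_pow, hi] at h2
  -- `h2 : (ι μ) ^ n = g (ι μ)`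
  have hinj : Function.Injective (padicEmbedding p) := (padicEmbedding p).injective
  apply hinj
  rw [padicEmbedding_localGaloisToGlobal, map_pow]
  exact h2.symm

end

end Fermat.Agent.ES.T56.KumF2Dict4
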