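/-
Programme T (S56, Taylor–Wiles primes), FLAT leg, chapter R′ — helper5.

KUMMER COUNT (pure field theory, no model of local fields).

Let `L` be a field of characteristic zero containing a primitive `p`-th root of unity, `E/L` an
algebraic extension, and `y i ∈ E` elements with `y i ^ p = t i ∈ Lˣ` such that the `t i` are pairwise
distinct modulo `p`-th powers of `L`.  Then the `y i` are linearly independent over `L`
(`linearIndependent_pthRoots`); in particular their number is at most `[E : L]`
(`card_le_finrank_of_pthRoots`).  No Galois hypothesis on `E/L` is needed: the proof works inside an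
algebraic closure of `E`, where the `y i` are simultaneous eigenvectors of `Gal(Ω/L)` for pairwise
distinct characters.

This is case (α) of Theorem R′ (T56_FLAT.md §3′): the classes of `a^ι/a`, `ξ` running through the
Teichmüller representatives of `K′`, all become `p`-th powers in `E = L*K′`, are pairwise distinct
modulo `L₀′^{×p}`, hence there are at most `[E : L₀′] = d` of them.
-/
import Mathlib

set_option autoImplicit false

namespace Fermat.Agent.ES.T56.KummerCount5

open Module

section Eigen

variable {L Ω G ι : Type*} [Field L] [AddCommGroup Ω] [Module L Ω]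

/-- Simultaneous eigenvectors of a family of linear maps, for pairwise distinct systems of
eigenvalues, are linearly independent. -/
theorem linearIndependent_of_eigen (act : G → Ω →ₗ[L] Ω) (y : ι → Ω) (χ : ι → G → L)
    (hy : ∀ i, y i ≠ 0) (heig : ∀ i g, act g (y i) = χ i g • y i)
    (hχ : ∀ i j, i ≠ j → ∃ g, χ i g ≠ χ j g) : LinearIndependent L y := by
  classical
  rw [linearIndependent_iff']
  intro s
  induction s using Finset.induction_on with
  | empty => intro c _ i hi; simp at hi
  | insert a s has ih =>
    intro c hc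
    rw [Finset.sum_insert has] at hc
    -- for every `g`, the coefficients `c i * (χ i g - χ a g)` give a relation on `s`
    have key : ∀ g : G, ∀ i ∈ s, c i * (χ i g - χ a g) = 0 := by
      intro g
      apply ih (fun i => c i * (χ i g - χ a g))
      have h1 : act g (c a • y a + ∑ i ∈ s, c i • y i) = 0 := by rw [hc, map_zero]
      rw [map_add, map_smul, heig, map_sum] at h1
      have h2 : χ a g • (c a • y a + ∑ i ∈ s, c i • y i) = 0 := by rw [hc, smul_zero]
      rw [smul_add, Finset.smul_sum] at h2
      have h3 : (∑ i ∈ s, act g (c i • y i)) - ∑ i ∈ s, χ a g • c i • y i = 0 := by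
        have e1 : c a • χ a g • y a = χ a g • c a • y a := smul_comm _ _ _
        rw [e1] at h1
        have := congrArg₂ (· - ·) h1 h2
        simpa using this
      rw [← Finset.sum_sub_distrib] at h3
      rw [← h3]
      refine Finset.sum_congr rfl (fun i _ => ?_)
      rw [map_smul, heig]
      module
    have hs : ∀ i ∈ s, c i = 0 := by
      intro i hi
      have hia : i ≠ a := fun h => has (h ▸ hi)
      obtain ⟨g, hg⟩ := hχ i a hia
      have := key g i hi
      rcases mul_eq_zero.1 this with h | h
      · exact h
      · exact absurd (sub_eq_zero.1 h) hg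
    intro i hi
    rcases Finset.mem_insert.1 hi with rfl | hi
    · have h0 : ∑ i ∈ s, c i • y i = 0 :=
        Finset.sum_eq_zero (fun j hj => by rw [hs j hj, zero_smul])
      rw [h0, add_zero] at hc
      rcases smul_eq_zero.1 hc with h | h
      · exact h
      · exact absurd h (hy _)
    · exact hs i hi

end Eigen

section Kummer

variable {L E : Type*} [Field L] [Field E] [Algebra L E] [Algebra.IsAlgebraic L E] [CharZero L]

/-- **Kummer independence.** If `L ∋ ζ_p`, the `t i ∈ L` are non-zero and pairwise distinct modulo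
`p`-th powers of `L`, and `y i ∈ E` satisfy `y i ^ p = t i`, then the `y i` are linearly independent
over `L`. -/
theorem linearIndependent_pthRoots {p : ℕ} (hp : p.Prime) {ζ : L} (hζ : IsPrimitiveRoot ζ p)
    {ι : Type*} (y : ι → E) (t : ι → L) (ht : ∀ i, t i ≠ 0)
    (hroot : ∀ i, y i ^ p = algebraMap L E (t i))
    (hdist : ∀ i j, i ≠ j → ∀ b : L, b ^ p * t j ≠ t i) : LinearIndependent L y := by
  classical
  -- work in an algebraic closure of `E`, which is Galois over `L`
  let Ω := AlgebraicClosure E
  have : IsAlgClosure L Ω := IsAlgClosure.ofAlgebraic L E Ω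
  have : IsGalois L Ω := IsAlgClosure.isGalois L Ω
  have : NeZero p := ⟨hp.ne_zero⟩
  have hinjL : Function.Injective (algebraMap L Ω) := (algebraMap L Ω).injective
  have hinjE : Function.Injective (algebraMap E Ω) := (algebraMap E Ω).injective
  let z : ι → Ω := fun i => algebraMap E Ω (y i)
  have hz_pow : ∀ i, z i ^ p = algebraMap L Ω (t i) := by
    intro i
    show (algebraMap E Ω (y i)) ^ p = _
    rw [← map_pow, hroot, ← IsScalarTower.algebraMap_apply]
  have hz_ne : ∀ i, z i ≠ 0 := by
    intro i h
    have := hz_pow i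
    rw [h, zero_pow hp.ne_zero] at this
    exact ht i (hinjL (by rw [← this, map_zero]))
  -- the primitive root in `Ω`
  have hζΩ : IsPrimitiveRoot (algebraMap L Ω ζ) p := hζ.map_of_injective hinjL
  -- every automorphism multiplies `z i` by an element of `L`
  have hchar : ∀ i (σ : Ω ≃ₐ[L] Ω), ∃ c : L, σ (z i) = c • z i := by
    intro i σ
    have h1 : (σ (z i) / z i) ^ p = 1 := by
      rw [div_pow, ← map_pow, hz_pow, AlgEquiv.commutes, div_self]
      rw [← hz_pow]; exact pow_ne_zero _ (hz_ne i)
    obtain ⟨k, -, hk⟩ := hζΩ.eq_pow_of_pow_eq_one h1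
    refine ⟨ζ ^ k, ?_⟩
    rw [Algebra.smul_def, map_pow, hk, div_mul_cancel₀ _ (hz_ne i)]
  choose χ hχ using hchar
  have hχ_ne : ∀ i σ, χ i σ ≠ 0 := by
    intro i σ h
    have := hχ i σ
    rw [h, zero_smul] at this
    exact hz_ne i ((map_eq_zero_iff σ σ.injective).1 this)
  -- linear independence of `z` in `Ω`
  have hzind : LinearIndependent L z := by
    refine linearIndependent_of_eigen (fun σ : Ω ≃ₐ[L] Ω => σ.toLinearMap) z χ hz_ne
      (fun i σ => hχ i σ) ?_
    intro i j hij
    by_contra hcon0
    have hcon : ∀ g, χ i g = χ j g := fun g => by_contra (fun h => hcon0 ⟨g, h⟩)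
    -- `z i / z j` is fixed by every automorphism, hence lies in `L`
    have hfix : ∀ σ : Ω ≃ₐ[L] Ω, σ (z i / z j) = z i / z j := by
      intro σ
      rw [map_div₀, hχ i σ, hχ j σ, hcon σ, Algebra.smul_def, Algebra.smul_def,
        mul_div_mul_left]
      exact fun h => hχ_ne j σ (hinjL (by rw [h, map_zero]))
    obtain ⟨b, hb⟩ := (InfiniteGalois.mem_range_algebraMap_iff_fixed (k := L) (K := Ω)
      (z i / z j)).2 hfix
    apply hdist i j hij b
    apply hinjL
    rw [map_mul, map_pow, hb, div_pow, hz_pow, hz_pow, div_mul_cancel₀]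
    exact fun h => ht j (hinjL (by rw [h, map_zero]))
  -- descend to `E`
  exact LinearIndependent.of_comp (IsScalarTower.toAlgHom L E Ω).toLinearMap hzind

/-- **Kummer count.** At most `[E : L]` classes of `Lˣ` modulo `p`-th powers become `p`-th powers
in `E`. -/
theorem card_le_finrank_of_pthRoots [FiniteDimensional L E] {p : ℕ} (hp : p.Prime) {ζ : L}
    (hζ : IsPrimitiveRoot ζ p) {ι : Type*} [Fintype ι] (t : ι → L) (ht : ∀ i, t i ≠ 0)
    (hroot : ∀ i, ∃ y : E, y ^ p = algebraMap L E (t i))
    (hdist : ∀ i j, i ≠ j → ∀ b : L, b ^ p * t j ≠ t i) :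
    Fintype.card ι ≤ finrank L E := by
  choose y hy using hroot
  exact (linearIndependent_pthRoots hp hζ y t ht hy hdist).fintype_card_le_finrank

/-- Variant for units: a family `t : ι → Lˣ` whose members become `p`-th powers in `E` and which is
injective modulo `p`-th powers of `Lˣ` has at most `[E : L]` members. -/
theorem card_le_finrank_of_pthRoots_units [FiniteDimensional L E] {p : ℕ} (hp : p.Prime) {ζ : L}
    (hζ : IsPrimitiveRoot ζ p) {ι : Type*} [Fintype ι] (t : ι → Lˣ)
    (hroot : ∀ i, ∃ y : E, y ^ p = algebraMap L E (t i : L))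
    (hdist : ∀ i j, i ≠ j → ∀ b : Lˣ, t i ≠ b ^ p * t j) :
    Fintype.card ι ≤ finrank L E := by
  refine card_le_finrank_of_pthRoots hp hζ (fun i => (t i : L)) (fun i => (t i).ne_zero) hroot ?_
  intro i j hij b hb
  have hb0 : b ≠ 0 := by
    rintro rfl
    rw [zero_pow hp.ne_zero, zero_mul] at hb
    exact (t i).ne_zero hb.symm
  apply hdist i j hij (Units.mk0 b hb0)
  ext
  simp [hb]

/-- Finite-type-free variant: any such family is finite. -/
theorem finite_of_pthRoots [FiniteDimensional L E] {p : ℕ} (hp : p.Prime) {ζ : L}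
    (hζ : IsPrimitiveRoot ζ p) {ι : Type*} (t : ι → L) (ht : ∀ i, t i ≠ 0)
    (hroot : ∀ i, ∃ y : E, y ^ p = algebraMap L E (t i))
    (hdist : ∀ i j, i ≠ j → ∀ b : L, b ^ p * t j ≠ t i) : Finite ι := by
  choose y hy using hroot
  exact (linearIndependent_pthRoots hp hζ y t ht hy hdist).finite

end Kummer

end Fermat.Agent.ES.T56.KummerCount5
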