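/-
Programme T (S56), chapter LOC, helper1: the EXPORTS at the primes of `S_min ∖ {p}`, in the literal
shapes of `TopAsm27.twSelmer_of_inputs` (`TopObjs27.contLocK` / `resLocK` are reducible abbreviations
of the terms written out below).

The local condition is `Lk q := UrDef1.locUr q (Rep.res (primeLocalToGlobal q) A)`.

* `locUr_inf_cont`   : `locUr ⊓ H¹_cont = locUr`;
* `hfinS_ur`         : `Finite ↥(locUr ⊓ H¹_cont)`                       (TopAsm27's `hfinS` at `q`);
* `hmin_ur`          : `#(locUr ⊓ H¹_cont) ≤ #H⁰(Γ_q, A)`               (TopAsm27's `hmin` at `q`);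
* `member_ur`        : = `UrMem1.urMember` (membership of unipotent-on-inertia lifts), restated.
  Its hypothesis `hram` comes from `LocRam1.exists_ram_of_not_unramified`.
-/
import Mathlib
import Fermat.Agent.ES.T56.UrDef1
import Fermat.Agent.ES.T56.UrDim1
import Fermat.Agent.ES.T56.UrMem1

set_option autoImplicit false

open CategoryTheory groupCohomology ExtCitation

namespace Fermat.Agent.ES.T56.LocExport1

open Fermat.Agent.S53 Fermat.Agent.ES.T56.Ad0Rep10 Fermat.Agent.ES.T56.UrDef1

variable {k : Type} [Field k]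

theorem locUr_inf_cont (q : Nat.Primes) (A : Rep.{0} k GQ) :
    locUr q (Rep.res (primeLocalToGlobal q) A) ⊓
        continuousH1 (primeLocalToGlobal q) (Rep.res (primeLocalToGlobal q) A) =
      locUr q (Rep.res (primeLocalToGlobal q) A) :=
  inf_eq_left.mpr (locUr_le_continuousH1 q _)

/-- `hfinS` of `TopAsm27.twSelmer_of_inputs` at a prime where `Lk q = locUr`. -/
theorem hfinS_ur (q : Nat.Primes) (A : Rep.{0} k GQ) [Finite A] :
    Finite ↥(locUr q (Rep.res (primeLocalToGlobal q) A) ⊓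
      continuousH1 (primeLocalToGlobal q) (Rep.res (primeLocalToGlobal q) A)) := by
  rw [locUr_inf_cont]
  have : Finite ↥(Rep.res (primeLocalToGlobal q) A) := ‹Finite A›
  exact (UrDim1.card_locUr_le q (Rep.res (primeLocalToGlobal q) A)).1

/-- `hmin` of `TopAsm27.twSelmer_of_inputs` at a prime where `Lk q = locUr`. -/
theorem hmin_ur (q : Nat.Primes) (A : Rep.{0} k GQ) [Finite A] :
    Nat.card ↥(locUr q (Rep.res (primeLocalToGlobal q) A) ⊓
        continuousH1 (primeLocalToGlobal q) (Rep.res (primeLocalToGlobal q) A)) ≤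
      Nat.card ↥((Rep.res (primeLocalToGlobal q) A).ρ.invariants) := by
  rw [locUr_inf_cont]
  have : Finite ↥(Rep.res (primeLocalToGlobal q) A) := ‹Finite A›
  exact (UrDim1.card_locUr_le q (Rep.res (primeLocalToGlobal q) A)).2

/-- Membership (`UrMem1.urMember`). -/
theorem member_ur {p : ℕ} (hp : p.Prime) (hpk : (p : k) = 0) (hp2 : p ≠ 2) (q : Nat.Primes)
    (hqp : (q : ℕ) ≠ p) (rbar : GQ →* M2 k)
    (hram : ∃ σ ∈ (primeLocalPlace q).inertiaSubgroupIn ℚ, rbar σ ≠ 1)
    (r : GQ →* M2 (DualNumber k)) (hr : MatCont r) (hfst : ∀ σ, fstM (r σ) = rbar σ)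
    (hunip : (ofMatrix r hr).IsUnipotentOnInertiaAt q)
    (c : cocycles₁ (ad0 rbar)) (hc : ∀ σ, ((c σ : sl2 k) : M2 k) = epsPart r σ) :
    (map (primeLocalToGlobal q) (𝟙 (Rep.res (primeLocalToGlobal q) (ad0 rbar))) 1).hom
        ((H1π (ad0 rbar)).hom c) ∈ locUr q (Rep.res (primeLocalToGlobal q) (ad0 rbar)) :=
  UrMem1.urMember hp hpk hp2 q hqp rbar hram r hr hfst hunip c hc

end Fermat.Agent.ES.T56.LocExport1
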