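/-
Programme T (S56), chapter LOC, leaf `LocGlobSl5` (helper5): complements to `LocGlob5` for TOP
(`TopOrd27.RestInputs`):

* `isSmooth_resScal_ad0`        : `GWIface21.IsSmooth p (resScal p (ad0 rbar))` (from `ρ̄`'s finite level);
* `finite_ad0`, `finiteDimensional_resScal_ad0` : finiteness for finite `k`;
* `locGlob_sliceData`           : the three global LOC facts `hur`, `hh0`, `hh0c` for
  `M = resScal p (ad0 Sl.rbar)`, `Sl : SliceData 𝒪 ρbar` arbitrary, from S56's literal hypotheses.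
-/
import Mathlib
import Fermat.Agent.ES.T56.LocGlob5

set_option autoImplicit false
set_option linter.unusedSectionVars false

open Module IsLocalRing

namespace Fermat.Agent.ES.T56.LocGlobSl5

open Fermat.Agent.S53 Fermat.Agent.ES.T56.Ad0Rep10 Fermat.Agent.ES.T56.ResScal27
open Fermat.Agent.ES.T56.TopPrep27 Fermat.Agent.ES.T56.LocGlob5
open Fermat.Agent.ES.T56.GWIface21 hiding GQ

section General

variable {k : Type} [Field k] (p : ℕ) [Fact p.Prime] [Algebra (ZMod p) k]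
  (ρbar : ResidualGaloisRep k) {rbar : GQ →* M2 k} {b : Module.Basis (Fin 2) k ρbar.V}

/-- **`resScal p (ad⁰ρ̄)` is smooth**: `ρ̄` factors through a finite level. -/
theorem isSmooth_resScal_ad0 (hrbar : ∀ σ, rbar σ = LinearMap.toMatrix b b (ρbar.ρ σ)) :
    IsSmooth p (resScal p (ad0 rbar)) := by
  intro m
  obtain ⟨L, hL, h1⟩ := ρbar.factorsThroughFiniteLevel
  refine ⟨L, hL, fun s hs => ?_⟩
  have hs' : ∀ x ∈ L, s x = x := fun x hx =>
    (IntermediateField.mem_fixingSubgroup_iff L s).1 hs x hx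
  have h2 : rbar s = 1 := rbar_eq_one_of_ρ_eq_one ρbar hrbar (h1 s hs')
  have h3 := ad0_ρ_eq_one_of_rbar_eq_one rbar s h2
  have h4 : ofRS (ad0 rbar) ((resScal p (ad0 rbar)).ρ s m) = (ad0 rbar).ρ s (ofRS (ad0 rbar) m) :=
    resScal_ρ_apply (ad0 rbar) s m
  rw [h3] at h4
  exact h4

/-- `ad⁰ρ̄` is finite for finite `k`. -/
theorem finite_ad0 [Finite k] (rbar : GQ →* M2 k) : Finite ↥(ad0 rbar) :=
  inferInstanceAs (Finite ↥(sl2 k))

/-- `resScal p (ad⁰ρ̄)` is finite for finite `k`. -/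
theorem finite_resScal_ad0 [Finite k] (rbar : GQ →* M2 k) : Finite ↥(resScal p (ad0 rbar)) :=
  inferInstanceAs (Finite ↥(sl2 k))

/-- `resScal p (ad⁰ρ̄)` is finite-dimensional over `𝔽_p` for finite `k`. -/
theorem finiteDimensional_resScal_ad0 [Finite k] (rbar : GQ →* M2 k) :
    FiniteDimensional (ZMod p) ↥(resScal p (ad0 rbar)) := by
  have := finite_resScal_ad0 p rbar
  exact Module.Finite.of_finite

end General

section Slice

variable {𝒪 : Type} [CommRing 𝒪] [IsDomain 𝒪] [IsDiscreteValuationRing 𝒪]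
  [IsAdicComplete (maximalIdeal 𝒪) 𝒪]

/-- **The three global LOC inputs of TOP** for `M = resScal p (ad0 Sl.rbar)`, from S56's literal
hypotheses (`Sl` arbitrary). -/
theorem locGlob_sliceData (p : ℕ) [Fact p.Prime] (hp2 : p ≠ 2)
    [Algebra (ZMod p) (ResidueField 𝒪)]
    (ρbar : ResidualGaloisRep (ResidueField 𝒪))
    (habs : ρbar.IsAbsolutelyIrreducible)
    (hdet : (GaloisRepAdic.ofResidualGaloisRep ρbar).DetIsCyclotomic p)
    (hTW : ∀ (K : Type) [Field K] [Algebra (ResidueField 𝒪) K]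
      (G : Subgroup (AlgebraicClosure ℚ ≃ₐ[ℚ] AlgebraicClosure ℚ)), G.index = 2 →
      ∀ V : Submodule K (ρbar.baseChange K).V,
        (∀ σ ∈ G, ∀ x ∈ V, (ρbar.baseChange K).ρ σ x ∈ V) → V = ⊥ ∨ V = ⊤)
    (Smin : Finset ℕ) (hpSmin : p ∈ Smin)
    (hmin : ∀ q : ℕ, q.Prime → q ≠ p → (q ∈ Smin ↔ ¬ ρbar.IsUnramifiedAt q))
    (Sl : SliceData 𝒪 ρbar) :
    IsUnramOutside p (toPrimes Smin) (resScal p (ad0 Sl.rbar)) ∧
      h0 p (resScal p (ad0 Sl.rbar)) = 0 ∧
      h0c p (resScal p (ad0 Sl.rbar)) = finrank (ZMod p) (ResidueField 𝒪) :=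
  ⟨isUnramOutside_resScal_ad0 p ρbar Sl.rbar_eq hpSmin hmin,
    h0_resScal_ad0 p ρbar Sl.rbar_eq (TWDetChi3.two_ne_zero_of_hdet ρbar p hdet hp2) habs hTW,
    h0c_resScal_ad0 p ρbar Sl.rbar_eq hp2 hdet⟩

/-- Smoothness for the slice model. -/
theorem isSmooth_sliceData (p : ℕ) [Fact p.Prime] [Algebra (ZMod p) (ResidueField 𝒪)]
    (ρbar : ResidualGaloisRep (ResidueField 𝒪)) (Sl : SliceData 𝒪 ρbar) :
    IsSmooth p (resScal p (ad0 Sl.rbar)) :=
  isSmooth_resScal_ad0 p ρbar Sl.rbar_eq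

end Slice

end Fermat.Agent.ES.T56.LocGlobSl5
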