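/-
Programme T (S56), chapter LOC, helper1: `ρ̄` ramified at `q` (the Prelude's `IsUnramifiedAt` fails,
which is what S56's `hmin` gives at the primes of `S_min ∖ {p}`) ⟹ the matrix model of `ρ̄` is
non-trivial on the inertia group of THE PRELUDE'S place `primeLocalPlace q` — the hypothesis `hram`
of `UrMem1.urMember` / `LocExport1.member_ur`.  (All places over `q` are conjugate: `PlacesConj16`.)
-/
import Mathlib
import Fermat.Prelude.Def_GaloisRep_Residual
import Fermat.Agent.S53.Defs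
import Fermat.Agent.PT.BR.UnramBridge13
import Fermat.Agent.ES.T56.PlacesConj16

set_option autoImplicit false

open ExtCitation
open scoped Pointwise

namespace Fermat.Agent.ES.T56.LocRam1

open Fermat.Agent.S53

variable {k : Type} [Field k]

/-- A homomorphism `f` on `G_ℚ` which is trivial on the inertia group of the Prelude's place over
`q` is trivial on the inertia group of every place over `q`. -/
theorem eq_one_of_forall_inertia {H : Type*} [Monoid H] (f : GQ →* H) (q : Nat.Primes)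
    (h : ∀ σ ∈ (primeLocalPlace q).inertiaSubgroupIn ℚ, f σ = 1)
    (P : ValuationSubring (AlgebraicClosure ℚ)) (hP : P.LiesOverPrime (q : ℕ)) :
    ∀ σ ∈ P.inertiaSubgroupIn ℚ, f σ = 1 := by
  intro σ hσ
  obtain ⟨g, hg⟩ := PlacesConj16.placesConj_primes q P hP
  -- `g⁻¹ σ g ∈ I_{P₀}`
  have h1 : g⁻¹ * σ * g⁻¹⁻¹ ∈ (g⁻¹ • P).inertiaSubgroupIn ℚ :=
    Fermat.Agent.PT.BR.UnramBridge13.conj_mem_inertiaSubgroupIn q.2 hP g⁻¹ hσ
  have h2 : g⁻¹ • P = primeLocalPlace q := by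
    rw [hg, ← mul_smul, inv_mul_cancel, one_smul]
  rw [h2, inv_inv] at h1
  have h3 := h _ h1
  have h4 : σ = g * (g⁻¹ * σ * g) * g⁻¹ := by group
  rw [h4, map_mul, map_mul, h3, mul_one, ← map_mul, mul_inv_cancel, map_one]

/-- `¬ ρ̄.IsUnramifiedAt q` ⟹ `rbar` is non-trivial on `I_{primeLocalPlace q}`. -/
theorem exists_ram_of_not_unramified (ρbar : ResidualGaloisRep k) (rbar : GQ →* M2 k)
    (b : Module.Basis (Fin 2) k ρbar.V)
    (hrbar : ∀ σ, rbar σ = LinearMap.toMatrix b b (ρbar.ρ σ)) (q : Nat.Primes)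
    (hq : ¬ ρbar.IsUnramifiedAt (q : ℕ)) :
    ∃ σ ∈ (primeLocalPlace q).inertiaSubgroupIn ℚ, rbar σ ≠ 1 := by
  by_contra hcon
  push Not at hcon
  apply hq
  intro P hP σ hσ
  have h1 := eq_one_of_forall_inertia rbar q hcon P hP σ hσ
  rw [hrbar] at h1
  have h2 : LinearMap.toMatrix b b (ρbar.ρ σ) = LinearMap.toMatrix b b 1 := by
    rw [h1, LinearMap.toMatrix_one]
  exact (LinearMap.toMatrix b b).injective h2

/-- The form used with S56's `hmin`: at a prime `q ∈ S_min`, `q ≠ p`. -/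
theorem exists_ram_of_hmin (ρbar : ResidualGaloisRep k) (rbar : GQ →* M2 k)
    (b : Module.Basis (Fin 2) k ρbar.V)
    (hrbar : ∀ σ, rbar σ = LinearMap.toMatrix b b (ρbar.ρ σ)) {p : ℕ} {Smin : Finset ℕ}
    (hmin : ∀ q : ℕ, q.Prime → q ≠ p → (q ∈ Smin ↔ ¬ ρbar.IsUnramifiedAt q))
    (q : Nat.Primes) (hqS : (q : ℕ) ∈ Smin) (hqp : (q : ℕ) ≠ p) :
    ∃ σ ∈ (primeLocalPlace q).inertiaSubgroupIn ℚ, rbar σ ≠ 1 :=
  exists_ram_of_not_unramified ρbar rbar b hrbar q ((hmin q q.2 hqp).1 hqS)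

end Fermat.Agent.ES.T56.LocRam1
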