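/-
Programme T (S56), chapter GW, helper25: brick 4 (C3 `HardP2` / `P2Eq`), abstract layers
(the degree-two, one step to the right, analogue of `MidBlock25`).

Layer 0 (abstract groups).
* `card_exact` : `A -f→ B -g→ C` exact at `B`, `B` and `ker f` finite:
  `A` is finite and `#A · #im g = #ker f · #B`.

Layer C (`K(P; X)` of a resolved module, vocabulary of `HK20`/`StarBlock25`): for
`0 → E → I → C → 0`, `N = ker f_E` (the divisible case), `I = ∏_q I_q`: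
* `card_p2_block` : `H²(G; N)` is finite,
  `#Ш²(N) · ∏_q #ℍ²(K(P; I_q)) ≤ #H²(G; N) · #ℍ²(K(P; C))`, with equality as soon as
  `t_* : ℍ²(K(P; I)) → ℍ²(K(P; C))` is onto.
  (`Ш²(N) = {h | ∀ q, res_q h = 0}`; inputs as in `StarBlock25.exists_b`.)
-/
import Mathlib
import Fermat.Agent.PT.PRO.StarBlock25

set_option autoImplicit false

namespace Fermat.Agent.ES.T56.P2Block25

open Function Module Fermat.Agent.PT.PRO.HyperLevel25 Fermat.Agent.PT.PRO.HyperCompare25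
  Fermat.Agent.PT.PRO.HyperRes25 Fermat.Agent.PT.PRO.StarBlock25

/-! ## Layer 0: abstract counting -/

section Abstract

variable {A B C : Type*} [AddCommGroup A] [AddCommGroup B] [AddCommGroup C]

/-- `#A = #ker f · #im f`. -/
theorem card_eq_card_ker_mul_card_range (f : A →+ B) :
    Nat.card A = Nat.card f.ker * Nat.card f.range := by
  rw [AddSubgroup.card_eq_card_quotient_mul_card_addSubgroup f.ker, mul_comm,
    Nat.card_congr (QuotientAddGroup.quotientKerEquivRange f).toEquiv]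

/-- **Exact count.**  `A -f→ B -g→ C` exact at `B`, `B` and `ker f` finite: `A` is finite and
`#A · #im g = #ker f · #B`. -/
theorem card_exact (f : A →+ B) (g : B →+ C) (hex : ∀ x, g x = 0 ↔ ∃ a, f a = x) [Finite B]
    [Finite f.ker] :
    Finite A ∧ Nat.card A * Nat.card g.range = Nat.card f.ker * Nat.card B := by
  have hkr : g.ker = f.range := by
    ext x
    rw [AddMonoidHom.mem_ker, AddMonoidHom.mem_range]
    exact hex x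
  have h1 := card_eq_card_ker_mul_card_range f
  have h2 := card_eq_card_ker_mul_card_range g
  rw [hkr] at h2
  have hA : Finite A := by
    apply Nat.finite_of_card_ne_zero
    rw [h1]
    exact Nat.mul_ne_zero Nat.card_pos.ne' Nat.card_pos.ne'
  refine ⟨hA, ?_⟩
  rw [h1, h2]
  ring

end Abstract

/-! ## Layer C: the resolved form -/

section ResolvedForm

open Fermat.Agent.PT.PRO.Resolved4 Fermat.Agent.PT.PRO.HK20 Fermat.Agent.PT.PRO.PairingRes1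

variable {k G : Type*} [CommRing k] [Group G] {𝒰 : Set (Subgroup G)}
variable {P1 P0 A E I C N : Type*} [AddCommGroup P1] [Module k P1] [AddCommGroup P0] [Module k P0]
  [AddCommGroup A] [Module k A] [AddCommGroup E] [Module k E] [AddCommGroup I] [Module k I]
  [AddCommGroup C] [Module k C] [AddCommGroup N] [Module k N]
variable (P : Resolved k 𝒰 P1 P0 A) [Module.Finite k P0] [Module.Finite k P1]
  (h𝒰 : IsLevelBasis 𝒰)
  {ρE : Representation k G E} (hE : IsDiscrete 𝒰 ρE)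
  {ρI : Representation k G I} (hI : IsDiscrete 𝒰 ρI)
  {ρC : Representation k G C} (hC : IsDiscrete 𝒰 ρC)
  (d : E →ₗ[k] I) (hd : ∀ g x, d (ρE g x) = ρI g (d x))
  (t : I →ₗ[k] C) (ht : ∀ g x, t (ρI g x) = ρC g (t x))
variable [Module.Projective k P0] [Module.Projective k P1]
  (hdinj : Injective d) (htsurj : Surjective t) (hex : Function.Exact d t)
variable {ρN : Representation k G N} (hN : IsDiscrete 𝒰 ρN) (ι0 : N →ₗ[k] (P0 →ₗ[k] E))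
  (hι : ∀ g n, ι0 (ρN g n) = (P.K h𝒰 ρE hE).ρ0 g (ι0 n))
  (hfι : ∀ n, (P.K h𝒰 ρE hE).f (ι0 n) = 0)
  (hinj : Injective ι0) (hker : ∀ b, (P.K h𝒰 ρE hE).f b = 0 → ∃ n, ι0 n = b)
  (hsurj : Surjective (P.K h𝒰 ρE hE).f)
variable {Q : Type*} {Gq : Q → Type*} [∀ q, Group (Gq q)] {𝒰q : ∀ q, Set (Subgroup (Gq q))}
  (h𝒰q : ∀ q, IsLevelBasis (𝒰q q)) {r : ∀ q, Gq q →* G} (hr : ∀ q, IsLevelHom (r q) (𝒰q q) 𝒰)
variable {Iq W Nq : Q → Type*} [∀ q, AddCommGroup (Iq q)] [∀ q, Module k (Iq q)]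
  [∀ q, AddCommGroup (W q)] [∀ q, Module k (W q)]
  [∀ q, AddCommGroup (Nq q)] [∀ q, Module k (Nq q)]
  {ρIq : ∀ q, Representation k G (Iq q)} (hIq : ∀ q, IsDiscrete 𝒰 (ρIq q))
  {ρW : ∀ q, Representation k (Gq q) (W q)} (hW : ∀ q, IsDiscrete (𝒰q q) (ρW q))
  (prj : ∀ q, I →ₗ[k] Iq q) (hprj : ∀ q g x, prj q (ρI g x) = ρIq q g (prj q x))
  (ev : ∀ q, Iq q →ₗ[k] W q) (hev : ∀ q g x, ev q (ρIq q (r q g) x) = ρW q g (ev q x))
variable {ρNq : ∀ q, Representation k (Gq q) (Nq q)} (hNq : ∀ q, IsDiscrete (𝒰q q) (ρNq q))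
  (ι0q : ∀ q, Nq q →ₗ[k] (P0 →ₗ[k] W q))
  (hιq : ∀ q g n, ι0q q (ρNq q g n) =
    ((comapResolved (r q) (hr q) P).K (h𝒰q q) (ρW q) (hW q)).ρ0 g (ι0q q n))
  (hfιq : ∀ q n, ((comapResolved (r q) (hr q) P).K (h𝒰q q) (ρW q) (hW q)).f (ι0q q n) = 0)
  (ν : ∀ q, N →ₗ[k] Nq q) (hν : ∀ q g n, ν q (ρN (r q g) n) = ρNq q g (ν q n))

omit [Module.Projective k P0] [Module.Projective k P1] in
/-- `ℍ²(K(P; I)) ≃ ∏_q ℍ²(K(P; I_q))` from `I ≅ ∏_q I_q` (finite product), in bijective form. -/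
theorem bijective_prod_ℍ2 [Finite Q] (hprod : Bijective (fun (x : I) (q : Q) => prj q x)) :
    Bijective (fun (x : (P.K h𝒰 ρI hI).ℍ2 h𝒰) (q : Q) =>
      (coefHom P h𝒰 hI (hIq q) (prj q) (hprj q)).mapℍ2 h𝒰 x) :=
  Fermat.Agent.PT.PRO.ProdInst10.prod_ℍ2_of_compRight
    (fun q => coefHom P h𝒰 hI (hIq q) (prj q) (hprj q)) h𝒰 prj hprod
    (fun _ _ => rfl) (fun _ _ => rfl)

include hE hd hdinj htsurj hex hι hfι hinj hker hsurj hprj in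
/-- **The `P²` block as a count.** -/
theorem card_p2_block [Fintype Q] (hprod : Bijective (fun (x : I) (q : Q) => prj q x))
    (hS2h : ∀ q, Injective ((KPHom (hr q) h𝒰 (h𝒰q q) (hIq q) (hW q) P (ev q) (hev q)).ppℍ2
      (hr q) h𝒰 (h𝒰q q)))
    (hincl : ∀ q, Injective (incl2 ((comapResolved (r q) (hr q) P).K (h𝒰q q) (ρW q) (hW q))
      (h𝒰q q) (hNq q) (ι0q q) (hιq q) (hfιq q)))
    (hνι : ∀ q n x, ι0q q (ν q n) x = ev q (prj q (d (ι0 n x))))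
    (hfinC : Finite ((P.K h𝒰 ρC hC).ℍ2 h𝒰))
    (hfinIq : ∀ q, Finite ((P.K h𝒰 (ρIq q) (hIq q)).ℍ2 h𝒰))
    (hfinSha : Finite {h : Hp2 h𝒰 ρN hN //
      ∀ q, (plainPHom (hr q) h𝒰 (h𝒰q q) hN (hNq q) (ν q) (hν q)).mapH2 h = 0}) :
    Finite (Hp2 h𝒰 ρN hN) ∧
      Nat.card {h : Hp2 h𝒰 ρN hN //
          ∀ q, (plainPHom (hr q) h𝒰 (h𝒰q q) hN (hNq q) (ν q) (hν q)).mapH2 h = 0} *
          ∏ q, Nat.card ((P.K h𝒰 (ρIq q) (hIq q)).ℍ2 h𝒰) ≤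
        Nat.card (Hp2 h𝒰 ρN hN) * Nat.card ((P.K h𝒰 ρC hC).ℍ2 h𝒰) ∧
      (Surjective ((coefHom P h𝒰 hI hC t ht).mapℍ2 h𝒰) →
        Nat.card {h : Hp2 h𝒰 ρN hN //
            ∀ q, (plainPHom (hr q) h𝒰 (h𝒰q q) hN (hNq q) (ν q) (hν q)).mapH2 h = 0} *
            ∏ q, Nat.card ((P.K h𝒰 (ρIq q) (hIq q)).ℍ2 h𝒰) =
          Nat.card (Hp2 h𝒰 ρN hN) * Nat.card ((P.K h𝒰 ρC hC).ℍ2 h𝒰)) := by
  classical
  have hse := coefHom_shortExact P h𝒰 hE hI hC d hd t ht hdinj htsurj hex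
  have hΦ := bijective_incl2 (P.K h𝒰 ρE hE) h𝒰 hN ι0 hι hfι hinj hker hsurj
  let f : Hp2 h𝒰 ρN hN →+ (P.K h𝒰 ρI hI).ℍ2 h𝒰 :=
    ((coefHom P h𝒰 hE hI d hd).mapℍ2 h𝒰).toAddMonoidHom.comp
      (incl2 (P.K h𝒰 ρE hE) h𝒰 hN ι0 hι hfι).toAddMonoidHom
  let g : (P.K h𝒰 ρI hI).ℍ2 h𝒰 →+ (P.K h𝒰 ρC hC).ℍ2 h𝒰 :=
    ((coefHom P h𝒰 hI hC t ht).mapℍ2 h𝒰).toAddMonoidHom
  have hfg : ∀ x, g x = 0 ↔ ∃ a, f a = x := by
    intro x
    refine (Cx.Hom.exact_mapℍ2_mapℍ2 hse h𝒰 x).trans ⟨?_, ?_⟩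
    · rintro ⟨y, rfl⟩
      obtain ⟨h, rfl⟩ := hΦ.2 y
      exact ⟨h, rfl⟩
    · rintro ⟨h, rfl⟩
      exact ⟨_, rfl⟩
  have hker' : ∀ h, h ∈ f.ker ↔
      ∀ q, (plainPHom (hr q) h𝒰 (h𝒰q q) hN (hNq q) (ν q) (hν q)).mapH2 h = 0 := fun h =>
    AddMonoidHom.mem_ker.trans
      (mapℍ2_incl2_K_eq_zero_iff P h𝒰 hE hI d hd hN ι0 hι hfι h𝒰q hr hIq hW prj hprj ev hev
        hNq ι0q hιq hfιq ν hν (hP2h_of_prod P h𝒰 hI hIq prj hprj hprod) hS2h hincl hνι h)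
  have e1 : {h : Hp2 h𝒰 ρN hN //
      ∀ q, (plainPHom (hr q) h𝒰 (h𝒰q q) hN (hNq q) (ν q) (hν q)).mapH2 h = 0} ≃ ↥f.ker :=
    Equiv.subtypeEquivRight fun h => (hker' h).symm
  have hbij := bijective_prod_ℍ2 P h𝒰 hI hIq prj hprj hprod
  have hfinI : Finite ((P.K h𝒰 ρI hI).ℍ2 h𝒰) := Finite.of_injective _ hbij.1
  have hfinK : Finite ↥f.ker := Finite.of_equiv _ e1
  have hcardI : Nat.card ((P.K h𝒰 ρI hI).ℍ2 h𝒰) =
      ∏ q, Nat.card ((P.K h𝒰 (ρIq q) (hIq q)).ℍ2 h𝒰) := by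
    rw [Nat.card_eq_of_bijective _ hbij, Nat.card_pi]
  obtain ⟨hfinN, hcard⟩ := card_exact f g hfg
  rw [Nat.card_congr e1, ← hcardI, ← hcard]
  refine ⟨hfinN, ?_, fun hs => ?_⟩
  · exact Nat.mul_le_mul_left _ (Nat.card_le_card_of_injective _ Subtype.val_injective)
  · have : g.range = ⊤ := AddMonoidHom.range_eq_top.2 hs
    rw [this, Nat.card_congr AddSubgroup.topEquiv.toEquiv]

end ResolvedForm

end Fermat.Agent.ES.T56.P2Block25
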