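/-
Programme T (S56), FLAT leg, chapter R′ (variant Q) — helper14.

AUXILIARY LEMMAS for the assembly `RPrimeCore14`:

* `rpow_neg_div` : if `ν^(2e) = p⁻¹` then `p^(-(k/(2e))) = ν^k` (real exponents ↔ powers of `ν`);
* `addVal_eq_of_snorm` : `‖x‖ = ‖π‖^n` ⟹ `addVal x = n` in `𝒪_E` (`π` a uniformizer);
* `snorm_eq_of_addVal` : the converse;
* `exists_isQuad` : existence of the tame quadratic extension `M = T(√λ)` (via helper8's
  `EisField8.exists_eisenstein_field` for `X² - λ`);
* `exists_twist_algHom` : the twist `ι : 𝒪_T → 𝒪_M/𝔞^m` of `TwistMap14.exists_twist`, as a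
  `ℤ_p`-algebra homomorphism.
-/
import Mathlib
import Fermat.Agent.PT.LOC.Interface12
import Fermat.Agent.PT.LOC.Structure14
import Fermat.Agent.PT.LOC.StructureNorm14
import Fermat.Agent.PT.LOC.StructureTower27
import Fermat.Agent.PT.LOC.RootsUnity14
import Fermat.Agent.ES.T56.FlatRIface14
import Fermat.Agent.ES.T56.TwistMap14
import Fermat.Agent.ES.T56.TwistQuad14
import Fermat.Agent.ES.T56.DvrEis8
import Fermat.Agent.ES.T56.EisModel8
import Fermat.Agent.ES.T56.EisField8

set_option autoImplicit false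
set_option linter.unusedSectionVars false

namespace Fermat.Agent.ES.T56.RPrimeAux14

open scoped Fermat.Agent.PT.LOC.Interface12 Fermat.Agent.PT.LOC.StructureTower27
open Fermat.Agent.PT.LOC.Interface12 Fermat.Agent.PT.LOC.Structure14
  Fermat.Agent.PT.LOC.StructureNorm14 Fermat.Agent.PT.LOC.StructureTower27
  Fermat.Agent.PT.LOC.RootsUnity14 Fermat.Agent.ES.T56.FlatRIface14
  Fermat.Agent.ES.T56.TwistMap14 Fermat.Agent.ES.T56.TwistQuad14 Polynomial
  IsDiscreteValuationRing

noncomputable section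

/-! ### Real exponents -/

/-- If `ν ^ (2e) = p⁻¹` then `p ^ (-(k/(2e))) = ν ^ k`. -/
theorem rpow_neg_div {p : ℝ} {ν : ℝ} (hν : 0 < ν) {e : ℕ} (he : e ≠ 0)
    (hνe : ν ^ (2 * e) = p⁻¹) (k : ℕ) :
    p ^ (-((k : ℝ) / (2 * (e : ℝ)))) = ν ^ k := by
  have hp : p = (ν⁻¹) ^ (2 * e) := by
    rw [inv_pow, hνe, inv_inv]
  have hν' : (0 : ℝ) ≤ ν⁻¹ := (inv_pos.2 hν).le
  have he' : (2 * (e : ℝ)) ≠ 0 := by positivity
  rw [hp, ← Real.rpow_natCast (ν⁻¹) (2 * e), ← Real.rpow_mul hν']
  have : ((2 * e : ℕ) : ℝ) * -((k : ℝ) / (2 * (e : ℝ))) = -(k : ℝ) := by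
    push_cast
    field_simp
  rw [this, Real.rpow_neg hν', Real.rpow_natCast, inv_pow, inv_inv]

variable (p : ℕ) [Fact p.Prime]

/-! ### `addVal` versus the spectral norm -/

section AddVal

variable (E : Type) [Field E] [Algebra ℚ_[p] E] [FiniteDimensional ℚ_[p] E]

theorem addVal_eq_of_snorm {π : E} (hπ : IsUniformizer p E π) (x : intRing p E) (n : ℕ)
    (hx : snorm p E (x : E) = snorm p E π ^ n) : addVal (intRing p E) x = (n : ℕ∞) := by
  have hπ0 : π ≠ 0 := hπ.2.1
  have hνpos : 0 < snorm p E π := snorm_pos p E hπ0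
  have hνlt : snorm p E π < 1 := snorm_uniformizer_lt_one p E π hπ
  have hx0 : (x : E) ≠ 0 := by
    intro h0
    rw [h0, snorm_zero] at hx
    exact (pow_pos hνpos n).ne hx
  rw [EisModel8.addVal_eq_natCast_iff p E x hx0 n]
  have h1 := snorm_eq_zpow p E (Units.mk0 π hπ0) hπ (Units.mk0 (x : E) hx0)
  rw [Units.val_mk0, Units.val_mk0, hx, ← zpow_natCast] at h1
  exact (zpow_right_injective₀ hνpos hνlt.ne h1).symm

theorem snorm_eq_of_addVal {π : E} (hπ : IsUniformizer p E π) (x : intRing p E) (n : ℕ)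
    (hx : addVal (intRing p E) x = (n : ℕ∞)) : snorm p E (x : E) = snorm p E π ^ n := by
  have hπ0 : π ≠ 0 := hπ.2.1
  have hx0 : (x : E) ≠ 0 := by
    intro h0
    have : x = 0 := Subtype.ext h0
    rw [this, addVal_zero] at hx
    exact ENat.top_ne_natCast n hx
  have h2 := (EisModel8.addVal_eq_natCast_iff p E x hx0 n).1 hx
  have h1 := snorm_eq_zpow p E (Units.mk0 π hπ0) hπ (Units.mk0 (x : E) hx0)
  rw [Units.val_mk0, Units.val_mk0, h2, zpow_natCast] at h1
  exact h1

end AddVal

/-! ### The quadratic extension -/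

section Quad

variable (T : Type) [Field T] [Algebra ℚ_[p] T] [FiniteDimensional ℚ_[p] T]

/-- Existence of `M = T(√λ)`. -/
theorem exists_isQuad {lam : T} (hlam : IsUniformizer p T lam) :
    ∃ (M : Type) (_ : Field M) (_ : Algebra ℚ_[p] M) (_ : Algebra T M)
      (_ : IsScalarTower ℚ_[p] T M) (_ : FiniteDimensional ℚ_[p] M) (lam' : M),
      IsQuad p T M lam lam' := by
  set lamO : intRing p T := ⟨lam, hlam.1⟩ with hlamO
  have hirr : Irreducible lamO := (isUniformizer_iff_irreducible p T lamO).1 hlam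
  have hmonic : (X ^ 2 - C lamO : (intRing p T)[X]).Monic := monic_X_pow_sub_C lamO two_ne_zero
  have hE := DvrEis8.isEisensteinAt_X_pow_sub_C (n := 2) two_ne_zero hirr
  have hdeg : (X ^ 2 - C lamO : (intRing p T)[X]).natDegree ≠ 0 := by
    rw [natDegree_X_pow_sub_C]; exact two_ne_zero
  obtain ⟨M, iF, iA, iAT, iST, iFD, θ, hroot, -, -, -, -, -, hadj⟩ :=
    EisField8.exists_eisenstein_field p T hmonic hE hdeg
  refine ⟨M, iF, iA, iAT, iST, iFD, (θ : M), hlam, ?_, ?_⟩
  · -- `θ ^ 2 = λ`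
    have h1 : θ ^ 2 = algebraMap (intRing p T) (intRing p M) lamO := by
      have := hroot
      rw [map_sub, map_pow, aeval_X, aeval_C, sub_eq_zero] at this
      exact this
    have h2 := congrArg (Subtype.val) h1
    simpa using h2
  · -- `M = T + T θ`
    have hsq : (θ : M) ^ 2 = algebraMap T M lam := by
      have h1 : θ ^ 2 = algebraMap (intRing p T) (intRing p M) lamO := by
        have := hroot
        rw [map_sub, map_pow, aeval_X, aeval_C, sub_eq_zero] at this
        exact this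
      have h2 := congrArg (Subtype.val) h1
      simpa using h2
    intro x
    have hx : x ∈ Algebra.adjoin T {(θ : M)} := by rw [hadj]; trivial
    induction hx using Algebra.adjoin_induction with
    | mem y hy =>
      rw [Set.mem_singleton_iff] at hy
      exact ⟨0, 1, by rw [hy, map_zero, map_one, zero_add, one_mul]⟩
    | algebraMap r => exact ⟨r, 0, by rw [map_zero, zero_mul, add_zero]⟩
    | add y z _ _ hy hz =>
      obtain ⟨y₀, y₁, rfl⟩ := hy
      obtain ⟨z₀, z₁, rfl⟩ := hz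
      exact ⟨y₀ + z₀, y₁ + z₁, by rw [map_add, map_add]; ring⟩
    | mul y z _ _ hy hz =>
      obtain ⟨y₀, y₁, rfl⟩ := hy
      obtain ⟨z₀, z₁, rfl⟩ := hz
      refine ⟨y₀ * z₀ + y₁ * z₁ * lam, y₀ * z₁ + y₁ * z₀, ?_⟩
      simp only [map_add, map_mul]
      rw [← hsq]
      ring

end Quad

/-! ### The twist as a `ℤ_p`-algebra homomorphism -/

section Twist

variable (K T M : Type) [Field K] [Field T] [Field M]
  [Algebra ℚ_[p] K] [Algebra ℚ_[p] T] [Algebra ℚ_[p] M]
  [FiniteDimensional ℚ_[p] K] [FiniteDimensional ℚ_[p] T] [FiniteDimensional ℚ_[p] M]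
  [Algebra K T] [Algebra T M] [IsScalarTower ℚ_[p] K T] [IsScalarTower ℚ_[p] T M]

/-- **The twist `ι`** (`TwistMap14.exists_twist`) for `𝒪_T = 𝒪_K[λ]/(λ^e - w)` and
`c ∈ 𝒪_M` with `w c ∈ 𝔞_M^m`, as a `ℤ_p`-algebra homomorphism `𝒪_T → 𝒪_M/𝔞_M^m`. -/
theorem exists_twist_algHom {lam : intRing p T} {e : ℕ} {w : intRing p K}
    (hpres : IsPres (intRing p K) (intRing p T) lam (X ^ e - C w)) (m : ℝ) (c : intRing p M)
    (hc : algebraMap (intRing p T) (intRing p M) (algebraMap (intRing p K) (intRing p T) w) * c ∈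
      aIdeal p M m) :
    ∃ ι : intRing p T →ₐ[ℤ_[p]] intRing p M ⧸ aIdeal p M m,
      ι lam = Ideal.Quotient.mk (aIdeal p M m)
        (algebraMap (intRing p T) (intRing p M) lam * (1 + c)) ∧
      ∀ x : intRing p T, ∃ γ : intRing p M, ι x = Ideal.Quotient.mk (aIdeal p M m)
        (algebraMap (intRing p T) (intRing p M) x +
          algebraMap (intRing p T) (intRing p M) lam * c * γ) := by
  let _ : Algebra K M := ((algebraMap T M).comp (algebraMap K T)).toAlgebra
  have : IsScalarTower K T M := IsScalarTower.of_algebraMap_eq (fun _ => rfl)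
  have : IsScalarTower ℚ_[p] K M := by
    refine IsScalarTower.of_algebraMap_eq (fun x => ?_)
    change algebraMap ℚ_[p] M x = algebraMap T M (algebraMap K T (algebraMap ℚ_[p] K x))
    rw [← IsScalarTower.algebraMap_apply ℚ_[p] K T, ← IsScalarTower.algebraMap_apply ℚ_[p] T M]
  have : IsScalarTower (intRing p K) (intRing p T) (intRing p M) :=
    IsScalarTower.of_algebraMap_eq (fun x => Subtype.ext (by
      rw [coe_algebraMap_intRing, coe_algebraMap_intRing, coe_algebraMap_intRing]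
      rfl))
  have hc' : algebraMap (intRing p K) (intRing p M) w * c ∈ aIdeal p M m := by
    rwa [IsScalarTower.algebraMap_apply (intRing p K) (intRing p T) (intRing p M)]
  obtain ⟨ι, hιA, hιl, hιx⟩ := exists_twist (A := intRing p K) (B := intRing p T)
    (B' := intRing p M) lam e w hpres (aIdeal p M m) c hc'
  refine ⟨{ ι with commutes' := ?_ }, hιl, hιx⟩
  intro z
  change ι (algebraMap ℤ_[p] (intRing p T) z) = algebraMap ℤ_[p] (intRing p M ⧸ aIdeal p M m) z
  rw [IsScalarTower.algebraMap_apply ℤ_[p] (intRing p K) (intRing p T), hιA,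
    ← IsScalarTower.algebraMap_apply ℤ_[p] (intRing p K) (intRing p M)]
  rfl

end Twist

end

end Fermat.Agent.ES.T56.RPrimeAux14
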