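/-
Programme T (S56), FLAT leg, chapter R′ (variant Q), step (N3) — helper14.

DESCENT from the maximal tame subfield `T` to a subfield `L₀`:

* `ramIdxZ_algEquiv` : the absolute ramification index is invariant under `ℚ_p`-isomorphisms;
* `descent` : `T/L₀` an extension of `p`-adic fields with `p ∤ e(T/ℚ_p)`; if `a ∈ L₀ˣ` lies in
  `(1 + p𝒪_T)·T^{×p}` then it lies in `(1 + p𝒪_{L₀})·L₀^{×p}`
  (normal form `(N1c)` in `L₀`, then `(N1a)` in `T` at the level `e(T/L₀)·i`).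
-/
import Mathlib
import Fermat.Agent.PT.LOC.Interface12
import Fermat.Agent.PT.LOC.Structure14
import Fermat.Agent.PT.LOC.StructureNorm14
import Fermat.Agent.PT.LOC.StructureTower27
import Fermat.Agent.PT.LOC.RootsUnity14
import Fermat.Agent.ES.T56.FlatRIface14
import Fermat.Agent.ES.T56.UnitLevelLoc4

set_option autoImplicit false
set_option linter.unusedSectionVars false

namespace Fermat.Agent.ES.T56.RPrimeDescent14

open scoped Fermat.Agent.PT.LOC.Interface12 Fermat.Agent.PT.LOC.StructureTower27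
open Fermat.Agent.PT.LOC.Interface12 Fermat.Agent.PT.LOC.Structure14
  Fermat.Agent.PT.LOC.StructureNorm14 Fermat.Agent.PT.LOC.StructureTower27
  Fermat.Agent.PT.LOC.RootsUnity14 Fermat.Agent.ES.T56.FlatRIface14

noncomputable section

variable (p : ℕ) [Fact p.Prime]

section Iso

variable {E E' : Type} [Field E] [Field E'] [Algebra ℚ_[p] E] [Algebra ℚ_[p] E']
  [FiniteDimensional ℚ_[p] E] [FiniteDimensional ℚ_[p] E']

/-- A `ℚ_p`-isomorphism maps uniformizers to uniformizers. -/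
theorem isUniformizer_algEquiv (φ : E ≃ₐ[ℚ_[p]] E') {π : E} (hπ : IsUniformizer p E π) :
    IsUniformizer p E' (φ π) := by
  have key : ∀ x : E, φ x ∈ intRing p E' ↔ x ∈ intRing p E := fun x =>
    mem_intRing_algHom_iff p E E' (φ : E →ₐ[ℚ_[p]] E') x
  obtain ⟨h1, h2, h3, h4⟩ := hπ
  refine ⟨(key π).2 h1, (map_ne_zero φ).2 h2, ?_, ?_⟩
  · rw [← map_inv₀, key]; exact h3
  · intro x' hx' hxi'
    obtain ⟨x, rfl⟩ := φ.surjective x'
    rw [← map_inv₀, ← map_mul, key]
    apply h4 x ((key x).1 hx')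
    intro hxi
    apply hxi'
    rw [← map_inv₀, key]
    exact hxi

/-- The absolute ramification index is an isomorphism invariant. -/
theorem ramIdxZ_algEquiv (φ : E ≃ₐ[ℚ_[p]] E') : ramIdxZ p E = ramIdxZ p E' := by
  obtain ⟨π, hπ⟩ := exists_isUniformizer p E
  have hπ' := isUniformizer_algEquiv p φ hπ
  have h1 := UnitLevelLoc4.snorm_natCast_eq hπ
  have h2 := UnitLevelLoc4.snorm_natCast_eq hπ'
  rw [snorm_natCast_q] at h1 h2
  have h3 : snorm p E' (φ (π : E)) = snorm p E (π : E) :=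
    snorm_algHom p E E' (φ : E →ₐ[ℚ_[p]] E') π
  rw [h3, h1] at h2
  have h4 := pow_right_injective₀ (snorm_pos p E hπ.2.1)
    (snorm_uniformizer_lt_one p E _ hπ).ne h2
  rw [← UnitLevelLoc4.ramE_cast, ← UnitLevelLoc4.ramE_cast]
  exact_mod_cast h4

end Iso

section Descent

variable (L₀ T : Type) [Field L₀] [Field T] [Algebra ℚ_[p] L₀] [Algebra ℚ_[p] T]
  [FiniteDimensional ℚ_[p] L₀] [FiniteDimensional ℚ_[p] T] [Algebra L₀ T]
  [IsScalarTower ℚ_[p] L₀ T]

variable {p L₀ T}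

/-- **(N3) Descent.** -/
theorem descent (htame : ¬ (p : ℤ) ∣ ramIdxZ p T) (a : L₀ˣ) (u b : Tˣ)
    (hab : algebraMap L₀ T (a : L₀) = (u : T) * (b : T) ^ p) (hu : IsOneModP p T (u : T)) :
    ∃ u₀ b₀ : L₀ˣ, a = u₀ * b₀ ^ p ∧ IsOneModP p L₀ (u₀ : L₀) := by
  have hp : p.Prime := Fact.out
  obtain ⟨f, hf0, hf⟩ := exists_ramificationIdx p L₀ T
  -- `e(T) = f e(L₀)`
  have hpT : ramIdxZ p T = f * ramIdxZ p L₀ := by
    unfold ramIdxZ
    rw [← hf]
    exact congrArg (ord p T) (Units.ext (by simp))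
  have hfp : ¬ (p : ℤ) ∣ (f : ℤ) := fun h => htame (hpT ▸ Dvd.dvd.mul_right h _)
  have hfpN : ¬ p ∣ f := fun h => hfp (Int.natCast_dvd_natCast.2 h)
  have heT : UnitLevelLoc4.ramE p T = f * UnitLevelLoc4.ramE p L₀ := by
    have := hpT
    rw [← UnitLevelLoc4.ramE_cast, ← UnitLevelLoc4.ramE_cast] at this
    exact_mod_cast this
  -- `u` is a unit
  have hu1 : snorm p T ((u : T) - 1) ≤ snorm p T (p : T) := (UnitLevelLoc4.isOneModP_iff_snorm p T _).1 hu
  have hplt : snorm p T (p : T) < 1 := by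
    rw [snorm_natCast_q]
    have : (1 : ℝ) < p := by exact_mod_cast hp.one_lt
    exact inv_lt_one_of_one_lt₀ this
  have hun : snorm p T (u : T) = 1 :=
    UnitLevelLoc4.snorm_eq_one_of_sub_one_lt p T (lt_of_le_of_lt hu1 hplt)
  have hu_ord : ord p T u = 0 :=
    (mem_unitGroup_iff_ord p T u).1 ((mem_unitGroup_iff_snorm p T u).2 hun)
  -- `p ∣ ord a`
  have hmap : Units.map (algebraMap L₀ T : L₀ →* T) a = u * b ^ p :=
    Units.ext (by simpa using hab)
  have hord : (f : ℤ) * ord p L₀ a = p * ord p T b := by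
    rw [← hf, hmap, ord_mul, ord_pow, hu_ord, zero_add]
  have hdvd : (p : ℤ) ∣ ord p L₀ a := by
    have h1 : (p : ℤ) ∣ (f : ℤ) * ord p L₀ a := ⟨_, hord⟩
    exact ((Nat.prime_iff_prime_int.1 hp).dvd_or_dvd h1).resolve_left hfp
  obtain ⟨π₀, hπ₀⟩ := exists_isUniformizer p L₀
  obtain ⟨lamT, hlamT⟩ := exists_isUniformizer p T
  rcases UnitLevelLoc4.exists_normal_form_loc hπ₀ a hdvd with h | ⟨u₀, b₀, i, hab₀, hpi, hie, hu₀⟩
  · exact h
  · exfalso
    have hνpos : 0 < snorm p T (lamT : T) := snorm_pos p T hlamT.2.1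
    have hνlt : snorm p T (lamT : T) < 1 := snorm_uniformizer_lt_one p T _ hlamT
    -- `|π₀| = |λ_T|^f`
    have hπ₀T : snorm p L₀ (π₀ : L₀) = snorm p T (lamT : T) ^ f := by
      have h1 := snorm_eq_zpow p T lamT hlamT (Units.map (algebraMap L₀ T : L₀ →* T) π₀)
      rw [hf, (isUniformizer_iff_ord p L₀ π₀).1 hπ₀, mul_one, zpow_natCast] at h1
      rw [← h1]
      exact (snorm_algebraMap_tower p L₀ T (π₀ : L₀)).symm
    have hlev : snorm p T (algebraMap L₀ T (u₀ : L₀) - 1) = snorm p T (lamT : T) ^ (f * i) := by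
      rw [← map_one (algebraMap L₀ T), ← map_sub, snorm_algebraMap_tower, hu₀, hπ₀T, ← pow_mul]
    have hpi' : ¬ p ∣ f * i := fun h => (hp.dvd_mul.1 h).elim hfpN hpi
    have hfi : f * i < UnitLevelLoc4.ramE p T := by
      rw [heT]; exact Nat.mul_lt_mul_of_pos_left hie hf0
    have hi' : (p - 1) * (f * i) < p * UnitLevelLoc4.ramE p T := by
      have h1 : (p - 1) * (f * i) ≤ p * (f * i) := Nat.mul_le_mul_right _ (Nat.sub_le p 1)
      have h2 : p * (f * i) < p * UnitLevelLoc4.ramE p T := Nat.mul_lt_mul_of_pos_left hfi hp.pos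
      omega
    have hv : snorm p T ((u : T) - 1) < snorm p T (lamT : T) ^ (f * i) := by
      refine lt_of_le_of_lt hu1 ?_
      rw [UnitLevelLoc4.snorm_natCast_eq hlamT]
      exact (pow_lt_pow_iff_right_of_lt_one₀ hνpos hνlt).2 hfi
    have hb₀0 : algebraMap L₀ T (b₀ : L₀) ≠ 0 := by
      rw [Ne, map_eq_zero]; exact b₀.ne_zero
    refine UnitLevelLoc4.ne_mul_pow_of_snorm hlamT hlev hpi' hi' hv
      (b := (b : T) / algebraMap L₀ T (b₀ : L₀)) ?_
    have h1 : algebraMap L₀ T (u₀ : L₀) * algebraMap L₀ T (b₀ : L₀) ^ p =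
        (u : T) * (b : T) ^ p := by
      rw [← hab, hab₀, Units.val_mul, Units.val_pow_eq_pow_val, map_mul, map_pow]
    rw [div_pow, ← mul_div_assoc, ← h1, mul_div_cancel_right₀ _ (pow_ne_zero p hb₀0)]

end Descent

end

end Fermat.Agent.ES.T56.RPrimeDescent14
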