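/-
Programme T (S56), chapter GW-D, brick (K2-bridge), part 1 (helper16): RELATIVE lifting of inertia and
decomposition elements from a finite level `M ⊆ ℚ̄` to the absolute Galois group, and the dictionary
"nonzero primes of `𝓞 M`  ↔  places of `ℚ̄`".

Everything is in the `ℚ̄`-world (`GQ = Gal(ℚ̄/ℚ)`, valuation subrings `A` of `ℚ̄`); `M` is ANY intermediate
field (not necessarily Galois over `ℚ`), `σ ∈ GQ` an automorphism with `σ M = M`.

* `restrictOfStable`  : the restriction `σ|_M : M ≃ₐ[ℚ] M`.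
* `exists_inertia_lift_of_stable` (U1): if `σ x - x ∈ 𝔪_A` for all integral `x ∈ M`, some
  `σ' ∈ A.inertiaSubgroupIn ℚ` agrees with `σ` on `M`.
* `exists_decomposition_lift_of_stable` (U2): if `σ x ∈ 𝔪_A ↔ x ∈ 𝔪_A` for all integral `x ∈ M`, some
  `σ' ∈ A.decompositionSubgroup ℚ` agrees with `σ` on `M`.
* `exists_place_of_prime` (U3): for ANY number field `Mt` with an embedding `ι : Mt →+* ℚ̄`, every
  nonzero prime `P` of `𝓞 Mt` is cut out by a place `A` of `ℚ̄` (`Cuts ι A P`), lying over a rational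
  prime (`Cuts.exists_liesOverPrime`).
-/
import Mathlib
import Fermat.Prelude.Def_FLTPrelim_Ramification
import Fermat.Agent.S13.UnramLift
import Fermat.Agent.S13.UnramBridge
import Fermat.Agent.PT.BR.UnramBridge13
import Fermat.Agent.ES.T56.PlacesConj16

set_option autoImplicit false
set_option linter.style.haveILetI false

open scoped Pointwise NumberField

namespace Fermat.Agent.ES.T56.RelLift16

open Fermat.Agent.S54 Fermat.Agent.S13.UnramVal Fermat.Agent.S13.UnramLift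

attribute [local instance] topOQ

local notation "Qbar" => AlgebraicClosure ℚ

/-- `G_ℚ`. -/
abbrev GQ : Type := Qbar ≃ₐ[ℚ] Qbar

variable (M : IntermediateField ℚ Qbar)

/-- The restriction to `M` of an automorphism of `ℚ̄` stabilising `M`. -/
noncomputable def restrictOfStable (σ : GQ) (h : ∀ x ∈ M, σ x ∈ M) (h' : ∀ x ∈ M, σ.symm x ∈ M) :
    ↥M ≃ₐ[ℚ] ↥M where
  toFun x := ⟨σ x, h x x.2⟩
  invFun x := ⟨σ.symm x, h' x x.2⟩
  left_inv x := Subtype.ext (σ.symm_apply_apply x)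
  right_inv x := Subtype.ext (σ.apply_symm_apply x)
  map_mul' x y := Subtype.ext (map_mul σ (x : Qbar) y)
  map_add' x y := Subtype.ext (map_add σ (x : Qbar) y)
  commutes' r := Subtype.ext (σ.commutes r)

@[simp] theorem restrictOfStable_apply (σ : GQ) (h : ∀ x ∈ M, σ x ∈ M) (h' : ∀ x ∈ M, σ.symm x ∈ M)
    (x : ↥M) : ((restrictOfStable M σ h h' x : ↥M) : Qbar) = σ x := rfl

theorem isIntegral_coe_iff (x : ↥M) : IsIntegral ℤ (x : Qbar) ↔ IsIntegral ℤ x :=
  isIntegral_algebraMap_iff (algebraMap ↥M Qbar).injective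

/-- **(U1)** relative inertia lifting. -/
theorem exists_inertia_lift_of_stable (A : ValuationSubring Qbar) {q : ℕ} (hq : q.Prime)
    (hA : A.LiesOverPrime q) (σ : GQ) (h : ∀ x ∈ M, σ x ∈ M) (h' : ∀ x ∈ M, σ.symm x ∈ M)
    (hσ : ∀ x ∈ M, IsIntegral ℤ x → σ x - x ∈ A.nonunits) :
    ∃ σ' ∈ A.inertiaSubgroupIn ℚ, ∀ x ∈ M, σ' x = σ x := by
  obtain ⟨σ', hI, hK⟩ := Fermat.Agent.S13.UnramBridge.exists_inertia_lift M A hq hA
    (restrictOfStable M σ h h') (fun x hx => hσ x x.2 ((isIntegral_coe_iff M x).2 hx))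
  exact ⟨σ', hI, fun x hx => hK ⟨x, hx⟩⟩

/-- A lift of `τ : M ≃ₐ[ℚ] M` stabilising the prime of `OQ` below `A`, when `τ` stabilises the prime
of `𝓞 M` below `A`. -/
theorem exists_lift_stabilizing' (A : ValuationSubring Qbar) (τ : ↥M ≃ₐ[ℚ] ↥M)
    (hτ : ∀ x : ↥M, IsIntegral ℤ x → (((τ x : ↥M) : Qbar) ∈ A.nonunits ↔ (x : Qbar) ∈ A.nonunits)) :
    ∃ σ : GQ, (∀ x : ↥M, σ x = τ x) ∧ ∀ b : OQ, (σ • b ∈ primeQ A ↔ b ∈ primeQ A) := by
  set σ₀ : GQ := τ.liftNormal Qbar with hσ₀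
  have hσ₀K : ∀ x : ↥M, σ₀ x = τ x := fun x => τ.liftNormal_commutes Qbar x
  have hσ₀K' : ∀ x : ↥M, σ₀⁻¹ (x : Qbar) = τ.symm x := by
    intro x
    have h1 := hσ₀K (τ.symm x)
    rw [AlgEquiv.apply_symm_apply] at h1
    rw [← h1]
    exact σ₀.symm_apply_apply _
  set Q := primeQ A with hQ
  have hunder : (σ₀ • Q).under (OK M) = Q.under (OK M) := by
    ext a
    rw [Ideal.mem_comap, Ideal.mem_comap, Ideal.mem_pointwise_smul_iff_inv_smul_mem,
      mem_primeQ, mem_primeQ]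
    have haK : ((a : OQ) : Qbar) ∈ M := a.2
    have haint : IsIntegral ℤ ((a : OQ) : Qbar) := (a : OQ).2
    set y : ↥M := τ.symm ⟨_, haK⟩ with hy
    have hyint : IsIntegral ℤ y := by
      have h0 : IsIntegral ℤ (⟨_, haK⟩ : ↥M) :=
        (isIntegral_algebraMap_iff (algebraMap ↥M Qbar).injective).mp haint
      exact map_isIntegral_int τ.symm h0
    have h1 := hτ y hyint
    rw [hy, AlgEquiv.apply_symm_apply] at h1
    have h2 : ((σ₀⁻¹ • (algebraMap (OK M) OQ a) : OQ) : Qbar) = (y : Qbar) := by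
      rw [hy, ← hσ₀K']; rfl
    rw [h2]
    exact h1.symm
  obtain ⟨g, hg⟩ := Algebra.IsInvariant.exists_smul_of_under_eq_of_profinite
    (A := OK M) (B := OQ) (G := Qbar ≃ₐ[↥M] Qbar) (σ₀ • Q) Q hunder
  refine ⟨(g.restrictScalars ℚ) * σ₀, fun x => ?_, fun b => ?_⟩
  · rw [AlgEquiv.mul_apply, hσ₀K]
    exact g.commutes (τ x)
  · have h1 : ((g.restrictScalars ℚ * σ₀) • b : OQ) = g • (σ₀ • b) := rfl
    rw [h1]
    conv_lhs => rw [hg]
    rw [Ideal.mem_pointwise_smul_iff_inv_smul_mem, inv_smul_smul,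
      Ideal.mem_pointwise_smul_iff_inv_smul_mem, inv_smul_smul]

/-- An automorphism stabilising the prime of `OQ` below `A` stabilises `A`. -/
theorem mem_decompositionSubgroup_of_primeQ (A : ValuationSubring Qbar) {q : ℕ} (hq : q.Prime)
    (hA : A.LiesOverPrime q) (σ : GQ) (hσ : ∀ b : OQ, (σ • b ∈ primeQ A ↔ b ∈ primeQ A)) :
    σ ∈ A.decompositionSubgroup ℚ := by
  rw [ValuationSubring.decompositionSubgroup, MulAction.mem_stabilizer_iff]
  have hprime : primeQ (σ • A) = primeQ A := by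
    rw [PlacesConj16.primeQ_smul]
    ext b
    rw [Ideal.mem_pointwise_smul_iff_inv_smul_mem, ← hσ (σ⁻¹ • b), smul_inv_smul]
  have hA' : (σ • A).LiesOverPrime q := Fermat.Agent.PT.BR.UnramBridge13.liesOverPrime_smul σ hA
  exact le_antisymm (PlacesConj16.le_of_primeQ_eq hq hA' hprime)
    (PlacesConj16.le_of_primeQ_eq hq hA hprime.symm)

/-- **(U2)** relative decomposition lifting. -/
theorem exists_decomposition_lift_of_stable (A : ValuationSubring Qbar) {q : ℕ} (hq : q.Prime)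
    (hA : A.LiesOverPrime q) (σ : GQ) (h : ∀ x ∈ M, σ x ∈ M) (h' : ∀ x ∈ M, σ.symm x ∈ M)
    (hσ : ∀ x ∈ M, IsIntegral ℤ x → (σ x ∈ A.nonunits ↔ x ∈ A.nonunits)) :
    ∃ σ' ∈ A.decompositionSubgroup ℚ, ∀ x ∈ M, σ' x = σ x := by
  obtain ⟨σ', hK, hQ⟩ := exists_lift_stabilizing' M A (restrictOfStable M σ h h')
    (fun x hx => hσ x x.2 ((isIntegral_coe_iff M x).2 hx))
  exact ⟨σ', mem_decompositionSubgroup_of_primeQ A hq hA σ' hQ, fun x hx => hK ⟨x, hx⟩⟩

/-! ### (U3): primes of `𝓞 Mt` and places of `ℚ̄`, for any field `Mt` embedded in `ℚ̄` -/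

section Places

variable {Mt : Type*} [Field Mt] (ι : Mt →+* Qbar)

/-- The embedding `𝓞 Mt → ℚ̄`. -/
noncomputable def toQbar : 𝓞 Mt →+* Qbar :=
  ι.comp (algebraMap (𝓞 Mt) Mt)

theorem toQbar_apply (x : 𝓞 Mt) : toQbar ι x = ι (x : Mt) := rfl

theorem toQbar_injective : Function.Injective (toQbar ι) :=
  ι.injective.comp NumberField.RingOfIntegers.coe_injective

theorem toQbar_natCast (n : ℕ) : toQbar ι (n : 𝓞 Mt) = (n : Qbar) := map_natCast _ n

/-- `x : Mt` is integral iff its image in `ℚ̄` is. -/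
theorem isIntegral_map_iff (x : Mt) : IsIntegral ℤ (ι x) ↔ IsIntegral ℤ x :=
  isIntegral_algHom_iff ι.toIntAlgHom ι.injective

/-- A place `A` of `ℚ̄` CUTS OUT the prime `P` of `𝓞 Mt`. -/
def Cuts (A : ValuationSubring Qbar) (P : Ideal (𝓞 Mt)) : Prop :=
  ∀ x : 𝓞 Mt, x ∈ P ↔ toQbar ι x ∈ A.nonunits

theorem Cuts.liesOverPrime_iff {A : ValuationSubring Qbar} {P : Ideal (𝓞 Mt)} (h : Cuts ι A P)
    (q : ℕ) : A.LiesOverPrime q ↔ ((q : ℕ) : 𝓞 Mt) ∈ P := by
  rw [h, toQbar_natCast]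
  rfl

/-- **(U3)** every nonzero prime of `𝓞 Mt` is cut out by a place of `ℚ̄`. -/
theorem exists_place_of_prime [NumberField Mt] (P : Ideal (𝓞 Mt)) [hPp : P.IsPrime] (hP : P ≠ ⊥) :
    ∃ A : ValuationSubring Qbar, Cuts ι A P := by
  set f := toQbar ι with hf
  let e : 𝓞 Mt ≃+* f.range :=
    RingEquiv.ofBijective f.rangeRestrict
      ⟨fun a b h => by
        have h' : f a = f b := congrArg (fun z : f.range => (z : Qbar)) h
        exact toQbar_injective ι h', f.rangeRestrict_surjective⟩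
  have he : ∀ x, ((e x : f.range) : Qbar) = f x := fun x => rfl
  set I : Ideal f.range := P.comap (e.symm : f.range →+* 𝓞 Mt) with hI
  have hItop : I ≠ ⊤ := Ideal.comap_ne_top _ hPp.ne_top
  obtain ⟨B, hRB, hIB⟩ := Ideal.image_subset_nonunits_valuationSubring I hItop
  have hfB : ∀ x, f x ∈ B := fun x => hRB ⟨x, rfl⟩
  refine ⟨B, fun x => ⟨fun hx => ?_, fun hx => ?_⟩⟩
  · apply hIB
    refine ⟨e x, ?_, rfl⟩
    rw [SetLike.mem_coe, hI, Ideal.mem_comap]
    simpa using hx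
  · by_contra hxP
    have hmax : P.IsMaximal := Ideal.IsPrime.isMaximal hPp hP
    obtain ⟨y, i, hi, hyi⟩ := hmax.exists_inv hxP
    have h1 : f y * f x + f i = 1 := by rw [← map_mul, ← map_add, hyi, map_one]
    have hi' : f i ∈ B.nonunits := by
      apply hIB
      refine ⟨e i, ?_, rfl⟩
      rw [SetLike.mem_coe, hI, Ideal.mem_comap]
      simpa using hi
    have h2 : B.valuation (f y * f x + f i) < 1 := by
      refine lt_of_le_of_lt (Valuation.map_add _ _ _) (max_lt ?_ ?_)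
      · rw [map_mul]
        have hy1 : B.valuation (f y) ≤ 1 := (ValuationSubring.valuation_le_one_iff B _).2 (hfB y)
        have hx1 : B.valuation (f x) < 1 := (ValuationSubring.mem_nonunits_iff B).1 hx
        calc B.valuation (f y) * B.valuation (f x) ≤ 1 * B.valuation (f x) :=
              mul_le_mul_left hy1 _
          _ < 1 := by rw [one_mul]; exact hx1
      · exact (ValuationSubring.mem_nonunits_iff B).1 hi'
    rw [h1, map_one] at h2
    exact lt_irrefl _ h2

/-- A natural number that is a non-unit of `A` has a prime factor over which `A` lies. -/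
theorem exists_prime_of_natCast_mem_nonunits (A : ValuationSubring Qbar) :
    ∀ n : ℕ, n ≠ 0 → (n : Qbar) ∈ A.nonunits → ∃ q : ℕ, q.Prime ∧ A.LiesOverPrime q := by
  intro n
  induction n using Nat.recOnMul with
  | zero => intro h; exact absurd rfl h
  | one =>
    intro _ h
    rw [Nat.cast_one, ValuationSubring.mem_nonunits_iff, map_one] at h
    exact absurd h (lt_irrefl _)
  | prime q hq => intro _ h; exact ⟨q, hq, h⟩
  | mul a b iha ihb =>
    intro hab h
    have ha0 : a ≠ 0 := fun h0 => hab (by rw [h0, zero_mul])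
    have hb0 : b ≠ 0 := fun h0 => hab (by rw [h0, mul_zero])
    rw [Nat.cast_mul, ValuationSubring.mem_nonunits_iff, map_mul] at h
    have ha1 : A.valuation (a : Qbar) ≤ 1 := (ValuationSubring.valuation_le_one_iff A _).2
      (mem_of_isIntegral_int A (by exact_mod_cast (isIntegral_algebraMap : IsIntegral ℤ ((a : ℤ) : Qbar))))
    have hb1 : A.valuation (b : Qbar) ≤ 1 := (ValuationSubring.valuation_le_one_iff A _).2
      (mem_of_isIntegral_int A (by exact_mod_cast (isIntegral_algebraMap : IsIntegral ℤ ((b : ℤ) : Qbar))))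
    rcases lt_or_eq_of_le ha1 with ha | ha
    · exact iha ha0 ((ValuationSubring.mem_nonunits_iff A).2 ha)
    · rw [ha, one_mul] at h
      exact ihb hb0 ((ValuationSubring.mem_nonunits_iff A).2 h)

/-- A place cutting out a nonzero prime lies over a rational prime. -/
theorem Cuts.exists_liesOverPrime [NumberField Mt] {A : ValuationSubring Qbar} {P : Ideal (𝓞 Mt)}
    (h : Cuts ι A P) (hP : P ≠ ⊥) : ∃ q : ℕ, q.Prime ∧ A.LiesOverPrime q := by
  have hn0 : Ideal.absNorm P ≠ 0 := by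
    rw [Ne, Ideal.absNorm_eq_zero_iff]
    exact hP
  have hmem : ((Ideal.absNorm P : ℕ) : 𝓞 Mt) ∈ P := by
    have := Ideal.absNorm_mem P
    exact_mod_cast this
  refine exists_prime_of_natCast_mem_nonunits A _ hn0 ?_
  rw [← toQbar_natCast ι]
  exact (h _).1 hmem

end Places

end Fermat.Agent.ES.T56.RelLift16
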