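/-
Programme T (S56), helper27: restriction of scalars `k ↦ 𝔽_p` and the Prelude's continuous cohomology.

For `A : Rep k G` (`k` a field with `[Algebra (ZMod p) k]`) and `h1Equiv A : H1 (resScal p A) ≃+ H1 A`
of `ResScal27`:

* `h1Equiv_map_res`   : `h1Equiv` commutes with the restriction maps `map f (𝟙 _) 1`
                        (in particular with `GWIface21.resLoc` and the Prelude's `locRes`);
* `mem_continuousH1_resScal_iff`  : `x ∈ continuousH1 r (resScal p A) ↔ h1Equiv A x ∈ continuousH1 r A`;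
* `mem_continuousH1S_resScal_iff` : the same for `continuousH1S Sg` (`G = G_ℚ`);
* `subRS A W` : the `𝔽_p`-submodule of `H1 (resScal p A)` corresponding to a `k`-submodule `W ≤ H1 A`,
  `subRSEquiv : subRS A W ≃ W`, `card_subRS`, `subRS_mono`, `subRS_inf`, `subRS_top`;
* `finrank_le_of_card_le` : `#X ≤ p^n · #Y → finrank_{𝔽_p} X ≤ n + finrank_{𝔽_p} Y`.
-/
import Mathlib
import Fermat.Prelude.Def_GroupCohomology_ContinuousUnramified
import Fermat.Agent.ES.T56.ResScal27

set_option autoImplicit false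
set_option linter.style.haveILetI false

open CategoryTheory groupCohomology Module

namespace Fermat.Agent.ES.T56.ResScalCoh27

open Fermat.Agent.ES.T56.ResScal27

variable {p : ℕ} [Fact p.Prime] {k : Type} [Field k] [Algebra (ZMod p) k]

section Map

variable {G H : Type} [Group G] [Group H]

/-- `h1Equiv` commutes with restriction along a group homomorphism. -/
theorem h1Equiv_map_res (f : H →* G) (A : Rep.{0} k G) (x : H1 (resScal p A)) :
    h1Equiv (Rep.res f A) ((map f (𝟙 (Rep.res f (resScal p A))) 1).hom x) =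
      (map f (𝟙 (Rep.res f A)) 1).hom (h1Equiv A x) := by
  obtain ⟨c, rfl⟩ := H1π_surjective (resScal p A) x
  have h1 := congrArg (fun φ => φ.hom c) (H1π_comp_map f (𝟙 (Rep.res f (resScal p A))))
  have h2 := congrArg (fun φ => φ.hom (cocOfRS A c)) (H1π_comp_map f (𝟙 (Rep.res f A)))
  simp only [ModuleCat.hom_comp, LinearMap.comp_apply] at h1 h2
  rw [h1Equiv_H1π, h2, h1]
  exact h1Equiv_H1π (Rep.res f A) _

end Map

section Continuous

variable {G : Type} [Group G] (r : G →* (AlgebraicClosure ℚ ≃ₐ[ℚ] AlgebraicClosure ℚ))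

theorem mem_continuousH1_resScal_iff (A : Rep.{0} k G) (x : H1 (resScal p A)) :
    x ∈ continuousH1 r (resScal p A) ↔ h1Equiv A x ∈ continuousH1 r A := by
  rw [mem_continuousH1_iff, mem_continuousH1_iff]
  constructor
  · rintro ⟨c, hc, rfl⟩
    exact ⟨cocOfRS A c, hc, (h1Equiv_H1π A c).symm⟩
  · rintro ⟨c, hc, h⟩
    refine ⟨cocToRS A c, hc, ?_⟩
    apply (h1Equiv A).injective
    rw [h1Equiv_H1π, cocOfRS_cocToRS, h]

end Continuous

section ContinuousS

theorem mem_continuousH1S_resScal_iff (Sg : Finset Nat.Primes)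
    (A : Rep.{0} k (AlgebraicClosure ℚ ≃ₐ[ℚ] AlgebraicClosure ℚ)) (x : H1 (resScal p A)) :
    x ∈ continuousH1S Sg (resScal p A) ↔ h1Equiv A x ∈ continuousH1S Sg A := by
  rw [mem_continuousH1S_iff, mem_continuousH1S_iff]
  constructor
  · rintro ⟨c, hc, rfl⟩
    exact ⟨cocOfRS A c, hc, (h1Equiv_H1π A c).symm⟩
  · rintro ⟨c, hc, h⟩
    refine ⟨cocToRS A c, hc, ?_⟩
    apply (h1Equiv A).injective
    rw [h1Equiv_H1π, cocOfRS_cocToRS, h]

end ContinuousS

section Sub

variable {G : Type} [Group G]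

/-- The `𝔽_p`-submodule of `H1 (resScal p A)` corresponding to a `k`-submodule of `H1 A`. -/
noncomputable def subRS (A : Rep.{0} k G) (W : Submodule k (H1 A)) :
    Submodule (ZMod p) (H1 (resScal p A)) where
  carrier := {x | h1Equiv A x ∈ W}
  add_mem' {x y} hx hy := by
    simp only [Set.mem_ofPred_eq, map_add] at hx hy ⊢
    exact W.add_mem hx hy
  zero_mem' := by
    simp only [Set.mem_ofPred_eq, map_zero]
    exact W.zero_mem
  smul_mem' c x hx := by
    simp only [Set.mem_ofPred_eq] at hx ⊢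
    rw [h1Equiv_smul]
    exact W.smul_mem _ hx

@[simp] theorem mem_subRS (A : Rep.{0} k G) (W : Submodule k (H1 A)) (x : H1 (resScal p A)) :
    x ∈ subRS A W ↔ h1Equiv A x ∈ W := Iff.rfl

/-- The bijection `subRS A W ≃ W`. -/
noncomputable def subRSEquiv (A : Rep.{0} k G) (W : Submodule k (H1 A)) :
    ↥(subRS (p := p) A W) ≃ ↥W where
  toFun x := ⟨h1Equiv A x.1, x.2⟩
  invFun y := ⟨(h1Equiv A).symm y.1, by
    rw [mem_subRS, AddEquiv.apply_symm_apply]
    exact y.2⟩
  left_inv x := by
    apply Subtype.ext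
    exact (h1Equiv A).symm_apply_apply x.1
  right_inv y := by
    apply Subtype.ext
    exact (h1Equiv A).apply_symm_apply y.1

theorem card_subRS (A : Rep.{0} k G) (W : Submodule k (H1 A)) :
    Nat.card ↥(subRS (p := p) A W) = Nat.card ↥W :=
  Nat.card_congr (subRSEquiv A W)

theorem subRS_mono (A : Rep.{0} k G) {W W' : Submodule k (H1 A)} (h : W ≤ W') :
    subRS (p := p) A W ≤ subRS A W' := fun _ hx => h hx

theorem subRS_inf (A : Rep.{0} k G) (W W' : Submodule k (H1 A)) :
    subRS (p := p) A (W ⊓ W') = subRS A W ⊓ subRS A W' := rfl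

theorem subRS_top (A : Rep.{0} k G) : subRS (p := p) A ⊤ = ⊤ := by
  ext x
  simp

theorem finite_subRS (A : Rep.{0} k G) (W : Submodule k (H1 A)) [Finite ↥W] :
    Finite ↥(subRS (p := p) A W) :=
  Finite.of_equiv _ (subRSEquiv A W).symm

end Sub

section Count

/-- From a cardinality bound to a bound of `𝔽_p`-dimensions. -/
theorem finrank_le_of_card_le {X Y : Type} [AddCommGroup X] [Module (ZMod p) X]
    [AddCommGroup Y] [Module (ZMod p) Y] [Finite X] [Finite Y] (n : ℕ)
    (h : Nat.card X ≤ p ^ n * Nat.card Y) : finrank (ZMod p) X ≤ n + finrank (ZMod p) Y := by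
  have hp : 1 < p := (Fact.out : p.Prime).one_lt
  haveI : Module.Finite (ZMod p) X := Module.Finite.of_finite
  haveI : Module.Finite (ZMod p) Y := Module.Finite.of_finite
  rw [Module.natCard_eq_pow_finrank (K := ZMod p) (V := X),
    Module.natCard_eq_pow_finrank (K := ZMod p) (V := Y), Nat.card_zmod, ← pow_add] at h
  exact (Nat.pow_le_pow_iff_right hp).1 h

/-- A finite `𝔽_p`-space is finite-dimensional and its cardinality is `p ^ finrank`. -/
theorem card_eq_pow_finrank {X : Type} [AddCommGroup X] [Module (ZMod p) X] [Finite X] :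
    Nat.card X = p ^ finrank (ZMod p) X := by
  haveI : Module.Finite (ZMod p) X := Module.Finite.of_finite
  rw [Module.natCard_eq_pow_finrank (K := ZMod p) (V := X), Nat.card_zmod]

end Count

end Fermat.Agent.ES.T56.ResScalCoh27
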