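/-
Programme T (S56), chapter FLAT, common brick (c1) `TameStructure`, pure tame extensions (helper8).

**The totally ramified extension `K(c^{1/n})` of a `p`-adic field `K`, `c` a uniformizer**
(PT/LOC model), bundled as existence statements.

* `exists_root_field` : for `n ≠ 0` and a uniformizer `c` of `K` there are a `p`-adic field `L ⊇ K`
  and `θ ∈ 𝒪_L` with `θ^n = c`, `θ` a uniformizer of `L`, `e(L/K) = n = [L : K]`, `f(L/K) = 1`,
  `𝒪_L = 𝒪_K[θ]`, `L = K(θ)`;
* `exists_sqrt_field` : for `n = 2`, moreover a `K`-automorphism `σ` of `L` with `σ θ = -θ`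
  (variant Q of Theorem R′: `L₀′ = T(√λ)`).
-/
import Mathlib
import Fermat.Agent.ES.T56.EisField8

set_option autoImplicit false
set_option linter.unusedSectionVars false

open IsDiscreteValuationRing Polynomial

open scoped Fermat.Agent.PT.LOC.Interface12 Fermat.Agent.PT.LOC.StructureTower27
open Fermat.Agent.PT.LOC.Interface12 Fermat.Agent.PT.LOC.Structure14
  Fermat.Agent.PT.LOC.StructureNorm14 Fermat.Agent.PT.LOC.StructureTower27
  Fermat.Agent.PT.LOC.StructureTowerEF27

namespace Fermat.Agent.ES.T56.RootField8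

noncomputable section

variable (p : ℕ) [Fact p.Prime]
variable (K : Type) [Field K] [Algebra ℚ_[p] K] [FiniteDimensional ℚ_[p] K]

theorem eval₂_neg_root {F : Type*} [Field F] (f : F[X]) (a : F) (hf : f = X ^ 2 - C a) :
    f.eval₂ (Algebra.ofId F (AdjoinRoot f) : F →+* AdjoinRoot f) (-AdjoinRoot.root f) = 0 := by
  have h := AdjoinRoot.eval₂_root f
  subst hf
  rw [eval₂_sub, eval₂_pow, eval₂_X, eval₂_C] at h ⊢
  rw [neg_sq]
  exact h

/-- **`K(c^{1/n})`** for a uniformizer `c` of `K` and `n ≠ 0`. -/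
theorem exists_root_field {n : ℕ} (hn : n ≠ 0) {c : intRing p K} (hc : Irreducible c) :
    ∃ (L : Type) (_ : Field L) (_ : Algebra ℚ_[p] L) (_ : Algebra K L)
      (_ : IsScalarTower ℚ_[p] K L) (_ : FiniteDimensional ℚ_[p] L) (θ : intRing p L),
      θ ^ n = algebraMap (intRing p K) (intRing p L) c ∧ Irreducible θ ∧ ramIdx p K L = n ∧
        resDeg p K L = 1 ∧ Module.finrank K L = n ∧
        Algebra.adjoin (intRing p K) {θ} = (⊤ : Subalgebra (intRing p K) (intRing p L)) ∧
        Algebra.adjoin K {(θ : L)} = (⊤ : Subalgebra K L) := by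
  have hmonic : (X ^ n - C c : (intRing p K)[X]).Monic := monic_X_pow_sub_C c hn
  have hE := DvrEis8.isEisensteinAt_X_pow_sub_C hn hc
  have hdeg : (X ^ n - C c : (intRing p K)[X]).natDegree = n := natDegree_X_pow_sub_C
  obtain ⟨L, i1, i2, i3, i4, i5, θ, h0, h1, h2, h3, h4, h5, h6⟩ :=
    EisField8.exists_eisenstein_field p K hmonic hE (by rw [hdeg]; exact hn)
  refine ⟨L, i1, i2, i3, i4, i5, θ, ?_, h1, by rw [h2, hdeg], h3, by rw [h4, hdeg], h5, h6⟩
  rw [map_sub, map_pow, aeval_X, aeval_C, sub_eq_zero] at h0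
  exact h0

/-- **`K(√c)`** for a uniformizer `c` of `K`, with the automorphism `√c ↦ -√c`. -/
theorem exists_sqrt_field {c : intRing p K} (hc : Irreducible c) :
    ∃ (L : Type) (_ : Field L) (_ : Algebra ℚ_[p] L) (_ : Algebra K L)
      (_ : IsScalarTower ℚ_[p] K L) (_ : FiniteDimensional ℚ_[p] L) (θ : intRing p L)
      (σ : L ≃ₐ[K] L),
      θ ^ 2 = algebraMap (intRing p K) (intRing p L) c ∧ Irreducible θ ∧ ramIdx p K L = 2 ∧
        resDeg p K L = 1 ∧ Module.finrank K L = 2 ∧
        Algebra.adjoin (intRing p K) {θ} = (⊤ : Subalgebra (intRing p K) (intRing p L)) ∧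
        Algebra.adjoin K {(θ : L)} = (⊤ : Subalgebra K L) ∧ σ (θ : L) = -(θ : L) := by
  have hmonic : (X ^ 2 - C c : (intRing p K)[X]).Monic := monic_X_pow_sub_C c two_ne_zero
  have hE := DvrEis8.isEisensteinAt_X_pow_sub_C two_ne_zero hc
  have hdeg : (X ^ 2 - C c : (intRing p K)[X]).natDegree = 2 := natDegree_X_pow_sub_C
  have : Fact (Irreducible ((X ^ 2 - C c : (intRing p K)[X]).map (algebraMap (intRing p K) K))) :=
    ⟨EisField8.irreducible_map_of_eisenstein p K hmonic hE (by rw [hdeg]; exact two_ne_zero)⟩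
  obtain ⟨h1, h2, h3, h4, h5⟩ := EisField8.eisensteinField_structure p K hmonic hE
  -- the automorphism
  have hroot' := eval₂_neg_root
    ((X ^ 2 - C c : (intRing p K)[X]).map (algebraMap (intRing p K) K)) ((c : intRing p K) : K)
    (by rw [Polynomial.map_sub, Polynomial.map_pow, map_X, map_C]; rfl)
  let σ₀ := AdjoinRoot.liftAlgHom
    ((X ^ 2 - C c : (intRing p K)[X]).map (algebraMap (intRing p K) K))
    (Algebra.ofId K (AdjoinRoot ((X ^ 2 - C c : (intRing p K)[X]).map
      (algebraMap (intRing p K) K))))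
    (-AdjoinRoot.root ((X ^ 2 - C c : (intRing p K)[X]).map (algebraMap (intRing p K) K))) hroot'
  have hbij : Function.Bijective σ₀ := AlgHom.bijective σ₀
  refine ⟨AdjoinRoot ((X ^ 2 - C c : (intRing p K)[X]).map (algebraMap (intRing p K) K)),
    inferInstance, inferInstance, inferInstance, inferInstance, inferInstance,
    ⟨_, EisField8.root_mem_intRing p K hmonic⟩, AlgEquiv.ofBijective σ₀ hbij, ?_, h1,
    by rw [h2, hdeg], h3, by rw [h4, hdeg], h5, AdjoinRoot.adjoinRoot_eq_top, ?_⟩
  · have h0 := EisField8.aeval_root p K hmonic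
    rw [map_sub, map_pow, aeval_X, aeval_C, sub_eq_zero] at h0
    exact h0
  · exact AdjoinRoot.liftAlgHom_root
      ((X ^ 2 - C c : (intRing p K)[X]).map (algebraMap (intRing p K) K))
      (Algebra.ofId K (AdjoinRoot ((X ^ 2 - C c : (intRing p K)[X]).map
        (algebraMap (intRing p K) K))))
      (-AdjoinRoot.root ((X ^ 2 - C c : (intRing p K)[X]).map (algebraMap (intRing p K) K)))
      hroot'

end

end Fermat.Agent.ES.T56.RootField8
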