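import Mathlib
import Fermat.Agent.ES.T56.T56Iface27
import Fermat.Agent.ES.T56.PowSurj23

/-!
# T56 (TAN, Part A export): `T56Iface27.PowSurj 𝒪` for finite residue field (helper10)

The commutative-algebra leaf of the contract, literally: `PowSurj23.exists_surjective_of_card_tangent_le`
has the `letI` structure `𝒪 → k → k[ε]`, which is the same term as `T56Iface27.dualAlg 𝒪`.
-/

set_option autoImplicit false

namespace Fermat.Agent.ES.T56.SurjOfTangent10

open IsLocalRing

/-- **`PowSurj 𝒪`** (contract `T56Iface27`), for a complete DVR with finite residue field. -/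
theorem powSurj {𝒪 : Type} [CommRing 𝒪] [IsDomain 𝒪] [IsDiscreteValuationRing 𝒪]
    [IsAdicComplete (maximalIdeal 𝒪) 𝒪] [Finite (ResidueField 𝒪)] :
    Fermat.Agent.ES.T56.T56Iface27.PowSurj 𝒪 := by
  intro R _ _ _ _ _ _ hres r _ hcard
  exact Fermat.Agent.ES.T56.PowSurj23.exists_surjective_of_card_tangent_le hres r hcard

end Fermat.Agent.ES.T56.SurjOfTangent10
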