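/-
Programme T (S56, Taylor–Wiles primes), TW chapter (helper3): consequences of `habs` and `hTW`,
part 4 (`T56_TW.md` §0, (F1)): **for every `m` some `σ₀` fixing the `m`-th roots of unity has split
distinct eigenvalues on `ρ̄`.**

Otherwise (with `hsplit`) every `σ` of the normal subgroup `G' = Gal(ℚ̄/ℚ(ζ_m))` has
`ρ̄(σ) = α_σ (1 + N_σ)` with `N_σ² = 0`.  The span `W` of the `Z_σ = ρ̄(σ) - α_σ` (`σ ∈ G'`) is a stable
subspace of `ad⁰ρ̄`, so `W = 0` or `W = ad⁰ρ̄` by `TWHypAd3.ad0_irreducible`.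
* `W = 0`: `ρ̄(G')` is scalar; as `Gal(ℚ̄/ℚ)/G'` is abelian, `Z_g` spans a stable line for every `g`
  with `ρ̄(g)` not scalar: impossible.
* `W = ad⁰ρ̄`: applying the hypothesis to `σσ'` and `σ²σ'` gives `tr (Z_σ Z_σ') = 0`, so the trace form
  vanishes identically on `sl₂`: impossible (`tr (H²) = 2`).
-/
import Mathlib
import Fermat.Agent.ES.T56.TWHypAd3
import Fermat.Agent.ES.T56.TWPred17

set_option autoImplicit false
set_option linter.unusedSectionVars false
set_option linter.style.haveILetI false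

open Polynomial Matrix

namespace Fermat.Agent.ES.T56.TWHypF1_3

open Fermat.Agent.ES.T56.TWHypAd3 Fermat.Agent.ES.T56.TWPred17
  Fermat.Agent.ES.R48.ModCyclo13

section Scalars

variable {k : Type} [Field k]

/-- The scalar computation behind `tr (Z_σ Z_σ') = 0`. -/
theorem key_scalar (h2 : (2 : k) ≠ 0) (a b T : k) (ha : a ≠ 0) (hb : b ≠ 0)
    (hAB : T ^ 2 = 4 * (a ^ 2 * b ^ 2))
    (hAAB : (2 * a * T - a ^ 2 * (2 * b)) ^ 2 = 4 * (a ^ 4 * b ^ 2)) : T = 2 * a * b := by
  have h1 : (T - 2 * a * b) * (T + 2 * a * b) = 0 := by linear_combination hAB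
  rcases mul_eq_zero.mp h1 with h | h
  · exact sub_eq_zero.mp h
  · exfalso
    have hT : T = -(2 * a * b) := eq_neg_of_add_eq_zero_left h
    rw [hT] at hAAB
    have h3 : (2 : k) ^ 5 * (a ^ 4 * b ^ 2) = 0 := by linear_combination hAAB
    rcases mul_eq_zero.mp h3 with h4 | h4
    · exact h2 (pow_eq_zero_iff (by norm_num) |>.mp h4)
    · rcases mul_eq_zero.mp h4 with h5 | h5
      · exact ha (pow_eq_zero_iff (by norm_num) |>.mp h5)
      · exact hb (pow_eq_zero_iff (by norm_num) |>.mp h5)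

theorem trace_mul_mul (A B : Matrix (Fin 2) (Fin 2) k) :
    (A * A * B).trace = A.trace * (A * B).trace - A.det * B.trace := by
  simp only [Matrix.trace_fin_two, Matrix.det_fin_two, Matrix.mul_apply, Fin.sum_univ_two]
  ring

/-- `tr ((A - a)(B - b)) = 0` for `A = a (1 + N)`, `B = b (1 + N')` as soon as `AB` and `A²B` are of
the same shape. -/
theorem trace_mul_eq_zero (h2 : (2 : k) ≠ 0) (A B : Matrix (Fin 2) (Fin 2) k) (a b c d : k)
    (hAt : A.trace = 2 * a) (hAd : A.det = a * a) (hBt : B.trace = 2 * b) (hBd : B.det = b * b)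
    (hct : (A * B).trace = 2 * c) (hcd : (A * B).det = c * c)
    (hdt : (A * A * B).trace = 2 * d) (hdd : (A * A * B).det = d * d)
    (ha : a ≠ 0) (hb : b ≠ 0) :
    ((A - a • (1 : Matrix (Fin 2) (Fin 2) k)) * (B - b • (1 : Matrix (Fin 2) (Fin 2) k))).trace
      = 0 := by
  have hT : (A * B).trace = 2 * a * b := by
    apply key_scalar h2 a b _ ha hb
    · rw [hct]
      have : c * c = a * a * (b * b) := by rw [← hcd, Matrix.det_mul, hAd, hBd]
      linear_combination 4 * this
    · have h1 := trace_mul_mul A B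
      rw [hAt, hAd, hBt] at h1
      have h3 : d * d = (a * a) * (a * a) * (b * b) := by
        rw [← hdd, Matrix.det_mul, Matrix.det_mul, hAd, hBd]
      have h4 : 2 * a * (A * B).trace - a ^ 2 * (2 * b) = 2 * d := by
        rw [← hdt, h1]
        ring
      rw [h4]
      linear_combination 4 * h3
  have e : (A - a • (1 : Matrix (Fin 2) (Fin 2) k)) * (B - b • (1 : Matrix (Fin 2) (Fin 2) k)) =
      A * B - b • A - a • B + (a * b) • (1 : Matrix (Fin 2) (Fin 2) k) := by
    rw [sub_mul, mul_sub, mul_sub, mul_smul_comm, mul_one, smul_mul_assoc, one_mul,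
      smul_mul_assoc, one_mul, smul_smul]
    abel
  rw [e, Matrix.trace_add, Matrix.trace_sub, Matrix.trace_sub, Matrix.trace_smul,
    Matrix.trace_smul, Matrix.trace_smul, hT, hAt, hBt, Matrix.trace_one]
  simp only [Fintype.card_fin, smul_eq_mul]
  push_cast
  ring

end Scalars

section Residual

variable {k : Type} [Field k] (ρbar : ResidualGaloisRep k)

/-- The matrix form of `ρbar` in a basis. -/
noncomputable def matRep (b : Module.Basis (Fin 2) k ρbar.V) : GQ →* Matrix (Fin 2) (Fin 2) k :=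
  ((LinearMap.toMatrixAlgEquiv b : Module.End k ρbar.V ≃ₐ[k] Matrix (Fin 2) (Fin 2) k) :
    Module.End k ρbar.V →* Matrix (Fin 2) (Fin 2) k).comp ρbar.ρ

theorem matRep_apply (b : Module.Basis (Fin 2) k ρbar.V) (σ : GQ) :
    matRep ρbar b σ = LinearMap.toMatrix b b (ρbar.ρ σ) := rfl

theorem matRep_trace (b : Module.Basis (Fin 2) k ρbar.V) (σ : GQ) :
    (matRep ρbar b σ).trace = LinearMap.trace k ρbar.V (ρbar.ρ σ) := by
  rw [matRep_apply, LinearMap.trace_eq_matrix_trace k b]

theorem matRep_det (b : Module.Basis (Fin 2) k ρbar.V) (σ : GQ) :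
    (matRep ρbar b σ).det = LinearMap.det (ρbar.ρ σ) := by
  rw [matRep_apply, LinearMap.det_toMatrix b]

/-- An element without split distinct eigenvalues, but with split characteristic polynomial, has
`tr = 2α`, `det = α²`. -/
theorem trace_det_of_not_splitDistinct (b : Module.Basis (Fin 2) k ρbar.V) {σ : GQ}
    (hsplit : ∃ α β : k, LinearMap.charpoly (ρbar.ρ σ) = (X - C α) * (X - C β))
    (hno : ¬ ∃ α β : k, α ≠ β ∧ LinearMap.charpoly (ρbar.ρ σ) = (X - C α) * (X - C β)) :
    ∃ α : k, (matRep ρbar b σ).trace = 2 * α ∧ (matRep ρbar b σ).det = α * α := by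
  obtain ⟨α, β, h⟩ := hsplit
  have hαβ : α = β := by
    by_contra hne
    exact hno ⟨α, β, hne, h⟩
  subst hαβ
  obtain ⟨ht, hd⟩ := trace_det_of_split ρbar.finrank_eq h
  exact ⟨α, by rw [matRep_trace, ht, two_mul], by rw [matRep_det, hd]⟩

theorem fixesRoots_mul {m : ℕ} {σ τ : GQ} (hσ : FixesRoots m σ) (hτ : FixesRoots m τ) :
    FixesRoots m (σ * τ) := by
  intro ζ hζ
  show σ (τ ζ) = ζ
  rw [hτ ζ hζ, hσ ζ hζ]

theorem fixesRoots_commutator (m : ℕ) [NeZero m] (τ g : GQ) :
    FixesRoots m (τ * g * τ⁻¹ * g⁻¹) := by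
  rw [fixesRoots_iff_chiMod, map_mul, map_mul, map_mul, map_inv, map_inv,
    mul_comm (chiMod m τ) (chiMod m g), mul_inv_cancel_right, mul_inv_cancel]

/-- **(F1)** For every `m ≠ 0` some `σ₀` fixing the `m`-th roots of unity has split distinct
eigenvalues on `ρbar`. -/
theorem exists_fixesRoots_splitDistinct (h2 : (2 : k) ≠ 0) (habs : ρbar.IsAbsolutelyIrreducible)
    (hTW : ∀ (K : Type) [Field K] [Algebra k K] (G : Subgroup GQ), G.index = 2 →
      ∀ V : Submodule K (ρbar.baseChange K).V,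
        (∀ σ ∈ G, ∀ x ∈ V, (ρbar.baseChange K).ρ σ x ∈ V) → V = ⊥ ∨ V = ⊤)
    (hsplit : ∀ σ : GQ, ∃ α β : k, LinearMap.charpoly (ρbar.ρ σ) = (X - C α) * (X - C β))
    (m : ℕ) [NeZero m] :
    ∃ σ₀ : GQ, (∀ ζ : AlgebraicClosure ℚ, ζ ^ m = 1 → σ₀ ζ = ζ) ∧
      ∃ α β : k, α ≠ β ∧ LinearMap.charpoly (ρbar.ρ σ₀) = (X - C α) * (X - C β) := by
  classical
  by_contra hcon
  push Not at hcon
  have hno : ∀ σ : GQ, FixesRoots m σ →
      ¬ ∃ α β : k, α ≠ β ∧ LinearMap.charpoly (ρbar.ρ σ) = (X - C α) * (X - C β) := by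
    intro σ hσ ⟨α, β, hαβ, h⟩
    exact hcon σ hσ α β hαβ h
  set b := Module.finBasisOfFinrankEq k ρbar.V ρbar.finrank_eq with hb
  set R := matRep ρbar b with hRdef
  have hR : ∀ σ, R σ = LinearMap.toMatrix b b (ρbar.ρ σ) := fun σ => rfl
  -- shape of the elements of `G'`
  have hshape : ∀ σ : GQ, FixesRoots m σ → ∃ α : k, (R σ).trace = 2 * α ∧ (R σ).det = α * α :=
    fun σ hσ => trace_det_of_not_splitDistinct ρbar b (hsplit σ) (hno σ hσ)
  have hdet0 : ∀ σ : GQ, (R σ).det ≠ 0 := by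
    intro σ h0
    have h1 : (R σ).det * (R σ⁻¹).det = 1 := by
      rw [← Matrix.det_mul, R_mul_inv, Matrix.det_one]
    rw [h0, zero_mul] at h1
    exact zero_ne_one h1
  -- the trace-zero part
  set Z : GQ → Matrix (Fin 2) (Fin 2) k :=
    fun σ => R σ - ((R σ).trace / 2) • (1 : Matrix (Fin 2) (Fin 2) k) with hZ
  have hZtr : ∀ σ, (Z σ).trace = 0 := by
    intro σ
    rw [hZ]
    simp only
    rw [Matrix.trace_sub, Matrix.trace_smul, Matrix.trace_one]
    simp only [Fintype.card_fin, smul_eq_mul]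
    push_cast
    field_simp
    ring
  have hZconj : ∀ σ τ : GQ, R τ * Z σ * R τ⁻¹ = Z (τ * σ * τ⁻¹) := by
    intro σ τ
    rw [hZ]
    simp only
    have ht : (R (τ * σ * τ⁻¹)).trace = (R σ).trace := by
      rw [map_mul, map_mul, Matrix.trace_mul_comm, ← mul_assoc, R_inv_mul, one_mul]
    rw [ht, mul_sub, sub_mul, mul_smul_comm, mul_one, smul_mul_assoc, R_mul_inv, map_mul, map_mul]
  have hZshape : ∀ σ : GQ, ∀ α : k, (R σ).trace = 2 * α →
      Z σ = R σ - α • (1 : Matrix (Fin 2) (Fin 2) k) := by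
    intro σ α h
    rw [hZ]
    simp only
    rw [h, mul_div_cancel_left₀ α h2]
  -- the span of `Z (G')`
  set W : Submodule k (Matrix (Fin 2) (Fin 2) k) :=
    Submodule.span k (Z '' {σ | FixesRoots m σ}) with hW
  have hWsl : W ≤ sl2 k := by
    rw [hW, Submodule.span_le]
    rintro _ ⟨σ, -, rfl⟩
    exact mem_sl2.mpr (hZtr σ)
  have hWstab : ∀ τ : GQ, ∀ X ∈ W, R τ * X * R τ⁻¹ ∈ W := by
    intro τ X hX
    induction hX using Submodule.span_induction with
    | mem X hX =>
      obtain ⟨σ, hσ, rfl⟩ := hX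
      rw [hZconj]
      exact Submodule.subset_span ⟨_, FixesRoots.conj hσ τ, rfl⟩
    | zero => rw [mul_zero, zero_mul]; exact Submodule.zero_mem _
    | add x y _ _ hx hy => rw [mul_add, add_mul]; exact Submodule.add_mem _ hx hy
    | smul a x _ hx =>
      rw [mul_smul_comm, smul_mul_assoc]
      exact Submodule.smul_mem _ a hx
  rcases ad0_irreducible ρbar h2 habs hTW R b hR W hWsl hWstab with hbot | htop
  · -- `ρbar (G')` is scalar
    have hZ0 : ∀ σ : GQ, FixesRoots m σ → Z σ = 0 := by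
      intro σ hσ
      have : Z σ ∈ W := Submodule.subset_span ⟨σ, hσ, rfl⟩
      rw [hbot] at this
      exact (Submodule.mem_bot k).mp this
    by_cases hall : ∀ g : GQ, Z g = 0
    · -- everything is scalar: the line `k E₁₂` is stable
      refine no_stable_line_matrix ρbar h2 habs hTW R b hR !![0, 1; 0, 0] ?_ ?_ (fun σ => ?_)
      · intro h
        have := congrFun (congrFun h 0) 1
        simp at this
      · rw [Matrix.trace_fin_two]
        simp
      · refine ⟨1, ?_⟩
        have hσ : R σ = ((R σ).trace / 2) • (1 : Matrix (Fin 2) (Fin 2) k) :=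
          sub_eq_zero.mp (hall σ)
        rw [one_smul, hσ, smul_mul_assoc, one_mul, mul_smul_comm, mul_one]
    · push Not at hall
      obtain ⟨g, hg⟩ := hall
      refine no_stable_line_matrix ρbar h2 habs hTW R b hR (Z g) hg (hZtr g) (fun τ => ?_)
      -- `τ g τ⁻¹ = h g` with `h ∈ G'` scalar
      have hh : FixesRoots m (τ * g * τ⁻¹ * g⁻¹) := fixesRoots_commutator m τ g
      have hscal : R (τ * g * τ⁻¹ * g⁻¹) =
          ((R (τ * g * τ⁻¹ * g⁻¹)).trace / 2) • (1 : Matrix (Fin 2) (Fin 2) k) :=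
        sub_eq_zero.mp (hZ0 _ hh)
      set c := (R (τ * g * τ⁻¹ * g⁻¹)).trace / 2 with hc
      have hconj : R (τ * g * τ⁻¹) = c • R g := by
        have e : τ * g * τ⁻¹ = (τ * g * τ⁻¹ * g⁻¹) * g := by group
        rw [e, map_mul, hscal, smul_mul_assoc, one_mul]
      have hZc : Z (τ * g * τ⁻¹) = c • Z g := by
        rw [hZ]
        simp only
        rw [hconj, Matrix.trace_smul, smul_sub, smul_smul, smul_eq_mul, mul_div_assoc]
      refine ⟨c, ?_⟩
      calc R τ * Z g = R τ * Z g * (R τ⁻¹ * R τ) := by rw [R_inv_mul, mul_one]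
        _ = (R τ * Z g * R τ⁻¹) * R τ := by simp only [mul_assoc]
        _ = c • (Z g * R τ) := by rw [hZconj, hZc, smul_mul_assoc]
  · -- the trace form vanishes on `W = sl₂`
    have hgen : ∀ σ σ' : GQ, FixesRoots m σ → FixesRoots m σ' → (Z σ * Z σ').trace = 0 := by
      intro σ σ' hσ hσ'
      obtain ⟨a, hat, had⟩ := hshape σ hσ
      obtain ⟨a', hbt, hbd⟩ := hshape σ' hσ'
      obtain ⟨c, hct, hcd⟩ := hshape (σ * σ') (fixesRoots_mul hσ hσ')
      obtain ⟨d, hdt, hdd⟩ := hshape (σ * σ * σ') (fixesRoots_mul (fixesRoots_mul hσ hσ) hσ')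
      rw [map_mul] at hct hcd
      rw [map_mul, map_mul] at hdt hdd
      have ha0 : a ≠ 0 := by
        intro h0
        apply hdet0 σ
        rw [had, h0, mul_zero]
      have hb0 : a' ≠ 0 := by
        intro h0
        apply hdet0 σ'
        rw [hbd, h0, mul_zero]
      rw [hZshape σ a hat, hZshape σ' a' hbt]
      exact trace_mul_eq_zero h2 (R σ) (R σ') a a' c d hat had hbt hbd hct hcd hdt hdd ha0 hb0
    have hform : ∀ X ∈ W, ∀ Y ∈ W, (X * Y).trace = 0 := by
      intro X hX
      induction hX using Submodule.span_induction with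
      | mem X hX =>
        obtain ⟨σ, hσ, rfl⟩ := hX
        intro Y hY
        induction hY using Submodule.span_induction with
        | mem Y hY =>
          obtain ⟨σ', hσ', rfl⟩ := hY
          exact hgen σ σ' hσ hσ'
        | zero => rw [mul_zero, Matrix.trace_zero]
        | add x y _ _ hx hy => rw [mul_add, Matrix.trace_add, hx, hy, add_zero]
        | smul c x _ hx => rw [mul_smul_comm, Matrix.trace_smul, hx, smul_zero]
      | zero => intro Y _; rw [zero_mul, Matrix.trace_zero]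
      | add x y _ _ hx hy =>
        intro Y hY
        rw [add_mul, Matrix.trace_add, hx Y hY, hy Y hY, add_zero]
      | smul c x _ hx =>
        intro Y hY
        rw [smul_mul_assoc, Matrix.trace_smul, hx Y hY, smul_zero]
    have hH : (!![1, 0; 0, -1] : Matrix (Fin 2) (Fin 2) k) ∈ W := by
      rw [htop, mem_sl2, Matrix.trace_fin_two]
      simp
    have h := hform _ hH _ hH
    rw [Matrix.trace_fin_two] at h
    simp only [Matrix.mul_apply, Fin.sum_univ_two, Matrix.of_apply, Matrix.cons_val',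
      Matrix.cons_val_zero, Matrix.cons_val_one, Matrix.empty_val', Matrix.cons_val_fin_one] at h
    apply h2
    linear_combination h

end Residual

end Fermat.Agent.ES.T56.TWHypF1_3
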