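/-
Programme T (S56), chapters LOC / FLAT, leaf `TameNF16` (helper16): the TAME PACKAGE in the language of the
Prelude's GLOBAL inertia groups — the number-field instance of helper1's abstract `TameChar1`
(`B = 𝓞 L`, `𝔓 = primeAt A L`, `G = Gal(L/ℚ)`), transported to any group `Γ` with a homomorphism
`r : Γ → G_ℚ` landing in the decomposition group of `A` (e.g. `Γ_q` and `primeLocalToGlobal q`).

`A` a valuation subring of `ℚ̄` over the prime `q` (the RESIDUE characteristic; no coefficient prime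
here), `L/ℚ` finite Galois, `J = inertiaLevel A L r = r⁻¹(I_A ⊔ Gal(ℚ̄/L))` (`InertiaBridge1`).

* `exists_uniformizer`   : `∃ π ∈ 𝔓, π ∉ 𝔓² ∧ 𝔓 = (π) ⊔ 𝔓²`;
* `tameLevel A L r π`    : `W = r⁻¹(restriction⁻¹ (tameKer 𝔓 π)) ≤ J`  ("wild inertia at level `L`");
* `tameLevel_normal`     : `W ⊴ Γ`;
* `exists_pow_mem_comap_fixingSubgroup` : `x ∈ W ⟹ ∃ a, x ^ q ^ a ∈ r⁻¹ Gal(ℚ̄/L)`  (`W` is a `q`-group
  modulo the level);
* `exists_generator`     : `∃ τ₀ ∈ J, ∀ τ ∈ J, ∃ n : ℕ, ∃ κ ∈ W, τ = τ₀ ^ n * κ`  (`J/W` cyclic);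
* `frob_rel_mem`         : `r φ` an arithmetic Frobenius at `𝔓`, `τ ∈ J` ⟹ `φ τ φ⁻¹ (τ ^ q)⁻¹ ∈ W`;
* `Nat.Primes` forms for `Γ_q`, `primeLocalPlace q`, `primeLocalToGlobal q`.
-/
import Mathlib
import Fermat.Agent.ES.T56.TameChar1
import Fermat.Agent.ES.T56.InertiaBridge1
import Fermat.Agent.ES.T56.LocFrob1

set_option autoImplicit false
set_option linter.unusedSectionVars false

open NumberField
open scoped Pointwise

namespace Fermat.Agent.ES.T56.TameNF16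

open Fermat.Agent.ES.GAL.ChebQbar23 Fermat.Agent.ES.T56.InertiaBridge1 Fermat.Agent.ES.T56.TameChar1

local notation "Qbar" => AlgebraicClosure ℚ

variable (A : ValuationSubring Qbar) (L : IntermediateField ℚ Qbar) [NumberField L]

/-! ### The action of `Gal(L/ℚ)` on `𝓞 L` is faithful -/

instance faithful_ringOfIntegers : FaithfulSMul (L ≃ₐ[ℚ] L) (𝓞 L) where
  eq_of_smul_eq_smul := by
    intro σ τ h
    refine AlgEquiv.ext fun z => ?_
    obtain ⟨x, y, hy, rfl⟩ := IsFractionRing.div_surjective (A := 𝓞 L) z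
    have hx' : σ (algebraMap (𝓞 L) L x) = τ (algebraMap (𝓞 L) L x) :=
      congrArg (fun w : 𝓞 L => (w : L)) (h x)
    have hy' : σ (algebraMap (𝓞 L) L y) = τ (algebraMap (𝓞 L) L y) :=
      congrArg (fun w : 𝓞 L => (w : L)) (h y)
    rw [map_div₀, map_div₀, hx', hy']

/-! ### A uniformizer -/

variable {A} in
/-- A uniformizer of `𝔓 = primeAt A L`. -/
theorem exists_uniformizer {q : ℕ} (hq : q.Prime) (hA : A.LiesOverPrime q) :
    ∃ π : 𝓞 L, π ∉ (primeAt A L) ^ 2 ∧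
      primeAt A L = Ideal.span {π} ⊔ (primeAt A L) ^ 2 := by
  have h0 : primeAt A L ≠ ⊥ := primeAt_ne_bot L hq hA
  have h1 : primeAt A L ≠ ⊤ := primeAt_ne_top A L
  obtain ⟨π, hπ1, hπ2⟩ := Ideal.exists_mem_pow_notMem_pow_succ (primeAt A L) h0 h1 1
  rw [pow_one] at hπ1
  refine ⟨π, hπ2, ?_⟩
  have hle : Ideal.span {π} ⊔ (primeAt A L) ^ 2 ≤ (primeAt A L) ^ 1 := by
    rw [pow_one]
    refine sup_le ?_ (Ideal.pow_le_self two_ne_zero)
    rw [Ideal.span_le, Set.singleton_subset_iff]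
    exact hπ1
  have hlt : (primeAt A L) ^ (1 + 1) < Ideal.span {π} ⊔ (primeAt A L) ^ 2 := by
    refine lt_of_le_of_ne le_sup_right ?_
    intro h
    apply hπ2
    have : π ∈ Ideal.span {π} ⊔ (primeAt A L) ^ 2 :=
      Ideal.mem_sup_left (Ideal.subset_span rfl)
    rw [← h] at this
    exact this
  have := Ideal.eq_prime_pow_of_succ_lt_of_le h0 hlt hle
  rw [pow_one] at this
  exact this.symm

/-! ### The wild inertia at level `L` -/

section Level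

variable [IsGalois ℚ L] {Γ : Type*} [Group Γ] (r : Γ →* GQ)

/-- The restriction `Γ → Gal(L/ℚ)`. -/
noncomputable def resΓ : Γ →* (L ≃ₐ[ℚ] L) := (AlgEquiv.restrictNormalHom L).comp r

/-- The wild inertia subgroup of `Γ` at level `L` (relative to the uniformizer `π`). -/
noncomputable def tameLevel (π : 𝓞 L) : Subgroup Γ :=
  (tameKer (G := L ≃ₐ[ℚ] L) (primeAt A L) π).comap (resΓ L r)

theorem mem_tameLevel (π : 𝓞 L) (γ : Γ) :
    γ ∈ tameLevel A L r π ↔ resΓ L r γ ∈ tameKer (G := L ≃ₐ[ℚ] L) (primeAt A L) π := Iff.rfl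

variable {A} {q : ℕ} (hq : q.Prime) (hA : A.LiesOverPrime q)

include hq hA

theorem mem_inertiaLevel_iff' (γ : Γ) :
    γ ∈ inertiaLevel A L r ↔ resΓ L r γ ∈ (primeAt A L).inertia (L ≃ₐ[ℚ] L) :=
  mem_inertiaLevel_iff A L r hq hA γ

theorem tameLevel_le (π : 𝓞 L) : tameLevel A L r π ≤ inertiaLevel A L r := by
  intro γ hγ
  rw [mem_inertiaLevel_iff' L r hq hA]
  exact tameKer_le _ _ hγ

/-- Elements of the wild inertia have `q`-power order modulo the level. -/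
theorem exists_pow_mem_comap_fixingSubgroup {π : 𝓞 L}
    (hπ : primeAt A L = Ideal.span {π} ⊔ (primeAt A L) ^ 2) {x : Γ}
    (hx : x ∈ tameLevel A L r π) : ∃ a : ℕ, x ^ q ^ a ∈ L.fixingSubgroup.comap r := by
  have : (primeAt A L).IsMaximal := primeAt_isMaximal L hq hA
  obtain ⟨a, ha⟩ := exists_pow_prime_pow_eq_one (G := L ≃ₐ[ℚ] L) (primeAt_ne_top A L) hπ hq
    (natCast_mem_primeAt L hA) hx
  refine ⟨a, ?_⟩
  rw [Subgroup.mem_comap, mem_fixingSubgroup_iff_restrict, map_pow, map_pow]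
  exact ha

variable (hr : ∀ γ, r γ ∈ A.decompositionSubgroup ℚ)

include hr

theorem resΓ_mem_stabilizer (γ : Γ) :
    resΓ L r γ ∈ MulAction.stabilizer (L ≃ₐ[ℚ] L) (primeAt A L) :=
  restrict_mem_stabilizer A L (hr γ)

/-- The wild inertia at level `L` is normal in `Γ`. -/
theorem tameLevel_normal {π : 𝓞 L} (hπ : primeAt A L = Ideal.span {π} ⊔ (primeAt A L) ^ 2)
    (hπ2 : π ∉ (primeAt A L) ^ 2) : (tameLevel A L r π).Normal := by
  have : (primeAt A L).IsMaximal := primeAt_isMaximal L hq hA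
  refine ⟨fun κ hκ γ => ?_⟩
  rw [mem_tameLevel, map_mul, map_mul, map_inv]
  exact conj_mem_tameKer hπ hπ2 (resΓ_mem_stabilizer L r hq hA hr γ) hκ

/-- **`J / W` is cyclic.** -/
theorem exists_generator {π : 𝓞 L} (hπ : primeAt A L = Ideal.span {π} ⊔ (primeAt A L) ^ 2)
    (hπ2 : π ∉ (primeAt A L) ^ 2) :
    ∃ τ₀ ∈ inertiaLevel A L r, ∀ τ ∈ inertiaLevel A L r,
      ∃ n : ℕ, ∃ κ ∈ tameLevel A L r π, τ = τ₀ ^ n * κ := by
  classical
  have hmax : (primeAt A L).IsMaximal := primeAt_isMaximal L hq hA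
  -- the image of `J` in the cyclic group `I(𝔓)/K`
  set I := (primeAt A L).inertia (L ≃ₐ[ℚ] L) with hI
  set θ := thetaU (G := L ≃ₐ[ℚ] L) hπ hπ2 with hθ
  have hcyc : IsCyclic (I ⧸ θ.ker) := isCyclic_quotient (G := L ≃ₐ[ℚ] L) hπ hπ2
  -- the homomorphism `J → I/K`
  let f : inertiaLevel A L r →* I ⧸ θ.ker :=
    (QuotientGroup.mk' θ.ker).comp
      { toFun := fun γ => ⟨resΓ L r γ.1, (mem_inertiaLevel_iff' L r hq hA γ.1).1 γ.2⟩
        map_one' := by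
          apply Subtype.ext
          simp
        map_mul' := by
          intro a b
          apply Subtype.ext
          simp }
  have hfcyc : IsCyclic f.range := inferInstance
  obtain ⟨g, hg⟩ := IsCyclic.exists_monoid_generator (α := f.range)
  obtain ⟨τ₀, hτ₀⟩ := g.2
  refine ⟨τ₀.1, τ₀.2, fun τ hτ => ?_⟩
  obtain ⟨n, hn⟩ := hg ⟨f ⟨τ, hτ⟩, ⟨⟨τ, hτ⟩, rfl⟩⟩
  have hn' : f τ₀ ^ n = f ⟨τ, hτ⟩ := by
    have := congrArg Subtype.val hn
    rw [SubmonoidClass.coe_pow] at this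
    rw [hτ₀]
    exact this
  refine ⟨n, (τ₀.1 ^ n)⁻¹ * τ, ?_, by group⟩
  -- `(τ₀^n)⁻¹ τ` maps to `1` in `I/K`
  have h1 : f ((τ₀ ^ n)⁻¹ * ⟨τ, hτ⟩) = 1 := by
    rw [map_mul, map_inv, map_pow, hn', inv_mul_cancel]
  have h2 : (⟨resΓ L r ((τ₀.1 ^ n)⁻¹ * τ),
      (mem_inertiaLevel_iff' L r hq hA _).1 (((τ₀ ^ n)⁻¹ * ⟨τ, hτ⟩ : inertiaLevel A L r)).2⟩ : I)
      ∈ θ.ker := by
    have := (QuotientGroup.eq_one_iff _).1 h1
    exact this
  rw [mem_ker_thetaU] at h2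
  exact h2

/-- **The Frobenius relation.** -/
theorem frob_rel_mem {π : 𝓞 L} (hπ : primeAt A L = Ideal.span {π} ⊔ (primeAt A L) ^ 2)
    (hπ2 : π ∉ (primeAt A L) ^ 2) {φ τ : Γ}
    (hφ : IsArithFrobAt (𝓞 ℚ) (resΓ L r φ) (primeAt A L)) (hτ : τ ∈ inertiaLevel A L r) :
    φ * τ * φ⁻¹ * (τ ^ q)⁻¹ ∈ tameLevel A L r π := by
  have hmax : (primeAt A L).IsMaximal := primeAt_isMaximal L hq hA
  have hcard : Nat.card (𝓞 ℚ ⧸ (primeAt A L).under (𝓞 ℚ)) = q := by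
    rw [← Fermat.Agent.CFT.NotAllSplit10.absNorm_eq_card]
    exact Fermat.Agent.PT.GLOB.DecompFrob17.absNorm_under_rat q hq (primeAt A L)
      (natCast_mem_primeAt L hA)
  have hQ : ∀ u : 𝓞 L, resΓ L r φ • u - u ^ q ∈ primeAt A L := by
    intro u
    have := hφ u
    rw [hcard] at this
    exact this
  rw [mem_tameLevel, map_mul, map_mul, map_mul, map_inv, map_inv, map_pow]
  exact conj_mul_pow_inv_mem_tameKer hπ hπ2 (resΓ_mem_stabilizer L r hq hA hr φ)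
    ((mem_inertiaLevel_iff' L r hq hA τ).1 hτ) hQ

end Level

/-! ### The local Galois group `Γ_q` -/

section Local

open ExtCitation Fermat.Agent.ES.T56.LocFrob1

variable [IsGalois ℚ L]

/-- **The tame package of `Γ_q` at level `L`, in the language of the Prelude's inertia group**
(`J = inertiaLevel (primeLocalPlace q) L (primeLocalToGlobal q) = r⁻¹(I_P ⊔ Gal(ℚ̄/L))`): a normal
subgroup `W ≤ J` of `q`-power order modulo the level, `J = ⟨τ₀⟩ W`, `Γ_q = ⟨φ⟩ J`,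
`φ τ φ⁻¹ ≡ τ ^ q` modulo `W` on `J`, and `r φ` is congruent to a Prelude Frobenius `φ'` modulo
`I_P ⊔ Gal(ℚ̄/L)`. -/
theorem exists_tame_package_primes (q : Nat.Primes) :
    ∃ (W : Subgroup (primeLocalGaloisGroup q)) (τ₀ φ : primeLocalGaloisGroup q),
      W.Normal ∧ W ≤ inertiaLevel (primeLocalPlace q) L (primeLocalToGlobal q) ∧
      (∀ x ∈ W, ∃ a : ℕ, x ^ (q : ℕ) ^ a ∈ L.fixingSubgroup.comap (primeLocalToGlobal q)) ∧
      τ₀ ∈ inertiaLevel (primeLocalPlace q) L (primeLocalToGlobal q) ∧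
      (∀ τ ∈ inertiaLevel (primeLocalPlace q) L (primeLocalToGlobal q),
        ∃ n : ℕ, ∃ κ ∈ W, τ = τ₀ ^ n * κ) ∧
      (∀ γ : primeLocalGaloisGroup q,
        ∃ n : ℕ, (φ ^ n)⁻¹ * γ ∈ inertiaLevel (primeLocalPlace q) L (primeLocalToGlobal q)) ∧
      (∀ τ ∈ inertiaLevel (primeLocalPlace q) L (primeLocalToGlobal q),
        φ * τ * φ⁻¹ * (τ ^ (q : ℕ))⁻¹ ∈ W) ∧
      IsArithFrobAt (𝓞 ℚ) (resΓ L (primeLocalToGlobal q) φ) (primeAt (primeLocalPlace q) L) := by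
  have hqp : (q : ℕ).Prime := q.2
  have : Fact (q : ℕ).Prime := ⟨q.2⟩
  have hA : (primeLocalPlace q).LiesOverPrime (q : ℕ) := primeLocalPlace_liesOverPrime q
  have hr : ∀ γ, primeLocalToGlobal q γ ∈ (primeLocalPlace q).decompositionSubgroup ℚ :=
    primeLocalToGlobal_mem_decompositionSubgroup q
  obtain ⟨π, hπ2, hπ⟩ := exists_uniformizer (A := primeLocalPlace q) L hqp hA
  obtain ⟨φ, hφ⟩ := exists_isArithFrobAt (q : ℕ) L
  have hφ' : IsArithFrobAt (𝓞 ℚ) (resΓ L (primeLocalToGlobal q) φ)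
      (primeAt (primeLocalPlace q) L) := hφ
  obtain ⟨τ₀, hτ₀, hgen⟩ := exists_generator L (primeLocalToGlobal q) hqp hA hr hπ hπ2
  refine ⟨tameLevel (primeLocalPlace q) L (primeLocalToGlobal q) π, τ₀, φ,
    tameLevel_normal L _ hqp hA hr hπ hπ2, tameLevel_le L _ hqp hA π,
    fun x hx => exists_pow_mem_comap_fixingSubgroup L _ hqp hA hπ hx, hτ₀, hgen, fun γ => ?_,
    fun τ hτ => frob_rel_mem L _ hqp hA hr hπ hπ2 hφ' hτ, hφ'⟩
  exact exists_pow_inv_mul_mem (primeLocalPlace q) L (primeLocalToGlobal q) hqp hA hr hφ' γ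

end Local

end Fermat.Agent.ES.T56.TameNF16
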