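/-
Programme T (S56, Taylor–Wiles primes), chapter TAN (helper10): **the export of TAN in the literal
shape `TopAsm27.TanSel`** (hypothesis `htan` of `TopAsm27.twSelmer_of_inputs`).

`A = Ad0Rep10.ad0 Sl.rbar`; the family of local conditions `Lk : TopObjs27.LocCondK A` is a PARAMETER.

* `LocMember p Sl 𝒟 Smin Lk` : the membership halves of LOC / FLAT, as ONE hypothesis — for every
  `T ⊇ Smin`, every strict lift `r : G_ℚ → GL₂(k[ε])` of `Sl.rbar` with `fstM (r σ) = Sl.rbar σ` which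
  is of type `𝒟 T`, every cocycle `c` with `c σ = epsPart r σ` and every `q ∈ toPrimes Smin`, the class
  of `c` localises into `Lk q`.
* `tanSel_of_locMember`       : `QuotStable (𝒟 T)`, `EquivStable (𝒟 T)`, "type ⇒ det cyclotomic",
  "type ⇒ unramified outside `T`" and `LocMember` give `TopAsm27.TanSel p ρbar 𝒟 Smin A Lk`.
* `tanSel_ord`, `tanSel_flat` : the two conditions of S56 (`T56Iface27.ordCond / flatCond 𝒪 p Smin`):
  only `LocMember` is left as a hypothesis (`QuotStableCor23`, `CondEquiv23` supply the rest).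
-/
import Mathlib
import Fermat.Agent.ES.T56.T56Iface27
import Fermat.Agent.ES.T56.TopPrep27
import Fermat.Agent.ES.T56.TopObjs27
import Fermat.Agent.ES.T56.TopAsm27
import Fermat.Agent.ES.T56.Ad0Rep10
import Fermat.Agent.ES.T56.TangentMap10
import Fermat.Agent.ES.T56.QuotStableCor23
import Fermat.Agent.ES.T56.CondEquiv23

set_option autoImplicit false
set_option linter.style.haveILetI false

namespace Fermat.Agent.ES.T56.TanSel10

open IsLocalRing GaloisRep groupCohomology Fermat.Agent.S53 Fermat.Agent.ES.T56.Ad0Rep10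
  Fermat.Agent.ES.T56.T56Iface27 Fermat.Agent.ES.T56.TopPrep27 Fermat.Agent.ES.T56.TopObjs27
  Fermat.Agent.ES.T56.TopAsm27 Fermat.Agent.ES.T56.TangentMap10

variable {𝒪 : Type} [CommRing 𝒪] [IsDomain 𝒪] [IsDiscreteValuationRing 𝒪]
  [IsAdicComplete (maximalIdeal 𝒪) 𝒪]
  {ρbar : ResidualGaloisRep (ResidueField 𝒪)}

/-- **The membership halves of LOC / FLAT**: the class of the `ε`-part cocycle of a strict lift of
`Sl.rbar` over `k[ε]` of type `𝒟 T` (`T ⊇ Smin`) localises into `Lk q` at every `q ∈ toPrimes Smin`. -/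
def LocMember (Sl : SliceData 𝒪 ρbar) (𝒟 : Finset ℕ → Cond 𝒪) (Smin : Finset ℕ)
    (Lk : LocCondK (ad0 Sl.rbar)) : Prop :=
  letI := dualAlg 𝒪
  ∀ T : Finset ℕ, Smin ⊆ T →
    ∀ (r : Fermat.Agent.S53.GQ →* M2 (DualNumber (ResidueField 𝒪)))
      (hr : MatCont (A := DualNumber (ResidueField 𝒪)) r),
      IsStrictLift (A := DualNumber (ResidueField 𝒪)) Sl.rbar r →
      (∀ σ, fstM (r σ) = Sl.rbar σ) →
      𝒟 T (ofMatrix (A := DualNumber (ResidueField 𝒪)) r hr) →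
      ∀ c : cocycles₁ (ad0 Sl.rbar),
        (∀ σ, ((c σ : sl2 (ResidueField 𝒪)) : M2 (ResidueField 𝒪)) = epsPart r σ) →
        ∀ q ∈ toPrimes Smin, resLocK q (ad0 Sl.rbar) ((H1π (ad0 Sl.rbar)).hom c) ∈ Lk q

/-- **TAN, generic type**: the tangent space of every deformation ring of type `𝒟 T` (`T ⊇ Smin`)
injects into `selK (ad0 Sl.rbar) Lk (toPrimes Smin) (toPrimes T)`. -/
theorem tanSel_of_locMember (p : ℕ) [Fact p.Prime] [Algebra (ZMod p) (ResidueField 𝒪)]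
    (Sl : SliceData 𝒪 ρbar) (𝒟 : Finset ℕ → Cond 𝒪) (Smin : Finset ℕ)
    (Lk : LocCondK (ad0 Sl.rbar))
    (hQ : ∀ T : Finset ℕ, letI := dualAlg 𝒪; QuotStable (𝒪 := 𝒪) (𝒟 T))
    (hE : ∀ T : Finset ℕ, letI := dualAlg 𝒪; EquivStable (𝒪 := 𝒪) (𝒟 T))
    (hdet : ∀ (T : Finset ℕ) (DQ : DeformationRingData 𝒪 ρbar (𝒟 T)), DQ.ρ.DetIsCyclotomic p)
    (hur : ∀ (T : Finset ℕ) (DQ : DeformationRingData 𝒪 ρbar (𝒟 T)) (q : ℕ), q.Prime → q ∉ T →
      DQ.ρ.IsUnramifiedAt q)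
    (hmem : LocMember Sl 𝒟 Smin Lk) :
    TanSel p ρbar 𝒟 Smin (ad0 Sl.rbar) Lk := by
  intro T hT DQ
  letI := dualAlg 𝒪
  obtain ⟨τ, hinj, hτ⟩ := exists_tangent_injection (𝒪 := 𝒪) (𝒟 := 𝒟 T) (fun _ => rfl) (hQ T) (hE T)
    DQ Sl p (toPrimes T) (hdet T DQ)
    (fun q hq => hur T DQ (q : ℕ) q.2 (fun h => hq (mem_toPrimes.2 h)))
  refine ⟨τ, hinj, fun f => ?_⟩
  rw [mem_selK_iff]
  refine ⟨(hτ f).1, fun q hq => ?_⟩
  rcases (hτ f).2 with h0 | ⟨r, hr, hs, hfst, htype, c, hc, hcl⟩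
  · rw [h0, map_zero]
    exact Submodule.zero_mem _
  · rw [hcl]
    exact hmem T hT r hr hs hfst htype c hc q hq

/-- **TAN for the strict-ordinary condition of S56.** -/
theorem tanSel_ord (p : ℕ) [Fact p.Prime] [Algebra (ZMod p) (ResidueField 𝒪)]
    (Sl : SliceData 𝒪 ρbar) (Smin : Finset ℕ) (Lk : LocCondK (ad0 Sl.rbar))
    (hmem : LocMember Sl (ordCond 𝒪 p Smin) Smin Lk) :
    TanSel p ρbar (ordCond 𝒪 p Smin) Smin (ad0 Sl.rbar) Lk :=
  tanSel_of_locMember p Sl (ordCond 𝒪 p Smin) Smin Lk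
    (fun T => letI := dualAlg 𝒪; QuotStableCor23.quotStable_ordCond p Smin T)
    (fun _ => letI := dualAlg 𝒪; fun _ _ ⟨e⟩ h => CondEquiv23.ordCond_of_equiv e h)
    (fun _ DQ => DQ.isOfType.1.1)
    (fun _ DQ q hq hqT => DQ.isOfType.1.2.2 q hq hqT) hmem

/-- **TAN for the flat condition of S56.** -/
theorem tanSel_flat (p : ℕ) [Fact p.Prime] [Algebra (ZMod p) (ResidueField 𝒪)]
    (Sl : SliceData 𝒪 ρbar) (Smin : Finset ℕ) (Lk : LocCondK (ad0 Sl.rbar))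
    (hmem : LocMember Sl (flatCond 𝒪 p Smin) Smin Lk) :
    TanSel p ρbar (flatCond 𝒪 p Smin) Smin (ad0 Sl.rbar) Lk :=
  tanSel_of_locMember p Sl (flatCond 𝒪 p Smin) Smin Lk
    (fun T => letI := dualAlg 𝒪; QuotStableCor23.quotStable_flatCond p Smin T)
    (fun _ => letI := dualAlg 𝒪; fun _ _ ⟨e⟩ h => CondEquiv23.flatCond_of_equiv e h)
    (fun _ DQ => DQ.isOfType.1.1)
    (fun _ DQ q hq hqT => DQ.isOfType.1.2.2 q hq hqT) hmem

end Fermat.Agent.ES.T56.TanSel10
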