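/-
Programme T (S56), chapters TAN + LOC + FLAT, the plug for the FLAT half (helper10; twin of helper11's
`TanPlugOrd11`):

  `tanSel_flat : TopAsm27.TanSel p ρbar (flatCond 𝒪 p Smin) Smin (ad0 Sl.rbar) (lkFlat p Sl.rbar L)`

for the local conditions
* `lkFlat p rbar L (pPrime p) = L`                       (`L` = the subspace produced by the contract
                                                          `FlatIface20.FlatExportM p k` of chapter FLAT),
* `lkFlat p rbar L q = locUr q (ad⁰ρ̄|Γ_q)` for `q ≠ p`   (unramified classes, `UrDef1`),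

from `TanSel10.tanSel_flat` (TAN: the tangent space injects into `H¹(G_{ℚ,T}, ad⁰ρ̄)`, every nonzero value is
the class of the `ε`-part of a strict lift of type `flatCond`), the membership clause of `FlatExportM` (at `p`)
and `UrMem1.urMember` (at `q ∈ Smin ∖ {p}`, where `ρ̄` is ramified by `hmin`).  Also the counts for `lkFlat` in
the literal shapes of `TopAsm27.twSelmer_of_inputs` (`hfinS`, `hmin`, `hpcount`), the matrix forms of the
hypotheses `hdet`, `hsplit` of S56, and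

  `twSelmer_flat : FlatExportM p k → … → T56Iface27.TWSelmer p ρbar S Smin (flatCond 𝒪 p Smin)`

(= `twSelmer_of_inputs` applied; the remaining hypotheses are verbatim those of `TanPlugOrd11.twSelmer_ord`).
-/
import Mathlib
import Fermat.Agent.ES.T56.TopAsm27
import Fermat.Agent.ES.T56.TanSel10
import Fermat.Agent.ES.T56.TanPlugOrd11
import Fermat.Agent.ES.T56.HrhoBar23
import Fermat.Agent.ES.T56.FlatIface20
import Fermat.Agent.ES.T56.UrMem1
import Fermat.Agent.ES.T56.UrDim1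

set_option autoImplicit false
set_option linter.style.haveILetI false
set_option linter.unusedSectionVars false

namespace Fermat.Agent.ES.T56.TanPlugFlat10

open CategoryTheory groupCohomology ExtCitation IsLocalRing Polynomial Fermat.Agent.S53
  Fermat.Agent.ES.T56.Ad0Rep10 Fermat.Agent.ES.T56.OrdIface11 Fermat.Agent.ES.T56.TopPrep27
  Fermat.Agent.ES.T56.TopObjs27 Fermat.Agent.ES.T56.TopAsm27 Fermat.Agent.ES.T56.UrDef1
open Fermat.Agent.ES.T56.T56Iface27 (flatCond dualAlg)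

/-! ### The local conditions of the flat type -/

section Lk

variable {k : Type} [Field k] (p : ℕ) [Fact p.Prime]

open Classical in
/-- **The local conditions of the flat type**: the given subspace `L` at `p`, the unramified classes
elsewhere. -/
noncomputable def lkFlat (rbar : GQ →* M2 k)
    (L : Submodule k (H1 (Rep.res (primeLocalToGlobal (pPrime p)) (ad0 rbar)))) :
    LocCondK (ad0 rbar) :=
  fun q => if h : q = pPrime p then
      (h ▸ L : Submodule k (H1 (Rep.res (primeLocalToGlobal q) (ad0 rbar))))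
    else locUr q (Rep.res (primeLocalToGlobal q) (ad0 rbar))

theorem lkFlat_pPrime (rbar : GQ →* M2 k)
    (L : Submodule k (H1 (Rep.res (primeLocalToGlobal (pPrime p)) (ad0 rbar)))) :
    lkFlat p rbar L (pPrime p) = L := by
  rw [lkFlat, dif_pos rfl]

theorem lkFlat_of_ne (rbar : GQ →* M2 k)
    (L : Submodule k (H1 (Rep.res (primeLocalToGlobal (pPrime p)) (ad0 rbar))))
    {q : Nat.Primes} (hq : q ≠ pPrime p) :
    lkFlat p rbar L q = locUr q (Rep.res (primeLocalToGlobal q) (ad0 rbar)) := by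
  rw [lkFlat, dif_neg hq]

end Lk

/-! ### The counts for `lkFlat`, in the literal shapes of `TopAsm27.twSelmer_of_inputs` -/

section Counts

variable {k : Type} [Field k] [Finite k] (p : ℕ) [Fact p.Prime]

/-- `hmin` (and its finiteness) for `lkFlat`: `#(Lk q ⊓ H¹_cont) ≤ #H⁰(G_q, ad⁰ρ̄)` at `q ≠ p`. -/
theorem hmin_lkFlat (rbar : GQ →* M2 k)
    (L : Submodule k (H1 (Rep.res (primeLocalToGlobal (pPrime p)) (ad0 rbar))))
    {q : Nat.Primes} (hq : q ≠ pPrime p) :
    Finite ↥(lkFlat p rbar L q ⊓ contLocK q (ad0 rbar)) ∧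
      Nat.card ↥(lkFlat p rbar L q ⊓ contLocK q (ad0 rbar)) ≤
        Nat.card ↥((Rep.res (primeLocalToGlobal q) (ad0 rbar)).ρ.invariants) := by
  haveI : Finite (Rep.res (primeLocalToGlobal q) (ad0 rbar)) := TanPlugOrd11.finite_ad0 rbar
  obtain ⟨hfin, hcard⟩ := UrDim1.card_locUr_le q (Rep.res (primeLocalToGlobal q) (ad0 rbar))
  rw [lkFlat_of_ne p rbar L hq]
  have hle : locUr q (Rep.res (primeLocalToGlobal q) (ad0 rbar)) ⊓ contLocK q (ad0 rbar) ≤
      locUr q (Rep.res (primeLocalToGlobal q) (ad0 rbar)) := inf_le_left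
  haveI := hfin
  exact ⟨Finite.of_injective _ (Submodule.inclusion_injective hle),
    (Nat.card_le_card_of_injective _ (Submodule.inclusion_injective hle)).trans hcard⟩

/-- `hpcount` (and its finiteness) for `lkFlat`: `#(Lk p ⊓ H¹_cont) ≤ #H⁰(G_p, ad⁰ρ̄) · #k`. -/
theorem hpcount_lkFlat (rbar : GQ →* M2 k)
    (L : Submodule k (H1 (Rep.res (primeLocalToGlobal (pPrime p)) (ad0 rbar))))
    (hfin : Finite ↥L)
    (hcard : Nat.card ↥L ≤
      Nat.card k * Nat.card ↥((Rep.res (primeLocalToGlobal (pPrime p)) (ad0 rbar)).ρ.invariants)) :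
    Finite ↥(lkFlat p rbar L (pPrime p) ⊓ contLocK (pPrime p) (ad0 rbar)) ∧
      Nat.card ↥(lkFlat p rbar L (pPrime p) ⊓ contLocK (pPrime p) (ad0 rbar)) ≤
        Nat.card ↥((Rep.res (primeLocalToGlobal (pPrime p)) (ad0 rbar)).ρ.invariants) *
          Nat.card k := by
  rw [lkFlat_pPrime]
  have hle : L ⊓ contLocK (pPrime p) (ad0 rbar) ≤ L := inf_le_left
  haveI := hfin
  exact ⟨Finite.of_injective _ (Submodule.inclusion_injective hle),
    ((Nat.card_le_card_of_injective _ (Submodule.inclusion_injective hle)).trans hcard).trans_eq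
      (mul_comm _ _)⟩

/-- `hfinS` for `lkFlat`. -/
theorem hfinS_lkFlat (rbar : GQ →* M2 k)
    (L : Submodule k (H1 (Rep.res (primeLocalToGlobal (pPrime p)) (ad0 rbar))))
    (hfin : Finite ↥L) (q : Nat.Primes) :
    Finite ↥(lkFlat p rbar L q ⊓ contLocK q (ad0 rbar)) := by
  by_cases hq : q = pPrime p
  · subst hq
    rw [lkFlat_pPrime]
    have hle : L ⊓ contLocK (pPrime p) (ad0 rbar) ≤ L := inf_le_left
    haveI := hfin
    exact Finite.of_injective _ (Submodule.inclusion_injective hle)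
  · exact (hmin_lkFlat p rbar L hq).1

end Counts

/-! ### The hypotheses `hdet`, `hsplit` of S56 in matrix form -/

section Matrix

variable {𝒪 : Type} [CommRing 𝒪] [IsLocalRing 𝒪]
  {ρbar : ResidualGaloisRep (ResidueField 𝒪)} (Sl : SliceData 𝒪 ρbar)

/-- `det` of the matrix model. -/
theorem det_rbar (σ : GQ) : (Sl.rbar σ).det = LinearMap.det (ρbar.ρ σ) := by
  rw [Sl.rbar_eq, LinearMap.det_toMatrix]

/-- `charpoly` of the matrix model. -/
theorem charpoly_rbar (σ : GQ) : (Sl.rbar σ).charpoly = LinearMap.charpoly (ρbar.ρ σ) := by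
  rw [Sl.rbar_eq, LinearMap.charpoly_toMatrix]

/-- S56's `hdet` in the matrix form of `FlatExportM`. -/
theorem det_rbar_eq_of_detIsCyclotomic {p : ℕ}
    (hdet : (GaloisRepAdic.ofResidualGaloisRep ρbar).DetIsCyclotomic p) (σ : GQ) (a : ℕ)
    (ha : ∀ μ : AlgebraicClosure ℚ, μ ^ p = 1 → σ μ = μ ^ a) :
    (Sl.rbar σ).det = (a : ResidueField 𝒪) := by
  rw [det_rbar]
  exact HrhoBar23.det_eq_of_detIsCyclotomic hdet σ a ha

/-- S56's `hsplit` in the matrix form of `FlatExportM`. -/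
theorem charpoly_rbar_split
    (hsplit : ∀ σ : GQ, ∃ α β : ResidueField 𝒪,
      LinearMap.charpoly (ρbar.ρ σ) = (X - C α) * (X - C β)) (σ : GQ) :
    ∃ α β : ResidueField 𝒪, (Sl.rbar σ).charpoly = (X - C α) * (X - C β) := by
  obtain ⟨α, β, h⟩ := hsplit σ
  exact ⟨α, β, by rw [charpoly_rbar, h]⟩

end Matrix

/-! ### The plug -/

section Plug

variable {𝒪 : Type} [CommRing 𝒪] [IsDomain 𝒪] [IsDiscreteValuationRing 𝒪]
  [IsAdicComplete (maximalIdeal 𝒪) 𝒪]

/-- **The plug, flat half**: `TanSel` for the flat type and the local conditions `lkFlat`, for any subspace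
`L` at `p` which receives the flat lifts with cyclotomic determinant (the membership clause of
`FlatIface20.FlatExportM`). -/
theorem tanSel_flat (p : ℕ) [Fact p.Prime] [Algebra (ZMod p) (ResidueField 𝒪)] (hp2 : p ≠ 2)
    (hpk : (p : ResidueField 𝒪) = 0)
    (ρbar : ResidualGaloisRep (ResidueField 𝒪)) (Sl : SliceData 𝒪 ρbar) (Smin : Finset ℕ)
    (hmin : ∀ q : ℕ, q.Prime → q ≠ p → (q ∈ Smin ↔ ¬ ρbar.IsUnramifiedAt q))
    (L : Submodule (ResidueField 𝒪)
      (H1 (Rep.res (primeLocalToGlobal (pPrime p)) (ad0 Sl.rbar))))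
    (hL : ∀ (r : GQ →* M2 (DualNumber (ResidueField 𝒪))) (hr : MatCont r),
      (∀ σ, fstM (r σ) = Sl.rbar σ) →
      (ofMatrix r hr).DetIsCyclotomic p → (ofMatrix r hr).IsFlatAt p →
      ∀ c : cocycles₁ (ad0 Sl.rbar),
        (∀ σ, ((c σ : sl2 (ResidueField 𝒪)) : M2 (ResidueField 𝒪)) = epsPart r σ) →
        (map (primeLocalToGlobal (pPrime p))
            (𝟙 (Rep.res (primeLocalToGlobal (pPrime p)) (ad0 Sl.rbar))) 1).hom
          ((H1π (ad0 Sl.rbar)).hom c) ∈ L) :
    TanSel p ρbar (flatCond 𝒪 p Smin) Smin (ad0 Sl.rbar) (lkFlat p Sl.rbar L) := by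
  refine TanSel10.tanSel_flat p Sl Smin (lkFlat p Sl.rbar L) ?_
  intro T _hT r hr _hs hfst h𝒟 c hc q hq
  by_cases hqp : q = pPrime p
  · subst hqp
    rw [lkFlat_pPrime]
    exact hL r hr hfst h𝒟.1.1 h𝒟.1.2.1 c hc
  · rw [lkFlat_of_ne p Sl.rbar L hqp]
    have hqp' : (q : ℕ) ≠ p := fun h => hqp (Subtype.ext h)
    have hqS : (q : ℕ) ∈ Smin := mem_toPrimes.1 hq
    exact UrMem1.urMember (Fact.out : p.Prime) hpk hp2 q hqp' Sl.rbar
      (TanPlugOrd11.exists_inertia_rbar_ne_one Sl q ((hmin (q : ℕ) q.2 hqp').1 hqS))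
      r hr hfst (h𝒟.2 (q : ℕ) hqS q.2 hqp') c hc

/-- **The flat half of `TWSelmer` from the chapter inputs**: `TopAsm27.twSelmer_of_inputs` applied to
`A = ad0 Sl.rbar`, `Lk = lkFlat p Sl.rbar L` (`L` from the contract `FlatExportM` of chapter FLAT), with the
TAN input and the local inputs at the primes of `Smin` discharged.  What remains: GW (`P`, `hgw`, `hmono`),
TW (`Φ`, `hΦ`, `htw`), the global LOC facts (`hur`, `hh0`, `hh0c`) and the count at the Taylor–Wiles primes
(`hQ`) — verbatim as in `TanPlugOrd11.twSelmer_ord`; `hdet`, `hsplit`, `hmin` are S56's literal hypotheses. -/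
theorem twSelmer_flat (p : ℕ) [Fact p.Prime] [Algebra (ZMod p) (ResidueField 𝒪)]
    [Module.Finite (ZMod p) (ResidueField 𝒪)] [Finite (ResidueField 𝒪)] (hp2 : p ≠ 2)
    (hflat : FlatIface20.FlatExportM p (ResidueField 𝒪))
    (ρbar : ResidualGaloisRep (ResidueField 𝒪)) (Sl : SliceData 𝒪 ρbar) (S Smin : Finset ℕ)
    (hpSmin : p ∈ Smin) (hSmin : Smin ⊆ S)
    (hdet : (GaloisRepAdic.ofResidualGaloisRep ρbar).DetIsCyclotomic p)
    (hsplit : ∀ σ : AlgebraicClosure ℚ ≃ₐ[ℚ] AlgebraicClosure ℚ,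
      ∃ α β : ResidueField 𝒪, LinearMap.charpoly (ρbar.ρ σ) = (X - C α) * (X - C β))
    (hmin : ∀ q : ℕ, q.Prime → q ≠ p → (q ∈ Smin ↔ ¬ ρbar.IsUnramifiedAt q))
    (P : GWIface21.LocPairing p (ResScal27.resScal p (ad0 Sl.rbar)))
    (hgw : GWIface21.GWLe (ResScal27.resScal p (ad0 Sl.rbar)) P)
    (hmono : GWIface21.DualSelMono (ResScal27.resScal p (ad0 Sl.rbar)) P)
    (Φ : ℕ → GWIface21.GQ) (hΦ : ∀ q : Nat.Primes, Φ (q : ℕ) ∈ (primeLocalToGlobal q).range)
    (htw : TWSetExists p ρbar S (GWIface21.dualT p (ResScal27.resScal p (ad0 Sl.rbar))) Φ)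
    (hur : GWIface21.IsUnramOutside p (toPrimes Smin) (ResScal27.resScal p (ad0 Sl.rbar)))
    (hh0 : GWIface21.h0 p (ResScal27.resScal p (ad0 Sl.rbar)) = 0)
    (hh0c : GWIface21.h0c p (ResScal27.resScal p (ad0 Sl.rbar)) =
      Module.finrank (ZMod p) (ResidueField 𝒪))
    (hQ : ∀ q : Nat.Primes, (q : ℕ) ∉ S → p ∣ (q : ℕ) - 1 → T56Iface27.FrobSplit ρbar (q : ℕ) →
      Finite ↥(contLocK q (ad0 Sl.rbar)) ∧ Nat.card ↥(contLocK q (ad0 Sl.rbar)) ≤
        Nat.card ↥((Rep.res (primeLocalToGlobal q) (ad0 Sl.rbar)).ρ.invariants) *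
          Nat.card (ResidueField 𝒪)) :
    T56Iface27.TWSelmer p ρbar S Smin (flatCond 𝒪 p Smin) := by
  have hpk : (p : ResidueField 𝒪) = 0 := HrhoBar23.natCast_eq_zero_of_detIsCyclotomic hdet
  haveI : CharP (ResidueField 𝒪) p := (CharP.charP_iff_prime_eq_zero (Fact.out : p.Prime)).2 hpk
  obtain ⟨L, -, hLfin, hLcard, hLmem⟩ := hflat hp2 inferInstance inferInstance Sl.rbar
    (OrdLine11.factorsThroughFiniteLevel_rbar Sl)
    (det_rbar_eq_of_detIsCyclotomic Sl hdet) (charpoly_rbar_split Sl hsplit)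
  haveI : Finite (ad0 Sl.rbar) := TanPlugOrd11.finite_ad0 Sl.rbar
  exact twSelmer_of_inputs p ρbar S Smin hpSmin hSmin (flatCond 𝒪 p Smin) (ad0 Sl.rbar)
    (lkFlat p Sl.rbar L) (tanSel_flat p hp2 hpk ρbar Sl Smin hmin L hLmem) P hgw hmono Φ hΦ htw hur
    (fun q _ => hfinS_lkFlat p Sl.rbar L hLfin q) hh0 hh0c
    (fun q _ hq => (hmin_lkFlat p Sl.rbar L hq).2)
    (hpcount_lkFlat p Sl.rbar L hLfin hLcard).2 hQ

end Plug

end Fermat.Agent.ES.T56.TanPlugFlat10
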