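/-
Programme T (S56), chapter TOP (helper27): THE FLAT HALF and THE WHOLE OF S56 from S56's literal
hypotheses and the claims that are still being proved:

* `TopOrd27.GwClaims p`                    : C3 (`HardP2`) and C4 (`GlobChi`) of the GW chapter;
* `FlatIface20.FlatExportM p k`            : the single export of the FLAT chapter.

`twHalf_flat` is the twin of `TopOrd27.twHalf_ord` (with `TanPlugFlat10.twSelmer_flat`); `s56_of_claims`
is S56's literal conclusion (`T56Iface27.s56_of_halves`).  The final `Fermat/Agent/S56.lean` is this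
theorem applied to the two closed claims.
-/
import Mathlib
import Fermat.Agent.ES.T56.TopOrd27
import Fermat.Agent.ES.T56.TanPlugFlat10

set_option autoImplicit false
set_option linter.style.haveILetI false
set_option linter.unusedSectionVars false

open Polynomial IsLocalRing ExtCitation

namespace Fermat.Agent.ES.T56.TopFinal27

open Fermat.Agent.S53 Fermat.Agent.ES.T56.T56Iface27 Fermat.Agent.ES.T56.TopPrep27
open Fermat.Agent.ES.T56.TopObjs27 Fermat.Agent.ES.T56.TopAsm27 Fermat.Agent.ES.T56.Ad0Rep10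
open Fermat.Agent.ES.T56.TopOrd27

variable {𝒪 : Type} [CommRing 𝒪] [IsDomain 𝒪] [IsDiscreteValuationRing 𝒪]
  [IsAdicComplete (maximalIdeal 𝒪) 𝒪] [Finite (ResidueField 𝒪)]

/-- **The flat half of S56**, from S56's literal hypotheses, the GW claims C3, C4 and the FLAT export. -/
theorem twHalf_flat (p : ℕ) [Fact p.Prime] (hp2 : p ≠ 2) (hp𝒪 : (p : 𝒪) ∈ maximalIdeal 𝒪)
    [Algebra (ZMod p) (ResidueField 𝒪)]
    (ρbar : ResidualGaloisRep (ResidueField 𝒪))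
    (habs : ρbar.IsAbsolutelyIrreducible)
    (hdet : (GaloisRepAdic.ofResidualGaloisRep ρbar).DetIsCyclotomic p)
    (hsplit : ∀ σ : AlgebraicClosure ℚ ≃ₐ[ℚ] AlgebraicClosure ℚ,
      ∃ α β : ResidueField 𝒪, LinearMap.charpoly (ρbar.ρ σ) = (X - C α) * (X - C β))
    (hTW : ∀ (K : Type) [Field K] [Algebra (ResidueField 𝒪) K]
      (G : Subgroup (AlgebraicClosure ℚ ≃ₐ[ℚ] AlgebraicClosure ℚ)), G.index = 2 →
      ∀ V : Submodule K (ρbar.baseChange K).V,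
        (∀ σ ∈ G, ∀ x ∈ V, (ρbar.baseChange K).ρ σ x ∈ V) → V = ⊥ ∨ V = ⊤)
    (S Smin : Finset ℕ) (hpSmin : p ∈ Smin) (hSmin : Smin ⊆ S)
    (hmin : ∀ q : ℕ, q.Prime → q ≠ p → (q ∈ Smin ↔ ¬ ρbar.IsUnramifiedAt q))
    (hgwc : GwClaims p) (hflat : FlatIface20.FlatExportM p (ResidueField 𝒪)) :
    TWHalf p ρbar S Smin (flatCond 𝒪 p Smin) := by
  obtain ⟨Sl⟩ := exists_sliceData (𝒪 := 𝒪) ρbar habs
  haveI : CharP (ResidueField 𝒪) p := charP_residueField p hp𝒪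
  haveI : Module.Finite (ZMod p) (ResidueField 𝒪) := Module.Finite.of_finite
  haveI hfa : Finite (ad0 Sl.rbar) := TanPlugOrd11.finite_ad0 Sl.rbar
  haveI : Finite (ResScal27.resScal p (ad0 Sl.rbar)) := hfa
  haveI : FiniteDimensional (ZMod p) (ResScal27.resScal p (ad0 Sl.rbar)) := Module.Finite.of_finite
  have hsm : GWIface21.IsSmooth p (ResScal27.resScal p (ad0 Sl.rbar)) :=
    isSmooth_resScal_ad0 p Sl.rbar Sl.factors
  obtain ⟨P, hgw, hmono⟩ := GWFinal21.gw_exports (ResScal27.resScal p (ad0 Sl.rbar)) hsm hp2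
    (fun Sg hpS hur => hgwc.c3 _ hsm Sg hpS hur) hgwc.c4
  have hur := LocGlob5.isUnramOutside_resScal_ad0 p ρbar Sl.rbar_eq hpSmin hmin
  have hh0 := LocGlob5.h0_resScal_ad0 p ρbar Sl.rbar_eq
    (TWDetChi3.two_ne_zero_of_hdet ρbar p hdet hp2) habs hTW
  have hh0c := LocGlob5.h0c_resScal_ad0 p ρbar Sl.rbar_eq hp2 hdet
  refine twHalf_of_twSelmer PowSurjFinal23.powSurj p ρbar S Smin (flatCond 𝒪 p Smin) ?_
  exact TanPlugFlat10.twSelmer_flat p hp2 hflat ρbar Sl S Smin hpSmin hSmin hdet hsplit hmin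
    P hgw hmono TWTop3.frobChoice TWTop3.frobChoice_mem_range
    (TWTop3.twSetExists p ρbar Sl.rbar Sl.basis Sl.rbar_eq hp2 habs hdet hsplit hTW S
      (hSmin hpSmin))
    hur hh0 hh0c
    (LocQExport16.hQ_of_hmin (Fact.out : p.Prime) Sl.rbar_eq hpSmin hSmin hmin)

/-- **S56 from the two open claims.**  The conclusion is S56's literal conclusion. -/
theorem s56_of_claims (p : ℕ) [Fact p.Prime] (hp2 : p ≠ 2) (hp𝒪 : (p : 𝒪) ∈ maximalIdeal 𝒪)
    (ρbar : ResidualGaloisRep (ResidueField 𝒪))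
    (habs : ρbar.IsAbsolutelyIrreducible)
    (hdet : (GaloisRepAdic.ofResidualGaloisRep ρbar).DetIsCyclotomic p)
    (hsplit : ∀ σ : AlgebraicClosure ℚ ≃ₐ[ℚ] AlgebraicClosure ℚ,
      ∃ α β : ResidueField 𝒪, LinearMap.charpoly (ρbar.ρ σ) = (X - C α) * (X - C β))
    (hTW : ∀ (K : Type) [Field K] [Algebra (ResidueField 𝒪) K]
      (G : Subgroup (AlgebraicClosure ℚ ≃ₐ[ℚ] AlgebraicClosure ℚ)), G.index = 2 →
      ∀ V : Submodule K (ρbar.baseChange K).V,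
        (∀ σ ∈ G, ∀ x ∈ V, (ρbar.baseChange K).ρ σ x ∈ V) → V = ⊥ ∨ V = ⊤)
    (S Smin : Finset ℕ) (hpSmin : p ∈ Smin) (hSmin : Smin ⊆ S)
    (hmin : ∀ q : ℕ, q.Prime → q ≠ p → (q ∈ Smin ↔ ¬ ρbar.IsUnramifiedAt q))
    (hgwc : GwClaims p)
    (hflat : ∀ [Algebra (ZMod p) (ResidueField 𝒪)], FlatIface20.FlatExportM p (ResidueField 𝒪)) :
    (∃ r : ℕ, ∀ n : ℕ, ∃ qv : Fin r → ℕ, Function.Injective qv ∧
      (∀ i, (qv i).Prime ∧ qv i ∉ S ∧ p ^ (n + 1) ∣ qv i - 1) ∧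
      (∀ i, ∀ P : ValuationSubring (AlgebraicClosure ℚ), P.LiesOverPrime (qv i) →
        ∀ φ : AlgebraicClosure ℚ ≃ₐ[ℚ] AlgebraicClosure ℚ, P.IsFrobeniusAt φ (qv i) →
          ∃ α β : ResidueField 𝒪, α ≠ β ∧ LinearMap.charpoly (ρbar.ρ φ) = (X - C α) * (X - C β)) ∧
      ∀ DQ : GaloisRep.DeformationRingData 𝒪 ρbar (fun _A _ _ _ ρ =>
          GaloisRep.strictOrdinaryCondition 𝒪 p (Smin ∪ Finset.univ.image qv) ρ ∧
            ∀ q ∈ Smin, q.Prime → q ≠ p → ρ.IsUnipotentOnInertiaAt q),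
        ∃ γ : MvPowerSeries (Fin r) 𝒪 →ₐ[𝒪] DQ.R, Function.Surjective γ) ∧
    (∃ r : ℕ, ∀ n : ℕ, ∃ qv : Fin r → ℕ, Function.Injective qv ∧
      (∀ i, (qv i).Prime ∧ qv i ∉ S ∧ p ^ (n + 1) ∣ qv i - 1) ∧
      (∀ i, ∀ P : ValuationSubring (AlgebraicClosure ℚ), P.LiesOverPrime (qv i) →
        ∀ φ : AlgebraicClosure ℚ ≃ₐ[ℚ] AlgebraicClosure ℚ, P.IsFrobeniusAt φ (qv i) →
          ∃ α β : ResidueField 𝒪, α ≠ β ∧ LinearMap.charpoly (ρbar.ρ φ) = (X - C α) * (X - C β)) ∧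
      ∀ DQ : GaloisRep.DeformationRingData 𝒪 ρbar (fun _A _ _ _ ρ =>
          GaloisRep.flatCondition 𝒪 p (Smin ∪ Finset.univ.image qv) ρ ∧
            ∀ q ∈ Smin, q.Prime → q ≠ p → ρ.IsUnipotentOnInertiaAt q),
        ∃ γ : MvPowerSeries (Fin r) 𝒪 →ₐ[𝒪] DQ.R, Function.Surjective γ) := by
  haveI : CharP (ResidueField 𝒪) p := charP_residueField p hp𝒪
  letI : Algebra (ZMod p) (ResidueField 𝒪) := ZMod.algebra _ p
  exact s56_of_halves p ρbar S Smin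
    (twHalf_ord p hp2 hp𝒪 ρbar habs hdet hsplit hTW S Smin hpSmin hSmin hmin hgwc)
    (twHalf_flat p hp2 hp𝒪 ρbar habs hdet hsplit hTW S Smin hpSmin hSmin hmin hgwc hflat)

end Fermat.Agent.ES.T56.TopFinal27
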