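/-
Programme T (S56), chapter TOP (helper27): killing the dual Selmer group.

* `exists_cocycle_section` : a LINEAR choice of `Sg`-continuous cocycles representing the classes of a
  subspace `D ≤ continuousH1S Sg X` (the input `cl` of the Taylor–Wiles set theorem `TWKill3`), with the
  cocycle identity, finite level, and non-triviality in exactly the shape `TWKill3` consumes;
* `apply_mem_range_of_resLoc_eq_zero` : if the localisation at `q` of the class of a cocycle `c` vanishes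
  then `c g ∈ range (ρ g − 1)` for every `g` in the image of `G_q`;
* `dualSel_eq_bot` : `DualSelMono` + a Taylor–Wiles set for `dualSel P Sg L` kill `dualSel P Sg' L'`.
-/
import Mathlib
import Fermat.Prelude.Def_GroupCohomology_ContinuousUnramified
import Fermat.Agent.ES.T56.ResScal27
import Fermat.Agent.ES.T56.GWIface21

set_option autoImplicit false
set_option linter.style.haveILetI false

open CategoryTheory groupCohomology ExtCitation Module

namespace Fermat.Agent.ES.T56.TopKill27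

open Fermat.Agent.ES.T56.ResScal27 Fermat.Agent.ES.T56.GWIface21

variable {p : ℕ} [Fact p.Prime]

/-- A linear choice of `Sg`-continuous cocycles for the classes of `D ≤ continuousH1S Sg X`. -/
theorem exists_cocycle_section (Sg : Finset Nat.Primes) (X : Rep.{0} (ZMod p) GQ)
    (D : Submodule (ZMod p) (H1 X)) (hD : D ≤ continuousH1S Sg X) :
    ∃ cl : ↥D →ₗ[ZMod p] (GQ → X),
      (∀ (d : ↥D) (σ τ : GQ), cl d (σ * τ) = cl d σ + X.ρ σ (cl d τ)) ∧
      (∀ d : ↥D, ∃ L : IntermediateField ℚ (AlgebraicClosure ℚ), FiniteDimensional ℚ L ∧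
        ∀ σ s : GQ, (∀ x ∈ L, s x = x) → cl d (σ * s) = cl d σ) ∧
      (∀ d : ↥D, d ≠ 0 → ¬ ∃ m : X, ∀ σ : GQ, cl d σ = X.ρ σ m - m) ∧
      (∀ d : ↥D, ∃ h : cl d ∈ cocycles₁ X, (H1π X).hom ⟨cl d, h⟩ = d.1) := by
  classical
  -- the projection from the `Sg`-continuous cocycles
  let C : Submodule (ZMod p) (cocycles₁ X) := levelCocyclesS₁ Sg X
  let π : ↥C →ₗ[ZMod p] H1 X := (H1π X).hom ∘ₗ C.subtype
  have hrange : ∀ x ∈ D, ∃ c : ↥C, π c = x := by
    intro x hx
    obtain ⟨c, hc, rfl⟩ := (mem_continuousH1S_iff Sg X x).1 (hD hx)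
    exact ⟨⟨c, hc⟩, rfl⟩
  let D' : Submodule (ZMod p) ↥C := D.comap π
  let π' : ↥D' →ₗ[ZMod p] ↥D := (π.domRestrict D').codRestrict D (fun c => c.2)
  have hsurj : LinearMap.range π' = ⊤ := by
    rw [LinearMap.range_eq_top]
    intro d
    obtain ⟨c, hc⟩ := hrange d.1 d.2
    refine ⟨⟨c, ?_⟩, ?_⟩
    · show π c ∈ D
      rw [hc]; exact d.2
    · apply Subtype.ext
      exact hc
  obtain ⟨g, hg⟩ := LinearMap.exists_rightInverse_of_surjective π' hsurj
  have hg' : ∀ d : ↥D, π (g d).1 = d.1 := fun d =>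
    congrArg Subtype.val (congrArg (fun φ => φ d) hg)
  refine ⟨(cocycles₁ X).subtype ∘ₗ C.subtype ∘ₗ D'.subtype ∘ₗ g, ?_, ?_, ?_, ?_⟩
  · intro d σ τ
    have h := (mem_cocycles₁_iff (A := X) _).1 ((g d).1.1).2 σ τ
    show ((g d).1.1).1 (σ * τ) = ((g d).1.1).1 σ + X.ρ σ (((g d).1.1).1 τ)
    rw [h, add_comm]
  · intro d
    obtain ⟨F, hF, hlev⟩ : IsLevelConstantS₁ Sg ((g d).1.1).1 := (g d).1.2
    refine ⟨F, hF.1, fun σ s hs => ?_⟩
    exact hlev σ s ((IntermediateField.mem_fixingSubgroup_iff F s).2 hs)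
  · rintro d hd ⟨m, hm⟩
    apply hd
    apply Subtype.ext
    rw [← hg' d]
    show (H1π X).hom ((g d).1.1) = 0
    rw [H1π_eq_zero_iff, mem_coboundaries₁_iff']
    exact ⟨m, fun σ => (hm σ).symm⟩
  · intro d
    exact ⟨((g d).1.1).2, hg' d⟩

/-- If the localisation along `f : H →* G` of the class of a cocycle `c` vanishes, then `c (f s)` lies
in the range of `ρ (f s) − 1` for every `s : H`. -/
theorem apply_mem_range_of_map_eq_zero {k : Type} [CommRing k] {G H : Type} [Group G] [Group H]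
    (f : H →* G) (X : Rep.{0} k G) (c : cocycles₁ X)
    (h : (map f (𝟙 (Rep.res f X)) 1).hom ((H1π X).hom c) = 0) (s : H) :
    c.1 (f s) ∈ LinearMap.range (X.ρ (f s) - 1) := by
  have h1 := congrArg (fun φ => φ.hom c) (H1π_comp_map f (𝟙 (Rep.res f X)))
  simp only [ModuleCat.hom_comp, LinearMap.comp_apply] at h1
  rw [h1] at h
  have h2 := (H1π_eq_zero_iff _).1 h
  rw [mem_coboundaries₁_iff'] at h2
  obtain ⟨m, hm⟩ := h2
  refine ⟨m, ?_⟩
  have h3 := hm s
  rw [LinearMap.sub_apply, Module.End.one_apply]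
  exact h3

/-- **Killing the dual Selmer group.**  If `L'` extends `L` by `⊤` at the new primes, `cl` is a choice
of cocycles for `dualSel P Sg L`, `Φ q` lies in the image of `G_q` for the new primes `q`, and the only
`d` with `cl d (Φ q) ∈ range (ρ (Φ q) − 1)` for all new `q` is `d = 0`, then `dualSel P Sg' L' = ⊥`. -/
theorem dualSel_eq_bot (M : Rep.{0} (ZMod p) GQ) (P : LocPairing p M) (hmono : DualSelMono M P)
    {Sg Sg' : Finset Nat.Primes} (h : Sg ⊆ Sg') (hpS : pPrime p ∈ Sg) (hur : IsUnramOutside p Sg M)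
    (L : LocCond Sg M) (L' : LocCond Sg' M) (hext : LocCond.ExtendsTop L L' h)
    (cl : ↥(dualSel P Sg L) →ₗ[ZMod p] (GQ → dualT p M))
    (hcl : ∀ d : ↥(dualSel P Sg L), ∃ hc : cl d ∈ cocycles₁ (dualT p M),
      (H1π (dualT p M)).hom ⟨cl d, hc⟩ = d.1)
    (Φ : Nat.Primes → GQ) (hΦ : ∀ q ∈ Sg', q ∉ Sg → Φ q ∈ (primeLocalToGlobal q).range)
    (hkill : ∀ d : ↥(dualSel P Sg L),
      (∀ q ∈ Sg', q ∉ Sg → cl d (Φ q) ∈ LinearMap.range ((dualT p M).ρ (Φ q) - 1)) → d = 0) :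
    dualSel P Sg' L' = ⊥ := by
  rw [eq_bot_iff]
  intro y hy
  obtain ⟨hy1, hy2⟩ := hmono Sg Sg' h hpS hur L L' hext y hy
  obtain ⟨hc, hcd⟩ := hcl ⟨y, hy1⟩
  have hd : (⟨y, hy1⟩ : ↥(dualSel P Sg L)) = 0 := by
    apply hkill
    intro q hq hqS
    obtain ⟨s, hs⟩ := hΦ q hq hqS
    have h0 : resLoc p q (dualT p M) y = 0 := hy2 ⟨q, hq⟩ hqS
    have hcd' : (H1π (dualT p M)).hom ⟨cl ⟨y, hy1⟩, hc⟩ = y := hcd
    rw [← hcd'] at h0
    have := apply_mem_range_of_map_eq_zero (primeLocalToGlobal q) (dualT p M) ⟨cl ⟨y, hy1⟩, hc⟩ h0 s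
    rw [hs] at this
    exact this
  exact (Submodule.mem_bot _).2 (congrArg Subtype.val hd)

end Fermat.Agent.ES.T56.TopKill27
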