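/-
Programme T (S56), GW-D base case, brick (K1a) of `T56_BASE28.md` — helper8.

**EXTENSION BY TRANSFER** (generic, Mathlib only).  `Γ` a group, `N ⊴ Γ` of finite index `m`,
`ρ : Representation k Γ Y` trivial on `N`, `χ : Γ → Y` a function whose restriction to `N` is
additive (only the values of `χ` on `N` matter).  With `out : Γ ⧸ N → Γ` a system of representatives
and `tr g r := out (g • r)⁻¹ * g * out r ∈ N`:

* `cor ρ N χ g := ∑ r : Γ ⧸ N, ρ (out (g • r)) (χ (tr g r))` (the transfer / corestriction of `χ`);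
* `cor_mul`  : `cor` is a 1-cocycle in Mathlib's convention `c (g * h) = ρ g (c h) + c g`
               (needs only: `χ` additive on `N`, `ρ = 1` on `N`);
* `cor_of_mem` : `cor ρ N χ a = m • χ a` for `a ∈ N` if `χ (g a g⁻¹) = ρ g (χ a)`;
* `ext ρ N minv χ := minv • cor ρ N χ` with `minv * m = 1`: a cocycle on `Γ` extending `χ`
  (`ext_mul`, `ext_of_mem`), additive and `k`-linear in `χ` (`ext_add`, `ext_smul`, `ext_zero`),
  constant on the cosets of every `V ≤ N` killed by `χ` (`ext_mul_of_mem`), and which is a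
  coboundary only if `χ = 0` on `N` (`eq_zero_of_ext_eq_coboundary`);
* `lift N χ` : extension by zero of a function `χ : ↥N → Y`, and the same statements for it.
-/
import Mathlib

set_option autoImplicit false
set_option linter.unusedSectionVars false

namespace Fermat.Agent.ES.T56.TransferExt8

variable {k Γ Y : Type*} [CommRing k] [Group Γ] [AddCommGroup Y] [Module k Y]

section Tr

variable (N : Subgroup Γ) [N.Normal]

/-- `tr g r = out (g • r)⁻¹ * g * out r`, an element of `N`. -/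
noncomputable def tr (g : Γ) (r : Γ ⧸ N) : Γ := (g • r).out⁻¹ * g * r.out

theorem smul_eq_mk (g : Γ) (r : Γ ⧸ N) : g • r = ((g * r.out : Γ) : Γ ⧸ N) := by
  conv_lhs => rw [← QuotientGroup.out_eq' r]
  rfl

theorem tr_mem (g : Γ) (r : Γ ⧸ N) : tr N g r ∈ N := by
  unfold tr
  rw [mul_assoc, ← QuotientGroup.eq, QuotientGroup.out_eq']
  exact smul_eq_mk N g r

theorem tr_mul (g h : Γ) (r : Γ ⧸ N) : tr N (g * h) r = tr N g (h • r) * tr N h r := by
  unfold tr
  rw [mul_smul]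
  group

theorem out_smul (g : Γ) (r : Γ ⧸ N) : (g • r).out = g * r.out * (tr N g r)⁻¹ := by
  unfold tr
  group

/-- `N` acts trivially on `Γ ⧸ N` (`N` is normal). -/
theorem smul_eq_of_mem {a : Γ} (ha : a ∈ N) (r : Γ ⧸ N) : a • r = r := by
  rw [smul_eq_mk]
  conv_rhs => rw [← QuotientGroup.out_eq' r]
  rw [eq_comm, QuotientGroup.eq]
  have h := (inferInstance : N.Normal).conj_mem a ha r.out⁻¹
  rw [inv_inv] at h
  rw [← mul_assoc]
  exact h

theorem tr_of_mem {a : Γ} (ha : a ∈ N) (r : Γ ⧸ N) : tr N a r = r.out⁻¹ * a * r.out := by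
  unfold tr
  rw [smul_eq_of_mem N ha]

end Tr

section Cor

variable (ρ : Representation k Γ Y) (N : Subgroup Γ) [N.Normal] [N.FiniteIndex]

/-- The transfer of `χ`. -/
noncomputable def cor (χ : Γ → Y) (g : Γ) : Y :=
  ∑ᶠ r : Γ ⧸ N, ρ (g • r).out (χ (tr N g r))

theorem cor_eq_sum [Fintype (Γ ⧸ N)] (χ : Γ → Y) (g : Γ) :
    cor ρ N χ g = ∑ r : Γ ⧸ N, ρ (g • r).out (χ (tr N g r)) :=
  finsum_eq_sum_of_fintype _

theorem cor_add (χ χ' : Γ → Y) (g : Γ) : cor ρ N (χ + χ') g = cor ρ N χ g + cor ρ N χ' g := by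
  have := Fintype.ofFinite (Γ ⧸ N)
  rw [cor_eq_sum, cor_eq_sum, cor_eq_sum, ← Finset.sum_add_distrib]
  refine Finset.sum_congr rfl fun r _ => ?_
  rw [Pi.add_apply, map_add]

theorem cor_smul (a : k) (χ : Γ → Y) (g : Γ) : cor ρ N (a • χ) g = a • cor ρ N χ g := by
  have := Fintype.ofFinite (Γ ⧸ N)
  rw [cor_eq_sum, cor_eq_sum, Finset.smul_sum]
  refine Finset.sum_congr rfl fun r _ => ?_
  rw [Pi.smul_apply, map_smul]

theorem cor_zero (g : Γ) : cor ρ N (0 : Γ → Y) g = 0 := by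
  have := Fintype.ofFinite (Γ ⧸ N)
  rw [cor_eq_sum]
  refine Finset.sum_eq_zero fun r _ => ?_
  rw [Pi.zero_apply, map_zero]

variable {ρ N}

/-- **The transfer is a 1-cocycle** (Mathlib's convention). -/
theorem cor_mul (hρ : ∀ a ∈ N, ρ a = 1) {χ : Γ → Y}
    (hχ : ∀ a ∈ N, ∀ b ∈ N, χ (a * b) = χ a + χ b) (g h : Γ) :
    cor ρ N χ (g * h) = ρ g (cor ρ N χ h) + cor ρ N χ g := by
  have := Fintype.ofFinite (Γ ⧸ N)
  rw [cor_eq_sum, cor_eq_sum, cor_eq_sum, map_sum]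
  have h1 : ∀ r : Γ ⧸ N, ρ ((g * h) • r).out (χ (tr N (g * h) r)) =
      ρ g (ρ (h • r).out (χ (tr N h r))) + ρ (g • (h • r)).out (χ (tr N g (h • r))) := by
    intro r
    rw [tr_mul, hχ _ (tr_mem N g (h • r)) _ (tr_mem N h r), map_add, mul_smul, add_comm]
    congr 1
    rw [out_smul N g (h • r), map_mul, map_mul, hρ _ (N.inv_mem (tr_mem N g (h • r))), mul_one,
      Module.End.mul_apply]
  rw [Finset.sum_congr rfl fun r _ => h1 r, Finset.sum_add_distrib]
  congr 1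
  exact Fintype.sum_equiv (MulAction.toPerm h) _ _ fun r => rfl

/-- **The transfer restricts to `m • χ` on `N`** when `χ` is `Γ`-equivariant. -/
theorem cor_of_mem {χ : Γ → Y} (hconj : ∀ g : Γ, ∀ a ∈ N, χ (g * a * g⁻¹) = ρ g (χ a)) {a : Γ}
    (ha : a ∈ N) : cor ρ N χ a = N.index • χ a := by
  have := Fintype.ofFinite (Γ ⧸ N)
  rw [cor_eq_sum]
  have h1 : ∀ r : Γ ⧸ N, ρ (a • r).out (χ (tr N a r)) = χ a := by
    intro r
    rw [tr_of_mem N ha, smul_eq_of_mem N ha]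
    have h2 := hconj r.out⁻¹ a ha
    rw [inv_inv] at h2
    rw [h2, ← Module.End.mul_apply, ← map_mul, mul_inv_cancel, map_one, Module.End.one_apply]
  rw [Finset.sum_congr rfl fun r _ => h1 r, Finset.sum_const, Finset.card_univ,
    Subgroup.index_eq_card, Nat.card_eq_fintype_card]

end Cor

section Ext

variable (ρ : Representation k Γ Y) (N : Subgroup Γ) [N.Normal] [N.FiniteIndex]

/-- **The extension of `χ` by transfer**, `minv • cor χ` (`minv` an inverse of the index in `k`). -/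
noncomputable def ext (minv : k) (χ : Γ → Y) (g : Γ) : Y := minv • cor ρ N χ g

theorem ext_add (minv : k) (χ χ' : Γ → Y) (g : Γ) :
    ext ρ N minv (χ + χ') g = ext ρ N minv χ g + ext ρ N minv χ' g := by
  unfold ext
  rw [cor_add, smul_add]

theorem ext_smul (minv a : k) (χ : Γ → Y) (g : Γ) :
    ext ρ N minv (a • χ) g = a • ext ρ N minv χ g := by
  unfold ext
  rw [cor_smul, smul_comm]

theorem ext_zero (minv : k) (g : Γ) : ext ρ N minv (0 : Γ → Y) g = 0 := by
  unfold ext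
  rw [cor_zero, smul_zero]

/-- `ext` only depends on the values of `χ` on `N`. -/
theorem ext_congr (minv : k) {χ χ' : Γ → Y} (h : ∀ a ∈ N, χ a = χ' a) (g : Γ) :
    ext ρ N minv χ g = ext ρ N minv χ' g := by
  unfold ext cor
  congr 1
  refine finsum_congr fun r => ?_
  rw [h _ (tr_mem N g r)]

variable {ρ N}

/-- **`ext χ` is a 1-cocycle** (Mathlib's convention `c (g * h) = ρ g (c h) + c g`). -/
theorem ext_mul (minv : k) (hρ : ∀ a ∈ N, ρ a = 1) {χ : Γ → Y}
    (hχ : ∀ a ∈ N, ∀ b ∈ N, χ (a * b) = χ a + χ b) (g h : Γ) :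
    ext ρ N minv χ (g * h) = ρ g (ext ρ N minv χ h) + ext ρ N minv χ g := by
  unfold ext
  rw [cor_mul hρ hχ, smul_add, map_smul]

/-- **`ext χ` restricts to `χ` on `N`.** -/
theorem ext_of_mem {minv : k} (hminv : minv * (N.index : k) = 1) {χ : Γ → Y}
    (hconj : ∀ g : Γ, ∀ a ∈ N, χ (g * a * g⁻¹) = ρ g (χ a)) {a : Γ} (ha : a ∈ N) :
    ext ρ N minv χ a = χ a := by
  unfold ext
  rw [cor_of_mem hconj ha, ← Nat.cast_smul_eq_nsmul k, smul_smul, hminv, one_smul]

/-- **Level.**  `ext χ` is constant on the left cosets `g V` of every subgroup `V ≤ N` killed by `χ`. -/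
theorem ext_mul_of_mem {minv : k} (hminv : minv * (N.index : k) = 1) (hρ : ∀ a ∈ N, ρ a = 1)
    {χ : Γ → Y} (hχ : ∀ a ∈ N, ∀ b ∈ N, χ (a * b) = χ a + χ b)
    (hconj : ∀ g : Γ, ∀ a ∈ N, χ (g * a * g⁻¹) = ρ g (χ a)) {V : Subgroup Γ} (hVN : V ≤ N)
    (hV : ∀ v ∈ V, χ v = 0) (g : Γ) {v : Γ} (hv : v ∈ V) :
    ext ρ N minv χ (g * v) = ext ρ N minv χ g := by
  rw [ext_mul minv hρ hχ, ext_of_mem hminv hconj (hVN hv), hV v hv, map_zero, zero_add]

/-- A coboundary vanishes on `N`. -/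
theorem coboundary_of_mem (hρ : ∀ a ∈ N, ρ a = 1) (y : Y) {a : Γ} (ha : a ∈ N) :
    ρ a y - y = 0 := by
  rw [hρ a ha, Module.End.one_apply, sub_self]

/-- **Injectivity on classes.**  If `ext χ` is a coboundary then `χ` vanishes on `N`. -/
theorem eq_zero_of_ext_eq_coboundary {minv : k} (hminv : minv * (N.index : k) = 1)
    (hρ : ∀ a ∈ N, ρ a = 1) {χ : Γ → Y}
    (hconj : ∀ g : Γ, ∀ a ∈ N, χ (g * a * g⁻¹) = ρ g (χ a)) (y : Y)
    (hy : ∀ g, ext ρ N minv χ g = ρ g y - y) {a : Γ} (ha : a ∈ N) : χ a = 0 := by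
  rw [← ext_of_mem hminv hconj ha, hy a, coboundary_of_mem hρ y ha]

end Ext

/-! ### Functions on the subgroup `N` -/

section Lift

variable (N : Subgroup Γ)

open Classical in
/-- Extension by zero of a function on `N`. -/
noncomputable def lift (χ : ↥N → Y) (g : Γ) : Y := if h : g ∈ N then χ ⟨g, h⟩ else 0

theorem lift_of_mem (χ : ↥N → Y) {g : Γ} (h : g ∈ N) : lift N χ g = χ ⟨g, h⟩ := dif_pos h

theorem lift_coe (χ : ↥N → Y) (a : ↥N) : lift N χ (a : Γ) = χ a := lift_of_mem N χ a.2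

theorem lift_add (χ χ' : ↥N → Y) : lift N (χ + χ') = lift N χ + lift N χ' := by
  funext g
  unfold lift
  by_cases h : g ∈ N
  · simp only [dif_pos h, Pi.add_apply]
  · simp only [dif_neg h, Pi.add_apply, add_zero]

theorem lift_smul (a : k) (χ : ↥N → Y) : lift N (a • χ) = a • lift N χ := by
  funext g
  unfold lift
  by_cases h : g ∈ N
  · simp only [dif_pos h, Pi.smul_apply]
  · simp only [dif_neg h, Pi.smul_apply, smul_zero]

theorem lift_mul {χ : ↥N → Y} (hχ : ∀ a b : ↥N, χ (a * b) = χ a + χ b) :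
    ∀ a ∈ N, ∀ b ∈ N, lift N χ (a * b) = lift N χ a + lift N χ b := by
  intro a ha b hb
  rw [lift_of_mem N χ ha, lift_of_mem N χ hb, lift_of_mem N χ (N.mul_mem ha hb)]
  exact hχ ⟨a, ha⟩ ⟨b, hb⟩

theorem lift_conj [N.Normal] {ρ : Representation k Γ Y} {χ : ↥N → Y}
    (hconj : ∀ (g : Γ) (a : ↥N),
      χ ⟨g * a * g⁻¹, (inferInstance : N.Normal).conj_mem a a.2 g⟩ = ρ g (χ a)) :
    ∀ g : Γ, ∀ a ∈ N, lift N χ (g * a * g⁻¹) = ρ g (lift N χ a) := by
  intro g a ha
  rw [lift_of_mem N χ ha, lift_of_mem N χ ((inferInstance : N.Normal).conj_mem a ha g)]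
  exact hconj g ⟨a, ha⟩

end Lift

/-! ### The packaged statement -/

/-- **(K1a) Extension by transfer.**  `N ⊴ Γ` of finite index invertible in `k`, `ρ` trivial on `N`,
`χ : N → Y` additive and `Γ`-equivariant.  Then `c := ext ρ N minv (lift N χ)` is a 1-cocycle of `Γ`
(Mathlib's convention) extending `χ`, and it is right-invariant under every subgroup `V ≤ N` on which
`χ` vanishes. -/
theorem exists_cocycle_extension (ρ : Representation k Γ Y) (N : Subgroup Γ) [N.Normal]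
    [N.FiniteIndex] {minv : k} (hminv : minv * (N.index : k) = 1) (hρ : ∀ a ∈ N, ρ a = 1)
    (χ : ↥N → Y) (hχ : ∀ a b : ↥N, χ (a * b) = χ a + χ b)
    (hconj : ∀ (g : Γ) (a : ↥N),
      χ ⟨g * a * g⁻¹, (inferInstance : N.Normal).conj_mem a a.2 g⟩ = ρ g (χ a)) :
    ∃ c : Γ → Y, (∀ g h, c (g * h) = ρ g (c h) + c g) ∧ (∀ a : ↥N, c a = χ a) ∧
      ∀ V : Subgroup Γ, V ≤ N → (∀ v : ↥N, (v : Γ) ∈ V → χ v = 0) →
        ∀ g, ∀ v ∈ V, c (g * v) = c g := by
  refine ⟨ext ρ N minv (lift N χ), ext_mul minv hρ (lift_mul N hχ), fun a => ?_,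
    fun V hVN hV g v hv => ?_⟩
  · rw [ext_of_mem hminv (lift_conj N hconj) a.2, lift_coe]
  · refine ext_mul_of_mem hminv hρ (lift_mul N hχ) (lift_conj N hconj) hVN (fun w hw => ?_) g hv
    rw [lift_of_mem N χ (hVN hw)]
    exact hV ⟨w, hVN hw⟩ hw

end Fermat.Agent.ES.T56.TransferExt8
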