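/-
Programme T (S56), chapter GW, part C (degree `(2,0)` duality), helper2.

`TwoZeroRFin2`: hyper Tate–Nakayama in degree `(2,0)`, RIGHT kernel = NORMS, over a FINITE group,
for the pairing datum `K(P; C) = R.datum ρC` of an arbitrary resolution `0 → P₁ → P₀ → M → 0` of
a module killed by `p`:

* `TN11rProp ρ ρC p` : raw right half of Tate–Nakayama `(1,1)` for a single module;
* `finTN20r_ind`     : `FinTN20r` for the INDUCED resolution `ind R` from `TN11rProp (indρ1 R)`
                       (`Fun(G, P₀)` is induced: its invariants are norms);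
* `exists_pull2`     : every hyper-2-cocycle of `K(ind R; C)` is the pull-back of a
                       hyper-2-cocycle of `K(R; C)` up to a hyper-2-coboundary
                       (degree-2 twin of `IndResTransport20.exists_pull`);
* `finTN20r_of_ind`  : transport `ind R ⇝ R`;
* `finTN20r_of`      : `TN11rProp (indρ1 R) ρC p → FinTN20r (R.datum ρC)`.
-/
import Mathlib
import Fermat.Agent.ES.T56.TwoZeroRDefs2
import Fermat.Agent.ES.T56.TwoZeroFin2
import Fermat.Agent.PT.PRO.IndResTransport20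

set_option autoImplicit false
set_option linter.unusedSectionVars false

namespace Fermat.Agent.ES.T56.TwoZeroRFin2

open Fermat.Agent.PT.PRO.HyperLevel25 Fermat.Agent.PT.PRO.Pairing20
  Fermat.Agent.PT.PRO.IndRes20 Fermat.Agent.PT.PRO.IndResTransport20
  Fermat.Agent.ES.T56.TwoZeroDefs2 Fermat.Agent.ES.T56.TwoZeroRDefs2

variable {k : Type*} [CommRing k] {G : Type*} [Group G]

/-! ### The raw single-module statement -/

section Props

variable {P C : Type*} [AddCommGroup P] [Module k P] [AddCommGroup C] [Module k C]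

/-- Tate–Nakayama `(1,1)`, RIGHT kernel, raw form, for the module `(P, ρ)`: a `p`-primary
1-cocycle of `P` whose cup product with every 1-cocycle with values in `Hom(P, C)` is a
coboundary is a coboundary. -/
def TN11rProp (ρ : Representation k G P) (ρC : Representation k G C) (p : ℕ) : Prop :=
  ∀ x : G → P, dOne ρ x = 0 →
    (∃ (j : ℕ) (w' : P), (p : k) ^ j • x = dZero ρ w') →
    (∀ c : G → (P →ₗ[k] C), dOne (Representation.linHom ρ ρC) c = 0 →
      ∃ u : G → C, (fun q : G × G => c q.1 (ρ q.1 (x q.2))) = dOne ρC u) →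
    ∃ w : P, x = dZero ρ w

/-- Precomposition with an equivariant map commutes with `d²`. -/
lemma dTwo_precomp {P' : Type*} [AddCommGroup P'] [Module k P'] (ρ : Representation k G P)
    (ρ' : Representation k G P') (ρC : Representation k G C) (α : P' →ₗ[k] P)
    (hα : ∀ g x, α (ρ' g x) = ρ g (α x)) (c : G × G → (P →ₗ[k] C)) :
    dTwo (Representation.linHom ρ' ρC) (fun q => c q ∘ₗ α) =
      fun t => dTwo (Representation.linHom ρ ρC) c t ∘ₗ α := by
  funext ⟨g, h, j⟩
  simp only [dTwo_apply, LinearMap.add_comp, LinearMap.sub_comp,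
    TwoZeroFin2.linHom_precomp ρ ρ' ρC α hα]

end Props

section Main

variable [Fintype G] [DecidableEq G]
variable {P1 P0 M C : Type*} [AddCommGroup P1] [Module k P1] [AddCommGroup P0] [Module k P0]
  [AddCommGroup M] [Module k M] [AddCommGroup C] [Module k C]
variable (R : Res k G P1 P0 M) (ρC : Representation k G C) (p : ℕ)

/-! ### Invariants of `Fun(G, P₀)` are norms -/

/-- An invariant `φ` of `Fun(G, P)` is the norm of `δ₁ (φ 1)`. -/
lemma eq_sum_diagRep_sec {P : Type*} [AddCommGroup P] [Module k P] (ρ : Representation k G P)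
    {φ : G → P} (hφ : ∀ g, diagRep ρ g φ = φ) :
    φ = ∑ g : G, diagRep ρ g (sec (k := k) (G := G) P (φ 1)) := by
  funext x
  have h1 : φ x = ρ x (φ 1) := by
    have := congrFun (hφ x) x
    rw [diagRep_apply, inv_mul_cancel] at this
    exact this.symm
  rw [Finset.sum_apply, Finset.sum_eq_single x]
  · rw [diagRep_apply, inv_mul_cancel, h1]
    simp [sec]
  · intro g _ hg
    rw [diagRep_apply]
    have h2 : g⁻¹ * x ≠ 1 := by
      intro h
      apply hg
      rw [inv_mul_eq_one] at h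
      exact h
    simp [sec, h2]
  · intro h
    exact absurd (Finset.mem_univ x) h

/-! ### The induced resolution -/

/-- **`FinTN20r` for the induced resolution** from the raw `(1,1)` right half for `P₁'`. -/
theorem finTN20r_ind (hpM : ∀ m : M, (p : k) • m = 0) (h11 : TN11rProp (indρ1 R) ρC p) :
    FinTN20r ((ind R).datum ρC) := by
  intro mt z' hz hpair
  set D' := (ind R).datum ρC with hD'
  have hz' : ∀ g, (ind R).ι (z' g) = dZero (ind R).ρ0 mt g := hz
  have hcoc : dOne (indρ1 R) z' = 0 := hz.dOne_eq_zero D'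
  -- `p • z'` is a coboundary
  obtain ⟨w0, hw0⟩ : ∃ w0, (ind R).ι w0 = (p : k) • mt :=
    ((ind R).exact _).1 (by rw [map_smul, hpM])
  have hι : ∀ w g, (ind R).ι (dZero (indρ1 R) w g) = dZero (ind R).ρ0 ((ind R).ι w) g := by
    intro w g
    show (ind R).ι ((ind R).ρ1 g w - w) = (ind R).ρ0 g ((ind R).ι w) - (ind R).ι w
    rw [map_sub, (ind R).ι_comm]
  have hprim : (p : k) ^ 1 • z' = dZero (indρ1 R) w0 := by
    funext g
    apply (ind R).ι_inj
    rw [hι, hw0, pow_one, Pi.smul_apply, map_smul, hz' g, map_smul]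
    rfl
  obtain ⟨w1, hw1⟩ := h11 z' hcoc ⟨1, w0, hprim⟩ (fun c hc => by
    have hcy : IsHyper2 D' 0 c := by
      refine ⟨map_zero _, ?_⟩
      have h2 : dOne D'.ρY1 c = 0 := hc
      rw [h2]
      funext q
      simp
    obtain ⟨u, hu⟩ := hpair 0 c hcy
    have hu' : pair20Fun D' 0 c mt z' = dOne ρC u := hu
    refine ⟨-u, ?_⟩
    rw [map_neg, ← hu']
    funext ⟨g, h⟩
    simp [pair20Fun, hD']
    rfl)
  -- the invariant `m₀ = m̃ - ι' w₁`
  set m0 : G → P0 := mt - (ind R).ι w1 with hm0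
  have hm0inv : ∀ g, diagRep R.ρ0 g m0 = m0 := by
    intro g
    have h1 := hz' g
    rw [hw1] at h1
    rw [hι, dZero_apply, dZero_apply] at h1
    have h3 : (ind R).ρ0 g m0 = m0 := by
      rw [hm0, map_sub]
      rw [sub_eq_sub_iff_add_eq_add] at h1 ⊢
      rw [← h1, add_comm]
    exact h3
  have hN := eq_sum_diagRep_sec R.ρ0 hm0inv
  refine ⟨R.π (m0 1), ?_⟩
  have hπι : (ind R).π ((ind R).ι w1) = 0 := ((ind R).exact _).2 ⟨w1, rfl⟩
  have h4 : D'.π mt = (ind R).π m0 := by
    show (ind R).π mt = (ind R).π m0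
    rw [hm0, map_sub, hπι, sub_zero]
  rw [h4, finsum_eq_sum_of_fintype]
  conv_lhs => rw [hN]
  rw [map_sum]
  refine Finset.sum_congr rfl (fun g _ => ?_)
  have h5 : (ind R).π (diagRep R.ρ0 g (sec (k := k) (G := G) P0 (m0 1))) =
      R.ρM g ((ind R).π (sec (k := k) (G := G) P0 (m0 1))) := (ind R).π_comm g _
  rw [h5]
  show R.ρM g (R.π (aug (k := k) P0 (sec (k := k) (G := G) P0 (m0 1)))) = R.ρM g (R.π (m0 1))
  rw [aug_sec]

/-! ### Hyper-2-cocycles of the induced resolution are pull-backs up to coboundaries -/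

/-- Pull-back of a 2-cochain of `Hom(P₀, C)` to the induced resolution. -/
def pull2 (c2 : G × G → (P0 →ₗ[k] C)) : G × G → ((G → P0) →ₗ[k] C) :=
  fun q => c2 q ∘ₗ aug (k := k) P0

/-- Pull-back of a 1-cochain of `Hom(P₁, C)` to the induced resolution. -/
def pull1 (c1 : G → (P1 →ₗ[k] C)) : G → (↥(indP1 R) →ₗ[k] C) :=
  fun g => c1 g ∘ₗ proj1 R

lemma dTwo_pull2 (c2 : G × G → (P0 →ₗ[k] C)) :
    dTwo ((ind R).datum ρC).ρY0 (pull2 c2) =
      fun t => dTwo (R.datum ρC).ρY0 c2 t ∘ₗ aug (k := k) P0 :=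
  dTwo_precomp R.ρ0 (ind R).ρ0 ρC (aug (k := k) P0) (aug_comm R) c2

lemma dOne_pull1 (c1 : G → (P1 →ₗ[k] C)) :
    dOne ((ind R).datum ρC).ρY1 (pull1 R c1) =
      fun q => dOne (R.datum ρC).ρY1 c1 q ∘ₗ proj1 R :=
  TwoZeroFin2.dOne_precomp R.ρ1 (ind R).ρ1 ρC (proj1 R) (proj1_comm R) c1

/-- Compatibility of the `(2,0)` pairings with the pull-back. -/
lemma pair20Fun_pull (c2 : G × G → (P0 →ₗ[k] C)) (c1 : G → (P1 →ₗ[k] C)) (mt' : G → P0)
    (z'' : G → ↥(indP1 R)) :
    pair20Fun ((ind R).datum ρC) (pull2 c2) (pull1 R c1) mt' z'' =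
      pair20Fun (R.datum ρC) c2 c1 (aug (k := k) P0 mt') (⇑(proj1 R) ∘ z'') := by
  funext ⟨g, h⟩
  simp only [pair20Fun_apply, Res.datum_ev0, Res.datum_ev1, Res.datum_ρF0, Res.datum_ρF1, pull2,
    pull1, LinearMap.comp_apply, Function.comp_apply]
  rw [aug_comm, proj1_comm]

theorem exists_pull2 {c2' : G × G → ((G → P0) →ₗ[k] C)} {c1' : G → (↥(indP1 R) →ₗ[k] C)}
    (h : IsHyper2 ((ind R).datum ρC) c2' c1') :
    ∃ (c2 : G × G → (P0 →ₗ[k] C)) (c1 : G → (P1 →ₗ[k] C)) (b' : G → ((G → P0) →ₗ[k] C)),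
      IsHyper2 (R.datum ρC) c2 c1 ∧
      c2' = pull2 c2 + hbdryC2 ((ind R).datum ρC) b' ∧
      c1' = pull1 R c1 + hbdryC1 ((ind R).datum ρC) b' 0 := by
  set D' := (ind R).datum ρC with hD'
  set b' : G → ((G → P0) →ₗ[k] C) := fun g => c1' g ∘ₗ kerEmb R with hb'
  set c2'' : G × G → ((G → P0) →ₗ[k] C) := c2' - hbdryC2 D' b' with hc2''
  set c1'' : G → (↥(indP1 R) →ₗ[k] C) := c1' - hbdryC1 D' b' 0 with hc1''
  have hcoc : IsHyper2 D' c2'' c1'' := IsHyper2.sub D' h (isHyper2_hbdry D' b' 0)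
  -- (k2) `c₁''` kills `kerEmb`
  have k2 : ∀ g φ, c1'' g (kerEmb R φ) = 0 := by
    intro g φ
    simp only [hc1'', hbdryC1, hb', hD', Pi.sub_apply, Function.comp_apply, LinearMap.sub_apply,
      Res.datum_f, LinearMap.comp_apply, map_zero, sub_zero]
    rw [kerEmb_ι_kerEmb, sub_self]
  have k4 : ∀ g, c1'' g = (c1'' g ∘ₗ lift1 R) ∘ₗ proj1 R := fun g => eq_comp_proj1 R (k2 g)
  have k3 : ∀ g w, proj1 R w = 0 → c1'' g w = 0 := by
    intro g w hw
    rw [k4 g, LinearMap.comp_apply, hw, map_zero]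
  -- (k5) `c₂''` only depends on the augmentation
  have k5 : ∀ q φ, c2'' q φ = c2'' q (sec (k := k) (G := G) P0 (aug (k := k) P0 φ)) := by
    rintro ⟨g, j⟩ φ
    have h1 := LinearMap.congr_fun (congrFun hcoc.2 (g, j)) (kerEmb R φ)
    simp only [hD', Function.comp_apply, Res.datum_f, LinearMap.comp_apply, dOne_apply,
      Res.datum_ρY1, LinearMap.add_apply, LinearMap.sub_apply] at h1
    rw [k2, k2, k3 _ _ (by rw [proj1_comm, proj1_kerEmb, map_zero]), map_zero, sub_zero,
      add_zero, ι_kerEmb, map_sub, sub_eq_zero] at h1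
    exact h1
  set c2 : G × G → (P0 →ₗ[k] C) := fun q => c2'' q ∘ₗ sec (k := k) (G := G) P0 with hc2
  set c1 : G → (P1 →ₗ[k] C) := fun g => c1'' g ∘ₗ lift1 R with hc1
  have hp2 : pull2 c2 = c2'' := by
    funext q
    refine LinearMap.ext fun φ => ?_
    simp only [pull2, hc2, LinearMap.comp_apply]
    exact (k5 q φ).symm
  have hp1 : pull1 R c1 = c1'' := by
    funext g
    exact (k4 g).symm
  refine ⟨c2, c1, b', ⟨?_, ?_⟩, ?_, ?_⟩
  · -- `d² c₂ = 0`
    have h1 := dTwo_pull2 R ρC c2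
    rw [hp2] at h1
    have h2 : dTwo D'.ρY0 c2'' = 0 := hcoc.1
    funext t
    refine LinearMap.ext fun x => ?_
    obtain ⟨φ, rfl⟩ := aug_surjective (k := k) (G := G) x
    have h3 := congrFun h1 t
    rw [h2] at h3
    have h4 := LinearMap.congr_fun h3 φ
    simp only [Pi.zero_apply, LinearMap.zero_apply, LinearMap.comp_apply] at h4
    simpa using h4.symm
  · -- `c₂ ∘ ι = d¹ c₁`
    funext q
    refine LinearMap.ext fun z => ?_
    have h1 := LinearMap.congr_fun (congrFun hcoc.2 q) (lift1 R z)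
    rw [← hp2, ← hp1, dOne_pull1] at h1
    simp only [hD', Function.comp_apply, Res.datum_f, LinearMap.comp_apply, pull2, aug_ι_ind,
      proj1_lift1] at h1
    simpa using h1
  · rw [hp2, hc2'']; abel
  · rw [hp1, hc1'']; abel

/-! ### Transport `ind R ⇝ R` -/

/-- **Right kernel = norms: it suffices to treat the induced resolution.** -/
theorem finTN20r_of_ind (h : FinTN20r ((ind R).datum ρC)) : FinTN20r (R.datum ρC) := by
  intro mt z' hz hpair
  set D' := (ind R).datum ρC with hD'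
  have hz0 : ∀ g, R.ι (z' g) = dZero R.ρ0 mt g := hz
  -- lift `(m̃, z')` to the induced resolution
  set mt' : G → P0 := sec (k := k) (G := G) P0 mt with hmt'
  have haug : aug (k := k) P0 mt' = mt := aug_sec mt
  have hmem : ∀ g, ((dZero (ind R).ρ0 mt' g, z' g) : (G → P0) × P1) ∈ indP1 R := by
    intro g
    rw [mem_indP1]
    show aug (k := k) P0 (dZero (ind R).ρ0 mt' g) = R.ι (z' g)
    rw [dZero_apply, map_sub, aug_comm, haug, hz0 g, dZero_apply]
  set z'' : G → ↥(indP1 R) := fun g => ⟨(dZero (ind R).ρ0 mt' g, z' g), hmem g⟩ with hz''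
  have hlift : IsLift0 D' mt' z'' := fun g => rfl
  have hproj : ⇑(proj1 R) ∘ z'' = z' := rfl
  obtain ⟨a', ha'⟩ := h mt' z'' hlift (fun c2' c1' hcy' => by
    obtain ⟨c2, c1, b', hcy, h2, h1⟩ := exists_pull2 R ρC hcy'
    obtain ⟨u, hu⟩ := hpair c2 c1 hcy
    refine ⟨u + fun a => D'.ev0 (b' a) (D'.ρF0 a mt') + D'.ev1 0 (z'' a), ?_⟩
    rw [h2, h1, pair20Fun_add_left, pair20Fun_pull, haug, hproj, hu,
      pair20Fun_hbdry D' b' 0 hlift, map_add]
    rfl)
  refine ⟨a', ?_⟩
  have h3 : D'.π mt' = (R.datum ρC).π mt := by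
    show R.π (aug (k := k) P0 mt') = R.π mt
    rw [haug]
  rw [← h3, ha']
  rfl

/-- **Hyper Tate–Nakayama `(2,0)`, right kernel = norms**, for an arbitrary resolution of a module
killed by `p` over a finite group, from the raw `(1,1)` right half for `P₁' = indP1 R`. -/
theorem finTN20r_of (hpM : ∀ m : M, (p : k) • m = 0) (h11 : TN11rProp (indρ1 R) ρC p) :
    FinTN20r (R.datum ρC) :=
  finTN20r_of_ind R ρC (finTN20r_ind R ρC p hpM h11)

end Main

end Fermat.Agent.ES.T56.TwoZeroRFin2
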