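/-
Programme T (S56), chapter GW, part C (degree `(2,0)` duality), helper2.

`TwoZeroRRawFG2`: the RIGHT half of FG's Tate–Nakayama duality `TNOneOneFinal1.tn11` (degrees
`(1,1)`) in RAW cochain form, `tn11r_raw : TwoZeroRFin2.TN11rProp ρ ρC p`, for a finite group `G`,
`ρ` a representation on a finite free `ℤ`-module `P` (ANY `Module ℤ P` instance) and `ρC` a
representation with a class `u ∈ H²(G, C)` with `Interface8.IsFundClass p (Rep.of ρC) u`
(twin of helper6's `TwoZeroRawFG6.tn11l_raw`, whose glue lemmas are reused).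
-/
import Mathlib
import Fermat.Agent.ES.T56.TwoZeroRFin2
import Fermat.Agent.ES.T56.TwoZeroRawFG6

set_option autoImplicit false

open CategoryTheory groupCohomology

namespace Fermat.Agent.ES.T56.TwoZeroRRawFG2

open Fermat.Agent.PT.FG.Interface8 Fermat.Agent.PT.FG.TNDual1 Fermat.Agent.PT.FG.ShiftUp1
open Fermat.Agent.PT.PRO.HyperLevel25
open Fermat.Agent.PT.FG Fermat.Agent.ES.T56.TwoZeroRFin2 Fermat.Agent.ES.T56.TwoZeroRawFG6

section Glue

variable {k : Type} [CommRing k] {G : Type} [Group G]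
  {P C : Type} [AddCommGroup P] [Module k P] [AddCommGroup C] [Module k C]
  (ρ : Representation k G P) (ρC : Representation k G C)

/-- Generic in `k`, so that `P →ₗ[k] C` carries `LinearMap.module`. -/
theorem linHom_dOne_of_mem_cocycles₁ (f : cocycles₁ (Hm (Rep.of ρ) (Rep.of ρC))) :
    dOne (Representation.linHom ρ ρC) (f : G → (P →ₗ[k] C)) = 0 :=
  dOne_of_mem_cocycles₁ (Representation.linHom ρ ρC) f

end Glue

variable {G : Type} [Group G]
  {P C : Type} [AddCommGroup P] [Module ℤ P] [AddCommGroup C] [Module ℤ C]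
  (ρ : Representation ℤ G P) (ρC : Representation ℤ G C)

variable [Finite G] (p : ℕ) [Fact p.Prime]

/-- **Raw TN11, right kernel**, in the shape consumed by `TwoZeroRFin2.finTN20r_of`. -/
theorem tn11r_raw (hfree : Module.Free ℤ P) (hfin : Module.Finite ℤ P)
    (u : H2 (Rep.of ρC)) (hu : IsFundClass p (Rep.of ρC) u) : TN11rProp ρ ρC p := by
  intro x hx ⟨j, w', hw'⟩ hpair
  obtain ⟨B, hB, -, hR⟩ := TNOneOneFinal1.tn11 G p (Rep.of ρC) u hu (Rep.of ρ)
    (free_int_congr _ _ hfree) (finite_int_congr _ _ hfin)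
  let η : cocycles₁ (Rep.of ρ) := ⟨x, mem_cocycles₁_of_dOne ρ hx⟩
  have h0 : H1π (Rep.of ρ) η = 0 := by
    refine hR _ ⟨j, ?_⟩ fun ξ => ?_
    · rw [← map_nsmul, H1π_eq_zero_iff]
      refine (mem_coboundaries₁_iff ρ _).2 ⟨w', ?_⟩
      rw [← hw']
      funext g
      have h := @Nat.cast_smul_eq_nsmul ℤ P _ _ ‹Module ℤ P› (p ^ j) (x g)
      rw [Nat.cast_pow] at h
      exact h.symm
    · induction ξ using H1_induction_on with | @h f =>
      obtain ⟨u', hu'⟩ := hpair (f : G → (P →ₗ[ℤ] C))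
        (linHom_dOne_of_mem_cocycles₁ ρ ρC f)
      have hcoc : cup11 (Rep.of ρ) (Rep.of ρC) f η ∈ cocycles₂ (Rep.of ρC) := by
        refine mem_cocycles₂_of_dTwo ρC ?_
        have h1 : cup11 (Rep.of ρ) (Rep.of ρC) f η = dOne ρC u' := hu'
        rw [h1, dTwo_dOne]
      rw [hB f η ⟨_, hcoc⟩ rfl, H2π_eq_zero_iff]
      exact (mem_coboundaries₂_iff ρC _).2 ⟨u', hu'⟩
  rw [H1π_eq_zero_iff] at h0
  exact (mem_coboundaries₁_iff ρ _).1 h0

end Fermat.Agent.ES.T56.TwoZeroRRawFG2
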