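import Mathlib
import Fermat.Agent.PT.LOC.Interface12
import Fermat.Agent.PT.LOC.Structure14
import Fermat.Agent.PT.LOC.StructureNorm14
import Fermat.Agent.PT.LOC.RootsUnity14
import Fermat.Agent.PT.LOC.StructureTower27
import Fermat.Agent.PT.LOC.LocalHerbrand14
import Fermat.Agent.ES.T56.UnitRootLoc4

set_option autoImplicit false
set_option linter.unusedSectionVars false

open scoped Fermat.Agent.PT.LOC.Interface12 Fermat.Agent.PT.LOC.StructureTower27
open Fermat.Agent.PT.LOC.Interface12 Fermat.Agent.PT.LOC.Structure14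
  Fermat.Agent.PT.LOC.StructureNorm14 Fermat.Agent.PT.LOC.StructureTower27
  Fermat.Agent.PT.LOC.RootsUnity14 Polynomial

namespace Fermat.Agent.ES.T56.UnitsModPow5

noncomputable section

variable (q : ℕ) [hq : Fact q.Prime] (E : Type) [Field E] [Algebra ℚ_[q] E]
  [FiniteDimensional ℚ_[q] E]

/-- `|w - 1| < 1` forces `|w| = 1`. -/
theorem snorm_eq_one_of_sub_one_lt {w : E} (h : snorm q E (w - 1) < 1) : snorm q E w = 1 := by
  apply le_antisymm
  · have h1 := snorm_add_le_max q E (w - 1) 1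
    rw [sub_add_cancel, snorm_one] at h1
    exact h1.trans (max_le h.le le_rfl)
  · have h1 := snorm_add_le_max q E w (-(w - 1))
    rw [show w + -(w - 1) = 1 by ring, snorm_one, snorm_neg] at h1
    rcases le_max_iff.1 h1 with h2 | h2
    · exact h2
    · exact absurd h2 (not_le.2 h)

/-- **Hensel**: for a prime `p ≠ q`, an element `≡ 1` modulo the maximal ideal is a `p`-th power. -/
theorem exists_pow_eq_of_snorm_lt_one {p : ℕ} (hpq : ¬ q ∣ p) (hp0 : p ≠ 0) {w : E}
    (hw : snorm q E (w - 1) < 1) : ∃ z : E, z ^ p = w := by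
  have hwm : w ∈ intRing q E := (mem_intRing_iff q E w).2 (snorm_eq_one_of_sub_one_lt q E hw).le
  set u : intRing q E := ⟨w, hwm⟩ with hu
  have hmonic : (X ^ p - C u : (intRing q E)[X]).Monic := monic_X_pow_sub_C u hp0
  have h1 : (X ^ p - C u : (intRing q E)[X]).eval 1 ∈ IsLocalRing.maximalIdeal (intRing q E) := by
    rw [eval_sub, eval_pow, eval_X, eval_C, one_pow, mem_maximalIdeal_iff_snorm]
    show snorm q E (((1 : intRing q E) - u : intRing q E) : E) < 1
    rw [Subalgebra.coe_sub, Subalgebra.coe_one, ← snorm_neg, neg_sub]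
    exact hw
  have hpunit : IsUnit ((p : ℕ) : intRing q E) := by
    by_contra h
    have hmem : ((p : ℕ) : intRing q E) ∈ IsLocalRing.maximalIdeal (intRing q E) :=
      (IsLocalRing.mem_maximalIdeal _).mpr h
    rw [mem_maximalIdeal_iff_snorm] at hmem
    have h2 : (((p : ℕ) : intRing q E) : E) = (p : E) := by simp
    rw [h2, snorm_natCast_eq_one q E hpq] at hmem
    exact lt_irrefl _ hmem
  have h2 : IsUnit (Ideal.Quotient.mk (IsLocalRing.maximalIdeal (intRing q E))
      ((X ^ p - C u : (intRing q E)[X]).derivative.eval 1)) := by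
    rw [derivative_sub, derivative_C, sub_zero, derivative_X_pow, eval_mul, eval_C, eval_pow,
      eval_X, one_pow, mul_one]
    exact hpunit.map _
  obtain ⟨z, hroot, -⟩ := HenselianRing.is_henselian
    (I := IsLocalRing.maximalIdeal (intRing q E)) _ hmonic 1 h1 h2
  rw [IsRoot.def, eval_sub, eval_pow, eval_X, eval_C, sub_eq_zero] at hroot
  refine ⟨(z : E), ?_⟩
  have := congrArg (fun t : intRing q E => (t : E)) hroot
  simpa [hu] using this

/-- For every prime `p` there is a level `n` such that every `w` with `|w - 1| ≤ |π|^n` is a `p`-th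
power in `E`. -/
theorem exists_level_pow {p : ℕ} (hp : p.Prime) {π : E} (hπ : IsUniformizer q E π) :
    ∃ n : ℕ, ∀ w : E, snorm q E (w - 1) ≤ snorm q E π ^ n → ∃ z : E, z ^ p = w := by
  by_cases hqp : q = p
  · subst hqp
    refine ⟨q * UnitLevelLoc4.ramE q E + 1, fun w hw => ?_⟩
    refine UnitRootLoc4.exists_pow_eq_of_snorm_le hπ (n := q * UnitLevelLoc4.ramE q E + 1) ?_ hw
    have h2 := hq.out.two_le
    have he := UnitLevelLoc4.one_le_ramE q E
    generalize UnitLevelLoc4.ramE q E = e at he ⊢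
    obtain ⟨r, hr⟩ : ∃ r, q - 1 = r + 1 := ⟨q - 2, by omega⟩
    rw [hr]
    have hq' : q = r + 2 := by omega
    rw [hq']
    have h3 : (r + 2) * e ≤ (r + 1) * ((r + 2) * e) := Nat.le_mul_of_pos_left _ (by omega)
    rw [Nat.mul_add, Nat.mul_one]
    omega
  · have hpq : ¬ q ∣ p := fun h => hqp ((Nat.prime_dvd_prime_iff_eq hq.out hp).1 h)
    refine ⟨1, fun w hw => exists_pow_eq_of_snorm_lt_one q E hpq hp.ne_zero ?_⟩
    rw [pow_one] at hw
    exact lt_of_le_of_lt hw (snorm_uniformizer_lt_one q E π hπ)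

include q in
/-- **`Eˣ/(Eˣ)^p` is finite** for every `q`-adic field `E` and every prime `p`. -/
theorem finite_units_quot_pow {p : ℕ} (hp : p.Prime) :
    Finite (Eˣ ⧸ (powMonoidHom p : Eˣ →* Eˣ).range) := by
  classical
  obtain ⟨π, hπ⟩ := exists_isUniformizer q E
  obtain ⟨n, hn⟩ := exists_level_pow q E hp hπ
  have hπpos : 0 < snorm q E (π : E) := snorm_pos q E π.ne_zero
  obtain ⟨S, hS⟩ := Fermat.Agent.PT.LOC.LocalHerbrand14.exists_finset_cover q E
    (snorm q E (π : E) ^ n) (pow_pos hπpos n)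
  let f : Fin p × S → Eˣ ⧸ (powMonoidHom p : Eˣ →* Eˣ).range :=
    fun rs => QuotientGroup.mk (π ^ (rs.1 : ℕ) * rs.2.1)
  refine Finite.of_surjective f ?_
  intro x
  obtain ⟨x, rfl⟩ := QuotientGroup.mk_surjective x
  have hp0 : (p : ℤ) ≠ 0 := by exact_mod_cast hp.ne_zero
  have hppos : (0 : ℤ) < p := by exact_mod_cast hp.pos
  set i : ℤ := ord q E x with hi
  obtain ⟨r, hr⟩ : ∃ r : ℕ, (r : ℤ) = i % p := ⟨(i % p).toNat, Int.toNat_of_nonneg (Int.emod_nonneg _ hp0)⟩
  have hrlt : r < p := by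
    have := Int.emod_lt_of_pos i hppos
    rw [← hr] at this
    exact_mod_cast this
  set j : ℤ := i / p with hj
  have hij : i = p * j + r := by rw [hr]; exact (Int.mul_ediv_add_emod i p).symm
  have hu : x * π ^ (-i) ∈ unitGroup q E := mul_zpow_neg_ord_mem_unitGroup q E π hπ x
  obtain ⟨s, hsS, -, hs⟩ := hS _ hu
  obtain ⟨z, hz⟩ := hn _ hs
  have hz0 : z ≠ 0 := by
    rintro rfl
    rw [zero_pow hp.ne_zero] at hz
    exact (Units.ne_zero _) hz.symm
  refine ⟨(⟨r, hrlt⟩, ⟨s, hsS⟩), ?_⟩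
  show (QuotientGroup.mk (π ^ r * s) : Eˣ ⧸ (powMonoidHom p : Eˣ →* Eˣ).range) = QuotientGroup.mk x
  rw [QuotientGroup.eq]
  refine ⟨π ^ j * Units.mk0 z hz0, ?_⟩
  have hzu : (Units.mk0 z hz0) ^ p = x * π ^ (-i) / s := by
    apply Units.ext
    rw [Units.val_pow_eq_pow_val, Units.val_mk0, hz]
  rw [powMonoidHom_apply, mul_pow, hzu, ← zpow_natCast (π ^ j) p, ← zpow_mul, hij, zpow_neg,
    zpow_add, zpow_natCast, mul_comm j (p : ℤ)]
  generalize π ^ ((p : ℤ) * j) = A
  generalize π ^ r = B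
  rw [div_eq_mul_inv, mul_inv_rev, mul_inv_rev]
  calc A * (x * (B⁻¹ * A⁻¹) * s⁻¹) = (A * A⁻¹) * (s⁻¹ * B⁻¹ * x) := by
        simp only [mul_comm, mul_left_comm, mul_assoc]
    _ = s⁻¹ * B⁻¹ * x := by rw [mul_inv_cancel, one_mul]

end

end Fermat.Agent.ES.T56.UnitsModPow5
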